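/-
S36 — InertUnr.lean (helper76), block [BaseL], core.

**The inertia field is unramified.**  Let `A` be a valuation subring of `ℚ̄ = AlgebraicClosure ℚ`
over the prime `q` and let `x ≠ 0` be an algebraic number fixed by the inertia group of `A`
(`ValuationSubring.inertiaSubgroupIn`).  Then `x = q ^ (-k) · (unit of A)` for an integer `k`:
the value group of the inertia field `ℚ̄^{I_A}` is generated by the value of `q`.

Route: `x` lies in a finite Galois `K₂/ℚ`; `P` := the prime of `𝓞 K₂` cut out by `A`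
(`S18.BaseUnr.placeOf`); `E` := the fixed field of the inertia group `I₂` of `P` in `Gal(K₂/ℚ)`.
* `x ∈ E`, because every element of `I₂` lifts to the inertia group of `A`
  (`S14Tr.DecompLift.exists_lift_mem_inertiaSubgroupIn`, on main);
* `e(P/P ∩ E) = #I₂ = e(P/q)`: the order of the inertia group is the ramification index
  (`S18.BaseUnr.ramificationIdx'_eq_card_inertia`, i.e. Mathlib's
  `Ideal.card_inertia_eq_ramificationIdxIn`), applied to `K₂/ℚ` and to `K₂/E`;
* hence the valuation of `E` at `P ∩ E` restricts to the `q`-adic valuation of `ℚ` with index one,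
  and a uniformizer of `ℚ` at `q` (a rational number, so `q^a ·` unit) is a uniformizer of `E`.
-/
import Mathlib
import Fermat.Prelude.Def_FLTPrelim_Ramification
import Fermat.Agent.S18.BaseUnr
import Fermat.Agent.S14.DecompLift

set_option autoImplicit false

noncomputable section

namespace Fermat.Agent.S36.InertUnr

open IsDedekindDomain NumberField Fermat.Agent.S18

/-- The field of algebraic numbers. -/
local notation "Qb" => AlgebraicClosure ℚ

/-! ### Abstract step: equal inertia orders give ramification index one below -/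

section Abs

variable {F E N : Type*} [Field F] [NumberField F] [Field E] [NumberField E] [Field N]
  [NumberField N] [Algebra F E] [Algebra E N] [Algebra F N] [IsScalarTower F E N]

/-- If the inertia groups of `w` in `Gal(N/E)` and in `Gal(N/F)` have the same order, then the
valuation of `E` at the prime below `w` restricts to the valuation of `F` at the prime below `w`
(ramification index one). -/
theorem valuation_algebraMap_eq_of_card [IsGalois F N] [IsGalois E N]
    (v : HeightOneSpectrum (𝓞 F)) (u : HeightOneSpectrum (𝓞 E)) (w : HeightOneSpectrum (𝓞 N))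
    (hwu : w.asIdeal.comap (algebraMap (𝓞 E) (𝓞 N)) = u.asIdeal)
    (hwv : w.asIdeal.comap (algebraMap (𝓞 F) (𝓞 N)) = v.asIdeal)
    (hcard : Nat.card (w.asIdeal.inertia (N ≃ₐ[E] N)) = Nat.card (w.asIdeal.inertia (N ≃ₐ[F] N)))
    (c : F) : u.valuation E (algebraMap F E c) = v.valuation F c := by
  have h1 := BaseUnr.ramificationIdx'_eq_card_inertia v w hwv
  have h2 := BaseUnr.ramificationIdx'_eq_card_inertia u w hwu
  have : w.asIdeal.LiesOver v.asIdeal := ⟨hwv.symm⟩
  have : w.asIdeal.LiesOver u.asIdeal := ⟨hwu.symm⟩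
  have h3 := HeightOneSpectrum.valuation_liesOver N v w c
  have h4 := HeightOneSpectrum.valuation_liesOver N u w (algebraMap F E c)
  rw [← IsScalarTower.algebraMap_apply] at h4
  rw [h1] at h3
  rw [h2, hcard, ← h3] at h4
  have hne : Nat.card (w.asIdeal.inertia (N ≃ₐ[F] N)) ≠ 0 := Nat.card_pos.ne'
  exact (pow_left_inj₀ zero_le zero_le hne).mp h4

end Abs

/-! ### Rational numbers are powers of `q` up to units of `A` -/

section Rat

variable (A : ValuationSubring Qb) {q : ℕ}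

theorem valuation_natCast_eq_zpow (hq : q.Prime) (hA : (q : Qb) ∈ A.nonunits) {n : ℕ}
    (hn : n ≠ 0) : ∃ a : ℕ, A.valuation (n : Qb) = A.valuation (q : Qb) ^ a := by
  obtain ⟨e, n', hn', rfl⟩ := Nat.exists_eq_pow_mul_and_not_dvd hn q hq.ne_one
  refine ⟨e, ?_⟩
  rw [Nat.cast_mul, Nat.cast_pow, map_mul, map_pow,
    BaseUnr.valuation_natCast_eq_one A hq hA hn', mul_one]

theorem valuation_ratCast_eq_zpow (hq : q.Prime) (hA : (q : Qb) ∈ A.nonunits) {r : ℚ}
    (hr : r ≠ 0) : ∃ a : ℤ, A.valuation ((r : ℚ) : Qb) = A.valuation (q : Qb) ^ a := by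
  have hnum : r.num.natAbs ≠ 0 := Int.natAbs_ne_zero.mpr (Rat.num_ne_zero.mpr hr)
  obtain ⟨a, ha⟩ := valuation_natCast_eq_zpow A hq hA hnum
  obtain ⟨b, hb⟩ := valuation_natCast_eq_zpow A hq hA r.den_ne_zero
  have hnumv : A.valuation ((r.num : ℤ) : Qb) = A.valuation ((r.num.natAbs : ℕ) : Qb) := by
    rcases Int.natAbs_eq r.num with h | h
    · conv_lhs => rw [h]
      simp
    · conv_lhs => rw [h]
      simp
  refine ⟨(a : ℤ) - b, ?_⟩
  have hq0 : A.valuation (q : Qb) ≠ 0 :=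
    (Valuation.ne_zero_iff _).mpr (Nat.cast_ne_zero.mpr hq.ne_zero)
  rw [Rat.cast_def, map_div₀, hnumv, ha, hb, zpow_sub₀ hq0, zpow_natCast, zpow_natCast]

end Rat

/-! ### The inertia field of a finite Galois extension of `ℚ` -/

section Fin

variable {N : Type*} [Field N] [NumberField N]

omit [NumberField N] in
theorem coe_smul_ringOfIntegers {F : Type*} [Field F] [Algebra F N] (τ : N ≃ₐ[F] N) (x : 𝓞 N) :
    ((τ • x : 𝓞 N) : N) = τ (x : N) :=
  algebraMap.coe_smul' τ x N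

/-- The inertia group of `w` in `Gal(N/E)`, `E` the inertia field of `w` in `N/ℚ`, has the same
order as the inertia group of `w` in `Gal(N/ℚ)`. -/
theorem card_inertia_fixedField [IsGalois ℚ N] (w : HeightOneSpectrum (𝓞 N)) :
    Nat.card (w.asIdeal.inertia
        (N ≃ₐ[IntermediateField.fixedField (w.asIdeal.inertia (N ≃ₐ[ℚ] N))] N)) =
      Nat.card (w.asIdeal.inertia (N ≃ₐ[ℚ] N)) := by
  have htop : w.asIdeal.inertia
      (N ≃ₐ[IntermediateField.fixedField (w.asIdeal.inertia (N ≃ₐ[ℚ] N))] N) = ⊤ := by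
    rw [eq_top_iff]
    intro τ _
    have h1 : τ.restrictScalars ℚ ∈
        (IntermediateField.fixedField (w.asIdeal.inertia (N ≃ₐ[ℚ] N))).fixingSubgroup := by
      rw [IntermediateField.mem_fixingSubgroup_iff]
      intro x hx
      exact τ.commutes ⟨x, hx⟩
    rw [IntermediateField.fixingSubgroup_fixedField] at h1
    intro x
    have h2 := h1 x
    have h3 : (τ.restrictScalars ℚ) • x = τ • x := by
      apply RingOfIntegers.ext
      rw [coe_smul_ringOfIntegers, coe_smul_ringOfIntegers]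
      rfl
    rw [h3] at h2
    exact h2
  rw [htop, Subgroup.card_top, IsGalois.card_aut_eq_finrank,
    IntermediateField.finrank_fixedField_eq_card]

end Fin

/-! ### The inertia field of `A` is unramified -/

section Main

attribute [local instance] Fermat.Agent.S13.InertiaLift.isAlgClosure_rat

variable (A : ValuationSubring Qb) {q : ℕ}

/-- Finite-level form: `x` in a finite Galois `K₂/ℚ`, fixed by the inertia group of `A`. -/
theorem exists_zpow_mul_mem_of_mem (hq : q.Prime) (hA : (q : Qb) ∈ A.nonunits)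
    (K₂ : IntermediateField ℚ Qb) [FiniteDimensional ℚ K₂] [IsGalois ℚ K₂]
    (x : Qb) (hxK : x ∈ K₂) (hx : x ≠ 0) (hfix : ∀ σ ∈ A.inertiaSubgroupIn ℚ, σ x = x) :
    ∃ k : ℤ, x * (q : Qb) ^ k ∈ A ∧ (x * (q : Qb) ^ k)⁻¹ ∈ A := by
  have : NumberField ↥K₂ := ⟨⟩
  set w := BaseUnr.placeOf A (algebraMap ↥K₂ Qb) hq.ne_zero hA with hw
  -- `x` lies in the inertia field `E` of `w`
  have hxE : (⟨x, hxK⟩ : K₂) ∈
      IntermediateField.fixedField (w.asIdeal.inertia (↥K₂ ≃ₐ[ℚ] ↥K₂)) := by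
    rw [IntermediateField.mem_fixedField_iff]
    intro τ hτ
    have hτ' : ∀ y : K₂, IsIntegral ℤ (y : Qb) →
        ((τ y : K₂) : Qb) - (y : Qb) ∈ A.nonunits := by
      intro y hy
      have hyK : IsIntegral ℤ y :=
        (isIntegral_algebraMap_iff (algebraMap ↥K₂ Qb).injective).mp hy
      obtain ⟨y', hy'⟩ : ∃ y' : 𝓞 ↥K₂, algebraMap (𝓞 ↥K₂) ↥K₂ y' = y := ⟨⟨y, hyK⟩, rfl⟩
      have h1 : τ • y' - y' ∈ w.asIdeal := hτ y'
      have h2 : algebraMap ↥K₂ Qb (algebraMap (𝓞 ↥K₂) ↥K₂ (τ • y' - y')) ∈ A.nonunits :=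
        (BaseUnr.mem_placeOf_iff A (algebraMap ↥K₂ Qb) hq.ne_zero hA _).mp h1
      have h3 : algebraMap (𝓞 ↥K₂) ↥K₂ (τ • y' - y') = τ y - y := by
        have h4 : algebraMap (𝓞 ↥K₂) ↥K₂ (τ • y') = τ • algebraMap (𝓞 ↥K₂) ↥K₂ y' :=
          algebraMap.coe_smul' τ y' ↥K₂
        rw [map_sub, h4, hy']
        rfl
      rw [h3, map_sub] at h2
      exact h2
    obtain ⟨σ, hσ, hσK⟩ :=
      Fermat.Agent.S14Tr.DecompLift.exists_lift_mem_inertiaSubgroupIn A K₂ τ hτ'
    apply Subtype.ext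
    rw [← hσK ⟨x, hxK⟩]
    exact hfix σ hσ
  set E := IntermediateField.fixedField (w.asIdeal.inertia (↥K₂ ≃ₐ[ℚ] ↥K₂)) with hE
  have hnfE : NumberField ↥E := inferInstance
  -- the places of `E` and of `ℚ` below `w`
  set u := BaseUnr.placeOf A ((algebraMap ↥K₂ Qb).comp (algebraMap ↥E ↥K₂)) hq.ne_zero hA with hu
  set v := BaseUnr.placeOf A (algebraMap ℚ Qb) hq.ne_zero hA with hv
  have hwu : w.asIdeal.comap (algebraMap (𝓞 ↥E) (𝓞 ↥K₂)) = u.asIdeal := by
    ext y
    rw [Ideal.mem_comap, hw, hu, BaseUnr.mem_placeOf_iff, BaseUnr.mem_placeOf_iff]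
    rfl
  have hwv : w.asIdeal.comap (algebraMap (𝓞 ℚ) (𝓞 ↥K₂)) = v.asIdeal := by
    ext y
    rw [Ideal.mem_comap, hw, hv, BaseUnr.mem_placeOf_iff, BaseUnr.mem_placeOf_iff]
    have h5 : algebraMap ↥K₂ Qb ((algebraMap (𝓞 ℚ) (𝓞 ↥K₂) y : 𝓞 ↥K₂) : ↥K₂) =
        algebraMap ℚ Qb (y : ℚ) := by
      rw [IsScalarTower.algebraMap_apply ℚ ↥K₂ Qb]
      rfl
    rw [h5]
  have hval := valuation_algebraMap_eq_of_card v u w hwu hwv (card_inertia_fixedField w)
  -- a rational uniformizer at `q` is a uniformizer of `E`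
  obtain ⟨π, hπ⟩ := v.valuation_exists_uniformizer ℚ
  have hπ0 : π ≠ 0 := by
    rintro rfl
    rw [map_zero] at hπ
    exact WithZero.exp_ne_zero hπ.symm
  obtain ⟨xE, hxEx⟩ : ∃ xE : ↥E, ((algebraMap ↥K₂ Qb).comp (algebraMap ↥E ↥K₂)) xE = x :=
    ⟨⟨⟨x, hxK⟩, hxE⟩, rfl⟩
  have hxE0 : xE ≠ 0 := by
    rintro rfl
    rw [map_zero] at hxEx
    exact hx hxEx.symm
  have hval0 : u.valuation ↥E xE ≠ 0 := (Valuation.ne_zero_iff _).mpr hxE0
  obtain ⟨k, hk⟩ : ∃ k : ℤ, k = WithZero.log (u.valuation ↥E xE) := ⟨_, rfl⟩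
  have hone : u.valuation ↥E (xE * (algebraMap ℚ ↥E π) ^ k) = 1 := by
    rw [map_mul, map_zpow₀, hval, hπ, ← WithZero.exp_zsmul, hk]
    conv_lhs => rw [← WithZero.exp_log hval0]
    rw [← WithZero.exp_add, ← WithZero.exp_zero]
    congr 1
    simp
  rw [hu, BaseUnr.valuation_eq_one_iff'] at hone
  have hcoe : ((algebraMap ↥K₂ Qb).comp (algebraMap ↥E ↥K₂)) (xE * (algebraMap ℚ ↥E π) ^ k) =
      x * ((π : ℚ) : Qb) ^ k := by
    rw [map_mul, map_zpow₀, hxEx, RingHom.comp_apply, ← IsScalarTower.algebraMap_apply ℚ ↥E ↥K₂,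
      ← IsScalarTower.algebraMap_apply ℚ ↥K₂ Qb, eq_ratCast]
  rw [hcoe] at hone
  obtain ⟨a, ha⟩ := valuation_ratCast_eq_zpow A hq hA hπ0
  refine ⟨a * k, ?_⟩
  have hne : x * (q : Qb) ^ (a * k) ≠ 0 :=
    mul_ne_zero hx (zpow_ne_zero _ (Nat.cast_ne_zero.mpr hq.ne_zero))
  rw [← BaseUnr.valuation_eq_one_iff A hne, map_mul, map_zpow₀, zpow_mul, ← ha, ← map_zpow₀,
    ← map_mul]
  exact hone

/-- **The inertia field is unramified.**  A nonzero algebraic number fixed by the inertia group of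
`A` (a valuation subring of `ℚ̄` over `q`) is a power of `q` times a unit of `A`. -/
theorem exists_zpow_mul_mem (hq : q.Prime) (hA : A.LiesOverPrime q)
    (x : Qb) (hx : x ≠ 0) (hfix : ∀ σ ∈ A.inertiaSubgroupIn ℚ, σ x = x) :
    ∃ k : ℤ, x * (q : Qb) ^ k ∈ A ∧ (x * (q : Qb) ^ k)⁻¹ ∈ A := by
  have hnormal : Normal ℚ Qb := IsAlgClosure.normal ℚ Qb
  have hint : IsIntegral ℚ x := (AlgebraicClosure.isAlgebraic ℚ).isIntegral.isIntegral x
  have hfd : FiniteDimensional ℚ (IntermediateField.adjoin ℚ ({x} : Set Qb)) :=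
    IntermediateField.adjoin.finiteDimensional hint
  have hfd2 : FiniteDimensional ℚ
      (IntermediateField.normalClosure ℚ (IntermediateField.adjoin ℚ ({x} : Set Qb)) Qb) :=
    normalClosure.is_finiteDimensional ℚ _ Qb
  have hn2 : Normal ℚ
      (IntermediateField.normalClosure ℚ (IntermediateField.adjoin ℚ ({x} : Set Qb)) Qb) :=
    normalClosure.normal ℚ _ Qb
  have hgal : IsGalois ℚ
      (IntermediateField.normalClosure ℚ (IntermediateField.adjoin ℚ ({x} : Set Qb)) Qb) := ⟨⟩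
  exact exists_zpow_mul_mem_of_mem A hq hA
    (IntermediateField.normalClosure ℚ (IntermediateField.adjoin ℚ ({x} : Set Qb)) Qb) x
    (IntermediateField.le_normalClosure _ (IntermediateField.mem_adjoin_simple_self ℚ x)) hx hfix

/-- Valuation form: the value of an inertia-fixed `x ≠ 0` is an integral power of the value
of `q`. -/
theorem valuation_eq_zpow (hq : q.Prime) (hA : A.LiesOverPrime q)
    (x : Qb) (hx : x ≠ 0) (hfix : ∀ σ ∈ A.inertiaSubgroupIn ℚ, σ x = x) :
    ∃ k : ℤ, A.valuation x = A.valuation (q : Qb) ^ k := by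
  obtain ⟨k, hk1, hk2⟩ := exists_zpow_mul_mem A hq hA x hx hfix
  have hq0 : (q : Qb) ≠ 0 := Nat.cast_ne_zero.mpr hq.ne_zero
  have hne : x * (q : Qb) ^ k ≠ 0 := mul_ne_zero hx (zpow_ne_zero _ hq0)
  have h1 := (BaseUnr.valuation_eq_one_iff A hne).mpr ⟨hk1, hk2⟩
  have hvq : A.valuation (q : Qb) ≠ 0 := (Valuation.ne_zero_iff _).mpr hq0
  refine ⟨-k, ?_⟩
  rw [map_mul, map_zpow₀] at h1
  rw [zpow_neg]
  exact eq_inv_of_mul_eq_one_left h1

end Main

end Fermat.Agent.S36.InertUnr
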