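/-
S36 — BaseL.lean (helper76), block [BaseL]: the UNRAMIFIED base `L = ℚ̄^{I_A}`.

For a valuation subring `A` of `ℚ̄` over the prime `q`, the inertia field
`inertiaField A = IntermediateField.fixedField (A.inertiaSubgroupIn ℚ)` — and, more generally, every
intermediate field `K` with `ℚ(μ_n : q ∤ n) ⊆ K ⊆ ℚ̄^{I_A}` — is a good base for the S18 arithmetic
vocabulary: `S18.Arith.BaseFacts q A K` holds (`O = A ∩ K` is a discrete valuation ring with residue
field that of `A`, prime-to-`q` roots of unity lie in `K`), and **`q` is a uniformizer of `O`**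
(`v(q) = 1`: the base is unramified).

Inputs: `S36.InertUnr.exists_zpow_mul_mem` (the inertia field is unramified),
`S18.Base.isDiscreteValuationRing_OK` / `exists_irreducible_and_forall_associated` (DVR criterion),
`S18.BaseRes.exists_mem_sub_mem_nonunits` (residues are roots of unity),
`S30.CycN.inertia_apply_of_pow_eq_one` (inertia fixes prime-to-`q` roots of unity),
`S13.ValSub.conj_mem_inertiaSubgroupIn` (conjugation of inertia).
-/
import Mathlib
import Fermat.Agent.S13.ValSub
import Fermat.Agent.S18.Base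
import Fermat.Agent.S30.CycN
import Fermat.Agent.S36.InertUnr

set_option autoImplicit false

noncomputable section

namespace Fermat.Agent.S36.BaseL

open Fermat.Agent.S18 Fermat.Agent.S18.Arith

open scoped Pointwise

/-- The inertia field `L = ℚ̄^{I_A}` of a valuation subring `A` of `ℚ̄`. -/
def inertiaField (A : ValuationSubring Qb) : IntermediateField ℚ Qb :=
  IntermediateField.fixedField (A.inertiaSubgroupIn ℚ)

theorem inertiaField_def (A : ValuationSubring Qb) :
    inertiaField A = IntermediateField.fixedField (A.inertiaSubgroupIn ℚ) := rfl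

theorem mem_inertiaField {A : ValuationSubring Qb} {x : Qb} :
    x ∈ inertiaField A ↔ ∀ σ ∈ A.inertiaSubgroupIn ℚ, σ x = x := by
  unfold inertiaField
  rw [IntermediateField.mem_fixedField_iff]

/-- Prime-to-`q` roots of unity lie in the inertia field. -/
theorem rootOfUnity_mem_inertiaField (A : ValuationSubring Qb) {q : ℕ} (hq : q.Prime)
    (hA : A.LiesOverPrime q) {n : ℕ} (hn : ¬ q ∣ n) {ζ : Qb} (hζ : ζ ^ n = 1) :
    ζ ∈ inertiaField A := by
  rw [mem_inertiaField]
  intro σ hσ
  have hn0 : n ≠ 0 := fun h => hn (h ▸ dvd_zero q)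
  exact Fermat.Agent.S30.CycN.inertia_apply_of_pow_eq_one hn0 hq hn A hA σ hσ ζ hζ

/-- The inertia field is stable under the decomposition group of `A`. -/
theorem apply_mem_inertiaField_of_smul_eq {A : ValuationSubring Qb} {g : Qb ≃ₐ[ℚ] Qb}
    (hg : g • A = A) {x : Qb} (hx : x ∈ inertiaField A) : g x ∈ inertiaField A := by
  rw [mem_inertiaField] at hx ⊢
  intro σ hσ
  have hginv : g⁻¹ • A = A := by
    conv_lhs => rw [← hg]
    rw [inv_smul_smul]
  have h1 := Fermat.Agent.S13.ValSub.conj_mem_inertiaSubgroupIn A g⁻¹ σ hσ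
  rw [hginv, inv_inv] at h1
  have h2 := hx _ h1
  have h3 : (g⁻¹ * σ * g) x = g⁻¹ (σ (g x)) := rfl
  rw [h3] at h2
  have h4 := congrArg g h2
  have h5 : g (g⁻¹ (σ (g x))) = σ (g x) := by
    change g (g.symm (σ (g x))) = σ (g x)
    exact g.apply_symm_apply _
  rw [h5] at h4
  exact h4

theorem apply_mem_inertiaField_iff_of_smul_eq {A : ValuationSubring Qb} {g : Qb ≃ₐ[ℚ] Qb}
    (hg : g • A = A) (x : Qb) : g x ∈ inertiaField A ↔ x ∈ inertiaField A := by
  refine ⟨fun h => ?_, apply_mem_inertiaField_of_smul_eq hg⟩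
  have hginv : g⁻¹ • A = A := by
    conv_lhs => rw [← hg]
    rw [inv_smul_smul]
  have h2 := apply_mem_inertiaField_of_smul_eq hginv h
  have h3 : g⁻¹ (g x) = x := by
    change g.symm (g x) = x
    exact g.symm_apply_apply _
  rwa [h3] at h2

/-- Stability under the decomposition subgroup, in the `decompositionSubgroup` vocabulary. -/
theorem apply_mem_inertiaField_iff {A : ValuationSubring Qb} {g : Qb ≃ₐ[ℚ] Qb}
    (hg : g ∈ A.decompositionSubgroup ℚ) (x : Qb) :
    g x ∈ inertiaField A ↔ x ∈ inertiaField A :=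
  apply_mem_inertiaField_iff_of_smul_eq (MulAction.mem_stabilizer_iff.mp hg) x

section Base

variable (A : ValuationSubring Qb) (q : ℕ)

/-- **Unramifiedness**: every nonzero element of a subfield `K` of the inertia field is a power
of `q` times a unit of `A`. -/
theorem exists_zpow_mul_mem (hq : q.Prime) (hA : A.LiesOverPrime q)
    (K : IntermediateField ℚ Qb) (hK : K ≤ inertiaField A) (x : K) (hx : x ≠ 0) :
    ∃ k : ℤ, ((x * (q : K) ^ k : K) : Qb) ∈ A ∧ (((x * (q : K) ^ k : K) : Qb))⁻¹ ∈ A := by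
  have hxQ : (x : Qb) ≠ 0 := fun h => hx (Subtype.ext h)
  obtain ⟨k, hk1, hk2⟩ := InertUnr.exists_zpow_mul_mem A hq hA (x : Qb) hxQ
    (mem_inertiaField.mp (hK x.2))
  have hc : ((x * (q : K) ^ k : K) : Qb) = (x : Qb) * (q : Qb) ^ k := by
    show algebraMap K Qb (x * (q : K) ^ k) = (x : Qb) * (q : Qb) ^ k
    rw [map_mul, map_zpow₀, map_natCast]
    rfl
  refine ⟨k, ?_, ?_⟩
  · rw [hc]; exact hk1
  · rw [hc]; exact hk2

theorem natCast_ne_zero (hq : q.Prime) (K : IntermediateField ℚ Qb) : (q : K) ≠ 0 :=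
  Nat.cast_ne_zero.mpr hq.ne_zero

theorem coe_natCast_mem_nonunits (hA : A.LiesOverPrime q) (K : IntermediateField ℚ Qb) :
    (((q : K) : K) : Qb) ∈ A.nonunits := by
  have h : (((q : K) : K) : Qb) = (q : Qb) := map_natCast (algebraMap K Qb) q
  rw [h]
  exact hA

/-- **`q` is a uniformizer** of `O = A ∩ K` for every subfield `K` of the inertia field, with
the factorisation property. -/
theorem exists_irreducible_q (hq : q.Prime) (hA : A.LiesOverPrime q)
    (K : IntermediateField ℚ Qb) (hK : K ≤ inertiaField A) :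
    ∃ p : OK A K, (p : K) = (q : K) ∧ Irreducible p ∧
      ∀ x : OK A K, x ≠ 0 → ∃ n : ℕ, ∃ u : (OK A K)ˣ, p ^ n * u = x :=
  Base.exists_irreducible_and_forall_associated A K (q : K) (natCast_ne_zero q hq K)
    (coe_natCast_mem_nonunits A q hA K) (exists_zpow_mul_mem A q hq hA K hK)

/-- `q`, as an element of `O = A ∩ K`, is irreducible. -/
theorem irreducible_natCast (hq : q.Prime) (hA : A.LiesOverPrime q)
    (K : IntermediateField ℚ Qb) (hK : K ≤ inertiaField A) :
    Irreducible ((q : ℕ) : OK A K) := by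
  obtain ⟨p, hp, hirr, -⟩ := exists_irreducible_q A q hq hA K hK
  have h : p = ((q : ℕ) : OK A K) := by
    apply Subtype.ext
    rw [hp]
    simp
  rw [← h]
  exact hirr

/-- `O = A ∩ K` is a discrete valuation ring for every subfield `K` of the inertia field. -/
theorem isDiscreteValuationRing_OK (hq : q.Prime) (hA : A.LiesOverPrime q)
    (K : IntermediateField ℚ Qb) (hK : K ≤ inertiaField A) :
    IsDiscreteValuationRing (OK A K) :=
  Base.isDiscreteValuationRing_OK A K (q : K) (natCast_ne_zero q hq K)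
    (coe_natCast_mem_nonunits A q hA K) (exists_zpow_mul_mem A q hq hA K hK)

/-- The maximal ideal of `O = A ∩ K` is generated by `q`. -/
theorem maximalIdeal_OK_eq (hq : q.Prime) (hA : A.LiesOverPrime q)
    (K : IntermediateField ℚ Qb) (hK : K ≤ inertiaField A) :
    IsLocalRing.maximalIdeal (OK A K) = Ideal.span {((q : ℕ) : OK A K)} := by
  have := isDiscreteValuationRing_OK A q hq hA K hK
  exact (irreducible_natCast A q hq hA K hK).maximalIdeal_eq

/-- **[BaseL]** Every intermediate field `ℚ(μ_n : q ∤ n) ⊆ K ⊆ ℚ̄^{I_A}` satisfies the S18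
`BaseFacts`. -/
theorem baseFacts_of_le [Fact q.Prime] (hA : A.LiesOverPrime q)
    (K : IntermediateField ℚ Qb) (hK : K ≤ inertiaField A)
    (hroots : ∀ (n : ℕ) (ζ : Qb), ¬ q ∣ n → ζ ^ n = 1 → ζ ∈ K) : BaseFacts q A K := by
  have hq : q.Prime := Fact.out
  refine ⟨isDiscreteValuationRing_OK A q hq hA K hK, ?_, hroots⟩
  intro a
  obtain ⟨b, hb, hab⟩ := BaseRes.exists_mem_sub_mem_nonunits q A hA K hroots (a : Qb) a.2
  refine ⟨b, hb, ?_⟩
  rw [← sub_eq_zero, ← map_sub, IsLocalRing.residue_eq_zero_iff,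
    ← ValuationSubring.coe_mem_nonunits_iff]
  exact hab

/-- **[BaseL]** The inertia field itself satisfies the S18 `BaseFacts`. -/
theorem baseFacts_inertiaField [Fact q.Prime] (hA : A.LiesOverPrime q) :
    BaseFacts q A (inertiaField A) :=
  baseFacts_of_le A q hA (inertiaField A) le_rfl
    (fun _ _ hn hζ => rootOfUnity_mem_inertiaField A Fact.out hA hn hζ)

/-- `q` is irreducible in `A ∩ ℚ̄^{I_A}`. -/
theorem irreducible_natCast_inertiaField (hq : q.Prime) (hA : A.LiesOverPrime q) :
    Irreducible ((q : ℕ) : OK A (inertiaField A)) :=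
  irreducible_natCast A q hq hA (inertiaField A) le_rfl

/-- **[BaseL], statement form.**  For every finite set `S` of inertia-fixed constants there is a
base field `K ∋ S` (namely `K = ℚ̄^{I_A}`), consisting of inertia-fixed elements, stable under the
decomposition group, with `BaseFacts` and with `q` a uniformizer of `O = A ∩ K`. -/
theorem exists_base [Fact q.Prime] (hA : A.LiesOverPrime q) (S : Finset Qb)
    (hS : ∀ x ∈ S, ∀ σ ∈ A.inertiaSubgroupIn ℚ, σ x = x) :
    ∃ K : IntermediateField ℚ Qb, (↑S ⊆ (K : Set Qb)) ∧ BaseFacts q A K ∧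
      Irreducible ((q : ℕ) : OK A K) ∧
      (∀ x ∈ K, ∀ σ ∈ A.inertiaSubgroupIn ℚ, σ x = x) ∧
      (∀ g ∈ A.decompositionSubgroup ℚ, ∀ x : Qb, g x ∈ K ↔ x ∈ K) :=
  ⟨inertiaField A, fun x hx => mem_inertiaField.mpr (hS x hx), baseFacts_inertiaField A q hA,
    irreducible_natCast_inertiaField A q Fact.out hA, fun _ hx => mem_inertiaField.mp hx,
    fun _ hg x => apply_mem_inertiaField_iff hg x⟩

end Base

end Fermat.Agent.S36.BaseL
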