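/-
S36 — ApproxN.lean (helper43).  Abstract weak approximation, to ANY precision, for a finite family
of valuation subrings of a field with "separating elements" (Mathlib only; no model).

* `Sep V s`            : `s i` is a nonzero nonunit of `V i` and a unit of every other `V j`,
                         and every `V i` has rank one (`arch`);
* `exists_idem`        : elements `e i` with `e i ≡ δ_ij` modulo `s j ^ N` in `V j`;
* `exists_approx`      : for ARBITRARY `y i : E` and ARBITRARY precision `ϖ ≠ 0` there is `H : E`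
                         with `H - y i ∈ ϖ • V i` for all `i`;
* `arch_of_unif`       : the rank-one hypothesis from a uniformizer (the `disc` shape of
                         `S34.LocPlan.ChartHyp`, with any uniformizer).
-/
import Mathlib

set_option autoImplicit false

namespace Fermat.Agent.S36.ApproxN

variable {E : Type*} [Field E]

/-! ### Elementary facts on one valuation subring -/

/-- a nonunit times an element of `V` is a nonunit -/
theorem nonunit_mul_mem (V : ValuationSubring E) {a x : E} (ha : a ∈ V.nonunits) (hx : x ∈ V) :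
    a * x ∈ V.nonunits := by
  rw [V.mem_nonunits_iff] at ha ⊢
  rw [map_mul]
  have hx' : V.valuation x ≤ 1 := (V.valuation_le_one_iff x).2 hx
  calc V.valuation a * V.valuation x ≤ V.valuation a * 1 := by gcongr
    _ = V.valuation a := mul_one _
    _ < 1 := ha

/-- a positive power of a nonunit is a nonunit -/
theorem nonunit_pow (V : ValuationSubring E) {a : E} (ha : a ∈ V.nonunits) {N : ℕ} (hN : N ≠ 0) :
    a ^ N ∈ V.nonunits := by
  obtain ⟨n, rfl⟩ := Nat.exists_eq_succ_of_ne_zero hN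
  rw [pow_succ']
  exact nonunit_mul_mem V ha (pow_mem (ValuationSubring.nonunits_subset ha) n)

/-- the valuation of a unit (membership form) is `1` -/
theorem valuation_eq_one (V : ValuationSubring E) {u : E} (hu0 : u ≠ 0) (hu : u ∈ V)
    (hu' : u⁻¹ ∈ V) : V.valuation u = 1 := by
  have a1 : V.valuation u ≤ 1 := (V.valuation_le_one_iff u).2 hu
  have a2 : V.valuation u⁻¹ ≤ 1 := (V.valuation_le_one_iff _).2 hu'
  rw [map_inv₀] at a2
  have hpos : V.valuation u ≠ 0 := (Valuation.ne_zero_iff _).2 hu0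
  refine le_antisymm a1 ?_
  by_contra hlt
  rw [not_le] at hlt
  have := (one_lt_inv₀ (zero_lt_iff.2 hpos)).2 hlt
  exact absurd a2 (not_le.2 this)

/-- unit plus nonunit is a unit (membership form) -/
theorem unit_add_nonunit (V : ValuationSubring E) {u t : E} (hu0 : u ≠ 0) (hu : u ∈ V)
    (hu' : u⁻¹ ∈ V) (ht : t ∈ V.nonunits) : u + t ≠ 0 ∧ u + t ∈ V ∧ (u + t)⁻¹ ∈ V := by
  have h1 : V.valuation u = 1 := valuation_eq_one V hu0 hu hu'
  have ht' : V.valuation t < 1 := (V.mem_nonunits_iff).1 ht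
  have h2 : V.valuation (u + t) = 1 := by
    rw [Valuation.map_add_eq_of_lt_left _ (by rw [h1]; exact ht'), h1]
  have hne : u + t ≠ 0 := by
    intro h0
    rw [h0, map_zero] at h2
    exact zero_ne_one h2
  refine ⟨hne, (V.valuation_le_one_iff _).1 h2.le, (V.valuation_le_one_iff _).1 ?_⟩
  rw [map_inv₀, h2, inv_one]

/-- **rank one from a uniformizer**: if every nonzero element of `E` is `t ^ k * unit` and `t` is
a nonunit of `V`, then every nonzero nonunit of `V` is topologically nilpotent. -/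
theorem arch_of_unif (V : ValuationSubring E) (t : E)
    (ht : ∀ x : E, x ≠ 0 → ∃ k : ℤ, ∃ u ∈ V, u⁻¹ ∈ V ∧ x = t ^ k * u)
    (ht1 : t ∈ V.nonunits) :
    ∀ a ∈ V.nonunits, a ≠ 0 → ∀ x : E, ∃ N : ℕ, a ^ N * x ∈ V := by
  intro a ha ha0 x
  have htV : t ∈ V := ValuationSubring.nonunits_subset ht1
  obtain ⟨k, u, hu, hu', hau⟩ := ht a ha0
  have hainv : a⁻¹ ∉ V := by
    rcases (V.mem_nonunits_iff_or).1 ha with h | h
    · exact absurd h ha0
    · exact h
  have hu0 : u ≠ 0 := by
    rintro rfl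
    rw [mul_zero] at hau
    exact ha0 hau
  have ht0 : t ≠ 0 := by
    rintro rfl
    rcases eq_or_ne k 0 with hk | hk
    · apply hainv
      rw [hau, hk, zpow_zero, one_mul]
      exact hu'
    · rw [zero_zpow k hk, zero_mul] at hau
      exact ha0 hau
  have hk : 0 < k := by
    by_contra hk
    rw [not_lt] at hk
    apply hainv
    obtain ⟨n, hn⟩ := Int.exists_eq_neg_ofNat hk
    rw [hau, mul_inv, ← zpow_neg, hn, neg_neg, zpow_natCast]
    exact mul_mem (pow_mem htV n) hu'
  rcases eq_or_ne x 0 with rfl | hx0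
  · exact ⟨0, by simp [V.zero_mem]⟩
  obtain ⟨l, u₂, hu₂, -, hxu⟩ := ht x hx0
  refine ⟨l.natAbs, ?_⟩
  have hnn : 0 ≤ k * (l.natAbs : ℤ) + l := by
    have h1 : (l.natAbs : ℤ) ≤ k * (l.natAbs : ℤ) := by
      nlinarith [Int.natCast_nonneg l.natAbs]
    have h2 : -l ≤ (l.natAbs : ℤ) := by
      rw [Int.natCast_natAbs]; exact neg_le_abs l
    linarith
  obtain ⟨n, hn⟩ := Int.eq_ofNat_of_zero_le hnn
  have key : a ^ l.natAbs * x = t ^ n * (u ^ l.natAbs * u₂) := by
    rw [hau, hxu, mul_pow, ← zpow_natCast (t ^ k), ← zpow_mul, ← zpow_natCast t n, ← hn,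
      zpow_add₀ ht0]
    ring
  rw [key]
  exact mul_mem (pow_mem htV n) (mul_mem (pow_mem hu _) hu₂)

/-! ### Separating families -/

variable {ι : Type*}

/-- **Separating family**: `s i` is a nonzero nonunit of `V i` and a unit of every other `V j`;
every `V i` has rank one (every nonzero nonunit is topologically nilpotent). -/
structure Sep (V : ι → ValuationSubring E) (s : ι → E) : Prop where
  nonunit : ∀ i, s i ∈ (V i).nonunits
  ne_zero : ∀ i, s i ≠ 0
  unit : ∀ i j, j ≠ i → s i ∈ V j ∧ (s i)⁻¹ ∈ V j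
  arch : ∀ i, ∀ a ∈ (V i).nonunits, a ≠ 0 → ∀ x : E, ∃ N : ℕ, a ^ N * x ∈ V i

namespace Sep

variable {V : ι → ValuationSubring E} {s : ι → E}

/-- `s i ∈ V j` for all `i`, `j` -/
theorem mem (hS : Sep V s) (i j : ι) : s i ∈ V j := by
  rcases eq_or_ne j i with rfl | h
  · exact ValuationSubring.nonunits_subset (hS.nonunit j)
  · exact (hS.unit i j h).1

/-- monotonicity of the precision: `s j ^ N * x ∈ V j` persists for larger exponents -/
theorem pow_mul_mem_of_le (hS : Sep V s) (j : ι) {x : E} {N N' : ℕ} (h : s j ^ N * x ∈ V j)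
    (hN : N ≤ N') : s j ^ N' * x ∈ V j := by
  obtain ⟨d, rfl⟩ := Nat.exists_eq_add_of_le hN
  rw [pow_add, mul_comm (s j ^ N) (s j ^ d), mul_assoc]
  exact mul_mem (pow_mem (hS.mem j j) d) h

end Sep

variable [Fintype ι] [DecidableEq ι]

/-- the product of the separating elements other than `s k` -/
noncomputable def coProd (s : ι → E) (k : ι) : E := ∏ l ∈ Finset.univ.erase k, s l

variable {V : ι → ValuationSubring E} {s : ι → E}

theorem coProd_ne_zero (hS : Sep V s) (k : ι) : coProd s k ≠ 0 :=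
  Finset.prod_ne_zero_iff.2 fun l _ => hS.ne_zero l

/-- `coProd s j` is a unit of `V j` -/
theorem coProd_unit (hS : Sep V s) (j : ι) : coProd s j ∈ V j ∧ (coProd s j)⁻¹ ∈ V j := by
  constructor
  · exact (V j).toSubring.prod_mem fun l hl => (hS.unit l j (Finset.ne_of_mem_erase hl).symm).1
  · unfold coProd
    rw [← Finset.prod_inv_distrib]
    exact (V j).toSubring.prod_mem fun l hl => (hS.unit l j (Finset.ne_of_mem_erase hl).symm).2

/-- for `k ≠ j`, `coProd s k` is divisible by `s j` in `V j` -/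
theorem coProd_div_mem (hS : Sep V s) {k j : ι} (hkj : k ≠ j) : coProd s k / s j ∈ V j := by
  have hj : j ∈ Finset.univ.erase k := Finset.mem_erase.2 ⟨hkj.symm, Finset.mem_univ j⟩
  have h := Finset.mul_prod_erase (Finset.univ.erase k) s hj
  have h2 : coProd s k / s j = ∏ l ∈ (Finset.univ.erase k).erase j, s l := by
    unfold coProd
    rw [← h, mul_comm, mul_div_assoc, div_self (hS.ne_zero j), mul_one]
  rw [h2]
  exact (V j).toSubring.prod_mem fun l hl =>
    (hS.unit l j (Finset.ne_of_mem_erase hl).symm).1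

/-- **Approximate idempotents**: for `N ≠ 0` there are `e i` with `e i ≡ δ_ij` modulo `s j ^ N`
in `V j`, for all `i`, `j`. -/
theorem exists_idem (hS : Sep V s) {N : ℕ} (hN : N ≠ 0) :
    ∃ e : ι → E, ∀ i j, (e i - (if i = j then 1 else 0)) / s j ^ N ∈ V j := by
  classical
  set A : ι → E := fun k => coProd s k ^ N with hA
  set Sg : E := ∑ k, A k with hSg
  -- the sum of the `A k`, `k ≠ j`, is divisible by `s j ^ N` in `V j`
  have hT : ∀ j, (Sg - A j) / s j ^ N ∈ V j := by
    intro j
    have h1 : Sg - A j = ∑ k ∈ Finset.univ.erase j, A k := by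
      rw [hSg, ← Finset.add_sum_erase Finset.univ A (Finset.mem_univ j), add_sub_cancel_left]
    rw [h1, Finset.sum_div]
    refine (V j).toSubring.sum_mem fun k hk => ?_
    have hkj : k ≠ j := Finset.ne_of_mem_erase hk
    have : A k / s j ^ N = (coProd s k / s j) ^ N := by rw [hA, div_pow]
    rw [this]
    exact pow_mem (coProd_div_mem hS hkj) N
  -- `Sg` is a unit of every `V j`
  have hSgU : ∀ j, Sg ≠ 0 ∧ Sg ∈ V j ∧ Sg⁻¹ ∈ V j := by
    intro j
    have hsN : s j ^ N ≠ 0 := pow_ne_zero N (hS.ne_zero j)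
    have hTn : Sg - A j ∈ (V j).nonunits := by
      have : Sg - A j = s j ^ N * ((Sg - A j) / s j ^ N) := by
        rw [mul_div_cancel₀ _ hsN]
      rw [this]
      exact nonunit_mul_mem (V j) (nonunit_pow (V j) (hS.nonunit j) hN) (hT j)
    have hAj0 : A j ≠ 0 := pow_ne_zero N (coProd_ne_zero hS j)
    have hAj : A j ∈ V j := pow_mem (coProd_unit hS j).1 N
    have hAj' : (A j)⁻¹ ∈ V j := by
      rw [hA, ← inv_pow]; exact pow_mem (coProd_unit hS j).2 N
    have := unit_add_nonunit (V j) hAj0 hAj hAj' hTn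
    rwa [add_sub_cancel] at this
  refine ⟨fun i => A i / Sg, fun i j => ?_⟩
  obtain ⟨hSg0, -, hSginv⟩ := hSgU j
  have hsN : s j ^ N ≠ 0 := pow_ne_zero N (hS.ne_zero j)
  by_cases hij : i = j
  · subst hij
    rw [if_pos rfl]
    have : (A i / Sg - 1) / s i ^ N = -(((Sg - A i) / s i ^ N) * Sg⁻¹) := by
      field_simp
      ring
    rw [this]
    exact neg_mem (mul_mem (hT i) hSginv)
  · rw [if_neg hij, sub_zero]
    have : A i / Sg / s j ^ N = (coProd s i / s j) ^ N * Sg⁻¹ := by
      rw [hA, div_pow]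
      field_simp
    rw [this]
    exact mul_mem (pow_mem (coProd_div_mem hS hij) N) hSginv

/-- **Weak approximation to any precision**: for arbitrary `y i : E` and any `ϖ ≠ 0` there is
`H : E` with `H - y i ∈ ϖ • V i` for all `i`. -/
theorem exists_approx (hS : Sep V s) (ϖ : E) (hϖ : ϖ ≠ 0) (y : ι → E) :
    ∃ H : E, ∀ i, ∃ z ∈ V i, H - y i = ϖ * z := by
  classical
  -- a uniform exponent `N` with `s j ^ N * (y i / ϖ) ∈ V j` for all `i`, `j`
  have hex : ∀ p : ι × ι, ∃ N : ℕ, s p.2 ^ N * (y p.1 / ϖ) ∈ V p.2 := fun p =>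
    hS.arch p.2 (s p.2) (hS.nonunit p.2) (hS.ne_zero p.2) (y p.1 / ϖ)
  choose Nf hNf using hex
  set N : ℕ := (∑ p, Nf p) + 1 with hNdef
  have hN0 : N ≠ 0 := Nat.succ_ne_zero _
  have hNle : ∀ p : ι × ι, Nf p ≤ N := fun p =>
    (Finset.single_le_sum (fun _ _ => Nat.zero_le _) (Finset.mem_univ p)).trans (Nat.le_succ _)
  have hmem : ∀ i j, s j ^ N * (y i / ϖ) ∈ V j := fun i j =>
    hS.pow_mul_mem_of_le j (hNf (i, j)) (hNle (i, j))
  obtain ⟨e, he⟩ := exists_idem hS hN0
  refine ⟨∑ i, e i * y i, fun j => ⟨(∑ i, e i * y i - y j) / ϖ, ?_, by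
    rw [mul_div_cancel₀ _ hϖ]⟩⟩
  have h1 : ∑ i, e i * y i - y j = ∑ i, (e i - (if i = j then 1 else 0)) * y i := by
    simp only [sub_mul, Finset.sum_sub_distrib, ite_mul, one_mul, zero_mul,
      Finset.sum_ite_eq', Finset.mem_univ, if_true]
  rw [h1, Finset.sum_div]
  refine (V j).toSubring.sum_mem fun i _ => ?_
  have hsN : s j ^ N ≠ 0 := pow_ne_zero N (hS.ne_zero j)
  have : (e i - (if i = j then 1 else 0)) * y i / ϖ =
      ((e i - (if i = j then 1 else 0)) / s j ^ N) * (s j ^ N * (y i / ϖ)) := by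
    field_simp
  rw [this]
  exact mul_mem (he i j) (hmem i j)

end Fermat.Agent.S36.ApproxN

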