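/-
S36 — CorrAbs.lean (helper43).  The abstract corrector for a finite family of valuation subrings
with multiplicities (Mathlib + `S36/ApproxN.lean` only; no model).

* `binom_mem`          : `(u + y) ^ m = u ^ m + m u ^ (m-1) y + K y ^ 2` with `K ∈ V`;
* `exists_root`        : Hensel — in a rank-one valuation subring in which `m` is invertible, an
                         element `x ≡ 1` modulo the nonunits is an `m`-th power of a unit modulo
                         ANY precision `ϖ`;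
* `exists_corrector`   : if branchwise `G ≡ y_i ^ (-m)` modulo the nonunits of `V i` (`y_i` a unit
                         of `V i`), there is ONE `H`, a unit of every `V i`, with
                         `G * H ^ m ≡ 1` modulo `ϖ • V i` for all `i`.
-/
import Mathlib
import Fermat.Agent.S36.ApproxN

set_option autoImplicit false

namespace Fermat.Agent.S36.CorrAbs

variable {E : Type*} [Field E]

/-- second-order binomial expansion with the remainder coefficient in `V` -/
theorem binom_mem (V : ValuationSubring E) {u y : E} (hu : u ∈ V) (hy : y ∈ V) (m : ℕ) :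
    ∃ K ∈ V, (u + y) ^ m = u ^ m + (m : E) * u ^ (m - 1) * y + K * y ^ 2 := by
  induction m with
  | zero => exact ⟨0, zero_mem _, by simp⟩
  | succ n ih =>
    obtain ⟨K, hK, h⟩ := ih
    refine ⟨(n : E) * u ^ (n - 1) + K * u + K * y,
      add_mem (add_mem (mul_mem (natCast_mem _ n) (pow_mem hu _)) (mul_mem hK hu))
        (mul_mem hK hy), ?_⟩
    rw [pow_succ, h]
    cases n with
    | zero => simp; ring
    | succ k =>
      simp only [Nat.add_sub_cancel, Nat.cast_add, Nat.cast_one]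
      ring

/-- Hensel iteration: precision `a ^ (k + 1)`, `a = x - 1`. -/
theorem exists_root_aux (V : ValuationSubring E) (m : ℕ) (hm0 : (m : E) ≠ 0)
    (hm : ((m : E))⁻¹ ∈ V) (x a : E) (ha : a ∈ V.nonunits) (ha0 : a ≠ 0) (hx : x - 1 = a)
    (k : ℕ) : ∃ u : E, (u - 1) / a ∈ V ∧ (u ^ m - x) / a ^ (k + 1) ∈ V := by
  induction k with
  | zero =>
    refine ⟨1, by simp [zero_mem], ?_⟩
    have : ((1 : E) ^ m - x) / a ^ (0 + 1) = -1 := by
      rw [one_pow, zero_add, pow_one, ← hx]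
      have hx1 : x - 1 ≠ 0 := by rw [hx]; exact ha0
      field_simp
      ring
    rw [this]
    exact neg_mem (one_mem _)
  | succ k ih =>
    obtain ⟨u, hu1, hz⟩ := ih
    set c : E := (u - 1) / a with hc
    set z : E := (u ^ m - x) / a ^ (k + 1) with hzdef
    have huc : u = 1 + a * c := by
      rw [hc, mul_div_cancel₀ _ ha0]; ring
    obtain ⟨hu0, huV, huinv⟩ : u ≠ 0 ∧ u ∈ V ∧ u⁻¹ ∈ V := by
      rw [huc]
      exact ApproxN.unit_add_nonunit V one_ne_zero (one_mem _) (by rw [inv_one]; exact one_mem _)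
        (ApproxN.nonunit_mul_mem V ha hu1)
    set w : E := z * (m : E)⁻¹ * (u⁻¹) ^ (m - 1) with hw
    have hwV : w ∈ V := mul_mem (mul_mem hz hm) (pow_mem huinv _)
    set d : E := a ^ (k + 1) * w with hd
    have haV : a ∈ V := ValuationSubring.nonunits_subset ha
    have hdV : d ∈ V := mul_mem (pow_mem haV _) hwV
    have hak : a ^ (k + 1) ≠ 0 := pow_ne_zero _ ha0
    have hmd : (m : E) * u ^ (m - 1) * d = u ^ m - x := by
      rw [hd, hw, hzdef, inv_pow]
      have : u ^ (m - 1) ≠ 0 := pow_ne_zero _ hu0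
      field_simp
    obtain ⟨K, hK, hbin⟩ := binom_mem V huV (neg_mem hdV) m
    refine ⟨u + -d, ?_, ?_⟩
    · have : (u + -d - 1) / a = c - a ^ k * w := by
        rw [hc, hd, pow_succ]
        field_simp
        ring
      rw [this]
      exact sub_mem hu1 (mul_mem (pow_mem haV _) hwV)
    · have h1 : (u + -d) ^ m - x = K * d ^ 2 := by
        rw [hbin]
        have : (m : E) * u ^ (m - 1) * -d = -(u ^ m - x) := by rw [mul_neg, hmd]
        rw [this]; ring
      have : ((u + -d) ^ m - x) / a ^ (k + 1 + 1) = K * w ^ 2 * a ^ k := by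
        rw [h1, hd]
        field_simp
        ring
      rw [this]
      exact mul_mem (mul_mem hK (pow_mem hwV _)) (pow_mem haV _)

/-- **Hensel**: in a rank-one valuation subring `V` in which `m` is invertible, every `x` with
`x - 1` a nonunit is the `m`-th power of a unit of `V` modulo `ϖ • V`, for any `ϖ ≠ 0`. -/
theorem exists_root (V : ValuationSubring E)
    (harch : ∀ a ∈ V.nonunits, a ≠ 0 → ∀ x : E, ∃ N : ℕ, a ^ N * x ∈ V)
    (m : ℕ) (hm0 : (m : E) ≠ 0) (hm : ((m : E))⁻¹ ∈ V) (x : E) (hx : x - 1 ∈ V.nonunits)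
    (ϖ : E) (hϖ : ϖ ≠ 0) :
    ∃ u : E, u ≠ 0 ∧ u ∈ V ∧ u⁻¹ ∈ V ∧ ∃ z ∈ V, u ^ m - x = ϖ * z := by
  rcases eq_or_ne (x - 1) 0 with h0 | h0
  · refine ⟨1, one_ne_zero, one_mem _, by rw [inv_one]; exact one_mem _, 0, zero_mem _, ?_⟩
    rw [one_pow, mul_zero]; linear_combination -h0
  · obtain ⟨N, hN⟩ := harch (x - 1) hx h0 ϖ⁻¹
    obtain ⟨u, hu1, hz⟩ := exists_root_aux V m hm0 hm x (x - 1) hx h0 rfl N
    have huc : u = 1 + (x - 1) * ((u - 1) / (x - 1)) := by
      rw [mul_div_cancel₀ _ h0]; ring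
    obtain ⟨hu0, huV, huinv⟩ : u ≠ 0 ∧ u ∈ V ∧ u⁻¹ ∈ V := by
      rw [huc]
      exact ApproxN.unit_add_nonunit V one_ne_zero (one_mem _) (by rw [inv_one]; exact one_mem _)
        (ApproxN.nonunit_mul_mem V hx hu1)
    refine ⟨u, hu0, huV, huinv, (x - 1) ^ N * ϖ⁻¹ * ((x - 1) * ((u ^ m - x) / (x - 1) ^ (N + 1))),
      mul_mem hN (mul_mem (ValuationSubring.nonunits_subset hx) hz), ?_⟩
    have : (x - 1) ^ (N + 1) ≠ 0 := pow_ne_zero _ h0
    rw [pow_succ] at this ⊢
    field_simp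

variable {ι : Type*} [Fintype ι] [DecidableEq ι] {V : ι → ValuationSubring E} {s : ι → E}

/-- `x ^ m - y ^ m ∈ (x - y) • V` for `x y ∈ V`. -/
theorem pow_sub_pow_mem (W : ValuationSubring E) {x y : E} (hx : x ∈ W) (hy : y ∈ W) (m : ℕ) :
    ∃ c ∈ W, x ^ m - y ^ m = (x - y) * c := by
  obtain ⟨c, hc⟩ := sub_dvd_pow_sub_pow (⟨x, hx⟩ : W) ⟨y, hy⟩ m
  refine ⟨(c : E), c.2, ?_⟩
  have := congrArg (fun t : W => (t : E)) hc
  simpa using this

/-- **The abstract corrector.** `V i` a separating family of rank-one valuation subrings, `ϖ` a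
nonzero common nonunit, `m` invertible in every `V i`.  If branchwise `G * y_i ^ m ≡ 1` modulo the
nonunits of `V i` for units `y_i` of `V i`, then there is `H`, a unit of every `V i`, with
`G * H ^ m - 1 ∈ ϖ • V i` for all `i`. -/
theorem exists_corrector (hS : ApproxN.Sep V s) (ϖ : E) (hϖ : ϖ ≠ 0)
    (hϖV : ∀ i, ϖ ∈ (V i).nonunits) (m : ℕ) (hm : ∀ i, (m : E) ≠ 0 ∧ ((m : E))⁻¹ ∈ V i) (G : E)
    (h : ∀ i, ∃ y ∈ V i, y⁻¹ ∈ V i ∧ G * y ^ m - 1 ∈ (V i).nonunits) :
    ∃ H : E, (∀ i, H ∈ V i ∧ H⁻¹ ∈ V i) ∧ ∀ i, ∃ z ∈ V i, G * H ^ m - 1 = ϖ * z := by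
  classical
  choose y hyV hyinv hGy using h
  -- Hensel roots
  have hroot : ∀ i, ∃ u : E, u ≠ 0 ∧ u ∈ V i ∧ u⁻¹ ∈ V i ∧ ∃ z ∈ V i,
      u ^ m - G * y i ^ m = ϖ * z := fun i =>
    exists_root (V i) (hS.arch i) m (hm i).1 (hm i).2 (G * y i ^ m) (hGy i) ϖ hϖ
  choose u hu0 huV huinv z hzV hz using hroot
  obtain ⟨H, hH⟩ := ApproxN.exists_approx hS ϖ hϖ (fun i => y i / u i)
  choose z' hz'V hz' using hH
  have key : ∀ i, (H ∈ V i ∧ H⁻¹ ∈ V i) ∧ ∃ w ∈ V i, G * H ^ m - 1 = ϖ * w := by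
    intro i
    have hm0 : m ≠ 0 := by
      intro h0
      exact (hm i).1 (by rw [h0]; simp)
    have hy0 : y i ≠ 0 := by
      intro h0
      have h1 := hGy i
      rw [h0, zero_pow hm0, mul_zero, zero_sub, (V i).mem_nonunits_iff, Valuation.map_neg,
        map_one] at h1
      exact lt_irrefl _ h1
    have hxV : G * y i ^ m ∈ V i := by
      have : G * y i ^ m = 1 + (G * y i ^ m - 1) := by ring
      rw [this]
      exact add_mem (one_mem _) (ValuationSubring.nonunits_subset (hGy i))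
    have hGV : G ∈ V i := by
      have : G = G * y i ^ m * (y i)⁻¹ ^ m := by
        rw [inv_pow, mul_assoc, mul_inv_cancel₀ (pow_ne_zero m hy0), mul_one]
      rw [this]
      exact mul_mem hxV (pow_mem (hyinv i) m)
    have hy'0 : y i / u i ≠ 0 := div_ne_zero hy0 (hu0 i)
    have hy'V : y i / u i ∈ V i := by
      rw [div_eq_mul_inv]; exact mul_mem (hyV i) (huinv i)
    have hy'inv : (y i / u i)⁻¹ ∈ V i := by
      rw [inv_div, div_eq_mul_inv]; exact mul_mem (huV i) (hyinv i)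
    have hHeq : H = y i / u i + ϖ * z' i := by
      have := hz' i
      rw [← this]; ring
    obtain ⟨-, hHV, hHinv⟩ := ApproxN.unit_add_nonunit (V i) hy'0 hy'V hy'inv
      (ApproxN.nonunit_mul_mem (V i) (hϖV i) (hz'V i))
    rw [← hHeq] at hHV hHinv
    obtain ⟨c, hcV, hc⟩ := pow_sub_pow_mem (V i) hHV hy'V m
    refine ⟨⟨hHV, hHinv⟩, -(z i) * (u i)⁻¹ ^ m + G * (z' i * c),
      add_mem (mul_mem (neg_mem (hzV i)) (pow_mem (huinv i) m))
        (mul_mem hGV (mul_mem (hz'V i) hcV)), ?_⟩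
    have hum : u i ^ m ≠ 0 := pow_ne_zero m (hu0 i)
    have h1 : G * (y i / u i) ^ m - 1 = ϖ * (-(z i) * (u i)⁻¹ ^ m) := by
      have hz1 := hz i
      rw [div_pow, inv_pow]
      field_simp
      linear_combination -hz1
    have h2 : H ^ m - (y i / u i) ^ m = ϖ * (z' i * c) := by
      rw [hc, hz' i]; ring
    calc G * H ^ m - 1 = (G * (y i / u i) ^ m - 1) + G * (H ^ m - (y i / u i) ^ m) := by ring
      _ = ϖ * (-(z i) * (u i)⁻¹ ^ m + G * (z' i * c)) := by rw [h1, h2]; ring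
  exact ⟨H, fun i => (key i).1, fun i => (key i).2⟩

end Fermat.Agent.S36.CorrAbs
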