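/-
S36 — Model3Plan.lean (helper9; package [MODEL3], lead helper128).  INTERFACE between the MODULAR
block and the ABSTRACT block at level `N = M q²`: definitions and `Prop`s only, no proof
obligations.  It is the three-component analogue of `S34/LocPlan.ChartHyp` +
`S34/ModelPlan2.ChartModel / Model2`.

Picture.  `O = A ∩ K` a discrete valuation ring with uniformizer `π` (`K` unramified at `A`, so
`π = q · unit`), `E = F_K(N)`; the special fibre of the normal model has THREE components with
valuation rings `V 0`, `V 1`, `V 2` (`W1`, `W2`, `W3` of the blueprint: `W1` = Gauss valuation of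
the `q`-expansion at `∞`, `W2 = W1 ∘ w_{q²}`, `W3` = Gauss valuation of the expansion at the
middle cusp), with uniformizers `ϖ i` and ramification indices `e = (1, 1, q - 1)`:
`π = ϖ i ^ e i · unit` in `V i`.  A chart `R` (`chart t`, `chart t⁻¹`) has the three vertical
primes `P i = R ∩ ϖ i (V i)`, `V i = R_{P i}`, and `R ∩ π (V 0 ∩ V 1 ∩ V 2) = π R` (normality).

* `ram q`                 : the ramification vector `![1, 1, q - 1]`;
* `ValHyp3 p e ϖ V`       : the three valuation rings alone (discrete, uniformizers, ramification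
                            of `p`, pairwise distinct);
* `ChartHyp3 π ϖ V P`     : one chart against the three valuation rings (`le`, `mem_P`, `loc`,
                            `desc`);
* `ChartModel3 …  R`      : what the modular block supplies about ONE chart: noetherian, normal,
                            `Frac R = F_K`, `ChartHyp3`, every branch through a closed point of
                            the special fibre is regular of dimension one there (`branch`), and
                            SOME vertical prime through it is locally principal (`princ`; this is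
                            the input (B1)).  `branch` + `princ` say that `R_n` is a regular local
                            ring; the abstract block derives that every height-one prime through
                            `n` is principal at `n` (`FactStatement`).
* `Model3 N A K π e ϖ V t`: the two charts `chart t`, `chart t⁻¹` (the valuation rings `V`, the
                            uniformizers `ϖ` and the coordinate `t` are PARAMETERS, so that the
                            norm relations proved for the concrete valuation rings and the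
                            abstract consequences of the model speak about the same objects);
* `Hor3 m f R`            : `m ∣ ord_𝔮 f` at every horizontal height-one prime `𝔮` of the chart
                            (no rationality of `𝔮` is needed at level `q²`: the points are regular);
* `OneMod`, `PowMod`      : `x ≡ 1` modulo `π (V i)` for all `i`; `x` is an `m`-th power modulo
                            `1 + ϖ i (V i)` for all `i` (the output shape of the norm relations).
-/
import Mathlib
import Fermat.Agent.S34.LocPlan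
import Fermat.Agent.S18.ArithPlan

set_option autoImplicit false

open ModularCurve AlgebraicCurve HahnSeries

namespace Fermat.Agent.S36.Model3Plan

open Fermat.Agent.S18.Arith Fermat.Agent.S34

/-- The ramification vector `e = (1, 1, q - 1)` of the three components `W1`, `W2`, `W3`. -/
def ram (q : ℕ) : Fin 3 → ℕ := ![1, 1, q - 1]

section Val

variable {E : Type*} [Field E]

/-- The three component valuation rings alone: `V i` is discrete with uniformizer `ϖ i`, the
element `p` (the image of a uniformizer of the base) is `ϖ i ^ e i · unit`, and the three rings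
are pairwise distinct. -/
structure ValHyp3 (p : E) (e : Fin 3 → ℕ) (ϖ : Fin 3 → E) (V : Fin 3 → ValuationSubring E) :
    Prop where
  /-- `ϖ i ∈ V i` -/
  unif_mem : ∀ i : Fin 3, ϖ i ∈ V i
  /-- `ϖ i` is not a unit of `V i` -/
  unif_not : ∀ i : Fin 3, (ϖ i)⁻¹ ∉ V i
  /-- `V i` is discrete with uniformizer `ϖ i`: every nonzero `x` is `ϖ i ^ k * unit` -/
  disc : ∀ (i : Fin 3) (x : E), x ≠ 0 →
    ∃ k : ℤ, ∃ u ∈ V i, u⁻¹ ∈ V i ∧ x = ϖ i ^ k * u
  /-- `p = ϖ i ^ e i * unit` in `V i` -/
  ram : ∀ i : Fin 3, ∃ u ∈ V i, u⁻¹ ∈ V i ∧ p = ϖ i ^ e i * u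
  /-- `1 ≤ e i` -/
  e_pos : ∀ i : Fin 3, 0 < e i
  /-- the three valuation rings are pairwise distinct (hence independent) -/
  sep : ∀ i j : Fin 3, i ≠ j → ∃ x ∈ V i, x ∉ V j

/-- `x ≡ 1` modulo `p (V i)` for every `i` ("`x ≡ 1` modulo `π V`", `V = V 0 ∩ V 1 ∩ V 2`). -/
def OneMod (p : E) (V : Fin 3 → ValuationSubring E) (x : E) : Prop :=
  ∀ i : Fin 3, ∃ y ∈ V i, x - 1 = p * y

/-- `x` is an `m`-th power modulo `1 + ϖ i (V i)` for every `i`: there are `h i ≠ 0` with
`x * h i ^ m ≡ 1` modulo the maximal ideal of `V i`.  (Equivalently: `m` divides the `V i`-adic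
valuation of `x`, and the reduction of `x / ϖ i ^ (m k)` is an `m`-th power in the residue
field.) -/
def PowMod (ϖ : Fin 3 → E) (V : Fin 3 → ValuationSubring E) (m : ℕ) (x : E) : Prop :=
  ∀ i : Fin 3, ∃ h : E, h ≠ 0 ∧ ∃ y ∈ V i, x * h ^ m - 1 = ϖ i * y

end Val

section Hyp

variable {O : Type*} [CommRing O] {R : Type*} [CommRing R] [Algebra O R]
  {E : Type*} [Field E] [Algebra R E]

/-- Chart hypotheses for three components: `R ⊆ V i`, the vertical primes
`P i = R ∩ ϖ i (V i)`, `V i = R_{P i}`, and `R ∩ π V 0 ∩ π V 1 ∩ π V 2 = π R`. -/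
structure ChartHyp3 (π : O) (ϖ : Fin 3 → E) (V : Fin 3 → ValuationSubring E)
    (P : Fin 3 → Ideal R) : Prop where
  /-- `R ⊆ V i` -/
  le : ∀ (i : Fin 3) (r : R), algebraMap R E r ∈ V i
  /-- `P i = R ∩ ϖ i (V i)` -/
  mem_P : ∀ (i : Fin 3) (r : R), r ∈ P i ↔ ∃ y ∈ V i, algebraMap R E r = ϖ i * y
  /-- `V i = R_{P i}`: every element of `V i` is a fraction with denominator outside `P i` -/
  loc : ∀ (i : Fin 3), ∀ x ∈ V i,
    ∃ a s : R, s ∉ P i ∧ x * algebraMap R E s = algebraMap R E a
  /-- `R ∩ π (V 0 ∩ V 1 ∩ V 2) = π R` (the `V i` are ALL the vertical valuations; normality) -/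
  desc : ∀ r : R,
    (∀ i : Fin 3, ∃ y ∈ V i, algebraMap R E r = algebraMap R E (algebraMap O R π) * y) →
    ∃ r' : R, r = algebraMap O R π * r'

end Hyp

noncomputable section

/-- What the modular block supplies about ONE chart `R` of the level-`N` model (`N = M q²`; in
the application `R = chart t` or `R = chart t⁻¹`). -/
structure ChartModel3 (N : ℕ) [NeZero N] (A : ValuationSubring Qb) (K : IntermediateField ℚ Qb)
    (π : OK A K) (ϖ : Fin 3 → FK N K) (V : Fin 3 → ValuationSubring (FK N K))
    (R : Subalgebra (OK A K) (FK N K)) where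
  /-- `R` is noetherian -/
  noeth : IsNoetherianRing R
  /-- `F_K = Frac R` -/
  frac : IsFractionRing R (FK N K)
  /-- `R` is integrally closed -/
  intcl : IsIntegrallyClosed R
  /-- the three vertical primes `P i = R ∩ ϖ i (V i)` -/
  P : Fin 3 → Ideal R
  /-- `R ⊆ V i`, `P i = R ∩ ϖ i (V i)`, `V i = R_{P i}`, `R ∩ π V = π R` -/
  hyp : ChartHyp3 π ϖ V P
  /-- each branch through a closed point `n` of the special fibre is regular of dimension one
  there: `P i ≠ n` and `n / P i` is locally principal -/
  branch : ∀ n : Ideal R, n.IsMaximal → algebraMap (OK A K) R π ∈ n → ∀ i : Fin 3, P i ≤ n →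
    (∃ x ∈ n, x ∉ P i) ∧
      ∃ u ∈ n, ∀ x ∈ n, ∃ s : R, s ∉ n ∧ ∃ c : R, s * x - c * u ∈ P i
  /-- **(B1)** at every closed point `n` of the special fibre SOME vertical prime through `n` is
  principal locally at `n` (with `branch`: `R_n` is a regular local ring) -/
  princ : ∀ n : Ideal R, n.IsMaximal → algebraMap (OK A K) R π ∈ n →
    ∃ i : Fin 3, P i ≤ n ∧ ∃ g ∈ P i, ∀ y ∈ P i, ∃ s : R, s ∉ n ∧ ∃ c : R, s * y = c * g

/-- **The model at level `N`** (`N = M q²`) over the base `K`: the three component valuation
rings `V` with uniformizers `ϖ` and ramification vector `e` over the uniformizer `π` of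
`O = A ∩ K`, and the two charts `chart t`, `chart t⁻¹`.  `V`, `ϖ`, `t` are parameters. -/
structure Model3 (N : ℕ) [NeZero N] (A : ValuationSubring Qb) (K : IntermediateField ℚ Qb)
    (π : OK A K) (e : Fin 3 → ℕ) (ϖ : Fin 3 → FK N K) (V : Fin 3 → ValuationSubring (FK N K))
    (t : FK N K) where
  /-- `π` is a uniformizer of `O = A ∩ K` -/
  irr : Irreducible π
  /-- the three valuation rings: discrete, uniformizers `ϖ i`, `π = ϖ i ^ e i · unit`, distinct -/
  val : ValHyp3 (algebraMap (OK A K) (FK N K) π) e ϖ V
  t_ne : t ≠ 0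
  /-- `chart t` lies in a finitely generated `O[t]`-submodule of `F_K` -/
  fin0 : ∃ s : Finset (FK N K), (chart N A K t : Set (FK N K)) ⊆
    Submodule.span (Algebra.adjoin (OK A K) {t}) (s : Set (FK N K))
  /-- the chart `t ≠ ∞` -/
  c0 : ChartModel3 N A K π ϖ V (chart N A K t)
  /-- the chart `t ≠ 0` -/
  cInf : ChartModel3 N A K π ϖ V (chart N A K t⁻¹)

/-- **[Hor3]** for a function `f ∈ F_K` and a chart `R`: at every horizontal prime `𝔮` of `R`
with `R_𝔮` a discrete valuation ring, `f` is a unit times an `m`-th power (`m ∣ ord_𝔮 f`).  No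
rationality of `𝔮` over `O` is required. -/
def Hor3 {N : ℕ} {A : ValuationSubring Qb} {K : IntermediateField ℚ Qb} (π : OK A K) (m : ℕ)
    (fK : FK N K) (R : Subalgebra (OK A K) (FK N K)) : Prop :=
  ∀ 𝔮 : Ideal R, 𝔮.IsPrime → algebraMap (OK A K) R π ∉ 𝔮 → LocPlan.PrincAt 𝔮 →
    ∃ x : FK N K, x ≠ 0 ∧ LocPlan.UnitAt 𝔮 (fK * x ^ m)

end

/-! ### Abstract consequences (targets of the abstract block; `Prop`s only) -/

/-- **[Fact3]** (abstract, Mathlib-only; Nakayama, lemma (F1)): in a noetherian domain `R`, if at
a maximal ideal `n` a prime `𝔭 ≤ n` is locally principal and `n / 𝔭` is locally principal and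
nonzero (`R_n / 𝔭` is a discrete valuation ring), then EVERY prime `𝔮 ≤ n` with `PrincAt 𝔮`
(i.e. of height one) is principal locally at `n`. -/
def FactStatement : Prop :=
  ∀ (R : Type) [CommRing R] [IsDomain R] [IsNoetherianRing R] (n 𝔭 𝔮 : Ideal R),
    n.IsMaximal → 𝔭.IsPrime → 𝔮.IsPrime → 𝔭 ≤ n → 𝔮 ≤ n →
    (∃ g ∈ 𝔭, ∀ y ∈ 𝔭, ∃ s : R, s ∉ n ∧ ∃ c : R, s * y = c * g) →
    (∃ x ∈ n, x ∉ 𝔭) →
    (∃ u ∈ n, ∀ x ∈ n, ∃ s : R, s ∉ n ∧ ∃ c : R, s * x - c * u ∈ 𝔭) →
    LocPlan.PrincAt 𝔮 →
    ∃ e ∈ 𝔮, ∀ y ∈ 𝔮, ∃ s : R, s ∉ n ∧ ∃ c : R, s * y = c * e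

/-- **[Approx3]** (abstract, Mathlib-only; weak approximation for three distinct discrete
valuation rings + Hensel in the Artin rings `V i / p`): if `m` is a unit of every `V i` and
`x` is an `m`-th power modulo `1 + ϖ i (V i)` for every `i`, then `x * h ^ m ≡ 1` modulo
`p (V i)` for every `i`, for ONE `h ≠ 0`. -/
def ApproxStatement : Prop :=
  ∀ (E : Type) [Field E] (p : E) (e : Fin 3 → ℕ) (ϖ : Fin 3 → E)
    (V : Fin 3 → ValuationSubring E) (m : ℕ) (x : E),
    ValHyp3 p e ϖ V → (∀ i : Fin 3, ∃ u ∈ V i, ((m : ℕ) : E) * u = 1) →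
    PowMod ϖ V m x → ∃ h : E, h ≠ 0 ∧ OneMod p V (x * h ^ m)

end Fermat.Agent.S36.Model3Plan
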