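/-
S36 — Approx3B.lean (helper122).  The CORRECTED abstract approximation leaf of [MODEL3].

`Model3Plan.ApproxStatement` is false as typed: `ValHyp3.ram` allows the unit `u = 0`, hence `p = 0`,
and for `p = 0` the conclusion `OneMod 0 V (x * h ^ m)` says `x * h ^ m = 1` exactly
(`E = ℚ`, the `2`-, `3`-, `5`-adic valuation subrings, `m = 7`, `x = 31` is a countermodel).
The statement used by the campaign is the same one with the extra hypothesis `p ≠ 0`:

* `approx_of_sep`      : the core, for ANY finite nonempty family of valuation subrings with a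
                         separating family (`ApproxN.Sep`): if `x` is an `m`-th power modulo a
                         nonunit `ϖ i` of `V i` for every `i` (with `m` invertible in every `V i`),
                         then for every nonzero common nonunit `p` there is ONE `h ≠ 0` with
                         `x * h ^ m ≡ 1` modulo `p (V i)` for all `i`;
* `approx_of_valHyp3_of_sep` : the same for `Model3Plan.ValHyp3`, `PowMod`, `OneMod`, given a
                         separating family;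
* `exists_sep`         : a separating family (`ApproxN.Sep`) for ANY `Model3Plan.ValHyp3` (from
                         `sep`, `disc`, `unif_not` alone; no hypothesis on `p`);
* `Approx3Statement`   : the corrected `Prop` (`ApproxStatement` with `p ≠ 0` added);
* `approx3`, `approx3Statement : Approx3Statement` : the corrected statement, PROVED.

Mathlib + `S36/{Model3Plan, ApproxN, CorrAbs}` only.
-/
import Mathlib
import Fermat.Agent.S36.Model3Plan
import Fermat.Agent.S36.ApproxN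
import Fermat.Agent.S36.CorrAbs

set_option autoImplicit false

namespace Fermat.Agent.S36.Approx3B

open Fermat.Agent.S36

variable {E : Type*} [Field E]

/-- **Core.**  `V i` a finite nonempty separating family of rank-one valuation subrings, `m`
invertible in every `V i`.  If for every `i` there is `h i ≠ 0` with `x * h i ^ m ≡ 1` modulo a
nonunit `ϖ i` of `V i`, then for every nonzero common nonunit `p` there is ONE `h ≠ 0` with
`x * h ^ m ≡ 1` modulo `p (V i)` for all `i`. -/
theorem approx_of_sep {ι : Type*} [Fintype ι] [DecidableEq ι] [Nonempty ι]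
    {V : ι → ValuationSubring E} {s : ι → E} (hS : ApproxN.Sep V s)
    (p : E) (hp : p ≠ 0) (hpV : ∀ i, p ∈ (V i).nonunits)
    (ϖ : ι → E) (hϖ : ∀ i, ϖ i ∈ (V i).nonunits)
    (m : ℕ) (hm : ∀ i, (m : E) ≠ 0 ∧ ((m : E))⁻¹ ∈ V i) (x : E)
    (hx : ∀ i, ∃ h : E, h ≠ 0 ∧ ∃ y ∈ V i, x * h ^ m - 1 = ϖ i * y) :
    ∃ h : E, h ≠ 0 ∧ ∀ i, ∃ y ∈ V i, x * h ^ m - 1 = p * y := by
  classical
  choose h hh0 y hyV hxy using hx
  -- Hensel roots of `x * h i ^ m` modulo `p`
  have hroot : ∀ i, ∃ u : E, u ≠ 0 ∧ u ∈ V i ∧ u⁻¹ ∈ V i ∧ ∃ z ∈ V i,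
      u ^ m - x * h i ^ m = p * z := fun i =>
    CorrAbs.exists_root (V i) (hS.arch i) m (hm i).1 (hm i).2 (x * h i ^ m)
      (by rw [hxy i]; exact ApproxN.nonunit_mul_mem (V i) (hϖ i) (hyV i)) p hp
  choose u hu0 huV huinv z hzV hz using hroot
  -- the branchwise solutions `y' i = h i / u i`
  set y' : ι → E := fun i => h i / u i with hy'
  have hy'0 : ∀ i, y' i ≠ 0 := fun i => div_ne_zero (hh0 i) (hu0 i)
  -- a common precision `c`, divisible by `y' i` in `V i` for every `i`
  have hex : ∀ j, ∃ N : ℕ, s j ^ N * (y' j)⁻¹ ∈ V j := fun j =>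
    hS.arch j (s j) (hS.nonunit j) (hS.ne_zero j) (y' j)⁻¹
  choose Nf hNf using hex
  set c : E := ∏ j, s j ^ Nf j with hc
  have hc0 : c ≠ 0 := Finset.prod_ne_zero_iff.2 fun j _ => pow_ne_zero _ (hS.ne_zero j)
  have hcdiv : ∀ i, c / y' i ∈ V i := by
    intro i
    have h1 : c = s i ^ Nf i * ∏ j ∈ Finset.univ.erase i, s j ^ Nf j := by
      rw [hc, Finset.mul_prod_erase Finset.univ (fun j => s j ^ Nf j) (Finset.mem_univ i)]
    have h2 : c / y' i = (s i ^ Nf i * (y' i)⁻¹) * ∏ j ∈ Finset.univ.erase i, s j ^ Nf j := by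
      rw [h1, div_eq_mul_inv]; ring
    rw [h2]
    exact mul_mem (hNf i)
      ((V i).toSubring.prod_mem fun j _ => pow_mem (hS.mem j i) _)
  -- weak approximation with precision `p * c`
  obtain ⟨H, hH⟩ := ApproxN.exists_approx hS (p * c) (mul_ne_zero hp hc0) y'
  choose z' hz'V hz' using hH
  have key : ∀ i, H ≠ 0 ∧ ∃ w ∈ V i, x * H ^ m - 1 = p * w := by
    intro i
    set t : E := c / y' i * z' i with ht
    have htV : t ∈ V i := mul_mem (hcdiv i) (hz'V i)
    have hHeq : H = y' i * (1 + p * t) := by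
      have h1 := hz' i
      have h2 : y' i * (c / y' i) = c := mul_div_cancel₀ _ (hy'0 i)
      calc H = y' i + p * c * z' i := by rw [← h1]; ring
        _ = y' i + p * (y' i * (c / y' i)) * z' i := by rw [h2]
        _ = y' i * (1 + p * t) := by rw [ht]; ring
    obtain ⟨h1ne, h1V, -⟩ := ApproxN.unit_add_nonunit (V i) one_ne_zero (one_mem _)
      (by rw [inv_one]; exact one_mem _) (ApproxN.nonunit_mul_mem (V i) (hpV i) htV)
    obtain ⟨d, hdV, hd⟩ := CorrAbs.pow_sub_pow_mem (V i) h1V (one_mem (V i)) m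
    have hd' : (1 + p * t) ^ m = 1 + p * (t * d) := by
      have : (1 + p * t) ^ m - 1 ^ m = (1 + p * t - 1) * d := hd
      rw [one_pow] at this
      linear_combination this
    have hum : u i ^ m ≠ 0 := pow_ne_zero m (hu0 i)
    have hxy' : x * y' i ^ m = 1 - p * (z i * (u i)⁻¹ ^ m) := by
      have hz1 := hz i
      rw [hy', div_pow, inv_pow]
      field_simp
      linear_combination -hz1
    refine ⟨by rw [hHeq]; exact mul_ne_zero (hy'0 i) h1ne,
      t * d - z i * (u i)⁻¹ ^ m - p * (z i * (u i)⁻¹ ^ m) * (t * d), ?_, ?_⟩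
    · have hpVi : p ∈ V i := ValuationSubring.nonunits_subset (hpV i)
      have ha : z i * (u i)⁻¹ ^ m ∈ V i := mul_mem (hzV i) (pow_mem (huinv i) m)
      have hb : t * d ∈ V i := mul_mem htV hdV
      exact sub_mem (sub_mem hb ha) (mul_mem (mul_mem hpVi ha) hb)
    · calc x * H ^ m - 1 = x * y' i ^ m * (1 + p * t) ^ m - 1 := by rw [hHeq, mul_pow]; ring
        _ = (1 - p * (z i * (u i)⁻¹ ^ m)) * (1 + p * (t * d)) - 1 := by rw [hxy', hd']
        _ = p * (t * d - z i * (u i)⁻¹ ^ m - p * (z i * (u i)⁻¹ ^ m) * (t * d)) := by ring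
  obtain ⟨i₀⟩ := (inferInstance : Nonempty ι)
  exact ⟨H, (key i₀).1, fun i => (key i).2⟩

/-- The hypotheses of `approx_of_sep` extracted from `Model3Plan.ValHyp3` (with `p ≠ 0`). -/
theorem unif_nonunit {p : E} {e : Fin 3 → ℕ} {ϖ : Fin 3 → E} {V : Fin 3 → ValuationSubring E}
    (hV : Model3Plan.ValHyp3 p e ϖ V) (i : Fin 3) : ϖ i ∈ (V i).nonunits :=
  (V i).mem_nonunits_iff_or.2 (Or.inr (hV.unif_not i))

/-- `p` is a nonunit of every `V i` (from `ram`, `e_pos`). -/
theorem p_nonunit {p : E} {e : Fin 3 → ℕ} {ϖ : Fin 3 → E} {V : Fin 3 → ValuationSubring E}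
    (hV : Model3Plan.ValHyp3 p e ϖ V) (i : Fin 3) : p ∈ (V i).nonunits := by
  obtain ⟨u, huV, -, hpu⟩ := hV.ram i
  rw [hpu]
  exact ApproxN.nonunit_mul_mem (V i)
    (ApproxN.nonunit_pow (V i) (unif_nonunit hV i) (hV.e_pos i).ne') huV

/-- **[Approx3], corrected, given a separating family.** -/
theorem approx_of_valHyp3_of_sep {p : E} (hp : p ≠ 0) {e : Fin 3 → ℕ} {ϖ : Fin 3 → E}
    {V : Fin 3 → ValuationSubring E} {s : Fin 3 → E} (hS : ApproxN.Sep V s) (m : ℕ) (x : E)
    (hV : Model3Plan.ValHyp3 p e ϖ V)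
    (hm : ∀ i : Fin 3, ∃ u ∈ V i, ((m : ℕ) : E) * u = 1)
    (hx : Model3Plan.PowMod ϖ V m x) :
    ∃ h : E, h ≠ 0 ∧ Model3Plan.OneMod p V (x * h ^ m) := by
  have hm' : ∀ i : Fin 3, (m : E) ≠ 0 ∧ ((m : E))⁻¹ ∈ V i := by
    intro i
    obtain ⟨u, huV, hu⟩ := hm i
    have hm0 : (m : E) ≠ 0 := by
      intro h0
      rw [h0, zero_mul] at hu
      exact zero_ne_one hu
    refine ⟨hm0, ?_⟩
    have : ((m : E))⁻¹ = u := by
      rw [inv_eq_iff_eq_inv]
      exact eq_inv_of_mul_eq_one_left hu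
    rw [this]
    exact huV
  obtain ⟨h, hh0, hh⟩ := approx_of_sep hS p hp (p_nonunit hV) ϖ (unif_nonunit hV) m hm' x
    (fun i => hx i)
  exact ⟨h, hh0, fun i => hh i⟩

/-- **The corrected `Prop`**: `Model3Plan.ApproxStatement` with the hypothesis `p ≠ 0` added
(`ApproxStatement` itself is false for `p = 0`). -/
def Approx3Statement : Prop :=
  ∀ (E : Type) [Field E] (p : E) (e : Fin 3 → ℕ) (ϖ : Fin 3 → E)
    (V : Fin 3 → ValuationSubring E) (m : ℕ) (x : E), p ≠ 0 →
    Model3Plan.ValHyp3 p e ϖ V → (∀ i : Fin 3, ∃ u ∈ V i, ((m : ℕ) : E) * u = 1) →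
    Model3Plan.PowMod ϖ V m x → ∃ h : E, h ≠ 0 ∧ Model3Plan.OneMod p V (x * h ^ m)

/-! ### A separating family for three pairwise distinct discrete valuation subrings -/

theorem one_lt_valuation_of_not_mem (W : ValuationSubring E) {b : E} (hb : b ∉ W) :
    1 < W.valuation b := by
  rw [← not_le, W.valuation_le_one_iff]; exact hb

/-- two incomparable valuation subrings: an element of valuation `< 1` at `W` and `> 1` at
`W'`. -/
theorem exists_pair (W W' : ValuationSubring E) (h1 : ∃ x ∈ W, x ∉ W') (h2 : ∃ x ∈ W', x ∉ W) :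
    ∃ c : E, W.valuation c < 1 ∧ 1 < W'.valuation c := by
  obtain ⟨a, haV, haN⟩ := h1
  obtain ⟨b, hbV, hbN⟩ := h2
  have ha1 : W.valuation a ≤ 1 := (W.valuation_le_one_iff a).2 haV
  have hb1 : 1 < W.valuation b := one_lt_valuation_of_not_mem W hbN
  have ha2 : 1 < W'.valuation a := one_lt_valuation_of_not_mem W' haN
  have hb2 : W'.valuation b ≤ 1 := (W'.valuation_le_one_iff b).2 hbV
  have hb0 : b ≠ 0 := by
    rintro rfl
    exact hbN (zero_mem _)
  have hb2pos : 0 < W'.valuation b := zero_lt_iff.2 ((Valuation.ne_zero_iff _).2 hb0)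
  refine ⟨a / b, ?_, ?_⟩
  · rw [map_div₀, div_lt_one₀ (lt_trans zero_lt_one hb1)]
    exact lt_of_le_of_lt ha1 hb1
  · rw [map_div₀, one_lt_div₀ hb2pos]
    exact lt_of_le_of_lt hb2 ha2

/-- three pairwise incomparable valuation subrings: an element of valuation `< 1` at `W` and
`> 1` at `W₁` and at `W₂`. -/
theorem exists_triple (W W₁ W₂ : ValuationSubring E)
    (h1 : ∃ x ∈ W, x ∉ W₁) (h1' : ∃ x ∈ W₁, x ∉ W)
    (h2 : ∃ x ∈ W, x ∉ W₂) (h2' : ∃ x ∈ W₂, x ∉ W) :
    ∃ c : E, W.valuation c < 1 ∧ 1 < W₁.valuation c ∧ 1 < W₂.valuation c := by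
  obtain ⟨a, ha, ha1⟩ := exists_pair W W₁ h1 h1'
  obtain ⟨b, hb, hb2⟩ := exists_pair W W₂ h2 h2'
  by_cases haW2 : 1 < W₂.valuation a
  · exact ⟨a, ha, ha1, haW2⟩
  by_cases hbW1 : 1 < W₁.valuation b
  · exact ⟨b, hb, hbW1, hb2⟩
  rw [not_lt] at haW2 hbW1
  refine ⟨a + b, ?_, ?_, ?_⟩
  · exact lt_of_le_of_lt (Valuation.map_add _ _ _) (max_lt ha hb)
  · rw [Valuation.map_add_eq_of_lt_left _ (lt_of_le_of_lt hbW1 ha1)]
    exact ha1
  · rw [Valuation.map_add_eq_of_lt_right _ (lt_of_le_of_lt haW2 hb2)]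
    exact hb2

theorem fin3_others : ∀ i : Fin 3, i ≠ i + 1 ∧ i ≠ i + 2 ∧
    ∀ l : Fin 3, l ≠ i → l = i + 1 ∨ l = i + 2 := by decide

/-- **A separating family for `ValHyp3`** (uses `sep`, `disc`, `unif_not` only; no hypothesis
on `p`): `s i` is a nonzero nonunit of `V i` and a unit of the two other `V j`. -/
theorem exists_sep {p : E} {e : Fin 3 → ℕ} {ϖ : Fin 3 → E} {V : Fin 3 → ValuationSubring E}
    (hV : Model3Plan.ValHyp3 p e ϖ V) : ∃ s : Fin 3 → E, ApproxN.Sep V s := by
  have hc : ∀ i : Fin 3, ∃ c : E, (V i).valuation c < 1 ∧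
      ∀ l : Fin 3, l ≠ i → 1 < (V l).valuation c := by
    intro i
    obtain ⟨h1, h2, h3⟩ := fin3_others i
    obtain ⟨c, hc0, hc1, hc2⟩ := exists_triple (V i) (V (i + 1)) (V (i + 2))
      (hV.sep i (i + 1) h1) (hV.sep (i + 1) i h1.symm)
      (hV.sep i (i + 2) h2) (hV.sep (i + 2) i h2.symm)
    refine ⟨c, hc0, fun l hl => ?_⟩
    rcases h3 l hl with rfl | rfl
    · exact hc1
    · exact hc2
  choose c hc1 hc2 using hc
  have h1c : ∀ i, (V i).valuation (1 + c i) = 1 := fun i =>
    Valuation.map_one_add_of_lt _ (hc1 i)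
  have hc0 : ∀ i, c i ≠ 0 := by
    intro i
    obtain ⟨h1, -, -⟩ := fin3_others i
    have := hc2 i (i + 1) h1.symm
    intro h0
    rw [h0, map_zero] at this
    exact not_lt.2 zero_le_one this
  have h1c0 : ∀ i, 1 + c i ≠ 0 := by
    intro i h0
    have := h1c i
    rw [h0, map_zero] at this
    exact zero_ne_one this
  refine ⟨fun i => c i / (1 + c i), ⟨?_, ?_, ?_, ?_⟩⟩
  · intro i
    rw [(V i).mem_nonunits_iff, map_div₀, h1c i, div_one]
    exact hc1 i
  · intro i
    exact div_ne_zero (hc0 i) (h1c0 i)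
  · intro i j hji
    have hj : 1 < (V j).valuation (c i) := hc2 i j hji
    have h2 : (V j).valuation (1 + c i) = (V j).valuation (c i) := by
      rw [Valuation.map_add_eq_of_lt_right]
      rw [map_one]; exact hj
    have hpos : (V j).valuation (c i) ≠ 0 := (Valuation.ne_zero_iff _).2 (hc0 i)
    have h3 : (V j).valuation (c i / (1 + c i)) = 1 := by
      rw [map_div₀, h2, div_self hpos]
    constructor
    · exact ((V j).valuation_le_one_iff _).1 h3.le
    · refine ((V j).valuation_le_one_iff _).1 ?_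
      rw [map_inv₀, h3, inv_one]
  · intro i
    exact ApproxN.arch_of_unif (V i) (ϖ i) (hV.disc i) (unif_nonunit hV i)

/-! ### The corrected statement, proved -/

/-- **[Approx3], corrected (`p ≠ 0`).**  Weak approximation for three distinct discrete valuation
rings + Hensel: if `m` is a unit of every `V i` and `x` is an `m`-th power modulo
`1 + ϖ i (V i)` for every `i`, then `x * h ^ m ≡ 1` modulo `p (V i)` for every `i`, for ONE
`h ≠ 0`. -/
theorem approx3 {p : E} (hp : p ≠ 0) {e : Fin 3 → ℕ} {ϖ : Fin 3 → E}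
    {V : Fin 3 → ValuationSubring E} (m : ℕ) (x : E)
    (hV : Model3Plan.ValHyp3 p e ϖ V)
    (hm : ∀ i : Fin 3, ∃ u ∈ V i, ((m : ℕ) : E) * u = 1)
    (hx : Model3Plan.PowMod ϖ V m x) :
    ∃ h : E, h ≠ 0 ∧ Model3Plan.OneMod p V (x * h ^ m) := by
  obtain ⟨s, hS⟩ := exists_sep hV
  exact approx_of_valHyp3_of_sep hp hS m x hV hm hx

/-- The corrected `Prop` holds. -/
theorem approx3Statement : Approx3Statement := by
  intro E _ p e ϖ V m x hp hV hm hx
  exact approx3 hp m x hV hm hx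

end Fermat.Agent.S36.Approx3B
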