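/-
S36 — AbsTopN.lean (helper29).  GENERIC top of the abstract block for an ARBITRARY family of
component valuation rings `V i` (any index type, multiplicities allowed: `π` only has to be a
non-unit of every `V i`, NOT a uniformizer).  The S36 twin of `S35/AbsTopWB.lean`
(two reduced components).

* `vInf V`     — the semilocal ring `⨅ i, V i`;
* `HypN π m j R0 Rinf V w` — the chart-side fields of `S34.Cech2Plan.Setting` (verbatim),
  `R0, Rinf ⊆ V i`, `π` a non-unit of every `V i`, `R• ∩ π (⨅ V i) = π R•` (normality of the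
  charts, see `S36/DescN.lean`), `w ≡ 1` modulo `π (V i)` for every `i`, and the local input at
  every closed point `n` of the special fibre of either chart, in the shape of the `loc0` /
  `locInf` fields (componentwise congruences);
* `LocForm`, `loc_of_locForm` — the local input in the shape `∃ a ≡ 1`, `s (w a ^ m - 1) ∈ π R`
  with `s ∉ n` (no adapter statement needed);
* `settingN`   — the complete `Cech2Plan.Setting O E` with `V = vInf V`;
* `exists_rootN` — the Čech-bis conclusion: `w * h ^ m ∈ R0 ∩ Rinf` for some `h ≡ 1` modulo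
  `π (V i)` for every `i` (in particular `h ≠ 0`).
-/
import Mathlib
import Fermat.Agent.S34.Cech2
import Fermat.Agent.S34.AbsTop

set_option autoImplicit false

namespace Fermat.Agent.S36.AbsTopN

open Fermat.Agent.S34

section VInf

variable {E : Type*} [Field E] {ι : Type*}

/-- The semilocal ring of all the components: `⨅ i, V i`. -/
def vInf (V : ι → ValuationSubring E) : Subring E := ⨅ i, (V i).toSubring

theorem mem_vInf (V : ι → ValuationSubring E) (x : E) : x ∈ vInf V ↔ ∀ i, x ∈ V i := by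
  unfold vInf
  rw [Subring.mem_iInf]
  rfl

/-- Uniqueness of the quotient by `ϖ`: a family `z i ∈ V i` with `x = ϖ * z i` gives one
`z ∈ ⨅ i, V i`. -/
theorem exists_vInf [Nonempty ι] (V : ι → ValuationSubring E) {ϖ : E} (hϖ : ϖ ≠ 0) (x : E)
    (h : ∀ i, ∃ z ∈ V i, x = ϖ * z) : ∃ z ∈ vInf V, x = ϖ * z := by
  obtain ⟨i0⟩ := (inferInstance : Nonempty ι)
  obtain ⟨z0, _, h0⟩ := h i0
  refine ⟨z0, ?_, h0⟩
  rw [mem_vInf]
  intro i
  obtain ⟨zi, hzi, hi⟩ := h i
  have : z0 = zi := mul_left_cancel₀ hϖ (h0.symm.trans hi)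
  rw [this]
  exact hzi

end VInf

section Top

variable {O : Type*} [CommRing O] [IsDomain O] [IsDiscreteValuationRing O]
  {E : Type*} [Field E] [Algebra O E] {ι : Type*}

/-- The local form of `w` at the closed point `n` of the chart `R`: there is `a ≡ 1` modulo
`π (V i)` for every `i` with `w * a ^ m ∈ 1 + π R_n`. -/
def LocForm (R : Subalgebra O E) (π : O) (V : ι → ValuationSubring E) (w : E) (m : ℕ)
    (n : Ideal R) : Prop :=
  ∃ a : E, (∀ i, ∃ v ∈ V i, a - 1 = algebraMap O E π * v) ∧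
    ∃ s : R, s ∉ n ∧ ∃ r : R, (s : E) * (w * a ^ m - 1) = algebraMap O E π * (r : E)

/-- The shape of the `loc0` / `locInf` fields, componentwise. -/
def LocField (R : Subalgebra O E) (π : O) (V : ι → ValuationSubring E) (w : E) (m : ℕ)
    (n : Ideal R) : Prop :=
  ∃ g : E, w * g ^ m ∈ R ∧
    ∃ r : R, r ∉ n ∧ ∀ i, ∃ z ∈ V i, g - (r : E) = algebraMap O E π * z

omit [IsDomain O] [IsDiscreteValuationRing O] in
/-- The local form gives the `loc` field (`g := s * a`, `r := s`). -/
theorem loc_of_locForm (R : Subalgebra O E) {π : O} {V : ι → ValuationSubring E}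
    (hle : ∀ i, ∀ x ∈ R, x ∈ V i) {w : E} {m : ℕ} (hm : 0 < m) (n : Ideal R)
    (h : LocForm R π V w m n) : LocField R π V w m n := by
  obtain ⟨a, ha, s, hs, r, hr⟩ := h
  refine ⟨(s : E) * a, ?_, s, hs, ?_⟩
  · obtain ⟨k, rfl⟩ : ∃ k, m = k + 1 := ⟨m - 1, by omega⟩
    have h1 : w * ((s : E) * a) ^ (k + 1) =
        (s : E) ^ k * ((s : E) + algebraMap O E π * (r : E)) := by
      rw [← hr]
      ring
    rw [h1]
    exact R.mul_mem (R.pow_mem s.2 k) (R.add_mem s.2 (R.mul_mem (R.algebraMap_mem π) r.2))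
  · intro i
    obtain ⟨v, hv, hav⟩ := ha i
    refine ⟨(s : E) * v, (V i).mul_mem _ _ (hle i _ s.2) hv, ?_⟩
    have h2 : (s : E) * a - (s : E) = (s : E) * (a - 1) := by ring
    rw [h2, hav]
    ring

/-- The complete input of the abstract block on two charts `R0`, `Rinf ⊆ E`, for a general
function `w` and a general family of component valuation rings. -/
structure HypN (π : O) (m : ℕ) (j : E) (R0 Rinf : Subalgebra O E)
    (V : ι → ValuationSubring E) (w : E) : Prop where
  inj : Function.Injective (algebraMap O E)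
  irr : Irreducible π
  hm : IsUnit (m : O)
  j_ne : j ≠ 0
  j_mem : j ∈ R0
  jinv_mem : j⁻¹ ∈ Rinf
  /-- `R0 ⊆ Rinf[j]` -/
  glue0 : ∀ x ∈ R0, ∃ n : ℕ, x * j⁻¹ ^ n ∈ Rinf
  /-- `Rinf ⊆ R0[1/j]` -/
  glueInf : ∀ x ∈ Rinf, ∃ n : ℕ, x * j ^ n ∈ R0
  root0 : ∀ x : E, x ^ m ∈ R0 → x ∈ R0
  rootInf : ∀ x : E, x ^ m ∈ Rinf → x ∈ Rinf
  /-- `R0` is contained in a finitely generated `O[j]`-submodule of `E` -/
  fin0 : ∃ s : Finset E, (R0 : Set E) ⊆ Submodule.span (Algebra.adjoin O {j}) (s : Set E)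
  /-- there is at least one component -/
  ne : Nonempty ι
  /-- `R0 ⊆ V i` -/
  le0 : ∀ i, ∀ x ∈ R0, x ∈ V i
  /-- `Rinf ⊆ V i` -/
  leInf : ∀ i, ∀ x ∈ Rinf, x ∈ V i
  /-- `π` is a non-unit of every `V i` -/
  pi_not : ∀ i, (algebraMap O E π)⁻¹ ∉ V i
  /-- `R0 ∩ π (⨅ V i) = π R0` -/
  desc0 : ∀ z : E, (∀ i, z ∈ V i) → algebraMap O E π * z ∈ R0 → z ∈ R0
  /-- `Rinf ∩ π (⨅ V i) = π Rinf` -/
  descInf : ∀ z : E, (∀ i, z ∈ V i) → algebraMap O E π * z ∈ Rinf → z ∈ Rinf
  /-- `w ≡ 1` modulo `π (V i)`, every `i` -/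
  hw : ∀ i, ∃ z ∈ V i, w - 1 = algebraMap O E π * z
  /-- the local input at the closed points of the special fibre of `R0` -/
  loc0 : ∀ n : Ideal R0, n.IsMaximal → algebraMap O R0 π ∈ n → LocField R0 π V w m n
  /-- the local input at the closed points of the special fibre of `Rinf` -/
  locInf : ∀ n : Ideal Rinf, n.IsMaximal → algebraMap O Rinf π ∈ n → LocField Rinf π V w m n

variable {π : O} {m : ℕ} {j : E} {R0 Rinf : Subalgebra O E} {V : ι → ValuationSubring E} {w : E}

theorem HypN.m_pos (H : HypN π m j R0 Rinf V w) : 0 < m := by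
  rcases Nat.eq_zero_or_pos m with h | h
  · exfalso
    have h0 := H.hm
    rw [h, Nat.cast_zero] at h0
    exact not_isUnit_zero h0
  · exact h

omit [IsDomain O] [IsDiscreteValuationRing O] in
theorem HypN.pi_ne_zero (H : HypN π m j R0 Rinf V w) : algebraMap O E π ≠ 0 := by
  intro h
  have h1 := H.irr.ne_zero
  exact h1 (H.inj (by rw [h, map_zero]))

/-- **The Čech-bis setting of the abstract block, for a general `w` and a general family of
component valuation rings.** -/
noncomputable def settingN (H : HypN π m j R0 Rinf V w) : Cech2Plan.Setting O E where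
  π := π
  m := m
  j := j
  w := w
  R0 := R0
  Rinf := Rinf
  V := vInf V
  inj := H.inj
  irr := H.irr
  hm := H.hm
  j_ne := H.j_ne
  j_mem := H.j_mem
  jinv_mem := H.jinv_mem
  glue0 := H.glue0
  glueInf := H.glueInf
  root0 := H.root0
  rootInf := H.rootInf
  fin0 := H.fin0
  R0_le := fun x hx => (mem_vInf V x).2 fun i => H.le0 i x hx
  Rinf_le := fun x hx => (mem_vInf V x).2 fun i => H.leInf i x hx
  rootV := by
    intro x hx
    rw [mem_vInf] at hx ⊢
    intro i
    exact AbsTop.mem_of_pow_mem (V i) H.m_pos x (hx i)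
  one_not := by
    intro z hz h1
    obtain ⟨i⟩ := H.ne
    apply H.pi_not i
    have hz' := (mem_vInf V z).1 hz i
    have h2 : (algebraMap O E π)⁻¹ = z := inv_eq_of_mul_eq_one_right h1.symm
    rw [h2]
    exact hz'
  invV := by
    intro z hz
    rw [mem_vInf] at hz ⊢
    intro i
    exact AbsTop.inv_one_add_mem (V i) _ (H.pi_not i) z (hz i)
  desc0 := fun z hz h => H.desc0 z ((mem_vInf V z).1 hz) h
  descInf := fun z hz h => H.descInf z ((mem_vInf V z).1 hz) h
  hw := by
    have := H.ne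
    exact exists_vInf V H.pi_ne_zero _ H.hw
  loc0 := by
    intro n hn hπn
    have := H.ne
    obtain ⟨g, hg, r, hr, hz⟩ := H.loc0 n hn hπn
    exact ⟨g, hg, r, hr, exists_vInf V H.pi_ne_zero _ hz⟩
  locInf := by
    intro n hn hπn
    have := H.ne
    obtain ⟨g, hg, r, hr, hz⟩ := H.locInf n hn hπn
    exact ⟨g, hg, r, hr, exists_vInf V H.pi_ne_zero _ hz⟩

@[simp] theorem settingN_w (H : HypN π m j R0 Rinf V w) : (settingN H).w = w := rfl
@[simp] theorem settingN_m (H : HypN π m j R0 Rinf V w) : (settingN H).m = m := rfl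
@[simp] theorem settingN_π (H : HypN π m j R0 Rinf V w) : (settingN H).π = π := rfl
@[simp] theorem settingN_j (H : HypN π m j R0 Rinf V w) : (settingN H).j = j := rfl
@[simp] theorem settingN_R0 (H : HypN π m j R0 Rinf V w) : (settingN H).R0 = R0 := rfl
@[simp] theorem settingN_Rinf (H : HypN π m j R0 Rinf V w) : (settingN H).Rinf = Rinf := rfl
@[simp] theorem settingN_V (H : HypN π m j R0 Rinf V w) : (settingN H).V = vInf V := rfl

/-- **The Čech-bis conclusion for a general family of components**: `w * h ^ m` is a global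
section for some `h ≡ 1` modulo `π (V i)` for every `i`. -/
theorem exists_rootN (H : HypN π m j R0 Rinf V w) :
    ∃ h : E, h ≠ 0 ∧ w * h ^ m ∈ R0 ∧ w * h ^ m ∈ Rinf ∧
      ∀ i, ∃ z ∈ V i, h - 1 = algebraMap O E π * z := by
  obtain ⟨h, h0, h1, h2, z, hz, hhz⟩ := Cech2.exists_root (settingN H)
  exact ⟨h, h0, h1, h2, fun i => ⟨z, (mem_vInf V z).1 hz i, hhz⟩⟩

end Top

end Fermat.Agent.S36.AbsTopN
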