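/-
S36 — Plan.lean (helper25, architect).  BINDING interfaces BETWEEN the packages of the S36
campaign (board #3063) and the assembly step [CORE].

Level `N = M * q * q`, `q` prime, `q ∤ M`; lower level `M * q`; `α`, `β` the two degeneracy maps
`F̄_{M q} → F̄_{M q q}` (`heckeAlphaBar`, `heckeBetaBar Qb (M * q) q`); `A` a valuation ring of
`ℚ̄` over `q`, `I = A.inertiaSubgroupIn ℚ`; `m` a torsion order prime to `q`.

Chain (each arrow one hypothesis-form theorem):

    frozen S36 ⇐[TOP36] InertTorsStatement ⇐[FJ36] KummerPowStatement ⇐[AUX] KummerPowStatement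
      at the auxiliary levels (`AuxHyp`) ⇐[CORE] CoreDataStatement ⇐[ASM36] model + corrector +
      toric constants + local forms.

* `InertTorsStatement M q`   — (P1) a constant `c ≠ 0` kills every `I`-invariant `m`-torsion
                               class of `ker α_* ∩ ker β_* ⊆ J₀(M q q)`, all `m` prime to `q`;
* `UnrBase q A K`            — (P2) the unramified base: `BaseFacts`, `q` is a uniformizer of
                               `O = A ∩ K`, the inertia group fixes `K` pointwise;
* `KummerPowStatement M q c` — (P3) a `K`-rational `f` with `m ∣ div f` whose two norms are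
                               constants times `m`-th powers has `f ^ c = a · h ^ m`;
* `AuxHyp q M`               — (P4) the auxiliary level structure (no elliptic points);
* `CoreDataStatement M q e`  — (P5) for such an `f`: a complete input `AbsTopN.HypN` of the
                               Čech block for `G = f ^ e · a · H ^ m`;
* `kummerPow_of_coreData`    — [CORE]: (P5) ⟹ (P3);
* `BranchVal`, `TorAt`       — (P6) vocabulary of the toric block: the branch values at a closed
                               point of a local `m`-th root agree.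
-/
import Mathlib
import Fermat.Prelude.Def_FLTPrelim_Ramification
import Fermat.Agent.S29.KTheta
import Fermat.Agent.S34.UPlan
import Fermat.Agent.S34.LocPlan
import Fermat.Agent.S35.ModelFPlan
import Fermat.Agent.S35.PushPic
import Fermat.Agent.S36.AbsTopN

set_option autoImplicit false

open ModularCurve AlgebraicCurve HahnSeries

namespace Fermat.Agent.S36.Plan

open Fermat.Agent.S18.Arith Fermat.Agent.S34 Fermat.Agent.S35

noncomputable section

/-! ### (P1) the interface TOP ↔ GEOMETRY -/

/-- **(P1)** a constant `c ≠ 0`, depending only on `M` and `q`, kills every class of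
`ker α_* ∩ ker β_* ⊆ J₀(M q q)` of order `m` prime to `q` which is fixed by the inertia group
of a valuation ring `A` of `ℚ̄` over `q`. -/
def InertTorsStatement (M q : ℕ) [NeZero M] [NeZero q] : Prop :=
  ∃ c : ℕ, c ≠ 0 ∧ ∀ m : ℕ, m ≠ 0 → ¬ q ∣ m →
    ∀ A : ValuationSubring Qb, A.LiesOverPrime q →
    ∀ x : JZero (M * q * q), m • x = 0 → x ∈ PushPic.newKer (M * q) q →
      (∀ τ ∈ A.inertiaSubgroupIn ℚ, τ • x = x) → c • x = 0

/-! ### (P2) the unramified base -/

/-- **(P2)** the unramified base: `BaseFacts` (S18), `q` itself is a uniformizer of the discrete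
valuation ring `O = A ∩ K`, and the inertia group of `A` fixes `K` pointwise. -/
def UnrBase (q : ℕ) [Fact q.Prime] (A : ValuationSubring Qb) (K : IntermediateField ℚ Qb) :
    Prop :=
  BaseFacts q A K ∧ (∃ p : OK A K, ((p : K) : Qb) = (q : Qb) ∧ Irreducible p) ∧
    ∀ σ ∈ A.inertiaSubgroupIn ℚ, ∀ x ∈ K, σ x = x

/-! ### (P3), (P4) the function-field core -/

/-- **(P3)** for every `K`-rational `f ≠ 0` of `F̄_{M q q}` (`K` an unramified base) all of whose
orders are divisible by `m` and whose norms along `α` and `β` are constants times `m`-th powers,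
`f ^ c` is a constant times an `m`-th power. -/
def KummerPowStatement (M q c : ℕ) [NeZero M] [NeZero q] [Fact q.Prime] : Prop :=
  ∀ m : ℕ, m ≠ 0 → ¬ q ∣ m → ∀ A : ValuationSubring Qb, A.LiesOverPrime q →
  ∀ K : IntermediateField ℚ Qb, UnrBase q A K →
  ∀ f : modularFunctionFieldBar (M * q * q), f ≠ 0 →
    (f : LaurentSeries Qb) ∈ FK (M * q * q) K →
    (∀ P : Place Qb (modularFunctionFieldBar (M * q * q)), (m : ℤ) ∣ P.ord f) →
    ModelFPlan.NormCond (M * q) q m f →
    ∃ (h : modularFunctionFieldBar (M * q * q)) (a : Qb), h ≠ 0 ∧ a ≠ 0 ∧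
      f ^ c = algebraMap Qb (modularFunctionFieldBar (M * q * q)) a * h ^ m

/-- **(P4)** the auxiliary level structure: `4 ∣ M` for odd `q`, `9 ∣ M` for `q = 2` (no elliptic
points at level `M`). -/
def AuxHyp (q M : ℕ) : Prop := (q ≠ 2 → 4 ∣ M) ∧ (q = 2 → 9 ∣ M)

/-! ### (P5) the input of the Čech block and [CORE] -/

/-- **(P5)** for `f` as in (P3): a discrete valuation ring `O = A ∩ K`, a coordinate `t`, the
three component valuation rings `V`, and `G = f ^ e · a · H ^ m` (`a ≠ 0` a constant, `H ≠ 0`)
with the complete input `AbsTopN.HypN` of the Čech block on the charts `chart t`, `chart t⁻¹`. -/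
def CoreDataStatement (M q e : ℕ) [NeZero M] [NeZero q] [Fact q.Prime] : Prop :=
  ∀ m : ℕ, m ≠ 0 → ¬ q ∣ m → ∀ A : ValuationSubring Qb, A.LiesOverPrime q →
  ∀ K : IntermediateField ℚ Qb, UnrBase q A K →
  ∀ f : modularFunctionFieldBar (M * q * q), f ≠ 0 →
    (f : LaurentSeries Qb) ∈ FK (M * q * q) K →
    (∀ P : Place Qb (modularFunctionFieldBar (M * q * q)), (m : ℤ) ∣ P.ord f) →
    ModelFPlan.NormCond (M * q) q m f →
    ∃ (_ : IsDiscreteValuationRing (OK A K)) (π : OK A K) (t : FK (M * q * q) K)
      (V : Fin 3 → ValuationSubring (FK (M * q * q) K)) (G H : FK (M * q * q) K) (a : Qb),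
      AbsTopN.HypN π m t (chart (M * q * q) A K t) (chart (M * q * q) A K t⁻¹) V G ∧
        a ≠ 0 ∧ H ≠ 0 ∧
        Fermat.Agent.S18.Glob.toBar (M * q * q) K G =
          f ^ e * algebraMap Qb (modularFunctionFieldBar (M * q * q)) a *
            Fermat.Agent.S18.Glob.toBar (M * q * q) K H ^ m

/-- **[CORE]**: (P5) ⟹ (P3).  The Čech block gives `h ≠ 0` with `G · h ^ m` in both charts;
such a function has no zeros and no poles, hence is a constant. -/
theorem kummerPow_of_coreData (M q e : ℕ) [NeZero M] [NeZero q] [Fact q.Prime]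
    (hC : CoreDataStatement M q e) : KummerPowStatement M q e := by
  intro m hm hqm A hA K hK f hf hfK hdvd hnorm
  obtain ⟨hdvr, π, t, V, G, H, a, hH, ha, hH0, hG⟩ := hC m hm hqm A hA K hK f hf hfK hdvd hnorm
  obtain ⟨h, hh0, hh1, hh2, -⟩ := AbsTopN.exists_rootN hH
  -- `G ≠ 0`
  have hG0 : G ≠ 0 := by
    intro h0
    obtain ⟨i⟩ := hH.ne
    obtain ⟨z, hz, hcz⟩ := hH.hw i
    rw [h0, zero_sub] at hcz
    apply hH.pi_not i
    have h1 : algebraMap (OK A K) (FK (M * q * q) K) π * (-z) = 1 := by
      rw [mul_neg, ← hcz, neg_neg]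
    rw [inv_eq_of_mul_eq_one_right h1]
    exact neg_mem hz
  have hne : G * h ^ m ≠ 0 := mul_ne_zero hG0 (pow_ne_zero m hh0)
  have hord : ∀ P : Place Qb (modularFunctionFieldBar (M * q * q)),
      P.ord (Fermat.Agent.S18.Glob.toBar (M * q * q) K (G * h ^ m)) = 0 :=
    fun P => UPlan.ord_eq_zero_of_mem_charts (M * q * q) A K t (G * h ^ m) hh1 hh2 hne P
  obtain ⟨b, hb⟩ := Fermat.Agent.S29.KTheta.mem_range_of_ord_eq_zero
    (Fermat.Agent.S18.Red.isFF1_bar (M * q * q)) _ hord
  set hb' : modularFunctionFieldBar (M * q * q) :=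
    Fermat.Agent.S18.Glob.toBar (M * q * q) K h with hhb'
  set Hb : modularFunctionFieldBar (M * q * q) :=
    Fermat.Agent.S18.Glob.toBar (M * q * q) K H with hHb
  have hhb0 : hb' ≠ 0 := fun h0 =>
    hh0 ((Fermat.Agent.S18.Glob.toBar (M * q * q) K).injective (by rw [← hhb', h0, map_zero]))
  have hHb0 : Hb ≠ 0 := fun h0 =>
    hH0 ((Fermat.Agent.S18.Glob.toBar (M * q * q) K).injective (by rw [← hHb, h0, map_zero]))
  have hb0 : b ≠ 0 := by
    intro h0
    apply hne
    apply (Fermat.Agent.S18.Glob.toBar (M * q * q) K).injective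
    rw [← hb, h0, map_zero, map_zero]
  have ha' : algebraMap Qb (modularFunctionFieldBar (M * q * q)) a ≠ 0 := by
    rw [Ne, map_eq_zero]
    exact ha
  have key : f ^ e * algebraMap Qb (modularFunctionFieldBar (M * q * q)) a * Hb ^ m * hb' ^ m =
      algebraMap Qb (modularFunctionFieldBar (M * q * q)) b := by
    rw [hb, map_mul, map_pow, hG]
  refine ⟨(Hb * hb')⁻¹, b / a, inv_ne_zero (mul_ne_zero hHb0 hhb0), div_ne_zero hb0 ha, ?_⟩
  rw [map_div₀, ← key, inv_pow, mul_pow]
  field_simp

end

end Fermat.Agent.S36.Plan
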