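/-
S36 — CoreAsm3.lean (helper25, architect).  [ASM36], half (E1) of board #3115: the mechanical
assembly of the input `AbsTopN.HypN` of the Čech block from

* a model `Model3Plan.Model3` (the two charts `chart t`, `chart t⁻¹`, the three component
  valuation rings `V`);
* `Model3Plan.OneMod π V G`  (`G ≡ 1` modulo `π (V i)`, every `i`);
* the local form `AbsTopN.LocForm` of `G` at every closed point of the special fibre of both
  charts (output of the chain HorGen → LocGMulti → Toric → SmoothFixN).

* `hypN_of_model3`        — the assembly of `AbsTopN.HypN`;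
* `LocDataStatement`      — the hypothesis-form target of the chain `f ↦ G`;
* `coreData_of_locData`   — `LocDataStatement M q e → Plan.CoreDataStatement M q e`;
* `kummerPow_of_locData`  — `LocDataStatement M q e → Plan.KummerPowStatement M q e`.
-/
import Mathlib
import Fermat.Agent.S18.FinalCore
import Fermat.Agent.S34.ChartJ
import Fermat.Agent.S34.AbsTop
import Fermat.Agent.S36.Plan
import Fermat.Agent.S36.Model3Plan

set_option autoImplicit false

open ModularCurve AlgebraicCurve HahnSeries

namespace Fermat.Agent.S36.CoreAsm3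

open Fermat.Agent.S18.Arith Fermat.Agent.S34 Fermat.Agent.S35 Fermat.Agent.S36.Model3Plan

noncomputable section

section Asm

variable {N : ℕ} [NeZero N] {A : ValuationSubring Qb} {K : IntermediateField ℚ Qb}
  [IsDiscreteValuationRing (OK A K)] {π : OK A K} {e : Fin 3 → ℕ} {ϖ : Fin 3 → FK N K}
  {V : Fin 3 → ValuationSubring (FK N K)} {t : FK N K}

/-- The image of the uniformizer is nonzero. -/
theorem pi_ne_zero (Md : Model3 N A K π e ϖ V t) :
    algebraMap (OK A K) (FK N K) π ≠ 0 := by
  intro h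
  exact Md.irr.ne_zero
    (Fermat.Agent.S18.FinalCore.algebraMap_injective_OK N A K (by rw [h, map_zero]))

/-- `π` is a non-unit of every `V i`. -/
theorem pi_not (Md : Model3 N A K π e ϖ V t) (i : Fin 3) :
    (algebraMap (OK A K) (FK N K) π)⁻¹ ∉ V i := by
  intro h
  obtain ⟨u, hu, hu', hpu⟩ := Md.val.ram i
  have hp0 := pi_ne_zero Md
  have hu0 : u ≠ 0 := by
    rintro rfl
    rw [mul_zero] at hpu
    exact hp0 hpu
  have hϖ0 : ϖ i ≠ 0 := by
    intro h0
    apply Md.val.unif_not i
    rw [h0, inv_zero]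
    exact (V i).zero_mem
  -- `(ϖ i)⁻¹ ^ e i = π⁻¹ * u ∈ V i`
  have h1 : (ϖ i)⁻¹ ^ e i = (algebraMap (OK A K) (FK N K) π)⁻¹ * u := by
    rw [hpu, mul_inv, mul_assoc, inv_mul_cancel₀ hu0, mul_one, inv_pow]
  have h2 : (ϖ i)⁻¹ ^ e i ∈ V i := by
    rw [h1]
    exact (V i).mul_mem _ _ h hu
  exact Md.val.unif_not i (AbsTop.mem_of_pow_mem (V i) (Md.val.e_pos i) _ h2)

/-- `R ∩ π (V 0 ∩ V 1 ∩ V 2) = π R` in the form consumed by `AbsTopN.HypN`. -/
theorem desc_of_chartModel3 (Md : Model3 N A K π e ϖ V t)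
    (R : Subalgebra (OK A K) (FK N K)) (c : ChartModel3 N A K π ϖ V R) (z : FK N K)
    (hz : ∀ i, z ∈ V i) (h : algebraMap (OK A K) (FK N K) π * z ∈ R) : z ∈ R := by
  obtain ⟨r', hr'⟩ := c.hyp.desc ⟨_, h⟩ (fun i => ⟨z, hz i, rfl⟩)
  have h1 : algebraMap (OK A K) (FK N K) π * z =
      algebraMap (OK A K) (FK N K) π * (r' : FK N K) := by
    have := congrArg (Subtype.val : R → FK N K) hr'
    simpa using this
  have h2 : z = (r' : FK N K) := mul_left_cancel₀ (pi_ne_zero Md) h1
  rw [h2]
  exact r'.2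

/-- **[ASM36] (E1)**: the complete input of the Čech block from a model, `G ≡ 1` modulo `π V`
and the local forms of `G` at the closed points of the special fibre of both charts. -/
theorem hypN_of_model3 (Md : Model3 N A K π e ϖ V t) {m : ℕ}
    (hm : IsUnit ((m : ℕ) : OK A K)) {G : FK N K}
    (hG : OneMod (algebraMap (OK A K) (FK N K) π) V G)
    (hloc0 : ∀ n : Ideal (chart N A K t), n.IsMaximal →
      algebraMap (OK A K) (chart N A K t) π ∈ n →
      AbsTopN.LocForm (chart N A K t) π V G m n)
    (hlocInf : ∀ n : Ideal (chart N A K t⁻¹), n.IsMaximal →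
      algebraMap (OK A K) (chart N A K t⁻¹) π ∈ n →
      AbsTopN.LocForm (chart N A K t⁻¹) π V G m n) :
    AbsTopN.HypN π m t (chart N A K t) (chart N A K t⁻¹) V G := by
  have hm0 : m ≠ 0 := by
    rintro rfl
    rw [Nat.cast_zero] at hm
    exact not_isUnit_zero hm
  have hle0 : ∀ i, ∀ x ∈ chart N A K t, x ∈ V i := fun i x hx => Md.c0.hyp.le i ⟨x, hx⟩
  have hleInf : ∀ i, ∀ x ∈ chart N A K t⁻¹, x ∈ V i := fun i x hx => Md.cInf.hyp.le i ⟨x, hx⟩
  exact
    { inj := Fermat.Agent.S18.FinalCore.algebraMap_injective_OK N A K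
      irr := Md.irr
      hm := hm
      j_ne := Md.t_ne
      j_mem := ChartJ.self_mem_chart N A K t
      jinv_mem := ChartJ.self_mem_chart N A K t⁻¹
      glue0 := fun x hx => ChartJ.glue N A K Md.t_ne hx
      glueInf := fun x hx => ChartJ.glue' N A K Md.t_ne hx
      root0 := fun x hx => ChartJ.root_chart N A K hm0 hx
      rootInf := fun x hx => ChartJ.root_chart N A K hm0 hx
      fin0 := Md.fin0
      ne := ⟨0⟩
      le0 := hle0
      leInf := hleInf
      pi_not := pi_not Md
      desc0 := desc_of_chartModel3 Md _ Md.c0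
      descInf := desc_of_chartModel3 Md _ Md.cInf
      hw := hG
      loc0 := fun n hn hπn =>
        AbsTopN.loc_of_locForm _ hle0 (Nat.pos_of_ne_zero hm0) n (hloc0 n hn hπn)
      locInf := fun n hn hπn =>
        AbsTopN.loc_of_locForm _ hleInf (Nat.pos_of_ne_zero hm0) n (hlocInf n hn hπn) }

end Asm

/-- **The target of the chain `f ↦ G`** (NormK → Corr3 → Approx → HorGen → LocGMulti → Toric →
SmoothFixN), in the shape consumed by the assembly: for `f` as in `Plan.KummerPowStatement`,
a model over the given unramified base, `G = f ^ e · a · H ^ m` with `G ≡ 1` modulo `π V`, and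
the local form of `G` at every closed point of the special fibre of both charts. -/
def LocDataStatement (M q e : ℕ) [NeZero M] [NeZero q] [Fact q.Prime] : Prop :=
  ∀ m : ℕ, m ≠ 0 → ¬ q ∣ m → ∀ A : ValuationSubring Qb, A.LiesOverPrime q →
  ∀ K : IntermediateField ℚ Qb, Plan.UnrBase q A K →
  ∀ f : modularFunctionFieldBar (M * q * q), f ≠ 0 →
    (f : LaurentSeries Qb) ∈ FK (M * q * q) K →
    (∀ P : Place Qb (modularFunctionFieldBar (M * q * q)), (m : ℤ) ∣ P.ord f) →
    ModelFPlan.NormCond (M * q) q m f →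
    ∃ (_ : IsDiscreteValuationRing (OK A K)) (π : OK A K) (t : FK (M * q * q) K)
      (ϖ : Fin 3 → FK (M * q * q) K) (V : Fin 3 → ValuationSubring (FK (M * q * q) K))
      (G H : FK (M * q * q) K) (a : Qb),
      Nonempty (Model3 (M * q * q) A K π (ram q) ϖ V t) ∧
      OneMod (algebraMap (OK A K) (FK (M * q * q) K) π) V G ∧
      (∀ n : Ideal (chart (M * q * q) A K t), n.IsMaximal →
        algebraMap (OK A K) (chart (M * q * q) A K t) π ∈ n →
        AbsTopN.LocForm (chart (M * q * q) A K t) π V G m n) ∧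
      (∀ n : Ideal (chart (M * q * q) A K t⁻¹), n.IsMaximal →
        algebraMap (OK A K) (chart (M * q * q) A K t⁻¹) π ∈ n →
        AbsTopN.LocForm (chart (M * q * q) A K t⁻¹) π V G m n) ∧
      a ≠ 0 ∧ H ≠ 0 ∧
      Fermat.Agent.S18.Glob.toBar (M * q * q) K G =
        f ^ e * algebraMap Qb (modularFunctionFieldBar (M * q * q)) a *
          Fermat.Agent.S18.Glob.toBar (M * q * q) K H ^ m

/-- **[ASM36] (E1)**: the local data give the input of the Čech block. -/
theorem coreData_of_locData (M q e : ℕ) [NeZero M] [NeZero q] [Fact q.Prime]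
    (h : LocDataStatement M q e) : Plan.CoreDataStatement M q e := by
  intro m hm hqm A hA K hK f hf hfK hdvd hnorm
  obtain ⟨hdvr, π, t, ϖ, V, G, H, a, ⟨Md⟩, hG, hl0, hlInf, ha, hH, hGf⟩ :=
    h m hm hqm A hA K hK f hf hfK hdvd hnorm
  exact ⟨hdvr, π, t, V, G, H, a,
    hypN_of_model3 Md (Fermat.Agent.S18.FinalCore.isUnit_natCast_OK A hA K hqm) hG hl0 hlInf,
    ha, hH, hGf⟩

/-- The local data give the function-field core (P3). -/
theorem kummerPow_of_locData (M q e : ℕ) [NeZero M] [NeZero q] [Fact q.Prime]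
    (h : LocDataStatement M q e) : Plan.KummerPowStatement M q e :=
  Plan.kummerPow_of_coreData M q e (coreData_of_locData M q e h)

end

end Fermat.Agent.S36.CoreAsm3
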