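/-
S36 — Hor3.lean (helper9; package [MODEL3]): the horizontal statement `Model3Plan.Hor3`, for ANY
level `N`, ANY base `K` with `O = A ∩ K` a discrete valuation ring and ANY chart `R ⊆ F_K`
(noetherian, fraction field `F_K`): if `m` divides every order of `f ∈ F̄_N`, then at every
horizontal prime `𝔮` of `R` with `R_𝔮` a discrete valuation ring, the descent `fK ∈ F_K` of `f` is
a unit times an `m`-th power.  No rationality of the places is needed (compare
`S34/HorInst.hor_of_place`): `R_𝔮` is the valuation ring of a place `v` of `F_K / K` (`S34/DvrAt`),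
`ord_v fK = ord_P f` for a place `P` of `F̄ / ℚ̄` above `v` (`S18/Dict`), and
`fK · (t ^ (-k)) ^ m` is a unit at `𝔮` for a local generator `t` of `𝔮`, `ord_v fK = m k`.

* `hor3_of_place` : `Hor3` from `m ∣ ord_v fK` at every place `v` of `F_K / K`;
* `dvd_ord_fK`    : `m ∣ ord_v fK` at every place of `F_K / K`, from the places of `F̄ / ℚ̄`;
* `hor3`          : `Hor3 π m fK R`.
-/
import Mathlib
import Fermat.Agent.S34.HorInst
import Fermat.Agent.S36.Model3Plan

set_option autoImplicit false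

noncomputable section

namespace Fermat.Agent.S36.Hor3

open ModularCurve AlgebraicCurve HahnSeries Fermat.Agent.S18.Arith Fermat.Agent.S34
  Fermat.Agent.S34.LocPlan

set_option synthInstance.maxHeartbeats 400000

variable (N : ℕ) [NeZero N] (A : ValuationSubring Qb) (K : IntermediateField ℚ Qb)

omit [NeZero N] in
/-- **(H1)** `Hor3` for any chart `R ⊆ F_K` (noetherian with fraction field `F_K`), from
`m ∣ ord_v fK` at every place `v` of `F_K / K`. -/
theorem hor3_of_place (hdvr : IsDiscreteValuationRing (OK A K)) (π : OK A K) (hπ : Irreducible π)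
    (m : ℕ) (fK : FK N K) (hf : fK ≠ 0)
    (hdiv : ∀ v : Place K (FK N K), (m : ℤ) ∣ v.ord fK)
    (R : Subalgebra (OK A K) (FK N K)) [IsNoetherianRing R] [IsFractionRing R (FK N K)] :
    Model3Plan.Hor3 π m fK R := by
  intro 𝔮 h𝔮 hπ𝔮 hprinc
  have := h𝔮
  obtain ⟨W, hdW, hW⟩ := DvrAt.dvrAt (E := FK N K) 𝔮 hprinc
  obtain ⟨hne, t, ht, hgen⟩ := hprinc
  -- `R ⊆ W`, `K ⊆ W`, `W ≠ ⊤`
  have hRW : ∀ r : R, (r : FK N K) ∈ W := fun r => DvrAt.algebraMap_mem hW r
  have hOW : ∀ c : OK A K, algebraMap (OK A K) (FK N K) c ∈ W := fun c =>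
    hRW (algebraMap (OK A K) R c)
  have hπW : (algebraMap (OK A K) (FK N K) π)⁻¹ ∈ W := by
    have h := DvrAt.inv_algebraMap_mem hW hπ𝔮
    have e : algebraMap R (FK N K) (algebraMap (OK A K) R π)
        = algebraMap (OK A K) (FK N K) π := rfl
    rwa [e] at h
  have hKW : ∀ c : K, algebraMap K (FK N K) c ∈ W := HorInst.constK_mem hdvr hπ W hOW hπW
  have hirr := DvrAt.irreducible_gen hW ht hgen
  have ht0 : algebraMap R (FK N K) t ≠ 0 := fun h0 => hirr.ne_zero (Subtype.ext h0)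
  have htop : W ≠ ⊤ :=
    HorInst.ne_top_of_mem_nonunits W ht0 ((DvrAt.algebraMap_mem_nonunits_iff hW).mpr ht)
  obtain ⟨v, hvW⟩ : ∃ v : Place K (FK N K), v.toValuationSubring = W :=
    ⟨HorInst.placeOf W hdW hKW htop, rfl⟩
  subst hvW
  -- `UnitAt 𝔮 x ⇐ ord_v x = 0`
  have hunit : ∀ x : FK N K, x ≠ 0 → v.ord x = 0 → UnitAt 𝔮 x := by
    intro x hx hord
    refine (DvrAt.unitAt_iff hW hx).mpr ⟨?_, ?_⟩
    · exact Fermat.Agent.S24.mem_of_ord_nonneg v (le_of_eq hord.symm)
    · refine Fermat.Agent.S24.mem_of_ord_nonneg v ?_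
      rw [v.ord_inv, hord, neg_zero]
  -- `f · (t ^ (-k)) ^ m` is a unit at `𝔮`
  obtain ⟨k, hk⟩ := hdiv v
  have hordt := v.ord_coe_irreducible hirr
  simp only [] at hordt
  refine ⟨algebraMap R (FK N K) t ^ (-k), zpow_ne_zero _ ht0, ?_⟩
  have hx0 : (algebraMap R (FK N K) t ^ (-k)) ^ m ≠ 0 := pow_ne_zero _ (zpow_ne_zero _ ht0)
  refine hunit _ (mul_ne_zero hf hx0) ?_
  rw [v.ord_mul hf hx0, Fermat.Agent.S24.ord_pow, v.ord_zpow, hordt, hk]
  ring

/-- **(H2)** if `m` divides all the orders of `f ∈ F̄_N`, then `m` divides all the orders of its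
descent `fK ∈ F_K` at the places of `F_K / K` ([Dict]); `K` is arbitrary. -/
theorem dvd_ord_fK (m : ℕ) (f : modularFunctionFieldBar N)
    (hdiv : ∀ P : Place Qb (modularFunctionFieldBar N), (m : ℤ) ∣ P.ord f)
    (fK : FK N K) (hfK : Fermat.Agent.S18.Glob.toBar N K fK = f)
    (v : Place K (FK N K)) : (m : ℤ) ∣ v.ord fK := by
  obtain ⟨P, hP⟩ := Fermat.Agent.S18.Dict.dictStatement N K v
  have h1 : P.ord (Fermat.Agent.S18.Glob.toBar N K fK) = v.ord fK :=
    hP fK (Fermat.Agent.S18.Glob.fk_le_bar N K fK.2)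
  rw [← h1, hfK]
  exact hdiv P

/-- **[Hor3]**: for `f ≠ 0` in `F̄_N` with all orders divisible by `m`, every base `K` with
`O = A ∩ K` a discrete valuation ring, every descent `fK ∈ F_K` of `f` and every chart
`R ⊆ F_K` (noetherian, fraction field `F_K`): `Model3Plan.Hor3 π m fK R`. -/
theorem hor3 (m : ℕ) (f : modularFunctionFieldBar N) (hf : f ≠ 0)
    (hdiv : ∀ P : Place Qb (modularFunctionFieldBar N), (m : ℤ) ∣ P.ord f)
    (hdvr : IsDiscreteValuationRing (OK A K)) (π : OK A K) (hπ : Irreducible π)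
    (fK : FK N K) (hfK : Fermat.Agent.S18.Glob.toBar N K fK = f)
    (R : Subalgebra (OK A K) (FK N K)) [IsNoetherianRing R] [IsFractionRing R (FK N K)] :
    Model3Plan.Hor3 π m fK R := by
  have hfK0 : fK ≠ 0 := by
    rintro rfl
    apply hf
    rw [← hfK, map_zero]
  exact hor3_of_place N A K hdvr π hπ m fK hfK0 (dvd_ord_fK N K m f hdiv fK hfK) R

end Fermat.Agent.S36.Hor3
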