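/-
S36 — LocAsm3.lean (helper41).  [ASM36], half (E2) of board #3115: the CHAIN `f ↦ G₁ ↦ G₂`
assembled into the target `CoreAsm3.LocDataStatement` of the architect's `S36/CoreAsm3.lean`.

Level `N = M * q * q`.  For `f` as in `Plan.KummerPowStatement` (a `K`-rational function all of
whose orders are divisible by `m`, whose norms along `α` and `β` are constants times `m`-th
powers) and a model `Model3Plan.Model3` with component valuation rings `V` over the base
`O = A ∩ K` with uniformizer `π`: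

* [CORR36] (`CorrProp`, the instance of `Corr3.exists_corr`): there are `k : ℤ` and `H₁ ≠ 0`
  such that `f ^ ((q+1)(q-1)) · π ^ k · H₁ ^ m` is an `m`-th power modulo `1 + ϖ i (V i)` for
  every `i` (`Model3Plan.PowMod`);
* `Approx3B.approx3` then gives `G₁ = f ^ ((q+1)(q-1)) · π ^ k · (H₁ h) ^ m ≡ 1` modulo
  `π (V i)` for every `i` (`Model3Plan.OneMod`);
* `G₁` inherits the horizontal condition (`Hor3.hor3`) on every chart and the norm conditions
  (`normCond_mul_pow`);
* [TORIC36] + [LOC36] (`TorOutProp`, the conclusion of the toric assembly at the model level):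
  for every such `G₁` there is `H₂ ≠ 0` such that `G₂ = G₁ ^ ((q+1)(q-1)) · H₂ ^ m` is `≡ 1`
  modulo `π (V i)` and has the local form `AbsTopN.LocForm` at every closed point of the special
  fibre of both charts.

Then `G₂ = f ^ (((q+1)(q-1))²) · a · H ^ m`, which is `CoreAsm3.LocDataStatement`.

* `normCond_mul_pow`   — the norm conditions pass from `f` to `f ^ e · a · H ^ m`;
* `dvd_ord_mul_pow`    — so does the divisibility of the orders;
* `CorrProp`, `TorOutProp`, `ChainStatement` — the named inputs (typed against landed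
  definitions only);
* `exists_G1`          — the first half of the chain;
* `locData_of_chain`   — `ChainStatement M q → CoreAsm3.LocDataStatement M q (((q+1)(q-1))²)`.
-/
import Mathlib
import Fermat.Agent.S34.SigmaCoe
import Fermat.Agent.S35.NormRedK
import Fermat.Agent.S36.CoreAsm3
import Fermat.Agent.S36.Approx3B
import Fermat.Agent.S36.Hor3

set_option autoImplicit false

open ModularCurve AlgebraicCurve HahnSeries

namespace Fermat.Agent.S36.LocAsm3

open Fermat.Agent.S18.Arith Fermat.Agent.S34 Fermat.Agent.S35 Fermat.Agent.S36.Model3Plan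
open Fermat.Agent.S35.ModelFPlan (alphaNm betaNm NormCond)

noncomputable section

/-! ### The norm conditions and the orders pass to `f ^ e · a · H ^ m` -/

section Norm

variable (M q : ℕ) [NeZero M] [NeZero q]

/-- The norm along `α` of a constant is a constant. -/
theorem alphaNm_const (a : Qb) : ∃ d : ℕ,
    alphaNm M q (algebraMap Qb (modularFunctionFieldBar (M * q)) a) =
      algebraMap Qb (modularFunctionFieldBar M) (a ^ d) := by
  letI := algebraAlong (heckeAlphaBar Qb M q)
  have h : algebraMap Qb (modularFunctionFieldBar (M * q)) a =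
      algebraMap (modularFunctionFieldBar M) (modularFunctionFieldBar (M * q))
        (algebraMap Qb (modularFunctionFieldBar M) a) :=
    ((heckeAlphaBar Qb M q).commutes a).symm
  refine ⟨Module.finrank (modularFunctionFieldBar M) (modularFunctionFieldBar (M * q)), ?_⟩
  rw [map_pow]
  show Algebra.norm (modularFunctionFieldBar M) _ = _
  rw [h, Algebra.norm_algebraMap]

/-- The norm along `β` of a constant is a constant. -/
theorem betaNm_const (a : Qb) : ∃ d : ℕ,
    betaNm M q (algebraMap Qb (modularFunctionFieldBar (M * q)) a) =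
      algebraMap Qb (modularFunctionFieldBar M) (a ^ d) := by
  letI := algebraAlong (heckeBetaBar Qb M q)
  have h : algebraMap Qb (modularFunctionFieldBar (M * q)) a =
      algebraMap (modularFunctionFieldBar M) (modularFunctionFieldBar (M * q))
        (algebraMap Qb (modularFunctionFieldBar M) a) :=
    ((heckeBetaBar Qb M q).commutes a).symm
  refine ⟨Module.finrank (modularFunctionFieldBar M) (modularFunctionFieldBar (M * q)), ?_⟩
  rw [map_pow]
  show Algebra.norm (modularFunctionFieldBar M) _ = _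
  rw [h, Algebra.norm_algebraMap]

/-- The norms of a nonzero function are nonzero. -/
theorem alphaNm_ne_zero {x : modularFunctionFieldBar (M * q)} (hx : x ≠ 0) :
    alphaNm M q x ≠ 0 := by
  intro h0
  have h1 : alphaNm M q x * alphaNm M q x⁻¹ = 1 := by
    rw [← NormRedK.alphaNm_mul, mul_inv_cancel₀ hx, NormRedK.alphaNm_one]
  rw [h0, zero_mul] at h1
  exact zero_ne_one h1

theorem betaNm_ne_zero {x : modularFunctionFieldBar (M * q)} (hx : x ≠ 0) :
    betaNm M q x ≠ 0 := by
  intro h0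
  have h1 : betaNm M q x * betaNm M q x⁻¹ = 1 := by
    rw [← NormRedK.betaNm_mul, mul_inv_cancel₀ hx, NormRedK.betaNm_one]
  rw [h0, zero_mul] at h1
  exact zero_ne_one h1

/-- **The norm conditions pass to `f ^ e · a · H ^ m`** (`a ≠ 0` a constant, `H ≠ 0`). -/
theorem normCond_mul_pow {m : ℕ} {f : modularFunctionFieldBar (M * q)} (hN : NormCond M q m f)
    (e : ℕ) {a : Qb} (ha : a ≠ 0) {H : modularFunctionFieldBar (M * q)} (hH : H ≠ 0) :
    NormCond M q m (f ^ e * algebraMap Qb (modularFunctionFieldBar (M * q)) a * H ^ m) := by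
  obtain ⟨⟨h, c, hh, hc, e1⟩, ⟨h', c', hh', hc', e2⟩⟩ := hN
  obtain ⟨d, hd⟩ := alphaNm_const M q a
  obtain ⟨d', hd'⟩ := betaNm_const M q a
  refine ⟨⟨h ^ e * alphaNm M q H, c ^ e * a ^ d,
      mul_ne_zero (pow_ne_zero _ hh) (alphaNm_ne_zero M q hH),
      mul_ne_zero (pow_ne_zero _ hc) (pow_ne_zero _ ha), ?_⟩,
    ⟨h' ^ e * betaNm M q H, c' ^ e * a ^ d',
      mul_ne_zero (pow_ne_zero _ hh') (betaNm_ne_zero M q hH),
      mul_ne_zero (pow_ne_zero _ hc') (pow_ne_zero _ ha), ?_⟩⟩
  · rw [NormRedK.alphaNm_mul, NormRedK.alphaNm_mul, NormRedK.alphaNm_pow, NormRedK.alphaNm_pow,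
      e1, hd]
    simp only [map_mul, map_pow]
    ring
  · rw [NormRedK.betaNm_mul, NormRedK.betaNm_mul, NormRedK.betaNm_pow, NormRedK.betaNm_pow,
      e2, hd']
    simp only [map_mul, map_pow]
    ring

end Norm

section Ord

variable {N : ℕ}

/-- **The divisibility of the orders passes to `f ^ e · a · H ^ m`.** -/
theorem dvd_ord_mul_pow {m : ℕ} {f : modularFunctionFieldBar N} (hf : f ≠ 0)
    (hdiv : ∀ P : Place Qb (modularFunctionFieldBar N), (m : ℤ) ∣ P.ord f)
    (e : ℕ) {a : Qb} (ha : a ≠ 0) {H : modularFunctionFieldBar N} (hH : H ≠ 0)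
    (P : Place Qb (modularFunctionFieldBar N)) :
    (m : ℤ) ∣ P.ord (f ^ e * algebraMap Qb (modularFunctionFieldBar N) a * H ^ m) := by
  have ha' : algebraMap Qb (modularFunctionFieldBar N) a ≠ 0 := by
    rw [Ne, map_eq_zero]
    exact ha
  rw [P.ord_mul (mul_ne_zero (pow_ne_zero _ hf) ha') (pow_ne_zero _ hH),
    P.ord_mul (pow_ne_zero _ hf) ha', Fermat.Agent.S24.ord_pow, Fermat.Agent.S24.ord_pow,
    Fermat.Agent.S24.ord_algebraMap, add_zero]
  exact dvd_add (Dvd.dvd.mul_left (hdiv P) _) (dvd_mul_right _ _)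

end Ord

/-! ### The named inputs of the chain -/

section Props

variable (M q m : ℕ) [NeZero M] [NeZero q] (A : ValuationSubring Qb)
  (K : IntermediateField ℚ Qb) (π : OK A K) (ϖ : Fin 3 → FK (M * q * q) K)
  (V : Fin 3 → ValuationSubring (FK (M * q * q) K)) (t : FK (M * q * q) K)

/-- **[CORR36]** (the instance of `Corr3.exists_corr` for the three concrete valuations; the
conclusion "residue `1` for `r₁, r₂, r₃`" is `PowMod` with `h i = 1`): for every nonzero
`K`-rational `fK` whose norms along `α` and `β` are constants times `m`-th powers there are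
`k : ℤ` and `H ≠ 0` such that `fK ^ ((q+1)(q-1)) · π ^ k · H ^ m` is an `m`-th power modulo
`1 + ϖ i (V i)` for every `i`. -/
def CorrProp : Prop :=
  ∀ fK : FK (M * q * q) K, fK ≠ 0 →
    NormCond (M * q) q m (Fermat.Agent.S18.Glob.toBar (M * q * q) K fK) →
    ∃ (k : ℤ) (H : FK (M * q * q) K), H ≠ 0 ∧
      PowMod ϖ V m
        (fK ^ ((q + 1) * (q - 1)) * algebraMap (OK A K) (FK (M * q * q) K) π ^ k * H ^ m)

/-- **[TORIC36] + [LOC36]** at the model level (the conclusion of the toric assembly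
`ToricAsm` / `ChartTorInst` with all its inputs discharged): for every `G ≡ 1` modulo `π V`
satisfying the horizontal condition on both charts and the norm conditions there is `H ≠ 0`
such that `G ^ ((q+1)(q-1)) · H ^ m` is `≡ 1` modulo `π V` and has the local form at every
closed point of the special fibre of both charts. -/
def TorOutProp : Prop :=
  ∀ G : FK (M * q * q) K,
    OneMod (algebraMap (OK A K) (FK (M * q * q) K) π) V G →
    Hor3 π m G (chart (M * q * q) A K t) → Hor3 π m G (chart (M * q * q) A K t⁻¹) →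
    NormCond (M * q) q m (Fermat.Agent.S18.Glob.toBar (M * q * q) K G) →
    ∃ H : FK (M * q * q) K, H ≠ 0 ∧
      OneMod (algebraMap (OK A K) (FK (M * q * q) K) π) V (G ^ ((q + 1) * (q - 1)) * H ^ m) ∧
      (∀ n : Ideal (chart (M * q * q) A K t), n.IsMaximal →
        algebraMap (OK A K) (chart (M * q * q) A K t) π ∈ n →
        AbsTopN.LocForm (chart (M * q * q) A K t) π V (G ^ ((q + 1) * (q - 1)) * H ^ m) m n) ∧
      (∀ n : Ideal (chart (M * q * q) A K t⁻¹), n.IsMaximal →
        algebraMap (OK A K) (chart (M * q * q) A K t⁻¹) π ∈ n →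
        AbsTopN.LocForm (chart (M * q * q) A K t⁻¹) π V (G ^ ((q + 1) * (q - 1)) * H ^ m) m n)

end Props

/-- **The input of the chain**: over every unramified base, a model with the corrector
property [CORR36] and the toric/local property [TORIC36] + [LOC36] for its valuation rings. -/
def ChainStatement (M q : ℕ) [NeZero M] [NeZero q] [Fact q.Prime] : Prop :=
  ∀ m : ℕ, m ≠ 0 → ¬ q ∣ m → ∀ A : ValuationSubring Qb, A.LiesOverPrime q →
  ∀ K : IntermediateField ℚ Qb, Plan.UnrBase q A K →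
    ∃ (_ : IsDiscreteValuationRing (OK A K)) (π : OK A K) (t : FK (M * q * q) K)
      (ϖ : Fin 3 → FK (M * q * q) K) (V : Fin 3 → ValuationSubring (FK (M * q * q) K)),
      Nonempty (Model3 (M * q * q) A K π (ram q) ϖ V t) ∧
      CorrProp M q m A K π ϖ V ∧ TorOutProp M q m A K π V t

/-! ### The chain -/

section Chain

variable {M q : ℕ} [NeZero M] [NeZero q] {A : ValuationSubring Qb}
  {K : IntermediateField ℚ Qb} [IsDiscreteValuationRing (OK A K)] {π : OK A K}
  {e : Fin 3 → ℕ} {ϖ : Fin 3 → FK (M * q * q) K}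
  {V : Fin 3 → ValuationSubring (FK (M * q * q) K)} {t : FK (M * q * q) K}

omit [IsDiscreteValuationRing (OK A K)] in
/-- The constants of `O` lie in every `V i`. -/
theorem const_mem (Md : Model3 (M * q * q) A K π e ϖ V t) (i : Fin 3) (x : OK A K) :
    algebraMap (OK A K) (FK (M * q * q) K) x ∈ V i :=
  Md.c0.hyp.le i (algebraMap (OK A K) (chart (M * q * q) A K t) x)

/-- `m` is invertible in every `V i`. -/
theorem natCast_unit (Md : Model3 (M * q * q) A K π e ϖ V t) {m : ℕ}
    (hm : IsUnit ((m : ℕ) : OK A K)) (i : Fin 3) :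
    ∃ u ∈ V i, ((m : ℕ) : FK (M * q * q) K) * u = 1 := by
  obtain ⟨u, hu⟩ := hm.exists_right_inv
  refine ⟨algebraMap (OK A K) (FK (M * q * q) K) u, const_mem Md i u, ?_⟩
  rw [← map_natCast (algebraMap (OK A K) (FK (M * q * q) K)), ← map_mul, hu, map_one]

/-- **The first half of the chain**: from [CORR36], `G₁ = fK ^ ((q+1)(q-1)) · π ^ k · H ^ m`
with `G₁ ≡ 1` modulo `π (V i)` for every `i`. -/
theorem exists_G1 (Md : Model3 (M * q * q) A K π e ϖ V t) {m : ℕ}
    (hm : IsUnit ((m : ℕ) : OK A K)) (hcorr : CorrProp M q m A K π ϖ V)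
    (fK : FK (M * q * q) K) (hfK : fK ≠ 0)
    (hN : NormCond (M * q) q m (Fermat.Agent.S18.Glob.toBar (M * q * q) K fK)) :
    ∃ (k : ℤ) (H : FK (M * q * q) K), H ≠ 0 ∧
      OneMod (algebraMap (OK A K) (FK (M * q * q) K) π) V
        (fK ^ ((q + 1) * (q - 1)) * algebraMap (OK A K) (FK (M * q * q) K) π ^ k * H ^ m) := by
  obtain ⟨k, H₁, hH₁, hpow⟩ := hcorr fK hfK hN
  obtain ⟨h, hh, hone⟩ := Approx3B.approx3 (CoreAsm3.pi_ne_zero Md) m _ Md.val
    (natCast_unit Md hm) hpow
  refine ⟨k, H₁ * h, mul_ne_zero hH₁ hh, ?_⟩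
  have e1 : fK ^ ((q + 1) * (q - 1)) * algebraMap (OK A K) (FK (M * q * q) K) π ^ k *
      (H₁ * h) ^ m =
      fK ^ ((q + 1) * (q - 1)) * algebraMap (OK A K) (FK (M * q * q) K) π ^ k * H₁ ^ m *
        h ^ m := by
    rw [mul_pow]
    ring
  rw [e1]
  exact hone

end Chain

/-- **[ASM36] (E2)**: the chain `f ↦ G₁ ↦ G₂` gives the local data of `CoreAsm3`. -/
theorem locData_of_chain (M q : ℕ) [NeZero M] [NeZero q] [Fact q.Prime]
    (h : ChainStatement M q) :
    CoreAsm3.LocDataStatement M q (((q + 1) * (q - 1)) ^ 2) := by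
  intro m hm hqm A hA K hK f hf hfK hdvd hnorm
  obtain ⟨hdvr, π, t, ϖ, V, ⟨Md⟩, hcorr, htor⟩ := h m hm hqm A hA K hK
  have hmU : IsUnit ((m : ℕ) : OK A K) :=
    Fermat.Agent.S18.FinalCore.isUnit_natCast_OK A hA K hqm
  -- the descent of `f`
  have hfbar : Fermat.Agent.S18.Glob.toBar (M * q * q) K
      (SigmaCoe.liftFK (M * q * q) f hfK) = f := SigmaCoe.toBar_liftFK (M * q * q) f hfK
  have hfK0 : SigmaCoe.liftFK (M * q * q) f hfK ≠ 0 := SigmaCoe.liftFK_ne_zero (M * q * q) hfK hf
  generalize SigmaCoe.liftFK (M * q * q) f hfK = fK at hfbar hfK0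
  -- the first half
  obtain ⟨k, H₁, hH₁, hone⟩ := exists_G1 Md hmU hcorr fK hfK0 (by rw [hfbar]; exact hnorm)
  -- the image of `G₁` in `F̄`
  have hπ0 : (((π : OK A K) : K) : Qb) ≠ 0 := by
    intro h0
    apply CoreAsm3.pi_ne_zero Md
    apply (Fermat.Agent.S18.Glob.toBar (M * q * q) K).injective
    rw [Fermat.Agent.S18.Glob.toBar_algebraMap, h0, map_zero, map_zero]
  have hH₁b : Fermat.Agent.S18.Glob.toBar (M * q * q) K H₁ ≠ 0 := fun h0 =>
    hH₁ ((Fermat.Agent.S18.Glob.toBar (M * q * q) K).injective (by rw [h0, map_zero]))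
  have hbar : Fermat.Agent.S18.Glob.toBar (M * q * q) K
      (fK ^ ((q + 1) * (q - 1)) * algebraMap (OK A K) (FK (M * q * q) K) π ^ k * H₁ ^ m) =
      f ^ ((q + 1) * (q - 1)) *
        algebraMap Qb (modularFunctionFieldBar (M * q * q)) ((((π : OK A K) : K) : Qb) ^ k) *
        Fermat.Agent.S18.Glob.toBar (M * q * q) K H₁ ^ m := by
    rw [map_mul, map_mul, map_pow, map_pow, map_zpow₀, Fermat.Agent.S18.Glob.toBar_algebraMap,
      hfbar, map_zpow₀]
  generalize fK ^ ((q + 1) * (q - 1)) * algebraMap (OK A K) (FK (M * q * q) K) π ^ k * H₁ ^ m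
    = G₁ at hone hbar
  have hak : (((π : OK A K) : K) : Qb) ^ k ≠ 0 := zpow_ne_zero _ hπ0
  -- `G₁` inherits the conditions on `f`
  have hG₁b0 : Fermat.Agent.S18.Glob.toBar (M * q * q) K G₁ ≠ 0 := by
    rw [hbar]
    refine mul_ne_zero (mul_ne_zero (pow_ne_zero _ hf) ?_) (pow_ne_zero _ hH₁b)
    rw [Ne, map_eq_zero]
    exact hak
  have hdiv₁ : ∀ P : Place Qb (modularFunctionFieldBar (M * q * q)),
      (m : ℤ) ∣ P.ord (Fermat.Agent.S18.Glob.toBar (M * q * q) K G₁) := by
    intro P
    rw [hbar]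
    exact dvd_ord_mul_pow hf hdvd _ hak hH₁b P
  have hnorm₁ : NormCond (M * q) q m (Fermat.Agent.S18.Glob.toBar (M * q * q) K G₁) := by
    rw [hbar]
    exact normCond_mul_pow (M * q) q hnorm _ hak hH₁b
  have hHor0 : Hor3 π m G₁ (chart (M * q * q) A K t) := by
    have := Md.c0.noeth
    have := Md.c0.frac
    exact Hor3.hor3 (M * q * q) A K m _ hG₁b0 hdiv₁ hdvr π Md.irr G₁ rfl _
  have hHorInf : Hor3 π m G₁ (chart (M * q * q) A K t⁻¹) := by
    have := Md.cInf.noeth
    have := Md.cInf.frac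
    exact Hor3.hor3 (M * q * q) A K m _ hG₁b0 hdiv₁ hdvr π Md.irr G₁ rfl _
  -- the second half
  obtain ⟨H₂, hH₂, hone₂, hl0, hlInf⟩ := htor G₁ hone hHor0 hHorInf hnorm₁
  refine ⟨hdvr, π, t, ϖ, V, G₁ ^ ((q + 1) * (q - 1)) * H₂ ^ m,
    H₁ ^ ((q + 1) * (q - 1)) * H₂, ((((π : OK A K) : K) : Qb) ^ k) ^ ((q + 1) * (q - 1)),
    ⟨Md⟩, hone₂, hl0, hlInf, pow_ne_zero _ hak,
    mul_ne_zero (pow_ne_zero _ hH₁) hH₂, ?_⟩
  rw [map_mul, map_pow, map_pow, hbar, map_mul, map_pow, map_pow]
  ring

end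

end Fermat.Agent.S36.LocAsm3
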