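/-
S36, block [UNR] (helper21): the unramified base.

If a number field `K₁ ⊂ ℚ̄` is fixed pointwise by the inertia group of a valuation subring `A`
of `ℚ̄` over the prime `q`, then `q` is a uniformizer of `A ∩ K₁`, hence (S18 `Base`) of
`A ∩ K`, `K = K₁(μ_n : q ∤ n)`; and the inertia group still fixes `K` pointwise.

Inputs: `S14/DecompLift` (inertia elements of a finite Galois `N/ℚ` lift to the inertia subgroup
of `A`), `S18/BaseUnr` (`e = #inertia` in Galois extensions, the prime `placeOf` cut out by `A`),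
`S18/Base` (the DVR criterion, the cyclotomic step), `S30/CycN` (inertia fixes the roots of unity
of order prime to `q`).
-/
import Mathlib
import Fermat.Agent.S18.ArithPlan
import Fermat.Agent.S18.Base
import Fermat.Agent.S18.BaseUnr
import Fermat.Agent.S14.DecompLift
import Fermat.Agent.S30.CycN

set_option autoImplicit false
set_option linter.style.haveILetI false

namespace Fermat.Agent.S36.UnrBase

open IsDedekindDomain NumberField
open Fermat.Agent.S18 Fermat.Agent.S18.Arith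

noncomputable section

/-! ### The abstract core: `e(v | p) = 1` when the inertia group over `ℚ` fixes `F` -/

section Core

variable {F N : Type*} [Field F] [NumberField F] [Field N] [NumberField N] [Algebra F N]

/-- Restriction of scalars is injective from the inertia group over `F` to the one over `ℚ`;
here the other direction: an element of the inertia group over `ℚ` fixing `F` gives an element
of the inertia group over `F`. -/
theorem card_inertia_le [IsGalois ℚ N] [IsGalois F N] (w : HeightOneSpectrum (𝓞 N))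
    (hI : ∀ σ ∈ w.asIdeal.inertia (N ≃ₐ[ℚ] N), ∀ x : F,
      σ (algebraMap F N x) = algebraMap F N x) :
    Nat.card (w.asIdeal.inertia (N ≃ₐ[ℚ] N)) ≤ Nat.card (w.asIdeal.inertia (N ≃ₐ[F] N)) := by
  classical
  let f : w.asIdeal.inertia (N ≃ₐ[ℚ] N) → w.asIdeal.inertia (N ≃ₐ[F] N) := fun σ =>
    ⟨AlgEquiv.ofRingEquiv (f := (σ : N ≃ₐ[ℚ] N).toRingEquiv) (fun x => hI σ.1 σ.2 x), by
      intro y
      have h := σ.2 y
      exact h⟩
  refine Nat.card_le_card_of_injective f ?_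
  intro σ τ h
  apply Subtype.ext
  ext y
  have h1 := congrArg (fun ρ : w.asIdeal.inertia (N ≃ₐ[F] N) => (ρ : N ≃ₐ[F] N) y) h
  exact h1

/-- **The abstract core.** `N/ℚ` Galois, `F ⊆ N`, `w | v | p`; if every element of the inertia
group of `w` over `ℚ` fixes `F` pointwise then `e(v | p) = 1`. -/
theorem ramificationIdx'_eq_one_of_inertia_fixes [IsGalois ℚ N] [IsGalois F N]
    (p : HeightOneSpectrum (𝓞 ℚ)) (v : HeightOneSpectrum (𝓞 F)) (w : HeightOneSpectrum (𝓞 N))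
    (hvp : v.asIdeal.comap (algebraMap (𝓞 ℚ) (𝓞 F)) = p.asIdeal)
    (hwv : w.asIdeal.comap (algebraMap (𝓞 F) (𝓞 N)) = v.asIdeal)
    (hwp : w.asIdeal.comap (algebraMap (𝓞 ℚ) (𝓞 N)) = p.asIdeal)
    (hI : ∀ σ ∈ w.asIdeal.inertia (N ≃ₐ[ℚ] N), ∀ x : F,
      σ (algebraMap F N x) = algebraMap F N x) :
    p.asIdeal.ramificationIdx' v.asIdeal = 1 := by
  have e1 := BaseUnr.ramificationIdx'_eq_card_inertia p w hwp
  have e2 := BaseUnr.ramificationIdx'_eq_card_inertia v w hwv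
  have hle := card_inertia_le w hI
  have hpos : 0 < Nat.card (w.asIdeal.inertia (N ≃ₐ[ℚ] N)) := Nat.card_pos
  have : v.asIdeal.LiesOver p.asIdeal := ⟨hvp.symm⟩
  have : w.asIdeal.LiesOver v.asIdeal := ⟨hwv.symm⟩
  have : w.asIdeal.LiesOver p.asIdeal := ⟨hwp.symm⟩
  obtain ⟨π, hπ⟩ := p.valuation_exists_uniformizer ℚ
  have h1 := HeightOneSpectrum.valuation_liesOver N p w π
  have h2 := HeightOneSpectrum.valuation_liesOver F p v π
  have h3 := HeightOneSpectrum.valuation_liesOver N v w (algebraMap ℚ F π)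
  have h4 : algebraMap F N (algebraMap ℚ F π) = algebraMap ℚ N π := by
    rw [eq_ratCast, eq_ratCast, map_ratCast]
  rw [h4, ← h2, ← h1, hπ, ← pow_mul, ← WithZero.exp_nsmul, ← WithZero.exp_nsmul,
    WithZero.exp_inj] at h3
  have h5 : p.asIdeal.ramificationIdx' v.asIdeal * v.asIdeal.ramificationIdx' w.asIdeal =
      p.asIdeal.ramificationIdx' w.asIdeal := by
    have h6 : ((p.asIdeal.ramificationIdx' v.asIdeal * v.asIdeal.ramificationIdx' w.asIdeal : ℕ) : ℤ)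
        = (p.asIdeal.ramificationIdx' w.asIdeal : ℤ) := by
      simp only [nsmul_eq_mul, mul_neg, mul_one, neg_inj] at h3
      exact_mod_cast h3
    exact_mod_cast h6
  rw [e1, e2] at h5
  rw [e1] at *
  rcases Nat.eq_zero_or_pos (p.asIdeal.ramificationIdx' v.asIdeal) with h0 | h0
  · rw [h0, zero_mul] at h5
    omega
  · by_contra hne
    have h7 : 2 ≤ p.asIdeal.ramificationIdx' v.asIdeal := by omega
    have h8 : 2 * Nat.card (w.asIdeal.inertia (N ≃ₐ[F] N)) ≤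
        p.asIdeal.ramificationIdx' v.asIdeal * Nat.card (w.asIdeal.inertia (N ≃ₐ[F] N)) :=
      Nat.mul_le_mul_right _ h7
    omega

end Core

/-! ### The concrete statement over `ℚ̄` -/

section Concrete

variable (A : ValuationSubring Qb) {q : ℕ}

/-- The prime of `ℚ` cut out by `A` is `(q)`: `q` is a uniformizer there. -/
theorem valuation_rat_prime (hq : q.Prime) (hA : (q : Qb) ∈ A.nonunits) :
    (BaseUnr.placeOf A (algebraMap ℚ Qb) hq.ne_zero hA).valuation ℚ (q : ℚ) =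
      WithZero.exp (-1 : ℤ) := by
  set p := BaseUnr.placeOf A (algebraMap ℚ Qb) hq.ne_zero hA with hp
  have hqp : (q : 𝓞 ℚ) ∈ p.asIdeal := by
    rw [hp, BaseUnr.mem_placeOf_iff]
    have h : (algebraMap ℚ Qb) (((q : 𝓞 ℚ) : 𝓞 ℚ) : ℚ) = (q : Qb) := by simp
    rw [h]
    exact hA
  have hprime : Prime (q : 𝓞 ℚ) := by
    have h1 : Prime ((q : ℕ) : ℤ) := Nat.prime_iff_prime_int.mp hq
    have h2 : Rat.ringOfIntegersEquiv (q : 𝓞 ℚ) = ((q : ℕ) : ℤ) := map_natCast _ q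
    rw [← h2] at h1
    exact (MulEquiv.prime_iff Rat.ringOfIntegersEquiv.toMulEquiv).mp h1
  have hspan : p.asIdeal = Ideal.span {(q : 𝓞 ℚ)} := by
    have hP : (Ideal.span {(q : 𝓞 ℚ)}).IsPrime :=
      (Ideal.span_singleton_prime hprime.ne_zero).mpr hprime
    have hmax : (Ideal.span {(q : 𝓞 ℚ)}).IsMaximal :=
      hP.isMaximal (by simpa using hprime.ne_zero)
    exact (hmax.eq_of_le p.isPrime.ne_top ((Ideal.span_singleton_le_iff_mem _).mpr hqp)).symm
  have h3 := p.intValuation_singleton hprime.ne_zero hspan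
  have h4 := p.valuation_of_algebraMap (K := ℚ) (q : 𝓞 ℚ)
  rw [h3] at h4
  rw [← h4]
  congr 1

/-- **`q` is a uniformizer of `A ∩ K₁`** when the inertia group of `A` fixes the number field
`K₁` pointwise. -/
theorem valuation_prime_eq (hq : q.Prime) (hA : (q : Qb) ∈ A.nonunits)
    (K1 : IntermediateField ℚ Qb) [FiniteDimensional ℚ K1]
    (hI : ∀ σ ∈ A.inertiaSubgroupIn ℚ, ∀ x ∈ K1, σ x = x) :
    haveI : NumberField ↥K1 := ⟨⟩
    (BaseUnr.placeOf A (algebraMap ↥K1 Qb) hq.ne_zero hA).valuation ↥K1 ((q : ℕ) : ↥K1) =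
      WithZero.exp (-1 : ℤ) := by
  classical
  haveI : NumberField ↥K1 := ⟨⟩
  -- the normal closure
  let N : IntermediateField ℚ Qb := IntermediateField.normalClosure ℚ ↥K1 Qb
  have hle : K1 ≤ N := IntermediateField.le_normalClosure K1
  haveI : IsGalois ℚ Qb := Fermat.Agent.S13.InertiaLift.isGalois_rat
  haveI hfd : FiniteDimensional ℚ ↥N := normalClosure.is_finiteDimensional ℚ ↥K1 Qb
  haveI hnor : Normal ℚ ↥N := normalClosure.normal ℚ ↥K1 Qb
  haveI hgal : IsGalois ℚ ↥N := ⟨⟩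
  haveI : NumberField ↥N := ⟨⟩
  letI algKN : Algebra ↥K1 ↥N := (IntermediateField.inclusion hle).toRingHom.toAlgebra
  haveI : IsScalarTower ℚ ↥K1 ↥N := IsScalarTower.of_algebraMap_eq (fun x => rfl)
  haveI : IsGalois ↥K1 ↥N := IsGalois.tower_top_of_isGalois ℚ ↥K1 ↥N
  set p := BaseUnr.placeOf A (algebraMap ℚ Qb) hq.ne_zero hA with hp
  set v := BaseUnr.placeOf A (algebraMap ↥K1 Qb) hq.ne_zero hA with hv
  set w := BaseUnr.placeOf A (algebraMap ↥N Qb) hq.ne_zero hA with hw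
  have hvp : v.asIdeal.comap (algebraMap (𝓞 ℚ) (𝓞 ↥K1)) = p.asIdeal := by
    ext y
    rw [Ideal.mem_comap, hv, hp, BaseUnr.mem_placeOf_iff, BaseUnr.mem_placeOf_iff]
    rfl
  have hwv : w.asIdeal.comap (algebraMap (𝓞 ↥K1) (𝓞 ↥N)) = v.asIdeal := by
    ext y
    rw [Ideal.mem_comap, hw, hv, BaseUnr.mem_placeOf_iff, BaseUnr.mem_placeOf_iff]
    rfl
  have hwp : w.asIdeal.comap (algebraMap (𝓞 ℚ) (𝓞 ↥N)) = p.asIdeal := by
    ext y
    rw [Ideal.mem_comap, hw, hp, BaseUnr.mem_placeOf_iff, BaseUnr.mem_placeOf_iff]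
    rfl
  have hI' : ∀ σ ∈ w.asIdeal.inertia (↥N ≃ₐ[ℚ] ↥N), ∀ x : ↥K1,
      σ (algebraMap ↥K1 ↥N x) = algebraMap ↥K1 ↥N x := by
    intro σ hσ x
    obtain ⟨σ', hσ', hσN⟩ :=
      Fermat.Agent.S14Tr.DecompLift.exists_lift_mem_inertiaSubgroupIn A N σ (by
        intro y hy
        have hyN : IsIntegral ℤ y := by
          have h0 : IsIntegral ℤ (algebraMap ↥N Qb y) := hy
          exact (isIntegral_algebraMap_iff (algebraMap ↥N Qb).injective).mp h0
        obtain ⟨y', hy'⟩ : ∃ y' : 𝓞 ↥N, algebraMap (𝓞 ↥N) ↥N y' = y := ⟨⟨y, hyN⟩, rfl⟩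
        have h1 : σ • y' - y' ∈ w.asIdeal := hσ y'
        rw [hw, BaseUnr.mem_placeOf_iff] at h1
        have h2 : algebraMap (𝓞 ↥N) ↥N (σ • y' - y') = σ y - y := by
          have h3 : algebraMap (𝓞 ↥N) ↥N (σ • y') = σ • algebraMap (𝓞 ↥N) ↥N y' :=
            algebraMap.coe_smul' σ y' ↥N
          rw [map_sub, h3, hy']
          rfl
        have h4 : (algebraMap ↥N Qb) ((σ • y' - y' : 𝓞 ↥N) : ↥N) =
            ((σ y : ↥N) : Qb) - (y : Qb) := by
          rw [show ((σ • y' - y' : 𝓞 ↥N) : ↥N) = σ y - y from h2]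
          rfl
        rw [h4] at h1
        exact h1)
    apply Subtype.ext
    have h2 := hσN (algebraMap ↥K1 ↥N x)
    rw [← h2]
    exact hI σ' hσ' _ x.2
  have he := ramificationIdx'_eq_one_of_inertia_fixes p v w hvp hwv hwp hI'
  have : v.asIdeal.LiesOver p.asIdeal := ⟨hvp.symm⟩
  have h2 := HeightOneSpectrum.valuation_liesOver ↥K1 p v (q : ℚ)
  rw [he, pow_one, hp, valuation_rat_prime A hq hA] at h2
  rw [h2]
  congr 1

end Concrete

/-! ### The base field `K = K₁(μ_n : q ∤ n)` -/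

section Base

variable (A : ValuationSubring Qb) {q : ℕ}

/-- The value group of `K₁` at `A` is generated by the value of `q`. -/
theorem exists_zpow_valuation_eq_one (hq : q.Prime) (hA : (q : Qb) ∈ A.nonunits)
    (K1 : IntermediateField ℚ Qb) [FiniteDimensional ℚ K1]
    (hI : ∀ σ ∈ A.inertiaSubgroupIn ℚ, ∀ x ∈ K1, σ x = x) (y : Qb) (hy : y ∈ K1)
    (hy0 : y ≠ 0) : ∃ j : ℤ, A.valuation (y * (q : Qb) ^ j) = 1 := by
  haveI : NumberField ↥K1 := ⟨⟩
  have hv := valuation_prime_eq A hq hA K1 hI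
  have hy0' : (⟨y, hy⟩ : ↥K1) ≠ 0 := fun h => hy0 (congrArg Subtype.val h)
  have hval0 : (BaseUnr.placeOf A (algebraMap ↥K1 Qb) hq.ne_zero hA).valuation ↥K1 ⟨y, hy⟩ ≠ 0 :=
    (Valuation.ne_zero_iff _).mpr hy0'
  refine ⟨WithZero.log
    ((BaseUnr.placeOf A (algebraMap ↥K1 Qb) hq.ne_zero hA).valuation ↥K1 ⟨y, hy⟩), ?_⟩
  have hone : (BaseUnr.placeOf A (algebraMap ↥K1 Qb) hq.ne_zero hA).valuation ↥K1
      (⟨y, hy⟩ * ((q : ℕ) : ↥K1) ^ WithZero.log
        ((BaseUnr.placeOf A (algebraMap ↥K1 Qb) hq.ne_zero hA).valuation ↥K1 ⟨y, hy⟩)) = 1 := by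
    rw [map_mul, map_zpow₀, hv, ← WithZero.exp_zsmul]
    conv_lhs => rw [← WithZero.exp_log hval0]
    rw [← WithZero.exp_add, ← WithZero.exp_zero]
    congr 1
    simp
  rw [BaseUnr.valuation_eq_one_iff'] at hone
  have hc : algebraMap ↥K1 Qb (⟨y, hy⟩ * ((q : ℕ) : ↥K1) ^ WithZero.log
      ((BaseUnr.placeOf A (algebraMap ↥K1 Qb) hq.ne_zero hA).valuation ↥K1 ⟨y, hy⟩)) =
      y * (q : Qb) ^ WithZero.log
        ((BaseUnr.placeOf A (algebraMap ↥K1 Qb) hq.ne_zero hA).valuation ↥K1 ⟨y, hy⟩) := by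
    rw [map_mul, map_zpow₀, map_natCast]
    rfl
  rw [hc] at hone
  exact hone

/-- **(U1)** every nonzero element of `K = K₁(μ_n : q ∤ n)` is a power of `q` times a unit of
`A`, when the inertia group of `A` fixes `K₁` pointwise. -/
theorem exists_zpow_unit (hq : q.Prime) (hA : A.LiesOverPrime q)
    (K1 : IntermediateField ℚ Qb) [FiniteDimensional ℚ K1]
    (hI : ∀ σ ∈ A.inertiaSubgroupIn ℚ, ∀ x ∈ K1, σ x = x) :
    ∀ x ∈ Base.baseField q K1, x ≠ 0 →
      ∃ k : ℤ, x * (q : Qb) ^ k ∈ A ∧ (x * (q : Qb) ^ k)⁻¹ ∈ A := by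
  have hA' : (q : Qb) ∈ A.nonunits := hA
  obtain ⟨π, hπK, hπ0, hπA, hU⟩ := BaseUnr.exists_uniformizer A hq hA' K1
  have hq0 : (q : Qb) ≠ 0 := Nat.cast_ne_zero.mpr hq.ne_zero
  have hγ1 : A.valuation (q : Qb) < 1 := (BaseUnr.mem_nonunits_iff_valuation_lt_one A).1 hA'
  have hγ0 : 0 < A.valuation (q : Qb) := (Valuation.pos_iff _).2 hq0
  have hϖ1 : A.valuation π < 1 := (BaseUnr.mem_nonunits_iff_valuation_lt_one A).1 hπA
  obtain ⟨j, hj⟩ := exists_zpow_valuation_eq_one A hq hA' K1 hI π hπK hπ0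
  have hqK : (q : Qb) ∈ K1 ⊔ IntermediateField.adjoin ℚ
      {ζ : Qb | ∃ n : ℕ, ¬ q ∣ n ∧ ζ ^ n = 1} := natCast_mem _ q
  obtain ⟨k, hk1, hk2⟩ := hU (q : Qb) hqK hq0
  have hk : A.valuation ((q : Qb) * π ^ k) = 1 :=
    (BaseUnr.valuation_eq_one_iff A (mul_ne_zero hq0 (zpow_ne_zero _ hπ0))).2 ⟨hk1, hk2⟩
  rw [map_mul, map_zpow₀] at hj hk
  have hϖ : A.valuation π = A.valuation (q : Qb) ^ (-j) := by
    rw [zpow_neg]
    exact eq_inv_of_mul_eq_one_left hj
  have h1 : A.valuation (q : Qb) ^ (1 + (-j) * k) = A.valuation (q : Qb) ^ (0 : ℤ) := by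
    rw [zpow_add₀ hγ0.ne', zpow_one, zpow_mul, ← hϖ, zpow_zero]
    exact hk
  have h2 : 1 + (-j) * k = 0 := zpow_right_injective₀ hγ0 hγ1.ne h1
  have hj' : j = 1 ∨ j = -1 := by
    have h3 : j * k = 1 := by linarith
    exact Int.eq_one_or_neg_one_of_mul_eq_one h3
  have hϖγ : A.valuation π = A.valuation (q : Qb) := by
    rcases hj' with rfl | rfl
    · exfalso
      rw [zpow_neg, zpow_one] at hϖ
      have h4 : 1 < A.valuation π := by
        rw [hϖ]
        exact (one_lt_inv₀ hγ0).mpr hγ1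
      exact absurd hϖ1 (not_lt.mpr h4.le)
    · simpa using hϖ
  intro x hx hx0
  obtain ⟨k', h1', h2'⟩ := hU x hx hx0
  refine ⟨k', ?_⟩
  rw [← BaseUnr.valuation_eq_one_iff A (mul_ne_zero hx0 (zpow_ne_zero _ hq0))]
  have h5 := (BaseUnr.valuation_eq_one_iff A (mul_ne_zero hx0 (zpow_ne_zero _ hπ0))).2 ⟨h1', h2'⟩
  rw [map_mul, map_zpow₀] at h5 ⊢
  rw [← hϖγ]
  exact h5

/-- **(U2)** `q` itself is a uniformizer of `O = A ∩ K`, `K = K₁(μ_n : q ∤ n)`. -/
theorem exists_irreducible_eq_prime (hq : q.Prime) (hA : A.LiesOverPrime q)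
    (K1 : IntermediateField ℚ Qb) [FiniteDimensional ℚ K1]
    (hI : ∀ σ ∈ A.inertiaSubgroupIn ℚ, ∀ x ∈ K1, σ x = x) :
    ∃ p : OK A (Base.baseField q K1), ((p : Base.baseField q K1) : Qb) = (q : Qb) ∧
      Irreducible p ∧ ∀ x : OK A (Base.baseField q K1), x ≠ 0 →
        ∃ n : ℕ, ∃ u : (OK A (Base.baseField q K1))ˣ, p ^ n * u = x := by
  have hU := exists_zpow_unit A hq hA K1 hI
  have hq0 : ((q : ℕ) : Base.baseField q K1) ≠ 0 := Nat.cast_ne_zero.mpr hq.ne_zero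
  have hc : ∀ (x : Base.baseField q K1) (k : ℤ),
      ((x * ((q : ℕ) : Base.baseField q K1) ^ k : Base.baseField q K1) : Qb) =
        (x : Qb) * (q : Qb) ^ k := by
    intro x k
    show algebraMap (Base.baseField q K1) Qb (x * ((q : ℕ) : Base.baseField q K1) ^ k) = _
    rw [map_mul, map_zpow₀, map_natCast]
    rfl
  have hqA : (((q : ℕ) : Base.baseField q K1) : Qb) ∈ A.nonunits := by
    have h : (((q : ℕ) : Base.baseField q K1) : Qb) = (q : Qb) := by
      show algebraMap (Base.baseField q K1) Qb ((q : ℕ) : Base.baseField q K1) = _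
      rw [map_natCast]
    rw [h]
    exact hA
  obtain ⟨p, hpπ, hp, hfac⟩ := Base.exists_irreducible_and_forall_associated A
    (Base.baseField q K1) ((q : ℕ) : Base.baseField q K1) hq0 hqA (by
      intro x hx
      obtain ⟨k, hk1, hk2⟩ := hU (x : Qb) x.2 (fun h => hx (Subtype.ext h))
      exact ⟨k, by rw [hc]; exact hk1, by rw [hc]; exact hk2⟩)
  refine ⟨p, ?_, hp, hfac⟩
  rw [hpπ]
  show algebraMap (Base.baseField q K1) Qb ((q : ℕ) : Base.baseField q K1) = _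
  rw [map_natCast]

/-- The field fixed by one automorphism. -/
def fixedBy (σ : Qb ≃ₐ[ℚ] Qb) : IntermediateField ℚ Qb :=
  (AlgHom.equalizer (σ : Qb →ₐ[ℚ] Qb) (AlgHom.id ℚ Qb)).toIntermediateField (by
    intro x hx
    rw [AlgHom.mem_equalizer] at hx ⊢
    have hx' : σ x = x := hx
    show σ x⁻¹ = x⁻¹
    rw [map_inv₀, hx'])

theorem mem_fixedBy (σ : Qb ≃ₐ[ℚ] Qb) (x : Qb) : x ∈ fixedBy σ ↔ σ x = x := Iff.rfl

/-- **(U3)** the inertia group of `A` fixes `K = K₁(μ_n : q ∤ n)` pointwise if it fixes `K₁`. -/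
theorem inertia_fixes_baseField (hq : q.Prime) (hA : A.LiesOverPrime q)
    (K1 : IntermediateField ℚ Qb)
    (hI : ∀ σ ∈ A.inertiaSubgroupIn ℚ, ∀ x ∈ K1, σ x = x) :
    ∀ σ ∈ A.inertiaSubgroupIn ℚ, ∀ x ∈ Base.baseField q K1, σ x = x := by
  intro σ hσ x hx
  have h1 : K1 ≤ fixedBy σ := fun y hy => (mem_fixedBy σ y).mpr (hI σ hσ y hy)
  have h2 : IntermediateField.adjoin ℚ {ζ : Qb | ∃ n : ℕ, ¬ q ∣ n ∧ ζ ^ n = 1} ≤ fixedBy σ := by
    rw [IntermediateField.adjoin_le_iff]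
    rintro ζ ⟨n, hn, hζ⟩
    have hn0 : n ≠ 0 := fun h => hn (h ▸ dvd_zero q)
    exact (mem_fixedBy σ ζ).mpr
      (Fermat.Agent.S30.CycN.inertia_apply_of_pow_eq_one hn0 hq hn A hA σ hσ ζ hζ)
  exact (mem_fixedBy σ x).mp ((sup_le h1 h2 : Base.baseField q K1 ≤ fixedBy σ) hx)

/-- **(U4)** the unramified base: for a finite set `S` of constants fixed by the inertia group
of `A` there is a field `K ∋ S`, fixed pointwise by the inertia group, with `BaseFacts` (S18)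
and such that `q` is a uniformizer of the discrete valuation ring `O = A ∩ K`. -/
theorem exists_unramified_base (hq : q.Prime) (hA : A.LiesOverPrime q) (S : Finset Qb)
    (hS : ∀ c ∈ S, ∀ σ ∈ A.inertiaSubgroupIn ℚ, σ c = c) :
    ∃ K : IntermediateField ℚ Qb, (↑S ⊆ (K : Set Qb)) ∧ BaseFacts q A K ∧
      (∃ p : OK A K, ((p : K) : Qb) = (q : Qb) ∧ Irreducible p ∧
        ∀ x : OK A K, x ≠ 0 → ∃ n : ℕ, ∃ u : (OK A K)ˣ, p ^ n * u = x) ∧
      ∀ σ ∈ A.inertiaSubgroupIn ℚ, ∀ x ∈ K, σ x = x := by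
  haveI : Fact q.Prime := ⟨hq⟩
  let K1 : IntermediateField ℚ Qb := IntermediateField.adjoin ℚ (S : Set Qb)
  haveI : FiniteDimensional ℚ K1 :=
    IntermediateField.finiteDimensional_adjoin fun x _ =>
      (BaseUnr.isIntegral_rat_Qbar).isIntegral x
  have hI : ∀ σ ∈ A.inertiaSubgroupIn ℚ, ∀ x ∈ K1, σ x = x := by
    intro σ hσ x hx
    have h1 : K1 ≤ fixedBy σ := by
      rw [IntermediateField.adjoin_le_iff]
      intro c hc
      exact (mem_fixedBy σ c).mpr (hS c (Finset.mem_coe.mp hc) σ hσ)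
    exact (mem_fixedBy σ x).mp (h1 hx)
  refine ⟨Base.baseField q K1, ?_, Base.baseFacts A q hA K1,
    exists_irreducible_eq_prime A hq hA K1 hI, inertia_fixes_baseField A hq hA K1 hI⟩
  intro c hc
  exact Base.le_baseField q K1 (IntermediateField.subset_adjoin ℚ _ hc)

end Base

end

end Fermat.Agent.S36.UnrBase
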