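/-
S36, block [UNR], part 2 (helper21): the inertia field as the unramified base.

`L = ℚ̄^{I}`, `I` the inertia group of a valuation subring `A` of `ℚ̄` over `q`:
`O = A ∩ L` is a discrete valuation ring with uniformizer `q`, `O → ResidueField A` is onto,
`L` contains the roots of unity of order prime to `q` (S18 `BaseFacts`), and `I` fixes `L`
pointwise.  This is the base `K := IntermediateField.fixedField I` of the architect's plan
(`UnrBase q A K`), so that no finite-generation lemma is needed by the consumers.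
-/
import Mathlib
import Fermat.Agent.S36.UnrBase

set_option autoImplicit false
set_option linter.style.haveILetI false

namespace Fermat.Agent.S36.UnrBaseL

open Fermat.Agent.S18 Fermat.Agent.S18.Arith Fermat.Agent.S36.UnrBase

noncomputable section

variable (A : ValuationSubring Qb) {q : ℕ}

/-- The inertia field of `A`. -/
abbrev inertiaField : IntermediateField ℚ Qb :=
  IntermediateField.fixedField (A.inertiaSubgroupIn ℚ)

theorem mem_inertiaField_iff (x : Qb) :
    x ∈ inertiaField A ↔ ∀ σ ∈ A.inertiaSubgroupIn ℚ, σ x = x :=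
  IntermediateField.mem_fixedField_iff _ x

/-- Roots of unity of order prime to `q` lie in the inertia field. -/
theorem rootOfUnity_mem_inertiaField (hq : q.Prime) (hA : A.LiesOverPrime q) (n : ℕ) (ζ : Qb)
    (hn : ¬ q ∣ n) (hζ : ζ ^ n = 1) : ζ ∈ inertiaField A := by
  rw [mem_inertiaField_iff]
  intro σ hσ
  have hn0 : n ≠ 0 := fun h => hn (h ▸ dvd_zero q)
  exact Fermat.Agent.S30.CycN.inertia_apply_of_pow_eq_one hn0 hq hn A hA σ hσ ζ hζ

/-- Every nonzero element of the inertia field is a power of `q` times a unit of `A`. -/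
theorem exists_zpow_unit_inertiaField (hq : q.Prime) (hA : A.LiesOverPrime q) (x : Qb)
    (hx : x ∈ inertiaField A) (hx0 : x ≠ 0) :
    ∃ k : ℤ, x * (q : Qb) ^ k ∈ A ∧ (x * (q : Qb) ^ k)⁻¹ ∈ A := by
  let K1 : IntermediateField ℚ Qb := IntermediateField.adjoin ℚ {x}
  haveI : FiniteDimensional ℚ K1 :=
    IntermediateField.adjoin.finiteDimensional ((BaseUnr.isIntegral_rat_Qbar).isIntegral x)
  have hI : ∀ σ ∈ A.inertiaSubgroupIn ℚ, ∀ y ∈ K1, σ y = y := by
    intro σ hσ y hy
    have h1 : K1 ≤ fixedBy σ := by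
      rw [IntermediateField.adjoin_le_iff]
      intro c hc
      rw [Set.mem_singleton_iff] at hc
      subst hc
      exact (mem_fixedBy σ c).mpr ((mem_inertiaField_iff A c).mp hx σ hσ)
    exact (mem_fixedBy σ y).mp (h1 hy)
  exact exists_zpow_unit A hq hA K1 hI x
    (Base.le_baseField q K1 (IntermediateField.mem_adjoin_simple_self ℚ x)) hx0

/-- **The inertia field is an unramified base**: `BaseFacts` (S18), `q` is a uniformizer of
`O = A ∩ L`, and the inertia group fixes `L` pointwise.  (= `UnrBase q A L` of the plan.) -/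
theorem unrBase_inertiaField (hq : q.Prime) (hA : A.LiesOverPrime q) :
    BaseFacts q A (inertiaField A) ∧
    (∃ p : OK A (inertiaField A), ((p : inertiaField A) : Qb) = (q : Qb) ∧ Irreducible p) ∧
    ∀ σ ∈ A.inertiaSubgroupIn ℚ, ∀ x ∈ inertiaField A, σ x = x := by
  haveI : Fact q.Prime := ⟨hq⟩
  have hq0 : ((q : ℕ) : inertiaField A) ≠ 0 := Nat.cast_ne_zero.mpr hq.ne_zero
  have hc : ∀ (x : inertiaField A) (k : ℤ),
      ((x * ((q : ℕ) : inertiaField A) ^ k : inertiaField A) : Qb) = (x : Qb) * (q : Qb) ^ k := by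
    intro x k
    show algebraMap (inertiaField A) Qb (x * ((q : ℕ) : inertiaField A) ^ k) = _
    rw [map_mul, map_zpow₀, map_natCast]
    rfl
  have hqq : (((q : ℕ) : inertiaField A) : Qb) = (q : Qb) := by
    show algebraMap (inertiaField A) Qb ((q : ℕ) : inertiaField A) = _
    rw [map_natCast]
  have hqA : (((q : ℕ) : inertiaField A) : Qb) ∈ A.nonunits := by
    rw [hqq]
    exact hA
  have hU : ∀ x : inertiaField A, x ≠ 0 →
      ∃ k : ℤ, ((x * ((q : ℕ) : inertiaField A) ^ k : inertiaField A) : Qb) ∈ A ∧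
        (((x * ((q : ℕ) : inertiaField A) ^ k : inertiaField A) : Qb))⁻¹ ∈ A := by
    intro x hx
    obtain ⟨k, hk1, hk2⟩ := exists_zpow_unit_inertiaField A hq hA (x : Qb) x.2
      (fun h => hx (Subtype.ext h))
    exact ⟨k, by rw [hc]; exact hk1, by rw [hc]; exact hk2⟩
  refine ⟨⟨Base.isDiscreteValuationRing_OK A _ _ hq0 hqA hU, ?_, ?_⟩, ?_, ?_⟩
  · intro a
    obtain ⟨b, hb, hab⟩ := BaseRes.exists_mem_sub_mem_nonunits q A hA (inertiaField A)
      (fun n ζ hn hζ => rootOfUnity_mem_inertiaField A hq hA n ζ hn hζ) (a : Qb) a.2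
    refine ⟨b, hb, ?_⟩
    rw [← sub_eq_zero, ← map_sub, IsLocalRing.residue_eq_zero_iff,
      ← ValuationSubring.coe_mem_nonunits_iff]
    exact hab
  · intro n ζ hn hζ
    exact rootOfUnity_mem_inertiaField A hq hA n ζ hn hζ
  · obtain ⟨p, hpπ, hp, -⟩ := Base.exists_irreducible_and_forall_associated A
      (inertiaField A) ((q : ℕ) : inertiaField A) hq0 hqA hU
    exact ⟨p, by rw [hpπ]; exact hqq, hp⟩
  · intro σ hσ x hx
    exact (mem_inertiaField_iff A x).mp hx σ hσ

/-- The uniformizer with its factorisation property (for consumers that want more than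
irreducibility). -/
theorem exists_irreducible_inertiaField (hq : q.Prime) (hA : A.LiesOverPrime q) :
    ∃ p : OK A (inertiaField A), ((p : inertiaField A) : Qb) = (q : Qb) ∧ Irreducible p ∧
      ∀ x : OK A (inertiaField A), x ≠ 0 →
        ∃ n : ℕ, ∃ u : (OK A (inertiaField A))ˣ, p ^ n * u = x := by
  have hq0 : ((q : ℕ) : inertiaField A) ≠ 0 := Nat.cast_ne_zero.mpr hq.ne_zero
  have hqq : (((q : ℕ) : inertiaField A) : Qb) = (q : Qb) := by
    show algebraMap (inertiaField A) Qb ((q : ℕ) : inertiaField A) = _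
    rw [map_natCast]
  have hqA : (((q : ℕ) : inertiaField A) : Qb) ∈ A.nonunits := by
    rw [hqq]
    exact hA
  obtain ⟨p, hpπ, hp, hfac⟩ := Base.exists_irreducible_and_forall_associated A
    (inertiaField A) ((q : ℕ) : inertiaField A) hq0 hqA (by
      intro x hx
      obtain ⟨k, hk1, hk2⟩ := exists_zpow_unit_inertiaField A hq hA (x : Qb) x.2
        (fun h => hx (Subtype.ext h))
      have hc : ((x * ((q : ℕ) : inertiaField A) ^ k : inertiaField A) : Qb) =
          (x : Qb) * (q : Qb) ^ k := by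
        show algebraMap (inertiaField A) Qb (x * ((q : ℕ) : inertiaField A) ^ k) = _
        rw [map_mul, map_zpow₀, map_natCast]
        rfl
      exact ⟨k, by rw [hc]; exact hk1, by rw [hc]; exact hk2⟩)
  exact ⟨p, by rw [hpπ]; exact hqq, hp, hfac⟩

end

end Fermat.Agent.S36.UnrBaseL
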