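/-
S36 — LocAsm3L.lean (helper41).  [ASM36], half (E2): the K-ENLARGEMENT seam of the chain.

The conclusion of `Plan.KummerPowStatement` (`f ^ c = a · h ^ m` in `F̄`) does not mention the
base field `K`, and every unramified base `K` (`Plan.UnrBase q A K`: the inertia group of `A`
fixes `K` pointwise) lies in the inertia field `L = ℚ̄^{I_A}`, with `F_K ⊆ F_L`.  Hence the inputs
of the chain (`LocAsm3.CorrProp`, `LocAsm3.TorOutProp`, the model) are needed over the ONE base
`L` only — where more is true than over a general `K`: `L` is stable under every Frobenius lift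
at `A` (under the whole decomposition group), and Frobenius lifts exist.

* `fk_mono`               — `F_K ⊆ F_{K'}` for `K ≤ K'`;
* `le_inertiaField`       — `Plan.UnrBase q A K → K ≤ L`;
* `unrBase_inertiaField`  — `Plan.UnrBase q A L`;
* `exists_frob`, `stable_inertiaField` — a Frobenius lift `σs` at `A` exists, and `L` is
                            `TauAct.Stable` under every Frobenius lift;
* `locData_point`         — the chain of `LocAsm3` for ONE `(m, A, K, f)` (any `K`);
* `kummer_point`          — [CORE] for ONE `(m, A, K, f)`: local data ⟹ `f ^ e = a · h ^ m`;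
* `ChainStatementL`       — the input of the chain over the inertia field only;
* `kummerPow_of_chainL`   — `ChainStatementL M q → Plan.KummerPowStatement M q (((q+1)(q-1))²)`.
-/
import Mathlib
import Fermat.Agent.S34.TauAct
import Fermat.Agent.S37.FrobEx
import Fermat.Agent.S36.LocAsm3
import Fermat.Agent.S36.BaseL
import Fermat.Agent.S36.UnrBaseL

set_option autoImplicit false

open ModularCurve AlgebraicCurve HahnSeries

namespace Fermat.Agent.S36.LocAsm3L

open Fermat.Agent.S18.Arith Fermat.Agent.S34 Fermat.Agent.S35 Fermat.Agent.S36.Model3Plan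
open Fermat.Agent.S35.ModelFPlan (NormCond)
open Fermat.Agent.S36.LocAsm3 (CorrProp TorOutProp)

noncomputable section

/-! ### The inertia field as a base -/

section Base

/-- `F_K` grows with `K`. -/
theorem fk_mono (N : ℕ) {K K' : IntermediateField ℚ Qb} (hK : K ≤ K') : FK N K ≤ FK N K' := by
  unfold FK
  apply Subfield.closure_mono
  apply Set.union_subset_union_left
  rintro _ ⟨c, rfl⟩
  exact ⟨⟨(c : Qb), hK c.2⟩, rfl⟩

variable {q : ℕ} [Fact q.Prime] {A : ValuationSubring Qb}

/-- Every unramified base lies in the inertia field. -/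
theorem le_inertiaField {K : IntermediateField ℚ Qb} (hK : Plan.UnrBase q A K) :
    K ≤ UnrBaseL.inertiaField A := by
  intro x hx
  rw [UnrBaseL.mem_inertiaField_iff]
  intro σ hσ
  exact hK.2.2 σ hσ x hx

/-- The inertia field is an unramified base. -/
theorem unrBase_inertiaField (hA : A.LiesOverPrime q) :
    Plan.UnrBase q A (UnrBaseL.inertiaField A) :=
  UnrBaseL.unrBase_inertiaField A Fact.out hA

/-- A Frobenius lift at `A` exists. -/
theorem exists_frob (hA : A.LiesOverPrime q) : ∃ σs : Qb ≃ₐ[ℚ] Qb, A.IsFrobeniusAt σs q :=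
  Fermat.Agent.S37.FrobEx.exists_isFrobeniusAt_of_liesOver q Fact.out A hA

/-- The inertia field is stable under the decomposition group of `A`. -/
theorem stable_of_mem_decomposition {g : Qb ≃ₐ[ℚ] Qb} (hg : g ∈ A.decompositionSubgroup ℚ) :
    TauAct.Stable (UnrBaseL.inertiaField A) g := by
  refine ⟨fun c hc => (BaseL.apply_mem_inertiaField_iff hg c).2 hc, fun c hc => ?_⟩
  refine (BaseL.apply_mem_inertiaField_iff hg (g.symm c)).1 ?_
  rw [AlgEquiv.apply_symm_apply]
  exact hc

/-- The inertia field is stable under every Frobenius lift at `A`. -/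
theorem stable_inertiaField {σs : Qb ≃ₐ[ℚ] Qb} (h : A.IsFrobeniusAt σs q) :
    TauAct.Stable (UnrBaseL.inertiaField A) σs :=
  stable_of_mem_decomposition h.mem_decompositionSubgroup

end Base

/-! ### The chain and [CORE] for one `(m, A, K, f)` -/

section Point

variable {M q : ℕ} [NeZero M] [NeZero q] [Fact q.Prime] {m : ℕ} {A : ValuationSubring Qb}
  {K : IntermediateField ℚ Qb} [hdvr : IsDiscreteValuationRing (OK A K)] {π : OK A K}
  {ϖ : Fin 3 → FK (M * q * q) K} {V : Fin 3 → ValuationSubring (FK (M * q * q) K)}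
  {t : FK (M * q * q) K}

/-- **The chain for one `f`** (the proof of `LocAsm3.locData_of_chain`, pointwise in
`(m, A, K, f)`): the local data of `CoreAsm3.LocDataStatement` for the given model. -/
theorem locData_point (hqm : ¬ q ∣ m) (hA : A.LiesOverPrime q)
    (Md : Model3 (M * q * q) A K π (ram q) ϖ V t)
    (hcorr : CorrProp M q m A K π ϖ V) (htor : TorOutProp M q m A K π V t)
    (f : modularFunctionFieldBar (M * q * q)) (hf : f ≠ 0)
    (hfK : (f : LaurentSeries Qb) ∈ FK (M * q * q) K)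
    (hdvd : ∀ P : Place Qb (modularFunctionFieldBar (M * q * q)), (m : ℤ) ∣ P.ord f)
    (hnorm : NormCond (M * q) q m f) :
    ∃ (G H : FK (M * q * q) K) (a : Qb),
      OneMod (algebraMap (OK A K) (FK (M * q * q) K) π) V G ∧
      (∀ n : Ideal (chart (M * q * q) A K t), n.IsMaximal →
        algebraMap (OK A K) (chart (M * q * q) A K t) π ∈ n →
        AbsTopN.LocForm (chart (M * q * q) A K t) π V G m n) ∧
      (∀ n : Ideal (chart (M * q * q) A K t⁻¹), n.IsMaximal →
        algebraMap (OK A K) (chart (M * q * q) A K t⁻¹) π ∈ n →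
        AbsTopN.LocForm (chart (M * q * q) A K t⁻¹) π V G m n) ∧
      a ≠ 0 ∧ H ≠ 0 ∧
      Fermat.Agent.S18.Glob.toBar (M * q * q) K G =
        f ^ (((q + 1) * (q - 1)) ^ 2) * algebraMap Qb (modularFunctionFieldBar (M * q * q)) a *
          Fermat.Agent.S18.Glob.toBar (M * q * q) K H ^ m := by
  have hmU : IsUnit ((m : ℕ) : OK A K) :=
    Fermat.Agent.S18.FinalCore.isUnit_natCast_OK A hA K hqm
  -- the descent of `f`
  have hfbar : Fermat.Agent.S18.Glob.toBar (M * q * q) K
      (SigmaCoe.liftFK (M * q * q) f hfK) = f := SigmaCoe.toBar_liftFK (M * q * q) f hfK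
  have hfK0 : SigmaCoe.liftFK (M * q * q) f hfK ≠ 0 := SigmaCoe.liftFK_ne_zero (M * q * q) hfK hf
  generalize SigmaCoe.liftFK (M * q * q) f hfK = fK at hfbar hfK0
  -- the first half
  obtain ⟨k, H₁, hH₁, hone⟩ :=
    LocAsm3.exists_G1 Md hmU hcorr fK hfK0 (by rw [hfbar]; exact hnorm)
  -- the image of `G₁` in `F̄`
  have hπ0 : (((π : OK A K) : K) : Qb) ≠ 0 := by
    intro h0
    apply CoreAsm3.pi_ne_zero Md
    apply (Fermat.Agent.S18.Glob.toBar (M * q * q) K).injective
    rw [Fermat.Agent.S18.Glob.toBar_algebraMap, h0, map_zero, map_zero]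
  have hH₁b : Fermat.Agent.S18.Glob.toBar (M * q * q) K H₁ ≠ 0 := fun h0 =>
    hH₁ ((Fermat.Agent.S18.Glob.toBar (M * q * q) K).injective (by rw [h0, map_zero]))
  have hbar : Fermat.Agent.S18.Glob.toBar (M * q * q) K
      (fK ^ ((q + 1) * (q - 1)) * algebraMap (OK A K) (FK (M * q * q) K) π ^ k * H₁ ^ m) =
      f ^ ((q + 1) * (q - 1)) *
        algebraMap Qb (modularFunctionFieldBar (M * q * q)) ((((π : OK A K) : K) : Qb) ^ k) *
        Fermat.Agent.S18.Glob.toBar (M * q * q) K H₁ ^ m := by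
    rw [map_mul, map_mul, map_pow, map_pow, map_zpow₀, Fermat.Agent.S18.Glob.toBar_algebraMap,
      hfbar, map_zpow₀]
  generalize fK ^ ((q + 1) * (q - 1)) * algebraMap (OK A K) (FK (M * q * q) K) π ^ k * H₁ ^ m
    = G₁ at hone hbar
  have hak : (((π : OK A K) : K) : Qb) ^ k ≠ 0 := zpow_ne_zero _ hπ0
  -- `G₁` inherits the conditions on `f`
  have hG₁b0 : Fermat.Agent.S18.Glob.toBar (M * q * q) K G₁ ≠ 0 := by
    rw [hbar]
    refine mul_ne_zero (mul_ne_zero (pow_ne_zero _ hf) ?_) (pow_ne_zero _ hH₁b)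
    rw [Ne, map_eq_zero]
    exact hak
  have hdiv₁ : ∀ P : Place Qb (modularFunctionFieldBar (M * q * q)),
      (m : ℤ) ∣ P.ord (Fermat.Agent.S18.Glob.toBar (M * q * q) K G₁) := by
    intro P
    rw [hbar]
    exact LocAsm3.dvd_ord_mul_pow hf hdvd _ hak hH₁b P
  have hnorm₁ : NormCond (M * q) q m (Fermat.Agent.S18.Glob.toBar (M * q * q) K G₁) := by
    rw [hbar]
    exact LocAsm3.normCond_mul_pow (M * q) q hnorm _ hak hH₁b
  have hHor0 : Hor3 π m G₁ (chart (M * q * q) A K t) := by
    have := Md.c0.noeth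
    have := Md.c0.frac
    exact Hor3.hor3 (M * q * q) A K m _ hG₁b0 hdiv₁ hdvr π Md.irr G₁ rfl _
  have hHorInf : Hor3 π m G₁ (chart (M * q * q) A K t⁻¹) := by
    have := Md.cInf.noeth
    have := Md.cInf.frac
    exact Hor3.hor3 (M * q * q) A K m _ hG₁b0 hdiv₁ hdvr π Md.irr G₁ rfl _
  -- the second half
  obtain ⟨H₂, hH₂, hone₂, hl0, hlInf⟩ := htor G₁ hone hHor0 hHorInf hnorm₁
  refine ⟨G₁ ^ ((q + 1) * (q - 1)) * H₂ ^ m, H₁ ^ ((q + 1) * (q - 1)) * H₂,
    ((((π : OK A K) : K) : Qb) ^ k) ^ ((q + 1) * (q - 1)), hone₂, hl0, hlInf, pow_ne_zero _ hak,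
    mul_ne_zero (pow_ne_zero _ hH₁) hH₂, ?_⟩
  rw [map_mul, map_pow, map_pow, hbar, map_mul, map_pow, map_pow]
  ring

/-- **[CORE] for one `f`** (the proof of `Plan.kummerPow_of_coreData`, pointwise): the local
data for a model give `f ^ e = a · h ^ m`. -/
theorem kummer_point (hqm : ¬ q ∣ m) (hA : A.LiesOverPrime q) {e : Fin 3 → ℕ}
    (Md : Model3 (M * q * q) A K π e ϖ V t)
    (f : modularFunctionFieldBar (M * q * q)) (c : ℕ) {G H : FK (M * q * q) K} {a : Qb}
    (hG : OneMod (algebraMap (OK A K) (FK (M * q * q) K) π) V G)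
    (hl0 : ∀ n : Ideal (chart (M * q * q) A K t), n.IsMaximal →
      algebraMap (OK A K) (chart (M * q * q) A K t) π ∈ n →
      AbsTopN.LocForm (chart (M * q * q) A K t) π V G m n)
    (hlInf : ∀ n : Ideal (chart (M * q * q) A K t⁻¹), n.IsMaximal →
      algebraMap (OK A K) (chart (M * q * q) A K t⁻¹) π ∈ n →
      AbsTopN.LocForm (chart (M * q * q) A K t⁻¹) π V G m n)
    (ha : a ≠ 0) (hH0 : H ≠ 0)
    (hGf : Fermat.Agent.S18.Glob.toBar (M * q * q) K G =
      f ^ c * algebraMap Qb (modularFunctionFieldBar (M * q * q)) a *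
        Fermat.Agent.S18.Glob.toBar (M * q * q) K H ^ m) :
    ∃ (h : modularFunctionFieldBar (M * q * q)) (a' : Qb), h ≠ 0 ∧ a' ≠ 0 ∧
      f ^ c = algebraMap Qb (modularFunctionFieldBar (M * q * q)) a' * h ^ m := by
  have hH : AbsTopN.HypN π m t (chart (M * q * q) A K t) (chart (M * q * q) A K t⁻¹) V G :=
    CoreAsm3.hypN_of_model3 Md (Fermat.Agent.S18.FinalCore.isUnit_natCast_OK A hA K hqm) hG
      hl0 hlInf
  obtain ⟨h, hh0, hh1, hh2, -⟩ := AbsTopN.exists_rootN hH
  have hG0 : G ≠ 0 := by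
    intro h0
    obtain ⟨i⟩ := hH.ne
    obtain ⟨z, hz, hcz⟩ := hH.hw i
    rw [h0, zero_sub] at hcz
    apply hH.pi_not i
    have h1 : algebraMap (OK A K) (FK (M * q * q) K) π * (-z) = 1 := by
      rw [mul_neg, ← hcz, neg_neg]
    rw [inv_eq_of_mul_eq_one_right h1]
    exact neg_mem hz
  have hne : G * h ^ m ≠ 0 := mul_ne_zero hG0 (pow_ne_zero m hh0)
  have hord : ∀ P : Place Qb (modularFunctionFieldBar (M * q * q)),
      P.ord (Fermat.Agent.S18.Glob.toBar (M * q * q) K (G * h ^ m)) = 0 :=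
    fun P => UPlan.ord_eq_zero_of_mem_charts (M * q * q) A K t (G * h ^ m) hh1 hh2 hne P
  obtain ⟨b, hb⟩ := Fermat.Agent.S29.KTheta.mem_range_of_ord_eq_zero
    (Fermat.Agent.S18.Red.isFF1_bar (M * q * q)) _ hord
  set hb' : modularFunctionFieldBar (M * q * q) :=
    Fermat.Agent.S18.Glob.toBar (M * q * q) K h with hhb'
  set Hb : modularFunctionFieldBar (M * q * q) :=
    Fermat.Agent.S18.Glob.toBar (M * q * q) K H with hHb
  have hhb0 : hb' ≠ 0 := fun h0 =>
    hh0 ((Fermat.Agent.S18.Glob.toBar (M * q * q) K).injective (by rw [← hhb', h0, map_zero]))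
  have hHb0 : Hb ≠ 0 := fun h0 =>
    hH0 ((Fermat.Agent.S18.Glob.toBar (M * q * q) K).injective (by rw [← hHb, h0, map_zero]))
  have hb0 : b ≠ 0 := by
    intro h0
    apply hne
    apply (Fermat.Agent.S18.Glob.toBar (M * q * q) K).injective
    rw [← hb, h0, map_zero, map_zero]
  have ha' : algebraMap Qb (modularFunctionFieldBar (M * q * q)) a ≠ 0 := by
    rw [Ne, map_eq_zero]
    exact ha
  have key : f ^ c * algebraMap Qb (modularFunctionFieldBar (M * q * q)) a * Hb ^ m * hb' ^ m =
      algebraMap Qb (modularFunctionFieldBar (M * q * q)) b := by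
    rw [hb, map_mul, map_pow, hGf]
  refine ⟨(Hb * hb')⁻¹, b / a, inv_ne_zero (mul_ne_zero hHb0 hhb0), div_ne_zero hb0 ha, ?_⟩
  rw [map_div₀, ← key, inv_pow, mul_pow]
  field_simp

end Point

/-! ### The chain over the inertia field -/

/-- **The input of the chain over the inertia field `L = ℚ̄^{I_A}` only**: a model over
`O = A ∩ L` with the corrector property [CORR36] and the toric/local property
[TORIC36] + [LOC36] for its valuation rings. -/
def ChainStatementL (M q : ℕ) [NeZero M] [NeZero q] [Fact q.Prime] : Prop :=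
  ∀ m : ℕ, m ≠ 0 → ¬ q ∣ m → ∀ A : ValuationSubring Qb, A.LiesOverPrime q →
    ∃ (_ : IsDiscreteValuationRing (OK A (UnrBaseL.inertiaField A)))
      (π : OK A (UnrBaseL.inertiaField A)) (t : FK (M * q * q) (UnrBaseL.inertiaField A))
      (ϖ : Fin 3 → FK (M * q * q) (UnrBaseL.inertiaField A))
      (V : Fin 3 → ValuationSubring (FK (M * q * q) (UnrBaseL.inertiaField A))),
      Nonempty (Model3 (M * q * q) A (UnrBaseL.inertiaField A) π (ram q) ϖ V t) ∧
      CorrProp M q m A (UnrBaseL.inertiaField A) π ϖ V ∧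
      TorOutProp M q m A (UnrBaseL.inertiaField A) π V t

/-- The chain over all unramified bases gives the chain over the inertia field. -/
theorem chainL_of_chain (M q : ℕ) [NeZero M] [NeZero q] [Fact q.Prime]
    (h : LocAsm3.ChainStatement M q) : ChainStatementL M q :=
  fun m hm hqm A hA => h m hm hqm A hA _ (unrBase_inertiaField hA)

/-- **[ASM36] (E2) + [CORE] over the inertia field**: the chain over `L` gives the
function-field core (P3) for EVERY unramified base `K` (`K ≤ L`, `F_K ⊆ F_L`). -/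
theorem kummerPow_of_chainL (M q : ℕ) [NeZero M] [NeZero q] [Fact q.Prime]
    (h : ChainStatementL M q) :
    Plan.KummerPowStatement M q (((q + 1) * (q - 1)) ^ 2) := by
  intro m hm hqm A hA K hK f hf hfK hdvd hnorm
  obtain ⟨hdvr, π, t, ϖ, V, ⟨Md⟩, hcorr, htor⟩ := h m hm hqm A hA
  have hfL : (f : LaurentSeries Qb) ∈ FK (M * q * q) (UnrBaseL.inertiaField A) :=
    fk_mono (M * q * q) (le_inertiaField hK) hfK
  obtain ⟨G, H, a, hG, hl0, hlInf, ha, hH, hGf⟩ :=
    locData_point hqm hA Md hcorr htor f hf hfL hdvd hnorm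
  exact kummer_point hqm hA Md f _ hG hl0 hlInf ha hH hGf

end

end Fermat.Agent.S36.LocAsm3L
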