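import Fermat.Agent.S34.WK

/-!
# S36 [MODEL3 / AL2] — WQ2.lean (helper79): the Atkin–Lehner involution at `q²`

Level `(M * q) * q` with `q` prime, `q ∤ M`; lower level `M * q`.

* `swap2`  : the permutation `d ↔ d q²`, `d q ↦ d q` (`d ∣ M`) of the divisors of `M q²`;
* `wBar2`  : the Atkin–Lehner involution `w_{q²}` of `F̄_{Mq²}` (analytically `z ↦ γ₀ (q² z)`,
  `γ₀ = [[a, b], [M, q²]]`), with `wBar2 (j(x^e)) = j(x^{swap2 e})`;
* `wBar2_alpha`, `wBar2_beta` : `w_{q²} ∘ α = β ∘ w_q`, `w_{q²} ∘ β = α ∘ w_q`, where `α, β` are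
  the two degeneracy maps `F̄_{Mq} → F̄_{Mq²}` and `w_q` is the Atkin–Lehner involution of level
  `M q` (`S34.WK.wBar`);
* `wK2`, `alphaK2`, `betaK2` : the same over an intermediate field `K` of `ℚ̄/ℚ`;
* Galois commutation and chart lemmas, as in `S34/WK`.
-/

set_option autoImplicit false

noncomputable section

namespace Fermat.Agent.S36.WQ2

open ModularCurve ModularCurve.IgusaScheme AlgebraicCurve HahnSeries UpperHalfPlane
open Fermat.Agent.S18.Arith Fermat.Agent.S24 Fermat.Agent.S23 Fermat.Agent.LevelOne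
open scoped MatrixGroups

set_option synthInstance.maxHeartbeats 400000

/-! ### The analytic substitution -/

section Point

/-- `(d q) · γ₀ (q² z) = γ₂ (d q z)`. -/
theorem mulN_dq_smul (M q d : ℕ) [NeZero q] [NeZero (d * q)] [NeZero (q ^ 2)]
    (γ₀ γ₂ : SL(2, ℤ)) (a b c : ℤ)
    (h₀ : (γ₀ : Matrix (Fin 2) (Fin 2) ℤ) = !![a, b; (M : ℤ), ((q ^ 2 : ℕ) : ℤ)])
    (h₂ : (γ₂ : Matrix (Fin 2) (Fin 2) ℤ) = !![a * q, d * b; c, (q : ℤ)])
    (hc : (M : ℤ) = d * c) (z : ℍ) :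
    mulN (d * q) (γ₀ • mulN (q ^ 2) z) = γ₂ • mulN (d * q) z := by
  have e00 : (γ₀ 0 0 : ℤ) = a := by
    have := congrFun (congrFun h₀ 0) 0; simpa using this
  have e01 : (γ₀ 0 1 : ℤ) = b := by
    have := congrFun (congrFun h₀ 0) 1; simpa using this
  have e10 : (γ₀ 1 0 : ℤ) = M := by
    have := congrFun (congrFun h₀ 1) 0; simpa using this
  have e11 : (γ₀ 1 1 : ℤ) = ((q ^ 2 : ℕ) : ℤ) := by
    have := congrFun (congrFun h₀ 1) 1; simpa using this
  have f00 : (γ₂ 0 0 : ℤ) = a * q := by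
    have := congrFun (congrFun h₂ 0) 0; simpa using this
  have f01 : (γ₂ 0 1 : ℤ) = d * b := by
    have := congrFun (congrFun h₂ 0) 1; simpa using this
  have f10 : (γ₂ 1 0 : ℤ) = c := by
    have := congrFun (congrFun h₂ 1) 0; simpa using this
  have f11 : (γ₂ 1 1 : ℤ) = q := by
    have := congrFun (congrFun h₂ 1) 1; simpa using this
  have hden0 : denom γ₀ (mulN (q ^ 2) z) ≠ 0 := denom_ne_zero _ _
  have hden1 : denom γ₂ (mulN (d * q) z) ≠ 0 := denom_ne_zero _ _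
  rw [ModularGroup.denom_apply] at hden0 hden1
  apply UpperHalfPlane.ext
  rw [coe_mulN, UpperHalfPlane.coe_specialLinearGroup_apply,
    UpperHalfPlane.coe_specialLinearGroup_apply]
  simp only [algebraMap_int_eq, Int.coe_castRingHom, Complex.ofReal_intCast]
  rw [e10, e11, coe_mulN] at hden0
  rw [f10, f11, coe_mulN] at hden1
  rw [e00, e01, e10, e11, f00, f01, f10, f11, coe_mulN, coe_mulN]
  rw [mul_div_assoc', div_eq_div_iff hden0 hden1]
  have hc' : ((M : ℤ) : ℂ) = (d : ℂ) * (c : ℂ) := by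
    rw [hc]; push_cast; ring
  rw [hc']
  push_cast
  ring

/-- **The analytic Atkin–Lehner substitution at `q²`.** -/
theorem exists_al2_point (M q : ℕ) [NeZero M] [NeZero q] (hcop : Nat.Coprime (q ^ 2) M) :
    ∃ w : ℍ → ℍ, ∀ (d : ℕ) [NeZero d] [NeZero (d * q)] [NeZero (d * q ^ 2)], d ∣ M → ∀ z : ℍ,
      jAt d (w z) = jAt (d * q ^ 2) z ∧ jAt (d * q ^ 2) (w z) = jAt d z ∧
        jAt (d * q) (w z) = jAt (d * q) z := by
  obtain ⟨γ₀, γ₁, hγ₀, hγ₁, a, b, h₀, h₁⟩ := S37.W.exists_atkinLehner_matrices M (q ^ 2) hcop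
  refine ⟨fun z => γ₀ • mulN (q ^ 2) z, fun d _ _ _ hd z => ⟨?_, ?_, ?_⟩⟩
  · rw [S37.W.jAt_smul_of_mem_Gamma0 M d hd hγ₀, jAt_apply, jAt_apply, S37.W.mulN_mulN]
  · rw [jAt_apply, ← S37.W.mulN_mulN d (q ^ 2),
      S37.W.mulN_smul_mulN_eq M (q ^ 2) γ₀ γ₁ a b h₀ h₁ z, ← jAt_apply,
      S37.W.jAt_smul_of_mem_Gamma0 M d hd hγ₁]
  · obtain ⟨c, hc⟩ := hd
    have hdet : a * ((q ^ 2 : ℕ) : ℤ) - b * (M : ℤ) = 1 := by
      have h := γ₀.2
      rw [h₀, Matrix.det_fin_two_of] at h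
      exact h
    have hdet2 : Matrix.det !![a * (q : ℤ), (d : ℤ) * b; (c : ℤ), (q : ℤ)] = 1 := by
      rw [Matrix.det_fin_two_of]
      rw [hc] at hdet
      push_cast at hdet
      linarith
    let γ₂ : SL(2, ℤ) := ⟨!![a * (q : ℤ), (d : ℤ) * b; (c : ℤ), (q : ℤ)], hdet2⟩
    have hMc : (M : ℤ) = (d : ℤ) * (c : ℤ) := by rw [hc]; push_cast; ring
    rw [jAt_apply, mulN_dq_smul M q d γ₀ γ₂ a b c h₀ rfl hMc z, jFun_smul, ← jAt_apply]

end Point

/-! ### The swap on the divisors of `M q²` -/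

section Swap

variable (M q : ℕ) [NeZero M] [NeZero q]

omit [NeZero M] [NeZero q] in
theorem dvd_of_not_dvd (hq : q.Prime) {e : ℕ} (he : e ∣ M * q * q) (h : ¬ q ∣ e) : e ∣ M := by
  have hcop : Nat.Coprime e q := Nat.Coprime.symm ((Nat.Prime.coprime_iff_not_dvd hq).mpr h)
  exact hcop.dvd_of_dvd_mul_right (hcop.dvd_of_dvd_mul_right he)

omit [NeZero M] [NeZero q] in
theorem mul_sq_dvd (hq : q.Prime) {e : ℕ} (he : e ∣ M * q * q) (h : ¬ q ∣ e) :
    e * q ^ 2 ∣ M * q * q := by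
  have h1 : e ∣ M := dvd_of_not_dvd M q hq he h
  have h2 : M * q * q = M * q ^ 2 := by ring
  rw [h2]
  exact Nat.mul_dvd_mul_right h1 _

/-- The permutation `d ↔ d q²`, `d q ↦ d q` (`d ∣ M`) of the divisors of `M q²`. -/
def swap2 (hq : q.Prime) : ↥(M * q * q).divisors → ↥(M * q * q).divisors := fun e =>
  if h : q ^ 2 ∣ (e : ℕ) then
    ⟨(e : ℕ) / q ^ 2, Nat.mem_divisors.mpr
      ⟨(Nat.div_dvd_of_dvd h).trans (Nat.dvd_of_mem_divisors e.2), NeZero.ne (M * q * q)⟩⟩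
  else if h' : q ∣ (e : ℕ) then e
  else
    ⟨(e : ℕ) * q ^ 2, Nat.mem_divisors.mpr
      ⟨mul_sq_dvd M q hq (Nat.dvd_of_mem_divisors e.2) h', NeZero.ne (M * q * q)⟩⟩

theorem coe_swap2_of_sq_dvd (hq : q.Prime) (e : ↥(M * q * q).divisors) (h : q ^ 2 ∣ (e : ℕ)) :
    ((swap2 M q hq e : ↥(M * q * q).divisors) : ℕ) = (e : ℕ) / q ^ 2 := by
  rw [swap2, dif_pos h]

theorem swap2_of_dvd (hq : q.Prime) (e : ↥(M * q * q).divisors) (h : ¬ q ^ 2 ∣ (e : ℕ))
    (h' : q ∣ (e : ℕ)) : swap2 M q hq e = e := by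
  rw [swap2, dif_neg h, dif_pos h']

theorem coe_swap2_of_not_dvd (hq : q.Prime) (e : ↥(M * q * q).divisors) (h' : ¬ q ∣ (e : ℕ)) :
    ((swap2 M q hq e : ↥(M * q * q).divisors) : ℕ) = (e : ℕ) * q ^ 2 := by
  have h : ¬ q ^ 2 ∣ (e : ℕ) := fun h => h' ((dvd_pow_self q two_ne_zero).trans h)
  rw [swap2, dif_neg h, dif_neg h']

/-- The divisor `d` of `M q²` (`d ∣ M`). -/
def div0 (d : ↥M.divisors) : ↥(M * q * q).divisors :=
  S37.W.divLow (M * q) q (S37.W.divLow M q d)

/-- The divisor `d q` of `M q²` (`d ∣ M`). -/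
def div1 (d : ↥M.divisors) : ↥(M * q * q).divisors :=
  S37.W.divLow (M * q) q (S37.W.divHigh M q d)

/-- The divisor `d q²` of `M q²` (`d ∣ M`). -/
def div2 (d : ↥M.divisors) : ↥(M * q * q).divisors :=
  S37.W.divHigh (M * q) q (S37.W.divHigh M q d)

@[simp] theorem coe_div0 (d : ↥M.divisors) : ((div0 M q d : ↥(M * q * q).divisors) : ℕ) = d := rfl

@[simp] theorem coe_div1 (d : ↥M.divisors) :
    ((div1 M q d : ↥(M * q * q).divisors) : ℕ) = (d : ℕ) * q := rfl

@[simp] theorem coe_div2 (d : ↥M.divisors) :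
    ((div2 M q d : ↥(M * q * q).divisors) : ℕ) = (d : ℕ) * q * q := rfl

theorem divHigh_divLow (d : ↥M.divisors) :
    S37.W.divHigh (M * q) q (S37.W.divLow M q d) = div1 M q d := Subtype.ext rfl

/-- Every divisor of `M q²` is `d`, `d q` or `d q²` with `d ∣ M`. -/
theorem exists_div012 (hq : q.Prime) (e : ↥(M * q * q).divisors) :
    (∃ d : ↥M.divisors, e = div0 M q d) ∨ (∃ d : ↥M.divisors, e = div1 M q d) ∨
      (∃ d : ↥M.divisors, e = div2 M q d) := by
  rcases S34.WK.exists_low_or_high (M * q) q hq e with ⟨e', rfl⟩ | ⟨e', rfl⟩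
  · rcases S34.WK.exists_low_or_high M q hq e' with ⟨d, rfl⟩ | ⟨d, rfl⟩
    · exact Or.inl ⟨d, rfl⟩
    · exact Or.inr (Or.inl ⟨d, rfl⟩)
  · rcases S34.WK.exists_low_or_high M q hq e' with ⟨d, rfl⟩ | ⟨d, rfl⟩
    · exact Or.inr (Or.inl ⟨d, divHigh_divLow M q d⟩)
    · exact Or.inr (Or.inr ⟨d, rfl⟩)

theorem swap2_div0 (hq : q.Prime) (hqM : ¬ q ∣ M) (d : ↥M.divisors) :
    swap2 M q hq (div0 M q d) = div2 M q d := by
  apply Subtype.ext
  rw [coe_swap2_of_not_dvd M q hq _ (S37.W.not_dvd_of_divisor M q hqM d), coe_div0, coe_div2]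
  ring

theorem swap2_div1 (hq : q.Prime) (hqM : ¬ q ∣ M) (d : ↥M.divisors) :
    swap2 M q hq (div1 M q d) = div1 M q d := by
  apply swap2_of_dvd
  · rw [coe_div1]
    intro h
    rw [pow_two] at h
    exact S37.W.not_dvd_of_divisor M q hqM d (Nat.dvd_of_mul_dvd_mul_right hq.pos h)
  · rw [coe_div1]
    exact dvd_mul_left q _

theorem swap2_div2 (hq : q.Prime) (d : ↥M.divisors) :
    swap2 M q hq (div2 M q d) = div0 M q d := by
  apply Subtype.ext
  have h : q ^ 2 ∣ ((div2 M q d : ↥(M * q * q).divisors) : ℕ) := by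
    rw [coe_div2, mul_assoc, ← pow_two]
    exact dvd_mul_left _ _
  rw [coe_swap2_of_sq_dvd M q hq _ h, coe_div2, coe_div0, mul_assoc, ← pow_two]
  exact Nat.mul_div_cancel _ (pow_pos hq.pos 2)

theorem swap2_swap2 (hq : q.Prime) (hqM : ¬ q ∣ M) (e : ↥(M * q * q).divisors) :
    swap2 M q hq (swap2 M q hq e) = e := by
  rcases exists_div012 M q hq e with ⟨d, rfl⟩ | ⟨d, rfl⟩ | ⟨d, rfl⟩
  · rw [swap2_div0 M q hq hqM, swap2_div2]
  · rw [swap2_div1 M q hq hqM, swap2_div1 M q hq hqM]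
  · rw [swap2_div2, swap2_div0 M q hq hqM]

end Swap

/-! ### The analytic side -/

section Analytic

variable (M q : ℕ) [NeZero M] [NeZero q]

/-- The swapped family of analytic generators is the original one composed with `w`. -/
theorem exists_jAtFam_swap2 (hq : q.Prime) (hqM : ¬ q ∣ M) :
    ∃ w : ℍ → ℍ, ∀ (e : ↥(M * q * q).divisors) (z : ℍ),
      jAtFam (M * q * q) (swap2 M q hq e) z = jAtFam (M * q * q) e (w z) := by
  have hcop : Nat.Coprime (q ^ 2) M :=
    Nat.Coprime.pow_left 2 ((Nat.Prime.coprime_iff_not_dvd hq).mpr hqM)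
  obtain ⟨w, hw⟩ := exists_al2_point M q hcop
  refine ⟨w, fun e z => ?_⟩
  have hsq : ∀ d : ↥M.divisors, (d : ℕ) * q * q = (d : ℕ) * q ^ 2 := fun d => by ring
  rcases exists_div012 M q hq e with ⟨d, rfl⟩ | ⟨d, rfl⟩ | ⟨d, rfl⟩
  · rw [swap2_div0 M q hq hqM]
    show jAt ((d : ℕ) * q * q) z = jAt (d : ℕ) (w z)
    rw [S37.W.jAt_congr (hsq d)]
    exact ((hw (d : ℕ) (Nat.dvd_of_mem_divisors d.2) z).1).symm
  · rw [swap2_div1 M q hq hqM]
    show jAt ((d : ℕ) * q) z = jAt ((d : ℕ) * q) (w z)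
    exact ((hw (d : ℕ) (Nat.dvd_of_mem_divisors d.2) z).2.2).symm
  · rw [swap2_div2]
    show jAt (d : ℕ) z = jAt ((d : ℕ) * q * q) (w z)
    rw [S37.W.jAt_congr (hsq d)]
    exact ((hw (d : ℕ) (Nat.dvd_of_mem_divisors d.2) z).2.1).symm

/-- Analytic relations are stable under the swap of variables. -/
theorem aeval_jAtFam_rename_swap2 (hq : q.Prime) (hqM : ¬ q ∣ M)
    (P : MvPolynomial ↥(M * q * q).divisors (AlgebraicClosure ℚ))
    (h : MvPolynomial.aeval (jAtFam (M * q * q)) P = 0) :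
    MvPolynomial.aeval (jAtFam (M * q * q)) (MvPolynomial.rename (swap2 M q hq) P) = 0 := by
  obtain ⟨w, hw⟩ := exists_jAtFam_swap2 M q hq hqM
  funext z
  rw [MvPolynomial.aeval_rename, S37.W.aeval_fun_apply]
  have h1 : (fun i => (jAtFam (M * q * q) ∘ swap2 M q hq) i z)
      = fun i => jAtFam (M * q * q) i (w z) := by
    funext i
    exact hw i z
  rw [h1, ← S37.W.aeval_fun_apply, h]
  rfl

theorem rename_swap2_rename_swap2 (hq : q.Prime) (hqM : ¬ q ∣ M)
    (P : MvPolynomial ↥(M * q * q).divisors (AlgebraicClosure ℚ)) :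
    MvPolynomial.rename (swap2 M q hq) (MvPolynomial.rename (swap2 M q hq) P) = P := by
  rw [MvPolynomial.rename_rename]
  have : swap2 M q hq ∘ swap2 M q hq = id := funext fun e => swap2_swap2 M q hq hqM e
  rw [this, MvPolynomial.rename_id_apply]

theorem aeval_jAtFam_rename_swap2_iff (hq : q.Prime) (hqM : ¬ q ∣ M)
    (P : MvPolynomial ↥(M * q * q).divisors (AlgebraicClosure ℚ)) :
    MvPolynomial.aeval (jAtFam (M * q * q)) (MvPolynomial.rename (swap2 M q hq) P) = 0 ↔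
      MvPolynomial.aeval (jAtFam (M * q * q)) P = 0 := by
  constructor
  · intro h
    have h2 := aeval_jAtFam_rename_swap2 M q hq hqM _ h
    rwa [rename_swap2_rename_swap2 M q hq hqM] at h2
  · exact aeval_jAtFam_rename_swap2 M q hq hqM P

end Analytic

/-! ### The involution `w_{q²}` of `F̄_{Mq²}` -/

section Involution

variable (M q : ℕ) [NeZero M] [NeZero q]

/-- The swapped family of generators satisfies exactly the relations of the original one. -/
theorem aeval_genFam_swap2_eq_zero_iff (hq : q.Prime) (hqM : ¬ q ∣ M)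
    (P : MvPolynomial ↥(M * q * q).divisors (AlgebraicClosure ℚ)) :
    MvPolynomial.aeval (fun e => genFam (M * q * q) (swap2 M q hq e)) P = 0 ↔
      MvPolynomial.aeval (JFam (M * q * q)) P = 0 := by
  have h1 : MvPolynomial.aeval (fun e => genFam (M * q * q) (swap2 M q hq e)) P
      = MvPolynomial.aeval (genFam (M * q * q)) (MvPolynomial.rename (swap2 M q hq) P) := by
    rw [MvPolynomial.aeval_rename]; rfl
  rw [h1, S37.W.aeval_genFam_eq_zero_iff, bridge_iff, aeval_jAtFam_rename_swap2_iff M q hq hqM,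
    ← bridge_iff]

theorem exists_al2_algHom (hq : q.Prime) (hqM : ¬ q ∣ M) :
    ∃ ι : ↥(modularFunctionFieldBar (M * q * q)) →ₐ[AlgebraicClosure ℚ]
        ↥(modularFunctionFieldBar (M * q * q)),
      ∀ e, ι (genFam (M * q * q) e) = genFam (M * q * q) (swap2 M q hq e) := by
  obtain ⟨ι, -, hι⟩ := exists_algHom_of_eq_zero_iff (N := M * q * q)
    (MvPolynomial.aeval (fun e => genFam (M * q * q) (swap2 M q hq e)))
    (aeval_genFam_swap2_eq_zero_iff M q hq hqM)
  refine ⟨ι, fun e => ?_⟩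
  rw [hι, MvPolynomial.aeval_X]

/-- **The Atkin–Lehner involution `w_{q²}` of `F̄_{Mq²}`, generator form.** -/
theorem exists_al2_genFam (hq : q.Prime) (hqM : ¬ q ∣ M) :
    ∃ w : ↥(modularFunctionFieldBar (M * q * q)) ≃ₐ[AlgebraicClosure ℚ]
        ↥(modularFunctionFieldBar (M * q * q)),
      (∀ x, w (w x) = x) ∧
      ∀ e, w (genFam (M * q * q) e) = genFam (M * q * q) (swap2 M q hq e) := by
  obtain ⟨ι, hι⟩ := exists_al2_algHom M q hq hqM
  have hinv : ι.comp ι = AlgHom.id _ _ := by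
    apply algHom_ext_genFam
    intro e
    rw [AlgHom.comp_apply, hι, hι, swap2_swap2 M q hq hqM, AlgHom.id_apply]
  refine ⟨AlgEquiv.ofAlgHom ι ι hinv hinv, fun x => ?_, fun e => ?_⟩
  · show ι (ι x) = x
    have := congrArg (fun f => f x) hinv
    simpa using this
  · exact hι e

variable (hq : q.Prime) (hqM : ¬ q ∣ M)

/-- **(AL2)** The Atkin–Lehner involution `w_{q²}` of `F̄_{Mq²}`, chosen once. -/
def wBar2 : modularFunctionFieldBar (M * q * q) ≃ₐ[Qb] modularFunctionFieldBar (M * q * q) :=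
  (exists_al2_genFam M q hq hqM).choose

theorem wBar2_wBar2 (x : modularFunctionFieldBar (M * q * q)) :
    wBar2 M q hq hqM (wBar2 M q hq hqM x) = x :=
  (exists_al2_genFam M q hq hqM).choose_spec.1 x

theorem wBar2_genFam (e : ↥(M * q * q).divisors) :
    wBar2 M q hq hqM (genFam (M * q * q) e) = genFam (M * q * q) (swap2 M q hq e) :=
  (exists_al2_genFam M q hq hqM).choose_spec.2 e

/-- `w_{q²} (j(x^d)) = j(x^{d q²})`. -/
theorem wBar2_div0 (d : ↥M.divisors) :
    wBar2 M q hq hqM (genFam (M * q * q) (div0 M q d)) = genFam (M * q * q) (div2 M q d) := by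
  rw [wBar2_genFam, swap2_div0 M q hq hqM]

/-- `w_{q²} (j(x^{d q})) = j(x^{d q})`. -/
theorem wBar2_div1 (d : ↥M.divisors) :
    wBar2 M q hq hqM (genFam (M * q * q) (div1 M q d)) = genFam (M * q * q) (div1 M q d) := by
  rw [wBar2_genFam, swap2_div1 M q hq hqM]

/-- `w_{q²} (j(x^{d q²})) = j(x^d)`. -/
theorem wBar2_div2 (d : ↥M.divisors) :
    wBar2 M q hq hqM (genFam (M * q * q) (div2 M q d)) = genFam (M * q * q) (div0 M q d) := by
  rw [wBar2_genFam, swap2_div2]

/-- `w_{q²} ∘ α = β ∘ w_q` (`α, β : F̄_{Mq} → F̄_{Mq²}`, `w_q` the Atkin–Lehner involution of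
level `M q`). -/
theorem wBar2_alpha (x : modularFunctionFieldBar (M * q)) :
    wBar2 M q hq hqM (heckeAlphaBar Qb (M * q) q x)
      = heckeBetaBar Qb (M * q) q (S34.WK.wBar M q hq hqM x) := by
  have h1 : (wBar2 M q hq hqM : ↥(modularFunctionFieldBar (M * q * q)) →ₐ[Qb]
        ↥(modularFunctionFieldBar (M * q * q))).comp (heckeAlphaBar Qb (M * q) q)
      = (heckeBetaBar Qb (M * q) q).comp
        (S34.WK.wBar M q hq hqM : ↥(modularFunctionFieldBar (M * q)) →ₐ[Qb]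
          ↥(modularFunctionFieldBar (M * q))) := by
    apply algHom_ext_genFam
    intro e
    rcases S34.WK.exists_low_or_high M q hq e with ⟨d, rfl⟩ | ⟨d, rfl⟩
    · rw [AlgHom.comp_apply, AlgHom.comp_apply, S37.W.heckeAlphaBar_genFam]
      show wBar2 M q hq hqM (genFam (M * q * q) (div0 M q d))
        = heckeBetaBar Qb (M * q) q (S34.WK.wBar M q hq hqM (genFam (M * q) (S37.W.divLow M q d)))
      rw [wBar2_div0, S34.WK.wBar_low, S37.W.heckeBetaBar_genFam]
      rfl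
    · rw [AlgHom.comp_apply, AlgHom.comp_apply, S37.W.heckeAlphaBar_genFam]
      show wBar2 M q hq hqM (genFam (M * q * q) (div1 M q d))
        = heckeBetaBar Qb (M * q) q (S34.WK.wBar M q hq hqM (genFam (M * q) (S37.W.divHigh M q d)))
      rw [wBar2_div1, S34.WK.wBar_high, S37.W.heckeBetaBar_genFam, divHigh_divLow]
  exact congrArg (fun f => f x) h1

/-- `w_{q²} ∘ β = α ∘ w_q`. -/
theorem wBar2_beta (x : modularFunctionFieldBar (M * q)) :
    wBar2 M q hq hqM (heckeBetaBar Qb (M * q) q x)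
      = heckeAlphaBar Qb (M * q) q (S34.WK.wBar M q hq hqM x) := by
  have h := wBar2_alpha M q hq hqM (S34.WK.wBar M q hq hqM x)
  rw [S34.WK.wBar_wBar] at h
  rw [← h, wBar2_wBar2]

/-- `w_{q²}` permutes the generators `j(x^e)`, `e ∣ M q²`. -/
theorem wBar2_genFam_exists (e : ↥(M * q * q).divisors) :
    ∃ e' : ↥(M * q * q).divisors,
      (wBar2 M q hq hqM : modularFunctionFieldBar (M * q * q) →ₐ[Qb]
        modularFunctionFieldBar (M * q * q)) (genFam (M * q * q) e) = genFam (M * q * q) e' :=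
  ⟨_, wBar2_genFam M q hq hqM e⟩

end Involution

/-! ### `w_{q²}` and the two degeneracy maps on `F_K` -/

section KForm

variable (M q : ℕ) [NeZero M] [NeZero q] (hq : q.Prime) (hqM : ¬ q ∣ M)
variable (K : IntermediateField ℚ Qb)

/-- `w_{q²}` as a ring endomorphism of `F_K`. -/
def wK2Hom : FK (M * q * q) K →+* FK (M * q * q) K :=
  S34.WK.restrictFK (M * q * q) K
    (wBar2 M q hq hqM : modularFunctionFieldBar (M * q * q) →ₐ[Qb] _)
    (wBar2_genFam_exists M q hq hqM)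

theorem toBar_wK2Hom (x : FK (M * q * q) K) :
    S18.Glob.toBar (M * q * q) K (wK2Hom M q hq hqM K x)
      = wBar2 M q hq hqM (S18.Glob.toBar (M * q * q) K x) :=
  Subtype.ext rfl

theorem wK2Hom_wK2Hom (x : FK (M * q * q) K) :
    wK2Hom M q hq hqM K (wK2Hom M q hq hqM K x) = x := by
  apply (S18.Glob.toBar (M * q * q) K).injective
  rw [toBar_wK2Hom, toBar_wK2Hom]
  exact wBar2_wBar2 M q hq hqM _

/-- **(AL2-K)** The Atkin–Lehner involution `w_{q²}` of `F_K = FK (M q²) K`. -/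
def wK2 : FK (M * q * q) K ≃+* FK (M * q * q) K :=
  RingEquiv.ofRingHom (wK2Hom M q hq hqM K) (wK2Hom M q hq hqM K)
    (RingHom.ext fun x => wK2Hom_wK2Hom M q hq hqM K x)
    (RingHom.ext fun x => wK2Hom_wK2Hom M q hq hqM K x)

theorem wK2_wK2 (x : FK (M * q * q) K) : wK2 M q hq hqM K (wK2 M q hq hqM K x) = x :=
  wK2Hom_wK2Hom M q hq hqM K x

theorem wK2_symm : (wK2 M q hq hqM K).symm = wK2 M q hq hqM K := rfl

theorem toBar_wK2 (x : FK (M * q * q) K) :
    S18.Glob.toBar (M * q * q) K (wK2 M q hq hqM K x)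
      = wBar2 M q hq hqM (S18.Glob.toBar (M * q * q) K x) :=
  toBar_wK2Hom M q hq hqM K x

theorem coe_wK2 (x : FK (M * q * q) K) :
    ((wK2 M q hq hqM K x : FK (M * q * q) K) : LaurentSeries Qb)
      = ((wBar2 M q hq hqM (S18.Glob.toBar (M * q * q) K x) :
          modularFunctionFieldBar (M * q * q)) : LaurentSeries Qb) :=
  rfl

/-- `w_{q²}` fixes the constants. -/
theorem wK2_constK (c : K) :
    wK2 M q hq hqM K (constK (M * q * q) K c) = constK (M * q * q) K c :=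
  S34.WK.restrictFK_constK (M * q * q) K _ (wBar2_genFam_exists M q hq hqM) c

theorem wK2_algebraMap (c : K) :
    wK2 M q hq hqM K (algebraMap K (FK (M * q * q) K) c) = algebraMap K (FK (M * q * q) K) c :=
  wK2_constK M q hq hqM K c

theorem wK2_algebraMap_OK (A : ValuationSubring Qb) (c : OK A K) :
    wK2 M q hq hqM K (algebraMap (OK A K) (FK (M * q * q) K) c)
      = algebraMap (OK A K) (FK (M * q * q) K) c :=
  wK2_constK M q hq hqM K (c : K)

/-- `α : F_K(M q) → F_K(M q²)`, the inclusion. -/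
def alphaK2 : FK (M * q) K →+* FK (M * q * q) K := S34.WK.alphaK (M * q) q K

theorem coe_alphaK2 (x : FK (M * q) K) :
    ((alphaK2 M q K x : FK (M * q * q) K) : LaurentSeries Qb) = (x : LaurentSeries Qb) :=
  S34.WK.coe_alphaK (M * q) q K x

theorem toBar_alphaK2 (x : FK (M * q) K) :
    S18.Glob.toBar (M * q * q) K (alphaK2 M q K x)
      = heckeAlphaBar Qb (M * q) q (S18.Glob.toBar (M * q) K x) :=
  S34.WK.toBar_alphaK (M * q) q K x

theorem alphaK2_constK (c : K) :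
    alphaK2 M q K (constK (M * q) K c) = constK (M * q * q) K c :=
  S34.WK.alphaK_constK (M * q) q K c

theorem alphaK2_jK : alphaK2 M q K (jK (M * q) K) = jK (M * q * q) K :=
  S34.WK.alphaK_jK (M * q) q K

/-- `β : F_K(M q) → F_K(M q²)`, `x(x) ↦ x(x^q)`, defined as `w_{q²} ∘ α ∘ w_q`. -/
def betaK2 : FK (M * q) K →+* FK (M * q * q) K :=
  (((wK2 M q hq hqM K : FK (M * q * q) K ≃+* FK (M * q * q) K) :
      FK (M * q * q) K →+* FK (M * q * q) K).comp (alphaK2 M q K)).comp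
    ((S34.WK.wK M q hq hqM K : FK (M * q) K ≃+* FK (M * q) K) : FK (M * q) K →+* FK (M * q) K)

theorem betaK2_apply (x : FK (M * q) K) :
    betaK2 M q hq hqM K x
      = wK2 M q hq hqM K (alphaK2 M q K (S34.WK.wK M q hq hqM K x)) := rfl

/-- `w_{q²} ∘ α = β ∘ w_q` on `F_K`. -/
theorem wK2_alphaK2 (x : FK (M * q) K) :
    wK2 M q hq hqM K (alphaK2 M q K x) = betaK2 M q hq hqM K (S34.WK.wK M q hq hqM K x) := by
  rw [betaK2_apply, S34.WK.wK_wK]

/-- `w_{q²} ∘ β = α ∘ w_q` on `F_K`. -/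
theorem wK2_betaK2 (x : FK (M * q) K) :
    wK2 M q hq hqM K (betaK2 M q hq hqM K x) = alphaK2 M q K (S34.WK.wK M q hq hqM K x) := by
  rw [betaK2_apply, wK2_wK2]

theorem toBar_betaK2 (x : FK (M * q) K) :
    S18.Glob.toBar (M * q * q) K (betaK2 M q hq hqM K x)
      = heckeBetaBar Qb (M * q) q (S18.Glob.toBar (M * q) K x) := by
  rw [betaK2_apply, toBar_wK2, toBar_alphaK2, S34.WK.toBar_wK, wBar2_alpha, S34.WK.wBar_wBar]

/-- `β x = x(x^q)` on `q`-expansions. -/
theorem coe_betaK2 (x : FK (M * q) K) :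
    ((betaK2 M q hq hqM K x : FK (M * q * q) K) : LaurentSeries Qb)
      = qExpand Qb q (x : LaurentSeries Qb) := by
  have h := congrArg Subtype.val (toBar_betaK2 M q hq hqM K x)
  rw [coe_heckeBetaBar] at h
  exact h

theorem betaK2_constK (c : K) :
    betaK2 M q hq hqM K (constK (M * q) K c) = constK (M * q * q) K c := by
  rw [betaK2_apply, S34.WK.wK_constK, alphaK2_constK, wK2_constK]

/-- `j_q = j(x^q) ∈ F_K(M q²)`. -/
def jqK2 : FK (M * q * q) K := alphaK2 M q K (S34.WK.jqK M q hq hqM K)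

/-- `j_{q²} = j(x^{q²}) ∈ F_K(M q²)`. -/
def jqqK2 : FK (M * q * q) K := betaK2 M q hq hqM K (S34.WK.jqK M q hq hqM K)

theorem coe_jqK2 :
    ((jqK2 M q hq hqM K : FK (M * q * q) K) : LaurentSeries Qb) = S28.jd Qb q := by
  rw [jqK2, coe_alphaK2, S34.WK.coe_jqK]

theorem coe_jqqK2 :
    ((jqqK2 M q hq hqM K : FK (M * q * q) K) : LaurentSeries Qb) = S28.jd Qb (q * q) := by
  rw [jqqK2, coe_betaK2, S34.WK.coe_jqK, S28.qExpand_jd]

theorem betaK2_jK : betaK2 M q hq hqM K (jK (M * q) K) = jqK2 M q hq hqM K := by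
  apply Subtype.ext
  rw [coe_betaK2, coe_jqK2, S18.ModelBasicCore.coe_jK, S28.qExpand_jd, mul_one]

theorem wK2_jK : wK2 M q hq hqM K (jK (M * q * q) K) = jqqK2 M q hq hqM K := by
  rw [← alphaK2_jK M q K, wK2_alphaK2, S34.WK.wK_jK]
  rfl

theorem wK2_jqqK2 : wK2 M q hq hqM K (jqqK2 M q hq hqM K) = jK (M * q * q) K := by
  rw [← wK2_jK, wK2_wK2]

theorem wK2_jqK2 : wK2 M q hq hqM K (jqK2 M q hq hqM K) = jqK2 M q hq hqM K := by
  rw [jqK2, wK2_alphaK2, S34.WK.wK_jqK, betaK2_jK]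
  rfl

end KForm

/-! ### Galois: `w_{q²}` commutes with the coefficientwise action -/

section Galois

variable (M q : ℕ) [NeZero M] [NeZero q] (hq : q.Prime) (hqM : ¬ q ∣ M)

/-- `w_{q²}` commutes with the coefficientwise Galois action on `F̄_{Mq²}`. -/
theorem wBar2_arith (σ : Qb ≃ₐ[ℚ] Qb) (x : modularFunctionFieldBar (M * q * q)) :
    wBar2 M q hq hqM (arithmeticRingAut (modularFunctionFieldFull (M * q * q)) σ x)
      = arithmeticRingAut (modularFunctionFieldFull (M * q * q)) σ (wBar2 M q hq hqM x) :=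
  S34.WK.apply_arith (M * q * q)
    (wBar2 M q hq hqM : modularFunctionFieldBar (M * q * q) →ₐ[Qb] _)
    (wBar2_genFam_exists M q hq hqM) σ x

/-- On `F_K`, in `q`-expansion form: if `y = σ(x)` coefficientwise then `w_{q²} y = σ(w_{q²} x)`
coefficientwise. -/
theorem coe_wK2_of_coeffMap (K : IntermediateField ℚ Qb) (σ : Qb ≃ₐ[ℚ] Qb)
    (x y : FK (M * q * q) K)
    (h : (y : LaurentSeries Qb) = coeffMap (σ : Qb →+* Qb) (x : LaurentSeries Qb)) :
    ((wK2 M q hq hqM K y : FK (M * q * q) K) : LaurentSeries Qb)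
      = coeffMap (σ : Qb →+* Qb) ((wK2 M q hq hqM K x : FK (M * q * q) K) : LaurentSeries Qb) := by
  have e1 : S18.Glob.toBar (M * q * q) K y
      = arithmeticRingAut (modularFunctionFieldFull (M * q * q)) σ
          (S18.Glob.toBar (M * q * q) K x) :=
    Subtype.ext h
  rw [coe_wK2, coe_wK2, e1, wBar2_arith]
  rfl

end Galois

/-! ### Charts -/

section Charts

variable (M q : ℕ) [NeZero M] [NeZero q] (hq : q.Prime) (hqM : ¬ q ∣ M)
variable (A : ValuationSubring Qb) (K : IntermediateField ℚ Qb)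

/-- `w_{q²}` transports integrality over `O[t]` to integrality over `O[w_{q²} t]`. -/
theorem isIntegral_wK2 {t x : FK (M * q * q) K}
    (hx : IsIntegral (Algebra.adjoin (OK A K) {t}) x) :
    IsIntegral (Algebra.adjoin (OK A K) {wK2 M q hq hqM K t}) (wK2 M q hq hqM K x) := by
  have hmem : ∀ y ∈ Algebra.adjoin (OK A K) {t},
      wK2 M q hq hqM K y ∈ Algebra.adjoin (OK A K) {wK2 M q hq hqM K t} := by
    intro y hy
    induction hy using Algebra.adjoin_induction with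
    | mem y hy =>
      rw [Set.mem_singleton_iff] at hy
      rw [hy]
      exact Algebra.subset_adjoin (Set.mem_singleton _)
    | algebraMap c =>
      rw [wK2_algebraMap_OK]
      exact Subalgebra.algebraMap_mem _ c
    | add y z _ _ hy hz =>
      rw [map_add]
      exact add_mem hy hz
    | mul y z _ _ hy hz =>
      rw [map_mul]
      exact mul_mem hy hz
  let φ : Algebra.adjoin (OK A K) {t} →+* Algebra.adjoin (OK A K) {wK2 M q hq hqM K t} :=
    (((wK2 M q hq hqM K : FK (M * q * q) K ≃+* FK (M * q * q) K) :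
        FK (M * q * q) K →+* FK (M * q * q) K).comp
      (Algebra.adjoin (OK A K) {t}).val.toRingHom).codRestrict
        (Algebra.adjoin (OK A K) {wK2 M q hq hqM K t}).toSubring (fun y => hmem y y.2)
  exact IsIntegral.map_of_comp_eq φ
    ((wK2 M q hq hqM K : FK (M * q * q) K ≃+* FK (M * q * q) K) :
      FK (M * q * q) K →+* FK (M * q * q) K)
    (RingHom.ext fun y => rfl) hx

/-- `w_{q²}` maps the chart with coordinate `t` into the chart with coordinate `w_{q²} t`. -/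
theorem wK2_mem_chart {t x : FK (M * q * q) K} (hx : x ∈ chart (M * q * q) A K t) :
    wK2 M q hq hqM K x ∈ chart (M * q * q) A K (wK2 M q hq hqM K t) :=
  isIntegral_wK2 M q hq hqM A K hx

/-- `j_q` is integral over `O[j]`. -/
theorem isIntegral_jqK2 :
    IsIntegral (Algebra.adjoin (OK A K) {jK (M * q * q) K}) (jqK2 M q hq hqM K) :=
  S18.ModelBasicCore.isIntegral_of_coe_eq_jd (M * q * q) A K (dvd_mul_left q (M * q))
    (NeZero.ne q) _ (coe_jqK2 M q hq hqM K)

/-- `j_{q²}` is integral over `O[j]`. -/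
theorem isIntegral_jqqK2 :
    IsIntegral (Algebra.adjoin (OK A K) {jK (M * q * q) K}) (jqqK2 M q hq hqM K) :=
  S18.ModelBasicCore.isIntegral_of_coe_eq_jd (M * q * q) A K
    (by rw [mul_assoc]; exact dvd_mul_left (q * q) M)
    (Nat.mul_ne_zero (NeZero.ne q) (NeZero.ne q)) _ (coe_jqqK2 M q hq hqM K)

/-- `j` is integral over `O[j_{q²}]`. -/
theorem isIntegral_jK2 :
    IsIntegral (Algebra.adjoin (OK A K) {jqqK2 M q hq hqM K}) (jK (M * q * q) K) := by
  have h := isIntegral_wK2 M q hq hqM A K (isIntegral_jqqK2 M q hq hqM A K)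
  rwa [wK2_jK, wK2_jqqK2] at h

/-- `w_{q²}` preserves the chart `j ≠ ∞` (the integral closure of `O[j]` in `F_K`). -/
theorem wK2_mem_chart_jK {x : FK (M * q * q) K}
    (hx : x ∈ chart (M * q * q) A K (jK (M * q * q) K)) :
    wK2 M q hq hqM K x ∈ chart (M * q * q) A K (jK (M * q * q) K) := by
  have h := isIntegral_wK2 M q hq hqM A K ((mem_chart_iff (M * q * q) A K).mp hx)
  rw [wK2_jK] at h
  exact (mem_chart_iff (M * q * q) A K).mpr
    (S34.WK.isIntegral_adjoin_trans (isIntegral_jqqK2 M q hq hqM A K) h)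

theorem wK2_mem_chart_jK_iff {x : FK (M * q * q) K} :
    wK2 M q hq hqM K x ∈ chart (M * q * q) A K (jK (M * q * q) K)
      ↔ x ∈ chart (M * q * q) A K (jK (M * q * q) K) := by
  refine ⟨fun h => ?_, wK2_mem_chart_jK M q hq hqM A K⟩
  have h2 := wK2_mem_chart_jK M q hq hqM A K h
  rwa [wK2_wK2] at h2

/-- `R0` form. -/
theorem wK2_mem_R0 [Fact q.Prime] {x : FK (M * q * q) K} (hx : x ∈ R0 (M * q * q) q A K) :
    wK2 M q hq hqM K x ∈ R0 (M * q * q) q A K :=
  wK2_mem_chart_jK M q hq hqM A K hx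

/-- Soft form for the chart `j ≠ 0`: `w_{q²}` maps `Rinf` into the integral closure of
`O[j_{q²}⁻¹]`. -/
theorem isIntegral_wK2_of_mem_chart_inv {x : FK (M * q * q) K}
    (hx : x ∈ chart (M * q * q) A K (jK (M * q * q) K)⁻¹) :
    IsIntegral (Algebra.adjoin (OK A K) {(jqqK2 M q hq hqM K)⁻¹}) (wK2 M q hq hqM K x) := by
  have h := isIntegral_wK2 M q hq hqM A K ((mem_chart_iff (M * q * q) A K).mp hx)
  rwa [map_inv₀, wK2_jK] at h

/-- `α` maps the level-`M q` chart `j ≠ ∞` into the level-`M q²` chart `j ≠ ∞`. -/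
theorem alphaK2_mem_chart_jK {x : FK (M * q) K} (hx : x ∈ chart (M * q) A K (jK (M * q) K)) :
    alphaK2 M q K x ∈ chart (M * q * q) A K (jK (M * q * q) K) :=
  S34.WK.alphaK_mem_chart_jK (M * q) q A K hx

/-- `α` maps the level-`M q` chart `j ≠ 0` into the level-`M q²` chart `j ≠ 0`. -/
theorem alphaK2_mem_chart_inv {x : FK (M * q) K}
    (hx : x ∈ chart (M * q) A K (jK (M * q) K)⁻¹) :
    alphaK2 M q K x ∈ chart (M * q * q) A K (jK (M * q * q) K)⁻¹ :=
  S34.WK.alphaK_mem_chart_inv (M * q) q A K hx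

/-- `β` maps the level-`M q` chart `j ≠ ∞` into the level-`M q²` chart `j ≠ ∞`. -/
theorem betaK2_mem_chart_jK {x : FK (M * q) K} (hx : x ∈ chart (M * q) A K (jK (M * q) K)) :
    betaK2 M q hq hqM K x ∈ chart (M * q * q) A K (jK (M * q * q) K) := by
  rw [betaK2_apply]
  exact wK2_mem_chart_jK M q hq hqM A K
    (alphaK2_mem_chart_jK M q A K (S34.WK.wK_mem_chart_jK M q hq hqM A K hx))

end Charts

end Fermat.Agent.S36.WQ2
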