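/-
S36 — Chart3B.lean (helper10; package [MODEL3], lead helper128; leaf [M3.6], early/B copy).

The two charts of the level-`N = M q²` model (`q` prime, `q ∤ M`) for the coordinate

  `J3 := j · j_q · j_{q²}`        (`j = j(Q)`, `j_q = j(Q^q)`, `j_{q²} = j(Q^{q²})`).

Why this coordinate: `w_{q²} J3 = J3` (so both charts `chart J3`, `chart J3⁻¹` are stable under the
Atkin–Lehner involution `WQ2.wK2`), `chart J3 = chart j`, the three charts `chart j⁻¹`,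
`chart j_q⁻¹`, `chart j_{q²}⁻¹` all lie in `chart J3⁻¹`, and BOTH degeneracy maps
`α, β : F_K(M q) → F_K(M q²)` map the two charts `chart JK`, `chart JK⁻¹` (`JK = j · j_q`) of the
level-`M q` model of S34 INTO `chart J3`, `chart J3⁻¹` (`α JK = j · j_q`, `β JK = j_q · j_{q²}`).

Contents (everything for BOTH charts):
* `J3`, `J3_ne_zero`, `wK2_J3`, integrality of `j, j_q, j_{q²}` over `O[J3]` and of their inverses
  over `O[J3⁻¹]`, `chart_J3_eq : chart J3 = chart j`;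
* `rings` : noetherian / fraction ring / integrally closed for both charts + the two `fin0` shapes;
* `glue0`, `glueInf`, `wK2_mem_chart_J3(_inv)` (+ `iff`);
* `alphaK2_mem_chart_J3(_inv)`, `betaK2_mem_chart_J3(_inv)` from the level-`M q` charts `JK^{±1}`,
  `level_mem_chart_J3(_inv)` from the level-`M` charts `j^{±1}` (any coefficient-preserving hom);
* `chart_J3_le_of`, `chart_J3_inv_le_of` : both charts lie in any valuation subring containing `O`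
  and `j^{±1}, j_q^{±1}, j_{q²}^{±1}`; instances `W1 = GaussV.V1`, `W2 = GaussV.V2 wK2`;
* `vertP`, `mem_vertP` : the vertical ideal `R ∩ ϖ V` of a chart `R ⊆ V`, and `exists_P`.
-/
import Mathlib
import Fermat.Agent.S36.WQ2
import Fermat.Agent.S36.Model3Plan
import Fermat.Agent.S34.ChartJ
import Fermat.Agent.S34.ChartRingInv
import Fermat.Agent.S34.WKInst
import Fermat.Agent.S34.V12
import Fermat.Agent.S34.GaussV
import Fermat.Agent.S34.DegTower

set_option autoImplicit false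

open ModularCurve AlgebraicCurve HahnSeries

namespace Fermat.Agent.S36.Chart3B

open Fermat.Agent.S18 Fermat.Agent.S18.Arith Fermat.Agent.S34

noncomputable section

set_option synthInstance.maxHeartbeats 400000

variable (M q : ℕ) [NeZero M] [NeZero q] (hq : q.Prime) (hqM : ¬ q ∣ M)
variable (A : ValuationSubring Qb) (K : IntermediateField ℚ Qb)

/-! ### The three `j`-functions and their mutual integrality -/

/-- `j_q ≠ 0`. -/
theorem jqK2_ne_zero : WQ2.jqK2 M q hq hqM K ≠ 0 := by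
  rw [← WQ2.betaK2_jK]
  exact (map_ne_zero _).mpr (ModelBasicCore.jK_ne_zero (M * q) K)

/-- `j_{q²} ≠ 0`. -/
theorem jqqK2_ne_zero : WQ2.jqqK2 M q hq hqM K ≠ 0 := by
  rw [← WQ2.wK2_jK]
  exact (map_ne_zero _).mpr (ModelBasicCore.jK_ne_zero (M * q * q) K)

/-- `j_q` is integral over `O[j_{q²}]`. -/
theorem isIntegral_jqK2_jqq :
    IsIntegral (Algebra.adjoin (OK A K) {WQ2.jqqK2 M q hq hqM K}) (WQ2.jqK2 M q hq hqM K) := by
  have h := WQ2.isIntegral_wK2 M q hq hqM A K (WQ2.isIntegral_jqK2 M q hq hqM A K)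
  rwa [WQ2.wK2_jK, WQ2.wK2_jqK2] at h

/-- `j` is integral over `O[j_q]`. -/
theorem isIntegral_jK_jq :
    IsIntegral (Algebra.adjoin (OK A K) {WQ2.jqK2 M q hq hqM K}) (jK (M * q * q) K) := by
  have h0 : jK (M * q) K ∈ chart (M * q) A K (WK.jqK M q hq hqM K) :=
    (mem_chart_iff (M * q) A K).mpr (WK.isIntegral_jK M q hq hqM A K)
  have h := WK.alphaK_mem_chart (M * q) q A K h0
  rw [WK.alphaK_jK] at h
  exact (mem_chart_iff (M * q * q) A K).mp h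

/-- `j_{q²}` is integral over `O[j_q]`. -/
theorem isIntegral_jqqK2_jq :
    IsIntegral (Algebra.adjoin (OK A K) {WQ2.jqK2 M q hq hqM K}) (WQ2.jqqK2 M q hq hqM K) := by
  have h := WQ2.isIntegral_wK2 M q hq hqM A K (isIntegral_jK_jq M q hq hqM A K)
  rwa [WQ2.wK2_jK, WQ2.wK2_jqK2] at h

/-! ### The coordinate `J3 = j · j_q · j_{q²}` -/

/-- The coordinate `J3 = j · j_q · j_{q²}` of the level-`M q²` model. -/
def J3 : FK (M * q * q) K :=
  jK (M * q * q) K * WQ2.jqK2 M q hq hqM K * WQ2.jqqK2 M q hq hqM K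

theorem J3_eq :
    J3 M q hq hqM K = jK (M * q * q) K * WQ2.jqK2 M q hq hqM K * WQ2.jqqK2 M q hq hqM K := rfl

theorem J3_ne_zero : J3 M q hq hqM K ≠ 0 :=
  mul_ne_zero (mul_ne_zero (ModelBasicCore.jK_ne_zero (M * q * q) K) (jqK2_ne_zero M q hq hqM K))
    (jqqK2_ne_zero M q hq hqM K)

/-- `w_{q²} J3 = J3`. -/
theorem wK2_J3 : WQ2.wK2 M q hq hqM K (J3 M q hq hqM K) = J3 M q hq hqM K := by
  rw [J3, map_mul, map_mul, WQ2.wK2_jK, WQ2.wK2_jqK2, WQ2.wK2_jqqK2]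
  ring

theorem wK2_J3_inv : WQ2.wK2 M q hq hqM K (J3 M q hq hqM K)⁻¹ = (J3 M q hq hqM K)⁻¹ := by
  rw [map_inv₀, wK2_J3]

/-- `α (j · j_q) = j · j_q`: the image of the level-`M q` coordinate `JK` under `α`. -/
theorem alphaK2_JK :
    WQ2.alphaK2 M q K (WKInst.JK M q hq hqM K) = jK (M * q * q) K * WQ2.jqK2 M q hq hqM K := by
  rw [WKInst.JK_eq, map_mul, WQ2.alphaK2_jK]
  rfl

/-- `β (j · j_q) = j_q · j_{q²}`: the image of the level-`M q` coordinate `JK` under `β`. -/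
theorem betaK2_JK :
    WQ2.betaK2 M q hq hqM K (WKInst.JK M q hq hqM K) =
      WQ2.jqK2 M q hq hqM K * WQ2.jqqK2 M q hq hqM K := by
  rw [WKInst.JK_eq, map_mul, WQ2.betaK2_jK]
  rfl

/-- `J3` is integral over `O[j]`. -/
theorem isIntegral_J3 :
    IsIntegral (Algebra.adjoin (OK A K) {jK (M * q * q) K}) (J3 M q hq hqM K) :=
  ((ChartJ.isIntegral_of_mem (Algebra.subset_adjoin (Set.mem_singleton _))).mul
    (WQ2.isIntegral_jqK2 M q hq hqM A K)).mul (WQ2.isIntegral_jqqK2 M q hq hqM A K)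

/-- `j` is integral over `O[J3]`. -/
theorem isIntegral_jK_J3 :
    IsIntegral (Algebra.adjoin (OK A K) {J3 M q hq hqM K}) (jK (M * q * q) K) := by
  -- `j_{q²}` is integral over `O[j_q j_{q²}]`
  have h1 : IsIntegral (Algebra.adjoin (OK A K)
      {WQ2.jqK2 M q hq hqM K * WQ2.jqqK2 M q hq hqM K}) (WQ2.jqqK2 M q hq hqM K) := by
    have h := ChartJ.isIntegral_adjoin_mul (R := OK A K) (isIntegral_jqqK2_jq M q hq hqM A K)
    rwa [mul_comm (WQ2.jqqK2 M q hq hqM K) (WQ2.jqK2 M q hq hqM K)] at h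
  -- hence so is `j`
  have h2 : IsIntegral (Algebra.adjoin (OK A K)
      {WQ2.jqK2 M q hq hqM K * WQ2.jqqK2 M q hq hqM K}) (jK (M * q * q) K) :=
    ChartJ.isIntegral_adjoin_trans h1 (WQ2.isIntegral_jK2 M q hq hqM A K)
  have h3 := ChartJ.isIntegral_adjoin_mul (R := OK A K) h2
  rwa [← mul_assoc] at h3

/-- `j_q` is integral over `O[J3]`. -/
theorem isIntegral_jqK2_J3 :
    IsIntegral (Algebra.adjoin (OK A K) {J3 M q hq hqM K}) (WQ2.jqK2 M q hq hqM K) :=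
  ChartJ.isIntegral_adjoin_trans (isIntegral_jK_J3 M q hq hqM A K)
    (WQ2.isIntegral_jqK2 M q hq hqM A K)

/-- `j_{q²}` is integral over `O[J3]`. -/
theorem isIntegral_jqqK2_J3 :
    IsIntegral (Algebra.adjoin (OK A K) {J3 M q hq hqM K}) (WQ2.jqqK2 M q hq hqM K) :=
  ChartJ.isIntegral_adjoin_trans (isIntegral_jK_J3 M q hq hqM A K)
    (WQ2.isIntegral_jqqK2 M q hq hqM A K)

/-- `j⁻¹` is integral over `O[J3⁻¹]`. -/
theorem isIntegral_jK_inv_J3 :
    IsIntegral (Algebra.adjoin (OK A K) {(J3 M q hq hqM K)⁻¹}) (jK (M * q * q) K)⁻¹ := by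
  have h := ChartJ.isIntegral_adjoin_mul_inv (R := OK A K) (x := jK (M * q * q) K)
    (y := WQ2.jqK2 M q hq hqM K * WQ2.jqqK2 M q hq hqM K)
    (mul_ne_zero (jqK2_ne_zero M q hq hqM K) (jqqK2_ne_zero M q hq hqM K))
    ((WQ2.isIntegral_jqK2 M q hq hqM A K).mul (WQ2.isIntegral_jqqK2 M q hq hqM A K))
  rwa [← mul_assoc] at h

/-- `j_q⁻¹` is integral over `O[J3⁻¹]`. -/
theorem isIntegral_jqK2_inv_J3 :
    IsIntegral (Algebra.adjoin (OK A K) {(J3 M q hq hqM K)⁻¹}) (WQ2.jqK2 M q hq hqM K)⁻¹ := by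
  have h := ChartJ.isIntegral_adjoin_mul_inv (R := OK A K) (x := WQ2.jqK2 M q hq hqM K)
    (y := jK (M * q * q) K * WQ2.jqqK2 M q hq hqM K)
    (mul_ne_zero (ModelBasicCore.jK_ne_zero (M * q * q) K) (jqqK2_ne_zero M q hq hqM K))
    ((isIntegral_jK_jq M q hq hqM A K).mul (isIntegral_jqqK2_jq M q hq hqM A K))
  have e : WQ2.jqK2 M q hq hqM K * (jK (M * q * q) K * WQ2.jqqK2 M q hq hqM K) =
      J3 M q hq hqM K := by
    rw [J3]; ring
  rwa [e] at h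

/-- `j_{q²}⁻¹` is integral over `O[J3⁻¹]`. -/
theorem isIntegral_jqqK2_inv_J3 :
    IsIntegral (Algebra.adjoin (OK A K) {(J3 M q hq hqM K)⁻¹}) (WQ2.jqqK2 M q hq hqM K)⁻¹ := by
  have h := ChartJ.isIntegral_adjoin_mul_inv (R := OK A K) (x := WQ2.jqqK2 M q hq hqM K)
    (y := jK (M * q * q) K * WQ2.jqK2 M q hq hqM K)
    (mul_ne_zero (ModelBasicCore.jK_ne_zero (M * q * q) K) (jqK2_ne_zero M q hq hqM K))
    ((WQ2.isIntegral_jK2 M q hq hqM A K).mul (isIntegral_jqK2_jqq M q hq hqM A K))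
  have e : WQ2.jqqK2 M q hq hqM K * (jK (M * q * q) K * WQ2.jqK2 M q hq hqM K) =
      J3 M q hq hqM K := by
    rw [J3]; ring
  rwa [e] at h

/-! ### Charts: comparison with the charts of `j`, `j_q`, `j_{q²}` -/

/-- `chart J3 = chart j`. -/
theorem chart_J3_eq :
    chart (M * q * q) A K (J3 M q hq hqM K) = chart (M * q * q) A K (jK (M * q * q) K) :=
  le_antisymm (ChartJ.chart_le_of_isIntegral (M * q * q) A K (isIntegral_J3 M q hq hqM A K))
    (ChartJ.chart_le_of_isIntegral (M * q * q) A K (isIntegral_jK_J3 M q hq hqM A K))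

/-- `chart j_q ≤ chart J3`. -/
theorem chart_jqK2_le :
    chart (M * q * q) A K (WQ2.jqK2 M q hq hqM K) ≤ chart (M * q * q) A K (J3 M q hq hqM K) :=
  ChartJ.chart_le_of_isIntegral (M * q * q) A K (isIntegral_jqK2_J3 M q hq hqM A K)

/-- `chart j_{q²} ≤ chart J3`. -/
theorem chart_jqqK2_le :
    chart (M * q * q) A K (WQ2.jqqK2 M q hq hqM K) ≤ chart (M * q * q) A K (J3 M q hq hqM K) :=
  ChartJ.chart_le_of_isIntegral (M * q * q) A K (isIntegral_jqqK2_J3 M q hq hqM A K)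

/-- `chart j⁻¹ ≤ chart J3⁻¹`. -/
theorem chart_jK_inv_le :
    chart (M * q * q) A K (jK (M * q * q) K)⁻¹ ≤ chart (M * q * q) A K (J3 M q hq hqM K)⁻¹ :=
  ChartJ.chart_le_of_isIntegral (M * q * q) A K (isIntegral_jK_inv_J3 M q hq hqM A K)

/-- `chart j_q⁻¹ ≤ chart J3⁻¹`. -/
theorem chart_jqK2_inv_le :
    chart (M * q * q) A K (WQ2.jqK2 M q hq hqM K)⁻¹ ≤
      chart (M * q * q) A K (J3 M q hq hqM K)⁻¹ :=
  ChartJ.chart_le_of_isIntegral (M * q * q) A K (isIntegral_jqK2_inv_J3 M q hq hqM A K)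

/-- `chart j_{q²}⁻¹ ≤ chart J3⁻¹`. -/
theorem chart_jqqK2_inv_le :
    chart (M * q * q) A K (WQ2.jqqK2 M q hq hqM K)⁻¹ ≤
      chart (M * q * q) A K (J3 M q hq hqM K)⁻¹ :=
  ChartJ.chart_le_of_isIntegral (M * q * q) A K (isIntegral_jqqK2_inv_J3 M q hq hqM A K)

/-- `chart (j · j_q)⁻¹ ≤ chart J3⁻¹`. -/
theorem chart_alpha_JK_inv_le :
    chart (M * q * q) A K (jK (M * q * q) K * WQ2.jqK2 M q hq hqM K)⁻¹ ≤
      chart (M * q * q) A K (J3 M q hq hqM K)⁻¹ := by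
  refine ChartJ.chart_le_of_isIntegral (M * q * q) A K ?_
  rw [mul_inv]
  exact (isIntegral_jK_inv_J3 M q hq hqM A K).mul (isIntegral_jqK2_inv_J3 M q hq hqM A K)

/-- `chart (j_q · j_{q²})⁻¹ ≤ chart J3⁻¹`. -/
theorem chart_beta_JK_inv_le :
    chart (M * q * q) A K (WQ2.jqK2 M q hq hqM K * WQ2.jqqK2 M q hq hqM K)⁻¹ ≤
      chart (M * q * q) A K (J3 M q hq hqM K)⁻¹ := by
  refine ChartJ.chart_le_of_isIntegral (M * q * q) A K ?_
  rw [mul_inv]
  exact (isIntegral_jqK2_inv_J3 M q hq hqM A K).mul (isIntegral_jqqK2_inv_J3 M q hq hqM A K)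

theorem J3_mem_chart : J3 M q hq hqM K ∈ chart (M * q * q) A K (J3 M q hq hqM K) :=
  ChartJ.self_mem_chart (M * q * q) A K _

theorem J3_inv_mem_chart : (J3 M q hq hqM K)⁻¹ ∈ chart (M * q * q) A K (J3 M q hq hqM K)⁻¹ :=
  ChartJ.self_mem_chart (M * q * q) A K _

theorem jK_mem_chart_J3 : jK (M * q * q) K ∈ chart (M * q * q) A K (J3 M q hq hqM K) :=
  (mem_chart_iff (M * q * q) A K).mpr (isIntegral_jK_J3 M q hq hqM A K)

theorem jqK2_mem_chart_J3 : WQ2.jqK2 M q hq hqM K ∈ chart (M * q * q) A K (J3 M q hq hqM K) :=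
  (mem_chart_iff (M * q * q) A K).mpr (isIntegral_jqK2_J3 M q hq hqM A K)

theorem jqqK2_mem_chart_J3 : WQ2.jqqK2 M q hq hqM K ∈ chart (M * q * q) A K (J3 M q hq hqM K) :=
  (mem_chart_iff (M * q * q) A K).mpr (isIntegral_jqqK2_J3 M q hq hqM A K)

theorem jK_inv_mem_chart_J3_inv :
    (jK (M * q * q) K)⁻¹ ∈ chart (M * q * q) A K (J3 M q hq hqM K)⁻¹ :=
  (mem_chart_iff (M * q * q) A K).mpr (isIntegral_jK_inv_J3 M q hq hqM A K)

theorem jqK2_inv_mem_chart_J3_inv :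
    (WQ2.jqK2 M q hq hqM K)⁻¹ ∈ chart (M * q * q) A K (J3 M q hq hqM K)⁻¹ :=
  (mem_chart_iff (M * q * q) A K).mpr (isIntegral_jqK2_inv_J3 M q hq hqM A K)

theorem jqqK2_inv_mem_chart_J3_inv :
    (WQ2.jqqK2 M q hq hqM K)⁻¹ ∈ chart (M * q * q) A K (J3 M q hq hqM K)⁻¹ :=
  (mem_chart_iff (M * q * q) A K).mpr (isIntegral_jqqK2_inv_J3 M q hq hqM A K)

/-! ### Ring-theoretic facts, gluing -/

/-- `J3` is transcendental over `O`. -/
theorem transcendental_J3 : Transcendental (OK A K) (J3 M q hq hqM K) := by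
  intro hJ
  have h1 : (Algebra.adjoin (OK A K) {J3 M q hq hqM K}).IsAlgebraic :=
    Algebra.isAlgebraic_adjoin_singleton_iff.mpr hJ
  have h2 : Algebra.IsAlgebraic (OK A K) (Algebra.adjoin (OK A K) {J3 M q hq hqM K}) :=
    (Subalgebra.isAlgebraic_iff _).mp h1
  exact ModelFin.transcendental_jK (M * q * q) A K
    (IsIntegral.trans_isAlgebraic (OK A K) (isIntegral_jK_J3 M q hq hqM A K))

/-- `F_K` is algebraic over `O[J3]`. -/
theorem isAlgebraic_J3 (x : FK (M * q * q) K) :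
    IsAlgebraic (Algebra.adjoin (OK A K) {J3 M q hq hqM K}) x := by
  obtain ⟨y, hy0, hy⟩ :=
    (ModelBasicCore.isAlgebraic_FK (M * q * q) A K x).exists_integral_multiple
  have hJ := isIntegral_jK_J3 M q hq hqM A K
  have h1 : IsIntegral (Algebra.adjoin (OK A K) {J3 M q hq hqM K}) (y • x) :=
    ChartJ.isIntegral_adjoin_trans hJ hy
  have h2 : IsIntegral (Algebra.adjoin (OK A K) {J3 M q hq hqM K}) ((y : FK (M * q * q) K)) :=
    ChartJ.isIntegral_adjoin_trans hJ (ChartJ.isIntegral_of_mem y.2)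
  have hy0' : (y : FK (M * q * q) K) ≠ 0 := fun h => hy0 (Subtype.ext h)
  exact ModelFin.isAlgebraic_of_frac h1 h2 hy0' (by rw [Algebra.smul_def, mul_comm x]; rfl)

/-- **Ring-theoretic facts of both charts** (`noeth`, `frac`, `intcl` of
`Model3Plan.ChartModel3` for `c0` and `cInf`) **and the two `fin0` shapes**. -/
theorem rings (hdvr : IsDiscreteValuationRing (OK A K)) :
    (IsNoetherianRing (chart (M * q * q) A K (J3 M q hq hqM K)) ∧
        IsFractionRing (chart (M * q * q) A K (J3 M q hq hqM K)) (FK (M * q * q) K) ∧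
        IsIntegrallyClosed (chart (M * q * q) A K (J3 M q hq hqM K))) ∧
      (IsNoetherianRing (chart (M * q * q) A K (J3 M q hq hqM K)⁻¹) ∧
        IsFractionRing (chart (M * q * q) A K (J3 M q hq hqM K)⁻¹) (FK (M * q * q) K) ∧
        IsIntegrallyClosed (chart (M * q * q) A K (J3 M q hq hqM K)⁻¹)) ∧
      (∃ s : Finset (FK (M * q * q) K),
        (chart (M * q * q) A K (J3 M q hq hqM K) : Set (FK (M * q * q) K)) ⊆
          Submodule.span (Algebra.adjoin (OK A K) {J3 M q hq hqM K})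
            (s : Set (FK (M * q * q) K))) ∧
      ∃ s : Finset (FK (M * q * q) K),
        (chart (M * q * q) A K (J3 M q hq hqM K)⁻¹ : Set (FK (M * q * q) K)) ⊆
          Submodule.span (Algebra.adjoin (OK A K) {(J3 M q hq hqM K)⁻¹})
            (s : Set (FK (M * q * q) K)) :=
  ChartRingInv.pair_of_isAlgebraic (M * q * q) A K hdvr (J3_ne_zero M q hq hqM K)
    (transcendental_J3 M q hq hqM A K) (isAlgebraic_J3 M q hq hqM A K)

/-- `chart J3 ⊆ chart J3⁻¹ [J3]`. -/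
theorem glue0 : ∀ x ∈ chart (M * q * q) A K (J3 M q hq hqM K),
    ∃ n : ℕ, x * (J3 M q hq hqM K)⁻¹ ^ n ∈ chart (M * q * q) A K (J3 M q hq hqM K)⁻¹ :=
  fun _ hx => ChartJ.glue (M * q * q) A K (J3_ne_zero M q hq hqM K) hx

/-- `chart J3⁻¹ ⊆ chart J3 [J3⁻¹]`. -/
theorem glueInf : ∀ x ∈ chart (M * q * q) A K (J3 M q hq hqM K)⁻¹,
    ∃ n : ℕ, x * J3 M q hq hqM K ^ n ∈ chart (M * q * q) A K (J3 M q hq hqM K) :=
  fun _ hx => ChartJ.glue' (M * q * q) A K (J3_ne_zero M q hq hqM K) hx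

/-! ### Stability under `w_{q²}` -/

theorem wK2_mem_chart_J3 {x : FK (M * q * q) K}
    (hx : x ∈ chart (M * q * q) A K (J3 M q hq hqM K)) :
    WQ2.wK2 M q hq hqM K x ∈ chart (M * q * q) A K (J3 M q hq hqM K) := by
  have h := WQ2.wK2_mem_chart M q hq hqM A K hx
  rwa [wK2_J3] at h

theorem wK2_mem_chart_J3_inv {x : FK (M * q * q) K}
    (hx : x ∈ chart (M * q * q) A K (J3 M q hq hqM K)⁻¹) :
    WQ2.wK2 M q hq hqM K x ∈ chart (M * q * q) A K (J3 M q hq hqM K)⁻¹ := by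
  have h := WQ2.wK2_mem_chart M q hq hqM A K hx
  rwa [wK2_J3_inv] at h

theorem wK2_symm_mem_chart_J3 {x : FK (M * q * q) K}
    (hx : x ∈ chart (M * q * q) A K (J3 M q hq hqM K)) :
    (WQ2.wK2 M q hq hqM K).symm x ∈ chart (M * q * q) A K (J3 M q hq hqM K) := by
  rw [WQ2.wK2_symm]
  exact wK2_mem_chart_J3 M q hq hqM A K hx

theorem wK2_symm_mem_chart_J3_inv {x : FK (M * q * q) K}
    (hx : x ∈ chart (M * q * q) A K (J3 M q hq hqM K)⁻¹) :
    (WQ2.wK2 M q hq hqM K).symm x ∈ chart (M * q * q) A K (J3 M q hq hqM K)⁻¹ := by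
  rw [WQ2.wK2_symm]
  exact wK2_mem_chart_J3_inv M q hq hqM A K hx

theorem wK2_mem_chart_J3_iff {x : FK (M * q * q) K} :
    WQ2.wK2 M q hq hqM K x ∈ chart (M * q * q) A K (J3 M q hq hqM K) ↔
      x ∈ chart (M * q * q) A K (J3 M q hq hqM K) := by
  refine ⟨fun h => ?_, wK2_mem_chart_J3 M q hq hqM A K⟩
  have h2 := wK2_mem_chart_J3 M q hq hqM A K h
  rwa [WQ2.wK2_wK2] at h2

theorem wK2_mem_chart_J3_inv_iff {x : FK (M * q * q) K} :
    WQ2.wK2 M q hq hqM K x ∈ chart (M * q * q) A K (J3 M q hq hqM K)⁻¹ ↔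
      x ∈ chart (M * q * q) A K (J3 M q hq hqM K)⁻¹ := by
  refine ⟨fun h => ?_, wK2_mem_chart_J3_inv M q hq hqM A K⟩
  have h2 := wK2_mem_chart_J3_inv M q hq hqM A K h
  rwa [WQ2.wK2_wK2] at h2

/-! ### The level-`M q` charts `chart JK`, `chart JK⁻¹` inside the level-`M q²` charts -/

/-- `α (chart_{Mq} JK) ⊆ chart J3`. -/
theorem alphaK2_mem_chart_J3 {x : FK (M * q) K}
    (hx : x ∈ chart (M * q) A K (WKInst.JK M q hq hqM K)) :
    WQ2.alphaK2 M q K x ∈ chart (M * q * q) A K (J3 M q hq hqM K) := by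
  rw [chart_J3_eq]
  rw [WKInst.chart_JK_eq] at hx
  exact WQ2.alphaK2_mem_chart_jK M q A K hx

/-- `α (chart_{Mq} JK⁻¹) ⊆ chart J3⁻¹`. -/
theorem alphaK2_mem_chart_J3_inv {x : FK (M * q) K}
    (hx : x ∈ chart (M * q) A K (WKInst.JK M q hq hqM K)⁻¹) :
    WQ2.alphaK2 M q K x ∈ chart (M * q * q) A K (J3 M q hq hqM K)⁻¹ := by
  have h : WQ2.alphaK2 M q K x ∈
      chart (M * q * q) A K (WQ2.alphaK2 M q K (WKInst.JK M q hq hqM K)⁻¹) :=
    WK.alphaK_mem_chart (M * q) q A K hx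
  rw [map_inv₀, alphaK2_JK] at h
  exact chart_alpha_JK_inv_le M q hq hqM A K h

/-- `β (chart_{Mq} JK) ⊆ chart J3`. -/
theorem betaK2_mem_chart_J3 {x : FK (M * q) K}
    (hx : x ∈ chart (M * q) A K (WKInst.JK M q hq hqM K)) :
    WQ2.betaK2 M q hq hqM K x ∈ chart (M * q * q) A K (J3 M q hq hqM K) := by
  rw [WQ2.betaK2_apply]
  exact wK2_mem_chart_J3 M q hq hqM A K
    (alphaK2_mem_chart_J3 M q hq hqM A K (WKInst.wK_mem_chart_JK M q hq hqM A K hx))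

/-- `β (chart_{Mq} JK⁻¹) ⊆ chart J3⁻¹`. -/
theorem betaK2_mem_chart_J3_inv {x : FK (M * q) K}
    (hx : x ∈ chart (M * q) A K (WKInst.JK M q hq hqM K)⁻¹) :
    WQ2.betaK2 M q hq hqM K x ∈ chart (M * q * q) A K (J3 M q hq hqM K)⁻¹ := by
  rw [WQ2.betaK2_apply]
  exact wK2_mem_chart_J3_inv M q hq hqM A K
    (alphaK2_mem_chart_J3_inv M q hq hqM A K (WKInst.wK_mem_chart_JK_inv M q hq hqM A K hx))

/-- `α (chart_{Mq} j) ⊆ chart J3`. -/
theorem alphaK2_mem_chart_J3_of_jK {x : FK (M * q) K}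
    (hx : x ∈ chart (M * q) A K (jK (M * q) K)) :
    WQ2.alphaK2 M q K x ∈ chart (M * q * q) A K (J3 M q hq hqM K) := by
  rw [chart_J3_eq]
  exact WQ2.alphaK2_mem_chart_jK M q A K hx

/-- `α (chart_{Mq} j⁻¹) ⊆ chart J3⁻¹`. -/
theorem alphaK2_mem_chart_J3_inv_of_jK {x : FK (M * q) K}
    (hx : x ∈ chart (M * q) A K (jK (M * q) K)⁻¹) :
    WQ2.alphaK2 M q K x ∈ chart (M * q * q) A K (J3 M q hq hqM K)⁻¹ :=
  chart_jK_inv_le M q hq hqM A K (WQ2.alphaK2_mem_chart_inv M q A K hx)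

/-- `β (chart_{Mq} j) ⊆ chart J3`. -/
theorem betaK2_mem_chart_J3_of_jK {x : FK (M * q) K}
    (hx : x ∈ chart (M * q) A K (jK (M * q) K)) :
    WQ2.betaK2 M q hq hqM K x ∈ chart (M * q * q) A K (J3 M q hq hqM K) := by
  rw [chart_J3_eq]
  exact WQ2.betaK2_mem_chart_jK M q hq hqM A K hx

/-! ### The level-`M` charts `chart j`, `chart j⁻¹` inside the level-`M q²` charts -/

/-- The inclusion of level `M` into level `M q²`, as `α ∘ α`. -/
def incl2 : FK M K →+* FK (M * q * q) K := (WQ2.alphaK2 M q K).comp (WK.alphaK M q K)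

theorem coe_incl2 (x : FK M K) :
    ((incl2 M q K x : FK (M * q * q) K) : LaurentSeries Qb) = (x : LaurentSeries Qb) := by
  rw [incl2, RingHom.comp_apply, WQ2.coe_alphaK2, WK.coe_alphaK]

/-- Any coefficient-preserving ring hom `F_K(M) → F_K(M q²)` is `incl2`. -/
theorem eq_incl2 (al : FK M K →+* FK (M * q * q) K)
    (hal : ∀ x : FK M K, ((al x : FK (M * q * q) K) : LaurentSeries Qb) = (x : LaurentSeries Qb)) :
    al = incl2 M q K :=
  RingHom.ext fun x => Subtype.ext ((hal x).trans (coe_incl2 M q K x).symm)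

theorem incl2_algebraMap (c : OK A K) :
    incl2 M q K (algebraMap (OK A K) (FK M K) c) = algebraMap (OK A K) (FK (M * q * q) K) c := by
  apply Subtype.ext
  rw [coe_incl2, GaussV.coe_algebraMap, GaussV.coe_algebraMap]

theorem incl2_jK : incl2 M q K (jK M K) = jK (M * q * q) K := by
  rw [incl2, RingHom.comp_apply, WK.alphaK_jK, WQ2.alphaK2_jK]

/-- `chart_M j` maps into `chart J3`. -/
theorem incl2_mem_chart_J3 {x : FK M K} (hx : x ∈ chart M A K (jK M K)) :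
    incl2 M q K x ∈ chart (M * q * q) A K (J3 M q hq hqM K) :=
  alphaK2_mem_chart_J3_of_jK M q hq hqM A K (WK.alphaK_mem_chart_jK M q A K hx)

/-- `chart_M j⁻¹` maps into `chart J3⁻¹`. -/
theorem incl2_mem_chart_J3_inv {x : FK M K} (hx : x ∈ chart M A K (jK M K)⁻¹) :
    incl2 M q K x ∈ chart (M * q * q) A K (J3 M q hq hqM K)⁻¹ :=
  alphaK2_mem_chart_J3_inv_of_jK M q hq hqM A K (WK.alphaK_mem_chart_inv M q A K hx)

/-- `w_{q²} ∘ incl2` maps `chart_M j` into `chart J3`. -/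
theorem wK2_incl2_mem_chart_J3 {x : FK M K} (hx : x ∈ chart M A K (jK M K)) :
    WQ2.wK2 M q hq hqM K (incl2 M q K x) ∈ chart (M * q * q) A K (J3 M q hq hqM K) :=
  wK2_mem_chart_J3 M q hq hqM A K (incl2_mem_chart_J3 M q hq hqM A K hx)

/-- `w_{q²} ∘ incl2` maps `chart_M j⁻¹` into `chart J3⁻¹`. -/
theorem wK2_incl2_mem_chart_J3_inv {x : FK M K} (hx : x ∈ chart M A K (jK M K)⁻¹) :
    WQ2.wK2 M q hq hqM K (incl2 M q K x) ∈ chart (M * q * q) A K (J3 M q hq hqM K)⁻¹ :=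
  wK2_mem_chart_J3_inv M q hq hqM A K (incl2_mem_chart_J3_inv M q hq hqM A K hx)

/-- The `DegTower` inclusion is `incl2`. -/
theorem degTower_incl_eq (h : M ∣ M * q * q) : DegTower.incl M (M * q * q) K h = incl2 M q K :=
  eq_incl2 M q K _ (fun x => DegTower.coe_incl M (M * q * q) K h x)

/-- `chart_M j` maps into `chart J3` under any coefficient-preserving ring hom (e.g.
`DegTower.incl`). -/
theorem level_mem_chart_J3 (al : FK M K →+* FK (M * q * q) K)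
    (hal : ∀ x : FK M K, ((al x : FK (M * q * q) K) : LaurentSeries Qb) = (x : LaurentSeries Qb))
    {x : FK M K} (hx : x ∈ chart M A K (jK M K)) :
    al x ∈ chart (M * q * q) A K (J3 M q hq hqM K) := by
  rw [eq_incl2 M q K al hal]
  exact incl2_mem_chart_J3 M q hq hqM A K hx

/-- `chart_M j⁻¹` maps into `chart J3⁻¹` under any coefficient-preserving ring hom. -/
theorem level_mem_chart_J3_inv (al : FK M K →+* FK (M * q * q) K)
    (hal : ∀ x : FK M K, ((al x : FK (M * q * q) K) : LaurentSeries Qb) = (x : LaurentSeries Qb))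
    {x : FK M K} (hx : x ∈ chart M A K (jK M K)⁻¹) :
    al x ∈ chart (M * q * q) A K (J3 M q hq hqM K)⁻¹ := by
  rw [eq_incl2 M q K al hal]
  exact incl2_mem_chart_J3_inv M q hq hqM A K hx

/-! ### Charts inside valuation rings -/

section Val

omit [NeZero M] [NeZero q] in
/-- A chart whose coordinate lies in a valuation subring `V ⊇ O` lies in `V`. -/
theorem chart_le_of {N : ℕ} (V : ValuationSubring (FK N K))
    (hO : ∀ c : OK A K, algebraMap (OK A K) (FK N K) c ∈ V) (t : FK N K) (ht : t ∈ V) :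
    ∀ x ∈ chart N A K t, x ∈ V := by
  intro x hx
  have hS : ∀ z ∈ Algebra.adjoin (OK A K) {t}, z ∈ V := by
    intro z hz
    induction hz using Algebra.adjoin_induction with
    | mem z hz =>
      rw [Set.mem_singleton_iff] at hz
      rw [hz]
      exact ht
    | algebraMap c => exact hO c
    | add a b _ _ ha hb => exact V.add_mem _ _ ha hb
    | mul a b _ _ ha hb => exact V.mul_mem _ _ ha hb
  exact ModelRed.mem_valuationSubring_of_isIntegral V _ hS x ((mem_chart_iff N A K).mp hx)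

variable (V : ValuationSubring (FK (M * q * q) K))
  (hO : ∀ c : OK A K, algebraMap (OK A K) (FK (M * q * q) K) c ∈ V)

include hO in
/-- `chart J3 ⊆ V` for every valuation subring `V ⊇ O` containing `j`, `j_q`, `j_{q²}`. -/
theorem chart_J3_le_of (hj : jK (M * q * q) K ∈ V) (hjq : WQ2.jqK2 M q hq hqM K ∈ V)
    (hjqq : WQ2.jqqK2 M q hq hqM K ∈ V) :
    ∀ x ∈ chart (M * q * q) A K (J3 M q hq hqM K), x ∈ V :=
  chart_le_of A K V hO _ (V.mul_mem _ _ (V.mul_mem _ _ hj hjq) hjqq)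

include hO in
/-- `chart J3⁻¹ ⊆ V` for every valuation subring `V ⊇ O` containing `j⁻¹`, `j_q⁻¹`,
`j_{q²}⁻¹`. -/
theorem chart_J3_inv_le_of (hj : (jK (M * q * q) K)⁻¹ ∈ V)
    (hjq : (WQ2.jqK2 M q hq hqM K)⁻¹ ∈ V) (hjqq : (WQ2.jqqK2 M q hq hqM K)⁻¹ ∈ V) :
    ∀ x ∈ chart (M * q * q) A K (J3 M q hq hqM K)⁻¹, x ∈ V := by
  refine chart_le_of A K V hO _ ?_
  rw [J3, mul_inv, mul_inv]
  exact V.mul_mem _ _ (V.mul_mem _ _ hj hjq) hjqq

end Val

/-! ### `W1 = GaussV.V1` and `W2 = GaussV.V2 wK2` -/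

section W12

variable (hdvr : IsDiscreteValuationRing (OK A K))

theorem jqK2_mem_V1 : WQ2.jqK2 M q hq hqM K ∈ GaussV.V1 (M * q * q) A K hdvr := by
  have h := V12Rel.gRel_jd A q
  rw [← S28.jd_eq Qb q, ← WQ2.coe_jqK2 M q hq hqM K] at h
  exact ⟨_, h⟩

theorem jqK2_inv_mem_V1 : (WQ2.jqK2 M q hq hqM K)⁻¹ ∈ GaussV.V1 (M * q * q) A K hdvr := by
  have h := V12Rel.gRel_jd_inv A q
  rw [← S28.jd_eq Qb q, ← WQ2.coe_jqK2 M q hq hqM K] at h
  exact ⟨_, h⟩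

theorem jqqK2_mem_V1 : WQ2.jqqK2 M q hq hqM K ∈ GaussV.V1 (M * q * q) A K hdvr := by
  have : NeZero (q * q) := ⟨Nat.mul_ne_zero (NeZero.ne q) (NeZero.ne q)⟩
  have h := V12Rel.gRel_jd A (q * q)
  rw [← S28.jd_eq Qb (q * q), ← WQ2.coe_jqqK2 M q hq hqM K] at h
  exact ⟨_, h⟩

theorem jqqK2_inv_mem_V1 : (WQ2.jqqK2 M q hq hqM K)⁻¹ ∈ GaussV.V1 (M * q * q) A K hdvr := by
  have : NeZero (q * q) := ⟨Nat.mul_ne_zero (NeZero.ne q) (NeZero.ne q)⟩
  have h := V12Rel.gRel_jd_inv A (q * q)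
  rw [← S28.jd_eq Qb (q * q), ← WQ2.coe_jqqK2 M q hq hqM K] at h
  exact ⟨_, h⟩

theorem J3_mem_V1 : J3 M q hq hqM K ∈ GaussV.V1 (M * q * q) A K hdvr :=
  (GaussV.V1 (M * q * q) A K hdvr).mul_mem _ _
    ((GaussV.V1 (M * q * q) A K hdvr).mul_mem _ _ (GaussV.jK_mem_V1 hdvr)
      (jqK2_mem_V1 M q hq hqM A K hdvr)) (jqqK2_mem_V1 M q hq hqM A K hdvr)

theorem J3_inv_mem_V1 : (J3 M q hq hqM K)⁻¹ ∈ GaussV.V1 (M * q * q) A K hdvr := by
  rw [J3, mul_inv, mul_inv]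
  exact (GaussV.V1 (M * q * q) A K hdvr).mul_mem _ _
    ((GaussV.V1 (M * q * q) A K hdvr).mul_mem _ _ (GaussV.jK_inv_mem_V1 hdvr)
      (jqK2_inv_mem_V1 M q hq hqM A K hdvr)) (jqqK2_inv_mem_V1 M q hq hqM A K hdvr)

/-- `chart J3 ⊆ W1`. -/
theorem chart_J3_le_W1 :
    ∀ x ∈ chart (M * q * q) A K (J3 M q hq hqM K), x ∈ GaussV.V1 (M * q * q) A K hdvr :=
  GaussV.chart_le_V1 hdvr _ (J3_mem_V1 M q hq hqM A K hdvr)

/-- `chart J3⁻¹ ⊆ W1`. -/
theorem chart_J3_inv_le_W1 :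
    ∀ x ∈ chart (M * q * q) A K (J3 M q hq hqM K)⁻¹, x ∈ GaussV.V1 (M * q * q) A K hdvr :=
  GaussV.chart_le_V1 hdvr _ (J3_inv_mem_V1 M q hq hqM A K hdvr)

/-- `chart J3 ⊆ W2 = w_{q²}⁻¹ W1`. -/
theorem chart_J3_le_W2 :
    ∀ x ∈ chart (M * q * q) A K (J3 M q hq hqM K),
      x ∈ GaussV.V2 (WQ2.wK2 M q hq hqM K) hdvr := by
  intro x hx
  rw [GaussV.mem_V2_iff]
  exact chart_J3_le_W1 M q hq hqM A K hdvr _ (wK2_mem_chart_J3 M q hq hqM A K hx)

/-- `chart J3⁻¹ ⊆ W2 = w_{q²}⁻¹ W1`. -/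
theorem chart_J3_inv_le_W2 :
    ∀ x ∈ chart (M * q * q) A K (J3 M q hq hqM K)⁻¹,
      x ∈ GaussV.V2 (WQ2.wK2 M q hq hqM K) hdvr := by
  intro x hx
  rw [GaussV.mem_V2_iff]
  exact chart_J3_inv_le_W1 M q hq hqM A K hdvr _ (wK2_mem_chart_J3_inv M q hq hqM A K hx)

/-- **`ChartHyp3.le` for `chart J3`**, for `V 0 = W1`, `V 1 = W2` and any `V 2 ⊇ O` containing
`j`, `j_q`, `j_{q²}`. -/
theorem le3 (V : Fin 3 → ValuationSubring (FK (M * q * q) K))
    (h0 : V 0 = GaussV.V1 (M * q * q) A K hdvr)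
    (h1 : V 1 = GaussV.V2 (WQ2.wK2 M q hq hqM K) hdvr)
    (hO : ∀ c : OK A K, algebraMap (OK A K) (FK (M * q * q) K) c ∈ V 2)
    (hj : jK (M * q * q) K ∈ V 2) (hjq : WQ2.jqK2 M q hq hqM K ∈ V 2)
    (hjqq : WQ2.jqqK2 M q hq hqM K ∈ V 2) :
    ∀ (i : Fin 3) (r : chart (M * q * q) A K (J3 M q hq hqM K)),
      algebraMap (chart (M * q * q) A K (J3 M q hq hqM K)) (FK (M * q * q) K) r ∈ V i := by
  intro i r
  fin_cases i
  · show (r : FK (M * q * q) K) ∈ V 0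
    rw [h0]
    exact chart_J3_le_W1 M q hq hqM A K hdvr _ r.2
  · show (r : FK (M * q * q) K) ∈ V 1
    rw [h1]
    exact chart_J3_le_W2 M q hq hqM A K hdvr _ r.2
  · exact chart_J3_le_of M q hq hqM A K (V 2) hO hj hjq hjqq _ r.2

/-- **`ChartHyp3.le` for `chart J3⁻¹`**, for `V 0 = W1`, `V 1 = W2` and any `V 2 ⊇ O` containing
`j⁻¹`, `j_q⁻¹`, `j_{q²}⁻¹`. -/
theorem le3_inv (V : Fin 3 → ValuationSubring (FK (M * q * q) K))
    (h0 : V 0 = GaussV.V1 (M * q * q) A K hdvr)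
    (h1 : V 1 = GaussV.V2 (WQ2.wK2 M q hq hqM K) hdvr)
    (hO : ∀ c : OK A K, algebraMap (OK A K) (FK (M * q * q) K) c ∈ V 2)
    (hj : (jK (M * q * q) K)⁻¹ ∈ V 2) (hjq : (WQ2.jqK2 M q hq hqM K)⁻¹ ∈ V 2)
    (hjqq : (WQ2.jqqK2 M q hq hqM K)⁻¹ ∈ V 2) :
    ∀ (i : Fin 3) (r : chart (M * q * q) A K (J3 M q hq hqM K)⁻¹),
      algebraMap (chart (M * q * q) A K (J3 M q hq hqM K)⁻¹) (FK (M * q * q) K) r ∈ V i := by
  intro i r
  fin_cases i
  · show (r : FK (M * q * q) K) ∈ V 0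
    rw [h0]
    exact chart_J3_inv_le_W1 M q hq hqM A K hdvr _ r.2
  · show (r : FK (M * q * q) K) ∈ V 1
    rw [h1]
    exact chart_J3_inv_le_W2 M q hq hqM A K hdvr _ r.2
  · exact chart_J3_inv_le_of M q hq hqM A K (V 2) hO hj hjq hjqq _ r.2

end W12

end

/-! ### Vertical ideals -/

section Vert

variable {O E : Type*} [CommRing O] [Field E] [Algebra O E]

/-- The vertical ideal `R ∩ ϖ V` of a subalgebra `R ⊆ V`. -/
def vertP (R : Subalgebra O E) (V : ValuationSubring E) (hle : ∀ r : R, (r : E) ∈ V) (ϖ : E) :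
    Ideal R where
  carrier := {r | ∃ y ∈ V, (r : E) = ϖ * y}
  add_mem' := by
    rintro a b ⟨y, hy, ha⟩ ⟨z, hz, hb⟩
    exact ⟨y + z, V.add_mem _ _ hy hz, by rw [Subalgebra.coe_add, ha, hb, mul_add]⟩
  zero_mem' := ⟨0, V.zero_mem, by rw [mul_zero]; rfl⟩
  smul_mem' := by
    rintro c r ⟨y, hy, hr⟩
    exact ⟨(c : E) * y, V.mul_mem _ _ (hle c) hy, by
      rw [smul_eq_mul, Subalgebra.coe_mul, hr]; ring⟩

theorem mem_vertP {R : Subalgebra O E} {V : ValuationSubring E} {hle : ∀ r : R, (r : E) ∈ V}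
    {ϖ : E} {r : R} : r ∈ vertP R V hle ϖ ↔ ∃ y ∈ V, algebraMap R E r = ϖ * y := Iff.rfl

/-- The three vertical ideals of a chart `R` inside `V 0 ∩ V 1 ∩ V 2`. -/
def Pfam (R : Subalgebra O E) (V : Fin 3 → ValuationSubring E)
    (hle : ∀ (i : Fin 3) (r : R), algebraMap R E r ∈ V i) (ϖ : Fin 3 → E) : Fin 3 → Ideal R :=
  fun i => vertP R (V i) (hle i) (ϖ i)

/-- **`ChartHyp3.mem_P`** for `Pfam`. -/
theorem mem_Pfam {R : Subalgebra O E} {V : Fin 3 → ValuationSubring E}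
    {hle : ∀ (i : Fin 3) (r : R), algebraMap R E r ∈ V i} {ϖ : Fin 3 → E} (i : Fin 3) (r : R) :
    r ∈ Pfam R V hle ϖ i ↔ ∃ y ∈ V i, algebraMap R E r = ϖ i * y := Iff.rfl

end Vert

end Fermat.Agent.S36.Chart3B
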