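/-
S36 — Branch3B.lean (helper42; package [MODEL3], leaf [M3.7], abstract-embedding core).

"A branch of the special fibre at level `N` is the special fibre at level `M`", along an ARBITRARY
expansion `E : F_K(N) → ℚ̄((Q))` (a ring homomorphism): the standard `q`-expansion for the
component `W1`, the `q`-expansion twisted by `w_{q²}` for `W2`, the expansion at the middle cusp
for `W3`.  This is `S34/Branch.exists_level` with the coercion replaced by `E`.

* `exists_rho_emb`     : the reduction map `ρ_E : R → k((Q))` of a subalgebra contained in the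
                         `E`-Gauss ring;
* `exists_level_emb`   : if the `E`-Gauss residue field of `F_K(N)` is that of `F_K(M)` (`hf`,
                         residue degree one) and the coordinate `t` has `E`-reduction integral
                         over `ρ_M(R_M)`, then every element of `chart N A K t` is congruent,
                         modulo the `E`-Gauss maximal ideal, to an element of `R_M`;
* `exists_sub_eq_mul`  : the same in valuation-ring form `x - al y = ϖ * v`, `v ∈ V`;
* `exists_sub_mem`     : the same in ideal form `r - al y ∈ P`.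
-/
import Mathlib
import Fermat.Agent.S18.ArithPlan
import Fermat.Agent.S18.GRel
import Fermat.Agent.S18.ModelRed
import Fermat.Agent.S34.Branch

set_option autoImplicit false

noncomputable section

namespace Fermat.Agent.S36.Branch3B

open ModularCurve HahnSeries Fermat.Agent.S18 Fermat.Agent.S18.Arith Fermat.Agent.S18.ModelPlan
  Fermat.Agent.S34

variable (M N : ℕ) [NeZero M] [NeZero N] {A : ValuationSubring Qb} {K : IntermediateField ℚ Qb}

/-- The reduction map, along an expansion `E`, of a subalgebra contained in the `E`-Gauss ring. -/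
theorem exists_rho_emb (E : FK N K →+* LaurentSeries Qb) (R : Subalgebra (OK A K) (FK N K))
    (hR : ∀ x ∈ R, ∃ y, GRel A (E x) y) :
    ∃ ρ : R →+* LaurentSeries (IsLocalRing.ResidueField A),
      ∀ x : R, GRel A (E (x : FK N K)) (ρ x) := by
  classical
  have hG := GRel.gRelStatement A
  have hspec : ∀ x : R, GRel A (E (x : FK N K)) (Classical.choose (hR x.1 x.2)) :=
    fun x => Classical.choose_spec (hR x.1 x.2)
  refine ⟨{ toFun := fun x => Classical.choose (hR x.1 x.2)
            map_one' := ?_
            map_mul' := ?_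
            map_zero' := ?_
            map_add' := ?_ }, hspec⟩
  · have h1 : GRel A (E ((1 : R) : FK N K)) 1 := by
      rw [OneMemClass.coe_one, map_one]
      exact ModelRed.gRel_one hG
    exact hG.unique _ _ _ (hspec 1) h1
  · intro a b
    have h := hG.mul _ _ _ _ (hspec a) (hspec b)
    rw [← map_mul] at h
    exact hG.unique _ _ _ (hspec (a * b)) h
  · have h0 : GRel A (E ((0 : R) : FK N K)) 0 := by
      rw [ZeroMemClass.coe_zero, map_zero]
      exact ModelRed.gRel_zero hG
    exact hG.unique _ _ _ (hspec 0) h0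
  · intro a b
    have h := hG.add _ _ _ _ (hspec a) (hspec b)
    rw [← map_add] at h
    exact hG.unique _ _ _ (hspec (a + b)) h

/-- **`ρ_E(chart) ⊆ ρ_M(R_M)`** along an arbitrary expansion `E` of `F_K(N)`.

`hEc` : `E` is the standard embedding on the constants of `O`;
`hEV` : the chart lies in the `E`-Gauss ring;
`hB1` : the reduction ring of `R_M` contains every integral element of the level-`M` residue
        field (`S34/Branch.mem_redRing_R0`, `mem_redRing_Rinf`);
`hf`  : the `E`-Gauss residue field of `F_K(N)` is that of `F_K(M)` (residue degree one);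
`ht`  : the `E`-reduction of the coordinate `t` is integral over the reduction ring. -/
theorem exists_level_emb (E : FK N K →+* LaurentSeries Qb)
    (hEc : ∀ c : OK A K, GRel A (E (algebraMap (OK A K) (FK N K) c))
      (C (resO A K c) : LaurentSeries (IsLocalRing.ResidueField A)))
    (t : FK N K)
    (hEV : ∀ z ∈ chart N A K t, ∃ y, GRel A (E z) y)
    (RM : Subalgebra (OK A K) (FK M K))
    (hB1 : ∀ y : LaurentSeries (IsLocalRing.ResidueField A),
      (∃ x' : FK M K, GRel A ((x' : FK M K) : LaurentSeries Qb) y) →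
      IsIntegral (Branch.redRing M A K RM) y → y ∈ Branch.redRing M A K RM)
    (hf : ∀ (x : FK N K) (y : LaurentSeries (IsLocalRing.ResidueField A)),
      GRel A (E x) y → ∃ x' : FK M K, GRel A ((x' : FK M K) : LaurentSeries Qb) y)
    (ht : ∃ yt, GRel A (E t) yt ∧ IsIntegral (Branch.redRing M A K RM) yt)
    (x : FK N K) (hx : x ∈ chart N A K t) :
    ∃ x' ∈ RM, GRel A (E x - ((x' : FK M K) : LaurentSeries Qb)) 0 := by
  have hG := GRel.gRelStatement A
  obtain ⟨yt, hyt, hytint⟩ := ht
  obtain ⟨ρ, hρ⟩ := exists_rho_emb N E (chart N A K t) hEV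
  have hBR : Algebra.adjoin (OK A K) {t} ≤ chart N A K t := by
    intro z hz
    exact isIntegral_algebraMap (x := (⟨z, hz⟩ : Algebra.adjoin (OK A K) {t}))
  -- reductions of elements of `O[t]` are integral over the reduction ring
  have hBint : ∀ z ∈ Algebra.adjoin (OK A K) {t}, ∃ y',
      GRel A (E z) y' ∧ IsIntegral (Branch.redRing M A K RM) y' := by
    intro z hz
    induction hz using Algebra.adjoin_induction with
    | mem z hz =>
      rw [Set.mem_singleton_iff] at hz
      rw [hz]
      exact ⟨yt, hyt, hytint⟩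
    | algebraMap c =>
      exact ⟨_, hEc c, isIntegral_algebraMap
        (x := (⟨_, Branch.const_mem_redRing RM c⟩ : Branch.redRing M A K RM))⟩
    | add a b _ _ ha hb =>
      obtain ⟨ya, h1, h2⟩ := ha
      obtain ⟨yb, h3, h4⟩ := hb
      refine ⟨ya + yb, ?_, h2.add h4⟩
      rw [map_add]
      exact hG.add _ _ _ _ h1 h3
    | mul a b _ _ ha hb =>
      obtain ⟨ya, h1, h2⟩ := ha
      obtain ⟨yb, h3, h4⟩ := hb
      refine ⟨ya * yb, ?_, h2.mul h4⟩
      rw [map_mul]
      exact hG.mul _ _ _ _ h1 h3
  obtain ⟨p, hp, hpx⟩ := hx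
  let f : Algebra.adjoin (OK A K) {t} →+* chart N A K t := (Subalgebra.inclusion hBR).toRingHom
  have h0 : Polynomial.eval₂ f ⟨x, ⟨p, hp, hpx⟩⟩ p = 0 := by
    apply Subtype.val_injective
    have h := Polynomial.hom_eval₂ p f (chart N A K t).val.toRingHom ⟨x, ⟨p, hp, hpx⟩⟩
    exact h.trans hpx
  have h1 : Polynomial.eval₂ (ρ.comp f) (ρ ⟨x, ⟨p, hp, hpx⟩⟩) p = 0 := by
    rw [← Polynomial.hom_eval₂, h0, map_zero]
  have hcoef : ∀ b : Algebra.adjoin (OK A K) {t},
      IsIntegral (Branch.redRing M A K RM) (ρ (f b)) := by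
    intro b
    obtain ⟨y', h1', h2'⟩ := hBint b.1 b.2
    have e : ρ (f b) = y' := hG.unique _ _ _ (hρ (f b)) h1'
    rw [e]
    exact h2'
  have hyint : IsIntegral (Branch.redRing M A K RM) (ρ ⟨x, ⟨p, hp, hpx⟩⟩) := by
    let φ : Algebra.adjoin (OK A K) {t} →+*
        integralClosure (Branch.redRing M A K RM)
          (LaurentSeries (IsLocalRing.ResidueField A)) :=
      (ρ.comp f).codRestrict _ (fun b => hcoef b)
    have hφ : (algebraMap (integralClosure (Branch.redRing M A K RM)
        (LaurentSeries (IsLocalRing.ResidueField A)))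
        (LaurentSeries (IsLocalRing.ResidueField A))).comp φ = ρ.comp f := by
      ext b : 1
      rfl
    have h2 : IsIntegral (integralClosure (Branch.redRing M A K RM)
        (LaurentSeries (IsLocalRing.ResidueField A))) (ρ ⟨x, ⟨p, hp, hpx⟩⟩) :=
      ⟨p.map φ, hp.map φ, by rw [Polynomial.eval₂_map, hφ]; exact h1⟩
    exact isIntegral_trans _ h2
  obtain ⟨x'', hx''⟩ := hf x _ (hρ ⟨x, ⟨p, hp, hpx⟩⟩)
  obtain ⟨x', hx', hxy⟩ := hB1 _ ⟨x'', hx''⟩ hyint
  refine ⟨x', hx', ?_⟩
  have h := hG.add _ _ _ _ (hρ ⟨x, ⟨p, hp, hpx⟩⟩) (hG.neg _ _ hxy)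
  rwa [add_neg_cancel, ← sub_eq_add_neg] at h

/-- The same in valuation-ring form: `al : F_K(M) → F_K(N)` is the pull-back (`E ∘ al` is the
standard expansion), `V` a valuation ring of `F_K(N)` and `ϖ` an element such that every
element with `E`-reduction zero lies in `ϖ V`.  Then every element of the chart is congruent
to the pull-back of an element of `R_M` modulo `ϖ V`. -/
theorem exists_sub_eq_mul (E : FK N K →+* LaurentSeries Qb)
    (hEc : ∀ c : OK A K, GRel A (E (algebraMap (OK A K) (FK N K) c))
      (C (resO A K c) : LaurentSeries (IsLocalRing.ResidueField A)))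
    (t : FK N K)
    (hEV : ∀ z ∈ chart N A K t, ∃ y, GRel A (E z) y)
    (RM : Subalgebra (OK A K) (FK M K))
    (hB1 : ∀ y : LaurentSeries (IsLocalRing.ResidueField A),
      (∃ x' : FK M K, GRel A ((x' : FK M K) : LaurentSeries Qb) y) →
      IsIntegral (Branch.redRing M A K RM) y → y ∈ Branch.redRing M A K RM)
    (hf : ∀ (x : FK N K) (y : LaurentSeries (IsLocalRing.ResidueField A)),
      GRel A (E x) y → ∃ x' : FK M K, GRel A ((x' : FK M K) : LaurentSeries Qb) y)
    (ht : ∃ yt, GRel A (E t) yt ∧ IsIntegral (Branch.redRing M A K RM) yt)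
    (al : FK M K →+* FK N K)
    (hal : ∀ y : FK M K, E (al y) = ((y : FK M K) : LaurentSeries Qb))
    (V : ValuationSubring (FK N K)) (ϖ : FK N K)
    (hker : ∀ x : FK N K, GRel A (E x) 0 → ∃ v ∈ V, x = ϖ * v) :
    ∀ x ∈ chart N A K t, ∃ y ∈ RM, ∃ v ∈ V, x - al y = ϖ * v := by
  intro x hx
  obtain ⟨x', hx', h⟩ := exists_level_emb M N E hEc t hEV RM hB1 hf ht x hx
  rw [← hal x', ← map_sub] at h
  exact ⟨x', hx', hker _ h⟩

/-- The same in ideal form: `P` is the kernel of the `E`-reduction on the chart.  This is the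
hypothesis `hB` of `S34/PointHyp` (`comap_isMaximal`, `exists_gen`, `branch_zero`). -/
theorem exists_sub_mem (E : FK N K →+* LaurentSeries Qb)
    (hEc : ∀ c : OK A K, GRel A (E (algebraMap (OK A K) (FK N K) c))
      (C (resO A K c) : LaurentSeries (IsLocalRing.ResidueField A)))
    (t : FK N K)
    (hEV : ∀ z ∈ chart N A K t, ∃ y, GRel A (E z) y)
    (RM : Subalgebra (OK A K) (FK M K))
    (hB1 : ∀ y : LaurentSeries (IsLocalRing.ResidueField A),
      (∃ x' : FK M K, GRel A ((x' : FK M K) : LaurentSeries Qb) y) →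
      IsIntegral (Branch.redRing M A K RM) y → y ∈ Branch.redRing M A K RM)
    (hf : ∀ (x : FK N K) (y : LaurentSeries (IsLocalRing.ResidueField A)),
      GRel A (E x) y → ∃ x' : FK M K, GRel A ((x' : FK M K) : LaurentSeries Qb) y)
    (ht : ∃ yt, GRel A (E t) yt ∧ IsIntegral (Branch.redRing M A K RM) yt)
    (al : FK M K →+* FK N K)
    (hal : ∀ y : FK M K, E (al y) = ((y : FK M K) : LaurentSeries Qb))
    (haR : ∀ y ∈ RM, al y ∈ chart N A K t)
    (P : Ideal (chart N A K t))
    (hP : ∀ r : chart N A K t, r ∈ P ↔ GRel A (E (r : FK N K)) 0) :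
    ∀ r : chart N A K t, ∃ y : RM, r - ⟨al y, haR y y.2⟩ ∈ P := by
  intro r
  obtain ⟨x', hx', h⟩ := exists_level_emb M N E hEc t hEV RM hB1 hf ht r.1 r.2
  refine ⟨⟨x', hx'⟩, ?_⟩
  rw [hP]
  rw [← hal x', ← map_sub] at h
  exact h

end Fermat.Agent.S36.Branch3B
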