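/-
S36 — BranchPts3.lean (helper88; package [MODEL3], lead helper128; leaf [M3.7-pts]).

The `branch` FIELD of `Model3Plan.ChartModel3` (each vertical branch through a closed point of the
special fibre is regular of dimension one there), for ANY chart `chart N A K t` of the level-`N`
model with three vertical primes `P i = chart ∩ ϖ i (V i)` (`Model3Plan.ChartHyp3`), in hypothesis
form over the chart-level residue-degree-one statements:

* (Br) for every `i : Fin 3` an `O`-linear ring hom `al i : F_K(M) → F_K(N)` mapping a level-`M`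
  chart `RM` (with the Igusa property `S18.Arith.IgusaAt`) into the chart, such that
  `chart = al i (RM) + P i`, i.e. `∀ x ∈ chart, ∃ y ∈ RM, x - al i y ∈ ϖ i (V i)`
  (in the application: `al 0 = al 2 =` the inclusion of level `M`, `al 1 = w_{q²} ∘` inclusion);
* (ne) the coordinate `t` is not constant on any branch: `t - c ∉ ϖ i (V i)` for constants `c`.

`branch3` is `ChartModel3.branch` verbatim; the proof is the three-branch version of
`S34/PointHyp.branch_trans` (first half), via `PointHyp.branch_zero`.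
-/
import Mathlib
import Fermat.Agent.S18.ArithPlan
import Fermat.Agent.S18.IgusaPtsChart
import Fermat.Agent.S34.PointHyp
import Fermat.Agent.S36.Model3Plan

set_option autoImplicit false

namespace Fermat.Agent.S36.BranchPts3

open ModularCurve AlgebraicCurve
open Fermat.Agent.S18.Arith Fermat.Agent.S34

variable {N M : ℕ} {A : ValuationSubring Qb} {K : IntermediateField ℚ Qb}

/-- `π ∈ ϖ i (V i)` from the ramification clause of `Model3Plan.ValHyp3`. -/
theorem pi_mem_of_valHyp3 {E : Type*} [Field E] {p : E} {e : Fin 3 → ℕ} {ϖ : Fin 3 → E}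
    {V : Fin 3 → ValuationSubring E} (h : Model3Plan.ValHyp3 p e ϖ V) (i : Fin 3) :
    ∃ y ∈ V i, p = ϖ i * y := by
  obtain ⟨u, hu, -, hp⟩ := h.ram i
  obtain ⟨k, hk⟩ : ∃ k, e i = k + 1 := ⟨e i - 1, by have := h.e_pos i; omega⟩
  refine ⟨ϖ i ^ k * u, (V i).mul_mem _ _ ((V i).pow_mem (h.unif_mem i) k) hu, ?_⟩
  rw [hp, hk, pow_succ]
  ring

/-- **The `branch` field of `Model3Plan.ChartModel3`, generic form.** -/
theorem branch3 [IsDiscreteValuationRing (OK A K)]
    [IsAlgClosed (IsLocalRing.ResidueField (OK A K))]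
    (π : OK A K) (hπ : Irreducible π) (t : FK N K)
    (ϖ : Fin 3 → FK N K) (V : Fin 3 → ValuationSubring (FK N K))
    (P : Fin 3 → Ideal (chart N A K t))
    (hyp : Model3Plan.ChartHyp3 π ϖ V P)
    (hπV : ∀ i : Fin 3, ∃ y ∈ V i, algebraMap (OK A K) (FK N K) π = ϖ i * y)
    (RM : Subalgebra (OK A K) (FK M K)) (hI : IgusaAt M A K RM)
    (al : Fin 3 → (FK M K →+* FK N K))
    (hal : ∀ (i : Fin 3) (c : OK A K),
      al i (algebraMap (OK A K) (FK M K) c) = algebraMap (OK A K) (FK N K) c)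
    (hmap : ∀ (i : Fin 3), ∀ y ∈ RM, al i y ∈ chart N A K t)
    (hB : ∀ (i : Fin 3), ∀ x ∈ chart N A K t, ∃ y ∈ RM, ∃ v ∈ V i, x - al i y = ϖ i * v)
    (hne : ∀ (c : OK A K) (i : Fin 3), ¬ ∃ v ∈ V i,
      t - algebraMap (OK A K) (FK N K) c = ϖ i * v) :
    ∀ n : Ideal (chart N A K t), n.IsMaximal →
      algebraMap (OK A K) (chart N A K t) π ∈ n → ∀ i : Fin 3, P i ≤ n →
      (∃ x ∈ n, x ∉ P i) ∧
        ∃ u ∈ n, ∀ x ∈ n, ∃ s : chart N A K t, s ∉ n ∧
          ∃ c : chart N A K t, s * x - c * u ∈ P i := by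
  intro n hn hπn i hPi
  have hmem : ∀ r : chart N A K t,
      r ∈ P i ↔ ∃ y ∈ V i, (r : FK N K) = ϖ i * y := fun r => hyp.mem_P i r
  refine ⟨?_, ?_⟩
  · obtain ⟨c, hc⟩ := Fermat.Agent.S18.IgusaPtsChart.exists_coord_sub_mem N A K t π hπ n hn hπn
    refine ⟨_, hc, fun hmemP => hne c i ?_⟩
    obtain ⟨v, hv, hval⟩ := (hmem _).mp hmemP
    exact ⟨v, hv, hval⟩
  · set a : RM →+* chart N A K t :=
      PointHyp.restrictHom N M A K RM (chart N A K t) (al i) (hmap i) with ha
    have ha_coe : ∀ y : RM, ((a y : chart N A K t) : FK N K) = al i (y : FK M K) := fun _ => rfl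
    set ϖS : RM := algebraMap (OK A K) RM π with hϖS
    have haϖ : a ϖS = algebraMap (OK A K) (chart N A K t) π := Subtype.ext (hal i π)
    have hϖ0 : a ϖS ∈ P i := by
      rw [haϖ, hmem]
      obtain ⟨y, hy, hval⟩ := hπV i
      exact ⟨y, hy, hval⟩
    have hB' : ∀ x : chart N A K t, ∃ y : RM, x - a y ∈ P i := by
      intro x
      obtain ⟨y, hy, v, hv, hxy⟩ := hB i x x.2
      refine ⟨⟨y, hy⟩, ?_⟩
      rw [hmem]
      exact ⟨v, hv, hxy⟩
    have hI' : ∀ m : Ideal RM, m.IsMaximal → ϖS ∈ m →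
        ∃ t' ∈ m, ∀ x ∈ m, ∃ c : RM, c ∉ m ∧ c * x ∈ Ideal.span {ϖS, t'} :=
      fun m hm hϖm => hI π hπ m hm hϖm
    exact PointHyp.branch_zero a ϖS (P i) n hn hPi hϖ0 hB' hI'

end Fermat.Agent.S36.BranchPts3
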