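/-
S36 — GaussE.lean (helper127), [MODEL3] block, abstract leaf [W3-abs].

The Gauss valuation ring of a field `F ⊇ O_K` ALONG AN ABSTRACT EMBEDDING `E : F →+* ℚ̄((t))`
(`S34/GaussV` generalised):

  `V = {x ∈ F | ∃ y, GRel A (E x) y}`   (the elements whose `E`-expansion is Gauss-integral),

for `O_K = A ∩ K` acting on `F`, `E` the identity on the constants of `O_K`, and every `E x` a
quotient of two Laurent series with coefficients in `O_{K'} = A ∩ K'`, a discrete valuation ring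
with uniformiser `ϖ` (`K'` is allowed to be RAMIFIED over `K`: in the application `K' = K(ξ)`,
`ξ` a primitive `q`-th root of unity, `ϖ = 1 - ξ`, `E = ι3` the middle-cusp embedding).

* `Emb A K K' E`            — the two hypotheses on `E` (`const`, `qfrac`);
* `V`, `red`                 — the valuation subring and its reduction map `V →+* k((t))`;
* `Unif A K' ϖ E s`          — `s ∈ F` is a uniformiser along `E`: `E s = ϖ · (Gauss unit)`;
* normal form `x = s ^ γ · unit`, `ker red = s V`, `V` is a discrete valuation ring with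
  maximal ideal `(s)`, the `V`-axioms of the Čech block (`rootV`, `invV`, `one_notV`);
* multiplicity: if `π = ϖ ^ e · unit` in `A` then `π = s ^ e · unit` in `V`;
* `V` is integrally closed in `F`: charts (integral closures) lie in `V`.

Everything is assembled from `S18/ModelRed`, `S18/GRel`, `S18/GRelNF` (import only).
-/
import Mathlib
import Fermat.Agent.S18.ModelRed
import Fermat.Agent.S18.GRel
import Fermat.Agent.S18.GRelNF

set_option autoImplicit false

noncomputable section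

namespace Fermat.Agent.S36.GaussE

open ModularCurve AlgebraicCurve HahnSeries Fermat.Agent.S18.Arith
open Fermat.Agent.S18.ModelPlan Fermat.Agent.S18.ModelRed

/-! ### Generic facts -/

/-- A valuation subring is closed under `m`-th roots (`m ≠ 0`). -/
theorem root_mem {F : Type*} [Field F] (V : ValuationSubring F) {m : ℕ} (hm : m ≠ 0) {x : F}
    (h : x ^ m ∈ V) : x ∈ V := by
  rcases V.mem_or_inv_mem x with hx | hx
  · exact hx
  · by_cases hx0 : x = 0
    · rw [hx0]; exact V.zero_mem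
    obtain ⟨k, rfl⟩ := Nat.exists_eq_succ_of_ne_zero hm
    have : x = x ^ (k + 1) * x⁻¹ ^ k := by
      rw [pow_succ, inv_pow, mul_assoc, mul_comm x, ← mul_assoc,
        mul_inv_cancel₀ (pow_ne_zero k hx0), one_mul]
    rw [this]
    exact V.mul_mem _ _ h (V.pow_mem hx k)

section Calculus

variable {A : ValuationSubring Qb}

/-- `GRel` is compatible with integer powers of Gauss units. -/
theorem gRel_zpow (hG : GRelFacts A) {x : LaurentSeries Qb}
    {y : LaurentSeries (IsLocalRing.ResidueField A)} (h : GRel A x y) (hy : y ≠ 0) (n : ℤ) :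
    GRel A (x ^ n) (y ^ n) := by
  obtain ⟨k, rfl | rfl⟩ := Int.eq_nat_or_neg n
  · rw [zpow_natCast, zpow_natCast]
    exact gRel_pow hG h k
  · rw [zpow_neg, zpow_neg, zpow_natCast, zpow_natCast]
    exact hG.inv _ _ (gRel_pow hG h k) (pow_ne_zero k hy)

/-- A constant of `A` is Gauss-integral, with the residue as reduction. -/
theorem gRel_C (hG : GRelFacts A) (u : A) :
    GRel A (C (u : Qb) : LaurentSeries Qb) (C (IsLocalRing.residue A u)) := by
  have h := hG.of_int (C u)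
  have h1 : coeffMap A.subtype (C u) = (C (u : Qb) : LaurentSeries Qb) := coeffMap_single _ _ _
  have h2 : coeffMap (IsLocalRing.residue A) (C u) =
      (C (IsLocalRing.residue A u) : LaurentSeries (IsLocalRing.ResidueField A)) :=
    coeffMap_single _ _ _
  rwa [h1, h2] at h

end Calculus

/-! ### The hypotheses on the embedding -/

/-- **The embedding hypotheses.** `E : F →+* ℚ̄((t))` is the identity on the constants of
`O_K = A ∩ K`, and every `E x` is a quotient of two Laurent series with coefficients in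
`O_{K'} = A ∩ K'`. -/
structure Emb (A : ValuationSubring Qb) (K K' : IntermediateField ℚ Qb) {F : Type*} [Field F]
    [Algebra (OK A K) F] (E : F →+* LaurentSeries Qb) : Prop where
  /-- `E` is the identity on constants -/
  const : ∀ c : OK A K, E (algebraMap (OK A K) F c) = (C (incO A K c) : LaurentSeries Qb)
  /-- every `E x` is a quotient of two `O_{K'}`-integral series -/
  qfrac : ∀ x : F, ∃ a b : LaurentSeries (OK A K'), b ≠ 0 ∧
    E x * coeffMap (incO A K') b = coeffMap (incO A K') a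

/-- **Uniformiser along `E`.** `s ∈ F` with `E s = ϖ · (Gauss unit)`. -/
def Unif (A : ValuationSubring Qb) (K' : IntermediateField ℚ Qb) (ϖ : OK A K') {F : Type*}
    [Field F] (E : F →+* LaurentSeries Qb) (s : F) : Prop :=
  ∃ y₀ : LaurentSeries (IsLocalRing.ResidueField A), y₀ ≠ 0 ∧
    GRel A (E s * (C (incO A K' ϖ) : LaurentSeries Qb)⁻¹) y₀

section Main

variable {A : ValuationSubring Qb} {K K' : IntermediateField ℚ Qb}
variable {F : Type*} [Field F] [Algebra (OK A K) F] {E : F →+* LaurentSeries Qb}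

/-! ### Normal form and dichotomy -/

/-- `ϖ`-adic normal form of `E x`, `x ≠ 0`. -/
theorem exists_nf (hE : Emb A K K' E) (hdvr' : IsDiscreteValuationRing (OK A K'))
    (ϖ : OK A K') (hϖ : Irreducible ϖ) (x : F) (hx : x ≠ 0) :
    ∃ (γ : ℤ) (y : LaurentSeries (IsLocalRing.ResidueField A)), y ≠ 0 ∧
      GRel A (E x * (C (incO A K' ϖ) : LaurentSeries Qb) ^ (-γ)) y := by
  obtain ⟨a, b, hb, hab⟩ := hE.qfrac x
  refine Fermat.Agent.S18.GRelNF.gRelNFStatement A K' hdvr' ϖ hϖ _ a b ?_ hb hab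
  rintro rfl
  rw [map_zero] at hab
  rcases mul_eq_zero.mp hab with h | h
  · exact hx (E.injective (by rw [h, map_zero]))
  · exact hb (coeffMap_injective _ (incO_injective K') (by rw [h, map_zero]))

/-- Dichotomy: `E x` is Gauss-integral or `(E x)⁻¹` is Gauss-integral with reduction `0`. -/
theorem dichotomy (hE : Emb A K K' E) (hdvr' : IsDiscreteValuationRing (OK A K')) (x : F)
    (hx : x ≠ 0) : (∃ y, GRel A (E x) y) ∨ GRel A (E x)⁻¹ 0 := by
  obtain ⟨ϖ, hϖ⟩ := IsDiscreteValuationRing.exists_irreducible (OK A K')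
  exact dich (Fermat.Agent.S18.GRel.gRelStatement A) ϖ hϖ.not_isUnit hϖ.ne_zero _
    (exists_nf hE hdvr' ϖ hϖ x hx)

/-! ### The valuation ring `V` and its reduction -/

/-- **The Gauss valuation subring of `F` along `E`.** -/
def V (hE : Emb A K K' E) (hdvr' : IsDiscreteValuationRing (OK A K')) : ValuationSubring F where
  carrier := {x | ∃ y, GRel A (E x) y}
  mul_mem' := by
    rintro a b ⟨y, hy⟩ ⟨y', hy'⟩
    exact ⟨y * y', by
      rw [map_mul]; exact (Fermat.Agent.S18.GRel.gRelStatement A).mul _ _ _ _ hy hy'⟩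
  one_mem' := ⟨1, by rw [map_one]; exact gRel_one (Fermat.Agent.S18.GRel.gRelStatement A)⟩
  add_mem' := by
    rintro a b ⟨y, hy⟩ ⟨y', hy'⟩
    exact ⟨y + y', by
      rw [map_add]; exact (Fermat.Agent.S18.GRel.gRelStatement A).add _ _ _ _ hy hy'⟩
  zero_mem' := ⟨0, by rw [map_zero]; exact gRel_zero (Fermat.Agent.S18.GRel.gRelStatement A)⟩
  neg_mem' := by
    rintro a ⟨y, hy⟩
    exact ⟨-y, by rw [map_neg]; exact (Fermat.Agent.S18.GRel.gRelStatement A).neg _ _ hy⟩
  mem_or_inv_mem' := by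
    intro x
    by_cases hx : x = 0
    · left
      rw [hx]
      exact ⟨0, by rw [map_zero]; exact gRel_zero (Fermat.Agent.S18.GRel.gRelStatement A)⟩
    · rcases dichotomy hE hdvr' x hx with h | h
      · left
        exact h
      · right
        exact ⟨0, by rw [map_inv₀]; exact h⟩

variable (hE : Emb A K K' E) (hdvr' : IsDiscreteValuationRing (OK A K'))

theorem mem_V_iff {x : F} : x ∈ V hE hdvr' ↔ ∃ y, GRel A (E x) y := Iff.rfl

/-- **Gauss reduction along `E`**: `V → k((t))`. -/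
def red : V hE hdvr' →+* LaurentSeries (IsLocalRing.ResidueField A) where
  toFun x := Classical.choose ((mem_V_iff hE hdvr').mp x.2)
  map_one' := (Fermat.Agent.S18.GRel.gRelStatement A).unique _ _ _
    (Classical.choose_spec ((mem_V_iff hE hdvr').mp (1 : V hE hdvr').2))
    (by
      rw [show (((1 : V hE hdvr') : F)) = 1 from rfl, map_one]
      exact gRel_one (Fermat.Agent.S18.GRel.gRelStatement A))
  map_mul' a b := (Fermat.Agent.S18.GRel.gRelStatement A).unique _ _ _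
    (Classical.choose_spec ((mem_V_iff hE hdvr').mp (a * b).2))
    (by
      rw [show (((a * b : V hE hdvr') : F)) = (a : F) * (b : F) from rfl, map_mul]
      exact (Fermat.Agent.S18.GRel.gRelStatement A).mul _ _ _ _
        (Classical.choose_spec ((mem_V_iff hE hdvr').mp a.2))
        (Classical.choose_spec ((mem_V_iff hE hdvr').mp b.2)))
  map_zero' := (Fermat.Agent.S18.GRel.gRelStatement A).unique _ _ _
    (Classical.choose_spec ((mem_V_iff hE hdvr').mp (0 : V hE hdvr').2))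
    (by
      rw [show (((0 : V hE hdvr') : F)) = 0 from rfl, map_zero]
      exact gRel_zero (Fermat.Agent.S18.GRel.gRelStatement A))
  map_add' a b := (Fermat.Agent.S18.GRel.gRelStatement A).unique _ _ _
    (Classical.choose_spec ((mem_V_iff hE hdvr').mp (a + b).2))
    (by
      rw [show (((a + b : V hE hdvr') : F)) = (a : F) + (b : F) from rfl, map_add]
      exact (Fermat.Agent.S18.GRel.gRelStatement A).add _ _ _ _
        (Classical.choose_spec ((mem_V_iff hE hdvr').mp a.2))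
        (Classical.choose_spec ((mem_V_iff hE hdvr').mp b.2)))

theorem gRel_red (x : V hE hdvr') : GRel A (E (x : F)) (red hE hdvr' x) :=
  Classical.choose_spec ((mem_V_iff hE hdvr').mp x.2)

/-- `red` is characterised by `GRel`. -/
theorem red_eq_of_gRel (x : V hE hdvr') {y : LaurentSeries (IsLocalRing.ResidueField A)}
    (h : GRel A (E (x : F)) y) : red hE hdvr' x = y :=
  (Fermat.Agent.S18.GRel.gRelStatement A).unique _ _ _ (gRel_red hE hdvr' x) h

/-- Constants are Gauss-integral along `E`. -/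
theorem algebraMap_mem_V (c : OK A K) : algebraMap (OK A K) F c ∈ V hE hdvr' :=
  ⟨_, by rw [hE.const]; exact gRel_const K (Fermat.Agent.S18.GRel.gRelStatement A) c⟩

/-- The reduction of a constant. -/
theorem red_algebraMap (c : OK A K) :
    red hE hdvr' ⟨algebraMap (OK A K) F c, algebraMap_mem_V hE hdvr' c⟩ = C (resO A K c) :=
  red_eq_of_gRel hE hdvr' _ (by
    show GRel A (E (algebraMap (OK A K) F c)) _
    rw [hE.const]; exact gRel_const K (Fermat.Agent.S18.GRel.gRelStatement A) c)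

/-- The reduction of a non-unit constant vanishes. -/
theorem red_algebraMap_of_not_isUnit (c : OK A K) (hc : ¬ IsUnit c) :
    red hE hdvr' ⟨algebraMap (OK A K) F c, algebraMap_mem_V hE hdvr' c⟩ = 0 := by
  rw [red_algebraMap, resO_eq_zero_of_not_isUnit K c hc, map_zero]

/-- An element whose `E`-expansion has coefficients in `A` lies in `V`. -/
theorem mem_V_of_int {x : F} {X : LaurentSeries A} (hx : E x = coeffMap A.subtype X) :
    x ∈ V hE hdvr' :=
  ⟨_, hx ▸ (Fermat.Agent.S18.GRel.gRelStatement A).of_int X⟩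

/-- … and its reduction is the coefficientwise reduction. -/
theorem red_of_int {x : F} {X : LaurentSeries A} (hx : E x = coeffMap A.subtype X) :
    red hE hdvr' ⟨x, mem_V_of_int hE hdvr' hx⟩ = coeffMap (IsLocalRing.residue A) X :=
  red_eq_of_gRel hE hdvr' _ (by
    show GRel A (E x) _
    rw [hx]; exact (Fermat.Agent.S18.GRel.gRelStatement A).of_int X)

/-- Elements of `V` with nonzero reduction are units of `V`. -/
theorem inv_mem_V (x : V hE hdvr') (hx : red hE hdvr' x ≠ 0) : ((x : F))⁻¹ ∈ V hE hdvr' :=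
  ⟨_, by
    rw [map_inv₀]
    exact (Fermat.Agent.S18.GRel.gRelStatement A).inv _ _ (gRel_red hE hdvr' x) hx⟩

/-- The reduction of a unit of `V` is nonzero. -/
theorem red_ne_zero_of_inv_mem (x : V hE hdvr') (hx : ((x : F))⁻¹ ∈ V hE hdvr')
    (hx0 : (x : F) ≠ 0) : red hE hdvr' x ≠ 0 := by
  intro h0
  have h1 : x * ⟨(x : F)⁻¹, hx⟩ = 1 := Subtype.ext (mul_inv_cancel₀ hx0)
  have h2 := congrArg (red hE hdvr') h1
  rw [map_mul, h0, zero_mul, map_one] at h2
  exact zero_ne_one h2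

/-- Units of `V` are exactly the elements with nonzero reduction. -/
theorem red_ne_zero_iff (x : V hE hdvr') :
    red hE hdvr' x ≠ 0 ↔ (x : F) ≠ 0 ∧ ((x : F))⁻¹ ∈ V hE hdvr' := by
  constructor
  · intro h
    refine ⟨?_, inv_mem_V hE hdvr' x h⟩
    intro h0
    apply h
    have : x = 0 := Subtype.ext h0
    rw [this, map_zero]
  · rintro ⟨h0, h1⟩
    exact red_ne_zero_of_inv_mem hE hdvr' x h1 h0

/-! ### Integral closures (charts) lie in `V` -/

/-- Anything integral over a subalgebra contained in `V` lies in `V`. -/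
theorem mem_V_of_isIntegral (S : Subalgebra (OK A K) F) (hS : ∀ z ∈ S, z ∈ V hE hdvr') (x : F)
    (hx : IsIntegral S x) : x ∈ V hE hdvr' :=
  mem_valuationSubring_of_isIntegral (V hE hdvr') S hS x hx

/-- `O[t] ⊆ V` if `t ∈ V`. -/
theorem adjoin_le_V (t : F) (ht : t ∈ V hE hdvr') :
    ∀ z ∈ Algebra.adjoin (OK A K) {t}, z ∈ V hE hdvr' := by
  intro z hz
  induction hz using Algebra.adjoin_induction with
  | mem z hz =>
    rw [Set.mem_singleton_iff] at hz
    rw [hz]
    exact ht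
  | algebraMap c => exact algebraMap_mem_V hE hdvr' c
  | add a b _ _ ha hb => exact (V hE hdvr').add_mem _ _ ha hb
  | mul a b _ _ ha hb => exact (V hE hdvr').mul_mem _ _ ha hb

/-- The integral closure of `O[t]` in `F` lies in `V` if `t ∈ V` (charts). -/
theorem mem_V_of_isIntegral_adjoin (t : F) (ht : t ∈ V hE hdvr') {x : F}
    (hx : IsIntegral (Algebra.adjoin (OK A K) {t}) x) : x ∈ V hE hdvr' :=
  mem_V_of_isIntegral hE hdvr' _ (adjoin_le_V hE hdvr' t ht) x hx

/-! ### `rootV` and the `π`-forms of `invV`, `one_notV` -/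

/-- `rootV`. -/
theorem rootV {m : ℕ} (hm : m ≠ 0) (x : F) (h : x ^ m ∈ V hE hdvr') : x ∈ V hE hdvr' :=
  root_mem _ hm h

/-- `invV` (constant form): `1 + π V ⊆ Vˣ` for a non-unit `π` of `O_K`. -/
theorem invV_pi {π : OK A K} (hπ : ¬ IsUnit π) (z : F) (hz : z ∈ V hE hdvr') :
    (1 + algebraMap (OK A K) F π * z)⁻¹ ∈ V hE hdvr' := by
  have hG := Fermat.Agent.S18.GRel.gRelStatement A
  obtain ⟨y, hy⟩ := (mem_V_iff hE hdvr').mp hz
  have h := hG.add _ _ _ _ (gRel_one hG) (hG.mul _ _ _ _ (gRel_pi hG π hπ) hy)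
  rw [zero_mul, add_zero] at h
  have h2 := hG.inv _ _ h one_ne_zero
  refine ⟨1⁻¹, ?_⟩
  rw [map_inv₀, map_add, map_one, map_mul, hE.const]
  exact h2

/-- `one_notV` (constant form): `1 ∉ π V` for a non-unit `π` of `O_K`. -/
theorem one_notV_pi {π : OK A K} (hπ : ¬ IsUnit π) (z : F) (hz : z ∈ V hE hdvr') :
    (1 : F) ≠ algebraMap (OK A K) F π * z := by
  have hG := Fermat.Agent.S18.GRel.gRelStatement A
  intro h1
  obtain ⟨y, hy⟩ := (mem_V_iff hE hdvr').mp hz
  have h := hG.mul _ _ _ _ (gRel_pi hG π hπ) hy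
  rw [zero_mul, ← hE.const, ← map_mul, ← h1, map_one] at h
  exact one_ne_zero (hG.unique _ _ _ (gRel_one hG) h)

/-! ### The uniformiser `s` -/

section Unif

variable {ϖ : OK A K'} (hϖ : Irreducible ϖ) {s : F} (hs : Unif A K' ϖ E s)

include hϖ hs in
/-- `E s` is Gauss-integral with reduction `0`. -/
theorem gRel_unif : GRel A (E s) 0 := by
  have hG := Fermat.Agent.S18.GRel.gRelStatement A
  obtain ⟨y₀, -, h⟩ := hs
  have hP0 : (C (incO A K' ϖ) : LaurentSeries Qb) ≠ 0 := C_incO_ne_zero ϖ hϖ.ne_zero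
  have h2 := hG.mul _ _ _ _ h (gRel_pi hG ϖ hϖ.not_isUnit)
  rwa [mul_zero, mul_assoc, inv_mul_cancel₀ hP0, mul_one] at h2

include hϖ hs in
theorem unif_mem_V : s ∈ V hE hdvr' := ⟨0, gRel_unif hϖ hs⟩

include hϖ hs in
theorem red_unif : red hE hdvr' ⟨s, unif_mem_V hE hdvr' hϖ hs⟩ = 0 :=
  red_eq_of_gRel hE hdvr' _ (gRel_unif hϖ hs)

include hs in
theorem unif_ne_zero : s ≠ 0 := by
  have hG := Fermat.Agent.S18.GRel.gRelStatement A
  obtain ⟨y₀, hy₀, h⟩ := hs
  rintro rfl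
  rw [map_zero, zero_mul] at h
  exact hy₀ (hG.unique _ _ _ h (gRel_zero hG))

include hϖ hs in
/-- **Normal form**: `s` is a uniformiser of `V`. -/
theorem exists_zpow_mul_unit (x : F) (hx : x ≠ 0) :
    ∃ γ : ℤ, x * s ^ (-γ) ∈ V hE hdvr' ∧ (x * s ^ (-γ))⁻¹ ∈ V hE hdvr' := by
  have hG := Fermat.Agent.S18.GRel.gRelStatement A
  obtain ⟨γ, y, hy, h⟩ := exists_nf hE hdvr' ϖ hϖ x hx
  obtain ⟨y₀, hy₀, h₀⟩ := hs
  have hP0 : (C (incO A K' ϖ) : LaurentSeries Qb) ≠ 0 := C_incO_ne_zero ϖ hϖ.ne_zero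
  have hs0 : E s ≠ 0 := by
    intro h0
    rw [h0, zero_mul] at h₀
    exact hy₀ (hG.unique _ _ _ h₀ (gRel_zero hG))
  -- `E (x s^(-γ)) = (E x ϖ^(-γ)) · (E s ϖ⁻¹)^(-γ)`
  have hkey : E (x * s ^ (-γ)) =
      E x * (C (incO A K' ϖ) : LaurentSeries Qb) ^ (-γ) *
        (E s * (C (incO A K' ϖ) : LaurentSeries Qb)⁻¹) ^ (-γ) := by
    have hPγ : (C (incO A K' ϖ) : LaurentSeries Qb) ^ γ ≠ 0 := zpow_ne_zero _ hP0
    have hsγ : E s ^ γ ≠ 0 := zpow_ne_zero _ hs0
    rw [map_mul, map_zpow₀, mul_zpow, inv_zpow]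
    simp only [zpow_neg, inv_inv]
    field_simp
  have hrel : GRel A (E (x * s ^ (-γ))) (y * y₀ ^ (-γ)) := by
    rw [hkey]
    exact hG.mul _ _ _ _ h (gRel_zpow hG h₀ hy₀ (-γ))
  have hne : y * y₀ ^ (-γ) ≠ 0 := mul_ne_zero hy (zpow_ne_zero _ hy₀)
  refine ⟨γ, ⟨_, hrel⟩, ⟨(y * y₀ ^ (-γ))⁻¹, ?_⟩⟩
  rw [map_inv₀]
  exact hG.inv _ _ hrel hne

include hϖ hs in
/-- `ker red = s V`. -/
theorem red_eq_zero_iff (x : V hE hdvr') :
    red hE hdvr' x = 0 ↔ ∃ z ∈ V hE hdvr', (x : F) = s * z := by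
  have hs0 : s ≠ 0 := unif_ne_zero hs
  constructor
  · intro h0
    by_cases hx0 : (x : F) = 0
    · exact ⟨0, (V hE hdvr').zero_mem, by rw [hx0, mul_zero]⟩
    obtain ⟨γ, h1, h2⟩ := exists_zpow_mul_unit hE hdvr' hϖ hs (x : F) hx0
    -- the unit `u = x s^(-γ)`
    set u : F := (x : F) * s ^ (-γ) with hu
    have hu0 : u ≠ 0 := mul_ne_zero hx0 (zpow_ne_zero _ hs0)
    have hru : red hE hdvr' ⟨u, h1⟩ ≠ 0 := red_ne_zero_of_inv_mem hE hdvr' ⟨u, h1⟩ h2 hu0
    have hxu : (x : F) = u * s ^ γ := by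
      rw [hu, mul_assoc, ← zpow_add₀ hs0, neg_add_cancel, zpow_zero, mul_one]
    -- `γ ≥ 1`
    have hγ : 1 ≤ γ := by
      by_contra hneg
      rw [not_le] at hneg
      obtain ⟨k, hk⟩ : ∃ k : ℕ, γ = -(k : ℤ) := ⟨(-γ).toNat, by omega⟩
      -- `u = x * s^k` has reduction `red x * (red s)^k`
      have hu' : u = (x : F) * s ^ k := by
        rw [hu, hk, neg_neg, zpow_natCast]
      have hmem : (x : F) * s ^ k ∈ V hE hdvr' := hu' ▸ h1
      have hred : red hE hdvr' ⟨(x : F) * s ^ k, hmem⟩ =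
          red hE hdvr' x * red hE hdvr' ⟨s, unif_mem_V hE hdvr' hϖ hs⟩ ^ k := by
        rw [← map_pow, ← map_mul]
        rfl
      apply hru
      have : (⟨u, h1⟩ : V hE hdvr') = ⟨(x : F) * s ^ k, hmem⟩ := Subtype.ext hu'
      rw [this, hred, h0, zero_mul]
    obtain ⟨k, hk⟩ : ∃ k : ℕ, γ = (k : ℤ) + 1 := ⟨(γ - 1).toNat, by omega⟩
    refine ⟨s ^ k * u, (V hE hdvr').mul_mem _ _
      ((V hE hdvr').pow_mem (unif_mem_V hE hdvr' hϖ hs) k) h1, ?_⟩
    rw [hxu, hk, zpow_add_one₀ hs0, zpow_natCast]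
    ring
  · rintro ⟨z, hz, hxz⟩
    have : x = ⟨s, unif_mem_V hE hdvr' hϖ hs⟩ * ⟨z, hz⟩ := Subtype.ext hxz
    rw [this, map_mul, red_unif hE hdvr' hϖ hs, zero_mul]

include hϖ hs in
/-- `invV`: `1 + s V ⊆ Vˣ`. -/
theorem invV (z : F) (hz : z ∈ V hE hdvr') : (1 + s * z)⁻¹ ∈ V hE hdvr' := by
  have hmem : 1 + s * z ∈ V hE hdvr' :=
    (V hE hdvr').add_mem _ _ (V hE hdvr').one_mem
      ((V hE hdvr').mul_mem _ _ (unif_mem_V hE hdvr' hϖ hs) hz)
  have hred : red hE hdvr' ⟨1 + s * z, hmem⟩ = 1 := by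
    have : (⟨1 + s * z, hmem⟩ : V hE hdvr') =
        1 + ⟨s, unif_mem_V hE hdvr' hϖ hs⟩ * ⟨z, hz⟩ := rfl
    rw [this, map_add, map_one, map_mul, red_unif hE hdvr' hϖ hs, zero_mul, add_zero]
  exact inv_mem_V hE hdvr' ⟨1 + s * z, hmem⟩ (by rw [hred]; exact one_ne_zero)

include hϖ hs in
/-- `one_notV`: `1 ∉ s V`. -/
theorem one_notV (z : F) (hz : z ∈ V hE hdvr') : (1 : F) ≠ s * z := by
  intro h1
  have h2 := (red_eq_zero_iff hE hdvr' hϖ hs (1 : V hE hdvr')).mpr ⟨z, hz, h1⟩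
  rw [map_one] at h2
  exact one_ne_zero h2

/-! ### `V` is a discrete valuation ring with uniformiser `s` -/

/-- The uniformiser `s` as an element of `V`. -/
def sV : V hE hdvr' := ⟨s, unif_mem_V hE hdvr' hϖ hs⟩

theorem coe_sV : ((sV hE hdvr' hϖ hs : V hE hdvr') : F) = s := rfl

theorem sV_ne_zero : sV hE hdvr' hϖ hs ≠ 0 := fun h =>
  unif_ne_zero hs (congrArg Subtype.val h)

/-- `ker red = (s)` as ideals of `V`. -/
theorem ker_red : RingHom.ker (red hE hdvr') = Ideal.span {sV hE hdvr' hϖ hs} := by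
  ext x
  rw [RingHom.mem_ker, red_eq_zero_iff hE hdvr' hϖ hs, Ideal.mem_span_singleton]
  constructor
  · rintro ⟨z, hz, hxz⟩
    exact ⟨⟨z, hz⟩, Subtype.ext hxz⟩
  · rintro ⟨z, rfl⟩
    exact ⟨z, z.2, rfl⟩

/-- `s` is a prime element of `V`. -/
theorem prime_sV : Prime (sV hE hdvr' hϖ hs) := by
  rw [← Ideal.span_singleton_prime (sV_ne_zero hE hdvr' hϖ hs), ← ker_red hE hdvr' hϖ hs]
  exact RingHom.ker_isPrime _

theorem irreducible_sV : Irreducible (sV hE hdvr' hϖ hs) :=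
  (prime_sV hE hdvr' hϖ hs).irreducible

/-- Every nonzero element of `V` is a unit times a power of `s`. -/
theorem associated_pow_sV {x : V hE hdvr'} (hx : x ≠ 0) :
    ∃ n : ℕ, Associated (sV hE hdvr' hϖ hs ^ n) x := by
  have hs0 : s ≠ 0 := unif_ne_zero hs
  have hx' : (x : F) ≠ 0 := fun h => hx (Subtype.ext h)
  obtain ⟨γ, h1, h2⟩ := exists_zpow_mul_unit hE hdvr' hϖ hs (x : F) hx'
  -- `γ ≥ 0`, else a positive power of `s` would be a unit of `V`
  have hγ : 0 ≤ γ := by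
    by_contra hneg
    rw [not_le] at hneg
    obtain ⟨k, hk⟩ : ∃ k : ℕ, -γ = (k : ℤ) + 1 := ⟨(-γ - 1).toNat, by omega⟩
    rw [hk] at h2
    apply one_notV hE hdvr' hϖ hs (s ^ k * (x : F) * ((x : F) * s ^ ((k : ℤ) + 1))⁻¹)
      ((V hE hdvr').mul_mem _ _ ((V hE hdvr').mul_mem _ _
        ((V hE hdvr').pow_mem (unif_mem_V hE hdvr' hϖ hs) k) x.2) h2)
    rw [zpow_add_one₀ hs0, zpow_natCast]
    field_simp
  obtain ⟨n, rfl⟩ := Int.eq_ofNat_of_zero_le hγ
  refine ⟨n, ?_⟩
  rw [zpow_neg, zpow_natCast] at h1 h2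
  let u : V hE hdvr' := ⟨_, h1⟩
  let v : V hE hdvr' := ⟨_, h2⟩
  have huv : u * v = 1 := by
    apply Subtype.ext
    show (x : F) * (s ^ n)⁻¹ * ((x : F) * (s ^ n)⁻¹)⁻¹ = 1
    exact mul_inv_cancel₀ (mul_ne_zero hx' (inv_ne_zero (pow_ne_zero n hs0)))
  refine ⟨Units.mkOfMulEqOne u v huv, ?_⟩
  apply Subtype.ext
  show s ^ n * ((x : F) * (s ^ n)⁻¹) = (x : F)
  field_simp

include hϖ hs in
/-- **`V` is a discrete valuation ring.** -/
theorem isDiscreteValuationRing_V : IsDiscreteValuationRing (V hE hdvr') :=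
  IsDiscreteValuationRing.ofHasUnitMulPowIrreducibleFactorization
    ⟨sV hE hdvr' hϖ hs, irreducible_sV hE hdvr' hϖ hs,
      fun hx => associated_pow_sV hE hdvr' hϖ hs hx⟩

/-- The maximal ideal of `V` is `(s)`. -/
theorem maximalIdeal_V :
    IsLocalRing.maximalIdeal (V hE hdvr') = Ideal.span {sV hE hdvr' hϖ hs} := by
  have := isDiscreteValuationRing_V hE hdvr' hϖ hs
  exact (irreducible_sV hE hdvr' hϖ hs).maximalIdeal_eq

/-! ### Multiplicity: `π = s ^ e · unit` -/

include hϖ hs in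
/-- **Multiplicity.** If `π = ϖ ^ e · unit` in `A`, then `π = s ^ e · unit` in `V`. -/
theorem exists_pi_eq (π : OK A K) (e : ℕ)
    (hπ : ∃ u : A, IsUnit u ∧ incO A K π = incO A K' ϖ ^ e * (u : Qb)) :
    ∃ z ∈ V hE hdvr', z⁻¹ ∈ V hE hdvr' ∧ algebraMap (OK A K) F π = s ^ e * z := by
  have hG := Fermat.Agent.S18.GRel.gRelStatement A
  have hs0 : s ≠ 0 := unif_ne_zero hs
  obtain ⟨u, hu, hπu⟩ := hπ
  obtain ⟨y₀, hy₀, h₀⟩ := hs
  have hP0 : (C (incO A K' ϖ) : LaurentSeries Qb) ≠ 0 := C_incO_ne_zero ϖ hϖ.ne_zero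
  have hEs0 : E s ≠ 0 := fun h0 => hs0 (E.injective (by rw [h0, map_zero]))
  -- `E (π s^(-e)) = C u · ((E s ϖ⁻¹)^e)⁻¹`
  have hkey : E (algebraMap (OK A K) F π * (s ^ e)⁻¹) =
      (C (u : Qb) : LaurentSeries Qb) *
        ((E s * (C (incO A K' ϖ) : LaurentSeries Qb)⁻¹) ^ e)⁻¹ := by
    rw [map_mul, map_inv₀, map_pow, hE.const, hπu, map_mul, map_pow, mul_pow, inv_pow]
    field_simp
  have hru : IsLocalRing.residue A u ≠ 0 := by
    rw [Ne, IsLocalRing.residue_eq_zero_iff]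
    exact fun h => h hu
  have hCu : (C (IsLocalRing.residue A u) : LaurentSeries (IsLocalRing.ResidueField A)) ≠ 0 := by
    intro h
    apply hru
    apply HahnSeries.C_injective (Γ := ℤ)
    rw [h, map_zero]
  have hrel : GRel A (E (algebraMap (OK A K) F π * (s ^ e)⁻¹))
      (C (IsLocalRing.residue A u) * (y₀ ^ e)⁻¹) := by
    rw [hkey]
    exact hG.mul _ _ _ _ (gRel_C hG u) (hG.inv _ _ (gRel_pow hG h₀ e) (pow_ne_zero e hy₀))
  have hne : (C (IsLocalRing.residue A u) : LaurentSeries (IsLocalRing.ResidueField A)) *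
      (y₀ ^ e)⁻¹ ≠ 0 := mul_ne_zero hCu (inv_ne_zero (pow_ne_zero e hy₀))
  refine ⟨algebraMap (OK A K) F π * (s ^ e)⁻¹, ⟨_, hrel⟩,
    ⟨(C (IsLocalRing.residue A u) * (y₀ ^ e)⁻¹)⁻¹, ?_⟩, ?_⟩
  · rw [map_inv₀]
    exact hG.inv _ _ hrel hne
  · field_simp

include hϖ hs in
/-- `π` and `s ^ e` are associated in `V`. -/
theorem associated_pi_pow (π : OK A K) (e : ℕ)
    (hπ : ∃ u : A, IsUnit u ∧ incO A K π = incO A K' ϖ ^ e * (u : Qb)) :
    Associated (sV hE hdvr' hϖ hs ^ e)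
      (⟨algebraMap (OK A K) F π, algebraMap_mem_V hE hdvr' π⟩ : V hE hdvr') := by
  obtain ⟨z, hz, hz', hπz⟩ := exists_pi_eq hE hdvr' hϖ hs π e hπ
  have hz0 : z ≠ 0 := by
    rintro rfl
    rw [mul_zero] at hπz
    have h1 : incO A K π = 0 := by
      have h2 := hE.const π
      rw [hπz, map_zero] at h2
      apply HahnSeries.C_injective (Γ := ℤ)
      rw [← h2, map_zero]
    obtain ⟨u, hu, hπu⟩ := hπ
    rw [h1] at hπu
    rcases mul_eq_zero.mp hπu.symm with h3 | h3
    · have h4 : incO A K' ϖ = 0 := by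
        by_contra hne
        exact pow_ne_zero e hne h3
      apply hϖ.ne_zero
      apply incO_injective K'
      rw [h4, map_zero]
    · have : u = 0 := Subtype.ext h3
      rw [this] at hu
      exact not_isUnit_zero hu
  let u' : V hE hdvr' := ⟨z, hz⟩
  let v' : V hE hdvr' := ⟨z⁻¹, hz'⟩
  have huv : u' * v' = 1 := Subtype.ext (mul_inv_cancel₀ hz0)
  refine ⟨Units.mkOfMulEqOne u' v' huv, ?_⟩
  apply Subtype.ext
  show s ^ e * z = algebraMap (OK A K) F π
  exact hπz.symm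

end Unif

end Main

/-! ### A convenient way to check `Unif` -/

/-- `Unif` from an explicit factorisation `E s = ϖ · U` with `U` an `A`-integral series of
nonzero reduction. -/
theorem unif_of_int {A : ValuationSubring Qb} {K' : IntermediateField ℚ Qb} {ϖ : OK A K'}
    (hϖ0 : ϖ ≠ 0) {F : Type*} [Field F] {E : F →+* LaurentSeries Qb} {s : F}
    (U : LaurentSeries A) (hU : coeffMap (IsLocalRing.residue A) U ≠ 0)
    (hs : E s = (C (incO A K' ϖ) : LaurentSeries Qb) * coeffMap A.subtype U) :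
    Unif A K' ϖ E s := by
  refine ⟨_, hU, ?_⟩
  have hP0 : (C (incO A K' ϖ) : LaurentSeries Qb) ≠ 0 := C_incO_ne_zero ϖ hϖ0
  rw [hs, mul_comm, ← mul_assoc, inv_mul_cancel₀ hP0, one_mul]
  exact (Fermat.Agent.S18.GRel.gRelStatement A).of_int U

end Fermat.Agent.S36.GaussE
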