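/-
S36 — Level3B.lean (helper42; package [MODEL3], leaf [M3.7](b), second copy).

The INPUTS `hB` / `hne` of the chart-layer theorem `BranchPts3.branch3` (= the field `branch` of
`Model3Plan.ChartModel3`), and the resulting closed forms.

Generic level `N` (three component valuation rings `V1`, `V2 = w⁻¹ V1`, `V3 = GaussE.V` along an
expansion `E`):
* `exists_sub_eq_mul_V1 / _V2 / _E` : `chart = al (R_M) + ϖ_i V_i` from residue degree one
  (`hf1`, `hf3`) — via `S34/Branch.exists_level` and its abstract-embedding form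
  `S36/Branch3B.exists_sub_eq_mul`;
* `not_sub_const_V1 / _V2 / _E`     : `t - c ∉ ϖ_i V_i` if the reduction of `t` is not constant;
* `branch3_gen`                      : the `branch` field for `chart N A K t`.

Level `M q²`, `w = w_{q²}`, `al = ` the inclusion of level `M`, `t = J^{±1}`, `J = j · j_{q²}`:
* `al2`, `JK2` and their chart facts; `gRel_JK2 : red_1 J = j̄^(q²+1)`;
  `gRel_E_JK2 : red_3 J = j̄²`;
* `branch3_JK2`, `branch3_JK2_inv`   : the `branch` field of `Model3Plan.ChartModel3` for the two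
  charts `chart J`, `chart J⁻¹`, from `hf1`, `hf3` and the expansion data of `W3` only.
-/
import Mathlib
import Fermat.Agent.S34.V12J
import Fermat.Agent.S34.PointInst
import Fermat.Agent.S36.WQ2
import Fermat.Agent.S36.GaussE
import Fermat.Agent.S36.Model3Plan
import Fermat.Agent.S36.BranchPts3
import Fermat.Agent.S36.Branch3B

set_option autoImplicit false

noncomputable section

namespace Fermat.Agent.S36.Level3B

open ModularCurve HahnSeries Fermat.Agent.S18 Fermat.Agent.S18.Arith Fermat.Agent.S18.ModelPlan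
  Fermat.Agent.S34

/-! ### Generic level -/

section Gen

variable (M N : ℕ) [NeZero M] [NeZero N] {A : ValuationSubring Qb}
  {K K' : IntermediateField ℚ Qb}

/-- **(B) along `W1`.** -/
theorem exists_sub_eq_mul_V1 (hdvr : IsDiscreteValuationRing (OK A K)) {π : OK A K}
    (hπ : Irreducible π) (t : FK N K) (RM : Subalgebra (OK A K) (FK M K))
    (hB1 : ∀ y : LaurentSeries (IsLocalRing.ResidueField A),
      (∃ x' : FK M K, GRel A ((x' : FK M K) : LaurentSeries Qb) y) →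
      IsIntegral (Branch.redRing M A K RM) y → y ∈ Branch.redRing M A K RM)
    (hf1 : ∀ (x : FK N K) (y : LaurentSeries (IsLocalRing.ResidueField A)),
      GRel A ((x : FK N K) : LaurentSeries Qb) y →
      ∃ x' : FK M K, GRel A ((x' : FK M K) : LaurentSeries Qb) y)
    (ht : ∃ yt, GRel A ((t : FK N K) : LaurentSeries Qb) yt ∧
      IsIntegral (Branch.redRing M A K RM) yt)
    (al : FK M K →+* FK N K)
    (hal : ∀ y : FK M K, ((al y : FK N K) : LaurentSeries Qb) = ((y : FK M K) : LaurentSeries Qb)) :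
    ∀ x ∈ chart N A K t, ∃ y ∈ RM, ∃ v ∈ GaussV.V1 N A K hdvr,
      x - al y = algebraMap (OK A K) (FK N K) π * v := by
  intro x hx
  obtain ⟨x', hx', h⟩ := Branch.exists_level M N hdvr RM hB1 hf1 t ht x hx
  refine ⟨x', hx', PointInst.exists_eq_pi_mul_of_gRel_zero hdvr hπ (z := x - al x') ?_⟩
  rw [Subfield.coe_sub, hal]
  exact h

/-- **(B) along `W2 = w⁻¹ W1`**, with the pull-back `w⁻¹ ∘ al`. -/
theorem exists_sub_eq_mul_V2 (w : FK N K ≃+* FK N K)
    (hw : ∀ c : OK A K, w (algebraMap (OK A K) (FK N K) c) = algebraMap (OK A K) (FK N K) c)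
    (hdvr : IsDiscreteValuationRing (OK A K)) {π : OK A K}
    (hπ : Irreducible π) (t : FK N K)
    (hwR : ∀ x ∈ chart N A K t, w x ∈ chart N A K t)
    (RM : Subalgebra (OK A K) (FK M K))
    (hB1 : ∀ y : LaurentSeries (IsLocalRing.ResidueField A),
      (∃ x' : FK M K, GRel A ((x' : FK M K) : LaurentSeries Qb) y) →
      IsIntegral (Branch.redRing M A K RM) y → y ∈ Branch.redRing M A K RM)
    (hf1 : ∀ (x : FK N K) (y : LaurentSeries (IsLocalRing.ResidueField A)),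
      GRel A ((x : FK N K) : LaurentSeries Qb) y →
      ∃ x' : FK M K, GRel A ((x' : FK M K) : LaurentSeries Qb) y)
    (ht : ∃ yt, GRel A ((t : FK N K) : LaurentSeries Qb) yt ∧
      IsIntegral (Branch.redRing M A K RM) yt)
    (al : FK M K →+* FK N K)
    (hal : ∀ y : FK M K, ((al y : FK N K) : LaurentSeries Qb) = ((y : FK M K) : LaurentSeries Qb)) :
    ∀ x ∈ chart N A K t, ∃ y ∈ RM, ∃ v ∈ GaussV.V2 w hdvr,
      x - w.symm (al y) = algebraMap (OK A K) (FK N K) π * v := by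
  intro x hx
  obtain ⟨y, hy, v, hv, hxy⟩ :=
    exists_sub_eq_mul_V1 M N hdvr hπ t RM hB1 hf1 ht al hal (w x) (hwR x hx)
  refine ⟨y, hy, w.symm v, ?_, ?_⟩
  · rw [GaussV.mem_V2_iff, RingEquiv.apply_symm_apply]
    exact hv
  · have h := congrArg w.symm hxy
    rw [map_sub, map_mul, RingEquiv.symm_apply_apply] at h
    rw [h]
    congr 1
    rw [RingEquiv.symm_apply_eq, hw]

/-- **(B) along `W3`**, the Gauss valuation ring of an expansion `E` with uniformiser `s`. -/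
theorem exists_sub_eq_mul_E {E : FK N K →+* LaurentSeries Qb} (hE : GaussE.Emb A K K' E)
    (hdvr' : IsDiscreteValuationRing (OK A K')) {ϖ' : OK A K'} (hϖ' : Irreducible ϖ')
    {s : FK N K} (hs : GaussE.Unif A K' ϖ' E s)
    (t : FK N K) (RM : Subalgebra (OK A K) (FK M K))
    (hB1 : ∀ y : LaurentSeries (IsLocalRing.ResidueField A),
      (∃ x' : FK M K, GRel A ((x' : FK M K) : LaurentSeries Qb) y) →
      IsIntegral (Branch.redRing M A K RM) y → y ∈ Branch.redRing M A K RM)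
    (hf3 : ∀ (x : FK N K) (y : LaurentSeries (IsLocalRing.ResidueField A)),
      GRel A (E x) y → ∃ x' : FK M K, GRel A ((x' : FK M K) : LaurentSeries Qb) y)
    (ht : ∃ yt, GRel A (E t) yt ∧ IsIntegral (Branch.redRing M A K RM) yt)
    (al : FK M K →+* FK N K)
    (hal : ∀ y : FK M K, E (al y) = ((y : FK M K) : LaurentSeries Qb)) :
    ∀ x ∈ chart N A K t, ∃ y ∈ RM, ∃ v ∈ GaussE.V hE hdvr', x - al y = s * v := by
  have hG := GRel.gRelStatement A
  obtain ⟨yt, hyt, hint⟩ := ht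
  refine Branch3B.exists_sub_eq_mul M N E (fun c => ?_) t (fun z hz => ?_) RM hB1 hf3
    ⟨yt, hyt, hint⟩ al hal (GaussE.V hE hdvr') s (fun x hx0 => ?_)
  · rw [hE.const]
    exact ModelRed.gRel_const K hG c
  · exact (GaussE.mem_V_iff hE hdvr').mp
      (GaussE.mem_V_of_isIntegral_adjoin hE hdvr' t ⟨yt, hyt⟩ hz)
  · have hxV : x ∈ GaussE.V hE hdvr' := ⟨0, hx0⟩
    exact (GaussE.red_eq_zero_iff hE hdvr' hϖ' hs ⟨x, hxV⟩).mp
      (GaussE.red_eq_of_gRel hE hdvr' ⟨x, hxV⟩ hx0)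

/-- **(ne) along `W1`.** -/
theorem not_sub_const_V1 (hdvr : IsDiscreteValuationRing (OK A K)) {π : OK A K}
    (hπ : Irreducible π) (t : FK N K) (yt : LaurentSeries (IsLocalRing.ResidueField A))
    (hyt : GRel A ((t : FK N K) : LaurentSeries Qb) yt)
    (hnc : ∀ c : OK A K, yt ≠ C (resO A K c)) (c : OK A K) :
    ¬ ∃ v ∈ GaussV.V1 N A K hdvr,
      t - algebraMap (OK A K) (FK N K) c = algebraMap (OK A K) (FK N K) π * v := by
  have hG := GRel.gRelStatement A
  rintro ⟨v, hv, hval⟩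
  have h0 := PointInst.gRel_zero_of_eq_pi_mul hdvr hπ hv hval
  have h1 : GRel A (((t - algebraMap (OK A K) (FK N K) c : FK N K)) : LaurentSeries Qb)
      (yt - C (resO A K c)) := by
    have h2 := hG.add _ _ _ _ hyt (hG.neg _ _ (ModelRed.gRel_const K hG c))
    rw [← sub_eq_add_neg, ← sub_eq_add_neg] at h2
    exact h2
  have h3 := hG.unique _ _ _ h1 h0
  exact hnc c (sub_eq_zero.mp h3)

/-- **(ne) along `W2 = w⁻¹ W1`**, for a `w`-invariant coordinate. -/
theorem not_sub_const_V2 (w : FK N K ≃+* FK N K)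
    (hw : ∀ c : OK A K, w (algebraMap (OK A K) (FK N K) c) = algebraMap (OK A K) (FK N K) c)
    (hdvr : IsDiscreteValuationRing (OK A K)) {π : OK A K}
    (hπ : Irreducible π) (t : FK N K) (hwt : w t = t)
    (yt : LaurentSeries (IsLocalRing.ResidueField A))
    (hyt : GRel A ((t : FK N K) : LaurentSeries Qb) yt)
    (hnc : ∀ c : OK A K, yt ≠ C (resO A K c)) (c : OK A K) :
    ¬ ∃ v ∈ GaussV.V2 w hdvr,
      t - algebraMap (OK A K) (FK N K) c = algebraMap (OK A K) (FK N K) π * v := by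
  rintro ⟨v, hv, hval⟩
  refine not_sub_const_V1 N hdvr hπ t yt hyt hnc c ⟨w v, hv, ?_⟩
  have h1 := congrArg w hval
  rw [map_sub, map_mul, hwt, hw, hw] at h1
  exact h1

/-- **(ne) along `W3`.** -/
theorem not_sub_const_E {E : FK N K →+* LaurentSeries Qb} (hE : GaussE.Emb A K K' E)
    (hdvr' : IsDiscreteValuationRing (OK A K')) {ϖ' : OK A K'} (hϖ' : Irreducible ϖ')
    {s : FK N K} (hs : GaussE.Unif A K' ϖ' E s)
    (t : FK N K) (yt : LaurentSeries (IsLocalRing.ResidueField A))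
    (hyt : GRel A (E t) yt)
    (hnc : ∀ c : OK A K, yt ≠ C (resO A K c)) (c : OK A K) :
    ¬ ∃ v ∈ GaussE.V hE hdvr', t - algebraMap (OK A K) (FK N K) c = s * v := by
  have hG := GRel.gRelStatement A
  rintro ⟨v, hv, hval⟩
  obtain ⟨yv, hyv⟩ := (GaussE.mem_V_iff hE hdvr').mp hv
  have h0 : GRel A (E (t - algebraMap (OK A K) (FK N K) c)) 0 := by
    have h := hG.mul _ _ _ _ (GaussE.gRel_unif hϖ' hs) hyv
    rw [zero_mul, ← map_mul, ← hval] at h
    exact h
  have h1 : GRel A (E (t - algebraMap (OK A K) (FK N K) c)) (yt - C (resO A K c)) := by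
    have h2 := hG.add _ _ _ _ hyt (hG.neg _ _ (ModelRed.gRel_const K hG c))
    rw [← sub_eq_add_neg, ← hE.const, ← sub_eq_add_neg, ← map_sub] at h2
    exact h2
  have h3 := hG.unique _ _ _ h1 h0
  exact hnc c (sub_eq_zero.mp h3)

/-- `π ∈ s V3`. -/
theorem exists_pi_eq_mul_E {E : FK N K →+* LaurentSeries Qb} (hE : GaussE.Emb A K K' E)
    (hdvr' : IsDiscreteValuationRing (OK A K')) {ϖ' : OK A K'} (hϖ' : Irreducible ϖ')
    {s : FK N K} (hs : GaussE.Unif A K' ϖ' E s) {π : OK A K} (hπ : ¬ IsUnit π) :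
    ∃ y ∈ GaussE.V hE hdvr', algebraMap (OK A K) (FK N K) π = s * y :=
  (GaussE.red_eq_zero_iff hE hdvr' hϖ' hs
    ⟨algebraMap (OK A K) (FK N K) π, GaussE.algebraMap_mem_V hE hdvr' π⟩).mp
    (GaussE.red_algebraMap_of_not_isUnit hE hdvr' π hπ)

/-- **Residue degree one along `W1`, from the valuation-ring form**: if every element of `V1(N)`
is congruent modulo `π V1(N)` to the pull-back of an element of `V1(M)`, then every Gauss
reduction of an element of `F_K(N)` is the Gauss reduction of an element of `F_K(M)`. -/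
theorem hf1_of_V1 (hdvr : IsDiscreteValuationRing (OK A K)) {π : OK A K} (hπ : Irreducible π)
    (al : FK M K →+* FK N K)
    (hal : ∀ y : FK M K, ((al y : FK N K) : LaurentSeries Qb) = ((y : FK M K) : LaurentSeries Qb))
    (h : ∀ z ∈ GaussV.V1 N A K hdvr, ∃ c ∈ GaussV.V1 M A K hdvr, ∃ v ∈ GaussV.V1 N A K hdvr,
      z - al c = algebraMap (OK A K) (FK N K) π * v) :
    ∀ (x : FK N K) (y : LaurentSeries (IsLocalRing.ResidueField A)),
      GRel A ((x : FK N K) : LaurentSeries Qb) y →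
      ∃ x' : FK M K, GRel A ((x' : FK M K) : LaurentSeries Qb) y := by
  have hG := GRel.gRelStatement A
  intro x y hxy
  obtain ⟨c, hc, v, hv, hval⟩ := h x ((GaussV.mem_V1_iff hdvr).mpr ⟨y, hxy⟩)
  obtain ⟨yc, hyc⟩ := (GaussV.mem_V1_iff hdvr).mp hc
  have h0 := PointInst.gRel_zero_of_eq_pi_mul hdvr hπ hv hval
  have h1 : GRel A (((x - al c : FK N K)) : LaurentSeries Qb) (y - yc) := by
    have h2 := hG.add _ _ _ _ hxy (hG.neg _ _ hyc)
    rw [← sub_eq_add_neg, ← sub_eq_add_neg, ← hal c] at h2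
    exact h2
  have h3 : y = yc := sub_eq_zero.mp (hG.unique _ _ _ h1 h0)
  exact ⟨c, by rw [h3]; exact hyc⟩

/-- **Residue degree one along `W3`, from the valuation-ring form.** -/
theorem hf3_of_V {E : FK N K →+* LaurentSeries Qb} (hE : GaussE.Emb A K K' E)
    (hdvr' : IsDiscreteValuationRing (OK A K')) {ϖ' : OK A K'} (hϖ' : Irreducible ϖ')
    {s : FK N K} (hs : GaussE.Unif A K' ϖ' E s)
    (hdvr : IsDiscreteValuationRing (OK A K))
    (al : FK M K →+* FK N K)
    (hal : ∀ y : FK M K, E (al y) = ((y : FK M K) : LaurentSeries Qb))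
    (h : ∀ z ∈ GaussE.V hE hdvr', ∃ c ∈ GaussV.V1 M A K hdvr, ∃ v ∈ GaussE.V hE hdvr',
      z - al c = s * v) :
    ∀ (x : FK N K) (y : LaurentSeries (IsLocalRing.ResidueField A)),
      GRel A (E x) y → ∃ x' : FK M K, GRel A ((x' : FK M K) : LaurentSeries Qb) y := by
  have hG := GRel.gRelStatement A
  intro x y hxy
  obtain ⟨c, hc, v, hv, hval⟩ := h x ((GaussE.mem_V_iff hE hdvr').mpr ⟨y, hxy⟩)
  obtain ⟨yc, hyc⟩ := (GaussV.mem_V1_iff hdvr).mp hc
  obtain ⟨yv, hyv⟩ := (GaussE.mem_V_iff hE hdvr').mp hv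
  have h0 : GRel A (E (x - al c)) 0 := by
    have h := hG.mul _ _ _ _ (GaussE.gRel_unif hϖ' hs) hyv
    rw [zero_mul, ← map_mul, ← hval] at h
    exact h
  have h1 : GRel A (E (x - al c)) (y - yc) := by
    have h2 := hG.add _ _ _ _ hxy (hG.neg _ _ hyc)
    rw [← sub_eq_add_neg, ← sub_eq_add_neg, ← hal c, ← map_sub] at h2
    exact h2
  have h3 : y = yc := sub_eq_zero.mp (hG.unique _ _ _ h1 h0)
  exact ⟨c, by rw [h3]; exact hyc⟩

/-- **The `branch` field of `Model3Plan.ChartModel3`** for `chart N A K t`, with the valuation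
rings `V1`, `V2 = w⁻¹ V1`, `V3 = GaussE.V` (along `E`, uniformiser `s`), from residue degree
one along `W1` and along `W3` over a level-`M` chart `RM` with the Igusa property. -/
theorem branch3_gen (hdvr : IsDiscreteValuationRing (OK A K))
    (hac : IsAlgClosed (IsLocalRing.ResidueField (OK A K)))
    (π : OK A K) (hπ : Irreducible π) (t : FK N K)
    (w : FK N K ≃+* FK N K)
    (hw : ∀ c : OK A K, w (algebraMap (OK A K) (FK N K) c) = algebraMap (OK A K) (FK N K) c)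
    (hwR : ∀ x ∈ chart N A K t, w x ∈ chart N A K t)
    (hwR' : ∀ x ∈ chart N A K t, w.symm x ∈ chart N A K t)
    (hwt : w t = t)
    {E : FK N K →+* LaurentSeries Qb} (hE : GaussE.Emb A K K' E)
    (hdvr' : IsDiscreteValuationRing (OK A K')) {ϖ' : OK A K'} (hϖ' : Irreducible ϖ')
    {s : FK N K} (hs : GaussE.Unif A K' ϖ' E s)
    (P : Fin 3 → Ideal (chart N A K t))
    (hyp : Model3Plan.ChartHyp3 π
      ![algebraMap (OK A K) (FK N K) π, algebraMap (OK A K) (FK N K) π, s]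
      ![GaussV.V1 N A K hdvr, GaussV.V2 w hdvr, GaussE.V hE hdvr'] P)
    (RM : Subalgebra (OK A K) (FK M K)) (hI : IgusaAt M A K RM)
    (hB1 : ∀ y : LaurentSeries (IsLocalRing.ResidueField A),
      (∃ x' : FK M K, GRel A ((x' : FK M K) : LaurentSeries Qb) y) →
      IsIntegral (Branch.redRing M A K RM) y → y ∈ Branch.redRing M A K RM)
    (al : FK M K →+* FK N K)
    (halc : ∀ c : OK A K,
      al (algebraMap (OK A K) (FK M K) c) = algebraMap (OK A K) (FK N K) c)
    (hal1 : ∀ y : FK M K,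
      ((al y : FK N K) : LaurentSeries Qb) = ((y : FK M K) : LaurentSeries Qb))
    (hal3 : ∀ y : FK M K, E (al y) = ((y : FK M K) : LaurentSeries Qb))
    (hmap : ∀ y ∈ RM, al y ∈ chart N A K t)
    (hf1 : ∀ (x : FK N K) (y : LaurentSeries (IsLocalRing.ResidueField A)),
      GRel A ((x : FK N K) : LaurentSeries Qb) y →
      ∃ x' : FK M K, GRel A ((x' : FK M K) : LaurentSeries Qb) y)
    (hf3 : ∀ (x : FK N K) (y : LaurentSeries (IsLocalRing.ResidueField A)),
      GRel A (E x) y → ∃ x' : FK M K, GRel A ((x' : FK M K) : LaurentSeries Qb) y)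
    (yt1 : LaurentSeries (IsLocalRing.ResidueField A))
    (hyt1 : GRel A ((t : FK N K) : LaurentSeries Qb) yt1)
    (hint1 : IsIntegral (Branch.redRing M A K RM) yt1)
    (hnc1 : ∀ c : OK A K, yt1 ≠ C (resO A K c))
    (yt3 : LaurentSeries (IsLocalRing.ResidueField A))
    (hyt3 : GRel A (E t) yt3)
    (hint3 : IsIntegral (Branch.redRing M A K RM) yt3)
    (hnc3 : ∀ c : OK A K, yt3 ≠ C (resO A K c)) :
    ∀ n : Ideal (chart N A K t), n.IsMaximal →
      algebraMap (OK A K) (chart N A K t) π ∈ n → ∀ i : Fin 3, P i ≤ n →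
      (∃ x ∈ n, x ∉ P i) ∧
        ∃ u ∈ n, ∀ x ∈ n, ∃ s' : chart N A K t, s' ∉ n ∧
          ∃ c : chart N A K t, s' * x - c * u ∈ P i := by
  have := hdvr
  have := hac
  refine BranchPts3.branch3 (N := N) (M := M) π hπ t
    ![algebraMap (OK A K) (FK N K) π, algebraMap (OK A K) (FK N K) π, s]
    ![GaussV.V1 N A K hdvr, GaussV.V2 w hdvr, GaussE.V hE hdvr'] P hyp ?_ RM hI
    ![al, ((w.symm : FK N K ≃+* FK N K) : FK N K →+* FK N K).comp al, al] ?_ ?_ ?_ ?_
  · -- `π ∈ ϖ i (V i)`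
    intro i
    fin_cases i
    · exact ⟨1, (GaussV.V1 N A K hdvr).one_mem, (mul_one _).symm⟩
    · exact ⟨1, (GaussV.V2 w hdvr).one_mem, (mul_one _).symm⟩
    · exact exists_pi_eq_mul_E N hE hdvr' hϖ' hs hπ.not_isUnit
  · -- constants
    intro i c
    fin_cases i
    · exact halc c
    · show w.symm (al (algebraMap (OK A K) (FK M K) c)) = algebraMap (OK A K) (FK N K) c
      rw [halc, RingEquiv.symm_apply_eq, hw]
    · exact halc c
  · -- the level-`M` chart maps into the chart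
    intro i y hy
    fin_cases i
    · exact hmap y hy
    · exact hwR' _ (hmap y hy)
    · exact hmap y hy
  · -- (B)
    intro i
    fin_cases i
    · exact exists_sub_eq_mul_V1 M N hdvr hπ t RM hB1 hf1 ⟨yt1, hyt1, hint1⟩ al hal1
    · exact exists_sub_eq_mul_V2 M N w hw hdvr hπ t hwR RM hB1 hf1 ⟨yt1, hyt1, hint1⟩ al hal1
    · exact exists_sub_eq_mul_E M N hE hdvr' hϖ' hs t RM hB1 hf3 ⟨yt3, hyt3, hint3⟩ al hal3
  · -- (ne)
    intro c i
    fin_cases i
    · exact not_sub_const_V1 N hdvr hπ t yt1 hyt1 hnc1 c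
    · exact not_sub_const_V2 N w hw hdvr hπ t hwt yt1 hyt1 hnc1 c
    · exact not_sub_const_E N hE hdvr' hϖ' hs t yt3 hyt3 hnc3 c

end Gen

/-! ### Level `M q²` -/

section Inst

variable (M q : ℕ) [NeZero M] [NeZero q] (hq : q.Prime) (hqM : ¬ q ∣ M)
variable (A : ValuationSubring Qb) (K : IntermediateField ℚ Qb)

/-- The inclusion `F_K(M) ⊆ F_K(M q²)`. -/
def al2 : FK M K →+* FK (M * q * q) K := (WQ2.alphaK2 M q K).comp (WK.alphaK M q K)

theorem coe_al2 (y : FK M K) :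
    ((al2 M q K y : FK (M * q * q) K) : LaurentSeries Qb) = ((y : FK M K) : LaurentSeries Qb) := by
  rw [al2, RingHom.comp_apply, WQ2.coe_alphaK2, WK.coe_alphaK]

theorem al2_algebraMap (c : OK A K) :
    al2 M q K (algebraMap (OK A K) (FK M K) c) = algebraMap (OK A K) (FK (M * q * q) K) c := by
  have h1 : WK.alphaK M q K (constK M K (c : K)) = constK (M * q) K (c : K) :=
    WK.alphaK_constK M q K (c : K)
  have h2 : WQ2.alphaK2 M q K (constK (M * q) K (c : K)) = constK (M * q * q) K (c : K) :=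
    WQ2.alphaK2_constK M q K (c : K)
  show WQ2.alphaK2 M q K (WK.alphaK M q K (constK M K (c : K))) = constK (M * q * q) K (c : K)
  rw [h1, h2]

theorem al2_jK : al2 M q K (jK M K) = jK (M * q * q) K := by
  rw [al2, RingHom.comp_apply, WK.alphaK_jK, WQ2.alphaK2_jK]

/-- Any ring homomorphism `F_K(M) → F_K(M q²)` compatible with the `q`-expansions is `al2`. -/
theorem eq_al2_of_coe (f : FK M K →+* FK (M * q * q) K)
    (hf : ∀ y : FK M K,
      ((f y : FK (M * q * q) K) : LaurentSeries Qb) = ((y : FK M K) : LaurentSeries Qb)) :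
    f = al2 M q K :=
  RingHom.ext fun y => Subtype.ext ((hf y).trans (coe_al2 M q K y).symm)

/-- The symmetric coordinate `J = j · j_{q²}` of level `M q²`. -/
def JK2 : FK (M * q * q) K := ChartJ.symJ (M * q * q) K (WQ2.jqqK2 M q hq hqM K)

theorem JK2_eq : JK2 M q hq hqM K = jK (M * q * q) K * WQ2.jqqK2 M q hq hqM K := rfl

theorem jqqK2_ne_zero : WQ2.jqqK2 M q hq hqM K ≠ 0 := by
  rw [← WQ2.wK2_jK]
  exact (map_ne_zero (WQ2.wK2 M q hq hqM K)).mpr (ModelBasicCore.jK_ne_zero (M * q * q) K)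

theorem JK2_ne_zero : JK2 M q hq hqM K ≠ 0 :=
  ChartJ.symJ_ne_zero (M * q * q) K (jqqK2_ne_zero M q hq hqM K)

/-- `w_{q²} J = J`. -/
theorem wK2_JK2 : WQ2.wK2 M q hq hqM K (JK2 M q hq hqM K) = JK2 M q hq hqM K := by
  rw [JK2_eq, map_mul, WQ2.wK2_jK, WQ2.wK2_jqqK2]
  exact mul_comm _ _

theorem wK2_JK2_inv :
    WQ2.wK2 M q hq hqM K (JK2 M q hq hqM K)⁻¹ = (JK2 M q hq hqM K)⁻¹ := by
  rw [map_inv₀, wK2_JK2]

/-- `chart J` is `w_{q²}`-stable. -/
theorem wK2_mem_chart_JK2 {x : FK (M * q * q) K}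
    (hx : x ∈ chart (M * q * q) A K (JK2 M q hq hqM K)) :
    WQ2.wK2 M q hq hqM K x ∈ chart (M * q * q) A K (JK2 M q hq hqM K) :=
  ChartJ.map_mem_chart_symJ (M * q * q) A K (WQ2.wK2 M q hq hqM K)
    (WQ2.wK2_algebraMap_OK M q hq hqM K A) (WQ2.wK2_jK M q hq hqM K)
    (WQ2.wK2_jqqK2 M q hq hqM K) hx

/-- `chart J⁻¹` is `w_{q²}`-stable. -/
theorem wK2_mem_chart_JK2_inv {x : FK (M * q * q) K}
    (hx : x ∈ chart (M * q * q) A K (JK2 M q hq hqM K)⁻¹) :
    WQ2.wK2 M q hq hqM K x ∈ chart (M * q * q) A K (JK2 M q hq hqM K)⁻¹ :=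
  ChartJ.map_mem_chart_symJ_inv (M * q * q) A K (WQ2.wK2 M q hq hqM K)
    (WQ2.wK2_algebraMap_OK M q hq hqM K A) (WQ2.wK2_jK M q hq hqM K)
    (WQ2.wK2_jqqK2 M q hq hqM K) hx

/-- The level-`M` chart `j ≠ ∞` maps into `chart J`. -/
theorem al2_mem_chart_JK2 {x : FK M K} (hx : x ∈ chart M A K (jK M K)) :
    al2 M q K x ∈ chart (M * q * q) A K (JK2 M q hq hqM K) :=
  ChartJ.chart_jK_le (M * q * q) A K (WQ2.isIntegral_jK2 M q hq hqM A K)
    (WQ2.alphaK2_mem_chart_jK M q A K (WK.alphaK_mem_chart_jK M q A K hx))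

/-- The level-`M` chart `j ≠ 0` maps into `chart J⁻¹`. -/
theorem al2_mem_chart_JK2_inv {x : FK M K} (hx : x ∈ chart M A K (jK M K)⁻¹) :
    al2 M q K x ∈ chart (M * q * q) A K (JK2 M q hq hqM K)⁻¹ :=
  ChartJ.chart_jK_inv_le (M * q * q) A K (jqqK2_ne_zero M q hq hqM K)
    (WQ2.isIntegral_jqqK2 M q hq hqM A K)
    (WQ2.alphaK2_mem_chart_inv M q A K (WK.alphaK_mem_chart_inv M q A K hx))

/-! #### Reductions of `J` -/

/-- In characteristic `q`: `j(Q^{q²}) = j^{q²}`. -/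
theorem qExpand_sq_jqModC_eq_pow [Fact q.Prime] (hA : A.LiesOverPrime q) :
    qExpand (IsLocalRing.ResidueField A) (q * q) (jqModC (IsLocalRing.ResidueField A)) =
      jqModC (IsLocalRing.ResidueField A) ^ (q * q) := by
  have h1 := V12J.qExpand_jqModC_eq_pow A q hA
  have h2 : qExpand (IsLocalRing.ResidueField A) (q * q)
      (jqModC (IsLocalRing.ResidueField A)) =
      qExpand (IsLocalRing.ResidueField A) q
        (qExpand (IsLocalRing.ResidueField A) q (jqModC (IsLocalRing.ResidueField A))) := by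
    rw [qExpand_qExpand]
  rw [h2, h1, map_pow, h1, ← pow_mul]

/-- The `q`-expansion of `J`. -/
theorem coe_JK2 :
    ((JK2 M q hq hqM K : FK (M * q * q) K) : LaurentSeries Qb) =
      jqModC Qb * qExpand Qb (q * q) (jqModC Qb) := by
  rw [JK2_eq, Subfield.coe_mul, ModelQFrac.coe_jK (M * q * q) K, WQ2.coe_jqqK2, S28.jd_eq]

/-- **`red_1 J = j̄^(q²+1)`**. -/
theorem gRel_JK2 [Fact q.Prime] (hA : A.LiesOverPrime q) :
    GRel A ((JK2 M q hq hqM K : FK (M * q * q) K) : LaurentSeries Qb)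
      (jqModC (IsLocalRing.ResidueField A) ^ (q * q + 1)) := by
  rw [coe_JK2]
  have h := (V12Rel.gFacts A).mul _ _ _ _ (V12Rel.gRel_j A) (V12Rel.gRel_jd A (q * q))
  rwa [qExpand_sq_jqModC_eq_pow q A hA, ← pow_succ'] at h

/-- **`red_1 J⁻¹ = (j̄⁻¹)^(q²+1)`**. -/
theorem gRel_JK2_inv [Fact q.Prime] (hA : A.LiesOverPrime q) :
    GRel A (((JK2 M q hq hqM K)⁻¹ : FK (M * q * q) K) : LaurentSeries Qb)
      ((jqModC (IsLocalRing.ResidueField A))⁻¹ ^ (q * q + 1)) := by
  rw [Subfield.coe_inv]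
  have h := (V12Rel.gFacts A).inv _ _ (gRel_JK2 M q hq hqM A K hA)
    (pow_ne_zero _ (V12Rel.jqModC_ne_zero _))
  rwa [← inv_pow] at h

variable {A K}

/-- `j̄ ∈ ρ_M(RM)` if `j ∈ RM`. -/
theorem jqModC_mem_redRing (RM : Subalgebra (OK A K) (FK M K)) (hj : jK M K ∈ RM) :
    jqModC (IsLocalRing.ResidueField A) ∈ Branch.redRing M A K RM :=
  ⟨jK M K, hj, by rw [ModelQFrac.coe_jK M K]; exact V12Rel.gRel_j A⟩

/-- `j̄⁻¹ ∈ ρ_M(RM)` if `j⁻¹ ∈ RM`. -/
theorem jqModC_inv_mem_redRing (RM : Subalgebra (OK A K) (FK M K)) (hj : (jK M K)⁻¹ ∈ RM) :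
    (jqModC (IsLocalRing.ResidueField A))⁻¹ ∈ Branch.redRing M A K RM :=
  ⟨(jK M K)⁻¹, hj, by
    rw [Subfield.coe_inv, ModelQFrac.coe_jK M K]; exact V12Rel.gRel_j_inv A⟩

/-- Powers of an element of the reduction ring are integral over it. -/
theorem isIntegral_pow_of_mem (RM : Subalgebra (OK A K) (FK M K))
    {y : LaurentSeries (IsLocalRing.ResidueField A)} (hy : y ∈ Branch.redRing M A K RM)
    (b : ℕ) : IsIntegral (Branch.redRing M A K RM) (y ^ b) :=
  isIntegral_algebraMap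
    (x := (⟨_, (Branch.redRing M A K RM).pow_mem hy b⟩ : Branch.redRing M A K RM))

variable {K' : IntermediateField ℚ Qb}

/-- **`red_3 J = j̄²`**: along an expansion `E` which is the standard one on level `M` and for
which `j_{q²} ≡ j`. -/
theorem gRel_E_JK2 {E : FK (M * q * q) K →+* LaurentSeries Qb}
    (hal3 : ∀ y : FK M K, E (al2 M q K y) = ((y : FK M K) : LaurentSeries Qb))
    (hEs : GRel A (E (WQ2.jqqK2 M q hq hqM K - jK (M * q * q) K)) 0) :
    GRel A (E (JK2 M q hq hqM K)) (jqModC (IsLocalRing.ResidueField A) ^ 2) := by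
  have hG := GRel.gRelStatement A
  have hj : GRel A (E (jK (M * q * q) K)) (jqModC (IsLocalRing.ResidueField A)) := by
    rw [← al2_jK M q K, hal3, ModelQFrac.coe_jK M K]
    exact V12Rel.gRel_j A
  have hjqq : GRel A (E (WQ2.jqqK2 M q hq hqM K)) (jqModC (IsLocalRing.ResidueField A)) := by
    have h := hG.add _ _ _ _ hEs hj
    rwa [← map_add, sub_add_cancel, zero_add] at h
  have h := hG.mul _ _ _ _ hj hjqq
  rwa [← map_mul, ← JK2_eq, ← sq] at h

/-- **`red_3 J⁻¹ = (j̄⁻¹)²`**. -/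
theorem gRel_E_JK2_inv {E : FK (M * q * q) K →+* LaurentSeries Qb}
    (hal3 : ∀ y : FK M K, E (al2 M q K y) = ((y : FK M K) : LaurentSeries Qb))
    (hEs : GRel A (E (WQ2.jqqK2 M q hq hqM K - jK (M * q * q) K)) 0) :
    GRel A (E (JK2 M q hq hqM K)⁻¹) ((jqModC (IsLocalRing.ResidueField A))⁻¹ ^ 2) := by
  have h := (GRel.gRelStatement A).inv _ _ (gRel_E_JK2 M q hq hqM hal3 hEs)
    (pow_ne_zero _ (V12Rel.jqModC_ne_zero _))
  rwa [← inv_pow, ← map_inv₀] at h

/-! #### Closed forms -/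

/-- **The `branch` field of `Model3Plan.ChartModel3` for `chart J`** at level `M q²`:
`V = ![V1, w_{q²}⁻¹ V1, GaussE.V]`, `ϖ = ![π, π, s]`.  Inputs: residue degree one along `W1`
(`hf1`) and along `W3` (`hf3`), and the expansion data of `W3` (`hE`, `hs`, `hal3`, `hEs`). -/
theorem branch3_JK2 [Fact q.Prime] (hA : A.LiesOverPrime q) (hB : BaseFacts q A K)
    (π : OK A K) (hπ : Irreducible π)
    {E : FK (M * q * q) K →+* LaurentSeries Qb} (hE : GaussE.Emb A K K' E)
    (hdvr' : IsDiscreteValuationRing (OK A K')) {ϖ' : OK A K'} (hϖ' : Irreducible ϖ')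
    {s : FK (M * q * q) K} (hs : GaussE.Unif A K' ϖ' E s)
    (hal3 : ∀ y : FK M K, E (al2 M q K y) = ((y : FK M K) : LaurentSeries Qb))
    (hEs : GRel A (E (WQ2.jqqK2 M q hq hqM K - jK (M * q * q) K)) 0)
    (hf1 : ∀ (x : FK (M * q * q) K) (y : LaurentSeries (IsLocalRing.ResidueField A)),
      GRel A ((x : FK (M * q * q) K) : LaurentSeries Qb) y →
      ∃ x' : FK M K, GRel A ((x' : FK M K) : LaurentSeries Qb) y)
    (hf3 : ∀ (x : FK (M * q * q) K) (y : LaurentSeries (IsLocalRing.ResidueField A)),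
      GRel A (E x) y → ∃ x' : FK M K, GRel A ((x' : FK M K) : LaurentSeries Qb) y)
    (P : Fin 3 → Ideal (chart (M * q * q) A K (JK2 M q hq hqM K)))
    (hyp : Model3Plan.ChartHyp3 π
      ![algebraMap (OK A K) (FK (M * q * q) K) π, algebraMap (OK A K) (FK (M * q * q) K) π, s]
      ![GaussV.V1 (M * q * q) A K hB.dvr, GaussV.V2 (WQ2.wK2 M q hq hqM K) hB.dvr,
        GaussE.V hE hdvr'] P) :
    ∀ n : Ideal (chart (M * q * q) A K (JK2 M q hq hqM K)), n.IsMaximal →
      algebraMap (OK A K) (chart (M * q * q) A K (JK2 M q hq hqM K)) π ∈ n →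
      ∀ i : Fin 3, P i ≤ n →
      (∃ x ∈ n, x ∉ P i) ∧
        ∃ u ∈ n, ∀ x ∈ n, ∃ s' : chart (M * q * q) A K (JK2 M q hq hqM K), s' ∉ n ∧
          ∃ c : chart (M * q * q) A K (JK2 M q hq hqM K), s' * x - c * u ∈ P i := by
  have hjmem : jqModC (IsLocalRing.ResidueField A) ∈ Branch.redRing M A K (R0 M q A K) :=
    jqModC_mem_redRing M (R0 M q A K) (Model.self_mem_chart M A K _)
  refine branch3_gen M (M * q * q) hB.dvr (ResOK.isAlgClosed_residueField_OK q A K hB) π hπ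
    (JK2 M q hq hqM K) (WQ2.wK2 M q hq hqM K) (WQ2.wK2_algebraMap_OK M q hq hqM K A)
    (fun x hx => wK2_mem_chart_JK2 M q hq hqM A K hx)
    (fun x hx => wK2_mem_chart_JK2 M q hq hqM A K hx)
    (wK2_JK2 M q hq hqM K) hE hdvr' hϖ' hs P hyp (R0 M q A K)
    (IgusaStmt.igusaStatement M q hqM A hA K hB (ModelAll.modelStatement M q hqM A hA K hB)).1
    (fun _ hy hint => Branch.mem_redRing_R0 M q hqM hA hB hy hint)
    (al2 M q K) (al2_algebraMap M q A K) (coe_al2 M q K) hal3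
    (fun y hy => al2_mem_chart_JK2 M q hq hqM A K hy) hf1 hf3
    (jqModC (IsLocalRing.ResidueField A) ^ (q * q + 1)) (gRel_JK2 M q hq hqM A K hA)
    (isIntegral_pow_of_mem M _ hjmem _)
    (fun c => V12J.jqModC_pow_ne_C _ (Nat.succ_ne_zero _) _)
    (jqModC (IsLocalRing.ResidueField A) ^ 2) (gRel_E_JK2 M q hq hqM hal3 hEs)
    (isIntegral_pow_of_mem M _ hjmem _)
    (fun c => V12J.jqModC_pow_ne_C _ two_ne_zero _)

/-- **The `branch` field of `Model3Plan.ChartModel3` for `chart J⁻¹`** at level `M q²`. -/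
theorem branch3_JK2_inv [Fact q.Prime] (hA : A.LiesOverPrime q) (hB : BaseFacts q A K)
    (π : OK A K) (hπ : Irreducible π)
    {E : FK (M * q * q) K →+* LaurentSeries Qb} (hE : GaussE.Emb A K K' E)
    (hdvr' : IsDiscreteValuationRing (OK A K')) {ϖ' : OK A K'} (hϖ' : Irreducible ϖ')
    {s : FK (M * q * q) K} (hs : GaussE.Unif A K' ϖ' E s)
    (hal3 : ∀ y : FK M K, E (al2 M q K y) = ((y : FK M K) : LaurentSeries Qb))
    (hEs : GRel A (E (WQ2.jqqK2 M q hq hqM K - jK (M * q * q) K)) 0)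
    (hf1 : ∀ (x : FK (M * q * q) K) (y : LaurentSeries (IsLocalRing.ResidueField A)),
      GRel A ((x : FK (M * q * q) K) : LaurentSeries Qb) y →
      ∃ x' : FK M K, GRel A ((x' : FK M K) : LaurentSeries Qb) y)
    (hf3 : ∀ (x : FK (M * q * q) K) (y : LaurentSeries (IsLocalRing.ResidueField A)),
      GRel A (E x) y → ∃ x' : FK M K, GRel A ((x' : FK M K) : LaurentSeries Qb) y)
    (P : Fin 3 → Ideal (chart (M * q * q) A K (JK2 M q hq hqM K)⁻¹))
    (hyp : Model3Plan.ChartHyp3 π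
      ![algebraMap (OK A K) (FK (M * q * q) K) π, algebraMap (OK A K) (FK (M * q * q) K) π, s]
      ![GaussV.V1 (M * q * q) A K hB.dvr, GaussV.V2 (WQ2.wK2 M q hq hqM K) hB.dvr,
        GaussE.V hE hdvr'] P) :
    ∀ n : Ideal (chart (M * q * q) A K (JK2 M q hq hqM K)⁻¹), n.IsMaximal →
      algebraMap (OK A K) (chart (M * q * q) A K (JK2 M q hq hqM K)⁻¹) π ∈ n →
      ∀ i : Fin 3, P i ≤ n →
      (∃ x ∈ n, x ∉ P i) ∧
        ∃ u ∈ n, ∀ x ∈ n, ∃ s' : chart (M * q * q) A K (JK2 M q hq hqM K)⁻¹, s' ∉ n ∧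
          ∃ c : chart (M * q * q) A K (JK2 M q hq hqM K)⁻¹, s' * x - c * u ∈ P i := by
  have hjmem : (jqModC (IsLocalRing.ResidueField A))⁻¹ ∈
      Branch.redRing M A K (Rinf M q A K) :=
    jqModC_inv_mem_redRing M (Rinf M q A K) (Model.self_mem_chart M A K _)
  refine branch3_gen M (M * q * q) hB.dvr (ResOK.isAlgClosed_residueField_OK q A K hB) π hπ
    (JK2 M q hq hqM K)⁻¹ (WQ2.wK2 M q hq hqM K) (WQ2.wK2_algebraMap_OK M q hq hqM K A)
    (fun x hx => wK2_mem_chart_JK2_inv M q hq hqM A K hx)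
    (fun x hx => wK2_mem_chart_JK2_inv M q hq hqM A K hx)
    (wK2_JK2_inv M q hq hqM K) hE hdvr' hϖ' hs P hyp (Rinf M q A K)
    (IgusaStmt.igusaStatement M q hqM A hA K hB (ModelAll.modelStatement M q hqM A hA K hB)).2
    (fun _ hy hint => Branch.mem_redRing_Rinf M q hqM hA hB hy hint)
    (al2 M q K) (al2_algebraMap M q A K) (coe_al2 M q K) hal3
    (fun y hy => al2_mem_chart_JK2_inv M q hq hqM A K hy) hf1 hf3
    ((jqModC (IsLocalRing.ResidueField A))⁻¹ ^ (q * q + 1)) (gRel_JK2_inv M q hq hqM A K hA)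
    (isIntegral_pow_of_mem M _ hjmem _)
    (fun c => V12J.jqModC_inv_pow_ne_C _ (Nat.succ_ne_zero _) _)
    ((jqModC (IsLocalRing.ResidueField A))⁻¹ ^ 2) (gRel_E_JK2_inv M q hq hqM hal3 hEs)
    (isIntegral_pow_of_mem M _ hjmem _)
    (fun c => V12J.jqModC_inv_pow_ne_C _ two_ne_zero _)

end Inst

end Fermat.Agent.S36.Level3B
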