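/-
S36 — Level3J3B.lean (helper42; package [MODEL3], leaf [M3.7](b), coordinate of record).

The closed form of the field `branch` of `Model3Plan.ChartModel3` for the two charts of the
level-`M q²` model in the COORDINATE OF RECORD `J3 = j · j_q · j_{q²}`:

* `J3K` and its chart facts (self-contained: `w_{q²} J3 = J3`, both charts are `w_{q²}`-stable,
  `chart j ≤ chart J3`, `chart j⁻¹ ≤ chart J3⁻¹`, the level-`M` charts map into them);
* `gRel_J3K : red_1 J3 = j̄^(q²+q+1)`, `gRel_E_J3K : red_3 J3 = j̄^(q+2)` (along an expansion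
  `E` which is the standard one on level `M q` and for which `j_{q²} ≡ j`);
* `branch3_J3`, `branch3_J3_inv` : `ChartModel3.branch` for `chart J3`, `chart J3⁻¹`, from
  residue degree one along `W1` and `W3` (`hf1`, `hf3`) and the expansion data of `W3`.
-/
import Mathlib
import Fermat.Agent.S36.Level3B

set_option autoImplicit false

noncomputable section

namespace Fermat.Agent.S36.Level3J3B

open ModularCurve HahnSeries Fermat.Agent.S18 Fermat.Agent.S18.Arith Fermat.Agent.S18.ModelPlan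
  Fermat.Agent.S34

variable (M q : ℕ) [NeZero M] [NeZero q] (hq : q.Prime) (hqM : ¬ q ∣ M)
variable (A : ValuationSubring Qb) (K : IntermediateField ℚ Qb)

/-- The coordinate of record `J3 = j · j_q · j_{q²}` of level `M q²`. -/
def J3K : FK (M * q * q) K :=
  jK (M * q * q) K * WQ2.jqK2 M q hq hqM K * WQ2.jqqK2 M q hq hqM K

theorem J3K_eq : J3K M q hq hqM K =
    jK (M * q * q) K * WQ2.jqK2 M q hq hqM K * WQ2.jqqK2 M q hq hqM K := rfl

theorem jqK2_ne_zero : WQ2.jqK2 M q hq hqM K ≠ 0 :=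
  (map_ne_zero (WQ2.alphaK2 M q K)).mpr (WKInst.jqK_ne_zero M q hq hqM K)

theorem J3K_ne_zero : J3K M q hq hqM K ≠ 0 :=
  mul_ne_zero (mul_ne_zero (ModelBasicCore.jK_ne_zero (M * q * q) K)
    (jqK2_ne_zero M q hq hqM K)) (Level3B.jqqK2_ne_zero M q hq hqM K)

/-- `w_{q²} J3 = J3`. -/
theorem wK2_J3K : WQ2.wK2 M q hq hqM K (J3K M q hq hqM K) = J3K M q hq hqM K := by
  rw [J3K_eq, map_mul, map_mul, WQ2.wK2_jK, WQ2.wK2_jqK2, WQ2.wK2_jqqK2]
  ring

theorem wK2_J3K_inv :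
    WQ2.wK2 M q hq hqM K (J3K M q hq hqM K)⁻¹ = (J3K M q hq hqM K)⁻¹ := by
  rw [map_inv₀, wK2_J3K]

/-- `chart J3` is `w_{q²}`-stable. -/
theorem wK2_mem_chart_J3K {x : FK (M * q * q) K}
    (hx : x ∈ chart (M * q * q) A K (J3K M q hq hqM K)) :
    WQ2.wK2 M q hq hqM K x ∈ chart (M * q * q) A K (J3K M q hq hqM K) := by
  have h := ChartJ.map_mem_chart (M * q * q) A K (WQ2.wK2 M q hq hqM K)
    (WQ2.wK2_algebraMap_OK M q hq hqM K A) hx
  rwa [wK2_J3K] at h

/-- `chart J3⁻¹` is `w_{q²}`-stable. -/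
theorem wK2_mem_chart_J3K_inv {x : FK (M * q * q) K}
    (hx : x ∈ chart (M * q * q) A K (J3K M q hq hqM K)⁻¹) :
    WQ2.wK2 M q hq hqM K x ∈ chart (M * q * q) A K (J3K M q hq hqM K)⁻¹ := by
  have h := ChartJ.map_mem_chart (M * q * q) A K (WQ2.wK2 M q hq hqM K)
    (WQ2.wK2_algebraMap_OK M q hq hqM K A) hx
  rwa [wK2_J3K_inv] at h

/-- `j` is integral over `O[j_q]` at level `M q²`. -/
theorem isIntegral_jK_jqK2 :
    IsIntegral (Algebra.adjoin (OK A K) {WQ2.jqK2 M q hq hqM K}) (jK (M * q * q) K) := by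
  have h := WK.alphaK_mem_chart (M * q) q A K (t := WK.jqK M q hq hqM K) (x := jK (M * q) K)
    ((mem_chart_iff (M * q) A K).mpr (WK.isIntegral_jK M q hq hqM A K))
  rw [WK.alphaK_jK] at h
  exact (mem_chart_iff (M * q * q) A K).mp h

/-- `j_q` is integral over `O[j_{q²}]`. -/
theorem isIntegral_jqK2_jqqK2 :
    IsIntegral (Algebra.adjoin (OK A K) {WQ2.jqqK2 M q hq hqM K}) (WQ2.jqK2 M q hq hqM K) := by
  have h := WQ2.isIntegral_wK2 M q hq hqM A K (WQ2.isIntegral_jqK2 M q hq hqM A K)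
  rwa [WQ2.wK2_jK, WQ2.wK2_jqK2] at h

/-- `j` is integral over `O[J3]`. -/
theorem isIntegral_jK_J3K :
    IsIntegral (Algebra.adjoin (OK A K) {J3K M q hq hqM K}) (jK (M * q * q) K) := by
  -- `j_q` is integral over `O[j_q j_{q²}]`, hence so is `j`
  have h1 : IsIntegral (Algebra.adjoin (OK A K)
      {WQ2.jqK2 M q hq hqM K * WQ2.jqqK2 M q hq hqM K}) (WQ2.jqK2 M q hq hqM K) :=
    ChartJ.isIntegral_adjoin_mul (isIntegral_jqK2_jqqK2 M q hq hqM A K)
  have h2 : IsIntegral (Algebra.adjoin (OK A K)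
      {WQ2.jqK2 M q hq hqM K * WQ2.jqqK2 M q hq hqM K}) (jK (M * q * q) K) :=
    ChartJ.isIntegral_adjoin_trans h1 (isIntegral_jK_jqK2 M q hq hqM A K)
  have h3 := ChartJ.isIntegral_adjoin_mul h2
  rwa [← mul_assoc] at h3

/-- `j⁻¹` is integral over `O[J3⁻¹]`. -/
theorem isIntegral_jK_inv_J3K :
    IsIntegral (Algebra.adjoin (OK A K) {(J3K M q hq hqM K)⁻¹}) (jK (M * q * q) K)⁻¹ := by
  have h := ChartJ.isIntegral_adjoin_mul_inv (R := OK A K) (x := jK (M * q * q) K)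
    (y := WQ2.jqK2 M q hq hqM K * WQ2.jqqK2 M q hq hqM K)
    (mul_ne_zero (jqK2_ne_zero M q hq hqM K) (Level3B.jqqK2_ne_zero M q hq hqM K))
    ((WQ2.isIntegral_jqK2 M q hq hqM A K).mul (WQ2.isIntegral_jqqK2 M q hq hqM A K))
  rwa [← mul_assoc] at h

/-- `chart j ≤ chart J3`. -/
theorem chart_jK_le_J3K :
    chart (M * q * q) A K (jK (M * q * q) K) ≤ chart (M * q * q) A K (J3K M q hq hqM K) :=
  ChartJ.chart_le_of_isIntegral (M * q * q) A K (isIntegral_jK_J3K M q hq hqM A K)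

/-- `chart j⁻¹ ≤ chart J3⁻¹`. -/
theorem chart_jK_inv_le_J3K :
    chart (M * q * q) A K (jK (M * q * q) K)⁻¹ ≤ chart (M * q * q) A K (J3K M q hq hqM K)⁻¹ :=
  ChartJ.chart_le_of_isIntegral (M * q * q) A K (isIntegral_jK_inv_J3K M q hq hqM A K)

/-- The level-`M` chart `j ≠ ∞` maps into `chart J3`. -/
theorem al2_mem_chart_J3K {x : FK M K} (hx : x ∈ chart M A K (jK M K)) :
    Level3B.al2 M q K x ∈ chart (M * q * q) A K (J3K M q hq hqM K) :=
  chart_jK_le_J3K M q hq hqM A K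
    (WQ2.alphaK2_mem_chart_jK M q A K (WK.alphaK_mem_chart_jK M q A K hx))

/-- The level-`M` chart `j ≠ 0` maps into `chart J3⁻¹`. -/
theorem al2_mem_chart_J3K_inv {x : FK M K} (hx : x ∈ chart M A K (jK M K)⁻¹) :
    Level3B.al2 M q K x ∈ chart (M * q * q) A K (J3K M q hq hqM K)⁻¹ :=
  chart_jK_inv_le_J3K M q hq hqM A K
    (WQ2.alphaK2_mem_chart_inv M q A K (WK.alphaK_mem_chart_inv M q A K hx))

/-! ### Reductions of `J3` -/

/-- The `q`-expansion of `J3`. -/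
theorem coe_J3K :
    ((J3K M q hq hqM K : FK (M * q * q) K) : LaurentSeries Qb) =
      jqModC Qb * qExpand Qb q (jqModC Qb) * qExpand Qb (q * q) (jqModC Qb) := by
  rw [J3K_eq, Subfield.coe_mul, Subfield.coe_mul, ModelQFrac.coe_jK (M * q * q) K,
    WQ2.coe_jqK2, WQ2.coe_jqqK2, S28.jd_eq, S28.jd_eq]

/-- **`red_1 J3 = j̄^(q²+q+1)`**. -/
theorem gRel_J3K [Fact q.Prime] (hA : A.LiesOverPrime q) :
    GRel A ((J3K M q hq hqM K : FK (M * q * q) K) : LaurentSeries Qb)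
      (jqModC (IsLocalRing.ResidueField A) ^ (q * q + q + 1)) := by
  rw [coe_J3K]
  have h := (V12Rel.gFacts A).mul _ _ _ _
    ((V12Rel.gFacts A).mul _ _ _ _ (V12Rel.gRel_j A) (V12Rel.gRel_jd A q))
    (V12Rel.gRel_jd A (q * q))
  rw [Level3B.qExpand_sq_jqModC_eq_pow q A hA, V12J.qExpand_jqModC_eq_pow A q hA] at h
  have e : jqModC (IsLocalRing.ResidueField A) * jqModC (IsLocalRing.ResidueField A) ^ q *
      jqModC (IsLocalRing.ResidueField A) ^ (q * q) =
      jqModC (IsLocalRing.ResidueField A) ^ (q * q + q + 1) := by ring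
  rwa [e] at h

/-- **`red_1 J3⁻¹ = (j̄⁻¹)^(q²+q+1)`**. -/
theorem gRel_J3K_inv [Fact q.Prime] (hA : A.LiesOverPrime q) :
    GRel A (((J3K M q hq hqM K)⁻¹ : FK (M * q * q) K) : LaurentSeries Qb)
      ((jqModC (IsLocalRing.ResidueField A))⁻¹ ^ (q * q + q + 1)) := by
  rw [Subfield.coe_inv]
  have h := (V12Rel.gFacts A).inv _ _ (gRel_J3K M q hq hqM A K hA)
    (pow_ne_zero _ (V12Rel.jqModC_ne_zero _))
  rwa [← inv_pow] at h

variable {A K}
variable {K' : IntermediateField ℚ Qb}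

/-- An expansion which is the standard one on level `M q` is the standard one on level `M`. -/
theorem hal3_of_alphaK2 {E : FK (M * q * q) K →+* LaurentSeries Qb}
    (hEq : ∀ y : FK (M * q) K, E (WQ2.alphaK2 M q K y) = ((y : FK (M * q) K) : LaurentSeries Qb))
    (y : FK M K) : E (Level3B.al2 M q K y) = ((y : FK M K) : LaurentSeries Qb) := by
  rw [Level3B.al2, RingHom.comp_apply, hEq, WK.coe_alphaK]

/-- **`red_3 J3 = j̄^(q+2)`**: along an expansion `E` which is the standard one on level `M q`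
and for which `j_{q²} ≡ j`. -/
theorem gRel_E_J3K [Fact q.Prime] (hA : A.LiesOverPrime q)
    {E : FK (M * q * q) K →+* LaurentSeries Qb}
    (hEq : ∀ y : FK (M * q) K, E (WQ2.alphaK2 M q K y) = ((y : FK (M * q) K) : LaurentSeries Qb))
    (hEs : GRel A (E (WQ2.jqqK2 M q hq hqM K - jK (M * q * q) K)) 0) :
    GRel A (E (J3K M q hq hqM K)) (jqModC (IsLocalRing.ResidueField A) ^ (q + 2)) := by
  have hG := GRel.gRelStatement A
  have hj : GRel A (E (jK (M * q * q) K)) (jqModC (IsLocalRing.ResidueField A)) := by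
    rw [← WQ2.alphaK2_jK M q K, hEq, ModelQFrac.coe_jK (M * q) K]
    exact V12Rel.gRel_j A
  have hjq : GRel A (E (WQ2.jqK2 M q hq hqM K))
      (jqModC (IsLocalRing.ResidueField A) ^ q) := by
    have h : E (WQ2.jqK2 M q hq hqM K) = qExpand Qb q (jqModC Qb) := by
      rw [WQ2.jqK2, hEq, WK.coe_jqK, S28.jd_eq]
    rw [h, ← V12J.qExpand_jqModC_eq_pow A q hA]
    exact V12Rel.gRel_jd A q
  have hjqq : GRel A (E (WQ2.jqqK2 M q hq hqM K)) (jqModC (IsLocalRing.ResidueField A)) := by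
    have h := hG.add _ _ _ _ hEs hj
    rwa [← map_add, sub_add_cancel, zero_add] at h
  have h := hG.mul _ _ _ _ (hG.mul _ _ _ _ hj hjq) hjqq
  have e : jqModC (IsLocalRing.ResidueField A) * jqModC (IsLocalRing.ResidueField A) ^ q *
      jqModC (IsLocalRing.ResidueField A) = jqModC (IsLocalRing.ResidueField A) ^ (q + 2) := by
    ring
  rwa [← map_mul, ← map_mul, ← J3K_eq, e] at h

/-- **`red_3 J3⁻¹ = (j̄⁻¹)^(q+2)`**. -/
theorem gRel_E_J3K_inv [Fact q.Prime] (hA : A.LiesOverPrime q)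
    {E : FK (M * q * q) K →+* LaurentSeries Qb}
    (hEq : ∀ y : FK (M * q) K, E (WQ2.alphaK2 M q K y) = ((y : FK (M * q) K) : LaurentSeries Qb))
    (hEs : GRel A (E (WQ2.jqqK2 M q hq hqM K - jK (M * q * q) K)) 0) :
    GRel A (E (J3K M q hq hqM K)⁻¹) ((jqModC (IsLocalRing.ResidueField A))⁻¹ ^ (q + 2)) := by
  have h := (GRel.gRelStatement A).inv _ _ (gRel_E_J3K M q hq hqM hA hEq hEs)
    (pow_ne_zero _ (V12Rel.jqModC_ne_zero _))
  rwa [← inv_pow, ← map_inv₀] at h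

/-! ### Closed forms -/

/-- **The `branch` field of `Model3Plan.ChartModel3` for `chart J3`** at level `M q²`:
`V = ![V1, w_{q²}⁻¹ V1, GaussE.V]`, `ϖ = ![π, π, s]`.  Inputs: residue degree one along `W1`
(`hf1`) and along `W3` (`hf3`), and the expansion data of `W3` (`hE`, `hs`, `hEq`, `hEs`). -/
theorem branch3_J3 [Fact q.Prime] (hA : A.LiesOverPrime q) (hB : BaseFacts q A K)
    (π : OK A K) (hπ : Irreducible π)
    {E : FK (M * q * q) K →+* LaurentSeries Qb} (hE : GaussE.Emb A K K' E)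
    (hdvr' : IsDiscreteValuationRing (OK A K')) {ϖ' : OK A K'} (hϖ' : Irreducible ϖ')
    {s : FK (M * q * q) K} (hs : GaussE.Unif A K' ϖ' E s)
    (hEq : ∀ y : FK (M * q) K, E (WQ2.alphaK2 M q K y) = ((y : FK (M * q) K) : LaurentSeries Qb))
    (hEs : GRel A (E (WQ2.jqqK2 M q hq hqM K - jK (M * q * q) K)) 0)
    (hf1 : ∀ (x : FK (M * q * q) K) (y : LaurentSeries (IsLocalRing.ResidueField A)),
      GRel A ((x : FK (M * q * q) K) : LaurentSeries Qb) y →
      ∃ x' : FK M K, GRel A ((x' : FK M K) : LaurentSeries Qb) y)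
    (hf3 : ∀ (x : FK (M * q * q) K) (y : LaurentSeries (IsLocalRing.ResidueField A)),
      GRel A (E x) y → ∃ x' : FK M K, GRel A ((x' : FK M K) : LaurentSeries Qb) y)
    (P : Fin 3 → Ideal (chart (M * q * q) A K (J3K M q hq hqM K)))
    (hyp : Model3Plan.ChartHyp3 π
      ![algebraMap (OK A K) (FK (M * q * q) K) π, algebraMap (OK A K) (FK (M * q * q) K) π, s]
      ![GaussV.V1 (M * q * q) A K hB.dvr, GaussV.V2 (WQ2.wK2 M q hq hqM K) hB.dvr,
        GaussE.V hE hdvr'] P) :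
    ∀ n : Ideal (chart (M * q * q) A K (J3K M q hq hqM K)), n.IsMaximal →
      algebraMap (OK A K) (chart (M * q * q) A K (J3K M q hq hqM K)) π ∈ n →
      ∀ i : Fin 3, P i ≤ n →
      (∃ x ∈ n, x ∉ P i) ∧
        ∃ u ∈ n, ∀ x ∈ n, ∃ s' : chart (M * q * q) A K (J3K M q hq hqM K), s' ∉ n ∧
          ∃ c : chart (M * q * q) A K (J3K M q hq hqM K), s' * x - c * u ∈ P i := by
  have hjmem : jqModC (IsLocalRing.ResidueField A) ∈ Branch.redRing M A K (R0 M q A K) :=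
    Level3B.jqModC_mem_redRing M (R0 M q A K) (Model.self_mem_chart M A K _)
  refine Level3B.branch3_gen M (M * q * q) hB.dvr
    (ResOK.isAlgClosed_residueField_OK q A K hB) π hπ
    (J3K M q hq hqM K) (WQ2.wK2 M q hq hqM K) (WQ2.wK2_algebraMap_OK M q hq hqM K A)
    (fun x hx => wK2_mem_chart_J3K M q hq hqM A K hx)
    (fun x hx => wK2_mem_chart_J3K M q hq hqM A K hx)
    (wK2_J3K M q hq hqM K) hE hdvr' hϖ' hs P hyp (R0 M q A K)
    (IgusaStmt.igusaStatement M q hqM A hA K hB (ModelAll.modelStatement M q hqM A hA K hB)).1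
    (fun _ hy hint => Branch.mem_redRing_R0 M q hqM hA hB hy hint)
    (Level3B.al2 M q K) (Level3B.al2_algebraMap M q A K) (Level3B.coe_al2 M q K)
    (hal3_of_alphaK2 M q hEq)
    (fun y hy => al2_mem_chart_J3K M q hq hqM A K hy) hf1 hf3
    (jqModC (IsLocalRing.ResidueField A) ^ (q * q + q + 1)) (gRel_J3K M q hq hqM A K hA)
    (Level3B.isIntegral_pow_of_mem M _ hjmem _)
    (fun c => V12J.jqModC_pow_ne_C _ (Nat.succ_ne_zero _) _)
    (jqModC (IsLocalRing.ResidueField A) ^ (q + 2)) (gRel_E_J3K M q hq hqM hA hEq hEs)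
    (Level3B.isIntegral_pow_of_mem M _ hjmem _)
    (fun c => V12J.jqModC_pow_ne_C _ (Nat.succ_ne_zero _) _)

/-- **The `branch` field of `Model3Plan.ChartModel3` for `chart J3⁻¹`** at level `M q²`. -/
theorem branch3_J3_inv [Fact q.Prime] (hA : A.LiesOverPrime q) (hB : BaseFacts q A K)
    (π : OK A K) (hπ : Irreducible π)
    {E : FK (M * q * q) K →+* LaurentSeries Qb} (hE : GaussE.Emb A K K' E)
    (hdvr' : IsDiscreteValuationRing (OK A K')) {ϖ' : OK A K'} (hϖ' : Irreducible ϖ')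
    {s : FK (M * q * q) K} (hs : GaussE.Unif A K' ϖ' E s)
    (hEq : ∀ y : FK (M * q) K, E (WQ2.alphaK2 M q K y) = ((y : FK (M * q) K) : LaurentSeries Qb))
    (hEs : GRel A (E (WQ2.jqqK2 M q hq hqM K - jK (M * q * q) K)) 0)
    (hf1 : ∀ (x : FK (M * q * q) K) (y : LaurentSeries (IsLocalRing.ResidueField A)),
      GRel A ((x : FK (M * q * q) K) : LaurentSeries Qb) y →
      ∃ x' : FK M K, GRel A ((x' : FK M K) : LaurentSeries Qb) y)
    (hf3 : ∀ (x : FK (M * q * q) K) (y : LaurentSeries (IsLocalRing.ResidueField A)),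
      GRel A (E x) y → ∃ x' : FK M K, GRel A ((x' : FK M K) : LaurentSeries Qb) y)
    (P : Fin 3 → Ideal (chart (M * q * q) A K (J3K M q hq hqM K)⁻¹))
    (hyp : Model3Plan.ChartHyp3 π
      ![algebraMap (OK A K) (FK (M * q * q) K) π, algebraMap (OK A K) (FK (M * q * q) K) π, s]
      ![GaussV.V1 (M * q * q) A K hB.dvr, GaussV.V2 (WQ2.wK2 M q hq hqM K) hB.dvr,
        GaussE.V hE hdvr'] P) :
    ∀ n : Ideal (chart (M * q * q) A K (J3K M q hq hqM K)⁻¹), n.IsMaximal →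
      algebraMap (OK A K) (chart (M * q * q) A K (J3K M q hq hqM K)⁻¹) π ∈ n →
      ∀ i : Fin 3, P i ≤ n →
      (∃ x ∈ n, x ∉ P i) ∧
        ∃ u ∈ n, ∀ x ∈ n, ∃ s' : chart (M * q * q) A K (J3K M q hq hqM K)⁻¹, s' ∉ n ∧
          ∃ c : chart (M * q * q) A K (J3K M q hq hqM K)⁻¹, s' * x - c * u ∈ P i := by
  have hjmem : (jqModC (IsLocalRing.ResidueField A))⁻¹ ∈
      Branch.redRing M A K (Rinf M q A K) :=
    Level3B.jqModC_inv_mem_redRing M (Rinf M q A K) (Model.self_mem_chart M A K _)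
  refine Level3B.branch3_gen M (M * q * q) hB.dvr
    (ResOK.isAlgClosed_residueField_OK q A K hB) π hπ
    (J3K M q hq hqM K)⁻¹ (WQ2.wK2 M q hq hqM K) (WQ2.wK2_algebraMap_OK M q hq hqM K A)
    (fun x hx => wK2_mem_chart_J3K_inv M q hq hqM A K hx)
    (fun x hx => wK2_mem_chart_J3K_inv M q hq hqM A K hx)
    (wK2_J3K_inv M q hq hqM K) hE hdvr' hϖ' hs P hyp (Rinf M q A K)
    (IgusaStmt.igusaStatement M q hqM A hA K hB (ModelAll.modelStatement M q hqM A hA K hB)).2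
    (fun _ hy hint => Branch.mem_redRing_Rinf M q hqM hA hB hy hint)
    (Level3B.al2 M q K) (Level3B.al2_algebraMap M q A K) (Level3B.coe_al2 M q K)
    (hal3_of_alphaK2 M q hEq)
    (fun y hy => al2_mem_chart_J3K_inv M q hq hqM A K hy) hf1 hf3
    ((jqModC (IsLocalRing.ResidueField A))⁻¹ ^ (q * q + q + 1))
    (gRel_J3K_inv M q hq hqM A K hA)
    (Level3B.isIntegral_pow_of_mem M _ hjmem _)
    (fun c => V12J.jqModC_inv_pow_ne_C _ (Nat.succ_ne_zero _) _)
    ((jqModC (IsLocalRing.ResidueField A))⁻¹ ^ (q + 2))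
    (gRel_E_J3K_inv M q hq hqM hA hEq hEs)
    (Level3B.isIntegral_pow_of_mem M _ hjmem _)
    (fun c => V12J.jqModC_inv_pow_ne_C _ (Nat.succ_ne_zero _) _)

end Fermat.Agent.S36.Level3J3B
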