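/-
S36 — LocV3.lean (helper9; package [MODEL3]): the field `loc` of `Model3Plan.ChartHyp3`
(`V i = R_{P i}`: every element of the component valuation ring `V i` is a fraction of elements
of the chart `R` with denominator outside the vertical prime `P i`), abstractly (Mathlib only).

* `inv_mem_of_not_unif`, `not_unif_of_inv_mem` : in a discrete valuation ring `V` with uniformizer
  `ϖ`, an element of `V` is a unit iff it does not lie in `ϖ V`;
* `loc_of_inter` : `loc` from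
    (B)   `loc` on the intersection `V 0 ∩ V 1 ∩ V 2` (statement (T1) of the valuation core:
          `s z ∈ R` for some `s` outside all the `P i`), and
    (sep) separating elements `r ∈ P j`, `r ∉ P i` of `R` (`i ≠ j`);
* `loc_of_glue` : transfer of `loc` from a chart `R` to a chart `R'` with `R ⊆ R'[τ⁻¹]`, `τ` a
  unit of every `V i` (in the application `R = chart t`, `R' = chart t⁻¹`, `τ = t⁻¹`).
-/
import Mathlib

set_option autoImplicit false

namespace Fermat.Agent.S36.LocV3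

variable {E : Type*} [Field E]

/-! ### Units of a discrete valuation ring with uniformizer `ϖ` -/

/-- An element of `V` outside `ϖ V` is a unit of `V`. -/
theorem inv_mem_of_not_unif {V : ValuationSubring E} {ϖ : E} (hϖ : ϖ ∈ V)
    (hdisc : ∀ x : E, x ≠ 0 → ∃ k : ℤ, ∃ u ∈ V, u⁻¹ ∈ V ∧ x = ϖ ^ k * u)
    {y : E} (hn : ¬ ∃ v ∈ V, y = ϖ * v) : y⁻¹ ∈ V := by
  have hy0 : y ≠ 0 := fun h => hn ⟨0, V.zero_mem, by rw [h, mul_zero]⟩
  obtain ⟨k, u, hu, hu', hyk⟩ := hdisc y hy0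
  rcases le_or_gt 1 k with hk | hk
  · exfalso
    obtain ⟨n, rfl⟩ : ∃ n : ℕ, k = (n : ℤ) + 1 := ⟨(k - 1).toNat, by omega⟩
    apply hn
    refine ⟨ϖ ^ n * u, mul_mem (pow_mem hϖ n) hu, ?_⟩
    rw [hyk]
    have : ϖ ^ ((n : ℤ) + 1) = ϖ ^ (n + 1) := by
      rw [← zpow_natCast]
      push_cast
      rfl
    rw [this, pow_succ]
    ring
  · obtain ⟨n, rfl⟩ : ∃ n : ℕ, k = -(n : ℤ) := ⟨(-k).toNat, by omega⟩
    rw [hyk, zpow_neg, zpow_natCast, mul_inv, inv_inv]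
    exact mul_mem (pow_mem hϖ n) hu'

/-- A unit of `V` does not lie in `ϖ V`. -/
theorem not_unif_of_inv_mem {V : ValuationSubring E} {ϖ : E} (hnot : ϖ⁻¹ ∉ V)
    {y : E} (hy0 : y ≠ 0) (hyinv : y⁻¹ ∈ V) : ¬ ∃ v ∈ V, y = ϖ * v := by
  rintro ⟨v, hv, rfl⟩
  apply hnot
  have hv0 : v ≠ 0 := right_ne_zero_of_mul hy0
  have hϖ0 : ϖ ≠ 0 := left_ne_zero_of_mul hy0
  have h : ϖ⁻¹ = v * (ϖ * v)⁻¹ := by
    field_simp
  rw [h]
  exact mul_mem hv hyinv

section Loc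

variable {R : Type*} [CommRing R] [Algebra R E]

/-- The hypotheses on one chart: `R ⊆ V i`, `P i = R ∩ ϖ i (V i)`, `V i` discrete with
uniformizer `ϖ i`. -/
structure Hyp (ϖ : Fin 3 → E) (V : Fin 3 → ValuationSubring E) (P : Fin 3 → Ideal R) : Prop where
  le : ∀ (i : Fin 3) (r : R), algebraMap R E r ∈ V i
  mem_P : ∀ (i : Fin 3) (r : R), r ∈ P i ↔ ∃ y ∈ V i, algebraMap R E r = ϖ i * y
  unif_mem : ∀ i : Fin 3, ϖ i ∈ V i
  unif_not : ∀ i : Fin 3, (ϖ i)⁻¹ ∉ V i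
  disc : ∀ (i : Fin 3) (x : E), x ≠ 0 →
    ∃ k : ℤ, ∃ u ∈ V i, u⁻¹ ∈ V i ∧ x = ϖ i ^ k * u

variable {ϖ : Fin 3 → E} {V : Fin 3 → ValuationSubring E} {P : Fin 3 → Ideal R}

theorem Hyp.unif_ne_zero (H : Hyp ϖ V P) (i : Fin 3) : ϖ i ≠ 0 := by
  intro h
  apply H.unif_not i
  rw [h, inv_zero]
  exact (V i).zero_mem

/-- `r ∉ P i` iff the image of `r` is a unit of `V i`. -/
theorem Hyp.not_mem_iff (H : Hyp ϖ V P) (i : Fin 3) (r : R) :
    r ∉ P i ↔ algebraMap R E r ≠ 0 ∧ (algebraMap R E r)⁻¹ ∈ V i := by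
  rw [H.mem_P]
  constructor
  · intro h
    refine ⟨fun h0 => h ⟨0, (V i).zero_mem, by rw [h0, mul_zero]⟩, ?_⟩
    exact inv_mem_of_not_unif (H.unif_mem i) (H.disc i) h
  · rintro ⟨h0, hinv⟩
    exact not_unif_of_inv_mem (H.unif_not i) h0 hinv

theorem Hyp.one_not_mem (H : Hyp ϖ V P) (i : Fin 3) : (1 : R) ∉ P i := by
  rw [H.not_mem_iff, map_one]
  exact ⟨one_ne_zero, by rw [inv_one]; exact (V i).one_mem⟩

theorem Hyp.mul_not_mem (H : Hyp ϖ V P) (i : Fin 3) {a b : R} (ha : a ∉ P i) (hb : b ∉ P i) :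
    a * b ∉ P i := by
  rw [H.not_mem_iff] at ha hb ⊢
  rw [map_mul]
  exact ⟨mul_ne_zero ha.1 hb.1, by rw [mul_inv]; exact mul_mem ha.2 hb.2⟩

theorem Hyp.pow_not_mem (H : Hyp ϖ V P) (i : Fin 3) {a : R} (ha : a ∉ P i) (n : ℕ) :
    a ^ n ∉ P i := by
  induction n with
  | zero => rw [pow_zero]; exact H.one_not_mem i
  | succ n ih => rw [pow_succ]; exact H.mul_not_mem i ih ha

/-- Clearing the pole of `x` along `V j` by an element of `R` outside `P i` (`i ≠ j`). -/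
theorem Hyp.exists_clear (H : Hyp ϖ V P)
    (hsep : ∀ i j : Fin 3, i ≠ j → ∃ r : R, r ∈ P j ∧ r ∉ P i)
    (i j : Fin 3) (hij : i ≠ j) (x : E) :
    ∃ r : R, r ∉ P i ∧ algebraMap R E r * x ∈ V j := by
  by_cases hx : x = 0
  · exact ⟨1, H.one_not_mem i, by rw [hx, mul_zero]; exact (V j).zero_mem⟩
  obtain ⟨r0, hr0j, hr0i⟩ := hsep i j hij
  obtain ⟨k, u, hu, -, hxk⟩ := H.disc j x hx
  obtain ⟨y0, hy0, hr0⟩ := (H.mem_P j r0).mp hr0j
  refine ⟨r0 ^ (-k).toNat, H.pow_not_mem i hr0i _, ?_⟩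
  have hϖ0 := H.unif_ne_zero j
  obtain ⟨l, hl⟩ : ∃ l : ℕ, ((-k).toNat : ℤ) + k = l := ⟨((-k).toNat + k).toNat, by omega⟩
  have h1 : algebraMap R E (r0 ^ (-k).toNat) * x
      = ϖ j ^ l * (y0 ^ (-k).toNat * u) := by
    rw [map_pow, hr0, hxk, mul_pow, ← zpow_natCast (ϖ j) l, ← hl, zpow_add₀ hϖ0, zpow_natCast]
    ring
  rw [h1]
  exact mul_mem (pow_mem (H.unif_mem j) l) (mul_mem (pow_mem hy0 _) hu)

/-- **[loc]** from `loc` on the intersection of the three valuation rings and separating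
elements: every element of `V i` is a fraction `a / s` with `a, s ∈ R`, `s ∉ P i`. -/
theorem loc_of_inter (H : Hyp ϖ V P)
    (hB : ∀ z : E, (∀ i : Fin 3, z ∈ V i) → ∀ i : Fin 3,
      ∃ a s : R, s ∉ P i ∧ z * algebraMap R E s = algebraMap R E a)
    (hsep : ∀ i j : Fin 3, i ≠ j → ∃ r : R, r ∈ P j ∧ r ∉ P i) :
    ∀ (i : Fin 3), ∀ x ∈ V i,
      ∃ a s : R, s ∉ P i ∧ x * algebraMap R E s = algebraMap R E a := by
  classical
  intro i x hx
  -- for every `j` an element `r j ∉ P i` with `r j * x ∈ V j`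
  have hcl : ∀ j : Fin 3, ∃ r : R, r ∉ P i ∧ algebraMap R E r * x ∈ V j := by
    intro j
    by_cases hij : i = j
    · subst hij
      exact ⟨1, H.one_not_mem i, by rw [map_one, one_mul]; exact hx⟩
    · exact H.exists_clear hsep i j hij x
  choose r hri hrV using hcl
  set y0 : R := ∏ j : Fin 3, r j with hy0
  have hy0i : y0 ∉ P i := by
    rw [hy0]
    exact Finset.prod_induction (fun j => r j) (fun a => a ∉ P i)
      (fun a b ha hb => H.mul_not_mem i ha hb) (H.one_not_mem i) (fun j _ => hri j)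
  have hz : ∀ j : Fin 3, algebraMap R E y0 * x ∈ V j := by
    intro j
    have h1 : y0 = (∏ j' ∈ Finset.univ.erase j, r j') * r j := by
      rw [hy0, Finset.prod_erase_mul _ _ (Finset.mem_univ j)]
    rw [h1, map_mul, mul_assoc]
    exact mul_mem (H.le j _) (hrV j)
  obtain ⟨a, s, hs, has⟩ := hB _ hz i
  refine ⟨a, y0 * s, H.mul_not_mem i hy0i hs, ?_⟩
  rw [← has, map_mul]
  ring

end Loc

section Glue

variable {R R' : Type*} [CommRing R] [CommRing R'] [Algebra R E] [Algebra R' E]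

/-- **[loc], transfer along a gluing**: if `R ⊆ R'[τ⁻¹]` with `τ ∈ R'` a unit of every `V i`,
then `loc` for `R` implies `loc` for `R'` (vertical primes `P' i = R' ∩ ϖ i (V i)`). -/
theorem loc_of_glue (ϖ : Fin 3 → E) (V : Fin 3 → ValuationSubring E)
    (P : Fin 3 → Ideal R) (P' : Fin 3 → Ideal R')
    (hmem : ∀ (i : Fin 3) (r : R), r ∈ P i ↔ ∃ y ∈ V i, algebraMap R E r = ϖ i * y)
    (hmem' : ∀ (i : Fin 3) (r : R'), r ∈ P' i ↔ ∃ y ∈ V i, algebraMap R' E r = ϖ i * y)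
    (τ : R') (hτ0 : algebraMap R' E τ ≠ 0) (hτinv : ∀ i : Fin 3, (algebraMap R' E τ)⁻¹ ∈ V i)
    (hglue : ∀ r : R, ∃ n : ℕ, ∃ r' : R',
      algebraMap R' E r' = algebraMap R E r * algebraMap R' E τ ^ n)
    (hloc : ∀ (i : Fin 3), ∀ x ∈ V i,
      ∃ a s : R, s ∉ P i ∧ x * algebraMap R E s = algebraMap R E a) :
    ∀ (i : Fin 3), ∀ x ∈ V i,
      ∃ a s : R', s ∉ P' i ∧ x * algebraMap R' E s = algebraMap R' E a := by
  intro i x hx
  obtain ⟨a, s, hs, has⟩ := hloc i x hx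
  obtain ⟨na, a', ha'⟩ := hglue a
  obtain ⟨ns, s', hs'⟩ := hglue s
  -- common exponent `na + ns`
  refine ⟨a' * τ ^ ns, s' * τ ^ na, ?_, ?_⟩
  · intro hmemP
    obtain ⟨y, hy, hval⟩ := (hmem' i _).mp hmemP
    apply hs
    rw [hmem]
    refine ⟨y * ((algebraMap R' E τ)⁻¹) ^ (ns + na),
      mul_mem hy (pow_mem (hτinv i) _), ?_⟩
    rw [map_mul, map_pow, hs'] at hval
    have h1 : algebraMap R E s * algebraMap R' E τ ^ (ns + na) = ϖ i * y := by
      rw [pow_add, ← mul_assoc]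
      exact hval
    have hpow : algebraMap R' E τ ^ (ns + na) ≠ 0 := pow_ne_zero _ hτ0
    rw [inv_pow]
    field_simp
    rw [h1]
  · rw [map_mul, map_mul, map_pow, map_pow, hs', ha', ← has]
    ring

end Glue

end Fermat.Agent.S36.LocV3
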