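/-
S36 — Model3Asm.lean (helper9; package [MODEL3]): the ABSTRACT ASSEMBLY of
`Model3Plan.Model3 N A K π e ϖ V t` from the outputs of the leaves, in hypothesis form (no
concrete valuation rings, no concrete coordinate).

* `Pc R ϖ V hle i`     : the vertical ideal `R ∩ ϖ i (V i)` of a subalgebra `R ⊆ V i` of `F_K`;
* `chartHyp3`          : `Model3Plan.ChartHyp3 π ϖ V (Pc R ϖ V hle)` from `loc` and the
                         reducedness statement `z ∈ ⋂ V i, π z ∈ R ⟹ z ∈ R` (Red3 shape);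
* `loc_inv`            : `loc` for `chart t⁻¹` from `loc` for `chart t` (`LocV3.loc_of_glue`; no
                         modular input: `t` is a unit of every `V i` as soon as both charts lie in
                         every `V i`);
* `chartModel3`        : `Model3Plan.ChartModel3 N A K π ϖ V R` from the ring-theoretic facts,
                         `loc`, `desc`, and the two point fields given as functions of the
                         chart hypotheses (apply `Branch3.branch3`, `Princ3.princ_of_triple`);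
* `model3`             : `Model3Plan.Model3 N A K π e ϖ V t` from `ValHyp3`, the facts of the two
                         charts, `loc` on `chart t` only, and the point fields of both charts.
-/
import Mathlib
import Fermat.Agent.S34.ChartJ
import Fermat.Agent.S36.Model3Plan
import Fermat.Agent.S36.LocV3

set_option autoImplicit false

open ModularCurve AlgebraicCurve HahnSeries

namespace Fermat.Agent.S36.Model3Asm

open Fermat.Agent.S18.Arith Fermat.Agent.S34 Fermat.Agent.S36.Model3Plan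

noncomputable section

variable {N : ℕ} [NeZero N] {A : ValuationSubring Qb} {K : IntermediateField ℚ Qb}

/-- The vertical ideal `R ∩ ϖ i (V i)` of a subalgebra `R ⊆ V i` of `F_K`. -/
def Pc (R : Subalgebra (OK A K) (FK N K)) (ϖ : Fin 3 → FK N K)
    (V : Fin 3 → ValuationSubring (FK N K)) (hle : ∀ i : Fin 3, ∀ x ∈ R, x ∈ V i)
    (i : Fin 3) : Ideal R where
  carrier := {r | ∃ y ∈ V i, (r : FK N K) = ϖ i * y}
  add_mem' := by
    rintro a b ⟨y, hy, ha⟩ ⟨y', hy', hb⟩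
    refine ⟨y + y', add_mem hy hy', ?_⟩
    push_cast
    rw [ha, hb]
    ring
  zero_mem' := ⟨0, zero_mem _, by simp⟩
  smul_mem' := by
    rintro c r ⟨y, hy, hr⟩
    refine ⟨(c : FK N K) * y, mul_mem (hle i c c.2) hy, ?_⟩
    rw [smul_eq_mul]
    push_cast
    rw [hr]
    ring

theorem mem_Pc {R : Subalgebra (OK A K) (FK N K)} {ϖ : Fin 3 → FK N K}
    {V : Fin 3 → ValuationSubring (FK N K)} {hle : ∀ i : Fin 3, ∀ x ∈ R, x ∈ V i}
    {i : Fin 3} {r : R} :
    r ∈ Pc R ϖ V hle i ↔ ∃ y ∈ V i, algebraMap R (FK N K) r = ϖ i * y := Iff.rfl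

/-- **`ChartHyp3`** for a subalgebra `R ⊆ ⋂ V i` with the vertical ideals `Pc`, from `loc` and
the reducedness statement in the Red3 shape. -/
theorem chartHyp3 (R : Subalgebra (OK A K) (FK N K)) (π : OK A K) (ϖ : Fin 3 → FK N K)
    (V : Fin 3 → ValuationSubring (FK N K)) (hle : ∀ i : Fin 3, ∀ x ∈ R, x ∈ V i)
    (hp0 : algebraMap (OK A K) (FK N K) π ≠ 0)
    (hloc : ∀ (i : Fin 3), ∀ x ∈ V i, ∃ a s : R, s ∉ Pc R ϖ V hle i ∧
      x * algebraMap R (FK N K) s = algebraMap R (FK N K) a)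
    (hdesc : ∀ z : FK N K, (∀ i : Fin 3, z ∈ V i) →
      algebraMap (OK A K) (FK N K) π * z ∈ R → z ∈ R) :
    ChartHyp3 π ϖ V (Pc R ϖ V hle) where
  le := fun i r => hle i r r.2
  mem_P := fun _ _ => Iff.rfl
  loc := hloc
  desc := by
    intro r hr
    obtain ⟨z, hz0, hrz⟩ := hr 0
    have hcoe : algebraMap R (FK N K) (algebraMap (OK A K) R π) =
        algebraMap (OK A K) (FK N K) π := rfl
    have hzall : ∀ i : Fin 3, z ∈ V i := by
      intro i
      obtain ⟨y, hy, hry⟩ := hr i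
      have h1 : algebraMap (OK A K) (FK N K) π * z = algebraMap (OK A K) (FK N K) π * y := by
        rw [← hcoe, ← hrz, ← hry]
      rw [mul_left_cancel₀ hp0 h1]
      exact hy
    have hzR : z ∈ R := by
      apply hdesc z hzall
      rw [← hcoe, ← hrz]
      exact r.2
    refine ⟨⟨z, hzR⟩, ?_⟩
    apply Subtype.ext
    have h2 : ((r : R) : FK N K) = algebraMap (OK A K) (FK N K) π * z := by
      have := hrz
      rw [hcoe] at this
      exact this
    rw [h2]
    rfl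

/-- **`loc` at infinity**: `loc` for `chart t⁻¹` from `loc` for `chart t`, as soon as both
charts lie in every `V i`. -/
theorem loc_inv (t : FK N K) (ht : t ≠ 0) (ϖ : Fin 3 → FK N K)
    (V : Fin 3 → ValuationSubring (FK N K))
    (hle0 : ∀ i : Fin 3, ∀ x ∈ chart N A K t, x ∈ V i)
    (hleInf : ∀ i : Fin 3, ∀ x ∈ chart N A K t⁻¹, x ∈ V i)
    (hloc : ∀ (i : Fin 3), ∀ x ∈ V i, ∃ a s : chart N A K t,
      s ∉ Pc (chart N A K t) ϖ V hle0 i ∧
      x * algebraMap (chart N A K t) (FK N K) s = algebraMap (chart N A K t) (FK N K) a) :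
    ∀ (i : Fin 3), ∀ x ∈ V i, ∃ a s : chart N A K t⁻¹,
      s ∉ Pc (chart N A K t⁻¹) ϖ V hleInf i ∧
      x * algebraMap (chart N A K t⁻¹) (FK N K) s = algebraMap (chart N A K t⁻¹) (FK N K) a := by
  refine LocV3.loc_of_glue ϖ V (Pc (chart N A K t) ϖ V hle0) (Pc (chart N A K t⁻¹) ϖ V hleInf)
    (fun _ _ => Iff.rfl) (fun _ _ => Iff.rfl)
    (⟨t⁻¹, ChartJ.self_mem_chart N A K t⁻¹⟩ : chart N A K t⁻¹) (inv_ne_zero ht) (fun i => ?_)
    (fun r => ?_) hloc
  · show (t⁻¹)⁻¹ ∈ V i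
    rw [inv_inv]
    exact hle0 i t (ChartJ.self_mem_chart N A K t)
  · obtain ⟨n, hn⟩ := ChartJ.glue N A K ht r.2
    exact ⟨n, ⟨_, hn⟩, rfl⟩

/-- **`ChartModel3`** for a subalgebra `R ⊆ ⋂ V i`: packaging.  The point fields `branch`,
`princ` are given as functions of the chart hypotheses (apply `Branch3.branch3` and
`Princ3.princ_of_triple` there). -/
def chartModel3 (R : Subalgebra (OK A K) (FK N K)) (π : OK A K) (ϖ : Fin 3 → FK N K)
    (V : Fin 3 → ValuationSubring (FK N K)) (hle : ∀ i : Fin 3, ∀ x ∈ R, x ∈ V i)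
    (hp0 : algebraMap (OK A K) (FK N K) π ≠ 0)
    (hnoeth : IsNoetherianRing R) (hfrac : IsFractionRing R (FK N K))
    (hintcl : IsIntegrallyClosed R)
    (hloc : ∀ (i : Fin 3), ∀ x ∈ V i, ∃ a s : R, s ∉ Pc R ϖ V hle i ∧
      x * algebraMap R (FK N K) s = algebraMap R (FK N K) a)
    (hdesc : ∀ z : FK N K, (∀ i : Fin 3, z ∈ V i) →
      algebraMap (OK A K) (FK N K) π * z ∈ R → z ∈ R)
    (hbranch : ChartHyp3 π ϖ V (Pc R ϖ V hle) →
      ∀ n : Ideal R, n.IsMaximal → algebraMap (OK A K) R π ∈ n → ∀ i : Fin 3,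
        Pc R ϖ V hle i ≤ n →
        (∃ x ∈ n, x ∉ Pc R ϖ V hle i) ∧
          ∃ u ∈ n, ∀ x ∈ n, ∃ s : R, s ∉ n ∧ ∃ c : R, s * x - c * u ∈ Pc R ϖ V hle i)
    (hprinc : ChartHyp3 π ϖ V (Pc R ϖ V hle) →
      ∀ n : Ideal R, n.IsMaximal → algebraMap (OK A K) R π ∈ n →
        ∃ i : Fin 3, Pc R ϖ V hle i ≤ n ∧ ∃ g ∈ Pc R ϖ V hle i, ∀ y ∈ Pc R ϖ V hle i,
          ∃ s : R, s ∉ n ∧ ∃ c : R, s * y = c * g) :
    ChartModel3 N A K π ϖ V R where
  noeth := hnoeth
  frac := hfrac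
  intcl := hintcl
  P := Pc R ϖ V hle
  hyp := chartHyp3 R π ϖ V hle hp0 hloc hdesc
  branch := hbranch (chartHyp3 R π ϖ V hle hp0 hloc hdesc)
  princ := hprinc (chartHyp3 R π ϖ V hle hp0 hloc hdesc)

/-- **`Model3`** from the outputs of the leaves (hypothesis form). -/
def model3 (π : OK A K) (e : Fin 3 → ℕ) (ϖ : Fin 3 → FK N K)
    (V : Fin 3 → ValuationSubring (FK N K)) (t : FK N K)
    (irr : Irreducible π)
    (val : ValHyp3 (algebraMap (OK A K) (FK N K) π) e ϖ V)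
    (hp0 : algebraMap (OK A K) (FK N K) π ≠ 0)
    (ht : t ≠ 0)
    (hfin0 : ∃ s : Finset (FK N K), (chart N A K t : Set (FK N K)) ⊆
      Submodule.span (Algebra.adjoin (OK A K) {t}) (s : Set (FK N K)))
    -- the two charts lie in the three valuation rings
    (hle0 : ∀ i : Fin 3, ∀ x ∈ chart N A K t, x ∈ V i)
    (hleInf : ∀ i : Fin 3, ∀ x ∈ chart N A K t⁻¹, x ∈ V i)
    -- ring-theoretic facts of the two charts
    (hnoeth0 : IsNoetherianRing (chart N A K t))
    (hfrac0 : IsFractionRing (chart N A K t) (FK N K))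
    (hintcl0 : IsIntegrallyClosed (chart N A K t))
    (hnoethInf : IsNoetherianRing (chart N A K t⁻¹))
    (hfracInf : IsFractionRing (chart N A K t⁻¹) (FK N K))
    (hintclInf : IsIntegrallyClosed (chart N A K t⁻¹))
    -- `loc` on `chart t` only
    (hloc : ∀ (i : Fin 3), ∀ x ∈ V i, ∃ a s : chart N A K t,
      s ∉ Pc (chart N A K t) ϖ V hle0 i ∧
      x * algebraMap (chart N A K t) (FK N K) s = algebraMap (chart N A K t) (FK N K) a)
    -- reducedness of both charts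
    (hdesc0 : ∀ z : FK N K, (∀ i : Fin 3, z ∈ V i) →
      algebraMap (OK A K) (FK N K) π * z ∈ chart N A K t → z ∈ chart N A K t)
    (hdescInf : ∀ z : FK N K, (∀ i : Fin 3, z ∈ V i) →
      algebraMap (OK A K) (FK N K) π * z ∈ chart N A K t⁻¹ → z ∈ chart N A K t⁻¹)
    -- the point fields of both charts
    (hbranch0 : ChartHyp3 π ϖ V (Pc (chart N A K t) ϖ V hle0) →
      ∀ n : Ideal (chart N A K t), n.IsMaximal →
        algebraMap (OK A K) (chart N A K t) π ∈ n → ∀ i : Fin 3,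
        Pc (chart N A K t) ϖ V hle0 i ≤ n →
        (∃ x ∈ n, x ∉ Pc (chart N A K t) ϖ V hle0 i) ∧
          ∃ u ∈ n, ∀ x ∈ n, ∃ s : chart N A K t, s ∉ n ∧
            ∃ c : chart N A K t, s * x - c * u ∈ Pc (chart N A K t) ϖ V hle0 i)
    (hprinc0 : ChartHyp3 π ϖ V (Pc (chart N A K t) ϖ V hle0) →
      ∀ n : Ideal (chart N A K t), n.IsMaximal →
        algebraMap (OK A K) (chart N A K t) π ∈ n →
        ∃ i : Fin 3, Pc (chart N A K t) ϖ V hle0 i ≤ n ∧
          ∃ g ∈ Pc (chart N A K t) ϖ V hle0 i, ∀ y ∈ Pc (chart N A K t) ϖ V hle0 i,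
            ∃ s : chart N A K t, s ∉ n ∧ ∃ c : chart N A K t, s * y = c * g)
    (hbranchInf : ChartHyp3 π ϖ V (Pc (chart N A K t⁻¹) ϖ V hleInf) →
      ∀ n : Ideal (chart N A K t⁻¹), n.IsMaximal →
        algebraMap (OK A K) (chart N A K t⁻¹) π ∈ n → ∀ i : Fin 3,
        Pc (chart N A K t⁻¹) ϖ V hleInf i ≤ n →
        (∃ x ∈ n, x ∉ Pc (chart N A K t⁻¹) ϖ V hleInf i) ∧
          ∃ u ∈ n, ∀ x ∈ n, ∃ s : chart N A K t⁻¹, s ∉ n ∧
            ∃ c : chart N A K t⁻¹, s * x - c * u ∈ Pc (chart N A K t⁻¹) ϖ V hleInf i)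
    (hprincInf : ChartHyp3 π ϖ V (Pc (chart N A K t⁻¹) ϖ V hleInf) →
      ∀ n : Ideal (chart N A K t⁻¹), n.IsMaximal →
        algebraMap (OK A K) (chart N A K t⁻¹) π ∈ n →
        ∃ i : Fin 3, Pc (chart N A K t⁻¹) ϖ V hleInf i ≤ n ∧
          ∃ g ∈ Pc (chart N A K t⁻¹) ϖ V hleInf i,
            ∀ y ∈ Pc (chart N A K t⁻¹) ϖ V hleInf i,
            ∃ s : chart N A K t⁻¹, s ∉ n ∧ ∃ c : chart N A K t⁻¹, s * y = c * g) :
    Model3 N A K π e ϖ V t where
  irr := irr
  val := val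
  t_ne := ht
  fin0 := hfin0
  c0 := chartModel3 (chart N A K t) π ϖ V hle0 hp0 hnoeth0 hfrac0 hintcl0 hloc hdesc0
    hbranch0 hprinc0
  cInf := chartModel3 (chart N A K t⁻¹) π ϖ V hleInf hp0 hnoethInf hfracInf hintclInf
    (loc_inv t ht ϖ V hle0 hleInf hloc) hdescInf hbranchInf hprincInf

end

end Fermat.Agent.S36.Model3Asm
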