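/-
S36 — Wit3.lean (helper128), block [MODEL3], leaf [M3.4]: THE EXPLICIT WITNESSES at level
`N = M * q * q` (`q` prime), first two branches.

`j = j(Q)`, `jq = j(Q^q)`, `jqq = j(Q^(q*q))` in `F_K = FK N K`, and

* `x1 = jq − jqq^q`, `x2 = jq − j^q`, `x3 = (jqq − j^(q^2)) * (j − jqq^(q^2))`,
  `s = jqq − j`, `b i = jqq^i`.

Series level (Gauss relation `GRel A`, `A` a valuation ring of `ℚ̄` over `q`):
* `gRel_x1`, `redX1_ne_zero` : `x1` is a Gauss unit;   `gRel_x2` : `x2 ≡ 0`;   `gRel_x3` : `x3 ≡ 0`;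
* `gRel_s`, `redS_ne_zero`   : `s` is a Gauss unit;    `gRel_b`  : `b i ≡ j̄(Q^(q*q))^i`.

`F_K` level, `W1 = S34.GaussV.V1` and `W2 = V1.comap w` for ANY ring automorphism `w` of `F_K`
fixing the constants with `w j = jqq`, `w jqq = j`, `w jq = jq` (hypothesis form; in the
application `w` is the Atkin–Lehner involution `w_{q²}` of `S36/WQ2`):
* `x1_unit1`, `x2_pi1`, `x3_pi1`, `s_unit1`, `b_mem1`  (first branch);
* `x1_pi2`, `x2_unit2`, `x3_pi2`, `s_unit2`, `b_mem2`  (second branch),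
  where "`_pi`" means `x * π⁻¹ ∈ W` and "`_unit`" means `x ∈ W ∧ x⁻¹ ∈ W`.
-/
import Mathlib
import Fermat.Agent.S34.GaussV
import Fermat.Agent.S34.V12Rel
import Fermat.Agent.S34.WK
import Fermat.Agent.S18.ModelQFrac
import Fermat.Agent.S36.WQ2

set_option autoImplicit false

noncomputable section

namespace Fermat.Agent.S36.Wit3

open ModularCurve HahnSeries Fermat.Agent.S18 Fermat.Agent.S18.Arith Fermat.Agent.S18.ModelPlan
open Fermat.Agent.S34

/-! ### Series level -/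

section Series

variable (A : ValuationSubring Qb) (q : ℕ) [Fact q.Prime]

local notation "k" => IsLocalRing.ResidueField A

instance neZero_q : NeZero q := ⟨(Fact.out : q.Prime).ne_zero⟩

instance neZero_qq : NeZero (q * q) := ⟨mul_ne_zero (NeZero.ne q) (NeZero.ne q)⟩

/-- `j(Q^(q*q))` as the `q`-expansion of `j(Q^q)`. -/
theorem qExpand_qq (F : Type*) [Field F] (x : LaurentSeries F) :
    qExpand F (q * q) x = qExpand F q (qExpand F q x) :=
  (qExpand_qExpand q q x).symm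

/-- the reduction of `x1 = jq − jqq^q`. -/
def redX1 : LaurentSeries k := qExpand k q (V12Rel.wit A q)

/-- **(W1, x1)** `jq − jqq^q` is Gauss-integral with reduction `redX1`. -/
theorem gRel_x1 :
    GRel A (qExpand Qb q (jqModC Qb) - qExpand Qb (q * q) (jqModC Qb) ^ q) (redX1 A q) := by
  have h := V12Rel.gRel_qExpand A q (V12Rel.gRel_wit A q)
  rwa [map_sub, map_pow, ← qExpand_qq] at h

theorem redX1_ne_zero (hA : A.LiesOverPrime q) : redX1 A q ≠ 0 := fun h =>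
  V12Rel.wit_ne_zero A q hA (qExpand_injective q (by rw [map_zero]; exact h))

/-- **(W1, x2)** Kronecker: `jq − j^q ≡ 0`. -/
theorem gRel_x2 (hA : A.LiesOverPrime q) :
    GRel A (qExpand Qb q (jqModC Qb) - jqModC Qb ^ q) 0 :=
  V12Rel.kronecker A q hA

/-- `jqq − j^(q^2) ≡ 0`. -/
theorem gRel_frob2 (hA : A.LiesOverPrime q) :
    GRel A (qExpand Qb (q * q) (jqModC Qb) - jqModC Qb ^ (q ^ 2)) 0 := by
  have := BaseRes.charP_residueField q A hA
  have hG := V12Rel.gFacts A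
  -- `T1 = jqq − jq^q`
  have h1 : GRel A (qExpand Qb q (qExpand Qb q (jqModC Qb)) - qExpand Qb q (jqModC Qb) ^ q) 0 := by
    have h := V12Rel.gRel_qExpand A q (V12Rel.kronecker A q hA)
    rwa [map_sub, map_pow, map_zero] at h
  -- `T2 = jq^q − (j^q)^q`
  have h2 : GRel A (qExpand Qb q (jqModC Qb) ^ q - (jqModC Qb ^ q) ^ q) 0 := by
    have h := V12Rel.gRel_sub A (V12Rel.gRel_pow A (V12Rel.gRel_jd A q) q)
      (V12Rel.gRel_pow A (V12Rel.gRel_pow A (V12Rel.gRel_j A) q) q)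
    have e : qExpand k q (jqModC k) ^ q - (jqModC k ^ q) ^ q = 0 := by
      rw [S37.KC.pow_char_eq_qExpand_frobenius q (jqModC k), coeffMap_jqModC, sub_self]
    rwa [e] at h
  have h3 := hG.add _ _ _ _ h1 h2
  rw [add_zero] at h3
  have e : qExpand Qb (q * q) (jqModC Qb) - jqModC Qb ^ (q ^ 2)
      = qExpand Qb q (qExpand Qb q (jqModC Qb)) - qExpand Qb q (jqModC Qb) ^ q
        + (qExpand Qb q (jqModC Qb) ^ q - (jqModC Qb ^ q) ^ q) := by
    rw [qExpand_qq, ← pow_mul, pow_two]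
    ring
  rw [e]
  exact h3

/-- **(W1, x3)** `(jqq − j^(q^2)) * (j − jqq^(q^2)) ≡ 0`. -/
theorem gRel_x3 (hA : A.LiesOverPrime q) :
    GRel A ((qExpand Qb (q * q) (jqModC Qb) - jqModC Qb ^ (q ^ 2)) *
      (jqModC Qb - qExpand Qb (q * q) (jqModC Qb) ^ (q ^ 2))) 0 := by
  have hG := V12Rel.gFacts A
  have h := hG.mul _ _ _ _ (gRel_frob2 A q hA)
    (V12Rel.gRel_sub A (V12Rel.gRel_j A) (V12Rel.gRel_pow A (V12Rel.gRel_jd A (q * q)) (q ^ 2)))
  rwa [zero_mul] at h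

/-- the reduction of `s = jqq − j`. -/
def redS : LaurentSeries k := qExpand k (q * q) (jqModC k) - jqModC k

/-- **(W1, s)** `jqq − j` is Gauss-integral with reduction `redS`. -/
theorem gRel_s : GRel A (qExpand Qb (q * q) (jqModC Qb) - jqModC Qb) (redS A q) :=
  V12Rel.gRel_sub A (V12Rel.gRel_jd A (q * q)) (V12Rel.gRel_j A)

theorem redS_ne_zero : redS A q ≠ 0 := by
  intro h
  have hc : (redS A q).coeff (-1) = 0 := by rw [h, HahnSeries.coeff_zero]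
  have hnd : ¬ (((q * q : ℕ) : ℤ)) ∣ (-1 : ℤ) := by
    intro hd
    have h1 : ((q * q : ℕ) : ℤ) ∣ 1 := (dvd_neg).mp hd
    have h2 : (q * q : ℕ) ∣ 1 := by exact_mod_cast h1
    have h3 : q * q = 1 := Nat.dvd_one.mp h2
    have hq : 2 ≤ q := (Fact.out : q.Prime).two_le
    nlinarith
  rw [redS, HahnSeries.coeff_sub, qExpand_coeff_of_not_dvd _ _ hnd, coeff_jqModC_neg_one] at hc
  simp at hc

/-- **(W1, b)** `jqq^i` is Gauss-integral. -/
theorem gRel_b (i : ℕ) :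
    GRel A (qExpand Qb (q * q) (jqModC Qb) ^ i) (qExpand k (q * q) (jqModC k) ^ i) :=
  V12Rel.gRel_pow A (V12Rel.gRel_jd A (q * q)) i

end Series

/-! ### The witnesses in `F_K`, level `M * q * q` -/

section Level

variable (M q : ℕ) [NeZero M] [NeZero q] (hq : q.Prime) (hqM : ¬ q ∣ M)
variable (A : ValuationSubring Qb) (K : IntermediateField ℚ Qb)

/-- `x1 = jq − jqq^q`. -/
def x1 : FK (M * q * q) K := WQ2.jqK2 M q hq hqM K - WQ2.jqqK2 M q hq hqM K ^ q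

/-- `x2 = jq − j^q`. -/
def x2 : FK (M * q * q) K := WQ2.jqK2 M q hq hqM K - jK (M * q * q) K ^ q

/-- `x3 = (jqq − j^(q^2)) * (j − jqq^(q^2))`. -/
def x3 : FK (M * q * q) K :=
  (WQ2.jqqK2 M q hq hqM K - jK (M * q * q) K ^ (q ^ 2)) *
    (jK (M * q * q) K - WQ2.jqqK2 M q hq hqM K ^ (q ^ 2))

/-- `s = jqq − j`. -/
def sE : FK (M * q * q) K := WQ2.jqqK2 M q hq hqM K - jK (M * q * q) K

/-- `b i = jqq ^ i`. -/
def bE (i : ℕ) : FK (M * q * q) K := WQ2.jqqK2 M q hq hqM K ^ i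

/-! #### `q`-expansions -/

theorem coe_jq :
    ((WQ2.jqK2 M q hq hqM K : FK (M * q * q) K) : LaurentSeries Qb)
      = qExpand Qb q (jqModC Qb) := by
  rw [WQ2.coe_jqK2, S28.jd_eq]

theorem coe_jqq :
    ((WQ2.jqqK2 M q hq hqM K : FK (M * q * q) K) : LaurentSeries Qb)
      = qExpand Qb (q * q) (jqModC Qb) := by
  rw [WQ2.coe_jqqK2, S28.jd_eq]

theorem coe_x1 : ((x1 M q hq hqM K : FK (M * q * q) K) : LaurentSeries Qb)
    = qExpand Qb q (jqModC Qb) - qExpand Qb (q * q) (jqModC Qb) ^ q := by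
  rw [x1, Subfield.coe_sub, SubmonoidClass.coe_pow, coe_jq, coe_jqq]

theorem coe_x2 : ((x2 M q hq hqM K : FK (M * q * q) K) : LaurentSeries Qb)
    = qExpand Qb q (jqModC Qb) - jqModC Qb ^ q := by
  rw [x2, Subfield.coe_sub, SubmonoidClass.coe_pow, coe_jq, ModelQFrac.coe_jK]

theorem coe_x3 : ((x3 M q hq hqM K : FK (M * q * q) K) : LaurentSeries Qb)
    = (qExpand Qb (q * q) (jqModC Qb) - jqModC Qb ^ (q ^ 2)) *
      (jqModC Qb - qExpand Qb (q * q) (jqModC Qb) ^ (q ^ 2)) := by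
  rw [x3, Subfield.coe_mul, Subfield.coe_sub, Subfield.coe_sub, SubmonoidClass.coe_pow,
    SubmonoidClass.coe_pow, coe_jqq, ModelQFrac.coe_jK]

theorem coe_sE : ((sE M q hq hqM K : FK (M * q * q) K) : LaurentSeries Qb)
    = qExpand Qb (q * q) (jqModC Qb) - jqModC Qb := by
  rw [sE, Subfield.coe_sub, coe_jqq, ModelQFrac.coe_jK]

theorem coe_bE (i : ℕ) : ((bE M q hq hqM K i : FK (M * q * q) K) : LaurentSeries Qb)
    = qExpand Qb (q * q) (jqModC Qb) ^ i := by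
  rw [bE, SubmonoidClass.coe_pow, coe_jqq]

/-! #### The action of `w_{q²}` -/

theorem wK2_x1 : WQ2.wK2 M q hq hqM K (x1 M q hq hqM K) = x2 M q hq hqM K := by
  rw [x1, x2, map_sub, map_pow, WQ2.wK2_jqK2, WQ2.wK2_jqqK2]

theorem wK2_x2 : WQ2.wK2 M q hq hqM K (x2 M q hq hqM K) = x1 M q hq hqM K := by
  rw [← wK2_x1, WQ2.wK2_wK2]

theorem wK2_x3 : WQ2.wK2 M q hq hqM K (x3 M q hq hqM K) = x3 M q hq hqM K := by
  rw [x3, map_mul, map_sub, map_sub, map_pow, map_pow, WQ2.wK2_jqqK2, WQ2.wK2_jK]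
  exact mul_comm _ _

theorem wK2_sE : WQ2.wK2 M q hq hqM K (sE M q hq hqM K) = - sE M q hq hqM K := by
  rw [sE, map_sub, WQ2.wK2_jqqK2, WQ2.wK2_jK, neg_sub]

theorem wK2_bE (i : ℕ) :
    WQ2.wK2 M q hq hqM K (bE M q hq hqM K i) = jK (M * q * q) K ^ i := by
  rw [bE, map_pow, WQ2.wK2_jqqK2]

/-! #### Generic: Gauss relation versus membership -/

section Generic

variable {N : ℕ} [NeZero N] {A K}

/-- A Gauss-integral element with nonzero reduction is a unit of `V1`. -/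
theorem unit1_of_gRel (hdvr : IsDiscreteValuationRing (OK A K)) {x : FK N K}
    {y : LaurentSeries (IsLocalRing.ResidueField A)}
    (h : GRel A ((x : FK N K) : LaurentSeries Qb) y) (hy : y ≠ 0) :
    x ∈ GaussV.V1 N A K hdvr ∧ x⁻¹ ∈ GaussV.V1 N A K hdvr := by
  refine ⟨(GaussV.mem_V1_iff hdvr).mpr ⟨y, h⟩, (GaussV.mem_V1_iff hdvr).mpr ⟨y⁻¹, ?_⟩⟩
  rw [Subfield.coe_inv]
  exact (V12Rel.gFacts A).inv _ _ h hy

/-- An element with Gauss reduction `0` lies in `π V1`. -/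
theorem pi1_of_gRel_zero (hdvr : IsDiscreteValuationRing (OK A K)) {π : OK A K}
    (hπ : Irreducible π) {x : FK N K} (h : GRel A ((x : FK N K) : LaurentSeries Qb) 0) :
    ∃ z ∈ GaussV.V1 N A K hdvr, x = algebraMap (OK A K) (FK N K) π * z := by
  have hx : x ∈ GaussV.V1 N A K hdvr := (GaussV.mem_V1_iff hdvr).mpr ⟨0, h⟩
  exact (GaussV.red1_eq_zero_iff hdvr hπ ⟨x, hx⟩).mp (GaussV.red1_eq_of_gRel hdvr ⟨x, hx⟩ h)

/-- Transport of `π V1` to `π V2` along an involution fixing the constants. -/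
theorem pi2_of_pi1 (w : FK N K ≃+* FK N K)
    (hw : ∀ c : OK A K, w (algebraMap (OK A K) (FK N K) c) = algebraMap (OK A K) (FK N K) c)
    (hdvr : IsDiscreteValuationRing (OK A K)) {π : OK A K} {x : FK N K}
    (h : ∃ z ∈ GaussV.V1 N A K hdvr, w x = algebraMap (OK A K) (FK N K) π * z) :
    ∃ z ∈ GaussV.V2 w hdvr, x = algebraMap (OK A K) (FK N K) π * z := by
  obtain ⟨z, hz, hxz⟩ := h
  refine ⟨w.symm z, ?_, ?_⟩
  · rw [GaussV.mem_V2_iff, RingEquiv.apply_symm_apply]; exact hz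
  · apply w.injective
    rw [map_mul, hw, RingEquiv.apply_symm_apply]
    exact hxz

/-- Transport of units of `V1` to units of `V2`. -/
theorem unit2_of_unit1 (w : FK N K ≃+* FK N K) (hdvr : IsDiscreteValuationRing (OK A K))
    {x : FK N K} (h : w x ∈ GaussV.V1 N A K hdvr ∧ (w x)⁻¹ ∈ GaussV.V1 N A K hdvr) :
    x ∈ GaussV.V2 w hdvr ∧ x⁻¹ ∈ GaussV.V2 w hdvr := by
  refine ⟨h.1, ?_⟩
  rw [GaussV.mem_V2_iff, map_inv₀]
  exact h.2

end Generic

/-! #### First branch `W1 = V1` -/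

variable (hdvr : IsDiscreteValuationRing (OK A K))

/-- **(W1)** `x1` is a unit of `V1`. -/
theorem x1_unit1 (hA : A.LiesOverPrime q) :
    x1 M q hq hqM K ∈ GaussV.V1 (M * q * q) A K hdvr ∧
      (x1 M q hq hqM K)⁻¹ ∈ GaussV.V1 (M * q * q) A K hdvr := by
  have : Fact q.Prime := ⟨hq⟩
  exact unit1_of_gRel hdvr (by rw [coe_x1]; exact gRel_x1 A q) (redX1_ne_zero A q hA)

/-- **(W1)** `x2 ∈ π V1`. -/
theorem x2_pi1 (hA : A.LiesOverPrime q) {π : OK A K} (hπ : Irreducible π) :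
    ∃ z ∈ GaussV.V1 (M * q * q) A K hdvr,
      x2 M q hq hqM K = algebraMap (OK A K) (FK (M * q * q) K) π * z := by
  have : Fact q.Prime := ⟨hq⟩
  exact pi1_of_gRel_zero hdvr hπ (by rw [coe_x2]; exact gRel_x2 A q hA)

/-- **(W1)** `x3 ∈ π V1`. -/
theorem x3_pi1 (hA : A.LiesOverPrime q) {π : OK A K} (hπ : Irreducible π) :
    ∃ z ∈ GaussV.V1 (M * q * q) A K hdvr,
      x3 M q hq hqM K = algebraMap (OK A K) (FK (M * q * q) K) π * z := by
  have : Fact q.Prime := ⟨hq⟩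
  exact pi1_of_gRel_zero hdvr hπ (by rw [coe_x3]; exact gRel_x3 A q hA)

/-- **(W1)** `s` is a unit of `V1`. -/
theorem s_unit1 :
    sE M q hq hqM K ∈ GaussV.V1 (M * q * q) A K hdvr ∧
      (sE M q hq hqM K)⁻¹ ∈ GaussV.V1 (M * q * q) A K hdvr := by
  have : Fact q.Prime := ⟨hq⟩
  exact unit1_of_gRel hdvr (by rw [coe_sE]; exact gRel_s A q) (redS_ne_zero A q)

/-- **(W1)** `b i ∈ V1`. -/
theorem b_mem1 (i : ℕ) : bE M q hq hqM K i ∈ GaussV.V1 (M * q * q) A K hdvr := by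
  have : Fact q.Prime := ⟨hq⟩
  exact (GaussV.mem_V1_iff hdvr).mpr ⟨_, by rw [coe_bE]; exact gRel_b A q i⟩

/-! #### Second branch `W2 = V1.comap w_{q²}` -/

/-- **(W2)** `x1 ∈ π V2`. -/
theorem x1_pi2 (hA : A.LiesOverPrime q) {π : OK A K} (hπ : Irreducible π) :
    ∃ z ∈ GaussV.V2 (WQ2.wK2 M q hq hqM K) hdvr,
      x1 M q hq hqM K = algebraMap (OK A K) (FK (M * q * q) K) π * z :=
  pi2_of_pi1 _ (WQ2.wK2_algebraMap_OK M q hq hqM K A) hdvr
    (by rw [wK2_x1]; exact x2_pi1 M q hq hqM A K hdvr hA hπ)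

/-- **(W2)** `x2` is a unit of `V2`. -/
theorem x2_unit2 (hA : A.LiesOverPrime q) :
    x2 M q hq hqM K ∈ GaussV.V2 (WQ2.wK2 M q hq hqM K) hdvr ∧
      (x2 M q hq hqM K)⁻¹ ∈ GaussV.V2 (WQ2.wK2 M q hq hqM K) hdvr :=
  unit2_of_unit1 _ hdvr (by rw [wK2_x2]; exact x1_unit1 M q hq hqM A K hdvr hA)

/-- **(W2)** `x3 ∈ π V2`. -/
theorem x3_pi2 (hA : A.LiesOverPrime q) {π : OK A K} (hπ : Irreducible π) :
    ∃ z ∈ GaussV.V2 (WQ2.wK2 M q hq hqM K) hdvr,
      x3 M q hq hqM K = algebraMap (OK A K) (FK (M * q * q) K) π * z :=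
  pi2_of_pi1 _ (WQ2.wK2_algebraMap_OK M q hq hqM K A) hdvr
    (by rw [wK2_x3]; exact x3_pi1 M q hq hqM A K hdvr hA hπ)

/-- **(W2)** `s` is a unit of `V2`. -/
theorem s_unit2 :
    sE M q hq hqM K ∈ GaussV.V2 (WQ2.wK2 M q hq hqM K) hdvr ∧
      (sE M q hq hqM K)⁻¹ ∈ GaussV.V2 (WQ2.wK2 M q hq hqM K) hdvr := by
  refine unit2_of_unit1 _ hdvr ?_
  rw [wK2_sE, inv_neg]
  obtain ⟨h1, h2⟩ := s_unit1 M q hq hqM A K hdvr
  exact ⟨neg_mem h1, neg_mem h2⟩

/-- **(W2)** `b i ∈ V2`, with `w (b i) = j ^ i`. -/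
theorem b_mem2 (i : ℕ) : bE M q hq hqM K i ∈ GaussV.V2 (WQ2.wK2 M q hq hqM K) hdvr := by
  rw [GaussV.mem_V2_iff, wK2_bE]
  exact pow_mem (GaussV.jK_mem_V1 hdvr) i

end Level

end Fermat.Agent.S36.Wit3

end
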