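/-
S36 — Wit3Set.lean (helper128), block [MODEL3], leaf [M3.4], second file: the level-`M` chart
against the first two branches at level `N = M * q * q` (`q` prime, `q ∤ M`).

`R_M = chart M A K (jK M K)` (the level-`M` chart `j ≠ ∞`), `inc = DegTower.incl : F_K(M) → F_K(N)`,
`W1 = GaussV.V1`, `W2 = GaussV.V2 (WQ2.wK2 …)`.

* `inc_eq`, `coe_wK2_inc`   : `inc = α₂ ∘ α₁`, and `w_{q²} (inc x) = x(Q^(q*q))` on `q`-expansions;
* `exists_rho`              : the Gauss reduction `ρ` of the level-`M` chart with `ρ r = 0 → π ∣ r`;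
* `le1`, `le2`              : `inc r ∈ W1`, `inc r ∈ W2` for `r ∈ R_M`;
* `ind1`                    : `inc r ∈ W1.nonunits → π ∣ r`;
* `ind2`                    : `∑ i < q*q, inc (c i) * jqq^i ∈ W2.nonunits → ∀ i, π ∣ c i`
                              (residue degree `≥ q²` along `W2`);
* `pi_nonunit1`, `pi_nonunit2` : `π` is a nonunit of `W1`, `W2`;
* `dedekindPsi_level`       : `ψ(M q q) = ψ(M) · (q·q + q)`.
-/
import Mathlib
import Fermat.Agent.S36.Wit3
import Fermat.Agent.S34.Red2B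
import Fermat.Agent.S34.Red2Alg
import Fermat.Agent.S34.DegTower
import Fermat.Agent.S18.SepDeg
import Fermat.Agent.S18.Nor

set_option autoImplicit false

noncomputable section

namespace Fermat.Agent.S36.Wit3Set

open ModularCurve ModularCurve.IgusaScheme AlgebraicCurve HahnSeries
open Fermat.Agent.S18 Fermat.Agent.S18.Arith Fermat.Agent.S18.ModelPlan
open Fermat.Agent.S34

variable (M q : ℕ) [NeZero M] [NeZero q] (hq : q.Prime) (hqM : ¬ q ∣ M)
variable (A : ValuationSubring Qb) (K : IntermediateField ℚ Qb)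

omit [NeZero M] [NeZero q] in
theorem dvd_level : M ∣ M * q * q := ⟨q * q, by ring⟩

/-- The inclusion `F_K(M) → F_K(M q q)`. -/
def inc : FK M K →+* FK (M * q * q) K := DegTower.incl M (M * q * q) K (dvd_level M q)

theorem coe_inc (x : FK M K) :
    ((inc M q K x : FK (M * q * q) K) : LaurentSeries Qb) = (x : LaurentSeries Qb) :=
  DegTower.coe_incl M (M * q * q) K (dvd_level M q) x

theorem inc_eq (x : FK M K) :
    inc M q K x = WQ2.alphaK2 M q K (WK.alphaK M q K x) :=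
  Subtype.ext (by rw [coe_inc, WQ2.coe_alphaK2, WK.coe_alphaK])

/-- `w_{q²} ∘ inc = (Q ↦ Q^(q*q))` on `q`-expansions. -/
theorem coe_wK2_inc (x : FK M K) :
    ((WQ2.wK2 M q hq hqM K (inc M q K x) : FK (M * q * q) K) : LaurentSeries Qb)
      = qExpand Qb (q * q) (x : LaurentSeries Qb) := by
  rw [inc_eq, WQ2.wK2_alphaK2, WK.wK_alphaK, WQ2.coe_betaK2, WK.coe_betaK, qExpand_qExpand]

theorem inc_algebraMap (c : OK A K) :
    inc M q K (algebraMap (OK A K) (FK M K) c) = algebraMap (OK A K) (FK (M * q * q) K) c :=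
  DegTower.incl_constK M (M * q * q) K (dvd_level M q) (c : K)

variable (hdvr : IsDiscreteValuationRing (OK A K))

include hdvr in
/-- The Gauss reduction of the level-`M` chart, with `ρ r = 0 → π ∣ r`. -/
theorem exists_rho (hC : ChartFacts M A K (chart M A K (jK M K)) (jK M K))
    {π : OK A K} (hπ : Irreducible π) :
    ∃ ρ : ↥(chart M A K (jK M K)) →+* LaurentSeries (IsLocalRing.ResidueField A),
      (∀ r : ↥(chart M A K (jK M K)), GRel A (((r : FK M K)) : LaurentSeries Qb) (ρ r)) ∧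
      (∀ r : ↥(chart M A K (jK M K)), ρ r = 0 →
        algebraMap (OK A K) ↥(chart M A K (jK M K)) π ∣ r) := by
  have := hdvr
  obtain ⟨ρ, hρ, hker, -⟩ := hC.red
  refine ⟨ρ, hρ, fun r hr => ?_⟩
  have hspan : piIdeal M A K (chart M A K (jK M K))
      = Ideal.span {algebraMap (OK A K) ↥(chart M A K (jK M K)) π} :=
    Nor.piIdeal_eq_span _ hπ
  have hmem : r ∈ RingHom.ker ρ := hr
  rw [hker, hspan] at hmem
  exact Ideal.mem_span_singleton.mp hmem

/-- `inc r ∈ W1`. -/
theorem le1 (hC : ChartFacts M A K (chart M A K (jK M K)) (jK M K))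
    (r : ↥(chart M A K (jK M K))) :
    inc M q K (r : FK M K) ∈ GaussV.V1 (M * q * q) A K hdvr := by
  obtain ⟨ρ, hρ, -, -⟩ := hC.red
  exact (GaussV.mem_V1_iff hdvr).mpr ⟨ρ r, by rw [coe_inc]; exact hρ r⟩

/-- `inc r ∈ W2`. -/
theorem le2 (hC : ChartFacts M A K (chart M A K (jK M K)) (jK M K))
    (r : ↥(chart M A K (jK M K))) :
    inc M q K (r : FK M K) ∈ GaussV.V2 (WQ2.wK2 M q hq hqM K) hdvr := by
  have : Fact q.Prime := ⟨hq⟩
  obtain ⟨ρ, hρ, -, -⟩ := hC.red
  rw [GaussV.mem_V2_iff]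
  exact (GaussV.mem_V1_iff hdvr).mpr ⟨_, by
    rw [coe_wK2_inc]; exact V12Rel.gRel_qExpand A (q * q) (hρ r)⟩

/-- `inc r ∈ W1.nonunits → π ∣ r`. -/
theorem ind1 (hC : ChartFacts M A K (chart M A K (jK M K)) (jK M K))
    {π : OK A K} (hπ : Irreducible π) (r : ↥(chart M A K (jK M K)))
    (hr : inc M q K (r : FK M K) ∈ (GaussV.V1 (M * q * q) A K hdvr).nonunits) :
    algebraMap (OK A K) ↥(chart M A K (jK M K)) π ∣ r := by
  obtain ⟨ρ, hρ, hdvd⟩ := exists_rho M A K hdvr hC hπ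
  rw [ValuationSubring.mem_nonunits_iff] at hr
  have h0 := Red2B.gRel_zero_of_val1_lt hdvr hr
  rw [coe_inc] at h0
  exact hdvd r ((GRel.gRelStatement A).unique _ _ _ (hρ r) h0)

/-- **Residue degree `≥ q²` along `W2`**: `1, jqq, …, jqq^(q*q-1)` are independent modulo
`𝔪(W2)` over the level-`M` chart modulo `π`. -/
theorem ind2 (hC : ChartFacts M A K (chart M A K (jK M K)) (jK M K))
    {π : OK A K} (hπ : Irreducible π) (c : Fin (q * q) → ↥(chart M A K (jK M K)))
    (hc : (∑ i : Fin (q * q), inc M q K ((c i : FK M K)) * Wit3.bE M q hq hqM K (i : ℕ))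
      ∈ (GaussV.V2 (WQ2.wK2 M q hq hqM K) hdvr).nonunits) :
    ∀ i, algebraMap (OK A K) ↥(chart M A K (jK M K)) π ∣ c i := by
  have : Fact q.Prime := ⟨hq⟩
  have hG := GRel.gRelStatement A
  obtain ⟨ρ, hρ, hdvd⟩ := exists_rho M A K hdvr hC hπ
  rw [ValuationSubring.mem_nonunits_iff] at hc
  have hc' := (Red2B.val_comap_lt_one_iff (GaussV.V1 (M * q * q) A K hdvr)
    (WQ2.wK2 M q hq hqM K) _).mp hc
  have hg0 := Red2B.gRel_zero_of_val1_lt hdvr hc'
  have hcoe : ((WQ2.wK2 M q hq hqM K (∑ i : Fin (q * q),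
      inc M q K ((c i : FK M K)) * Wit3.bE M q hq hqM K (i : ℕ)) : FK (M * q * q) K) :
        LaurentSeries Qb)
      = ∑ i : Fin (q * q), qExpand Qb (q * q) (((c i : FK M K)) : LaurentSeries Qb) *
          jqModC Qb ^ (i : ℕ) := by
    rw [map_sum, AddSubmonoidClass.coe_finsetSum]
    refine Finset.sum_congr rfl fun i _ => ?_
    rw [map_mul, Wit3.wK2_bE, Subfield.coe_mul, SubmonoidClass.coe_pow, coe_wK2_inc,
      ModelQFrac.coe_jK]
  rw [hcoe] at hg0
  have hg1 : GRel A (∑ i : Fin (q * q),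
        qExpand Qb (q * q) (((c i : FK M K)) : LaurentSeries Qb) * jqModC Qb ^ (i : ℕ))
      (∑ i : Fin (q * q), qExpand (IsLocalRing.ResidueField A) (q * q) (ρ (c i)) *
        jqModC (IsLocalRing.ResidueField A) ^ (i : ℕ)) :=
    Red2B.gRel_sum _ _ _ fun i _ => hG.mul _ _ _ _ (V12Rel.gRel_qExpand A (q * q) (hρ (c i)))
      (V12Rel.gRel_pow A (V12Rel.gRel_j A) i)
  have hsum := hG.unique _ _ _ hg1 hg0
  have hzero := Red2Alg.eq_zero_of_sum_mul_pow_eq_zero (q * q)
    (jqModC (IsLocalRing.ResidueField A)) (SepDeg.order_jqModC _)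
    (fun i => qExpand (IsLocalRing.ResidueField A) (q * q) (ρ (c i)))
    (fun i n hn => by
      by_contra hdiv
      exact hn (qExpand_coeff_of_not_dvd (q * q) _ hdiv)) hsum
  intro i
  exact hdvd (c i) (qExpand_injective (q * q) (by rw [hzero i, map_zero]))

/-- `π` is a nonunit of `W1`. -/
theorem pi_nonunit1 {π : OK A K} (hπ : Irreducible π) :
    algebraMap (OK A K) (FK (M * q * q) K) π ∈ (GaussV.V1 (M * q * q) A K hdvr).nonunits := by
  rw [ValuationSubring.mem_nonunits_iff]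
  refine Red2B.val1_lt_of_gRel_zero hdvr ?_
  have h := GaussV.gRel_red1 hdvr ⟨_, GaussV.algebraMap_mem_V1 (N := M * q * q) hdvr π⟩
  rwa [GaussV.red1_algebraMap_of_not_isUnit hdvr π hπ.not_isUnit] at h

include hq hqM in
/-- `π` is a nonunit of `W2`. -/
theorem pi_nonunit2 {π : OK A K} (hπ : Irreducible π) :
    algebraMap (OK A K) (FK (M * q * q) K) π
      ∈ (GaussV.V2 (WQ2.wK2 M q hq hqM K) hdvr).nonunits := by
  have h1 := pi_nonunit1 M q A K hdvr hπ
  rw [ValuationSubring.mem_nonunits_iff] at h1 ⊢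
  rw [GaussV.V2, Red2B.val_comap_lt_one_iff, WQ2.wK2_algebraMap_OK]
  exact h1

omit hdvr in
include hq hqM in
/-- `ψ(M q q) = ψ(M) · (q·q + q)` for a prime `q ∤ M`. -/
theorem dedekindPsi_level :
    dedekindPsi (M * q * q) = dedekindPsi M * (q * q + q) := by
  have h1 : dedekindPsi (q * M) = (q + 1) * dedekindPsi M :=
    Fermat.Agent.S20.CosetModel.dedekindPsi_prime_mul_of_not_dvd q M hq (NeZero.ne M) hqM
  have h2 : dedekindPsi (q * (q * M)) = q * dedekindPsi (q * M) :=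
    Fermat.Agent.S20.CosetModel.dedekindPsi_prime_mul_of_dvd q (q * M) hq
      (mul_ne_zero (NeZero.ne q) (NeZero.ne M)) (dvd_mul_right q M)
  have e : M * q * q = q * (q * M) := by ring
  rw [e, h2, h1]
  ring

end Fermat.Agent.S36.Wit3Set

end
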