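/-
S36 — LocInst3.lean (helper127; package [MODEL3], dealt by helper128): the `loc` field of
`Model3Plan.ChartHyp3` ("`V i = R_{P i}`") for the chart of record `R = chart N J3`,
`N = M * q * q`, through helper9's abstract `LocV3.loc_of_inter`.

* `loc_of_T1`  (generic): for a subalgebra `R ⊆ ⋂ V i` of `F_K(N)`, a level-`M` chart `RM` with a
  coefficient-preserving `inc : F_K(M) → F_K(N)` mapping `RM` into `R`, the three valuation rings
  `V i` with `ValHyp3`:
    (ind)  `inc r ∈ 𝔪(V i) → π ∣ r` in `RM`                         (`Wit3Set.ind1`, `ind2`, W3 twin),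
    (T1)   every `z ∈ ⋂ V i` has `inc s * z ∈ R` for some `s ∈ RM`, `π ∤ s`  (`NVal.Core.exists_smul_eq`),
    (sep)  `x i ∈ R` nonzero, a unit of `V i` and in `ϖ j (V j)` for `j ≠ i`   (the witnesses),
  give `loc` in the exact shape of the input `hloc` of `Model3Asm.model3`;
* `T1_of_sum` : the (T1) hypothesis from the raw sum form `inc s * z = ∑ inc (c k) * g k`,
  `g k ∈ R`;
* `x1_mem_chart`, `x2_mem_chart`, `x3_mem_chart`, `sE_mem_chart`, `bE_mem_chart`, `pi_mem_chart` :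
  the witnesses of `Wit3` lie in `chart N J3`;  `x1_ne_zero`, `x2_ne_zero`, `x3_ne_zero`;
* `ind_W2` : `inc r ∈ 𝔪(W2) → π ∣ r` (from `Wit3Set.ind2`);
* `loc_J3` : the instance: `V 0 = W1 = GaussV.V1`, `V 1 = W2 = GaussV.V2 w_{q²}`, `V 2 = W3`
  ABSTRACT with its three witness facts (`x1, x2 ∈ π W3`, `x3⁻¹ ∈ W3`), its (ind) and (T1) as
  hypotheses.
-/
import Mathlib
import Fermat.Agent.S36.LocV3
import Fermat.Agent.S36.Model3Asm
import Fermat.Agent.S36.Chart3B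
import Fermat.Agent.S36.Wit3Set

set_option autoImplicit false

noncomputable section

namespace Fermat.Agent.S36.LocInst3

open ModularCurve HahnSeries
open Fermat.Agent.S18 Fermat.Agent.S18.Arith Fermat.Agent.S18.ModelPlan
open Fermat.Agent.S34 Fermat.Agent.S36.Model3Plan

/-! ### Valuation subrings: small generalities -/

section Gen

variable {E : Type*} [Field E]

/-- An element of `V` whose inverse is not in `V` is a nonunit of `V`. -/
theorem mem_nonunits_of (V : ValuationSubring E) {x : E} (hx : x ∈ V) (hinv : x⁻¹ ∉ V) :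
    x ∈ V.nonunits := by
  rw [ValuationSubring.mem_nonunits_iff]
  have h1 : V.valuation x ≤ 1 := (V.valuation_le_one_iff x).mpr hx
  refine lt_of_le_of_ne h1 (fun h => hinv ?_)
  rw [← V.valuation_le_one_iff, map_inv₀, h, inv_one]

/-- `𝔪(V) · V ⊆ 𝔪(V)`. -/
theorem nonunits_mul (V : ValuationSubring E) {x y : E} (hx : x ∈ V.nonunits) (hy : y ∈ V) :
    x * y ∈ V.nonunits := by
  rw [ValuationSubring.mem_nonunits_iff] at hx ⊢
  rw [map_mul]
  exact lt_of_le_of_lt (mul_le_of_le_one_right' ((V.valuation_le_one_iff y).mpr hy)) hx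

/-- `p ∈ ϖ i (V i)` (as `1 ≤ e i`). -/
theorem pi_mem_unif {p : E} {e : Fin 3 → ℕ} {ϖ : Fin 3 → E} {V : Fin 3 → ValuationSubring E}
    (val : ValHyp3 p e ϖ V) (i : Fin 3) : ∃ y ∈ V i, p = ϖ i * y := by
  obtain ⟨u, hu, -, hp⟩ := val.ram i
  obtain ⟨k, hk⟩ := Nat.exists_eq_succ_of_ne_zero (val.e_pos i).ne'
  refine ⟨ϖ i ^ k * u, mul_mem (pow_mem (val.unif_mem i) k) hu, ?_⟩
  rw [hp, hk, pow_succ']
  ring

/-- `p (V i) ⊆ ϖ i (V i)`. -/
theorem unif_of_pi {p : E} {e : Fin 3 → ℕ} {ϖ : Fin 3 → E} {V : Fin 3 → ValuationSubring E}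
    (val : ValHyp3 p e ϖ V) (i : Fin 3) {x : E} (h : ∃ y ∈ V i, x = p * y) :
    ∃ y ∈ V i, x = ϖ i * y := by
  obtain ⟨y, hy, rfl⟩ := h
  obtain ⟨y', hy', hp⟩ := pi_mem_unif val i
  exact ⟨y' * y, mul_mem hy' hy, by rw [hp]; ring⟩

end Gen

/-! ### The generic statement -/

section Abstract

variable {N M : ℕ} [NeZero N] {A : ValuationSubring Qb} {K : IntermediateField ℚ Qb}

omit [NeZero N] in
/-- **[loc] from (T1), (ind) and separating witnesses.**  The conclusion is the input `hloc` of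
`Model3Asm.model3` (for `R = chart N A K t`). -/
theorem loc_of_T1 (inc : FK M K →+* FK N K) (RM : Subalgebra (OK A K) (FK M K))
    (R : Subalgebra (OK A K) (FK N K)) (π : OK A K) {e : Fin 3 → ℕ} {ϖ : Fin 3 → FK N K}
    {V : Fin 3 → ValuationSubring (FK N K)}
    (val : ValHyp3 (algebraMap (OK A K) (FK N K) π) e ϖ V)
    (hle : ∀ i : Fin 3, ∀ x ∈ R, x ∈ V i)
    (hinc : ∀ r ∈ RM, inc r ∈ R)
    (hind : ∀ (i : Fin 3) (r : RM), inc (r : FK M K) ∈ (V i).nonunits →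
      algebraMap (OK A K) RM π ∣ r)
    (hT1 : ∀ z : FK N K, (∀ i : Fin 3, z ∈ V i) →
      ∃ s : RM, ¬ algebraMap (OK A K) RM π ∣ s ∧ inc (s : FK M K) * z ∈ R)
    (x : Fin 3 → FK N K) (hxR : ∀ i, x i ∈ R) (hx0 : ∀ i, x i ≠ 0)
    (hxu : ∀ i, (x i)⁻¹ ∈ V i)
    (hxπ : ∀ i j : Fin 3, i ≠ j → ∃ y ∈ V j, x i = ϖ j * y) :
    ∀ (i : Fin 3), ∀ y ∈ V i, ∃ a s : R, s ∉ Model3Asm.Pc R ϖ V hle i ∧
      y * algebraMap R (FK N K) s = algebraMap R (FK N K) a := by
  have H : LocV3.Hyp ϖ V (Model3Asm.Pc R ϖ V hle) :=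
    ⟨fun i r => hle i r r.2, fun _ _ => Iff.rfl, val.unif_mem, val.unif_not, val.disc⟩
  refine LocV3.loc_of_inter H ?_ ?_
  · intro z hz i
    obtain ⟨s, hs, hsz⟩ := hT1 z hz
    refine ⟨⟨inc (s : FK M K) * z, hsz⟩, ⟨inc (s : FK M K), hinc _ s.2⟩, ?_, ?_⟩
    · rintro ⟨y, hy, hsy⟩
      apply hs
      apply hind i s
      have h1 : inc (s : FK M K) = ϖ i * y := hsy
      rw [h1]
      exact nonunits_mul _ (mem_nonunits_of _ (val.unif_mem i) (val.unif_not i)) hy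
    · show z * inc (s : FK M K) = inc (s : FK M K) * z
      exact mul_comm _ _
  · intro i j hij
    refine ⟨⟨x i, hxR i⟩, hxπ i j hij, ?_⟩
    rw [H.not_mem_iff]
    exact ⟨hx0 i, hxu i⟩

omit [NeZero N] in
/-- The (T1) hypothesis of `loc_of_T1` from the raw sum form (`NVal.Core.exists_smul_eq`):
`inc s * z = ∑ inc (c k) * g k` with `g k ∈ R`. -/
theorem T1_of_sum (inc : FK M K →+* FK N K) (RM : Subalgebra (OK A K) (FK M K))
    (R : Subalgebra (OK A K) (FK N K)) (hinc : ∀ r ∈ RM, inc r ∈ R)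
    {ι : Type*} [Fintype ι] (g : ι → FK N K) (hg : ∀ k, g k ∈ R) (s : RM) (c : ι → RM)
    (z : FK N K) (h : inc (s : FK M K) * z = ∑ k, inc ((c k : RM) : FK M K) * g k) :
    inc (s : FK M K) * z ∈ R := by
  rw [h]
  exact sum_mem fun k _ => mul_mem (hinc _ (c k).2) (hg k)

end Abstract

/-! ### The instance at level `M * q * q`, coordinate `J3` -/

section Inst

variable (M q : ℕ) [NeZero M] [NeZero q] (hq : q.Prime) (hqM : ¬ q ∣ M)
variable (A : ValuationSubring Qb) (K : IntermediateField ℚ Qb)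

/-- `inc` maps the level-`M` chart `j ≠ ∞` into `chart N J3`. -/
theorem inc_mem_chart {r : FK M K} (hr : r ∈ chart M A K (jK M K)) :
    Wit3Set.inc M q K r ∈ chart (M * q * q) A K (Chart3B.J3 M q hq hqM K) := by
  have h : Wit3Set.inc M q K = Chart3B.incl2 M q K :=
    Chart3B.degTower_incl_eq M q K (Wit3Set.dvd_level M q)
  rw [h]
  exact Chart3B.incl2_mem_chart_J3 M q hq hqM A K hr

theorem x1_mem_chart :
    Wit3.x1 M q hq hqM K ∈ chart (M * q * q) A K (Chart3B.J3 M q hq hqM K) :=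
  sub_mem (Chart3B.jqK2_mem_chart_J3 M q hq hqM A K)
    (pow_mem (Chart3B.jqqK2_mem_chart_J3 M q hq hqM A K) q)

theorem x2_mem_chart :
    Wit3.x2 M q hq hqM K ∈ chart (M * q * q) A K (Chart3B.J3 M q hq hqM K) :=
  sub_mem (Chart3B.jqK2_mem_chart_J3 M q hq hqM A K)
    (pow_mem (Chart3B.jK_mem_chart_J3 M q hq hqM A K) q)

theorem x3_mem_chart :
    Wit3.x3 M q hq hqM K ∈ chart (M * q * q) A K (Chart3B.J3 M q hq hqM K) :=
  mul_mem
    (sub_mem (Chart3B.jqqK2_mem_chart_J3 M q hq hqM A K)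
      (pow_mem (Chart3B.jK_mem_chart_J3 M q hq hqM A K) (q ^ 2)))
    (sub_mem (Chart3B.jK_mem_chart_J3 M q hq hqM A K)
      (pow_mem (Chart3B.jqqK2_mem_chart_J3 M q hq hqM A K) (q ^ 2)))

theorem sE_mem_chart :
    Wit3.sE M q hq hqM K ∈ chart (M * q * q) A K (Chart3B.J3 M q hq hqM K) :=
  sub_mem (Chart3B.jqqK2_mem_chart_J3 M q hq hqM A K) (Chart3B.jK_mem_chart_J3 M q hq hqM A K)

theorem bE_mem_chart (i : ℕ) :
    Wit3.bE M q hq hqM K i ∈ chart (M * q * q) A K (Chart3B.J3 M q hq hqM K) :=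
  pow_mem (Chart3B.jqqK2_mem_chart_J3 M q hq hqM A K) i

theorem pi_mem_chart (c : OK A K) :
    algebraMap (OK A K) (FK (M * q * q) K) c
      ∈ chart (M * q * q) A K (Chart3B.J3 M q hq hqM K) :=
  (chart (M * q * q) A K (Chart3B.J3 M q hq hqM K)).algebraMap_mem c

/-! #### The witnesses are nonzero -/

omit [NeZero q] in
include hq in
theorem qq_not_dvd_neg_one : ¬ (((q * q : ℕ) : ℤ)) ∣ (-1 : ℤ) := by
  intro hd
  have h1 : ((q * q : ℕ) : ℤ) ∣ 1 := (dvd_neg).mp hd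
  have h2 : (q * q : ℕ) ∣ 1 := by exact_mod_cast h1
  have h3 : q * q = 1 := Nat.dvd_one.mp h2
  have h4 : 2 ≤ q := hq.two_le
  nlinarith

theorem x1_ne_zero (hA : A.LiesOverPrime q) : Wit3.x1 M q hq hqM K ≠ 0 := by
  have : Fact q.Prime := ⟨hq⟩
  intro h
  have h1 := Wit3.gRel_x1 A q
  rw [← Wit3.coe_x1 M q hq hqM K, h] at h1
  exact Wit3.redX1_ne_zero A q hA
    ((GRel.gRelStatement A).unique _ _ _ h1 (ModelRed.gRel_zero (GRel.gRelStatement A)))

theorem x2_ne_zero (hA : A.LiesOverPrime q) : Wit3.x2 M q hq hqM K ≠ 0 := by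
  intro h
  apply x1_ne_zero M q hq hqM A K hA
  rw [← Wit3.wK2_x2, h, map_zero]

/-- `j − jqq^(q^2) ≠ 0` (coefficient of `Q⁻¹`). -/
theorem j_sub_ne_zero :
    jK (M * q * q) K - WQ2.jqqK2 M q hq hqM K ^ (q ^ 2) ≠ 0 := by
  intro h
  have h1 : ((jK (M * q * q) K - WQ2.jqqK2 M q hq hqM K ^ (q ^ 2) : FK (M * q * q) K) :
      LaurentSeries Qb) = jqModC Qb - qExpand Qb (q * q) (jqModC Qb ^ (q ^ 2)) := by
    rw [Subfield.coe_sub, SubmonoidClass.coe_pow, Wit3.coe_jqq, ModelQFrac.coe_jK, map_pow]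
  rw [h] at h1
  have h2 := congrArg (fun x : LaurentSeries Qb => x.coeff (-1)) h1
  simp only [HahnSeries.coeff_sub] at h2
  rw [qExpand_coeff_of_not_dvd _ _ (qq_not_dvd_neg_one q hq), coeff_jqModC_neg_one] at h2
  simp at h2

theorem x3_ne_zero : Wit3.x3 M q hq hqM K ≠ 0 := by
  have h2 := j_sub_ne_zero M q hq hqM K
  have h1 : WQ2.jqqK2 M q hq hqM K - jK (M * q * q) K ^ (q ^ 2) ≠ 0 := by
    intro h
    apply h2
    have h3 := congrArg (WQ2.wK2 M q hq hqM K) h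
    rwa [map_sub, map_pow, WQ2.wK2_jqqK2, WQ2.wK2_jK, map_zero] at h3
  exact mul_ne_zero h1 h2

/-! #### (ind) along `W2` -/

variable (hdvr : IsDiscreteValuationRing (OK A K))

/-- `inc r ∈ 𝔪(W2) → π ∣ r` (the case `c = (r, 0, …, 0)` of `Wit3Set.ind2`). -/
theorem ind_W2 (hC : ChartFacts M A K (chart M A K (jK M K)) (jK M K))
    {π : OK A K} (hπ : Irreducible π) (r : ↥(chart M A K (jK M K)))
    (hr : Wit3Set.inc M q K (r : FK M K) ∈ (GaussV.V2 (WQ2.wK2 M q hq hqM K) hdvr).nonunits) :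
    algebraMap (OK A K) ↥(chart M A K (jK M K)) π ∣ r := by
  have hpos : 0 < q * q := Nat.mul_pos hq.pos hq.pos
  classical
  have key := Wit3Set.ind2 M q hq hqM A K hdvr hC hπ
    (fun i : Fin (q * q) => if (i : ℕ) = 0 then r else 0) ?_ ⟨0, hpos⟩
  · have key' : algebraMap (OK A K) ↥(chart M A K (jK M K)) π ∣
        (if ((⟨0, hpos⟩ : Fin (q * q)) : ℕ) = 0 then r else 0) := key
    rwa [if_pos rfl] at key'
  · have hsum : (∑ i : Fin (q * q),
        Wit3Set.inc M q K (((if (i : ℕ) = 0 then r else 0 : ↥(chart M A K (jK M K))) :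
          FK M K)) * Wit3.bE M q hq hqM K (i : ℕ)) = Wit3Set.inc M q K (r : FK M K) := by
      rw [Finset.sum_eq_single (⟨0, hpos⟩ : Fin (q * q))]
      · simp [Wit3.bE]
      · intro i _ hi
        have hi0 : (i : ℕ) ≠ 0 := fun h0 => hi (Fin.ext h0)
        simp [hi0]
      · intro h
        exact absurd (Finset.mem_univ _) h
    rw [hsum]
    exact hr

/-! #### The instance -/

/-- **[loc] for `chart N J3`**, `N = M * q * q`: `V 0 = W1`, `V 1 = W2`, and `V 2 = W3` abstract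
with its witness facts (`x1, x2 ∈ π W3`, `x3⁻¹ ∈ W3`), its (ind) and the (T1) statement as
hypotheses.  The conclusion is the input `hloc` of `Model3Asm.model3` VERBATIM. -/
theorem loc_J3 (hC : ChartFacts M A K (chart M A K (jK M K)) (jK M K))
    (hA : A.LiesOverPrime q) {π : OK A K} (hπ : Irreducible π) {e : Fin 3 → ℕ}
    {ϖ : Fin 3 → FK (M * q * q) K} {V : Fin 3 → ValuationSubring (FK (M * q * q) K)}
    (h0 : V 0 = GaussV.V1 (M * q * q) A K hdvr)
    (h1 : V 1 = GaussV.V2 (WQ2.wK2 M q hq hqM K) hdvr)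
    (val : ValHyp3 (algebraMap (OK A K) (FK (M * q * q) K) π) e ϖ V)
    (hle : ∀ i : Fin 3, ∀ x ∈ chart (M * q * q) A K (Chart3B.J3 M q hq hqM K), x ∈ V i)
    -- the `W3` half of the witness facts
    (hx1 : ∃ y ∈ V 2, Wit3.x1 M q hq hqM K = algebraMap (OK A K) (FK (M * q * q) K) π * y)
    (hx2 : ∃ y ∈ V 2, Wit3.x2 M q hq hqM K = algebraMap (OK A K) (FK (M * q * q) K) π * y)
    (hx3 : (Wit3.x3 M q hq hqM K)⁻¹ ∈ V 2)
    (hind3 : ∀ r : ↥(chart M A K (jK M K)), Wit3Set.inc M q K (r : FK M K) ∈ (V 2).nonunits →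
      algebraMap (OK A K) ↥(chart M A K (jK M K)) π ∣ r)
    -- (T1)
    (hT1 : ∀ z : FK (M * q * q) K, (∀ i : Fin 3, z ∈ V i) →
      ∃ s : ↥(chart M A K (jK M K)), ¬ algebraMap (OK A K) ↥(chart M A K (jK M K)) π ∣ s ∧
        Wit3Set.inc M q K (s : FK M K) * z ∈ chart (M * q * q) A K (Chart3B.J3 M q hq hqM K)) :
    ∀ (i : Fin 3), ∀ y ∈ V i,
      ∃ a s : ↥(chart (M * q * q) A K (Chart3B.J3 M q hq hqM K)),
        s ∉ Model3Asm.Pc (chart (M * q * q) A K (Chart3B.J3 M q hq hqM K)) ϖ V hle i ∧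
        y * algebraMap ↥(chart (M * q * q) A K (Chart3B.J3 M q hq hqM K)) (FK (M * q * q) K) s
          = algebraMap ↥(chart (M * q * q) A K (Chart3B.J3 M q hq hqM K)) (FK (M * q * q) K) a := by
  refine loc_of_T1 (Wit3Set.inc M q K) (chart M A K (jK M K))
    (chart (M * q * q) A K (Chart3B.J3 M q hq hqM K)) π val hle
    (fun r hr => inc_mem_chart M q hq hqM A K hr) ?_ hT1
    ![Wit3.x1 M q hq hqM K, Wit3.x2 M q hq hqM K, Wit3.x3 M q hq hqM K] ?_ ?_ ?_ ?_
  · -- (ind)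
    intro i r hr
    fin_cases i
    · exact Wit3Set.ind1 M q A K hdvr hC hπ r (by rw [← h0]; exact hr)
    · exact ind_W2 M q hq hqM A K hdvr hC hπ r (by rw [← h1]; exact hr)
    · exact hind3 r hr
  · -- the witnesses lie in the chart
    intro i
    fin_cases i
    · exact x1_mem_chart M q hq hqM A K
    · exact x2_mem_chart M q hq hqM A K
    · exact x3_mem_chart M q hq hqM A K
  · -- nonzero
    intro i
    fin_cases i
    · exact x1_ne_zero M q hq hqM A K hA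
    · exact x2_ne_zero M q hq hqM A K hA
    · exact x3_ne_zero M q hq hqM K
  · -- units
    intro i
    fin_cases i
    · show (Wit3.x1 M q hq hqM K)⁻¹ ∈ V 0
      rw [h0]
      exact (Wit3.x1_unit1 M q hq hqM A K hdvr hA).2
    · show (Wit3.x2 M q hq hqM K)⁻¹ ∈ V 1
      rw [h1]
      exact (Wit3.x2_unit2 M q hq hqM A K hdvr hA).2
    · exact hx3
  · -- separation
    intro i j hij
    apply unif_of_pi val j
    fin_cases i <;> fin_cases j
    · exact absurd rfl hij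
    · show ∃ y ∈ V 1, Wit3.x1 M q hq hqM K = _ * y
      rw [h1]
      exact Wit3.x1_pi2 M q hq hqM A K hdvr hA hπ
    · exact hx1
    · show ∃ y ∈ V 0, Wit3.x2 M q hq hqM K = _ * y
      rw [h0]
      exact Wit3.x2_pi1 M q hq hqM A K hdvr hA hπ
    · exact absurd rfl hij
    · exact hx2
    · show ∃ y ∈ V 0, Wit3.x3 M q hq hqM K = _ * y
      rw [h0]
      exact Wit3.x3_pi1 M q hq hqM A K hdvr hA hπ
    · show ∃ y ∈ V 1, Wit3.x3 M q hq hqM K = _ * y
      rw [h1]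
      exact Wit3.x3_pi2 M q hq hqM A K hdvr hA hπ
    · exact absurd rfl hij

end Inst

end Fermat.Agent.S36.LocInst3
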