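/-
S36 — NVal.lean (helper110): the chart-level core for SEVERAL valuations WITH multiplicities.

This generalises `S34/TwoVal` (`Core`, `Setting`) from two unramified valuations to a finite family
`v a` (`a : κ`) with ramification.

Abstract setting.  `R` is a domain (a chart) with fraction field `F`, `π ∈ R` a prime element,
`E / F` a finite extension and `v a` valuations of `E` which are `≤ 1` on `R`.

* `Core π v g` : a finite family `g` of elements of `⋂ V_a` which is independent modulo
  `π (⋂ V_a)` over `R / π`.  Then `g` is `F`-linearly independent, and if `[E : F] ≤ #g`: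
  (T1) `Core.exists_smul_eq` : every `z ∈ ⋂ V_a` has `s z ∈ ∑ R g_k` for some `s ∉ π R`;
  (T0) `Core.exists_isIntegral_mul` : every `z ∈ ⋂ V_a` has `t z` integral over `R` for some
       `t ∉ π R` (so `⋂ V_a` is the integral closure of `R_(π)`; no integrality hypothesis on `g`);
  (T2) `Core.isIntegral_of_pi_mul` : if `R` is integrally closed, then `z ∈ ⋂ V_a` and `π z`
       integral over `R` imply `z` integral over `R`;
  `Core.val_le_one_of_forall` : every valuation ring of `E` dominating `R_(π)` contains `⋂ V_a`.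
* `Setting π v e f x s b` : for each `a` a separating element `x a`, an element `s a` with
  `v a (s a) < 1` and `v a π ≤ v a (s a) ^ e a`, and `f a` elements `b a i` with residues at `v a`
  independent over `R / π`; `[E : F] ≤ ∑ e a * f a`.  Then `fam e x s b` (`x a * s a ^ l * b a i`, `l < e a`)
  satisfies `Core`.
-/
import Mathlib
import Fermat.Agent.S34.TwoVal

set_option autoImplicit false
set_option linter.unusedSectionVars false

namespace Fermat.Agent.S36.NVal

open Fermat.Agent.S34

section Core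

variable {R F E : Type*} [CommRing R] [IsDomain R] [Field F] [Field E]
  [Algebra R F] [Algebra F E] [Algebra R E] [IsScalarTower R F E]
variable {κ : Type*} {Γ : κ → Type*} [∀ a, LinearOrderedCommGroupWithZero (Γ a)]
variable {ι : Type*} [Fintype ι]

/-- The core hypotheses: a finite family `g` in `⋂ V_a` which is independent modulo
`π (⋂ V_a)` over `R / π`. -/
structure Core (π : R) (v : ∀ a, Valuation E (Γ a)) (g : ι → E) : Prop where
  inj : Function.Injective (algebraMap R F)
  frac : ∀ c : F, ∃ a s : R, s ≠ 0 ∧ c * algebraMap R F s = algebraMap R F a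
  prime : Prime π
  sep : ∀ r : R, r ≠ 0 → ∃ k : ℕ, ¬ π ^ k ∣ r
  le : ∀ a (r : R), v a (algebraMap R E r) ≤ 1
  hg : ∀ a k, v a (g k) ≤ 1
  ind : ∀ c : ι → R,
    (∀ a, v a (∑ k, algebraMap R E (c k) * g k) ≤ v a (algebraMap R E π)) → ∀ k, π ∣ c k

namespace Core

variable {π : R} {v : ∀ a, Valuation E (Γ a)} {g : ι → E}

theorem injE (h : Core (F := F) π v g) : Function.Injective (algebraMap R E) := by
  rw [IsScalarTower.algebraMap_eq R F E]
  exact (algebraMap F E).injective.comp h.inj

theorem pi_ne_zero (h : Core (F := F) π v g) : algebraMap R E π ≠ 0 := by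
  intro h0
  exact h.prime.ne_zero (h.injE (by rw [h0, map_zero]))

theorem sum_le (h : Core (F := F) π v g) (c : ι → R) (a : κ) :
    v a (∑ k, algebraMap R E (c k) * g k) ≤ 1 := by
  refine (v a).map_sum_le fun k _ => ?_
  rw [map_mul]
  exact mul_le_one' (h.le a _) (h.hg a k)

/-- `π`-adic factorisation. -/
theorem exists_pow_mul (h : Core (F := F) π v g) {d : R} (hd : d ≠ 0) :
    ∃ (n : ℕ) (s : R), ¬ π ∣ s ∧ d = π ^ n * s := by
  obtain ⟨k, hk⟩ := h.sep d hd
  clear hd
  induction k generalizing d with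
  | zero => exact absurd (by simp) hk
  | succ k ih =>
    by_cases hdvd : π ∣ d
    · obtain ⟨d', rfl⟩ := hdvd
      have : ¬ π ^ k ∣ d' := by
        intro h'
        apply hk
        rw [pow_succ']
        exact mul_dvd_mul_left π h'
      obtain ⟨n, s, hs, rfl⟩ := ih this
      exact ⟨n + 1, s, hs, by ring⟩
    · exact ⟨0, d, hdvd, by simp⟩

/-- Descent: a relation `π^n s z = ∑ c_k g_k` with `z ∈ ⋂ V_a` can be divided by `π^n`. -/
theorem descent (h : Core (F := F) π v g) (n : ℕ) (s : R) (c : ι → R) {z : E}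
    (hz : ∀ a, v a z ≤ 1)
    (he : algebraMap R E (π ^ n * s) * z = ∑ k, algebraMap R E (c k) * g k) :
    ∃ c' : ι → R, algebraMap R E s * z = ∑ k, algebraMap R E (c' k) * g k := by
  induction n generalizing c with
  | zero => exact ⟨c, by simpa using he⟩
  | succ n ih =>
    have hle : ∀ a, v a (∑ k, algebraMap R E (c k) * g k) ≤ v a (algebraMap R E π) := by
      intro a
      have e1 : algebraMap R E (π ^ (n + 1) * s) * z
          = algebraMap R E π * (algebraMap R E (π ^ n * s) * z) := by
        rw [pow_succ', mul_assoc, map_mul, mul_assoc]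
      rw [← he, e1, map_mul]
      refine mul_le_of_le_one_right' ?_
      rw [map_mul]
      exact mul_le_one' (h.le a _) (hz a)
    have hdvd := h.ind c hle
    choose c' hc' using hdvd
    refine ih c' ?_
    apply mul_left_cancel₀ h.pi_ne_zero
    rw [← mul_assoc, ← map_mul, ← mul_assoc, ← pow_succ', he, Finset.mul_sum]
    refine Finset.sum_congr rfl fun k _ => ?_
    rw [hc' k, map_mul, mul_assoc]

/-- (T1): `⋂ V_a ⊆ ∑ R_(π) g_k`. -/
theorem exists_smul_eq (h : Core (F := F) π v g)
    (hspan : ∀ z : E, ∃ c : ι → F, z = ∑ k, algebraMap F E (c k) * g k) {z : E}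
    (hz : ∀ a, v a z ≤ 1) :
    ∃ s : R, ¬ π ∣ s ∧ ∃ c : ι → R,
      algebraMap R E s * z = ∑ k, algebraMap R E (c k) * g k := by
  obtain ⟨c, hc⟩ := hspan z
  obtain ⟨d, hd, a, ha⟩ := TwoVal.Core.exists_common_denom h.inj h.frac c
  obtain ⟨n, s, hs, rfl⟩ := h.exists_pow_mul hd
  have he : algebraMap R E (π ^ n * s) * z = ∑ k, algebraMap R E (a k) * g k := by
    conv_lhs => rw [hc]
    rw [Finset.mul_sum]
    refine Finset.sum_congr rfl fun k _ => ?_
    rw [IsScalarTower.algebraMap_apply R F E (a k), ← ha k,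
      IsScalarTower.algebraMap_apply R F E (π ^ n * s)]
    simp only [map_mul]
    ring
  obtain ⟨a', ha'⟩ := h.descent n s a hz he
  exact ⟨s, hs, a', ha'⟩

/-- The family `g` is linearly independent over `F`. -/
theorem linearIndependent (h : Core (F := F) π v g) : LinearIndependent F g := by
  rw [Fintype.linearIndependent_iff]
  intro c hc
  obtain ⟨d, hd, a, ha⟩ := TwoVal.Core.exists_common_denom h.inj h.frac c
  have hsum : ∑ k, algebraMap R E (a k) * g k = 0 := by
    have : ∑ k, algebraMap R E (a k) * g k = algebraMap R E d * ∑ k, c k • g k := by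
      rw [Finset.mul_sum]
      refine Finset.sum_congr rfl fun k _ => ?_
      rw [IsScalarTower.algebraMap_apply R F E (a k), ← ha k,
        IsScalarTower.algebraMap_apply R F E d, Algebra.smul_def]
      simp only [map_mul]
      ring
    rw [this, hc, mul_zero]
  have key : ∀ (n : ℕ) (a : ι → R), ∑ k, algebraMap R E (a k) * g k = 0 → ∀ k, π ^ n ∣ a k := by
    intro n
    induction n with
    | zero => intro a _ k; simp
    | succ n ih =>
      intro a ha0 k
      have hdvd := h.ind a (fun b => by rw [ha0, map_zero]; exact zero_le)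
      choose a' ha' using hdvd
      have h0 : ∑ k, algebraMap R E (a' k) * g k = 0 := by
        apply mul_left_cancel₀ h.pi_ne_zero
        rw [mul_zero, ← ha0, Finset.mul_sum]
        refine Finset.sum_congr rfl fun k _ => ?_
        rw [ha' k, map_mul, mul_assoc]
      rw [ha' k, pow_succ']
      exact mul_dvd_mul_left π (ih a' h0 k)
  intro k
  have hak : a k = 0 := by
    by_contra hne
    obtain ⟨n, hn⟩ := h.sep (a k) hne
    exact hn (key n a hsum k)
  have hd' : algebraMap R F d ≠ 0 := fun h0 => hd (h.inj (by rw [h0, map_zero]))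
  have := ha k
  rw [hak, map_zero] at this
  exact (mul_eq_zero.mp this).resolve_right hd'

/-- If `[E : F] ≤ #ι`, the family `g` spans `E` over `F`. -/
theorem span (h : Core (F := F) π v g) [FiniteDimensional F E]
    (hd : Module.finrank F E ≤ Fintype.card ι) (z : E) :
    ∃ c : ι → F, z = ∑ k, algebraMap F E (c k) * g k := by
  have hli := h.linearIndependent
  have hcard : Fintype.card ι = Module.finrank F E :=
    le_antisymm hli.fintype_card_le_finrank hd
  have htop := hli.span_eq_top_of_card_eq_finrank' hcard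
  have hz : z ∈ Submodule.span F (Set.range g) := by rw [htop]; trivial
  obtain ⟨c, hc⟩ := (Submodule.mem_span_range_iff_exists_fun F).mp hz
  refine ⟨c, ?_⟩
  rw [← hc]
  exact Finset.sum_congr rfl fun k _ => Algebra.smul_def _ _

/-- The degree is exactly the size of the family. -/
theorem card_eq_finrank (h : Core (F := F) π v g) [FiniteDimensional F E]
    (hd : Module.finrank F E ≤ Fintype.card ι) : Fintype.card ι = Module.finrank F E :=
  le_antisymm h.linearIndependent.fintype_card_le_finrank hd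

/-- (T0): every `z ∈ ⋂ V_a` is integral over `R_(π)`: `t z` is integral over `R` for some
`t ∉ π R`.  (`⋂ V_a = ∑ R_(π) g_k` is a ring and a finite `R_(π)`-module.) -/
theorem exists_isIntegral_mul (h : Core (F := F) π v g)
    (hspan : ∀ z : E, ∃ c : ι → F, z = ∑ k, algebraMap F E (c k) * g k) {z : E}
    (hz : ∀ a, v a z ≤ 1) :
    ∃ t : R, ¬ π ∣ t ∧ IsIntegral R (algebraMap R E t * z) := by
  classical
  have hzg : ∀ k, ∀ a, v a (z * g k) ≤ 1 := fun k a => by
    rw [map_mul]
    exact mul_le_one' (hz a) (h.hg a k)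
  choose s hs c hc using fun k => h.exists_smul_eq hspan (hzg k)
  refine ⟨∏ k, s k, ?_, ?_⟩
  · intro hdvd
    obtain ⟨k, -, hk⟩ := (Prime.dvd_finsetProd_iff h.prime _).mp hdvd
    exact hs k hk
  · have hne : ∃ k, g k ≠ 0 := by
      by_contra hcon
      have hall : ∀ k, g k = 0 := fun k => by_contra fun hk => hcon ⟨k, hk⟩
      obtain ⟨c1, hc1⟩ := hspan 1
      rw [Finset.sum_eq_zero (fun k _ => by rw [hall k, mul_zero])] at hc1
      exact one_ne_zero hc1
    obtain ⟨k₀, hk₀⟩ := hne
    refine isIntegral_of_smul_mem_submodule (M := E) (Submodule.span R (Set.range g)) ?_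
      (Submodule.fg_span (Set.finite_range g)) _ ?_
    · intro hbot
      have : g k₀ ∈ Submodule.span R (Set.range g) := Submodule.subset_span ⟨k₀, rfl⟩
      rw [hbot, Submodule.mem_bot] at this
      exact hk₀ this
    · intro n hn
      induction hn using Submodule.span_induction with
      | mem y hy =>
        obtain ⟨k, rfl⟩ := hy
        have e1 : (algebraMap R E (∏ k, s k) * z) • g k
            = ∑ j, (c k j * ∏ k' ∈ Finset.univ.erase k, s k') • g j := by
          rw [← Finset.mul_prod_erase Finset.univ s (Finset.mem_univ k), smul_eq_mul, map_mul]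
          have e2 : algebraMap R E (s k) * algebraMap R E (∏ k' ∈ Finset.univ.erase k, s k') * z
              * g k = algebraMap R E (∏ k' ∈ Finset.univ.erase k, s k')
                * (algebraMap R E (s k) * (z * g k)) := by ring
          rw [e2, hc k, Finset.mul_sum]
          refine Finset.sum_congr rfl fun j _ => ?_
          rw [Algebra.smul_def, map_mul]
          ring
        rw [e1]
        exact Submodule.sum_mem _ fun j _ =>
          Submodule.smul_mem _ _ (Submodule.subset_span ⟨j, rfl⟩)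
      | zero => rw [smul_zero]; exact Submodule.zero_mem _
      | add y y' _ _ hy hy' => rw [smul_add]; exact Submodule.add_mem _ hy hy'
      | smul r y _ hy =>
        rw [smul_comm]
        exact Submodule.smul_mem _ r hy

/-- (T2): if `R` is integrally closed in `F`, then `z ∈ ⋂ V_a` and `π z` integral over `R`
imply `z` integral over `R`.  (No integrality hypothesis on the family `g`.) -/
theorem isIntegral_of_pi_mul (h : Core (F := F) π v g)
    (hspan : ∀ z : E, ∃ c : ι → F, z = ∑ k, algebraMap F E (c k) * g k)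
    (closed : ∀ c : F, IsIntegral R c → ∃ r : R, algebraMap R F r = c)
    {z : E} (hz : ∀ a, v a z ≤ 1)
    (hπz : IsIntegral R (algebraMap R E π * z)) : IsIntegral R z := by
  obtain ⟨t, ht, hint⟩ := h.exists_isIntegral_mul hspan hz
  exact TwoVal.isIntegral_of_two h.inj h.frac closed h.prime ht hπz hint

/-- (T2), iterated: `π ^ n * z` integral and `z ∈ ⋂ V_a` imply `z` integral. -/
theorem isIntegral_of_pi_pow_mul (h : Core (F := F) π v g)
    (hspan : ∀ z : E, ∃ c : ι → F, z = ∑ k, algebraMap F E (c k) * g k)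
    (closed : ∀ c : F, IsIntegral R c → ∃ r : R, algebraMap R F r = c)
    (n : ℕ) {z : E} (hz : ∀ a, v a z ≤ 1)
    (hπz : IsIntegral R (algebraMap R E π ^ n * z)) : IsIntegral R z := by
  induction n with
  | zero => simpa using hπz
  | succ n ih =>
    refine ih (h.isIntegral_of_pi_mul hspan closed (z := algebraMap R E π ^ n * z) ?_ ?_)
    · intro a
      rw [map_mul, map_pow]
      exact mul_le_one' (pow_le_one₀ zero_le (h.le a π)) (hz a)
    · rwa [← mul_assoc, ← pow_succ']

/-- The `V_a` are "all": any valuation `w` of `E` which is `≤ 1` on `R` and `= 1` on `R ∖ π R`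
is `≤ 1` on `⋂ V_a`. -/
theorem val_le_one_of_forall (h : Core (F := F) π v g)
    (hspan : ∀ z : E, ∃ c : ι → F, z = ∑ k, algebraMap F E (c k) * g k)
    {Γ' : Type*} [LinearOrderedCommGroupWithZero Γ'] (w : Valuation E Γ')
    (hw : ∀ r : R, w (algebraMap R E r) ≤ 1)
    (hw' : ∀ r : R, ¬ π ∣ r → w (algebraMap R E r) = 1) {z : E} (hz : ∀ a, v a z ≤ 1) :
    w z ≤ 1 := by
  obtain ⟨t, ht, hint⟩ := h.exists_isIntegral_mul hspan hz
  have := TwoVal.val_le_one_of_isIntegral w hw hint
  rwa [map_mul, hw' t ht, one_mul] at this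

end Core

end Core

section OneVal

variable {E : Type*} [Field E] {Γ₀ : Type*} [LinearOrderedCommGroupWithZero Γ₀]

/-- One valuation `w`, `s` with `0 < w s < 1`, `ϖ ≤ w s ^ e`: if `w (B l) ≤ 1` for all `l < e`,
`w (B l₀) = 1` and `w (B l) ≤ ϖ` for `l < l₀`, then `ϖ < w (∑ l, s ^ l * B l)`. -/
theorem lt_val_sum_pow (w : Valuation E Γ₀) (s : E) (ϖ : Γ₀) (e : ℕ) (hs : w s < 1)
    (hϖ0 : ϖ ≠ 0) (hϖ : ϖ ≤ w s ^ e) (B : Fin e → E) (hB : ∀ l, w (B l) ≤ 1) (l₀ : Fin e)
    (h1 : w (B l₀) = 1) (hlt : ∀ l < l₀, w (B l) ≤ ϖ) :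
    ϖ < w (∑ l : Fin e, s ^ (l : ℕ) * B l) := by
  classical
  have hs0 : 0 < w s := by
    rw [zero_lt_iff]
    intro h0
    rw [h0, zero_pow (by have := l₀.2; omega)] at hϖ
    exact hϖ0 (le_antisymm hϖ zero_le)
  have hmain : w (s ^ (l₀ : ℕ) * B l₀) = w s ^ (l₀ : ℕ) := by rw [map_mul, map_pow, h1, mul_one]
  have hpos : w s ^ (l₀ : ℕ) ≠ 0 := pow_ne_zero _ hs0.ne'
  have hel₀ : w s ^ e < w s ^ (l₀ : ℕ) := pow_lt_pow_right_of_lt_one₀ hs0 hs l₀.2
  have hrest : w (∑ l ∈ Finset.univ.erase l₀, s ^ (l : ℕ) * B l) < w s ^ (l₀ : ℕ) := by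
    refine w.map_sum_lt hpos fun l hl => ?_
    have hne : l ≠ l₀ := Finset.ne_of_mem_erase hl
    rw [map_mul, map_pow]
    rcases lt_or_gt_of_ne hne with hl' | hl'
    · calc w s ^ (l : ℕ) * w (B l) ≤ 1 * ϖ :=
            mul_le_mul' (pow_le_one₀ zero_le hs.le) (hlt l hl')
        _ = ϖ := one_mul _
        _ ≤ w s ^ e := hϖ
        _ < w s ^ (l₀ : ℕ) := hel₀
    · calc w s ^ (l : ℕ) * w (B l) ≤ w s ^ (l : ℕ) * 1 := mul_le_mul' le_rfl (hB l)
        _ = w s ^ (l : ℕ) := mul_one _
        _ < w s ^ (l₀ : ℕ) := pow_lt_pow_right_of_lt_one₀ hs0 hs (Fin.lt_def.mp hl')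
  have hsum : w (∑ l : Fin e, s ^ (l : ℕ) * B l) = w s ^ (l₀ : ℕ) := by
    rw [← Finset.add_sum_erase Finset.univ _ (Finset.mem_univ l₀), ← hmain]
    exact Valuation.map_add_eq_of_lt_left w (by rw [hmain]; exact hrest)
  rw [hsum]
  exact lt_of_le_of_lt hϖ hel₀

end OneVal

section Setting

variable {R F E : Type*} [CommRing R] [IsDomain R] [Field F] [Field E]
  [Algebra R F] [Algebra F E] [Algebra R E] [IsScalarTower R F E]
variable {κ : Type*} [Fintype κ] {Γ : κ → Type*} [∀ a, LinearOrderedCommGroupWithZero (Γ a)]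

/-- **The several-valuation setting with multiplicities.**  For each `a : κ`: a lower bound
`e a` for the ramification (`v a π ≤ v a (s a) ^ e a`, `v a (s a) < 1`), a lower bound `f a` for
the residue degree (`b a i`, `i < f a`, with residues at `v a` independent over `R / π`), and a
separating element `x a` (`v a (x a) = 1`, `v b (x a) ≤ v b π` for `b ≠ a`); all elements in
`⋂ V_b`; `[E : F] ≤ ∑ e a * f a`. -/
structure Setting (π : R) (v : ∀ a, Valuation E (Γ a)) (e f : κ → ℕ) (x s : κ → E)
    (b : ∀ a, Fin (f a) → E) : Prop where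
  inj : Function.Injective (algebraMap R F)
  frac : ∀ c : F, ∃ a s : R, s ≠ 0 ∧ c * algebraMap R F s = algebraMap R F a
  prime : Prime π
  sep : ∀ r : R, r ≠ 0 → ∃ k : ℕ, ¬ π ^ k ∣ r
  le : ∀ a (r : R), v a (algebraMap R E r) ≤ 1
  hx : ∀ a, v a (x a) = 1
  hx' : ∀ a a', a' ≠ a → v a (x a') ≤ v a (algebraMap R E π)
  hs : ∀ a, v a (s a) < 1
  hs' : ∀ a a', v a (s a') ≤ 1
  hπ : ∀ a, v a (algebraMap R E π) ≤ v a (s a) ^ e a
  hb : ∀ a a' (i : Fin (f a')), v a (b a' i) ≤ 1
  ind : ∀ a (c : Fin (f a) → R), v a (∑ i, algebraMap R E (c i) * b a i) < 1 → ∀ i, π ∣ c i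
  fin : FiniteDimensional F E
  deg : Module.finrank F E ≤ ∑ a, e a * f a

/-- The index type of the adapted family. -/
abbrev Idx (e f : κ → ℕ) : Type _ := Σ a : κ, Fin (e a) × Fin (f a)

/-- The family `x a * s a ^ l * b a i`. -/
def fam (e : κ → ℕ) {f : κ → ℕ} (x s : κ → E) (b : ∀ a, Fin (f a) → E) : Idx e f → E :=
  fun k => x k.1 * s k.1 ^ (k.2.1 : ℕ) * b k.1 k.2.2

theorem card_idx (e f : κ → ℕ) : Fintype.card (Idx e f) = ∑ a, e a * f a := by
  simp [Idx, Fintype.card_sigma]

namespace Setting

variable {π : R} {v : ∀ a, Valuation E (Γ a)} {e f : κ → ℕ} {x s : κ → E}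
  {b : ∀ a, Fin (f a) → E}

theorem injE (S : Setting (F := F) π v e f x s b) : Function.Injective (algebraMap R E) := by
  rw [IsScalarTower.algebraMap_eq R F E]
  exact (algebraMap F E).injective.comp S.inj

theorem val_pi_ne_zero (S : Setting (F := F) π v e f x s b) (a : κ) :
    v a (algebraMap R E π) ≠ 0 := by
  rw [Valuation.ne_zero_iff]
  intro h0
  exact S.prime.ne_zero (S.injE (by rw [h0, map_zero]))

/-- the inner sum `B_l = ∑ i, c (a, l, i) * b a i` -/
theorem val_inner_le (S : Setting (F := F) π v e f x s b) (a : κ) (c : Fin (f a) → R) :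
    v a (∑ i, algebraMap R E (c i) * b a i) ≤ 1 := by
  refine (v a).map_sum_le fun i _ => ?_
  rw [map_mul]
  exact mul_le_one' (S.le a _) (S.hb a a i)

theorem val_inner_le_pi (S : Setting (F := F) π v e f x s b) (a : κ) (c : Fin (f a) → R)
    (hc : ∀ i, π ∣ c i) :
    v a (∑ i, algebraMap R E (c i) * b a i) ≤ v a (algebraMap R E π) := by
  refine (v a).map_sum_le fun i _ => ?_
  obtain ⟨c', hc'⟩ := hc i
  have e1 : algebraMap R E (c i) * b a i
      = algebraMap R E π * (algebraMap R E c' * b a i) := by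
    rw [hc', map_mul, mul_assoc]
  rw [e1, map_mul]
  refine mul_le_of_le_one_right' ?_
  rw [map_mul]
  exact mul_le_one' (S.le a _) (S.hb a a i)

theorem val_inner_eq_one (S : Setting (F := F) π v e f x s b) (a : κ) (c : Fin (f a) → R)
    (hc : ¬ ∀ i, π ∣ c i) : v a (∑ i, algebraMap R E (c i) * b a i) = 1 :=
  le_antisymm (S.val_inner_le a c) (not_lt.mp fun hlt => hc (S.ind a c hlt))

/-- The block of the family belonging to `a' ≠ a` is `≡ 0` modulo `π V_a`. -/
theorem val_block_le (S : Setting (F := F) π v e f x s b) (a a' : κ) (ha : a' ≠ a)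
    (c : Fin (e a') × Fin (f a') → R) :
    v a (∑ p, algebraMap R E (c p) * (x a' * s a' ^ (p.1 : ℕ) * b a' p.2))
      ≤ v a (algebraMap R E π) := by
  refine (v a).map_sum_le fun p _ => ?_
  have e1 : algebraMap R E (c p) * (x a' * s a' ^ (p.1 : ℕ) * b a' p.2)
      = x a' * (algebraMap R E (c p) * s a' ^ (p.1 : ℕ) * b a' p.2) := by ring
  rw [e1, map_mul]
  refine (mul_le_mul' (S.hx' a a' ha) ?_).trans (mul_one _).le
  rw [map_mul, map_mul, map_pow]
  exact mul_le_one' (mul_le_one' (S.le a _) (pow_le_one₀ zero_le (S.hs' a a'))) (S.hb a a' _)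

/-- The adapted family satisfies `Core`. -/
theorem core (S : Setting (F := F) π v e f x s b) : Core (F := F) π v (fam e x s b) where
  inj := S.inj
  frac := S.frac
  prime := S.prime
  sep := S.sep
  le := S.le
  hg := by
    intro a k
    unfold fam
    rw [map_mul, map_mul, map_pow]
    refine mul_le_one' (mul_le_one' ?_ (pow_le_one₀ zero_le (S.hs' a k.1))) (S.hb a k.1 _)
    by_cases hk : k.1 = a
    · subst hk
      exact (S.hx _).le
    · exact (S.hx' a k.1 hk).trans (S.le a π)
  ind := by
    classical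
    intro c hc
    -- it suffices to treat each block
    suffices H : ∀ a (l : Fin (e a)) (i : Fin (f a)), π ∣ c ⟨a, l, i⟩ from
      fun k => H k.1 k.2.1 k.2.2
    intro a
    -- the `a`-block modulo `π V_a`
    have hsplit : ∑ k, algebraMap R E (c k) * fam e x s b k
        = ∑ a', ∑ p : Fin (e a') × Fin (f a'),
            algebraMap R E (c ⟨a', p⟩) * (x a' * s a' ^ (p.1 : ℕ) * b a' p.2) := by
      rw [Fintype.sum_sigma]
      rfl
    have hblock : v a (∑ p : Fin (e a) × Fin (f a),
        algebraMap R E (c ⟨a, p⟩) * (x a * s a ^ (p.1 : ℕ) * b a p.2))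
        ≤ v a (algebraMap R E π) := by
      have h1 := hc a
      rw [hsplit, ← Finset.add_sum_erase Finset.univ _ (Finset.mem_univ a)] at h1
      have h2 : v a (∑ a' ∈ Finset.univ.erase a, ∑ p : Fin (e a') × Fin (f a'),
          algebraMap R E (c ⟨a', p⟩) * (x a' * s a' ^ (p.1 : ℕ) * b a' p.2))
          ≤ v a (algebraMap R E π) :=
        (v a).map_sum_le fun a' ha' =>
          S.val_block_le a a' (Finset.ne_of_mem_erase ha') (fun p => c ⟨a', p⟩)
      have h3 := (v a).map_sub_le h1 h2
      rwa [add_sub_cancel_right] at h3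
    -- rewrite the block as `x a * ∑ l, s a ^ l * B l`
    set B : Fin (e a) → E := fun l => ∑ i, algebraMap R E (c ⟨a, l, i⟩) * b a i with hBdef
    have hrew : ∑ p : Fin (e a) × Fin (f a),
        algebraMap R E (c ⟨a, p⟩) * (x a * s a ^ (p.1 : ℕ) * b a p.2)
        = x a * ∑ l : Fin (e a), s a ^ (l : ℕ) * B l := by
      rw [Fintype.sum_prod_type, Finset.mul_sum]
      refine Finset.sum_congr rfl fun l _ => ?_
      rw [hBdef, Finset.mul_sum, Finset.mul_sum]
      refine Finset.sum_congr rfl fun i _ => ?_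
      ring
    rw [hrew, map_mul, S.hx a, one_mul] at hblock
    -- strong induction on `l`
    have key : ∀ (n : ℕ) (l : Fin (e a)), (l : ℕ) = n → ∀ i, π ∣ c ⟨a, l, i⟩ := by
      intro n
      induction n using Nat.strong_induction_on with
      | _ n ih =>
        intro l hl
        by_contra hcon
        have h1 : v a (B l) = 1 := S.val_inner_eq_one a (fun i => c ⟨a, l, i⟩) hcon
        have hlt : ∀ l' < l, v a (B l') ≤ v a (algebraMap R E π) := fun l' hl' =>
          S.val_inner_le_pi a (fun i => c ⟨a, l', i⟩)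
            (ih (l' : ℕ) (by rw [← hl]; exact Fin.lt_def.mp hl') l' rfl)
        have := lt_val_sum_pow (v a) (s a) (v a (algebraMap R E π)) (e a) (S.hs a)
          (S.val_pi_ne_zero a) (S.hπ a) B
          (fun l' => S.val_inner_le a (fun i => c ⟨a, l', i⟩)) l h1 hlt
        exact absurd hblock (not_le.mpr this)
    exact fun l i => key (l : ℕ) l rfl i

theorem card_le (S : Setting (F := F) π v e f x s b) :
    Module.finrank F E ≤ Fintype.card (Idx e f) := by
  rw [card_idx]
  exact S.deg

/-- The adapted family is an `F`-basis of `E` (linear independence). -/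
theorem linearIndependent (S : Setting (F := F) π v e f x s b) :
    LinearIndependent F (fam e x s b) :=
  S.core.linearIndependent

/-- The degree is exactly `∑ e a * f a`. -/
theorem finrank_eq (S : Setting (F := F) π v e f x s b) :
    Module.finrank F E = ∑ a, e a * f a := by
  have := S.fin
  rw [← card_idx]
  exact (S.core.card_eq_finrank S.card_le).symm

theorem span (S : Setting (F := F) π v e f x s b) (z : E) :
    ∃ c : Idx e f → F, z = ∑ k, algebraMap F E (c k) * fam e x s b k :=
  have := S.fin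
  S.core.span S.card_le z

/-- (T1) `⋂ V_a ⊆ ∑ R_(π) g_k`. -/
theorem exists_smul_eq (S : Setting (F := F) π v e f x s b) {z : E} (hz : ∀ a, v a z ≤ 1) :
    ∃ t : R, ¬ π ∣ t ∧ ∃ c : Idx e f → R,
      algebraMap R E t * z = ∑ k, algebraMap R E (c k) * fam e x s b k :=
  S.core.exists_smul_eq S.span hz

/-- (T0) every `z ∈ ⋂ V_a` is integral over `R_(π)`. -/
theorem exists_isIntegral_mul (S : Setting (F := F) π v e f x s b) {z : E}
    (hz : ∀ a, v a z ≤ 1) : ∃ t : R, ¬ π ∣ t ∧ IsIntegral R (algebraMap R E t * z) :=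
  S.core.exists_isIntegral_mul S.span hz

/-- (T2) `z ∈ ⋂ V_a`, `π z` integral over the integrally closed `R` ⟹ `z` integral over `R`. -/
theorem isIntegral_of_pi_mul (S : Setting (F := F) π v e f x s b)
    (closed : ∀ c : F, IsIntegral R c → ∃ r : R, algebraMap R F r = c)
    {z : E} (hz : ∀ a, v a z ≤ 1)
    (hπz : IsIntegral R (algebraMap R E π * z)) : IsIntegral R z :=
  S.core.isIntegral_of_pi_mul S.span closed hz hπz

/-- (T2), iterated. -/
theorem isIntegral_of_pi_pow_mul (S : Setting (F := F) π v e f x s b)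
    (closed : ∀ c : F, IsIntegral R c → ∃ r : R, algebraMap R F r = c) (n : ℕ)
    {z : E} (hz : ∀ a, v a z ≤ 1)
    (hπz : IsIntegral R (algebraMap R E π ^ n * z)) : IsIntegral R z :=
  S.core.isIntegral_of_pi_pow_mul S.span closed n hz hπz

/-- The `V_a` are "all": any valuation `w` of `E` which is `≤ 1` on `R` and `= 1` on `R ∖ π R`
is `≤ 1` on `⋂ V_a`. -/
theorem val_le_one_of_forall (S : Setting (F := F) π v e f x s b)
    {Γ' : Type*} [LinearOrderedCommGroupWithZero Γ'] (w : Valuation E Γ')
    (hw : ∀ r : R, w (algebraMap R E r) ≤ 1)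
    (hw' : ∀ r : R, ¬ π ∣ r → w (algebraMap R E r) = 1) {z : E} (hz : ∀ a, v a z ≤ 1) :
    w z ≤ 1 :=
  S.core.val_le_one_of_forall S.span w hw hw' hz

end Setting

end Setting

section Subring

variable {R F E : Type*} [CommRing R] [IsDomain R] [Field F] [Field E]
  [Algebra R F] [Algebra F E] [Algebra R E] [IsScalarTower R F E]
variable {κ : Type*} [Fintype κ]

/-- (T2) for valuation subrings `V a` (`v a := (V a).valuation`): `z ∈ ⋂ V a` and `π z` integral
over the integrally closed `R` imply `z` integral over `R`. -/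
theorem isIntegral_of_pi_mul_of_mem (V : κ → ValuationSubring E) {π : R} {e f : κ → ℕ}
    {x s : κ → E} {b : ∀ a, Fin (f a) → E}
    (S : Setting (F := F) π (fun a => (V a).valuation) e f x s b)
    (closed : ∀ c : F, IsIntegral R c → ∃ r : R, algebraMap R F r = c)
    {z : E} (hz : ∀ a, z ∈ V a)
    (hπz : IsIntegral R (algebraMap R E π * z)) : IsIntegral R z :=
  S.isIntegral_of_pi_mul closed (fun a => ((V a).valuation_le_one_iff z).mpr (hz a)) hπz

/-- (T0) for valuation subrings: every `z ∈ ⋂ V a` is integral over `R_(π)`. -/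
theorem exists_isIntegral_mul_of_mem (V : κ → ValuationSubring E) {π : R} {e f : κ → ℕ}
    {x s : κ → E} {b : ∀ a, Fin (f a) → E}
    (S : Setting (F := F) π (fun a => (V a).valuation) e f x s b)
    {z : E} (hz : ∀ a, z ∈ V a) :
    ∃ t : R, ¬ π ∣ t ∧ IsIntegral R (algebraMap R E t * z) :=
  S.exists_isIntegral_mul (fun a => ((V a).valuation_le_one_iff z).mpr (hz a))

/-- The `V a` are all the valuation rings of `E` dominating `R_(π)`, in the form: a valuation
subring `W` containing `R` in which every element of `R ∖ π R` is a unit contains `⋂ V a`. -/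
theorem mem_of_forall_mem (V : κ → ValuationSubring E) {π : R} {e f : κ → ℕ}
    {x s : κ → E} {b : ∀ a, Fin (f a) → E}
    (S : Setting (F := F) π (fun a => (V a).valuation) e f x s b)
    (W : ValuationSubring E) (hW : ∀ r : R, algebraMap R E r ∈ W)
    (hW' : ∀ r : R, ¬ π ∣ r → (algebraMap R E r)⁻¹ ∈ W) {z : E} (hz : ∀ a, z ∈ V a) : z ∈ W := by
  rw [← W.valuation_le_one_iff]
  refine S.val_le_one_of_forall W.valuation
    (fun r => (W.valuation_le_one_iff _).mpr (hW r)) (fun r hr => ?_)
    (fun a => ((V a).valuation_le_one_iff z).mpr (hz a))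
  refine le_antisymm ((W.valuation_le_one_iff _).mpr (hW r)) ?_
  have h1 : W.valuation (algebraMap R E r)⁻¹ ≤ 1 := (W.valuation_le_one_iff _).mpr (hW' r hr)
  have hr0 : algebraMap R E r ≠ 0 := by
    intro h0
    apply hr
    have : r = 0 := S.injE (by rw [h0, map_zero])
    rw [this]
    exact dvd_zero π
  rw [map_inv₀] at h1
  have h2 : W.valuation (algebraMap R E r) ≠ 0 := (Valuation.ne_zero_iff _).mpr hr0
  exact (inv_le_one₀ (zero_lt_iff.mpr h2)).mp h1

end Subring

end Fermat.Agent.S36.NVal
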