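/-
S36 — Red3.lean (helper30), package [MODEL3], leaf [M3.5] `Red3`.

Reducedness ("desc") of the charts at a level `N` divisible by `M` along an ABSTRACT subring
`W ⊆ F_K(N)` (in the application `N = (M * q) * q`, `q ∤ M`, and `W = W1 ⊓ W2 ⊓ W3` is the
intersection of the three component valuation rings):

    `z ∈ W`,  `π z ∈ chart_N(t')`   ⟹   `z ∈ chart_N(t')`.

Everything is in HYPOTHESIS FORM over the integrality input, in two interchangeable shapes:

* `desc_of_int` / `desc0_of_int` / `descInf_of_int`  (DVR route, `S34.Red2.desc_of_isIntegralElem`):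
  the input is (INT) "every `z ∈ W` is integral over the level-`M` Gauss valuation ring `V1(M)`"
  (what a degree count `∑ e f = [F_K(N) : F_K(M)]` over the DVR `V1(M)` provides);
* `desc_of_chartInt` / `desc0_of_chartInt` / `descInf_of_chartInt`  (chart route): the input is
  "for `z ∈ W`, `π z` integral over the level-`M` chart implies `z` integral over the level-`M`
  chart" (what a chart-level `N`-valuation setting provides).

Integrality is stated with `RingHom.IsIntegralElem` along the explicit ring homomorphisms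
`intHom`, `chartHom`, so the statements do not depend on any choice of `Algebra` instance.

* `desc_coord`, `descInv_coord` : the same for another coordinate `J` with
  `chart_N(J) = chart_N(j)` (e.g. a symmetric coordinate), the chart at infinity `chart_N(J⁻¹)`
  being handled by `S34.RegInf.descInf_of_desc0'`;
* `desc_symJ`, `descInv_symJ` : the coordinate of record of MODEL3, `J = j * jqq`
  (`S34.ChartJ.symJ N K jqq`, `jqq` any element with `j`, `jqq` integral over each other — in the
  application `jqq = j(Q^{q²})`), for the two charts `chart_N(J)`, `chart_N(J⁻¹)`.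

The level-`M` input (`q ∤ M`) is `S18.ModelAll.modelStatement` through
`S34.Red2.red_of_chartFacts`.
-/
import Mathlib
import Fermat.Agent.S34.Red2
import Fermat.Agent.S34.RegInf
import Fermat.Agent.S34.ChartJ

set_option autoImplicit false
set_option linter.unusedSectionVars false
set_option linter.style.haveILetI false

noncomputable section

namespace Fermat.Agent.S36.Red3

open ModularCurve ModularCurve.IgusaScheme AlgebraicCurve HahnSeries
open Fermat.Agent.S18 Fermat.Agent.S18.Arith Fermat.Agent.S18.ModelPlan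
open Fermat.Agent.S34

variable (M N : ℕ) [NeZero M] [NeZero N] (h : M ∣ N)
variable {A : ValuationSubring Qb} {K : IntermediateField ℚ Qb}

/-- The ring homomorphism `V1(M) → F_K(N)` (Gauss valuation ring of level `M`, included in the
level-`N` function field). -/
def intHom (hdvr : IsDiscreteValuationRing (OK A K)) :
    ↥(GaussV.V1 M A K hdvr) →+* ↥(FK N K) :=
  (DegTower.incl M N K h).comp (GaussV.V1 M A K hdvr).subtype

/-- The ring homomorphism `chart_M(t) → F_K(N)`. -/
def chartHom (A : ValuationSubring Qb) (t : FK M K) : ↥(chart M A K t) →+* ↥(FK N K) :=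
  (DegTower.incl M N K h).comp (chart M A K t).toSubring.subtype

omit [NeZero M] [NeZero N] in
theorem chartHom_apply (t : FK M K) (r : ↥(chart M A K t)) :
    chartHom M N h A t r = DegTower.incl M N K h (r : FK M K) := rfl

omit [NeZero M] [NeZero N] in
theorem incl_algebraMap (c : OK A K) :
    DegTower.incl M N K h (algebraMap (OK A K) (FK M K) c) = algebraMap (OK A K) (FK N K) c :=
  DegTower.incl_constK M N K h (c : K)

/-! ### DVR route -/

/-- **[Red3], hypothesis form (INT), generic coordinate.**  If the level-`M` chart of a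
Gauss-integral coordinate `t` is reduced along `V1(M)` and every element of `W` is integral over
`V1(M)`, then the level-`N` chart of (the image of) `t` is reduced along `W`. -/
theorem desc_of_int (hdvr : IsDiscreteValuationRing (OK A K)) {π : OK A K} (hπ0 : π ≠ 0)
    (t : FK M K) (ht : t ∈ GaussV.V1 M A K hdvr)
    (hred : ∀ a ∈ GaussV.V1 M A K hdvr,
      algebraMap (OK A K) (FK M K) π * a ∈ chart M A K t → a ∈ chart M A K t)
    (W : Subring (FK N K))
    (hINT : ∀ z ∈ W, (intHom M N h hdvr).IsIntegralElem z) :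
    ∀ z ∈ W, algebraMap (OK A K) (FK N K) π * z ∈ chart N A K (DegTower.incl M N K h t) →
      z ∈ chart N A K (DegTower.incl M N K h t) := fun z hz hπz =>
  Red2.desc_of_isIntegralElem hdvr (DegTower.incl M N K h) (incl_algebraMap M N h) hπ0 t ht hred z
    (hINT z hz) hπz

/-- **[Red3] `desc0`, hypothesis form (INT)**: the chart `j ≠ ∞` at level `N` is reduced along
`W`, for `M ∣ N`, `q ∤ M`, `A` over `q`. -/
theorem desc0_of_int (q : ℕ) (hq : q.Prime) (hqM : ¬ q ∣ M) (hA : A.LiesOverPrime q)
    (hB : BaseFacts q A K) {π : OK A K} (hπ : Irreducible π) (W : Subring (FK N K))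
    (hINT : ∀ z ∈ W, (intHom M N h hB.dvr).IsIntegralElem z) :
    ∀ z ∈ W, algebraMap (OK A K) (FK N K) π * z ∈ chart N A K (jK N K) →
      z ∈ chart N A K (jK N K) := by
  have : Fact q.Prime := ⟨hq⟩
  have hMF := ModelAll.modelStatement M q hqM A hA K hB
  have h1 := desc_of_int M N h hB.dvr hπ.ne_zero (jK M K) (GaussV.jK_mem_V1 hB.dvr)
    (Red2.red_of_chartFacts hB.dvr (R0 M q A K) (jK M K) hMF.c0 hπ) W hINT
  rwa [DegTower.incl_jK] at h1

/-- **[Red3] `descInf`, hypothesis form (INT)**: the chart `j ≠ 0` at level `N` is reduced along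
`W`. -/
theorem descInf_of_int (q : ℕ) (hq : q.Prime) (hqM : ¬ q ∣ M) (hA : A.LiesOverPrime q)
    (hB : BaseFacts q A K) {π : OK A K} (hπ : Irreducible π) (W : Subring (FK N K))
    (hINT : ∀ z ∈ W, (intHom M N h hB.dvr).IsIntegralElem z) :
    ∀ z ∈ W, algebraMap (OK A K) (FK N K) π * z ∈ chart N A K (jK N K)⁻¹ →
      z ∈ chart N A K (jK N K)⁻¹ := by
  have : Fact q.Prime := ⟨hq⟩
  have hMF := ModelAll.modelStatement M q hqM A hA K hB
  have h1 := desc_of_int M N h hB.dvr hπ.ne_zero (jK M K)⁻¹ (GaussV.jK_inv_mem_V1 hB.dvr)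
    (Red2.red_of_chartFacts hB.dvr (Rinf M q A K) (jK M K)⁻¹ hMF.cInf hπ) W hINT
  rwa [map_inv₀, DegTower.incl_jK] at h1

/-! ### Chart route -/

omit [NeZero M] [NeZero N] in
/-- Integral over `O[ι t]` (level `N`) implies integral over the level-`M` chart of `t`. -/
theorem isIntegralElem_chartHom_of_isIntegral (t : FK M K) {y : FK N K}
    (hy : IsIntegral (Algebra.adjoin (OK A K) {DegTower.incl M N K h t}) y) :
    (chartHom M N h A t).IsIntegralElem y := by
  letI : Algebra ↥(chart M A K t) ↥(FK N K) := (chartHom M N h A t).toAlgebra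
  have key : IsIntegral ↥(chart M A K t) y := by
    refine Red2.isIntegral_of_forall_isIntegral
      (T := Algebra.adjoin (OK A K) {DegTower.incl M N K h t}) ?_ hy
    intro c
    obtain ⟨x, hx, hxc⟩ := Red2.exists_of_mem_adjoin (DegTower.incl M N K h)
      (incl_algebraMap M N h) t c.2
    have hxR : x ∈ chart M A K t :=
      (isIntegral_algebraMap (x := (⟨x, hx⟩ : Algebra.adjoin (OK A K) {t})))
    have h2 : algebraMap (Algebra.adjoin (OK A K) {DegTower.incl M N K h t}) (FK N K) c =
        algebraMap ↥(chart M A K t) (FK N K) ⟨x, hxR⟩ := hxc.symm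
    rw [h2]
    exact isIntegral_algebraMap
  exact key

omit [NeZero M] [NeZero N] in
/-- Integral over the level-`M` chart of `t` implies integral over `O[ι t]` (level `N`). -/
theorem isIntegral_of_isIntegralElem_chartHom (t : FK M K) {y : FK N K}
    (hy : (chartHom M N h A t).IsIntegralElem y) :
    IsIntegral (Algebra.adjoin (OK A K) {DegTower.incl M N K h t}) y := by
  letI : Algebra ↥(chart M A K t) ↥(FK N K) := (chartHom M N h A t).toAlgebra
  have hy' : IsIntegral ↥(chart M A K t) y := hy
  refine Red2.isIntegral_of_forall_isIntegral (T := ↥(chart M A K t)) ?_ hy'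
  intro c
  exact Red2.isIntegral_map_adjoin (DegTower.incl M N K h) (incl_algebraMap M N h) t c.2

omit [NeZero M] [NeZero N] in
/-- **[Red3], hypothesis form (chart route), generic coordinate.**  If, for `z ∈ W`,
integrality of `π z` over the level-`M` chart of `t` implies integrality of `z`, then the
level-`N` chart of (the image of) `t` is reduced along `W`. -/
theorem desc_of_chartInt {π : OK A K} (t : FK M K) (W : Subring (FK N K))
    (H : ∀ z ∈ W, (chartHom M N h A t).IsIntegralElem (algebraMap (OK A K) (FK N K) π * z) →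
      (chartHom M N h A t).IsIntegralElem z) :
    ∀ z ∈ W, algebraMap (OK A K) (FK N K) π * z ∈ chart N A K (DegTower.incl M N K h t) →
      z ∈ chart N A K (DegTower.incl M N K h t) := fun z hz hπz =>
  isIntegral_of_isIntegralElem_chartHom M N h t
    (H z hz (isIntegralElem_chartHom_of_isIntegral M N h t hπz))

/-- **[Red3] `desc0`, hypothesis form (chart route)**. -/
theorem desc0_of_chartInt {π : OK A K} (W : Subring (FK N K))
    (H : ∀ z ∈ W,
      (chartHom M N h A (jK M K)).IsIntegralElem (algebraMap (OK A K) (FK N K) π * z) →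
      (chartHom M N h A (jK M K)).IsIntegralElem z) :
    ∀ z ∈ W, algebraMap (OK A K) (FK N K) π * z ∈ chart N A K (jK N K) →
      z ∈ chart N A K (jK N K) := by
  have h1 := desc_of_chartInt M N h (jK M K) W H
  rwa [DegTower.incl_jK] at h1

/-- **[Red3] `descInf`, hypothesis form (chart route)**: over the level-`M` chart `j ≠ 0`. -/
theorem descInf_of_chartInt {π : OK A K} (W : Subring (FK N K))
    (H : ∀ z ∈ W,
      (chartHom M N h A (jK M K)⁻¹).IsIntegralElem (algebraMap (OK A K) (FK N K) π * z) →
      (chartHom M N h A (jK M K)⁻¹).IsIntegralElem z) :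
    ∀ z ∈ W, algebraMap (OK A K) (FK N K) π * z ∈ chart N A K (jK N K)⁻¹ →
      z ∈ chart N A K (jK N K)⁻¹ := by
  have h1 := desc_of_chartInt M N h (jK M K)⁻¹ W H
  rwa [map_inv₀, DegTower.incl_jK] at h1

/-! ### Other coordinates -/

/-- **desc for another coordinate** `J` with `chart_N(J) = chart_N(j)`. -/
theorem desc_coord {π : OK A K} (J : FK N K) (hJ : chart N A K J = chart N A K (jK N K))
    (W : Subring (FK N K))
    (hdesc : ∀ z ∈ W, algebraMap (OK A K) (FK N K) π * z ∈ chart N A K (jK N K) →
      z ∈ chart N A K (jK N K)) :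
    ∀ z ∈ W, algebraMap (OK A K) (FK N K) π * z ∈ chart N A K J → z ∈ chart N A K J := by
  rw [hJ]
  exact hdesc

/-- **desc for the chart at infinity** `chart_N(J⁻¹)` of a coordinate `J ∈ W` transcendental over
`O`, from the reducedness of `chart_N(J)` and the gluing of the two charts
(`S34.RegInf.descInf_of_desc0'`). -/
theorem descInv_coord (hdvr : IsDiscreteValuationRing (OK A K)) {π : OK A K}
    (hπ : Irreducible π) (J : FK N K) (htr : Transcendental (OK A K) J) (W : Subring (FK N K))
    (hJW : J ∈ W)
    (glue0 : ∀ x ∈ chart N A K J, ∃ n : ℕ, x * J⁻¹ ^ n ∈ chart N A K J⁻¹)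
    (glueInf : ∀ x ∈ chart N A K J⁻¹, ∃ n : ℕ, x * J ^ n ∈ chart N A K J)
    (hdesc : ∀ z ∈ W, algebraMap (OK A K) (FK N K) π * z ∈ chart N A K J → z ∈ chart N A K J) :
    ∀ z ∈ W, algebraMap (OK A K) (FK N K) π * z ∈ chart N A K J⁻¹ → z ∈ chart N A K J⁻¹ := by
  have := hdvr
  exact RegInf.descInf_of_desc0' hπ.prime htr (chart N A K J) (chart N A K J⁻¹) W
    (fun _ => Iff.rfl) hJW glue0 glueInf hdesc

/-! ### The symmetric coordinate `J = j * jqq` -/

/-- **desc for `chart_N(J)`**, `J = j * jqq` (`chart_N(J) = chart_N(j)`). -/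
theorem desc_symJ {π : OK A K} {jqq : FK N K}
    (hj : IsIntegral (Algebra.adjoin (OK A K) {jqq}) (jK N K))
    (hjq : IsIntegral (Algebra.adjoin (OK A K) {jK N K}) jqq) (W : Subring (FK N K))
    (hdesc : ∀ z ∈ W, algebraMap (OK A K) (FK N K) π * z ∈ chart N A K (jK N K) →
      z ∈ chart N A K (jK N K)) :
    ∀ z ∈ W, algebraMap (OK A K) (FK N K) π * z ∈ chart N A K (ChartJ.symJ N K jqq) →
      z ∈ chart N A K (ChartJ.symJ N K jqq) :=
  desc_coord N (ChartJ.symJ N K jqq)
    (le_antisymm (ChartJ.chart_symJ_le N A K hjq) (ChartJ.chart_jK_le N A K hj)) W hdesc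

/-- **desc for `chart_N(J⁻¹)`**, `J = j * jqq ∈ W`. -/
theorem descInv_symJ (hdvr : IsDiscreteValuationRing (OK A K)) {π : OK A K}
    (hπ : Irreducible π) {jqq : FK N K} (hjq0 : jqq ≠ 0)
    (hj : IsIntegral (Algebra.adjoin (OK A K) {jqq}) (jK N K))
    (hjq : IsIntegral (Algebra.adjoin (OK A K) {jK N K}) jqq) (W : Subring (FK N K))
    (hJW : ChartJ.symJ N K jqq ∈ W)
    (hdesc : ∀ z ∈ W, algebraMap (OK A K) (FK N K) π * z ∈ chart N A K (jK N K) →
      z ∈ chart N A K (jK N K)) :
    ∀ z ∈ W, algebraMap (OK A K) (FK N K) π * z ∈ chart N A K (ChartJ.symJ N K jqq)⁻¹ →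
      z ∈ chart N A K (ChartJ.symJ N K jqq)⁻¹ := by
  have hside := ChartJ.chartSide_symJ N A K (m := 1) one_ne_zero hjq0 hj
  exact descInv_coord N hdvr hπ (ChartJ.symJ N K jqq) (ChartJ.transcendental_symJ N A K hj) W hJW
    hside.glue0 hside.glueInf (desc_symJ N hj hjq W hdesc)

end Fermat.Agent.S36.Red3
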