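/-
S36 — NValChart.lean (helper110), package [MODEL3]: glue between the witness block [M3.4] and
`S36/Red3` (chart route), through the chart-level several-valuation core `S36/NVal`.

Levels `M ∣ N`, a coordinate `t` of level `M` with `ChartFacts` for its chart `R_M = chart_M(t)`,
a finite family `V a` of valuation subrings of `F_K(N)`.

* `Wit M N h A t π V e f x s b` : the witness facts, stated WITHOUT any `Algebra` instance (all
  through `Red3.chartHom M N h A t : chart_M(t) →+* F_K(N)`): `R_M ⊆ V a`, separating elements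
  `x a`, elements `s a` with `π ∈ s a ^ e a · V a`, `f a` elements `b a i` with residues at `V a`
  independent over `R_M / π`, and `ψ(N) ≤ ψ(M) · ∑ e a * f a`.
* `setting` : `Wit` + `ChartFacts` at level `M` give `NVal.Setting`.
* `desc` : `z ∈ ⋂ V a`, `π z ∈ chart_N(ι t)` imply `z ∈ chart_N(ι t)`; `desc0` for `t = j`.
* `exists_mul_mem_chart` : `⋂ V a` is the integral closure of `(R_M)_(π)`.
* `mem_of_forall_mem` : every valuation subring of `F_K(N)` over `(R_M)_(π)` contains `⋂ V a`.
* `psi_level` : `ψ(M q q) = ψ(M) (q² + q)` for a prime `q ∤ M`.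
-/
import Mathlib
import Fermat.Agent.S18.Nor
import Fermat.Agent.S34.GaussV
import Fermat.Agent.S36.NVal
import Fermat.Agent.S36.Red3

set_option autoImplicit false
set_option linter.unusedSectionVars false
set_option linter.style.haveILetI false

noncomputable section

namespace Fermat.Agent.S36.NValChart

open ModularCurve AlgebraicCurve HahnSeries
open Fermat.Agent.S18 Fermat.Agent.S18.Arith
open Fermat.Agent.S34

variable (M N : ℕ) [NeZero M] [NeZero N] (h : M ∣ N)
variable (A : ValuationSubring Qb) {K : IntermediateField ℚ Qb} (t : FK M K)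
variable {κ : Type*} [Fintype κ]

/-- **The witness facts** for a family `V a` of valuation subrings of `F_K(N)` over the level-`M`
chart of `t` (no `Algebra` instance involved). -/
structure Wit (π : OK A K) (V : κ → ValuationSubring (FK N K)) (e f : κ → ℕ)
    (x s : κ → FK N K) (b : ∀ a, Fin (f a) → FK N K) : Prop where
  /-- `R_M ⊆ V a` -/
  le : ∀ a (r : ↥(chart M A K t)), Red3.chartHom M N h A t r ∈ V a
  /-- `x a` is a unit of `V a` -/
  hx_ne : ∀ a, x a ≠ 0
  hx : ∀ a, x a ∈ V a
  hx_inv : ∀ a, (x a)⁻¹ ∈ V a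
  /-- `x a' ∈ π V a` for `a' ≠ a` -/
  hx' : ∀ a a', a' ≠ a → ∃ y ∈ V a, x a' = algebraMap (OK A K) (FK N K) π * y
  /-- `s a` is a nonunit of `V a` -/
  hs : ∀ a, s a ∈ (V a).nonunits
  hs' : ∀ a a', s a' ∈ V a
  /-- `π ∈ s a ^ e a · V a` -/
  hπ : ∀ a, ∃ y ∈ V a, algebraMap (OK A K) (FK N K) π = s a ^ e a * y
  hb : ∀ a a' (i : Fin (f a')), b a' i ∈ V a
  /-- the residues of the `b a i` at `V a` are independent over `R_M / π` -/
  ind : ∀ a (c : Fin (f a) → ↥(chart M A K t)),
    (∑ i, Red3.chartHom M N h A t (c i) * b a i) ∈ (V a).nonunits →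
      ∀ i, algebraMap (OK A K) ↥(chart M A K t) π ∣ c i
  /-- `[F_K(N) : F_K(M)] ≤ ∑ e a * f a` -/
  deg : dedekindPsi N ≤ dedekindPsi M * ∑ a, e a * f a

/-- The algebra structure `F_K(M) → F_K(N)`. -/
@[reducible] def algFE : Algebra ↥(FK M K) ↥(FK N K) := DegTower.algTower M N K h

/-- The algebra structure `chart_M(t) → F_K(N)`. -/
@[reducible] def algRE : Algebra ↥(chart M A K t) ↥(FK N K) :=
  (Red3.chartHom M N h A t).toAlgebra

theorem towerRFE :
    @IsScalarTower ↥(chart M A K t) ↥(FK M K) ↥(FK N K)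
      Algebra.toSMul (algFE M N h).toSMul (algRE M N h A t).toSMul :=
  letI := algFE (K := K) M N h
  letI := algRE M N h A t
  IsScalarTower.of_algebraMap_eq fun _ => rfl

section Main

variable {M N h A t}
variable {π : OK A K} {V : κ → ValuationSubring (FK N K)} {e f : κ → ℕ}
  {x s : κ → FK N K} {b : ∀ a, Fin (f a) → FK N K}

theorem chartHom_pi (π : OK A K) :
    Red3.chartHom M N h A t (algebraMap (OK A K) ↥(chart M A K t) π)
      = algebraMap (OK A K) (FK N K) π :=
  Red3.incl_algebraMap M N h π

/-- `Wit` + `ChartFacts` at level `M` give the several-valuation setting of `S36/NVal`. -/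
theorem setting (hC : ChartFacts M A K (chart M A K t) t)
    (hdvr : IsDiscreteValuationRing (OK A K)) (hπ : Irreducible π)
    (W : Wit M N h A t π V e f x s b) :
    letI := algFE (K := K) M N h
    letI := algRE M N h A t
    haveI := towerRFE M N h A t
    NVal.Setting (R := ↥(chart M A K t)) (F := ↥(FK M K)) (E := ↥(FK N K))
      (algebraMap (OK A K) ↥(chart M A K t) π) (fun a => (V a).valuation) e f x s b := by
  letI := algFE (K := K) M N h
  letI := algRE M N h A t
  haveI := towerRFE M N h A t
  have := hdvr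
  have hne : algebraMap (OK A K) ↥(chart M A K t) π ≠ 0 := fun h0 =>
    GaussV.algebraMap_ne_zero M A K hπ.ne_zero (congrArg Subtype.val h0)
  have hπE : algebraMap ↥(chart M A K t) ↥(FK N K) (algebraMap (OK A K) ↥(chart M A K t) π)
      = algebraMap (OK A K) (FK N K) π := chartHom_pi π
  have hπE0 : algebraMap (OK A K) (FK N K) π ≠ 0 := GaussV.algebraMap_ne_zero N A K hπ.ne_zero
  exact
    { inj := fun a b hab => Subtype.ext hab
      frac := by
        intro c
        obtain ⟨a, ha, b, hb, hb0, hab⟩ := hC.frac c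
        exact ⟨⟨a, ha⟩, ⟨b, hb⟩, fun h0 => hb0 (congrArg Subtype.val h0), hab⟩
      prime := (Ideal.span_singleton_prime hne).mp (Nor.isPrime_span hC hπ)
      sep := by
        intro r hr
        by_contra hall
        have hall' : ∀ k : ℕ, algebraMap (OK A K) ↥(chart M A K t) π ^ k ∣ r := fun k =>
          by_contra fun hk => hall ⟨k, hk⟩
        have : IsNoetherianRing ↥(chart M A K t) := Nor.isNoetherianRing_chart hdvr hC
        have hne' : Ideal.span {algebraMap (OK A K) ↥(chart M A K t) π} ≠ ⊤ :=
          (Nor.isPrime_span hC hπ).ne_top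
        have hmem : r ∈ ⨅ i : ℕ,
            Ideal.span {algebraMap (OK A K) ↥(chart M A K t) π} ^ i := by
          rw [Ideal.mem_iInf]
          intro i
          rw [Ideal.span_singleton_pow, Ideal.mem_span_singleton]
          exact hall' i
        rw [Ideal.iInf_pow_eq_bot_of_isDomain _ hne'] at hmem
        exact hr hmem
      le := fun a r => ((V a).valuation_le_one_iff _).mpr (W.le a r)
      hx := fun a => le_antisymm (((V a).valuation_le_one_iff _).mpr (W.hx a))
        ((Valuation.one_le_val_iff _ (W.hx_ne a)).mpr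
          (((V a).valuation_le_one_iff _).mpr (W.hx_inv a)))
      hx' := by
        intro a a' ha
        obtain ⟨y, hy, hxy⟩ := W.hx' a a' ha
        rw [hπE, hxy, map_mul]
        exact mul_le_of_le_one_right' (((V a).valuation_le_one_iff _).mpr hy)
      hs := fun a => W.hs a
      hs' := fun a a' => ((V a).valuation_le_one_iff _).mpr (W.hs' a a')
      hπ := by
        intro a
        obtain ⟨y, hy, hπy⟩ := W.hπ a
        rw [hπE, hπy, map_mul, map_pow]
        exact mul_le_of_le_one_right' (((V a).valuation_le_one_iff _).mpr hy)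
      hb := fun a a' i => ((V a).valuation_le_one_iff _).mpr (W.hb a a' i)
      ind := fun a c hc => W.ind a c hc
      fin := DegTower.finiteDimensional M N K h
      deg := by
        have h1 := DegTower.psi_mul_finrank M N K h
        have hpos : 0 < dedekindPsi M := Fermat.Agent.S24.AnDegree.dedekindPsi_pos M
        have h2 := W.deg
        rw [← h1] at h2
        exact Nat.le_of_mul_le_mul_left h2 hpos }

/-- **Chart route input of `Red3`**: for `z ∈ ⋂ V a`, integrality of `π z` over the level-`M`
chart implies integrality of `z`. -/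
theorem isIntegralElem_of_pi_mul (hC : ChartFacts M A K (chart M A K t) t)
    (hdvr : IsDiscreteValuationRing (OK A K)) (hπ : Irreducible π)
    (W : Wit M N h A t π V e f x s b) {z : FK N K} (hz : ∀ a, z ∈ V a)
    (hπz : (Red3.chartHom M N h A t).IsIntegralElem (algebraMap (OK A K) (FK N K) π * z)) :
    (Red3.chartHom M N h A t).IsIntegralElem z := by
  letI := algFE (K := K) M N h
  letI := algRE M N h A t
  haveI := towerRFE M N h A t
  have S := setting hC hdvr hπ W
  have closed : ∀ c : FK M K, IsIntegral ↥(chart M A K t) c →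
      ∃ r : ↥(chart M A K t), algebraMap ↥(chart M A K t) ↥(FK M K) r = c :=
    fun c hc => ⟨⟨c, hC.closed c hc⟩, rfl⟩
  have hπE : algebraMap ↥(chart M A K t) ↥(FK N K) (algebraMap (OK A K) ↥(chart M A K t) π)
      = algebraMap (OK A K) (FK N K) π := chartHom_pi π
  have hπz' : IsIntegral ↥(chart M A K t)
      (algebraMap ↥(chart M A K t) ↥(FK N K) (algebraMap (OK A K) ↥(chart M A K t) π) * z) := by
    rw [hπE]
    exact hπz
  exact S.isIntegral_of_pi_mul closed (fun a => ((V a).valuation_le_one_iff z).mpr (hz a)) hπz'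

/-- **desc**: `z ∈ ⋂ V a`, `π z ∈ chart_N(ι t)` imply `z ∈ chart_N(ι t)`. -/
theorem desc (hC : ChartFacts M A K (chart M A K t) t)
    (hdvr : IsDiscreteValuationRing (OK A K)) (hπ : Irreducible π)
    (W : Wit M N h A t π V e f x s b) :
    ∀ z : FK N K, (∀ a, z ∈ V a) →
      algebraMap (OK A K) (FK N K) π * z ∈ chart N A K (DegTower.incl M N K h t) →
      z ∈ chart N A K (DegTower.incl M N K h t) := fun _ hz hπz =>
  Red3.isIntegral_of_isIntegralElem_chartHom M N h t
    (isIntegralElem_of_pi_mul hC hdvr hπ W hz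
      (Red3.isIntegralElem_chartHom_of_isIntegral M N h t hπz))

/-- **desc**, for the subring `⨅ a, V a`. -/
theorem desc_iInf (hC : ChartFacts M A K (chart M A K t) t)
    (hdvr : IsDiscreteValuationRing (OK A K)) (hπ : Irreducible π)
    (W : Wit M N h A t π V e f x s b) :
    ∀ z ∈ (⨅ a, (V a).toSubring : Subring (FK N K)),
      algebraMap (OK A K) (FK N K) π * z ∈ chart N A K (DegTower.incl M N K h t) →
      z ∈ chart N A K (DegTower.incl M N K h t) := fun z hz hπz =>
  desc hC hdvr hπ W z (fun a => (Subring.mem_iInf.mp hz) a) hπz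

/-- **(T1)** every `z ∈ ⋂ V a` is, after multiplication by some `r ∈ R_M ∖ π R_M`, an
`R_M`-combination of the adapted family `NVal.fam e x s b`. -/
theorem exists_smul_eq (hC : ChartFacts M A K (chart M A K t) t)
    (hdvr : IsDiscreteValuationRing (OK A K)) (hπ : Irreducible π)
    (W : Wit M N h A t π V e f x s b) {z : FK N K} (hz : ∀ a, z ∈ V a) :
    ∃ r : ↥(chart M A K t), ¬ algebraMap (OK A K) ↥(chart M A K t) π ∣ r ∧
      ∃ c : NVal.Idx e f → ↥(chart M A K t),
        Red3.chartHom M N h A t r * z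
          = ∑ k, Red3.chartHom M N h A t (c k) * NVal.fam e x s b k := by
  letI := algFE (K := K) M N h
  letI := algRE M N h A t
  haveI := towerRFE M N h A t
  exact (setting hC hdvr hπ W).exists_smul_eq
    (fun a => ((V a).valuation_le_one_iff z).mpr (hz a))

/-- Independence of the adapted family modulo `π (⋂ V a)`. -/
theorem dvd_of_sum_mem (hC : ChartFacts M A K (chart M A K t) t)
    (hdvr : IsDiscreteValuationRing (OK A K)) (hπ : Irreducible π)
    (W : Wit M N h A t π V e f x s b) (c : NVal.Idx e f → ↥(chart M A K t))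
    (hc : ∀ a, ∃ y ∈ V a, ∑ k, Red3.chartHom M N h A t (c k) * NVal.fam e x s b k
      = algebraMap (OK A K) (FK N K) π * y) :
    ∀ k, algebraMap (OK A K) ↥(chart M A K t) π ∣ c k := by
  letI := algFE (K := K) M N h
  letI := algRE M N h A t
  haveI := towerRFE M N h A t
  refine (setting hC hdvr hπ W).core.ind c fun a => ?_
  obtain ⟨y, hy, hcy⟩ := hc a
  have hπE : algebraMap ↥(chart M A K t) ↥(FK N K) (algebraMap (OK A K) ↥(chart M A K t) π)
      = algebraMap (OK A K) (FK N K) π := chartHom_pi π
  have hsum : ∑ k, algebraMap ↥(chart M A K t) ↥(FK N K) (c k) * NVal.fam e x s b k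
      = algebraMap (OK A K) (FK N K) π * y := hcy
  rw [hπE, hsum, map_mul]
  exact mul_le_of_le_one_right' (((V a).valuation_le_one_iff _).mpr hy)

/-- **(T0)** `⋂ V a` is the integral closure of `(R_M)_(π)`: every `z ∈ ⋂ V a` has
`r z ∈ chart_N(ι t)` for some `r ∈ R_M ∖ π R_M`. -/
theorem exists_mul_mem_chart (hC : ChartFacts M A K (chart M A K t) t)
    (hdvr : IsDiscreteValuationRing (OK A K)) (hπ : Irreducible π)
    (W : Wit M N h A t π V e f x s b) {z : FK N K} (hz : ∀ a, z ∈ V a) :
    ∃ r : ↥(chart M A K t), ¬ algebraMap (OK A K) ↥(chart M A K t) π ∣ r ∧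
      Red3.chartHom M N h A t r * z ∈ chart N A K (DegTower.incl M N K h t) := by
  letI := algFE (K := K) M N h
  letI := algRE M N h A t
  haveI := towerRFE M N h A t
  obtain ⟨r, hr, hint⟩ := (setting hC hdvr hπ W).exists_isIntegral_mul
    (fun a => ((V a).valuation_le_one_iff z).mpr (hz a))
  exact ⟨r, hr, Red3.isIntegral_of_isIntegralElem_chartHom M N h t hint⟩

/-- The `V a` are all the valuation rings of `F_K(N)` over `(R_M)_(π)`: a valuation subring
containing `R_M` in which the elements of `R_M ∖ π R_M` are units contains `⋂ V a`. -/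
theorem mem_of_forall_mem (hC : ChartFacts M A K (chart M A K t) t)
    (hdvr : IsDiscreteValuationRing (OK A K)) (hπ : Irreducible π)
    (W : Wit M N h A t π V e f x s b) (W' : ValuationSubring (FK N K))
    (hW : ∀ r : ↥(chart M A K t), Red3.chartHom M N h A t r ∈ W')
    (hW' : ∀ r : ↥(chart M A K t), ¬ algebraMap (OK A K) ↥(chart M A K t) π ∣ r →
      (Red3.chartHom M N h A t r)⁻¹ ∈ W') {z : FK N K} (hz : ∀ a, z ∈ V a) : z ∈ W' := by
  letI := algFE (K := K) M N h
  letI := algRE M N h A t
  haveI := towerRFE M N h A t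
  exact NVal.mem_of_forall_mem V (setting hC hdvr hπ W) W' hW hW' hz

/-- The degree is exactly `∑ e a * f a`. -/
theorem psi_eq (hC : ChartFacts M A K (chart M A K t) t)
    (hdvr : IsDiscreteValuationRing (OK A K)) (hπ : Irreducible π)
    (W : Wit M N h A t π V e f x s b) :
    dedekindPsi N = dedekindPsi M * ∑ a, e a * f a := by
  letI := algFE (K := K) M N h
  letI := algRE M N h A t
  haveI := towerRFE M N h A t
  rw [← (setting hC hdvr hπ W).finrank_eq]
  exact (DegTower.psi_mul_finrank M N K h).symm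

end Main

/-! ### The coordinate `j` -/

section J

variable {M N h A}
variable {π : OK A K} {V : κ → ValuationSubring (FK N K)} {e f : κ → ℕ}
  {x s : κ → FK N K} {b : ∀ a, Fin (f a) → FK N K}

/-- **desc0**: `z ∈ ⋂ V a`, `π z ∈ chart_N(j)` imply `z ∈ chart_N(j)`. -/
theorem desc0 (hC : ChartFacts M A K (chart M A K (jK M K)) (jK M K))
    (hdvr : IsDiscreteValuationRing (OK A K)) (hπ : Irreducible π)
    (W : Wit M N h A (jK M K) π V e f x s b) :
    ∀ z : FK N K, (∀ a, z ∈ V a) →
      algebraMap (OK A K) (FK N K) π * z ∈ chart N A K (jK N K) →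
      z ∈ chart N A K (jK N K) := by
  have h1 := desc hC hdvr hπ W
  rwa [DegTower.incl_jK] at h1

/-- **(T0)** for the coordinate `j`. -/
theorem exists_mul_mem_chart_j (hC : ChartFacts M A K (chart M A K (jK M K)) (jK M K))
    (hdvr : IsDiscreteValuationRing (OK A K)) (hπ : Irreducible π)
    (W : Wit M N h A (jK M K) π V e f x s b) {z : FK N K} (hz : ∀ a, z ∈ V a) :
    ∃ r : ↥(chart M A K (jK M K)), ¬ algebraMap (OK A K) ↥(chart M A K (jK M K)) π ∣ r ∧
      DegTower.incl M N K h (r : FK M K) * z ∈ chart N A K (jK N K) := by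
  obtain ⟨r, hr, hmem⟩ := exists_mul_mem_chart hC hdvr hπ W hz
  rw [DegTower.incl_jK] at hmem
  exact ⟨r, hr, hmem⟩

end J

/-! ### The degree at level `M q q` -/

/-- `ψ(M q q) = ψ(M) (q² + q)` for a prime `q ∤ M`. -/
theorem psi_level (M q : ℕ) (hM : M ≠ 0) (hq : q.Prime) (hqM : ¬ q ∣ M) :
    dedekindPsi (M * q * q) = dedekindPsi M * (q ^ 2 + q) := by
  have h1 : dedekindPsi (q * M) = (q + 1) * dedekindPsi M :=
    Fermat.Agent.S20.CosetModel.dedekindPsi_prime_mul_of_not_dvd q M hq hM hqM
  have h2 : dedekindPsi (q * (q * M)) = q * dedekindPsi (q * M) :=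
    Fermat.Agent.S20.CosetModel.dedekindPsi_prime_mul_of_dvd q (q * M) hq
      (Nat.mul_ne_zero hq.ne_zero hM) (Dvd.intro M rfl)
  have e1 : M * q * q = q * (q * M) := by ring
  rw [e1, h2, h1]
  ring

end Fermat.Agent.S36.NValChart
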