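import Mathlib
import Fermat.Agent.S36.NVal

/-!
# S36 [MODEL3] — ResDeg3.lean (helper113): residue degree one along a valuation with `f = 1`

Abstract layer, over helper110's several-valuation setting `NVal.Setting π v e f x s b`
(`R` a chart with fraction field `F`, `E / F` finite, valuations `v a` of `E`).

For an index `a₀` with `f a₀ = 1` and `0 < e a₀` (in the application: `W1` and `W3` of the
three-component model at level `M q²` over level `M`):

* `exists_sub_lt_of_inter` : every `z ∈ ⋂ V_a` is congruent modulo `𝔪(V_{a₀})` to a quotient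
  `r / t` of elements of `R` with `t` a unit at `v a₀`
  (apply (T1) `Setting.exists_smul_eq` to `z` and to `1`: modulo `𝔪(V_{a₀})` only the member
  `x a₀ * b a₀ 0` of the adapted family survives; divide);
* `exists_sub_lt` : the same for every `z ∈ V_{a₀}`, provided the other valuations are
  "archimedean at `x a₀`" (`harch`: some power of `x a₀` moves `z` into `V_a`; automatic for
  discrete valuations because `v a (x a₀) ≤ v a π < 1`).

So the residue field of `v a₀` is the residue field of `R_(π)`: residue degree one.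
The concrete `GRel` forms (`hf1`, `hf3` of `S36/Level3`, `S36/Branch3`) are in
`S36/ResDeg3G.lean`.
-/

set_option autoImplicit false
set_option linter.unusedSectionVars false

namespace Fermat.Agent.S36.ResDeg3

open Fermat.Agent.S36.NVal

section Abstract

variable {R F E : Type*} [CommRing R] [IsDomain R] [Field F] [Field E]
  [Algebra R F] [Algebra F E] [Algebra R E] [IsScalarTower R F E]
variable {κ : Type*} [Fintype κ] {Γ : κ → Type*} [∀ a, LinearOrderedCommGroupWithZero (Γ a)]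
variable {π : R} {v : ∀ a, Valuation E (Γ a)} {e f : κ → ℕ} {x s : κ → E}
  {b : ∀ a, Fin (f a) → E}

/-- In a linearly ordered commutative group with zero: `a, b ≤ 1` and `a * b = 1` force `a = 1`. -/
theorem eq_one_of_mul_eq_one {Γ₀ : Type*} [LinearOrderedCommGroupWithZero Γ₀] {a c : Γ₀}
    (ha : a ≤ 1) (hc : c ≤ 1) (h : a * c = 1) : a = 1 := by
  refine le_antisymm ha ?_
  calc (1 : Γ₀) = a * c := h.symm
    _ ≤ a := mul_le_of_le_one_right' hc

/-- `v a π < 1` as soon as `0 < e a`. -/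
theorem val_pi_lt_one (S : Setting (F := F) π v e f x s b) (a : κ) (he : 0 < e a) :
    v a (algebraMap R E π) < 1 :=
  lt_of_le_of_lt (S.hπ a) (pow_lt_one₀ zero_le (S.hs a) he.ne')

/-- The unique index of `Fin (f a₀)` when `f a₀ = 1`. -/
def idx0 {a₀ : κ} (hf : f a₀ = 1) : Fin (f a₀) := ⟨0, by omega⟩

theorem eq_idx0 {a₀ : κ} (hf : f a₀ = 1) (i : Fin (f a₀)) : i = idx0 hf := by
  apply Fin.ext
  have := i.2
  show (i : ℕ) = 0
  omega

/-- Elements of `R` outside `π R` are units at `v a₀`, and so is `b a₀ 0`, when `f a₀ = 1`. -/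
theorem val_eq_one_of_not_dvd (S : Setting (F := F) π v e f x s b) {a₀ : κ} (hf : f a₀ = 1)
    {t : R} (ht : ¬ π ∣ t) :
    v a₀ (algebraMap R E t) = 1 ∧ v a₀ (b a₀ (idx0 hf)) = 1 := by
  have hle1 : v a₀ (algebraMap R E t) ≤ 1 := S.le a₀ t
  have hle2 : v a₀ (b a₀ (idx0 hf)) ≤ 1 := S.hb a₀ a₀ (idx0 hf)
  have hsum : ∑ i : Fin (f a₀), algebraMap R E ((fun _ => t) i) * b a₀ i
      = algebraMap R E t * b a₀ (idx0 hf) :=
    Fintype.sum_eq_single (idx0 hf) (fun i hi => absurd (eq_idx0 hf i) hi)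
  have hnot : ¬ v a₀ (algebraMap R E t * b a₀ (idx0 hf)) < 1 := by
    intro hlt
    have := S.ind a₀ (fun _ => t) (by rw [hsum]; exact hlt) (idx0 hf)
    exact ht this
  have hprod : v a₀ (algebraMap R E t) * v a₀ (b a₀ (idx0 hf)) = 1 := by
    rw [← map_mul]
    refine le_antisymm ?_ (not_lt.mp hnot)
    rw [map_mul]
    exact mul_le_one' hle1 hle2
  exact ⟨eq_one_of_mul_eq_one hle1 hle2 hprod,
    eq_one_of_mul_eq_one hle2 hle1 (by rw [mul_comm]; exact hprod)⟩

/-- Every member of the adapted family other than `x a₀ * s a₀ ^ 0 * b a₀ 0` lies in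
`𝔪(V_{a₀})`. -/
theorem val_fam_lt_one (S : Setting (F := F) π v e f x s b) {a₀ : κ} (hf : f a₀ = 1)
    (he : 0 < e a₀) (k : Idx e f) (hk : k ≠ ⟨a₀, (⟨0, he⟩, idx0 hf)⟩) :
    v a₀ (fam e x s b k) < 1 := by
  obtain ⟨a, l, i⟩ := k
  unfold fam
  simp only
  by_cases ha : a = a₀
  · subst ha
    have hl : (l : ℕ) ≠ 0 := by
      intro hl0
      apply hk
      have h1 : l = ⟨0, he⟩ := Fin.ext hl0
      have h2 : i = idx0 hf := eq_idx0 hf i
      rw [h1, h2]
    rw [map_mul, map_mul, S.hx a, one_mul, map_pow]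
    have h1 : v a (s a) ^ (l : ℕ) < 1 := pow_lt_one₀ zero_le (S.hs a) hl
    calc v a (s a) ^ (l : ℕ) * v a (b a i) ≤ v a (s a) ^ (l : ℕ) :=
          mul_le_of_le_one_right' (S.hb a a i)
      _ < 1 := h1
  · rw [map_mul, map_mul, map_pow]
    have h1 : v a₀ (x a) < 1 := lt_of_le_of_lt (S.hx' a₀ a ha) (val_pi_lt_one S a₀ he)
    have h2 : v a₀ (s a) ^ (l : ℕ) ≤ 1 := pow_le_one' (S.hs' a₀ a) _
    have h3 : v a₀ (b a i) ≤ 1 := S.hb a₀ a i
    calc v a₀ (x a) * v a₀ (s a) ^ (l : ℕ) * v a₀ (b a i)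
        ≤ v a₀ (x a) * v a₀ (s a) ^ (l : ℕ) := mul_le_of_le_one_right' h3
      _ ≤ v a₀ (x a) := mul_le_of_le_one_right' h2
      _ < 1 := h1

/-- (T1) read modulo `𝔪(V_{a₀})`: for `z ∈ ⋂ V_a` there are `t ∉ π R` and `c : R` with
`t z ≡ c · (x a₀ * b a₀ 0)`. -/
theorem exists_smul_sub_lt (S : Setting (F := F) π v e f x s b) {a₀ : κ} (hf : f a₀ = 1)
    (he : 0 < e a₀) {z : E} (hz : ∀ a, v a z ≤ 1) :
    ∃ t : R, ¬ π ∣ t ∧ ∃ c : R,
      v a₀ (algebraMap R E t * z - algebraMap R E c * (x a₀ * b a₀ (idx0 hf))) < 1 := by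
  classical
  obtain ⟨t, ht, c, hc⟩ := S.exists_smul_eq hz
  set k₀ : Idx e f := ⟨a₀, (⟨0, he⟩, idx0 hf)⟩ with hk₀
  refine ⟨t, ht, c k₀, ?_⟩
  have hfam : fam e x s b k₀ = x a₀ * b a₀ (idx0 hf) := by
    show x a₀ * s a₀ ^ 0 * b a₀ (idx0 hf) = x a₀ * b a₀ (idx0 hf)
    rw [pow_zero, mul_one]
  have hsplit : algebraMap R E t * z - algebraMap R E (c k₀) * (x a₀ * b a₀ (idx0 hf))
      = ∑ k ∈ Finset.univ.erase k₀, algebraMap R E (c k) * fam e x s b k := by
    rw [hc, ← hfam, ← Finset.add_sum_erase _ _ (Finset.mem_univ k₀)]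
    ring
  rw [hsplit]
  refine Valuation.map_sum_lt _ one_ne_zero fun k hk => ?_
  have hk' : k ≠ k₀ := (Finset.mem_erase.mp hk).1
  rw [map_mul]
  calc v a₀ (algebraMap R E (c k)) * v a₀ (fam e x s b k)
      ≤ v a₀ (fam e x s b k) := mul_le_of_le_one_left' (S.le a₀ _)
    _ < 1 := val_fam_lt_one S hf he k hk'

/-- **Residue degree one on `⋂ V_a`**: for `z ∈ ⋂ V_a` there are `r, t ∈ R`, `t` a unit at
`v a₀`, with `t z ≡ r` modulo `𝔪(V_{a₀})`. -/
theorem exists_sub_lt_of_inter (S : Setting (F := F) π v e f x s b) {a₀ : κ} (hf : f a₀ = 1)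
    (he : 0 < e a₀) {z : E} (hz : ∀ a, v a z ≤ 1) :
    ∃ r t : R, v a₀ (algebraMap R E t) = 1 ∧
      v a₀ (algebraMap R E t * z - algebraMap R E r) < 1 := by
  obtain ⟨t₁, ht₁, c₁, h₁⟩ := exists_smul_sub_lt S hf he hz
  have h1le : ∀ a, v a (1 : E) ≤ 1 := fun a => by rw [map_one]
  obtain ⟨t₂, ht₂, c₂, h₂⟩ := exists_smul_sub_lt S hf he h1le
  rw [mul_one] at h₂
  set u : E := x a₀ * b a₀ (idx0 hf) with hu
  have hpi : ¬ π ∣ (1 : R) := fun h => S.prime.not_isUnit (isUnit_of_dvd_one h)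
  have hvu : v a₀ u = 1 := by
    rw [hu, map_mul, S.hx a₀, one_mul]
    exact (val_eq_one_of_not_dvd S hf hpi).2
  have hvt₁ : v a₀ (algebraMap R E t₁) = 1 := (val_eq_one_of_not_dvd S hf ht₁).1
  have hvt₂ : v a₀ (algebraMap R E t₂) = 1 := (val_eq_one_of_not_dvd S hf ht₂).1
  -- `c₂` is a unit at `v a₀`
  have hvc₂ : v a₀ (algebraMap R E c₂) = 1 := by
    have hle : v a₀ (algebraMap R E c₂) ≤ 1 := S.le a₀ c₂
    refine le_antisymm hle (not_lt.mp fun hlt => ?_)
    have h3 : v a₀ (algebraMap R E c₂ * u) < 1 := by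
      rw [map_mul, hvu, mul_one]; exact hlt
    have h4 : v a₀ (algebraMap R E t₂) < 1 := by
      have e1 : algebraMap R E t₂ = (algebraMap R E t₂ - algebraMap R E c₂ * u)
          + algebraMap R E c₂ * u := by ring
      rw [e1]
      exact Valuation.map_add_lt _ h₂ h3
    rw [hvt₂] at h4
    exact lt_irrefl _ h4
  refine ⟨c₁ * t₂, t₁ * c₂, ?_, ?_⟩
  · rw [map_mul, map_mul, hvt₁, hvc₂, mul_one]
  · have e1 : algebraMap R E (t₁ * c₂) * z - algebraMap R E (c₁ * t₂)
        = algebraMap R E c₂ * (algebraMap R E t₁ * z - algebraMap R E c₁ * u)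
          + algebraMap R E c₁ * (algebraMap R E c₂ * u - algebraMap R E t₂) := by
      rw [map_mul, map_mul]; ring
    rw [e1]
    refine Valuation.map_add_lt _ ?_ ?_
    · rw [map_mul, hvc₂, one_mul]; exact h₁
    · rw [map_mul]
      have h5 : v a₀ (algebraMap R E c₂ * u - algebraMap R E t₂) < 1 := by
        rw [← Valuation.map_neg, neg_sub]; exact h₂
      calc v a₀ (algebraMap R E c₁) * v a₀ (algebraMap R E c₂ * u - algebraMap R E t₂)
          ≤ v a₀ (algebraMap R E c₂ * u - algebraMap R E t₂) :=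
            mul_le_of_le_one_left' (S.le a₀ _)
        _ < 1 := h5

/-- **Residue degree one along `v a₀`** (`f a₀ = 1`): every `z ∈ V_{a₀}` is congruent modulo
`𝔪(V_{a₀})` to a quotient `r / t` of elements of `R`, `t` a unit at `v a₀`.
`harch`: for every other valuation some power of `x a₀` moves `z` into its valuation ring. -/
theorem exists_sub_lt (S : Setting (F := F) π v e f x s b) {a₀ : κ} (hf : f a₀ = 1)
    (he : 0 < e a₀) {z : E} (hz : v a₀ z ≤ 1)
    (harch : ∀ a, a ≠ a₀ → ∃ k : ℕ, v a (x a₀ ^ k * z) ≤ 1) :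
    ∃ r t : R, v a₀ (algebraMap R E t) = 1 ∧
      v a₀ (algebraMap R E t * z - algebraMap R E r) < 1 := by
  classical
  -- `x a₀ ∈ ⋂ V_a`
  have hxle : ∀ a, v a (x a₀) ≤ 1 := by
    intro a
    by_cases ha : a = a₀
    · subst ha; exact (S.hx a).le
    · have ha' : a₀ ≠ a := fun h => ha h.symm
      exact (S.hx' a a₀ ha').trans (S.le a π)
  -- a uniform exponent
  choose! kf hkf using harch
  set k : ℕ := ∑ a, kf a with hk
  have hzk : ∀ a, v a (x a₀ ^ k * z) ≤ 1 := by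
    intro a
    by_cases ha : a = a₀
    · subst ha
      rw [map_mul, map_pow, S.hx a, one_pow, one_mul]
      exact hz
    · have hle : kf a ≤ k := by
        rw [hk]
        exact Finset.single_le_sum (f := kf) (fun _ _ => Nat.zero_le _) (Finset.mem_univ a)
      obtain ⟨d, hd⟩ := Nat.exists_eq_add_of_le hle
      have e1 : x a₀ ^ k * z = x a₀ ^ d * (x a₀ ^ kf a * z) := by
        rw [hd, pow_add]; ring
      rw [e1, map_mul, map_pow]
      exact mul_le_one' (pow_le_one' (hxle a) _) (hkf a ha)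
  have hxk : ∀ a, v a (x a₀ ^ k) ≤ 1 := fun a => by
    rw [map_pow]; exact pow_le_one' (hxle a) _
  obtain ⟨r₁, t₁, ht₁, h₁⟩ := exists_sub_lt_of_inter S hf he hzk
  obtain ⟨r₂, t₂, ht₂, h₂⟩ := exists_sub_lt_of_inter S hf he hxk
  have hvx : v a₀ (x a₀ ^ k) = 1 := by rw [map_pow, S.hx a₀, one_pow]
  -- `r₂` is a unit at `v a₀`
  have hvr₂ : v a₀ (algebraMap R E r₂) = 1 := by
    have hle : v a₀ (algebraMap R E r₂) ≤ 1 := S.le a₀ r₂
    refine le_antisymm hle (not_lt.mp fun hlt => ?_)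
    have h4 : v a₀ (algebraMap R E t₂ * x a₀ ^ k) < 1 := by
      have e1 : algebraMap R E t₂ * x a₀ ^ k
          = (algebraMap R E t₂ * x a₀ ^ k - algebraMap R E r₂) + algebraMap R E r₂ := by ring
      rw [e1]
      exact Valuation.map_add_lt _ h₂ hlt
    rw [map_mul, ht₂, hvx, one_mul] at h4
    exact lt_irrefl _ h4
  refine ⟨r₁ * t₂, t₁ * r₂, ?_, ?_⟩
  · rw [map_mul, map_mul, ht₁, hvr₂, mul_one]
  · have e1 : algebraMap R E (t₁ * r₂) * z - algebraMap R E (r₁ * t₂)
        = algebraMap R E t₁ * z * (algebraMap R E r₂ - algebraMap R E t₂ * x a₀ ^ k)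
          + algebraMap R E t₂ * (algebraMap R E t₁ * (x a₀ ^ k * z) - algebraMap R E r₁) := by
      rw [map_mul, map_mul]; ring
    rw [e1]
    refine Valuation.map_add_lt _ ?_ ?_
    · rw [map_mul, map_mul, ht₁, one_mul]
      have h5 : v a₀ (algebraMap R E r₂ - algebraMap R E t₂ * x a₀ ^ k) < 1 := by
        rw [← Valuation.map_neg, neg_sub]; exact h₂
      calc v a₀ z * v a₀ (algebraMap R E r₂ - algebraMap R E t₂ * x a₀ ^ k)
          ≤ v a₀ (algebraMap R E r₂ - algebraMap R E t₂ * x a₀ ^ k) :=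
            mul_le_of_le_one_left' hz
        _ < 1 := h5
    · rw [map_mul, ht₂, one_mul]; exact h₁

/-- The archimedean hypothesis of `exists_sub_lt` follows from the same statement for `π`
(`v a (x a₀) ≤ v a π` for `a ≠ a₀`). -/
theorem harch_of_pi (S : Setting (F := F) π v e f x s b) {a₀ : κ} {z : E} {a : κ} (ha : a ≠ a₀)
    (h : ∃ k : ℕ, v a (algebraMap R E π ^ k * z) ≤ 1) : ∃ k : ℕ, v a (x a₀ ^ k * z) ≤ 1 := by
  obtain ⟨k, hk⟩ := h
  refine ⟨k, le_trans ?_ hk⟩
  rw [map_mul, map_mul, map_pow, map_pow]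
  have h1 : v a (x a₀) ≤ v a (algebraMap R E π) := S.hx' a a₀ (fun h => ha h.symm)
  exact mul_le_mul_left (pow_le_pow_left' h1 k) _

end Abstract

end Fermat.Agent.S36.ResDeg3
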