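import Mathlib
import Fermat.Agent.S18.ArithPlan
import Fermat.Agent.S18.ModelPlan
import Fermat.Agent.S18.GRel
import Fermat.Agent.S36.ResDeg3

/-!
# S36 [MODEL3] — ResDeg3G.lean (helper113): residue degree one in `GRel` form (`hf1`, `hf3`)

The concrete form of `S36/ResDeg3` for the modular function fields `F_K(M) ⊂ F_K(N)` and a
valuation ring `V a₀` of `F_K(N)` which is the Gauss ring along an embedding
`Emb : F_K(N) → ℚ̄((Q))` restricting to the inclusion on `F_K(M)`:

`hf_of_setting` : every Gauss reduction along `Emb` of an element of `F_K(N)` is the Gauss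
reduction of an element of `F_K(M)`.

* `W1` (`Emb` = the inclusion `F_K(N) ⊂ ℚ̄((Q))`, `V a₀ = S34.GaussV.V1`): this is `hf1`;
* `W3` (`Emb = ι3`, `V a₀` = the Gauss ring along `ι3`): this is `hf3`
  (the inputs of `S36/Level3`, `S36/Branch3`: (B0), (B2)).

Hypothesis form over an `NVal.Setting` for `(R, F_K(M), F_K(N))` with `f a₀ = 1`, `0 < e a₀`.
Only the calculus `S18.GRelFacts` (`mul`, `add`, `neg`, `inv`, `unique`, `of_int`) is used.
-/

set_option autoImplicit false
set_option linter.unusedSectionVars false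

namespace Fermat.Agent.S36.ResDeg3G

open Fermat.Agent.S36.NVal Fermat.Agent.S18.Arith Fermat.Agent.S18.ModelPlan ModularCurve

variable {M N : ℕ} [NeZero M] [NeZero N] {A : ValuationSubring Qb} {K : IntermediateField ℚ Qb}

omit [NeZero M] [NeZero N] in
theorem gRel_one' (G : GRelFacts A) : GRel A (1 : LaurentSeries Qb) 1 := by
  have h := G.of_int 1
  rwa [map_one, map_one] at h

omit [NeZero M] [NeZero N] in
theorem gRel_zero' (G : GRelFacts A) : GRel A (0 : LaurentSeries Qb) 0 := by
  have h := G.of_int 0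
  rwa [map_zero, map_zero] at h

/-- **Residue degree one in `GRel` form.**  `V a₀` is the Gauss ring along `Emb`
(`hV`), `Emb` restricts to the inclusion on `F_K(M)` (`hEinc`), and `S` is an `NVal.Setting` for
the valuations of the rings `V a` with `f a₀ = 1`, `0 < e a₀`; `harch`: powers of `x a₀` move
every element into the other rings `V a`.  Then every Gauss reduction along `Emb` is a Gauss
reduction at level `M`. -/
theorem hf_of_setting
    {R : Type*} [CommRing R] [IsDomain R] [Algebra R (FK M K)] [Algebra (FK M K) (FK N K)]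
    [Algebra R (FK N K)] [IsScalarTower R (FK M K) (FK N K)]
    {κ : Type*} [Fintype κ] (V : κ → ValuationSubring (FK N K))
    {π : R} {e f : κ → ℕ} {x s : κ → FK N K} {b : ∀ a, Fin (f a) → FK N K}
    (S : Setting (F := FK M K) π (fun a => (V a).valuation) e f x s b)
    (a₀ : κ) (hf : f a₀ = 1) (he : 0 < e a₀)
    (harch : ∀ a, a ≠ a₀ → ∀ z : FK N K, ∃ k : ℕ, x a₀ ^ k * z ∈ V a)
    (Emb : FK N K →+* LaurentSeries Qb)
    (hV : ∀ z : FK N K, z ∈ V a₀ ↔ ∃ y, GRel A (Emb z) y)
    (hEinc : ∀ x' : FK M K,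
      Emb (algebraMap (FK M K) (FK N K) x') = ((x' : FK M K) : LaurentSeries Qb)) :
    ∀ (z : FK N K) (y : LaurentSeries (IsLocalRing.ResidueField A)), GRel A (Emb z) y →
      ∃ x' : FK M K, GRel A ((x' : FK M K) : LaurentSeries Qb) y := by
  intro z y hzy
  have G : GRelFacts A := Fermat.Agent.S18.GRel.gRelStatement A
  have hz : (V a₀).valuation z ≤ 1 :=
    ((V a₀).valuation_le_one_iff z).mpr ((hV z).mpr ⟨y, hzy⟩)
  obtain ⟨r, t, hvt, hlt⟩ := ResDeg3.exists_sub_lt S hf he hz (fun a ha => by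
    obtain ⟨k, hk⟩ := harch a ha z
    exact ⟨k, ((V a).valuation_le_one_iff _).mpr hk⟩)
  set tF : FK M K := algebraMap R (FK M K) t with htF
  set rF : FK M K := algebraMap R (FK M K) r with hrF
  have htE : algebraMap R (FK N K) t = algebraMap (FK M K) (FK N K) tF :=
    IsScalarTower.algebraMap_apply R (FK M K) (FK N K) t
  have hrE : algebraMap R (FK N K) r = algebraMap (FK M K) (FK N K) rF :=
    IsScalarTower.algebraMap_apply R (FK M K) (FK N K) r
  -- the Gauss reductions of `t` and `r`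
  have htV : algebraMap R (FK N K) t ∈ V a₀ :=
    ((V a₀).valuation_le_one_iff _).mp (S.le a₀ t)
  have hrV : algebraMap R (FK N K) r ∈ V a₀ :=
    ((V a₀).valuation_le_one_iff _).mp (S.le a₀ r)
  obtain ⟨yt, hyt⟩ := (hV _).mp htV
  obtain ⟨yr, hyr⟩ := (hV _).mp hrV
  -- `t` is a unit of `V a₀`, so its reduction is nonzero
  have hyt0 : yt ≠ 0 := by
    intro h0
    rw [h0] at hyt
    have hne : algebraMap R (FK N K) t ≠ 0 := by
      intro h
      rw [h, map_zero] at hvt
      exact zero_ne_one hvt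
    have hinv : (algebraMap R (FK N K) t)⁻¹ ∈ V a₀ := by
      rw [← (V a₀).valuation_le_one_iff, map_inv₀, hvt, inv_one]
    obtain ⟨y', hy'⟩ := (hV _).mp hinv
    have h1 := G.mul _ _ _ _ hyt hy'
    rw [← map_mul, mul_inv_cancel₀ hne, map_one, zero_mul] at h1
    exact one_ne_zero (G.unique _ _ _ (gRel_one' G) h1)
  -- the congruence `t z ≡ r` gives `yt * y = yr`
  have hw : GRel A (Emb (algebraMap R (FK N K) t * z - algebraMap R (FK N K) r))
      (yt * y - yr) := by
    rw [map_sub, map_mul, sub_eq_add_neg, sub_eq_add_neg]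
    exact G.add _ _ _ _ (G.mul _ _ _ _ hyt hzy) (G.neg _ _ hyr)
  have hd : yt * y - yr = 0 := by
    by_contra hne
    set w : FK N K := algebraMap R (FK N K) t * z - algebraMap R (FK N K) r with hwdef
    by_cases hw0 : w = 0
    · rw [hw0, map_zero] at hw
      exact hne (G.unique _ _ _ hw (gRel_zero' G))
    · have hinvG := G.inv _ _ hw hne
      rw [← map_inv₀] at hinvG
      have hwinv : w⁻¹ ∈ V a₀ := (hV _).mpr ⟨_, hinvG⟩
      have h3 : (V a₀).valuation w⁻¹ ≤ 1 := ((V a₀).valuation_le_one_iff _).mpr hwinv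
      have h4 : (V a₀).valuation w * (V a₀).valuation w⁻¹ = 1 := by
        rw [← map_mul, mul_inv_cancel₀ hw0, map_one]
      have h5 : (V a₀).valuation w * (V a₀).valuation w⁻¹ < 1 :=
        lt_of_le_of_lt (mul_le_of_le_one_right' h3) hlt
      rw [h4] at h5
      exact lt_irrefl _ h5
  -- the level-`M` element
  rw [htE, hEinc] at hyt
  rw [hrE, hEinc] at hyr
  refine ⟨rF * tF⁻¹, ?_⟩
  have hcoe : ((rF * tF⁻¹ : FK M K) : LaurentSeries Qb)
      = (rF : LaurentSeries Qb) * ((tF : FK M K) : LaurentSeries Qb)⁻¹ := rfl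
  rw [hcoe]
  have h6 := G.mul _ _ _ _ hyr (G.inv _ _ hyt hyt0)
  have h7 : yr * yt⁻¹ = y := by
    have h8 : yr = yt * y := (sub_eq_zero.mp hd).symm
    rw [h8, mul_comm yt y, mul_assoc, mul_inv_cancel₀ hyt0, mul_one]
  rw [h7] at h6
  exact h6

end Fermat.Agent.S36.ResDeg3G
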