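import Mathlib
import Fermat.Agent.S18.ArithPlan
import Fermat.Agent.S18.GRel
import Fermat.Agent.S34.GaussV
import Fermat.Agent.S34.WK
import Fermat.Agent.S34.DegTower
import Fermat.Agent.S36.WQ2
import Fermat.Agent.S36.GaussE
import Fermat.Agent.S36.Model3Plan
import Fermat.Agent.S36.NVal
import Fermat.Agent.S36.NValChart
import Fermat.Agent.S36.ResDeg3
import Fermat.Agent.S36.ResDeg3G

/-!
# S36 [MODEL3] — ResDeg3Inst.lean (helper113): `hf1`, `hf3` from the chart witness `NValChart.Wit`

Residue degree one along `W1` and along `W3` in exactly the shapes of the inputs `hf1`, `hf3` of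
`S36/Level3J3B.branch3_J3` / `branch3_J3_inv` (and `S36/Level3B`), with the witness package
`W : NValChart.Wit M N h A t π V e f x s b` of the chart route as the only modular hypothesis.

* `val_eq_one_of_not_dvd`, `exists_pi_pow_mul_le` (abstract, over `NVal.Setting`): elements of
  `R ∖ π R` are units at every `v a` with `0 < f a`; every `z : E` is moved into every `V a` by a
  power of `π`.  So the hypothesis `harch` of `ResDeg3G.hf_of_setting` holds automatically.
* `hf_of_wit` : the generic statement, for any index `a₀` with `f a₀ = 1`, `0 < e a₀` and any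
  ring hom `Emb : F_K(N) → ℚ̄((Q))` with `V a₀ = {z | Emb z Gauss-integral}` which restricts to the
  inclusion on `F_K(M)`.
* `hf1_of_wit` (`a₀ = 0`, `V 0 = GaussV.V1`, `Emb` = the inclusion) and `hf3_of_wit'`,
  `hf3_of_wit` (`a₀ = 2`, `V 2` the Gauss ring along `E`, resp. `V 2 = GaussE.V hE hdvr'`,
  `Emb = E` with `E ∘ α = id` on level `M q`), for `N = M q q`;
* `hf1`, `hf3'`, `hf3` : the same for the valuation rings of record
  `V = ![GaussV.V1, V2, W3]`, `e = Model3Plan.ram q`, `f = ![1, q * q, 1]`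
  (`W3` abstract with `z ∈ W3 ↔ ∃ y, GRel A (E z) y`, resp. `W3 = GaussE.V hE hdvr'`).
-/

set_option autoImplicit false
set_option linter.unusedSectionVars false
set_option linter.style.haveILetI false

noncomputable section

namespace Fermat.Agent.S36.ResDeg3Inst

open ModularCurve AlgebraicCurve HahnSeries
open Fermat.Agent.S18 Fermat.Agent.S18.Arith Fermat.Agent.S34 Fermat.Agent.S36.NVal

/-! ### Abstract layer: the archimedean hypothesis is automatic -/

section Abstract

variable {R F E : Type*} [CommRing R] [IsDomain R] [Field F] [Field E]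
  [Algebra R F] [Algebra F E] [Algebra R E] [IsScalarTower R F E]
variable {κ : Type*} [Fintype κ] {Γ : κ → Type*} [∀ a, LinearOrderedCommGroupWithZero (Γ a)]
variable {π : R} {v : ∀ a, Valuation E (Γ a)} {e f : κ → ℕ} {x s : κ → E}
  {b : ∀ a, Fin (f a) → E}

/-- Elements of `R` outside `π R` are units at every `v a` with `0 < f a`. -/
theorem val_eq_one_of_not_dvd (S : Setting (F := F) π v e f x s b) {a : κ} (hf : 0 < f a)
    {t : R} (ht : ¬ π ∣ t) : v a (algebraMap R E t) = 1 := by
  classical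
  refine le_antisymm (S.le a t) (not_lt.mp fun hlt => ht ?_)
  set i₀ : Fin (f a) := ⟨0, hf⟩ with hi₀
  have hsum : ∑ i : Fin (f a), algebraMap R E ((Pi.single i₀ t : Fin (f a) → R) i) * b a i
      = algebraMap R E t * b a i₀ := by
    rw [Finset.sum_eq_single i₀]
    · rw [Pi.single_eq_same]
    · intro j _ hj
      rw [Pi.single_eq_of_ne hj, map_zero, zero_mul]
    · intro h
      exact absurd (Finset.mem_univ _) h
  have h1 : v a (∑ i : Fin (f a),
      algebraMap R E ((Pi.single i₀ t : Fin (f a) → R) i) * b a i) < 1 := by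
    rw [hsum, map_mul]
    exact lt_of_le_of_lt (mul_le_of_le_one_right' (S.hb a a i₀)) hlt
  have h2 := S.ind a (Pi.single i₀ t) h1 i₀
  rwa [Pi.single_eq_same] at h2

/-- Every element of `E` is moved into the valuation ring of `v a` by a power of `π`
(all `f a` positive). -/
theorem exists_pi_pow_mul_le (S : Setting (F := F) π v e f x s b) (hf : ∀ a, 0 < f a) (a : κ)
    (z : E) : ∃ k : ℕ, v a (algebraMap R E π ^ k * z) ≤ 1 := by
  classical
  have hπle : v a (algebraMap R E π) ≤ 1 := S.le a π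
  -- scalars from `F`
  have hF : ∀ c : F, ∃ k : ℕ, v a (algebraMap R E π ^ k * algebraMap F E c) ≤ 1 := by
    intro c
    obtain ⟨r, d, hd, hcd⟩ := S.frac c
    obtain ⟨n, t, ht, hdt⟩ := S.core.exists_pow_mul hd
    refine ⟨n, ?_⟩
    have hvt : v a (algebraMap R E t) = 1 := val_eq_one_of_not_dvd S (hf a) ht
    have h1 : algebraMap F E c * algebraMap R E d = algebraMap R E r := by
      rw [IsScalarTower.algebraMap_apply R F E d, IsScalarTower.algebraMap_apply R F E r,
        ← map_mul, hcd]
    have h2 : algebraMap R E π ^ n * algebraMap F E c * algebraMap R E t = algebraMap R E r := by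
      rw [← h1, hdt, map_mul, map_pow]
      ring
    have h3 : v a (algebraMap R E π ^ n * algebraMap F E c) = v a (algebraMap R E r) := by
      rw [← h2, map_mul (v a) _ (algebraMap R E t), hvt, mul_one]
    rw [h3]
    exact S.le a r
  obtain ⟨c, hc⟩ := S.span z
  choose kf hkf using hF
  refine ⟨∑ k, kf (c k), ?_⟩
  rw [hc, Finset.mul_sum]
  refine (v a).map_sum_le fun k _ => ?_
  have hle : kf (c k) ≤ ∑ k, kf (c k) :=
    Finset.single_le_sum (f := fun k => kf (c k)) (fun _ _ => Nat.zero_le _) (Finset.mem_univ k)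
  obtain ⟨d, hd⟩ := Nat.exists_eq_add_of_le hle
  have e1 : algebraMap R E π ^ (∑ k, kf (c k)) * (algebraMap F E (c k) * fam e x s b k)
      = algebraMap R E π ^ d * (algebraMap R E π ^ kf (c k) * algebraMap F E (c k))
        * fam e x s b k := by
    rw [hd, _root_.pow_add]
    ring
  rw [e1, map_mul, map_mul, map_pow]
  exact mul_le_one' (mul_le_one' (pow_le_one' hπle _) (hkf (c k))) (S.core.hg a k)

end Abstract

/-! ### Chart layer -/

section Chart

variable {M N : ℕ} [NeZero M] [NeZero N] {h : M ∣ N}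
variable {A : ValuationSubring Qb} {K : IntermediateField ℚ Qb} {t : FK M K}
variable {κ : Type*} [Fintype κ] {π : OK A K} {V : κ → ValuationSubring (FK N K)}
  {e f : κ → ℕ} {x s : κ → FK N K} {b : ∀ a, Fin (f a) → FK N K}

/-- **Residue degree one along `V a₀`, from the chart witness.**  `W` the witness package of the
chart route for the family `V` over the level-`M` chart of `t`; `a₀` an index with `f a₀ = 1`,
`0 < e a₀`; `V a₀` the Gauss ring along `Emb`, which restricts to the inclusion on `F_K(M)`.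
Then every Gauss reduction along `Emb` is the Gauss reduction of an element of `F_K(M)`. -/
theorem hf_of_wit (hC : ChartFacts M A K (chart M A K t) t)
    (hdvr : IsDiscreteValuationRing (OK A K)) (hπ : Irreducible π)
    (W : NValChart.Wit M N h A t π V e f x s b) (hfpos : ∀ a, 0 < f a)
    (a₀ : κ) (hf : f a₀ = 1) (he : 0 < e a₀)
    (Emb : FK N K →+* LaurentSeries Qb)
    (hV : ∀ z : FK N K, z ∈ V a₀ ↔ ∃ y, GRel A (Emb z) y)
    (hEinc : ∀ x' : FK M K,
      Emb (DegTower.incl M N K h x') = ((x' : FK M K) : LaurentSeries Qb)) :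
    ∀ (z : FK N K) (y : LaurentSeries (IsLocalRing.ResidueField A)), GRel A (Emb z) y →
      ∃ x' : FK M K, GRel A ((x' : FK M K) : LaurentSeries Qb) y := by
  letI := NValChart.algFE (K := K) M N h
  letI := NValChart.algRE M N h A t
  haveI := NValChart.towerRFE M N h A t
  have S := NValChart.setting hC hdvr hπ W
  refine ResDeg3G.hf_of_setting V S a₀ hf he (fun a ha z => ?_) Emb hV hEinc
  obtain ⟨k, hk⟩ := ResDeg3.harch_of_pi S ha (exists_pi_pow_mul_le S hfpos a z)
  exact ⟨k, ((V a).valuation_le_one_iff _).mp hk⟩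

end Chart

/-! ### Level `M q²`: the shapes of `Level3J3B.branch3_J3` -/

section Level3

variable (M q : ℕ) [NeZero M] [NeZero q]
variable {h : M ∣ M * q * q}
variable {A : ValuationSubring Qb} {K K' : IntermediateField ℚ Qb}
variable {π : OK A K} {V : Fin 3 → ValuationSubring (FK (M * q * q) K)}
  {e f : Fin 3 → ℕ} {x s : Fin 3 → FK (M * q * q) K} {b : ∀ a, Fin (f a) → FK (M * q * q) K}

/-- The inclusion `F_K(M) ⊆ F_K(M q²)` is `α² = alphaK2 ∘ alphaK`. -/
theorem incl_eq (x' : FK M K) :
    DegTower.incl M (M * q * q) K h x' = WQ2.alphaK2 M q K (WK.alphaK M q K x') :=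
  Subtype.ext (by rw [DegTower.coe_incl, WQ2.coe_alphaK2, WK.coe_alphaK])

/-- **`hf1`** (residue degree one along `W1`), from the chart witness: `V 0 = V1`, `f 0 = 1`. -/
theorem hf1_of_wit (hdvr : IsDiscreteValuationRing (OK A K)) (hπ : Irreducible π)
    (hC : ChartFacts M A K (chart M A K (jK M K)) (jK M K))
    (W : NValChart.Wit M (M * q * q) h A (jK M K) π V e f x s b)
    (hfpos : ∀ a, 0 < f a) (hf0 : f 0 = 1) (he0 : 0 < e 0)
    (hV0 : V 0 = GaussV.V1 (M * q * q) A K hdvr) :
    ∀ (x : FK (M * q * q) K) (y : LaurentSeries (IsLocalRing.ResidueField A)),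
      GRel A ((x : FK (M * q * q) K) : LaurentSeries Qb) y →
      ∃ x' : FK M K, GRel A ((x' : FK M K) : LaurentSeries Qb) y :=
  hf_of_wit hC hdvr hπ W hfpos 0 hf0 he0 (FK (M * q * q) K).subtype
    (fun z => by rw [hV0]; exact GaussV.mem_V1_iff hdvr)
    (fun x' => DegTower.coe_incl M (M * q * q) K h x')

/-- **`hf3`** (residue degree one along `W3`), from the chart witness, abstract `W3`: `V 2` is the
Gauss ring along `E` (`hV2`), `f 2 = 1`, and `E` is the standard expansion on level `M q`. -/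
theorem hf3_of_wit' (hdvr : IsDiscreteValuationRing (OK A K)) (hπ : Irreducible π)
    (hC : ChartFacts M A K (chart M A K (jK M K)) (jK M K))
    {E : FK (M * q * q) K →+* LaurentSeries Qb}
    (hEq : ∀ y : FK (M * q) K, E (WQ2.alphaK2 M q K y) = ((y : FK (M * q) K) : LaurentSeries Qb))
    (W : NValChart.Wit M (M * q * q) h A (jK M K) π V e f x s b)
    (hfpos : ∀ a, 0 < f a) (hf2 : f 2 = 1) (he2 : 0 < e 2)
    (hV2 : ∀ z : FK (M * q * q) K, z ∈ V 2 ↔ ∃ y, GRel A (E z) y) :
    ∀ (x : FK (M * q * q) K) (y : LaurentSeries (IsLocalRing.ResidueField A)),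
      GRel A (E x) y → ∃ x' : FK M K, GRel A ((x' : FK M K) : LaurentSeries Qb) y :=
  hf_of_wit hC hdvr hπ W hfpos 2 hf2 he2 E hV2
    (fun x' => by rw [incl_eq M q x', hEq, WK.coe_alphaK])

/-- **`hf3`** (residue degree one along `W3`), from the chart witness: `V 2 = GaussE.V hE hdvr'`,
`f 2 = 1`, and `E` the standard expansion on level `M q`. -/
theorem hf3_of_wit (hdvr : IsDiscreteValuationRing (OK A K)) (hπ : Irreducible π)
    (hC : ChartFacts M A K (chart M A K (jK M K)) (jK M K))
    {E : FK (M * q * q) K →+* LaurentSeries Qb} (hE : GaussE.Emb A K K' E)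
    (hdvr' : IsDiscreteValuationRing (OK A K'))
    (hEq : ∀ y : FK (M * q) K, E (WQ2.alphaK2 M q K y) = ((y : FK (M * q) K) : LaurentSeries Qb))
    (W : NValChart.Wit M (M * q * q) h A (jK M K) π V e f x s b)
    (hfpos : ∀ a, 0 < f a) (hf2 : f 2 = 1) (he2 : 0 < e 2)
    (hV2 : V 2 = GaussE.V hE hdvr') :
    ∀ (x : FK (M * q * q) K) (y : LaurentSeries (IsLocalRing.ResidueField A)),
      GRel A (E x) y → ∃ x' : FK M K, GRel A ((x' : FK M K) : LaurentSeries Qb) y :=
  hf3_of_wit' M q hdvr hπ hC hEq W hfpos hf2 he2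
    (fun z => by rw [hV2]; exact GaussE.mem_V_iff hE hdvr')

/-- The residue degrees `f = ![1, q * q, 1]` are positive. -/
theorem f_pos (a : Fin 3) : 0 < (![1, q * q, 1] : Fin 3 → ℕ) a := by
  have hq0 : 0 < q := Nat.pos_of_ne_zero (NeZero.ne q)
  fin_cases a
  · exact Nat.one_pos
  · exact Nat.mul_pos hq0 hq0
  · exact Nat.one_pos

/-- **`hf1` for the valuation rings of record** `V = ![V1, V2, W3]`, `e = ram q`,
`f = ![1, q * q, 1]` (the shape of the input `hf1` of `Level3J3B.branch3_J3`). -/
theorem hf1 (hdvr : IsDiscreteValuationRing (OK A K)) (hπ : Irreducible π)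
    (hC : ChartFacts M A K (chart M A K (jK M K)) (jK M K))
    {V2 W3 : ValuationSubring (FK (M * q * q) K)}
    {b : ∀ a, Fin ((![1, q * q, 1] : Fin 3 → ℕ) a) → FK (M * q * q) K}
    (W : NValChart.Wit M (M * q * q) h A (jK M K) π
      ![GaussV.V1 (M * q * q) A K hdvr, V2, W3] (Model3Plan.ram q) ![1, q * q, 1] x s b) :
    ∀ (x : FK (M * q * q) K) (y : LaurentSeries (IsLocalRing.ResidueField A)),
      GRel A ((x : FK (M * q * q) K) : LaurentSeries Qb) y →
      ∃ x' : FK M K, GRel A ((x' : FK M K) : LaurentSeries Qb) y :=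
  hf1_of_wit M q hdvr hπ hC W (f_pos q) rfl Nat.one_pos rfl

/-- **`hf3` for the valuation rings of record, abstract `W3`**: `V = ![V1, V2, W3]` with `W3` the
Gauss ring along `E` (`hW3`), `e = ram q`, `f = ![1, q * q, 1]` (the shape of the input `hf3` of
`Level3J3B.branch3_J3`). -/
theorem hf3' (hq : q.Prime) (hdvr : IsDiscreteValuationRing (OK A K)) (hπ : Irreducible π)
    (hC : ChartFacts M A K (chart M A K (jK M K)) (jK M K))
    {E : FK (M * q * q) K →+* LaurentSeries Qb}
    (hEq : ∀ y : FK (M * q) K, E (WQ2.alphaK2 M q K y) = ((y : FK (M * q) K) : LaurentSeries Qb))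
    {V1 V2 W3 : ValuationSubring (FK (M * q * q) K)}
    (hW3 : ∀ z : FK (M * q * q) K, z ∈ W3 ↔ ∃ y, GRel A (E z) y)
    {b : ∀ a, Fin ((![1, q * q, 1] : Fin 3 → ℕ) a) → FK (M * q * q) K}
    (W : NValChart.Wit M (M * q * q) h A (jK M K) π
      ![V1, V2, W3] (Model3Plan.ram q) ![1, q * q, 1] x s b) :
    ∀ (x : FK (M * q * q) K) (y : LaurentSeries (IsLocalRing.ResidueField A)),
      GRel A (E x) y → ∃ x' : FK M K, GRel A ((x' : FK M K) : LaurentSeries Qb) y :=
  hf3_of_wit' M q hdvr hπ hC hEq W (f_pos q) rfl (Nat.sub_pos_of_lt hq.one_lt) hW3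

/-- **`hf3` for the valuation rings of record** `V = ![V1, V2, GaussE.V hE hdvr']`, `e = ram q`,
`f = ![1, q * q, 1]` (the shape of the input `hf3` of `Level3J3B.branch3_J3`). -/
theorem hf3 (hq : q.Prime) (hdvr : IsDiscreteValuationRing (OK A K)) (hπ : Irreducible π)
    (hC : ChartFacts M A K (chart M A K (jK M K)) (jK M K))
    {E : FK (M * q * q) K →+* LaurentSeries Qb} (hE : GaussE.Emb A K K' E)
    (hdvr' : IsDiscreteValuationRing (OK A K'))
    (hEq : ∀ y : FK (M * q) K, E (WQ2.alphaK2 M q K y) = ((y : FK (M * q) K) : LaurentSeries Qb))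
    {V1 V2 : ValuationSubring (FK (M * q * q) K)}
    {b : ∀ a, Fin ((![1, q * q, 1] : Fin 3 → ℕ) a) → FK (M * q * q) K}
    (W : NValChart.Wit M (M * q * q) h A (jK M K) π
      ![V1, V2, GaussE.V hE hdvr'] (Model3Plan.ram q) ![1, q * q, 1] x s b) :
    ∀ (x : FK (M * q * q) K) (y : LaurentSeries (IsLocalRing.ResidueField A)),
      GRel A (E x) y → ∃ x' : FK M K, GRel A ((x' : FK M K) : LaurentSeries Qb) y :=
  hf3' M q hq hdvr hπ hC hEq (fun _ => GaussE.mem_V_iff hE hdvr') W

end Level3

end Fermat.Agent.S36.ResDeg3Inst
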