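/-
S36 — BaseXiB.lean (helper93): block [BaseXi] (B-copy), an input of the middle valuation `W3`.

Let `A` be a valuation subring of `ℚ̄`, `K` an intermediate field such that `O = A ∩ K` is a
discrete valuation ring whose uniformiser is the prime number `q` (the unramified base), and
let `ξ` be a primitive `q`-th root of unity.  Then for `K' = K(ξ)`:

* `isDVR`            : `A ∩ K'` is a discrete valuation ring;
* `irreducible_varpi`: `1 - ξ` is a uniformiser of `A ∩ K'`;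
* `exists_unit`      : `q = (1 - ξ)^(q-1) · u` with `u` a unit of `A`;
* `val_mem_zpow`     : the value group of `K'` is generated by the value of `1 - ξ`.

Proof: every `x ∈ K'` is `∑_{i < q-1} c_i (1 - ξ)^i` with `c_i ∈ K`; the values of the nonzero
terms are `v(1 - ξ)^((q-1) n_i + i)`, pairwise distinct, so the value of `x` is the largest one.
The relation `v(q) = v(1 - ξ)^(q-1)` comes from `Φ_q(1) = q`.
Only Mathlib and the definitions `OK`, `incO` of `S18/ArithPlan` are used.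
-/
import Mathlib
import Fermat.Agent.S18.ArithPlan

set_option autoImplicit false

noncomputable section

namespace Fermat.Agent.S36.BaseXiB

open Fermat.Agent.S18.Arith Polynomial

/-! ### Generalities on the valuation attached to a valuation subring -/

section Val

variable {L : Type*} [Field L] (A : ValuationSubring L)

theorem val_eq_one_of_mem_of_inv_mem {x : L} (hx : x ∈ A) (hx' : x⁻¹ ∈ A) (h0 : x ≠ 0) :
    A.valuation x = 1 := by
  have h1 : A.valuation x ≤ 1 := (A.valuation_le_one_iff x).mpr hx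
  have h2 : A.valuation x⁻¹ ≤ 1 := (A.valuation_le_one_iff _).mpr hx'
  rw [map_inv₀] at h2
  have h3 : A.valuation x ≠ 0 := (Valuation.ne_zero_iff _).mpr h0
  have h4 : 1 ≤ A.valuation x := by
    rwa [inv_le_one₀ (zero_lt_iff.mpr h3)] at h2
  exact le_antisymm h1 h4

theorem mem_of_val_eq_one {x : L} (h : A.valuation x = 1) : x ∈ A ∧ x⁻¹ ∈ A := by
  refine ⟨(A.valuation_le_one_iff x).mp h.le, (A.valuation_le_one_iff _).mp ?_⟩
  rw [map_inv₀, h, inv_one]

/-- Roots of unity lie in every valuation subring. -/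
theorem root_mem {ξ : L} {q : ℕ} (hq : 0 < q) (hξ : ξ ^ q = 1) : ξ ∈ A := by
  rcases A.mem_or_inv_mem ξ with h | h
  · exact h
  · have hξ0 : ξ ≠ 0 := by
      rintro rfl
      rw [zero_pow hq.ne'] at hξ
      exact zero_ne_one hξ
    obtain ⟨k, rfl⟩ := Nat.exists_eq_succ_of_ne_zero hq.ne'
    have h1 : ξ = ξ⁻¹ ^ k := by
      rw [inv_pow]
      refine eq_inv_of_mul_eq_one_left ?_
      rw [← pow_succ']
      exact hξ
    rw [h1]
    exact A.pow_mem h k

end Val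

variable (A : ValuationSubring Qb) (K : IntermediateField ℚ Qb)

/-! ### The field `K(ξ)` -/

/-- `K(ξ)`, as an intermediate field of `ℚ̄ / ℚ`. -/
def Kxi (ξ : Qb) : IntermediateField ℚ Qb :=
  (IntermediateField.adjoin K {ξ}).restrictScalars ℚ

theorem mem_Kxi {ξ x : Qb} : x ∈ Kxi K ξ ↔ x ∈ IntermediateField.adjoin K {ξ} := Iff.rfl

theorem le_Kxi (ξ : Qb) : K ≤ Kxi K ξ := fun x hx =>
  (mem_Kxi K).mpr ((IntermediateField.adjoin K {ξ}).algebraMap_mem (⟨x, hx⟩ : K))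

theorem xi_mem_Kxi (ξ : Qb) : ξ ∈ Kxi K ξ :=
  (mem_Kxi K).mpr (IntermediateField.mem_adjoin_simple_self K ξ)

/-- Every element of `K(ξ)` is a `K`-combination of `1, (1-ξ), …, (1-ξ)^(q-2)`. -/
theorem exists_coeffs {q : ℕ} (hq : q.Prime) {ξ : Qb} (hξ : IsPrimitiveRoot ξ q) {x : Qb}
    (hx : x ∈ Kxi K ξ) :
    ∃ c : ℕ → K, x = ∑ i ∈ Finset.range (q - 1), (c i : Qb) * (1 - ξ) ^ i := by
  have halg : IsAlgebraic K ξ := by
    refine ⟨X ^ q - C 1, (monic_X_pow_sub_C (1 : K) hq.ne_zero).ne_zero, ?_⟩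
    simp [hξ.pow_eq_one]
  have h1 : x ∈ (IntermediateField.adjoin K {ξ}).toSubalgebra := hx
  rw [IntermediateField.adjoin_simple_toSubalgebra_of_isAlgebraic halg,
    Algebra.adjoin_singleton_eq_range_aeval] at h1
  obtain ⟨p, rfl⟩ := h1
  have hmon : (cyclotomic q K).Monic := cyclotomic.monic q K
  have hdeg : (cyclotomic q K).natDegree = q - 1 := by
    rw [natDegree_cyclotomic, Nat.totient_prime hq]
  have hroot : aeval ξ (cyclotomic q K) = 0 := by
    rw [aeval_def, eval₂_eq_eval_map, map_cyclotomic]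
    exact hξ.isRoot_cyclotomic hq.pos
  have hne1 : cyclotomic q K ≠ 1 := by
    intro h
    rw [h, natDegree_one] at hdeg
    have := hq.two_le
    omega
  have h2 : (p %ₘ cyclotomic q K).natDegree < q - 1 :=
    hdeg ▸ natDegree_modByMonic_lt p hmon hne1
  have h3 : (C (1 : K) - X).natDegree ≤ 1 := by
    refine (natDegree_sub_le _ _).trans ?_
    simp
  have hrdeg : ((p %ₘ cyclotomic q K).comp (C 1 - X)).natDegree < q - 1 :=
    calc ((p %ₘ cyclotomic q K).comp (C 1 - X)).natDegree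
        ≤ (p %ₘ cyclotomic q K).natDegree * (C (1 : K) - X).natDegree := natDegree_comp_le
      _ ≤ (p %ₘ cyclotomic q K).natDegree * 1 := Nat.mul_le_mul_left _ h3
      _ < q - 1 := by rwa [mul_one]
  have hval : aeval ξ p = aeval (1 - ξ) ((p %ₘ cyclotomic q K).comp (C 1 - X)) := by
    rw [aeval_comp]
    have h4 : aeval (1 - ξ) (C (1 : K) - X) = ξ := by simp
    rw [h4]
    conv_lhs => rw [← modByMonic_add_div p (cyclotomic q K)]
    rw [map_add, map_mul, hroot, zero_mul, add_zero]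
  refine ⟨fun i => ((p %ₘ cyclotomic q K).comp (C 1 - X)).coeff i, ?_⟩
  change aeval ξ p = _
  rw [hval, aeval_eq_sum_range' hrdeg]
  refine Finset.sum_congr rfl fun i _ => ?_
  rw [Algebra.smul_def]
  rfl

/-! ### Values -/

variable {A K}

/-- The value of a nonzero element of `K` is a power of the value of the uniformiser `q`. -/
theorem val_K {q : ℕ} {π : OK A K} (hπ : Irreducible π) (hπq : incO A K π = (q : Qb))
    (hdvr : IsDiscreteValuationRing (OK A K)) (c : K) (hc : c ≠ 0) :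
    ∃ n : ℤ, A.valuation (c : Qb) = A.valuation (q : Qb) ^ n := by
  have key : ∀ x : OK A K, x ≠ 0 →
      ∃ n : ℕ, A.valuation (incO A K x) = A.valuation (q : Qb) ^ n := by
    intro x hx
    obtain ⟨n, u, rfl⟩ := IsDiscreteValuationRing.eq_unit_mul_pow_irreducible hx hπ
    refine ⟨n, ?_⟩
    have hu : A.valuation (incO A K (u : OK A K)) = 1 := by
      refine val_eq_one_of_mem_of_inv_mem A (u : OK A K).2 ?_
        (IsUnit.ne_zero (u.isUnit.map (incO A K)))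
      rw [← map_units_inv (incO A K) u]
      exact ((u⁻¹ : (OK A K)ˣ) : OK A K).2
    rw [map_mul, map_pow, hπq, map_mul, map_pow, hu, one_mul]
  rcases (OK A K).mem_or_inv_mem c with h | h
  · obtain ⟨n, hn⟩ := key ⟨c, h⟩ (fun h0 => hc (congrArg Subtype.val h0))
    exact ⟨n, by rw [zpow_natCast]; exact hn⟩
  · obtain ⟨n, hn⟩ := key ⟨c⁻¹, h⟩
      (fun h0 => inv_ne_zero hc (congrArg Subtype.val h0))
    refine ⟨-(n : ℤ), ?_⟩
    have h1 : incO A K ⟨c⁻¹, h⟩ = ((c : K) : Qb)⁻¹ := map_inv₀ (algebraMap K Qb) c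
    rw [h1, map_inv₀] at hn
    rw [zpow_neg, zpow_natCast, ← hn, inv_inv]

/-- `v(q) = v(1 - ξ)^(q-1)`, from `Φ_q(1) = q`. -/
theorem val_q_eq (A : ValuationSubring Qb) {q : ℕ} (hq : q.Prime) {ξ : Qb}
    (hξ : IsPrimitiveRoot ξ q) :
    A.valuation (q : Qb) = A.valuation (1 - ξ) ^ (q - 1) := by
  have : Fact q.Prime := ⟨hq⟩
  have : NeZero q := ⟨hq.ne_zero⟩
  have h1 : (q : Qb) = ∏ μ ∈ primitiveRoots q Qb, (1 - μ) := by
    have h := eval_one_cyclotomic_prime (R := Qb) (p := q)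
    rw [cyclotomic_eq_prod_X_sub_primitiveRoots hξ, eval_prod] at h
    rw [← h]
    exact Finset.prod_congr rfl fun μ _ => by simp
  have hξA : ξ ∈ A := root_mem A hq.pos hξ.pow_eq_one
  have h2 : ∀ μ ∈ primitiveRoots q Qb, A.valuation (1 - μ) = A.valuation (1 - ξ) := by
    intro μ hμ
    have hμ' : IsPrimitiveRoot μ q := (mem_primitiveRoots hq.pos).mp hμ
    have hμA : μ ∈ A := root_mem A hq.pos hμ'.pow_eq_one
    obtain ⟨i, _, hi⟩ := hξ.eq_pow_of_pow_eq_one hμ'.pow_eq_one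
    obtain ⟨j, _, hj⟩ := hμ'.eq_pow_of_pow_eq_one hξ.pow_eq_one
    apply le_antisymm
    · rw [← hi, ← mul_neg_geom_sum, map_mul]
      exact mul_le_of_le_one_right'
        ((A.valuation_le_one_iff _).mpr (A.sum_mem fun k _ => A.pow_mem hξA k))
    · rw [← hj, ← mul_neg_geom_sum, map_mul]
      exact mul_le_of_le_one_right'
        ((A.valuation_le_one_iff _).mpr (A.sum_mem fun k _ => A.pow_mem hμA k))
  rw [h1, map_prod, Finset.prod_congr rfl h2, Finset.prod_const, hξ.card_primitiveRoots,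
    Nat.totient_prime hq]

theorem val_q_lt_one {q : ℕ} {π : OK A K} (hπ : Irreducible π)
    (hπq : incO A K π = (q : Qb)) : A.valuation (q : Qb) < 1 := by
  have h1 : A.valuation (q : Qb) ≤ 1 := by
    rw [← hπq]
    exact (A.valuation_le_one_iff _).mpr π.2
  refine lt_of_le_of_ne h1 fun h => hπ.not_isUnit ?_
  have h2 := (mem_of_val_eq_one A h).2
  have hπ0 : (π : K) ≠ 0 := fun h0 => hπ.ne_zero (Subtype.ext h0)
  have h3 : ((π : K))⁻¹ ∈ OK A K := by
    show algebraMap K Qb ((π : K))⁻¹ ∈ A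
    rw [map_inv₀]
    have h4 : algebraMap K Qb (π : K) = (q : Qb) := hπq
    rw [h4]
    exact h2
  exact IsUnit.of_mul_eq_one (⟨(π : K)⁻¹, h3⟩ : OK A K) (Subtype.ext (mul_inv_cancel₀ hπ0))

theorem one_sub_ne_zero {q : ℕ} (hq : q.Prime) {ξ : Qb} (hξ : IsPrimitiveRoot ξ q) :
    (1 : Qb) - ξ ≠ 0 :=
  sub_ne_zero.mpr (hξ.ne_one hq.one_lt).symm

theorem val_varpi_ne_zero (A : ValuationSubring Qb) {q : ℕ} (hq : q.Prime) {ξ : Qb}
    (hξ : IsPrimitiveRoot ξ q) : A.valuation (1 - ξ) ≠ 0 :=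
  (Valuation.ne_zero_iff _).mpr (one_sub_ne_zero hq hξ)

theorem val_varpi_lt_one {q : ℕ} (hq : q.Prime) {π : OK A K} (hπ : Irreducible π)
    (hπq : incO A K π = (q : Qb)) {ξ : Qb} (hξ : IsPrimitiveRoot ξ q) :
    A.valuation (1 - ξ) < 1 := by
  by_contra h
  have h1 : 1 ≤ A.valuation (1 - ξ) ^ (q - 1) := one_le_pow₀ (not_lt.mp h)
  rw [← val_q_eq A hq hξ] at h1
  exact absurd (val_q_lt_one hπ hπq) (not_lt.mpr h1)

/-- **Value group of `K(ξ)`**: the value of every nonzero element is an integral power of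
the value of `1 - ξ`. -/
theorem val_mem_zpow {q : ℕ} (hq : q.Prime) {π : OK A K} (hπ : Irreducible π)
    (hπq : incO A K π = (q : Qb)) (hdvr : IsDiscreteValuationRing (OK A K)) {ξ : Qb}
    (hξ : IsPrimitiveRoot ξ q) {x : Qb} (hx : x ∈ Kxi K ξ) (hx0 : x ≠ 0) :
    ∃ m : ℤ, A.valuation x = A.valuation (1 - ξ) ^ m := by
  classical
  obtain ⟨c, rfl⟩ := exists_coeffs K hq hξ hx
  have hw0 : A.valuation (1 - ξ) ≠ 0 := val_varpi_ne_zero A hq hξ
  have hw1 : A.valuation (1 - ξ) < 1 := val_varpi_lt_one hq hπ hπq hξ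
  have hwq : A.valuation (q : Qb) = A.valuation (1 - ξ) ^ (q - 1) := val_q_eq A hq hξ
  have hterm : ∀ i, c i ≠ 0 → ∃ n : ℤ, A.valuation ((c i : Qb) * (1 - ξ) ^ i) =
      A.valuation (1 - ξ) ^ (((q - 1 : ℕ) : ℤ) * n + (i : ℤ)) := by
    intro i hi
    obtain ⟨n, hn⟩ := val_K hπ hπq hdvr (c i) hi
    refine ⟨n, ?_⟩
    rw [map_mul, map_pow, hn, hwq, zpow_add₀ hw0, zpow_mul, zpow_natCast, zpow_natCast]
  choose! e he using hterm
  have hsum : ∑ i ∈ Finset.range (q - 1), (c i : Qb) * (1 - ξ) ^ i =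
      ∑ i ∈ (Finset.range (q - 1)).filter (fun i => c i ≠ 0), (c i : Qb) * (1 - ξ) ^ i := by
    rw [Finset.sum_filter]
    refine Finset.sum_congr rfl fun i _ => ?_
    by_cases h : c i = 0 <;> simp [h]
  rw [hsum] at hx0 ⊢
  have hne : ((Finset.range (q - 1)).filter (fun i => c i ≠ 0)).Nonempty := by
    rw [Finset.nonempty_iff_ne_empty]
    intro h
    rw [h, Finset.sum_empty] at hx0
    exact hx0 rfl
  obtain ⟨j, hj, hmax⟩ := Finset.exists_max_image _
    (fun i => A.valuation ((c i : Qb) * (1 - ξ) ^ i)) hne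
  have hjS := Finset.mem_filter.mp hj
  refine ⟨((q - 1 : ℕ) : ℤ) * e j + (j : ℤ), ?_⟩
  rw [A.valuation.map_sum_eq_of_lt hj, he j hjS.2]
  intro i hi
  have hiS := Finset.mem_sdiff.mp hi
  have hi' := Finset.mem_filter.mp hiS.1
  have hij : i ≠ j := fun h => hiS.2 (Finset.mem_singleton.mpr h)
  refine lt_of_le_of_ne (hmax i hiS.1) fun heq => hij ?_
  rw [he i hi'.2, he j hjS.2] at heq
  have h1 : ((q - 1 : ℕ) : ℤ) * e i + (i : ℤ) = ((q - 1 : ℕ) : ℤ) * e j + (j : ℤ) :=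
    zpow_right_injective₀ (zero_lt_iff.mpr hw0) hw1.ne heq
  have hi1 := Finset.mem_range.mp hi'.1
  have hj1 := Finset.mem_range.mp hjS.1
  have h3 : (i : ℤ) % ((q - 1 : ℕ) : ℤ) = (j : ℤ) % ((q - 1 : ℕ) : ℤ) := by
    rw [← Int.add_mul_emod_self_left (i : ℤ) ((q - 1 : ℕ) : ℤ) (e i), add_comm, h1, add_comm,
      Int.add_mul_emod_self_left]
  rw [Int.emod_eq_of_lt (Int.natCast_nonneg i) (by exact_mod_cast hi1),
    Int.emod_eq_of_lt (Int.natCast_nonneg j) (by exact_mod_cast hj1)] at h3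
  exact_mod_cast h3

/-! ### Units of `A ∩ K'` -/

theorem isUnit_of_val_eq_one (K' : IntermediateField ℚ Qb) (x : OK A K')
    (h : A.valuation (incO A K' x) = 1) : IsUnit x := by
  have hx0 : (x : K') ≠ 0 := by
    intro h0
    have h1 : incO A K' x = 0 := by
      show algebraMap K' Qb (x : K') = 0
      rw [h0, map_zero]
    rw [h1, map_zero] at h
    exact zero_ne_one h
  have h3 : ((x : K'))⁻¹ ∈ OK A K' := by
    show algebraMap K' Qb ((x : K'))⁻¹ ∈ A
    rw [map_inv₀]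
    exact (mem_of_val_eq_one A h).2
  exact IsUnit.of_mul_eq_one (⟨(x : K')⁻¹, h3⟩ : OK A K') (Subtype.ext (mul_inv_cancel₀ hx0))

theorem val_eq_one_of_isUnit (K' : IntermediateField ℚ Qb) (x : OK A K') (h : IsUnit x) :
    A.valuation (incO A K' x) = 1 := by
  obtain ⟨u, rfl⟩ := h
  refine val_eq_one_of_mem_of_inv_mem A (u : OK A K').2 ?_
    (IsUnit.ne_zero (u.isUnit.map (incO A K')))
  rw [← map_units_inv (incO A K') u]
  exact ((u⁻¹ : (OK A K')ˣ) : OK A K').2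

theorem incO_ne_zero (K' : IntermediateField ℚ Qb) {x : OK A K'} (hx : x ≠ 0) :
    incO A K' x ≠ 0 := by
  intro h
  apply hx
  apply Subtype.ext
  exact (algebraMap K' Qb).injective (h.trans (map_zero (algebraMap K' Qb)).symm)

/-! ### The uniformiser `1 - ξ` -/

variable (A K)

/-- The element `1 - ξ` of `A ∩ K(ξ)`. -/
def varpi {q : ℕ} (hq : q.Prime) {ξ : Qb} (hξ : IsPrimitiveRoot ξ q) : OK A (Kxi K ξ) :=
  ⟨⟨1 - ξ, sub_mem (one_mem _) (xi_mem_Kxi K ξ)⟩,
    A.sub_mem A.one_mem (root_mem A hq.pos hξ.pow_eq_one)⟩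

theorem incO_varpi {q : ℕ} (hq : q.Prime) {ξ : Qb} (hξ : IsPrimitiveRoot ξ q) :
    incO A (Kxi K ξ) (varpi A K hq hξ) = 1 - ξ := rfl

variable {A K}

/-- Integral form of `val_mem_zpow`. -/
theorem val_incO_eq_pow {q : ℕ} (hq : q.Prime) {π : OK A K} (hπ : Irreducible π)
    (hπq : incO A K π = (q : Qb)) (hdvr : IsDiscreteValuationRing (OK A K)) {ξ : Qb}
    (hξ : IsPrimitiveRoot ξ q) (x : OK A (Kxi K ξ)) (hx : x ≠ 0) :
    ∃ n : ℕ, A.valuation (incO A (Kxi K ξ) x) = A.valuation (1 - ξ) ^ n := by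
  have hw0 : A.valuation (1 - ξ) ≠ 0 := val_varpi_ne_zero A hq hξ
  have hw1 : A.valuation (1 - ξ) < 1 := val_varpi_lt_one hq hπ hπq hξ
  obtain ⟨m, hm⟩ := val_mem_zpow hq hπ hπq hdvr hξ (x : Kxi K ξ).2 (incO_ne_zero _ hx)
  have hle : A.valuation (incO A (Kxi K ξ) x) ≤ 1 := (A.valuation_le_one_iff _).mpr x.2
  have hm' : A.valuation (incO A (Kxi K ξ) x) = A.valuation (1 - ξ) ^ m := hm
  have hm0 : 0 ≤ m := by
    by_contra hneg
    rw [hm'] at hle
    exact absurd hle (not_le.mpr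
      (one_lt_zpow_of_neg₀ (zero_lt_iff.mpr hw0) hw1 (not_le.mp hneg)))
  refine ⟨m.toNat, ?_⟩
  rw [hm', ← zpow_natCast, Int.toNat_of_nonneg hm0]

theorem irreducible_varpi {q : ℕ} (hq : q.Prime) {π : OK A K} (hπ : Irreducible π)
    (hπq : incO A K π = (q : Qb)) (hdvr : IsDiscreteValuationRing (OK A K)) {ξ : Qb}
    (hξ : IsPrimitiveRoot ξ q) : Irreducible (varpi A K hq hξ) := by
  have hw0 : A.valuation (1 - ξ) ≠ 0 := val_varpi_ne_zero A hq hξ
  have hw1 : A.valuation (1 - ξ) < 1 := val_varpi_lt_one hq hπ hπq hξ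
  have hne : varpi A K hq hξ ≠ 0 := by
    intro h
    have h1 := congrArg (incO A (Kxi K ξ)) h
    rw [incO_varpi, map_zero] at h1
    exact one_sub_ne_zero hq hξ h1
  rw [irreducible_iff]
  refine ⟨fun hu => ?_, fun a b hab => ?_⟩
  · have h1 := val_eq_one_of_isUnit _ _ hu
    rw [incO_varpi] at h1
    exact hw1.ne h1
  · have ha0 : a ≠ 0 := by
      rintro rfl
      rw [zero_mul] at hab
      exact hne hab
    have hb0 : b ≠ 0 := by
      rintro rfl
      rw [mul_zero] at hab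
      exact hne hab
    obtain ⟨m₁, h₁⟩ := val_incO_eq_pow hq hπ hπq hdvr hξ a ha0
    obtain ⟨m₂, h₂⟩ := val_incO_eq_pow hq hπ hπq hdvr hξ b hb0
    have h3 : A.valuation (1 - ξ) ^ ((1 : ℕ) : ℤ) = A.valuation (1 - ξ) ^ ((m₁ + m₂ : ℕ) : ℤ) := by
      rw [zpow_natCast, zpow_natCast, pow_add, ← h₁, ← h₂, ← map_mul, ← map_mul, ← hab,
        incO_varpi, pow_one]
    have h4 : ((1 : ℕ) : ℤ) = ((m₁ + m₂ : ℕ) : ℤ) :=
      zpow_right_injective₀ (zero_lt_iff.mpr hw0) hw1.ne h3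
    have h5 : 1 = m₁ + m₂ := by exact_mod_cast h4
    rcases Nat.eq_zero_or_pos m₁ with h | h
    · left
      apply isUnit_of_val_eq_one
      rw [h₁, h, pow_zero]
    · right
      have h6 : m₂ = 0 := by omega
      apply isUnit_of_val_eq_one
      rw [h₂, h6, pow_zero]

/-- **`A ∩ K(ξ)` is a discrete valuation ring.** -/
theorem isDVR {q : ℕ} (hq : q.Prime) {π : OK A K} (hπ : Irreducible π)
    (hπq : incO A K π = (q : Qb)) (hdvr : IsDiscreteValuationRing (OK A K)) {ξ : Qb}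
    (hξ : IsPrimitiveRoot ξ q) : IsDiscreteValuationRing (OK A (Kxi K ξ)) := by
  apply IsDiscreteValuationRing.ofHasUnitMulPowIrreducibleFactorization
  refine ⟨varpi A K hq hξ, irreducible_varpi hq hπ hπq hdvr hξ, ?_⟩
  intro x hx
  obtain ⟨n, hn⟩ := val_incO_eq_pow hq hπ hπq hdvr hξ x hx
  refine ⟨n, ?_⟩
  have hw0 : (1 : Qb) - ξ ≠ 0 := one_sub_ne_zero hq hξ
  have hp0 : ((varpi A K hq hξ : OK A (Kxi K ξ)) : Kxi K ξ) ≠ 0 := by
    intro h
    apply hw0
    have h1 := congrArg (algebraMap (Kxi K ξ) Qb) h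
    rw [map_zero] at h1
    exact h1
  have hy : A.valuation (algebraMap (Kxi K ξ) Qb
      ((x : Kxi K ξ) / ((varpi A K hq hξ : OK A (Kxi K ξ)) : Kxi K ξ) ^ n)) = 1 := by
    rw [map_div₀, map_pow, map_div₀, map_pow]
    have h1 : A.valuation (algebraMap (Kxi K ξ) Qb (x : Kxi K ξ)) =
        A.valuation (1 - ξ) ^ n := hn
    have h2 : algebraMap (Kxi K ξ) Qb ((varpi A K hq hξ : OK A (Kxi K ξ)) : Kxi K ξ) = 1 - ξ :=
      rfl
    rw [h1, h2, div_self (pow_ne_zero n (val_varpi_ne_zero A hq hξ))]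
  have hyu : IsUnit (⟨(x : Kxi K ξ) / ((varpi A K hq hξ : OK A (Kxi K ξ)) : Kxi K ξ) ^ n,
      (mem_of_val_eq_one A hy).1⟩ : OK A (Kxi K ξ)) := isUnit_of_val_eq_one _ _ hy
  refine ⟨hyu.unit, ?_⟩
  apply Subtype.ext
  rw [IsUnit.unit_spec]
  show ((varpi A K hq hξ : OK A (Kxi K ξ)) : Kxi K ξ) ^ n *
    ((x : Kxi K ξ) / ((varpi A K hq hξ : OK A (Kxi K ξ)) : Kxi K ξ) ^ n) = (x : Kxi K ξ)
  field_simp

/-- **`q = (1 - ξ)^(q-1) · unit`** in `A`. -/
theorem exists_unit {q : ℕ} (hq : q.Prime) {π : OK A K}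
    (hπq : incO A K π = (q : Qb)) {ξ : Qb} (hξ : IsPrimitiveRoot ξ q) :
    ∃ u : A, IsUnit u ∧
      incO A K π = incO A (Kxi K ξ) (varpi A K hq hξ) ^ (q - 1) * (u : Qb) := by
  have hw0 : (1 : Qb) - ξ ≠ 0 := one_sub_ne_zero hq hξ
  have hv : A.valuation ((q : Qb) / (1 - ξ) ^ (q - 1)) = 1 := by
    rw [map_div₀, map_pow, val_q_eq A hq hξ,
      div_self (pow_ne_zero _ (val_varpi_ne_zero A hq hξ))]
  refine ⟨⟨(q : Qb) / (1 - ξ) ^ (q - 1), (mem_of_val_eq_one A hv).1⟩,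
    (A.valuation_eq_one_iff _).mpr hv, ?_⟩
  rw [hπq, incO_varpi]
  show (q : Qb) = (1 - ξ) ^ (q - 1) * ((q : Qb) / (1 - ξ) ^ (q - 1))
  field_simp

end Fermat.Agent.S36.BaseXiB
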