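/-
S36 — Iota3.lean (helper2): block [IOTA3] of the S36 campaign — the MIDDLE-CUSP EMBEDDINGS.

Levels `M * q ⊂ (M * q) * q`, `q` a prime not dividing `M`, `K` an intermediate field of `ℚ̄/ℚ`,
`E₀ = FK M K ⊂ E₁ = FK (M * q) K ⊂ E₂ = FK ((M * q) * q) K` (subfields of `ℚ̄((Q))`).

The extension `E₂ / E₁` has degree `q`; its `q` embeddings into `ℚ̄((Q))` over `E₁` are the
identity and, for every `q`-th root of unity `ξ ≠ 1`,

  `iota3 ξ : E₂ →+* ℚ̄((Q))`,  `iota3 ξ x = x` on `E₁`,  `iota3 ξ (x(Q^q)) = (w x)(ξ Q)` on `β(E₁)`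

(`w` the Atkin–Lehner swap of level `M q`), i.e. `j ↦ j(Q)`, `j_q ↦ j(Q^q)`, `j_{q²} ↦ j(ξ Q)`:
the `Q`-expansions at the middle cusp of `X₀(M q²)`.  The construction is purely algebraic:

* `adjoin_jqK_eq_top`  : `E₁ = E₀(j_q)` (the `q + 1` embeddings of `S34/ConjMod` separate `j_q`);
* `adjoin_jq2K_eq_top` : `E₂ = E₁(j_{q²})`, and `finrank_E2 : [E₂ : E₁] = q`;
* the minimal polynomial of `j_{q²}` over `E₁` is `m^β / (X - j)` (`m` the minimal polynomial of
  `j_q` over `E₀`), whose roots in `ℚ̄((Q))` are `j(Q^{q²})` and the `j(ξ Q)`.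

Consequences: the complete family `emb3` of conjugates, the norm / trace formulas
`N_α y = y · ∏_{c ≠ 0} iota3 (ζ^c) y`, Galois equivariance `σ (iota3 ξ x) = iota3 (σ ξ) x` for
`σ` fixing `K`, and the Gauss reductions along `iota3` on `α(E₁)` and `β(E₁)`.
-/
import Mathlib
import Fermat.Agent.S34.ConjMod
import Fermat.Agent.S34.WK

set_option autoImplicit false

noncomputable section

namespace Fermat.Agent.S36.Iota3

open Polynomial

/-! ### Abstract field theory (Mathlib only) -/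

section Abstract

variable {F L : Type*} [Field F] [Field L] [Algebra F L]

/-- Images of a root of `p` under ring homs restricting to `ι₀` are roots of `p` mapped by
`ι₀`. -/
theorem eval₂_hom_of_restrict {Ω : Type*} [Field Ω] (ι₀ : F →+* Ω) (g : L →+* Ω)
    (hg : ∀ x, g (algebraMap F L x) = ι₀ x) (p : F[X]) (θ : L)
    (h : eval₂ (algebraMap F L) θ p = 0) : eval₂ ι₀ (g θ) p = 0 := by
  have h1 := congrArg g h
  rw [Polynomial.hom_eval₂, map_zero] at h1
  have h2 : g.comp (algebraMap F L) = ι₀ := RingHom.ext hg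
  rwa [h2] at h1

/-- **Primitive element from separating embeddings.**  If `card I = [L : F]` ring homs
`f i : L →+* Ω` restricting to `ι₀` on `F` take pairwise distinct values at `θ`, then
`L = F(θ)`. -/
theorem adjoin_eq_top_of_separating [FiniteDimensional F L] {Ω : Type*} [Field Ω] (ι₀ : F →+* Ω)
    {I : Type*} [Fintype I] (f : I → (L →+* Ω)) (hf : ∀ i x, f i (algebraMap F L x) = ι₀ x)
    (θ : L) (hinj : Function.Injective fun i => f i θ)
    (hcard : Fintype.card I = Module.finrank F L) : IntermediateField.adjoin F {θ} = ⊤ := by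
  classical
  have hθ : IsIntegral F θ := IsIntegral.of_finite F θ
  set m := minpoly F θ with hm
  have hm0 : m.map ι₀ ≠ 0 := (Polynomial.map_ne_zero_iff ι₀.injective).mpr (minpoly.ne_zero hθ)
  have hroot : ∀ i, f i θ ∈ (m.map ι₀).roots := by
    intro i
    rw [Polynomial.mem_roots hm0, Polynomial.IsRoot, Polynomial.eval_map]
    exact eval₂_hom_of_restrict ι₀ (f i) (hf i) m θ (minpoly.aeval F θ)
  have hsub : (Finset.univ.image fun i => f i θ).val ⊆ (m.map ι₀).roots := by
    intro r hr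
    rw [Finset.mem_val, Finset.mem_image] at hr
    obtain ⟨i, -, rfl⟩ := hr
    exact hroot i
  have h1 := Polynomial.card_le_degree_of_subset_roots hsub
  rw [Finset.card_image_of_injective _ hinj, Finset.card_univ, Polynomial.natDegree_map,
    hcard] at h1
  refine IntermediateField.eq_of_le_of_finrank_le le_top ?_
  rw [IntermediateField.finrank_top', IntermediateField.adjoin.finrank hθ]
  exact h1

/-- The degree of the minimal polynomial of a primitive element. -/
theorem natDegree_minpoly_of_adjoin_eq_top [FiniteDimensional F L] (θ : L)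
    (h : IntermediateField.adjoin F {θ} = ⊤) :
    (minpoly F θ).natDegree = Module.finrank F L := by
  rw [← IntermediateField.adjoin.finrank (IsIntegral.of_finite F θ), h,
    IntermediateField.finrank_top']

/-- Two ring homs out of `L = F(θ)` agreeing on `F` and at `θ` are equal. -/
theorem ringHom_ext_of_adjoin_eq_top {Ω : Type*} [Field Ω] (θ : L)
    (h : IntermediateField.adjoin F {θ} = ⊤) (g₁ g₂ : L →+* Ω)
    (hF : ∀ x, g₁ (algebraMap F L x) = g₂ (algebraMap F L x)) (hθ : g₁ θ = g₂ θ) : g₁ = g₂ := by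
  let S : IntermediateField F L :=
    (RingHom.eqLocusField g₁ g₂).toIntermediateField fun x => hF x
  have h1 : IntermediateField.adjoin F {θ} ≤ S := by
    rw [IntermediateField.adjoin_le_iff]
    intro x hx
    rw [Set.mem_singleton_iff] at hx
    subst hx
    exact hθ
  rw [h] at h1
  ext x
  exact h1 (IntermediateField.mem_top : x ∈ (⊤ : IntermediateField F L))

/-- A subfield of `L = F(θ)` containing `F` and `θ` is everything. -/
theorem mem_of_adjoin_eq_top (θ : L) (h : IntermediateField.adjoin F {θ} = ⊤) (S : Subfield L)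
    (hF : ∀ x, algebraMap F L x ∈ S) (hθ : θ ∈ S) (x : L) : x ∈ S := by
  let S' : IntermediateField F L := S.toIntermediateField hF
  have h1 : IntermediateField.adjoin F {θ} ≤ S' := by
    rw [IntermediateField.adjoin_le_iff]
    intro y hy
    rw [Set.mem_singleton_iff] at hy
    subst hy
    exact hθ
  rw [h] at h1
  exact h1 (IntermediateField.mem_top : x ∈ (⊤ : IntermediateField F L))

/-- Ring-hom form: if `g` maps `F` and `θ` into a subfield `T`, it maps `L = F(θ)` into `T`. -/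
theorem map_mem_of_adjoin_eq_top {L' : Type*} [Field L'] (θ : L)
    (h : IntermediateField.adjoin F {θ} = ⊤) (g : L →+* L') (T : Subfield L')
    (hF : ∀ x, g (algebraMap F L x) ∈ T) (hθ : g θ ∈ T) (x : L) : g x ∈ T :=
  mem_of_adjoin_eq_top θ h (T.comap g) hF hθ x

/-- **Extension to a root.**  If `L = F(θ)` is finite over `F` and `r` is a root of the minimal
polynomial of `θ` mapped by `ι₀ : F →+* Ω`, there is a ring hom `L →+* Ω` extending `ι₀` with
`θ ↦ r`. -/
theorem exists_ringHom_of_root [FiniteDimensional F L] {Ω : Type*} [Field Ω] (ι₀ : F →+* Ω)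
    (θ : L) (h : IntermediateField.adjoin F {θ} = ⊤) (r : Ω)
    (hr : eval₂ ι₀ r (minpoly F θ) = 0) :
    ∃ g : L →+* Ω, (∀ x, g (algebraMap F L x) = ι₀ x) ∧ g θ = r := by
  classical
  let _ : Algebra F Ω := ι₀.toAlgebra
  have hθ : IsIntegral F θ := IsIntegral.of_finite F θ
  have hmem : r ∈ (minpoly F θ).aroots Ω := by
    rw [Polynomial.mem_aroots]
    exact ⟨minpoly.ne_zero hθ, hr⟩
  let φ : IntermediateField.adjoin F {θ} →ₐ[F] Ω :=
    (IntermediateField.algHomAdjoinIntegralEquiv F hθ).symm ⟨r, hmem⟩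
  have hφ : φ (IntermediateField.AdjoinSimple.gen F θ) = r :=
    IntermediateField.algHomAdjoinIntegralEquiv_symm_apply_gen F hθ ⟨r, hmem⟩
  let e : L ≃ₐ[F] IntermediateField.adjoin F {θ} :=
    (IntermediateField.topEquiv (F := F) (E := L)).symm.trans
      (IntermediateField.equivOfEq h.symm)
  refine ⟨(φ.comp (e : L →ₐ[F] IntermediateField.adjoin F {θ}) : L →ₐ[F] Ω).toRingHom,
    fun x => ?_, ?_⟩
  · exact (φ.comp (e : L →ₐ[F] IntermediateField.adjoin F {θ})).commutes x
  · have he : e θ = IntermediateField.AdjoinSimple.gen F θ := Subtype.ext rfl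
    show φ (e θ) = r
    rw [he, hφ]

/-- **The minimal polynomial one level up.**  `E₀ ⊆ E₁ ⊆ E₂`, `jq ∈ E₁` with minimal polynomial
`m` over `E₀`, `β₁ : E₀ →+* E₁`, `c₁ : E₁ →+* Ω`.  If `θ ∈ E₂` is a root of `m^{β₁}`, `j₁ ∈ E₁` is
another root (seen through `c₁`), `θ ≠ j₁`, and `deg minpoly_{E₁} θ = deg m - 1`, then every
root `r ≠ c₁ j₁` of `m^{c₁ ∘ β₁}` in `Ω` is a root of the minimal polynomial of `θ` over `E₁`
mapped by `c₁`. -/
theorem eval₂_minpoly_of_root {E₀ E₁ E₂ Ω : Type*} [Field E₀] [Field E₁] [Field E₂] [Field Ω]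
    [Algebra E₀ E₁] [Algebra E₁ E₂] (c₁ : E₁ →+* Ω) (β₁ : E₀ →+* E₁) (jq j₁ : E₁) (θ : E₂)
    (hθint : IsIntegral E₁ θ)
    (h1 : eval₂ ((algebraMap E₁ E₂).comp β₁) θ (minpoly E₀ jq) = 0)
    (h2 : eval₂ (c₁.comp β₁) (c₁ j₁) (minpoly E₀ jq) = 0)
    (h3 : θ ≠ algebraMap E₁ E₂ j₁)
    (h4 : (minpoly E₁ θ).natDegree + 1 = (minpoly E₀ jq).natDegree)
    (r : Ω) (hr : eval₂ (c₁.comp β₁) r (minpoly E₀ jq) = 0) (hr1 : r ≠ c₁ j₁) :
    eval₂ c₁ r (minpoly E₁ θ) = 0 := by
  set m := minpoly E₀ jq with hm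
  set m' : E₁[X] := m.map β₁ with hm'
  have hjq : IsIntegral E₀ jq := by
    by_contra hni
    rw [hm, minpoly.eq_zero hni, Polynomial.natDegree_zero] at h4
    omega
  have hm'monic : m'.Monic := (minpoly.monic hjq).map β₁
  -- `j₁` is a root of `m'`
  have hj1 : m'.IsRoot j₁ := by
    rw [Polynomial.IsRoot, hm', Polynomial.eval_map]
    apply c₁.injective
    rw [Polynomial.hom_eval₂, map_zero]
    exact h2
  obtain ⟨h, hh⟩ := Polynomial.dvd_iff_isRoot.mpr hj1
  -- `h` is monic of degree `deg m - 1`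
  have hh0 : h ≠ 0 := by
    rintro rfl
    rw [mul_zero] at hh
    exact hm'monic.ne_zero hh
  have hhmonic : h.Monic := by
    have := hm'monic
    rw [hh] at this
    exact (Polynomial.monic_X_sub_C j₁).of_mul_monic_left this
  have hdeg : h.natDegree + 1 = m.natDegree := by
    have hd : m'.natDegree = m.natDegree := Polynomial.natDegree_map β₁
    rw [← hd, hh, Polynomial.natDegree_mul (Polynomial.X_sub_C_ne_zero j₁) hh0,
      Polynomial.natDegree_X_sub_C, add_comm]
  -- `θ` is a root of `h`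
  have hθm' : eval₂ (algebraMap E₁ E₂) θ m' = 0 := by
    rw [hm', Polynomial.eval₂_map]
    exact h1
  have hθh : eval₂ (algebraMap E₁ E₂) θ h = 0 := by
    rw [hh, Polynomial.eval₂_mul, Polynomial.eval₂_sub, Polynomial.eval₂_X,
      Polynomial.eval₂_C] at hθm'
    rcases mul_eq_zero.mp hθm' with h0 | h0
    · exact absurd (sub_eq_zero.mp h0) h3
    · exact h0
  -- the minimal polynomial of `θ` is `h`
  have hdvd : minpoly E₁ θ ∣ h := minpoly.dvd E₁ θ hθh
  have heq : minpoly E₁ θ = h := by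
    refine (Polynomial.eq_of_monic_of_dvd_of_natDegree_le (minpoly.monic hθint) hhmonic hdvd
      ?_).symm
    omega
  -- `r` is a root of `h` mapped by `c₁`
  have hr' : eval₂ c₁ r m' = 0 := by
    rw [hm', Polynomial.eval₂_map]
    exact hr
  rw [hh, Polynomial.eval₂_mul, Polynomial.eval₂_sub, Polynomial.eval₂_X,
    Polynomial.eval₂_C] at hr'
  rw [heq]
  rcases mul_eq_zero.mp hr' with h0 | h0
  · exact absurd (sub_eq_zero.mp h0) hr1
  · exact h0

end Abstract

/-! ### The modular setting -/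

open ModularCurve AlgebraicCurve HahnSeries
open Fermat.Agent.S18 Fermat.Agent.S18.Arith Fermat.Agent.S24
open Fermat.Agent.S37.W Fermat.Agent.S34 Fermat.Agent.S34.ConjMod

section Gen

variable (N : ℕ) [NeZero N] (K : IntermediateField ℚ Qb)

omit [NeZero N] in
/-- A subfield of `ℚ̄((Q))` containing the constants of `K` and the generators `j(Q^d)`, `d ∣ N`,
contains `F_K(N)`. -/
theorem FK_le_of (T : Subfield (LaurentSeries Qb))
    (hC : ∀ c : K, (HahnSeries.C (c : Qb) : LaurentSeries Qb) ∈ T)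
    (hgen : ∀ (d : ℕ) [NeZero d], d ∣ N → coeffEmb Qb (qExpand ℚ d jq) ∈ T) : FK N K ≤ T := by
  unfold FK
  rw [Subfield.closure_le]
  rintro x (⟨c, rfl⟩ | ⟨y, rfl⟩)
  · exact hC c
  · have hQ : ∀ r : ℚ, algebraMap ℚ (LaurentSeries ℚ) r ∈ T.comap (coeffEmb Qb) := by
      intro r
      rw [Subfield.mem_comap, eq_ratCast, map_ratCast]
      exact SubfieldClass.ratCast_mem T r
    have hle : modularFunctionFieldFull N ≤ (T.comap (coeffEmb Qb)).toIntermediateField hQ := by
      rw [modularFunctionFieldFull, IntermediateField.adjoin_le_iff]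
      rintro x ⟨d, hd0, hd, rfl⟩
      haveI := hd0
      exact hgen d hd
    exact hle y.2

variable (q : ℕ) [NeZero q]

omit [NeZero N] in
theorem qExpand_mem_FK {x : LaurentSeries Qb} (hx : x ∈ FK N K) :
    qExpand Qb q x ∈ FK (N * q) K := by
  have h : FK N K ≤ (FK (N * q) K).comap (qExpand Qb q) := by
    refine FK_le_of N K _ (fun c => ?_) (fun d _ hd => ?_)
    · rw [Subfield.mem_comap, qExpand_C]
      exact WK.C_mem_FK (N * q) K c
    · rw [Subfield.mem_comap, ← exo_coeffEmb_qExpand, qExpand_qExpand]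
      haveI : NeZero (q * d) := ⟨Nat.mul_ne_zero (NeZero.ne q) (NeZero.ne d)⟩
      exact WK.coeffEmb_mem_FK (N * q) K
        (jqd_mem_full (N * q) ((mul_dvd_mul_left q hd).trans (dvd_of_eq (mul_comm q N))))
  exact h hx

/-- The degeneracy map `β : F_K(N) → F_K(N q)`, `x ↦ x(Q^q)` (any level `N`, any `q`). -/
def betaQ : FK N K →+* FK (N * q) K :=
  ((qExpand Qb q).comp (FK N K).subtype).codRestrict (FK (N * q) K)
    (fun x => qExpand_mem_FK N K q x.2)

omit [NeZero N] in
theorem coe_betaQ (x : FK N K) :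
    ((betaQ N K q x : FK (N * q) K) : LaurentSeries Qb) = qExpand Qb q (x : LaurentSeries Qb) :=
  rfl

end Gen

section Main

variable (M q : ℕ) [NeZero M] [NeZero q] (K : IntermediateField ℚ Qb)

/-- `j_{q²} = j(Q^{q²})` as an element of `F_K(M q²)`. -/
def jq2K : FK ((M * q) * q) K := betaQ (M * q) K q (jqK M q K)

theorem coe_jq2K : ((jq2K M q K : FK ((M * q) * q) K) : LaurentSeries Qb)
    = qExpand Qb q (qExpand Qb q (coeffEmb Qb jq)) := by
  rw [jq2K, coe_betaQ, coe_jqK]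

theorem betaQ_incl (y : FK M K) :
    betaQ (M * q) K q (DegTower.incl M (M * q) K (Dvd.intro q rfl) y)
      = DegTower.incl (M * q) ((M * q) * q) K (Dvd.intro q rfl) (betaQ M K q y) := by
  apply Subtype.ext
  rw [coe_betaQ, DegTower.coe_incl, DegTower.coe_incl, coe_betaQ]

theorem not_dvd_neg_one (hq : q.Prime) : ¬ (q : ℤ) ∣ (-1 : ℤ) := by
  intro h
  have h1 : (q : ℤ) ∣ 1 := (dvd_neg).mp h
  have h2 : q ∣ 1 := Int.natCast_dvd_natCast.mp (by simpa using h1)
  exact hq.one_lt.ne' (Nat.dvd_one.mp h2)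

variable (w : ↥(modularFunctionFieldBar (M * q)) →ₐ[Qb] ↥(modularFunctionFieldBar (M * q)))
  (hwα : ∀ x, w (heckeAlphaBar Qb M q x) = heckeBetaBar Qb M q x)
  (hwβ : ∀ x, w (heckeBetaBar Qb M q x) = heckeAlphaBar Qb M q x)

include hwβ in
theorem fam_some_jqK (ζ : Qb) (hz : ∀ i : ℕ, ζ ^ i ≠ 0) (i : Fin q) :
    fam M q K w ζ hz (some i) (jqK M q K) = rotHom (ζ ^ (i : ℕ)) (hz i) (coeffEmb Qb jq) := by
  rw [fam_some, wExp_jqK M q K w hwβ]

include hwβ in
/-- The `q + 1` embeddings of `S34/ConjMod` take pairwise distinct values at `j_q`. -/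
theorem fam_jqK_injective (hq : q.Prime) (ζ : Qb) (hζ : IsPrimitiveRoot ζ q)
    (hz : ∀ i : ℕ, ζ ^ i ≠ 0) :
    Function.Injective fun o => fam M q K w ζ hz o (jqK M q K) := by
  have hq1 := not_dvd_neg_one q hq
  have hnone : (fam M q K w ζ hz none (jqK M q K)).coeff (-1 : ℤ) = 0 := by
    rw [fam_none]
    exact qExpand_coeff_of_not_dvd q _ hq1
  have hsome : ∀ i : Fin q, (fam M q K w ζ hz (some i) (jqK M q K)).coeff (-1 : ℤ)
      = (ζ ^ (i : ℕ)) ^ (-1 : ℤ) := by
    intro i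
    rw [fam_some_jqK M q K w hwβ, rotHom_coeff, coeff_coeffEmb_jq_neg_one, mul_one]
  intro o o' h
  have hc := congrArg (fun g : LaurentSeries Qb => g.coeff (-1 : ℤ)) h
  cases o with
  | none =>
    cases o' with
    | none => rfl
    | some i' =>
      simp only [hnone, hsome] at hc
      exact absurd hc.symm (zpow_ne_zero _ (hz i'))
  | some i =>
    cases o' with
    | none =>
      simp only [hnone, hsome] at hc
      exact absurd hc (zpow_ne_zero _ (hz i))
    | some i' =>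
      simp only [hsome] at hc
      have h2 : ζ ^ (i : ℕ) = ζ ^ (i' : ℕ) := by
        have := congrArg (fun t : Qb => t⁻¹) hc
        simpa [zpow_neg] using this
      have h3 : (i : ℕ) = (i' : ℕ) := hζ.pow_inj i.2 i'.2 h2
      exact congrArg some (Fin.ext h3)

/-- **`F_K(M q) = F_K(M)(j_q)`.** -/
theorem adjoin_jqK_eq_top (hq : q.Prime) (hqM : ¬ q ∣ M) :
    letI := DegTower.algTower M (M * q) K (Dvd.intro q rfl)
    IntermediateField.adjoin (FK M K) {jqK M q K} = ⊤ := by
  letI := DegTower.algTower M (M * q) K (Dvd.intro q rfl)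
  haveI := DegTower.finiteDimensional M (M * q) K (Dvd.intro q rfl)
  obtain ⟨ζ, hζ⟩ := HasEnoughRootsOfUnity.exists_primitiveRoot Qb q
  have hz : ∀ i : ℕ, ζ ^ i ≠ 0 := fun i => pow_ne_zero i (hζ.ne_zero (NeZero.ne q))
  exact adjoin_eq_top_of_separating (iota0 M q K)
    (fam M q K (WK.wBar M q hq hqM : _ →ₐ[Qb] _) ζ hz)
    (fun o y => fam_incl M q K _ (fun x => WK.wBar_alpha M q hq hqM x) ζ hζ.pow_eq_one hz o y)
    (jqK M q K)
    (fam_jqK_injective M q K _ (fun x => WK.wBar_beta M q hq hqM x) hq ζ hζ hz)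
    (card_eq_finrank M q hq hqM K)

/-- `β(F_K(M q)) ⊆ F_K(M q)(j_{q²})`. -/
theorem betaQ_mem_adjoin (hq : q.Prime) (hqM : ¬ q ∣ M) (x : FK (M * q) K) :
    letI := DegTower.algTower (M * q) ((M * q) * q) K (Dvd.intro q rfl)
    betaQ (M * q) K q x ∈ IntermediateField.adjoin (FK (M * q) K) {jq2K M q K} := by
  letI alg01 := DegTower.algTower M (M * q) K (Dvd.intro q rfl)
  letI alg12 := DegTower.algTower (M * q) ((M * q) * q) K (Dvd.intro q rfl)
  have hF : ∀ y : FK M K, betaQ (M * q) K q (algebraMap (FK M K) (FK (M * q) K) y)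
      ∈ (IntermediateField.adjoin (FK (M * q) K) {jq2K M q K}).toSubfield := by
    intro y
    have h1 : betaQ (M * q) K q (algebraMap (FK M K) (FK (M * q) K) y)
        = algebraMap (FK (M * q) K) (FK ((M * q) * q) K) (betaQ M K q y) := betaQ_incl M q K y
    rw [h1]
    exact (IntermediateField.adjoin (FK (M * q) K) {jq2K M q K}).algebraMap_mem _
  have hθ : betaQ (M * q) K q (jqK M q K)
      ∈ (IntermediateField.adjoin (FK (M * q) K) {jq2K M q K}).toSubfield :=
    IntermediateField.mem_adjoin_simple_self (FK (M * q) K) (jq2K M q K)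
  exact map_mem_of_adjoin_eq_top (jqK M q K) (adjoin_jqK_eq_top M q K hq hqM)
    (betaQ (M * q) K q) _ hF hθ x


/-- **`F_K(M q²) = F_K(M q)(j_{q²})`.** -/
theorem adjoin_jq2K_eq_top (hq : q.Prime) (hqM : ¬ q ∣ M) :
    letI := DegTower.algTower (M * q) ((M * q) * q) K (Dvd.intro q rfl)
    IntermediateField.adjoin (FK (M * q) K) {jq2K M q K} = ⊤ := by
  letI := DegTower.algTower (M * q) ((M * q) * q) K (Dvd.intro q rfl)
  rw [eq_top_iff]
  intro x _
  have hle : FK ((M * q) * q) K ≤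
      (IntermediateField.adjoin (FK (M * q) K) {jq2K M q K}).toSubfield.map
        (FK ((M * q) * q) K).subtype := by
    refine FK_le_of ((M * q) * q) K _ (fun c => ?_) (fun d _ hd => ?_)
    · refine ⟨DegTower.incl (M * q) ((M * q) * q) K (Dvd.intro q rfl) (constK (M * q) K c),
        (IntermediateField.adjoin (FK (M * q) K) {jq2K M q K}).algebraMap_mem _, ?_⟩
      exact (DegTower.coe_incl (M * q) ((M * q) * q) K (Dvd.intro q rfl) _).trans
        (DegTower.coe_constK (M * q) K c)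
    · by_cases hqd : q ∣ d
      · obtain ⟨d', rfl⟩ := hqd
        have hd' : d' ∣ M * q :=
          Nat.dvd_of_mul_dvd_mul_left hq.pos (by rwa [mul_comm (M * q) q] at hd)
        haveI : NeZero d' := ⟨by
          rintro rfl
          exact NeZero.ne (q * 0) (mul_zero q)⟩
        refine ⟨betaQ (M * q) K q ⟨coeffEmb Qb (qExpand ℚ d' jq),
          WK.coeffEmb_mem_FK (M * q) K (jqd_mem_full (M * q) hd')⟩,
          betaQ_mem_adjoin M q K hq hqM _, ?_⟩
        show qExpand Qb q (coeffEmb Qb (qExpand ℚ d' jq)) = coeffEmb Qb (qExpand ℚ (q * d') jq)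
        rw [← exo_coeffEmb_qExpand, qExpand_qExpand]
      · have hd' : d ∣ M * q :=
          (Nat.Coprime.symm ((Nat.Prime.coprime_iff_not_dvd hq).mpr hqd)).dvd_of_dvd_mul_right hd
        refine ⟨DegTower.incl (M * q) ((M * q) * q) K (Dvd.intro q rfl)
          ⟨coeffEmb Qb (qExpand ℚ d jq),
            WK.coeffEmb_mem_FK (M * q) K (jqd_mem_full (M * q) hd')⟩,
          (IntermediateField.adjoin (FK (M * q) K) {jq2K M q K}).algebraMap_mem _, ?_⟩
        simp only [Subfield.coe_subtype, DegTower.coe_incl]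
  obtain ⟨y, hy, hyx⟩ := hle x.2
  have hxy : y = x := Subtype.ext hyx
  rw [← hxy]
  exact hy

/-- **`[F_K(M q²) : F_K(M q)] = q`.** -/
theorem finrank_E2 (hq : q.Prime) :
    letI := DegTower.algTower (M * q) ((M * q) * q) K (Dvd.intro q rfl)
    Module.finrank (FK (M * q) K) (FK ((M * q) * q) K) = q := by
  letI := DegTower.algTower (M * q) ((M * q) * q) K (Dvd.intro q rfl)
  have h1 := DegTower.psi_mul_finrank (M * q) ((M * q) * q) K (Dvd.intro q rfl)
  have hψ : dedekindPsi ((M * q) * q) = q * dedekindPsi (M * q) := by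
    rw [mul_comm (M * q) q]
    exact Fermat.Agent.S20.CosetModel.dedekindPsi_prime_mul_of_dvd q (M * q) hq
      (NeZero.ne (M * q)) (dvd_mul_left q M)
  have hpos : 0 < dedekindPsi (M * q) := AnDegree.dedekindPsi_pos (M * q)
  have h3 : dedekindPsi (M * q) * Module.finrank (FK (M * q) K) (FK ((M * q) * q) K)
      = dedekindPsi (M * q) * q := by
    rw [h1, hψ]; ring
  exact Nat.eq_of_mul_eq_mul_left hpos h3

/-! ### The embeddings `iota3` -/

omit [NeZero M] in
theorem xi_ne_zero {ξ : Qb} (hξ : ξ ^ q = 1) : ξ ≠ 0 := by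
  rintro rfl
  rw [zero_pow (NeZero.ne q)] at hξ
  exact zero_ne_one hξ

/-- **Existence of the middle-cusp embedding** (`K`-level): for a `q`-th root of unity `ξ ≠ 1`
there is a ring hom `F_K(M q²) → ℚ̄((Q))` which is the identity on `F_K(M q)` and sends
`j_{q²} = j(Q^{q²})` to `j(ξ Q)`. -/
theorem exists_iota3K (hq : q.Prime) (hqM : ¬ q ∣ M) (ξ : Qb) (hξ : ξ ^ q = 1) (hξ1 : ξ ≠ 1) :
    ∃ g : FK ((M * q) * q) K →+* LaurentSeries Qb,
      (∀ x : FK (M * q) K,
        g (DegTower.incl (M * q) ((M * q) * q) K (Dvd.intro q rfl) x)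
          = (x : LaurentSeries Qb)) ∧
      g (jq2K M q K) = rotHom ξ (xi_ne_zero q hξ) (coeffEmb Qb jq) := by
  letI alg01 := DegTower.algTower M (M * q) K (Dvd.intro q rfl)
  letI alg12 := DegTower.algTower (M * q) ((M * q) * q) K (Dvd.intro q rfl)
  haveI fd01 := DegTower.finiteDimensional M (M * q) K (Dvd.intro q rfl)
  haveI fd12 := DegTower.finiteDimensional (M * q) ((M * q) * q) K (Dvd.intro q rfl)
  obtain ⟨ζ, hζ⟩ := HasEnoughRootsOfUnity.exists_primitiveRoot Qb q
  have hz : ∀ i : ℕ, ζ ^ i ≠ 0 := fun i => pow_ne_zero i (hζ.ne_zero (NeZero.ne q))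
  obtain ⟨i, hi, hiξ⟩ := hζ.eq_pow_of_pow_eq_one hξ
  have hwα : ∀ x, (WK.wBar M q hq hqM : _ →ₐ[Qb] _) (heckeAlphaBar Qb M q x)
      = heckeBetaBar Qb M q x := fun x => WK.wBar_alpha M q hq hqM x
  have hwβ : ∀ x, (WK.wBar M q hq hqM : _ →ₐ[Qb] _) (heckeBetaBar Qb M q x)
      = heckeAlphaBar Qb M q x := fun x => WK.wBar_beta M q hq hqM x
  have hι0 : ((FK (M * q) K).subtype).comp (betaQ M K q) = iota0 M q K :=
    RingHom.ext fun y => rfl
  have hroot : ∀ o, eval₂ (((FK (M * q) K).subtype).comp (betaQ M K q))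
      (fam M q K (WK.wBar M q hq hqM : _ →ₐ[Qb] _) ζ hz o (jqK M q K))
      (minpoly (FK M K) (jqK M q K)) = 0 := by
    intro o
    rw [hι0]
    exact eval₂_hom_of_restrict (iota0 M q K) (fam M q K _ ζ hz o)
      (fun y => fam_incl M q K _ hwα ζ hζ.pow_eq_one hz o y) _ _ (minpoly.aeval _ _)
  have h1 : eval₂ ((algebraMap (FK (M * q) K) (FK ((M * q) * q) K)).comp (betaQ M K q))
      (jq2K M q K) (minpoly (FK M K) (jqK M q K)) = 0 := by
    have h := congrArg (betaQ (M * q) K q) (minpoly.aeval (FK M K) (jqK M q K))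
    rw [Polynomial.aeval_def, Polynomial.hom_eval₂, map_zero] at h
    have hcomp : (betaQ (M * q) K q).comp (algebraMap (FK M K) (FK (M * q) K))
        = (algebraMap (FK (M * q) K) (FK ((M * q) * q) K)).comp (betaQ M K q) :=
      RingHom.ext fun y => betaQ_incl M q K y
    rw [hcomp] at h
    exact h
  have h2 : eval₂ (((FK (M * q) K).subtype).comp (betaQ M K q))
      ((FK (M * q) K).subtype (jK (M * q) K)) (minpoly (FK M K) (jqK M q K)) = 0 := by
    have h := hroot (some ⟨0, hq.pos⟩)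
    rw [fam_some_jqK M q K _ hwβ] at h
    have e : rotHom (ζ ^ ((⟨0, hq.pos⟩ : Fin q) : ℕ)) (hz _) (coeffEmb Qb jq)
        = coeffEmb Qb jq := by
      ext n
      rw [rotHom_coeff]
      simp
    rw [e] at h
    exact h
  have h3 : jq2K M q K ≠ algebraMap (FK (M * q) K) (FK ((M * q) * q) K) (jK (M * q) K) := by
    intro h
    have hc := congrArg (fun x : FK ((M * q) * q) K => (x : LaurentSeries Qb).coeff (-1 : ℤ)) h
    rw [coe_jq2K, qExpand_coeff_of_not_dvd q _ (not_dvd_neg_one q hq)] at hc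
    have e : ((algebraMap (FK (M * q) K) (FK ((M * q) * q) K) (jK (M * q) K) :
        FK ((M * q) * q) K) : LaurentSeries Qb) = coeffEmb Qb jq :=
      DegTower.coe_incl (M * q) ((M * q) * q) K (Dvd.intro q rfl) _
    rw [e, coeff_coeffEmb_jq_neg_one] at hc
    exact zero_ne_one hc
  have h4 : (minpoly (FK (M * q) K) (jq2K M q K)).natDegree + 1
      = (minpoly (FK M K) (jqK M q K)).natDegree := by
    rw [natDegree_minpoly_of_adjoin_eq_top _ (adjoin_jq2K_eq_top M q K hq hqM),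
      natDegree_minpoly_of_adjoin_eq_top _ (adjoin_jqK_eq_top M q K hq hqM), finrank_E2 M q K hq,
      DegTower.finrank_of_prime M (M * q) K hq hqM rfl]
  have hr : eval₂ (((FK (M * q) K).subtype).comp (betaQ M K q))
      (rotHom ξ (xi_ne_zero q hξ) (coeffEmb Qb jq)) (minpoly (FK M K) (jqK M q K)) = 0 := by
    have h := hroot (some ⟨i, hi⟩)
    rw [fam_some_jqK M q K _ hwβ] at h
    subst hiξ
    exact h
  have hr1 : rotHom ξ (xi_ne_zero q hξ) (coeffEmb Qb jq)
      ≠ (FK (M * q) K).subtype (jK (M * q) K) := by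
    intro h
    have hc := congrArg (fun x : LaurentSeries Qb => x.coeff (-1 : ℤ)) h
    have e : ((FK (M * q) K).subtype (jK (M * q) K)) = coeffEmb Qb jq := rfl
    simp only [rotHom_coeff] at hc
    rw [e, coeff_coeffEmb_jq_neg_one, mul_one] at hc
    apply hξ1
    have := congrArg (fun t : Qb => t⁻¹) hc
    simpa [zpow_neg] using this
  have key := eval₂_minpoly_of_root ((FK (M * q) K).subtype) (betaQ M K q) (jqK M q K)
    (jK (M * q) K) (jq2K M q K) (IsIntegral.of_finite _ _) h1 h2 h3 h4 _ hr hr1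
  obtain ⟨g, hg1, hg2⟩ := exists_ringHom_of_root ((FK (M * q) K).subtype) (jq2K M q K)
    (adjoin_jq2K_eq_top M q K hq hqM) _ key
  exact ⟨g, hg1, hg2⟩

/-- **The middle-cusp embedding** `ι3^ξ : F_K(M q²) → ℚ̄((Q))` (`ξ ≠ 1` a `q`-th root of unity):
identity on `F_K(M q)`, `j(Q^{q²}) ↦ j(ξ Q)`. -/
def iota3 (hq : q.Prime) (hqM : ¬ q ∣ M) (ξ : Qb) (hξ : ξ ^ q = 1) (hξ1 : ξ ≠ 1) :
    FK ((M * q) * q) K →+* LaurentSeries Qb :=
  (exists_iota3K M q K hq hqM ξ hξ hξ1).choose

variable (hq : q.Prime) (hqM : ¬ q ∣ M) (ξ : Qb) (hξ : ξ ^ q = 1) (hξ1 : ξ ≠ 1)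

/-- `ι3` is the identity on `α(F_K(M q))`. -/
theorem iota3_incl (x : FK (M * q) K) :
    iota3 M q K hq hqM ξ hξ hξ1 (DegTower.incl (M * q) ((M * q) * q) K (Dvd.intro q rfl) x)
      = (x : LaurentSeries Qb) :=
  (exists_iota3K M q K hq hqM ξ hξ hξ1).choose_spec.1 x

/-- `ι3 (j(Q^{q²})) = j(ξ Q)`. -/
theorem iota3_jq2K :
    iota3 M q K hq hqM ξ hξ hξ1 (jq2K M q K) = rotHom ξ (xi_ne_zero q hξ) (coeffEmb Qb jq) :=
  (exists_iota3K M q K hq hqM ξ hξ hξ1).choose_spec.2

include hq hqM in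
/-- Uniqueness: a ring hom on `F_K(M q²)` is determined by its restriction to `F_K(M q)` and its
value at `j_{q²}`. -/
theorem ringHom_ext_E2 (g₁ g₂ : FK ((M * q) * q) K →+* LaurentSeries Qb)
    (h1 : ∀ x : FK (M * q) K,
      g₁ (DegTower.incl (M * q) ((M * q) * q) K (Dvd.intro q rfl) x)
        = g₂ (DegTower.incl (M * q) ((M * q) * q) K (Dvd.intro q rfl) x))
    (h2 : g₁ (jq2K M q K) = g₂ (jq2K M q K)) : g₁ = g₂ := by
  letI alg12 := DegTower.algTower (M * q) ((M * q) * q) K (Dvd.intro q rfl)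
  exact ringHom_ext_of_adjoin_eq_top (jq2K M q K) (adjoin_jq2K_eq_top M q K hq hqM) g₁ g₂ h1 h2

include hq hqM in
/-- Uniqueness one level down: a ring hom on `F_K(M q)` is determined by its restriction to
`F_K(M)` and its value at `j_q`. -/
theorem ringHom_ext_E1 (g₁ g₂ : FK (M * q) K →+* LaurentSeries Qb)
    (h1 : ∀ y : FK M K, g₁ (DegTower.incl M (M * q) K (Dvd.intro q rfl) y)
        = g₂ (DegTower.incl M (M * q) K (Dvd.intro q rfl) y))
    (h2 : g₁ (jqK M q K) = g₂ (jqK M q K)) : g₁ = g₂ := by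
  letI alg01 := DegTower.algTower M (M * q) K (Dvd.intro q rfl)
  exact ringHom_ext_of_adjoin_eq_top (jqK M q K) (adjoin_jqK_eq_top M q K hq hqM) g₁ g₂ h1 h2

include hwα hwβ in
/-- **`ι3 ∘ β = (Q ↦ ξ Q) ∘ w`**: on `β(F_K(M q))` the middle-cusp embedding is the
Atkin–Lehner twist followed by the rotation `Q ↦ ξ Q`. -/
theorem iota3_betaQ (x : FK (M * q) K) :
    iota3 M q K hq hqM ξ hξ hξ1 (betaQ (M * q) K q x)
      = rotHom ξ (xi_ne_zero q hξ) (wExp M q K w x) := by
  have h := ringHom_ext_E1 M q K hq hqM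
    ((iota3 M q K hq hqM ξ hξ hξ1).comp (betaQ (M * q) K q))
    (((rotHom ξ (xi_ne_zero q hξ)).toRingHom).comp (wExp M q K w)) (fun y => ?_) ?_
  · exact congrArg (fun g : FK (M * q) K →+* LaurentSeries Qb => g x) h
  · show iota3 M q K hq hqM ξ hξ hξ1
        (betaQ (M * q) K q (DegTower.incl M (M * q) K (Dvd.intro q rfl) y))
      = rotHom ξ (xi_ne_zero q hξ)
        (wExp M q K w (DegTower.incl M (M * q) K (Dvd.intro q rfl) y))
    rw [betaQ_incl, iota3_incl, coe_betaQ, wExp_incl M q K w hwα,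
      rotHom_qExpand q ξ (xi_ne_zero q hξ) hξ]
  · show iota3 M q K hq hqM ξ hξ hξ1 (betaQ (M * q) K q (jqK M q K))
      = rotHom ξ (xi_ne_zero q hξ) (wExp M q K w (jqK M q K))
    rw [wExp_jqK M q K w hwβ]
    exact iota3_jq2K M q K hq hqM ξ hξ hξ1

/-! ### The `ℚ̄`-level export -/

section Bar

omit [NeZero M] [NeZero q] in
/-- `F̄_N ⊆ F_K(N)` for `K = ℚ̄`. -/
theorem bar_le_FK_top (N : ℕ) {x : LaurentSeries Qb} (hx : x ∈ modularFunctionFieldBar N) :
    x ∈ FK N (⊤ : IntermediateField ℚ Qb) := by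
  have h : Subfield.closure (Set.range (algebraMap Qb (LaurentSeries Qb)) ∪
      (⇑(coeffEmb Qb) '' (modularFunctionFieldFull N : Set (LaurentSeries ℚ))))
      ≤ FK N (⊤ : IntermediateField ℚ Qb) := by
    rw [Subfield.closure_le]
    rintro x (⟨c, rfl⟩ | ⟨z, hz, rfl⟩)
    · have e : algebraMap Qb (LaurentSeries Qb) c = HahnSeries.C c := by
        rw [algebraMap_laurentSeries_eq_single]
        rfl
      rw [e]
      exact WK.C_mem_FK N (⊤ : IntermediateField ℚ Qb) ⟨c, IntermediateField.mem_top⟩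
    · exact WK.coeffEmb_mem_FK N (⊤ : IntermediateField ℚ Qb) hz
  exact h (mem_laurentBaseChange_iff.mp hx)

/-- The inclusion `F̄_N → F_{ℚ̄}(N)`. -/
def barToTop (N : ℕ) : ↥(modularFunctionFieldBar N) →+* FK N (⊤ : IntermediateField ℚ Qb) :=
  ((modularFunctionFieldBar N).val.toRingHom).codRestrict (FK N (⊤ : IntermediateField ℚ Qb))
    (fun x => bar_le_FK_top N x.2)

theorem coe_barToTop (N : ℕ) (x : ↥(modularFunctionFieldBar N)) :
    ((barToTop N x : FK N (⊤ : IntermediateField ℚ Qb)) : LaurentSeries Qb)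
      = (x : LaurentSeries Qb) := rfl

/-- A divisor of `M q²` not divisible by `q²` divides `M q`. -/
theorem dvd_Mq_of_not_sq_dvd (hq : q.Prime) {e : ℕ} (he : e ∣ M * q * q)
    (h2 : ¬ q ^ 2 ∣ e) : e ∣ M * q := by
  by_cases hqe : q ∣ e
  · obtain ⟨e', rfl⟩ := hqe
    have he' : e' ∣ M * q :=
      Nat.dvd_of_mul_dvd_mul_left hq.pos (by rwa [mul_comm (M * q) q] at he)
    have hqe' : ¬ q ∣ e' := by
      intro h
      apply h2
      rw [pow_two]
      exact Nat.mul_dvd_mul_left q h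
    have he'M : e' ∣ M :=
      (Nat.Coprime.symm ((Nat.Prime.coprime_iff_not_dvd hq).mpr hqe')).dvd_of_dvd_mul_right he'
    rw [mul_comm M q]
    exact Nat.mul_dvd_mul_left q he'M
  · exact (Nat.Coprime.symm ((Nat.Prime.coprime_iff_not_dvd hq).mpr hqe)).dvd_of_dvd_mul_right he

/-- **[IOTA3], `ℚ̄`-level export.**  For a primitive `q`-th root of unity `ξ` there is a
`ℚ̄`-embedding `E` of `F̄_{M q²}` into `ℚ̄((Q))` which fixes the generators `j(Q^e)` with
`q² ∤ e` (i.e. `E` is the identity on `α(F̄_{M q})`) and sends `j(Q^{d q²})` to `j(ξ^d Q^d)`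
(`d ∣ M`): the `Q`-expansion at the middle cusp. -/
theorem exists_iota3 (hq : q.Prime) (hqM : ¬ q ∣ M) (ξ : Qb) (hξ : IsPrimitiveRoot ξ q) :
    ∃ E : ↥(modularFunctionFieldBar (M * q * q)) →ₐ[Qb] LaurentSeries Qb,
      (∀ e : ↥(M * q * q).divisors, ¬ q ^ 2 ∣ (e : ℕ) →
        E (genFam (M * q * q) e) = JFam (M * q * q) e) ∧
      (∀ (d : ↥M.divisors) (hd : (d : ℕ) * q ^ 2 ∈ (M * q * q).divisors),
        E (genFam (M * q * q) ⟨(d : ℕ) * q ^ 2, hd⟩)
          = rotHom ξ (hξ.ne_zero (NeZero.ne q)) (JFam M d)) := by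
  have hξq : ξ ^ q = 1 := hξ.pow_eq_one
  have hξ1 : ξ ≠ 1 := hξ.ne_one hq.one_lt
  set Kt : IntermediateField ℚ Qb := ⊤ with hKt
  set g := iota3 M q Kt hq hqM ξ hξq hξ1 with hg
  have hcomm : ∀ c : Qb, (g.comp (barToTop (M * q * q)))
      (algebraMap Qb ↥(modularFunctionFieldBar (M * q * q)) c)
      = algebraMap Qb (LaurentSeries Qb) c := by
    intro c
    have e1 : barToTop (M * q * q) (algebraMap Qb ↥(modularFunctionFieldBar (M * q * q)) c)
        = DegTower.incl (M * q) ((M * q) * q) Kt (Dvd.intro q rfl)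
          (constK (M * q) Kt ⟨c, IntermediateField.mem_top⟩) := by
      apply Subtype.ext
      rw [coe_barToTop, DegTower.coe_incl, DegTower.coe_constK, WK.coe_algebraMap_bar]
    rw [RingHom.comp_apply, e1, hg, iota3_incl, DegTower.coe_constK,
      algebraMap_laurentSeries_eq_single]
    rfl
  refine ⟨{ toRingHom := g.comp (barToTop (M * q * q)), commutes' := hcomm }, ?_, ?_⟩
  · intro e he2
    have he : (e : ℕ) ∣ M * q := dvd_Mq_of_not_sq_dvd M q hq (dvd_of_divisor _ e) he2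
    have e1 : barToTop (M * q * q) (genFam (M * q * q) e)
        = DegTower.incl (M * q) ((M * q) * q) Kt (Dvd.intro q rfl)
          ⟨coeffEmb Qb (qExpand ℚ (e : ℕ) jq),
            WK.coeffEmb_mem_FK (M * q) Kt (jqd_mem_full (M * q) he)⟩ := by
      apply Subtype.ext
      rw [coe_barToTop, DegTower.coe_incl]
      rfl
    show g (barToTop (M * q * q) (genFam (M * q * q) e)) = JFam (M * q * q) e
    rw [e1, hg, iota3_incl]
    rfl
  · intro d hd
    have hdM : (d : ℕ) ∣ M := dvd_of_divisor M d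
    have hdq : (d : ℕ) * q ∣ M * q := Nat.mul_dvd_mul_right hdM q
    haveI : NeZero ((d : ℕ) * q) := ⟨Nat.mul_ne_zero (NeZero.ne (d : ℕ)) (NeZero.ne q)⟩
    haveI : NeZero ((d : ℕ) * q ^ 2) :=
      ⟨Nat.mul_ne_zero (NeZero.ne (d : ℕ)) (pow_ne_zero 2 (NeZero.ne q))⟩
    set y : FK (M * q) Kt := ⟨coeffEmb Qb (qExpand ℚ ((d : ℕ) * q) jq),
      WK.coeffEmb_mem_FK (M * q) Kt (jqd_mem_full (M * q) hdq)⟩ with hy
    have e1 : barToTop (M * q * q) (genFam (M * q * q) ⟨(d : ℕ) * q ^ 2, hd⟩)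
        = betaQ (M * q) Kt q y := by
      apply Subtype.ext
      rw [coe_barToTop, coe_betaQ, coe_genFam]
      show coeffEmb Qb (qExpand ℚ ((d : ℕ) * q ^ 2) jq)
        = qExpand Qb q (coeffEmb Qb (qExpand ℚ ((d : ℕ) * q) jq))
      rw [← exo_coeffEmb_qExpand, qExpand_qExpand]
      congr 1
      exact qExpand_congr (by ring) jq
    have e2 : wExp M q Kt (WK.wBar M q hq hqM : _ →ₐ[Qb] _) y = JFam M d := by
      rw [wExp_apply]
      have e3 : (⟨(y : LaurentSeries Qb), DescCoeff.FK_le_bar (M * q) Kt y.2⟩ :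
          ↥(modularFunctionFieldBar (M * q))) = genFam (M * q) (divHigh M q d) :=
        Subtype.ext rfl
      rw [e3]
      show ((WK.wBar M q hq hqM (genFam (M * q) (divHigh M q d)) :
        ↥(modularFunctionFieldBar (M * q))) : LaurentSeries Qb) = JFam M d
      rw [WK.wBar_high]
      rfl
    show g (barToTop (M * q * q) (genFam (M * q * q) ⟨(d : ℕ) * q ^ 2, hd⟩))
      = rotHom ξ (hξ.ne_zero (NeZero.ne q)) (JFam M d)
    rw [e1, hg, iota3_betaQ M q Kt (WK.wBar M q hq hqM : _ →ₐ[Qb] _)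
      (fun x => WK.wBar_alpha M q hq hqM x) (fun x => WK.wBar_beta M q hq hqM x) hq hqM ξ hξq hξ1,
      e2]

end Bar

end Main

end Fermat.Agent.S36.Iota3
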