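import Mathlib
import Fermat.Agent.S18.ModelQFrac
import Fermat.Agent.S18.Glob
import Fermat.Agent.S24.EmbFormal
import Fermat.Agent.S24.Rot

/-!
# S36 [MODEL3] — Qfrac3.lean (helper7): `qfrac` along an embedding of `F̄_N` into `ℚ̄((t))`

Block [Qfrac3] of the three-valuation model.  Let `E : F̄_N →ₐ[ℚ̄] ℚ̄((t))` be a `ℚ̄`-embedding of
the function field (in the application: the middle-cusp embedding `ι3` of level `N = (M q) q`,
which maps the generators `j(t^e)` to `j(t^e)` or to a rotation `j(ξ^d t^d)`), `K ≤ K'`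
intermediate fields of `ℚ̄/ℚ` and `A` a valuation subring of `ℚ̄`.

* `apply_mem_of_gen` : if `E` maps every generator `j(t^e)`, `e ∣ N`, into a subfield `T` of
  `ℚ̄((t))` containing the constants of `K`, then `E` maps `F_K = FK N K` into `T`;
* `rotHom_mem_fracO` : the rotation `t ↦ ζ t` (`ζ ∈ K'` a unit of `A`) preserves
  `fracO A K'` (quotients of `O_{K'}`-integral series);
* `JFam_mem_fracO`, `rotHom_JFam_mem_fracO` : the two kinds of generator values lie in
  `fracO A K'`;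
* `iotaK E : FK N K →+* ℚ̄((t))` : the `K`-form of `E`, with `iotaK_algebraMap` (constants) and
  `iotaK_qfrac` : every `iotaK E x` is a quotient of two Laurent series with coefficients in
  `O_{K'} = A ∩ K'` — the `qfrac` input of the Gauss valuation ring along `E`;
* `qfrac3` : the same under the generator values of the middle-cusp embedding.
-/

set_option autoImplicit false

noncomputable section

namespace Fermat.Agent.S36.Qfrac3

open ModularCurve ModularCurve.IgusaScheme AlgebraicCurve HahnSeries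
open Fermat.Agent.S18.Arith Fermat.Agent.S24 Fermat.Agent.S28
open Fermat.Agent.S18.ModelQFrac (fracO mem_fracO_iff coeffMap_mem_fracO C_mem_fracO
  coeffMap_incO_injective)

set_option synthInstance.maxHeartbeats 400000

/-! ### An embedding of `F̄_N` maps `F_K` into any subfield containing the generator values -/

section General

variable (N : ℕ) [NeZero N] (K : IntermediateField ℚ Qb)

variable (E : modularFunctionFieldBar N →ₐ[Qb] LaurentSeries Qb)
  (T : Subfield (LaurentSeries Qb))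

/-- Inner induction: `E` maps `coeffEmb (F_ℚ(N))` into `T`. -/
theorem apply_coeffEmb_mem
    (hT : ∀ r : ℚ, (HahnSeries.C (algebraMap ℚ Qb r) : LaurentSeries Qb) ∈ T)
    (hE : ∀ e : ↥N.divisors, E (genFam N e) ∈ T)
    {z : LaurentSeries ℚ} (hz : z ∈ modularFunctionFieldFull N) :
    E ⟨coeffEmb Qb z, coeffEmb_mem_laurentBaseChange Qb hz⟩ ∈ T := by
  have key : ∀ (z : LaurentSeries ℚ) (hz : z ∈ modularFunctionFieldFull N),
      ∀ hy : coeffEmb Qb z ∈ modularFunctionFieldBar N, E ⟨coeffEmb Qb z, hy⟩ ∈ T := by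
    intro z hz
    unfold modularFunctionFieldFull at hz
    induction hz using IntermediateField.adjoin_induction with
    | mem z hz =>
      intro hy
      obtain ⟨d, hd0, hd, rfl⟩ := hz
      have hmem : d ∈ N.divisors := Nat.mem_divisors.mpr ⟨hd, NeZero.ne N⟩
      have e1 : (⟨coeffEmb Qb (qExpand ℚ d jq), hy⟩ : modularFunctionFieldBar N)
          = genFam N ⟨d, hmem⟩ := Subtype.ext rfl
      rw [e1]
      exact hE ⟨d, hmem⟩
    | algebraMap r =>
      intro hy
      have e1 : (⟨coeffEmb Qb (algebraMap ℚ (LaurentSeries ℚ) r), hy⟩ :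
          modularFunctionFieldBar N) = algebraMap Qb (modularFunctionFieldBar N)
            (algebraMap ℚ Qb r) := by
        apply Subtype.ext
        show coeffEmb Qb (algebraMap ℚ (LaurentSeries ℚ) r)
          = algebraMap Qb (LaurentSeries Qb) (algebraMap ℚ Qb r)
        rw [algebraMap_laurentSeries_eq_single, algebraMap_laurentSeries_eq_single, coeffEmb,
          coeffMap_single]
      rw [e1, AlgHom.commutes, algebraMap_laurentSeries_eq_single]
      exact hT r
    | add z₁ z₂ h₁ h₂ ih₁ ih₂ =>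
      intro hy
      have hy₁ := coeffEmb_mem_laurentBaseChange Qb (F₀ := modularFunctionFieldFull N) h₁
      have hy₂ := coeffEmb_mem_laurentBaseChange Qb (F₀ := modularFunctionFieldFull N) h₂
      have e1 : (⟨coeffEmb Qb (z₁ + z₂), hy⟩ : modularFunctionFieldBar N)
          = ⟨coeffEmb Qb z₁, hy₁⟩ + ⟨coeffEmb Qb z₂, hy₂⟩ := Subtype.ext (map_add _ _ _)
      rw [e1, map_add]
      exact add_mem (ih₁ hy₁) (ih₂ hy₂)
    | inv z h ih =>
      intro hy
      have hy₁ := coeffEmb_mem_laurentBaseChange Qb (F₀ := modularFunctionFieldFull N) h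
      have e1 : (⟨coeffEmb Qb z⁻¹, hy⟩ : modularFunctionFieldBar N)
          = (⟨coeffEmb Qb z, hy₁⟩ : modularFunctionFieldBar N)⁻¹ :=
        Subtype.ext (map_inv₀ _ _)
      rw [e1, map_inv₀]
      exact inv_mem (ih hy₁)
    | mul z₁ z₂ h₁ h₂ ih₁ ih₂ =>
      intro hy
      have hy₁ := coeffEmb_mem_laurentBaseChange Qb (F₀ := modularFunctionFieldFull N) h₁
      have hy₂ := coeffEmb_mem_laurentBaseChange Qb (F₀ := modularFunctionFieldFull N) h₂
      have e1 : (⟨coeffEmb Qb (z₁ * z₂), hy⟩ : modularFunctionFieldBar N)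
          = ⟨coeffEmb Qb z₁, hy₁⟩ * ⟨coeffEmb Qb z₂, hy₂⟩ := Subtype.ext (map_mul _ _ _)
      rw [e1, map_mul]
      exact mul_mem (ih₁ hy₁) (ih₂ hy₂)
  exact key z hz _

/-- **General transfer.**  A `ℚ̄`-embedding `E` of `F̄_N` which maps the generators `j(t^e)` into a
subfield `T ⊆ ℚ̄((t))` containing the constants of `K` maps `F_K` into `T`. -/
theorem apply_mem_of_gen
    (hT : ∀ c : K, (HahnSeries.C (c : Qb) : LaurentSeries Qb) ∈ T)
    (hE : ∀ e : ↥N.divisors, E (genFam N e) ∈ T)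
    (x : modularFunctionFieldBar N) (hx : (x : LaurentSeries Qb) ∈ FK N K) : E x ∈ T := by
  have hTQ : ∀ r : ℚ, (HahnSeries.C (algebraMap ℚ Qb r) : LaurentSeries Qb) ∈ T :=
    fun r => hT (algebraMap ℚ K r)
  have key : ∀ (y : LaurentSeries Qb) (_ : y ∈ FK N K),
      ∀ hy : y ∈ modularFunctionFieldBar N, E ⟨y, hy⟩ ∈ T := by
    intro y hyK
    unfold FK at hyK
    induction hyK using Subfield.closure_induction with
    | mem y hy' =>
      intro hy
      rcases hy' with ⟨c, rfl⟩ | ⟨z, rfl⟩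
      · have e1 : (⟨(HahnSeries.C (c : Qb) : LaurentSeries Qb), hy⟩ : modularFunctionFieldBar N)
            = algebraMap Qb (modularFunctionFieldBar N) (c : Qb) := by
          apply Subtype.ext
          show (HahnSeries.C (c : Qb) : LaurentSeries Qb) = algebraMap Qb (LaurentSeries Qb) (c : Qb)
          rw [algebraMap_laurentSeries_eq_single]
          rfl
        rw [e1, AlgHom.commutes, algebraMap_laurentSeries_eq_single]
        exact hT c
      · exact apply_coeffEmb_mem N E T hTQ hE z.2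
    | one =>
      intro hy
      have e1 : (⟨(1 : LaurentSeries Qb), hy⟩ : modularFunctionFieldBar N) = 1 := rfl
      rw [e1, map_one]
      exact one_mem T
    | add a b ha hb iha ihb =>
      intro hy
      have hya : a ∈ modularFunctionFieldBar N := Fermat.Agent.S18.Glob.fk_le_bar N K ha
      have hyb : b ∈ modularFunctionFieldBar N := Fermat.Agent.S18.Glob.fk_le_bar N K hb
      have e1 : (⟨a + b, hy⟩ : modularFunctionFieldBar N) = ⟨a, hya⟩ + ⟨b, hyb⟩ := rfl
      rw [e1, map_add]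
      exact add_mem (iha hya) (ihb hyb)
    | neg a ha iha =>
      intro hy
      have hya : a ∈ modularFunctionFieldBar N := Fermat.Agent.S18.Glob.fk_le_bar N K ha
      have e1 : (⟨-a, hy⟩ : modularFunctionFieldBar N) = -⟨a, hya⟩ := rfl
      rw [e1, map_neg]
      exact neg_mem (iha hya)
    | inv a ha iha =>
      intro hy
      have hya : a ∈ modularFunctionFieldBar N := Fermat.Agent.S18.Glob.fk_le_bar N K ha
      have e1 : (⟨a⁻¹, hy⟩ : modularFunctionFieldBar N) = (⟨a, hya⟩ : modularFunctionFieldBar N)⁻¹ :=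
        rfl
      rw [e1, map_inv₀]
      exact inv_mem (iha hya)
    | mul a b ha hb iha ihb =>
      intro hy
      have hya : a ∈ modularFunctionFieldBar N := Fermat.Agent.S18.Glob.fk_le_bar N K ha
      have hyb : b ∈ modularFunctionFieldBar N := Fermat.Agent.S18.Glob.fk_le_bar N K hb
      have e1 : (⟨a * b, hy⟩ : modularFunctionFieldBar N) = ⟨a, hya⟩ * ⟨b, hyb⟩ := rfl
      rw [e1, map_mul]
      exact mul_mem (iha hya) (ihb hyb)
  exact key _ hx x.2

end General

/-! ### Rotations and the generator values inside `fracO` -/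

section FracO

variable (A : ValuationSubring Qb) (K' : IntermediateField ℚ Qb)

/-- The rotation `t ↦ u t` of a Laurent series over `O_{K'}` by a unit `u`. -/
def rotO (u : (OK A K')ˣ) (X : LaurentSeries (OK A K')) : LaurentSeries (OK A K') where
  coeff n := ((u ^ n : (OK A K')ˣ) : OK A K') * X.coeff n
  isPWO_support' := X.isPWO_support.mono fun n hn => by
    simp only [Function.mem_support, ne_eq] at hn
    exact fun h => hn (by rw [h, mul_zero])

theorem rotO_coeff (u : (OK A K')ˣ) (X : LaurentSeries (OK A K')) (n : ℤ) :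
    (rotO A K' u X).coeff n = ((u ^ n : (OK A K')ˣ) : OK A K') * X.coeff n := rfl

theorem incO_zpow (u : (OK A K')ˣ) (n : ℤ) :
    incO A K' ((u ^ n : (OK A K')ˣ) : OK A K') = (incO A K' (u : OK A K')) ^ n := by
  have h1 : ((Units.map (incO A K').toMonoidHom (u ^ n) : Qbˣ) : Qb)
      = ((Units.map (incO A K').toMonoidHom u : Qbˣ) : Qb) ^ n := by
    rw [map_zpow, Units.val_zpow_eq_zpow_val]
  exact h1

theorem coeffMap_rotO (u : (OK A K')ˣ) (X : LaurentSeries (OK A K')) (ζ : Qb) (hζ0 : ζ ≠ 0)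
    (hu : incO A K' (u : OK A K') = ζ) :
    coeffMap (incO A K') (rotO A K' u X) = rotHom ζ hζ0 (coeffMap (incO A K') X) := by
  ext n
  rw [coeffMap_coeff, rotHom_coeff, coeffMap_coeff, rotO_coeff, map_mul, incO_zpow, hu]

/-- The unit of `O_{K'}` given by `ζ ∈ K'` with `ζ, ζ⁻¹ ∈ A`. -/
def unitOf (ζ : Qb) (hζK : ζ ∈ K') (hζA : ζ ∈ A) (hζA' : ζ⁻¹ ∈ A) (hζ0 : ζ ≠ 0) : (OK A K')ˣ where
  val := ⟨⟨ζ, hζK⟩, hζA⟩
  inv := ⟨⟨ζ⁻¹, inv_mem hζK⟩, hζA'⟩
  val_inv := by
    apply Subtype.ext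
    apply Subtype.ext
    show ζ * ζ⁻¹ = 1
    exact mul_inv_cancel₀ hζ0
  inv_val := by
    apply Subtype.ext
    apply Subtype.ext
    show ζ⁻¹ * ζ = 1
    exact inv_mul_cancel₀ hζ0

theorem incO_unitOf (ζ : Qb) (hζK : ζ ∈ K') (hζA : ζ ∈ A) (hζA' : ζ⁻¹ ∈ A) (hζ0 : ζ ≠ 0) :
    incO A K' (unitOf A K' ζ hζK hζA hζA' hζ0 : OK A K') = ζ := rfl

/-- **Rotations preserve `fracO`.** -/
theorem rotHom_mem_fracO (ζ : Qb) (hζ0 : ζ ≠ 0) (hζK : ζ ∈ K') (hζA : ζ ∈ A) (hζA' : ζ⁻¹ ∈ A)
    {x : LaurentSeries Qb} (hx : x ∈ fracO A K') : rotHom ζ hζ0 x ∈ fracO A K' := by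
  obtain ⟨a, b, hb, h⟩ := hx
  set u := unitOf A K' ζ hζK hζA hζA' hζ0 with hu
  have hu' : incO A K' (u : OK A K') = ζ := incO_unitOf A K' ζ hζK hζA hζA' hζ0
  refine ⟨rotO A K' u a, rotO A K' u b, ?_, ?_⟩
  · intro h0
    apply hb
    apply coeffMap_incO_injective A K'
    apply rotHom_injective ζ hζ0
    rw [← coeffMap_rotO A K' u b ζ hζ0 hu', h0, map_zero, map_zero]
  · rw [coeffMap_rotO A K' u a ζ hζ0 hu', coeffMap_rotO A K' u b ζ hζ0 hu', ← h, map_mul]

/-- `j(t^d)` lies in `fracO`. -/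
theorem coeffEmb_qExpand_jq_mem_fracO (d : ℕ) [NeZero d] :
    coeffEmb Qb (qExpand ℚ d jq) ∈ fracO A K' := by
  have h3 : coeffEmb Qb (qExpand ℚ d jq) = coeffMap (incO A K') (jd (OK A K') d) := by
    rw [coeffMap_jd, ← jd_rat, coeffEmb, coeffMap_jd]
  rw [h3]
  exact coeffMap_mem_fracO A K' _

/-- The formal generators lie in `fracO`. -/
theorem JFam_mem_fracO (N : ℕ) (e : ↥N.divisors) : JFam N e ∈ fracO A K' := by
  have : NeZero (e : ℕ) := ⟨(Nat.pos_of_mem_divisors e.2).ne'⟩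
  exact coeffEmb_qExpand_jq_mem_fracO A K' (e : ℕ)

/-- The rotated formal generators lie in `fracO`. -/
theorem rotHom_JFam_mem_fracO (ζ : Qb) (hζ0 : ζ ≠ 0) (hζK : ζ ∈ K') (hζA : ζ ∈ A)
    (hζA' : ζ⁻¹ ∈ A) (N : ℕ) (e : ↥N.divisors) : rotHom ζ hζ0 (JFam N e) ∈ fracO A K' :=
  rotHom_mem_fracO A K' ζ hζ0 hζK hζA hζA' (JFam_mem_fracO A K' N e)

/-- A root of unity is a unit of every valuation subring. -/
theorem mem_of_pow_eq_one {ξ : Qb} {n : ℕ} (hn : n ≠ 0) (hξ : ξ ^ n = 1) : ξ ∈ A ∧ ξ⁻¹ ∈ A := by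
  obtain ⟨k, rfl⟩ := Nat.exists_eq_succ_of_ne_zero hn
  have hξ0 : ξ ≠ 0 := by
    rintro rfl
    rw [zero_pow (Nat.succ_ne_zero k)] at hξ
    exact zero_ne_one hξ
  have e1 : ξ⁻¹ = ξ ^ k := by
    rw [pow_succ] at hξ
    exact (eq_inv_of_mul_eq_one_left hξ).symm ▸ rfl
  have e2 : ξ = ξ⁻¹ ^ k := by
    rw [inv_pow]
    rw [pow_succ] at hξ
    exact eq_inv_of_mul_eq_one_right hξ
  rcases A.mem_or_inv_mem ξ with h | h
  · exact ⟨h, by rw [e1]; exact pow_mem h k⟩
  · exact ⟨by rw [e2]; exact pow_mem h k, h⟩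

end FracO

/-! ### The `K`-form of an embedding and its `qfrac` -/

section KForm

variable (N : ℕ) [NeZero N] (A : ValuationSubring Qb) (K K' : IntermediateField ℚ Qb)
  (E : modularFunctionFieldBar N →ₐ[Qb] LaurentSeries Qb)

/-- The `K`-form `F_K → ℚ̄((t))` of a `ℚ̄`-embedding `E` of `F̄_N`. -/
def iotaK : FK N K →+* LaurentSeries Qb :=
  E.toRingHom.comp (Fermat.Agent.S18.Glob.toBar N K)

omit [NeZero N] in
theorem iotaK_apply (x : FK N K) :
    iotaK N K E x = E (Fermat.Agent.S18.Glob.toBar N K x) := rfl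

omit [NeZero N] in
/-- `iotaK E` on constants. -/
theorem iotaK_algebraMap (c : OK A K) :
    iotaK N K E (algebraMap (OK A K) (FK N K) c) = HahnSeries.C (incO A K c) := by
  rw [iotaK_apply, Fermat.Agent.S18.Glob.toBar_algebraMap, AlgHom.commutes,
    algebraMap_laurentSeries_eq_single]
  rfl

/-- **[Qfrac3], general form.**  If `E` maps the generators `j(t^e)` into `fracO A K'` (`K ≤ K'`),
then every `iotaK E x`, `x ∈ F_K`, is a quotient of two Laurent series with coefficients in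
`O_{K'} = A ∩ K'`. -/
theorem iotaK_qfrac (hKK' : K ≤ K') (hE : ∀ e : ↥N.divisors, E (genFam N e) ∈ fracO A K') :
    ∀ x : FK N K, ∃ a b : LaurentSeries (OK A K'), b ≠ 0 ∧
      iotaK N K E x * coeffMap (incO A K') b = coeffMap (incO A K') a := by
  intro x
  have hT : ∀ c : K, (HahnSeries.C (c : Qb) : LaurentSeries Qb) ∈ fracO A K' := fun c =>
    C_mem_fracO A K' (⟨(c : Qb), hKK' c.2⟩ : K')
  exact apply_mem_of_gen N K E (fracO A K') hT hE (Fermat.Agent.S18.Glob.toBar N K x) x.2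

/-- **[Qfrac3]** for an embedding with the generator values of the middle-cusp embedding: each
generator goes to a formal generator or to a rotation of one by a root of unity `ξ ∈ K'`. -/
theorem qfrac3 (hKK' : K ≤ K') (ξ : Qb) (hξ0 : ξ ≠ 0) (hξK : ξ ∈ K') {n : ℕ} (hn : n ≠ 0)
    (hξ : ξ ^ n = 1)
    (hE : ∀ e : ↥N.divisors, E (genFam N e) = JFam N e ∨
      ∃ (N' : ℕ) (e' : ↥N'.divisors), E (genFam N e) = rotHom ξ hξ0 (JFam N' e')) :
    ∀ x : FK N K, ∃ a b : LaurentSeries (OK A K'), b ≠ 0 ∧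
      iotaK N K E x * coeffMap (incO A K') b = coeffMap (incO A K') a := by
  obtain ⟨h1, h2⟩ := mem_of_pow_eq_one A hn hξ
  refine iotaK_qfrac N A K K' E hKK' fun e => ?_
  rcases hE e with h | ⟨N', e', h⟩
  · rw [h]
    exact JFam_mem_fracO A K' N e
  · rw [h]
    exact rotHom_JFam_mem_fracO A K' ξ hξ0 hξK h1 h2 N' e'

end KForm

end Fermat.Agent.S36.Qfrac3
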