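/-
S36 — V3.lean (helper119), [MODEL3] leaf [M3.3]: the third component valuation `W3`.

Level `N = (M q) q`, `q` prime, `q ∤ M`; `F_K = FK N K`; `A` a valuation subring of `ℚ̄`.
`W3` is the Gauss valuation ring of `F_K` along the MIDDLE-CUSP EMBEDDING
`ι : F_K → ℚ̄((Q))`, which is the identity on `α(F_K(Mq))` and `rot_ξ ∘ w_q` on `β(F_K(Mq))`
(`ξ` a primitive `q`-th root of unity; in particular `ι j = j`, `ι j_q = j_q`,
`ι j_{q²} = j(ξ Q)`).  The embedding is ABSTRACT here (structure `MidEmb`), so that the file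
fits any construction of `ι3` (`S36/Iota3`, `S36/Iota3An`).

* `gen_top`, `apply_mem_of_gen`, `ringHom_ext_of_gen` : `F_K` is generated, as a field, by the
  constants and the `j(Q^d)`, `d ∣ N`;
* `MidEmb` and its consequences: constants, `ι j`, `ι j_q`, `ι j_{q²}`, the `Emb` hypotheses of
  `S36/GaussE` (`MidEmb.emb`), and the uniformiser `s = j_{q²} - j`:
  `ι s = (1 - ξ) · U`, `U` an `A`-integral series of nonzero reduction (`MidEmb.unif`);
* `W3`, `red3` and the fields of `Model3Plan.ValHyp3` for the index `2`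
  (`unif_mem`, `unif_not`, `disc`, `ram`), the kernel of `red3`, and the compatibility with the
  level-`M q` Gauss rings along `α` and `β`.
-/
import Mathlib
import Fermat.Agent.S18.ModelQFrac
import Fermat.Agent.S34.GaussV
import Fermat.Agent.S34.ConjMod
import Fermat.Agent.S36.Qfrac3
import Fermat.Agent.S36.GaussE
import Fermat.Agent.S36.WQ2
import Fermat.Agent.S36.Wit3
import Fermat.Agent.S36.Iota3
import Fermat.Agent.S36.BaseXiB
import Fermat.Agent.S36.BaseXi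

set_option autoImplicit false

noncomputable section

namespace Fermat.Agent.S36.V3

open ModularCurve ModularCurve.IgusaScheme AlgebraicCurve HahnSeries Fermat.Agent.S18.Arith
open Fermat.Agent.S18.ModelPlan Fermat.Agent.S18.ModelRed Fermat.Agent.S24 Fermat.Agent.S28
open Fermat.Agent.S18.ModelQFrac (fracO mem_fracO_iff)

set_option synthInstance.maxHeartbeats 400000

/-! ### `F_K` is generated by the constants and the `j(Q^d)` -/

section Gen

variable (N : ℕ) [NeZero N] (K : IntermediateField ℚ Qb)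

/-- The generator `j(Q^d)` of `F_K`, `d ∣ N`. -/
def genK (d : ℕ) [NeZero d] (hd : d ∣ N) : FK N K :=
  ⟨coeffEmb Qb (qExpand ℚ d jq), S34.WK.coeffEmb_mem_FK N K (jqd_mem_full N hd)⟩

omit [NeZero N] in
theorem coe_genK (d : ℕ) [NeZero d] (hd : d ∣ N) :
    ((genK N K d hd : FK N K) : LaurentSeries Qb) = jd Qb d := by
  show coeffEmb Qb (qExpand ℚ d jq) = jd Qb d
  rw [← jd_rat, coeffEmb, coeffMap_jd]

variable {N K}

omit [NeZero N] in
/-- A subfield of `F_K` containing the constants and the generators `j(Q^d)` is everything. -/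
theorem gen_top (T : Subfield (FK N K)) (hC : ∀ c : K, constK N K c ∈ T)
    (hgen : ∀ (d : ℕ) [NeZero d] (hd : d ∣ N), genK N K d hd ∈ T) (x : FK N K) : x ∈ T := by
  have key1 : ∀ (z : LaurentSeries ℚ) (_ : z ∈ modularFunctionFieldFull N),
      ∀ hy : coeffEmb Qb z ∈ FK N K, (⟨coeffEmb Qb z, hy⟩ : FK N K) ∈ T := by
    intro z hz
    unfold modularFunctionFieldFull at hz
    induction hz using IntermediateField.adjoin_induction with
    | mem z hz =>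
      intro hy
      obtain ⟨d, hd0, hd, rfl⟩ := hz
      exact hgen d hd
    | algebraMap r =>
      intro hy
      have e1 : (⟨coeffEmb Qb (algebraMap ℚ (LaurentSeries ℚ) r), hy⟩ : FK N K)
          = constK N K (algebraMap ℚ K r) := by
        apply Subtype.ext
        show coeffEmb Qb (algebraMap ℚ (LaurentSeries ℚ) r)
          = HahnSeries.C (algebraMap K Qb (algebraMap ℚ K r))
        rw [algebraMap_laurentSeries_eq_single, coeffEmb, coeffMap_single]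
        rfl
      rw [e1]
      exact hC _
    | add z₁ z₂ h₁ h₂ ih₁ ih₂ =>
      intro hy
      have hy₁ := S34.WK.coeffEmb_mem_FK N K (z := z₁) h₁
      have hy₂ := S34.WK.coeffEmb_mem_FK N K (z := z₂) h₂
      have e1 : (⟨coeffEmb Qb (z₁ + z₂), hy⟩ : FK N K)
          = ⟨coeffEmb Qb z₁, hy₁⟩ + ⟨coeffEmb Qb z₂, hy₂⟩ := Subtype.ext (map_add _ _ _)
      rw [e1]
      exact T.add_mem (ih₁ hy₁) (ih₂ hy₂)
    | inv z h ih =>
      intro hy
      have hy₁ := S34.WK.coeffEmb_mem_FK N K (z := z) h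
      have e1 : (⟨coeffEmb Qb z⁻¹, hy⟩ : FK N K) = (⟨coeffEmb Qb z, hy₁⟩ : FK N K)⁻¹ :=
        Subtype.ext (map_inv₀ _ _)
      rw [e1]
      exact T.inv_mem (ih hy₁)
    | mul z₁ z₂ h₁ h₂ ih₁ ih₂ =>
      intro hy
      have hy₁ := S34.WK.coeffEmb_mem_FK N K (z := z₁) h₁
      have hy₂ := S34.WK.coeffEmb_mem_FK N K (z := z₂) h₂
      have e1 : (⟨coeffEmb Qb (z₁ * z₂), hy⟩ : FK N K)
          = ⟨coeffEmb Qb z₁, hy₁⟩ * ⟨coeffEmb Qb z₂, hy₂⟩ := Subtype.ext (map_mul _ _ _)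
      rw [e1]
      exact T.mul_mem (ih₁ hy₁) (ih₂ hy₂)
  have key : ∀ (y : LaurentSeries Qb) (_ : y ∈ FK N K), ∀ hy : y ∈ FK N K,
      (⟨y, hy⟩ : FK N K) ∈ T := by
    intro y hyK
    unfold FK at hyK
    induction hyK using Subfield.closure_induction with
    | mem y hy' =>
      intro hy
      rcases hy' with ⟨c, rfl⟩ | ⟨z, rfl⟩
      · exact hC c
      · exact key1 z.1 z.2 hy
    | one =>
      intro hy
      exact T.one_mem
    | add y₁ y₂ h₁ h₂ ih₁ ih₂ =>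
      intro hy
      have e1 : (⟨y₁ + y₂, hy⟩ : FK N K) = ⟨y₁, h₁⟩ + ⟨y₂, h₂⟩ := rfl
      rw [e1]
      exact T.add_mem (ih₁ h₁) (ih₂ h₂)
    | neg y h ih =>
      intro hy
      have e1 : (⟨-y, hy⟩ : FK N K) = -⟨y, h⟩ := rfl
      rw [e1]
      exact T.neg_mem (ih h)
    | inv y h ih =>
      intro hy
      have e1 : (⟨y⁻¹, hy⟩ : FK N K) = (⟨y, h⟩ : FK N K)⁻¹ := rfl
      rw [e1]
      exact T.inv_mem (ih h)
    | mul y₁ y₂ h₁ h₂ ih₁ ih₂ =>
      intro hy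
      have e1 : (⟨y₁ * y₂, hy⟩ : FK N K) = ⟨y₁, h₁⟩ * ⟨y₂, h₂⟩ := rfl
      rw [e1]
      exact T.mul_mem (ih₁ h₁) (ih₂ h₂)
  exact key x.1 x.2 x.2

omit [NeZero N] in
/-- A ring homomorphism `F_K → ℚ̄((Q))` whose values on the constants and on the generators
`j(Q^d)` lie in a subfield `S` has all its values in `S`. -/
theorem apply_mem_of_gen (ι : FK N K →+* LaurentSeries Qb) (S : Subfield (LaurentSeries Qb))
    (hC : ∀ c : K, ι (constK N K c) ∈ S)
    (hgen : ∀ (d : ℕ) [NeZero d] (hd : d ∣ N), ι (genK N K d hd) ∈ S) (x : FK N K) :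
    ι x ∈ S :=
  gen_top (S.comap ι) hC hgen x

omit [NeZero N] in
/-- Two ring homomorphisms out of `F_K` into a field which agree on the constants and on the
generators `j(Q^d)` are equal. -/
theorem ringHom_ext_of_gen {L : Type*} [Field L] (f g : FK N K →+* L)
    (hC : ∀ c : K, f (constK N K c) = g (constK N K c))
    (hgen : ∀ (d : ℕ) [NeZero d] (hd : d ∣ N), f (genK N K d hd) = g (genK N K d hd)) :
    f = g :=
  RingHom.ext fun x => gen_top (f.eqLocusField g) hC hgen x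

omit [NeZero N] in
/-- `F_K` grows with `K`. -/
theorem FK_mono {K' : IntermediateField ℚ Qb} (hK : K ≤ K') : FK N K ≤ FK N K' := by
  unfold FK
  apply Subfield.closure_mono
  apply Set.union_subset_union_left
  rintro _ ⟨c, rfl⟩
  exact ⟨⟨(c : Qb), hK c.2⟩, rfl⟩

omit [NeZero N] in
/-- The `q`-expansion of an element of `F_K` is a quotient of `O'`-integral series, for every
`K' ≥ K`. -/
theorem coe_mem_fracO (A : ValuationSubring Qb) {K' : IntermediateField ℚ Qb} (hK : K ≤ K')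
    (x : FK N K) : ((x : FK N K) : LaurentSeries Qb) ∈ fracO A K' :=
  Fermat.Agent.S18.ModelQFrac.FK_le_fracO N A K' (FK_mono hK x.2)

end Gen

/-! ### Rotation minus identity: `f(ξ Q) - f(Q) = (1 - ξ) · U` -/

section Rot

variable (A : ValuationSubring Qb)

/-- `ξ ^ n - 1` is divisible by `1 - ξ` in `A`, for a unit `ξ` of `A` and `n : ℤ`. -/
theorem exists_zpow_sub_one {ξ : Qb} (hξ0 : ξ ≠ 0) (hξA : ξ ∈ A) (hξA' : ξ⁻¹ ∈ A) (n : ℤ) :
    ∃ c ∈ A, ξ ^ n - 1 = (1 - ξ) * c := by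
  obtain ⟨m, rfl | rfl⟩ := Int.eq_nat_or_neg n
  · refine ⟨-∑ i ∈ Finset.range m, ξ ^ i, A.neg_mem _ (sum_mem fun i _ => pow_mem hξA i), ?_⟩
    rw [zpow_natCast, mul_neg, mul_neg_geom_sum, neg_sub]
  · refine ⟨ξ⁻¹ * ∑ i ∈ Finset.range m, ξ⁻¹ ^ i,
      A.mul_mem _ _ hξA' (sum_mem fun i _ => pow_mem hξA' i), ?_⟩
    have h1 : (1 - ξ) * ξ⁻¹ = -(1 - ξ⁻¹) := by
      field_simp
      ring
    rw [zpow_neg, zpow_natCast, ← inv_pow, ← mul_assoc, h1, neg_mul, mul_neg_geom_sum, neg_sub]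

/-- **Rotation minus identity.** For an `A`-integral series `F` and a unit `ξ ≠ 1` of `A`:
`F(ξ Q) - F(Q) = (1 - ξ) · U` with `U` an `A`-integral series whose coefficient at `Q⁻¹` is
`ξ⁻¹` times that of `F`. -/
theorem exists_rot_sub_self {ξ : Qb} (hξ0 : ξ ≠ 0) (hξA : ξ ∈ A) (hξA' : ξ⁻¹ ∈ A) (hξ1 : ξ ≠ 1)
    (F : LaurentSeries A) :
    ∃ U : LaurentSeries A,
      rotHom ξ hξ0 (coeffMap A.subtype F) - coeffMap A.subtype F
        = (HahnSeries.C (1 - ξ) : LaurentSeries Qb) * coeffMap A.subtype U ∧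
      U.coeff (-1) = ⟨ξ⁻¹, hξA'⟩ * F.coeff (-1) := by
  choose c hcA hc using exists_zpow_sub_one A hξ0 hξA hξA'
  refine ⟨⟨fun n => ⟨c n, hcA n⟩ * F.coeff n, F.isPWO_support.mono fun n hn => ?_⟩, ?_, ?_⟩
  · simp only [Function.mem_support, ne_eq] at hn
    exact fun h => hn (by rw [h, mul_zero])
  · ext n
    rw [HahnSeries.C_mul_eq_smul, HahnSeries.coeff_sub, rotHom_coeff, HahnSeries.coeff_smul,
      coeffMap_coeff, coeffMap_coeff]
    show ξ ^ n * ((F.coeff n : A) : Qb) - ((F.coeff n : A) : Qb)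
      = (1 - ξ) * (c n * ((F.coeff n : A) : Qb))
    rw [← mul_assoc, ← hc n]
    ring
  · show (⟨c (-1), hcA (-1)⟩ : A) * F.coeff (-1) = ⟨ξ⁻¹, hξA'⟩ * F.coeff (-1)
    have h1 : c (-1) = ξ⁻¹ := by
      have h2 := hc (-1)
      have h3 : (1 - ξ) ≠ 0 := sub_ne_zero.mpr (Ne.symm hξ1)
      apply mul_left_cancel₀ h3
      rw [← h2, zpow_neg_one]
      field_simp
    congr 1
    exact Subtype.ext h1

end Rot

/-! ### The abstract middle-cusp embedding -/

section Mid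

variable (M q : ℕ) [NeZero M] [NeZero q] (hq : q.Prime) (hqM : ¬ q ∣ M)
variable (K : IntermediateField ℚ Qb)

/-- **The middle-cusp embedding, abstractly.**  `ι : F_K(M q²) → ℚ̄((Q))` is the `q`-expansion
on `α(F_K(M q))` and the `ξ`-rotated `q`-expansion of `w_q x` on `β x`, `x ∈ F_K(M q)`. -/
structure MidEmb (ξ : Qb) (hξ0 : ξ ≠ 0) (ι : FK (M * q * q) K →+* LaurentSeries Qb) : Prop where
  /-- `ι ∘ α = ` the `q`-expansion -/
  alpha : ∀ x : FK (M * q) K, ι (WQ2.alphaK2 M q K x) = (x : LaurentSeries Qb)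
  /-- `ι ∘ β = rot_ξ ∘ ` (the `q`-expansion of `w_q`) -/
  beta : ∀ x : FK (M * q) K, ι (WQ2.betaK2 M q hq hqM K x) =
    rotHom ξ hξ0 ((S34.WK.wK M q hq hqM K x : FK (M * q) K) : LaurentSeries Qb)

namespace MidEmb

variable {M q hq hqM K}
variable {ξ : Qb} {hξ0 : ξ ≠ 0} {ι : FK (M * q * q) K →+* LaurentSeries Qb}

/-- `ι` is the identity on the constants. -/
theorem const (h : MidEmb M q hq hqM K ξ hξ0 ι) (c : K) :
    ι (constK (M * q * q) K c) = (HahnSeries.C (c : Qb) : LaurentSeries Qb) := by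
  rw [← WQ2.alphaK2_constK M q K c, h.alpha]
  rfl

/-- `ι j = j`. -/
theorem apply_jK (h : MidEmb M q hq hqM K ξ hξ0 ι) : ι (jK (M * q * q) K) = jd Qb 1 := by
  rw [← WQ2.alphaK2_jK M q K, h.alpha, S18.ModelBasicCore.coe_jK]

/-- `ι j_q = j_q`. -/
theorem apply_jqK2 (h : MidEmb M q hq hqM K ξ hξ0 ι) :
    ι (WQ2.jqK2 M q hq hqM K) = jd Qb q := by
  rw [WQ2.jqK2, h.alpha, S34.WK.coe_jqK]

/-- `ι j_{q²} = j(ξ Q)`. -/
theorem apply_jqqK2 (h : MidEmb M q hq hqM K ξ hξ0 ι) :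
    ι (WQ2.jqqK2 M q hq hqM K) = rotHom ξ hξ0 (jd Qb 1) := by
  rw [WQ2.jqqK2, h.beta, S34.WK.wK_jqK, S18.ModelBasicCore.coe_jK]

/-- Every value of `ι` is a quotient of two `O'`-integral series (`O' = A ∩ K'`, `K ≤ K' ∋ ξ`). -/
theorem mem_fracO (h : MidEmb M q hq hqM K ξ hξ0 ι) (A : ValuationSubring Qb)
    {K' : IntermediateField ℚ Qb} (hK : K ≤ K') (hξK : ξ ∈ K') {n : ℕ} (hn : n ≠ 0)
    (hξ : ξ ^ n = 1) (x : FK (M * q * q) K) : ι x ∈ fracO A K' := by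
  obtain ⟨h1, h2⟩ := Qfrac3.mem_of_pow_eq_one A hn hξ
  refine apply_mem_of_gen ι (fracO A K') (fun c => ?_) (fun d _ hd => ?_) x
  · rw [h.const]
    exact Fermat.Agent.S18.ModelQFrac.C_mem_fracO A K' (⟨(c : Qb), hK c.2⟩ : K')
  · by_cases hqd : q ∣ d
    · obtain ⟨d', rfl⟩ := hqd
      have hd' : d' ∣ M * q := by
        have h3 : q * d' ∣ q * (M * q) := by rw [mul_comm q (M * q)]; exact hd
        exact Nat.dvd_of_mul_dvd_mul_left (Nat.pos_of_ne_zero (NeZero.ne q)) h3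
      have : NeZero d' := ⟨fun h0 => NeZero.ne (q * d') (by rw [h0, mul_zero])⟩
      have e1 : genK (M * q * q) K (q * d') hd
          = WQ2.betaK2 M q hq hqM K (genK (M * q) K d' hd') := by
        apply Subtype.ext
        rw [WQ2.coe_betaK2, coe_genK, coe_genK, qExpand_jd]
      rw [e1, h.beta]
      exact Qfrac3.rotHom_mem_fracO A K' ξ hξ0 hξK h1 h2 (coe_mem_fracO A hK _)
    · have hcop : Nat.Coprime d q := ((Nat.Prime.coprime_iff_not_dvd hq).mpr hqd).symm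
      have hd' : d ∣ M * q := hcop.dvd_of_dvd_mul_right hd
      have e1 : genK (M * q * q) K d hd = WQ2.alphaK2 M q K (genK (M * q) K d hd') := by
        apply Subtype.ext
        rw [WQ2.coe_alphaK2]
        rfl
      rw [e1, h.alpha]
      exact coe_mem_fracO A hK _

/-- **The `Emb` hypotheses of `S36/GaussE`** for the middle-cusp embedding. -/
theorem emb (h : MidEmb M q hq hqM K ξ hξ0 ι) (A : ValuationSubring Qb)
    {K' : IntermediateField ℚ Qb} (hK : K ≤ K') (hξK : ξ ∈ K') {n : ℕ} (hn : n ≠ 0)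
    (hξ : ξ ^ n = 1) : GaussE.Emb A K K' ι where
  const c := h.const (c : K)
  qfrac x := (mem_fracO_iff A K').mp (h.mem_fracO A hK hξK hn hξ x)

/-- `ι (j_{q²} - j) = j(ξ Q) - j(Q)`. -/
theorem apply_s (h : MidEmb M q hq hqM K ξ hξ0 ι) :
    ι (WQ2.jqqK2 M q hq hqM K - jK (M * q * q) K) = rotHom ξ hξ0 (jd Qb 1) - jd Qb 1 := by
  rw [map_sub, h.apply_jqqK2, h.apply_jK]

/-- **The uniformiser of `W3`.**  `s = j_{q²} - j` satisfies `ι s = ϖ · U` with `U` a Gauss unit,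
for `ϖ ∈ O'` with `ϖ = 1 - ξ` (`ξ ≠ 1` a root of unity). -/
theorem unif (h : MidEmb M q hq hqM K ξ hξ0 ι) (A : ValuationSubring Qb)
    {K' : IntermediateField ℚ Qb} (hξ1 : ξ ≠ 1) {n : ℕ} (hn : n ≠ 0) (hξ : ξ ^ n = 1)
    (ϖ : OK A K') (hϖ : incO A K' ϖ = 1 - ξ) :
    GaussE.Unif A K' ϖ ι (WQ2.jqqK2 M q hq hqM K - jK (M * q * q) K) := by
  obtain ⟨h1, h2⟩ := Qfrac3.mem_of_pow_eq_one A hn hξ
  have hjd : (jd Qb 1 : LaurentSeries Qb) = coeffMap A.subtype (jd A 1) := (coeffMap_jd _ 1).symm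
  obtain ⟨U, hU, hU1⟩ := exists_rot_sub_self A hξ0 h1 h2 hξ1 (jd A 1)
  have hϖ0 : ϖ ≠ 0 := by
    rintro rfl
    rw [map_zero] at hϖ
    exact hξ1 (sub_eq_zero.mp hϖ.symm).symm
  refine GaussE.unif_of_int hϖ0 U ?_ ?_
  · intro h0
    have h3 := congrArg (fun z : LaurentSeries (IsLocalRing.ResidueField A) => z.coeff (-1)) h0
    simp only [coeffMap_coeff, HahnSeries.coeff_zero] at h3
    rw [hU1, jd_one, coeff_jqModC_neg_one, mul_one, IsLocalRing.residue_eq_zero_iff] at h3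
    apply h3
    exact isUnit_iff_exists_inv.mpr ⟨⟨ξ, h1⟩, Subtype.ext (inv_mul_cancel₀ hξ0)⟩
  · rw [h.apply_s, hϖ, hjd]
    exact hU

end MidEmb

end Mid

/-! ### The valuation ring `W3` -/

section W3

/-- **All hypotheses of `W3`**: the middle-cusp embedding `ι`, and the ramified base
`K' ⊇ K(ξ)` with `O' = A ∩ K'` a discrete valuation ring with uniformiser `ϖ = 1 - ξ`. -/
structure Hyp3 (M q : ℕ) [NeZero M] [NeZero q] (hq : q.Prime) (hqM : ¬ q ∣ M)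
    (A : ValuationSubring Qb) (K K' : IntermediateField ℚ Qb) (ξ : Qb) (hξ0 : ξ ≠ 0)
    (ι : FK (M * q * q) K →+* LaurentSeries Qb) (ϖ : OK A K') : Prop where
  mid : MidEmb M q hq hqM K ξ hξ0 ι
  le : K ≤ K'
  xi_mem : ξ ∈ K'
  xi_pow : ξ ^ q = 1
  xi_ne : ξ ≠ 1
  dvr' : IsDiscreteValuationRing (OK A K')
  irr : Irreducible ϖ
  coe_unif : incO A K' ϖ = 1 - ξ

namespace Hyp3

variable {M q : ℕ} [NeZero M] [NeZero q] {hq : q.Prime} {hqM : ¬ q ∣ M}
variable {A : ValuationSubring Qb} {K K' : IntermediateField ℚ Qb}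
variable {ξ : Qb} {hξ0 : ξ ≠ 0} {ι : FK (M * q * q) K →+* LaurentSeries Qb} {ϖ : OK A K'}
variable (H : Hyp3 M q hq hqM A K K' ξ hξ0 ι ϖ)

include H

/-- The `Emb` hypotheses of `S36/GaussE`. -/
theorem emb : GaussE.Emb A K K' ι := H.mid.emb A H.le H.xi_mem (NeZero.ne q) H.xi_pow

/-- `s = j_{q²} - j` is a uniformiser along `ι`. -/
theorem unif : GaussE.Unif A K' ϖ ι (Wit3.sE M q hq hqM K) :=
  H.mid.unif A H.xi_ne (NeZero.ne q) H.xi_pow ϖ H.coe_unif

/-- **`W3`**: the Gauss valuation ring of `F_K(M q²)` along the middle-cusp embedding. -/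
def W3 : ValuationSubring (FK (M * q * q) K) := GaussE.V H.emb H.dvr'

theorem mem_W3_iff {x : FK (M * q * q) K} : x ∈ H.W3 ↔ ∃ y, GRel A (ι x) y := Iff.rfl

/-- The reduction map `W3 → k((Q))`. -/
def red3 : H.W3 →+* LaurentSeries (IsLocalRing.ResidueField A) := GaussE.red H.emb H.dvr'

theorem gRel_red3 (x : H.W3) : GRel A (ι (x : FK (M * q * q) K)) (H.red3 x) :=
  GaussE.gRel_red H.emb H.dvr' x

theorem red3_eq_of_gRel (x : H.W3) {y : LaurentSeries (IsLocalRing.ResidueField A)}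
    (h : GRel A (ι (x : FK (M * q * q) K)) y) : H.red3 x = y :=
  GaussE.red_eq_of_gRel H.emb H.dvr' x h

theorem mem_W3_of_gRel {x : FK (M * q * q) K} {y : LaurentSeries (IsLocalRing.ResidueField A)}
    (h : GRel A (ι x) y) : x ∈ H.W3 := ⟨y, h⟩

/-- Constants lie in `W3`. -/
theorem algebraMap_mem (c : OK A K) : algebraMap (OK A K) (FK (M * q * q) K) c ∈ H.W3 :=
  GaussE.algebraMap_mem_V H.emb H.dvr' c

theorem red3_algebraMap (c : OK A K) :
    H.red3 ⟨algebraMap (OK A K) (FK (M * q * q) K) c, H.algebraMap_mem c⟩ = C (resO A K c) :=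
  GaussE.red_algebraMap H.emb H.dvr' c

/-- Units of `W3` are the elements of nonzero reduction. -/
theorem inv_mem (x : H.W3) (hx : H.red3 x ≠ 0) : ((x : FK (M * q * q) K))⁻¹ ∈ H.W3 :=
  GaussE.inv_mem_V H.emb H.dvr' x hx

theorem red3_ne_zero_iff (x : H.W3) :
    H.red3 x ≠ 0 ↔ (x : FK (M * q * q) K) ≠ 0 ∧ ((x : FK (M * q * q) K))⁻¹ ∈ H.W3 :=
  GaussE.red_ne_zero_iff H.emb H.dvr' x

/-! #### The fields of `Model3Plan.ValHyp3` at the index `2` (`ϖ 2 = s = j_{q²} - j`) -/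

/-- `unif_mem`: `s ∈ W3`. -/
theorem s_mem : Wit3.sE M q hq hqM K ∈ H.W3 := GaussE.unif_mem_V H.emb H.dvr' H.irr H.unif

theorem s_ne_zero : Wit3.sE M q hq hqM K ≠ 0 := GaussE.unif_ne_zero H.unif

theorem red3_s : H.red3 ⟨Wit3.sE M q hq hqM K, H.s_mem⟩ = 0 :=
  GaussE.red_unif H.emb H.dvr' H.irr H.unif

/-- `unif_not`: `s` is not a unit of `W3`. -/
theorem s_inv_not_mem : (Wit3.sE M q hq hqM K)⁻¹ ∉ H.W3 := fun h =>
  GaussE.red_ne_zero_of_inv_mem H.emb H.dvr' ⟨Wit3.sE M q hq hqM K, H.s_mem⟩ h H.s_ne_zero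
    H.red3_s

/-- `disc`: `W3` is discrete with uniformiser `s`. -/
theorem disc (x : FK (M * q * q) K) (hx : x ≠ 0) :
    ∃ k : ℤ, ∃ u ∈ H.W3, u⁻¹ ∈ H.W3 ∧ x = Wit3.sE M q hq hqM K ^ k * u := by
  obtain ⟨γ, h1, h2⟩ := GaussE.exists_zpow_mul_unit H.emb H.dvr' H.irr H.unif x hx
  refine ⟨γ, x * Wit3.sE M q hq hqM K ^ (-γ), h1, h2, ?_⟩
  rw [mul_comm x, ← mul_assoc, ← zpow_add₀ H.s_ne_zero, add_neg_cancel, zpow_zero, one_mul]

/-- `ram`: `π = s ^ (q - 1) · unit` in `W3`, as soon as `π = ϖ ^ (q - 1) · unit` in `A`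
(`BaseXi.exists_unit`). -/
theorem ram (π : OK A K)
    (hπ : ∃ u : A, IsUnit u ∧ incO A K π = incO A K' ϖ ^ (q - 1) * (u : Qb)) :
    ∃ u ∈ H.W3, u⁻¹ ∈ H.W3 ∧
      algebraMap (OK A K) (FK (M * q * q) K) π = Wit3.sE M q hq hqM K ^ (q - 1) * u :=
  GaussE.exists_pi_eq H.emb H.dvr' H.irr H.unif π (q - 1) hπ

/-- `W3` is a discrete valuation ring. -/
theorem isDVR : IsDiscreteValuationRing H.W3 :=
  GaussE.isDiscreteValuationRing_V H.emb H.dvr' H.irr H.unif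

/-- `ker red3 = s W3`. -/
theorem red3_eq_zero_iff (x : H.W3) :
    H.red3 x = 0 ↔ ∃ z ∈ H.W3, (x : FK (M * q * q) K) = Wit3.sE M q hq hqM K * z :=
  GaussE.red_eq_zero_iff H.emb H.dvr' H.irr H.unif x

include hq in
/-- `ker red3 = {x | x ^ (q - 1) ∈ π W3}`. -/
theorem red3_eq_zero_iff_pow (π : OK A K)
    (hπ : ∃ u : A, IsUnit u ∧ incO A K π = incO A K' ϖ ^ (q - 1) * (u : Qb)) (x : H.W3) :
    H.red3 x = 0 ↔ ∃ z ∈ H.W3,
      (x : FK (M * q * q) K) ^ (q - 1) = algebraMap (OK A K) (FK (M * q * q) K) π * z := by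
  obtain ⟨u, hu, hu', hπu⟩ := H.ram π hπ
  have hq1 : q - 1 ≠ 0 := Nat.sub_ne_zero_of_lt hq.one_lt
  have hu0 : u ≠ 0 := by
    rintro rfl
    rw [mul_zero] at hπu
    have h1 : ι (algebraMap (OK A K) (FK (M * q * q) K) π) = 0 := by rw [hπu, map_zero]
    obtain ⟨v, hv, hπv⟩ := hπ
    have h2 : incO A K π = 0 := by
      have h3 := H.emb.const π
      rw [h1] at h3
      apply HahnSeries.C_injective (Γ := ℤ)
      rw [← h3, map_zero]
    rw [h2, H.coe_unif] at hπv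
    rcases mul_eq_zero.mp hπv.symm with h4 | h4
    · exact H.xi_ne (sub_eq_zero.mp (pow_eq_zero_iff hq1 |>.mp h4)).symm
    · exact hv.ne_zero (Subtype.ext h4)
  constructor
  · intro h0
    obtain ⟨z, hz, hxz⟩ := (H.red3_eq_zero_iff x).mp h0
    refine ⟨u⁻¹ * z ^ (q - 1), H.W3.mul_mem _ _ hu' (H.W3.pow_mem hz _), ?_⟩
    rw [hxz, hπu, mul_pow]
    field_simp
  · rintro ⟨z, hz, hxz⟩
    have h1 : x ^ (q - 1) = ⟨algebraMap (OK A K) (FK (M * q * q) K) π, H.algebraMap_mem π⟩ *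
        ⟨z, hz⟩ := Subtype.ext hxz
    have h2 := congrArg H.red3 h1
    have hπnu : ¬ IsUnit π := by
      intro hπu'
      -- then `π` would be a unit of `W3`, but `π = s ^ (q - 1) * u` with `q - 1 ≥ 1`
      obtain ⟨π', hπ'⟩ := hπu'.exists_right_inv
      have h3 : (algebraMap (OK A K) (FK (M * q * q) K) π)⁻¹ ∈ H.W3 := by
        have h4 : algebraMap (OK A K) (FK (M * q * q) K) π *
            algebraMap (OK A K) (FK (M * q * q) K) π' = 1 := by
          rw [← map_mul, hπ', map_one]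
        rw [inv_eq_of_mul_eq_one_right h4]
        exact H.algebraMap_mem π'
      apply H.s_inv_not_mem
      obtain ⟨k, hk⟩ := Nat.exists_eq_succ_of_ne_zero hq1
      have h5 : (Wit3.sE M q hq hqM K)⁻¹
          = Wit3.sE M q hq hqM K ^ k * u *
            (algebraMap (OK A K) (FK (M * q * q) K) π)⁻¹ := by
        rw [hπu, hk, pow_succ]
        field_simp [H.s_ne_zero, hu0]
      rw [h5]
      exact H.W3.mul_mem _ _ (H.W3.mul_mem _ _ (H.W3.pow_mem H.s_mem k) hu) h3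
    rw [map_pow, map_mul] at h2
    have h6 : H.red3 ⟨algebraMap (OK A K) (FK (M * q * q) K) π, H.algebraMap_mem π⟩ = 0 := by
      rw [H.red3_algebraMap, resO_eq_zero_of_not_isUnit K π hπnu, map_zero]
    rw [h6, zero_mul] at h2
    exact (pow_eq_zero_iff hq1).mp h2

/-! #### Charts and coordinates -/

/-- Anything integral over `O[t]`, `t ∈ W3`, lies in `W3`. -/
theorem chart_le (t : FK (M * q * q) K) (ht : t ∈ H.W3) :
    ∀ x ∈ chart (M * q * q) A K t, x ∈ H.W3 := fun _ hx =>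
  GaussE.mem_V_of_isIntegral_adjoin H.emb H.dvr' t ht ((mem_chart_iff (M * q * q) A K).mp hx)

/-- An element whose `ι`-expansion is `A`-integral lies in `W3`, with the coefficientwise
reduction. -/
theorem mem_of_int {x : FK (M * q * q) K} {X : LaurentSeries A}
    (hx : ι x = coeffMap A.subtype X) :
    ∃ hm : x ∈ H.W3, H.red3 ⟨x, hm⟩ = coeffMap (IsLocalRing.residue A) X :=
  ⟨GaussE.mem_V_of_int H.emb H.dvr' hx, GaussE.red_of_int H.emb H.dvr' hx⟩

/-- An element whose `ι`-expansion is `A`-integral with nonzero reduction is a unit of `W3`. -/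
theorem unit_of_int {x : FK (M * q * q) K} {X : LaurentSeries A}
    (hx : ι x = coeffMap A.subtype X) (hX : coeffMap (IsLocalRing.residue A) X ≠ 0) :
    x ∈ H.W3 ∧ x⁻¹ ∈ H.W3 := by
  obtain ⟨hm, hr⟩ := H.mem_of_int hx
  exact ⟨hm, H.inv_mem ⟨x, hm⟩ (by rw [hr]; exact hX)⟩

theorem iota_jK : ι (jK (M * q * q) K) = coeffMap A.subtype (jd A 1) := by
  rw [H.mid.apply_jK, coeffMap_jd]

theorem iota_jqK2 : ι (WQ2.jqK2 M q hq hqM K) = coeffMap A.subtype (jd A q) := by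
  rw [H.mid.apply_jqK2, coeffMap_jd]

theorem iota_jqqK2 : ι (WQ2.jqqK2 M q hq hqM K)
    = coeffMap A.subtype (S37.KC.twist (S37.KC.rootUnit A (NeZero.ne q) H.xi_pow) (jd A 1)) := by
  rw [H.mid.apply_jqqK2, S37.KC.coeffMap_subtype_twist, coeffMap_jd]
  rfl

omit H in
theorem jd_residue_ne_zero (d : ℕ) [NeZero d] : jd (IsLocalRing.ResidueField A) d ≠ 0 := by
  rw [jd_eq]
  intro h
  have h1 : jqModC (IsLocalRing.ResidueField A) = 0 := qExpand_injective d (by rw [h, map_zero])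
  have h2 := coeff_jqModC_neg_one (IsLocalRing.ResidueField A)
  rw [h1, HahnSeries.coeff_zero] at h2
  exact zero_ne_one h2

/-- `j` is a unit of `W3`, with reduction `j̄`. -/
theorem jK_unit : jK (M * q * q) K ∈ H.W3 ∧ (jK (M * q * q) K)⁻¹ ∈ H.W3 :=
  H.unit_of_int H.iota_jK (by rw [coeffMap_jd]; exact jd_residue_ne_zero 1)

theorem red3_jK : H.red3 ⟨jK (M * q * q) K, H.jK_unit.1⟩ = jd (IsLocalRing.ResidueField A) 1 := by
  obtain ⟨_, hr⟩ := H.mem_of_int H.iota_jK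
  rw [hr, coeffMap_jd]

/-- `j_q` is a unit of `W3`, with reduction `j̄(Q^q)`. -/
theorem jqK2_unit : WQ2.jqK2 M q hq hqM K ∈ H.W3 ∧ (WQ2.jqK2 M q hq hqM K)⁻¹ ∈ H.W3 :=
  H.unit_of_int H.iota_jqK2 (by rw [coeffMap_jd]; exact jd_residue_ne_zero q)

theorem red3_jqK2 :
    H.red3 ⟨WQ2.jqK2 M q hq hqM K, H.jqK2_unit.1⟩ = jd (IsLocalRing.ResidueField A) q := by
  obtain ⟨_, hr⟩ := H.mem_of_int H.iota_jqK2
  rw [hr, coeffMap_jd]

/-- `j_{q²}` is a unit of `W3`. -/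
theorem jqqK2_unit : WQ2.jqqK2 M q hq hqM K ∈ H.W3 ∧ (WQ2.jqqK2 M q hq hqM K)⁻¹ ∈ H.W3 := by
  refine H.unit_of_int H.iota_jqqK2 ?_
  rw [S37.KC.coeffMap_twist, coeffMap_jd]
  intro h
  exact jd_residue_ne_zero (A := A) 1 (S37.KC.twist_injective _ (by rw [h, map_zero]))

include hq in
/-- … with reduction `j̄` (the SAME as `j`: `ξ ≡ 1`), when `A` lies over `q`. -/
theorem red3_jqqK2 (hA : A.LiesOverPrime q) :
    H.red3 ⟨WQ2.jqqK2 M q hq hqM K, H.jqqK2_unit.1⟩ = jd (IsLocalRing.ResidueField A) 1 := by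
  have : Fact q.Prime := ⟨hq⟩
  obtain ⟨_, hr⟩ := H.mem_of_int H.iota_jqqK2
  rw [hr, S37.KC.coeffMap_twist_of_map_eq_one _ (S37.KC.residue_rootUnit q A hA H.xi_pow),
    coeffMap_jd]

/-! #### Compatibility with the level-`M q` Gauss rings along `α` and `β` -/

theorem gRel_alpha {x : FK (M * q) K} {y : LaurentSeries (IsLocalRing.ResidueField A)}
    (h : GRel A (x : LaurentSeries Qb) y) : GRel A (ι (WQ2.alphaK2 M q K x)) y := by
  rw [H.mid.alpha]
  exact h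

/-- `α x ∈ W3 ↔ x` is Gauss-integral: `W3 ∩ α(F_K(M q)) = α(V1)`. -/
theorem alpha_mem_iff (x : FK (M * q) K) :
    WQ2.alphaK2 M q K x ∈ H.W3 ↔ ∃ y, GRel A (x : LaurentSeries Qb) y := by
  rw [H.mem_W3_iff, H.mid.alpha]

theorem alpha_mem (hdvr : IsDiscreteValuationRing (OK A K)) {x : FK (M * q) K}
    (hx : x ∈ S34.GaussV.V1 (M * q) A K hdvr) : WQ2.alphaK2 M q K x ∈ H.W3 :=
  (H.alpha_mem_iff x).mpr hx

/-- `red3 ∘ α = red1` (level `M q`). -/
theorem red3_alpha (hdvr : IsDiscreteValuationRing (OK A K))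
    (x : S34.GaussV.V1 (M * q) A K hdvr) :
    H.red3 ⟨WQ2.alphaK2 M q K x, H.alpha_mem hdvr x.2⟩ = S34.GaussV.red1 hdvr x :=
  H.red3_eq_of_gRel _ (H.gRel_alpha (S34.GaussV.gRel_red1 hdvr x))

include hq in
/-- On `β(F_K(M q))` the Gauss relation along `ι` is the Gauss relation of `w_q x`
(`ξ ≡ 1` modulo the maximal ideal of `A`). -/
theorem gRel_beta (hA : A.LiesOverPrime q) {x : FK (M * q) K}
    {y : LaurentSeries (IsLocalRing.ResidueField A)}
    (h : GRel A ((S34.WK.wK M q hq hqM K x : FK (M * q) K) : LaurentSeries Qb) y) :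
    GRel A (ι (WQ2.betaK2 M q hq hqM K x)) y := by
  have : Fact q.Prime := ⟨hq⟩
  rw [H.mid.beta]
  exact S34.ConjMod.gRel_rot q hA H.xi_pow hξ0 h

include hq in
theorem beta_mem (hA : A.LiesOverPrime q) (hdvr : IsDiscreteValuationRing (OK A K))
    {x : FK (M * q) K} (hx : S34.WK.wK M q hq hqM K x ∈ S34.GaussV.V1 (M * q) A K hdvr) :
    WQ2.betaK2 M q hq hqM K x ∈ H.W3 := by
  obtain ⟨y, hy⟩ := hx
  exact ⟨y, H.gRel_beta hA hy⟩

include hq in
/-- `red3 (β x) = red1 (w_q x)` (level `M q`). -/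
theorem red3_beta (hA : A.LiesOverPrime q) (hdvr : IsDiscreteValuationRing (OK A K))
    {x : FK (M * q) K} (hx : S34.WK.wK M q hq hqM K x ∈ S34.GaussV.V1 (M * q) A K hdvr) :
    H.red3 ⟨WQ2.betaK2 M q hq hqM K x, H.beta_mem hA hdvr hx⟩
      = S34.GaussV.red1 hdvr ⟨S34.WK.wK M q hq hqM K x, hx⟩ :=
  H.red3_eq_of_gRel _ (H.gRel_beta hA (S34.GaussV.gRel_red1 hdvr ⟨_, hx⟩))

end Hyp3

end W3

/-! ### The concrete instance: `Iota3.iota3` over `K(ξ)` -/

section Inst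

variable (M q : ℕ) [NeZero M] [NeZero q] (hq : q.Prime) (hqM : ¬ q ∣ M)
variable (K : IntermediateField ℚ Qb)

theorem alphaK2_eq_incl (x : FK (M * q) K) :
    WQ2.alphaK2 M q K x = S34.DegTower.incl (M * q) ((M * q) * q) K (Dvd.intro q rfl) x :=
  Subtype.ext (by rw [WQ2.coe_alphaK2, S34.DegTower.coe_incl])

theorem betaK2_eq_betaQ (x : FK (M * q) K) :
    WQ2.betaK2 M q hq hqM K x = Iota3.betaQ (M * q) K q x :=
  Subtype.ext (by rw [WQ2.coe_betaK2, Iota3.coe_betaQ])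

/-- The algebraic middle-cusp embedding `Iota3.iota3` satisfies `MidEmb`. -/
theorem midEmb_iota3 (ξ : Qb) (hξ : ξ ^ q = 1) (hξ1 : ξ ≠ 1) :
    MidEmb M q hq hqM K ξ (Iota3.xi_ne_zero q hξ) (Iota3.iota3 M q K hq hqM ξ hξ hξ1) where
  alpha x := by rw [alphaK2_eq_incl, Iota3.iota3_incl]
  beta x := by
    rw [betaK2_eq_betaQ, Iota3.iota3_betaQ M q K (S34.WK.wBar M q hq hqM).toAlgHom
      (S34.WK.wBar_alpha M q hq hqM) (S34.WK.wBar_beta M q hq hqM) hq hqM ξ hξ hξ1 x]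
    rfl

variable {M q K}

/-- **`Hyp3` for `Iota3.iota3`** over `K' = BaseXi.Kxi K ξ`, `ϖ = BaseXi.varpi` (`= 1 - ξ`),
`O = A ∩ K` a discrete valuation ring with uniformiser `π = q`. -/
theorem hyp3_iota3 (A : ValuationSubring Qb) (hdvr : IsDiscreteValuationRing (OK A K))
    (π : OK A K) (hπ : Irreducible π) (hπq : incO A K π = (q : Qb)) {ξ : Qb}
    (hξ : IsPrimitiveRoot ξ q) :
    Hyp3 M q hq hqM A K (BaseXi.Kxi K ξ) ξ (Iota3.xi_ne_zero q hξ.pow_eq_one)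
      (Iota3.iota3 M q K hq hqM ξ hξ.pow_eq_one (hξ.ne_one hq.one_lt))
      (BaseXi.varpi A K hq hξ) where
  mid := midEmb_iota3 M q hq hqM K ξ _ _
  le := BaseXi.le_Kxi K ξ
  xi_mem := BaseXi.xi_mem K ξ
  xi_pow := hξ.pow_eq_one
  xi_ne := hξ.ne_one hq.one_lt
  dvr' := BaseXi.isDVR hq π hπ hπq hdvr hξ
  irr := BaseXi.irreducible_varpi hq π hπ hπq hdvr hξ
  coe_unif := BaseXi.incO_varpi A K hq hξ

/-- The same with the B-copy `BaseXiB`. -/
theorem hyp3_iota3B (A : ValuationSubring Qb) (hdvr : IsDiscreteValuationRing (OK A K))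
    (π : OK A K) (hπ : Irreducible π) (hπq : incO A K π = (q : Qb)) {ξ : Qb}
    (hξ : IsPrimitiveRoot ξ q) :
    Hyp3 M q hq hqM A K (BaseXiB.Kxi K ξ) ξ (Iota3.xi_ne_zero q hξ.pow_eq_one)
      (Iota3.iota3 M q K hq hqM ξ hξ.pow_eq_one (hξ.ne_one hq.one_lt))
      (BaseXiB.varpi A K hq hξ) where
  mid := midEmb_iota3 M q hq hqM K ξ _ _
  le := BaseXiB.le_Kxi K ξ
  xi_mem := BaseXiB.xi_mem_Kxi K ξ
  xi_pow := hξ.pow_eq_one
  xi_ne := hξ.ne_one hq.one_lt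
  dvr' := BaseXiB.isDVR hq hπ hπq hdvr hξ
  irr := BaseXiB.irreducible_varpi hq hπ hπq hdvr hξ
  coe_unif := BaseXiB.incO_varpi A K hq hξ

/-- `ram` for the concrete instance: `π = s ^ (q - 1) · unit` in `W3`. -/
theorem ram_iota3 (A : ValuationSubring Qb) (hdvr : IsDiscreteValuationRing (OK A K))
    (π : OK A K) (hπ : Irreducible π) (hπq : incO A K π = (q : Qb)) {ξ : Qb}
    (hξ : IsPrimitiveRoot ξ q) :
    ∃ u ∈ (hyp3_iota3 hq hqM A hdvr π hπ hπq hξ).W3,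
      u⁻¹ ∈ (hyp3_iota3 hq hqM A hdvr π hπ hπq hξ).W3 ∧
      algebraMap (OK A K) (FK (M * q * q) K) π = Wit3.sE M q hq hqM K ^ (q - 1) * u :=
  (hyp3_iota3 hq hqM A hdvr π hπ hπq hξ).ram π (BaseXi.exists_unit hq π hπ hπq hξ)

end Inst

end Fermat.Agent.S36.V3
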