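/-
S36 — Val3.lean (helper108; package [MODEL3], dealt by helper128).

The field `Model3.val` of `Model3Plan.Model3` at level `N = M * q * q`:
`Model3Plan.ValHyp3 π (ram q) ![π, π, s] ![V1, V2, W3]`, where `π` is (the image of) a uniformizer
of the base, `V1 = S34.GaussV.V1`, `V2 = S34.GaussV.V2 w_{q²}` and `W3` is ANY valuation subring
of `F_K` for which `s = jqq - j` is a uniformizer with `π = s ^ (q - 1) · unit` and which
contains `x1 / π`, `x2 / π` (hypothesis form: the `W3` facts are the outputs of the `W3` leaves).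

* `valHyp3_core` : the abstract statement (any field, any three valuation subrings);
* `valHyp3`      : the instance at level `M * q * q`.
-/
import Mathlib
import Fermat.Agent.S36.Model3Plan
import Fermat.Agent.S36.Wit3

set_option autoImplicit false

noncomputable section

namespace Fermat.Agent.S36.Val3

open ModularCurve HahnSeries Fermat.Agent.S18 Fermat.Agent.S18.Arith Fermat.Agent.S18.ModelPlan
open Fermat.Agent.S34 Fermat.Agent.S36

/-! ### Abstract part -/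

section Abstract

variable {E : Type*} [Field E]

/-- From the normal form `x * t ^ (-γ) ∈ Vˣ` to the `disc` shape `x = t ^ k * unit`. -/
theorem disc_of_nf (V : ValuationSubring E) {t : E} (ht : t ≠ 0)
    (h : ∀ x : E, x ≠ 0 → ∃ γ : ℤ, x * t ^ (-γ) ∈ V ∧ (x * t ^ (-γ))⁻¹ ∈ V) (x : E) (hx : x ≠ 0) :
    ∃ k : ℤ, ∃ u ∈ V, u⁻¹ ∈ V ∧ x = t ^ k * u := by
  obtain ⟨γ, h1, h2⟩ := h x hx
  refine ⟨γ, x * t ^ (-γ), h1, h2, ?_⟩
  rw [zpow_neg]
  field_simp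

/-- If `x = p * z` with `z ∈ V` then `x * p⁻¹ ∈ V`. -/
theorem mul_inv_mem_of_pi (V : ValuationSubring E) {p x : E} (hp : p ≠ 0)
    (h : ∃ z ∈ V, x = p * z) : x * p⁻¹ ∈ V := by
  obtain ⟨z, hz, rfl⟩ := h
  have : p * z * p⁻¹ = z := by field_simp
  rw [this]
  exact hz

/-- If `x` is a (nonzero) unit of `V` and `p⁻¹ ∉ V` then `x * p⁻¹ ∉ V`. -/
theorem mul_inv_notMem_of_unit (V : ValuationSubring E) {p x : E} (hp' : p⁻¹ ∉ V) (hx0 : x ≠ 0)
    (hx' : x⁻¹ ∈ V) : x * p⁻¹ ∉ V := by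
  intro h
  apply hp'
  have : p⁻¹ = x⁻¹ * (x * p⁻¹) := by field_simp
  rw [this]
  exact mul_mem hx' h

/-- A nonzero nonunit is not invertible in `V`. -/
theorem inv_notMem_of_mem_nonunits (V : ValuationSubring E) {s : E} (hs : s ∈ V.nonunits)
    (hs0 : s ≠ 0) : s⁻¹ ∉ V := by
  rcases V.mem_nonunits_iff_or.mp hs with h | h
  · exact absurd h hs0
  · exact h

theorem mem_of_mem_nonunits (V : ValuationSubring E) {s : E} (hs : s ∈ V.nonunits) : s ∈ V := by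
  rw [← V.valuation_le_one_iff]
  exact (V.mem_nonunits_iff.mp hs).le

/-- **Abstract `ValHyp3`**: two valuation rings with uniformizer `p` and a third one with
uniformizer `s`, `p = s ^ e2 · unit`, pairwise separated. -/
theorem valHyp3_core (p : E) (hp : p ≠ 0) (e2 : ℕ) (he2 : 0 < e2) (s : E)
    (V0 V1 V2 : ValuationSubring E)
    (h0 : p ∈ V0) (h0' : p⁻¹ ∉ V0)
    (d0 : ∀ x : E, x ≠ 0 → ∃ γ : ℤ, x * p ^ (-γ) ∈ V0 ∧ (x * p ^ (-γ))⁻¹ ∈ V0)
    (h1 : p ∈ V1) (h1' : p⁻¹ ∉ V1)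
    (d1 : ∀ x : E, x ≠ 0 → ∃ γ : ℤ, x * p ^ (-γ) ∈ V1 ∧ (x * p ^ (-γ))⁻¹ ∈ V1)
    (hs : s ∈ V2.nonunits)
    (d2 : ∀ x : E, x ≠ 0 → ∃ γ : ℤ, x * s ^ (-γ) ∈ V2 ∧ (x * s ^ (-γ))⁻¹ ∈ V2)
    (r2 : ∃ z ∈ V2, z⁻¹ ∈ V2 ∧ p = s ^ e2 * z)
    (sep : ∀ i j : Fin 3, i ≠ j → ∃ x ∈ (![V0, V1, V2] : Fin 3 → ValuationSubring E) i,
      x ∉ (![V0, V1, V2] : Fin 3 → ValuationSubring E) j) :
    Model3Plan.ValHyp3 p ![1, 1, e2] ![p, p, s] ![V0, V1, V2] := by
  have hs0 : s ≠ 0 := by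
    rintro rfl
    obtain ⟨z, -, -, hz⟩ := r2
    rw [zero_pow he2.ne', zero_mul] at hz
    exact hp hz
  refine ⟨?_, ?_, ?_, ?_, ?_, sep⟩
  · intro i
    fin_cases i
    · exact h0
    · exact h1
    · exact mem_of_mem_nonunits V2 hs
  · intro i
    fin_cases i
    · exact h0'
    · exact h1'
    · exact inv_notMem_of_mem_nonunits V2 hs hs0
  · intro i
    fin_cases i
    · exact disc_of_nf V0 hp d0
    · exact disc_of_nf V1 hp d1
    · exact disc_of_nf V2 hs0 d2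
  · intro i
    fin_cases i
    · exact ⟨1, V0.one_mem, by rw [inv_one]; exact V0.one_mem, by simp⟩
    · exact ⟨1, V1.one_mem, by rw [inv_one]; exact V1.one_mem, by simp⟩
    · exact r2
  · intro i
    fin_cases i
    · exact Nat.one_pos
    · exact Nat.one_pos
    · exact he2

end Abstract

/-! ### The instance at level `M * q * q` -/

section Level

variable (M q : ℕ) [NeZero M] [NeZero q] (hq : q.Prime) (hqM : ¬ q ∣ M)
variable (A : ValuationSubring Qb) (K : IntermediateField ℚ Qb)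
variable (hdvr : IsDiscreteValuationRing (OK A K))

/-- `x1 ≠ 0` (its Gauss reduction is nonzero). -/
theorem x1_ne_zero (hA : A.LiesOverPrime q) : Wit3.x1 M q hq hqM K ≠ 0 := by
  have : Fact q.Prime := ⟨hq⟩
  intro h0
  have h1 : GRel A ((Wit3.x1 M q hq hqM K : FK (M * q * q) K) : LaurentSeries Qb)
      (Wit3.redX1 A q) := by
    rw [Wit3.coe_x1]; exact Wit3.gRel_x1 A q
  rw [h0] at h1
  have h2 : GRel A (((0 : FK (M * q * q) K) : FK (M * q * q) K) : LaurentSeries Qb) 0 := by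
    have h := (V12Rel.gFacts A).of_int 0
    simpa using h
  exact Wit3.redX1_ne_zero A q hA ((V12Rel.gFacts A).unique _ _ _ h1 h2)

/-- `x2 ≠ 0` (`w_{q²} x2 = x1`). -/
theorem x2_ne_zero (hA : A.LiesOverPrime q) : Wit3.x2 M q hq hqM K ≠ 0 := by
  intro h0
  apply x1_ne_zero M q hq hqM A K hA
  rw [← Wit3.wK2_x2, h0, map_zero]

/-- **[Val3]** the field `Model3.val` at level `M * q * q`, for `ϖ = ![π, π, s]`,
`V = ![V1, V2, W3]`; the facts about `W3` are hypotheses (outputs of the `W3` leaves: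
`s = jqq - j` is a uniformizer of `W3`, `π = s ^ (q - 1) · unit`, `x1, x2 ∈ π W3`). -/
theorem valHyp3 (hA : A.LiesOverPrime q) {π : OK A K} (hπ : Irreducible π)
    (W3 : ValuationSubring (FK (M * q * q) K))
    (s_nonunit3 : Wit3.sE M q hq hqM K ∈ W3.nonunits)
    (disc3 : ∀ x : FK (M * q * q) K, x ≠ 0 →
      ∃ γ : ℤ, x * Wit3.sE M q hq hqM K ^ (-γ) ∈ W3 ∧ (x * Wit3.sE M q hq hqM K ^ (-γ))⁻¹ ∈ W3)
    (ram3 : ∃ z ∈ W3, z⁻¹ ∈ W3 ∧
      algebraMap (OK A K) (FK (M * q * q) K) π = Wit3.sE M q hq hqM K ^ (q - 1) * z)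
    (x1_pi3 : ∃ z ∈ W3, Wit3.x1 M q hq hqM K = algebraMap (OK A K) (FK (M * q * q) K) π * z)
    (x2_pi3 : ∃ z ∈ W3, Wit3.x2 M q hq hqM K = algebraMap (OK A K) (FK (M * q * q) K) π * z) :
    Model3Plan.ValHyp3 (algebraMap (OK A K) (FK (M * q * q) K) π) (Model3Plan.ram q)
      ![algebraMap (OK A K) (FK (M * q * q) K) π, algebraMap (OK A K) (FK (M * q * q) K) π,
        Wit3.sE M q hq hqM K]
      ![GaussV.V1 (M * q * q) A K hdvr, GaussV.V2 (WQ2.wK2 M q hq hqM K) hdvr, W3] := by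
  set p : FK (M * q * q) K := algebraMap (OK A K) (FK (M * q * q) K) π with hp
  have hp0 : p ≠ 0 := GaussV.algebraMap_ne_zero (M * q * q) A K hπ.ne_zero
  have hw := WQ2.wK2_algebraMap_OK M q hq hqM K A
  have he2 : 0 < q - 1 := by have := hq.one_lt; omega
  have hs0 : Wit3.sE M q hq hqM K ≠ 0 := by
    intro h0
    obtain ⟨z, -, -, hz⟩ := ram3
    rw [h0, zero_pow he2.ne', zero_mul] at hz
    exact hp0 hz
  have h1' : p⁻¹ ∉ GaussV.V1 (M * q * q) A K hdvr := fun h =>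
    GaussV.one_notV1 hdvr hπ.not_isUnit _ h (mul_inv_cancel₀ hp0).symm
  have h2' : p⁻¹ ∉ GaussV.V2 (WQ2.wK2 M q hq hqM K) hdvr := fun h =>
    GaussV.one_notV2 _ hw hdvr hπ.not_isUnit _ h (mul_inv_cancel₀ hp0).symm
  have hs3' : (Wit3.sE M q hq hqM K)⁻¹ ∉ W3 := inv_notMem_of_mem_nonunits W3 s_nonunit3 hs0
  have hx1 := x1_ne_zero M q hq hqM A K hA
  have hx2 := x2_ne_zero M q hq hqM A K hA
  refine valHyp3_core p hp0 (q - 1) he2 _ _ _ _
    (GaussV.algebraMap_mem_V1 hdvr π) h1' (GaussV.exists_zpow_mul_unit hdvr hπ)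
    (GaussV.algebraMap_mem_V2 _ hw hdvr π) h2' (GaussV.exists_zpow_mul_unit₂ _ hw hdvr hπ)
    s_nonunit3 disc3 ram3 ?_
  intro i j hij
  fin_cases i <;> fin_cases j
  · exact absurd rfl hij
  · exact ⟨Wit3.x2 M q hq hqM K * p⁻¹,
      mul_inv_mem_of_pi _ hp0 (Wit3.x2_pi1 M q hq hqM A K hdvr hA hπ),
      mul_inv_notMem_of_unit _ h2' hx2 (Wit3.x2_unit2 M q hq hqM A K hdvr hA).2⟩
  · exact ⟨(Wit3.sE M q hq hqM K)⁻¹, (Wit3.s_unit1 M q hq hqM A K hdvr).2, hs3'⟩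
  · exact ⟨Wit3.x1 M q hq hqM K * p⁻¹,
      mul_inv_mem_of_pi _ hp0 (Wit3.x1_pi2 M q hq hqM A K hdvr hA hπ),
      mul_inv_notMem_of_unit _ h1' hx1 (Wit3.x1_unit1 M q hq hqM A K hdvr hA).2⟩
  · exact absurd rfl hij
  · exact ⟨(Wit3.sE M q hq hqM K)⁻¹, (Wit3.s_unit2 M q hq hqM A K hdvr).2, hs3'⟩
  · exact ⟨Wit3.x1 M q hq hqM K * p⁻¹, mul_inv_mem_of_pi _ hp0 x1_pi3,
      mul_inv_notMem_of_unit _ h1' hx1 (Wit3.x1_unit1 M q hq hqM A K hdvr hA).2⟩
  · exact ⟨Wit3.x2 M q hq hqM K * p⁻¹, mul_inv_mem_of_pi _ hp0 x2_pi3,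
      mul_inv_notMem_of_unit _ h2' hx2 (Wit3.x2_unit2 M q hq hqM A K hdvr hA).2⟩
  · exact absurd rfl hij

end Level

end Fermat.Agent.S36.Val3
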