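/-
S36 — Wit3Xi.lean (helper108, dealt by helper128 as the series-level W3-half of [M3.4] Wit3).

Setting: `A` a valuation subring of `ℚ̄` over the prime `q`, `ξ` a primitive `q`-th root of unity,
`J = j(Q)`, `Jξ = j(ξ Q)` (the rotation of `J`), `Jq = j(Q^q)`.

* (X1) `xi_mem`, `residue_xi` : `ξ ∈ A` and `ξ ≡ 1` modulo the maximal ideal;
* (X2) `gRel_rot`, `gRel_jxi` : rotation by `ξ` keeps Gauss relations with the SAME reduction;
* `exists_cyc`               : `(ξ - 1) ^ (q - 1) = q * u₀` with `u₀ ∈ A`;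
* (X4) `exists_rot_sub`, `exists_jxi_sub` : `Jξ - J = (ξ - 1) g`, `g` integral, nonzero reduction;
* (X3) `exists_jxi_pow_sub`  : `Jξ ^ q - J ^ q = q (ξ - 1) z`, `z` integral;
* (X5) `gRel_x3_left`, `gRel_x3_right`, `jbar_sub_pow_ne_zero`;
* (X6) `exists_x1`           : `Jq - Jξ ^ q ∈ c · Int` as soon as `Jq - J ^ q ∈ c · Int`, `c ∣ q`.
-/
import Mathlib
import Fermat.Agent.S34.V12Rel
import Fermat.Agent.S24.Rot

set_option autoImplicit false

noncomputable section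

namespace Fermat.Agent.S36.Wit3Xi

open ModularCurve HahnSeries Fermat.Agent.S18 Fermat.Agent.S18.Arith Fermat.Agent.S18.ModelPlan
open Fermat.Agent

/-! ### Roots of unity in a valuation subring -/

section Roots

variable {L : Type*} [Field L] (A : ValuationSubring L)

/-- A root of unity lies in every valuation subring. -/
theorem mem_of_pow_eq_one {x : L} {n : ℕ} (hn : n ≠ 0) (h : x ^ n = 1) : x ∈ A := by
  rw [← A.valuation_le_one_iff]
  by_contra hlt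
  rw [not_le] at hlt
  have h1 := one_lt_pow' hlt hn
  rw [← map_pow, h, map_one] at h1
  exact lt_irrefl _ h1

variable {A} {q : ℕ} [Fact q.Prime] {ξ : L}

theorem xi_mem (hξ : IsPrimitiveRoot ξ q) : ξ ∈ A :=
  mem_of_pow_eq_one A (Fact.out : q.Prime).ne_zero hξ.pow_eq_one

theorem xi_inv_mem (hξ : IsPrimitiveRoot ξ q) : ξ⁻¹ ∈ A :=
  mem_of_pow_eq_one A (Fact.out : q.Prime).ne_zero (by rw [inv_pow, hξ.pow_eq_one, inv_one])

theorem xi_ne_zero (hξ : IsPrimitiveRoot ξ q) : ξ ≠ 0 :=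
  hξ.ne_zero (Fact.out : q.Prime).ne_zero

theorem xi_ne_one (hξ : IsPrimitiveRoot ξ q) : ξ ≠ 1 :=
  hξ.ne_one (Fact.out : q.Prime).one_lt

/-- **(X1)** `ξ ≡ 1` modulo the maximal ideal of `A` (residue characteristic `q`). -/
theorem residue_xi (hA : A.LiesOverPrime q) (hξ : IsPrimitiveRoot ξ q) :
    IsLocalRing.residue A ⟨ξ, xi_mem hξ⟩ = 1 := by
  have := BaseRes.charP_residueField q A hA
  have h1 : (IsLocalRing.residue A ⟨ξ, xi_mem hξ⟩) ^ q = 1 := by
    rw [← map_pow]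
    have : (⟨ξ, xi_mem hξ⟩ : A) ^ q = 1 := Subtype.ext (by simpa using hξ.pow_eq_one)
    rw [this, map_one]
  have h2 : (IsLocalRing.residue A ⟨ξ, xi_mem hξ⟩ - 1) ^ q = 0 := by
    rw [sub_pow_char, h1, one_pow, sub_self]
  exact sub_eq_zero.mp (pow_eq_zero_iff (Fact.out : q.Prime).ne_zero |>.mp h2)

/-- `ξ` as a unit of `A`. -/
def xiU (hξ : IsPrimitiveRoot ξ q) : Aˣ where
  val := ⟨ξ, xi_mem hξ⟩
  inv := ⟨ξ⁻¹, xi_inv_mem hξ⟩
  val_inv := Subtype.ext (mul_inv_cancel₀ (xi_ne_zero hξ))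
  inv_val := Subtype.ext (inv_mul_cancel₀ (xi_ne_zero hξ))

theorem coe_xiU_zpow (hξ : IsPrimitiveRoot ξ q) (n : ℤ) :
    (((xiU (A := A) hξ ^ n : Aˣ) : A) : L) = ξ ^ n := by
  have h := congrArg Units.val (map_zpow (Units.map (A.subtype : A →* L)) (xiU (A := A) hξ) n)
  rw [Units.val_zpow_eq_zpow_val] at h
  exact h

theorem residue_xiU_zpow (hA : A.LiesOverPrime q) (hξ : IsPrimitiveRoot ξ q) (n : ℤ) :
    IsLocalRing.residue A ((xiU (A := A) hξ ^ n : Aˣ) : A) = 1 := by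
  have h1 : Units.map (IsLocalRing.residue A : A →* IsLocalRing.ResidueField A) (xiU hξ) = 1 :=
    Units.ext (residue_xi hA hξ)
  have h := congrArg Units.val
    (map_zpow (Units.map (IsLocalRing.residue A : A →* IsLocalRing.ResidueField A))
      (xiU (A := A) hξ) n)
  rw [h1, one_zpow] at h
  exact h

/-- `ξ ^ n - 1` is divisible by `ξ - 1` in `A`, for every `n : ℤ`. -/
theorem exists_gam (hξ : IsPrimitiveRoot ξ q) (n : ℤ) :
    ∃ a : A, ξ ^ n - 1 = (ξ - 1) * (a : L) := by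
  have hnat : ∀ m : ℕ, ∃ a : A, ξ ^ m - 1 = (ξ - 1) * (a : L) := fun m =>
    ⟨∑ i ∈ Finset.range m, (⟨ξ, xi_mem hξ⟩ : A) ^ i, by
      rw [← mul_geom_sum]; simp⟩
  rcases Int.le_total 0 n with hn | hn
  · obtain ⟨m, rfl⟩ := Int.eq_ofNat_of_zero_le hn
    obtain ⟨a, ha⟩ := hnat m
    exact ⟨a, by rw [zpow_natCast, ha]⟩
  · obtain ⟨m, hm⟩ := Int.eq_ofNat_of_zero_le (neg_nonneg.mpr hn)
    obtain ⟨a, ha⟩ := hnat m
    have hn' : n = -(m : ℤ) := by omega
    refine ⟨-((⟨ξ⁻¹, xi_inv_mem hξ⟩ : A) ^ m * a), ?_⟩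
    have h0 := xi_ne_zero hξ
    have h1 : ξ ^ n = (ξ⁻¹) ^ m := by rw [hn', zpow_neg, zpow_natCast, inv_pow]
    have h2 : (ξ⁻¹) ^ m * ξ ^ m = 1 := by rw [← mul_pow, inv_mul_cancel₀ h0, one_pow]
    have h3 : ξ ^ n - 1 = -((ξ⁻¹) ^ m * (ξ ^ m - 1)) := by
      rw [h1, mul_sub, h2]; ring
    rw [h3, ha]
    push_cast
    ring

/-- The quotient `(ξ ^ n - 1) / (ξ - 1)` as an element of `A`. -/
def gam (hξ : IsPrimitiveRoot ξ q) (n : ℤ) : A := (exists_gam (A := A) hξ n).choose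

theorem gam_spec (hξ : IsPrimitiveRoot ξ q) (n : ℤ) :
    ξ ^ n - 1 = (ξ - 1) * ((gam (A := A) hξ n : A) : L) :=
  (exists_gam (A := A) hξ n).choose_spec

theorem residue_gam_neg_one (hA : A.LiesOverPrime q) (hξ : IsPrimitiveRoot ξ q) :
    IsLocalRing.residue A (gam (A := A) hξ (-1)) = -1 := by
  have h0 := xi_ne_zero hξ
  have h1 : ((gam (A := A) hξ (-1) : A) : L) = -ξ⁻¹ := by
    have h := gam_spec (A := A) hξ (-1)
    have hne : ξ - 1 ≠ 0 := sub_ne_zero.mpr (xi_ne_one hξ)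
    have h2 : (ξ - 1) * ((gam (A := A) hξ (-1) : A) : L) = (ξ - 1) * (-ξ⁻¹) := by
      rw [← h, zpow_neg_one]
      field_simp
      ring
    exact mul_left_cancel₀ hne h2
  have h2 : gam (A := A) hξ (-1) = -((xiU (A := A) hξ ^ (-1 : ℤ) : Aˣ) : A) :=
    Subtype.ext (by
      rw [h1]
      push_cast
      rw [coe_xiU_zpow, zpow_neg_one])
  rw [h2, map_neg, residue_xiU_zpow hA hξ]

/-- **Cyclotomic unit fact**: `(ξ - 1) ^ (q - 1) = q * u₀` with `u₀ ∈ A`. -/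
theorem exists_cyc (hξ : IsPrimitiveRoot ξ q) :
    ∃ u₀ : A, (ξ - 1) ^ (q - 1) = (q : L) * (u₀ : L) := by
  have hq : q.Prime := Fact.out
  obtain ⟨n, hn⟩ : ∃ n : ℕ, q = n + 1 := ⟨q - 1, by have := hq.pos; omega⟩
  have hξ' : IsPrimitiveRoot ξ (n + 1) := hn ▸ hξ
  have hprod := hξ'.prod_one_sub_pow_eq_order
  -- each factor `1 - ξ ^ (k + 1)` divides `1 - ξ` in `A`
  have hfac : ∀ k : ℕ, ∃ a : A, k < n → 1 - ξ = (1 - ξ ^ (k + 1)) * (a : L) := by
    intro k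
    by_cases hk : k < n
    · have hcop : Nat.Coprime (k + 1) q := by
        rw [Nat.coprime_comm]
        exact (Nat.Prime.coprime_iff_not_dvd hq).2
          (Nat.not_dvd_of_pos_of_lt (Nat.succ_pos k) (by omega))
      obtain ⟨m, -, hm⟩ := Nat.exists_mul_mod_eq_one_of_coprime hcop hq.one_lt
      refine ⟨∑ i ∈ Finset.range m, ((⟨ξ, xi_mem hξ⟩ : A) ^ (k + 1)) ^ i, fun _ => ?_⟩
      have h1 : (ξ ^ (k + 1)) ^ m = ξ := by
        rw [← pow_mul, pow_eq_pow_mod _ hξ.pow_eq_one, hm, pow_one]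
      have h2 := mul_neg_geom_sum (ξ ^ (k + 1)) m
      rw [h1] at h2
      rw [← h2]
      simp
    · exact ⟨0, fun h => absurd h hk⟩
  choose a ha using hfac
  refine ⟨(-1) ^ n * ∏ k ∈ Finset.range n, a k, ?_⟩
  have h1 : (1 - ξ) ^ n = ∏ k ∈ Finset.range n, ((1 - ξ ^ (k + 1)) * (a k : L)) := by
    have h2 : ∏ k ∈ Finset.range n, ((1 - ξ ^ (k + 1)) * (a k : L))
        = ∏ _k ∈ Finset.range n, (1 - ξ) :=
      Finset.prod_congr rfl fun k hk => (ha k (Finset.mem_range.mp hk)).symm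
    rw [h2, Finset.prod_const, Finset.card_range]
  rw [Finset.prod_mul_distrib, hprod] at h1
  have h3 : (ξ - 1) ^ (q - 1) = (-1) ^ n * (1 - ξ) ^ n := by
    have : q - 1 = n := by omega
    rw [this, ← mul_pow]
    congr 1
    ring
  rw [h3, h1, hn]
  push_cast
  ring

end Roots

/-! ### Coefficientwise multiplication of Laurent series -/

section MulCoeff

variable {R : Type*} [CommRing R]

/-- Multiply the `n`-th coefficient of a Laurent series by `c n`. -/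
def mulCoeff (c : ℤ → R) (f : LaurentSeries R) : LaurentSeries R where
  coeff n := c n * f.coeff n
  isPWO_support' := f.isPWO_support.mono fun n hn => by
    simp only [Function.mem_support, ne_eq] at hn
    exact fun h => hn (by rw [h, mul_zero])

@[simp]
theorem mulCoeff_coeff (c : ℤ → R) (f : LaurentSeries R) (n : ℤ) :
    (mulCoeff c f).coeff n = c n * f.coeff n :=
  rfl

theorem coeffMap_constC {S : Type*} [CommRing S] (f : R →+* S) (r : R) :
    coeffMap f (HahnSeries.C r : LaurentSeries R) = HahnSeries.C (f r) := by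
  rw [HahnSeries.C_apply, HahnSeries.C_apply, coeffMap_single]

end MulCoeff

/-! ### The series-level facts -/

section Series

variable (A : ValuationSubring Qb) (q : ℕ) [Fact q.Prime] {ξ : Qb}

/-- The rotation `Q ↦ ξ Q` on series with coefficients in `A`. -/
def rotA (hξ : IsPrimitiveRoot ξ q) (f : LaurentSeries A) : LaurentSeries A :=
  mulCoeff (fun n => ((xiU (A := A) hξ ^ n : Aˣ) : A)) f

theorem coeffMap_subtype_rotA (hξ : IsPrimitiveRoot ξ q) (hξ0 : ξ ≠ 0) (f : LaurentSeries A) :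
    coeffMap A.subtype (rotA A q hξ f) = S24.rotHom ξ hξ0 (coeffMap A.subtype f) := by
  ext n
  simp [rotA, coe_xiU_zpow]

theorem coeffMap_residue_rotA (hA : A.LiesOverPrime q) (hξ : IsPrimitiveRoot ξ q)
    (f : LaurentSeries A) :
    coeffMap (IsLocalRing.residue A) (rotA A q hξ f) = coeffMap (IsLocalRing.residue A) f := by
  ext n
  simp [rotA, residue_xiU_zpow hA hξ]

/-- **(X2)** rotation by `ξ` preserves Gauss relations, with the same reduction. -/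
theorem gRel_rot (hA : A.LiesOverPrime q) (hξ : IsPrimitiveRoot ξ q) (hξ0 : ξ ≠ 0)
    {x : LaurentSeries Qb} {y : LaurentSeries (IsLocalRing.ResidueField A)} (h : GRel A x y) :
    GRel A (S24.rotHom ξ hξ0 x) y := by
  obtain ⟨u, p, hu, hxu, hp⟩ := h
  refine ⟨rotA A q hξ u, rotA A q hξ p, ?_, ?_, ?_⟩
  · rw [coeffMap_residue_rotA A q hA hξ, hu]
  · rw [coeffMap_subtype_rotA A q hξ hξ0, coeffMap_subtype_rotA A q hξ hξ0, ← map_mul, hxu]
  · rw [coeffMap_residue_rotA A q hA hξ, hp]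

/-- **(X2)** `j(ξ Q)` is Gauss-integral with reduction `j`. -/
theorem gRel_jxi (hA : A.LiesOverPrime q) (hξ : IsPrimitiveRoot ξ q) (hξ0 : ξ ≠ 0) :
    GRel A (S24.rotHom ξ hξ0 (jqModC Qb)) (jqModC (IsLocalRing.ResidueField A)) :=
  gRel_rot A q hA hξ hξ0 (S34.V12Rel.gRel_j A)

/-- The difference quotient `(f(ξ Q) - f(Q)) / (ξ - 1)` of a series with coefficients in `A`. -/
def dq (hξ : IsPrimitiveRoot ξ q) (f : LaurentSeries A) : LaurentSeries A :=
  mulCoeff (fun n => gam (A := A) hξ n) f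

theorem dq_coeff (hξ : IsPrimitiveRoot ξ q) (f : LaurentSeries A) (n : ℤ) :
    (dq A q hξ f).coeff n = gam (A := A) hξ n * f.coeff n :=
  rfl

/-- **(X4)**, general form: `f(ξ Q) - f(Q) = (ξ - 1) · dq f`. -/
theorem rot_sub (hξ : IsPrimitiveRoot ξ q) (hξ0 : ξ ≠ 0) (f : LaurentSeries A) :
    S24.rotHom ξ hξ0 (coeffMap A.subtype f) - coeffMap A.subtype f =
      HahnSeries.C (ξ - 1) * coeffMap A.subtype (dq A q hξ f) := by
  ext n
  rw [HahnSeries.C_mul_eq_smul]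
  simp only [HahnSeries.coeff_sub, S24.rotHom_coeff, coeffMap_coeff, HahnSeries.coeff_smul,
    dq_coeff, smul_eq_mul, map_mul]
  have h := gam_spec (A := A) hξ n
  have h2 : A.subtype (gam (A := A) hξ n) = ((gam (A := A) hξ n : A) : Qb) := rfl
  rw [h2, ← mul_assoc, ← h]
  ring

/-- **(X4)** `j(ξ Q) - j(Q) = (ξ - 1) g` with `g` integral of nonzero reduction. -/
theorem exists_jxi_sub (hA : A.LiesOverPrime q) (hξ : IsPrimitiveRoot ξ q) (hξ0 : ξ ≠ 0) :
    ∃ g : LaurentSeries A,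
      S24.rotHom ξ hξ0 (jqModC Qb) - jqModC Qb = HahnSeries.C (ξ - 1) * coeffMap A.subtype g ∧
      coeffMap (IsLocalRing.residue A) g ≠ 0 := by
  refine ⟨dq A q hξ (jqModC A), ?_, ?_⟩
  · have h := rot_sub A q hξ hξ0 (jqModC A)
    rwa [coeffMap_jqModC] at h
  · intro h0
    have h1 := congrArg (fun x => x.coeff (-1)) h0
    simp only [coeffMap_coeff, dq_coeff, map_mul, HahnSeries.coeff_zero] at h1
    rw [residue_gam_neg_one hA hξ, coeff_jqModC_neg_one, map_one, mul_one] at h1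
    exact one_ne_zero (neg_eq_zero.mp h1)

/-- **(X3)** `j(ξ Q) ^ q - j(Q) ^ q ∈ q (ξ - 1) · A((Q))`. -/
theorem exists_jxi_pow_sub (hξ : IsPrimitiveRoot ξ q) (hξ0 : ξ ≠ 0) :
    ∃ z : LaurentSeries A,
      S24.rotHom ξ hξ0 (jqModC Qb) ^ q - jqModC Qb ^ q =
        HahnSeries.C ((q : Qb) * (ξ - 1)) * coeffMap A.subtype z := by
  have hq : q.Prime := Fact.out
  set x1 : A := ⟨ξ, xi_mem hξ⟩ - 1 with hx1
  have hx1c : A.subtype x1 = ξ - 1 := by simp [hx1]
  set g : LaurentSeries A := dq A q hξ (jqModC A) with hg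
  obtain ⟨r, hr⟩ := exists_add_pow_prime_eq hq (jqModC A) (HahnSeries.C x1 * g)
  obtain ⟨u₀, hu₀⟩ := exists_cyc (A := A) hξ
  refine ⟨HahnSeries.C u₀ * g ^ q + jqModC A * g * r, ?_⟩
  have hJ : S24.rotHom ξ hξ0 (jqModC Qb) =
      jqModC Qb + HahnSeries.C (ξ - 1) * coeffMap A.subtype g := by
    have h := rot_sub A q hξ hξ0 (jqModC A)
    rw [coeffMap_jqModC] at h
    rw [← h]
    ring
  have h2 := congrArg (coeffMap A.subtype) hr
  simp only [map_add, map_mul, map_pow, coeffMap_jqModC, coeffMap_constC, hx1c,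
    map_natCast] at h2
  have hpow : (ξ - 1) ^ q = (q : Qb) * (ξ - 1) * (u₀ : Qb) := by
    have : q = (q - 1) + 1 := by have := hq.pos; omega
    conv_lhs => rw [this, pow_succ, hu₀]
    ring
  have hC : (HahnSeries.C (ξ - 1) : LaurentSeries Qb) ^ q =
      HahnSeries.C ((q : Qb) * (ξ - 1)) * HahnSeries.C (u₀ : Qb) := by
    rw [← map_pow, hpow, map_mul]
  have hqC : ((q : ℕ) : LaurentSeries Qb) = HahnSeries.C (q : Qb) := (map_natCast _ q).symm
  have hu : A.subtype u₀ = (u₀ : Qb) := rfl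
  rw [hJ, h2, mul_pow, hC, hqC]
  simp only [map_add, map_mul, map_pow, coeffMap_constC, coeffMap_jqModC, hu]
  ring

/-- **(X5)** the first factor of `x_3` along `ι3`. -/
theorem gRel_x3_left (hA : A.LiesOverPrime q) (hξ : IsPrimitiveRoot ξ q) (hξ0 : ξ ≠ 0) :
    GRel A (S24.rotHom ξ hξ0 (jqModC Qb) - jqModC Qb ^ (q ^ 2))
      (jqModC (IsLocalRing.ResidueField A) - jqModC (IsLocalRing.ResidueField A) ^ (q ^ 2)) :=
  S34.V12Rel.gRel_sub A (gRel_jxi A q hA hξ hξ0)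
    (S34.V12Rel.gRel_pow A (S34.V12Rel.gRel_j A) (q ^ 2))

/-- **(X5)** the second factor of `x_3` along `ι3`. -/
theorem gRel_x3_right (hA : A.LiesOverPrime q) (hξ : IsPrimitiveRoot ξ q) (hξ0 : ξ ≠ 0) :
    GRel A (jqModC Qb - S24.rotHom ξ hξ0 (jqModC Qb) ^ (q ^ 2))
      (jqModC (IsLocalRing.ResidueField A) - jqModC (IsLocalRing.ResidueField A) ^ (q ^ 2)) :=
  S34.V12Rel.gRel_sub A (S34.V12Rel.gRel_j A)
    (S34.V12Rel.gRel_pow A (gRel_jxi A q hA hξ hξ0) (q ^ 2))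

/-- **(X5)** the common reduction `j - j ^ (q²)` is nonzero. -/
theorem jbar_sub_pow_ne_zero (hA : A.LiesOverPrime q) :
    jqModC (IsLocalRing.ResidueField A) - jqModC (IsLocalRing.ResidueField A) ^ (q ^ 2) ≠ 0 := by
  have := BaseRes.charP_residueField q A hA
  intro h
  have hq : (2 : ℤ) ≤ (q : ℤ) := by exact_mod_cast (Fact.out : q.Prime).two_le
  have hc := congrArg (fun x => x.coeff ((q : ℤ) * ((q : ℤ) * (-1)))) h
  simp only [HahnSeries.coeff_zero] at hc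
  rw [sq, pow_mul, S37.KC.pow_char_eq_qExpand_frobenius q, S37.KC.pow_char_eq_qExpand_frobenius q,
    coeffMap_qExpand, coeffMap_jqModC, coeffMap_jqModC, HahnSeries.coeff_sub, qExpand_coeff_mul,
    qExpand_coeff_mul, coeff_jqModC_neg_one, coeff_jqModC_of_lt _ (by nlinarith)] at hc
  simp at hc

/-- **(X6)** `x_1 = j_q - j_{q²}^q` along `ι3`: if `j_q - j ^ q ∈ c · A((Q))` and `c ∣ q` in `A`,
then `j(Q^q) - j(ξ Q) ^ q ∈ c · A((Q))`. -/
theorem exists_x1 (hξ : IsPrimitiveRoot ξ q) (hξ0 : ξ ≠ 0) (c : Qb) (a : A)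
    (hca : (q : Qb) = c * (a : Qb)) (z₀ : LaurentSeries A)
    (h : qExpand Qb q (jqModC Qb) - jqModC Qb ^ q = HahnSeries.C c * coeffMap A.subtype z₀) :
    ∃ z₁ : LaurentSeries A,
      qExpand Qb q (jqModC Qb) - S24.rotHom ξ hξ0 (jqModC Qb) ^ q =
        HahnSeries.C c * coeffMap A.subtype z₁ := by
  obtain ⟨z, hz⟩ := exists_jxi_pow_sub A q hξ hξ0
  set x1 : A := ⟨ξ, xi_mem hξ⟩ - 1 with hx1
  have hx1c : A.subtype x1 = ξ - 1 := by simp [hx1]
  refine ⟨z₀ - HahnSeries.C (a * x1) * z, ?_⟩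
  have h1 : qExpand Qb q (jqModC Qb) - S24.rotHom ξ hξ0 (jqModC Qb) ^ q =
      (qExpand Qb q (jqModC Qb) - jqModC Qb ^ q) -
        (S24.rotHom ξ hξ0 (jqModC Qb) ^ q - jqModC Qb ^ q) := by ring
  have ha : A.subtype a = (a : Qb) := rfl
  rw [h1, h, hz]
  simp only [map_sub, map_mul, coeffMap_constC, hx1c, ha, hca]
  ring

end Series

end Fermat.Agent.S36.Wit3Xi
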