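/-
S36 — Wit3W3.lean (helper6; block [MODEL3], leaf [M3.4], W3 half; dealt by helper128).

THE THIRD BRANCH at level `N = M * q * q`, in hypothesis form over an ABSTRACT expansion
`E : F_K(N) →+* ℚ̄((Q))` (in the application `E = ι3`, the expansion at the middle cusp) and an
abstract valuation subring `W3` with `x ∈ W3 ↔ E x` Gauss-integral (`GaussE.mem_V_iff`).

Hypotheses on `E` (each theorem takes only the ones it uses):
* `hEj   : E j = J`,  `hEjq : E jq = J(Q^q)`,  `hEjqq : E jqq = J(ξ Q)`  (`ξ` a primitive `q`-th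
  root of unity, `J = jqModC ℚ̄`, rotation `S24.rotHom ξ`);
* `hEc   : E (algebraMap c) = C (incO c)`  (constants of `O = A ∩ K`);
* `hEinc : E (incl x) = ↑x`  for `x ∈ F_K(M)`  (`incl = S34.DegTower.incl M (M*q*q) K h`).

Outputs (the witnesses `x1 x2 x3 sE bE` are those of `S36/Wit3.lean`):
* `x2_pi3`, `x1_pi3`   : `x2, x1 ∈ π W3`;
* `x3_unit3`           : `x3` is a unit of `W3`;
* `b_mem3`             : `b i = jqq ^ i ∈ W3`;
* `s_mem3`, `s_nonunit3`, `s_ne_zero3` : `s = jqq − j` is a nonzero nonunit of `W3`;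
* `le3`, `le3_chart`   : `incl r ∈ W3` for Gauss-integral `r` / for `r` in a level-`M` chart;
* `gRel_zero_of_incl_nonunit`, `ind3` : `incl r ∈ W3.nonunits → π ∣ r` for `r` in a level-`M`
  chart with `ChartFacts`.
Generic: `mem3_of_gRel`, `unit3_of_gRel`, `nonunit3_of_gRel_zero`, `gRel_zero_of_nonunit`.
-/
import Mathlib
import Fermat.Agent.S36.Wit3
import Fermat.Agent.S36.Wit3Xi
import Fermat.Agent.S34.DegTower
import Fermat.Agent.S18.ModelRed

set_option autoImplicit false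
set_option linter.unusedSectionVars false

noncomputable section

namespace Fermat.Agent.S36.Wit3W3

open ModularCurve HahnSeries Fermat.Agent.S18 Fermat.Agent.S18.Arith Fermat.Agent.S18.ModelPlan
open Fermat.Agent Fermat.Agent.S34

/-! ### Generic: an abstract expansion and its Gauss valuation ring -/

section Generic

variable {A : ValuationSubring Qb} {F : Type*} [Field F] {E : F →+* LaurentSeries Qb}
  {W3 : ValuationSubring F}

theorem mem3_of_gRel (hW3 : ∀ x : F, x ∈ W3 ↔ ∃ y, GRel A (E x) y) {x : F}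
    {y : LaurentSeries (IsLocalRing.ResidueField A)} (h : GRel A (E x) y) : x ∈ W3 :=
  (hW3 x).mpr ⟨y, h⟩

/-- An element whose expansion has nonzero Gauss reduction is a unit of `W3`. -/
theorem unit3_of_gRel (hW3 : ∀ x : F, x ∈ W3 ↔ ∃ y, GRel A (E x) y) {x : F}
    {y : LaurentSeries (IsLocalRing.ResidueField A)} (h : GRel A (E x) y) (hy : y ≠ 0) :
    x ∈ W3 ∧ x⁻¹ ∈ W3 := by
  refine ⟨mem3_of_gRel hW3 h, (hW3 _).mpr ⟨y⁻¹, ?_⟩⟩
  rw [map_inv₀]
  exact (V12Rel.gFacts A).inv _ _ h hy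

/-- An element whose expansion has Gauss reduction `0` is a nonunit of `W3`. -/
theorem nonunit3_of_gRel_zero (hW3 : ∀ x : F, x ∈ W3 ↔ ∃ y, GRel A (E x) y) {x : F}
    (h : GRel A (E x) 0) : x ∈ W3.nonunits := by
  have hG := V12Rel.gFacts A
  rw [ValuationSubring.mem_nonunits_iff]
  by_contra hlt
  have hx : x ∈ W3 := mem3_of_gRel hW3 h
  have h1 : W3.valuation x = 1 :=
    le_antisymm ((W3.valuation_le_one_iff x).mpr hx) (not_lt.mp hlt)
  have hx0 : x ≠ 0 := by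
    rintro rfl
    rw [map_zero] at h1
    exact zero_ne_one h1
  have hinv : x⁻¹ ∈ W3 := by
    rw [← W3.valuation_le_one_iff, map_inv₀, h1, inv_one]
  obtain ⟨y', hy'⟩ := (hW3 _).mp hinv
  have h2 := hG.mul _ _ _ _ h hy'
  rw [← map_mul, mul_inv_cancel₀ hx0, map_one, zero_mul] at h2
  exact zero_ne_one (hG.unique _ _ _ h2 (ModelRed.gRel_one hG))

/-- The Gauss reduction of the expansion of a nonunit of `W3` vanishes. -/
theorem gRel_zero_of_nonunit (hW3 : ∀ x : F, x ∈ W3 ↔ ∃ y, GRel A (E x) y) {x : F}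
    {y : LaurentSeries (IsLocalRing.ResidueField A)} (h : GRel A (E x) y)
    (hx : x ∈ W3.nonunits) : y = 0 := by
  by_contra hy
  obtain ⟨h1, h2⟩ := unit3_of_gRel hW3 h hy
  rw [ValuationSubring.mem_nonunits_iff] at hx
  have hx0 : x ≠ 0 := by
    rintro rfl
    rw [map_zero] at h
    have h0 := (V12Rel.gFacts A).of_int 0
    rw [map_zero, map_zero] at h0
    exact hy ((V12Rel.gFacts A).unique _ _ _ h h0)
  have h3 : W3.valuation x⁻¹ ≤ 1 := (W3.valuation_le_one_iff _).mpr h2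
  have h4 : W3.valuation x * W3.valuation x⁻¹ = 1 := by
    rw [← map_mul, mul_inv_cancel₀ hx0, map_one]
  have h5 : W3.valuation x * W3.valuation x⁻¹ < 1 := by
    exact lt_of_le_of_lt (mul_le_of_le_one_right' h3) hx
  rw [h4] at h5
  exact lt_irrefl _ h5

end Generic

/-! ### The witnesses along the third branch -/

section Level

variable (M q : ℕ) [NeZero M] [NeZero q] (hq : q.Prime) (hqM : ¬ q ∣ M)
variable (A : ValuationSubring Qb) (K : IntermediateField ℚ Qb)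
variable (E : FK (M * q * q) K →+* LaurentSeries Qb) {ξ : Qb} (hξ0 : ξ ≠ 0)
variable (W3 : ValuationSubring (FK (M * q * q) K))

/-! #### The expansions of the witnesses -/

theorem E_x1 (hEjq : E (WQ2.jqK2 M q hq hqM K) = qExpand Qb q (jqModC Qb))
    (hEjqq : E (WQ2.jqqK2 M q hq hqM K) = S24.rotHom ξ hξ0 (jqModC Qb)) :
    E (Wit3.x1 M q hq hqM K)
      = qExpand Qb q (jqModC Qb) - S24.rotHom ξ hξ0 (jqModC Qb) ^ q := by
  rw [Wit3.x1, map_sub, map_pow, hEjq, hEjqq]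

theorem E_x2 (hEj : E (jK (M * q * q) K) = jqModC Qb)
    (hEjq : E (WQ2.jqK2 M q hq hqM K) = qExpand Qb q (jqModC Qb)) :
    E (Wit3.x2 M q hq hqM K) = qExpand Qb q (jqModC Qb) - jqModC Qb ^ q := by
  rw [Wit3.x2, map_sub, map_pow, hEjq, hEj]

theorem E_x3 (hEj : E (jK (M * q * q) K) = jqModC Qb)
    (hEjqq : E (WQ2.jqqK2 M q hq hqM K) = S24.rotHom ξ hξ0 (jqModC Qb)) :
    E (Wit3.x3 M q hq hqM K)
      = (S24.rotHom ξ hξ0 (jqModC Qb) - jqModC Qb ^ (q ^ 2)) *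
        (jqModC Qb - S24.rotHom ξ hξ0 (jqModC Qb) ^ (q ^ 2)) := by
  rw [Wit3.x3, map_mul, map_sub, map_sub, map_pow, map_pow, hEjqq, hEj]

theorem E_sE (hEj : E (jK (M * q * q) K) = jqModC Qb)
    (hEjqq : E (WQ2.jqqK2 M q hq hqM K) = S24.rotHom ξ hξ0 (jqModC Qb)) :
    E (Wit3.sE M q hq hqM K) = S24.rotHom ξ hξ0 (jqModC Qb) - jqModC Qb := by
  rw [Wit3.sE, map_sub, hEjqq, hEj]

theorem E_bE (hEjqq : E (WQ2.jqqK2 M q hq hqM K) = S24.rotHom ξ hξ0 (jqModC Qb)) (i : ℕ) :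
    E (Wit3.bE M q hq hqM K i) = S24.rotHom ξ hξ0 (jqModC Qb) ^ i := by
  rw [Wit3.bE, map_pow, hEjqq]

/-! #### `x2 ∈ π W3` -/

/-- The quotient `x2 / π` of the first branch has the same expansion along `E`. -/
theorem exists_x2_quot (hdvr : IsDiscreteValuationRing (OK A K)) (hA : A.LiesOverPrime q)
    {π : OK A K} (hπ : Irreducible π)
    (hEj : E (jK (M * q * q) K) = jqModC Qb)
    (hEjq : E (WQ2.jqK2 M q hq hqM K) = qExpand Qb q (jqModC Qb))
    (hEc : ∀ c : OK A K, E (algebraMap (OK A K) (FK (M * q * q) K) c)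
      = (C (incO A K c) : LaurentSeries Qb)) :
    ∃ (z : FK (M * q * q) K) (y : LaurentSeries (IsLocalRing.ResidueField A)),
      Wit3.x2 M q hq hqM K = algebraMap (OK A K) (FK (M * q * q) K) π * z ∧
      GRel A (E z) y := by
  obtain ⟨z, hz, hxz⟩ := Wit3.x2_pi1 M q hq hqM A K hdvr hA hπ
  obtain ⟨y, hy⟩ := (GaussV.mem_V1_iff hdvr).mp hz
  refine ⟨z, y, hxz, ?_⟩
  have hP0 : (C (incO A K π) : LaurentSeries Qb) ≠ 0 := ModelRed.C_incO_ne_zero π hπ.ne_zero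
  have h1 : (C (incO A K π) : LaurentSeries Qb) * E z
      = (C (incO A K π) : LaurentSeries Qb) * ((z : FK (M * q * q) K) : LaurentSeries Qb) := by
    have e1 := congrArg E hxz
    rw [map_mul, hEc, E_x2 M q hq hqM K E hEj hEjq] at e1
    have e2 := congrArg (fun x : FK (M * q * q) K => (x : LaurentSeries Qb)) hxz
    simp only [Subfield.coe_mul, GaussV.coe_algebraMap] at e2
    rw [Wit3.coe_x2] at e2
    rw [← e1, ← e2]
  rw [mul_left_cancel₀ hP0 h1]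
  exact hy

/-- **(W3)** `x2 ∈ π W3`. -/
theorem x2_pi3 (hdvr : IsDiscreteValuationRing (OK A K)) (hA : A.LiesOverPrime q)
    {π : OK A K} (hπ : Irreducible π)
    (hEj : E (jK (M * q * q) K) = jqModC Qb)
    (hEjq : E (WQ2.jqK2 M q hq hqM K) = qExpand Qb q (jqModC Qb))
    (hEc : ∀ c : OK A K, E (algebraMap (OK A K) (FK (M * q * q) K) c)
      = (C (incO A K c) : LaurentSeries Qb))
    (hW3 : ∀ x : FK (M * q * q) K, x ∈ W3 ↔ ∃ y, GRel A (E x) y) :
    ∃ z ∈ W3, Wit3.x2 M q hq hqM K = algebraMap (OK A K) (FK (M * q * q) K) π * z := by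
  obtain ⟨z, y, hxz, hy⟩ := exists_x2_quot M q hq hqM A K E hdvr hA hπ hEj hEjq hEc
  exact ⟨z, mem3_of_gRel hW3 hy, hxz⟩

/-! #### `x1 ∈ π W3` -/

/-- **(W3)** `x1 ∈ π W3`, for a uniformizer `π` dividing `q` in `A`. -/
theorem x1_pi3 (hdvr : IsDiscreteValuationRing (OK A K)) (hA : A.LiesOverPrime q)
    {π : OK A K} (hπ : Irreducible π) (a : A) (hqa : (q : Qb) = incO A K π * (a : Qb))
    (hξ : IsPrimitiveRoot ξ q)
    (hEj : E (jK (M * q * q) K) = jqModC Qb)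
    (hEjq : E (WQ2.jqK2 M q hq hqM K) = qExpand Qb q (jqModC Qb))
    (hEjqq : E (WQ2.jqqK2 M q hq hqM K) = S24.rotHom ξ hξ0 (jqModC Qb))
    (hEc : ∀ c : OK A K, E (algebraMap (OK A K) (FK (M * q * q) K) c)
      = (C (incO A K c) : LaurentSeries Qb))
    (hW3 : ∀ x : FK (M * q * q) K, x ∈ W3 ↔ ∃ y, GRel A (E x) y) :
    ∃ z ∈ W3, Wit3.x1 M q hq hqM K = algebraMap (OK A K) (FK (M * q * q) K) π * z := by
  have : Fact q.Prime := ⟨hq⟩
  have hG := V12Rel.gFacts A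
  obtain ⟨z2, y, hxz, hy⟩ := exists_x2_quot M q hq hqM A K E hdvr hA hπ hEj hEjq hEc
  obtain ⟨Z, hZ⟩ := Wit3Xi.exists_jxi_pow_sub A q hξ hξ0
  have hπF : algebraMap (OK A K) (FK (M * q * q) K) π ≠ 0 :=
    GaussV.algebraMap_ne_zero (M * q * q) A K hπ.ne_zero
  have hP0 : (C (incO A K π) : LaurentSeries Qb) ≠ 0 := ModelRed.C_incO_ne_zero π hπ.ne_zero
  -- the integral correction term
  let a' : A := a * (⟨ξ, Wit3Xi.xi_mem hξ⟩ - 1)
  have ha' : A.subtype a' = (a : Qb) * (ξ - 1) := by simp [a']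
  have hcorr : GRel A ((C ((a : Qb) * (ξ - 1)) : LaurentSeries Qb) * coeffMap A.subtype Z)
      (coeffMap (IsLocalRing.residue A) (C a' * Z)) := by
    have h := hG.of_int (C a' * Z)
    rwa [map_mul, Wit3Xi.coeffMap_constC, ha'] at h
  -- the expansion of `x1 / π`
  have e1 : qExpand Qb q (jqModC Qb) - jqModC Qb ^ q
      = (C (incO A K π) : LaurentSeries Qb) * E z2 := by
    rw [← E_x2 M q hq hqM K E hEj hEjq, hxz, map_mul, hEc]
  have e2 : (C ((q : Qb) * (ξ - 1)) : LaurentSeries Qb)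
      = C (incO A K π) * C ((a : Qb) * (ξ - 1)) := by
    rw [hqa, mul_assoc, map_mul]
  have e3 : qExpand Qb q (jqModC Qb) - S24.rotHom ξ hξ0 (jqModC Qb) ^ q
      = (C (incO A K π) : LaurentSeries Qb) *
        (E z2 - (C ((a : Qb) * (ξ - 1)) : LaurentSeries Qb) * coeffMap A.subtype Z) := by
    have e4 : qExpand Qb q (jqModC Qb) - S24.rotHom ξ hξ0 (jqModC Qb) ^ q
        = (qExpand Qb q (jqModC Qb) - jqModC Qb ^ q)
          - (S24.rotHom ξ hξ0 (jqModC Qb) ^ q - jqModC Qb ^ q) := by ring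
    rw [e4, e1, hZ, e2]
    ring
  have hEz1 : E (Wit3.x1 M q hq hqM K * (algebraMap (OK A K) (FK (M * q * q) K) π)⁻¹)
      = E z2 - (C ((a : Qb) * (ξ - 1)) : LaurentSeries Qb) * coeffMap A.subtype Z := by
    rw [map_mul, map_inv₀, hEc, E_x1 M q hq hqM K E hξ0 hEjq hEjqq, e3, mul_comm, ← mul_assoc,
      inv_mul_cancel₀ hP0, one_mul]
  refine ⟨Wit3.x1 M q hq hqM K * (algebraMap (OK A K) (FK (M * q * q) K) π)⁻¹, ?_, ?_⟩
  · refine (hW3 _).mpr ⟨y - coeffMap (IsLocalRing.residue A) (C a' * Z), ?_⟩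
    rw [hEz1]
    exact V12Rel.gRel_sub A hy hcorr
  · rw [mul_comm (Wit3.x1 M q hq hqM K), ← mul_assoc, mul_inv_cancel₀ hπF, one_mul]

/-! #### `x3`, `b`, `s` -/

/-- **(W3)** `x3` is a unit of `W3`. -/
theorem x3_unit3 (hA : A.LiesOverPrime q) (hξ : IsPrimitiveRoot ξ q)
    (hEj : E (jK (M * q * q) K) = jqModC Qb)
    (hEjqq : E (WQ2.jqqK2 M q hq hqM K) = S24.rotHom ξ hξ0 (jqModC Qb))
    (hW3 : ∀ x : FK (M * q * q) K, x ∈ W3 ↔ ∃ y, GRel A (E x) y) :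
    Wit3.x3 M q hq hqM K ∈ W3 ∧ (Wit3.x3 M q hq hqM K)⁻¹ ∈ W3 := by
  have : Fact q.Prime := ⟨hq⟩
  have h := (V12Rel.gFacts A).mul _ _ _ _ (Wit3Xi.gRel_x3_left A q hA hξ hξ0)
    (Wit3Xi.gRel_x3_right A q hA hξ hξ0)
  rw [← E_x3 M q hq hqM K E hξ0 hEj hEjqq] at h
  exact unit3_of_gRel hW3 h
    (mul_ne_zero (Wit3Xi.jbar_sub_pow_ne_zero A q hA) (Wit3Xi.jbar_sub_pow_ne_zero A q hA))

/-- **(W3)** `b i = jqq ^ i ∈ W3`, with reduction `j ^ i`. -/
theorem gRel_b3 (hA : A.LiesOverPrime q) (hξ : IsPrimitiveRoot ξ q)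
    (hEjqq : E (WQ2.jqqK2 M q hq hqM K) = S24.rotHom ξ hξ0 (jqModC Qb)) (i : ℕ) :
    GRel A (E (Wit3.bE M q hq hqM K i)) (jqModC (IsLocalRing.ResidueField A) ^ i) := by
  have : Fact q.Prime := ⟨hq⟩
  rw [E_bE M q hq hqM K E hξ0 hEjqq]
  exact V12Rel.gRel_pow A (Wit3Xi.gRel_jxi A q hA hξ hξ0) i

/-- **(W3)** `b i ∈ W3`. -/
theorem b_mem3 (hA : A.LiesOverPrime q) (hξ : IsPrimitiveRoot ξ q)
    (hEjqq : E (WQ2.jqqK2 M q hq hqM K) = S24.rotHom ξ hξ0 (jqModC Qb))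
    (hW3 : ∀ x : FK (M * q * q) K, x ∈ W3 ↔ ∃ y, GRel A (E x) y) (i : ℕ) :
    Wit3.bE M q hq hqM K i ∈ W3 :=
  mem3_of_gRel hW3 (gRel_b3 M q hq hqM A K E hξ0 hA hξ hEjqq i)

/-- **(W3)** the expansion of `s = jqq − j` has Gauss reduction `0`. -/
theorem gRel_s3 (hA : A.LiesOverPrime q) (hξ : IsPrimitiveRoot ξ q)
    (hEj : E (jK (M * q * q) K) = jqModC Qb)
    (hEjqq : E (WQ2.jqqK2 M q hq hqM K) = S24.rotHom ξ hξ0 (jqModC Qb)) :
    GRel A (E (Wit3.sE M q hq hqM K)) 0 := by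
  have : Fact q.Prime := ⟨hq⟩
  obtain ⟨g, hg, -⟩ := Wit3Xi.exists_jxi_sub A q hA hξ hξ0
  let x1 : A := ⟨ξ, Wit3Xi.xi_mem hξ⟩ - 1
  have hx1 : A.subtype x1 = ξ - 1 := by simp [x1]
  have hres : IsLocalRing.residue A x1 = 0 := by
    show IsLocalRing.residue A (⟨ξ, Wit3Xi.xi_mem hξ⟩ - 1) = 0
    rw [map_sub, Wit3Xi.residue_xi hA hξ, map_one, sub_self]
  have h := (V12Rel.gFacts A).of_int (C x1 * g)
  rw [map_mul, map_mul, Wit3Xi.coeffMap_constC, Wit3Xi.coeffMap_constC, hx1, hres, map_zero,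
    zero_mul] at h
  rw [E_sE M q hq hqM K E hξ0 hEj hEjqq, hg]
  exact h

/-- **(W3)** `s ∈ W3`. -/
theorem s_mem3 (hA : A.LiesOverPrime q) (hξ : IsPrimitiveRoot ξ q)
    (hEj : E (jK (M * q * q) K) = jqModC Qb)
    (hEjqq : E (WQ2.jqqK2 M q hq hqM K) = S24.rotHom ξ hξ0 (jqModC Qb))
    (hW3 : ∀ x : FK (M * q * q) K, x ∈ W3 ↔ ∃ y, GRel A (E x) y) :
    Wit3.sE M q hq hqM K ∈ W3 :=
  mem3_of_gRel hW3 (gRel_s3 M q hq hqM A K E hξ0 hA hξ hEj hEjqq)

/-- **(W3)** `s` is a nonunit of `W3`. -/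
theorem s_nonunit3 (hA : A.LiesOverPrime q) (hξ : IsPrimitiveRoot ξ q)
    (hEj : E (jK (M * q * q) K) = jqModC Qb)
    (hEjqq : E (WQ2.jqqK2 M q hq hqM K) = S24.rotHom ξ hξ0 (jqModC Qb))
    (hW3 : ∀ x : FK (M * q * q) K, x ∈ W3 ↔ ∃ y, GRel A (E x) y) :
    Wit3.sE M q hq hqM K ∈ W3.nonunits :=
  nonunit3_of_gRel_zero hW3 (gRel_s3 M q hq hqM A K E hξ0 hA hξ hEj hEjqq)

/-- **(W3)** `s ≠ 0`. -/
theorem s_ne_zero3 (hA : A.LiesOverPrime q) (hξ : IsPrimitiveRoot ξ q)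
    (hEj : E (jK (M * q * q) K) = jqModC Qb)
    (hEjqq : E (WQ2.jqqK2 M q hq hqM K) = S24.rotHom ξ hξ0 (jqModC Qb)) :
    Wit3.sE M q hq hqM K ≠ 0 := by
  have : Fact q.Prime := ⟨hq⟩
  obtain ⟨g, hg, hg0⟩ := Wit3Xi.exists_jxi_sub A q hA hξ hξ0
  intro h0
  have h1 := E_sE M q hq hqM K E hξ0 hEj hEjqq
  rw [h0, map_zero, hg] at h1
  have hC : (C (ξ - 1) : LaurentSeries Qb) ≠ 0 := by
    intro hc
    have h2 : (C (ξ - 1) : LaurentSeries Qb) = C 0 := by rw [hc, map_zero]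
    exact sub_ne_zero.mpr (Wit3Xi.xi_ne_one hξ) (HahnSeries.C_injective (Γ := ℤ) h2)
  have h3 : coeffMap A.subtype g = 0 := (mul_eq_zero.mp h1.symm).resolve_left hC
  apply hg0
  have h4 : g = 0 := GRel.coeffMap_subtype_injective A (by rw [h3, map_zero])
  rw [h4, map_zero]

/-! #### The level-`M` chart inside `W3` -/

variable (h : M ∣ M * q * q)

/-- **(W3)** the image of a Gauss-integral element of `F_K(M)` lies in `W3`. -/
theorem le3 (hEinc : ∀ x : FK M K, E (DegTower.incl M (M * q * q) K h x) = (x : LaurentSeries Qb))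
    (hW3 : ∀ x : FK (M * q * q) K, x ∈ W3 ↔ ∃ y, GRel A (E x) y) (r : FK M K)
    (hr : ∃ y, GRel A ((r : FK M K) : LaurentSeries Qb) y) :
    DegTower.incl M (M * q * q) K h r ∈ W3 := by
  obtain ⟨y, hy⟩ := hr
  refine (hW3 _).mpr ⟨y, ?_⟩
  rw [hEinc]
  exact hy

/-- **(W3)** if the image of `r ∈ F_K(M)` is a nonunit of `W3`, the Gauss reduction of `r`
vanishes. -/
theorem gRel_zero_of_incl_nonunit
    (hEinc : ∀ x : FK M K, E (DegTower.incl M (M * q * q) K h x) = (x : LaurentSeries Qb))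
    (hW3 : ∀ x : FK (M * q * q) K, x ∈ W3 ↔ ∃ y, GRel A (E x) y) (r : FK M K)
    {y : LaurentSeries (IsLocalRing.ResidueField A)}
    (hr : GRel A ((r : FK M K) : LaurentSeries Qb) y)
    (hnon : DegTower.incl M (M * q * q) K h r ∈ W3.nonunits) : y = 0 := by
  refine gRel_zero_of_nonunit hW3 ?_ hnon
  rw [hEinc]
  exact hr

/-- **(W3)** a level-`M` chart (with `ChartFacts`) lies in `W3`. -/
theorem le3_chart (RM : Subalgebra (OK A K) (FK M K)) (t : FK M K) (hRM : ChartFacts M A K RM t)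
    (hEinc : ∀ x : FK M K, E (DegTower.incl M (M * q * q) K h x) = (x : LaurentSeries Qb))
    (hW3 : ∀ x : FK (M * q * q) K, x ∈ W3 ↔ ∃ y, GRel A (E x) y) (r : RM) :
    DegTower.incl M (M * q * q) K h (r : FK M K) ∈ W3 := by
  obtain ⟨ρ, hρ, -, -⟩ := hRM.red
  exact le3 M q A K E W3 h hEinc hW3 _ ⟨ρ r, hρ r⟩

/-- **(W3)** independence along the third branch: if the image of an element `r` of a level-`M`
chart is a nonunit of `W3`, then `π ∣ r` in the chart. -/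
theorem ind3 (hdvr : IsDiscreteValuationRing (OK A K)) {π : OK A K} (hπ : Irreducible π)
    (RM : Subalgebra (OK A K) (FK M K)) (t : FK M K) (hRM : ChartFacts M A K RM t)
    (hEinc : ∀ x : FK M K, E (DegTower.incl M (M * q * q) K h x) = (x : LaurentSeries Qb))
    (hW3 : ∀ x : FK (M * q * q) K, x ∈ W3 ↔ ∃ y, GRel A (E x) y) (r : RM)
    (hnon : DegTower.incl M (M * q * q) K h (r : FK M K) ∈ W3.nonunits) :
    algebraMap (OK A K) RM π ∣ r := by
  obtain ⟨ρ, hρ, hker, -⟩ := hRM.red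
  have h0 : ρ r = 0 := gRel_zero_of_incl_nonunit M q A K E W3 h hEinc hW3 _ (hρ r) hnon
  have hmem : r ∈ piIdeal M A K RM := by
    rw [← hker]
    exact h0
  unfold piIdeal at hmem
  have := hdvr
  rw [hπ.maximalIdeal_eq, Ideal.map_span, Set.image_singleton, Ideal.mem_span_singleton] at hmem
  exact hmem

end Level

end Fermat.Agent.S36.Wit3W3

end
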