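/-
S36 — V3Wit.lean (helper119; package [MODEL3], leaf [M3.4 inst], dealt by helper128).

The `W3` half of the witness facts of the three-component model at level `N = M * q * q`
for the CONCRETE valuation ring `W3 := H.W3` of `S36/V3` (`H : V3.Hyp3 …`, the Gauss ring along
the middle-cusp embedding `ι`), in exactly the shapes of the fields of helper128's `Hyp3W`
(`S36/Wit3Inst`) and of helper108's `Val3.valHyp3`:

* `hEj`, `hEjq`, `hEjqq`, `hEc`, `hEinc`, `hW3` : the generator values of `ι` in the vocabulary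
  of helper6's abstract `S36/Wit3W3`;
* `le3`, `ind3`            : the level-`M` chart `chart M A K (jK M K)` lies in `W3`, and
                             `inc r ∈ W3.nonunits → π ∣ r`;
* `x1_pi3`, `x2_pi3`       : `x1, x2 ∈ π W3`;
* `x3_unit3`, `x3_ne_zero` : `x3` is a unit of `W3`;
* `b_mem3`                 : `bE i ∈ W3`;
* `s_nonunit3`, `ram3`, `disc3` : `s = jqq - j` is a uniformiser of `W3`, `π = s ^ (q - 1) · unit`;
* `j_unit3`, `jq_unit3`, `jqq_unit3`;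
* `valHyp3`                : `Model3Plan.ValHyp3 π (ram q) ![π, π, s] ![V1, V2, H.W3]`
                             (= `Val3.valHyp3` applied to the facts above);
* `valHyp3_iota3`          : the closed form for `Iota3.iota3` over `BaseXi.Kxi K ξ`, `π = q`.
-/
import Mathlib
import Fermat.Agent.S36.V3
import Fermat.Agent.S36.Wit3W3
import Fermat.Agent.S36.Wit3Set
import Fermat.Agent.S36.Val3

set_option autoImplicit false

noncomputable section

namespace Fermat.Agent.S36.V3Wit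

open ModularCurve ModularCurve.IgusaScheme AlgebraicCurve HahnSeries Fermat.Agent.S18.Arith
open Fermat.Agent.S18.ModelPlan Fermat.Agent.S24 Fermat.Agent.S28 Fermat.Agent.S34
open Fermat.Agent.S36

variable {M q : ℕ} [NeZero M] [NeZero q] {hq : q.Prime} {hqM : ¬ q ∣ M}
variable {A : ValuationSubring Qb} {K K' : IntermediateField ℚ Qb}
variable {ξ : Qb} {hξ0 : ξ ≠ 0} {ι : FK (M * q * q) K →+* LaurentSeries Qb} {ϖ : OK A K'}
variable (H : V3.Hyp3 M q hq hqM A K K' ξ hξ0 ι ϖ)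

include H

/-! ### The generator values of `ι` (vocabulary of `S36/Wit3W3`) -/

theorem hEj : ι (jK (M * q * q) K) = jqModC Qb := by
  rw [H.mid.apply_jK, jd_one]

theorem hEjq : ι (WQ2.jqK2 M q hq hqM K) = qExpand Qb q (jqModC Qb) := by
  rw [H.mid.apply_jqK2, jd_eq]

theorem hEjqq : ι (WQ2.jqqK2 M q hq hqM K) = rotHom ξ hξ0 (jqModC Qb) := by
  rw [H.mid.apply_jqqK2, jd_one]

theorem hEc (c : OK A K) :
    ι (algebraMap (OK A K) (FK (M * q * q) K) c) = (C (incO A K c) : LaurentSeries Qb) :=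
  H.emb.const c

theorem hEinc (h : M ∣ M * q * q) (x : FK M K) :
    ι (DegTower.incl M (M * q * q) K h x) = ((x : FK M K) : LaurentSeries Qb) := by
  have e : DegTower.incl M (M * q * q) K h x = Wit3Set.inc M q K x := rfl
  rw [e, Wit3Set.inc_eq, H.mid.alpha, WK.coe_alphaK]

theorem hW3 (x : FK (M * q * q) K) : x ∈ H.W3 ↔ ∃ y, GRel A (ι x) y := Iff.rfl

include hq in
/-- `ξ` is a primitive `q`-th root of unity. -/
theorem isPrimitiveRoot : IsPrimitiveRoot ξ q := by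
  have h := IsPrimitiveRoot.orderOf ξ
  rwa [orderOf_eq_prime (hp := ⟨hq⟩) H.xi_pow H.xi_ne] at h

/-! ### The level-`M` chart -/

/-- `inc r ∈ W3` for `r` in the level-`M` chart. -/
theorem le3 (hC : ChartFacts M A K (chart M A K (jK M K)) (jK M K))
    (r : ↥(chart M A K (jK M K))) : Wit3Set.inc M q K (r : FK M K) ∈ H.W3 :=
  Wit3W3.le3_chart M q A K ι H.W3 (Wit3Set.dvd_level M q) (chart M A K (jK M K)) (jK M K) hC
    (hEinc H _) (hW3 H) r

/-- `inc r ∈ W3.nonunits → π ∣ r`. -/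
theorem ind3 (hdvr : IsDiscreteValuationRing (OK A K)) {π : OK A K} (hπ : Irreducible π)
    (hC : ChartFacts M A K (chart M A K (jK M K)) (jK M K)) (r : ↥(chart M A K (jK M K)))
    (hnon : Wit3Set.inc M q K (r : FK M K) ∈ H.W3.nonunits) :
    algebraMap (OK A K) ↥(chart M A K (jK M K)) π ∣ r :=
  Wit3W3.ind3 M q A K ι H.W3 (Wit3Set.dvd_level M q) hdvr hπ (chart M A K (jK M K)) (jK M K) hC
    (hEinc H _) (hW3 H) r hnon

/-! ### The witnesses -/

include hq in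
/-- `x1 ∈ π W3` (`π ∣ q` in `A`: `hqa`). -/
theorem x1_pi3 (hdvr : IsDiscreteValuationRing (OK A K)) (hA : A.LiesOverPrime q)
    {π : OK A K} (hπ : Irreducible π) (a : A) (hqa : (q : Qb) = incO A K π * (a : Qb)) :
    ∃ z ∈ H.W3, Wit3.x1 M q hq hqM K = algebraMap (OK A K) (FK (M * q * q) K) π * z :=
  Wit3W3.x1_pi3 M q hq hqM A K ι hξ0 H.W3 hdvr hA hπ a hqa (isPrimitiveRoot H) (hEj H) (hEjq H)
    (hEjqq H) (hEc H) (hW3 H)

/-- `x2 ∈ π W3`. -/
theorem x2_pi3 (hdvr : IsDiscreteValuationRing (OK A K)) (hA : A.LiesOverPrime q)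
    {π : OK A K} (hπ : Irreducible π) :
    ∃ z ∈ H.W3, Wit3.x2 M q hq hqM K = algebraMap (OK A K) (FK (M * q * q) K) π * z :=
  Wit3W3.x2_pi3 M q hq hqM A K ι H.W3 hdvr hA hπ (hEj H) (hEjq H) (hEc H) (hW3 H)

include hq in
/-- `x3` is a unit of `W3`. -/
theorem x3_unit3 (hA : A.LiesOverPrime q) :
    Wit3.x3 M q hq hqM K ∈ H.W3 ∧ (Wit3.x3 M q hq hqM K)⁻¹ ∈ H.W3 :=
  Wit3W3.x3_unit3 M q hq hqM A K ι hξ0 H.W3 hA (isPrimitiveRoot H) (hEj H) (hEjqq H) (hW3 H)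

include hq in
theorem x3_ne_zero (hA : A.LiesOverPrime q) : Wit3.x3 M q hq hqM K ≠ 0 := by
  have : Fact q.Prime := ⟨hq⟩
  have hξ := isPrimitiveRoot H
  have G := Fermat.Agent.S18.GRel.gRelStatement A
  have h := G.mul _ _ _ _ (Wit3Xi.gRel_x3_left A q hA hξ hξ0)
    (Wit3Xi.gRel_x3_right A q hA hξ hξ0)
  rw [← Wit3W3.E_x3 M q hq hqM K ι hξ0 (hEj H) (hEjqq H)] at h
  intro h0
  rw [h0, map_zero] at h
  have hz := G.of_int 0
  rw [map_zero, map_zero] at hz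
  exact mul_ne_zero (Wit3Xi.jbar_sub_pow_ne_zero A q hA) (Wit3Xi.jbar_sub_pow_ne_zero A q hA)
    (G.unique _ _ _ h hz)

include hq in
/-- `bE i ∈ W3`. -/
theorem b_mem3 (hA : A.LiesOverPrime q) (i : ℕ) : Wit3.bE M q hq hqM K i ∈ H.W3 :=
  Wit3W3.b_mem3 M q hq hqM A K ι hξ0 H.W3 hA (isPrimitiveRoot H) (hEjqq H) (hW3 H) i

/-! ### The uniformiser -/

/-- `s = jqq - j` is a nonunit of `W3`. -/
theorem s_nonunit3 : Wit3.sE M q hq hqM K ∈ H.W3.nonunits := by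
  refine Wit3W3.nonunit3_of_gRel_zero (hW3 H) ?_
  have h := H.gRel_red3 ⟨Wit3.sE M q hq hqM K, H.s_mem⟩
  rwa [H.red3_s] at h

/-- `π = s ^ (q - 1) · unit` in `W3` (as soon as `π = ϖ ^ (q - 1) · unit` in `A`). -/
theorem ram3 (π : OK A K)
    (hπ : ∃ u : A, IsUnit u ∧ incO A K π = incO A K' ϖ ^ (q - 1) * (u : Qb)) :
    ∃ z ∈ H.W3, z⁻¹ ∈ H.W3 ∧
      algebraMap (OK A K) (FK (M * q * q) K) π = Wit3.sE M q hq hqM K ^ (q - 1) * z :=
  H.ram π hπ

/-- `W3` is discrete with uniformiser `s` (normal-form shape of `Val3`). -/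
theorem disc3 : ∀ x : FK (M * q * q) K, x ≠ 0 →
    ∃ γ : ℤ, x * Wit3.sE M q hq hqM K ^ (-γ) ∈ H.W3 ∧
      (x * Wit3.sE M q hq hqM K ^ (-γ))⁻¹ ∈ H.W3 := fun x hx =>
  GaussE.exists_zpow_mul_unit H.emb H.dvr' H.irr H.unif x hx

theorem j_unit3 : jK (M * q * q) K ∈ H.W3 ∧ (jK (M * q * q) K)⁻¹ ∈ H.W3 := H.jK_unit

theorem jq_unit3 : WQ2.jqK2 M q hq hqM K ∈ H.W3 ∧ (WQ2.jqK2 M q hq hqM K)⁻¹ ∈ H.W3 :=
  H.jqK2_unit

theorem jqq_unit3 : WQ2.jqqK2 M q hq hqM K ∈ H.W3 ∧ (WQ2.jqqK2 M q hq hqM K)⁻¹ ∈ H.W3 :=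
  H.jqqK2_unit

/-! ### `ValHyp3` -/

include hq in
/-- **The field `Model3.val`** for `V = ![V1, V2, H.W3]`, `ϖ = ![π, π, s]`, `e = ram q`. -/
theorem valHyp3 (hdvr : IsDiscreteValuationRing (OK A K)) (hA : A.LiesOverPrime q)
    {π : OK A K} (hπ : Irreducible π) (a : A) (hqa : (q : Qb) = incO A K π * (a : Qb))
    (hπϖ : ∃ u : A, IsUnit u ∧ incO A K π = incO A K' ϖ ^ (q - 1) * (u : Qb)) :
    Model3Plan.ValHyp3 (algebraMap (OK A K) (FK (M * q * q) K) π) (Model3Plan.ram q)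
      ![algebraMap (OK A K) (FK (M * q * q) K) π, algebraMap (OK A K) (FK (M * q * q) K) π,
        Wit3.sE M q hq hqM K]
      ![GaussV.V1 (M * q * q) A K hdvr, GaussV.V2 (WQ2.wK2 M q hq hqM K) hdvr, H.W3] :=
  Val3.valHyp3 M q hq hqM A K hdvr hA hπ H.W3 (s_nonunit3 H) (disc3 H) (ram3 H π hπϖ)
    (x1_pi3 H hdvr hA hπ a hqa) (x2_pi3 H hdvr hA hπ)

omit H in
/-- **Closed form** for the algebraic middle-cusp embedding `Iota3.iota3` over
`K' = BaseXi.Kxi K ξ`, with `π = q` (unramified base). -/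
theorem valHyp3_iota3 (M q : ℕ) [NeZero M] [NeZero q] (hq : q.Prime) (hqM : ¬ q ∣ M)
    (A : ValuationSubring Qb) (K : IntermediateField ℚ Qb)
    (hdvr : IsDiscreteValuationRing (OK A K)) (hA : A.LiesOverPrime q)
    (π : OK A K) (hπ : Irreducible π) (hπq : incO A K π = (q : Qb)) {ξ : Qb}
    (hξ : IsPrimitiveRoot ξ q) :
    Model3Plan.ValHyp3 (algebraMap (OK A K) (FK (M * q * q) K) π) (Model3Plan.ram q)
      ![algebraMap (OK A K) (FK (M * q * q) K) π, algebraMap (OK A K) (FK (M * q * q) K) π,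
        Wit3.sE M q hq hqM K]
      ![GaussV.V1 (M * q * q) A K hdvr, GaussV.V2 (WQ2.wK2 M q hq hqM K) hdvr,
        (V3.hyp3_iota3 hq hqM A hdvr π hπ hπq hξ).W3] :=
  valHyp3 (V3.hyp3_iota3 hq hqM A hdvr π hπ hπq hξ) hdvr hA hπ 1
    (by rw [hπq, OneMemClass.coe_one, mul_one]) (BaseXi.exists_unit hq π hπ hπq hξ)

end Fermat.Agent.S36.V3Wit
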