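/-
S36 — Wit3Inst.lean (helper128), block [MODEL3], leaves [M3.4]/[M3.5] glue: the INSTANCE of
`NValChart.Wit` (helper110) at level `N = M * q * q` (`q` prime, `q ∤ M`) over the level-`M`
chart `chart_M(j)`, for the three valuation rings

  `V = ![W1, W2, W3]`,  `W1 = GaussV.V1`,  `W2 = GaussV.V2 (WQ2.wK2 …)`,  `W3` ABSTRACT,

ramification `e = Model3Plan.ram q = (1, 1, q - 1)`, residue degrees `f = (1, q * q, 1)`,
separating elements `x = (x1, x2, x3)`, uniformizers `s = (π, π, sE)` and residue bases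
`b = (1; jqq ^ i, i < q * q; 1)` (vocabulary of `S36/Wit3`).

The facts on `W3` are the fields of `Hyp3W` (discharged by `S36/V3` + `S36/Wit3W3`).

* `Hyp3W`                 : the `W3`-side hypotheses;
* `x1_ne_zero`, `x2_ne_zero`, `x3_ne_zero` : the separating elements are nonzero;
* `wit`                   : the `NValChart.Wit` instance;
* `desc0_j`, `exists_mul_mem_chart_j` : `desc` and (T0) for the chart `j ≠ ∞` at level `N`
                            along `W1 ⊓ W2 ⊓ W3` (`NValChart.desc0`, `exists_mul_mem_chart_j`);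
* `inc_unit`              : `inc r` is a unit of every `V a` for `r ∈ chart_M(j)`, `π ∤ r`.
-/
import Mathlib
import Fermat.Agent.S36.Wit3Set
import Fermat.Agent.S36.NValChart
import Fermat.Agent.S36.Model3Plan
import Fermat.Agent.S28.FormalUniqueB

set_option autoImplicit false

noncomputable section

namespace Fermat.Agent.S36.Wit3Inst

open ModularCurve ModularCurve.IgusaScheme AlgebraicCurve HahnSeries
open Fermat.Agent.S18 Fermat.Agent.S18.Arith Fermat.Agent.S18.ModelPlan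
open Fermat.Agent.S34

variable (M q : ℕ) [NeZero M] [NeZero q] (hq : q.Prime) (hqM : ¬ q ∣ M)
variable (A : ValuationSubring Qb) (K : IntermediateField ℚ Qb)

/-! ### The separating elements are nonzero -/

/-- `x1 ≠ 0`. -/
theorem x1_ne_zero (hA : A.LiesOverPrime q) : Wit3.x1 M q hq hqM K ≠ 0 := by
  have : Fact q.Prime := ⟨hq⟩
  intro h0
  have h1 := Wit3.gRel_x1 A q
  rw [← Wit3.coe_x1 M q hq hqM K, h0] at h1
  have h2 : GRel A (0 : LaurentSeries Qb) 0 := by
    have := (V12Rel.gFacts A).of_int 0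
    simpa using this
  exact Wit3.redX1_ne_zero A q hA ((V12Rel.gFacts A).unique _ _ _ h1 h2)

/-- `x2 ≠ 0`. -/
theorem x2_ne_zero (hA : A.LiesOverPrime q) : Wit3.x2 M q hq hqM K ≠ 0 := by
  rw [← Wit3.wK2_x1]
  exact (map_ne_zero _).mpr (x1_ne_zero M q hq hqM A K hA)

/-- `j ≠ jqq ^ (q ^ 2)` (orders of the `q`-expansions). -/
theorem jK_sub_pow_ne_zero :
    jK (M * q * q) K - WQ2.jqqK2 M q hq hqM K ^ (q ^ 2) ≠ 0 := by
  intro h0
  have h1 : ((jK (M * q * q) K : FK (M * q * q) K) : LaurentSeries Qb)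
      = ((WQ2.jqqK2 M q hq hqM K ^ (q ^ 2) : FK (M * q * q) K) : LaurentSeries Qb) := by
    rw [sub_eq_zero.mp h0]
  rw [ModelQFrac.coe_jK, SubmonoidClass.coe_pow, Wit3.coe_jqq] at h1
  have hj0 : jqModC Qb ≠ 0 := jqModC_ne_zero_of_nontrivial Qb
  have h2 := congrArg HahnSeries.order h1
  have : NeZero (q * q) := ⟨Nat.mul_ne_zero (NeZero.ne q) (NeZero.ne q)⟩
  rw [HahnSeries.order_pow, Fermat.Agent.S28.FormalUniqueB.order_qExpand Qb (q * q) hj0,
    SepDeg.order_jqModC] at h2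
  have hq2 : 2 ≤ q := hq.two_le
  have h3 : (1 : ℤ) = (q : ℤ) ^ 2 * ((q : ℤ) * q) := by
    have h4 : (-1 : ℤ) = (q ^ 2 : ℕ) • (((q * q : ℕ) : ℤ) * (-1)) := h2
    rw [nsmul_eq_mul] at h4
    push_cast at h4
    linarith
  have h5 : (2 : ℤ) ≤ q := by exact_mod_cast hq2
  nlinarith [sq_nonneg ((q : ℤ)), mul_pos (by linarith : (0 : ℤ) < q) (by linarith : (0 : ℤ) < q)]

/-- `x3 ≠ 0`. -/
theorem x3_ne_zero : Wit3.x3 M q hq hqM K ≠ 0 := by
  have h1 := jK_sub_pow_ne_zero M q hq hqM K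
  have h2 : WQ2.jqqK2 M q hq hqM K - jK (M * q * q) K ^ (q ^ 2) ≠ 0 := by
    have h3 := (map_ne_zero (WQ2.wK2 M q hq hqM K)).mpr h1
    rwa [map_sub, map_pow, WQ2.wK2_jK, WQ2.wK2_jqqK2] at h3
  exact mul_ne_zero h2 h1

/-! ### The hypotheses on `W3` -/

variable (hdvr : IsDiscreteValuationRing (OK A K))

/-- **The `W3`-side hypotheses** of the witness block (discharged by `S36/V3`, `S36/Wit3W3`). -/
structure Hyp3W (π : OK A K) (W3 : ValuationSubring (FK (M * q * q) K)) : Prop where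
  /-- the level-`M` chart lies in `W3` -/
  le3 : ∀ r : ↥(chart M A K (jK M K)), Wit3Set.inc M q K (r : FK M K) ∈ W3
  /-- residue degree one along `W3`: nonunits of the level-`M` chart are divisible by `π` -/
  ind3 : ∀ r : ↥(chart M A K (jK M K)), Wit3Set.inc M q K (r : FK M K) ∈ W3.nonunits →
    algebraMap (OK A K) ↥(chart M A K (jK M K)) π ∣ r
  x1_pi3 : ∃ z ∈ W3, Wit3.x1 M q hq hqM K = algebraMap (OK A K) (FK (M * q * q) K) π * z
  x2_pi3 : ∃ z ∈ W3, Wit3.x2 M q hq hqM K = algebraMap (OK A K) (FK (M * q * q) K) π * z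
  x3_unit3 : Wit3.x3 M q hq hqM K ∈ W3 ∧ (Wit3.x3 M q hq hqM K)⁻¹ ∈ W3
  s_nonunit3 : Wit3.sE M q hq hqM K ∈ W3.nonunits
  /-- `π = sE ^ (q - 1) * unit` in `W3` -/
  ram3 : ∃ z ∈ W3, z⁻¹ ∈ W3 ∧
    algebraMap (OK A K) (FK (M * q * q) K) π = Wit3.sE M q hq hqM K ^ (q - 1) * z
  jqq_mem3 : WQ2.jqqK2 M q hq hqM K ∈ W3

variable {M q hq hqM A K}

/-- `sE ∈ W3`. -/
theorem Hyp3W.s_mem3 {π : OK A K} {W3 : ValuationSubring (FK (M * q * q) K)}
    (H : Hyp3W M q hq hqM A K π W3) : Wit3.sE M q hq hqM K ∈ W3 :=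
  (W3.valuation_le_one_iff _).mp (le_of_lt (W3.mem_nonunits_iff.mp H.s_nonunit3))

/-- `π ∈ W3`. -/
theorem Hyp3W.pi_mem3 {π : OK A K} {W3 : ValuationSubring (FK (M * q * q) K)}
    (H : Hyp3W M q hq hqM A K π W3) : algebraMap (OK A K) (FK (M * q * q) K) π ∈ W3 := by
  obtain ⟨z, hz, -, hπz⟩ := H.ram3
  rw [hπz]
  exact W3.mul_mem _ _ (pow_mem H.s_mem3 _) hz

variable (M q hq hqM A K)

/-! ### The instance -/

/-- The residue bases: `b 1 i = jqq ^ i`, `b 0 _ = b 2 _ = 1`. -/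
def bfam (a : Fin 3) (i : Fin ((![1, q * q, 1] : Fin 3 → ℕ) a)) : FK (M * q * q) K :=
  if a = 1 then Wit3.bE M q hq hqM K (i : ℕ) else 1

/-- **The `NValChart.Wit` instance** at level `M * q * q` over the level-`M` chart `j ≠ ∞`. -/
theorem wit (hA : A.LiesOverPrime q)
    (hC : ChartFacts M A K (chart M A K (jK M K)) (jK M K))
    {π : OK A K} (hπ : Irreducible π) (W3 : ValuationSubring (FK (M * q * q) K))
    (H : Hyp3W M q hq hqM A K π W3) :
    NValChart.Wit M (M * q * q) (Wit3Set.dvd_level M q) A (jK M K) π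
      ![GaussV.V1 (M * q * q) A K hdvr, GaussV.V2 (WQ2.wK2 M q hq hqM K) hdvr, W3]
      (Model3Plan.ram q) ![1, q * q, 1]
      ![Wit3.x1 M q hq hqM K, Wit3.x2 M q hq hqM K, Wit3.x3 M q hq hqM K]
      ![algebraMap (OK A K) (FK (M * q * q) K) π, algebraMap (OK A K) (FK (M * q * q) K) π,
        Wit3.sE M q hq hqM K]
      (bfam M q hq hqM K) := by
  have hπ1 : algebraMap (OK A K) (FK (M * q * q) K) π ∈ GaussV.V1 (M * q * q) A K hdvr :=
    GaussV.algebraMap_mem_V1 (N := M * q * q) hdvr π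
  have hπ2 : algebraMap (OK A K) (FK (M * q * q) K) π
      ∈ GaussV.V2 (WQ2.wK2 M q hq hqM K) hdvr := by
    rw [GaussV.mem_V2_iff, WQ2.wK2_algebraMap_OK]
    exact hπ1
  refine
    { le := ?_, hx_ne := ?_, hx := ?_, hx_inv := ?_, hx' := ?_, hs := ?_, hs' := ?_, hπ := ?_,
      hb := ?_, ind := ?_, deg := ?_ }
  · -- le
    intro a r
    fin_cases a
    · exact Wit3Set.le1 M q A K hdvr hC r
    · exact Wit3Set.le2 M q hq hqM A K hdvr hC r
    · exact H.le3 r
  · -- hx_ne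
    intro a
    fin_cases a
    · exact x1_ne_zero M q hq hqM A K hA
    · exact x2_ne_zero M q hq hqM A K hA
    · exact x3_ne_zero M q hq hqM K
  · -- hx
    intro a
    fin_cases a
    · exact (Wit3.x1_unit1 M q hq hqM A K hdvr hA).1
    · exact (Wit3.x2_unit2 M q hq hqM A K hdvr hA).1
    · exact H.x3_unit3.1
  · -- hx_inv
    intro a
    fin_cases a
    · exact (Wit3.x1_unit1 M q hq hqM A K hdvr hA).2
    · exact (Wit3.x2_unit2 M q hq hqM A K hdvr hA).2
    · exact H.x3_unit3.2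
  · -- hx'
    intro a a' ha
    fin_cases a <;> fin_cases a'
    · exact absurd rfl ha
    · exact Wit3.x2_pi1 M q hq hqM A K hdvr hA hπ
    · exact Wit3.x3_pi1 M q hq hqM A K hdvr hA hπ
    · exact Wit3.x1_pi2 M q hq hqM A K hdvr hA hπ
    · exact absurd rfl ha
    · exact Wit3.x3_pi2 M q hq hqM A K hdvr hA hπ
    · exact H.x1_pi3
    · exact H.x2_pi3
    · exact absurd rfl ha
  · -- hs
    intro a
    fin_cases a
    · exact Wit3Set.pi_nonunit1 M q A K hdvr hπ
    · exact Wit3Set.pi_nonunit2 M q hq hqM A K hdvr hπ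
    · exact H.s_nonunit3
  · -- hs'
    intro a a'
    fin_cases a <;> fin_cases a'
    · exact hπ1
    · exact hπ1
    · exact (Wit3.s_unit1 M q hq hqM A K hdvr).1
    · exact hπ2
    · exact hπ2
    · exact (Wit3.s_unit2 M q hq hqM A K hdvr).1
    · exact H.pi_mem3
    · exact H.pi_mem3
    · exact H.s_mem3
  · -- hπ
    intro a
    fin_cases a
    · exact ⟨1, one_mem _, by simp [Model3Plan.ram]⟩
    · exact ⟨1, one_mem _, by simp [Model3Plan.ram]⟩
    · obtain ⟨z, hz, -, hπz⟩ := H.ram3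
      exact ⟨z, hz, hπz⟩
  · -- hb
    intro a a' i
    have hb1 : ∀ n : ℕ, Wit3.bE M q hq hqM K n ∈ GaussV.V1 (M * q * q) A K hdvr :=
      fun n => Wit3.b_mem1 M q hq hqM A K hdvr n
    have hb2 : ∀ n : ℕ, Wit3.bE M q hq hqM K n ∈ GaussV.V2 (WQ2.wK2 M q hq hqM K) hdvr :=
      fun n => Wit3.b_mem2 M q hq hqM A K hdvr n
    have hb3 : ∀ n : ℕ, Wit3.bE M q hq hqM K n ∈ W3 := fun n => pow_mem H.jqq_mem3 n
    unfold bfam
    split_ifs
    · fin_cases a
      · exact hb1 _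
      · exact hb2 _
      · exact hb3 _
    · exact one_mem _
  · -- ind
    have h0 : ∀ c : Fin 1 → ↥(chart M A K (jK M K)),
        (∑ i : Fin 1, Red3.chartHom M (M * q * q) (Wit3Set.dvd_level M q) A (jK M K) (c i) *
          bfam M q hq hqM K 0 i) ∈ (GaussV.V1 (M * q * q) A K hdvr).nonunits →
        ∀ i, algebraMap (OK A K) ↥(chart M A K (jK M K)) π ∣ c i := by
      intro c hc i
      have hi : i = 0 := Subsingleton.elim _ _
      have hb : bfam M q hq hqM K 0 (0 : Fin 1) = 1 := by simp [bfam]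
      rw [Fin.sum_univ_one, hb, mul_one] at hc
      rw [hi]
      exact Wit3Set.ind1 M q A K hdvr hC hπ (c 0) hc
    have h1 : ∀ c : Fin (q * q) → ↥(chart M A K (jK M K)),
        (∑ i : Fin (q * q), Red3.chartHom M (M * q * q) (Wit3Set.dvd_level M q) A (jK M K)
          (c i) * bfam M q hq hqM K 1 i)
          ∈ (GaussV.V2 (WQ2.wK2 M q hq hqM K) hdvr).nonunits →
        ∀ i, algebraMap (OK A K) ↥(chart M A K (jK M K)) π ∣ c i := by
      intro c hc
      refine Wit3Set.ind2 M q hq hqM A K hdvr hC hπ c ?_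
      have hsum : (∑ i : Fin (q * q), Red3.chartHom M (M * q * q) (Wit3Set.dvd_level M q) A
          (jK M K) (c i) * bfam M q hq hqM K 1 i)
          = ∑ i : Fin (q * q), Wit3Set.inc M q K ((c i : FK M K)) *
              Wit3.bE M q hq hqM K (i : ℕ) := by
        refine Finset.sum_congr rfl fun i _ => ?_
        have hb : bfam M q hq hqM K 1 i = Wit3.bE M q hq hqM K (i : ℕ) := by simp [bfam]
        rw [hb]
        rfl
      rw [← hsum]
      exact hc
    have h2 : ∀ c : Fin 1 → ↥(chart M A K (jK M K)),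
        (∑ i : Fin 1, Red3.chartHom M (M * q * q) (Wit3Set.dvd_level M q) A (jK M K) (c i) *
          bfam M q hq hqM K 2 i) ∈ W3.nonunits →
        ∀ i, algebraMap (OK A K) ↥(chart M A K (jK M K)) π ∣ c i := by
      intro c hc i
      have hi : i = 0 := Subsingleton.elim _ _
      have hb : bfam M q hq hqM K 2 (0 : Fin 1) = 1 := by simp [bfam]
      rw [Fin.sum_univ_one, hb, mul_one] at hc
      rw [hi]
      exact H.ind3 (c 0) hc
    intro a
    fin_cases a
    · exact h0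
    · exact h1
    · exact h2
  · -- deg
    rw [Wit3Set.dedekindPsi_level M q hq hqM]
    refine Nat.mul_le_mul_left _ (le_of_eq ?_)
    rw [Fin.sum_univ_three]
    have hq1 : 1 ≤ q := hq.one_lt.le
    simp only [Model3Plan.ram, Matrix.cons_val_zero, Matrix.cons_val_one, Matrix.cons_val_two,
      Matrix.head_cons, Matrix.tail_cons]
    obtain ⟨k, rfl⟩ : ∃ k, q = k + 1 := ⟨q - 1, by omega⟩
    simp
    ring

end Fermat.Agent.S36.Wit3Inst

end
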