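/-
S36 — Model3Top.lean (helper128), block [MODEL3], leaf [M3.8]: the ASSEMBLY of
`Model3Plan.Model3 (M * q * q) A K π (ram q) ![π, π, sE] ![W1, W2, W3] J3` for the concrete
objects of record

  `W1 = GaussV.V1`, `W2 = GaussV.V2 (WQ2.wK2 …)`, `W3 = H.W3` (`H : V3.Hyp3 …`, the Gauss valuation
  ring along the middle-cusp embedding), `J3 = Chart3B.J3 = j · j_q · j_{q²}`,

from the landed leaves: `Val3` / `V3Wit` (valuations), `Chart3B` (charts), `Wit3Inst` +
`NValChart` + `Red3` (`desc`, (T1)), `LocInst3` (`loc`), `Level3J3B` + `ResDeg3Inst` (`branch`), and the point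
field `princ` of both charts as hypotheses (inputs (B1), [N10], [CUSP1]; see `Princ3Cases`).

* `hyp3W`           : the `W3`-side witness hypotheses `Wit3Inst.Hyp3W` for `H.W3`;
* `wit`             : the `NValChart.Wit` instance for `![W1, W2, H.W3]`;
* `le0`, `leInf`    : both charts lie in the three valuation rings;
* `desc0`, `descInf`: reducedness of both charts along `W1 ⊓ W2 ⊓ W3`;
* `hT1`, `loc`      : (T1) and the `loc` field for `chart J3`;
* `gRel_s`          : the Gauss reduction of `ι (jqq - j)` is `0`;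
* `hf1`, `hf3`      : residue degree one along `W1`, `W3` (`ResDeg3Inst`);
* `model3`          : **the model**, with the field `princ` of both charts as hypotheses.
-/
import Mathlib
import Fermat.Agent.S34.Red2B
import Fermat.Agent.S36.Model3Asm
import Fermat.Agent.S36.Chart3B
import Fermat.Agent.S36.LocInst3
import Fermat.Agent.S36.Level3J3B
import Fermat.Agent.S36.Wit3Inst
import Fermat.Agent.S36.V3Wit
import Fermat.Agent.S36.ResDeg3Inst

set_option autoImplicit false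

noncomputable section

namespace Fermat.Agent.S36.Model3Top

open ModularCurve ModularCurve.IgusaScheme AlgebraicCurve HahnSeries
open Fermat.Agent.S18 Fermat.Agent.S18.Arith Fermat.Agent.S18.ModelPlan
open Fermat.Agent.S34 Fermat.Agent.S36.Model3Plan

variable {M q : ℕ} [NeZero M] [NeZero q] {hq : q.Prime} {hqM : ¬ q ∣ M}
variable {A : ValuationSubring Qb} {K K' : IntermediateField ℚ Qb}
variable {ξ : Qb} {hξ0 : ξ ≠ 0} {ι : FK (M * q * q) K →+* LaurentSeries Qb} {ϖ : OK A K'}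
variable (H : V3.Hyp3 M q hq hqM A K K' ξ hξ0 ι ϖ)

include H

/-! ### The witness block on `H.W3` -/

include hq in
/-- The `W3`-side witness hypotheses for `H.W3`. -/
theorem hyp3W (hdvr : IsDiscreteValuationRing (OK A K)) (hA : A.LiesOverPrime q)
    (hC : ChartFacts M A K (chart M A K (jK M K)) (jK M K))
    {π : OK A K} (hπ : Irreducible π) (a : A) (hqa : (q : Qb) = incO A K π * (a : Qb))
    (hπϖ : ∃ u : A, IsUnit u ∧ incO A K π = incO A K' ϖ ^ (q - 1) * (u : Qb)) :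
    Wit3Inst.Hyp3W M q hq hqM A K π H.W3 where
  le3 := V3Wit.le3 H hC
  ind3 := V3Wit.ind3 H hdvr hπ hC
  x1_pi3 := V3Wit.x1_pi3 H hdvr hA hπ a hqa
  x2_pi3 := V3Wit.x2_pi3 H hdvr hA hπ
  x3_unit3 := V3Wit.x3_unit3 H hA
  s_nonunit3 := V3Wit.s_nonunit3 H
  ram3 := V3Wit.ram3 H π hπϖ
  jqq_mem3 := (V3Wit.jqq_unit3 H).1

include hq in
/-- The `NValChart.Wit` instance for `![W1, W2, H.W3]`. -/
theorem wit (hdvr : IsDiscreteValuationRing (OK A K)) (hA : A.LiesOverPrime q)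
    (hC : ChartFacts M A K (chart M A K (jK M K)) (jK M K))
    {π : OK A K} (hπ : Irreducible π) (a : A) (hqa : (q : Qb) = incO A K π * (a : Qb))
    (hπϖ : ∃ u : A, IsUnit u ∧ incO A K π = incO A K' ϖ ^ (q - 1) * (u : Qb)) :
    NValChart.Wit M (M * q * q) (Wit3Set.dvd_level M q) A (jK M K) π
      ![GaussV.V1 (M * q * q) A K hdvr, GaussV.V2 (WQ2.wK2 M q hq hqM K) hdvr, H.W3]
      (Model3Plan.ram q) ![1, q * q, 1]
      ![Wit3.x1 M q hq hqM K, Wit3.x2 M q hq hqM K, Wit3.x3 M q hq hqM K]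
      ![algebraMap (OK A K) (FK (M * q * q) K) π, algebraMap (OK A K) (FK (M * q * q) K) π,
        Wit3.sE M q hq hqM K]
      (Wit3Inst.bfam M q hq hqM K) :=
  Wit3Inst.wit M q hq hqM A K hdvr hA hC hπ H.W3 (hyp3W H hdvr hA hC hπ a hqa hπϖ)

/-! ### The charts inside the valuation rings -/

/-- `chart J3 ⊆ V i`. -/
theorem le0 (hdvr : IsDiscreteValuationRing (OK A K)) :
    ∀ i : Fin 3, ∀ x ∈ chart (M * q * q) A K (Chart3B.J3 M q hq hqM K),
      x ∈ (![GaussV.V1 (M * q * q) A K hdvr, GaussV.V2 (WQ2.wK2 M q hq hqM K) hdvr, H.W3] :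
        Fin 3 → ValuationSubring (FK (M * q * q) K)) i := fun i x hx =>
  Chart3B.le3 M q hq hqM A K hdvr _ rfl rfl (fun c => H.algebraMap_mem c) (V3Wit.j_unit3 H).1
    (V3Wit.jq_unit3 H).1 (V3Wit.jqq_unit3 H).1 i ⟨x, hx⟩

/-- `chart J3⁻¹ ⊆ V i`. -/
theorem leInf (hdvr : IsDiscreteValuationRing (OK A K)) :
    ∀ i : Fin 3, ∀ x ∈ chart (M * q * q) A K (Chart3B.J3 M q hq hqM K)⁻¹,
      x ∈ (![GaussV.V1 (M * q * q) A K hdvr, GaussV.V2 (WQ2.wK2 M q hq hqM K) hdvr, H.W3] :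
        Fin 3 → ValuationSubring (FK (M * q * q) K)) i := fun i x hx =>
  Chart3B.le3_inv M q hq hqM A K hdvr _ rfl rfl (fun c => H.algebraMap_mem c)
    (V3Wit.j_unit3 H).2 (V3Wit.jq_unit3 H).2 (V3Wit.jqq_unit3 H).2 i ⟨x, hx⟩

/-! ### Reducedness of both charts -/

include hq in
/-- **desc** for `chart J3` (`= chart j`). -/
theorem desc0 (hdvr : IsDiscreteValuationRing (OK A K)) (hA : A.LiesOverPrime q)
    (hC : ChartFacts M A K (chart M A K (jK M K)) (jK M K))
    {π : OK A K} (hπ : Irreducible π) (a : A) (hqa : (q : Qb) = incO A K π * (a : Qb))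
    (hπϖ : ∃ u : A, IsUnit u ∧ incO A K π = incO A K' ϖ ^ (q - 1) * (u : Qb)) :
    ∀ z : FK (M * q * q) K,
      (∀ i : Fin 3, z ∈ (![GaussV.V1 (M * q * q) A K hdvr,
        GaussV.V2 (WQ2.wK2 M q hq hqM K) hdvr, H.W3] :
          Fin 3 → ValuationSubring (FK (M * q * q) K)) i) →
      algebraMap (OK A K) (FK (M * q * q) K) π * z
        ∈ chart (M * q * q) A K (Chart3B.J3 M q hq hqM K) →
      z ∈ chart (M * q * q) A K (Chart3B.J3 M q hq hqM K) := by
  rw [Chart3B.chart_J3_eq]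
  exact NValChart.desc0 hC hdvr hπ (wit H hdvr hA hC hπ a hqa hπϖ)

include hq in
/-- **desc** for `chart J3⁻¹`. -/
theorem descInf (hdvr : IsDiscreteValuationRing (OK A K)) (hA : A.LiesOverPrime q)
    (hC : ChartFacts M A K (chart M A K (jK M K)) (jK M K))
    {π : OK A K} (hπ : Irreducible π) (a : A) (hqa : (q : Qb) = incO A K π * (a : Qb))
    (hπϖ : ∃ u : A, IsUnit u ∧ incO A K π = incO A K' ϖ ^ (q - 1) * (u : Qb)) :
    ∀ z : FK (M * q * q) K,
      (∀ i : Fin 3, z ∈ (![GaussV.V1 (M * q * q) A K hdvr,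
        GaussV.V2 (WQ2.wK2 M q hq hqM K) hdvr, H.W3] :
          Fin 3 → ValuationSubring (FK (M * q * q) K)) i) →
      algebraMap (OK A K) (FK (M * q * q) K) π * z
        ∈ chart (M * q * q) A K (Chart3B.J3 M q hq hqM K)⁻¹ →
      z ∈ chart (M * q * q) A K (Chart3B.J3 M q hq hqM K)⁻¹ := by
  have hJ : ∀ i : Fin 3, Chart3B.J3 M q hq hqM K ∈ (![GaussV.V1 (M * q * q) A K hdvr,
      GaussV.V2 (WQ2.wK2 M q hq hqM K) hdvr, H.W3] :
        Fin 3 → ValuationSubring (FK (M * q * q) K)) i := fun i =>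
    le0 H hdvr i _ (Chart3B.J3_mem_chart M q hq hqM A K)
  have h := Red3.descInv_coord (M * q * q) hdvr hπ (Chart3B.J3 M q hq hqM K)
    (Chart3B.transcendental_J3 M q hq hqM A K)
    (⨅ i : Fin 3, ((![GaussV.V1 (M * q * q) A K hdvr,
      GaussV.V2 (WQ2.wK2 M q hq hqM K) hdvr, H.W3] :
        Fin 3 → ValuationSubring (FK (M * q * q) K)) i).toSubring)
    (Subring.mem_iInf.mpr hJ) (Chart3B.glue0 M q hq hqM A K) (Chart3B.glueInf M q hq hqM A K)
    (fun z hz => desc0 H hdvr hA hC hπ a hqa hπϖ z (fun i => Subring.mem_iInf.mp hz i))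
  intro z hz
  exact h z (Subring.mem_iInf.mpr hz)

/-! ### (T1) and `loc` -/

include hq in
/-- **(T1)** every `z ∈ W1 ⊓ W2 ⊓ W3` has a denominator in the level-`M` chart, prime to `π`. -/
theorem hT1 (hdvr : IsDiscreteValuationRing (OK A K)) (hA : A.LiesOverPrime q)
    (hC : ChartFacts M A K (chart M A K (jK M K)) (jK M K))
    {π : OK A K} (hπ : Irreducible π) (a : A) (hqa : (q : Qb) = incO A K π * (a : Qb))
    (hπϖ : ∃ u : A, IsUnit u ∧ incO A K π = incO A K' ϖ ^ (q - 1) * (u : Qb)) :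
    ∀ z : FK (M * q * q) K,
      (∀ i : Fin 3, z ∈ (![GaussV.V1 (M * q * q) A K hdvr,
        GaussV.V2 (WQ2.wK2 M q hq hqM K) hdvr, H.W3] :
          Fin 3 → ValuationSubring (FK (M * q * q) K)) i) →
      ∃ s : ↥(chart M A K (jK M K)), ¬ algebraMap (OK A K) ↥(chart M A K (jK M K)) π ∣ s ∧
        Wit3Set.inc M q K (s : FK M K) * z
          ∈ chart (M * q * q) A K (Chart3B.J3 M q hq hqM K) := by
  intro z hz
  obtain ⟨r, hr, hmem⟩ :=
    NValChart.exists_mul_mem_chart_j hC hdvr hπ (wit H hdvr hA hC hπ a hqa hπϖ) hz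
  refine ⟨r, hr, ?_⟩
  rw [Chart3B.chart_J3_eq]
  exact hmem

include hq in
/-- **`loc`** for `chart J3` (the input `hloc` of `Model3Asm.model3`). -/
theorem loc (hdvr : IsDiscreteValuationRing (OK A K)) (hA : A.LiesOverPrime q)
    (hC : ChartFacts M A K (chart M A K (jK M K)) (jK M K))
    {π : OK A K} (hπ : Irreducible π) (a : A) (hqa : (q : Qb) = incO A K π * (a : Qb))
    (hπϖ : ∃ u : A, IsUnit u ∧ incO A K π = incO A K' ϖ ^ (q - 1) * (u : Qb)) :
    ∀ (i : Fin 3), ∀ y ∈ (![GaussV.V1 (M * q * q) A K hdvr,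
        GaussV.V2 (WQ2.wK2 M q hq hqM K) hdvr, H.W3] :
          Fin 3 → ValuationSubring (FK (M * q * q) K)) i,
      ∃ a' s : ↥(chart (M * q * q) A K (Chart3B.J3 M q hq hqM K)),
        s ∉ Model3Asm.Pc (chart (M * q * q) A K (Chart3B.J3 M q hq hqM K))
          ![algebraMap (OK A K) (FK (M * q * q) K) π,
            algebraMap (OK A K) (FK (M * q * q) K) π, Wit3.sE M q hq hqM K]
          ![GaussV.V1 (M * q * q) A K hdvr, GaussV.V2 (WQ2.wK2 M q hq hqM K) hdvr, H.W3]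
          (le0 H hdvr) i ∧
        y * algebraMap ↥(chart (M * q * q) A K (Chart3B.J3 M q hq hqM K)) (FK (M * q * q) K) s
          = algebraMap ↥(chart (M * q * q) A K (Chart3B.J3 M q hq hqM K))
              (FK (M * q * q) K) a' :=
  LocInst3.loc_J3 M q hq hqM A K hdvr hC hA hπ rfl rfl
    (V3Wit.valHyp3 H hdvr hA hπ a hqa hπϖ) (le0 H hdvr)
    (V3Wit.x1_pi3 H hdvr hA hπ a hqa) (V3Wit.x2_pi3 H hdvr hA hπ) (V3Wit.x3_unit3 H hA).2
    (V3Wit.ind3 H hdvr hπ hC) (hT1 H hdvr hA hC hπ a hqa hπϖ)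

/-! ### The model -/

/-- The Gauss reduction of `ι (jqq - j)` is `0`. -/
theorem gRel_s : GRel A (ι (WQ2.jqqK2 M q hq hqM K - jK (M * q * q) K)) 0 := by
  have h := H.gRel_red3 ⟨Wit3.sE M q hq hqM K, H.s_mem⟩
  rwa [H.red3_s] at h

/-- **[MODEL3]** the model at level `M * q * q` for the valuation rings of record and the
coordinate `J3`, from the field `princ` of both charts. -/
def model3 (hA : A.LiesOverPrime q) (hB : BaseFacts q A K)
    {π : OK A K} (hπ : Irreducible π) (a : A) (hqa : (q : Qb) = incO A K π * (a : Qb))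
    (hπϖ : ∃ u : A, IsUnit u ∧ incO A K π = incO A K' ϖ ^ (q - 1) * (u : Qb))
    (hprinc0 : ChartHyp3 π
        ![algebraMap (OK A K) (FK (M * q * q) K) π, algebraMap (OK A K) (FK (M * q * q) K) π,
          Wit3.sE M q hq hqM K]
        ![GaussV.V1 (M * q * q) A K hB.dvr, GaussV.V2 (WQ2.wK2 M q hq hqM K) hB.dvr, H.W3]
        (Model3Asm.Pc (chart (M * q * q) A K (Chart3B.J3 M q hq hqM K))
          ![algebraMap (OK A K) (FK (M * q * q) K) π,
            algebraMap (OK A K) (FK (M * q * q) K) π, Wit3.sE M q hq hqM K]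
          ![GaussV.V1 (M * q * q) A K hB.dvr, GaussV.V2 (WQ2.wK2 M q hq hqM K) hB.dvr, H.W3]
          (le0 H hB.dvr)) →
      ∀ n : Ideal (chart (M * q * q) A K (Chart3B.J3 M q hq hqM K)), n.IsMaximal →
        algebraMap (OK A K) (chart (M * q * q) A K (Chart3B.J3 M q hq hqM K)) π ∈ n →
        ∃ i : Fin 3,
          Model3Asm.Pc (chart (M * q * q) A K (Chart3B.J3 M q hq hqM K))
            ![algebraMap (OK A K) (FK (M * q * q) K) π,
              algebraMap (OK A K) (FK (M * q * q) K) π, Wit3.sE M q hq hqM K]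
            ![GaussV.V1 (M * q * q) A K hB.dvr, GaussV.V2 (WQ2.wK2 M q hq hqM K) hB.dvr, H.W3]
            (le0 H hB.dvr) i ≤ n ∧
          ∃ g ∈ Model3Asm.Pc (chart (M * q * q) A K (Chart3B.J3 M q hq hqM K))
            ![algebraMap (OK A K) (FK (M * q * q) K) π,
              algebraMap (OK A K) (FK (M * q * q) K) π, Wit3.sE M q hq hqM K]
            ![GaussV.V1 (M * q * q) A K hB.dvr, GaussV.V2 (WQ2.wK2 M q hq hqM K) hB.dvr, H.W3]
            (le0 H hB.dvr) i,
            ∀ y ∈ Model3Asm.Pc (chart (M * q * q) A K (Chart3B.J3 M q hq hqM K))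
              ![algebraMap (OK A K) (FK (M * q * q) K) π,
                algebraMap (OK A K) (FK (M * q * q) K) π, Wit3.sE M q hq hqM K]
              ![GaussV.V1 (M * q * q) A K hB.dvr, GaussV.V2 (WQ2.wK2 M q hq hqM K) hB.dvr,
                H.W3]
              (le0 H hB.dvr) i,
              ∃ s : chart (M * q * q) A K (Chart3B.J3 M q hq hqM K), s ∉ n ∧
                ∃ c : chart (M * q * q) A K (Chart3B.J3 M q hq hqM K), s * y = c * g)
    (hprincInf : ChartHyp3 π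
        ![algebraMap (OK A K) (FK (M * q * q) K) π, algebraMap (OK A K) (FK (M * q * q) K) π,
          Wit3.sE M q hq hqM K]
        ![GaussV.V1 (M * q * q) A K hB.dvr, GaussV.V2 (WQ2.wK2 M q hq hqM K) hB.dvr, H.W3]
        (Model3Asm.Pc (chart (M * q * q) A K (Chart3B.J3 M q hq hqM K)⁻¹)
          ![algebraMap (OK A K) (FK (M * q * q) K) π,
            algebraMap (OK A K) (FK (M * q * q) K) π, Wit3.sE M q hq hqM K]
          ![GaussV.V1 (M * q * q) A K hB.dvr, GaussV.V2 (WQ2.wK2 M q hq hqM K) hB.dvr, H.W3]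
          (leInf H hB.dvr)) →
      ∀ n : Ideal (chart (M * q * q) A K (Chart3B.J3 M q hq hqM K)⁻¹), n.IsMaximal →
        algebraMap (OK A K) (chart (M * q * q) A K (Chart3B.J3 M q hq hqM K)⁻¹) π ∈ n →
        ∃ i : Fin 3,
          Model3Asm.Pc (chart (M * q * q) A K (Chart3B.J3 M q hq hqM K)⁻¹)
            ![algebraMap (OK A K) (FK (M * q * q) K) π,
              algebraMap (OK A K) (FK (M * q * q) K) π, Wit3.sE M q hq hqM K]
            ![GaussV.V1 (M * q * q) A K hB.dvr, GaussV.V2 (WQ2.wK2 M q hq hqM K) hB.dvr, H.W3]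
            (leInf H hB.dvr) i ≤ n ∧
          ∃ g ∈ Model3Asm.Pc (chart (M * q * q) A K (Chart3B.J3 M q hq hqM K)⁻¹)
            ![algebraMap (OK A K) (FK (M * q * q) K) π,
              algebraMap (OK A K) (FK (M * q * q) K) π, Wit3.sE M q hq hqM K]
            ![GaussV.V1 (M * q * q) A K hB.dvr, GaussV.V2 (WQ2.wK2 M q hq hqM K) hB.dvr, H.W3]
            (leInf H hB.dvr) i,
            ∀ y ∈ Model3Asm.Pc (chart (M * q * q) A K (Chart3B.J3 M q hq hqM K)⁻¹)
              ![algebraMap (OK A K) (FK (M * q * q) K) π,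
                algebraMap (OK A K) (FK (M * q * q) K) π, Wit3.sE M q hq hqM K]
              ![GaussV.V1 (M * q * q) A K hB.dvr, GaussV.V2 (WQ2.wK2 M q hq hqM K) hB.dvr,
                H.W3]
              (leInf H hB.dvr) i,
              ∃ s : chart (M * q * q) A K (Chart3B.J3 M q hq hqM K)⁻¹, s ∉ n ∧
                ∃ c : chart (M * q * q) A K (Chart3B.J3 M q hq hqM K)⁻¹, s * y = c * g) :
    Model3 (M * q * q) A K π (Model3Plan.ram q)
      ![algebraMap (OK A K) (FK (M * q * q) K) π, algebraMap (OK A K) (FK (M * q * q) K) π,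
        Wit3.sE M q hq hqM K]
      ![GaussV.V1 (M * q * q) A K hB.dvr, GaussV.V2 (WQ2.wK2 M q hq hqM K) hB.dvr, H.W3]
      (Chart3B.J3 M q hq hqM K) :=
  haveI : Fact q.Prime := ⟨hq⟩
  have hC : ChartFacts M A K (chart M A K (jK M K)) (jK M K) :=
    Red2B.chartFacts M q hq hqM A K hA hB
  have hR := Chart3B.rings M q hq hqM A K hB.dvr
  have hW := wit H hB.dvr hA hC hπ a hqa hπϖ
  have hf1 := ResDeg3Inst.hf1 M q hB.dvr hπ hC hW
  have hf3 := ResDeg3Inst.hf3' M q hq hB.dvr hπ hC H.mid.alpha (V3Wit.hW3 H) hW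
  Model3Asm.model3 π (Model3Plan.ram q) _ _ (Chart3B.J3 M q hq hqM K) hπ
    (V3Wit.valHyp3 H hB.dvr hA hπ a hqa hπϖ)
    (GaussV.algebraMap_ne_zero (M * q * q) A K hπ.ne_zero)
    (Chart3B.J3_ne_zero M q hq hqM K) hR.2.2.1 (le0 H hB.dvr) (leInf H hB.dvr)
    hR.1.1 hR.1.2.1 hR.1.2.2 hR.2.1.1 hR.2.1.2.1 hR.2.1.2.2
    (loc H hB.dvr hA hC hπ a hqa hπϖ) (desc0 H hB.dvr hA hC hπ a hqa hπϖ)
    (descInf H hB.dvr hA hC hπ a hqa hπϖ)
    (fun hyp => Level3J3B.branch3_J3 M q hq hqM hA hB π hπ H.emb H.dvr' H.irr H.unif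
      H.mid.alpha (gRel_s H) hf1 hf3 _ hyp)
    hprinc0
    (fun hyp => Level3J3B.branch3_J3_inv M q hq hqM hA hB π hπ H.emb H.dvr' H.irr H.unif
      H.mid.alpha (gRel_s H) hf1 hf3 _ hyp)
    hprincInf

end Fermat.Agent.S36.Model3Top

end
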