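/-
S36 — ChainM3.lean (helper40; last-mile slice dealt by the captain helper85, for helper87's
`ChainInst` / helper97's `ChainInstB`).

THE TUPLE OF RECORD over an unramified base `K` (in the application `K = ℚ̄^{I_A}`, the inertia
field) and the `Model3` half of the last mile:

  `π`  : the uniformizer of `O = A ∩ K` with `incO π = q`            (`Plan.UnrBase`, clause 2),
  `ξ`  : a primitive `q`-th root of unity of `ℚ̄`,
  `H`  : `V3.hyp3_iota3 …` (middle-cusp embedding `Iota3.iota3`, `K' = BaseXi.Kxi K ξ`),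
  `ϖ₃` : `![π, π, s]`,  `s = Wit3.sE = j_{q²} − j`,
  `V₃` : `![GaussV.V1, GaussV.V2 (wK2), H.W3]`,
  `t`  : `Chart3B.J3 = j · j_q · j_{q²}`.

Exports (every still-open input of the chain is ONE named `Prop` at this tuple):

* `PrincAt`           — the shape of the inputs `hprinc0` / `hprincInf` of `Model3Top.model3`
                        (= the field `princ` of `ChartModel3` for a chart);
* `RecProp`           — for one `(m, A, K, π, ξ)`: `PrincAt` on both charts ∧ `CorrProp`
                        ∧ `LocAsm3.TorOutProp`, all at the tuple of record;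
* `RecPropM`          — the same with `Nonempty (Model3 …)` in place of the two `PrincAt`;
* `model3_rec`        — `Model3Top.model3` at the tuple of record from the two `PrincAt`
                        (`a = 1`, `hπϖ = BaseXi.exists_unit`);
* `recPropM_of_recProp`;
* `exists_unif`, `exists_xi` — the choices of `π`, `ξ`;
* `chain_point`       — the existential of `LocAsm3.ChainStatement` at one `(m, A, K)`;
* `chainL_of_rec`, `chainL_of_recM` — `LocAsm3L.ChainStatementL M q` (base = inertia field);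
* `chain_of_rec`, `chain_of_recM`   — `LocAsm3.ChainStatement M q` (all unramified bases).
-/
import Mathlib
import Fermat.Agent.S36.Model3Top
import Fermat.Agent.S36.LocAsm3L

set_option autoImplicit false

noncomputable section

namespace Fermat.Agent.S36.ChainM3

open ModularCurve AlgebraicCurve HahnSeries
open Fermat.Agent.S18 Fermat.Agent.S18.Arith
open Fermat.Agent.S34 Fermat.Agent.S36.Model3Plan

/-! ### The shape of the `princ` inputs -/

section Shape

variable {N : ℕ} [NeZero N] {A : ValuationSubring Qb} {K : IntermediateField ℚ Qb}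

/-- The shape of the inputs `hprinc0` / `hprincInf` of `Model3Top.model3` (and of
`Model3Asm.model3`): under the chart hypotheses, at every closed point of the special fibre one
of the vertical ideals through the point is locally principal. -/
def PrincAt (R : Subalgebra (OK A K) (FK N K)) (π : OK A K) (ϖ : Fin 3 → FK N K)
    (V : Fin 3 → ValuationSubring (FK N K)) (hle : ∀ i : Fin 3, ∀ x ∈ R, x ∈ V i) :
    Prop :=
  ChartHyp3 π ϖ V (Model3Asm.Pc R ϖ V hle) →
    ∀ n : Ideal R, n.IsMaximal → algebraMap (OK A K) R π ∈ n →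
      ∃ i : Fin 3, Model3Asm.Pc R ϖ V hle i ≤ n ∧
        ∃ g ∈ Model3Asm.Pc R ϖ V hle i, ∀ y ∈ Model3Asm.Pc R ϖ V hle i,
          ∃ s : R, s ∉ n ∧ ∃ c : R, s * y = c * g

end Shape

/-! ### The tuple of record -/

section Record

variable (M q : ℕ) [NeZero M] [NeZero q] (hq : q.Prime) (hqM : ¬ q ∣ M)
  (A : ValuationSubring Qb) (K : IntermediateField ℚ Qb)

/-- The uniformizers of record `![π, π, s]`. -/
abbrev unif3 (π : OK A K) : Fin 3 → FK (M * q * q) K :=
  ![algebraMap (OK A K) (FK (M * q * q) K) π, algebraMap (OK A K) (FK (M * q * q) K) π,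
    Wit3.sE M q hq hqM K]

/-- The valuation rings of record `![W1, W2, W3]` for the middle-cusp embedding `Iota3.iota3`. -/
abbrev val3 (hdvr : IsDiscreteValuationRing (OK A K)) (π : OK A K) (hπ : Irreducible π)
    (hπq : incO A K π = (q : Qb)) (ξ : Qb) (hξ : IsPrimitiveRoot ξ q) :
    Fin 3 → ValuationSubring (FK (M * q * q) K) :=
  ![GaussV.V1 (M * q * q) A K hdvr, GaussV.V2 (WQ2.wK2 M q hq hqM K) hdvr,
    (V3.hyp3_iota3 hq hqM A hdvr π hπ hπq hξ).W3]

/-- **The open inputs of the chain at the tuple of record**, for one `(m, A, K, π, ξ)`: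
`princ` on both charts, `CorrProp`, `TorOutProp`. -/
def RecProp (m : ℕ) (hdvr : IsDiscreteValuationRing (OK A K)) (π : OK A K) (hπ : Irreducible π)
    (hπq : incO A K π = (q : Qb)) (ξ : Qb) (hξ : IsPrimitiveRoot ξ q) : Prop :=
  PrincAt (chart (M * q * q) A K (Chart3B.J3 M q hq hqM K)) π (unif3 M q hq hqM A K π)
      (val3 M q hq hqM A K hdvr π hπ hπq ξ hξ)
      (Model3Top.le0 (V3.hyp3_iota3 hq hqM A hdvr π hπ hπq hξ) hdvr) ∧
    PrincAt (chart (M * q * q) A K (Chart3B.J3 M q hq hqM K)⁻¹) π (unif3 M q hq hqM A K π)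
      (val3 M q hq hqM A K hdvr π hπ hπq ξ hξ)
      (Model3Top.leInf (V3.hyp3_iota3 hq hqM A hdvr π hπ hπq hξ) hdvr) ∧
    LocAsm3.CorrProp M q m A K π (unif3 M q hq hqM A K π)
      (val3 M q hq hqM A K hdvr π hπ hπq ξ hξ) ∧
    LocAsm3.TorOutProp M q m A K π (val3 M q hq hqM A K hdvr π hπ hπq ξ hξ)
      (Chart3B.J3 M q hq hqM K)

/-- The same with the model itself in place of the two `princ` inputs. -/
def RecPropM (m : ℕ) (hdvr : IsDiscreteValuationRing (OK A K)) (π : OK A K)
    (hπ : Irreducible π) (hπq : incO A K π = (q : Qb)) (ξ : Qb) (hξ : IsPrimitiveRoot ξ q) :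
    Prop :=
  Nonempty (Model3 (M * q * q) A K π (Model3Plan.ram q) (unif3 M q hq hqM A K π)
      (val3 M q hq hqM A K hdvr π hπ hπq ξ hξ) (Chart3B.J3 M q hq hqM K)) ∧
    LocAsm3.CorrProp M q m A K π (unif3 M q hq hqM A K π)
      (val3 M q hq hqM A K hdvr π hπ hπq ξ hξ) ∧
    LocAsm3.TorOutProp M q m A K π (val3 M q hq hqM A K hdvr π hπ hπq ξ hξ)
      (Chart3B.J3 M q hq hqM K)

variable {M q hq hqM A K}

/-- **The model of record** from the `princ` inputs on both charts: `Model3Top.model3` with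
`a = 1` and `hπϖ = BaseXi.exists_unit`. -/
def model3_rec (hA : A.LiesOverPrime q) (hB : BaseFacts q A K) {π : OK A K}
    (hπ : Irreducible π) (hπq : incO A K π = (q : Qb)) {ξ : Qb} (hξ : IsPrimitiveRoot ξ q)
    (h0 : PrincAt (chart (M * q * q) A K (Chart3B.J3 M q hq hqM K)) π (unif3 M q hq hqM A K π)
      (val3 M q hq hqM A K hB.dvr π hπ hπq ξ hξ)
      (Model3Top.le0 (V3.hyp3_iota3 hq hqM A hB.dvr π hπ hπq hξ) hB.dvr))
    (hInf : PrincAt (chart (M * q * q) A K (Chart3B.J3 M q hq hqM K)⁻¹) π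
      (unif3 M q hq hqM A K π) (val3 M q hq hqM A K hB.dvr π hπ hπq ξ hξ)
      (Model3Top.leInf (V3.hyp3_iota3 hq hqM A hB.dvr π hπ hπq hξ) hB.dvr)) :
    Model3 (M * q * q) A K π (Model3Plan.ram q) (unif3 M q hq hqM A K π)
      (val3 M q hq hqM A K hB.dvr π hπ hπq ξ hξ) (Chart3B.J3 M q hq hqM K) :=
  Model3Top.model3 (V3.hyp3_iota3 hq hqM A hB.dvr π hπ hπq hξ) hA hB hπ (1 : A)
    (by rw [hπq]; simp) (BaseXi.exists_unit hq π hπ hπq hξ) h0 hInf

theorem recPropM_of_recProp (hA : A.LiesOverPrime q) (hB : BaseFacts q A K) {m : ℕ}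
    {π : OK A K} (hπ : Irreducible π) (hπq : incO A K π = (q : Qb)) {ξ : Qb}
    (hξ : IsPrimitiveRoot ξ q) (h : RecProp M q hq hqM A K m hB.dvr π hπ hπq ξ hξ) :
    RecPropM M q hq hqM A K m hB.dvr π hπ hπq ξ hξ :=
  ⟨⟨model3_rec hA hB hπ hπq hξ h.1 h.2.1⟩, h.2.2.1, h.2.2.2⟩

end Record

/-! ### The choices of `π` and `ξ` -/

/-- The uniformizer `π = q` of an unramified base. -/
theorem exists_unif {q : ℕ} [Fact q.Prime] {A : ValuationSubring Qb}
    {K : IntermediateField ℚ Qb} (hK : Plan.UnrBase q A K) :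
    ∃ π : OK A K, Irreducible π ∧ incO A K π = (q : Qb) := by
  obtain ⟨p, hp, hirr⟩ := hK.2.1
  exact ⟨p, hirr, hp⟩

/-- A primitive `q`-th root of unity of `ℚ̄`. -/
theorem exists_xi (q : ℕ) [NeZero q] : ∃ ξ : Qb, IsPrimitiveRoot ξ q :=
  HasEnoughRootsOfUnity.exists_primitiveRoot Qb q

/-! ### The chain statements -/

section Chain

variable (M q : ℕ) [NeZero M] [NeZero q] [Fact q.Prime]

/-- **The existential of the chain at one `(m, A, K)`**, from the inputs at the tuple of record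
(for every choice of `π`, `ξ`; the model is given). -/
theorem chain_point (hqM : ¬ q ∣ M) {m : ℕ} {A : ValuationSubring Qb}
    {K : IntermediateField ℚ Qb} (hK : Plan.UnrBase q A K)
    (h : ∀ (π : OK A K) (hπ : Irreducible π) (hπq : incO A K π = (q : Qb)) (ξ : Qb)
      (hξ : IsPrimitiveRoot ξ q), RecPropM M q Fact.out hqM A K m hK.1.dvr π hπ hπq ξ hξ) :
    ∃ (_ : IsDiscreteValuationRing (OK A K)) (π : OK A K) (t : FK (M * q * q) K)
      (ϖ : Fin 3 → FK (M * q * q) K) (V : Fin 3 → ValuationSubring (FK (M * q * q) K)),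
      Nonempty (Model3 (M * q * q) A K π (ram q) ϖ V t) ∧
      LocAsm3.CorrProp M q m A K π ϖ V ∧ LocAsm3.TorOutProp M q m A K π V t := by
  obtain ⟨π, hπ, hπq⟩ := exists_unif hK
  obtain ⟨ξ, hξ⟩ := exists_xi q
  obtain ⟨hM, hC, hT⟩ := h π hπ hπq ξ hξ
  exact ⟨hK.1.dvr, π, _, _, _, hM, hC, hT⟩

/-- **The chain over the inertia field** from the inputs at the tuple of record (model given). -/
theorem chainL_of_recM (hqM : ¬ q ∣ M)
    (h : ∀ m : ℕ, m ≠ 0 → ¬ q ∣ m → ∀ A : ValuationSubring Qb, A.LiesOverPrime q →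
      ∀ (hdvr : IsDiscreteValuationRing (OK A (UnrBaseL.inertiaField A)))
        (π : OK A (UnrBaseL.inertiaField A)) (hπ : Irreducible π)
        (hπq : incO A (UnrBaseL.inertiaField A) π = (q : Qb)) (ξ : Qb)
        (hξ : IsPrimitiveRoot ξ q),
        RecPropM M q Fact.out hqM A (UnrBaseL.inertiaField A) m hdvr π hπ hπq ξ hξ) :
    LocAsm3L.ChainStatementL M q := fun m hm hqm A hA =>
  chain_point M q hqM (LocAsm3L.unrBase_inertiaField hA)
    (fun π hπ hπq ξ hξ => h m hm hqm A hA _ π hπ hπq ξ hξ)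

/-- **The chain over the inertia field** from `princ` on both charts, `CorrProp`, `TorOutProp`
at the tuple of record. -/
theorem chainL_of_rec (hqM : ¬ q ∣ M)
    (h : ∀ m : ℕ, m ≠ 0 → ¬ q ∣ m → ∀ A : ValuationSubring Qb, A.LiesOverPrime q →
      ∀ (hdvr : IsDiscreteValuationRing (OK A (UnrBaseL.inertiaField A)))
        (π : OK A (UnrBaseL.inertiaField A)) (hπ : Irreducible π)
        (hπq : incO A (UnrBaseL.inertiaField A) π = (q : Qb)) (ξ : Qb)
        (hξ : IsPrimitiveRoot ξ q),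
        RecProp M q Fact.out hqM A (UnrBaseL.inertiaField A) m hdvr π hπ hπq ξ hξ) :
    LocAsm3L.ChainStatementL M q :=
  chainL_of_recM M q hqM (fun m hm hqm A hA _ π hπ hπq ξ hξ =>
    recPropM_of_recProp hA (LocAsm3L.unrBase_inertiaField hA).1 hπ hπq hξ
      (h m hm hqm A hA _ π hπ hπq ξ hξ))

/-- **The chain over every unramified base** (model given). -/
theorem chain_of_recM (hqM : ¬ q ∣ M)
    (h : ∀ m : ℕ, m ≠ 0 → ¬ q ∣ m → ∀ A : ValuationSubring Qb, A.LiesOverPrime q →
      ∀ K : IntermediateField ℚ Qb, Plan.UnrBase q A K →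
      ∀ (hdvr : IsDiscreteValuationRing (OK A K)) (π : OK A K) (hπ : Irreducible π)
        (hπq : incO A K π = (q : Qb)) (ξ : Qb) (hξ : IsPrimitiveRoot ξ q),
        RecPropM M q Fact.out hqM A K m hdvr π hπ hπq ξ hξ) :
    LocAsm3.ChainStatement M q := fun m hm hqm A hA K hK =>
  chain_point M q hqM hK (fun π hπ hπq ξ hξ => h m hm hqm A hA K hK _ π hπ hπq ξ hξ)

/-- **The chain over every unramified base** from `princ`, `CorrProp`, `TorOutProp`. -/
theorem chain_of_rec (hqM : ¬ q ∣ M)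
    (h : ∀ m : ℕ, m ≠ 0 → ¬ q ∣ m → ∀ A : ValuationSubring Qb, A.LiesOverPrime q →
      ∀ K : IntermediateField ℚ Qb, Plan.UnrBase q A K →
      ∀ (hdvr : IsDiscreteValuationRing (OK A K)) (π : OK A K) (hπ : Irreducible π)
        (hπq : incO A K π = (q : Qb)) (ξ : Qb) (hξ : IsPrimitiveRoot ξ q),
        RecProp M q Fact.out hqM A K m hdvr π hπ hπq ξ hξ) :
    LocAsm3.ChainStatement M q :=
  chain_of_recM M q hqM (fun m hm hqm A hA K hK _ π hπ hπq ξ hξ =>
    recPropM_of_recProp hA hK.1 hπ hπq hξ (h m hm hqm A hA K hK _ π hπ hπq ξ hξ))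

end Chain

end Fermat.Agent.S36.ChainM3

end
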