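/-
S36 — Corr3.lean (helper12).  [GNORM36], abstract core: the MODULAR CORRECTOR of the S36 blueprint
(lead's (3)+(4)), the twin of S35 `GNorm.exists_H` for the three vertical valuations `W1, W2, W3`
of the model at `q² ∥ N`, in HYPOTHESIS FORM (Mathlib only).

Setting.  `E` = function field of level `N` (over the unramified base), `E'` = function field of
level `N / q`, `Nα, Nβ : E → E'` the norms along the two degeneracy maps, `Ω` a field receiving all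
residues (in the application `k((Q))`).  A "reduction" `Red E Ω` is a multiplicative relation
`rel x y` ("`x` is integral with residue `y`"); `IsU x` means "unit".  We are given

* reductions `r₁ r₂ r₃` of `E` (for `W1, W2, W3`) with uniformisers `π, π, s`, and `r₁' r₂'` of
  `E'` (for the two Gauss valuations of level `N / q`) with uniformiser `π'`;
* the norm–valuation rule `hNV` (`v₁'(Nα x) = v₁ x + v₃ x`, `v₂'(Nα x) = q v₂ x`,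
  `v₁'(Nβ x) = q v₁ x`, `v₂'(Nβ x) = v₂ x + v₃ x`) and the norm–residue rules `hRα1, hRα2, hRβ1`
  (`red₁'(Nα x) = red₁ x · (red₃ x)^(q-1)`, `red₂'(Nα x) = Φ (red₂ x)`, `red₁'(Nβ x) = Φ (red₁ x)`,
  `Φ` the coefficientwise Frobenius);
* Frobenius lifts `hL1, hL2, hL3`, roots of residue constants `hroot`, weak approximation
  `hVal` (prescribed valuations) and `hWA` (prescribed residues).

Then for `f ≠ 0` with `Nα f = cα · hα ^ m` and `Nβ f = cβ · hβ ^ m` (`cα, cβ` constants):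

  `exists_corr` : `∃ t H, H ≠ 0 ∧ f ^ ((q+1)(q-1)) · π ^ (-t) · H ^ m` has residue `1` for
  `r₁, r₂, r₃`.

Proof.  (E3) the valuation vector `(a₁, a₂, a₃)` of `f` satisfies
`a₁ + a₃ ≡ A`, `q a₂ ≡ A`, `q a₁ ≡ B`, `a₂ + a₃ ≡ B` modulo `m`, hence
`(q+1)(a₁, a₂, a₃) ≡ t (1, 1, q-1)`, `t = (q+1) a₁`; (E4) the residues `ρ₁, ρ₂, ρ₃` of the
unit `G₁ = f^(q+1) π^(-t) H₀^m` satisfy `Φ ρ₁ = ū ηβ^m`, `Φ ρ₂ = ū' ηα'^m`,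
`ρ₁ ρ₃^(q-1) = ū'' ηα^m`, so `ρ₁, ρ₂, ρ₃^(q-1)` are, up to constants, `m`-th powers of residues
of explicit elements, and weak approximation gives the corrector.
-/
import Mathlib

set_option autoImplicit false

namespace Fermat.Agent.S36.Corr3

/-- A multiplicative "reduction relation" from a field `E` to a field `Ω`:
`rel x y` = "`x` is integral with residue `y`". -/
structure Red (E Ω : Type*) [Field E] [Field Ω] where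
  rel : E → Ω → Prop
  zero : rel 0 0
  one : rel 1 1
  mul : ∀ {x x' : E} {y y' : Ω}, rel x y → rel x' y' → rel (x * x') (y * y')
  inv : ∀ {x : E} {y : Ω}, rel x y → y ≠ 0 → rel x⁻¹ y⁻¹
  uniq : ∀ {x : E} {y y' : Ω}, rel x y → rel x y' → y = y'

namespace Red

variable {E Ω : Type*} [Field E] [Field Ω] (r : Red E Ω)

/-- Units of a reduction: integral with nonzero residue. -/
def IsU (x : E) : Prop := ∃ y : Ω, y ≠ 0 ∧ r.rel x y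

theorem pow {x : E} {y : Ω} (h : r.rel x y) (n : ℕ) : r.rel (x ^ n) (y ^ n) := by
  induction n with
  | zero => simpa using r.one
  | succ n ih => rw [pow_succ, pow_succ]; exact r.mul ih h

theorem zpow {x : E} {y : Ω} (h : r.rel x y) (hy : y ≠ 0) (n : ℤ) : r.rel (x ^ n) (y ^ n) := by
  obtain ⟨k, rfl | rfl⟩ := Int.eq_nat_or_neg n
  · rw [zpow_natCast, zpow_natCast]; exact r.pow h k
  · rw [zpow_neg, zpow_neg, zpow_natCast, zpow_natCast]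
    exact r.inv (r.pow h k) (pow_ne_zero _ hy)

theorem isU_one : r.IsU 1 := ⟨1, one_ne_zero, r.one⟩

theorem IsU.ne_zero {x : E} (h : r.IsU x) : x ≠ 0 := by
  rintro rfl
  obtain ⟨y, hy, hxy⟩ := h
  exact hy (r.uniq hxy r.zero)

theorem IsU.mul {x x' : E} (h : r.IsU x) (h' : r.IsU x') : r.IsU (x * x') := by
  obtain ⟨y, hy, hxy⟩ := h
  obtain ⟨y', hy', hxy'⟩ := h'
  exact ⟨y * y', mul_ne_zero hy hy', r.mul hxy hxy'⟩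

theorem IsU.inv {x : E} (h : r.IsU x) : r.IsU x⁻¹ := by
  obtain ⟨y, hy, hxy⟩ := h
  exact ⟨y⁻¹, inv_ne_zero hy, r.inv hxy hy⟩

theorem IsU.pow {x : E} (h : r.IsU x) (n : ℕ) : r.IsU (x ^ n) := by
  obtain ⟨y, hy, hxy⟩ := h
  exact ⟨y ^ n, pow_ne_zero _ hy, r.pow hxy n⟩

theorem IsU.zpow {x : E} (h : r.IsU x) (n : ℤ) : r.IsU (x ^ n) := by
  obtain ⟨y, hy, hxy⟩ := h
  exact ⟨y ^ n, zpow_ne_zero _ hy, r.zpow hxy hy n⟩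

theorem IsU.div {x x' : E} (h : r.IsU x) (h' : r.IsU x') : r.IsU (x / x') := by
  rw [div_eq_mul_inv]; exact h.mul r h'.inv

theorem rel_pow_zero {p : E} (hp : r.rel p 0) {n : ℕ} (hn : n ≠ 0) : r.rel (p ^ n) 0 := by
  have h := r.pow hp n
  rwa [zero_pow hn] at h

/-- A nonzero power of a non-unit is not a unit. -/
theorem not_isU_zpow {p : E} (hp : r.rel p 0) {a : ℤ} (ha : a ≠ 0) : ¬ r.IsU (p ^ a) := by
  intro h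
  have key : ∀ n : ℕ, n ≠ 0 → ¬ r.IsU (p ^ n) := by
    rintro n hn ⟨y, hy, hxy⟩
    exact hy (r.uniq hxy (r.rel_pow_zero hp hn))
  obtain ⟨k, rfl | rfl⟩ := Int.eq_nat_or_neg a
  · have hk : k ≠ 0 := by rintro rfl; exact ha rfl
    rw [zpow_natCast] at h
    exact key k hk h
  · have hk : k ≠ 0 := by rintro rfl; exact ha (by simp)
    have h' := h.inv
    rw [zpow_neg, inv_inv, zpow_natCast] at h'
    exact key k hk h'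

/-- The valuation is well defined. -/
theorem val_unique {p x : E} (hp : r.rel p 0) (hp0 : p ≠ 0) {a b : ℤ}
    (ha : r.IsU (p ^ (-a) * x)) (hb : r.IsU (p ^ (-b) * x)) : a = b := by
  by_contra hab
  have hx0 : x ≠ 0 := by
    rintro rfl
    exact (ha.ne_zero) (mul_zero _)
  have h := ha.div r hb
  have e : p ^ (-a) * x / (p ^ (-b) * x) = p ^ (b - a) := by
    rw [mul_div_mul_right _ _ hx0, ← zpow_sub₀ hp0]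
    congr 1
    ring
  rw [e] at h
  exact r.not_isU_zpow hp (sub_ne_zero.mpr (Ne.symm hab)) h

end Red

section Algebra

variable {E : Type*} [Field E]

theorem combine {p : E} (hp : p ≠ 0) (x y : E) (a b c : ℤ) (n k : ℕ)
    (h : a * n + b * k = c) :
    (p ^ a * x) ^ n * (p ^ b * y) ^ k = p ^ c * (x ^ n * y ^ k) := by
  rw [mul_pow, mul_pow, ← zpow_natCast (p ^ a), ← zpow_mul, ← zpow_natCast (p ^ b), ← zpow_mul,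
    ← h, zpow_add₀ hp]
  ring

theorem combine₁ {p : E} (_hp : p ≠ 0) (x : E) (a c : ℤ) (n : ℕ) (h : a * n = c) :
    (p ^ a * x) ^ n = p ^ c * x ^ n := by
  rw [mul_pow, ← zpow_natCast (p ^ a), ← zpow_mul, h]

theorem zpow_split {p : E} (hp : p ≠ 0) (X Y : ℤ) (z : E) :
    p ^ (-(X - Y)) * (p ^ (-Y) * z) = p ^ (-X) * z := by
  rw [← mul_assoc, ← zpow_add₀ hp]
  congr 2
  ring

end Algebra

section Main

variable {E E' Ω : Type*} [Field E] [Field E'] [Field Ω]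

/-- **[GNORM36], abstract core.**  See the header. -/
theorem exists_corr
    (r₁ r₂ r₃ : Red E Ω) (r₁' r₂' : Red E' Ω)
    (π s : E) (π' : E') (Φ : Ω →+* Ω) (Cst : Ω → Prop)
    (Nα Nβ : E →*₀ E') (q m : ℕ) (hq : 1 ≤ q) (hm : m ≠ 0)
    (hπ0 : π ≠ 0) (hs0 : s ≠ 0) (hπ'0 : π' ≠ 0)
    -- non-units
    (hπ₁ : r₁.rel π 0) (hπ₂ : r₂.rel π 0) (hs₃ : r₃.rel s 0)
    (hπ₁' : r₁'.rel π' 0) (hπ₂' : r₂'.rel π' 0)
    -- normal forms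
    (nf₁ : ∀ x : E, x ≠ 0 → ∃ a : ℤ, r₁.IsU (π ^ (-a) * x))
    (nf₂ : ∀ x : E, x ≠ 0 → ∃ a : ℤ, r₂.IsU (π ^ (-a) * x))
    (nf₃ : ∀ x : E, x ≠ 0 → ∃ a : ℤ, r₃.IsU (s ^ (-a) * x))
    (nf₁' : ∀ x : E', x ≠ 0 → ∃ a : ℤ, r₁'.IsU (π' ^ (-a) * x))
    (nf₂' : ∀ x : E', x ≠ 0 → ∃ a : ℤ, r₂'.IsU (π' ^ (-a) * x))
    -- ramification of `W3`
    (hram : r₃.IsU (s ^ (q - 1) * π⁻¹))
    -- norms of the uniformiser
    (hNαπ : Nα π = π' ^ q) (hNβπ : Nβ π = π' ^ q)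
    -- norm–valuation rule
    (hNV : ∀ (x : E) (a₁ a₂ a₃ : ℤ), x ≠ 0 → r₁.IsU (π ^ (-a₁) * x) → r₂.IsU (π ^ (-a₂) * x) →
      r₃.IsU (s ^ (-a₃) * x) →
      r₁'.IsU (π' ^ (-(a₁ + a₃)) * Nα x) ∧ r₂'.IsU (π' ^ (-((q : ℤ) * a₂)) * Nα x) ∧
      r₁'.IsU (π' ^ (-((q : ℤ) * a₁)) * Nβ x) ∧ r₂'.IsU (π' ^ (-(a₂ + a₃)) * Nβ x))
    -- norm–residue rules
    (hRα1 : ∀ (x : E) (y₁ y₃ : Ω), y₁ ≠ 0 → y₃ ≠ 0 → r₁.rel x y₁ → r₃.rel x y₃ →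
      r₁'.rel (Nα x) (y₁ * y₃ ^ (q - 1)))
    (hRα2 : ∀ (x : E) (y₂ : Ω), y₂ ≠ 0 → r₂.rel x y₂ → r₂'.rel (Nα x) (Φ y₂))
    (hRβ1 : ∀ (x : E) (y₁ : Ω), y₁ ≠ 0 → r₁.rel x y₁ → r₁'.rel (Nβ x) (Φ y₁))
    -- residue constants
    (hC1 : Cst 1) (hCmul : ∀ y y' : Ω, Cst y → Cst y' → Cst (y * y'))
    (hCinv : ∀ y : Ω, Cst y → Cst y⁻¹)
    (hCΦ : ∀ y : Ω, Cst y → ∃ z : Ω, Cst z ∧ Φ z = y)
    (hroot : ∀ y : Ω, Cst y → y ≠ 0 → ∃ (e : E) (ε : Ω), ε ^ m = y ∧ r₁.rel e ε ∧ r₂.rel e ε ∧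
      r₃.rel e ε)
    -- Frobenius lifts
    (hL1 : ∀ (x' : E') (y : Ω), r₁'.rel x' y → y ≠ 0 → ∃ (x : E) (z : Ω), Φ z = y ∧ r₁.rel x z ∧
      r₃.rel x z)
    (hL2 : ∀ (x' : E') (y : Ω), r₂'.rel x' y → y ≠ 0 → ∃ (x : E) (z : Ω), Φ z = y ∧ r₂.rel x z)
    (hL3 : ∀ (x' : E') (y : Ω), r₁'.rel x' y → ∃ x : E, r₃.rel x y)
    -- weak approximation
    (hVal : ∀ b₁ b₂ b₃ : ℤ, ∃ H : E, H ≠ 0 ∧ r₁.IsU (π ^ (-b₁) * H) ∧ r₂.IsU (π ^ (-b₂) * H) ∧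
      r₃.IsU (s ^ (-b₃) * H))
    (hWA : ∀ (Y₁ Y₂ Y₃ : E) (y₁ y₂ y₃ : Ω), r₁.rel Y₁ y₁ → r₂.rel Y₂ y₂ → r₃.rel Y₃ y₃ →
      ∃ H : E, r₁.rel H y₁ ∧ r₂.rel H y₂ ∧ r₃.rel H y₃)
    -- the data
    (f : E) (hf : f ≠ 0) (cα hα cβ hβ : E') (hhα : hα ≠ 0) (hhβ : hβ ≠ 0)
    (hNα : Nα f = cα * hα ^ m) (hNβ : Nβ f = cβ * hβ ^ m)
    (hcα : ∃ (A : ℤ) (y₁ y₂ : Ω), y₁ ≠ 0 ∧ y₂ ≠ 0 ∧ Cst y₁ ∧ Cst y₂ ∧
      r₁'.rel (π' ^ (-A) * cα) y₁ ∧ r₂'.rel (π' ^ (-A) * cα) y₂)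
    (hcβ : ∃ (B : ℤ) (y₁ y₂ : Ω), y₁ ≠ 0 ∧ y₂ ≠ 0 ∧ Cst y₁ ∧ Cst y₂ ∧
      r₁'.rel (π' ^ (-B) * cβ) y₁ ∧ r₂'.rel (π' ^ (-B) * cβ) y₂) :
    ∃ (t : ℤ) (H : E), H ≠ 0 ∧
      r₁.rel (f ^ ((q + 1) * (q - 1)) * π ^ (-t) * H ^ m) 1 ∧
      r₂.rel (f ^ ((q + 1) * (q - 1)) * π ^ (-t) * H ^ m) 1 ∧
      r₃.rel (f ^ ((q + 1) * (q - 1)) * π ^ (-t) * H ^ m) 1 := by
  classical
  have hCpow : ∀ (y : Ω) (n : ℕ), Cst y → Cst (y ^ n) := by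
    intro y n hy
    induction n with
    | zero => simpa using hC1
    | succ n ih => rw [pow_succ]; exact hCmul _ _ ih hy
  have hΦinj : Function.Injective Φ := RingHom.injective Φ
  -- valuations of `f`
  obtain ⟨a₁, U1⟩ := nf₁ f hf
  obtain ⟨a₂, U2⟩ := nf₂ f hf
  obtain ⟨a₃, U3⟩ := nf₃ f hf
  obtain ⟨V1α, V2α, V1β, V2β⟩ := hNV f a₁ a₂ a₃ hf U1 U2 U3
  obtain ⟨A, yA₁, yA₂, hyA₁, hyA₂, hCA₁, hCA₂, hrA₁, hrA₂⟩ := hcα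
  obtain ⟨B, yB₁, yB₂, hyB₁, hyB₂, hCB₁, hCB₂, hrB₁, hrB₂⟩ := hcβ
  obtain ⟨c₁, Uc₁⟩ := nf₁' hα hhα
  obtain ⟨c₂, Uc₂⟩ := nf₂' hα hhα
  obtain ⟨d₁, Ud₁⟩ := nf₁' hβ hhβ
  obtain ⟨d₂, Ud₂⟩ := nf₂' hβ hhβ
  -- the four congruences of (E3), as equalities
  have key : ∀ (r : Red E' Ω) (c h : E') (C c' : ℤ) (y : Ω), y ≠ 0 → r.rel (π' ^ (-C) * c) y →
      r.IsU (π' ^ (-c') * h) → r.IsU (π' ^ (-(C + c' * m)) * (c * h ^ m)) := by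
    intro r c h C c' y hy hr hU
    have hU0 : r.IsU (π' ^ (-C) * c) := ⟨y, hy, hr⟩
    have h1 : r.IsU ((π' ^ (-C) * c) * (π' ^ (-c') * h) ^ m) :=
      hU0.mul r (hU.pow r m)
    have e : (π' ^ (-C) * c) * (π' ^ (-c') * h) ^ m = π' ^ (-(C + c' * m)) * (c * h ^ m) := by
      rw [combine₁ hπ'0 h (-c') (-(c' * m)) m (by ring), neg_add, zpow_add₀ hπ'0]
      ring
    rwa [e] at h1
  have e1 : a₁ + a₃ = A + c₁ * m := by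
    have h := key r₁' cα hα A c₁ yA₁ hyA₁ hrA₁ Uc₁
    rw [← hNα] at h
    exact r₁'.val_unique hπ₁' hπ'0 V1α h
  have e2 : (q : ℤ) * a₂ = A + c₂ * m := by
    have h := key r₂' cα hα A c₂ yA₂ hyA₂ hrA₂ Uc₂
    rw [← hNα] at h
    exact r₂'.val_unique hπ₂' hπ'0 V2α h
  have e3 : (q : ℤ) * a₁ = B + d₁ * m := by
    have h := key r₁' cβ hβ B d₁ yB₁ hyB₁ hrB₁ Ud₁
    rw [← hNβ] at h
    exact r₁'.val_unique hπ₁' hπ'0 V1β h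
  have e4 : a₂ + a₃ = B + d₂ * m := by
    have h := key r₂' cβ hβ B d₂ yB₂ hyB₂ hrB₂ Ud₂
    rw [← hNβ] at h
    exact r₂'.val_unique hπ₂' hπ'0 V2β h
  -- the vertical vector
  set t : ℤ := ((q : ℤ) + 1) * a₁ with ht
  set k₂ : ℤ := d₂ + c₂ - c₁ - d₁ with hk₂
  set k₃ : ℤ := c₁ - c₂ + (q : ℤ) * (d₂ - d₁) with hk₃
  have i2 : ((q : ℤ) + 1) * a₂ - t = k₂ * m := by
    rw [ht, hk₂]; linear_combination -e1 + e4 + e2 - e3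
  have i3 : ((q : ℤ) + 1) * a₃ - ((q : ℤ) - 1) * t = k₃ * m := by
    rw [ht, hk₃]; linear_combination e1 - e2 - (q : ℤ) * e3 + (q : ℤ) * e4
  obtain ⟨H₀, hH₀, UH1, UH2, UH3⟩ := hVal 0 (-k₂) (-k₃)
  -- the unit `G₁`
  set G₁ : E := f ^ (q + 1) * π ^ (-t) * H₀ ^ m with hG₁
  have hG₁1 : r₁.IsU G₁ := by
    have h := (U1.pow r₁ (q + 1)).mul r₁ (UH1.pow r₁ m)
    have e : (π ^ (-a₁) * f) ^ (q + 1) * (π ^ (-(0 : ℤ)) * H₀) ^ m = G₁ := by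
      rw [combine hπ0 f H₀ (-a₁) (-(0 : ℤ)) (-t) (q + 1) m (by rw [ht]; push_cast; ring), hG₁]
      ring
    rwa [e] at h
  have hG₁2 : r₂.IsU G₁ := by
    have h := (U2.pow r₂ (q + 1)).mul r₂ (UH2.pow r₂ m)
    have e : (π ^ (-a₂) * f) ^ (q + 1) * (π ^ (-(-k₂)) * H₀) ^ m = G₁ := by
      rw [combine hπ0 f H₀ (-a₂) (-(-k₂)) (-t) (q + 1) m (by push_cast; linear_combination -i2),
        hG₁]
      ring
    rwa [e] at h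
  have hG₁3 : r₃.IsU G₁ := by
    have h := ((U3.pow r₃ (q + 1)).mul r₃ (UH3.pow r₃ m)).mul r₃ (hram.zpow r₃ t)
    have e0 : (s ^ (q - 1) * π⁻¹) ^ t = s ^ (((q : ℤ) - 1) * t) * π ^ (-t) := by
      rw [mul_zpow, inv_zpow', ← zpow_natCast s (q - 1), ← zpow_mul, Nat.cast_sub hq,
        Nat.cast_one]
    have e : (s ^ (-a₃) * f) ^ (q + 1) * (s ^ (-(-k₃)) * H₀) ^ m * (s ^ (q - 1) * π⁻¹) ^ t
        = G₁ := by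
      rw [combine hs0 f H₀ (-a₃) (-(-k₃)) (-(((q : ℤ) - 1) * t)) (q + 1) m
        (by push_cast; linear_combination -i3), e0, hG₁]
      have : s ^ (-(((q : ℤ) - 1) * t)) * s ^ (((q : ℤ) - 1) * t) = 1 := by
        rw [← zpow_add₀ hs0, neg_add_cancel, zpow_zero]
      calc s ^ (-(((q : ℤ) - 1) * t)) * (f ^ (q + 1) * H₀ ^ m)
            * (s ^ (((q : ℤ) - 1) * t) * π ^ (-t))
          = (s ^ (-(((q : ℤ) - 1) * t)) * s ^ (((q : ℤ) - 1) * t))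
            * (f ^ (q + 1) * π ^ (-t) * H₀ ^ m) := by ring
        _ = f ^ (q + 1) * π ^ (-t) * H₀ ^ m := by rw [this, one_mul]
    rwa [e] at h
  have hG₁0 : G₁ ≠ 0 := hG₁1.ne_zero
  obtain ⟨ρ₁, hρ₁, R1⟩ := hG₁1
  obtain ⟨ρ₂, hρ₂, R2⟩ := hG₁2
  obtain ⟨ρ₃, hρ₃, R3⟩ := hG₁3
  -- norms of `G₁`
  obtain ⟨W1α, W2α, W1β, -⟩ := hNV G₁ 0 0 0 hG₁0
    (by rw [neg_zero, zpow_zero, one_mul]; exact ⟨ρ₁, hρ₁, R1⟩)
    (by rw [neg_zero, zpow_zero, one_mul]; exact ⟨ρ₂, hρ₂, R2⟩)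
    (by rw [neg_zero, zpow_zero, one_mul]; exact ⟨ρ₃, hρ₃, R3⟩)
  simp only [add_zero, mul_zero, neg_zero, zpow_zero, one_mul] at W1α W2α W1β
  have hNG : ∀ (N : E →*₀ E') (c h : E'), N π = π' ^ q → N f = c * h ^ m →
      N G₁ = c ^ (q + 1) * π' ^ (-((q : ℤ) * t)) * (h ^ (q + 1) * N H₀) ^ m := by
    intro N c h hNπ hNf
    rw [hG₁, map_mul, map_mul, map_pow, map_zpow₀, map_pow, hNπ, hNf, ← zpow_natCast π' q,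
      ← zpow_mul, mul_neg]
    ring
  -- a unit `N G₁ = c^(q+1) π'^(-qt) Hc^m` is `(π'^(-C) c)^(q+1) (π'^(-b) Hc)^m`
  have hsplit : ∀ (r : Red E' Ω), r.rel π' 0 → ∀ (X c Hc : E') (C b : ℤ) (y : Ω), y ≠ 0 →
      X = c ^ (q + 1) * π' ^ (-((q : ℤ) * t)) * Hc ^ m → r.IsU X →
      r.rel (π' ^ (-C) * c) y → r.IsU (π' ^ (-b) * Hc) →
      X = (π' ^ (-C) * c) ^ (q + 1) * (π' ^ (-b) * Hc) ^ m := by
    intro r hrπ X c Hc C b y hy hX hXU hr hU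
    have hU0 : r.IsU (π' ^ (-C) * c) := ⟨y, hy, hr⟩
    have hX1 : r.IsU ((π' ^ (-C) * c) ^ (q + 1) * (π' ^ (-b) * Hc) ^ m) :=
      (hU0.pow r (q + 1)).mul r (hU.pow r m)
    have hid : (π' ^ (-C) * c) ^ (q + 1) * (π' ^ (-b) * Hc) ^ m
        = π' ^ (-(C * ((q : ℤ) + 1) + b * m - (q : ℤ) * t)) * X := by
      rw [combine hπ'0 c Hc (-C) (-b) (-(C * ((q : ℤ) + 1) + b * m)) (q + 1) m
        (by push_cast; ring), hX]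
      rw [show c ^ (q + 1) * π' ^ (-((q : ℤ) * t)) * Hc ^ m
        = π' ^ (-((q : ℤ) * t)) * (c ^ (q + 1) * Hc ^ m) by ring, zpow_split hπ'0]
    have he : C * ((q : ℤ) + 1) + b * m - (q : ℤ) * t = 0 :=
      r.val_unique hrπ hπ'0 (hid ▸ hX1) (by simpa using hXU)
    rw [he, neg_zero, zpow_zero, one_mul] at hid
    exact hid.symm
  -- `α`, first valuation
  set Hα : E' := hα ^ (q + 1) * Nα H₀ with hHα
  set Hβ : E' := hβ ^ (q + 1) * Nβ H₀ with hHβ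
  have hNαG := hNG Nα cα hα hNαπ hNα
  have hNβG := hNG Nβ cβ hβ hNβπ hNβ
  have hHα0 : Hα ≠ 0 := by
    intro h0
    apply W1α.ne_zero
    rw [hNαG, ← hHα, h0, zero_pow hm, mul_zero]
  have hHβ0 : Hβ ≠ 0 := by
    intro h0
    apply W1β.ne_zero
    rw [hNβG, ← hHβ, h0, zero_pow hm, mul_zero]
  obtain ⟨b₁, Ub₁⟩ := nf₁' Hα hHα0
  obtain ⟨b₂, Ub₂⟩ := nf₂' Hα hHα0
  obtain ⟨bβ, Ubβ⟩ := nf₁' Hβ hHβ0
  have Eα1 := hsplit r₁' hπ₁' (Nα G₁) cα Hα A b₁ yA₁ hyA₁ hNαG W1α hrA₁ Ub₁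
  have Eα2 := hsplit r₂' hπ₂' (Nα G₁) cα Hα A b₂ yA₂ hyA₂ hNαG W2α hrA₂ Ub₂
  have Eβ1 := hsplit r₁' hπ₁' (Nβ G₁) cβ Hβ B bβ yB₁ hyB₁ hNβG W1β hrB₁ Ubβ
  obtain ⟨ηα1, hηα1, Rα1⟩ := Ub₁
  obtain ⟨ηα2, hηα2, Rα2⟩ := Ub₂
  obtain ⟨ηβ1, hηβ1, Rβ1⟩ := Ubβ
  -- the three residue equations
  have Qα1 : ρ₁ * ρ₃ ^ (q - 1) = yA₁ ^ (q + 1) * ηα1 ^ m := by
    have h1 := hRα1 G₁ ρ₁ ρ₃ hρ₁ hρ₃ R1 R3
    have h2 : r₁'.rel (Nα G₁) (yA₁ ^ (q + 1) * ηα1 ^ m) := by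
      rw [Eα1]; exact r₁'.mul (r₁'.pow hrA₁ _) (r₁'.pow Rα1 _)
    exact r₁'.uniq h1 h2
  have Qα2 : Φ ρ₂ = yA₂ ^ (q + 1) * ηα2 ^ m := by
    have h1 := hRα2 G₁ ρ₂ hρ₂ R2
    have h2 : r₂'.rel (Nα G₁) (yA₂ ^ (q + 1) * ηα2 ^ m) := by
      rw [Eα2]; exact r₂'.mul (r₂'.pow hrA₂ _) (r₂'.pow Rα2 _)
    exact r₂'.uniq h1 h2
  have Qβ1 : Φ ρ₁ = yB₁ ^ (q + 1) * ηβ1 ^ m := by
    have h1 := hRβ1 G₁ ρ₁ hρ₁ R1
    have h2 : r₁'.rel (Nβ G₁) (yB₁ ^ (q + 1) * ηβ1 ^ m) := by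
      rw [Eβ1]; exact r₁'.mul (r₁'.pow hrB₁ _) (r₁'.pow Rβ1 _)
    exact r₁'.uniq h1 h2
  -- Frobenius lifts
  obtain ⟨X1, z1, hz1, RX1, RX1'⟩ := hL1 _ ηβ1 Rβ1 hηβ1
  obtain ⟨X2, z2, hz2, RX2⟩ := hL2 _ ηα2 Rα2 hηα2
  obtain ⟨X3, RX3⟩ := hL3 _ ηα1 Rα1
  have hz10 : z1 ≠ 0 := by rintro rfl; exact hηβ1 (by rw [← hz1, map_zero])
  have hz20 : z2 ≠ 0 := by rintro rfl; exact hηα2 (by rw [← hz2, map_zero])
  obtain ⟨zβ, hCzβ, hzβ⟩ := hCΦ _ (hCpow yB₁ (q + 1) hCB₁)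
  obtain ⟨zα, hCzα, hzα⟩ := hCΦ _ (hCpow yA₂ (q + 1) hCA₂)
  have hzβ0 : zβ ≠ 0 := by
    rintro rfl; exact pow_ne_zero (q + 1) hyB₁ (by rw [← hzβ, map_zero])
  have hzα0 : zα ≠ 0 := by
    rintro rfl; exact pow_ne_zero (q + 1) hyA₂ (by rw [← hzα, map_zero])
  have hρ₁eq : ρ₁ = zβ * z1 ^ m := by
    apply hΦinj; rw [Qβ1, map_mul, map_pow, hzβ, hz1]
  have hρ₂eq : ρ₂ = zα * z2 ^ m := by
    apply hΦinj; rw [Qα2, map_mul, map_pow, hzα, hz2]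
  -- roots of the constants
  obtain ⟨e1', ε1, hε1, Re11, -, -⟩ := hroot _ (hCinv _ (hCpow zβ (q - 1) hCzβ))
    (inv_ne_zero (pow_ne_zero _ hzβ0))
  obtain ⟨e2', ε2, hε2, -, Re22, -⟩ := hroot _ (hCinv _ (hCpow zα (q - 1) hCzα))
    (inv_ne_zero (pow_ne_zero _ hzα0))
  obtain ⟨e3', ε3, hε3, -, -, Re33⟩ := hroot _
    (hCmul _ _ hCzβ (hCinv _ (hCpow yA₁ (q + 1) hCA₁)))
    (mul_ne_zero hzβ0 (inv_ne_zero (pow_ne_zero _ hyA₁)))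
  have hε10 : ε1 ≠ 0 := by
    rintro rfl; rw [zero_pow hm] at hε1; exact inv_ne_zero (pow_ne_zero _ hzβ0) hε1.symm
  -- the prescribed residues
  have RY1 : r₁.rel (e1' * (X1 ^ (q - 1))⁻¹) (ε1 * (z1 ^ (q - 1))⁻¹) :=
    r₁.mul Re11 (r₁.inv (r₁.pow RX1 _) (pow_ne_zero _ hz10))
  have RY2 : r₂.rel (e2' * (X2 ^ (q - 1))⁻¹) (ε2 * (z2 ^ (q - 1))⁻¹) :=
    r₂.mul Re22 (r₂.inv (r₂.pow RX2 _) (pow_ne_zero _ hz20))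
  have RY3 : r₃.rel (e3' * (X1 * X3⁻¹)) (ε3 * (z1 * ηα1⁻¹)) :=
    r₃.mul Re33 (r₃.mul RX1' (r₃.inv RX3 hηα1))
  obtain ⟨H', RH1, RH2, RH3⟩ := hWA _ _ _ _ _ _ RY1 RY2 RY3
  have hH'U : r₁.IsU H' := ⟨_, mul_ne_zero hε10 (inv_ne_zero (pow_ne_zero _ hz10)), RH1⟩
  have hH'0 : H' ≠ 0 := hH'U.ne_zero
  -- the corrected function
  have hfin : f ^ ((q + 1) * (q - 1)) * π ^ (-(t * ((q - 1 : ℕ) : ℤ))) * (H₀ ^ (q - 1) * H') ^ m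
      = G₁ ^ (q - 1) * H' ^ m := by
    rw [hG₁, mul_pow, mul_pow, mul_pow, ← pow_mul, ← zpow_natCast (π ^ (-t)), ← zpow_mul,
      ← pow_mul, ← pow_mul, neg_mul, mul_comm m (q - 1)]
    ring
  refine ⟨t * ((q - 1 : ℕ) : ℤ), H₀ ^ (q - 1) * H', mul_ne_zero (pow_ne_zero _ hH₀) hH'0, ?_, ?_, ?_⟩
  · rw [hfin]
    have h := r₁.mul (r₁.pow R1 (q - 1)) (r₁.pow RH1 m)
    have e : ρ₁ ^ (q - 1) * (ε1 * (z1 ^ (q - 1))⁻¹) ^ m = 1 := by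
      rw [hρ₁eq, mul_pow, mul_pow, hε1, inv_pow, ← pow_mul, ← pow_mul, mul_comm m (q - 1)]
      field_simp
    rwa [e] at h
  · rw [hfin]
    have h := r₂.mul (r₂.pow R2 (q - 1)) (r₂.pow RH2 m)
    have e : ρ₂ ^ (q - 1) * (ε2 * (z2 ^ (q - 1))⁻¹) ^ m = 1 := by
      rw [hρ₂eq, mul_pow, mul_pow, hε2, inv_pow, ← pow_mul, ← pow_mul, mul_comm m (q - 1)]
      field_simp
    rwa [e] at h
  · rw [hfin]
    have h := r₃.mul (r₃.pow R3 (q - 1)) (r₃.pow RH3 m)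
    have e : ρ₃ ^ (q - 1) * (ε3 * (z1 * ηα1⁻¹)) ^ m = 1 := by
      have h3 : ρ₃ ^ (q - 1) = yA₁ ^ (q + 1) * ηα1 ^ m / (zβ * z1 ^ m) := by
        rw [eq_div_iff (mul_ne_zero hzβ0 (pow_ne_zero _ hz10)), ← hρ₁eq, mul_comm]
        exact Qα1
      rw [h3, mul_pow, hε3, mul_pow, inv_pow]
      field_simp
    rwa [e] at h

end Main

end Fermat.Agent.S36.Corr3
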