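/-
S36 — Corr3Red.lean (helper12): the shared reduction relation for the instantiation of
`Corr3.exists_corr` ([CORR36]).

For a ring homomorphism `E : F →+* ℚ̄((Q))` out of a field `F` (an expansion of a function
field: the `q`-expansion at `∞`, its twist by an Atkin–Lehner involution, the middle-cusp
expansion `ι3`), `redOf A E` is the `Corr3.Red` structure

  `rel x y := GRel A (E x) y`          ("`E x` lies in the Gauss ring and reduces to `y`")

with residues in `Ω = k((Q))`, `k` the residue field of `A`.

Also: the constants `Cst`, the coefficientwise Frobenius `frobΩ`, and the closure properties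
`hC1`, `hCmul`, `hCinv` of `Corr3.exists_corr` for `Cst`.
-/
import Mathlib
import Fermat.Agent.S18.GRel
import Fermat.Agent.S18.ModelRed
import Fermat.Agent.S36.Corr3

set_option autoImplicit false

noncomputable section

namespace Fermat.Agent.S36.Corr3Red

open ModularCurve HahnSeries Fermat.Agent.S18.Arith Fermat.Agent.S18.ModelPlan

variable (A : ValuationSubring Qb)

/-- The Gauss calculus for `A` (from `S18.GRel`). -/
theorem gFacts : GRelFacts A := Fermat.Agent.S18.GRel.gRelStatement A

variable {F : Type*} [Field F]

/-- The reduction relation along an expansion `E : F →+* ℚ̄((Q))`. -/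
def redOf (E : F →+* LaurentSeries Qb) :
    Corr3.Red F (LaurentSeries (IsLocalRing.ResidueField A)) where
  rel x y := GRel A (E x) y
  zero := by
    rw [map_zero]; exact Fermat.Agent.S18.ModelRed.gRel_zero (gFacts A)
  one := by
    rw [map_one]; exact Fermat.Agent.S18.ModelRed.gRel_one (gFacts A)
  mul := by
    intro x x' y y' h h'
    rw [map_mul]; exact (gFacts A).mul _ _ _ _ h h'
  inv := by
    intro x y h hy
    rw [map_inv₀]; exact (gFacts A).inv _ _ h hy
  uniq := by
    intro x y y' h h'
    exact (gFacts A).unique _ _ _ h h'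

variable {A}

theorem redOf_rel_iff (E : F →+* LaurentSeries Qb) (x : F)
    (y : LaurentSeries (IsLocalRing.ResidueField A)) :
    (redOf A E).rel x y ↔ GRel A (E x) y := Iff.rfl

theorem redOf_isU_iff (E : F →+* LaurentSeries Qb) (x : F) :
    (redOf A E).IsU x ↔ ∃ y : LaurentSeries (IsLocalRing.ResidueField A), y ≠ 0 ∧
      GRel A (E x) y := Iff.rfl

/-- Transport along a field homomorphism: `redOf A (E.comp φ)` is `redOf A E` pulled back. -/
theorem redOf_comp_rel_iff {F' : Type*} [Field F'] (E : F →+* LaurentSeries Qb) (φ : F' →+* F)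
    (x : F') (y : LaurentSeries (IsLocalRing.ResidueField A)) :
    (redOf A (E.comp φ)).rel x y ↔ (redOf A E).rel (φ x) y := Iff.rfl

variable (A)

/-- The residue constants: the image of `k` in `k((Q))`. -/
def Cst (y : LaurentSeries (IsLocalRing.ResidueField A)) : Prop :=
  ∃ c : IsLocalRing.ResidueField A, y = C c

variable {A}

theorem cst_one : Cst A 1 := ⟨1, by rw [map_one]⟩

theorem cst_mul (y y' : LaurentSeries (IsLocalRing.ResidueField A)) (h : Cst A y)
    (h' : Cst A y') : Cst A (y * y') := by
  obtain ⟨c, rfl⟩ := h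
  obtain ⟨c', rfl⟩ := h'
  exact ⟨c * c', by rw [map_mul]⟩

theorem cst_inv (y : LaurentSeries (IsLocalRing.ResidueField A)) (h : Cst A y) :
    Cst A y⁻¹ := by
  obtain ⟨c, rfl⟩ := h
  refine ⟨c⁻¹, ?_⟩
  by_cases hc : c = 0
  · subst hc; simp
  · have h1 : (C c : LaurentSeries (IsLocalRing.ResidueField A)) * C c⁻¹ = 1 := by
      rw [← map_mul, mul_inv_cancel₀ hc, map_one]
    exact inv_eq_of_mul_eq_one_right h1

theorem cst_C (c : IsLocalRing.ResidueField A) :
    Cst A (C c : LaurentSeries (IsLocalRing.ResidueField A)) := ⟨c, rfl⟩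

end Fermat.Agent.S36.Corr3Red
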