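/-
S36 — Corr3Lift.lean (helper12): the LIFTING hypotheses of `Corr3.exists_corr` for the instance
of record ([CORR36], instance owner: helper43 `S36/Corr3Inst.lean`).

Level `N = M * q * q` over `N' = M * q` (`q` prime, `q ∤ M`), `A` a valuation subring of `ℚ̄`,
`K` an intermediate field, `k` the residue field of `A`, `Ω = k((Q))`,
`Φ = coeffMap (frobenius k q)` the coefficientwise Frobenius.  The five reductions of record
(`Corr3Red.redOf`):

  `r₁  = redOf A (subtype)`            (`q`-expansion at `∞`, level `N`)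
  `r₂  = redOf A (subtype ∘ wK2)`      (its twist by `w_{q²}`)
  `r₃  = redOf A E₃`                   (`E₃` = the middle-cusp expansion `ι3`; ABSTRACT here:
                                          only `E₃ ∘ α = id` and `E₃ = id` on constants are used)
  `r₁' = redOf A (subtype)`            (level `N'`)
  `r₂' = redOf A (subtype ∘ wK)`       (twist by `w_q`).

For a Frobenius element `σ` at `A` with `K` stable under `σ`:

* `hL1` : `r₁'.rel x' y → ∃ x z, Φ z = y ∧ r₁.rel x z ∧ r₃.rel x z`     (`x = α (σ⁻¹ x')`);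
* `hL2` : `r₂'.rel x' y → ∃ x z, Φ z = y ∧ r₂.rel x z`                  (`x = β (σ⁻¹ x')`);
* `hL3` : `r₁'.rel x' y → ∃ x, r₃.rel x y`                              (`x = α x'`);
* `hCΦ` : constants have `q`-th roots among the constants;
* `hroot` : every nonzero constant has an `m`-th root which is the common residue, along
  `r₁`, `r₂`, `r₃`, of a constant of `O = A ∩ K`  (`BaseFacts.res_surj`, `k` algebraically closed).
-/
import Mathlib
import Fermat.Agent.S18.BaseRes
import Fermat.Agent.S34.WKB
import Fermat.Agent.S35.FrobAct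
import Fermat.Agent.S36.WQ2
import Fermat.Agent.S36.Corr3Red

set_option autoImplicit false

noncomputable section

namespace Fermat.Agent.S36.Corr3Lift

open ModularCurve HahnSeries AlgebraicCurve Fermat.Agent.S18.Arith Fermat.Agent.S18.ModelPlan
open Fermat.Agent.S34 Fermat.Agent.S34.TauAct Fermat.Agent.S35.FrobAct
open Fermat.Agent.S36.Corr3Red

/-! ### The residual Frobenius and its inverse -/

section Frob

variable (A : ValuationSubring Qb)

/-- `Frob (resAut σ⁻¹ c) = c` for a Frobenius element `σ`. -/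
theorem frobenius_resAut_symm {q : ℕ} [Fact q.Prime] [CharP (IsLocalRing.ResidueField A) q]
    {σ : GQ} (hσ : A.IsFrobeniusAt σ q) (c : IsLocalRing.ResidueField A) :
    frobenius (IsLocalRing.ResidueField A) q
      (resAut A (symm_mem_decomp A hσ.mem_decompositionSubgroup) c) = c := by
  rw [frobenius_def, ← resAut_of_isFrobeniusAt A hσ, resAut_apply, resAut_apply, ← mul_smul]
  have h1 : (⟨σ, hσ.mem_decompositionSubgroup⟩ : A.decompositionSubgroup ℚ)
      * ⟨σ.symm, symm_mem_decomp A hσ.mem_decompositionSubgroup⟩ = 1 := by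
    apply Subtype.ext
    show σ * σ.symm = 1
    ext x
    simp
  rw [h1, one_smul]

/-- `Φ (coeffMap (resAut σ⁻¹) y) = y`. -/
theorem coeffMap_frobenius_resAut_symm {q : ℕ} [Fact q.Prime]
    [CharP (IsLocalRing.ResidueField A) q] {σ : GQ} (hσ : A.IsFrobeniusAt σ q)
    (y : LaurentSeries (IsLocalRing.ResidueField A)) :
    coeffMap (frobenius (IsLocalRing.ResidueField A) q)
      (coeffMap ((resAut A (symm_mem_decomp A hσ.mem_decompositionSubgroup) :
          IsLocalRing.ResidueField A ≃+* IsLocalRing.ResidueField A) :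
          IsLocalRing.ResidueField A →+* IsLocalRing.ResidueField A) y) = y := by
  ext n
  rw [coeffMap_coeff, coeffMap_coeff]
  exact frobenius_resAut_symm A hσ _

/-- **`hCΦ`**: constants have `q`-th roots among the constants. -/
theorem hCΦ {q : ℕ} [Fact q.Prime] [CharP (IsLocalRing.ResidueField A) q]
    {σ : GQ} (hσ : A.IsFrobeniusAt σ q) :
    ∀ y : LaurentSeries (IsLocalRing.ResidueField A), Cst A y →
      ∃ z : LaurentSeries (IsLocalRing.ResidueField A), Cst A z ∧
        coeffMap (frobenius (IsLocalRing.ResidueField A) q) z = y := by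
  rintro y ⟨c, rfl⟩
  refine ⟨C (resAut A (symm_mem_decomp A hσ.mem_decompositionSubgroup) c), cst_C _, ?_⟩
  have h : coeffMap (frobenius (IsLocalRing.ResidueField A) q)
      (C (resAut A (symm_mem_decomp A hσ.mem_decompositionSubgroup) c) :
        LaurentSeries (IsLocalRing.ResidueField A))
      = C (frobenius (IsLocalRing.ResidueField A) q
          (resAut A (symm_mem_decomp A hσ.mem_decompositionSubgroup) c)) :=
    coeffMap_single _ _ _
  rw [h, frobenius_resAut_symm A hσ]

end Frob

/-! ### The lifts -/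

section Lift

variable (M q : ℕ) [NeZero M] [NeZero q] (hq : q.Prime) (hqM : ¬ q ∣ M)
variable (A : ValuationSubring Qb) (K : IntermediateField ℚ Qb)

/-- The `σ⁻¹`-twist at level `M * q`: if `x'` reduces to `y` then `σ⁻¹ x'` reduces to the
coefficientwise `σ⁻¹`-twist of `y`. -/
theorem gRel_tauE_symm {N : ℕ} [NeZero N] {σ : GQ} (hσ : σ ∈ A.decompositionSubgroup ℚ)
    (hK : Stable K σ) {x : FK N K} {y : LaurentSeries (IsLocalRing.ResidueField A)}
    (h : GRel A ((x : FK N K) : LaurentSeries Qb) y) :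
    GRel A ((tauE N hK.symm x : FK N K) : LaurentSeries Qb)
      (coeffMap ((resAut A (symm_mem_decomp A hσ) :
          IsLocalRing.ResidueField A ≃+* IsLocalRing.ResidueField A) :
          IsLocalRing.ResidueField A →+* IsLocalRing.ResidueField A) y) := by
  rw [coe_tauE]
  exact gRel_coeffMap_decomp A (symm_mem_decomp A hσ) h

variable {A K}

/-- **`hL1`**: a level-`M q` residue at `∞` is the Frobenius of the common residue, at `∞` and
along `E₃`, of a level-`M q²` function (`x = α (σ⁻¹ x')`). -/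
theorem hL1 [Fact q.Prime] [CharP (IsLocalRing.ResidueField A) q]
    {σ : GQ} (hσ : A.IsFrobeniusAt σ q) (hK : Stable K σ)
    (E₃ : FK (M * q * q) K →+* LaurentSeries Qb)
    (hE₃α : ∀ u : FK (M * q) K, E₃ (WQ2.alphaK2 M q K u) = (u : LaurentSeries Qb)) :
    ∀ (x' : FK (M * q) K) (y : LaurentSeries (IsLocalRing.ResidueField A)),
      (redOf A (FK (M * q) K).subtype).rel x' y → y ≠ 0 →
      ∃ (x : FK (M * q * q) K) (z : LaurentSeries (IsLocalRing.ResidueField A)),
        coeffMap (frobenius (IsLocalRing.ResidueField A) q) z = y ∧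
        (redOf A (FK (M * q * q) K).subtype).rel x z ∧ (redOf A E₃).rel x z := by
  intro x' y h _
  have h1 := gRel_tauE_symm A K hσ.mem_decompositionSubgroup hK (x := x') h
  refine ⟨WQ2.alphaK2 M q K (tauE (M * q) hK.symm x'), _,
    coeffMap_frobenius_resAut_symm A hσ y, ?_, ?_⟩
  · show GRel A ((WQ2.alphaK2 M q K (tauE (M * q) hK.symm x') : FK (M * q * q) K) :
      LaurentSeries Qb) _
    rw [WQ2.coe_alphaK2]
    exact h1
  · show GRel A (E₃ (WQ2.alphaK2 M q K (tauE (M * q) hK.symm x'))) _
    rw [hE₃α]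
    exact h1

/-- **`hL2`**: a level-`M q` residue along `w_q` is the Frobenius of the residue along `w_{q²}`
of a level-`M q²` function (`x = β (σ⁻¹ x')`). -/
theorem hL2 [Fact q.Prime] [CharP (IsLocalRing.ResidueField A) q]
    {σ : GQ} (hσ : A.IsFrobeniusAt σ q) (hK : Stable K σ) :
    ∀ (x' : FK (M * q) K) (y : LaurentSeries (IsLocalRing.ResidueField A)),
      (redOf A ((FK (M * q) K).subtype.comp
        (WK.wK M q hq hqM K : FK (M * q) K →+* FK (M * q) K))).rel x' y → y ≠ 0 →
      ∃ (x : FK (M * q * q) K) (z : LaurentSeries (IsLocalRing.ResidueField A)),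
        coeffMap (frobenius (IsLocalRing.ResidueField A) q) z = y ∧
        (redOf A ((FK (M * q * q) K).subtype.comp
          (WQ2.wK2 M q hq hqM K : FK (M * q * q) K →+* FK (M * q * q) K))).rel x z := by
  intro x' y h _
  have h0 : GRel A ((WK.wK M q hq hqM K x' : FK (M * q) K) : LaurentSeries Qb) y := h
  have h1 := gRel_tauE_symm A K hσ.mem_decompositionSubgroup hK h0
  refine ⟨WQ2.betaK2 M q hq hqM K (tauE (M * q) hK.symm x'), _,
    coeffMap_frobenius_resAut_symm A hσ y, ?_⟩
  show GRel A ((WQ2.wK2 M q hq hqM K (WQ2.betaK2 M q hq hqM K (tauE (M * q) hK.symm x')) :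
    FK (M * q * q) K) : LaurentSeries Qb) _
  rw [WQ2.wK2_betaK2, WQ2.coe_alphaK2, WKB.wK_tauE]
  exact h1

/-- **`hL3`**: a level-`M q` residue at `∞` is a residue along `E₃` (`x = α x'`). -/
theorem hL3 (E₃ : FK (M * q * q) K →+* LaurentSeries Qb)
    (hE₃α : ∀ u : FK (M * q) K, E₃ (WQ2.alphaK2 M q K u) = (u : LaurentSeries Qb)) :
    ∀ (x' : FK (M * q) K) (y : LaurentSeries (IsLocalRing.ResidueField A)),
      (redOf A (FK (M * q) K).subtype).rel x' y →
      ∃ x : FK (M * q * q) K, (redOf A E₃).rel x y := by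
  intro x' y h
  refine ⟨WQ2.alphaK2 M q K x', ?_⟩
  show GRel A (E₃ (WQ2.alphaK2 M q K x')) y
  rw [hE₃α]
  exact h

/-- **`hroot`**: every nonzero residue constant has an `m`-th root which is the common residue
(at `∞`, along `w_{q²}` and along `E₃`) of a constant of `O = A ∩ K`. -/
theorem hroot (hB : BaseFacts q A K)
    (E₃ : FK (M * q * q) K →+* LaurentSeries Qb)
    (hE₃c : ∀ c : OK A K, E₃ (algebraMap (OK A K) (FK (M * q * q) K) c)
      = (C (incO A K c) : LaurentSeries Qb))
    {m : ℕ} (hm : m ≠ 0) :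
    ∀ y : LaurentSeries (IsLocalRing.ResidueField A), Cst A y → y ≠ 0 →
      ∃ (e : FK (M * q * q) K) (ε : LaurentSeries (IsLocalRing.ResidueField A)),
        ε ^ m = y ∧ (redOf A (FK (M * q * q) K).subtype).rel e ε ∧
        (redOf A ((FK (M * q * q) K).subtype.comp
          (WQ2.wK2 M q hq hqM K : FK (M * q * q) K →+* FK (M * q * q) K))).rel e ε ∧
        (redOf A E₃).rel e ε := by
  rintro y ⟨c, rfl⟩ _
  have : IsAlgClosed (IsLocalRing.ResidueField A) :=
    Fermat.Agent.S18.BaseRes.isAlgClosed_residueField_Qb A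
  obtain ⟨d, hd⟩ := IsAlgClosed.exists_pow_nat_eq c (Nat.pos_of_ne_zero hm)
  obtain ⟨a, ha⟩ := IsLocalRing.residue_surjective (R := A) d
  obtain ⟨x, hx, hres⟩ := hB.res_surj a
  let c0 : OK A K := ⟨x, hx⟩
  have hc0 : resO A K c0 = d := by
    rw [← ha, hres]; rfl
  have hG : GRel A (C (incO A K c0) : LaurentSeries Qb) (C d) := by
    have h := Fermat.Agent.S18.ModelRed.gRel_const K (gFacts A) c0
    rwa [hc0] at h
  refine ⟨algebraMap (OK A K) (FK (M * q * q) K) c0, C d, ?_, ?_, ?_, ?_⟩
  · rw [← map_pow, hd]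
  · exact hG
  · show GRel A ((WQ2.wK2 M q hq hqM K (algebraMap (OK A K) (FK (M * q * q) K) c0) :
      FK (M * q * q) K) : LaurentSeries Qb) _
    rw [WQ2.wK2_algebraMap_OK]
    exact hG
  · show GRel A (E₃ (algebraMap (OK A K) (FK (M * q * q) K) c0)) _
    rw [hE₃c]
    exact hG

end Lift

end Fermat.Agent.S36.Corr3Lift
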