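/-
S36 — Corr3NF.lean (helper43): generic building blocks for the INSTANCE of `Corr3.exists_corr`
([CORR36]) in the vocabulary of `S36/Corr3Red` (`redOf A E`, `rel x y := GRel A (E x) y`).

Everything here is level-free: `F` is any field, `E : F →+* ℚ̄((Q))` an expansion.

* `isU_of_nf`, `isU_of_mem`            : units of `redOf A E` from a normal form / from
                                          "integral with integral inverse";
* `gRel_natCast`                        : the reduction of a natural number;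
* `mem_nonunits_iff`                    : for a valuation ring `V = {x | ∃ y, GRel A (E x) y}`,
                                          `V.nonunits = {x | GRel A (E x) 0}`;
* `exists_rel` (= `hWA`), `exists_rel_one` (= `hVal`), `exists_oneMod` : weak approximation for
  a family of such valuation rings with a separating family (`ApproxN.Sep`), and the lift of
  "residue `1`" to "`≡ 1` modulo `ϖ`" (`CorrAbs.exists_corrector`);
* `exists_zpow_mul_unit_of_dvr`, `exists_rel_const` (= `hcα`, `hcβ`) : constants of `K` are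
  `π ^ a · unit`, with constant nonzero residue.
-/
import Mathlib
import Fermat.Agent.S18.GRel
import Fermat.Agent.S18.ModelRed
import Fermat.Agent.S36.Corr3
import Fermat.Agent.S36.Corr3Red
import Fermat.Agent.S36.ApproxN
import Fermat.Agent.S36.CorrAbs

set_option autoImplicit false

noncomputable section

namespace Fermat.Agent.S36.Corr3NF

open ModularCurve HahnSeries Fermat.Agent.S18.Arith Fermat.Agent.S18.ModelPlan
open Fermat.Agent.S18.ModelRed Fermat.Agent.S36.Corr3Red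

variable {A : ValuationSubring Qb} {F : Type*} [Field F]

local notation "Ωk" => LaurentSeries (IsLocalRing.ResidueField A)

/-! ### Units -/

/-- A unit of `redOf A E` from a normal form `GRel A (E x * P ^ (-γ)) y`, `P = E π`. -/
theorem isU_of_nf (E : F →+* LaurentSeries Qb) (π : F) (x : F) (γ : ℤ) (y : Ωk) (hy : y ≠ 0)
    (h : GRel A (E x * (E π) ^ (-γ)) y) : (redOf A E).IsU (π ^ (-γ) * x) := by
  refine ⟨y, hy, ?_⟩
  show GRel A (E (π ^ (-γ) * x)) y
  rw [map_mul, map_zpow₀, mul_comm]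
  exact h

/-- "Integral with integral inverse" is a unit. -/
theorem isU_of_mem (E : F →+* LaurentSeries Qb) (x : F) (hx0 : x ≠ 0)
    (hx : ∃ y, GRel A (E x) y) (hx' : ∃ y, GRel A (E x⁻¹) y) : (redOf A E).IsU x := by
  obtain ⟨y, hy⟩ := hx
  obtain ⟨y', hy'⟩ := hx'
  refine ⟨y, ?_, hy⟩
  rintro rfl
  have h1 : GRel A (E (x * x⁻¹)) (0 * y') := by
    rw [map_mul]; exact (gFacts A).mul _ _ _ _ hy hy'
  rw [mul_inv_cancel₀ hx0, map_one, zero_mul] at h1
  exact one_ne_zero ((gFacts A).unique _ _ _ (gRel_one (gFacts A)) h1)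

/-- The reduction of a natural number. -/
theorem gRel_natCast (n : ℕ) : GRel A ((n : LaurentSeries Qb)) ((n : Ωk)) := by
  have h := (gFacts A).of_int ((n : LaurentSeries A))
  rwa [map_natCast, map_natCast] at h

/-! ### Valuation rings of Gauss type -/

section Val

variable {V : ValuationSubring F} {E : F →+* LaurentSeries Qb}

/-- For `V = {x | ∃ y, GRel A (E x) y}`: the non-units are the elements of reduction `0`. -/
theorem mem_nonunits_iff (hV : ∀ x, x ∈ V ↔ ∃ y, GRel A (E x) y) (x : F) :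
    x ∈ V.nonunits ↔ GRel A (E x) 0 := by
  rw [V.mem_nonunits_iff]
  constructor
  · intro hlt
    have hxV : x ∈ V := (V.valuation_le_one_iff x).1 hlt.le
    obtain ⟨y, hy⟩ := (hV x).1 hxV
    by_cases hy0 : y = 0
    · rw [hy0] at hy; exact hy
    · exfalso
      have h1 : GRel A (E x⁻¹) y⁻¹ := by
        rw [map_inv₀]; exact (gFacts A).inv _ _ hy hy0
      have h2 : x⁻¹ ∈ V := (hV _).2 ⟨_, h1⟩
      have h3 : V.valuation x⁻¹ ≤ 1 := (V.valuation_le_one_iff _).2 h2
      have hx0 : x ≠ 0 := by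
        rintro rfl
        rw [map_zero] at hy
        exact hy0 ((gFacts A).unique _ _ _ hy (gRel_zero (gFacts A)))
      have h4 : V.valuation x * V.valuation x⁻¹ = 1 := by
        rw [← map_mul, mul_inv_cancel₀ hx0, map_one]
      have h5 : V.valuation x * V.valuation x⁻¹ < 1 :=
        lt_of_le_of_lt (mul_le_of_le_one_right' h3) hlt
      rw [h4] at h5
      exact lt_irrefl _ h5
  · intro h0
    by_cases hx0 : x = 0
    · rw [hx0, map_zero]; exact zero_lt_one
    · by_contra hnot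
      have hge : 1 ≤ V.valuation x := not_lt.1 hnot
      have h3 : V.valuation x⁻¹ ≤ 1 := by
        rw [map_inv₀]
        exact inv_le_one_of_one_le₀ hge
      have h2 : x⁻¹ ∈ V := (V.valuation_le_one_iff _).1 h3
      obtain ⟨y', hy'⟩ := (hV _).1 h2
      have h1 : GRel A (E (x * x⁻¹)) (0 * y') := by
        rw [map_mul]; exact (gFacts A).mul _ _ _ _ h0 hy'
      rw [mul_inv_cancel₀ hx0, map_one, zero_mul] at h1
      exact one_ne_zero ((gFacts A).unique _ _ _ (gRel_one (gFacts A)) h1)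

/-- Units of `V` in terms of `GRel`. -/
theorem mem_and_inv_mem_of_isU (hV : ∀ x, x ∈ V ↔ ∃ y, GRel A (E x) y) {x : F}
    (h : (redOf A E).IsU x) : x ∈ V ∧ x⁻¹ ∈ V := by
  obtain ⟨y, hy, hxy⟩ := h
  refine ⟨(hV x).2 ⟨y, hxy⟩, (hV _).2 ⟨y⁻¹, ?_⟩⟩
  rw [map_inv₀]
  exact (gFacts A).inv _ _ hxy hy

end Val

/-! ### Weak approximation -/

section Approx

variable {ι : Type*} [Fintype ι] [DecidableEq ι]
variable {V : ι → ValuationSubring F} {E : ι → (F →+* LaurentSeries Qb)} {s : ι → F}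

/-- **`hWA`**: prescribed residues. -/
theorem exists_rel (hV : ∀ i x, x ∈ V i ↔ ∃ y, GRel A (E i x) y) (hS : ApproxN.Sep V s)
    (ϖ : F) (hϖ0 : ϖ ≠ 0) (hϖ : ∀ i, GRel A (E i ϖ) 0) (Y : ι → F) (y : ι → Ωk)
    (h : ∀ i, GRel A (E i (Y i)) (y i)) : ∃ H : F, ∀ i, GRel A (E i H) (y i) := by
  obtain ⟨H, hH⟩ := ApproxN.exists_approx hS ϖ hϖ0 Y
  refine ⟨H, fun i => ?_⟩
  obtain ⟨z, hz, e⟩ := hH i
  obtain ⟨yz, hyz⟩ := (hV i z).1 hz
  have e' : H = Y i + ϖ * z := by rw [← e]; ring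
  rw [e', map_add, map_mul]
  have h1 := (gFacts A).add _ _ _ _ (h i) ((gFacts A).mul _ _ _ _ (hϖ i) hyz)
  rwa [zero_mul, add_zero] at h1

/-- **`hVal`**: prescribed "valuations": if `ϖ * (p i)⁻¹` has reduction `0` at `i`, there is
`H` with `(p i)⁻¹ * H` of residue `1` at every `i`. -/
theorem exists_rel_one (hV : ∀ i x, x ∈ V i ↔ ∃ y, GRel A (E i x) y) (hS : ApproxN.Sep V s)
    (ϖ : F) (hϖ0 : ϖ ≠ 0) (p : ι → F) (hp : ∀ i, p i ≠ 0)
    (hsmall : ∀ i, GRel A (E i (ϖ * (p i)⁻¹)) 0) :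
    ∃ H : F, ∀ i, GRel A (E i ((p i)⁻¹ * H)) 1 := by
  obtain ⟨H, hH⟩ := ApproxN.exists_approx hS ϖ hϖ0 p
  refine ⟨H, fun i => ?_⟩
  obtain ⟨z, hz, e⟩ := hH i
  obtain ⟨yz, hyz⟩ := (hV i z).1 hz
  have e' : (p i)⁻¹ * H = 1 + ϖ * (p i)⁻¹ * z := by
    have : H = p i + ϖ * z := by rw [← e]; ring
    rw [this, mul_add, inv_mul_cancel₀ (hp i)]; ring
  rw [e', map_add, map_one, map_mul]
  have h1 := (gFacts A).add _ _ _ _ (gRel_one (gFacts A))
    ((gFacts A).mul _ _ _ _ (hsmall i) hyz)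
  rwa [zero_mul, add_zero] at h1

/-- From residue `1` at every `i` to `≡ 1` modulo `ϖ (V i)` at every `i`, after multiplication
by the `m`-th power of one unit (`CorrAbs.exists_corrector`). -/
theorem exists_oneMod [Nonempty ι] (hV : ∀ i x, x ∈ V i ↔ ∃ y, GRel A (E i x) y)
    (hS : ApproxN.Sep V s)
    (ϖ : F) (hϖ0 : ϖ ≠ 0) (hϖ : ∀ i, GRel A (E i ϖ) 0) (m : ℕ)
    (hm : ∀ i, (redOf A (E i)).IsU (m : F)) (G : F) (hG : ∀ i, GRel A (E i G) 1) :
    ∃ H : F, H ≠ 0 ∧ (∀ i, H ∈ V i ∧ H⁻¹ ∈ V i) ∧ ∀ i, ∃ z ∈ V i, G * H ^ m - 1 = ϖ * z := by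
  have hϖV : ∀ i, ϖ ∈ (V i).nonunits := fun i => (mem_nonunits_iff (hV i) ϖ).2 (hϖ i)
  have hmV : ∀ i, ((m : ℕ) : F) ≠ 0 ∧ ((m : ℕ) : F)⁻¹ ∈ V i := fun i =>
    ⟨Corr3.Red.IsU.ne_zero _ (hm i), (mem_and_inv_mem_of_isU (hV i) (hm i)).2⟩
  have h1 : ∀ i, ∃ y ∈ V i, y⁻¹ ∈ V i ∧ G * y ^ m - 1 ∈ (V i).nonunits := by
    intro i
    refine ⟨1, (V i).one_mem, by rw [inv_one]; exact (V i).one_mem, ?_⟩
    rw [one_pow, mul_one, mem_nonunits_iff (hV i), map_sub, map_one]
    have h2 := (gFacts A).add _ _ _ _ (hG i) ((gFacts A).neg _ _ (gRel_one (gFacts A)))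
    rwa [add_neg_cancel, ← sub_eq_add_neg] at h2
  obtain ⟨H, hHu, hH⟩ := CorrAbs.exists_corrector hS ϖ hϖ0 hϖV m hmV G h1
  refine ⟨H, ?_, hHu, hH⟩
  rintro rfl
  obtain ⟨i⟩ := (inferInstance : Nonempty ι)
  obtain ⟨z, hz, e⟩ := hH i
  have hm0 : m ≠ 0 := by
    rintro rfl
    exact Corr3.Red.IsU.ne_zero _ (hm i) Nat.cast_zero
  rw [zero_pow hm0, mul_zero, zero_sub] at e
  obtain ⟨yz, hyz⟩ := (hV i z).1 hz
  have h3 : GRel A (E i (-1)) (0 * yz) := by
    rw [e, map_mul]; exact (gFacts A).mul _ _ _ _ (hϖ i) hyz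
  have h4 : GRel A (E i (-1)) (-1) := by
    rw [map_neg, map_one]; exact (gFacts A).neg _ _ (gRel_one (gFacts A))
  have h5 := (gFacts A).unique _ _ _ h3 h4
  rw [zero_mul] at h5
  exact one_ne_zero (neg_eq_zero.1 h5.symm)

end Approx

/-! ### Non-units are multiples of a uniformiser -/

/-- In a valuation ring which is discrete with uniformiser `ϖ` (the `disc` shape of
`Model3Plan.ValHyp3`), every non-unit is a multiple of `ϖ`. -/
theorem exists_eq_unif_mul (V : ValuationSubring F) (ϖ : F) (hϖV : ϖ ∈ V)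
    (hdisc : ∀ x : F, x ≠ 0 → ∃ k : ℤ, ∃ u ∈ V, u⁻¹ ∈ V ∧ x = ϖ ^ k * u) {x : F}
    (hx : x ∈ V.nonunits) : ∃ y ∈ V, x = ϖ * y := by
  by_cases hx0 : x = 0
  · exact ⟨0, V.zero_mem, by rw [hx0, mul_zero]⟩
  obtain ⟨k, u, hu, hu', e⟩ := hdisc x hx0
  have hlt : V.valuation x < 1 := (V.mem_nonunits_iff).1 hx
  obtain ⟨n, rfl | rfl⟩ := Int.eq_nat_or_neg k
  · rcases Nat.eq_zero_or_pos n with rfl | hn
    · -- `x = u` is a unit
      exfalso
      rw [Nat.cast_zero, zpow_zero, one_mul] at e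
      have hu0 : u ≠ 0 := by rw [← e]; exact hx0
      have h1 : V.valuation u = 1 := ApproxN.valuation_eq_one V hu0 hu hu'
      rw [e, h1] at hlt
      exact lt_irrefl _ hlt
    · obtain ⟨n', rfl⟩ : ∃ n', n = n' + 1 := ⟨n - 1, by omega⟩
      refine ⟨ϖ ^ n' * u, V.mul_mem _ _ (V.pow_mem hϖV n') hu, ?_⟩
      rw [e, zpow_natCast, pow_succ]; ring
  · exfalso
    have h2 : x⁻¹ = ϖ ^ n * u⁻¹ := by
      rw [e, zpow_neg, zpow_natCast, mul_inv, inv_inv]
    have h3 : x⁻¹ ∈ V := by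
      rw [h2]; exact V.mul_mem _ _ (V.pow_mem hϖV n) hu'
    have h4 : V.valuation x⁻¹ ≤ 1 := (V.valuation_le_one_iff _).2 h3
    have h5 : V.valuation x * V.valuation x⁻¹ = 1 := by
      rw [← map_mul, mul_inv_cancel₀ hx0, map_one]
    have h6 : V.valuation x * V.valuation x⁻¹ < 1 :=
      lt_of_le_of_lt (mul_le_of_le_one_right' h4) hlt
    rw [h5] at h6
    exact lt_irrefl _ h6

/-! ### Constants -/

section Const

variable {K : IntermediateField ℚ Qb}

/-- In the discrete valuation ring `O = A ∩ K` with uniformiser `p`, every nonzero `c ∈ K` is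
`p ^ a · unit`. -/
theorem exists_zpow_mul_unit_of_dvr (hdvr : IsDiscreteValuationRing (OK A K)) (p : OK A K)
    (hp : Irreducible p) (c : K) (hc : c ≠ 0) :
    ∃ (a : ℤ) (u : (OK A K)ˣ), c = ((p : OK A K) : K) ^ a * (((u : (OK A K)ˣ) : OK A K) : K) := by
  have := hdvr
  rcases (OK A K).mem_or_inv_mem c with h | h
  · have hx : (⟨c, h⟩ : OK A K) ≠ 0 := fun h0 => hc (congrArg Subtype.val h0)
    obtain ⟨n, u, e⟩ := IsDiscreteValuationRing.eq_unit_mul_pow_irreducible hx hp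
    refine ⟨n, u, ?_⟩
    have e' := congrArg Subtype.val e
    simp only [SubmonoidClass.coe_pow, MulMemClass.coe_mul] at e'
    rw [zpow_natCast, mul_comm]
    exact e'
  · have hc' : c⁻¹ ≠ 0 := inv_ne_zero hc
    have hx : (⟨c⁻¹, h⟩ : OK A K) ≠ 0 := fun h0 => hc' (congrArg Subtype.val h0)
    obtain ⟨n, u, e⟩ := IsDiscreteValuationRing.eq_unit_mul_pow_irreducible hx hp
    refine ⟨-(n : ℤ), u⁻¹, ?_⟩
    have e' : c⁻¹ = (((u : (OK A K)ˣ) : OK A K) : K) * ((p : OK A K) : K) ^ n := by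
      have := congrArg Subtype.val e
      simpa only [Subring.coe_mul, SubmonoidClass.coe_pow, MulMemClass.coe_mul] using this
    have hu : (((u : (OK A K)ˣ) : OK A K) : K) * (((u⁻¹ : (OK A K)ˣ) : OK A K) : K) = 1 := by
      have := congrArg Subtype.val (Units.mul_inv u)
      simpa only [Subring.coe_mul, MulMemClass.coe_mul, OneMemClass.coe_one] using this
    have hu0 : (((u : (OK A K)ˣ) : OK A K) : K) ≠ 0 := left_ne_zero_of_mul_eq_one hu
    have hp0 : ((p : OK A K) : K) ^ n ≠ 0 := by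
      intro h0
      rw [h0, mul_zero] at e'
      exact hc' e'
    rw [zpow_neg, zpow_natCast]
    have h1 : c = (c⁻¹)⁻¹ := (inv_inv c).symm
    rw [h1, e', mul_inv, ← eq_inv_of_mul_eq_one_right hu]
    ring

/-- **`hcα` / `hcβ`, one reduction**: a constant `c = p ^ a · u` of `K`, divided by `π ^ a`,
has the constant residue `ū ≠ 0`, along any expansion `E` which is the identity on constants. -/
theorem rel_const_of_eq (E : F →+* LaurentSeries Qb) (cst : K →+* F)
    (hcst : ∀ c : K, E (cst c) = (C ((c : K) : Qb) : LaurentSeries Qb)) (p : OK A K)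
    (hp0 : ((p : OK A K) : K) ≠ 0) (c : K) (a : ℤ) (u : (OK A K)ˣ)
    (e : c = ((p : OK A K) : K) ^ a * (((u : (OK A K)ˣ) : OK A K) : K)) :
    (redOf A E).rel (cst ((p : OK A K) : K) ^ (-a) * cst c)
      (C (resO A K (u : OK A K))) := by
  show GRel A (E (cst ((p : OK A K) : K) ^ (-a) * cst c)) _
  have h1 : cst ((p : OK A K) : K) ^ (-a) * cst c = cst (((u : (OK A K)ˣ) : OK A K) : K) := by
    rw [← map_zpow₀, ← map_mul, e, ← mul_assoc, ← zpow_add₀ hp0, neg_add_cancel, zpow_zero,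
      one_mul]
  rw [h1, hcst]
  exact gRel_const K (gFacts A) (u : OK A K)

theorem resO_unit_ne_zero (u : (OK A K)ˣ) :
    (C (resO A K (u : OK A K)) : Ωk) ≠ 0 := by
  have h2 : resO A K (u : OK A K) ≠ 0 := (u.isUnit.map (resO A K)).ne_zero
  exact (map_ne_zero_iff _ HahnSeries.C_injective).mpr h2

end Const

end Fermat.Agent.S36.Corr3NF
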