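import Mathlib
import Fermat.Agent.S36.Iota3
import Fermat.Agent.S34.TauAct
import Fermat.Agent.S34.BaseNormal
import Fermat.Agent.S14.DecompLift

/-!
# S36 [MODEL3 / NORM3] — InertRot.lean (helper79): the middle-cusp data do not depend on `ξ`

`A` a valuation subring of `ℚ̄` over the prime `q`, `ξ` a primitive `q`-th root of unity.

* (I1) `exists_inertia_pow` : for `q ∤ c` there is `τ` in the inertia subgroup of `A` with
  `τ ξ = ξ ^ c` (`ℚ(ξ)/ℚ` is totally ramified at `q`: every automorphism of `ℚ(ξ)` is the identity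
  modulo `A.nonunits` on `ℤ[ξ]`; lift by `S14/DecompLift`);
* (I3) `coeffMap_iota3` : for `τ` fixing `K` pointwise,
  `τ (ι3^ξ x) = ι3^{τ ξ} x` coefficientwise, for `x ∈ F_K(M q²)` (`ι3 = S36.Iota3.iota3`);
* (I4) `gRel_iota3_of_isPrimitiveRoot` : if the inertia group of `A` fixes `K` pointwise, the Gauss
  relation `GRel A (ι3^ξ x) r` does not depend on the primitive root `ξ` (same reduction `r`).

(I2), the invariance of `GRel A` under inertia, is `S34.TauAct.gRel_coeffMap`.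
-/

set_option autoImplicit false

noncomputable section

namespace Fermat.Agent.S36.InertRot

open ModularCurve AlgebraicCurve HahnSeries Polynomial
open Fermat.Agent.S18 Fermat.Agent.S18.Arith Fermat.Agent.S24

/-! ### (I1) inertia acts transitively on the primitive `q`-th roots of unity -/

section Inertia

variable (A : ValuationSubring Qb)

theorem mul_mem_nonunits {a x : Qb} (ha : a ∈ A) (hx : x ∈ A.nonunits) : a * x ∈ A.nonunits := by
  rw [A.mem_nonunits_iff] at hx ⊢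
  rw [map_mul]
  exact mul_lt_one_of_nonneg_of_lt_one_right ((A.valuation_le_one_iff _).mpr ha) zero_le hx

theorem mem_nonunits_of_pow {x : Qb} {n : ℕ} (hx : x ^ n ∈ A.nonunits) : x ∈ A.nonunits := by
  rw [A.mem_nonunits_iff] at hx ⊢
  rw [map_pow] at hx
  by_contra h
  rw [not_lt] at h
  exact absurd hx (not_lt.mpr (one_le_pow₀ h))

variable {q : ℕ}

/-- A `q`-th root of unity is `≡ 1` modulo the maximal ideal of a valuation ring over `q`. -/
theorem sub_one_mem_nonunits (hq : q.Prime) (hA : A.LiesOverPrime q) {ξ : Qb} (hξ : ξ ^ q = 1) :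
    ξ - 1 ∈ A.nonunits := by
  have hint : IsIntegral ℤ ξ := by
    apply IsIntegral.of_pow hq.pos
    rw [hξ]
    exact isIntegral_one
  have hξA : ξ ∈ A := Fermat.Agent.S13.ValSub.mem_of_isIntegral A hint
  obtain ⟨r, hr⟩ := exists_add_pow_prime_eq hq (⟨ξ, hξA⟩ : A) (-1)
  have hr' : (ξ + -1) ^ q = ξ ^ q + (-1) ^ q + (q : Qb) * ξ * (-1) * (r : Qb) := by
    have := congrArg (fun a : A => (a : Qb)) hr
    simpa using this
  apply mem_nonunits_of_pow A (n := q)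
  have hqA : (q : Qb) ∈ A.nonunits := hA
  have h3 : (q : Qb) * ξ * (-1) * (r : Qb) ∈ A.nonunits := by
    have e : (q : Qb) * ξ * (-1) * (r : Qb) = (ξ * (-1) * (r : Qb)) * (q : Qb) := by ring
    rw [e]
    exact mul_mem_nonunits A (mul_mem (mul_mem hξA (neg_mem (one_mem A))) r.2) hqA
  have h4 : ξ ^ q + (-1) ^ q ∈ A.nonunits := by
    rw [hξ]
    rcases hq.eq_two_or_odd' with h2 | hodd
    · subst h2
      have e : (1 : Qb) + (-1) ^ 2 = ((2 : ℕ) : Qb) := by norm_num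
      rw [e]
      exact hqA
    · rw [hodd.neg_one_pow, add_neg_cancel]
      exact A.nonunits.zero_mem
  rw [sub_eq_add_neg, hr']
  exact A.nonunits.add_mem h4 h3

/-- `ξ ^ c ≡ ξ` modulo the maximal ideal. -/
theorem pow_sub_self_mem_nonunits (hq : q.Prime) (hA : A.LiesOverPrime q) {ξ : Qb}
    (hξ : ξ ^ q = 1) (c : ℕ) : ξ ^ c - ξ ∈ A.nonunits := by
  have h1 : ξ ^ c - 1 ∈ A.nonunits := by
    apply sub_one_mem_nonunits A hq hA
    rw [← pow_mul, mul_comm, pow_mul, hξ, one_pow]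
  have h2 : ξ - 1 ∈ A.nonunits := sub_one_mem_nonunits A hq hA hξ
  have e : ξ ^ c - ξ = (ξ ^ c - 1) - (ξ - 1) := by ring
  rw [e]
  exact A.nonunits.sub_mem h1 h2

/-- **(I1)** The inertia subgroup of `A` (over `q`) acts transitively on the primitive `q`-th
roots of unity: for `q ∤ c` there is `τ` in it with `τ ξ = ξ ^ c`. -/
theorem exists_inertia_pow (hq : q.Prime) (hA : A.LiesOverPrime q) {ξ : Qb}
    (hξ : IsPrimitiveRoot ξ q) {c : ℕ} (hc : ¬ q ∣ c) :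
    ∃ τ : Qb ≃ₐ[ℚ] Qb, τ ∈ A.inertiaSubgroupIn ℚ ∧ τ ξ = ξ ^ c := by
  haveI : NeZero q := ⟨hq.ne_zero⟩
  haveI : Fact q.Prime := ⟨hq⟩
  haveI := Fermat.Agent.S13.InertiaLift.isGalois_rat
  have hcop : Nat.Coprime c q := Nat.Coprime.symm ((Nat.Prime.coprime_iff_not_dvd hq).mpr hc)
  have hξc : IsPrimitiveRoot (ξ ^ c) q := hξ.pow_of_coprime c hcop
  -- an automorphism of `ℚ̄` with `σ ξ = ξ ^ c`
  have hconj : IsConjRoot ℚ (ξ ^ c) ξ := by
    rw [isConjRoot_def, ← cyclotomic_eq_minpoly_rat hξc hq.pos, ← cyclotomic_eq_minpoly_rat hξ hq.pos]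
  obtain ⟨σ, hσ⟩ := isConjRoot_iff_exists_algEquiv.mp hconj
  -- the cyclotomic field
  let F : IntermediateField ℚ Qb := IntermediateField.adjoin ℚ {ξ}
  haveI : Algebra.IsIntegral ℚ Qb := Algebra.IsAlgebraic.isIntegral
  haveI hcyc : IsCyclotomicExtension {q} ℚ F := hξ.intermediateField_adjoin_isCyclotomicExtension ℚ
  haveI : FiniteDimensional ℚ F := IsCyclotomicExtension.finiteDimensional {q} ℚ F
  haveI : IsGalois ℚ F := IsCyclotomicExtension.isGalois {q} ℚ F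
  let ζ : F := ⟨ξ, IntermediateField.mem_adjoin_simple_self ℚ ξ⟩
  have hζ : IsPrimitiveRoot ζ q := by
    have h1 : IsPrimitiveRoot (algebraMap F Qb ζ) q := hξ
    exact IsPrimitiveRoot.of_map_of_injective h1 (algebraMap F Qb).injective
  let τ : F ≃ₐ[ℚ] F := σ.restrictNormal F
  have hτ : ∀ x : F, ((τ x : F) : Qb) = σ (x : Qb) := fun x => σ.restrictNormal_commutes F x
  have hξq : ξ ^ q = 1 := hξ.pow_eq_one
  have hcl := IsCyclotomicExtension.Rat.isIntegralClosure_adjoin_singleton_of_prime (p := q)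
    (K := F) hζ
  have key : ∀ y : F, y ∈ Algebra.adjoin ℤ ({ζ} : Set F) →
      IsIntegral ℤ (y : Qb) ∧ σ (y : Qb) - (y : Qb) ∈ A.nonunits := by
    intro y hy
    induction hy using Algebra.adjoin_induction with
    | mem y hy =>
      rw [Set.mem_singleton_iff] at hy
      subst hy
      refine ⟨hξ.isIntegral hq.pos, ?_⟩
      show σ ξ - ξ ∈ A.nonunits
      rw [hσ]
      exact pow_sub_self_mem_nonunits A hq hA hξq c
    | algebraMap n =>
      refine ⟨?_, ?_⟩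
      · have : ((algebraMap ℤ F n : F) : Qb) = algebraMap ℤ Qb n := by simp
        rw [this]
        exact isIntegral_algebraMap
      · have : ((algebraMap ℤ F n : F) : Qb) = ((n : ℤ) : Qb) := by simp
        rw [this, map_intCast, sub_self]
        exact A.nonunits.zero_mem
    | add y z _ _ hy hz =>
      refine ⟨?_, ?_⟩
      · have : ((y + z : F) : Qb) = (y : Qb) + (z : Qb) := rfl
        rw [this]
        exact hy.1.add hz.1
      · have : ((y + z : F) : Qb) = (y : Qb) + (z : Qb) := rfl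
        rw [this, map_add]
        have e : σ (y : Qb) + σ (z : Qb) - ((y : Qb) + (z : Qb))
            = (σ (y : Qb) - (y : Qb)) + (σ (z : Qb) - (z : Qb)) := by ring
        rw [e]
        exact A.nonunits.add_mem hy.2 hz.2
    | mul y z _ _ hy hz =>
      refine ⟨?_, ?_⟩
      · have : ((y * z : F) : Qb) = (y : Qb) * (z : Qb) := rfl
        rw [this]
        exact hy.1.mul hz.1
      · have : ((y * z : F) : Qb) = (y : Qb) * (z : Qb) := rfl
        rw [this, map_mul]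
        have e : σ (y : Qb) * σ (z : Qb) - (y : Qb) * (z : Qb)
            = σ (y : Qb) * (σ (z : Qb) - (z : Qb)) + (z : Qb) * (σ (y : Qb) - (y : Qb)) := by ring
        rw [e]
        have hσy : σ (y : Qb) ∈ A :=
          Fermat.Agent.S13.ValSub.mem_of_isIntegral A (map_isIntegral_int σ hy.1)
        have hzA : (z : Qb) ∈ A := Fermat.Agent.S13.ValSub.mem_of_isIntegral A hz.1
        exact A.nonunits.add_mem (mul_mem_nonunits A hσy hz.2) (mul_mem_nonunits A hzA hy.2)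
  have hτA : ∀ x : F, IsIntegral ℤ (x : Qb) → ((τ x : F) : Qb) - (x : Qb) ∈ A.nonunits := by
    intro x hx
    have hxF : IsIntegral ℤ x := by
      have h1 : IsIntegral ℤ (algebraMap F Qb x) := hx
      exact (isIntegral_algebraMap_iff (algebraMap F Qb).injective).mp h1
    obtain ⟨y, hy⟩ := (hcl.isIntegral_iff).mp hxF
    have hmem : x ∈ Algebra.adjoin ℤ ({ζ} : Set F) := by
      rw [← hy]
      exact y.2
    rw [hτ]
    exact (key x hmem).2
  obtain ⟨τ', hτ', hτ'F⟩ :=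
    Fermat.Agent.S14Tr.DecompLift.exists_lift_mem_inertiaSubgroupIn A F τ hτA
  refine ⟨τ', hτ', ?_⟩
  have h1 := hτ'F ζ
  rw [hτ] at h1
  exact h1.trans hσ

end Inertia

/-! ### (I3) Galois conjugation of the middle-cusp embedding -/

section Conj

/-- The coefficientwise Galois action twists the rotation `Q ↦ ξ Q` into `Q ↦ (τ ξ) Q`. -/
theorem coeffMap_rotHom (τ : Qb ≃ₐ[ℚ] Qb) (ξ : Qb) (hξ : ξ ≠ 0) (hτξ : τ ξ ≠ 0)
    (f : LaurentSeries Qb) :
    coeffMap (τ : Qb →+* Qb) (rotHom ξ hξ f)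
      = rotHom (τ ξ) hτξ (coeffMap (τ : Qb →+* Qb) f) := by
  ext n
  rw [coeffMap_coeff, rotHom_coeff, rotHom_coeff, coeffMap_coeff, map_mul, map_zpow₀]
  rfl

variable (M q : ℕ) [NeZero M] [NeZero q] (K : IntermediateField ℚ Qb)
variable (hq : q.Prime) (hqM : ¬ q ∣ M)

theorem iota3_congr {ξ ξ' : Qb} (h : ξ = ξ') (hξ : ξ ^ q = 1) (hξ1 : ξ ≠ 1) (hξ' : ξ' ^ q = 1)
    (hξ1' : ξ' ≠ 1) :
    Iota3.iota3 M q K hq hqM ξ hξ hξ1 = Iota3.iota3 M q K hq hqM ξ' hξ' hξ1' := by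
  subst h
  rfl

/-- **(I3)** For `τ ∈ Gal(ℚ̄/ℚ)` fixing `K` pointwise: `τ (ι3^ξ x) = ι3^{τ ξ} x` coefficientwise,
for every `x ∈ F_K(M q²)`. -/
theorem coeffMap_iota3 (ξ : Qb) (hξ : ξ ^ q = 1) (hξ1 : ξ ≠ 1) (τ : Qb ≃ₐ[ℚ] Qb)
    (hτK : ∀ a ∈ K, τ a = a) (hτξ : (τ ξ) ^ q = 1) (hτξ1 : τ ξ ≠ 1)
    (x : FK ((M * q) * q) K) :
    coeffMap (τ : Qb →+* Qb) (Iota3.iota3 M q K hq hqM ξ hξ hξ1 x)
      = Iota3.iota3 M q K hq hqM (τ ξ) hτξ hτξ1 x := by
  have h := Iota3.ringHom_ext_E2 M q K hq hqM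
    ((coeffMap (τ : Qb →+* Qb)).comp (Iota3.iota3 M q K hq hqM ξ hξ hξ1))
    (Iota3.iota3 M q K hq hqM (τ ξ) hτξ hτξ1) (fun y => ?_) ?_
  · exact congrArg (fun g : FK ((M * q) * q) K →+* LaurentSeries Qb => g x) h
  · rw [RingHom.comp_apply, Iota3.iota3_incl, Iota3.iota3_incl]
    exact S34.BaseNormal.coeffMap_eq_self_of_fixed (M * q) τ hτK y.2
  · rw [RingHom.comp_apply, Iota3.iota3_jq2K, Iota3.iota3_jq2K, coeffMap_rotHom τ ξ
      (Iota3.xi_ne_zero q hξ) (Iota3.xi_ne_zero q hτξ), coeffMap_coeffEmb]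

variable (A : ValuationSubring Qb)

/-- **(I4)**, power form: if the inertia group of `A` fixes `K` pointwise, the Gauss relation
along `ι3^ξ` passes to `ι3^{ξ^c}` (`q ∤ c`), with the SAME reduction. -/
theorem gRel_iota3_pow (hA : A.LiesOverPrime q)
    (hK : ∀ σ ∈ A.inertiaSubgroupIn ℚ, ∀ a ∈ K, σ a = a)
    {ξ : Qb} (hξ : IsPrimitiveRoot ξ q) {c : ℕ} (hc : ¬ q ∣ c)
    (hξq : ξ ^ q = 1) (hξ1 : ξ ≠ 1) (hcq : (ξ ^ c) ^ q = 1) (hc1 : ξ ^ c ≠ 1)
    (x : FK ((M * q) * q) K) {r : LaurentSeries (IsLocalRing.ResidueField A)}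
    (h : GRel A (Iota3.iota3 M q K hq hqM ξ hξq hξ1 x) r) :
    GRel A (Iota3.iota3 M q K hq hqM (ξ ^ c) hcq hc1 x) r := by
  obtain ⟨τ, hτ, hτξ⟩ := exists_inertia_pow A hq hA hξ hc
  have h1 := S34.TauAct.gRel_coeffMap A hτ h
  have hτq : (τ ξ) ^ q = 1 := by rw [hτξ]; exact hcq
  have hτ1 : τ ξ ≠ 1 := by rw [hτξ]; exact hc1
  rw [coeffMap_iota3 M q K hq hqM ξ hξq hξ1 τ (hK τ hτ) hτq hτ1,
    iota3_congr M q K hq hqM hτξ hτq hτ1 hcq hc1] at h1
  exact h1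

/-- **(I4)** If the inertia group of `A` fixes `K` pointwise, the Gauss relation along the
middle-cusp embedding `ι3^ξ` does not depend on the primitive `q`-th root of unity `ξ`. -/
theorem gRel_iota3_of_isPrimitiveRoot (hA : A.LiesOverPrime q)
    (hK : ∀ σ ∈ A.inertiaSubgroupIn ℚ, ∀ a ∈ K, σ a = a)
    {ξ ξ' : Qb} (hξ : IsPrimitiveRoot ξ q) (hξ' : IsPrimitiveRoot ξ' q)
    (hξq : ξ ^ q = 1) (hξ1 : ξ ≠ 1) (hξq' : ξ' ^ q = 1) (hξ1' : ξ' ≠ 1)
    (x : FK ((M * q) * q) K) {r : LaurentSeries (IsLocalRing.ResidueField A)}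
    (h : GRel A (Iota3.iota3 M q K hq hqM ξ hξq hξ1 x) r) :
    GRel A (Iota3.iota3 M q K hq hqM ξ' hξq' hξ1' x) r := by
  obtain ⟨c, -, hc⟩ := hξ.eq_pow_of_pow_eq_one hξq'
  have hcq : ¬ q ∣ c := by
    intro hdvd
    obtain ⟨d, rfl⟩ := hdvd
    apply hξ1'
    rw [← hc, pow_mul, hξq, one_pow]
  have hcq' : (ξ ^ c) ^ q = 1 := by rw [hc]; exact hξq'
  have hc1 : ξ ^ c ≠ 1 := by rw [hc]; exact hξ1'
  have h1 := gRel_iota3_pow M q K hq hqM A hA hK hξ hcq hξq hξ1 hcq' hc1 x h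
  rw [iota3_congr M q K hq hqM hc hcq' hc1 hξq' hξ1'] at h1
  exact h1

theorem gRel_iota3_iff (hA : A.LiesOverPrime q)
    (hK : ∀ σ ∈ A.inertiaSubgroupIn ℚ, ∀ a ∈ K, σ a = a)
    {ξ ξ' : Qb} (hξ : IsPrimitiveRoot ξ q) (hξ' : IsPrimitiveRoot ξ' q)
    (hξq : ξ ^ q = 1) (hξ1 : ξ ≠ 1) (hξq' : ξ' ^ q = 1) (hξ1' : ξ' ≠ 1)
    (x : FK ((M * q) * q) K) (r : LaurentSeries (IsLocalRing.ResidueField A)) :
    GRel A (Iota3.iota3 M q K hq hqM ξ hξq hξ1 x) r
      ↔ GRel A (Iota3.iota3 M q K hq hqM ξ' hξq' hξ1' x) r :=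
  ⟨gRel_iota3_of_isPrimitiveRoot M q K hq hqM A hA hK hξ hξ' hξq hξ1 hξq' hξ1' x,
    gRel_iota3_of_isPrimitiveRoot M q K hq hqM A hA hK hξ' hξ hξq' hξ1' hξq hξ1 x⟩

/-- Integrality version: Gauss-integrality (`∃ r, GRel`) along `ι3^ξ` does not depend on `ξ`. -/
theorem exists_gRel_iota3_iff (hA : A.LiesOverPrime q)
    (hK : ∀ σ ∈ A.inertiaSubgroupIn ℚ, ∀ a ∈ K, σ a = a)
    {ξ ξ' : Qb} (hξ : IsPrimitiveRoot ξ q) (hξ' : IsPrimitiveRoot ξ' q)
    (hξq : ξ ^ q = 1) (hξ1 : ξ ≠ 1) (hξq' : ξ' ^ q = 1) (hξ1' : ξ' ≠ 1)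
    (x : FK ((M * q) * q) K) :
    (∃ r, GRel A (Iota3.iota3 M q K hq hqM ξ hξq hξ1 x) r)
      ↔ ∃ r, GRel A (Iota3.iota3 M q K hq hqM ξ' hξq' hξ1' x) r :=
  exists_congr fun r =>
    gRel_iota3_iff M q K hq hqM A hA hK hξ hξ' hξq hξ1 hξq' hξ1' x r

end Conj

end Fermat.Agent.S36.InertRot
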