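/-
S36 — Iota3K.lean (helper2): block [IOTA3], second file — the COMPLETE FAMILY of conjugates of
`F(M q²)` over `α(F(M q))` built from the middle-cusp embeddings of `S36/Iota3.lean`, at the
`K`-level and at the `ℚ̄`-level, and the norm formulas along `α` (blueprint (3):
`N_α y = ι1(y) · ∏_{c=1}^{q-1} ι3^{(c)}(y)`).

`q` prime, `q ∤ M`, `ζ` a primitive `q`-th root of unity.

* `emb3 ζ : Fin q → (FK ((M*q)*q) K →+* ℚ̄((Q)))` : `0 ↦` inclusion, `c ≠ 0 ↦ iota3 (ζ^c)`;
  `emb3_incl`, `emb3_injective`, `coe_norm`, `coe_trace` (for `Algebra.norm (FK (M*q) K)`,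
  `DegTower.algTower`);
* `iota3Bar ξ : F̄_{M q²} →+* ℚ̄((Q))` with `iota3Bar_alpha` (`= id` on `α(F̄_{Mq})`),
  `iota3Bar_beta` (`= (Q ↦ ξ Q) ∘ w_q` on `β(F̄_{Mq})`), `iota3Bar_algebraMap`;
* `famBar ζ : Fin q → (F̄_{M q²} →+* ℚ̄((Q)))` with EXACTLY the hypotheses of `S36/NormFam`
  (`famBar_alpha`, `famBar_injective`, `famBar_zero`), and the assembled corollaries
  `coe_norm_alpha`, `gRel_norm_alpha`.
-/
import Mathlib
import Fermat.Agent.S36.Iota3
import Fermat.Agent.S36.NormFam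

set_option autoImplicit false

noncomputable section

namespace Fermat.Agent.S36.Iota3K

open Polynomial
open ModularCurve AlgebraicCurve HahnSeries
open Fermat.Agent.S18 Fermat.Agent.S18.Arith Fermat.Agent.S24
open Fermat.Agent.S37.W Fermat.Agent.S34 Fermat.Agent.S34.ConjMod Fermat.Agent.S36.Iota3

variable (M q : ℕ) [NeZero M] [NeZero q]

omit [NeZero M] [NeZero q] in
theorem pow_pow_eq_one {ζ : Qb} (hζ : IsPrimitiveRoot ζ q) (c : ℕ) : (ζ ^ c) ^ q = 1 := by
  rw [← pow_mul, mul_comm, pow_mul, hζ.pow_eq_one, one_pow]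

/-! ### The `K`-level family -/

section KLevel

variable (K : IntermediateField ℚ Qb) (hq : q.Prime) (hqM : ¬ q ∣ M) (ζ : Qb)
  (hζ : IsPrimitiveRoot ζ q)

/-- The complete family of embeddings of `F_K(M q²)` over `F_K(M q)`: `0 ↦` the inclusion,
`c ≠ 0 ↦ iota3 (ζ ^ c)`. -/
def emb3 (c : Fin q) : FK ((M * q) * q) K →+* LaurentSeries Qb :=
  if h : (c : ℕ) = 0 then (FK ((M * q) * q) K).subtype
  else iota3 M q K hq hqM (ζ ^ (c : ℕ)) (pow_pow_eq_one q hζ c)
    (hζ.pow_ne_one_of_pos_of_lt h c.2)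

theorem emb3_of_eq (c : Fin q) (h : (c : ℕ) = 0) (x : FK ((M * q) * q) K) :
    emb3 M q K hq hqM ζ hζ c x = (x : LaurentSeries Qb) := by
  rw [emb3, dif_pos h]
  rfl

theorem emb3_of_ne (c : Fin q) (h : (c : ℕ) ≠ 0) :
    emb3 M q K hq hqM ζ hζ c = iota3 M q K hq hqM (ζ ^ (c : ℕ)) (pow_pow_eq_one q hζ c)
      (hζ.pow_ne_one_of_pos_of_lt h c.2) := by
  rw [emb3, dif_neg h]

/-- All members of the family are the identity on `F_K(M q)`. -/
theorem emb3_incl (c : Fin q) (x : FK (M * q) K) :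
    emb3 M q K hq hqM ζ hζ c (DegTower.incl (M * q) ((M * q) * q) K (Dvd.intro q rfl) x)
      = (x : LaurentSeries Qb) := by
  by_cases h : (c : ℕ) = 0
  · rw [emb3_of_eq M q K hq hqM ζ hζ c h, DegTower.coe_incl]
  · rw [emb3_of_ne M q K hq hqM ζ hζ c h, iota3_incl]

/-- The value at `j_{q²}`, coefficient of `Q⁻¹`. -/
theorem emb3_jq2K_coeff (c : Fin q) :
    (emb3 M q K hq hqM ζ hζ c (jq2K M q K)).coeff (-1 : ℤ)
      = if (c : ℕ) = 0 then 0 else (ζ ^ (c : ℕ)) ^ (-1 : ℤ) := by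
  by_cases h : (c : ℕ) = 0
  · rw [if_pos h, emb3_of_eq M q K hq hqM ζ hζ c h, coe_jq2K]
    exact qExpand_coeff_of_not_dvd q _ (not_dvd_neg_one q hq)
  · rw [if_neg h, emb3_of_ne M q K hq hqM ζ hζ c h, iota3_jq2K, rotHom_coeff,
      coeff_coeffEmb_jq_neg_one, mul_one]

/-- The members of the family are pairwise distinct (tested on `j_{q²}`). -/
theorem emb3_injective : Function.Injective (emb3 M q K hq hqM ζ hζ) := by
  have hz : ∀ i : ℕ, ζ ^ i ≠ 0 := fun i => pow_ne_zero i (hζ.ne_zero (NeZero.ne q))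
  intro c c' h
  have hc := congrArg (fun g : FK ((M * q) * q) K →+* LaurentSeries Qb =>
    (g (jq2K M q K)).coeff (-1 : ℤ)) h
  simp only [emb3_jq2K_coeff] at hc
  by_cases h0 : (c : ℕ) = 0
  · by_cases h0' : (c' : ℕ) = 0
    · exact Fin.ext (h0.trans h0'.symm)
    · rw [if_pos h0, if_neg h0'] at hc
      exact absurd hc.symm (zpow_ne_zero _ (hz _))
  · by_cases h0' : (c' : ℕ) = 0
    · rw [if_neg h0, if_pos h0'] at hc
      exact absurd hc (zpow_ne_zero _ (hz _))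
    · rw [if_neg h0, if_neg h0'] at hc
      have h2 : ζ ^ (c : ℕ) = ζ ^ (c' : ℕ) := by
        have := congrArg (fun t : Qb => t⁻¹) hc
        simpa [zpow_neg] using this
      exact Fin.ext (hζ.pow_inj c.2 c'.2 h2)

/-- **Norm along `α`, `K`-level**: `N_{F_K(Mq²)/F_K(Mq)} y = ∏_c emb3 c y`. -/
theorem coe_norm (y : FK ((M * q) * q) K) :
    letI := DegTower.algTower (M * q) ((M * q) * q) K (Dvd.intro q rfl)
    ((Algebra.norm (FK (M * q) K) y : FK (M * q) K) : LaurentSeries Qb)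
      = ∏ c : Fin q, emb3 M q K hq hqM ζ hζ c y := by
  letI := DegTower.algTower (M * q) ((M * q) * q) K (Dvd.intro q rfl)
  haveI := DegTower.finiteDimensional (M * q) ((M * q) * q) K (Dvd.intro q rfl)
  haveI := charZero_FK K (M * q)
  haveI : Algebra.IsSeparable (FK (M * q) K) (FK ((M * q) * q) K) :=
    Algebra.IsAlgebraic.isSeparable_of_perfectField
  exact ConjInt.norm_eq_prod_of_ringHoms ((FK (M * q) K).subtype) (emb3 M q K hq hqM ζ hζ)
    (fun c x => emb3_incl M q K hq hqM ζ hζ c x) (emb3_injective M q K hq hqM ζ hζ)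
    (by rw [Fintype.card_fin, finrank_E2 M q K hq]) y

/-- **Trace along `α`, `K`-level**: `Tr_{F_K(Mq²)/F_K(Mq)} y = ∑_c emb3 c y`. -/
theorem coe_trace (y : FK ((M * q) * q) K) :
    letI := DegTower.algTower (M * q) ((M * q) * q) K (Dvd.intro q rfl)
    ((Algebra.trace (FK (M * q) K) (FK ((M * q) * q) K) y : FK (M * q) K) : LaurentSeries Qb)
      = ∑ c : Fin q, emb3 M q K hq hqM ζ hζ c y := by
  letI := DegTower.algTower (M * q) ((M * q) * q) K (Dvd.intro q rfl)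
  haveI := DegTower.finiteDimensional (M * q) ((M * q) * q) K (Dvd.intro q rfl)
  haveI := charZero_FK K (M * q)
  haveI : Algebra.IsSeparable (FK (M * q) K) (FK ((M * q) * q) K) :=
    Algebra.IsAlgebraic.isSeparable_of_perfectField
  exact ConjInt.trace_eq_sum_of_ringHoms ((FK (M * q) K).subtype) (emb3 M q K hq hqM ζ hζ)
    (fun c x => emb3_incl M q K hq hqM ζ hζ c x) (emb3_injective M q K hq hqM ζ hζ)
    (by rw [Fintype.card_fin, finrank_E2 M q K hq]) y

end KLevel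

/-! ### The `ℚ̄`-level family (the hypotheses of `S36/NormFam`) -/

section BarLevel

variable (hq : q.Prime) (hqM : ¬ q ∣ M)

/-- The middle-cusp embedding of `F̄_{M q²}` attached to a `q`-th root of unity `ξ ≠ 1`. -/
def iota3Bar (ξ : Qb) (hξ : ξ ^ q = 1) (hξ1 : ξ ≠ 1) :
    ↥(modularFunctionFieldBar (M * q * q)) →+* LaurentSeries Qb :=
  (iota3 M q (⊤ : IntermediateField ℚ Qb) hq hqM ξ hξ hξ1).comp (barToTop (M * q * q))

variable (ξ : Qb) (hξ : ξ ^ q = 1) (hξ1 : ξ ≠ 1)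

theorem barToTop_alpha (x : ↥(modularFunctionFieldBar (M * q))) :
    barToTop (M * q * q) (heckeAlphaBar Qb (M * q) q x)
      = DegTower.incl (M * q) ((M * q) * q) (⊤ : IntermediateField ℚ Qb) (Dvd.intro q rfl)
        (barToTop (M * q) x) := by
  apply Subtype.ext
  rw [coe_barToTop, DegTower.coe_incl, coe_barToTop, coe_heckeAlphaBar]

omit [NeZero M] in
theorem barToTop_beta (x : ↥(modularFunctionFieldBar (M * q))) :
    barToTop (M * q * q) (heckeBetaBar Qb (M * q) q x)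
      = betaQ (M * q) (⊤ : IntermediateField ℚ Qb) q (barToTop (M * q) x) := by
  apply Subtype.ext
  rw [coe_barToTop, coe_betaQ, coe_barToTop, coe_heckeBetaBar]

/-- `ι3` is the identity on `α(F̄_{M q})`. -/
theorem iota3Bar_alpha (x : ↥(modularFunctionFieldBar (M * q))) :
    iota3Bar M q hq hqM ξ hξ hξ1 (heckeAlphaBar Qb (M * q) q x) = (x : LaurentSeries Qb) := by
  show iota3 M q (⊤ : IntermediateField ℚ Qb) hq hqM ξ hξ hξ1
    (barToTop (M * q * q) (heckeAlphaBar Qb (M * q) q x)) = _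
  rw [barToTop_alpha, iota3_incl, coe_barToTop]

/-- `ι3 ∘ β = (Q ↦ ξ Q) ∘ w_q`. -/
theorem iota3Bar_beta (x : ↥(modularFunctionFieldBar (M * q))) :
    iota3Bar M q hq hqM ξ hξ hξ1 (heckeBetaBar Qb (M * q) q x)
      = rotHom ξ (xi_ne_zero q hξ)
        ((WK.wBar M q hq hqM x : ↥(modularFunctionFieldBar (M * q))) : LaurentSeries Qb) := by
  show iota3 M q (⊤ : IntermediateField ℚ Qb) hq hqM ξ hξ hξ1
    (barToTop (M * q * q) (heckeBetaBar Qb (M * q) q x)) = _
  rw [barToTop_beta, iota3_betaQ M q (⊤ : IntermediateField ℚ Qb)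
    (WK.wBar M q hq hqM : _ →ₐ[Qb] _) (fun x => WK.wBar_alpha M q hq hqM x)
    (fun x => WK.wBar_beta M q hq hqM x) hq hqM ξ hξ hξ1, wExp_apply]
  rfl

/-- `ι3` fixes the constants. -/
theorem iota3Bar_algebraMap (c : Qb) :
    iota3Bar M q hq hqM ξ hξ hξ1 (algebraMap Qb ↥(modularFunctionFieldBar (M * q * q)) c)
      = algebraMap Qb (LaurentSeries Qb) c := by
  have e : algebraMap Qb ↥(modularFunctionFieldBar (M * q * q)) c
      = heckeAlphaBar Qb (M * q) q (algebraMap Qb ↥(modularFunctionFieldBar (M * q)) c) :=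
    ((heckeAlphaBar Qb (M * q) q).commutes c).symm
  rw [e, iota3Bar_alpha]
  rfl

variable (ζ : Qb) (hζ : IsPrimitiveRoot ζ q)

/-- **The complete family of conjugates of `F̄_{M q²}` over `α(F̄_{M q})`**, in the shape consumed
by `S36/NormFam`: `0 ↦` the inclusion, `c ≠ 0 ↦ iota3Bar (ζ ^ c)`. -/
def famBar (c : Fin q) : ↥(modularFunctionFieldBar (M * q * q)) →+* LaurentSeries Qb :=
  if h : (c : ℕ) = 0 then (modularFunctionFieldBar (M * q * q)).val.toRingHom
  else iota3Bar M q hq hqM (ζ ^ (c : ℕ)) (pow_pow_eq_one q hζ c)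
    (hζ.pow_ne_one_of_pos_of_lt h c.2)

theorem famBar_of_eq (c : Fin q) (h : (c : ℕ) = 0) (z : ↥(modularFunctionFieldBar (M * q * q))) :
    famBar M q hq hqM ζ hζ c z = (z : LaurentSeries Qb) := by
  rw [famBar, dif_pos h]
  rfl

theorem famBar_of_ne (c : Fin q) (h : (c : ℕ) ≠ 0) :
    famBar M q hq hqM ζ hζ c = iota3Bar M q hq hqM (ζ ^ (c : ℕ)) (pow_pow_eq_one q hζ c)
      (hζ.pow_ne_one_of_pos_of_lt h c.2) := by
  rw [famBar, dif_neg h]

/-- `famBar c = emb3 c ∘ barToTop` (`K = ℚ̄`). -/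
theorem famBar_eq_emb3 (c : Fin q) (z : ↥(modularFunctionFieldBar (M * q * q))) :
    famBar M q hq hqM ζ hζ c z
      = emb3 M q (⊤ : IntermediateField ℚ Qb) hq hqM ζ hζ c (barToTop (M * q * q) z) := by
  by_cases h : (c : ℕ) = 0
  · rw [famBar_of_eq M q hq hqM ζ hζ c h, emb3_of_eq M q _ hq hqM ζ hζ c h, coe_barToTop]
  · rw [famBar_of_ne M q hq hqM ζ hζ c h, emb3_of_ne M q _ hq hqM ζ hζ c h]
    rfl

/-- `hf` of `NormFam`: every member is the identity on `α(F̄_{M q})`. -/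
theorem famBar_alpha (c : Fin q) (x : ↥(modularFunctionFieldBar (M * q))) :
    famBar M q hq hqM ζ hζ c (heckeAlphaBar Qb (M * q) q x) = (x : LaurentSeries Qb) := by
  by_cases h : (c : ℕ) = 0
  · rw [famBar_of_eq M q hq hqM ζ hζ c h, coe_heckeAlphaBar]
  · rw [famBar_of_ne M q hq hqM ζ hζ c h, iota3Bar_alpha]

/-- On `β(F̄_{M q})` the members `c ≠ 0` are `(Q ↦ ζ^c Q) ∘ w_q`. -/
theorem famBar_beta (c : Fin q) (h : (c : ℕ) ≠ 0) (x : ↥(modularFunctionFieldBar (M * q))) :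
    famBar M q hq hqM ζ hζ c (heckeBetaBar Qb (M * q) q x)
      = rotHom (ζ ^ (c : ℕ)) (xi_ne_zero q (pow_pow_eq_one q hζ c))
        ((WK.wBar M q hq hqM x : ↥(modularFunctionFieldBar (M * q))) : LaurentSeries Qb) := by
  rw [famBar_of_ne M q hq hqM ζ hζ c h, iota3Bar_beta]

/-- `h0` of `NormFam` (`i₀ = 0`). -/
theorem famBar_zero (z : ↥(modularFunctionFieldBar (M * q * q))) :
    famBar M q hq hqM ζ hζ 0 z = (z : LaurentSeries Qb) :=
  famBar_of_eq M q hq hqM ζ hζ 0 (by simp) z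

/-- `hinj` of `NormFam`. -/
theorem famBar_injective : Function.Injective (famBar M q hq hqM ζ hζ) := by
  intro c c' h
  apply emb3_injective M q (⊤ : IntermediateField ℚ Qb) hq hqM ζ hζ
  refine RingHom.ext fun y => ?_
  have hy : (y : LaurentSeries Qb) ∈ modularFunctionFieldBar (M * q * q) :=
    DescCoeff.FK_le_bar (M * q * q) (⊤ : IntermediateField ℚ Qb) y.2
  have e : barToTop (M * q * q) ⟨(y : LaurentSeries Qb), hy⟩ = y := Subtype.ext rfl
  have h1 := congrArg (fun g : ↥(modularFunctionFieldBar (M * q * q)) →+* LaurentSeries Qb =>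
    g ⟨(y : LaurentSeries Qb), hy⟩) h
  simp only [famBar_eq_emb3, e] at h1
  exact h1

/-- **Blueprint (3), product formula**: `N_α z = z · ∏_{c ≠ 0} ι3^{(ζ^c)}(z)` as Laurent series
(`N_α` the norm of `F̄_{M q²}` over `α(F̄_{M q})`). -/
theorem coe_norm_alpha (z : ↥(modularFunctionFieldBar (M * q * q))) :
    letI := algebraAlong (heckeAlphaBar Qb (M * q) q)
    ((Algebra.norm ↥(modularFunctionFieldBar (M * q)) z : ↥(modularFunctionFieldBar (M * q))) :
        LaurentSeries Qb)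
      = (z : LaurentSeries Qb)
        * ∏ c ∈ Finset.univ.erase (0 : Fin q), famBar M q hq hqM ζ hζ c z :=
  NormFam.coe_norm_alpha_of_family_zero (M * q) q hq (dvd_mul_left q M)
    (famBar M q hq hqM ζ hζ) (famBar_alpha M q hq hqM ζ hζ) (famBar_injective M q hq hqM ζ hζ)
    0 (famBar_zero M q hq hqM ζ hζ) z

/-- **Blueprint (3), `red_F(N_α f) = r1 · r3^{q-1}`**: if `z` reduces to `g₁` and every
middle-cusp conjugate `ι3^{(ζ^c)}(z)`, `c ≠ 0`, reduces to `g₃`, then `N_α z` reduces to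
`g₁ · g₃ ^ (q - 1)`. -/
theorem gRel_norm_alpha {A : ValuationSubring Qb} (z : ↥(modularFunctionFieldBar (M * q * q)))
    {g₁ g₃ : LaurentSeries (IsLocalRing.ResidueField A)}
    (h1 : GRel A (z : LaurentSeries Qb) g₁)
    (h3 : ∀ c : Fin q, c ≠ 0 → GRel A (famBar M q hq hqM ζ hζ c z) g₃) :
    letI := algebraAlong (heckeAlphaBar Qb (M * q) q)
    GRel A ((Algebra.norm ↥(modularFunctionFieldBar (M * q)) z :
        ↥(modularFunctionFieldBar (M * q))) : LaurentSeries Qb) (g₁ * g₃ ^ (q - 1)) :=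
  NormFam.gRel_norm_alpha_of_family_zero (M * q) q hq (dvd_mul_left q M)
    (famBar M q hq hqM ζ hζ) (famBar_alpha M q hq hqM ζ hζ) (famBar_injective M q hq hqM ζ hζ)
    0 (famBar_zero M q hq hqM ζ hζ) z h1 h3

end BarLevel

end Fermat.Agent.S36.Iota3K
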