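/-
S36 — Corr3NV.lean (helper31): slice (b) of the INSTANCE of `Corr3.exists_corr` ([CORR36]),
the norm–residue rules, in plain `GRel` form (= `Corr3Red.redOf` form by `Iff.rfl`).

Level `N = (M q) q`, `q` prime, `q ∤ M`; `K` a base field fixed pointwise by the inertia group of
`A` (a valuation ring of `ℚ̄` over `q`); `k` the residue field of `A`, `Φ` the coefficientwise
`q`-Frobenius of `k((Q))`.  The five reductions of the instance are

* `r₁  x y := GRel A ↑x y`,  `r₂ x y := GRel A ↑(wK2 x) y`,  `r₃ x y := GRel A (ι3^ξ x) y`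
  on `F_K(M q²)`  (`ι3^ξ = Iota3.iota3`, the middle-cusp expansion);
* `r₁' x y := GRel A ↑x y`,  `r₂' x y := GRel A ↑(wK x) y`  on `F_K(M q)`.

The two norms `Nα, Nβ : F_K(M q²) →*₀ F_K(M q)` are ABSTRACT here, subject to

* `hP1`  : `↑(Nα x) = ∏_c emb3 c x`           (product formula; `Iota3K.coe_norm`),
* `hG2`  : `x ↦ g ⟹ Nβ x ↦ Φ g`             (`NormRot.gRel_norm_beta_of_pair` at the `K`-level),
* `hP3a` : `wK (Nα x) = Nβ (wK2 x)`,  `hP3b` : `wK (Nβ x) = Nα (wK2 x)`,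

and `W3` is `w_{q²}`-stable with the same reduction (`hW3`, = `W3Sym.gRel_iota3_wK2_iff`).  Then:

* `gRel_emb3`        : `ξ`-independence along the whole family `emb3 c`, `c ≠ 0` (from `InertRot`);
* `rule_alpha1`      : `x ↦ y₁`, `ι3 x ↦ y₃` ⟹ `Nα x ↦ y₁ · y₃ ^ (q-1)`                (hRα1);
* `rule_alpha2`      : `wK2 x ↦ y₂` ⟹ `wK (Nα x) ↦ Φ y₂`                                  (hRα2);
* `rule_beta1`       : `x ↦ y₁` ⟹ `Nβ x ↦ Φ y₁`                                          (hRβ1);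
* `rule_beta2`       : `wK2 x ↦ y₂`, `ι3 x ↦ y₃` ⟹ `wK (Nβ x) ↦ y₂ · y₃ ^ (q-1)`       (hRβ2);
* `norm_alpha_const`, `norm_beta_const` : `Nα a = a ^ q`, `Nβ a = a ^ q` for constants `a ∈ O`
                                                                                   (hNαπ, hNβπ).
-/
import Mathlib
import Fermat.Agent.S36.Corr3Red
import Fermat.Agent.S36.Iota3K
import Fermat.Agent.S36.InertRot
import Fermat.Agent.S36.WQ2

set_option autoImplicit false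

noncomputable section

namespace Fermat.Agent.S36.Corr3NV

open ModularCurve AlgebraicCurve HahnSeries
open Fermat.Agent.S18 Fermat.Agent.S18.Arith Fermat.Agent.S18.ModelPlan Fermat.Agent.S34

variable (M q : ℕ) [NeZero M] [NeZero q] (K : IntermediateField ℚ Qb)
variable (hq : q.Prime) (hqM : ¬ q ∣ M) (A : ValuationSubring Qb)

/-! ### `ξ`-independence along the family -/

/-- If `x` reduces to `y` along ONE middle-cusp expansion `ι3^ξ`, it reduces to `y` along every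
member `emb3 c`, `c ≠ 0`, of the complete family of conjugates over `F_K(M q)`. -/
theorem gRel_emb3 (hA : A.LiesOverPrime q)
    (hK : ∀ σ ∈ A.inertiaSubgroupIn ℚ, ∀ a ∈ K, σ a = a)
    {ξ : Qb} (hξ : IsPrimitiveRoot ξ q) (hξq : ξ ^ q = 1) (hξ1 : ξ ≠ 1)
    {ζ : Qb} (hζ : IsPrimitiveRoot ζ q) (c : Fin q) (hc : c ≠ 0)
    (x : FK ((M * q) * q) K) {y : LaurentSeries (IsLocalRing.ResidueField A)}
    (h : GRel A (Iota3.iota3 M q K hq hqM ξ hξq hξ1 x) y) :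
    GRel A (Iota3K.emb3 M q K hq hqM ζ hζ c x) y := by
  have hc0 : (c : ℕ) ≠ 0 := fun h0 => hc (Fin.ext (by rw [h0, Fin.val_zero]))
  rw [Iota3K.emb3_of_ne M q K hq hqM ζ hζ c hc0]
  have hnd : ¬ q ∣ (c : ℕ) := Nat.not_dvd_of_pos_of_lt (Nat.pos_of_ne_zero hc0) c.2
  have hprim : IsPrimitiveRoot (ζ ^ (c : ℕ)) q :=
    hζ.pow_of_coprime _ ((Nat.Prime.coprime_iff_not_dvd hq).2 hnd).symm
  exact InertRot.gRel_iota3_of_isPrimitiveRoot M q K hq hqM A hA hK hξ hprim hξq hξ1 _ _ x h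

/-! ### The norm–residue rules -/

section Rules

variable (Nα Nβ : FK ((M * q) * q) K →*₀ FK (M * q) K)

/-- **(hRα1)** `x ↦ y₁` along `W1` and `x ↦ y₃` along `W3` ⟹ `Nα x ↦ y₁ · y₃ ^ (q - 1)`. -/
theorem rule_alpha1 (hA : A.LiesOverPrime q)
    (hK : ∀ σ ∈ A.inertiaSubgroupIn ℚ, ∀ a ∈ K, σ a = a)
    {ξ : Qb} (hξ : IsPrimitiveRoot ξ q) (hξq : ξ ^ q = 1) (hξ1 : ξ ≠ 1)
    {ζ : Qb} (hζ : IsPrimitiveRoot ζ q)
    (hP1 : ∀ x : FK ((M * q) * q) K, ((Nα x : FK (M * q) K) : LaurentSeries Qb)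
      = ∏ c : Fin q, Iota3K.emb3 M q K hq hqM ζ hζ c x)
    (x : FK ((M * q) * q) K) {y₁ y₃ : LaurentSeries (IsLocalRing.ResidueField A)}
    (h1 : GRel A ((x : FK ((M * q) * q) K) : LaurentSeries Qb) y₁)
    (h3 : GRel A (Iota3.iota3 M q K hq hqM ξ hξq hξ1 x) y₃) :
    GRel A ((Nα x : FK (M * q) K) : LaurentSeries Qb) (y₁ * y₃ ^ (q - 1)) := by
  rw [hP1 x, ← Finset.mul_prod_erase Finset.univ _ (Finset.mem_univ (0 : Fin q)),
    Iota3K.emb3_of_eq M q K hq hqM ζ hζ 0 (Fin.val_zero q)]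
  have h2 := Fermat.Agent.S35.NormRed.gRel_prod (A := A) (Finset.univ.erase (0 : Fin q))
    (fun c => Iota3K.emb3 M q K hq hqM ζ hζ c x) (fun _ => y₃)
    (fun c hc => gRel_emb3 M q K hq hqM A hA hK hξ hξq hξ1 hζ c (Finset.ne_of_mem_erase hc) x h3)
  rw [Finset.prod_const, Finset.card_erase_of_mem (Finset.mem_univ _), Finset.card_univ,
    Fintype.card_fin] at h2
  exact (Corr3Red.gFacts A).mul _ _ _ _ h1 h2

omit [NeZero M] [NeZero q] in
/-- **(hRβ1)** `x ↦ y₁` along `W1` ⟹ `Nβ x ↦ Φ y₁` (this is the hypothesis `hG2` itself; stated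
for symmetry). -/
theorem rule_beta1 (Φ : LaurentSeries (IsLocalRing.ResidueField A) →+*
      LaurentSeries (IsLocalRing.ResidueField A))
    (hG2 : ∀ (x : FK ((M * q) * q) K) (g : LaurentSeries (IsLocalRing.ResidueField A)),
      GRel A ((x : FK ((M * q) * q) K) : LaurentSeries Qb) g →
      GRel A ((Nβ x : FK (M * q) K) : LaurentSeries Qb) (Φ g))
    (x : FK ((M * q) * q) K) {y₁ : LaurentSeries (IsLocalRing.ResidueField A)}
    (h1 : GRel A ((x : FK ((M * q) * q) K) : LaurentSeries Qb) y₁) :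
    GRel A ((Nβ x : FK (M * q) K) : LaurentSeries Qb) (Φ y₁) :=
  hG2 x y₁ h1

/-- **(hRα2)** `wK2 x ↦ y₂` (i.e. `x ↦ y₂` along `W2`) ⟹ `wK (Nα x) ↦ Φ y₂` (i.e. `Nα x ↦ Φ y₂`
along the second Gauss valuation of level `M q`). -/
theorem rule_alpha2 (Φ : LaurentSeries (IsLocalRing.ResidueField A) →+*
      LaurentSeries (IsLocalRing.ResidueField A))
    (hG2 : ∀ (x : FK ((M * q) * q) K) (g : LaurentSeries (IsLocalRing.ResidueField A)),
      GRel A ((x : FK ((M * q) * q) K) : LaurentSeries Qb) g →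
      GRel A ((Nβ x : FK (M * q) K) : LaurentSeries Qb) (Φ g))
    (hP3a : ∀ x : FK ((M * q) * q) K,
      WK.wK M q hq hqM K (Nα x) = Nβ (WQ2.wK2 M q hq hqM K x))
    (x : FK ((M * q) * q) K) {y₂ : LaurentSeries (IsLocalRing.ResidueField A)}
    (h2 : GRel A ((WQ2.wK2 M q hq hqM K x : FK ((M * q) * q) K) : LaurentSeries Qb) y₂) :
    GRel A ((WK.wK M q hq hqM K (Nα x) : FK (M * q) K) : LaurentSeries Qb) (Φ y₂) := by
  rw [hP3a x]
  exact hG2 _ y₂ h2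

/-- **(hRβ2)** `wK2 x ↦ y₂` (along `W2`) and `x ↦ y₃` along `W3` ⟹
`wK (Nβ x) ↦ y₂ · y₃ ^ (q - 1)`. -/
theorem rule_beta2 (hA : A.LiesOverPrime q)
    (hK : ∀ σ ∈ A.inertiaSubgroupIn ℚ, ∀ a ∈ K, σ a = a)
    {ξ : Qb} (hξ : IsPrimitiveRoot ξ q) (hξq : ξ ^ q = 1) (hξ1 : ξ ≠ 1)
    {ζ : Qb} (hζ : IsPrimitiveRoot ζ q)
    (hP1 : ∀ x : FK ((M * q) * q) K, ((Nα x : FK (M * q) K) : LaurentSeries Qb)
      = ∏ c : Fin q, Iota3K.emb3 M q K hq hqM ζ hζ c x)
    (hP3b : ∀ x : FK ((M * q) * q) K,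
      WK.wK M q hq hqM K (Nβ x) = Nα (WQ2.wK2 M q hq hqM K x))
    (hW3 : ∀ (x : FK ((M * q) * q) K) (r : LaurentSeries (IsLocalRing.ResidueField A)),
      GRel A (Iota3.iota3 M q K hq hqM ξ hξq hξ1 x) r →
      GRel A (Iota3.iota3 M q K hq hqM ξ hξq hξ1 (WQ2.wK2 M q hq hqM K x)) r)
    (x : FK ((M * q) * q) K) {y₂ y₃ : LaurentSeries (IsLocalRing.ResidueField A)}
    (h2 : GRel A ((WQ2.wK2 M q hq hqM K x : FK ((M * q) * q) K) : LaurentSeries Qb) y₂)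
    (h3 : GRel A (Iota3.iota3 M q K hq hqM ξ hξq hξ1 x) y₃) :
    GRel A ((WK.wK M q hq hqM K (Nβ x) : FK (M * q) K) : LaurentSeries Qb)
      (y₂ * y₃ ^ (q - 1)) := by
  rw [hP3b x]
  exact rule_alpha1 M q K hq hqM A Nα hA hK hξ hξq hξ1 hζ hP1 _ h2 (hW3 x y₃ h3)

/-! ### Norms of constants -/

/-- **(hNαπ)** `Nα a = a ^ q` for a constant `a ∈ O = A ∩ K`. -/
theorem norm_alpha_const {ζ : Qb} (hζ : IsPrimitiveRoot ζ q)
    (hP1 : ∀ x : FK ((M * q) * q) K, ((Nα x : FK (M * q) K) : LaurentSeries Qb)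
      = ∏ c : Fin q, Iota3K.emb3 M q K hq hqM ζ hζ c x)
    (a : OK A K) :
    Nα (algebraMap (OK A K) (FK ((M * q) * q) K) a)
      = algebraMap (OK A K) (FK (M * q) K) a ^ q := by
  apply Subtype.ext
  have e : algebraMap (OK A K) (FK ((M * q) * q) K) a
      = DegTower.incl (M * q) ((M * q) * q) K (Dvd.intro q rfl)
        (algebraMap (OK A K) (FK (M * q) K) a) :=
    (DegTower.incl_constK (M * q) ((M * q) * q) K (Dvd.intro q rfl) (a : K)).symm
  rw [hP1, e]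
  simp only [Iota3K.emb3_incl]
  rw [Finset.prod_const, Finset.card_univ, Fintype.card_fin]
  rfl

/-- **(hNβπ)** `Nβ a = a ^ q` for a constant `a ∈ O = A ∩ K`. -/
theorem norm_beta_const {ζ : Qb} (hζ : IsPrimitiveRoot ζ q)
    (hP1 : ∀ x : FK ((M * q) * q) K, ((Nα x : FK (M * q) K) : LaurentSeries Qb)
      = ∏ c : Fin q, Iota3K.emb3 M q K hq hqM ζ hζ c x)
    (hP3b : ∀ x : FK ((M * q) * q) K,
      WK.wK M q hq hqM K (Nβ x) = Nα (WQ2.wK2 M q hq hqM K x))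
    (a : OK A K) :
    Nβ (algebraMap (OK A K) (FK ((M * q) * q) K) a)
      = algebraMap (OK A K) (FK (M * q) K) a ^ q := by
  have h1 := hP3b (algebraMap (OK A K) (FK ((M * q) * q) K) a)
  rw [WQ2.wK2_algebraMap_OK, norm_alpha_const M q K hq hqM A Nα hζ hP1 a] at h1
  have h2 := congrArg (WK.wK M q hq hqM K) h1
  rw [WK.wK_wK, map_pow, WK.wK_algebraMap_OK] at h2
  exact h2

end Rules

end Fermat.Agent.S36.Corr3NV
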