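/-
S36 — Corr3NVal.lean (helper122).  [CORR36-inst], slice `hNV` (dealt by helper31): the
NORM–VALUATION RULE of `Corr3.exists_corr`, abstractly over `Corr3.Red` (Mathlib + S36/Corr3 only).

Setting of `S36/Corr3.lean`: reductions `r₁ r₂ r₃` of `E` (for `W1, W2, W3`, uniformisers
`π, π, s`), reductions `r₁' r₂'` of `E'` (uniformiser `π'`), norms `Nα Nβ : E →*₀ E'`.

The rule `hNV`

  `v₁'(Nα x) = v₁ x + v₃ x`,  `v₂'(Nα x) = q v₂ x`,  `v₁'(Nβ x) = q v₁ x`,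
  `v₂'(Nβ x) = v₂ x + v₃ x`

follows from the norm–RESIDUE rules on units (`hRα1`, `hRα2`, `hRβ1` of `Corr3.exists_corr`
and the twin `hRβ2`), the ramification of `W3` (`hram`), `N π = π' ^ q`, and four facts about the
uniformiser `s` of `W3`: `s` is a unit for `r₁` and `r₂`, and `Nα s`, `Nβ s` are `π' · unit`
(for `r₁'` resp. `r₂'`).

* `isU_norm_pure`  : one place over one place, residue rule `red'(N x) = Φ (red x)`: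
                     `v'(N x) = q · v(x)`;
* `isU_norm_mixed` : two places `(ra, π)`, `(rb, s)` over one place, residue rule
                     `red'(N x) = red_a x · (red_b x)^(q-1)`: `v'(N x) = v_a x + v_b x`;
* `hNV`            : the `hNV` binder of `Corr3.exists_corr`, verbatim;
* `exists_corr_nv` : `Corr3.exists_corr` with `hNV` replaced by these hypotheses.
-/
import Mathlib
import Fermat.Agent.S36.Corr3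

set_option autoImplicit false

namespace Fermat.Agent.S36.Corr3NVal

open Fermat.Agent.S36.Corr3

variable {E E' Ω : Type*} [Field E] [Field E'] [Field Ω]

/-- A one-residue rule `red'(N x) = Φ (red x)` sends units to units. -/
theorem isU_of_rule₁ (r : Red E Ω) (r' : Red E' Ω) (Φ : Ω →+* Ω) (Nm : E →*₀ E')
    (hR : ∀ (x : E) (y : Ω), y ≠ 0 → r.rel x y → r'.rel (Nm x) (Φ y)) {x : E}
    (hx : r.IsU x) : r'.IsU (Nm x) := by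
  obtain ⟨y, hy, hxy⟩ := hx
  exact ⟨Φ y, (map_ne_zero Φ).mpr hy, hR x y hy hxy⟩

/-- A two-residue rule `red'(N x) = red_a x · (red_b x)^k` sends common units to units. -/
theorem isU_of_rule₂ (ra rb : Red E Ω) (r' : Red E' Ω) (Nm : E →*₀ E') (k : ℕ)
    (hR : ∀ (x : E) (y z : Ω), y ≠ 0 → z ≠ 0 → ra.rel x y → rb.rel x z →
      r'.rel (Nm x) (y * z ^ k)) {x : E}
    (hxa : ra.IsU x) (hxb : rb.IsU x) : r'.IsU (Nm x) := by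
  obtain ⟨y, hy, hxy⟩ := hxa
  obtain ⟨z, hz, hxz⟩ := hxb
  exact ⟨y * z ^ k, mul_ne_zero hy (pow_ne_zero k hz), hR x y z hy hz hxy hxz⟩

/-- **One place over one place** (`W2` over `V₂'` along `α`, `W1` over `V₁'` along `β`):
`v'(N x) = q · v(x)`. -/
theorem isU_norm_pure (r : Red E Ω) (r' : Red E' Ω) (Φ : Ω →+* Ω) (Nm : E →*₀ E')
    (π : E) (π' : E') (q : ℕ) (hNπ : Nm π = π' ^ q)
    (hR : ∀ (x : E) (y : Ω), y ≠ 0 → r.rel x y → r'.rel (Nm x) (Φ y))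
    (x : E) (a : ℤ) (hU : r.IsU (π ^ (-a) * x)) :
    r'.IsU (π' ^ (-((q : ℤ) * a)) * Nm x) := by
  have h := isU_of_rule₁ r r' Φ Nm hR hU
  have e : Nm (π ^ (-a) * x) = π' ^ (-((q : ℤ) * a)) * Nm x := by
    rw [map_mul, map_zpow₀, hNπ, ← zpow_natCast π' q, ← zpow_mul]
    congr 2
    ring
  rwa [e] at h

/-- **Two places over one place** (`W1`, `W3` over `V₁'` along `α`; `W2`, `W3` over `V₂'` along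
`β`): `v'(N x) = v_a(x) + v_b(x)`, where `v_a` is normalised by `π` and `v_b` by `s`,
`π = s ^ (q - 1) · unit` at `rb`, `s` is a unit at `ra` and `N s = π' · unit`. -/
theorem isU_norm_mixed (ra rb : Red E Ω) (r' : Red E' Ω) (Nm : E →*₀ E')
    (π s : E) (π' : E') (q : ℕ) (hq : 1 ≤ q) (hs0 : s ≠ 0) (hπ'0 : π' ≠ 0)
    (hram : rb.IsU (s ^ (q - 1) * π⁻¹)) (hNπ : Nm π = π' ^ q)
    (hR : ∀ (x : E) (y z : Ω), y ≠ 0 → z ≠ 0 → ra.rel x y → rb.rel x z →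
      r'.rel (Nm x) (y * z ^ (q - 1)))
    (hsa : ra.IsU s) (hNs : r'.IsU (π'⁻¹ * Nm s))
    (x : E) (a c : ℤ) (hUa : ra.IsU (π ^ (-a) * x)) (hUc : rb.IsU (s ^ (-c) * x)) :
    r'.IsU (π' ^ (-(a + c)) * Nm x) := by
  obtain ⟨b, hb⟩ : ∃ b : ℤ, b = c - ((q : ℤ) - 1) * a := ⟨_, rfl⟩
  have hcast : ((q - 1 : ℕ) : ℤ) = (q : ℤ) - 1 := by
    rw [Nat.cast_sub hq, Nat.cast_one]
  -- the auxiliary element `v = s ^ (-b) * (π ^ (-a) * x)` is a unit at both places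
  have hva : ra.IsU (s ^ (-b) * (π ^ (-a) * x)) := (hsa.zpow ra (-b)).mul ra hUa
  have hvb0 : rb.IsU ((s ^ (q - 1) * π⁻¹) ^ a * (s ^ (-c) * x)) := (hram.zpow rb a).mul rb hUc
  have e1 : (s ^ (q - 1) * π⁻¹) ^ a * (s ^ (-c) * x) = s ^ (-b) * (π ^ (-a) * x) := by
    have h1 : (s ^ (q - 1)) ^ a = s ^ (((q : ℤ) - 1) * a) := by
      rw [← zpow_natCast s (q - 1), hcast, ← zpow_mul]
    have h2 : (π⁻¹) ^ a = π ^ (-a) := inv_zpow' π a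
    have h3 : s ^ (((q : ℤ) - 1) * a) * s ^ (-c) = s ^ (-b) := by
      rw [← zpow_add₀ hs0, hb]
      congr 1
      ring
    rw [mul_zpow, h1, h2, ← h3]
    ring
  have hvb : rb.IsU (s ^ (-b) * (π ^ (-a) * x)) := by
    rw [← e1]
    exact hvb0
  -- its norm is a unit downstairs
  have hN : r'.IsU (Nm (s ^ (-b) * (π ^ (-a) * x))) := isU_of_rule₂ ra rb r' Nm (q - 1) hR hva hvb
  have hNs0 : Nm s ≠ 0 := right_ne_zero_of_mul hNs.ne_zero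
  have hfin : r'.IsU (Nm (s ^ (-b) * (π ^ (-a) * x)) * (π'⁻¹ * Nm s) ^ b) :=
    hN.mul r' (hNs.zpow r' b)
  have e2 : Nm (s ^ (-b) * (π ^ (-a) * x)) * (π'⁻¹ * Nm s) ^ b = π' ^ (-(a + c)) * Nm x := by
    have h1 : Nm (s ^ (-b) * (π ^ (-a) * x)) = Nm s ^ (-b) * (π' ^ (-((q : ℤ) * a)) * Nm x) := by
      rw [map_mul, map_mul, map_zpow₀, map_zpow₀, hNπ, ← zpow_natCast π' q, ← zpow_mul]
      congr 3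
      ring
    have h2 : (π'⁻¹ * Nm s) ^ b = π' ^ (-b) * Nm s ^ b := by
      rw [mul_zpow, inv_zpow']
    have h3 : Nm s ^ (-b) * Nm s ^ b = 1 := by
      rw [← zpow_add₀ hNs0, neg_add_cancel, zpow_zero]
    have h4 : π' ^ (-((q : ℤ) * a)) * π' ^ (-b) = π' ^ (-(a + c)) := by
      rw [← zpow_add₀ hπ'0, hb]
      congr 1
      ring
    calc Nm (s ^ (-b) * (π ^ (-a) * x)) * (π'⁻¹ * Nm s) ^ b
        = (Nm s ^ (-b) * Nm s ^ b) * (π' ^ (-((q : ℤ) * a)) * π' ^ (-b)) * Nm x := by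
          rw [h1, h2]
          ring
      _ = π' ^ (-(a + c)) * Nm x := by
          rw [h3, h4, one_mul]
  rw [e2] at hfin
  exact hfin

set_option linter.unusedVariables false in
/-- **The norm–valuation rule `hNV` of `Corr3.exists_corr`** (conclusion verbatim) from the
norm–residue rules on units. -/
theorem hNV
    (r₁ r₂ r₃ : Red E Ω) (r₁' r₂' : Red E' Ω)
    (π s : E) (π' : E') (Φ : Ω →+* Ω)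
    (Nα Nβ : E →*₀ E') (q : ℕ) (hq : 1 ≤ q)
    (hπ0 : π ≠ 0) (hs0 : s ≠ 0) (hπ'0 : π' ≠ 0)
    -- ramification of `W3`
    (hram : r₃.IsU (s ^ (q - 1) * π⁻¹))
    -- norms of the uniformiser
    (hNαπ : Nα π = π' ^ q) (hNβπ : Nβ π = π' ^ q)
    -- norm–residue rules
    (hRα1 : ∀ (x : E) (y₁ y₃ : Ω), y₁ ≠ 0 → y₃ ≠ 0 → r₁.rel x y₁ → r₃.rel x y₃ →
      r₁'.rel (Nα x) (y₁ * y₃ ^ (q - 1)))
    (hRα2 : ∀ (x : E) (y₂ : Ω), y₂ ≠ 0 → r₂.rel x y₂ → r₂'.rel (Nα x) (Φ y₂))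
    (hRβ1 : ∀ (x : E) (y₁ : Ω), y₁ ≠ 0 → r₁.rel x y₁ → r₁'.rel (Nβ x) (Φ y₁))
    (hRβ2 : ∀ (x : E) (y₂ y₃ : Ω), y₂ ≠ 0 → y₃ ≠ 0 → r₂.rel x y₂ → r₃.rel x y₃ →
      r₂'.rel (Nβ x) (y₂ * y₃ ^ (q - 1)))
    -- the uniformiser `s` of `W3`
    (hs₁ : r₁.IsU s) (hs₂ : r₂.IsU s)
    (hNαs : r₁'.IsU (π'⁻¹ * Nα s)) (hNβs : r₂'.IsU (π'⁻¹ * Nβ s)) :
    ∀ (x : E) (a₁ a₂ a₃ : ℤ), x ≠ 0 → r₁.IsU (π ^ (-a₁) * x) → r₂.IsU (π ^ (-a₂) * x) →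
      r₃.IsU (s ^ (-a₃) * x) →
      r₁'.IsU (π' ^ (-(a₁ + a₃)) * Nα x) ∧ r₂'.IsU (π' ^ (-((q : ℤ) * a₂)) * Nα x) ∧
      r₁'.IsU (π' ^ (-((q : ℤ) * a₁)) * Nβ x) ∧ r₂'.IsU (π' ^ (-(a₂ + a₃)) * Nβ x) := by
  intro x a₁ a₂ a₃ _ U1 U2 U3
  exact ⟨isU_norm_mixed r₁ r₃ r₁' Nα π s π' q hq hs0 hπ'0 hram hNαπ hRα1 hs₁ hNαs x a₁ a₃ U1 U3,
    isU_norm_pure r₂ r₂' Φ Nα π π' q hNαπ hRα2 x a₂ U2,
    isU_norm_pure r₁ r₁' Φ Nβ π π' q hNβπ hRβ1 x a₁ U1,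
    isU_norm_mixed r₂ r₃ r₂' Nβ π s π' q hq hs0 hπ'0 hram hNβπ hRβ2 hs₂ hNβs x a₂ a₃ U2 U3⟩

/-- **`Corr3.exists_corr` with the norm–valuation rule discharged**: the hypothesis `hNV` is
replaced by `hRβ2`, `hs₁`, `hs₂`, `hNαs`, `hNβs`; everything else is the text of
`Corr3.exists_corr`. -/
theorem exists_corr_nv
    (r₁ r₂ r₃ : Red E Ω) (r₁' r₂' : Red E' Ω)
    (π s : E) (π' : E') (Φ : Ω →+* Ω) (Cst : Ω → Prop)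
    (Nα Nβ : E →*₀ E') (q m : ℕ) (hq : 1 ≤ q) (hm : m ≠ 0)
    (hπ0 : π ≠ 0) (hs0 : s ≠ 0) (hπ'0 : π' ≠ 0)
    -- non-units
    (hπ₁ : r₁.rel π 0) (hπ₂ : r₂.rel π 0) (hs₃ : r₃.rel s 0)
    (hπ₁' : r₁'.rel π' 0) (hπ₂' : r₂'.rel π' 0)
    -- normal forms
    (nf₁ : ∀ x : E, x ≠ 0 → ∃ a : ℤ, r₁.IsU (π ^ (-a) * x))
    (nf₂ : ∀ x : E, x ≠ 0 → ∃ a : ℤ, r₂.IsU (π ^ (-a) * x))
    (nf₃ : ∀ x : E, x ≠ 0 → ∃ a : ℤ, r₃.IsU (s ^ (-a) * x))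
    (nf₁' : ∀ x : E', x ≠ 0 → ∃ a : ℤ, r₁'.IsU (π' ^ (-a) * x))
    (nf₂' : ∀ x : E', x ≠ 0 → ∃ a : ℤ, r₂'.IsU (π' ^ (-a) * x))
    -- ramification of `W3`
    (hram : r₃.IsU (s ^ (q - 1) * π⁻¹))
    -- norms of the uniformiser
    (hNαπ : Nα π = π' ^ q) (hNβπ : Nβ π = π' ^ q)
    -- norm–residue rules
    (hRα1 : ∀ (x : E) (y₁ y₃ : Ω), y₁ ≠ 0 → y₃ ≠ 0 → r₁.rel x y₁ → r₃.rel x y₃ →
      r₁'.rel (Nα x) (y₁ * y₃ ^ (q - 1)))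
    (hRα2 : ∀ (x : E) (y₂ : Ω), y₂ ≠ 0 → r₂.rel x y₂ → r₂'.rel (Nα x) (Φ y₂))
    (hRβ1 : ∀ (x : E) (y₁ : Ω), y₁ ≠ 0 → r₁.rel x y₁ → r₁'.rel (Nβ x) (Φ y₁))
    (hRβ2 : ∀ (x : E) (y₂ y₃ : Ω), y₂ ≠ 0 → y₃ ≠ 0 → r₂.rel x y₂ → r₃.rel x y₃ →
      r₂'.rel (Nβ x) (y₂ * y₃ ^ (q - 1)))
    -- the uniformiser `s` of `W3`
    (hs₁ : r₁.IsU s) (hs₂ : r₂.IsU s)
    (hNαs : r₁'.IsU (π'⁻¹ * Nα s)) (hNβs : r₂'.IsU (π'⁻¹ * Nβ s))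
    -- residue constants
    (hC1 : Cst 1) (hCmul : ∀ y y' : Ω, Cst y → Cst y' → Cst (y * y'))
    (hCinv : ∀ y : Ω, Cst y → Cst y⁻¹)
    (hCΦ : ∀ y : Ω, Cst y → ∃ z : Ω, Cst z ∧ Φ z = y)
    (hroot : ∀ y : Ω, Cst y → y ≠ 0 → ∃ (e : E) (ε : Ω), ε ^ m = y ∧ r₁.rel e ε ∧ r₂.rel e ε ∧
      r₃.rel e ε)
    -- Frobenius lifts
    (hL1 : ∀ (x' : E') (y : Ω), r₁'.rel x' y → y ≠ 0 → ∃ (x : E) (z : Ω), Φ z = y ∧ r₁.rel x z ∧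
      r₃.rel x z)
    (hL2 : ∀ (x' : E') (y : Ω), r₂'.rel x' y → y ≠ 0 → ∃ (x : E) (z : Ω), Φ z = y ∧ r₂.rel x z)
    (hL3 : ∀ (x' : E') (y : Ω), r₁'.rel x' y → ∃ x : E, r₃.rel x y)
    -- weak approximation
    (hVal : ∀ b₁ b₂ b₃ : ℤ, ∃ H : E, H ≠ 0 ∧ r₁.IsU (π ^ (-b₁) * H) ∧ r₂.IsU (π ^ (-b₂) * H) ∧
      r₃.IsU (s ^ (-b₃) * H))
    (hWA : ∀ (Y₁ Y₂ Y₃ : E) (y₁ y₂ y₃ : Ω), r₁.rel Y₁ y₁ → r₂.rel Y₂ y₂ → r₃.rel Y₃ y₃ →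
      ∃ H : E, r₁.rel H y₁ ∧ r₂.rel H y₂ ∧ r₃.rel H y₃)
    -- the data
    (f : E) (hf : f ≠ 0) (cα hα cβ hβ : E') (hhα : hα ≠ 0) (hhβ : hβ ≠ 0)
    (hNα : Nα f = cα * hα ^ m) (hNβ : Nβ f = cβ * hβ ^ m)
    (hcα : ∃ (A : ℤ) (y₁ y₂ : Ω), y₁ ≠ 0 ∧ y₂ ≠ 0 ∧ Cst y₁ ∧ Cst y₂ ∧
      r₁'.rel (π' ^ (-A) * cα) y₁ ∧ r₂'.rel (π' ^ (-A) * cα) y₂)
    (hcβ : ∃ (B : ℤ) (y₁ y₂ : Ω), y₁ ≠ 0 ∧ y₂ ≠ 0 ∧ Cst y₁ ∧ Cst y₂ ∧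
      r₁'.rel (π' ^ (-B) * cβ) y₁ ∧ r₂'.rel (π' ^ (-B) * cβ) y₂) :
    ∃ (t : ℤ) (H : E), H ≠ 0 ∧
      r₁.rel (f ^ ((q + 1) * (q - 1)) * π ^ (-t) * H ^ m) 1 ∧
      r₂.rel (f ^ ((q + 1) * (q - 1)) * π ^ (-t) * H ^ m) 1 ∧
      r₃.rel (f ^ ((q + 1) * (q - 1)) * π ^ (-t) * H ^ m) 1 :=
  exists_corr r₁ r₂ r₃ r₁' r₂' π s π' Φ Cst Nα Nβ q m hq hm hπ0 hs0 hπ'0 hπ₁ hπ₂ hs₃ hπ₁' hπ₂'
    nf₁ nf₂ nf₃ nf₁' nf₂' hram hNαπ hNβπ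
    (hNV r₁ r₂ r₃ r₁' r₂' π s π' Φ Nα Nβ q hq hπ0 hs0 hπ'0 hram hNαπ hNβπ hRα1 hRα2 hRβ1 hRβ2
      hs₁ hs₂ hNαs hNβs)
    hRα1 hRα2 hRβ1 hC1 hCmul hCinv hCΦ hroot hL1 hL2 hL3 hVal hWA f hf cα hα cβ hβ hhα hhβ
    hNα hNβ hcα hcβ

end Fermat.Agent.S36.Corr3NVal
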