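/-
S36 — Corr3S.lean (helper130; slice of the [CORR36] instance, dealt by helper31).
THE TWO `s`-FACTS ON `W1`, `W2` of the `Corr3.exists_corr` instance at level `N = M * q * q`,
for `s = Wit3.sE = j(Q^(q*q)) - j(Q)`:

* `hs1`      : `s` is a Gauss unit (`∃ y ≠ 0, GRel A ↑s y`);
* `hs2`      : `w_{q²} s = -s` is a Gauss unit;
* `gRel_sE`, `gRel_wK2_sE` : the same with the reductions named (`redS`, `-redS`);
* `isU_s1`, `isU_s1'`, `isU_s2`, `isU_s2'` : the restatements in `Corr3Red.redOf` form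
  (`r.IsU s`), for the inclusion resp. the `w_{q²}`-twisted expansion (primed: any expansion
  with the same values);
* `sE_ne_zero`.

(The two norm facts `π⁻¹ * N_α s`, `w_q (π⁻¹ * N_β s)` are in `S36/Corr3SN.lean`, helper122.)

Series level helpers (no function field), reusable for the norm facts:
`gRel_prod` (finite products of Gauss relations), `gRel_neg_one_pow`,
`prod_zeta_sub_one` (`∏_{c ≠ 0} (ζ^c - 1) = (-1)^(q-1) q` over `Fin q`).
-/
import Mathlib
import Fermat.Agent.S36.Wit3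
import Fermat.Agent.S36.Wit3Xi
import Fermat.Agent.S36.GaussE
import Fermat.Agent.S36.Corr3Red

set_option autoImplicit false

noncomputable section

namespace Fermat.Agent.S36.Corr3S

open ModularCurve HahnSeries Fermat.Agent.S18 Fermat.Agent.S18.Arith Fermat.Agent.S18.ModelPlan
open Fermat.Agent Fermat.Agent.S34

/-! ### Series level -/

section Series

variable (A : ValuationSubring Qb)

local notation "k" => IsLocalRing.ResidueField A

/-- Finite products of Gauss relations. -/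
theorem gRel_prod {ι : Type*} (s : Finset ι) (x : ι → LaurentSeries Qb)
    (y : ι → LaurentSeries k) (h : ∀ i ∈ s, GRel A (x i) (y i)) :
    GRel A (∏ i ∈ s, x i) (∏ i ∈ s, y i) := by
  classical
  induction s using Finset.induction_on with
  | empty =>
    have h1 := (V12Rel.gFacts A).of_int (1 : LaurentSeries A)
    rw [map_one, map_one] at h1
    simpa using h1
  | insert a s ha ih =>
    rw [Finset.prod_insert ha, Finset.prod_insert ha]
    exact (V12Rel.gFacts A).mul _ _ _ _ (h a (Finset.mem_insert_self a s))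
      (ih fun i hi => h i (Finset.mem_insert_of_mem hi))

/-- `(-1)^n` is a Gauss unit. -/
theorem gRel_neg_one_pow (n : ℕ) :
    GRel A ((-1 : LaurentSeries Qb) ^ n) ((-1 : LaurentSeries k) ^ n) := by
  have h1 := (V12Rel.gFacts A).of_int (1 : LaurentSeries A)
  rw [map_one, map_one] at h1
  exact V12Rel.gRel_pow A ((V12Rel.gFacts A).neg _ _ h1) n

variable (q : ℕ) [Fact q.Prime]

/-- The cyclotomic product: `∏_{c ≠ 0} (ζ^c - 1) = (-1)^(q-1) q`. -/
theorem prod_zeta_sub_one {L : Type*} [Field L] {ζ : L} (hζ : IsPrimitiveRoot ζ q) :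
    ∏ c ∈ Finset.univ.erase (0 : Fin q), (ζ ^ (c : ℕ) - 1) = (-1) ^ (q - 1) * (q : L) := by
  classical
  have hq : q.Prime := Fact.out
  -- pass to a function which is `1` at `0`
  have h1 : ∏ c ∈ Finset.univ.erase (0 : Fin q), (ζ ^ (c : ℕ) - 1) =
      ∏ c : Fin q, (if (c : ℕ) = 0 then (1 : L) else ζ ^ (c : ℕ) - 1) := by
    rw [← Finset.prod_erase (Finset.univ : Finset (Fin q))
      (f := fun c : Fin q => if (c : ℕ) = 0 then (1 : L) else ζ ^ (c : ℕ) - 1) (a := 0)
      (by simp)]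
    refine Finset.prod_congr rfl fun c hc => ?_
    have hc0 : (c : ℕ) ≠ 0 := fun h => (Finset.ne_of_mem_erase hc) (Fin.ext (by simpa using h))
    rw [if_neg hc0]
  rw [h1, Fin.prod_univ_eq_prod_range (fun i : ℕ => if i = 0 then (1 : L) else ζ ^ i - 1) q]
  obtain ⟨n, hn⟩ : ∃ n : ℕ, q = n + 1 := ⟨q - 1, by have := hq.pos; omega⟩
  have hζ' : IsPrimitiveRoot ζ (n + 1) := hn ▸ hζ
  have hprod := hζ'.prod_one_sub_pow_eq_order
  rw [hn, Finset.prod_range_succ', if_pos rfl, mul_one]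
  have h2 : ∏ i ∈ Finset.range n, (if i + 1 = 0 then (1 : L) else ζ ^ (i + 1) - 1) =
      ∏ i ∈ Finset.range n, (-1 : L) * (1 - ζ ^ (i + 1)) := by
    refine Finset.prod_congr rfl fun i _ => ?_
    rw [if_neg (Nat.succ_ne_zero i)]
    ring
  rw [h2, Finset.prod_mul_distrib, hprod, Finset.prod_const, Finset.card_range]
  have : n + 1 - 1 = n := by omega
  rw [this]
  push_cast
  ring

end Series

/-! ### The two `s`-facts on `W1`, `W2` -/

section Level

variable (M q : ℕ) [NeZero M] [NeZero q] (hq : q.Prime) (hqM : ¬ q ∣ M)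
variable (A : ValuationSubring Qb) (K : IntermediateField ℚ Qb)

local notation "k" => IsLocalRing.ResidueField A

/-- **(hs₁)** `s = j(Q^(q*q)) - j(Q)` is a Gauss unit. -/
theorem hs1 : ∃ y : LaurentSeries k, y ≠ 0 ∧
    GRel A ((Wit3.sE M q hq hqM K : FK (M * q * q) K) : LaurentSeries Qb) y := by
  have : Fact q.Prime := ⟨hq⟩
  exact ⟨Wit3.redS A q, Wit3.redS_ne_zero A q, by rw [Wit3.coe_sE]; exact Wit3.gRel_s A q⟩

/-- **(hs₂)** `w_{q²} s = -s` is a Gauss unit. -/
theorem hs2 : ∃ y : LaurentSeries k, y ≠ 0 ∧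
    GRel A ((WQ2.wK2 M q hq hqM K (Wit3.sE M q hq hqM K) : FK (M * q * q) K) :
      LaurentSeries Qb) y := by
  have : Fact q.Prime := ⟨hq⟩
  refine ⟨-Wit3.redS A q, neg_ne_zero.mpr (Wit3.redS_ne_zero A q), ?_⟩
  rw [Wit3.wK2_sE, Subfield.coe_neg, Wit3.coe_sE]
  exact (V12Rel.gFacts A).neg _ _ (Wit3.gRel_s A q)

/-- the reduction of `s`, named. -/
theorem gRel_sE : GRel A ((Wit3.sE M q hq hqM K : FK (M * q * q) K) : LaurentSeries Qb)
    (@Wit3.redS A q ⟨hq⟩) := by
  have : Fact q.Prime := ⟨hq⟩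
  rw [Wit3.coe_sE]
  exact Wit3.gRel_s A q

/-- the reduction of `w_{q²} s`, named. -/
theorem gRel_wK2_sE :
    GRel A ((WQ2.wK2 M q hq hqM K (Wit3.sE M q hq hqM K) : FK (M * q * q) K) : LaurentSeries Qb)
      (-(@Wit3.redS A q ⟨hq⟩)) := by
  have : Fact q.Prime := ⟨hq⟩
  rw [Wit3.wK2_sE, Subfield.coe_neg, Wit3.coe_sE]
  exact (V12Rel.gFacts A).neg _ _ (Wit3.gRel_s A q)

/-! #### Restatements in `Corr3Red.redOf` form (the shapes `Corr3NVal` / `Corr3Inst` consume) -/

/-- **(hs₁)** in `redOf` form, for the `q`-expansion at `∞` (`E₁ = ` the inclusion). -/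
theorem isU_s1 : (Corr3Red.redOf A (FK (M * q * q) K).subtype).IsU (Wit3.sE M q hq hqM K) :=
  hs1 M q hq hqM A K

/-- **(hs₁)** in `redOf` form, for ANY expansion `E₁` which is the inclusion. -/
theorem isU_s1' (E₁ : FK (M * q * q) K →+* LaurentSeries Qb)
    (hE₁ : ∀ x : FK (M * q * q) K, E₁ x = (x : LaurentSeries Qb)) :
    (Corr3Red.redOf A E₁).IsU (Wit3.sE M q hq hqM K) := by
  obtain ⟨y, hy, h⟩ := hs1 M q hq hqM A K
  exact ⟨y, hy, by rw [Corr3Red.redOf_rel_iff, hE₁]; exact h⟩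

/-- **(hs₂)** in `redOf` form, for the expansion twisted by `w_{q²}`. -/
theorem isU_s2 :
    (Corr3Red.redOf A ((FK (M * q * q) K).subtype.comp
      (WQ2.wK2 M q hq hqM K).toRingHom)).IsU (Wit3.sE M q hq hqM K) :=
  hs2 M q hq hqM A K

/-- **(hs₂)** in `redOf` form, for ANY expansion `E₂` with `E₂ x = ↑(w_{q²} x)`. -/
theorem isU_s2' (E₂ : FK (M * q * q) K →+* LaurentSeries Qb)
    (hE₂ : ∀ x : FK (M * q * q) K,
      E₂ x = ((WQ2.wK2 M q hq hqM K x : FK (M * q * q) K) : LaurentSeries Qb)) :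
    (Corr3Red.redOf A E₂).IsU (Wit3.sE M q hq hqM K) := by
  obtain ⟨y, hy, h⟩ := hs2 M q hq hqM A K
  exact ⟨y, hy, by rw [Corr3Red.redOf_rel_iff, hE₂]; exact h⟩

/-- `s ≠ 0`. -/
theorem sE_ne_zero : Wit3.sE M q hq hqM K ≠ 0 := by
  intro h0
  obtain ⟨y, hy, h⟩ := hs1 M q hq hqM (⊤ : ValuationSubring Qb) K
  rw [h0, Subfield.coe_zero] at h
  have h2 := Fermat.Agent.S18.ModelRed.gRel_zero (V12Rel.gFacts (⊤ : ValuationSubring Qb))
  exact hy ((V12Rel.gFacts (⊤ : ValuationSubring Qb)).unique _ _ _ h h2)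

end Level

end Fermat.Agent.S36.Corr3S
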