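/-
S36 block [RotTheta-G] (helper106): the Gauss-fraction (`GRel`) form of `S36/RotTheta.lean`.

`A` a valuation subring of `ℚ̄`, `k` its residue field.  For a series `x ∈ ℚ̄((Q))` in the Gauss
local ring of `A` with reduction `y ∈ k((Q))` (`GRel A x y`: `x = p / u`, `p, u ∈ A((Q))`,
`red u = 1`, `red p = y` — e.g. any element of the Gauss valuation ring `W1` of a modular function
field) and a unit `ζ` of `A` with `ζ ≡ 1` modulo the maximal ideal:

* `gRel_theta`               : `θ x` is Gauss-integral with reduction `θ y`;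
* `exists_gRel_rot_sub`      : `x(ζ Q) - x(Q) = (ζ - 1) z`, `z` Gauss-integral with reduction `θ y`;
* `exists_gRel_pow_rot_sub`  : for a primitive `q`-th root of unity `ξ` (`A` over `q`):
                               `(x(ξ Q) - x(Q)) ^ (q - 1) = q z`, `red z = -(θ y) ^ (q - 1)`;
* `exists_gRel_prod_rot_sub` : `∏_{c=1}^{q-1} (x(ξ^c Q) - x(Q)) = (-1)^(q-1) q z`,
                               `red z = (θ y) ^ (q - 1)`;
* `theta_jqModC_ne_zero`     : `θ j ≠ 0` over any nontrivial ring.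
* `unif_of_gRel_rot_sub`     : hence `s` with `E s = x(ζ Q) - x(Q)` is a uniformiser along `E` in the
                               sense of `S36/GaussE.Unif` (for `ϖ = ζ - 1` or `1 - ζ`) when `θ y ≠ 0`.

So the `W3`-valuation of `s_x = x(Q^{q²}) - x(Q)` (whose middle-cusp expansion is
`x(ξ Q) - x(Q)`) is that of `ξ - 1` as soon as `θ (red x) ≠ 0`, and `s_x ^ (q - 1) / q` is then a
`W3`-unit with reduction `-(θ (red x)) ^ (q - 1)`.
-/
import Mathlib
import Fermat.Agent.S36.RotTheta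
import Fermat.Agent.S36.Wit3Xi
import Fermat.Agent.S18.GRel
import Fermat.Agent.S36.GaussE

set_option autoImplicit false

noncomputable section

namespace Fermat.Agent.S36.RotThetaG

open ModularCurve HahnSeries Fermat.Agent Fermat.Agent.S18.Arith Fermat.Agent.S24
open Fermat.Agent.S36.RotTheta

/-! ### `θ` and coefficientwise maps -/

section Coeff

variable {R S : Type*} [CommRing R] [CommRing S]

/-- `θ` commutes with coefficientwise ring maps. -/
theorem coeffMap_theta (φ : R →+* S) (f : LaurentSeries R) :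
    coeffMap φ (theta f) = theta (coeffMap φ f) := by
  ext n
  rw [coeffMap_coeff, theta_coeff, theta_coeff, coeffMap_coeff, map_mul, map_intCast]

theorem coeffMap_C_eq (φ : R →+* S) (r : R) :
    coeffMap φ (HahnSeries.C r : LaurentSeries R) = HahnSeries.C (φ r) := by
  rw [HahnSeries.C_apply, coeffMap_single, HahnSeries.C_apply]

/-- `θ f ≠ 0` as soon as some coefficient survives. -/
theorem theta_ne_zero_of_coeff {f : LaurentSeries R} {n : ℤ} (h : (n : R) * f.coeff n ≠ 0) :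
    theta f ≠ 0 := by
  intro h0
  apply h
  rw [← theta_coeff, h0, HahnSeries.coeff_zero]

/-- `θ j = -Q⁻¹ + ⋯ ≠ 0`. -/
theorem theta_jqModC_ne_zero (k : Type*) [CommRing k] [Nontrivial k] : theta (jqModC k) ≠ 0 := by
  apply theta_ne_zero_of_coeff (n := -1)
  rw [coeff_jqModC_neg_one]
  simp

end Coeff

/-! ### Integral series -/

section Int

variable (A : ValuationSubring Qb)

theorem coeffMap_subtype_mem_IntSub (F : LaurentSeries A) :
    coeffMap A.subtype F ∈ IntSub A.toSubring := fun n => by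
  rw [coeffMap_coeff]
  exact (F.coeff n).2

/-- The rotation congruence for series with coefficients in `A`, with the reduction of the
quotient. -/
theorem exists_int_rot_sub {ζ : Qb} (hζ0 : ζ ≠ 0) (hζ : ζ ∈ A) (hζ' : ζ⁻¹ ∈ A)
    (F : LaurentSeries A) :
    ∃ G : LaurentSeries A,
      rotHom ζ hζ0 (coeffMap A.subtype F) - coeffMap A.subtype F =
        HahnSeries.C (ζ - 1) * coeffMap A.subtype G ∧
      (IsLocalRing.residue A ⟨ζ, hζ⟩ = 1 →
        coeffMap (IsLocalRing.residue A) G = theta (coeffMap (IsLocalRing.residue A) F)) := by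
  obtain ⟨g, hg, h⟩ := rot_sub_self (B := A.toSubring) hζ0 hζ hζ'
    (coeffMap_subtype_mem_IntSub A F)
  obtain ⟨G₀, hG₀⟩ := S18.GRel.exists_coeffMap_subtype_eq A g (fun n => hg n)
  have hz1 : ζ - 1 ∈ A := sub_mem hζ (one_mem A)
  refine ⟨theta F + HahnSeries.C (⟨ζ - 1, hz1⟩ : A) * G₀, ?_, ?_⟩
  · rw [h, map_add, map_mul, coeffMap_theta, coeffMap_C_eq, hG₀]
    rfl
  · intro hres
    have h0 : IsLocalRing.residue A (⟨ζ - 1, hz1⟩ : A) = 0 := by
      have e : (⟨ζ - 1, hz1⟩ : A) = ⟨ζ, hζ⟩ - 1 := rfl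
      rw [e, map_sub, hres, map_one, sub_self]
    rw [map_add, map_mul, coeffMap_theta, coeffMap_C_eq, h0, map_zero, zero_mul, add_zero]

end Int

/-! ### The Gauss relation -/

section Gauss

variable (A : ValuationSubring Qb)

theorem gRel_one_one : GRel A 1 1 :=
  ⟨1, 1, map_one _, by rw [map_one, mul_one], map_one _⟩

theorem gRel_npow {x : LaurentSeries Qb} {y : LaurentSeries (IsLocalRing.ResidueField A)}
    (h : GRel A x y) (n : ℕ) : GRel A (x ^ n) (y ^ n) := by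
  induction n with
  | zero => simpa using gRel_one_one A
  | succ n ih =>
    rw [_root_.pow_succ, _root_.pow_succ]
    exact S18.GRel.gRel_mul A _ _ _ _ ih h

theorem gRel_prod {ι : Type*} (s : Finset ι) (z : ι → LaurentSeries Qb)
    (y : ι → LaurentSeries (IsLocalRing.ResidueField A)) (h : ∀ i ∈ s, GRel A (z i) (y i)) :
    GRel A (∏ i ∈ s, z i) (∏ i ∈ s, y i) := by
  classical
  induction s using Finset.induction_on with
  | empty => simpa using gRel_one_one A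
  | insert j s hj ih =>
    rw [Finset.prod_insert hj, Finset.prod_insert hj]
    exact S18.GRel.gRel_mul A _ _ _ _ (h j (Finset.mem_insert_self j s))
      (ih fun i hi => h i (Finset.mem_insert_of_mem hi))

theorem gRel_C (a : A) :
    GRel A (HahnSeries.C (a : Qb)) (HahnSeries.C (IsLocalRing.residue A a)) := by
  have h := S18.GRel.gRel_of_int A (HahnSeries.C a)
  rwa [coeffMap_C_eq, coeffMap_C_eq] at h

/-- **(G1)** `θ` preserves the Gauss local ring and commutes with the reduction. -/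
theorem gRel_theta {x : LaurentSeries Qb} {y : LaurentSeries (IsLocalRing.ResidueField A)}
    (h : GRel A x y) : GRel A (theta x) (theta y) := by
  obtain ⟨u, p, hu, hx, hp⟩ := h
  refine ⟨u * u, theta p * u - p * theta u, ?_, ?_, ?_⟩
  · rw [map_mul, hu, mul_one]
  · have h1 := congrArg theta hx
    rw [theta_mul] at h1
    rw [map_mul, map_sub, map_mul, map_mul, coeffMap_theta, coeffMap_theta]
    linear_combination coeffMap A.subtype u * h1 - theta (coeffMap A.subtype u) * hx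
  · rw [map_sub, map_mul, map_mul, coeffMap_theta, coeffMap_theta, hu, hp, theta_one, mul_zero,
      sub_zero, mul_one]

/-- **(G2) The rotation congruence for Gauss-integral series**: for a unit `ζ ≡ 1` of `A` and
`x` with reduction `y`: `x(ζ Q) - x(Q) = (ζ - 1) · z` with `z` Gauss-integral, `red z = θ y`. -/
theorem exists_gRel_rot_sub {ζ : Qb} (hζ0 : ζ ≠ 0) (hζ : ζ ∈ A) (hζ' : ζ⁻¹ ∈ A)
    (hres : IsLocalRing.residue A ⟨ζ, hζ⟩ = 1)
    {x : LaurentSeries Qb} {y : LaurentSeries (IsLocalRing.ResidueField A)} (h : GRel A x y) :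
    ∃ z : LaurentSeries Qb,
      rotHom ζ hζ0 x - x = HahnSeries.C (ζ - 1) * z ∧ GRel A z (theta y) := by
  obtain ⟨u, p, hu, hx, hp⟩ := h
  obtain ⟨U1, hU1, hU1r⟩ := exists_int_rot_sub A hζ0 hζ hζ' u
  obtain ⟨P1, hP1, hP1r⟩ := exists_int_rot_sub A hζ0 hζ hζ' p
  have hz1 : ζ - 1 ∈ A := sub_mem hζ (one_mem A)
  have h0 : IsLocalRing.residue A (⟨ζ - 1, hz1⟩ : A) = 0 := by
    have e : (⟨ζ - 1, hz1⟩ : A) = ⟨ζ, hζ⟩ - 1 := rfl
    rw [e, map_sub, hres, map_one, sub_self]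
  -- the rotated denominator, as an integral series with reduction `1`
  have hVc : coeffMap A.subtype (u + HahnSeries.C (⟨ζ - 1, hz1⟩ : A) * U1) =
      rotHom ζ hζ0 (coeffMap A.subtype u) := by
    rw [map_add, map_mul, coeffMap_C_eq]
    show coeffMap A.subtype u + HahnSeries.C (ζ - 1) * coeffMap A.subtype U1 = _
    rw [← hU1]
    ring
  have hVr : coeffMap (IsLocalRing.residue A) (u + HahnSeries.C (⟨ζ - 1, hz1⟩ : A) * U1) = 1 := by
    rw [map_add, map_mul, coeffMap_C_eq, h0, map_zero, zero_mul, add_zero, hu]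
  have hU0 : coeffMap A.subtype u ≠ 0 := by
    intro hU
    have hu0 : u = 0 := S18.GRel.coeffMap_subtype_injective A (by rw [map_zero]; exact hU)
    rw [hu0, map_zero] at hu
    exact zero_ne_one hu
  have hrU0 : rotHom ζ hζ0 (coeffMap A.subtype u) ≠ 0 := fun hr =>
    hU0 ((map_eq_zero (rotHom ζ hζ0)).1 hr)
  have hrot : rotHom ζ hζ0 x * rotHom ζ hζ0 (coeffMap A.subtype u) =
      rotHom ζ hζ0 (coeffMap A.subtype p) := by
    rw [← map_mul, hx]
  have key : (rotHom ζ hζ0 x - x) * rotHom ζ hζ0 (coeffMap A.subtype u) =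
      HahnSeries.C (ζ - 1) * (coeffMap A.subtype P1 - x * coeffMap A.subtype U1) := by
    linear_combination hrot + hP1 - x * hU1 - hx
  refine ⟨(coeffMap A.subtype P1 - x * coeffMap A.subtype U1) *
    (rotHom ζ hζ0 (coeffMap A.subtype u))⁻¹, ?_, ?_⟩
  · rw [← mul_assoc, ← key, mul_assoc, mul_inv_cancel₀ hrU0, mul_one]
  · refine ⟨(u + HahnSeries.C (⟨ζ - 1, hz1⟩ : A) * U1) * u, P1 * u - p * U1, ?_, ?_, ?_⟩
    · rw [map_mul, hVr, hu, mul_one]
    · rw [map_mul, hVc, map_sub, map_mul, map_mul, mul_assoc,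
        ← mul_assoc (rotHom ζ hζ0 (coeffMap A.subtype u))⁻¹, inv_mul_cancel₀ hrU0, one_mul]
      linear_combination (-(coeffMap A.subtype U1)) * hx
    · rw [map_sub, map_mul, map_mul, hP1r hres, hU1r hres, hu, hp, theta_one, mul_zero, sub_zero,
        mul_one]

variable {q : ℕ} [Fact q.Prime] {ξ : Qb}

/-- **(G2ξ)** The rotation congruence for a primitive `q`-th root of unity, `A` over `q`. -/
theorem exists_gRel_rot_sub_xi (hA : A.LiesOverPrime q) (hξ : IsPrimitiveRoot ξ q) (hξ0 : ξ ≠ 0)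
    {x : LaurentSeries Qb} {y : LaurentSeries (IsLocalRing.ResidueField A)} (h : GRel A x y) :
    ∃ z : LaurentSeries Qb,
      rotHom ξ hξ0 x - x = HahnSeries.C (ξ - 1) * z ∧ GRel A z (theta y) :=
  exists_gRel_rot_sub A hξ0 (Wit3Xi.xi_mem hξ) (Wit3Xi.xi_inv_mem hξ) (Wit3Xi.residue_xi hA hξ) h

/-- **(G3)** `(x(ξ Q) - x(Q)) ^ (q - 1) = q · z` with `z` Gauss-integral,
`red z = -(θ (red x)) ^ (q - 1)`. -/
theorem exists_gRel_pow_rot_sub (hA : A.LiesOverPrime q) (hξ : IsPrimitiveRoot ξ q) (hξ0 : ξ ≠ 0)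
    {x : LaurentSeries Qb} {y : LaurentSeries (IsLocalRing.ResidueField A)} (h : GRel A x y) :
    ∃ z : LaurentSeries Qb,
      (rotHom ξ hξ0 x - x) ^ (q - 1) = HahnSeries.C (q : Qb) * z ∧
        GRel A z (-(theta y) ^ (q - 1)) := by
  have hq : q.Prime := Fact.out
  have hξA : ξ ∈ A := Wit3Xi.xi_mem hξ
  obtain ⟨z, hz, hzr⟩ := exists_gRel_rot_sub_xi A hA hξ hξ0 h
  obtain ⟨w, hw, -, hqw, c, hc, hwc⟩ := natCast_eq_pow_mul (B := A.toSubring) hq hξ hξA
  have hw' : w ∈ A := hw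
  have hc' : c ∈ A := hc
  have hz1 : ξ - 1 ∈ A := sub_mem hξA (one_mem A)
  have h0 : IsLocalRing.residue A (⟨ξ - 1, hz1⟩ : A) = 0 := by
    have e : (⟨ξ - 1, hz1⟩ : A) = ⟨ξ, hξA⟩ - 1 := rfl
    rw [e, map_sub, Wit3Xi.residue_xi hA hξ, map_one, sub_self]
  have hwres : IsLocalRing.residue A (⟨w, hw'⟩ : A) = -1 := by
    have e : (⟨w, hw'⟩ : A) = -1 + (⟨ξ - 1, hz1⟩ : A) * ⟨c, hc'⟩ := Subtype.ext hwc
    rw [e, map_add, map_mul, h0, zero_mul, add_zero, map_neg, map_one]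
  refine ⟨HahnSeries.C w * z ^ (q - 1), ?_, ?_⟩
  · rw [hz, mul_pow, ← map_pow, hqw, map_mul, mul_assoc]
  · have h1 := S18.GRel.gRel_mul A _ _ _ _ (gRel_C A ⟨w, hw'⟩) (gRel_npow A hzr (q - 1))
    rw [hwres, map_neg, map_one, neg_one_mul] at h1
    exact h1

/-- **(G4)** `∏_{c=1}^{q-1} (x(ξ^c Q) - x(Q)) = (-1)^(q-1) q · z` with `z` Gauss-integral,
`red z = (θ (red x)) ^ (q - 1)`. -/
theorem exists_gRel_prod_rot_sub (hA : A.LiesOverPrime q) (hξ : IsPrimitiveRoot ξ q)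
    (hξ0 : ξ ≠ 0)
    {x : LaurentSeries Qb} {y : LaurentSeries (IsLocalRing.ResidueField A)} (h : GRel A x y) :
    ∃ z : LaurentSeries Qb,
      ∏ c ∈ Finset.range (q - 1), (rotHom (ξ ^ (c + 1)) (pow_ne_zero _ hξ0) x - x) =
        HahnSeries.C ((-1) ^ (q - 1) * (q : Qb)) * z ∧ GRel A z ((theta y) ^ (q - 1)) := by
  have hq : q.Prime := Fact.out
  have hξA : ξ ∈ A := Wit3Xi.xi_mem hξ
  have hξA' : ξ⁻¹ ∈ A := Wit3Xi.xi_inv_mem hξ
  have key : ∀ c : ℕ, ∃ z : LaurentSeries Qb,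
      rotHom (ξ ^ (c + 1)) (pow_ne_zero _ hξ0) x - x = HahnSeries.C (ξ ^ (c + 1) - 1) * z ∧
        GRel A z (theta y) := fun c =>
    exists_gRel_rot_sub A (pow_ne_zero _ hξ0) (pow_mem hξA _)
      (by rw [← inv_pow]; exact pow_mem hξA' _)
      (by
        have e : (⟨ξ ^ (c + 1), pow_mem hξA _⟩ : A) = ⟨ξ, hξA⟩ ^ (c + 1) := rfl
        rw [e, map_pow, Wit3Xi.residue_xi hA hξ, one_pow]) h
  choose z hz hzr using key
  refine ⟨∏ c ∈ Finset.range (q - 1), z c, ?_, ?_⟩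
  · rw [Finset.prod_congr rfl fun c _ => hz c, Finset.prod_mul_distrib, ← map_prod,
      prod_pow_sub_one hq.pos hξ]
  · have h1 := gRel_prod A (Finset.range (q - 1)) z (fun _ => theta y) (fun c _ => hzr c)
    rwa [Finset.prod_const, Finset.card_range] at h1

end Gauss

/-! ### Uniformisers along an embedding (`S36/GaussE.Unif`) -/

section Unif

variable {A : ValuationSubring Qb} {K' : IntermediateField ℚ Qb} {F : Type*} [Field F]
  {E : F →+* LaurentSeries Qb}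

/-- If the `E`-expansion of `s` is the rotation difference `x(ζ Q) - x(Q)` of a Gauss-integral
series `x` whose reduction `y` has `θ y ≠ 0`, then `s` is a uniformiser along `E` for
`ϖ = ζ - 1`. -/
theorem unif_of_gRel_rot_sub {ζ : Qb} (hζ0 : ζ ≠ 0) (hζ1 : ζ ≠ 1) (hζ : ζ ∈ A) (hζ' : ζ⁻¹ ∈ A)
    (hres : IsLocalRing.residue A ⟨ζ, hζ⟩ = 1) {ϖ : OK A K'} (hϖ : incO A K' ϖ = ζ - 1)
    {s : F} {x : LaurentSeries Qb} {y : LaurentSeries (IsLocalRing.ResidueField A)}
    (hs : E s = rotHom ζ hζ0 x - x) (h : GRel A x y) (hθ : theta y ≠ 0) :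
    GaussE.Unif A K' ϖ E s := by
  obtain ⟨z, hz, hzr⟩ := exists_gRel_rot_sub A hζ0 hζ hζ' hres h
  refine ⟨theta y, hθ, ?_⟩
  have hC : (HahnSeries.C (ζ - 1) : LaurentSeries Qb) ≠ 0 := by
    rw [Ne, map_eq_zero]
    exact sub_ne_zero.2 hζ1
  rw [hϖ, hs, hz, mul_comm, ← mul_assoc, inv_mul_cancel₀ hC, one_mul]
  exact hzr

/-- The same for `ϖ = 1 - ζ`. -/
theorem unif_of_gRel_rot_sub' {ζ : Qb} (hζ0 : ζ ≠ 0) (hζ1 : ζ ≠ 1) (hζ : ζ ∈ A) (hζ' : ζ⁻¹ ∈ A)
    (hres : IsLocalRing.residue A ⟨ζ, hζ⟩ = 1) {ϖ : OK A K'} (hϖ : incO A K' ϖ = 1 - ζ)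
    {s : F} {x : LaurentSeries Qb} {y : LaurentSeries (IsLocalRing.ResidueField A)}
    (hs : E s = rotHom ζ hζ0 x - x) (h : GRel A x y) (hθ : theta y ≠ 0) :
    GaussE.Unif A K' ϖ E s := by
  obtain ⟨z, hz, hzr⟩ := exists_gRel_rot_sub A hζ0 hζ hζ' hres h
  refine ⟨-theta y, neg_ne_zero.2 hθ, ?_⟩
  have hC : (HahnSeries.C (ζ - 1) : LaurentSeries Qb) ≠ 0 := by
    rw [Ne, map_eq_zero]
    exact sub_ne_zero.2 hζ1
  have e : E s * (HahnSeries.C (incO A K' ϖ) : LaurentSeries Qb)⁻¹ = -z := by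
    have e1 : (HahnSeries.C (incO A K' ϖ) : LaurentSeries Qb) = -HahnSeries.C (ζ - 1) := by
      rw [hϖ, ← map_neg, neg_sub]
    rw [e1, hs, hz, inv_neg, mul_neg, mul_comm, ← mul_assoc, inv_mul_cancel₀ hC, one_mul]
  rw [e]
  exact S18.GRel.gRel_neg A _ _ hzr

/-- Primitive `q`-th root of unity, `A` over `q`, `ϖ = ξ - 1`. -/
theorem unif_of_gRel_rot_sub_xi {q : ℕ} [Fact q.Prime] {ξ : Qb} (hA : A.LiesOverPrime q)
    (hξ : IsPrimitiveRoot ξ q) (hξ0 : ξ ≠ 0) {ϖ : OK A K'} (hϖ : incO A K' ϖ = ξ - 1)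
    {s : F} {x : LaurentSeries Qb} {y : LaurentSeries (IsLocalRing.ResidueField A)}
    (hs : E s = rotHom ξ hξ0 x - x) (h : GRel A x y) (hθ : theta y ≠ 0) :
    GaussE.Unif A K' ϖ E s :=
  unif_of_gRel_rot_sub hξ0 (Wit3Xi.xi_ne_one hξ) (Wit3Xi.xi_mem hξ) (Wit3Xi.xi_inv_mem hξ)
    (Wit3Xi.residue_xi hA hξ) hϖ hs h hθ

/-- Primitive `q`-th root of unity, `A` over `q`, `ϖ = 1 - ξ`. -/
theorem unif_of_gRel_rot_sub_xi' {q : ℕ} [Fact q.Prime] {ξ : Qb} (hA : A.LiesOverPrime q)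
    (hξ : IsPrimitiveRoot ξ q) (hξ0 : ξ ≠ 0) {ϖ : OK A K'} (hϖ : incO A K' ϖ = 1 - ξ)
    {s : F} {x : LaurentSeries Qb} {y : LaurentSeries (IsLocalRing.ResidueField A)}
    (hs : E s = rotHom ξ hξ0 x - x) (h : GRel A x y) (hθ : theta y ≠ 0) :
    GaussE.Unif A K' ϖ E s :=
  unif_of_gRel_rot_sub' hξ0 (Wit3Xi.xi_ne_one hξ) (Wit3Xi.xi_mem hξ) (Wit3Xi.xi_inv_mem hξ)
    (Wit3Xi.residue_xi hA hξ) hϖ hs h hθ

end Unif

end Fermat.Agent.S36.RotThetaG

end
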