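/-
S36 — Corr3SN.lean (helper122).  [CORR36-inst], the `s`-facts of `Corr3NVal.hNV`, part N
(split with helper130's `S36/Corr3S.lean` = `hs₁`, `hs₂`): THE NORMS OF THE UNIFORMISER
`s = j_{q²} - j` OF `W3`.

Level `N = (M q) q`, `q` prime, `q ∤ M`, `A` a valuation ring of `ℚ̄` over `q`, `K` any base
field, `p ∈ O = A ∩ K` with `q = p · unit` (in `A`); `π' = p` as a constant of `F_K(M q)`.
The norms `Nα, Nβ : F_K(M q²) →*₀ F_K(M q)` are ABSTRACT, subject to the hypotheses of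
`S36/Corr3NV.lean` (same names, same shapes):

* `hP1`  : `↑(Nα x) = ∏_c emb3 c x`   (product formula, `Iota3K.coe_norm`),
* `hP3b` : `wK (Nβ x) = Nα (wK2 x)`.

Then (plain `GRel` form = `Corr3Red.redOf` form by `Iff.rfl`):

* `emb3_sE`      : `emb3 c s = j(ζ^c Q) - j(Q)` for `c ≠ 0`;
* `coe_norm_sE`  : `↑(Nα s) = (∏_{c=1}^{q-1} (j(ζ^c Q) - j(Q))) · (j(Q^{q²}) - j(Q))`;
* `norm_alpha_s` : **(hNαs)** `π'⁻¹ · Nα s` is a Gauss unit
                   (reduction `± ū · (θ j̄)^(q-1) · (j̄(Q^{q²}) - j̄)`);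
* `norm_beta_s`  : **(hNβs)** `wK (π'⁻¹ · Nβ s)` is a Gauss unit (`wK2 s = -s`);
* `_of_eq` forms for `p = q` on the nose (the shape of `Plan.UnrBase`).
-/
import Mathlib
import Fermat.Agent.S34.V12Rel
import Fermat.Agent.S34.GaussV
import Fermat.Agent.S34.WK
import Fermat.Agent.S36.Corr3Red
import Fermat.Agent.S36.Iota3K
import Fermat.Agent.S36.WQ2
import Fermat.Agent.S36.Wit3
import Fermat.Agent.S36.RotThetaG
import Fermat.Agent.S36.V3

set_option autoImplicit false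

noncomputable section

namespace Fermat.Agent.S36.Corr3SN

open ModularCurve AlgebraicCurve HahnSeries
open Fermat.Agent.S18 Fermat.Agent.S18.Arith Fermat.Agent.S18.ModelPlan Fermat.Agent.S34
open Fermat.Agent.S24

variable (M q : ℕ) [NeZero M] [NeZero q] (K : IntermediateField ℚ Qb)
variable (hq : q.Prime) (hqM : ¬ q ∣ M) (A : ValuationSubring Qb)

/-! ### The conjugates of `s` -/

/-- The member `c ≠ 0` of the complete family at `s = j_{q²} - j`: `j(ζ^c Q) - j(Q)`. -/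
theorem emb3_sE {ζ : Qb} (hζ : IsPrimitiveRoot ζ q) (c : Fin q) (hc : (c : ℕ) ≠ 0) :
    Iota3K.emb3 M q K hq hqM ζ hζ c (Wit3.sE M q hq hqM K)
      = rotHom (ζ ^ (c : ℕ)) (pow_ne_zero _ (hζ.ne_zero (NeZero.ne q))) (jqModC Qb)
        - jqModC Qb := by
  rw [Iota3K.emb3_of_ne M q K hq hqM ζ hζ c hc]
  have h := (V3.midEmb_iota3 M q hq hqM K (ζ ^ (c : ℕ)) (Iota3K.pow_pow_eq_one q hζ c)
    (hζ.pow_ne_one_of_pos_of_lt hc c.2)).apply_s
  rw [Fermat.Agent.S28.jd_one] at h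
  exact h

variable (Nα Nβ : FK ((M * q) * q) K →*₀ FK (M * q) K)

/-- **The product formula at `s`**:
`↑(Nα s) = (∏_{c=1}^{q-1} (j(ζ^c Q) - j(Q))) · (j(Q^{q²}) - j(Q))`. -/
theorem coe_norm_sE {ζ : Qb} (hζ : IsPrimitiveRoot ζ q)
    (hP1 : ∀ x : FK ((M * q) * q) K, ((Nα x : FK (M * q) K) : LaurentSeries Qb)
      = ∏ c : Fin q, Iota3K.emb3 M q K hq hqM ζ hζ c x) :
    ((Nα (Wit3.sE M q hq hqM K) : FK (M * q) K) : LaurentSeries Qb)
      = (∏ c ∈ Finset.range (q - 1),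
          (rotHom (ζ ^ (c + 1)) (pow_ne_zero _ (hζ.ne_zero (NeZero.ne q))) (jqModC Qb)
            - jqModC Qb))
        * (qExpand Qb (q * q) (jqModC Qb) - jqModC Qb) := by
  classical
  have hζ0 : ζ ≠ 0 := hζ.ne_zero (NeZero.ne q)
  let F : ℕ → LaurentSeries Qb := fun c =>
    if c = 0 then qExpand Qb (q * q) (jqModC Qb) - jqModC Qb
    else rotHom (ζ ^ c) (pow_ne_zero c hζ0) (jqModC Qb) - jqModC Qb
  have hF0 : F 0 = qExpand Qb (q * q) (jqModC Qb) - jqModC Qb := if_pos rfl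
  have hFs : ∀ k : ℕ, F (k + 1)
      = rotHom (ζ ^ (k + 1)) (pow_ne_zero (k + 1) hζ0) (jqModC Qb) - jqModC Qb :=
    fun k => if_neg (Nat.succ_ne_zero k)
  have hF : ∀ c : Fin q, Iota3K.emb3 M q K hq hqM ζ hζ c (Wit3.sE M q hq hqM K) = F (c : ℕ) := by
    intro c
    by_cases hc : (c : ℕ) = 0
    · rw [Iota3K.emb3_of_eq M q K hq hqM ζ hζ c hc, Wit3.coe_sE, hc, hF0]
    · rw [emb3_sE M q K hq hqM hζ c hc]
      exact (if_neg hc).symm
  rw [hP1, Finset.prod_congr rfl (fun c _ => hF c), Fin.prod_univ_eq_prod_range F q,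
    show Finset.range q = Finset.range ((q - 1) + 1) by rw [Nat.sub_add_cancel hq.pos],
    Finset.prod_range_succ', hF0, Finset.prod_congr rfl (fun k _ => hFs k)]

/-! ### `hNαs` -/

/-- **(hNαs)** `π'⁻¹ · Nα s` is a Gauss unit of level `M q` (`π' = p`, `q = p · u`, `u ∈ Aˣ`):
its `q`-expansion reduces to a nonzero series. -/
theorem norm_alpha_s (hA : A.LiesOverPrime q) {ζ : Qb} (hζ : IsPrimitiveRoot ζ q)
    (hP1 : ∀ x : FK ((M * q) * q) K, ((Nα x : FK (M * q) K) : LaurentSeries Qb)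
      = ∏ c : Fin q, Iota3K.emb3 M q K hq hqM ζ hζ c x)
    (p : OK A K) (u : A) (hu : IsUnit u) (hpu : (q : Qb) = incO A K p * (u : Qb)) :
    ∃ y : LaurentSeries (IsLocalRing.ResidueField A), y ≠ 0 ∧
      GRel A (((algebraMap (OK A K) (FK (M * q) K) p)⁻¹ * Nα (Wit3.sE M q hq hqM K) :
        FK (M * q) K) : LaurentSeries Qb) y := by
  have : Fact q.Prime := ⟨hq⟩
  have hζ0 : ζ ≠ 0 := hζ.ne_zero (NeZero.ne q)
  obtain ⟨z, hz, hzr⟩ := RotThetaG.exists_gRel_prod_rot_sub A hA hζ hζ0 (V12Rel.gRel_j A)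
  have hq0 : (q : Qb) ≠ 0 := Nat.cast_ne_zero.mpr hq.ne_zero
  have hp0 : incO A K p ≠ 0 := by
    intro h0
    rw [h0, zero_mul] at hpu
    exact hq0 hpu
  have hCp : (C (incO A K p) : LaurentSeries Qb) ≠ 0 := by
    intro h0
    exact hp0 (HahnSeries.C_injective (by rw [h0, map_zero]))
  -- the unit `± u`
  obtain ⟨um, hum, hume⟩ : ∃ um : A, IsUnit um ∧ (um : Qb) = (-1) ^ (q - 1) * (u : Qb) :=
    ⟨(-1) ^ (q - 1) * u, (isUnit_one.neg.pow _).mul hu, by push_cast; ring⟩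
  have e : (((algebraMap (OK A K) (FK (M * q) K) p)⁻¹ * Nα (Wit3.sE M q hq hqM K) :
        FK (M * q) K) : LaurentSeries Qb)
      = C (um : Qb) * (z * (qExpand Qb (q * q) (jqModC Qb) - jqModC Qb)) := by
    rw [Subfield.coe_mul, Subfield.coe_inv, GaussV.coe_algebraMap,
      coe_norm_sE M q K hq hqM Nα hζ hP1, hz, hume, hpu,
      show ((-1 : Qb) ^ (q - 1) * (incO A K p * (u : Qb)))
        = incO A K p * ((-1) ^ (q - 1) * (u : Qb)) by ring, map_mul]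
    field_simp
  rw [e]
  have h1 : GRel A (C (um : Qb) : LaurentSeries Qb) (C (IsLocalRing.residue A um)) :=
    RotThetaG.gRel_C A um
  have h2 := (Corr3Red.gFacts A).mul _ _ _ _ hzr (Wit3.gRel_s A q)
  have h3 := (Corr3Red.gFacts A).mul _ _ _ _ h1 h2
  refine ⟨_, ?_, h3⟩
  have hres : IsLocalRing.residue A um ≠ 0 := by
    intro h0
    exact ((IsLocalRing.residue_eq_zero_iff um).mp h0) hum
  have hC : (C (IsLocalRing.residue A um) : LaurentSeries (IsLocalRing.ResidueField A)) ≠ 0 := by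
    intro h0
    exact hres (HahnSeries.C_injective (by rw [h0, map_zero]))
  exact mul_ne_zero hC (mul_ne_zero
    (pow_ne_zero _ (RotThetaG.theta_jqModC_ne_zero (IsLocalRing.ResidueField A)))
    (Wit3.redS_ne_zero A q))

/-- **(hNαs)** for `p = q` on the nose (the shape of `Plan.UnrBase`). -/
theorem norm_alpha_s_of_eq (hA : A.LiesOverPrime q) {ζ : Qb} (hζ : IsPrimitiveRoot ζ q)
    (hP1 : ∀ x : FK ((M * q) * q) K, ((Nα x : FK (M * q) K) : LaurentSeries Qb)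
      = ∏ c : Fin q, Iota3K.emb3 M q K hq hqM ζ hζ c x)
    (p : OK A K) (hp : incO A K p = (q : Qb)) :
    ∃ y : LaurentSeries (IsLocalRing.ResidueField A), y ≠ 0 ∧
      GRel A (((algebraMap (OK A K) (FK (M * q) K) p)⁻¹ * Nα (Wit3.sE M q hq hqM K) :
        FK (M * q) K) : LaurentSeries Qb) y :=
  norm_alpha_s M q K hq hqM A Nα hA hζ hP1 p 1 isUnit_one (by rw [hp]; simp)

/-! ### `hNβs` -/

/-- `↑(Nα (-1)) = (-1) ^ q`. -/
theorem coe_norm_neg_one {ζ : Qb} (hζ : IsPrimitiveRoot ζ q)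
    (hP1 : ∀ x : FK ((M * q) * q) K, ((Nα x : FK (M * q) K) : LaurentSeries Qb)
      = ∏ c : Fin q, Iota3K.emb3 M q K hq hqM ζ hζ c x) :
    ((Nα (-1) : FK (M * q) K) : LaurentSeries Qb) = (-1) ^ q := by
  rw [hP1]
  simp only [map_neg, map_one, Finset.prod_const, Finset.card_univ, Fintype.card_fin]

/-- **(hNβs)** `wK (π'⁻¹ · Nβ s)` is a Gauss unit, i.e. `π'⁻¹ · Nβ s` is a unit for the second
Gauss valuation of level `M q`. -/
theorem norm_beta_s (hA : A.LiesOverPrime q) {ζ : Qb} (hζ : IsPrimitiveRoot ζ q)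
    (hP1 : ∀ x : FK ((M * q) * q) K, ((Nα x : FK (M * q) K) : LaurentSeries Qb)
      = ∏ c : Fin q, Iota3K.emb3 M q K hq hqM ζ hζ c x)
    (hP3b : ∀ x : FK ((M * q) * q) K,
      WK.wK M q hq hqM K (Nβ x) = Nα (WQ2.wK2 M q hq hqM K x))
    (p : OK A K) (u : A) (hu : IsUnit u) (hpu : (q : Qb) = incO A K p * (u : Qb)) :
    ∃ y : LaurentSeries (IsLocalRing.ResidueField A), y ≠ 0 ∧
      GRel A ((WK.wK M q hq hqM K
        ((algebraMap (OK A K) (FK (M * q) K) p)⁻¹ * Nβ (Wit3.sE M q hq hqM K)) :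
          FK (M * q) K) : LaurentSeries Qb) y := by
  obtain ⟨y, hy, hyr⟩ := norm_alpha_s M q K hq hqM A Nα hA hζ hP1 p u hu hpu
  have e : WK.wK M q hq hqM K
      ((algebraMap (OK A K) (FK (M * q) K) p)⁻¹ * Nβ (Wit3.sE M q hq hqM K))
      = Nα (-1) * ((algebraMap (OK A K) (FK (M * q) K) p)⁻¹ * Nα (Wit3.sE M q hq hqM K)) := by
    rw [map_mul, map_inv₀, WK.wK_algebraMap_OK, hP3b, Wit3.wK2_sE,
      neg_eq_neg_one_mul (Wit3.sE M q hq hqM K), map_mul]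
    ring
  rw [e, Subfield.coe_mul, coe_norm_neg_one M q K hq hqM Nα hζ hP1]
  have hG := Corr3Red.gFacts A
  have hm1 : GRel A ((-1 : LaurentSeries Qb) ^ q)
      ((-1 : LaurentSeries (IsLocalRing.ResidueField A)) ^ q) :=
    RotThetaG.gRel_npow A (hG.neg _ _ (RotThetaG.gRel_one_one A)) q
  exact ⟨(-1) ^ q * y, mul_ne_zero (pow_ne_zero _ (neg_ne_zero.mpr one_ne_zero)) hy,
    hG.mul _ _ _ _ hm1 hyr⟩

/-- **(hNβs)** for `p = q` on the nose (the shape of `Plan.UnrBase`). -/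
theorem norm_beta_s_of_eq (hA : A.LiesOverPrime q) {ζ : Qb} (hζ : IsPrimitiveRoot ζ q)
    (hP1 : ∀ x : FK ((M * q) * q) K, ((Nα x : FK (M * q) K) : LaurentSeries Qb)
      = ∏ c : Fin q, Iota3K.emb3 M q K hq hqM ζ hζ c x)
    (hP3b : ∀ x : FK ((M * q) * q) K,
      WK.wK M q hq hqM K (Nβ x) = Nα (WQ2.wK2 M q hq hqM K x))
    (p : OK A K) (hp : incO A K p = (q : Qb)) :
    ∃ y : LaurentSeries (IsLocalRing.ResidueField A), y ≠ 0 ∧
      GRel A ((WK.wK M q hq hqM K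
        ((algebraMap (OK A K) (FK (M * q) K) p)⁻¹ * Nβ (Wit3.sE M q hq hqM K)) :
          FK (M * q) K) : LaurentSeries Qb) y :=
  norm_beta_s M q K hq hqM A Nα Nβ hA hζ hP1 hP3b p 1 isUnit_one (by rw [hp]; simp)

end Fermat.Agent.S36.Corr3SN
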