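/-
S36 — H90.lean (helper6): block [H90], "Hilbert 90 for Kummer generators".

An `m`-torsion class `x` of `J₀(N) = Pic⁰(F̄_N)` which is fixed by a subgroup `I` of
`Gal(ℚ̄/ℚ)` (e.g. an inertia group) is the class of a divisor `D` with `m • D = div f` where BOTH
the function `f` and the divisor `D` are fixed by `I` (coefficientwise action on `q`-expansions).

Proof.  Start from any `(f₀, D₀)` with `m • D₀ = div f₀`, `[D₀] = x` and normalise the leading
coefficient of the `q`-expansion of `f₀` to `1` (`f₁`).  For `τ ∈ I` the divisor `τ D₀ - D₀` is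
principal, `= div g`, so `τ f₁ = c · f₁ · g ^ m` with a constant `c`; normalising the leading
coefficient of `g` gives a UNIQUE `g_τ` with leading coefficient `1` and `τ f₁ = f₁ · g_τ ^ m`
(the leading coefficient is Galois-equivariant, and two functions with the same `m`-th power and
leading coefficient `1` are equal).  Uniqueness gives the cocycle rule
`g_{στ} = g_σ · σ(g_τ)` and shows that `g_τ` only depends on the restriction of `τ` to a finite
extension `L` of `ℚ` (a level of `f₁`).  The Poincaré series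
`h = ∑_φ g_φ · φ(c)` (`φ` through the restrictions to `L` of the elements of `I`, `c ∈ L`)
satisfies `g_τ · τ(h) = h`; it is nonzero for a suitable `c` by Dedekind's independence of
characters.  Then `f = f₁ · h ^ m` is fixed by `I`, and so is its `m`-th root divisor `D`.

Exports:
* `lc`                      — the leading coefficient `F̄_N →*₀ ℚ̄`, `lc_gal`, `lc_algebraMap`;
* `exists_transition`       — `τ f₁ = f₁ · g ^ m` with `lc g = 1`;
* `exists_poincare`         — the Poincaré series step;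
* `exists_invariant_twist`  — relative form: `c · f₀ · h ^ m` is `I`-fixed;
* `exists_invariant_kummer` — the statement above;
* `coeff_mem_fixedField`    — an `I`-fixed function has its `q`-expansion coefficients in `ℚ̄^I`.
-/
import Mathlib
import Fermat.Agent.S34.UPlan
import Fermat.Agent.S29.KTheta
import Fermat.Agent.S29.FinLevel

set_option autoImplicit false

open ModularCurve AlgebraicCurve HahnSeries

namespace Fermat.Agent.S36.H90

open Fermat.Agent.S18.Arith (Qb)
open Fermat.Agent.S34.UPlan (gal)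

noncomputable section

set_option synthInstance.maxHeartbeats 400000

/-! ### Leading coefficients -/

theorem coeffMap_injective {R S : Type*} [CommRing R] [CommRing S] (φ : R →+* S)
    (hφ : Function.Injective φ) : Function.Injective (coeffMap φ) := by
  intro x y h
  ext k
  apply hφ
  rw [← coeffMap_coeff, ← coeffMap_coeff, h]

theorem order_coeffMap {R S : Type*} [CommRing R] [CommRing S] (φ : R →+* S)
    (hφ : Function.Injective φ) (x : LaurentSeries R) : (coeffMap φ x).order = x.order := by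
  rcases eq_or_ne x 0 with rfl | hx
  · rw [map_zero, HahnSeries.order_zero, HahnSeries.order_zero]
  have hx' : coeffMap φ x ≠ 0 := fun h =>
    hx (coeffMap_injective φ hφ (h.trans (map_zero _).symm))
  apply le_antisymm
  · apply HahnSeries.order_le_of_coeff_ne_zero
    rw [coeffMap_coeff]
    intro h
    exact hx (HahnSeries.coeff_order_eq_zero.mp (hφ (h.trans (map_zero φ).symm)))
  · apply HahnSeries.order_le_of_coeff_ne_zero
    intro h
    apply hx'
    apply HahnSeries.coeff_order_eq_zero.mp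
    rw [coeffMap_coeff, h, map_zero]

theorem leadingCoeff_coeffMap {R S : Type*} [CommRing R] [CommRing S] (φ : R →+* S)
    (hφ : Function.Injective φ) (x : LaurentSeries R) :
    (coeffMap φ x).leadingCoeff = φ x.leadingCoeff := by
  rw [HahnSeries.leadingCoeff_eq, HahnSeries.leadingCoeff_eq, order_coeffMap φ hφ, coeffMap_coeff]

/-- The leading coefficient of the `q`-expansion, a monoid-with-zero homomorphism `F̄_N → ℚ̄`. -/
def lc (N : ℕ) : modularFunctionFieldBar N →*₀ Qb where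
  toFun f := (f : LaurentSeries Qb).leadingCoeff
  map_zero' := HahnSeries.leadingCoeff_zero
  map_one' := HahnSeries.leadingCoeff_one
  map_mul' f g := HahnSeries.leadingCoeff_mul (f : LaurentSeries Qb) (g : LaurentSeries Qb)

variable {N : ℕ}

theorem lc_apply (f : modularFunctionFieldBar N) :
    lc N f = (f : LaurentSeries Qb).leadingCoeff := rfl

theorem lc_algebraMap (a : Qb) : lc N (algebraMap Qb (modularFunctionFieldBar N) a) = a := by
  rw [lc_apply]
  have h : ((algebraMap Qb (modularFunctionFieldBar N) a : modularFunctionFieldBar N) :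
      LaurentSeries Qb) = HahnSeries.single 0 a := by
    rw [← algebraMap_laurentSeries_eq_single]
    rfl
  rw [h, HahnSeries.leadingCoeff_of_single]

theorem lc_gal (σ : Qb ≃ₐ[ℚ] Qb) (f : modularFunctionFieldBar N) :
    lc N (gal N σ • f) = σ (lc N f) := by
  rw [lc_apply, lc_apply, coe_arithmeticGalois_smul]
  exact leadingCoeff_coeffMap (σ : Qb →+* Qb) σ.injective _

theorem gal_algebraMap (σ : Qb ≃ₐ[ℚ] Qb) (a : Qb) :
    gal N σ • algebraMap Qb (modularFunctionFieldBar N) a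
      = algebraMap Qb (modularFunctionFieldBar N) (σ a) := by
  rw [SemilinearAut.smul_algebraMap]
  rfl

theorem gal_mul (σ τ : Qb ≃ₐ[ℚ] Qb) (f : modularFunctionFieldBar N) :
    gal N (σ * τ) • f = gal N σ • gal N τ • f := by
  rw [show gal N (σ * τ) = gal N σ * gal N τ from map_mul _ σ τ, mul_smul]

/-- Two functions with the same `m`-th power and leading coefficient `1` are equal. -/
theorem eq_of_pow_eq_pow [NeZero N] {m : ℕ} (hm : m ≠ 0) {g g' : modularFunctionFieldBar N}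
    (h : g ^ m = g' ^ m) (hg : lc N g = 1) (hg' : lc N g' = 1) : g = g' := by
  have hg0 : g' ≠ 0 := by
    rintro rfl
    rw [map_zero] at hg'
    exact zero_ne_one hg'
  have hu : (g / g') ^ m = 1 := by
    rw [div_pow, h, div_self (pow_ne_zero m hg0)]
  have hord : ∀ P : Place Qb (modularFunctionFieldBar N), P.ord (g / g') = 0 := by
    intro P
    have h1 : (m : ℤ) * P.ord (g / g') = 0 := by
      rw [← Fermat.Agent.S24.ord_pow, hu, P.ord_one]
    exact (mul_eq_zero.mp h1).resolve_left (by exact_mod_cast hm)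
  obtain ⟨c, hc⟩ := Fermat.Agent.S29.KTheta.mem_range_of_ord_eq_zero
    (Fermat.Agent.S29.KTheta.isFF1_bar N) _ hord
  have hc1 : c = 1 := by
    have h2 := congrArg (lc N) hc
    rw [lc_algebraMap, map_div₀, hg, hg', div_one] at h2
    exact h2
  rw [hc1, map_one] at hc
  exact (div_eq_one_iff_eq hg0).mp hc.symm

/-! ### The transition functions -/

/-- If `m • D₀ = div f₁`, `lc f₁ = 1` and `τ` fixes the class of `D₀`, then `τ f₁ = f₁ · g ^ m`
for a function `g` with leading coefficient `1`. -/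
theorem exists_transition [NeZero N] {m : ℕ} (f₁ : modularFunctionFieldBar N) (hf₁ : f₁ ≠ 0)
    (hlc : lc N f₁ = 1) (D₀ : Divisor.degZero (K := Qb) (F := modularFunctionFieldBar N))
    (hD₀ : ∀ P : Place Qb (modularFunctionFieldBar N),
      (m : ℤ) * (D₀ : Divisor Qb (modularFunctionFieldBar N)) P = P.ord f₁)
    (τ : Qb ≃ₐ[ℚ] Qb) (hτ : τ • (Pic0.mk D₀ : JZero N) = Pic0.mk D₀) :
    ∃ g : modularFunctionFieldBar N, lc N g = 1 ∧ gal N τ • f₁ = f₁ * g ^ m := by
  have e1 : τ • (Pic0.mk D₀ : JZero N)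
      = Pic0.mk (SemilinearAut.degZeroSMulHom (gal N τ) D₀) := rfl
  rw [e1] at hτ
  have h0 : Pic0.mk (SemilinearAut.degZeroSMulHom (gal N τ) D₀ - D₀) = 0 := by
    have e2 : Pic0.mk (SemilinearAut.degZeroSMulHom (gal N τ) D₀ - D₀)
        = Pic0.mk (SemilinearAut.degZeroSMulHom (gal N τ) D₀) - Pic0.mk D₀ := rfl
    rw [e2, hτ, sub_self]
  obtain ⟨g₀, hg₀, hg₀D⟩ := Fermat.Agent.S29.KTheta.exists_ord_of_mk_eq_zero h0
  have hg₀D' : ∀ P : Place Qb (modularFunctionFieldBar N),
      (gal N τ • (D₀ : Divisor Qb (modularFunctionFieldBar N))) P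
        - (D₀ : Divisor Qb (modularFunctionFieldBar N)) P = P.ord g₀ := fun P => hg₀D P
  have hτf : gal N τ • f₁ ≠ 0 := Fermat.Agent.S34.UPlan.gal_smul_ne_zero τ hf₁
  have hden : f₁ * g₀ ^ m ≠ 0 := mul_ne_zero hf₁ (pow_ne_zero m hg₀)
  have hord : ∀ P : Place Qb (modularFunctionFieldBar N),
      P.ord (gal N τ • f₁ / (f₁ * g₀ ^ m)) = 0 := by
    intro P
    rw [Fermat.Agent.S24.ord_div P hτf hden, P.ord_mul hf₁ (pow_ne_zero m hg₀),
      Fermat.Agent.S24.ord_pow, ← Fermat.Agent.S34.UPlan.ord_gal_of_div τ hD₀ P, ← hD₀ P,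
      ← hg₀D' P]
    ring
  obtain ⟨c, hc⟩ := Fermat.Agent.S29.KTheta.mem_range_of_ord_eq_zero
    (Fermat.Agent.S29.KTheta.isFF1_bar N) _ hord
  have hτeq : gal N τ • f₁ = algebraMap Qb (modularFunctionFieldBar N) c * (f₁ * g₀ ^ m) := by
    rw [hc, div_mul_cancel₀ _ hden]
  have hlcg : lc N g₀ ≠ 0 := fun h => hg₀ ((map_eq_zero (lc N)).mp h)
  have hc1 : c * (lc N g₀) ^ m = 1 := by
    have h2 := congrArg (lc N) hτeq
    rw [lc_gal, hlc, map_one, map_mul, lc_algebraMap, map_mul, hlc, one_mul, map_pow] at h2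
    exact h2.symm
  refine ⟨g₀ * algebraMap Qb (modularFunctionFieldBar N) (lc N g₀)⁻¹, ?_, ?_⟩
  · rw [map_mul, lc_algebraMap, mul_inv_cancel₀ hlcg]
  · have hc2 : c = ((lc N g₀) ^ m)⁻¹ := eq_inv_of_mul_eq_one_left hc1
    rw [hτeq, mul_pow, ← map_pow, inv_pow, hc2]
    ring

/-! ### The Poincaré series -/

/-- **Poincaré series step.**  If for every `τ ∈ I` there is `g` with leading coefficient `1` and
`τ f₁ = f₁ · g ^ m`, then `f₁ · h ^ m` is fixed by `I` for a suitable `h ≠ 0`. -/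
theorem exists_poincare [NeZero N] (I : Subgroup (Qb ≃ₐ[ℚ] Qb)) {m : ℕ} (hm : m ≠ 0)
    (f₁ : modularFunctionFieldBar N) (hf₁ : f₁ ≠ 0)
    (hI : ∀ τ ∈ I, ∃ g : modularFunctionFieldBar N, lc N g = 1 ∧ gal N τ • f₁ = f₁ * g ^ m) :
    ∃ h : modularFunctionFieldBar N, h ≠ 0 ∧ ∀ τ ∈ I, gal N τ • (f₁ * h ^ m) = f₁ * h ^ m := by
  classical
  choose! g hg using hI
  -- uniqueness of the transition functions
  have huniq : ∀ τ ∈ I, ∀ g' : modularFunctionFieldBar N, lc N g' = 1 →
      gal N τ • f₁ = f₁ * g' ^ m → g τ = g' := by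
    intro τ hτ g' hg' h'
    refine eq_of_pow_eq_pow hm ?_ (hg τ hτ).1 hg'
    have h1 := (hg τ hτ).2
    rw [h'] at h1
    exact (mul_left_cancel₀ hf₁ h1).symm
  -- the cocycle rule
  have hcoc : ∀ σ ∈ I, ∀ τ ∈ I, g (σ * τ) = g σ * gal N σ • g τ := by
    intro σ hσ τ hτ
    refine huniq (σ * τ) (I.mul_mem hσ hτ) _ ?_ ?_
    · rw [map_mul, lc_gal, (hg σ hσ).1, (hg τ hτ).1, map_one, mul_one]
    · rw [gal_mul, (hg τ hτ).2, smul_mul', smul_pow', (hg σ hσ).2, mul_pow, mul_assoc]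
  -- a finite level of `f₁`
  obtain ⟨L, hL, hLf⟩ :=
    Fermat.Agent.S29.FinLevel.exists_level_function (modularFunctionFieldFull N) f₁
  have : FiniteDimensional ℚ L := hL
  let r : (Qb ≃ₐ[ℚ] Qb) → (L →ₐ[ℚ] Qb) := fun τ => (τ : Qb →ₐ[ℚ] Qb).comp L.val
  have hr : ∀ τ τ' : Qb ≃ₐ[ℚ] Qb, r τ = r τ' → gal N τ • f₁ = gal N τ' • f₁ := by
    intro τ τ' h
    have h1 : gal N (τ⁻¹ * τ') • f₁ = f₁ := by
      refine hLf _ (fun a ha => ?_)
      have h2 : τ a = τ' a := congrArg (fun φ : L →ₐ[ℚ] Qb => φ ⟨a, ha⟩) h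
      show τ⁻¹ (τ' a) = a
      rw [← h2]
      exact τ.symm_apply_apply a
    calc gal N τ • f₁ = gal N τ • (gal N (τ⁻¹ * τ') • f₁) := by rw [h1]
      _ = gal N (τ * (τ⁻¹ * τ')) • f₁ := (gal_mul _ _ _).symm
      _ = gal N τ' • f₁ := by rw [mul_inv_cancel_left]
  -- the transition function as a function of the restriction to `L`
  let Gf : (L →ₐ[ℚ] Qb) → modularFunctionFieldBar N := fun φ =>
    if h : ∃ τ, τ ∈ I ∧ r τ = φ then g h.choose else 0
  have hGf : ∀ τ ∈ I, Gf (r τ) = g τ := by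
    intro τ hτ
    have h : ∃ τ', τ' ∈ I ∧ r τ' = r τ := ⟨τ, hτ, rfl⟩
    show (if h : ∃ τ', τ' ∈ I ∧ r τ' = r τ then g h.choose else 0) = g τ
    rw [dif_pos h]
    refine huniq _ h.choose_spec.1 _ (hg τ hτ).1 ?_
    rw [hr _ _ h.choose_spec.2]
    exact (hg τ hτ).2
  have hGf0 : ∀ φ, (¬ ∃ τ, τ ∈ I ∧ r τ = φ) → Gf φ = 0 := fun φ h => dif_neg h
  have hcomp : ∀ τ τ' : Qb ≃ₐ[ℚ] Qb, (τ : Qb →ₐ[ℚ] Qb).comp (r τ') = r (τ * τ') :=
    fun τ τ' => rfl
  have hGtw : ∀ τ ∈ I, ∀ φ, Gf ((τ : Qb →ₐ[ℚ] Qb).comp φ) = g τ * gal N τ • Gf φ := by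
    intro τ hτ φ
    by_cases h : ∃ τ', τ' ∈ I ∧ r τ' = φ
    · obtain ⟨τ', hτ', rfl⟩ := h
      rw [hcomp, hGf _ (I.mul_mem hτ hτ'), hGf _ hτ', hcoc τ hτ τ' hτ']
    · have h' : ¬ ∃ τ'', τ'' ∈ I ∧ r τ'' = (τ : Qb →ₐ[ℚ] Qb).comp φ := by
        rintro ⟨τ'', hτ'', e⟩
        apply h
        refine ⟨τ⁻¹ * τ'', I.mul_mem (I.inv_mem hτ) hτ'', ?_⟩
        rw [← hcomp, e]
        ext a
        show τ⁻¹ (τ (φ a)) = φ a
        exact τ.symm_apply_apply _
      rw [hGf0 _ h, hGf0 _ h', smul_zero, mul_zero]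
  -- the Poincaré series
  let P : L → modularFunctionFieldBar N := fun c =>
    ∑ φ : L →ₐ[ℚ] Qb, Gf φ * algebraMap Qb (modularFunctionFieldBar N) (φ c)
  have hP : ∀ τ ∈ I, ∀ c, g τ * gal N τ • P c = P c := by
    intro τ hτ c
    show g τ * gal N τ • (∑ φ : L →ₐ[ℚ] Qb,
        Gf φ * algebraMap Qb (modularFunctionFieldBar N) (φ c))
      = ∑ φ : L →ₐ[ℚ] Qb, Gf φ * algebraMap Qb (modularFunctionFieldBar N) (φ c)
    rw [Finset.smul_sum, Finset.mul_sum]
    have hbij : Function.Bijective (fun φ : L →ₐ[ℚ] Qb => (τ : Qb →ₐ[ℚ] Qb).comp φ) := by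
      refine Finite.injective_iff_bijective.mp (fun φ φ' h => ?_)
      ext a
      exact τ.injective (congrArg (fun ψ : L →ₐ[ℚ] Qb => ψ a) h)
    rw [← hbij.sum_comp (fun φ => Gf φ * algebraMap Qb (modularFunctionFieldBar N) (φ c))]
    refine Finset.sum_congr rfl (fun φ _ => ?_)
    rw [hGtw τ hτ φ, smul_mul', gal_algebraMap, mul_assoc]
    rfl
  -- nonvanishing: Dedekind's independence of characters
  have hne : ∃ c : L, P c ≠ 0 := by
    by_contra hcon
    push Not at hcon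
    let ψ : (L →ₐ[ℚ] Qb) → (L →* modularFunctionFieldBar N) := fun φ =>
      ((algebraMap Qb (modularFunctionFieldBar N)).comp (φ : L →+* Qb)).toMonoidHom
    have hψ : Function.Injective ψ := by
      intro φ φ' h
      ext a
      have h1 := DFunLike.congr_fun h a
      exact (algebraMap Qb (modularFunctionFieldBar N)).injective h1
    have hli := (linearIndependent_monoidHom L (modularFunctionFieldBar N)).comp ψ hψ
    have h0 := Fintype.linearIndependent_iff.mp hli Gf (by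
      funext c
      simp only [Finset.sum_apply, Pi.smul_apply, Function.comp_apply, smul_eq_mul,
        Pi.zero_apply]
      exact hcon c) (r 1)
    rw [hGf 1 I.one_mem] at h0
    have h1 := (hg 1 I.one_mem).1
    rw [h0, map_zero] at h1
    exact zero_ne_one h1
  obtain ⟨c, hc⟩ := hne
  refine ⟨P c, hc, fun τ hτ => ?_⟩
  rw [smul_mul', smul_pow', (hg τ hτ).2, mul_assoc, ← mul_pow, hP τ hτ c]

/-! ### Invariant Kummer generators -/

/-- **[H90], relative form.**  If `m • D₀ = div f₀` and the class of `D₀` is fixed by `I`, then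
`c · f₀ · h ^ m` is fixed by `I` for a constant `c ≠ 0` and a function `h ≠ 0`. -/
theorem exists_invariant_twist [NeZero N] (I : Subgroup (Qb ≃ₐ[ℚ] Qb)) {m : ℕ} (hm : m ≠ 0)
    (f₀ : modularFunctionFieldBar N) (hf₀ : f₀ ≠ 0)
    (D₀ : Divisor.degZero (K := Qb) (F := modularFunctionFieldBar N))
    (hD₀ : ∀ P : Place Qb (modularFunctionFieldBar N),
      (m : ℤ) * (D₀ : Divisor Qb (modularFunctionFieldBar N)) P = P.ord f₀)
    (hI : ∀ τ ∈ I, τ • (Pic0.mk D₀ : JZero N) = Pic0.mk D₀) :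
    ∃ (c : Qb) (h : modularFunctionFieldBar N), c ≠ 0 ∧ h ≠ 0 ∧
      ∀ τ ∈ I, gal N τ • (algebraMap Qb (modularFunctionFieldBar N) c * f₀ * h ^ m)
        = algebraMap Qb (modularFunctionFieldBar N) c * f₀ * h ^ m := by
  have hlc0 : lc N f₀ ≠ 0 := fun h => hf₀ ((map_eq_zero (lc N)).mp h)
  have hc0 : (lc N f₀)⁻¹ ≠ 0 := inv_ne_zero hlc0
  have hcF : algebraMap Qb (modularFunctionFieldBar N) (lc N f₀)⁻¹ ≠ 0 :=
    (map_ne_zero _).mpr hc0
  have hf₁ : algebraMap Qb (modularFunctionFieldBar N) (lc N f₀)⁻¹ * f₀ ≠ 0 :=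
    mul_ne_zero hcF hf₀
  have hlc1 : lc N (algebraMap Qb (modularFunctionFieldBar N) (lc N f₀)⁻¹ * f₀) = 1 := by
    rw [map_mul, lc_algebraMap, inv_mul_cancel₀ hlc0]
  have hD₁ : ∀ P : Place Qb (modularFunctionFieldBar N),
      (m : ℤ) * (D₀ : Divisor Qb (modularFunctionFieldBar N)) P
        = P.ord (algebraMap Qb (modularFunctionFieldBar N) (lc N f₀)⁻¹ * f₀) := by
    intro P
    rw [P.ord_mul hcF hf₀, Fermat.Agent.S24.ord_algebraMap, zero_add, hD₀ P]
  obtain ⟨h, hh0, hh⟩ := exists_poincare I hm _ hf₁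
    (fun τ hτ => exists_transition _ hf₁ hlc1 D₀ hD₁ τ (hI τ hτ))
  exact ⟨(lc N f₀)⁻¹, h, hc0, hh0, hh⟩

/-- **[H90].**  An `m`-torsion class of `J₀(N)` fixed by a subgroup `I` of `Gal(ℚ̄/ℚ)` is the
class of a divisor `D` with `m • D = div f`, where both `f` and `D` are fixed by `I`. -/
theorem exists_invariant_kummer (N : ℕ) [NeZero N] (I : Subgroup (Qb ≃ₐ[ℚ] Qb)) {m : ℕ}
    (hm : m ≠ 0) (x : JZero N) (hmx : m • x = 0) (hx : ∀ τ ∈ I, τ • x = x) :
    ∃ (f : modularFunctionFieldBar N)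
      (D : Divisor.degZero (K := Qb) (F := modularFunctionFieldBar N)),
      f ≠ 0 ∧
      (∀ P : Place Qb (modularFunctionFieldBar N),
        (m : ℤ) * (D : Divisor Qb (modularFunctionFieldBar N)) P = P.ord f) ∧
      Pic0.mk D = x ∧ (∀ τ ∈ I, gal N τ • f = f) ∧
      (∀ τ ∈ I, gal N τ • (D : Divisor Qb (modularFunctionFieldBar N)) = D) := by
  obtain ⟨D₀, f₀, rfl, hf₀, hD₀⟩ :=
    Fermat.Agent.S34.UPlan.exists_div_of_nsmul_eq_zero m x hmx
  obtain ⟨c, h, hc0, hh0, hfix⟩ := exists_invariant_twist I hm f₀ hf₀ D₀ hD₀ hx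
  have hcF : algebraMap Qb (modularFunctionFieldBar N) c ≠ 0 := (map_ne_zero _).mpr hc0
  have hf0 : algebraMap Qb (modularFunctionFieldBar N) c * f₀ * h ^ m ≠ 0 :=
    mul_ne_zero (mul_ne_zero hcF hf₀) (pow_ne_zero m hh0)
  have hordf : ∀ P : Place Qb (modularFunctionFieldBar N),
      P.ord (algebraMap Qb (modularFunctionFieldBar N) c * f₀ * h ^ m)
        = (m : ℤ) * ((D₀ : Divisor Qb (modularFunctionFieldBar N)) P + P.ord h) := by
    intro P
    rw [P.ord_mul (mul_ne_zero hcF hf₀) (pow_ne_zero m hh0), P.ord_mul hcF hf₀,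
      Fermat.Agent.S24.ord_algebraMap, zero_add, Fermat.Agent.S24.ord_pow, ← hD₀ P]
    ring
  obtain ⟨D, hD⟩ := Fermat.Agent.S29.KTheta.exists_rootDiv
    (Fermat.Agent.S29.KTheta.isFF1_bar N) hm hf0 (fun P => ⟨_, hordf P⟩)
  refine ⟨_, D, hf0, hD, ?_, hfix, fun τ hτ => ?_⟩
  · refine Fermat.Agent.S29.KTheta.mk_eq_mk_of_ord hh0 (fun P => ?_)
    have h1 : (m : ℤ) * (D : Divisor Qb (modularFunctionFieldBar N)) P
        = (m : ℤ) * ((D₀ : Divisor Qb (modularFunctionFieldBar N)) P + P.ord h) := by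
      rw [hD P, hordf P]
    exact mul_left_cancel₀ (Nat.cast_ne_zero.mpr hm) h1
  · refine Fermat.Agent.S29.FinLevel.smul_divisor_eq_of_smul_eq _ _ m hm _ (hfix τ hτ)
      (fun v => ?_)
    rw [Finsupp.smul_apply, nsmul_eq_mul]
    exact hD v

/-! ### Coefficients of invariant functions -/

/-- The `q`-expansion coefficients of a function fixed by `I` lie in the fixed field of `I`. -/
theorem coeff_mem_fixedField (I : Subgroup (Qb ≃ₐ[ℚ] Qb)) (f : modularFunctionFieldBar N)
    (hf : ∀ τ ∈ I, gal N τ • f = f) (k : ℤ) :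
    (f : LaurentSeries Qb).coeff k ∈ IntermediateField.fixedField I := by
  rw [IntermediateField.mem_fixedField_iff]
  intro τ hτ
  have h1 := congrArg (fun y : modularFunctionFieldBar N => (y : LaurentSeries Qb).coeff k)
    (hf τ hτ)
  simp only [coe_arithmeticGalois_smul, coeffMap_coeff] at h1
  exact h1

end

end Fermat.Agent.S36.H90
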