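/-
S36 — NormK.lean (helper54): block [NORMK] of the architect's plan (board #3063, under [CORR36]).

Over a base field `K ⊆ ℚ̄` (any intermediate field — e.g. the unramified base of MODEL3) the
`m`-th roots occurring in the norm conditions `ModelFPlan.NormCond` can be taken `K`-rational:

* `mem_FK_of_coeff_mem`     — a function of `F̄_N` all of whose `q`-expansion coefficients lie in
                              `K` lies in `F_K = FK N K` (descent of `S29/RatDescent`);
* `coeff_mem_of_fixed`      — a function fixed by `Gal(ℚ̄/K)` (coefficientwise action) has its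
                              coefficients in `K`;  `mem_FK_of_fixed` — hence lies in `F_K`;
* `gal_smul_eq_of_mem_FK`   — conversely functions of `F_K` are fixed by `Gal(ℚ̄/K)`;
* `exists_root_FK`          — if `y ∈ F_K` and `y = c · h ^ m` in `F̄_N`, then `y = c₁ · h₁ ^ m`
                              with `h₁ ∈ F_K` of leading coefficient `1` and `c₁ ∈ K`
                              (`h₁ = h / lc h`; for `σ` fixing `K`, `σ h₁` and `h₁` have the same
                              `m`-th power and leading coefficient `1`, hence are equal);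
* `alphaNm_mem_FK`, `betaNm_mem_FK` — the two norms of a `K`-rational function are `K`-rational;
* `normCond_FK`             — `NormCond M q m f` for `K`-rational `f`: both roots and both
                              constants can be taken `K`-rational (roots normalised, `lc = 1`);
* `normCond_FK'`            — the same with the roots as elements of `FK M K` (`toBar`).
-/
import Mathlib
import Fermat.Agent.S18.DescCoeff
import Fermat.Agent.S18.Glob
import Fermat.Agent.S29.RatDescent
import Fermat.Agent.S34.SigmaCoe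
import Fermat.Agent.S35.NormRedK
import Fermat.Agent.S36.H90

set_option autoImplicit false

open ModularCurve AlgebraicCurve HahnSeries

namespace Fermat.Agent.S36.NormK

open Fermat.Agent.S18.Arith (Qb FK)
open Fermat.Agent.S34.UPlan (gal)
open Fermat.Agent.S36.H90 (lc lc_apply lc_algebraMap lc_gal)
open Fermat.Agent.S35.ModelFPlan (alphaNm betaNm NormCond)

noncomputable section

/-! ### Coefficients in `K` ⇒ membership in `F_K` -/

section Desc

variable (N : ℕ) (K : IntermediateField ℚ Qb)

/-- The series of coefficients of a Laurent series over `ℚ̄` with coefficients in `K`, as a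
Laurent series over `K`. -/
def pull (x : LaurentSeries Qb) (hc : ∀ n : ℤ, x.coeff n ∈ K) : LaurentSeries K where
  coeff n := ⟨x.coeff n, hc n⟩
  isPWO_support' := by
    refine x.isPWO_support.mono (fun n hn => ?_)
    intro h0
    exact hn (Subtype.ext h0)

theorem coeffMap_pull (x : LaurentSeries Qb) (hc : ∀ n : ℤ, x.coeff n ∈ K) :
    coeffMap (algebraMap K Qb) (pull K x hc) = x := by
  ext n
  rw [coeffMap_coeff]
  rfl

/-- The base change `K((q)) → ℚ̄((q))` maps the `K`-form of the function field into `F_K`. -/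
theorem coeffMap_mem_FK {z : LaurentSeries K}
    (hz : z ∈ laurentBaseChange K (modularFunctionFieldFull N)) :
    coeffMap (algebraMap K Qb) z ∈ FK N K := by
  let S : IntermediateField K (LaurentSeries K) :=
    Subfield.toIntermediateField ((FK N K).comap (coeffMap (algebraMap K Qb))) (by
      intro c
      rw [Subfield.mem_comap, Fermat.Agent.S29.RatDescent.coeffMap_algebraMap]
      have h1 : algebraMap Qb (LaurentSeries Qb) (algebraMap K Qb c)
          = (HahnSeries.C ((c : K) : Qb) : LaurentSeries Qb) := by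
        rw [algebraMap_laurentSeries_eq_single]
        rfl
      rw [h1]
      exact Subfield.subset_closure (Or.inl ⟨c, rfl⟩))
  have hle : laurentBaseChange K (modularFunctionFieldFull N) ≤ S := by
    unfold laurentBaseChange
    rw [IntermediateField.adjoin_le_iff]
    rintro _ ⟨y, hy, rfl⟩
    show coeffMap (algebraMap K Qb) (coeffEmb K y) ∈ FK N K
    rw [Fermat.Agent.S29.RatDescent.coeffMap_coeffEmb]
    exact Subfield.subset_closure (Or.inr ⟨⟨y, hy⟩, rfl⟩)
  exact hle hz

/-- **Descent, coefficient form**: a function of `F̄_N` with all `q`-expansion coefficients in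
`K` lies in `F_K`. -/
theorem mem_FK_of_coeff_mem (x : LaurentSeries Qb) (hx : x ∈ modularFunctionFieldBar N)
    (hc : ∀ n : ℤ, x.coeff n ∈ K) : x ∈ FK N K := by
  have h1 : coeffMap (algebraMap K Qb) (pull K x hc)
      ∈ laurentBaseChange Qb (modularFunctionFieldFull N) := by
    rw [coeffMap_pull]
    exact hx
  have h2 := Fermat.Agent.S29.RatDescent.mem_laurentBaseChange_of_coeffMap_mem
    (algebraMap K Qb) (modularFunctionFieldFull N) h1
  have h3 := coeffMap_mem_FK N K h2
  rwa [coeffMap_pull] at h3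

variable {N}

/-- A function fixed by `Gal(ℚ̄/K)` has its `q`-expansion coefficients in `K`. -/
theorem coeff_mem_of_fixed (x : modularFunctionFieldBar N)
    (hx : ∀ σ : Qb ≃ₐ[ℚ] Qb, (∀ a ∈ K, σ a = a) → gal N σ • x = x) (n : ℤ) :
    (x : LaurentSeries Qb).coeff n ∈ K := by
  have h := Fermat.Agent.S36.H90.coeff_mem_fixedField K.fixingSubgroup x
    (fun σ hσ => hx σ (fun a ha => hσ ⟨a, ha⟩)) n
  have hAC : IsAlgClosure ℚ Qb :=
    ⟨AlgebraicClosure.isAlgClosed ℚ, AlgebraicClosure.isAlgebraic ℚ⟩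
  have hGal : IsGalois ℚ Qb := IsAlgClosure.isGalois ℚ Qb
  rwa [InfiniteGalois.fixedField_fixingSubgroup] at h

/-- **Descent, Galois form**: a function of `F̄_N` fixed by `Gal(ℚ̄/K)` lies in `F_K`. -/
theorem mem_FK_of_fixed (x : modularFunctionFieldBar N)
    (hx : ∀ σ : Qb ≃ₐ[ℚ] Qb, (∀ a ∈ K, σ a = a) → gal N σ • x = x) :
    (x : LaurentSeries Qb) ∈ FK N K :=
  mem_FK_of_coeff_mem N K _ x.2 (coeff_mem_of_fixed K x hx)

/-- Functions of `F_K` are fixed by `Gal(ℚ̄/K)`. -/
theorem gal_smul_eq_of_mem_FK (x : modularFunctionFieldBar N)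
    (hx : (x : LaurentSeries Qb) ∈ FK N K) (σ : Qb ≃ₐ[ℚ] Qb) (hσ : ∀ a ∈ K, σ a = a) :
    gal N σ • x = x := by
  apply Subtype.ext
  rw [coe_arithmeticGalois_smul]
  obtain ⟨y, hy⟩ := Fermat.Agent.S18.DescCoeff.FK_le_fieldRange N K hx
  have hy' : (x : LaurentSeries Qb) = coeffMap (algebraMap K Qb) y := hy.symm
  rw [hy', coeffMap_coeffMap]
  refine coeffMap_congr (RingHom.ext fun c => ?_) y
  exact hσ (c : Qb) c.2

/-- The leading coefficient of a function of `F_K` lies in `K`. -/
theorem lc_mem_of_mem_FK (x : modularFunctionFieldBar N)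
    (hx : (x : LaurentSeries Qb) ∈ FK N K) : lc N x ∈ K := by
  rw [lc_apply, HahnSeries.leadingCoeff_eq]
  exact Fermat.Agent.S18.DescCoeff.coeffStatement N K _ hx _

end Desc

/-! ### `K`-rational roots -/

section Root

variable {N : ℕ} [NeZero N] (K : IntermediateField ℚ Qb)

/-- **[NORMK], generic form.**  If `y ∈ F_K` is a constant times an `m`-th power in `F̄_N`, then
it is a constant OF `K` times the `m`-th power of a function OF `F_K` with leading coefficient
`1`. -/
theorem exists_root_FK {m : ℕ} (hm : m ≠ 0) (y : modularFunctionFieldBar N)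
    (hy : (y : LaurentSeries Qb) ∈ FK N K) (h : modularFunctionFieldBar N) (c : Qb)
    (hh : h ≠ 0) (hc : c ≠ 0)
    (e : y = algebraMap Qb (modularFunctionFieldBar N) c * h ^ m) :
    ∃ (h₁ : modularFunctionFieldBar N) (c₁ : Qb), h₁ ≠ 0 ∧ c₁ ≠ 0 ∧
      (h₁ : LaurentSeries Qb) ∈ FK N K ∧ c₁ ∈ K ∧ lc N h₁ = 1 ∧
      y = algebraMap Qb (modularFunctionFieldBar N) c₁ * h₁ ^ m := by
  have ha0 : lc N h ≠ 0 := fun h0 => hh ((map_eq_zero (lc N)).mp h0)
  have hlc : lc N (h * algebraMap Qb (modularFunctionFieldBar N) (lc N h)⁻¹) = 1 := by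
    rw [map_mul, lc_algebraMap, mul_inv_cancel₀ ha0]
  have hh₁ : h * algebraMap Qb (modularFunctionFieldBar N) (lc N h)⁻¹ ≠ 0 := by
    intro h0
    rw [h0, map_zero] at hlc
    exact zero_ne_one hlc
  have hc₁ : c * lc N h ^ m ≠ 0 := mul_ne_zero hc (pow_ne_zero m ha0)
  have hy' : y = algebraMap Qb (modularFunctionFieldBar N) (c * lc N h ^ m)
      * (h * algebraMap Qb (modularFunctionFieldBar N) (lc N h)⁻¹) ^ m := by
    have hA : algebraMap Qb (modularFunctionFieldBar N) (lc N h) ≠ 0 := fun h0 =>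
      ha0 ((map_eq_zero (algebraMap Qb (modularFunctionFieldBar N))).mp h0)
    rw [e, map_mul, map_pow, map_inv₀, mul_pow, inv_pow]
    field_simp
  have hc₁y : lc N y = c * lc N h ^ m := by
    rw [hy', map_mul, lc_algebraMap, map_pow, hlc, one_pow, mul_one]
  have hc₁K : c * lc N h ^ m ∈ K := by
    rw [← hc₁y]
    exact lc_mem_of_mem_FK K y hy
  have hfix : ∀ σ : Qb ≃ₐ[ℚ] Qb, (∀ a ∈ K, σ a = a) →
      gal N σ • (h * algebraMap Qb (modularFunctionFieldBar N) (lc N h)⁻¹)
        = h * algebraMap Qb (modularFunctionFieldBar N) (lc N h)⁻¹ := by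
    intro σ hσ
    have h1 : gal N σ • y = y := gal_smul_eq_of_mem_FK K y hy σ hσ
    have h2 : gal N σ • y = algebraMap Qb (modularFunctionFieldBar N) (c * lc N h ^ m)
        * (gal N σ • (h * algebraMap Qb (modularFunctionFieldBar N) (lc N h)⁻¹)) ^ m := by
      conv_lhs => rw [hy']
      rw [smul_mul', smul_pow', Fermat.Agent.S36.H90.gal_algebraMap, hσ _ hc₁K]
    have hne : algebraMap Qb (modularFunctionFieldBar N) (c * lc N h ^ m) ≠ 0 := by
      intro h0
      exact hc₁ ((map_eq_zero (algebraMap Qb (modularFunctionFieldBar N))).mp h0)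
    have h3 : (gal N σ • (h * algebraMap Qb (modularFunctionFieldBar N) (lc N h)⁻¹)) ^ m
        = (h * algebraMap Qb (modularFunctionFieldBar N) (lc N h)⁻¹) ^ m := by
      have h4 := h2.symm.trans (h1.trans hy')
      exact mul_left_cancel₀ hne h4
    refine Fermat.Agent.S36.H90.eq_of_pow_eq_pow hm h3 ?_ hlc
    rw [lc_gal, hlc, map_one]
  exact ⟨_, _, hh₁, hc₁, mem_FK_of_fixed K _ hfix, hc₁K, hlc, hy'⟩

end Root

/-! ### The norm conditions over `K` -/

section Norm

variable (M q : ℕ) [NeZero M] [NeZero q] (K : IntermediateField ℚ Qb)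

/-- `N_α` of a `K`-rational function is `K`-rational. -/
theorem alphaNm_mem_FK (f : modularFunctionFieldBar (M * q))
    (hf : (f : LaurentSeries Qb) ∈ FK (M * q) K) :
    ((alphaNm M q f : modularFunctionFieldBar M) : LaurentSeries Qb) ∈ FK M K := by
  refine mem_FK_of_fixed K _ (fun σ hσ => ?_)
  rw [← Fermat.Agent.S35.NormRedK.alphaNm_gal, gal_smul_eq_of_mem_FK K f hf σ hσ]

/-- `N_β` of a `K`-rational function is `K`-rational. -/
theorem betaNm_mem_FK (f : modularFunctionFieldBar (M * q))
    (hf : (f : LaurentSeries Qb) ∈ FK (M * q) K) :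
    ((betaNm M q f : modularFunctionFieldBar M) : LaurentSeries Qb) ∈ FK M K := by
  refine mem_FK_of_fixed K _ (fun σ hσ => ?_)
  rw [← Fermat.Agent.S35.NormRedK.betaNm_gal, gal_smul_eq_of_mem_FK K f hf σ hσ]

/-- **[NORMK].**  For a `K`-rational `f` satisfying the norm conditions, both roots can be taken
in `F_K` with leading coefficient `1`, and both constants in `K`. -/
theorem normCond_FK {m : ℕ} (hm : m ≠ 0) (f : modularFunctionFieldBar (M * q))
    (hf : (f : LaurentSeries Qb) ∈ FK (M * q) K) (hN : NormCond M q m f) :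
    (∃ (h : modularFunctionFieldBar M) (c : Qb), h ≠ 0 ∧ c ≠ 0 ∧
      (h : LaurentSeries Qb) ∈ FK M K ∧ c ∈ K ∧ lc M h = 1 ∧
      alphaNm M q f = algebraMap Qb (modularFunctionFieldBar M) c * h ^ m) ∧
    (∃ (h : modularFunctionFieldBar M) (c : Qb), h ≠ 0 ∧ c ≠ 0 ∧
      (h : LaurentSeries Qb) ∈ FK M K ∧ c ∈ K ∧ lc M h = 1 ∧
      betaNm M q f = algebraMap Qb (modularFunctionFieldBar M) c * h ^ m) := by
  obtain ⟨⟨h, c, hh, hc, e⟩, ⟨h', c', hh', hc', e'⟩⟩ := hN
  exact ⟨exists_root_FK K hm _ (alphaNm_mem_FK M q K f hf) h c hh hc e,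
    exists_root_FK K hm _ (betaNm_mem_FK M q K f hf) h' c' hh' hc' e'⟩

/-- **[NORMK], `F_K`-typed form**: the roots as elements of `FK M K`, the constants as elements
of `K`. -/
theorem normCond_FK' {m : ℕ} (hm : m ≠ 0) (f : modularFunctionFieldBar (M * q))
    (hf : (f : LaurentSeries Qb) ∈ FK (M * q) K) (hN : NormCond M q m f) :
    (∃ (h : FK M K) (c : K), h ≠ 0 ∧ c ≠ 0 ∧
      alphaNm M q f = algebraMap Qb (modularFunctionFieldBar M) (c : Qb)
        * Fermat.Agent.S18.Glob.toBar M K h ^ m) ∧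
    (∃ (h : FK M K) (c : K), h ≠ 0 ∧ c ≠ 0 ∧
      betaNm M q f = algebraMap Qb (modularFunctionFieldBar M) (c : Qb)
        * Fermat.Agent.S18.Glob.toBar M K h ^ m) := by
  obtain ⟨⟨h, c, hh, hc, hhK, hcK, -, e⟩, ⟨h', c', hh', hc', hhK', hcK', -, e'⟩⟩ :=
    normCond_FK M q K hm f hf hN
  refine ⟨⟨Fermat.Agent.S34.SigmaCoe.liftFK M h hhK, ⟨c, hcK⟩,
      Fermat.Agent.S34.SigmaCoe.liftFK_ne_zero M hhK hh, ?_, ?_⟩,
    ⟨Fermat.Agent.S34.SigmaCoe.liftFK M h' hhK', ⟨c', hcK'⟩,
      Fermat.Agent.S34.SigmaCoe.liftFK_ne_zero M hhK' hh', ?_, ?_⟩⟩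
  · intro h0
    exact hc (congrArg Subtype.val h0)
  · rw [Fermat.Agent.S34.SigmaCoe.toBar_liftFK]
    exact e
  · intro h0
    exact hc' (congrArg Subtype.val h0)
  · rw [Fermat.Agent.S34.SigmaCoe.toBar_liftFK]
    exact e'

end Norm

end

end Fermat.Agent.S36.NormK
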