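/-
S36 — NormKMap.lean (helper62): block [NORM3] — the K-LEVEL NORM MAPS OF RECORD at level
`M q²` over level `M q` (`q` prime, `q ∤ M`), obtained by DESCENT of the norms of
`F̄_{M q²} / F̄_{M q}` along the two degeneracy maps (`S35.ModelFPlan.alphaNm`, `betaNm`):

* `nmAlpha M q hq K`, `nmBeta M q hq hqM K : FK (M * q * q) K →*₀ FK (M * q) K`
  with `toBar (nmAlpha x) = alphaNm (M * q) q (toBar x)` (so that the norm conditions of the
  J-side transfer by rewriting), same for `β`;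
* `wK_nmAlpha`, `wK_nmBeta`  : `w_q (N_α x) = N_β (w_{q²} x)`, `w_q (N_β x) = N_α (w_{q²} x)`;
* `coe_nmAlpha_eq`           : `N_α x = x · ∏_{c ≠ 0} ι3^{(c)}(x)` (the family of `S36/Iota3K`);
* `qExpand_coe_nmBeta`       : `(N_β x)(Q^q) = ∏_{i<q} x(ζ^i Q)`;
* `coe_wK_nmBeta_eq`, `qExpand_coe_wK_nmAlpha` : the same two formulas on the other branch;
* `nmAlpha_constK`, `nmBeta_constK` : `N (c) = c ^ q` for constants.
-/
import Mathlib
import Fermat.Agent.S36.NormK
import Fermat.Agent.S36.NormFam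
import Fermat.Agent.S36.WQ2
import Fermat.Agent.S36.Iota3K

set_option autoImplicit false

noncomputable section

namespace Fermat.Agent.S36.NormKMap

open ModularCurve AlgebraicCurve HahnSeries
open Fermat.Agent.S18 Fermat.Agent.S18.Arith Fermat.Agent.S24
open Fermat.Agent.S34
open Fermat.Agent.S35.ModelFPlan (alphaNm betaNm)

variable (M q : ℕ) [NeZero M] [NeZero q]

/-! ### The norms of `0` -/

section Zero

include M in
theorem alphaNm_zero (hq : q.Prime) : alphaNm (M * q) q 0 = 0 := by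
  letI := algebraAlong (heckeAlphaBar Qb (M * q) q)
  have hdeg : Module.finrank ↥(modularFunctionFieldBar (M * q))
      ↥(modularFunctionFieldBar (M * q * q)) = q :=
    NormRot.finrankAlong_heckeAlphaBar_of_dvd (M * q) q hq (dvd_mul_left q M)
  haveI : FiniteDimensional ↥(modularFunctionFieldBar (M * q))
      ↥(modularFunctionFieldBar (M * q * q)) :=
    Module.finite_of_finrank_pos (by rw [hdeg]; exact hq.pos)
  exact Algebra.norm_zero

theorem betaNm_zero (hq : q.Prime) (hqM : ¬ q ∣ M) : betaNm (M * q) q 0 = 0 := by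
  letI := algebraAlong (heckeBetaBar Qb (M * q) q)
  have hdeg : Module.finrank ↥(modularFunctionFieldBar (M * q))
      ↥(modularFunctionFieldBar (M * q * q)) = q :=
    NormRot.finrankAlong_heckeBetaBar_of_pair (M * q) q (WK.wBar M q hq hqM)
      (WQ2.wBar2 M q hq hqM) hq (dvd_mul_left q M) (WQ2.wBar2_alpha M q hq hqM)
  haveI : FiniteDimensional ↥(modularFunctionFieldBar (M * q))
      ↥(modularFunctionFieldBar (M * q * q)) :=
    Module.finite_of_finrank_pos (by rw [hdeg]; exact hq.pos)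
  exact Algebra.norm_zero

end Zero

/-! ### The maps -/

variable (hq : q.Prime) (hqM : ¬ q ∣ M) (K : IntermediateField ℚ Qb)

/-- **The `K`-level norm along `α`**, `F_K(M q²) → F_K(M q)`. -/
def nmAlpha : FK (M * q * q) K →*₀ FK (M * q) K where
  toFun x := ⟨((alphaNm (M * q) q (Glob.toBar (M * q * q) K x) :
      ↥(modularFunctionFieldBar (M * q))) : LaurentSeries Qb),
    NormK.alphaNm_mem_FK (M * q) q K _ x.2⟩
  map_zero' := by
    apply Subtype.ext
    show ((alphaNm (M * q) q (Glob.toBar (M * q * q) K 0) :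
      ↥(modularFunctionFieldBar (M * q))) : LaurentSeries Qb) = 0
    rw [map_zero, alphaNm_zero M q hq]
    rfl
  map_one' := by
    apply Subtype.ext
    show ((alphaNm (M * q) q (Glob.toBar (M * q * q) K 1) :
      ↥(modularFunctionFieldBar (M * q))) : LaurentSeries Qb) = 1
    rw [map_one, Fermat.Agent.S35.NormRedK.alphaNm_one]
    rfl
  map_mul' x y := by
    apply Subtype.ext
    show ((alphaNm (M * q) q (Glob.toBar (M * q * q) K (x * y)) :
      ↥(modularFunctionFieldBar (M * q))) : LaurentSeries Qb)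
      = ((alphaNm (M * q) q (Glob.toBar (M * q * q) K x) :
          ↥(modularFunctionFieldBar (M * q))) : LaurentSeries Qb)
        * ((alphaNm (M * q) q (Glob.toBar (M * q * q) K y) :
          ↥(modularFunctionFieldBar (M * q))) : LaurentSeries Qb)
    rw [map_mul, Fermat.Agent.S35.NormRedK.alphaNm_mul]
    rfl

/-- **The `K`-level norm along `β`**, `F_K(M q²) → F_K(M q)`. -/
def nmBeta : FK (M * q * q) K →*₀ FK (M * q) K where
  toFun x := ⟨((betaNm (M * q) q (Glob.toBar (M * q * q) K x) :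
      ↥(modularFunctionFieldBar (M * q))) : LaurentSeries Qb),
    NormK.betaNm_mem_FK (M * q) q K _ x.2⟩
  map_zero' := by
    apply Subtype.ext
    show ((betaNm (M * q) q (Glob.toBar (M * q * q) K 0) :
      ↥(modularFunctionFieldBar (M * q))) : LaurentSeries Qb) = 0
    rw [map_zero, betaNm_zero M q hq hqM]
    rfl
  map_one' := by
    apply Subtype.ext
    show ((betaNm (M * q) q (Glob.toBar (M * q * q) K 1) :
      ↥(modularFunctionFieldBar (M * q))) : LaurentSeries Qb) = 1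
    rw [map_one, Fermat.Agent.S35.NormRedK.betaNm_one]
    rfl
  map_mul' x y := by
    apply Subtype.ext
    show ((betaNm (M * q) q (Glob.toBar (M * q * q) K (x * y)) :
      ↥(modularFunctionFieldBar (M * q))) : LaurentSeries Qb)
      = ((betaNm (M * q) q (Glob.toBar (M * q * q) K x) :
          ↥(modularFunctionFieldBar (M * q))) : LaurentSeries Qb)
        * ((betaNm (M * q) q (Glob.toBar (M * q * q) K y) :
          ↥(modularFunctionFieldBar (M * q))) : LaurentSeries Qb)
    rw [map_mul, Fermat.Agent.S35.NormRedK.betaNm_mul]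
    rfl

theorem coe_nmAlpha (x : FK (M * q * q) K) :
    ((nmAlpha M q hq K x : FK (M * q) K) : LaurentSeries Qb)
      = ((alphaNm (M * q) q (Glob.toBar (M * q * q) K x) :
          ↥(modularFunctionFieldBar (M * q))) : LaurentSeries Qb) := rfl

theorem coe_nmBeta (x : FK (M * q * q) K) :
    ((nmBeta M q hq hqM K x : FK (M * q) K) : LaurentSeries Qb)
      = ((betaNm (M * q) q (Glob.toBar (M * q * q) K x) :
          ↥(modularFunctionFieldBar (M * q))) : LaurentSeries Qb) := rfl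

/-- `toBar (N_α x) = N_α (toBar x)`. -/
theorem toBar_nmAlpha (x : FK (M * q * q) K) :
    Glob.toBar (M * q) K (nmAlpha M q hq K x)
      = alphaNm (M * q) q (Glob.toBar (M * q * q) K x) :=
  Subtype.ext rfl

/-- `toBar (N_β x) = N_β (toBar x)`. -/
theorem toBar_nmBeta (x : FK (M * q * q) K) :
    Glob.toBar (M * q) K (nmBeta M q hq hqM K x)
      = betaNm (M * q) q (Glob.toBar (M * q * q) K x) :=
  Subtype.ext rfl

/-! ### Atkin–Lehner transport -/

/-- `w_q (N_α x) = N_β (w_{q²} x)`. -/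
theorem wK_nmAlpha (x : FK (M * q * q) K) :
    WK.wK M q hq hqM K (nmAlpha M q hq K x)
      = nmBeta M q hq hqM K (WQ2.wK2 M q hq hqM K x) := by
  apply (Glob.toBar (M * q) K).injective
  rw [WK.toBar_wK, toBar_nmAlpha, toBar_nmBeta, WQ2.toBar_wK2]
  exact NormRot.norm_alpha_of_pair (M * q) q (WK.wBar M q hq hqM) (WQ2.wBar2 M q hq hqM)
    (WQ2.wBar2_alpha M q hq hqM) _

/-- `w_q (N_β x) = N_α (w_{q²} x)`. -/
theorem wK_nmBeta (x : FK (M * q * q) K) :
    WK.wK M q hq hqM K (nmBeta M q hq hqM K x)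
      = nmAlpha M q hq K (WQ2.wK2 M q hq hqM K x) := by
  apply (Glob.toBar (M * q) K).injective
  rw [WK.toBar_wK, toBar_nmAlpha, toBar_nmBeta, WQ2.toBar_wK2]
  exact NormRot.norm_beta_of_pair (M * q) q (WK.wBar M q hq hqM) (WQ2.wBar2 M q hq hqM)
    (WQ2.wBar2_beta M q hq hqM) _

/-! ### Product formulas -/

section Prod

variable (ζ : Qb) (hζ : IsPrimitiveRoot ζ q)

/-- **`N_α x = x · ∏_{c ≠ 0} ι3^{(c)}(x)`** (`q`-expansions; the family of `S36/Iota3K`). -/
theorem coe_nmAlpha_eq (x : FK (M * q * q) K) :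
    ((nmAlpha M q hq K x : FK (M * q) K) : LaurentSeries Qb)
      = (x : LaurentSeries Qb)
        * ∏ c ∈ Finset.univ.erase (0 : Fin q),
            Iota3K.famBar M q hq hqM ζ hζ c (Glob.toBar (M * q * q) K x) :=
  Iota3K.coe_norm_alpha M q hq hqM ζ hζ (Glob.toBar (M * q * q) K x)

include hζ in
/-- **`(N_β x)(Q^q) = ∏_{i<q} x(ζ^i Q)`**. -/
theorem qExpand_coe_nmBeta (hz : ∀ i : ℕ, ζ ^ i ≠ 0) (x : FK (M * q * q) K) :
    qExpand Qb q ((nmBeta M q hq hqM K x : FK (M * q) K) : LaurentSeries Qb)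
      = ∏ i ∈ Finset.range q, rotHom (ζ ^ i) (hz i) (x : LaurentSeries Qb) :=
  NormRot.qExpand_norm_beta_of_pair (M * q) q (WK.wBar M q hq hqM) (WQ2.wBar2 M q hq hqM) hq
    (dvd_mul_left q M) (WQ2.wBar2_alpha M q hq hqM) ζ hζ hz (Glob.toBar (M * q * q) K x)

/-- `w_q (N_β x) = w_{q²} x · ∏_{c ≠ 0} ι3^{(c)}(w_{q²} x)`. -/
theorem coe_wK_nmBeta_eq (x : FK (M * q * q) K) :
    ((WK.wK M q hq hqM K (nmBeta M q hq hqM K x) : FK (M * q) K) : LaurentSeries Qb)
      = ((WQ2.wK2 M q hq hqM K x : FK (M * q * q) K) : LaurentSeries Qb)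
        * ∏ c ∈ Finset.univ.erase (0 : Fin q),
            Iota3K.famBar M q hq hqM ζ hζ c
              (Glob.toBar (M * q * q) K (WQ2.wK2 M q hq hqM K x)) := by
  rw [wK_nmBeta, coe_nmAlpha_eq M q hq hqM K ζ hζ]

include hζ in
/-- `(w_q (N_α x))(Q^q) = ∏_{i<q} (w_{q²} x)(ζ^i Q)`. -/
theorem qExpand_coe_wK_nmAlpha (hz : ∀ i : ℕ, ζ ^ i ≠ 0) (x : FK (M * q * q) K) :
    qExpand Qb q
        ((WK.wK M q hq hqM K (nmAlpha M q hq K x) : FK (M * q) K) : LaurentSeries Qb)
      = ∏ i ∈ Finset.range q, rotHom (ζ ^ i) (hz i)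
          ((WQ2.wK2 M q hq hqM K x : FK (M * q * q) K) : LaurentSeries Qb) := by
  rw [wK_nmAlpha, qExpand_coe_nmBeta M q hq hqM K ζ hζ hz]

end Prod

/-! ### Constants -/

/-- `N_α c = c ^ q` for a constant `c`. -/
theorem nmAlpha_constK (c : K) :
    nmAlpha M q hq K (constK (M * q * q) K c) = constK (M * q) K c ^ q := by
  apply (Glob.toBar (M * q) K).injective
  rw [toBar_nmAlpha, map_pow]
  have e : Glob.toBar (M * q * q) K (constK (M * q * q) K c)
      = heckeAlphaBar Qb (M * q) q (Glob.toBar (M * q) K (constK (M * q) K c)) := by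
    rw [← WQ2.toBar_alphaK2, WQ2.alphaK2_constK]
  rw [e]
  letI := algebraAlong (heckeAlphaBar Qb (M * q) q)
  have hdeg : Module.finrank ↥(modularFunctionFieldBar (M * q))
      ↥(modularFunctionFieldBar (M * q * q)) = q :=
    NormRot.finrankAlong_heckeAlphaBar_of_dvd (M * q) q hq (dvd_mul_left q M)
  have h := Algebra.norm_algebraMap (S := ↥(modularFunctionFieldBar (M * q * q)))
    (Glob.toBar (M * q) K (constK (M * q) K c))
  rw [hdeg] at h
  exact h

/-- `N_β c = c ^ q` for a constant `c`. -/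
theorem nmBeta_constK (c : K) :
    nmBeta M q hq hqM K (constK (M * q * q) K c) = constK (M * q) K c ^ q := by
  apply (Glob.toBar (M * q) K).injective
  rw [toBar_nmBeta, map_pow]
  have e : Glob.toBar (M * q * q) K (constK (M * q * q) K c)
      = heckeBetaBar Qb (M * q) q (Glob.toBar (M * q) K (constK (M * q) K c)) := by
    rw [← WQ2.toBar_betaK2 M q hq hqM, WQ2.betaK2_constK]
  rw [e]
  letI := algebraAlong (heckeBetaBar Qb (M * q) q)
  have hdeg : Module.finrank ↥(modularFunctionFieldBar (M * q))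
      ↥(modularFunctionFieldBar (M * q * q)) = q :=
    NormRot.finrankAlong_heckeBetaBar_of_pair (M * q) q (WK.wBar M q hq hqM)
      (WQ2.wBar2 M q hq hqM) hq (dvd_mul_left q M) (WQ2.wBar2_alpha M q hq hqM)
  have h := Algebra.norm_algebraMap (S := ↥(modularFunctionFieldBar (M * q * q)))
    (Glob.toBar (M * q) K (constK (M * q) K c))
  rw [hdeg] at h
  exact h

/-- `N_α c = c ^ q` for a constant `c` of `O = A ∩ K`. -/
theorem nmAlpha_algebraMap_OK (A : ValuationSubring Qb) (c : OK A K) :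
    nmAlpha M q hq K (algebraMap (OK A K) (FK (M * q * q) K) c)
      = algebraMap (OK A K) (FK (M * q) K) c ^ q :=
  nmAlpha_constK M q hq K (c : K)

/-- `N_β c = c ^ q` for a constant `c` of `O = A ∩ K`. -/
theorem nmBeta_algebraMap_OK (A : ValuationSubring Qb) (c : OK A K) :
    nmBeta M q hq hqM K (algebraMap (OK A K) (FK (M * q * q) K) c)
      = algebraMap (OK A K) (FK (M * q) K) c ^ q :=
  nmBeta_constK M q hq hqM K (c : K)

/-! ### Reductions -/

section Red

variable {A : ValuationSubring Qb} (ζ : Qb) (hζ : IsPrimitiveRoot ζ q)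

/-- **`red_F (N_α x) = r1 · r3 ^ (q - 1)`**: if `x` reduces to `g₁` and every `ι3^{(c)}(x)`,
`c ≠ 0`, reduces to `g₃`, then `N_α x` reduces to `g₁ · g₃ ^ (q - 1)`. -/
theorem gRel_nmAlpha (x : FK (M * q * q) K)
    {g₁ g₃ : LaurentSeries (IsLocalRing.ResidueField A)}
    (h1 : GRel A (x : LaurentSeries Qb) g₁)
    (h3 : ∀ c : Fin q, c ≠ 0 →
      GRel A (Iota3K.famBar M q hq hqM ζ hζ c (Glob.toBar (M * q * q) K x)) g₃) :
    GRel A ((nmAlpha M q hq K x : FK (M * q) K) : LaurentSeries Qb) (g₁ * g₃ ^ (q - 1)) :=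
  Iota3K.gRel_norm_alpha M q hq hqM ζ hζ (Glob.toBar (M * q * q) K x) h1 h3

/-- **`red_F (N_β x) = φ(r1)`**: if `x` reduces to `g` then `N_β x` reduces to the
coefficientwise Frobenius twist of `g`. -/
theorem gRel_nmBeta [Fact q.Prime] [CharP (IsLocalRing.ResidueField A) q]
    (hA : A.LiesOverPrime q) (x : FK (M * q * q) K)
    {g : LaurentSeries (IsLocalRing.ResidueField A)}
    (h : GRel A (x : LaurentSeries Qb) g) :
    GRel A ((nmBeta M q hq hqM K x : FK (M * q) K) : LaurentSeries Qb)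
      (coeffMap (frobenius (IsLocalRing.ResidueField A) q) g) :=
  NormRot.gRel_norm_beta_of_pair (M * q) q (WK.wBar M q hq hqM) (WQ2.wBar2 M q hq hqM)
    (dvd_mul_left q M) (WQ2.wBar2_alpha M q hq hqM) hA (Glob.toBar (M * q * q) K x) h

/-- **`red_V (N_α x) = φ(r2)`**: if `w_{q²} x` reduces to `g` then `w_q (N_α x)` reduces to
the Frobenius twist of `g`. -/
theorem gRel_wK_nmAlpha [Fact q.Prime] [CharP (IsLocalRing.ResidueField A) q]
    (hA : A.LiesOverPrime q) (x : FK (M * q * q) K)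
    {g : LaurentSeries (IsLocalRing.ResidueField A)}
    (h : GRel A ((WQ2.wK2 M q hq hqM K x : FK (M * q * q) K) : LaurentSeries Qb) g) :
    GRel A ((WK.wK M q hq hqM K (nmAlpha M q hq K x) : FK (M * q) K) : LaurentSeries Qb)
      (coeffMap (frobenius (IsLocalRing.ResidueField A) q) g) := by
  rw [wK_nmAlpha]
  exact gRel_nmBeta M q hq hqM K hA _ h

/-- **`red_V (N_β x) = r2 · r3 ^ (q - 1)`**: if `w_{q²} x` reduces to `g₂` and every
`ι3^{(c)}(w_{q²} x)`, `c ≠ 0`, reduces to `g₃`, then `w_q (N_β x)` reduces to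
`g₂ · g₃ ^ (q - 1)`. -/
theorem gRel_wK_nmBeta (x : FK (M * q * q) K)
    {g₂ g₃ : LaurentSeries (IsLocalRing.ResidueField A)}
    (h2 : GRel A ((WQ2.wK2 M q hq hqM K x : FK (M * q * q) K) : LaurentSeries Qb) g₂)
    (h3 : ∀ c : Fin q, c ≠ 0 →
      GRel A (Iota3K.famBar M q hq hqM ζ hζ c
        (Glob.toBar (M * q * q) K (WQ2.wK2 M q hq hqM K x))) g₃) :
    GRel A ((WK.wK M q hq hqM K (nmBeta M q hq hqM K x) : FK (M * q) K) : LaurentSeries Qb)
      (g₂ * g₃ ^ (q - 1)) := by
  rw [wK_nmBeta]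
  exact gRel_nmAlpha M q hq hqM K ζ hζ _ h2 h3

end Red

end Fermat.Agent.S36.NormKMap
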