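/-
S36 — W3Sym.lean (helper80; package [MODEL3] / [NORM3]).  The middle component `W3` of the model
at level `(M q) q` is STABLE under the Atkin–Lehner involution `w_{q²}`, and `w_{q²}` acts
trivially on its residue field.

`ι3^ξ : F_K(M q²) → ℚ̄((Q))` is the middle-cusp embedding of `S36/Iota3` (identity on
`α(F_K(M q))`, `j(Q^{q²}) ↦ j(ξ Q)`), `w = WQ2.wK2` the involution `w_{q²}` of `S36/WQ2`.

* `incl_eq_alphaK2`, `betaQ_eq_betaK2`, `jq2K_eq_jqqK2` : the dictionary between the names of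
  `S36/Iota3` and of `S36/WQ2`;
* `iota3_alphaK2`, `iota3_betaK2`, `iota3_jqqK2`, `iota3_jK` : `ι3` in the `WQ2` vocabulary;
* **`iota3_wK2`** : `ι3^ξ (w x) = (Q ↦ ξ Q) (ι3^{ξ'} x)` for `ξ ξ' = 1`
  (`rot_{ξ⁻¹} ∘ ι3^ξ ∘ w_{q²} = ι3^{ξ⁻¹}`);
* `gRel_iota3_wK2`, `gRel_iota3_wK2_iff` : Gauss relations along `ι3^ξ` are invariant under
  `w_{q²}`, WITH THE SAME REDUCTION (`A` over `q`, `K` fixed pointwise by the inertia group of
  `A`; uses the independence of the Gauss reduction from the primitive root, `S36/InertRot`, and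
  `Wit3Xi.gRel_rot`);
* `exists_gRel_iota3_wK2_iff` : `w x ∈ W3 ↔ x ∈ W3` in the membership form of `GaussE.V`;
* `wK2_mem_iff`, `comap_wK2_eq` : the same for any valuation subring `W` whose membership is
  Gauss-integrality along `ι3^ξ`;
* `wK2_congr`, `wK2_congr_const` : `x ≡ c` modulo `π W3` ⇒ `w x ≡ c` modulo `π W3`.
-/
import Mathlib
import Fermat.Agent.S36.Iota3
import Fermat.Agent.S36.WQ2
import Fermat.Agent.S36.Wit3Xi
import Fermat.Agent.S36.InertRot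

set_option autoImplicit false
set_option linter.style.haveILetI false

noncomputable section

namespace Fermat.Agent.S36.W3Sym

open ModularCurve AlgebraicCurve HahnSeries
open Fermat.Agent.S18 Fermat.Agent.S18.Arith Fermat.Agent.S24
open Fermat.Agent.S34 Fermat.Agent.S34.ConjMod

set_option synthInstance.maxHeartbeats 400000

variable (M q : ℕ) [NeZero M] [NeZero q] (K : IntermediateField ℚ Qb)

/-! ### Dictionary `Iota3` ↔ `WQ2` -/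

/-- The inclusion of `S34/DegTower` is `α` of `S36/WQ2`. -/
theorem incl_eq_alphaK2 (x : FK (M * q) K) :
    DegTower.incl (M * q) ((M * q) * q) K (Dvd.intro q rfl) x = WQ2.alphaK2 M q K x := by
  apply Subtype.ext
  rw [DegTower.coe_incl, WQ2.coe_alphaK2]

variable (hq : q.Prime) (hqM : ¬ q ∣ M)

/-- `β` of `S36/Iota3` is `β` of `S36/WQ2`. -/
theorem betaQ_eq_betaK2 (x : FK (M * q) K) :
    Iota3.betaQ (M * q) K q x = WQ2.betaK2 M q hq hqM K x := by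
  apply Subtype.ext
  rw [Iota3.coe_betaQ, WQ2.coe_betaK2]

/-- `j_{q²}` of `S36/Iota3` is `j_{q²}` of `S36/WQ2`. -/
theorem jq2K_eq_jqqK2 : Iota3.jq2K M q K = WQ2.jqqK2 M q hq hqM K := by
  apply Subtype.ext
  have e : coeffEmb Qb jq = S28.jd Qb 1 := S18.ModelBasicCore.coe_jK (M * q) K
  rw [Iota3.coe_jq2K, WQ2.coe_jqqK2, e, S28.qExpand_jd, S28.qExpand_jd, mul_one]

/-! ### `ι3` in the `WQ2` vocabulary -/

variable (ξ : Qb) (hξ : ξ ^ q = 1) (hξ1 : ξ ≠ 1)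

/-- `ι3 ∘ α = id` (coefficientwise). -/
theorem iota3_alphaK2 (x : FK (M * q) K) :
    Iota3.iota3 M q K hq hqM ξ hξ hξ1 (WQ2.alphaK2 M q K x) = (x : LaurentSeries Qb) := by
  rw [← incl_eq_alphaK2, Iota3.iota3_incl]

/-- `ι3 ∘ β = (Q ↦ ξ Q) ∘ w_q`. -/
theorem iota3_betaK2 (x : FK (M * q) K) :
    Iota3.iota3 M q K hq hqM ξ hξ hξ1 (WQ2.betaK2 M q hq hqM K x)
      = rotHom ξ (Iota3.xi_ne_zero q hξ)
          ((S34.WK.wK M q hq hqM K x : FK (M * q) K) : LaurentSeries Qb) := by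
  rw [← betaQ_eq_betaK2 M q K hq hqM,
    Iota3.iota3_betaQ M q K (S34.WK.wBar M q hq hqM : _ →ₐ[Qb] _)
      (fun y => S34.WK.wBar_alpha M q hq hqM y) (fun y => S34.WK.wBar_beta M q hq hqM y)
      hq hqM ξ hξ hξ1 x]
  rfl

/-- `ι3 (j_{q²}) = j(ξ Q)`. -/
theorem iota3_jqqK2 :
    Iota3.iota3 M q K hq hqM ξ hξ hξ1 (WQ2.jqqK2 M q hq hqM K)
      = rotHom ξ (Iota3.xi_ne_zero q hξ) (coeffEmb Qb jq) := by
  rw [← jq2K_eq_jqqK2 M q K hq hqM, Iota3.iota3_jq2K]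

/-- `ι3 (j) = j(Q)`. -/
theorem iota3_jK :
    Iota3.iota3 M q K hq hqM ξ hξ hξ1 (jK ((M * q) * q) K) = coeffEmb Qb jq := by
  rw [← WQ2.alphaK2_jK M q K, iota3_alphaK2]
  rfl

/-! ### `ι3 ∘ w_{q²}` -/

/-- **(B1)** `ι3^ξ ∘ w_{q²} = (Q ↦ ξ Q) ∘ ι3^{ξ'}` for `ξ ξ' = 1`. -/
theorem iota3_wK2 (ξ' : Qb) (hξ' : ξ' ^ q = 1) (hξ1' : ξ' ≠ 1) (hmul : ξ * ξ' = 1)
    (x : FK ((M * q) * q) K) :
    Iota3.iota3 M q K hq hqM ξ hξ hξ1 (WQ2.wK2 M q hq hqM K x)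
      = rotHom ξ (Iota3.xi_ne_zero q hξ) (Iota3.iota3 M q K hq hqM ξ' hξ' hξ1' x) := by
  have h := Iota3.ringHom_ext_E2 M q K hq hqM
    ((Iota3.iota3 M q K hq hqM ξ hξ hξ1).comp
      ((WQ2.wK2 M q hq hqM K : FK (M * q * q) K ≃+* FK (M * q * q) K) :
        FK (M * q * q) K →+* FK (M * q * q) K))
    (((rotHom ξ (Iota3.xi_ne_zero q hξ)).toRingHom).comp
      (Iota3.iota3 M q K hq hqM ξ' hξ' hξ1')) (fun y => ?_) ?_
  · exact congrArg (fun g : FK ((M * q) * q) K →+* LaurentSeries Qb => g x) h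
  · show Iota3.iota3 M q K hq hqM ξ hξ hξ1 (WQ2.wK2 M q hq hqM K
        (DegTower.incl (M * q) ((M * q) * q) K (Dvd.intro q rfl) y))
      = rotHom ξ (Iota3.xi_ne_zero q hξ) (Iota3.iota3 M q K hq hqM ξ' hξ' hξ1'
        (DegTower.incl (M * q) ((M * q) * q) K (Dvd.intro q rfl) y))
    rw [Iota3.iota3_incl, incl_eq_alphaK2, WQ2.wK2_alphaK2, iota3_betaK2, S34.WK.wK_wK]
  · show Iota3.iota3 M q K hq hqM ξ hξ hξ1 (WQ2.wK2 M q hq hqM K (Iota3.jq2K M q K))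
      = rotHom ξ (Iota3.xi_ne_zero q hξ) (Iota3.iota3 M q K hq hqM ξ' hξ' hξ1'
        (Iota3.jq2K M q K))
    have key : ∀ (a : Qb) (ha : a ≠ 0) (f : LaurentSeries Qb), a = 1 → rotHom a ha f = f := by
      intro a ha f h
      subst h
      exact rotHom_one f
    rw [Iota3.iota3_jq2K, jq2K_eq_jqqK2 M q K hq hqM, WQ2.wK2_jqqK2, iota3_jK,
      rotHom_rotHom, key _ _ _ hmul]

/-! ### Gauss relations along `ι3` are `w_{q²}`-invariant -/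

section GRel

variable (A : ValuationSubring Qb)

/-- **(B2)** If `ι3^ξ x` is Gauss-integral with reduction `r`, so is `ι3^ξ (w_{q²} x)`, with
the SAME reduction (`K` fixed pointwise by the inertia group of `A`, `A` over `q`). -/
theorem gRel_iota3_wK2 (hA : A.LiesOverPrime q)
    (hK : ∀ σ ∈ A.inertiaSubgroupIn ℚ, ∀ a ∈ K, σ a = a)
    {ξ : Qb} (hξp : IsPrimitiveRoot ξ q) (hξ : ξ ^ q = 1) (hξ1 : ξ ≠ 1)
    (x : FK ((M * q) * q) K) {r : LaurentSeries (IsLocalRing.ResidueField A)}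
    (h : GRel A (Iota3.iota3 M q K hq hqM ξ hξ hξ1 x) r) :
    GRel A (Iota3.iota3 M q K hq hqM ξ hξ hξ1 (WQ2.wK2 M q hq hqM K x)) r := by
  haveI : Fact q.Prime := ⟨hq⟩
  have hinvp : IsPrimitiveRoot ξ⁻¹ q := hξp.inv
  have hinvq : ξ⁻¹ ^ q = 1 := by rw [inv_pow, hξ, inv_one]
  have hinv1 : ξ⁻¹ ≠ 1 := fun h => hξ1 (inv_eq_one.mp h)
  have hmul : ξ * ξ⁻¹ = 1 := mul_inv_cancel₀ (Iota3.xi_ne_zero q hξ)
  rw [iota3_wK2 M q K hq hqM ξ hξ hξ1 ξ⁻¹ hinvq hinv1 hmul x]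
  exact Wit3Xi.gRel_rot A q hA hξp _
    (InertRot.gRel_iota3_of_isPrimitiveRoot M q K hq hqM A hA hK hξp hinvp hξ hξ1 hinvq hinv1 x h)

/-- **(B2)**, iff form: Gauss relations along `ι3^ξ` are invariant under `w_{q²}`. -/
theorem gRel_iota3_wK2_iff (hA : A.LiesOverPrime q)
    (hK : ∀ σ ∈ A.inertiaSubgroupIn ℚ, ∀ a ∈ K, σ a = a)
    {ξ : Qb} (hξp : IsPrimitiveRoot ξ q) (hξ : ξ ^ q = 1) (hξ1 : ξ ≠ 1)
    (x : FK ((M * q) * q) K) (r : LaurentSeries (IsLocalRing.ResidueField A)) :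
    GRel A (Iota3.iota3 M q K hq hqM ξ hξ hξ1 (WQ2.wK2 M q hq hqM K x)) r
      ↔ GRel A (Iota3.iota3 M q K hq hqM ξ hξ hξ1 x) r := by
  refine ⟨fun h => ?_, gRel_iota3_wK2 M q K hq hqM A hA hK hξp hξ hξ1 x⟩
  have h' := gRel_iota3_wK2 M q K hq hqM A hA hK hξp hξ hξ1 (WQ2.wK2 M q hq hqM K x) h
  rwa [WQ2.wK2_wK2] at h'

/-- `w_{q²} x ∈ W3 ↔ x ∈ W3`, in the membership form of `GaussE.V` along `ι3^ξ`. -/
theorem exists_gRel_iota3_wK2_iff (hA : A.LiesOverPrime q)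
    (hK : ∀ σ ∈ A.inertiaSubgroupIn ℚ, ∀ a ∈ K, σ a = a)
    {ξ : Qb} (hξp : IsPrimitiveRoot ξ q) (hξ : ξ ^ q = 1) (hξ1 : ξ ≠ 1)
    (x : FK ((M * q) * q) K) :
    (∃ r, GRel A (Iota3.iota3 M q K hq hqM ξ hξ hξ1 (WQ2.wK2 M q hq hqM K x)) r)
      ↔ ∃ r, GRel A (Iota3.iota3 M q K hq hqM ξ hξ hξ1 x) r :=
  exists_congr fun r => gRel_iota3_wK2_iff M q K hq hqM A hA hK hξp hξ hξ1 x r

/-! ### Consequences for a valuation subring `W3` with the Gauss membership -/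

/-- For ANY valuation subring `W` of `F_K(M q²)` whose membership is Gauss-integrality along
`ι3^ξ` (e.g. `GaussE.V` along `ι3^ξ`: `GaussE.mem_V_iff` is `Iff.rfl`): `w_{q²} x ∈ W ↔ x ∈ W`. -/
theorem wK2_mem_iff (hA : A.LiesOverPrime q)
    (hK : ∀ σ ∈ A.inertiaSubgroupIn ℚ, ∀ a ∈ K, σ a = a)
    {ξ : Qb} (hξp : IsPrimitiveRoot ξ q) (hξ : ξ ^ q = 1) (hξ1 : ξ ≠ 1)
    (W : ValuationSubring (FK ((M * q) * q) K))
    (hW : ∀ x, x ∈ W ↔ ∃ r, GRel A (Iota3.iota3 M q K hq hqM ξ hξ hξ1 x) r)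
    (x : FK ((M * q) * q) K) :
    WQ2.wK2 M q hq hqM K x ∈ W ↔ x ∈ W := by
  rw [hW, hW]
  exact exists_gRel_iota3_wK2_iff M q K hq hqM A hA hK hξp hξ hξ1 x

/-- `W3 ∘ w_{q²} = W3` as valuation subrings. -/
theorem comap_wK2_eq (hA : A.LiesOverPrime q)
    (hK : ∀ σ ∈ A.inertiaSubgroupIn ℚ, ∀ a ∈ K, σ a = a)
    {ξ : Qb} (hξp : IsPrimitiveRoot ξ q) (hξ : ξ ^ q = 1) (hξ1 : ξ ≠ 1)
    (W : ValuationSubring (FK ((M * q) * q) K))
    (hW : ∀ x, x ∈ W ↔ ∃ r, GRel A (Iota3.iota3 M q K hq hqM ξ hξ hξ1 x) r) :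
    W.comap ((WQ2.wK2 M q hq hqM K : FK (M * q * q) K ≃+* FK (M * q * q) K) :
      FK (M * q * q) K →+* FK (M * q * q) K) = W := by
  ext x
  rw [ValuationSubring.mem_comap]
  exact wK2_mem_iff M q K hq hqM A hA hK hξp hξ hξ1 W hW x

/-- Congruences modulo `p · W3` are `w_{q²}`-invariant, for `w_{q²}`-fixed modulus `p` and
`w_{q²}`-fixed right-hand side `a` (e.g. `p = π`, `a` a constant of `O`):
`x ≡ a (p W3) ⇒ w x ≡ a (p W3)`. -/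
theorem wK2_congr (hA : A.LiesOverPrime q)
    (hK : ∀ σ ∈ A.inertiaSubgroupIn ℚ, ∀ a ∈ K, σ a = a)
    {ξ : Qb} (hξp : IsPrimitiveRoot ξ q) (hξ : ξ ^ q = 1) (hξ1 : ξ ≠ 1)
    (W : ValuationSubring (FK ((M * q) * q) K))
    (hW : ∀ x, x ∈ W ↔ ∃ r, GRel A (Iota3.iota3 M q K hq hqM ξ hξ hξ1 x) r)
    (p a : FK ((M * q) * q) K) (hp : WQ2.wK2 M q hq hqM K p = p)
    (ha : WQ2.wK2 M q hq hqM K a = a) (x : FK ((M * q) * q) K)
    (h : ∃ z ∈ W, x - a = p * z) :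
    ∃ z ∈ W, WQ2.wK2 M q hq hqM K x - a = p * z := by
  obtain ⟨z, hz, hxz⟩ := h
  refine ⟨WQ2.wK2 M q hq hqM K z,
    (wK2_mem_iff M q K hq hqM A hA hK hξp hξ hξ1 W hW z).mpr hz, ?_⟩
  have := congrArg (WQ2.wK2 M q hq hqM K) hxz
  rwa [map_sub, map_mul, hp, ha] at this

/-- The same for constants of `O = A ∩ K`: `x ≡ c (π W3) ⇒ w x ≡ c (π W3)`. -/
theorem wK2_congr_const (hA : A.LiesOverPrime q)
    (hK : ∀ σ ∈ A.inertiaSubgroupIn ℚ, ∀ a ∈ K, σ a = a)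
    {ξ : Qb} (hξp : IsPrimitiveRoot ξ q) (hξ : ξ ^ q = 1) (hξ1 : ξ ≠ 1)
    (W : ValuationSubring (FK ((M * q) * q) K))
    (hW : ∀ x, x ∈ W ↔ ∃ r, GRel A (Iota3.iota3 M q K hq hqM ξ hξ hξ1 x) r)
    (π c : OK A K) (x : FK ((M * q) * q) K)
    (h : ∃ z ∈ W, x - algebraMap (OK A K) (FK ((M * q) * q) K) c
      = algebraMap (OK A K) (FK ((M * q) * q) K) π * z) :
    ∃ z ∈ W, WQ2.wK2 M q hq hqM K x - algebraMap (OK A K) (FK ((M * q) * q) K) c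
      = algebraMap (OK A K) (FK ((M * q) * q) K) π * z :=
  wK2_congr M q K hq hqM A hA hK hξp hξ hξ1 W hW _ _
    (WQ2.wK2_algebraMap_OK M q hq hqM K A π) (WQ2.wK2_algebraMap_OK M q hq hqM K A c) x h

end GRel

end Fermat.Agent.S36.W3Sym
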