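/-
S36 — Corr3NVInst.lean (helper31): the norm binders of `Corr3.exists_corr` /
`Corr3NVal.exists_corr_nv` at the `K`-level norm maps OF RECORD
`Nα := NormKMap.nmAlpha M q hq K`, `Nβ := NormKMap.nmBeta M q hq hqM K` (helper62), for the five
reductions of record (`Corr3Red.redOf`):

  `r₁ = redOf A subtype`, `r₂ = redOf A (subtype ∘ wK2)`, `r₃ = redOf A (ι3^ξ)` on `F_K(M q²)`,
  `r₁' = redOf A subtype`, `r₂' = redOf A (subtype ∘ wK)` on `F_K(M q)`,

`Φ = coeffMap (frobenius k q)`.  HYPOTHESIS-FREE apart from the standing data: `A` over `q`, `K`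
fixed pointwise by the inertia group of `A`, `ξ` a primitive `q`-th root of unity.

* `iota3_top`, `famBar_toBar` : the `F̄ ↔ K` bridge `famBar c (toBar x) = emb3 K c x`;
* `coe_nmAlpha_emb3`          : `↑(nmAlpha x) = ∏_c emb3 c x`  (= `hP1` of `S36/Corr3NV`);
* `gRel_alpha1`, `gRel_alpha2`, `gRel_beta1`, `gRel_beta2` : the four residue rules, `GRel` form;
* `hRα1`, `hRα2`, `hRβ1`, `hRβ2` : the same as the binders of `exists_corr_nv`, VERBATIM;
* `hNαπ`, `hNβπ`              : `Nα π = π' ^ q`, `Nβ π = π' ^ q`;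
* `hs₁`, `hs₂`, `hNαs`, `hNβs` : the four facts on the uniformiser `s = jqq − j` of `W3`
                                (from `S36/Corr3S`, `S36/Corr3SN`);
* `hNV`                       : the norm–valuation rule `hNV` of `Corr3.exists_corr`, verbatim.
-/
import Mathlib
import Fermat.Agent.S36.NormKMap
import Fermat.Agent.S36.W3Sym
import Fermat.Agent.S36.Corr3NV
import Fermat.Agent.S36.Corr3NVal
import Fermat.Agent.S36.Corr3S
import Fermat.Agent.S36.Corr3SN

set_option autoImplicit false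

noncomputable section

namespace Fermat.Agent.S36.Corr3NVInst

open ModularCurve AlgebraicCurve HahnSeries
open Fermat.Agent.S18 Fermat.Agent.S18.Arith Fermat.Agent.S18.ModelPlan Fermat.Agent.S34
open Fermat.Agent.S36.Corr3Red

variable (M q : ℕ) [NeZero M] [NeZero q] (K : IntermediateField ℚ Qb)
variable (hq : q.Prime) (hqM : ¬ q ∣ M)

/-! ### The `F̄ ↔ K` bridge -/

/-- The middle-cusp expansion at the top field restricts to the one at `K`. -/
theorem iota3_top (ξ : Qb) (hξ : ξ ^ q = 1) (hξ1 : ξ ≠ 1) (x : FK ((M * q) * q) K) :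
    Iota3.iota3 M q (⊤ : IntermediateField ℚ Qb) hq hqM ξ hξ hξ1
        (Iota3.barToTop (M * q * q) (Glob.toBar (M * q * q) K x))
      = Iota3.iota3 M q K hq hqM ξ hξ hξ1 x := by
  have key : ((Iota3.iota3 M q (⊤ : IntermediateField ℚ Qb) hq hqM ξ hξ hξ1).comp
      ((Iota3.barToTop (M * q * q)).comp (Glob.toBar (M * q * q) K)))
      = Iota3.iota3 M q K hq hqM ξ hξ hξ1 := by
    refine Iota3.ringHom_ext_E2 M q K hq hqM _ _ ?_ ?_
    · intro y
      have e : Iota3.barToTop (M * q * q) (Glob.toBar (M * q * q) K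
          (DegTower.incl (M * q) ((M * q) * q) K (Dvd.intro q rfl) y))
          = DegTower.incl (M * q) ((M * q) * q) (⊤ : IntermediateField ℚ Qb) (Dvd.intro q rfl)
            (Iota3.barToTop (M * q) (Glob.toBar (M * q) K y)) := by
        apply Subtype.ext
        rw [Iota3.coe_barToTop, Glob.coe_toBar, DegTower.coe_incl, DegTower.coe_incl,
          Iota3.coe_barToTop, Glob.coe_toBar]
      show Iota3.iota3 M q (⊤ : IntermediateField ℚ Qb) hq hqM ξ hξ hξ1
          (Iota3.barToTop (M * q * q) (Glob.toBar (M * q * q) K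
            (DegTower.incl (M * q) ((M * q) * q) K (Dvd.intro q rfl) y))) = _
      rw [e, Iota3.iota3_incl, Iota3.iota3_incl, Iota3.coe_barToTop, Glob.coe_toBar]
    · have e : Iota3.barToTop (M * q * q) (Glob.toBar (M * q * q) K (Iota3.jq2K M q K))
          = Iota3.jq2K M q (⊤ : IntermediateField ℚ Qb) := by
        apply Subtype.ext
        rw [Iota3.coe_barToTop, Glob.coe_toBar, Iota3.coe_jq2K, Iota3.coe_jq2K]
      show Iota3.iota3 M q (⊤ : IntermediateField ℚ Qb) hq hqM ξ hξ hξ1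
          (Iota3.barToTop (M * q * q) (Glob.toBar (M * q * q) K (Iota3.jq2K M q K))) = _
      rw [e, Iota3.iota3_jq2K, Iota3.iota3_jq2K]
  exact congrArg (fun g : FK ((M * q) * q) K →+* LaurentSeries Qb => g x) key

/-- **The bridge**: the `ℚ̄`-level family evaluated on `F_K` is the `K`-level family. -/
theorem famBar_toBar (ζ : Qb) (hζ : IsPrimitiveRoot ζ q) (c : Fin q) (x : FK ((M * q) * q) K) :
    Iota3K.famBar M q hq hqM ζ hζ c (Glob.toBar (M * q * q) K x)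
      = Iota3K.emb3 M q K hq hqM ζ hζ c x := by
  by_cases h : (c : ℕ) = 0
  · rw [Iota3K.famBar_of_eq M q hq hqM ζ hζ c h, Iota3K.emb3_of_eq M q K hq hqM ζ hζ c h,
      Glob.coe_toBar]
  · rw [Iota3K.famBar_of_ne M q hq hqM ζ hζ c h, Iota3K.emb3_of_ne M q K hq hqM ζ hζ c h]
    exact iota3_top M q K hq hqM _ _ _ x

/-- **`hP1`** for the norm map of record: `↑(nmAlpha x) = ∏_c emb3 c x`. -/
theorem coe_nmAlpha_emb3 (ζ : Qb) (hζ : IsPrimitiveRoot ζ q) (x : FK ((M * q) * q) K) :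
    ((NormKMap.nmAlpha M q hq K x : FK (M * q) K) : LaurentSeries Qb)
      = ∏ c : Fin q, Iota3K.emb3 M q K hq hqM ζ hζ c x := by
  rw [NormKMap.coe_nmAlpha_eq M q hq hqM K ζ hζ x,
    ← Finset.mul_prod_erase Finset.univ _ (Finset.mem_univ (0 : Fin q)),
    Iota3K.emb3_of_eq M q K hq hqM ζ hζ 0 (Fin.val_zero q)]
  congr 1
  exact Finset.prod_congr rfl fun c _ => famBar_toBar M q K hq hqM ζ hζ c x

/-! ### The four residue rules, `GRel` form -/

section Rules

variable (A : ValuationSubring Qb)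

/-- **(hRα1)**, `GRel` form. -/
theorem gRel_alpha1 (hA : A.LiesOverPrime q)
    (hK : ∀ σ ∈ A.inertiaSubgroupIn ℚ, ∀ a ∈ K, σ a = a)
    {ξ : Qb} (hξ : IsPrimitiveRoot ξ q) (hξq : ξ ^ q = 1) (hξ1 : ξ ≠ 1)
    (x : FK ((M * q) * q) K) {y₁ y₃ : LaurentSeries (IsLocalRing.ResidueField A)}
    (h1 : GRel A ((x : FK ((M * q) * q) K) : LaurentSeries Qb) y₁)
    (h3 : GRel A (Iota3.iota3 M q K hq hqM ξ hξq hξ1 x) y₃) :
    GRel A ((NormKMap.nmAlpha M q hq K x : FK (M * q) K) : LaurentSeries Qb)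
      (y₁ * y₃ ^ (q - 1)) :=
  Corr3NV.rule_alpha1 M q K hq hqM A (NormKMap.nmAlpha M q hq K) hA hK hξ hξq hξ1 hξ
    (coe_nmAlpha_emb3 M q K hq hqM ξ hξ) x h1 h3

/-- **(hRβ2)**, `GRel` form. -/
theorem gRel_beta2 (hA : A.LiesOverPrime q)
    (hK : ∀ σ ∈ A.inertiaSubgroupIn ℚ, ∀ a ∈ K, σ a = a)
    {ξ : Qb} (hξ : IsPrimitiveRoot ξ q) (hξq : ξ ^ q = 1) (hξ1 : ξ ≠ 1)
    (x : FK ((M * q) * q) K) {y₂ y₃ : LaurentSeries (IsLocalRing.ResidueField A)}
    (h2 : GRel A ((WQ2.wK2 M q hq hqM K x : FK ((M * q) * q) K) : LaurentSeries Qb) y₂)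
    (h3 : GRel A (Iota3.iota3 M q K hq hqM ξ hξq hξ1 x) y₃) :
    GRel A ((WK.wK M q hq hqM K (NormKMap.nmBeta M q hq hqM K x) : FK (M * q) K) :
      LaurentSeries Qb) (y₂ * y₃ ^ (q - 1)) :=
  Corr3NV.rule_beta2 M q K hq hqM A (NormKMap.nmAlpha M q hq K) (NormKMap.nmBeta M q hq hqM K)
    hA hK hξ hξq hξ1 hξ (coe_nmAlpha_emb3 M q K hq hqM ξ hξ)
    (NormKMap.wK_nmBeta M q hq hqM K)
    (fun x _ h => W3Sym.gRel_iota3_wK2 M q K hq hqM A hA hK hξ hξq hξ1 x h) x h2 h3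

variable [Fact q.Prime] [CharP (IsLocalRing.ResidueField A) q]

/-- **(hRβ1)**, `GRel` form. -/
theorem gRel_beta1 (hA : A.LiesOverPrime q)
    (x : FK ((M * q) * q) K) {y₁ : LaurentSeries (IsLocalRing.ResidueField A)}
    (h1 : GRel A ((x : FK ((M * q) * q) K) : LaurentSeries Qb) y₁) :
    GRel A ((NormKMap.nmBeta M q hq hqM K x : FK (M * q) K) : LaurentSeries Qb)
      (coeffMap (frobenius (IsLocalRing.ResidueField A) q) y₁) :=
  NormKMap.gRel_nmBeta M q hq hqM K hA x h1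

/-- **(hRα2)**, `GRel` form. -/
theorem gRel_alpha2 (hA : A.LiesOverPrime q)
    (x : FK ((M * q) * q) K) {y₂ : LaurentSeries (IsLocalRing.ResidueField A)}
    (h2 : GRel A ((WQ2.wK2 M q hq hqM K x : FK ((M * q) * q) K) : LaurentSeries Qb) y₂) :
    GRel A ((WK.wK M q hq hqM K (NormKMap.nmAlpha M q hq K x) : FK (M * q) K) :
      LaurentSeries Qb) (coeffMap (frobenius (IsLocalRing.ResidueField A) q) y₂) :=
  NormKMap.gRel_wK_nmAlpha M q hq hqM K hA x h2

end Rules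

/-! ### The binders of `Corr3NVal.exists_corr_nv`, verbatim -/

section Binders

variable (A : ValuationSubring Qb)

/-- **`hRα1`** of `Corr3.exists_corr`. -/
theorem hRα1 (hA : A.LiesOverPrime q)
    (hK : ∀ σ ∈ A.inertiaSubgroupIn ℚ, ∀ a ∈ K, σ a = a)
    {ξ : Qb} (hξ : IsPrimitiveRoot ξ q) (hξq : ξ ^ q = 1) (hξ1 : ξ ≠ 1) :
    ∀ (x : FK (M * q * q) K) (y₁ y₃ : LaurentSeries (IsLocalRing.ResidueField A)),
      y₁ ≠ 0 → y₃ ≠ 0 → (redOf A (FK (M * q * q) K).subtype).rel x y₁ →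
      (redOf A (Iota3.iota3 M q K hq hqM ξ hξq hξ1)).rel x y₃ →
      (redOf A (FK (M * q) K).subtype).rel (NormKMap.nmAlpha M q hq K x)
        (y₁ * y₃ ^ (q - 1)) :=
  fun x _ _ _ _ h1 h3 => gRel_alpha1 M q K hq hqM A hA hK hξ hξq hξ1 x h1 h3

/-- **`hRβ2`** of `Corr3NVal.exists_corr_nv`. -/
theorem hRβ2 (hA : A.LiesOverPrime q)
    (hK : ∀ σ ∈ A.inertiaSubgroupIn ℚ, ∀ a ∈ K, σ a = a)
    {ξ : Qb} (hξ : IsPrimitiveRoot ξ q) (hξq : ξ ^ q = 1) (hξ1 : ξ ≠ 1) :
    ∀ (x : FK (M * q * q) K) (y₂ y₃ : LaurentSeries (IsLocalRing.ResidueField A)),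
      y₂ ≠ 0 → y₃ ≠ 0 →
      (redOf A ((FK (M * q * q) K).subtype.comp
        (WQ2.wK2 M q hq hqM K : FK (M * q * q) K →+* FK (M * q * q) K))).rel x y₂ →
      (redOf A (Iota3.iota3 M q K hq hqM ξ hξq hξ1)).rel x y₃ →
      (redOf A ((FK (M * q) K).subtype.comp
        (WK.wK M q hq hqM K : FK (M * q) K →+* FK (M * q) K))).rel
          (NormKMap.nmBeta M q hq hqM K x) (y₂ * y₃ ^ (q - 1)) :=
  fun x _ _ _ _ h2 h3 => gRel_beta2 M q K hq hqM A hA hK hξ hξq hξ1 x h2 h3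

variable [Fact q.Prime] [CharP (IsLocalRing.ResidueField A) q]

/-- **`hRα2`** of `Corr3.exists_corr`. -/
theorem hRα2 (hA : A.LiesOverPrime q) :
    ∀ (x : FK (M * q * q) K) (y₂ : LaurentSeries (IsLocalRing.ResidueField A)), y₂ ≠ 0 →
      (redOf A ((FK (M * q * q) K).subtype.comp
        (WQ2.wK2 M q hq hqM K : FK (M * q * q) K →+* FK (M * q * q) K))).rel x y₂ →
      (redOf A ((FK (M * q) K).subtype.comp
        (WK.wK M q hq hqM K : FK (M * q) K →+* FK (M * q) K))).rel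
          (NormKMap.nmAlpha M q hq K x)
          (coeffMap (frobenius (IsLocalRing.ResidueField A) q) y₂) :=
  fun x _ _ h2 => gRel_alpha2 M q K hq hqM A hA x h2

/-- **`hRβ1`** of `Corr3.exists_corr`. -/
theorem hRβ1 (hA : A.LiesOverPrime q) :
    ∀ (x : FK (M * q * q) K) (y₁ : LaurentSeries (IsLocalRing.ResidueField A)), y₁ ≠ 0 →
      (redOf A (FK (M * q * q) K).subtype).rel x y₁ →
      (redOf A (FK (M * q) K).subtype).rel (NormKMap.nmBeta M q hq hqM K x)
        (coeffMap (frobenius (IsLocalRing.ResidueField A) q) y₁) :=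
  fun x _ _ h1 => gRel_beta1 M q K hq hqM A hA x h1

end Binders

/-! ### Norms of the uniformiser -/

/-- **`hNαπ`**: `Nα π = π' ^ q`. -/
theorem hNαπ (A : ValuationSubring Qb) (p : OK A K) :
    NormKMap.nmAlpha M q hq K (algebraMap (OK A K) (FK (M * q * q) K) p)
      = algebraMap (OK A K) (FK (M * q) K) p ^ q :=
  NormKMap.nmAlpha_algebraMap_OK M q hq K A p

/-- **`hNβπ`**: `Nβ π = π' ^ q`. -/
theorem hNβπ (A : ValuationSubring Qb) (p : OK A K) :
    NormKMap.nmBeta M q hq hqM K (algebraMap (OK A K) (FK (M * q * q) K) p)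
      = algebraMap (OK A K) (FK (M * q) K) p ^ q :=
  NormKMap.nmBeta_algebraMap_OK M q hq hqM K A p

/-! ### The uniformiser `s = j_{q²} - j` of `W3` -/

section SFacts

variable (A : ValuationSubring Qb)

/-- **`hs₁`**: `s` is a unit along `W1`. -/
theorem hs₁ : (redOf A (FK (M * q * q) K).subtype).IsU (Wit3.sE M q hq hqM K) :=
  Corr3S.hs1 M q hq hqM A K

/-- **`hs₂`**: `s` is a unit along `W2`. -/
theorem hs₂ : (redOf A ((FK (M * q * q) K).subtype.comp
      (WQ2.wK2 M q hq hqM K : FK (M * q * q) K →+* FK (M * q * q) K))).IsU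
        (Wit3.sE M q hq hqM K) :=
  Corr3S.hs2 M q hq hqM A K

/-- **`hNαs`**: `Nα s = π' · unit` along the first Gauss valuation of level `M q`
(`q = p · unit` in `A`). -/
theorem hNαs (hA : A.LiesOverPrime q) {ζ : Qb} (hζ : IsPrimitiveRoot ζ q)
    (p : OK A K) (u : A) (hu : IsUnit u) (hpu : (q : Qb) = incO A K p * (u : Qb)) :
    (redOf A (FK (M * q) K).subtype).IsU
      ((algebraMap (OK A K) (FK (M * q) K) p)⁻¹
        * NormKMap.nmAlpha M q hq K (Wit3.sE M q hq hqM K)) :=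
  Corr3SN.norm_alpha_s M q K hq hqM A (NormKMap.nmAlpha M q hq K) hA hζ
    (coe_nmAlpha_emb3 M q K hq hqM ζ hζ) p u hu hpu

/-- **`hNβs`**: `Nβ s = π' · unit` along the second Gauss valuation of level `M q`. -/
theorem hNβs (hA : A.LiesOverPrime q) {ζ : Qb} (hζ : IsPrimitiveRoot ζ q)
    (p : OK A K) (u : A) (hu : IsUnit u) (hpu : (q : Qb) = incO A K p * (u : Qb)) :
    (redOf A ((FK (M * q) K).subtype.comp
      (WK.wK M q hq hqM K : FK (M * q) K →+* FK (M * q) K))).IsU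
      ((algebraMap (OK A K) (FK (M * q) K) p)⁻¹
        * NormKMap.nmBeta M q hq hqM K (Wit3.sE M q hq hqM K)) :=
  Corr3SN.norm_beta_s M q K hq hqM A (NormKMap.nmAlpha M q hq K)
    (NormKMap.nmBeta M q hq hqM K) hA hζ (coe_nmAlpha_emb3 M q K hq hqM ζ hζ)
    (NormKMap.wK_nmBeta M q hq hqM K) p u hu hpu

end SFacts

/-! ### The norm–valuation rule -/

section NV

variable (A : ValuationSubring Qb) [Fact q.Prime] [CharP (IsLocalRing.ResidueField A) q]

/-- **`hNV`** of `Corr3.exists_corr`, VERBATIM, for the reductions and norm maps of record; the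
only inputs are the ramification `hram` of `W3` (instance owner) and `q = p · unit`. -/
theorem hNV (hA : A.LiesOverPrime q)
    (hK : ∀ σ ∈ A.inertiaSubgroupIn ℚ, ∀ a ∈ K, σ a = a)
    {ξ : Qb} (hξ : IsPrimitiveRoot ξ q) (hξq : ξ ^ q = 1) (hξ1 : ξ ≠ 1)
    (p : OK A K) (u : A) (hu : IsUnit u) (hpu : (q : Qb) = incO A K p * (u : Qb))
    (hram : (redOf A (Iota3.iota3 M q K hq hqM ξ hξq hξ1)).IsU
      (Wit3.sE M q hq hqM K ^ (q - 1) * (algebraMap (OK A K) (FK (M * q * q) K) p)⁻¹)) :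
    ∀ (x : FK (M * q * q) K) (a₁ a₂ a₃ : ℤ), x ≠ 0 →
      (redOf A (FK (M * q * q) K).subtype).IsU
        (algebraMap (OK A K) (FK (M * q * q) K) p ^ (-a₁) * x) →
      (redOf A ((FK (M * q * q) K).subtype.comp
        (WQ2.wK2 M q hq hqM K : FK (M * q * q) K →+* FK (M * q * q) K))).IsU
        (algebraMap (OK A K) (FK (M * q * q) K) p ^ (-a₂) * x) →
      (redOf A (Iota3.iota3 M q K hq hqM ξ hξq hξ1)).IsU (Wit3.sE M q hq hqM K ^ (-a₃) * x) →
      (redOf A (FK (M * q) K).subtype).IsU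
          (algebraMap (OK A K) (FK (M * q) K) p ^ (-(a₁ + a₃)) * NormKMap.nmAlpha M q hq K x) ∧
        (redOf A ((FK (M * q) K).subtype.comp
          (WK.wK M q hq hqM K : FK (M * q) K →+* FK (M * q) K))).IsU
          (algebraMap (OK A K) (FK (M * q) K) p ^ (-((q : ℤ) * a₂))
            * NormKMap.nmAlpha M q hq K x) ∧
        (redOf A (FK (M * q) K).subtype).IsU
          (algebraMap (OK A K) (FK (M * q) K) p ^ (-((q : ℤ) * a₁))
            * NormKMap.nmBeta M q hq hqM K x) ∧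
        (redOf A ((FK (M * q) K).subtype.comp
          (WK.wK M q hq hqM K : FK (M * q) K →+* FK (M * q) K))).IsU
          (algebraMap (OK A K) (FK (M * q) K) p ^ (-(a₂ + a₃))
            * NormKMap.nmBeta M q hq hqM K x) := by
  have hq0 : (q : Qb) ≠ 0 := Nat.cast_ne_zero.mpr hq.ne_zero
  have hp0 : p ≠ 0 := by
    rintro rfl
    apply hq0
    rw [hpu]
    show ((0 : OK A K) : Qb) * _ = 0
    simp
  have hπ0 : algebraMap (OK A K) (FK (M * q * q) K) p ≠ 0 :=
    GaussV.algebraMap_ne_zero (M * q * q) A K hp0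
  have hπ'0 : algebraMap (OK A K) (FK (M * q) K) p ≠ 0 :=
    GaussV.algebraMap_ne_zero (M * q) A K hp0
  exact Corr3NVal.hNV _ _ _ _ _ _ _ _
    (coeffMap (frobenius (IsLocalRing.ResidueField A) q))
    (NormKMap.nmAlpha M q hq K) (NormKMap.nmBeta M q hq hqM K) q hq.one_lt.le hπ0
    (Corr3S.sE_ne_zero M q hq hqM K) hπ'0 hram (hNαπ M q K hq A p) (hNβπ M q K hq hqM A p)
    (hRα1 M q K hq hqM A hA hK hξ hξq hξ1) (hRα2 M q K hq hqM A hA) (hRβ1 M q K hq hqM A hA)
    (hRβ2 M q K hq hqM A hA hK hξ hξq hξ1) (hs₁ M q K hq hqM A) (hs₂ M q K hq hqM A)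
    (hNαs M q K hq hqM A hA hξ p u hu hpu) (hNβs M q K hq hqM A hA hξ p u hu hpu)

end NV

end Fermat.Agent.S36.Corr3NVInst
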