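/-
S36 — Corr3Inst.lean (helper43).  [CORR36]: the INSTANCE of `Corr3.exists_corr`
(through `Corr3NVal.exists_corr_nv`) for the three component valuations of record at level
`N = M q²`, ending in `LocAsm3.CorrProp` VERBATIM.

Setting: `q` prime, `q ∤ M`, `A` a valuation ring of `ℚ̄` over `q`, `K` an unramified base
(`BaseFacts q A K`, fixed pointwise by the inertia group of `A`), `O = A ∩ K` a discrete valuation
ring with uniformiser `p` (`q = p · unit`), `k` the residue field of `A`.  The five reductions of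
record (`Corr3Red.redOf`):

  `r₁  = redOf A (subtype)`,  `r₂ = redOf A (subtype ∘ wK2)`,  `r₃ = redOf A (ι3^ξ)`   (level `M q²`)
  `r₁' = redOf A (subtype)`,  `r₂' = redOf A (subtype ∘ wK)`                           (level `M q`)

and the norms of record `NormKMap.nmAlpha`, `NormKMap.nmBeta`.

The family `(ϖ, V)` is GENERIC: any three valuation rings `V 0, V 1, V 2` of `F_K(M q²)` whose
membership is "Gauss-integral along `r₁, r₂, r₃`" (`Iff.rfl` for `GaussV.V1`, `GaussV.V2 wK2`,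
`V3.Hyp3.W3`), with uniformisers `ϖ = (p, p, s)`, `s = Wit3.sE`, satisfying
`Model3Plan.ValHyp3 p (ram q) ϖ V`.

* `nf_of_disc`, `sub_one_mem_nonunits`, `zpow_sub_mem` : generic glue;
* `exists_const`      : the constants `hcα` / `hcβ`;
* `corrProp_of_hP1`   : `LocAsm3.CorrProp` from the product formula `hP1` for `nmAlpha`;
* `corrProp`          : the same with `hP1 := Corr3NVInst.coe_nmAlpha_emb3`;
* `corrProp_record`, `corrProp_record_iota3` : the same for the record family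
                        `![GaussV.V1, GaussV.V2 wK2, W3]`, `![p, p, s]`.
-/
import Mathlib
import Fermat.Agent.S18.BaseRes
import Fermat.Agent.S34.GaussV
import Fermat.Agent.S34.WK
import Fermat.Agent.S36.Corr3Red
import Fermat.Agent.S36.Corr3NVal
import Fermat.Agent.S36.Corr3NF
import Fermat.Agent.S36.Corr3NV
import Fermat.Agent.S36.Corr3NVInst
import Fermat.Agent.S36.Corr3S
import Fermat.Agent.S36.Corr3SN
import Fermat.Agent.S36.Corr3Lift
import Fermat.Agent.S36.Corr3LiftB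
import Fermat.Agent.S36.NormK
import Fermat.Agent.S36.NormKMap
import Fermat.Agent.S36.W3Sym
import Fermat.Agent.S36.V3
import Fermat.Agent.S36.Approx3B
import Fermat.Agent.S36.LocAsm3

set_option autoImplicit false

noncomputable section

namespace Fermat.Agent.S36.Corr3Inst

open ModularCurve AlgebraicCurve HahnSeries
open Fermat.Agent.S18 Fermat.Agent.S18.Arith Fermat.Agent.S18.ModelPlan Fermat.Agent.S34
open Fermat.Agent.S36.Corr3Red

/-! ### Generic glue -/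

section Gen

variable {A : ValuationSubring Qb} {F : Type*} [Field F]
variable {V : ValuationSubring F} {E : F →+* LaurentSeries Qb}

/-- Normal forms from discreteness: if `V` is the ring of Gauss-integral elements along `E` and
every nonzero `x` is `ϖ ^ k · unit`, then every nonzero `x` has a normal form for `redOf A E`. -/
theorem nf_of_disc (hV : ∀ x, x ∈ V ↔ ∃ y, GRel A (E x) y) (ϖ : F) (hϖ0 : ϖ ≠ 0)
    (hdisc : ∀ x : F, x ≠ 0 → ∃ k : ℤ, ∃ u ∈ V, u⁻¹ ∈ V ∧ x = ϖ ^ k * u) :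
    ∀ x : F, x ≠ 0 → ∃ a : ℤ, (redOf A E).IsU (ϖ ^ (-a) * x) := by
  intro x hx
  obtain ⟨k, u, hu, hu', e⟩ := hdisc x hx
  have hu0 : u ≠ 0 := by
    rintro rfl
    exact hx (by rw [e, mul_zero])
  refine ⟨k, ?_⟩
  have e2 : ϖ ^ (-k) * x = u := by
    rw [e, ← mul_assoc, ← zpow_add₀ hϖ0, neg_add_cancel, zpow_zero, one_mul]
  rw [e2]
  exact Corr3NF.isU_of_mem E u hu0 ((hV u).1 hu) ((hV u⁻¹).1 hu')

/-- Residue `1` means `G - 1` is a non-unit. -/
theorem sub_one_mem_nonunits (hV : ∀ x, x ∈ V ↔ ∃ y, GRel A (E x) y) {G : F}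
    (h : GRel A (E G) 1) : G - 1 ∈ V.nonunits := by
  rw [Corr3NF.mem_nonunits_iff hV]
  have h1 := (gFacts A).add _ _ _ _ h
    ((gFacts A).neg _ _ (Fermat.Agent.S18.ModelRed.gRel_one (gFacts A)))
  rw [add_neg_cancel] at h1
  rw [map_sub, map_one, sub_eq_add_neg]
  exact h1

omit A in
/-- `a ^ n / a ^ b ∈ V` for `a ∈ V`, `b ≤ n`. -/
theorem zpow_sub_mem (V : ValuationSubring F) (a : F) (ha0 : a ≠ 0) (ha : a ∈ V) (n : ℕ) (b : ℤ)
    (h : b ≤ (n : ℤ)) : a ^ n * (a ^ b)⁻¹ ∈ V := by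
  obtain ⟨d, hd⟩ := Int.eq_ofNat_of_zero_le (sub_nonneg.mpr h)
  have e : a ^ n * (a ^ b)⁻¹ = a ^ d := by
    rw [← zpow_natCast a n, ← zpow_neg, ← zpow_add₀ ha0, ← sub_eq_add_neg, hd, zpow_natCast]
  rw [e]
  exact pow_mem ha d

end Gen

/-! ### The constants -/

section Const

variable (M q : ℕ) [NeZero M] [NeZero q] (hq : q.Prime) (hqM : ¬ q ∣ M)
variable {A : ValuationSubring Qb} {K : IntermediateField ℚ Qb}

/-- **`hcα` / `hcβ`**: a nonzero constant `c ∈ K` is `p ^ a` times a constant which is a unit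
with constant residue, for both Gauss valuations of level `M q`. -/
theorem exists_const (hdvr : IsDiscreteValuationRing (OK A K)) (p : OK A K) (hp : Irreducible p)
    (c : K) (hc : c ≠ 0) :
    ∃ (a : ℤ) (y₁ y₂ : LaurentSeries (IsLocalRing.ResidueField A)), y₁ ≠ 0 ∧ y₂ ≠ 0 ∧
      Cst A y₁ ∧ Cst A y₂ ∧
      (redOf A (FK (M * q) K).subtype).rel
        (algebraMap (OK A K) (FK (M * q) K) p ^ (-a) * constK (M * q) K c) y₁ ∧
      (redOf A ((FK (M * q) K).subtype.comp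
        (WK.wK M q hq hqM K : FK (M * q) K →+* FK (M * q) K))).rel
        (algebraMap (OK A K) (FK (M * q) K) p ^ (-a) * constK (M * q) K c) y₂ := by
  obtain ⟨a, u, e⟩ := Corr3NF.exists_zpow_mul_unit_of_dvr hdvr p hp c hc
  have hp0 : ((p : OK A K) : K) ≠ 0 := fun h0 => hp.ne_zero (Subtype.ext h0)
  refine ⟨a, C (resO A K (u : OK A K)), C (resO A K (u : OK A K)),
    Corr3NF.resO_unit_ne_zero u, Corr3NF.resO_unit_ne_zero u, cst_C _, cst_C _, ?_, ?_⟩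
  · exact Corr3NF.rel_const_of_eq (FK (M * q) K).subtype (constK (M * q) K) (fun _ => rfl)
      p hp0 c a u e
  · refine Corr3NF.rel_const_of_eq ((FK (M * q) K).subtype.comp
      (WK.wK M q hq hqM K : FK (M * q) K →+* FK (M * q) K)) (constK (M * q) K) (fun d => ?_)
      p hp0 c a u e
    show ((WK.wK M q hq hqM K (constK (M * q) K d) : FK (M * q) K) : LaurentSeries Qb) = _
    rw [WK.wK_constK]
    rfl

end Const

/-! ### The instance -/

section Main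

variable (M q : ℕ) [NeZero M] [NeZero q] (hq : q.Prime) (hqM : ¬ q ∣ M)
variable (A : ValuationSubring Qb) (K : IntermediateField ℚ Qb)

set_option maxHeartbeats 400000 in
/-- **[CORR36]**, from the product formula `hP1` of the norm of record: `LocAsm3.CorrProp` for
any family `(ϖ, V)` of Gauss type along `r₁, r₂, r₃` with `ϖ = (p, p, s)` and
`Model3Plan.ValHyp3`. -/
theorem corrProp_of_hP1 [Fact q.Prime]
    (hA : A.LiesOverPrime q) (hB : BaseFacts q A K)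
    (hK : ∀ σ ∈ A.inertiaSubgroupIn ℚ, ∀ a ∈ K, σ a = a)
    (hdvr : IsDiscreteValuationRing (OK A K))
    (p : OK A K) (hp : Irreducible p)
    (u : A) (hu : IsUnit u) (hpu : (q : Qb) = incO A K p * (u : Qb))
    {ξ : Qb} (hξ : IsPrimitiveRoot ξ q)
    (hP1 : ∀ x : FK (M * q * q) K,
      ((NormKMap.nmAlpha M q hq K x : FK (M * q) K) : LaurentSeries Qb)
        = ∏ c : Fin q, Iota3K.emb3 M q K hq hqM ξ hξ c x)
    (ϖ : Fin 3 → FK (M * q * q) K) (V : Fin 3 → ValuationSubring (FK (M * q * q) K))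
    (hϖ0 : ϖ 0 = algebraMap (OK A K) (FK (M * q * q) K) p)
    (hϖ1 : ϖ 1 = algebraMap (OK A K) (FK (M * q * q) K) p)
    (hϖ2 : ϖ 2 = Wit3.sE M q hq hqM K)
    (hV0 : ∀ x, x ∈ V 0 ↔ ∃ y, GRel A ((x : FK (M * q * q) K) : LaurentSeries Qb) y)
    (hV1 : ∀ x, x ∈ V 1 ↔
      ∃ y, GRel A ((WQ2.wK2 M q hq hqM K x : FK (M * q * q) K) : LaurentSeries Qb) y)
    (hV2 : ∀ x, x ∈ V 2 ↔
      ∃ y, GRel A (Iota3.iota3 M q K hq hqM ξ hξ.pow_eq_one (hξ.ne_one hq.one_lt) x) y)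
    (hval : Model3Plan.ValHyp3 (algebraMap (OK A K) (FK (M * q * q) K) p) (Model3Plan.ram q) ϖ V)
    {m : ℕ} (hm : m ≠ 0) :
    LocAsm3.CorrProp M q m A K p ϖ V := by
  classical
  have : CharP (IsLocalRing.ResidueField A) q := BaseRes.charP_residueField q A hA
  have hG := gFacts A
  -- the three expansions
  let E₁ : FK (M * q * q) K →+* LaurentSeries Qb := (FK (M * q * q) K).subtype
  let E₂ : FK (M * q * q) K →+* LaurentSeries Qb := (FK (M * q * q) K).subtype.comp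
    (WQ2.wK2 M q hq hqM K : FK (M * q * q) K →+* FK (M * q * q) K)
  let E₃ : FK (M * q * q) K →+* LaurentSeries Qb :=
    Iota3.iota3 M q K hq hqM ξ hξ.pow_eq_one (hξ.ne_one hq.one_lt)
  let E₁' : FK (M * q) K →+* LaurentSeries Qb := (FK (M * q) K).subtype
  let E₂' : FK (M * q) K →+* LaurentSeries Qb := (FK (M * q) K).subtype.comp
    (WK.wK M q hq hqM K : FK (M * q) K →+* FK (M * q) K)
  let EE : Fin 3 → (FK (M * q * q) K →+* LaurentSeries Qb) := ![E₁, E₂, E₃]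
  have hVE : ∀ i x, x ∈ V i ↔ ∃ y, GRel A (EE i x) y := by
    intro i
    fin_cases i
    · exact hV0
    · exact hV1
    · exact hV2
  obtain ⟨sep, hS⟩ := Approx3B.exists_sep hval
  -- the uniformisers
  let π : FK (M * q * q) K := algebraMap (OK A K) (FK (M * q * q) K) p
  let s : FK (M * q * q) K := Wit3.sE M q hq hqM K
  let π' : FK (M * q) K := algebraMap (OK A K) (FK (M * q) K) p
  have hπ0 : π ≠ 0 := GaussV.algebraMap_ne_zero (M * q * q) A K hp.ne_zero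
  have hπ'0 : π' ≠ 0 := GaussV.algebraMap_ne_zero (M * q) A K hp.ne_zero
  have hs0 : s ≠ 0 := Corr3S.sE_ne_zero M q hq hqM K
  have hπnu : ∀ i, π ∈ (V i).nonunits := fun i => Approx3B.p_nonunit hval i
  have hπV : ∀ i, π ∈ V i := fun i => ValuationSubring.nonunits_subset (hπnu i)
  -- non-units
  have hπ₁ : (redOf A E₁).rel π 0 := (Corr3NF.mem_nonunits_iff (E := E₁) hV0 π).1 (hπnu 0)
  have hπ₂ : (redOf A E₂).rel π 0 := (Corr3NF.mem_nonunits_iff (E := E₂) hV1 π).1 (hπnu 1)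
  have hs₃ : (redOf A E₃).rel s 0 := by
    have h := Approx3B.unif_nonunit hval 2
    rw [hϖ2] at h
    exact (Corr3NF.mem_nonunits_iff (E := E₃) hV2 s).1 h
  have hCp : GRel A (C (incO A K p) : LaurentSeries Qb) 0 :=
    Fermat.Agent.S18.ModelRed.gRel_pi hG p hp.not_isUnit
  have hπ₁' : (redOf A E₁').rel π' 0 := hCp
  have ewπ' : ((WK.wK M q hq hqM K π' : FK (M * q) K) : LaurentSeries Qb)
      = (C (incO A K p) : LaurentSeries Qb) := by
    rw [WK.wK_algebraMap_OK]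
    rfl
  have hπ₂' : (redOf A E₂').rel π' 0 := by
    show GRel A ((WK.wK M q hq hqM K π' : FK (M * q) K) : LaurentSeries Qb) 0
    rw [ewπ']
    exact hCp
  -- normal forms
  have nf₁ : ∀ x : FK (M * q * q) K, x ≠ 0 → ∃ a : ℤ, (redOf A E₁).IsU (π ^ (-a) * x) := by
    have h := nf_of_disc (A := A) (E := E₁) hV0 (ϖ 0) (by rw [hϖ0]; exact hπ0) (hval.disc 0)
    rw [hϖ0] at h
    exact h
  have nf₂ : ∀ x : FK (M * q * q) K, x ≠ 0 → ∃ a : ℤ, (redOf A E₂).IsU (π ^ (-a) * x) := by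
    have h := nf_of_disc (A := A) (E := E₂) hV1 (ϖ 1) (by rw [hϖ1]; exact hπ0) (hval.disc 1)
    rw [hϖ1] at h
    exact h
  have nf₃ : ∀ x : FK (M * q * q) K, x ≠ 0 → ∃ a : ℤ, (redOf A E₃).IsU (s ^ (-a) * x) := by
    have h := nf_of_disc (A := A) (E := E₃) hV2 (ϖ 2) (by rw [hϖ2]; exact hs0) (hval.disc 2)
    rw [hϖ2] at h
    exact h
  have nf₁' : ∀ x : FK (M * q) K, x ≠ 0 → ∃ a : ℤ, (redOf A E₁').IsU (π' ^ (-a) * x) := by
    intro x hx
    obtain ⟨γ, y, hy, h⟩ := GaussV.exists_nf_FK (M * q) A K hdvr p hp x hx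
    exact ⟨γ, Corr3NF.isU_of_nf E₁' π' x γ y hy h⟩
  have nf₂' : ∀ x : FK (M * q) K, x ≠ 0 → ∃ a : ℤ, (redOf A E₂').IsU (π' ^ (-a) * x) := by
    intro x hx
    have hx' : WK.wK M q hq hqM K x ≠ 0 := by
      intro h0
      exact hx ((WK.wK M q hq hqM K).injective (by rw [h0, map_zero]))
    obtain ⟨γ, y, hy, h⟩ := GaussV.exists_nf_FK (M * q) A K hdvr p hp _ hx'
    refine ⟨γ, Corr3NF.isU_of_nf E₂' π' x γ y hy ?_⟩
    show GRel A (((WK.wK M q hq hqM K x : FK (M * q) K) : LaurentSeries Qb)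
      * ((WK.wK M q hq hqM K π' : FK (M * q) K) : LaurentSeries Qb) ^ (-γ)) y
    rw [ewπ']
    exact h
  -- ramification of `W3`
  have hram : (redOf A E₃).IsU (s ^ (q - 1) * π⁻¹) := by
    obtain ⟨u3, hu3, hu3', e3⟩ := hval.ram 2
    rw [hϖ2] at e3
    have e3' : π = s ^ (q - 1) * u3 := e3
    have hu30 : u3 ≠ 0 := by
      rintro rfl
      exact hπ0 (by rw [e3', mul_zero])
    have hsq : s ^ (q - 1) ≠ 0 := pow_ne_zero _ hs0
    have e4 : s ^ (q - 1) * π⁻¹ = u3⁻¹ := by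
      rw [e3', mul_inv, ← mul_assoc, mul_inv_cancel₀ hsq, one_mul]
    rw [e4]
    exact Corr3NF.isU_of_mem E₃ u3⁻¹ (inv_ne_zero hu30) ((hV2 _).1 hu3')
      ((hV2 _).1 (by rw [inv_inv]; exact hu3))
  -- the norm rules
  have hP3b : ∀ x : FK (M * q * q) K, WK.wK M q hq hqM K (NormKMap.nmBeta M q hq hqM K x)
      = NormKMap.nmAlpha M q hq K (WQ2.wK2 M q hq hqM K x) := NormKMap.wK_nmBeta M q hq hqM K
  have hRα1 : ∀ (x : FK (M * q * q) K) (y₁ y₃ : LaurentSeries (IsLocalRing.ResidueField A)),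
      y₁ ≠ 0 → y₃ ≠ 0 → (redOf A E₁).rel x y₁ → (redOf A E₃).rel x y₃ →
      (redOf A E₁').rel (NormKMap.nmAlpha M q hq K x) (y₁ * y₃ ^ (q - 1)) :=
    fun x y₁ y₃ _ _ h1 h3 => Corr3NV.rule_alpha1 M q K hq hqM A (NormKMap.nmAlpha M q hq K) hA hK
      hξ hξ.pow_eq_one (hξ.ne_one hq.one_lt) hξ hP1 x h1 h3
  have hRα2 : ∀ (x : FK (M * q * q) K) (y₂ : LaurentSeries (IsLocalRing.ResidueField A)),
      y₂ ≠ 0 → (redOf A E₂).rel x y₂ →
      (redOf A E₂').rel (NormKMap.nmAlpha M q hq K x)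
        (coeffMap (frobenius (IsLocalRing.ResidueField A) q) y₂) :=
    fun x y₂ _ h2 => NormKMap.gRel_wK_nmAlpha M q hq hqM K hA x h2
  have hRβ1 : ∀ (x : FK (M * q * q) K) (y₁ : LaurentSeries (IsLocalRing.ResidueField A)),
      y₁ ≠ 0 → (redOf A E₁).rel x y₁ →
      (redOf A E₁').rel (NormKMap.nmBeta M q hq hqM K x)
        (coeffMap (frobenius (IsLocalRing.ResidueField A) q) y₁) :=
    fun x y₁ _ h1 => NormKMap.gRel_nmBeta M q hq hqM K hA x h1
  have hRβ2 : ∀ (x : FK (M * q * q) K) (y₂ y₃ : LaurentSeries (IsLocalRing.ResidueField A)),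
      y₂ ≠ 0 → y₃ ≠ 0 → (redOf A E₂).rel x y₂ → (redOf A E₃).rel x y₃ →
      (redOf A E₂').rel (NormKMap.nmBeta M q hq hqM K x) (y₂ * y₃ ^ (q - 1)) :=
    fun x y₂ y₃ _ _ h2 h3 => Corr3NV.rule_beta2 M q K hq hqM A (NormKMap.nmAlpha M q hq K)
      (NormKMap.nmBeta M q hq hqM K) hA hK hξ hξ.pow_eq_one (hξ.ne_one hq.one_lt) hξ hP1 hP3b
      (fun x r h => W3Sym.gRel_iota3_wK2 M q K hq hqM A hA hK hξ hξ.pow_eq_one
        (hξ.ne_one hq.one_lt) x h) x h2 h3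
  -- the uniformiser `s`
  have hs₁ : (redOf A E₁).IsU s := Corr3S.isU_s1 M q hq hqM A K
  have hs₂ : (redOf A E₂).IsU s := Corr3S.isU_s2 M q hq hqM A K
  have hNαs : (redOf A E₁').IsU (π'⁻¹ * NormKMap.nmAlpha M q hq K s) :=
    Corr3SN.norm_alpha_s M q K hq hqM A (NormKMap.nmAlpha M q hq K) hA hξ hP1 p u hu hpu
  have hNβs : (redOf A E₂').IsU (π'⁻¹ * NormKMap.nmBeta M q hq hqM K s) :=
    Corr3SN.norm_beta_s M q K hq hqM A (NormKMap.nmAlpha M q hq K)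
      (NormKMap.nmBeta M q hq hqM K) hA hξ hP1 hP3b p u hu hpu
  have hsV : ∀ i, s ∈ V i := by
    intro i
    fin_cases i
    · obtain ⟨y, -, h⟩ := hs₁
      exact (hV0 s).2 ⟨y, h⟩
    · obtain ⟨y, -, h⟩ := hs₂
      exact (hV1 s).2 ⟨y, h⟩
    · have h := hval.unif_mem 2
      rw [hϖ2] at h
      exact h
  -- the middle-cusp expansion
  have hmid := V3.midEmb_iota3 M q hq hqM K ξ hξ.pow_eq_one (hξ.ne_one hq.one_lt)
  have hE₃α : ∀ x : FK (M * q) K, E₃ (WQ2.alphaK2 M q K x) = (x : LaurentSeries Qb) := hmid.alpha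
  have hE₃c : ∀ c : OK A K, E₃ (algebraMap (OK A K) (FK (M * q * q) K) c)
      = (C (incO A K c) : LaurentSeries Qb) := fun c => hmid.const (c : K)
  -- weak approximation
  have hVal : ∀ b₁ b₂ b₃ : ℤ, ∃ H : FK (M * q * q) K, H ≠ 0 ∧ (redOf A E₁).IsU (π ^ (-b₁) * H) ∧
      (redOf A E₂).IsU (π ^ (-b₂) * H) ∧ (redOf A E₃).IsU (s ^ (-b₃) * H) := by
    intro b₁ b₂ b₃
    obtain ⟨N, hN⟩ : ∃ N : ℕ, N = (max b₁ b₂).toNat := ⟨_, rfl⟩
    obtain ⟨k, hk⟩ : ∃ k : ℕ, k = b₃.toNat := ⟨_, rfl⟩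
    have hN1 : b₁ ≤ (N : ℤ) := by
      rw [hN]; exact le_trans (le_max_left _ _) (Int.self_le_toNat _)
    have hN2 : b₂ ≤ (N : ℤ) := by
      rw [hN]; exact le_trans (le_max_right _ _) (Int.self_le_toNat _)
    have hk3 : b₃ ≤ (k : ℤ) := by
      rw [hk]; exact Int.self_le_toNat _
    have hϖ₀0 : π * π ^ N * s ^ k ≠ 0 :=
      mul_ne_zero (mul_ne_zero hπ0 (pow_ne_zero _ hπ0)) (pow_ne_zero _ hs0)
    have hP : ∀ i, (![π ^ b₁, π ^ b₂, s ^ b₃] : Fin 3 → FK (M * q * q) K) i ≠ 0 := by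
      intro i
      fin_cases i
      · exact zpow_ne_zero _ hπ0
      · exact zpow_ne_zero _ hπ0
      · exact zpow_ne_zero _ hs0
    have hsmall : ∀ i, GRel A (EE i (π * π ^ N * s ^ k *
        ((![π ^ b₁, π ^ b₂, s ^ b₃] : Fin 3 → FK (M * q * q) K) i)⁻¹)) 0 := by
      intro i
      rw [← Corr3NF.mem_nonunits_iff (hVE i)]
      fin_cases i
      · have e : π * π ^ N * s ^ k * (π ^ b₁)⁻¹ = π * ((π ^ N * (π ^ b₁)⁻¹) * s ^ k) := by ring
        show π * π ^ N * s ^ k * (π ^ b₁)⁻¹ ∈ (V 0).nonunits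
        rw [e]
        exact ApproxN.nonunit_mul_mem (V 0) (hπnu 0)
          ((V 0).mul_mem _ _ (zpow_sub_mem (V 0) π hπ0 (hπV 0) N b₁ hN1) (pow_mem (hsV 0) k))
      · have e : π * π ^ N * s ^ k * (π ^ b₂)⁻¹ = π * ((π ^ N * (π ^ b₂)⁻¹) * s ^ k) := by ring
        show π * π ^ N * s ^ k * (π ^ b₂)⁻¹ ∈ (V 1).nonunits
        rw [e]
        exact ApproxN.nonunit_mul_mem (V 1) (hπnu 1)
          ((V 1).mul_mem _ _ (zpow_sub_mem (V 1) π hπ0 (hπV 1) N b₂ hN2) (pow_mem (hsV 1) k))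
      · have e : π * π ^ N * s ^ k * (s ^ b₃)⁻¹ = π * (π ^ N * (s ^ k * (s ^ b₃)⁻¹)) := by ring
        show π * π ^ N * s ^ k * (s ^ b₃)⁻¹ ∈ (V 2).nonunits
        rw [e]
        exact ApproxN.nonunit_mul_mem (V 2) (hπnu 2)
          ((V 2).mul_mem _ _ (pow_mem (hπV 2) N) (zpow_sub_mem (V 2) s hs0 (hsV 2) k b₃ hk3))
    obtain ⟨H, hH⟩ := Corr3NF.exists_rel_one hVE hS (π * π ^ N * s ^ k) hϖ₀0
      (![π ^ b₁, π ^ b₂, s ^ b₃] : Fin 3 → FK (M * q * q) K) hP hsmall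
    have hH0 : H ≠ 0 := by
      rintro rfl
      have h := hH 0
      rw [mul_zero, map_zero] at h
      exact one_ne_zero (hG.unique _ _ _ h (Fermat.Agent.S18.ModelRed.gRel_zero hG))
    refine ⟨H, hH0, ⟨1, one_ne_zero, ?_⟩, ⟨1, one_ne_zero, ?_⟩, ⟨1, one_ne_zero, ?_⟩⟩
    · rw [zpow_neg]; exact hH 0
    · rw [zpow_neg]; exact hH 1
    · rw [zpow_neg]; exact hH 2
  have hWA : ∀ (Y₁ Y₂ Y₃ : FK (M * q * q) K)
      (y₁ y₂ y₃ : LaurentSeries (IsLocalRing.ResidueField A)),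
      (redOf A E₁).rel Y₁ y₁ → (redOf A E₂).rel Y₂ y₂ → (redOf A E₃).rel Y₃ y₃ →
      ∃ H : FK (M * q * q) K, (redOf A E₁).rel H y₁ ∧ (redOf A E₂).rel H y₂ ∧
        (redOf A E₃).rel H y₃ := by
    intro Y₁ Y₂ Y₃ y₁ y₂ y₃ h1 h2 h3
    obtain ⟨H, hH⟩ := Corr3NF.exists_rel hVE hS π hπ0
      (fun i => (Corr3NF.mem_nonunits_iff (hVE i) π).1 (hπnu i))
      (![Y₁, Y₂, Y₃] : Fin 3 → FK (M * q * q) K)
      (![y₁, y₂, y₃] : Fin 3 → LaurentSeries (IsLocalRing.ResidueField A))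
      (by
        intro i
        fin_cases i
        · exact h1
        · exact h2
        · exact h3)
    exact ⟨H, hH 0, hH 1, hH 2⟩
  -- the chain
  intro fK hfK0 hN
  have hmem : ((Glob.toBar (M * q * q) K fK : modularFunctionFieldBar (M * q * q)) :
      LaurentSeries Qb) ∈ FK (M * q * q) K := fK.2
  obtain ⟨⟨hα, cα, hhα, hcα0, eα⟩, ⟨hβ, cβ, hhβ, hcβ0, eβ⟩⟩ :=
    NormK.normCond_FK' (M * q) q K hm (Glob.toBar (M * q * q) K fK) hmem hN
  have hconst : ∀ c : K, Glob.toBar (M * q) K (constK (M * q) K c)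
      = algebraMap Qb (modularFunctionFieldBar (M * q)) (c : Qb) := by
    intro c
    apply Subtype.ext
    rw [Glob.coe_toBar]
    show (HahnSeries.C ((c : K) : Qb) : LaurentSeries Qb) = algebraMap Qb (LaurentSeries Qb) _
    rw [algebraMap_laurentSeries_eq_single]
    rfl
  have hNα : NormKMap.nmAlpha M q hq K fK = constK (M * q) K cα * hα ^ m := by
    apply (Glob.toBar (M * q) K).injective
    rw [NormKMap.toBar_nmAlpha, map_mul, map_pow, hconst]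
    exact eα
  have hNβ : NormKMap.nmBeta M q hq hqM K fK = constK (M * q) K cβ * hβ ^ m := by
    apply (Glob.toBar (M * q) K).injective
    rw [NormKMap.toBar_nmBeta, map_mul, map_pow, hconst]
    exact eβ
  obtain ⟨t, H, hH0, h1, h2, h3⟩ := Corr3NVal.exists_corr_nv
    (redOf A E₁) (redOf A E₂) (redOf A E₃) (redOf A E₁') (redOf A E₂') π s π'
    (coeffMap (frobenius (IsLocalRing.ResidueField A) q)) (Cst A)
    (NormKMap.nmAlpha M q hq K) (NormKMap.nmBeta M q hq hqM K) q m hq.one_lt.le hm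
    hπ0 hs0 hπ'0 hπ₁ hπ₂ hs₃ hπ₁' hπ₂' nf₁ nf₂ nf₃ nf₁' nf₂' hram
    (NormKMap.nmAlpha_algebraMap_OK M q hq K A p) (NormKMap.nmBeta_algebraMap_OK M q hq hqM K A p)
    hRα1 hRα2 hRβ1 hRβ2 hs₁ hs₂ hNαs hNβs
    cst_one cst_mul cst_inv (Corr3LiftB.hCΦ A)
    (Corr3Lift.hroot M q hq hqM hB E₃ hE₃c hm)
    (Corr3LiftB.hL1 M q hq hqM hA hB E₃ hE₃α) (Corr3LiftB.hL2 M q hq hqM hA hB)
    (Corr3Lift.hL3 M q E₃ hE₃α) hVal hWA
    fK hfK0 (constK (M * q) K cα) hα (constK (M * q) K cβ) hβ hhα hhβ hNα hNβ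
    (exists_const M q hq hqM hdvr p hp cα hcα0) (exists_const M q hq hqM hdvr p hp cβ hcβ0)
  refine ⟨-t, H, hH0, fun i => ⟨1, one_ne_zero, ?_⟩⟩
  rw [one_pow, mul_one]
  have hGi : GRel A (EE i (fK ^ ((q + 1) * (q - 1)) * π ^ (-t) * H ^ m)) 1 := by
    fin_cases i
    · exact h1
    · exact h2
    · exact h3
  exact Corr3NF.exists_eq_unif_mul (V i) (ϖ i) (hval.unif_mem i) (hval.disc i)
    (sub_one_mem_nonunits (hVE i) hGi)

/-- **[CORR36]**: `LocAsm3.CorrProp` for any family `(ϖ, V)` of Gauss type along `r₁, r₂, r₃`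
with `ϖ = (p, p, s)` and `Model3Plan.ValHyp3` (the product formula is `Corr3NVInst`'s). -/
theorem corrProp [Fact q.Prime]
    (hA : A.LiesOverPrime q) (hB : BaseFacts q A K)
    (hK : ∀ σ ∈ A.inertiaSubgroupIn ℚ, ∀ a ∈ K, σ a = a)
    (hdvr : IsDiscreteValuationRing (OK A K))
    (p : OK A K) (hp : Irreducible p)
    (u : A) (hu : IsUnit u) (hpu : (q : Qb) = incO A K p * (u : Qb))
    {ξ : Qb} (hξ : IsPrimitiveRoot ξ q)
    (ϖ : Fin 3 → FK (M * q * q) K) (V : Fin 3 → ValuationSubring (FK (M * q * q) K))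
    (hϖ0 : ϖ 0 = algebraMap (OK A K) (FK (M * q * q) K) p)
    (hϖ1 : ϖ 1 = algebraMap (OK A K) (FK (M * q * q) K) p)
    (hϖ2 : ϖ 2 = Wit3.sE M q hq hqM K)
    (hV0 : ∀ x, x ∈ V 0 ↔ ∃ y, GRel A ((x : FK (M * q * q) K) : LaurentSeries Qb) y)
    (hV1 : ∀ x, x ∈ V 1 ↔
      ∃ y, GRel A ((WQ2.wK2 M q hq hqM K x : FK (M * q * q) K) : LaurentSeries Qb) y)
    (hV2 : ∀ x, x ∈ V 2 ↔
      ∃ y, GRel A (Iota3.iota3 M q K hq hqM ξ hξ.pow_eq_one (hξ.ne_one hq.one_lt) x) y)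
    (hval : Model3Plan.ValHyp3 (algebraMap (OK A K) (FK (M * q * q) K) p) (Model3Plan.ram q) ϖ V)
    {m : ℕ} (hm : m ≠ 0) :
    LocAsm3.CorrProp M q m A K p ϖ V :=
  corrProp_of_hP1 M q hq hqM A K hA hB hK hdvr p hp u hu hpu hξ
    (Corr3NVInst.coe_nmAlpha_emb3 M q K hq hqM ξ hξ) ϖ V hϖ0 hϖ1 hϖ2 hV0 hV1 hV2 hval hm

/-- **[CORR36] for the family of record** `V = ![GaussV.V1, GaussV.V2 wK2, W3]`,
`ϖ = ![p, p, s]` (the conclusion of `Val3.valHyp3`), `W3` any valuation ring whose membership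
is Gauss-integrality along `ι3^ξ` (`Iff.rfl` for `V3.Hyp3.W3` at `ι = Iota3.iota3`). -/
theorem corrProp_record [Fact q.Prime]
    (hA : A.LiesOverPrime q) (hB : BaseFacts q A K)
    (hK : ∀ σ ∈ A.inertiaSubgroupIn ℚ, ∀ a ∈ K, σ a = a)
    (hdvr : IsDiscreteValuationRing (OK A K))
    (p : OK A K) (hp : Irreducible p)
    (u : A) (hu : IsUnit u) (hpu : (q : Qb) = incO A K p * (u : Qb))
    {ξ : Qb} (hξ : IsPrimitiveRoot ξ q)
    (W3 : ValuationSubring (FK (M * q * q) K))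
    (hW3 : ∀ x, x ∈ W3 ↔
      ∃ y, GRel A (Iota3.iota3 M q K hq hqM ξ hξ.pow_eq_one (hξ.ne_one hq.one_lt) x) y)
    (hval : Model3Plan.ValHyp3 (algebraMap (OK A K) (FK (M * q * q) K) p) (Model3Plan.ram q)
      ![algebraMap (OK A K) (FK (M * q * q) K) p, algebraMap (OK A K) (FK (M * q * q) K) p,
        Wit3.sE M q hq hqM K]
      ![GaussV.V1 (M * q * q) A K hdvr, GaussV.V2 (WQ2.wK2 M q hq hqM K) hdvr, W3])
    {m : ℕ} (hm : m ≠ 0) :
    LocAsm3.CorrProp M q m A K p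
      ![algebraMap (OK A K) (FK (M * q * q) K) p, algebraMap (OK A K) (FK (M * q * q) K) p,
        Wit3.sE M q hq hqM K]
      ![GaussV.V1 (M * q * q) A K hdvr, GaussV.V2 (WQ2.wK2 M q hq hqM K) hdvr, W3] :=
  corrProp M q hq hqM A K hA hB hK hdvr p hp u hu hpu hξ _ _ rfl rfl rfl
    (fun _ => Iff.rfl) (fun _ => Iff.rfl) hW3 hval hm

/-- The same for `p = q` on the nose and `W3 := (V3.hyp3_iota3 …).W3`. -/
theorem corrProp_record_iota3 [Fact q.Prime]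
    (hA : A.LiesOverPrime q) (hB : BaseFacts q A K)
    (hK : ∀ σ ∈ A.inertiaSubgroupIn ℚ, ∀ a ∈ K, σ a = a)
    (hdvr : IsDiscreteValuationRing (OK A K))
    (p : OK A K) (hp : Irreducible p) (hpq : incO A K p = (q : Qb))
    {ξ : Qb} (hξ : IsPrimitiveRoot ξ q)
    (hval : Model3Plan.ValHyp3 (algebraMap (OK A K) (FK (M * q * q) K) p) (Model3Plan.ram q)
      ![algebraMap (OK A K) (FK (M * q * q) K) p, algebraMap (OK A K) (FK (M * q * q) K) p,
        Wit3.sE M q hq hqM K]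
      ![GaussV.V1 (M * q * q) A K hdvr, GaussV.V2 (WQ2.wK2 M q hq hqM K) hdvr,
        (V3.hyp3_iota3 hq hqM A hdvr p hp hpq hξ).W3])
    {m : ℕ} (hm : m ≠ 0) :
    LocAsm3.CorrProp M q m A K p
      ![algebraMap (OK A K) (FK (M * q * q) K) p, algebraMap (OK A K) (FK (M * q * q) K) p,
        Wit3.sE M q hq hqM K]
      ![GaussV.V1 (M * q * q) A K hdvr, GaussV.V2 (WQ2.wK2 M q hq hqM K) hdvr,
        (V3.hyp3_iota3 hq hqM A hdvr p hp hpq hξ).W3] :=
  corrProp_record M q hq hqM A K hA hB hK hdvr p hp 1 isUnit_one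
    (by rw [hpq, OneMemClass.coe_one, mul_one]) hξ _ (fun _ => Iff.rfl) hval hm

end Main

end Fermat.Agent.S36.Corr3Inst
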