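/-
S36, block [N10]/[CUSP-c], piece (c1) (helper129; consumer: helper65 `S36/CuspKS.lean`):
LEVEL-ONE RATIONAL NORMAL FORM.

`F_K(1) = K(j)`: every element of `FK 1 K` is a quotient `a(j) / b(j)` of two polynomials in `j`
with coefficients in `O = A ∩ K` (`FK_one_le`).  If `O` is a discrete valuation ring and
`x' ∈ F_K(1)` is Gauss-integral with NONZERO Gauss reduction `y`, the two polynomials can be
chosen with `b̄(j̄) ≠ 0` and `y · b̄(j̄) = ā(j̄)` in `k((q))` (`exists_rat`): the Gauss reduction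
of a Gauss unit of level one is a rational function of `j̄` over the residue field.

Vocabulary: `ev`, `evbar` of `S18/QExpDefs` (evaluation of `O[X]` at `jΩ`, resp. at
`jqModC k`), `GRel` of `S18/ArithPlan`.
-/
import Mathlib
import Fermat.Agent.S18.QExpCont
import Fermat.Agent.S18.GRel

set_option autoImplicit false

noncomputable section

namespace Fermat.Agent.S36.CuspRat

open ModularCurve HahnSeries
open Fermat.Agent.S18.Arith Fermat.Agent.S18.ModelPlan Fermat.Agent.S18.QExpDefs

variable (A : ValuationSubring Qb) (K : IntermediateField ℚ Qb)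

/-- The field of fractions of `O[j]` inside `ℚ̄((q))`. -/
def ratField : Subfield (LaurentSeries Qb) where
  carrier := {x | ∃ a b : Polynomial (OK A K), ev A K b ≠ 0 ∧ x * ev A K b = ev A K a}
  mul_mem' := by
    rintro x x' ⟨a, b, hb, h⟩ ⟨a', b', hb', h'⟩
    refine ⟨a * a', b * b', ?_, ?_⟩
    · rw [map_mul]
      exact mul_ne_zero hb hb'
    · rw [map_mul, map_mul, ← h, ← h']
      ring
  one_mem' := ⟨1, 1, by rw [map_one]; exact one_ne_zero, by rw [map_one, mul_one]⟩
  add_mem' := by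
    rintro x x' ⟨a, b, hb, h⟩ ⟨a', b', hb', h'⟩
    refine ⟨a * b' + a' * b, b * b', ?_, ?_⟩
    · rw [map_mul]
      exact mul_ne_zero hb hb'
    · rw [map_add, map_mul, map_mul, map_mul, ← h, ← h']
      ring
  zero_mem' := ⟨0, 1, by rw [map_one]; exact one_ne_zero, by rw [map_zero, zero_mul]⟩
  neg_mem' := by
    rintro x ⟨a, b, hb, h⟩
    exact ⟨-a, b, hb, by rw [map_neg, ← h, neg_mul]⟩
  inv_mem' := by
    rintro x ⟨a, b, hb, h⟩
    by_cases hx : x = 0
    · rw [hx, inv_zero]
      exact ⟨0, 1, by rw [map_one]; exact one_ne_zero, by rw [map_zero, zero_mul]⟩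
    · refine ⟨b, a, ?_, ?_⟩
      · rw [← h]
        exact mul_ne_zero hx hb
      · rw [← h, ← mul_assoc, inv_mul_cancel₀ hx, one_mul]

theorem mem_ratField {x : LaurentSeries Qb} :
    x ∈ ratField A K ↔
      ∃ a b : Polynomial (OK A K), ev A K b ≠ 0 ∧ x * ev A K b = ev A K a := Iff.rfl

theorem ev_C (o : OK A K) : ev A K (Polynomial.C o) = HahnSeries.C (incO A K o) := by
  rw [ev_apply, Polynomial.eval₂_C, ι_apply]

theorem ev_X : ev A K Polynomial.X = jΩ := by
  rw [ev_apply, Polynomial.eval₂_X]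

/-- Constants of `K` are quotients of constants of `O`. -/
theorem const_mem (c : K) : (HahnSeries.C ((c : K) : Qb) : LaurentSeries Qb) ∈ ratField A K := by
  rcases (OK A K).mem_or_inv_mem c with hc | hc
  · refine ⟨Polynomial.C ⟨c, hc⟩, 1, ?_, ?_⟩
    · rw [map_one]
      exact one_ne_zero
    · rw [map_one, mul_one, ev_C]
      rfl
  · by_cases hc0 : c = 0
    · rw [hc0]
      have h0 : (HahnSeries.C (((0 : K) : K) : Qb) : LaurentSeries Qb) = 0 := by
        rw [ZeroMemClass.coe_zero, map_zero]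
      rw [h0]
      exact (ratField A K).zero_mem
    · have hcq : ((c : K) : Qb) ≠ 0 := by
        intro h
        exact hc0 (Subtype.ext h)
      refine ⟨1, Polynomial.C ⟨c⁻¹, hc⟩, ?_, ?_⟩
      · rw [ev_C]
        intro h
        have h1 : incO A K ⟨c⁻¹, hc⟩ = 0 := HahnSeries.C_injective (by rw [h, map_zero])
        have h2 : ((c⁻¹ : K) : Qb) = 0 := h1
        rw [IntermediateField.coe_inv] at h2
        exact inv_ne_zero hcq h2
      · rw [ev_C, map_one]
        have h2 : incO A K ⟨c⁻¹, hc⟩ = ((c : K) : Qb)⁻¹ := by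
          show ((c⁻¹ : K) : Qb) = ((c : K) : Qb)⁻¹
          rw [IntermediateField.coe_inv]
        rw [h2, ← map_mul, mul_inv_cancel₀ hcq, map_one]

/-- **`F_K(1) = K(j)`**: every element of the level-one function field is a quotient of two
polynomials in `j` with coefficients in `O = A ∩ K`. -/
theorem FK_one_le : FK 1 K ≤ ratField A K := by
  unfold FK
  rw [Subfield.closure_le]
  rintro x (⟨c, rfl⟩ | ⟨z, rfl⟩)
  · exact const_mem A K c
  · obtain ⟨z, hz⟩ := z
    show coeffEmb Qb z ∈ ratField A K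
    unfold modularFunctionFieldFull at hz
    induction hz using IntermediateField.adjoin_induction with
    | mem z hz =>
      obtain ⟨d, hd0, hd, rfl⟩ := hz
      have hd1 : d = 1 := Nat.dvd_one.mp hd
      subst hd1
      rw [qExpand_one_apply]
      refine ⟨Polynomial.X, 1, ?_, ?_⟩
      · rw [map_one]
        exact one_ne_zero
      · rw [map_one, mul_one, ev_X]
        rfl
    | algebraMap r =>
      have e1 : coeffEmb Qb (algebraMap ℚ (LaurentSeries ℚ) r)
          = (HahnSeries.C (((algebraMap ℚ K r : K)) : Qb) : LaurentSeries Qb) := by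
        rw [algebraMap_laurentSeries_eq_single, coeffEmb, coeffMap_single]
        rfl
      rw [e1]
      exact const_mem A K _
    | add z₁ z₂ h₁ h₂ ih₁ ih₂ =>
      rw [map_add]
      exact (ratField A K).add_mem ih₁ ih₂
    | inv z h ih =>
      rw [map_inv₀]
      exact (ratField A K).inv_mem ih
    | mul z₁ z₂ h₁ h₂ ih₁ ih₂ =>
      rw [map_mul]
      exact (ratField A K).mul_mem ih₁ ih₂

/-- Element form of `FK_one_le`. -/
theorem exists_ev_eq (x' : FK 1 K) :
    ∃ a b : Polynomial (OK A K), ev A K b ≠ 0 ∧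
      ((x' : FK 1 K) : LaurentSeries Qb) * ev A K b = ev A K a :=
  FK_one_le A K x'.2

variable {A K}

/-- A uniformizer of `O` has Gauss reduction `0`. -/
theorem gRel_unif {π : OK A K} (hπ : Irreducible π) :
    GRel A (ι A K π) 0 := by
  have h := gRel_ι (Fermat.Agent.S18.GRel.gRelStatement A) π
  have h0 : ιbar A K π = 0 := by
    rw [ιbar_apply]
    have : resO A K π = 0 := by
      rw [Fermat.Agent.S18.QExpCont.resO_eq_zero_iff, IsLocalRing.mem_maximalIdeal,
        mem_nonunits_iff]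
      exact hπ.not_isUnit
    rw [this, map_zero]
  rwa [h0] at h

/-- **[CUSP-c] (c1).**  A Gauss-integral element of the level-one function field `F_K(1) = K(j)`
with nonzero Gauss reduction `y` has `y ∈ k(j̄)`:  `y · b̄(j̄) = ā(j̄)` with `b̄(j̄) ≠ 0`, for
polynomials `a, b ∈ O[X]`. -/
theorem exists_rat_ev (hdvr : IsDiscreteValuationRing (OK A K)) (x' : FK 1 K)
    (y : LaurentSeries (IsLocalRing.ResidueField A))
    (h : GRel A ((x' : FK 1 K) : LaurentSeries Qb) y) (hy : y ≠ 0) :
    ∃ a b : Polynomial (OK A K), evbar A K b ≠ 0 ∧ evbar A K a ≠ 0 ∧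
      ((x' : FK 1 K) : LaurentSeries Qb) * ev A K b = ev A K a ∧
      y * evbar A K b = evbar A K a := by
  have hG := Fermat.Agent.S18.GRel.gRelStatement A
  obtain ⟨a0, b0, hb0, hx⟩ := exists_ev_eq A K x'
  set x : LaurentSeries Qb := ((x' : FK 1 K) : LaurentSeries Qb) with hxdef
  have hx0 : x ≠ 0 := by
    intro h0
    rw [h0] at h
    exact hy (hG.unique _ _ _ h (gRel_zero hG))
  have ha0 : a0 ≠ 0 := by
    rintro rfl
    rw [map_zero] at hx
    exact mul_ne_zero hx0 hb0 hx
  have hb0' : b0 ≠ 0 := by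
    rintro rfl
    exact hb0 (map_zero _)
  obtain ⟨π, hπ⟩ := IsDiscreteValuationRing.exists_irreducible (OK A K)
  obtain ⟨α, a1, haa, ha1⟩ := Fermat.Agent.S18.QExpAux.exists_primitive_poly (resO A K)
    (fun o ho => (Fermat.Agent.S18.QExpCont.resO_eq_zero_iff A K o).mp ho) π hπ a0 ha0
  obtain ⟨β, b1, hbb, hb1⟩ := Fermat.Agent.S18.QExpAux.exists_primitive_poly (resO A K)
    (fun o ho => (Fermat.Agent.S18.QExpCont.resO_eq_zero_iff A K o).mp ho) π hπ b0 hb0'
  have hea1 : evbar A K a1 ≠ 0 := fun h0 => ha1 ((evbar_eq_zero_iff A K a1).mp h0)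
  have heb1 : evbar A K b1 ≠ 0 := fun h0 => hb1 ((evbar_eq_zero_iff A K b1).mp h0)
  have hCπ : ev A K (Polynomial.C π) = ι A K π := by
    rw [ev_apply, Polynomial.eval₂_C]
  have hP0 : ι A K π ≠ 0 := by
    intro h0
    exact hπ.ne_zero (ι_injective A K (by rw [h0, map_zero]))
  have hP : GRel A (ι A K π) 0 := gRel_unif hπ
  -- the relation `x * (P ^ β * b1(j)) = P ^ α * a1(j)`
  have hrel : x * (ι A K π ^ β * ev A K b1) = ι A K π ^ α * ev A K a1 := by
    have h1 := hx
    rw [haa, hbb, map_mul, map_mul, map_pow, map_pow, hCπ] at h1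
    exact h1
  have hga : GRel A (ev A K a1) (evbar A K a1) := gRel_ev hG a1
  have hgb : GRel A (ev A K b1) (evbar A K b1) := gRel_ev hG b1
  rcases lt_trichotomy α β with hlt | heq | hgt
  · -- `α < β`: then `a1(j) = x * P ^ (d+1) * b1(j)` reduces to `0`
    exfalso
    obtain ⟨d, rfl⟩ := Nat.exists_eq_add_of_lt hlt
    have h2 : x * (ι A K π ^ (d + 1) * ev A K b1) = ev A K a1 := by
      apply mul_left_cancel₀ (pow_ne_zero α hP0)
      rw [← hrel]
      ring
    have h3 : GRel A (x * (ι A K π ^ (d + 1) * ev A K b1))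
        (y * ((0 : LaurentSeries (IsLocalRing.ResidueField A)) ^ (d + 1) * evbar A K b1)) :=
      hG.mul _ _ _ _ h (hG.mul _ _ _ _ (gRel_pow hG hP (d + 1)) hgb)
    rw [h2, zero_pow (Nat.succ_ne_zero d), zero_mul, mul_zero] at h3
    exact hea1 (hG.unique _ _ _ hga h3)
  · -- `α = β`
    subst heq
    have h2 : x * ev A K b1 = ev A K a1 := by
      apply mul_left_cancel₀ (pow_ne_zero α hP0)
      rw [← hrel]
      ring
    refine ⟨a1, b1, heb1, hea1, h2, ?_⟩
    have h3 : GRel A (x * ev A K b1) (y * evbar A K b1) := hG.mul _ _ _ _ h hgb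
    rw [h2] at h3
    exact hG.unique _ _ _ h3 hga
  · -- `β < α`: then `x * b1(j) = P ^ (d+1) * a1(j)` reduces to `0`
    exfalso
    obtain ⟨d, rfl⟩ := Nat.exists_eq_add_of_lt hgt
    have h2 : x * ev A K b1 = ι A K π ^ (d + 1) * ev A K a1 := by
      apply mul_left_cancel₀ (pow_ne_zero β hP0)
      rw [← mul_assoc, mul_comm (ι A K π ^ β) x, mul_assoc, hrel]
      ring
    have h3 : GRel A (ι A K π ^ (d + 1) * ev A K a1)
        ((0 : LaurentSeries (IsLocalRing.ResidueField A)) ^ (d + 1) * evbar A K a1) :=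
      hG.mul _ _ _ _ (gRel_pow hG hP (d + 1)) hga
    rw [← h2, zero_pow (Nat.succ_ne_zero d), zero_mul] at h3
    have h4 : GRel A (x * ev A K b1) (y * evbar A K b1) := hG.mul _ _ _ _ h hgb
    exact mul_ne_zero hy heb1 (hG.unique _ _ _ h4 h3)

variable (A K)

/-- **[CUSP-c] (c1)**, the shape consumed by `S36/CuspKS.lean` (helper65). -/
theorem exists_rat (hdvr : IsDiscreteValuationRing (OK A K)) (x' : FK 1 K)
    (y : LaurentSeries (IsLocalRing.ResidueField A))
    (h : GRel A ((x' : FK 1 K) : LaurentSeries Qb) y) (hy : y ≠ 0) :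
    ∃ a b : Polynomial (OK A K), evbar A K b ≠ 0 ∧ y * evbar A K b = evbar A K a := by
  obtain ⟨a, b, hb, -, -, hab⟩ := exists_rat_ev hdvr x' y h hy
  exact ⟨a, b, hb, hab⟩

end Fermat.Agent.S36.CuspRat
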