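/-
S36 block [CUSP-ser] (helper106): the series-level leaf of the middle-cusp (B1) routes.

`J = j(Q)`, `ξ` a primitive `q`-th root of unity, `A` a valuation subring of `ℚ̄` over `q` with
residue field `k`, `j̄ = j(Q) ∈ k((Q))`, `ψ = θ j̄ / j̄`.

* `exists_gRel_div_sub_one`        : for Gauss-integral `x` with reduction `y ≠ 0`:
                                     `x(ξ Q) / x(Q) - 1 = (ξ - 1) z`, `red z = θ y / y`;
* `exists_gRel_pow_of_eq`          : `D = (ξ - 1) z` ⟹ `D ^ (q - 1) = q z'`, `red z' = -(red z)^(q-1)`;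
* `exists_gRel_jxi_div_sub_one`, `exists_gRel_pow_jxi_div_sub_one` : the case `x = J`
                                     (the middle-cusp expansion of `δ = j(Q^{q²}) / j(Q) - 1` and of
                                     `δ ^ (q - 1) / q`, with reductions `ψ` and `-ψ ^ (q - 1)`);
* `exists_unit_gRel_jxi_div`, `exists_unit_gRel_jd_div` : for `c = (1 - ξ)^(q-1) · unit` (e.g. a
                                     uniformiser of the unramified base): `δ ^ (q - 1) / c` has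
                                     a unit power series as reduction;
* `exists_powerSeries_psi`         : `ψ ∈ k[[Q]]` with constant term `-1` (every characteristic);
* `exists_powerSeries_jqModC_inv`  : `j̄⁻¹ ∈ Q k[[Q]]`;
* `exists_reverse_quotient`        : (abstract) a quotient `A(x⁻¹) / B(x⁻¹)` of polynomials in
                                     `x⁻¹`, `x ∈ Q k[[Q]]`, which is a unit power series equals
                                     `a(x) / b(x)` with `a(0), b(0) ≠ 0` (`a, b` the reversed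
                                     polynomials, of equal degree);
* `exists_reverse_quotient_lift`   : the same with `a, b` lifted along a surjection `O → k`;
* `exists_quotient_neg_psi_pow(_lift)` : the case `x = j̄⁻¹`, `r = -ψ ^ n`.
-/
import Mathlib
import Fermat.Agent.S36.RotThetaG
import Fermat.Agent.S34.V12Rel
import Fermat.Agent.S28.Defs

set_option autoImplicit false

noncomputable section

namespace Fermat.Agent.S36.CuspSer

open ModularCurve HahnSeries Fermat.Agent Fermat.Agent.S18.Arith Fermat.Agent.S24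
open Fermat.Agent.S36.RotTheta Fermat.Agent.S36.RotThetaG

/-! ### Laurent series with a simple pole -/

section Pole

/-- A Laurent series with at most a simple pole is `Q⁻¹` times a power series. -/
theorem eq_single_mul_ofPowerSeries {R : Type*} [CommRing R] (g : LaurentSeries R)
    (hg : ∀ n : ℤ, n < -1 → g.coeff n = 0) :
    g = HahnSeries.single (-1 : ℤ) (1 : R) *
      HahnSeries.ofPowerSeries ℤ R (PowerSeries.mk fun n : ℕ => g.coeff ((n : ℤ) - 1)) := by
  ext n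
  have h := HahnSeries.coeff_single_mul_add (r := (1 : R))
    (x := HahnSeries.ofPowerSeries ℤ R (PowerSeries.mk fun n : ℕ => g.coeff ((n : ℤ) - 1)))
    (a := n + 1) (b := (-1 : ℤ))
  rw [show n + 1 + (-1 : ℤ) = n by ring, one_mul] at h
  rw [h, PowerSeries.coeff_coe]
  split_ifs with hn
  · exact hg n (by omega)
  · rw [PowerSeries.coeff_mk]
    congr 1
    omega

variable {k : Type*} [Field k]

/-- For a Laurent series `f` over a field with a simple pole: `f ≠ 0`, `f⁻¹ ∈ Q k[[Q]]` and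
`θ f / f ∈ k[[Q]]` with constant term `-1`. -/
theorem exists_powerSeries_of_simple_pole (f : LaurentSeries k)
    (hf : ∀ n : ℤ, n < -1 → f.coeff n = 0) (hc : f.coeff (-1) ≠ 0) :
    f ≠ 0 ∧
    (∃ X₀ : PowerSeries k, f⁻¹ = HahnSeries.ofPowerSeries ℤ k X₀ ∧
      PowerSeries.constantCoeff X₀ = 0) ∧
    ∃ P : PowerSeries k, theta f * f⁻¹ = HahnSeries.ofPowerSeries ℤ k P ∧
      PowerSeries.constantCoeff P = -1 := by
  have hθ : ∀ n : ℤ, n < -1 → (theta f).coeff n = 0 := fun n hn => by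
    rw [theta_coeff, hf n hn, mul_zero]
  have hfU := eq_single_mul_ofPowerSeries f hf
  have hfW := eq_single_mul_ofPowerSeries (theta f) hθ
  set U : PowerSeries k := PowerSeries.mk fun n : ℕ => f.coeff ((n : ℤ) - 1) with hU
  set W : PowerSeries k := PowerSeries.mk fun n : ℕ => (theta f).coeff ((n : ℤ) - 1) with hW
  have hU0 : PowerSeries.constantCoeff U = f.coeff (-1) := by
    rw [hU, PowerSeries.constantCoeff_mk]
    norm_num
  have hW0 : PowerSeries.constantCoeff W = -f.coeff (-1) := by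
    rw [hW, PowerSeries.constantCoeff_mk]
    norm_num [theta_coeff]
  have hUinv : U * U⁻¹ = 1 := PowerSeries.mul_inv_cancel U (by rwa [hU0])
  have hcoe : HahnSeries.ofPowerSeries ℤ k U * HahnSeries.ofPowerSeries ℤ k U⁻¹ = 1 := by
    rw [← map_mul, hUinv, map_one]
  have hS : (HahnSeries.single (-1 : ℤ) (1 : k) : LaurentSeries k) *
      HahnSeries.single (1 : ℤ) (1 : k) = 1 := by
    rw [HahnSeries.single_mul_single]
    norm_num
  have hinv : f⁻¹ = HahnSeries.single (1 : ℤ) (1 : k) * HahnSeries.ofPowerSeries ℤ k U⁻¹ := by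
    apply inv_eq_of_mul_eq_one_right
    rw [hfU, mul_mul_mul_comm, hS, hcoe, mul_one]
  have hf0 : f ≠ 0 := by
    intro h0
    rw [h0, HahnSeries.coeff_zero] at hc
    exact hc rfl
  refine ⟨hf0, ⟨PowerSeries.X * U⁻¹, ?_, ?_⟩, ⟨W * U⁻¹, ?_, ?_⟩⟩
  · rw [hinv, map_mul, HahnSeries.ofPowerSeries_X]
  · rw [map_mul, PowerSeries.constantCoeff_X, zero_mul]
  · rw [hinv, map_mul]
    nth_rewrite 1 [hfW]
    rw [mul_mul_mul_comm, hS, one_mul]
  · rw [map_mul, PowerSeries.constantCoeff_inv, hW0, hU0, neg_mul, mul_inv_cancel₀ hc]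

end Pole

/-! ### Comparing `Q`-orders of a rational function of `x⁻¹` -/

section Reverse

variable {k : Type*} [Field k]

/-- `u X₀ ^ m = v X₀ ^ n` with `u, v` unit power series and `X₀ ∈ Q k[[Q]]` nonzero forces
`m = n`. -/
theorem pow_eq_of_unit_mul {u v X₀ : PowerSeries k} (hu : PowerSeries.constantCoeff u ≠ 0)
    (hv : PowerSeries.constantCoeff v ≠ 0) (hX₀ : PowerSeries.constantCoeff X₀ = 0)
    (hne : X₀ ≠ 0) {m n : ℕ} (h : u * X₀ ^ m = v * X₀ ^ n) : m = n := by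
  by_contra hmn
  rcases Nat.lt_or_gt_of_ne hmn with hlt | hgt
  · obtain ⟨e, rfl⟩ : ∃ e, n = m + (e + 1) := ⟨n - m - 1, by omega⟩
    have h' : u * X₀ ^ m = (v * X₀ ^ (e + 1)) * X₀ ^ m := by
      rw [h, _root_.pow_add]
      ring
    have h2 := congrArg PowerSeries.constantCoeff (mul_right_cancel₀ (pow_ne_zero m hne) h')
    rw [map_mul, map_pow, hX₀, zero_pow (Nat.succ_ne_zero e), mul_zero] at h2
    exact hu h2
  · obtain ⟨e, rfl⟩ : ∃ e, m = n + (e + 1) := ⟨m - n - 1, by omega⟩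
    have h' : (u * X₀ ^ (e + 1)) * X₀ ^ n = v * X₀ ^ n := by
      rw [← h, _root_.pow_add]
      ring
    have h2 := congrArg PowerSeries.constantCoeff (mul_right_cancel₀ (pow_ne_zero n hne) h')
    rw [map_mul, map_pow, hX₀, zero_pow (Nat.succ_ne_zero e), mul_zero] at h2
    exact hv h2.symm

/-- **Comparing `Q`-orders.**  Let `x ∈ Q k[[Q]]` be nonzero and `r = A(x⁻¹) / B(x⁻¹)` a quotient
of two polynomials in `x⁻¹` which is a unit power series.  Then `deg A = deg B` and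
`r = a(x) / b(x)` for the reversed polynomials `a, b`, which do not vanish at `0`. -/
theorem exists_reverse_quotient {x r : LaurentSeries k} (X₀ P : PowerSeries k)
    (hx : x = HahnSeries.ofPowerSeries ℤ k X₀) (hx0 : x ≠ 0)
    (hX₀ : PowerSeries.constantCoeff X₀ = 0)
    (hr : r = HahnSeries.ofPowerSeries ℤ k P) (hP : PowerSeries.constantCoeff P ≠ 0)
    (A B : Polynomial k) (hB : B.eval₂ HahnSeries.C x⁻¹ ≠ 0)
    (h : r * B.eval₂ HahnSeries.C x⁻¹ = A.eval₂ HahnSeries.C x⁻¹) :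
    A.natDegree = B.natDegree ∧ A.reverse.eval 0 ≠ 0 ∧ B.reverse.eval 0 ≠ 0 ∧
      r * B.reverse.eval₂ HahnSeries.C x = A.reverse.eval₂ HahnSeries.C x := by
  -- the reversal identity
  have hrev : ∀ p : Polynomial k,
      p.eval₂ HahnSeries.C x⁻¹ * x ^ p.natDegree = p.reverse.eval₂ HahnSeries.C x := by
    intro p
    have : Invertible x⁻¹ := invertibleOfNonzero (inv_ne_zero hx0)
    have h1 := Polynomial.eval₂_reverse_mul_pow (HahnSeries.C : k →+* LaurentSeries k) x⁻¹ p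
    rw [invOf_eq_inv, inv_inv] at h1
    rw [← h1, mul_assoc, ← mul_pow, inv_mul_cancel₀ hx0, one_pow, mul_one]
  -- polynomials in `X₀` as power series
  have hcomp : (HahnSeries.ofPowerSeries ℤ k).comp PowerSeries.C =
      (HahnSeries.C : k →+* LaurentSeries k) :=
    RingHom.ext fun c => HahnSeries.ofPowerSeries_C c
  have hpe : ∀ p : Polynomial k, HahnSeries.ofPowerSeries ℤ k (p.eval₂ PowerSeries.C X₀) =
      p.eval₂ HahnSeries.C x := by
    intro p
    rw [Polynomial.hom_eval₂, hcomp, ← hx]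
  have hcc : (PowerSeries.constantCoeff).comp PowerSeries.C = RingHom.id k :=
    RingHom.ext fun c => PowerSeries.constantCoeff_C c
  have hpc : ∀ p : Polynomial k,
      PowerSeries.constantCoeff (p.eval₂ PowerSeries.C X₀) = p.eval 0 := by
    intro p
    rw [Polynomial.hom_eval₂, hcc, hX₀, Polynomial.eval₂_id]
  -- nonvanishing
  have hB0 : B ≠ 0 := by
    rintro rfl
    exact hB (Polynomial.eval₂_zero _ _)
  have hP0 : P ≠ 0 := by
    rintro rfl
    exact hP (map_zero _)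
  have hr0 : r ≠ 0 := by
    rw [hr]
    exact fun h0 => hP0 (HahnSeries.ofPowerSeries_injective (by rw [h0, map_zero]))
  have hA0 : A ≠ 0 := by
    rintro rfl
    rw [Polynomial.eval₂_zero] at h
    exact mul_ne_zero hr0 hB h
  have hrev0 : ∀ p : Polynomial k, p ≠ 0 → p.reverse.eval 0 ≠ 0 := fun p hp => by
    rw [← Polynomial.coeff_zero_eq_eval_zero, Polynomial.coeff_zero_reverse]
    exact Polynomial.leadingCoeff_ne_zero.2 hp
  have hX₀ne : X₀ ≠ 0 := by
    rintro rfl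
    exact hx0 (by rw [hx, map_zero])
  -- the key identity in `k[[Q]]`
  have hkey : (P * B.reverse.eval₂ PowerSeries.C X₀) * X₀ ^ A.natDegree =
      A.reverse.eval₂ PowerSeries.C X₀ * X₀ ^ B.natDegree := by
    apply HahnSeries.ofPowerSeries_injective (Γ := ℤ)
    rw [map_mul, map_mul, map_mul, map_pow, map_pow, hpe, hpe, ← hx, ← hr, ← hrev A, ← hrev B,
      ← h]
    ring
  have hu : PowerSeries.constantCoeff (P * B.reverse.eval₂ PowerSeries.C X₀) ≠ 0 := by
    rw [map_mul, hpc]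
    exact mul_ne_zero hP (hrev0 B hB0)
  have hv : PowerSeries.constantCoeff (A.reverse.eval₂ PowerSeries.C X₀) ≠ 0 := by
    rw [hpc]
    exact hrev0 A hA0
  have hdeg : A.natDegree = B.natDegree := pow_eq_of_unit_mul hu hv hX₀ hX₀ne hkey
  refine ⟨hdeg, hrev0 A hA0, hrev0 B hB0, ?_⟩
  rw [hdeg] at hkey
  have h3 := mul_right_cancel₀ (pow_ne_zero _ hX₀ne) hkey
  have h4 := congrArg (HahnSeries.ofPowerSeries ℤ k) h3
  rwa [map_mul, hpe, hpe, ← hr] at h4

/-- The same with the two polynomials lifted along a surjective ring homomorphism `O → k`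
(e.g. the residue map of a local ring: then `a(0), b(0)` are units of `O`). -/
theorem exists_reverse_quotient_lift {O : Type*} [CommRing O] (res : O →+* k)
    (hres : Function.Surjective res) {x r : LaurentSeries k} (X₀ P : PowerSeries k)
    (hx : x = HahnSeries.ofPowerSeries ℤ k X₀) (hx0 : x ≠ 0)
    (hX₀ : PowerSeries.constantCoeff X₀ = 0)
    (hr : r = HahnSeries.ofPowerSeries ℤ k P) (hP : PowerSeries.constantCoeff P ≠ 0)
    (A B : Polynomial k) (hB : B.eval₂ HahnSeries.C x⁻¹ ≠ 0)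
    (h : r * B.eval₂ HahnSeries.C x⁻¹ = A.eval₂ HahnSeries.C x⁻¹) :
    ∃ a b : Polynomial O, res (a.coeff 0) ≠ 0 ∧ res (b.coeff 0) ≠ 0 ∧
      r * (b.map res).eval₂ HahnSeries.C x = (a.map res).eval₂ HahnSeries.C x := by
  obtain ⟨-, ha, hb, h'⟩ := exists_reverse_quotient X₀ P hx hx0 hX₀ hr hP A B hB h
  obtain ⟨a, haeq⟩ := Polynomial.map_surjective res hres A.reverse
  obtain ⟨b, hbeq⟩ := Polynomial.map_surjective res hres B.reverse
  refine ⟨a, b, ?_, ?_, ?_⟩
  · rw [← Polynomial.coeff_map, haeq, Polynomial.coeff_zero_eq_eval_zero]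
    exact ha
  · rw [← Polynomial.coeff_map, hbeq, Polynomial.coeff_zero_eq_eval_zero]
    exact hb
  · rw [haeq, hbeq]
    exact h'

end Reverse

/-! ### The series `ψ = θ j / j` -/

section Psi

variable (k : Type*) [Field k]

/-- `ψ = θ j / j ∈ k((Q))` (`= -E₆ / E₄` in characteristic `0`). -/
def psi : LaurentSeries k := theta (jqModC k) * (jqModC k)⁻¹

theorem jqModC_simple_pole :
    (∀ n : ℤ, n < -1 → (jqModC k).coeff n = 0) ∧ (jqModC k).coeff (-1) ≠ 0 :=
  ⟨fun _ hn => coeff_jqModC_of_lt k hn, by rw [coeff_jqModC_neg_one]; exact one_ne_zero⟩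

theorem jqModC_ne_zero_of_field : jqModC k ≠ 0 :=
  (exists_powerSeries_of_simple_pole (jqModC k) (jqModC_simple_pole k).1
    (jqModC_simple_pole k).2).1

/-- `j⁻¹ ∈ Q k[[Q]]`. -/
theorem exists_powerSeries_jqModC_inv :
    ∃ X₀ : PowerSeries k, (jqModC k)⁻¹ = HahnSeries.ofPowerSeries ℤ k X₀ ∧
      PowerSeries.constantCoeff X₀ = 0 :=
  (exists_powerSeries_of_simple_pole (jqModC k) (jqModC_simple_pole k).1
    (jqModC_simple_pole k).2).2.1

/-- **`ψ = θ j / j` is a power series with constant term `-1`** (in every characteristic). -/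
theorem exists_powerSeries_psi :
    ∃ P : PowerSeries k, psi k = HahnSeries.ofPowerSeries ℤ k P ∧
      PowerSeries.constantCoeff P = -1 :=
  (exists_powerSeries_of_simple_pole (jqModC k) (jqModC_simple_pole k).1
    (jqModC_simple_pole k).2).2.2

/-- `-ψ ^ n` is a unit power series. -/
theorem exists_powerSeries_neg_psi_pow (n : ℕ) :
    ∃ P : PowerSeries k, -(psi k) ^ n = HahnSeries.ofPowerSeries ℤ k P ∧
      PowerSeries.constantCoeff P ≠ 0 := by
  obtain ⟨P, hP, hP0⟩ := exists_powerSeries_psi k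
  refine ⟨-P ^ n, by rw [map_neg, map_pow, hP], ?_⟩
  rw [map_neg, map_pow, hP0]
  exact neg_ne_zero.2 (pow_ne_zero n (neg_ne_zero.2 one_ne_zero))

theorem psi_ne_zero : psi k ≠ 0 := by
  obtain ⟨P, hP, hP0⟩ := exists_powerSeries_psi k
  intro h0
  rw [h0] at hP
  have hP' : P = 0 := HahnSeries.ofPowerSeries_injective (by rw [← hP, map_zero])
  rw [hP', map_zero] at hP0
  exact neg_ne_zero.2 one_ne_zero hP0.symm

/-- **(KS) at the cusp, series form**: if `-ψ ^ n` is a rational function `A(j) / B(j)` of `j`,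
then it is `a(j⁻¹) / b(j⁻¹)` with `a(0), b(0) ≠ 0`. -/
theorem exists_quotient_neg_psi_pow (n : ℕ) (A B : Polynomial k)
    (hB : B.eval₂ HahnSeries.C (jqModC k) ≠ 0)
    (h : -(psi k) ^ n * B.eval₂ HahnSeries.C (jqModC k) = A.eval₂ HahnSeries.C (jqModC k)) :
    ∃ a b : Polynomial k, a.eval 0 ≠ 0 ∧ b.eval 0 ≠ 0 ∧
      -(psi k) ^ n * b.eval₂ HahnSeries.C (jqModC k)⁻¹ =
        a.eval₂ HahnSeries.C (jqModC k)⁻¹ := by
  obtain ⟨X₀, hX₀, hX₀c⟩ := exists_powerSeries_jqModC_inv k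
  obtain ⟨P, hP, hPc⟩ := exists_powerSeries_neg_psi_pow k n
  have hx0 : (jqModC k)⁻¹ ≠ 0 := inv_ne_zero (jqModC_ne_zero_of_field k)
  obtain ⟨-, ha, hb, h'⟩ := exists_reverse_quotient X₀ P hX₀ hx0 hX₀c hP hPc A B
    (by rwa [inv_inv]) (by rwa [inv_inv])
  exact ⟨A.reverse, B.reverse, ha, hb, h'⟩

/-- The same with `a, b` lifted along a surjection `O → k`. -/
theorem exists_quotient_neg_psi_pow_lift {O : Type*} [CommRing O] (res : O →+* k)
    (hres : Function.Surjective res) (n : ℕ) (A B : Polynomial k)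
    (hB : B.eval₂ HahnSeries.C (jqModC k) ≠ 0)
    (h : -(psi k) ^ n * B.eval₂ HahnSeries.C (jqModC k) = A.eval₂ HahnSeries.C (jqModC k)) :
    ∃ a b : Polynomial O, res (a.coeff 0) ≠ 0 ∧ res (b.coeff 0) ≠ 0 ∧
      -(psi k) ^ n * (b.map res).eval₂ HahnSeries.C (jqModC k)⁻¹ =
        (a.map res).eval₂ HahnSeries.C (jqModC k)⁻¹ := by
  obtain ⟨X₀, hX₀, hX₀c⟩ := exists_powerSeries_jqModC_inv k
  obtain ⟨P, hP, hPc⟩ := exists_powerSeries_neg_psi_pow k n
  have hx0 : (jqModC k)⁻¹ ≠ 0 := inv_ne_zero (jqModC_ne_zero_of_field k)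
  exact exists_reverse_quotient_lift res hres X₀ P hX₀ hx0 hX₀c hP hPc A B
    (by rwa [inv_inv]) (by rwa [inv_inv])

end Psi

/-! ### The middle-cusp expansion of `j(Q^{q²}) / j(Q) - 1` -/

section Gauss

variable (A : ValuationSubring Qb) {q : ℕ} [Fact q.Prime] {ξ : Qb}

/-- A Gauss-integral series with nonzero reduction is nonzero. -/
theorem ne_zero_of_gRel {x : LaurentSeries Qb} {y : LaurentSeries (IsLocalRing.ResidueField A)}
    (h : GRel A x y) (hy : y ≠ 0) : x ≠ 0 := by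
  rintro rfl
  have h0 : GRel A 0 0 := by
    have := S18.GRel.gRel_of_int A 0
    rwa [map_zero, map_zero] at this
  exact hy (S18.GRel.gRel_unique A 0 y 0 h h0)

/-- `x(ξ Q) / x(Q) - 1 = (ξ - 1) z` with `red z = θ y / y`, for Gauss-integral `x` with
reduction `y ≠ 0`. -/
theorem exists_gRel_div_sub_one (hA : A.LiesOverPrime q) (hξ : IsPrimitiveRoot ξ q)
    (hξ0 : ξ ≠ 0) {x : LaurentSeries Qb} {y : LaurentSeries (IsLocalRing.ResidueField A)}
    (h : GRel A x y) (hy : y ≠ 0) :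
    ∃ z : LaurentSeries Qb,
      rotHom ξ hξ0 x * x⁻¹ - 1 = HahnSeries.C (ξ - 1) * z ∧ GRel A z (theta y * y⁻¹) := by
  obtain ⟨z, hz, hzr⟩ := exists_gRel_rot_sub_xi A hA hξ hξ0 h
  have hx0 : x ≠ 0 := ne_zero_of_gRel A h hy
  refine ⟨z * x⁻¹, ?_, S18.GRel.gRel_mul A _ _ _ _ hzr (S18.GRel.gRel_inv A x y h hy)⟩
  rw [← mul_assoc, ← hz, sub_mul, mul_inv_cancel₀ hx0]

/-- `D = (ξ - 1) z` with `z` Gauss-integral ⟹ `D ^ (q - 1) = q z'` with
`red z' = -(red z) ^ (q - 1)`. -/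
theorem exists_gRel_pow_of_eq (hA : A.LiesOverPrime q) (hξ : IsPrimitiveRoot ξ q)
    {D z : LaurentSeries Qb} {y : LaurentSeries (IsLocalRing.ResidueField A)}
    (hD : D = HahnSeries.C (ξ - 1) * z) (hz : GRel A z y) :
    ∃ z' : LaurentSeries Qb,
      D ^ (q - 1) = HahnSeries.C (q : Qb) * z' ∧ GRel A z' (-y ^ (q - 1)) := by
  have hq : q.Prime := Fact.out
  have hξA : ξ ∈ A := Wit3Xi.xi_mem hξ
  obtain ⟨w, hw, -, hqw, c, hc, hwc⟩ := natCast_eq_pow_mul (B := A.toSubring) hq hξ hξA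
  have hw' : w ∈ A := hw
  have hc' : c ∈ A := hc
  have hz1 : ξ - 1 ∈ A := sub_mem hξA (one_mem A)
  have h0 : IsLocalRing.residue A (⟨ξ - 1, hz1⟩ : A) = 0 := by
    have e : (⟨ξ - 1, hz1⟩ : A) = ⟨ξ, hξA⟩ - 1 := rfl
    rw [e, map_sub, Wit3Xi.residue_xi hA hξ, map_one, sub_self]
  have hwres : IsLocalRing.residue A (⟨w, hw'⟩ : A) = -1 := by
    have e : (⟨w, hw'⟩ : A) = -1 + (⟨ξ - 1, hz1⟩ : A) * ⟨c, hc'⟩ := Subtype.ext hwc
    rw [e, map_add, map_mul, h0, zero_mul, add_zero, map_neg, map_one]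
  refine ⟨HahnSeries.C w * z ^ (q - 1), ?_, ?_⟩
  · rw [hD, mul_pow, ← map_pow, hqw, map_mul, mul_assoc]
  · have h1 := S18.GRel.gRel_mul A _ _ _ _ (gRel_C A ⟨w, hw'⟩) (gRel_npow A hz (q - 1))
    rw [hwres, map_neg, map_one, neg_one_mul] at h1
    exact h1

/-- `(x(ξ Q) / x(Q) - 1) ^ (q - 1) = q z` with `red z = -(θ y / y) ^ (q - 1)`. -/
theorem exists_gRel_pow_div_sub_one (hA : A.LiesOverPrime q) (hξ : IsPrimitiveRoot ξ q)
    (hξ0 : ξ ≠ 0) {x : LaurentSeries Qb} {y : LaurentSeries (IsLocalRing.ResidueField A)}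
    (h : GRel A x y) (hy : y ≠ 0) :
    ∃ z : LaurentSeries Qb,
      (rotHom ξ hξ0 x * x⁻¹ - 1) ^ (q - 1) = HahnSeries.C (q : Qb) * z ∧
        GRel A z (-(theta y * y⁻¹) ^ (q - 1)) := by
  obtain ⟨z, hz, hzr⟩ := exists_gRel_div_sub_one A hA hξ hξ0 h hy
  exact exists_gRel_pow_of_eq A hA hξ hz hzr

/-- **The middle-cusp expansion of `δ = j(Q^{q²}) / j(Q) - 1`**: `j(ξ Q) / j(Q) - 1 = (ξ - 1) z`
with `red z = ψ = θ j / j`. -/
theorem exists_gRel_jxi_div_sub_one (hA : A.LiesOverPrime q) (hξ : IsPrimitiveRoot ξ q)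
    (hξ0 : ξ ≠ 0) :
    ∃ z : LaurentSeries Qb,
      rotHom ξ hξ0 (jqModC Qb) * (jqModC Qb)⁻¹ - 1 = HahnSeries.C (ξ - 1) * z ∧
        GRel A z (psi (IsLocalRing.ResidueField A)) :=
  exists_gRel_div_sub_one A hA hξ hξ0 (S34.V12Rel.gRel_j A) (jqModC_ne_zero_of_field _)

/-- **The middle-cusp expansion of `δ ^ (q - 1) / q`**:
`(j(ξ Q) / j(Q) - 1) ^ (q - 1) = q z` with `red z = -ψ ^ (q - 1)`, a unit of `k[[Q]]`. -/
theorem exists_gRel_pow_jxi_div_sub_one (hA : A.LiesOverPrime q) (hξ : IsPrimitiveRoot ξ q)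
    (hξ0 : ξ ≠ 0) :
    ∃ z : LaurentSeries Qb,
      (rotHom ξ hξ0 (jqModC Qb) * (jqModC Qb)⁻¹ - 1) ^ (q - 1) = HahnSeries.C (q : Qb) * z ∧
        GRel A z (-(psi (IsLocalRing.ResidueField A)) ^ (q - 1)) :=
  exists_gRel_pow_div_sub_one A hA hξ hξ0 (S34.V12Rel.gRel_j A) (jqModC_ne_zero_of_field _)

/-- **The shape used by the (KS)-at-the-cusps assembly**: for `c = (1 - ξ) ^ (q - 1) · u` with
`u` a unit of `A` (e.g. the image of a uniformiser `π` of the unramified base),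
`(j(ξ Q) / j(Q) - 1) ^ (q - 1) / c` is Gauss-integral and its reduction is a power series with
nonzero constant term. -/
theorem exists_unit_gRel_jxi_div (hA : A.LiesOverPrime q) (hξ : IsPrimitiveRoot ξ q)
    (hξ0 : ξ ≠ 0) {c : Qb} (u : A) (hu : IsUnit u) (hc : c = (1 - ξ) ^ (q - 1) * (u : Qb)) :
    ∃ f : PowerSeries (IsLocalRing.ResidueField A), PowerSeries.constantCoeff f ≠ 0 ∧
      GRel A ((rotHom ξ hξ0 (jqModC Qb) * (jqModC Qb)⁻¹ - 1) ^ (q - 1) *
          (HahnSeries.C c : LaurentSeries Qb)⁻¹)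
        (HahnSeries.ofPowerSeries ℤ (IsLocalRing.ResidueField A) f) := by
  have hq : q.Prime := Fact.out
  obtain ⟨z, hz, hzr⟩ := exists_gRel_jxi_div_sub_one A hA hξ hξ0
  obtain ⟨P, hP, hP0⟩ := exists_powerSeries_psi (IsLocalRing.ResidueField A)
  obtain ⟨v, huv⟩ := hu.exists_right_inv
  have huv' : (u : Qb) * (v : Qb) = 1 := by
    have := congrArg (Subtype.val : A → Qb) huv
    simpa using this
  have he : ((-1 : Qb) ^ (q - 1)) * ((-1) ^ (q - 1)) = 1 := by
    rw [← mul_pow]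
    norm_num
  have heA : ((-1 : A) ^ (q - 1)) * ((-1) ^ (q - 1)) = 1 := by
    rw [← mul_pow]
    norm_num
  have h1 : (1 - ξ) ^ (q - 1) = (-1) ^ (q - 1) * (ξ - 1) ^ (q - 1) := by
    rw [← mul_pow]
    ring
  have hξ1 : ξ - 1 ≠ 0 := sub_ne_zero.2 (hξ.ne_one hq.one_lt)
  have hu0 : (u : Qb) ≠ 0 := left_ne_zero_of_mul_eq_one huv'
  have hc0 : c ≠ 0 := by
    rw [hc, h1]
    exact mul_ne_zero (mul_ne_zero (pow_ne_zero _ (neg_ne_zero.2 one_ne_zero))
      (pow_ne_zero _ hξ1)) hu0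
  -- the unit `w = (-1)^(q-1) u⁻¹` of `A`
  have hwc : (((-1 : A) ^ (q - 1) * v : A) : Qb) * c = (ξ - 1) ^ (q - 1) := by
    rw [hc, h1]
    push_cast
    linear_combination (ξ - 1) ^ (q - 1) * ((u : Qb) * (v : Qb)) * he +
      (ξ - 1) ^ (q - 1) * huv'
  have hwu : ((-1 : A) ^ (q - 1) * v) * ((-1) ^ (q - 1) * u) = 1 := by
    linear_combination (u * v) * heA + huv
  have hres : IsLocalRing.residue A ((-1 : A) ^ (q - 1) * v) ≠ 0 := by
    intro h0
    have h2 := congrArg (IsLocalRing.residue A) hwu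
    rw [map_mul, h0, zero_mul, map_one] at h2
    exact zero_ne_one h2
  have hC0 : (HahnSeries.C c : LaurentSeries Qb) ≠ 0 := by
    rw [Ne, map_eq_zero]
    exact hc0
  have hD : (rotHom ξ hξ0 (jqModC Qb) * (jqModC Qb)⁻¹ - 1) ^ (q - 1) *
      (HahnSeries.C c : LaurentSeries Qb)⁻¹ =
      HahnSeries.C (((-1 : A) ^ (q - 1) * v : A) : Qb) * z ^ (q - 1) := by
    rw [hz, mul_pow, ← map_pow, ← hwc, map_mul, mul_assoc, mul_assoc, mul_comm (z ^ (q - 1)),
      ← mul_assoc (HahnSeries.C c), mul_inv_cancel₀ hC0, one_mul]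
  refine ⟨PowerSeries.C (IsLocalRing.residue A ((-1 : A) ^ (q - 1) * v)) * P ^ (q - 1), ?_, ?_⟩
  · rw [map_mul, PowerSeries.constantCoeff_C, map_pow, hP0]
    exact mul_ne_zero hres (pow_ne_zero _ (neg_ne_zero.2 one_ne_zero))
  · rw [hD, map_mul, HahnSeries.ofPowerSeries_C, map_pow, ← hP]
    exact S18.GRel.gRel_mul A _ _ _ _ (gRel_C A _) (gRel_npow A hzr (q - 1))

/-- The same written with `jd Qb 1` (`S28`), as in `S36/V3.MidEmb.apply_jK / apply_jqqK2`. -/
theorem exists_unit_gRel_jd_div (hA : A.LiesOverPrime q) (hξ : IsPrimitiveRoot ξ q)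
    (hξ0 : ξ ≠ 0) {c : Qb} (u : A) (hu : IsUnit u) (hc : c = (1 - ξ) ^ (q - 1) * (u : Qb)) :
    ∃ f : PowerSeries (IsLocalRing.ResidueField A), PowerSeries.constantCoeff f ≠ 0 ∧
      GRel A ((rotHom ξ hξ0 (S28.jd Qb 1) * (S28.jd Qb 1)⁻¹ - 1) ^ (q - 1) *
          (HahnSeries.C c : LaurentSeries Qb)⁻¹)
        (HahnSeries.ofPowerSeries ℤ (IsLocalRing.ResidueField A) f) := by
  rw [S28.jd_one]
  exact exists_unit_gRel_jxi_div A hA hξ hξ0 u hu hc

end Gauss

end Fermat.Agent.S36.CuspSer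

end
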