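/-
S36 — CuspKS.lean (helper65).  Package [N10]/[CUSP3] (lead helper112), leaf [CUSP-c]:
"(KS) AT THE MIDDLE CUSPS".

Level `N = M q²`, `W3` the Gauss valuation ring of `F_K(N)` along the middle-cusp embedding
(`S36/V3.Hyp3`), `s = j_{q²} - j` its uniformiser, `π` the uniformiser of `O = A ∩ K`
(`π = (1 - ξ)^(q-1) · unit`).  The element

  `u = (j_{q²} / j - 1)^(q-1) / π`

is a unit of `W3`, and its `W3`-reduction is a unit of the local ring of the `j`-line at `j = ∞`:
there are polynomials `a, b ∈ O[X]` with UNIT constant coefficients such that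

  `u · b(1/j) - a(1/j) ∈ s · W3`.

(So `u` is a unit at every closed point of `W3` at which `1/j` vanishes: the cuspidal points,
whatever the cusp of the level-`M` curve below is.)

* k-side core (`exists_unit_polys`): a series `ρ ∈ k[[Q]]ˣ` with `ρ · b̄(j̄) = ā(j̄)`,
  `b̄(j̄) ≠ 0`, is `ā₁(1/j̄) / b̄₁(1/j̄)` with `a₁(0), b₁(0) ∈ Oˣ` (reflect the polynomials, strip
  the powers of `1/j̄ = Q · unit`, compare constant coefficients in `k[[Q]]`);
* `gRel_aeval_inv`: the `W3`-reduction of `c(1/j)`, `c ∈ O[X]`;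
* `apply_uK`: the series of `u` along ANY middle-cusp embedding, at ANY level `M q²`
  (it only involves `j`, `j_{q²}` and `π`: it is the same series at level `1 · q²`);
* `exists_polys`: the statement above, from
    - `hf3` : residue degree one of `W3` over level ONE (the `hf3` of `S36/Level3`/`ResDeg3G`
      at `M = 1`), in hypothesis form,
    - `S36/CuspRat.exists_rat` (helper129): Gauss reductions of `F_K(1) = K(j)` lie in `k(j̄)`,
    - `S36/CuspSer.exists_unit_gRel_jd_div` (helper106): the series of `u` reduces to a unit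
      power series.
-/
import Mathlib
import Fermat.Agent.S18.QExpDefs
import Fermat.Agent.S18.ModelQFrac
import Fermat.Agent.S18.ModelRed
import Fermat.Agent.S18.GRel
import Fermat.Agent.S36.V3
import Fermat.Agent.S36.CuspRat
import Fermat.Agent.S36.CuspSer

set_option autoImplicit false

noncomputable section

namespace Fermat.Agent.S36.CuspKS

open ModularCurve ModularCurve.IgusaScheme HahnSeries
open Fermat.Agent.S18.Arith Fermat.Agent.S18.ModelPlan Fermat.Agent.S18.QExpDefs
open Fermat.Agent.S18.ModelQFrac (jInvL jqModC_mul_jInvL)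
open Fermat.Agent.S24 Fermat.Agent.S28

/-! ### `1 / j̄` as a power series -/

section XPS

variable (k : Type*) [CommRing k]

/-- `1 / j̄ = Q · (unit)` as a power series. -/
def xps : PowerSeries k :=
  PowerSeries.X * (jNum.invOfUnit 1).map (Int.castRingHom k)

theorem ofPowerSeries_xps : HahnSeries.ofPowerSeries ℤ k (xps k) = jInvL k := by
  rw [xps, map_mul, HahnSeries.ofPowerSeries_X]
  rfl

theorem constantCoeff_xps : PowerSeries.constantCoeff (xps k) = 0 := by
  rw [xps, map_mul, PowerSeries.constantCoeff_X, zero_mul]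

theorem xps_ne_zero [Nontrivial k] : xps k ≠ 0 := by
  intro h
  have h1 := jqModC_mul_jInvL k
  rw [← ofPowerSeries_xps, h, map_zero, mul_zero] at h1
  exact zero_ne_one h1

end XPS

/-! ### Evaluation of `O`-polynomials at `1 / j̄` -/

section Core

variable (A : ValuationSubring Qb) (K : IntermediateField ℚ Qb)

/-- Evaluation at `1 / j̄`, in power series over the residue field. -/
def evPS : Polynomial (OK A K) →+* PowerSeries (IsLocalRing.ResidueField A) :=
  Polynomial.eval₂RingHom ((PowerSeries.C).comp (resO A K)) (xps _)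

/-- Evaluation at `1 / j̄`, in Laurent series over the residue field. -/
def evInv : Polynomial (OK A K) →+* LaurentSeries (IsLocalRing.ResidueField A) :=
  Polynomial.eval₂RingHom (ιbar A K) (jInvL _)

theorem evPS_apply (c : Polynomial (OK A K)) :
    evPS A K c = c.eval₂ ((PowerSeries.C).comp (resO A K)) (xps _) := rfl

theorem evInv_apply (c : Polynomial (OK A K)) :
    evInv A K c = c.eval₂ (ιbar A K) (jInvL _) := rfl

theorem ofPowerSeries_evPS (c : Polynomial (OK A K)) :
    HahnSeries.ofPowerSeries ℤ _ (evPS A K c) = evInv A K c := by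
  rw [evPS_apply, evInv_apply, Polynomial.hom_eval₂, ofPowerSeries_xps]
  congr 1
  ext o : 1
  rw [RingHom.comp_apply, RingHom.comp_apply, HahnSeries.ofPowerSeries_C, ιbar_apply]

theorem constantCoeff_evPS (c : Polynomial (OK A K)) :
    PowerSeries.constantCoeff (evPS A K c) = resO A K (c.coeff 0) := by
  rw [evPS_apply, Polynomial.hom_eval₂, constantCoeff_xps, Polynomial.eval₂_at_zero,
    RingHom.comp_apply, RingHom.comp_apply, PowerSeries.constantCoeff_C]

theorem evPS_C (o : OK A K) :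
    evPS A K (Polynomial.C o) = PowerSeries.C (resO A K o) := by
  rw [evPS_apply, Polynomial.eval₂_C, RingHom.comp_apply]

theorem evPS_X : evPS A K Polynomial.X = xps _ := by
  rw [evPS_apply, Polynomial.eval₂_X]

/-- `c(1/j̄) · j̄^d = (reflected c)(j̄)`. -/
theorem evInv_reflect_mul_pow (c : Polynomial (OK A K)) {d : ℕ} (hd : c.natDegree ≤ d) :
    evInv A K (c.reflect d) * jqModC (IsLocalRing.ResidueField A) ^ d = evbar A K c := by
  let _ : Invertible (jqModC (IsLocalRing.ResidueField A)) :=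
    ⟨jInvL _, by rw [mul_comm]; exact jqModC_mul_jInvL _, jqModC_mul_jInvL _⟩
  exact Polynomial.eval₂_reflect_mul_pow (ιbar A K) (jqModC _) d c hd

/-- A polynomial with nonzero value at `1 / j̄` is `(1/j̄)^n` times the value of a polynomial with
unit constant coefficient. -/
theorem exists_pow_mul (c : Polynomial (OK A K)) (hc : evPS A K c ≠ 0) :
    ∃ (n : ℕ) (c₁ : Polynomial (OK A K)), resO A K (c₁.coeff 0) ≠ 0 ∧
      evPS A K c = xps _ ^ n * evPS A K c₁ := by
  induction' h : c.natDegree using Nat.strong_induction_on with m ih generalizing c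
  by_cases h0 : resO A K (c.coeff 0) = 0
  · have hdec : evPS A K c = xps _ * evPS A K c.divX := by
      conv_lhs => rw [← Polynomial.divX_mul_X_add c]
      rw [map_add, map_mul, evPS_C, evPS_X, h0, map_zero, add_zero, mul_comm]
    have hdiv : evPS A K c.divX ≠ 0 := by
      intro h1
      rw [hdec, h1, mul_zero] at hc
      exact hc rfl
    have hm : m ≠ 0 := by
      rintro rfl
      apply hc
      rw [Polynomial.eq_C_of_natDegree_eq_zero h, evPS_C, h0, map_zero]
    have hdeg : c.divX.natDegree < m := by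
      rw [Polynomial.natDegree_divX_eq_natDegree_tsub_one, h]
      omega
    obtain ⟨n, c₁, hc₁, hn⟩ := ih _ hdeg c.divX hdiv rfl
    exact ⟨n + 1, c₁, hc₁, by rw [hdec, hn, pow_succ]; ring⟩
  · exact ⟨0, c, h0, by rw [pow_zero, one_mul]⟩

/-- **k-side core.**  A series `ρ ∈ k[[Q]]ˣ` which is a rational function of `j̄` is
`ā(1/j̄) / b̄(1/j̄)` for polynomials `a, b` over `O` with unit constant coefficients. -/
theorem exists_unit_polys (ρ : LaurentSeries (IsLocalRing.ResidueField A))
    (f : PowerSeries (IsLocalRing.ResidueField A)) (hf : PowerSeries.constantCoeff f ≠ 0)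
    (hρ : ρ = HahnSeries.ofPowerSeries ℤ _ f)
    (a'' b'' : Polynomial (OK A K)) (hb'' : evbar A K b'' ≠ 0)
    (hab : ρ * evbar A K b'' = evbar A K a'') :
    ∃ a b : Polynomial (OK A K), IsUnit (a.coeff 0) ∧ IsUnit (b.coeff 0) ∧
      ρ * evInv A K b = evInv A K a := by
  set d := max a''.natDegree b''.natDegree with hd
  set a' := a''.reflect d with ha'
  set b' := b''.reflect d with hb'
  have hj : jqModC (IsLocalRing.ResidueField A) ^ d ≠ 0 :=
    pow_ne_zero _ (jqModC_ne_zero_of_nontrivial _)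
  have h1 : ρ * evInv A K b' = evInv A K a' := by
    apply mul_right_cancel₀ hj
    rw [mul_assoc, evInv_reflect_mul_pow A K b'' (le_max_right _ _),
      evInv_reflect_mul_pow A K a'' (le_max_left _ _), hab]
  have hbI : evInv A K b' ≠ 0 := by
    intro h0
    apply hb''
    rw [← evInv_reflect_mul_pow A K b'' (le_max_right _ _), ← hb', h0, zero_mul]
  have hinj : Function.Injective (HahnSeries.ofPowerSeries ℤ (IsLocalRing.ResidueField A)) :=
    HahnSeries.ofPowerSeries_injective
  have h2 : f * evPS A K b' = evPS A K a' := by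
    apply hinj
    rw [map_mul, ofPowerSeries_evPS, ofPowerSeries_evPS, ← hρ, h1]
  have hbP : evPS A K b' ≠ 0 := by
    intro h0
    apply hbI
    rw [← ofPowerSeries_evPS, h0, map_zero]
  have hf0 : f ≠ 0 := by
    rintro rfl
    exact hf (by simp)
  have haP : evPS A K a' ≠ 0 := by
    rw [← h2]
    exact mul_ne_zero hf0 hbP
  obtain ⟨α, a, ha, hα⟩ := exists_pow_mul A K a' haP
  obtain ⟨β, b, hb, hβ⟩ := exists_pow_mul A K b' hbP
  have hx : xps (IsLocalRing.ResidueField A) ≠ 0 := xps_ne_zero _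
  have key : f * (xps (IsLocalRing.ResidueField A) ^ β * evPS A K b) = xps (IsLocalRing.ResidueField A) ^ α * evPS A K a := by
    rw [← hα, ← hβ, h2]
  have hfin : f * evPS A K b = evPS A K a := by
    rcases lt_trichotomy α β with hlt | heq | hgt
    · exfalso
      obtain ⟨t, rfl⟩ : ∃ t, β = α + (t + 1) := ⟨β - α - 1, by omega⟩
      have h3 : xps (IsLocalRing.ResidueField A) ^ α *
          (f * (xps (IsLocalRing.ResidueField A) ^ (t + 1) * evPS A K b)) =
          xps (IsLocalRing.ResidueField A) ^ α * evPS A K a := by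
        rw [_root_.pow_add] at key
        linear_combination key
      have h4 := mul_left_cancel₀ (pow_ne_zero α hx) h3
      have h5 := congrArg PowerSeries.constantCoeff h4
      rw [map_mul, map_mul, map_pow, constantCoeff_xps, zero_pow (Nat.succ_ne_zero t), zero_mul,
        mul_zero, constantCoeff_evPS] at h5
      exact ha h5.symm
    · subst heq
      have h3 : xps (IsLocalRing.ResidueField A) ^ α * (f * evPS A K b) =
          xps (IsLocalRing.ResidueField A) ^ α * evPS A K a := by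
        linear_combination key
      exact mul_left_cancel₀ (pow_ne_zero α hx) h3
    · exfalso
      obtain ⟨t, rfl⟩ : ∃ t, α = β + (t + 1) := ⟨α - β - 1, by omega⟩
      have h3 : xps (IsLocalRing.ResidueField A) ^ β * (f * evPS A K b) =
          xps (IsLocalRing.ResidueField A) ^ β *
            (xps (IsLocalRing.ResidueField A) ^ (t + 1) * evPS A K a) := by
        rw [_root_.pow_add] at key
        linear_combination key
      have h4 := mul_left_cancel₀ (pow_ne_zero β hx) h3
      have h5 := congrArg PowerSeries.constantCoeff h4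
      rw [map_mul, map_mul, map_pow, constantCoeff_xps, zero_pow (Nat.succ_ne_zero t), zero_mul,
        constantCoeff_evPS] at h5
      exact mul_ne_zero hf hb h5
  refine ⟨a, b, ?_, ?_, ?_⟩
  · by_contra hu
    exact ha (Fermat.Agent.S18.ModelRed.resO_eq_zero_of_not_isUnit K _ hu)
  · by_contra hu
    exact hb (Fermat.Agent.S18.ModelRed.resO_eq_zero_of_not_isUnit K _ hu)
  · rw [hρ, ← ofPowerSeries_evPS, ← ofPowerSeries_evPS, ← map_mul, hfin]

end Core


/-! ### The `W3` side -/

section W3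

variable {M q : ℕ} [NeZero M] [NeZero q] {hq : q.Prime} {hqM : ¬ q ∣ M}
variable {A : ValuationSubring Qb} {K K' : IntermediateField ℚ Qb}
variable {ξ : Qb} {hξ0 : ξ ≠ 0} {em : FK (M * q * q) K →+* LaurentSeries Qb}

/-- `(1/j̄)` is the inverse of `j̄`. -/
theorem jqModC_inv_eq (k : Type*) [Field k] : (jqModC k)⁻¹ = jInvL k :=
  inv_eq_of_mul_eq_one_right (jqModC_mul_jInvL k)

/-- The Gauss reduction of `1 / j` along a middle-cusp embedding. -/
theorem gRel_jK_inv (h : V3.MidEmb M q hq hqM K ξ hξ0 em) (A : ValuationSubring Qb) :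
    GRel A (em (jK (M * q * q) K)⁻¹) (jInvL (IsLocalRing.ResidueField A)) := by
  have G : GRelFacts A := Fermat.Agent.S18.GRel.gRelStatement A
  have h1 : GRel A (jd Qb 1) (jqModC (IsLocalRing.ResidueField A)) := by
    have h2 := gRel_jΩ G
    rwa [jΩ_eq, ← jd_one] at h2
  have h3 := G.inv _ _ h1 (jqModC_ne_zero_of_nontrivial _)
  rwa [jqModC_inv_eq, ← h.apply_jK, ← map_inv₀] at h3

/-- The constants along a middle-cusp embedding. -/
theorem apply_algebraMap (h : V3.MidEmb M q hq hqM K ξ hξ0 em) (A : ValuationSubring Qb)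
    (c : OK A K) :
    em (algebraMap (OK A K) (FK (M * q * q) K) c) = (C (incO A K c) : LaurentSeries Qb) :=
  h.const (c : K)

/-- **The `W3`-reduction of `c(1/j)`, `c ∈ O[X]`.** -/
theorem gRel_aeval_inv (h : V3.MidEmb M q hq hqM K ξ hξ0 em) (A : ValuationSubring Qb)
    (c : Polynomial (OK A K)) :
    GRel A (em (Polynomial.aeval (jK (M * q * q) K)⁻¹ c)) (evInv A K c) := by
  have G : GRelFacts A := Fermat.Agent.S18.GRel.gRelStatement A
  induction c using Polynomial.induction_on' with
  | add p r hp hr =>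
    rw [map_add, map_add, map_add]
    exact G.add _ _ _ _ hp hr
  | monomial n a =>
    rw [Polynomial.aeval_monomial, map_mul, map_pow, evInv_apply, Polynomial.eval₂_monomial,
      apply_algebraMap h A a]
    exact G.mul _ _ _ _ (gRel_ι G a) (gRel_pow G (gRel_jK_inv h A) n)

variable (M q hq hqM K) in
/-- **The element `u = (j_{q²} / j - 1)^(q-1) / π`** of `F_K(M q²)`. -/
def uK (A : ValuationSubring Qb) (π : OK A K) : FK (M * q * q) K :=
  (WQ2.jqqK2 M q hq hqM K * (jK (M * q * q) K)⁻¹ - 1) ^ (q - 1) *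
    (algebraMap (OK A K) (FK (M * q * q) K) π)⁻¹

variable (q K) in
/-- The series of `u` along a middle-cusp embedding (level-independent). -/
def uSer (A : ValuationSubring Qb) (ξ : Qb) (hξ0 : ξ ≠ 0) (π : OK A K) : LaurentSeries Qb :=
  (rotHom ξ hξ0 (jd Qb 1) * (jd Qb 1)⁻¹ - 1) ^ (q - 1) *
    (C (incO A K π) : LaurentSeries Qb)⁻¹

/-- The series of `u` along ANY middle-cusp embedding, at ANY level `M q²`. -/
theorem apply_uK (h : V3.MidEmb M q hq hqM K ξ hξ0 em) (A : ValuationSubring Qb) (π : OK A K) :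
    em (uK M q hq hqM K A π) = uSer q K A ξ hξ0 π := by
  rw [uK, uSer, map_mul, map_pow, map_sub, map_mul, map_inv₀, map_inv₀, map_one,
    h.apply_jqqK2, h.apply_jK, apply_algebraMap h A π]

/-- **[CUSP-c] "(KS) at the middle cusps", hypothesis form over `hf3` at level one and the
series fact.**  -/
theorem exists_polys_of_series {ϖ : OK A K'} (H : V3.Hyp3 M q hq hqM A K K' ξ hξ0 em ϖ)
    (hdvr : IsDiscreteValuationRing (OK A K)) (π : OK A K)
    (hq1 : ¬ q ∣ 1) (em₁ : FK (1 * q * q) K →+* LaurentSeries Qb)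
    (h₁ : V3.MidEmb 1 q hq hq1 K ξ hξ0 em₁)
    (hf3 : ∀ (x : FK (1 * q * q) K) (y : LaurentSeries (IsLocalRing.ResidueField A)),
      GRel A (em₁ x) y → ∃ x' : FK 1 K, GRel A ((x' : FK 1 K) : LaurentSeries Qb) y)
    (hser : ∃ f : PowerSeries (IsLocalRing.ResidueField A), PowerSeries.constantCoeff f ≠ 0 ∧
      GRel A (uSer q K A ξ hξ0 π) (HahnSeries.ofPowerSeries ℤ (IsLocalRing.ResidueField A) f)) :
    ∃ ρ : LaurentSeries (IsLocalRing.ResidueField A), ρ ≠ 0 ∧
      GRel A (em (uK M q hq hqM K A π)) ρ ∧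
      ∃ a b : Polynomial (OK A K), IsUnit (a.coeff 0) ∧ IsUnit (b.coeff 0) ∧
        ρ * evInv A K b = evInv A K a ∧
        GRel A (em (uK M q hq hqM K A π * Polynomial.aeval (jK (M * q * q) K)⁻¹ b
          - Polynomial.aeval (jK (M * q * q) K)⁻¹ a)) 0 := by
  have G : GRelFacts A := Fermat.Agent.S18.GRel.gRelStatement A
  obtain ⟨f, hf, hU⟩ := hser
  set ρ : LaurentSeries (IsLocalRing.ResidueField A) :=
    HahnSeries.ofPowerSeries ℤ (IsLocalRing.ResidueField A) f with hρ
  have hρ0 : ρ ≠ 0 := by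
    intro h0
    apply hf
    have h1 : f = 0 := HahnSeries.ofPowerSeries_injective (by rw [← hρ, h0, map_zero])
    rw [h1, map_zero]
  have hu : GRel A (em (uK M q hq hqM K A π)) ρ := by
    rw [apply_uK H.mid A π]
    exact hU
  have hu₁ : GRel A (em₁ (uK 1 q hq hq1 K A π)) ρ := by
    rw [apply_uK h₁ A π]
    exact hU
  obtain ⟨x', hx'⟩ := hf3 _ _ hu₁
  obtain ⟨a'', b'', hb'', hab⟩ := CuspRat.exists_rat A K hdvr x' ρ hx' hρ0
  obtain ⟨a, b, ha, hb, hfin⟩ := exists_unit_polys A K ρ f hf hρ a'' b'' hb'' hab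
  refine ⟨ρ, hρ0, hu, a, b, ha, hb, hfin, ?_⟩
  have h1 := G.add _ _ _ _ (G.mul _ _ _ _ hu (gRel_aeval_inv H.mid A b))
    (G.neg _ _ (gRel_aeval_inv H.mid A a))
  rw [hfin, add_neg_cancel, ← map_mul, ← map_neg, ← map_add, ← sub_eq_add_neg] at h1
  exact h1

/-- **[CUSP-c] "(KS) at the middle cusps".**  With `u = (j_{q²}/j - 1)^(q-1) / π`:
`u ∈ W3ˣ`, and `u · b(1/j) - a(1/j) ∈ s · W3` for polynomials `a, b ∈ O[X]` with unit constant
coefficients.  Hypothesis: residue degree one of `W3` over level ONE (`hf3`, for one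
middle-cusp embedding `em₁` of level `1 · q²` with the same `ξ`). -/
theorem exists_polys [Fact q.Prime] {ϖ : OK A K'}
    (H : V3.Hyp3 M q hq hqM A K K' ξ hξ0 em ϖ) (hA : A.LiesOverPrime q)
    (hdvr : IsDiscreteValuationRing (OK A K)) (π : OK A K)
    (hπ : ∃ u : A, IsUnit u ∧ incO A K π = incO A K' ϖ ^ (q - 1) * (u : Qb))
    (hq1 : ¬ q ∣ 1) (em₁ : FK (1 * q * q) K →+* LaurentSeries Qb)
    (h₁ : V3.MidEmb 1 q hq hq1 K ξ hξ0 em₁)
    (hf3 : ∀ (x : FK (1 * q * q) K) (y : LaurentSeries (IsLocalRing.ResidueField A)),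
      GRel A (em₁ x) y → ∃ x' : FK 1 K, GRel A ((x' : FK 1 K) : LaurentSeries Qb) y) :
    uK M q hq hqM K A π ∈ H.W3 ∧ (uK M q hq hqM K A π)⁻¹ ∈ H.W3 ∧
    ∃ a b : Polynomial (OK A K), IsUnit (a.coeff 0) ∧ IsUnit (b.coeff 0) ∧
      ∃ z ∈ H.W3, uK M q hq hqM K A π * Polynomial.aeval (jK (M * q * q) K)⁻¹ b
          - Polynomial.aeval (jK (M * q * q) K)⁻¹ a = Wit3.sE M q hq hqM K * z := by
  have hξ : IsPrimitiveRoot ξ q := by
    have h1 : orderOf ξ = q := orderOf_eq_prime H.xi_pow H.xi_ne
    rw [← h1]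
    exact IsPrimitiveRoot.orderOf ξ
  obtain ⟨u₀, hu₀, hπu⟩ := hπ
  rw [H.coe_unif] at hπu
  have hser := CuspSer.exists_unit_gRel_jd_div A hA hξ hξ0 u₀ hu₀ hπu
  obtain ⟨ρ, hρ0, hu, a, b, ha, hb, -, hz⟩ :=
    exists_polys_of_series H hdvr π hq1 em₁ h₁ hf3 hser
  have huW : uK M q hq hqM K A π ∈ H.W3 := H.mem_W3_of_gRel hu
  refine ⟨huW, ?_, a, b, ha, hb, ?_⟩
  · have h1 : H.red3 ⟨_, huW⟩ = ρ := H.red3_eq_of_gRel ⟨_, huW⟩ hu
    exact H.inv_mem ⟨_, huW⟩ (by rw [h1]; exact hρ0)
  · have hW := H.mem_W3_of_gRel hz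
    have h1 : H.red3 ⟨_, hW⟩ = 0 := H.red3_eq_of_gRel ⟨_, hW⟩ hz
    exact (H.red3_eq_zero_iff ⟨_, hW⟩).mp h1

end W3

end Fermat.Agent.S36.CuspKS
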