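/-
S36 — CuspReg.lean (helper11): leaf [CUSP-a] of the cuspidal (B1) block (helper112, board #3197).

REGULARITY AT THE CUSPS of the four "Kronecker quotients"
`j_q / j^q`, `j_{q²} / j_q^q`, `j / j_q^q`, `j_q / j_{q²}^q` and of the monomials built from
them, i.e. membership in the chart at infinity `chart (M q²) A K J3⁻¹` (`J3 = j · j_q · j_{q²}`).

Route (pure algebra on the formal input of S28, no places, no classification of cusps):

* (A) `chiL K p f`, the characteristic polynomial of multiplication by `f` on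
  `K((t)) = ⊕_{i < p} tⁱ K((tᵖ))`, has coefficients with at most a SIMPLE pole when `f` has at
  most a simple pole (`chiL_coeff_reg`): the matrix `mulMat` has a single entry with a pole;
* (B) for `hd : S28.HeckeData q`, `S28.eq_linear_mul_chiL` gives
  `Φ_q(X, j) = (X - j(x^q)) · chiL (j)`, hence the DEGREE BOUNDS
  `deg_Y (coeff_i Φ_q) ≤ q + 1` and `deg_Y (coeff_q Φ_q) ≤ q` (`natDegree_coeff_le`,
  `natDegree_coeff_self_le`, combined in `natDegree_coeff_le_mul`);
* (C) hence, in any field `E` and for any pair `(a, b)` with `Φ_q(b, a) = 0`, `a ≠ 0`: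
  `b / a^q` is integral over `ℤ[1/a]` (`isIntegral_div_pow`);
* (D) the modular instances at level `M q²`.
-/
import Mathlib
import Fermat.Agent.S28.FormalUnique
import Fermat.Agent.S28.HeckeOrdersB
import Fermat.Agent.S28.TowerDefs
import Fermat.Agent.S28.ClaimA

set_option autoImplicit false

noncomputable section

namespace Fermat.Agent.S36.CuspReg

open Polynomial ModularCurve Fermat.Agent.S28

/-! ### (A) Laurent series without polar part, and the poles of `chiL` -/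

section Reg

variable (K : Type*) [Field K]

/-- The subring of Laurent series without polar part (the image of the power series). -/
def regSub : Subring (LaurentSeries K) := (HahnSeries.ofPowerSeries ℤ K).range

variable {K}

theorem mem_regSub_iff {g : LaurentSeries K} : g ∈ regSub K ↔ ∀ n : ℤ, n < 0 → g.coeff n = 0 := by
  constructor
  · rintro ⟨u, rfl⟩ n hn
    exact ofPowerSeries_coeff_of_neg u hn
  · intro h
    refine ⟨PowerSeries.mk fun n => g.coeff n, ?_⟩
    ext k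
    rcases lt_or_ge k 0 with hk | hk
    · rw [h k hk]
      exact ofPowerSeries_coeff_of_neg _ hk
    · obtain ⟨m, rfl⟩ := Int.eq_ofNat_of_zero_le hk
      rw [HahnSeries.ofPowerSeries_apply_coeff, PowerSeries.coeff_mk]

/-- The uniformiser `x`. -/
def qs (K : Type*) [Field K] : LaurentSeries K := HahnSeries.single (1 : ℤ) (1 : K)

theorem qs_pow (D : ℕ) : qs K ^ D = HahnSeries.single (D : ℤ) (1 : K) := by
  rw [qs, HahnSeries.single_pow, one_pow]
  simp

theorem coeff_qs_pow_mul (D : ℕ) (g : LaurentSeries K) (n : ℤ) :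
    (qs K ^ D * g).coeff n = g.coeff (n - D) := by
  rw [qs_pow, HahnSeries.coeff_single_mul, one_mul]

theorem qs_pow_mul_mem_iff {D : ℕ} {g : LaurentSeries K} :
    qs K ^ D * g ∈ regSub K ↔ ∀ n : ℤ, n < -(D : ℤ) → g.coeff n = 0 := by
  rw [mem_regSub_iff]
  constructor
  · intro h n hn
    have := h (n + D) (by omega)
    rwa [coeff_qs_pow_mul, add_sub_cancel_right] at this
  · intro h n hn
    rw [coeff_qs_pow_mul]
    exact h _ (by omega)

theorem qs_mem : qs K ∈ regSub K := by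
  rw [mem_regSub_iff]
  intro n hn
  rw [qs, HahnSeries.coeff_single_of_ne (by omega)]

/-- The determinant of a matrix with entries in a subring lies in the subring. -/
theorem det_mem_subring {R : Type*} [CommRing R] {n : Type*} [Fintype n] [DecidableEq n]
    (S : Subring R) (A : Matrix n n R) (h : ∀ i j, A i j ∈ S) : A.det ∈ S := by
  rw [Matrix.det_apply']
  refine S.sum_mem fun σ _ => S.mul_mem ?_ (S.prod_mem fun i _ => h _ _)
  exact intCast_mem S _

end Reg

section Chi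

variable {K : Type*} [Field K] (p : ℕ) [NeZero p]

theorem secL_mem {f : LaurentSeries K} (hf : ∀ m : ℤ, m < -1 → f.coeff m = 0) {r : ℤ}
    (hr : r < (p : ℤ) - 1) : secL K p r f ∈ regSub K := by
  rw [mem_regSub_iff]
  intro n hn
  rw [secL_coeff]
  apply hf
  have hp : (1 : ℤ) ≤ p := by exact_mod_cast Nat.pos_of_ne_zero (NeZero.ne p)
  nlinarith

theorem qs_mul_secL_mem {f : LaurentSeries K} (hf : ∀ m : ℤ, m < -1 → f.coeff m = 0) {r : ℤ}
    (hr : r ≤ (p : ℤ) - 1) : qs K * secL K p r f ∈ regSub K := by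
  have h : qs K ^ 1 * secL K p r f ∈ regSub K := by
    rw [qs_pow_mul_mem_iff]
    intro n hn
    rw [secL_coeff]
    apply hf
    have hp : (1 : ℤ) ≤ p := by exact_mod_cast Nat.pos_of_ne_zero (NeZero.ne p)
    have hn' : n ≤ -2 := by
      have : n < -((1 : ℕ) : ℤ) := hn
      omega
    nlinarith
  rwa [pow_one] at h

/-- **(A)** If `f` has at most a simple pole, every coefficient of `chiL K p f` has at most a
simple pole. -/
theorem chiL_coeff_reg {f : LaurentSeries K} (hf : ∀ m : ℤ, m < -1 → f.coeff m = 0) (i : ℕ) :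
    qs K * (chiL K p f).coeff i ∈ regSub K := by
  classical
  set l : Fin p := ⟨p - 1, Nat.sub_lt (Nat.pos_of_ne_zero (NeZero.ne p)) one_pos⟩ with hl
  set S : Subring (LaurentSeries K)[X] :=
    (Polynomial.mapRingHom (regSub K).subtype).range with hS
  have hX : (X : (LaurentSeries K)[X]) ∈ S := ⟨X, by simp⟩
  have hC : ∀ g ∈ regSub K, (C g : (LaurentSeries K)[X]) ∈ S := fun g hg => ⟨C ⟨g, hg⟩, by simp⟩
  have hcoeff : ∀ P ∈ S, ∀ i, P.coeff i ∈ regSub K := by
    rintro _ ⟨P', rfl⟩ i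
    rw [Polynomial.coe_mapRingHom, Polynomial.coeff_map]
    exact (P'.coeff i).2
  set D : Matrix (Fin p) (Fin p) (LaurentSeries K)[X] :=
    Matrix.diagonal (fun i => if i = l then C (qs K) else 1) with hD
  have hdetD : D.det = C (qs K) := by
    rw [hD, Matrix.det_diagonal, Finset.prod_ite_eq' Finset.univ l (fun _ => C (qs K)),
      if_pos (Finset.mem_univ l)]
  have hdet : (D * Matrix.charmatrix (mulMat K p f)).det = C (qs K) * chiL K p f := by
    rw [Matrix.det_mul, hdetD]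
    rfl
  have hmem : (D * Matrix.charmatrix (mulMat K p f)).det ∈ S := by
    apply det_mem_subring
    intro i k
    rw [hD, Matrix.diagonal_mul, Matrix.charmatrix_apply]
    have hdiag : (Matrix.diagonal fun _ : Fin p => (X : (LaurentSeries K)[X])) i k ∈ S := by
      rw [Matrix.diagonal_apply]
      split_ifs
      exacts [hX, S.zero_mem]
    by_cases hi : i = l
    · rw [if_pos hi, mul_sub, ← C_mul]
      refine S.sub_mem (S.mul_mem (hC _ qs_mem) hdiag) (hC _ ?_)
      rw [mulMat_apply]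
      apply qs_mul_secL_mem p hf
      have h1 := i.2
      omega
    · rw [if_neg hi, one_mul]
      refine S.sub_mem hdiag (hC _ ?_)
      rw [mulMat_apply]
      apply secL_mem p hf
      have hi' : (i : ℕ) ≠ p - 1 := fun h => hi (Fin.ext h)
      have h1 := i.2
      omega
  rw [hdet] at hmem
  have h := hcoeff _ hmem i
  rwa [Polynomial.coeff_C_mul] at h

end Chi

/-! ### (B) Degree bounds for the modular polynomial -/

section Phi

variable {q : ℕ} [NeZero q]

theorem jd_one_coeff_of_lt {m : ℤ} (hm : m < -1) : (jd ℚ 1).coeff m = 0 := by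
  rw [jd_rat_one]
  exact coeff_jq_of_lt hm

theorem qs_pow_mul_jd_mem : qs ℚ ^ q * jd ℚ q ∈ regSub ℚ := by
  rw [qs_pow_mul_mem_iff]
  intro n hn
  rw [OrdersB.jd_eq_qExpand ℚ q]
  refine ClaimA.qExpand_coeff_of_lt q (a := -1) (fun i hi => jd_one_coeff_of_lt hi) ?_
  linarith

/-- `Φ_q(X, j) = (X - j(x^q)) · chiL (j)` over `ℚ((x))`, for ANY `HeckeData q`. -/
theorem phiAt_eq (hq : q.Prime) (hd : HeckeData q) :
    PhiAt hd.Φ (jd ℚ 1) = (X - C (jd ℚ q)) * chiL ℚ q (jd ℚ 1) := by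
  refine eq_linear_mul_chiL ℚ q (jd ℚ 1) (jd ℚ q) (OrdersB.jd_one_ne_zero' ℚ) ?_
    (OrdersB.jd_one_ne' ℚ q hq.two_le _) _ (PhiAt_monic hd.monic _) ?_ ?_ ?_
  · rw [OrdersB.order_jd_one']
    exact ⟨-1, 0, by ring⟩
  · rw [PhiAt_natDegree hd.monic, hd.natDegree_eq]
  · exact hd.root_coeff ℚ
  · rw [PhiAt_map, ← OrdersB.jd_eq_qExpand]
    exact hd.root'_coeff ℚ

theorem X_mul_chiL_coeff_reg (i : ℕ) :
    qs ℚ * (X * chiL ℚ q (jd ℚ 1)).coeff i ∈ regSub ℚ := by
  rcases i with _ | k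
  · rw [coeff_X_mul_zero, mul_zero]
    exact (regSub ℚ).zero_mem
  · rw [coeff_X_mul]
    exact chiL_coeff_reg q (fun m hm => jd_one_coeff_of_lt hm) k

/-- Every coefficient of `Φ_q(X, j)` has a pole of order `≤ q + 1`. -/
theorem phiAt_coeff_reg (hq : q.Prime) (hd : HeckeData q) (i : ℕ) :
    qs ℚ ^ (q + 1) * (PhiAt hd.Φ (jd ℚ 1)).coeff i ∈ regSub ℚ := by
  rw [phiAt_eq hq hd, sub_mul, coeff_sub, coeff_C_mul]
  have h1 := X_mul_chiL_coeff_reg (q := q) i
  have h2 := chiL_coeff_reg q (f := jd ℚ 1) (fun m hm => jd_one_coeff_of_lt hm) i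
  have h3 := qs_pow_mul_jd_mem (q := q)
  have e : qs ℚ ^ (q + 1) * ((X * chiL ℚ q (jd ℚ 1)).coeff i -
        jd ℚ q * (chiL ℚ q (jd ℚ 1)).coeff i) =
      qs ℚ ^ q * (qs ℚ * (X * chiL ℚ q (jd ℚ 1)).coeff i) -
        (qs ℚ ^ q * jd ℚ q) * (qs ℚ * (chiL ℚ q (jd ℚ 1)).coeff i) := by
    ring
  rw [e]
  exact (regSub ℚ).sub_mem ((regSub ℚ).mul_mem ((regSub ℚ).pow_mem qs_mem q) h1)
    ((regSub ℚ).mul_mem h3 h2)

/-- The coefficient of `X ^ q` of `Φ_q(X, j)` has a pole of order `≤ q`. -/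
theorem phiAt_coeff_self_reg (hq : q.Prime) (hd : HeckeData q) :
    qs ℚ ^ q * (PhiAt hd.Φ (jd ℚ 1)).coeff q ∈ regSub ℚ := by
  rw [phiAt_eq hq hd, sub_mul, coeff_sub, coeff_C_mul]
  have hχ : (chiL ℚ q (jd ℚ 1)).coeff q = 1 := by
    have h := (chiL_monic ℚ q (jd ℚ 1)).coeff_natDegree
    rwa [chiL_natDegree] at h
  rw [hχ, mul_one]
  have h1 := X_mul_chiL_coeff_reg (q := q) q
  have h3 := qs_pow_mul_jd_mem (q := q)
  have e0 : qs ℚ ^ q = qs ℚ ^ (q - 1) * qs ℚ := by
    rw [← pow_succ, Nat.sub_add_cancel hq.one_le]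
  have e : qs ℚ ^ q * ((X * chiL ℚ q (jd ℚ 1)).coeff q - jd ℚ q) =
      qs ℚ ^ (q - 1) * (qs ℚ * (X * chiL ℚ q (jd ℚ 1)).coeff q) - qs ℚ ^ q * jd ℚ q := by
    rw [mul_sub, ← mul_assoc, ← e0]
  rw [e]
  exact (regSub ℚ).sub_mem ((regSub ℚ).mul_mem ((regSub ℚ).pow_mem qs_mem _) h1) h3

/-- The coefficient of `x ^ (- deg b)` of `b(j)` is the leading coefficient of `b`. -/
theorem coeff_eval₂_jd (b : ℤ[X]) :
    (b.eval₂ (Int.castRingHom (LaurentSeries ℚ)) (jd ℚ 1)).coeff (-(b.natDegree : ℤ)) =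
      (b.leadingCoeff : ℚ) := by
  rw [jd_rat_one, eval₂_eq_sum_range, HahnSeries.coeff_sum]
  rw [Finset.sum_eq_single b.natDegree]
  · rw [eq_intCast, ← zsmul_eq_mul, HahnSeries.coeff_smul, coeff_jq_pow_self, zsmul_eq_mul,
      mul_one]
    rfl
  · intro i hi hne
    have hlt : i < b.natDegree :=
      lt_of_le_of_ne (Nat.lt_succ_iff.mp (Finset.mem_range.mp hi)) hne
    rw [eq_intCast, ← zsmul_eq_mul, HahnSeries.coeff_smul, coeff_jq_pow_of_lt (by omega),
      smul_zero]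
  · intro h
    exact absurd (Finset.mem_range.mpr (Nat.lt_succ_self _)) h

/-- A pole of order `≤ D` of `b(j)` bounds the degree of `b`. -/
theorem natDegree_le_of_reg (b : ℤ[X]) (D : ℕ)
    (h : qs ℚ ^ D * b.eval₂ (Int.castRingHom (LaurentSeries ℚ)) (jd ℚ 1) ∈ regSub ℚ) :
    b.natDegree ≤ D := by
  by_contra hlt
  rw [not_le] at hlt
  rw [qs_pow_mul_mem_iff] at h
  have h0 := h (-(b.natDegree : ℤ)) (by omega)
  rw [coeff_eval₂_jd] at h0
  have hb : b ≠ 0 := by
    rintro rfl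
    simp at hlt
  exact leadingCoeff_ne_zero.mpr hb (by exact_mod_cast h0)

theorem phiAt_coeff (Φ : ℤ[X][X]) (i : ℕ) :
    (PhiAt Φ (jd ℚ 1)).coeff i =
      (Φ.coeff i).eval₂ (Int.castRingHom (LaurentSeries ℚ)) (jd ℚ 1) := by
  unfold PhiAt
  rw [coeff_map]
  rfl

/-- **(B)** `deg_Y (coeff_i Φ_q) ≤ q + 1`. -/
theorem natDegree_coeff_le (hq : q.Prime) (hd : HeckeData q) (i : ℕ) :
    (hd.Φ.coeff i).natDegree ≤ q + 1 :=
  natDegree_le_of_reg _ _ (by rw [← phiAt_coeff]; exact phiAt_coeff_reg hq hd i)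

/-- **(B)** `deg_Y (coeff_q Φ_q) ≤ q`. -/
theorem natDegree_coeff_self_le (hq : q.Prime) (hd : HeckeData q) :
    (hd.Φ.coeff q).natDegree ≤ q :=
  natDegree_le_of_reg _ _ (by rw [← phiAt_coeff]; exact phiAt_coeff_self_reg hq hd)

/-- **(B)**, the shape used for the cusps: `deg_Y (coeff_i Φ_q) ≤ q * (deg_X Φ_q - i)` for all
`i` (the bound is `0` for `i ≥ q + 1`, where `coeff_i Φ_q` is `1` or `0`). -/
theorem natDegree_coeff_le_mul (hq : q.Prime) (hd : HeckeData q) (i : ℕ) :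
    (hd.Φ.coeff i).natDegree ≤ q * (hd.Φ.natDegree - i) := by
  rw [hd.natDegree_eq]
  have h2 := hq.two_le
  rcases lt_trichotomy i q with hi | hi | hi
  · have h1 := natDegree_coeff_le hq hd i
    have h3 : 2 ≤ q + 1 - i := by omega
    calc (hd.Φ.coeff i).natDegree ≤ q + 1 := h1
      _ ≤ q * 2 := by omega
      _ ≤ q * (q + 1 - i) := Nat.mul_le_mul_left q h3
  · subst hi
    have h1 := natDegree_coeff_self_le hq hd
    have h3 : i + 1 - i = 1 := by omega
    rw [h3, mul_one]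
    exact h1
  · rcases Nat.lt_or_ge (q + 1) i with hlt | hge
    · rw [coeff_eq_zero_of_natDegree_lt (by rw [hd.natDegree_eq]; exact hlt)]
      simp
    · have hi' : i = q + 1 := by omega
      have h4 := hd.monic.coeff_natDegree
      rw [hd.natDegree_eq] at h4
      rw [hi', h4]
      simp

end Phi

/-! ### (C) Integrality of `b / a ^ q` over `ℤ[1 / a]` -/

section Integral

variable {O E : Type*} [CommRing O] [Field E] [Algebra O E]

/-- `c(a) / a ^ D ∈ O[1 / a]` for `c ∈ ℤ[Y]` of degree `≤ D`. -/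
theorem eval₂_mul_inv_pow_mem {a : E} (ha : a ≠ 0) (c : ℤ[X]) {D : ℕ} (hD : c.natDegree ≤ D) :
    c.eval₂ (Int.castRingHom E) a * a⁻¹ ^ D ∈ Algebra.adjoin O {a⁻¹} := by
  rw [eval₂_eq_sum_range, Finset.sum_mul]
  refine Subalgebra.sum_mem _ fun k hk => ?_
  have hk' : k ≤ D := (Nat.lt_succ_iff.mp (Finset.mem_range.mp hk)).trans hD
  have e : a ^ k * a⁻¹ ^ D = a⁻¹ ^ (D - k) := by
    obtain ⟨m, rfl⟩ := Nat.exists_eq_add_of_le hk'
    rw [Nat.add_sub_cancel_left, pow_add, ← mul_assoc, ← mul_pow, mul_inv_cancel₀ ha, one_pow,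
      one_mul]
  rw [mul_assoc, e, eq_intCast]
  exact Subalgebra.mul_mem _ (intCast_mem _ _)
    (Subalgebra.pow_mem _ (Algebra.subset_adjoin (Set.mem_singleton _)) _)

/-- **(C), abstract form.**  If `Φ ∈ ℤ[Y][X]` is monic in `X` with
`deg_Y (coeff_i Φ) ≤ m (deg_X Φ - i)` and `Φ(b, a) = 0`, `a ≠ 0`, then `b / a ^ m` is integral
over `O[1 / a]`. -/
theorem isIntegral_of_degBound (Φ : ℤ[X][X]) (hΦ : Φ.Monic) (m : ℕ)
    (hb : ∀ i, (Φ.coeff i).natDegree ≤ m * (Φ.natDegree - i)) {a b : E} (ha : a ≠ 0)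
    (h : (PhiAt Φ a).eval b = 0) : IsIntegral (Algebra.adjoin O {a⁻¹}) (b * a⁻¹ ^ m) := by
  set P : E[X] := (PhiAt Φ a).scaleRoots (a⁻¹ ^ m) with hP
  have hPmonic : P.Monic := (monic_scaleRoots_iff _).mpr (PhiAt_monic hΦ a)
  have hProot : P.eval (b * a⁻¹ ^ m) = 0 := by
    have h1 := scaleRoots_eval₂_mul (p := PhiAt Φ a) (RingHom.id E) b (a⁻¹ ^ m)
    rw [eval₂_id, eval₂_id, h, mul_zero, mul_comm] at h1
    exact h1
  have hPcoeff : ∀ i, P.coeff i ∈ Algebra.adjoin O {a⁻¹} := by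
    intro i
    rw [hP, coeff_scaleRoots, PhiAt_natDegree hΦ, ← pow_mul]
    unfold PhiAt
    rw [coeff_map]
    exact eval₂_mul_inv_pow_mem ha (Φ.coeff i) (hb i)
  have hlifts : P ∈ lifts (algebraMap (Algebra.adjoin O {a⁻¹}) E) :=
    (lifts_iff_coeff_lifts P).mpr fun i => ⟨⟨P.coeff i, hPcoeff i⟩, rfl⟩
  obtain ⟨P', hP'P, -, hP'monic⟩ := lifts_and_natDegree_eq_and_monic hlifts hPmonic
  refine ⟨P', hP'monic, ?_⟩
  rw [eval₂_eq_eval_map, hP'P, hProot]

/-- **(C)** For `hd : HeckeData q` and `Φ_q(b, a) = 0`, `a ≠ 0`, in a field: `b / a ^ q` is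
integral over `O[1 / a]`. -/
theorem isIntegral_div_pow {q : ℕ} [NeZero q] (hq : q.Prime) (hd : HeckeData q) {a b : E}
    (ha : a ≠ 0) (h : (PhiAt hd.Φ a).eval b = 0) :
    IsIntegral (Algebra.adjoin O {a⁻¹}) (b * a⁻¹ ^ q) :=
  isIntegral_of_degBound hd.Φ hd.monic q (natDegree_coeff_le_mul hq hd) ha h

end Integral

end Fermat.Agent.S36.CuspReg
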