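/-
S36 — CuspMem.lean (helper14; package [N10]/[CUSP3], leaf [CUSP-a], chart-level record).

The monomial memberships at the cuspidal chart of the level-`N = M q²` model
(`q` prime, `q ∤ M`; `j = j(Q)`, `j_q = j(Q^q)`, `j_{q²} = j(Q^{q²})`, `J3 = j · j_q · j_{q²}`):

  `j_q / j^q`, `j_{q²} / j_q^q`, `j / j_q^q`, `j_q / j_{q²}^q`,
  `j_{q²} / j^(q²)`, `j / j_{q²}^(q²)`, `j_q / (j^(q-1) · j_{q²})`   all lie in `chart N A K J3⁻¹`.

Route: the four modular equations `Φ_q(j_q, j) = Φ_q(j, j_q) = Φ_q(j_{q²}, j_q) = Φ_q(j_q, j_{q²}) = 0`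
hold in `F_K(M q²)` (`phi_jq_j`, `phi_j_jq`, `phi_jqq_jq`, `phi_jq_jqq`; from `S28.root_jd` and the
`q`-expansions of `j, j_q, j_{q²}`), and the division trick `CuspReg.isIntegral_div_pow` (helper11;
the shape of `Φ_q`) turns each of them into `b / a^q` integral over `O[a⁻¹]` (`div_pow_mem_chart`).
The three charts `chart j⁻¹`, `chart j_q⁻¹`, `chart j_{q²}⁻¹` lie in `chart J3⁻¹` (`Chart3B`), and the
remaining monomials are products / roots of the four basic ones (`ChartJ.root_chart`).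
-/
import Mathlib
import Fermat.Agent.S36.Chart3B
import Fermat.Agent.S36.CuspReg
import Fermat.Agent.S28.Roots

set_option autoImplicit false

open ModularCurve AlgebraicCurve HahnSeries

namespace Fermat.Agent.S36.CuspMem

open Fermat.Agent.S18 Fermat.Agent.S18.Arith Fermat.Agent.S34

noncomputable section

set_option synthInstance.maxHeartbeats 400000

/-! ### Field-level monomial identities -/

section Mono

variable {E : Type*} [Field E]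

theorem m_eq (x y z : E) (hy : y ≠ 0) (n : ℕ) :
    z * x⁻¹ ^ (n ^ 2) = (z * y⁻¹ ^ n) * (y * x⁻¹ ^ n) ^ n := by
  have h1 : y⁻¹ ^ n * y ^ n = 1 := by rw [← mul_pow, inv_mul_cancel₀ hy, one_pow]
  rw [mul_pow, ← pow_mul, ← sq]
  linear_combination (-(z * x⁻¹ ^ (n ^ 2))) * h1

theorem mu1_pow (x y z : E) (n : ℕ) :
    (x * y ^ n * z) ^ (n + 1) = (x * y ^ (n + 1)) ^ n * (x * z ^ (n + 1)) := by
  ring

end Mono

/-! ### Evaluation of `Φ` commutes with the `q`-expansion embedding -/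

theorem coe_eval_PhiAt {N : ℕ} [NeZero N] (K : IntermediateField ℚ Qb)
    (Φ : Polynomial (Polynomial ℤ)) (y x : FK N K) :
    (((S28.PhiAt Φ y).eval x : FK N K) : LaurentSeries Qb) =
      (S28.PhiAt Φ (y : LaurentSeries Qb)).eval (x : LaurentSeries Qb) :=
  S28.map_eval_PhiAt (FK N K).subtype Φ y x

/-! ### The division trick in chart form -/

/-- If `Φ_q(b, a) = 0` in `F_K(N)`, `a ≠ 0`, then `b / a^q ∈ chart a⁻¹`. -/
theorem div_pow_mem_chart {q : ℕ} [NeZero q] (hq : q.Prime) {N : ℕ} [NeZero N]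
    (A : ValuationSubring Qb) (K : IntermediateField ℚ Qb) (hd : S28.HeckeData q)
    {a b : FK N K} (ha : a ≠ 0) (h : (S28.PhiAt hd.Φ a).eval b = 0) :
    b * a⁻¹ ^ q ∈ chart N A K a⁻¹ :=
  (mem_chart_iff N A K).mpr (CuspReg.isIntegral_div_pow hq hd ha h)

variable (M q : ℕ) [NeZero M] [NeZero q] (hq : q.Prime) (hqM : ¬ q ∣ M)
variable (A : ValuationSubring Qb) (K : IntermediateField ℚ Qb)

/-! ### The four modular equations in `F_K(M q²)` -/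

/-- `Φ_q(j_q, j) = 0` in `F_K(M q²)`. -/
theorem phi_jq_j (hd : S28.HeckeData q) :
    (S28.PhiAt hd.Φ (jK (M * q * q) K)).eval (WQ2.jqK2 M q hq hqM K) = 0 := by
  apply Subtype.val_injective
  have h2 := S28.root_jd hd Qb hq.ne_zero 1
  rw [one_mul] at h2
  rw [coe_eval_PhiAt, ModelBasicCore.coe_jK, WQ2.coe_jqK2, h2]
  rfl

/-- `Φ_q(j, j_q) = 0` in `F_K(M q²)`. -/
theorem phi_j_jq (hd : S28.HeckeData q) :
    (S28.PhiAt hd.Φ (WQ2.jqK2 M q hq hqM K)).eval (jK (M * q * q) K) = 0 := by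
  apply Subtype.val_injective
  have h2 := S28.root'_jd hd Qb hq.ne_zero 1
  rw [one_mul] at h2
  rw [coe_eval_PhiAt, ModelBasicCore.coe_jK, WQ2.coe_jqK2, h2]
  rfl

/-- `Φ_q(j_{q²}, j_q) = 0` in `F_K(M q²)`. -/
theorem phi_jqq_jq (hd : S28.HeckeData q) :
    (S28.PhiAt hd.Φ (WQ2.jqK2 M q hq hqM K)).eval (WQ2.jqqK2 M q hq hqM K) = 0 := by
  apply Subtype.val_injective
  have h2 := S28.root_jd hd Qb hq.ne_zero q
  rw [coe_eval_PhiAt, WQ2.coe_jqK2, WQ2.coe_jqqK2, h2]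
  rfl

/-- `Φ_q(j_q, j_{q²}) = 0` in `F_K(M q²)`. -/
theorem phi_jq_jqq (hd : S28.HeckeData q) :
    (S28.PhiAt hd.Φ (WQ2.jqqK2 M q hq hqM K)).eval (WQ2.jqK2 M q hq hqM K) = 0 := by
  apply Subtype.val_injective
  have h2 := S28.root'_jd hd Qb hq.ne_zero q
  rw [coe_eval_PhiAt, WQ2.coe_jqK2, WQ2.coe_jqqK2, h2]
  rfl

/-! ### The four basic ratios -/

/-- `y1 = j_q / j^q ∈ chart J3⁻¹`. -/
theorem y1_mem :
    WQ2.jqK2 M q hq hqM K * (jK (M * q * q) K)⁻¹ ^ q ∈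
      chart (M * q * q) A K (Chart3B.J3 M q hq hqM K)⁻¹ := by
  obtain ⟨hd⟩ := S28.exists_heckeData q hq
  exact Chart3B.chart_jK_inv_le M q hq hqM A K
    (div_pow_mem_chart hq A K hd (ModelBasicCore.jK_ne_zero (M * q * q) K)
      (phi_jq_j M q hq hqM K hd))

/-- `y1' = j_{q²} / j_q^q ∈ chart J3⁻¹`. -/
theorem y1'_mem :
    WQ2.jqqK2 M q hq hqM K * (WQ2.jqK2 M q hq hqM K)⁻¹ ^ q ∈
      chart (M * q * q) A K (Chart3B.J3 M q hq hqM K)⁻¹ := by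
  obtain ⟨hd⟩ := S28.exists_heckeData q hq
  exact Chart3B.chart_jqK2_inv_le M q hq hqM A K
    (div_pow_mem_chart hq A K hd (Chart3B.jqK2_ne_zero M q hq hqM K)
      (phi_jqq_jq M q hq hqM K hd))

/-- `y2' = j / j_q^q ∈ chart J3⁻¹`. -/
theorem y2'_mem :
    jK (M * q * q) K * (WQ2.jqK2 M q hq hqM K)⁻¹ ^ q ∈
      chart (M * q * q) A K (Chart3B.J3 M q hq hqM K)⁻¹ := by
  obtain ⟨hd⟩ := S28.exists_heckeData q hq
  exact Chart3B.chart_jqK2_inv_le M q hq hqM A K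
    (div_pow_mem_chart hq A K hd (Chart3B.jqK2_ne_zero M q hq hqM K)
      (phi_j_jq M q hq hqM K hd))

/-- `y2 = j_q / j_{q²}^q ∈ chart J3⁻¹`. -/
theorem y2_mem :
    WQ2.jqK2 M q hq hqM K * (WQ2.jqqK2 M q hq hqM K)⁻¹ ^ q ∈
      chart (M * q * q) A K (Chart3B.J3 M q hq hqM K)⁻¹ := by
  obtain ⟨hd⟩ := S28.exists_heckeData q hq
  exact Chart3B.chart_jqqK2_inv_le M q hq hqM A K
    (div_pow_mem_chart hq A K hd (Chart3B.jqqK2_ne_zero M q hq hqM K)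
      (phi_jq_jqq M q hq hqM K hd))

/-! ### The derived monomials -/

/-- `m₁ = j_{q²} / j^(q²) ∈ chart J3⁻¹`. -/
theorem m1_mem :
    WQ2.jqqK2 M q hq hqM K * (jK (M * q * q) K)⁻¹ ^ (q ^ 2) ∈
      chart (M * q * q) A K (Chart3B.J3 M q hq hqM K)⁻¹ := by
  rw [m_eq (jK (M * q * q) K) (WQ2.jqK2 M q hq hqM K) (WQ2.jqqK2 M q hq hqM K)
    (Chart3B.jqK2_ne_zero M q hq hqM K) q]
  exact Subalgebra.mul_mem _ (y1'_mem M q hq hqM A K)
    (Subalgebra.pow_mem _ (y1_mem M q hq hqM A K) q)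

/-- `m₂ = j / j_{q²}^(q²) ∈ chart J3⁻¹`. -/
theorem m2_mem :
    jK (M * q * q) K * (WQ2.jqqK2 M q hq hqM K)⁻¹ ^ (q ^ 2) ∈
      chart (M * q * q) A K (Chart3B.J3 M q hq hqM K)⁻¹ := by
  rw [m_eq (WQ2.jqqK2 M q hq hqM K) (WQ2.jqK2 M q hq hqM K) (jK (M * q * q) K)
    (Chart3B.jqK2_ne_zero M q hq hqM K) q]
  exact Subalgebra.mul_mem _ (y2'_mem M q hq hqM A K)
    (Subalgebra.pow_mem _ (y2_mem M q hq hqM A K) q)

/-- `μ₁ = j_q / (j^(q-1) · j_{q²}) ∈ chart J3⁻¹` (its `q`-th power is `y1^(q-1) · y2`). -/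
theorem mu1_mem :
    WQ2.jqK2 M q hq hqM K * (jK (M * q * q) K)⁻¹ ^ (q - 1) * (WQ2.jqqK2 M q hq hqM K)⁻¹ ∈
      chart (M * q * q) A K (Chart3B.J3 M q hq hqM K)⁻¹ := by
  have hq1 : q - 1 + 1 = q := Nat.sub_add_cancel hq.one_le
  refine ChartJ.root_chart (M * q * q) A K (m := q) hq.ne_zero ?_
  have h := mu1_pow (WQ2.jqK2 M q hq hqM K) (jK (M * q * q) K)⁻¹ (WQ2.jqqK2 M q hq hqM K)⁻¹
    (q - 1)
  rw [hq1] at h
  rw [h]
  exact Subalgebra.mul_mem _ (Subalgebra.pow_mem _ (y1_mem M q hq hqM A K) (q - 1))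
    (y2_mem M q hq hqM A K)

/-! ### Division forms -/

/-- `v1 = j_q / j^q ∈ chart J3⁻¹` (division form of `y1_mem`; `μ₀` of the cusp package). -/
theorem v1_mem :
    WQ2.jqK2 M q hq hqM K / jK (M * q * q) K ^ q ∈
      chart (M * q * q) A K (Chart3B.J3 M q hq hqM K)⁻¹ := by
  rw [div_eq_mul_inv, ← inv_pow]
  exact y1_mem M q hq hqM A K

/-- `v2 = j_q / j_{q²}^q ∈ chart J3⁻¹` (division form of `y2_mem`). -/
theorem v2_mem :
    WQ2.jqK2 M q hq hqM K / WQ2.jqqK2 M q hq hqM K ^ q ∈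
      chart (M * q * q) A K (Chart3B.J3 M q hq hqM K)⁻¹ := by
  rw [div_eq_mul_inv, ← inv_pow]
  exact y2_mem M q hq hqM A K

/-- `j_{q²} / j_q^q ∈ chart J3⁻¹` (division form of `y1'_mem`). -/
theorem v1'_mem :
    WQ2.jqqK2 M q hq hqM K / WQ2.jqK2 M q hq hqM K ^ q ∈
      chart (M * q * q) A K (Chart3B.J3 M q hq hqM K)⁻¹ := by
  rw [div_eq_mul_inv, ← inv_pow]
  exact y1'_mem M q hq hqM A K

/-- `j / j_q^q ∈ chart J3⁻¹` (division form of `y2'_mem`). -/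
theorem v2'_mem :
    jK (M * q * q) K / WQ2.jqK2 M q hq hqM K ^ q ∈
      chart (M * q * q) A K (Chart3B.J3 M q hq hqM K)⁻¹ := by
  rw [div_eq_mul_inv, ← inv_pow]
  exact y2'_mem M q hq hqM A K

/-- `m₁ = j_{q²} / j^(q²) ∈ chart J3⁻¹`, division form. -/
theorem m1_div_mem :
    WQ2.jqqK2 M q hq hqM K / jK (M * q * q) K ^ (q ^ 2) ∈
      chart (M * q * q) A K (Chart3B.J3 M q hq hqM K)⁻¹ := by
  rw [div_eq_mul_inv, ← inv_pow]
  exact m1_mem M q hq hqM A K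

/-- `m₂ = j / j_{q²}^(q²) ∈ chart J3⁻¹`, division form. -/
theorem m2_div_mem :
    jK (M * q * q) K / WQ2.jqqK2 M q hq hqM K ^ (q ^ 2) ∈
      chart (M * q * q) A K (Chart3B.J3 M q hq hqM K)⁻¹ := by
  rw [div_eq_mul_inv, ← inv_pow]
  exact m2_mem M q hq hqM A K

/-- `μ₁ = j_q / (j^(q-1) · j_{q²}) ∈ chart J3⁻¹`, division form. -/
theorem mu1_div_mem :
    WQ2.jqK2 M q hq hqM K / (jK (M * q * q) K ^ (q - 1) * WQ2.jqqK2 M q hq hqM K) ∈
      chart (M * q * q) A K (Chart3B.J3 M q hq hqM K)⁻¹ := by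
  rw [div_eq_mul_inv, mul_inv, ← inv_pow, ← mul_assoc]
  exact mu1_mem M q hq hqM A K

end

end Fermat.Agent.S36.CuspMem
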