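import Mathlib
import Fermat.Agent.S36.V3

/-!
# S36 [MODEL3 / CUSP-b] — CuspMono.lean (helper79): Laurent monomials in `j, j_q, j_{q²}`

Level `N = M * q * q`, `j = jK N K`, `j_q = WQ2.jqK2`, `j_{q²} = WQ2.jqqK2`,
`mono a b c = j ^ a * j_q ^ b * j_{q²} ^ c` (`a b c : ℤ`).  With `J̄ = jqModC k`, `k` the residue
field of `A` (characteristic `q`):

* on `W1 = GaussV.V1`      : `mono a b c` is a unit with reduction `J̄ ^ (a + q b + q² c)`;
* on `W2 = GaussV.V2 wK2`  : unit with reduction (along `red2 = red1 ∘ w_{q²}`) `J̄ ^ (c + q b + q² a)`;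
* on `W3 = V3.Hyp3.W3`     : unit with reduction `J̄ ^ (a + q b + c)`.

Hence two monomials with the same weight differ by an element of the maximal ideal of the
corresponding valuation ring (`π V1`, `π V2`, `s W3`): the Kronecker congruences used at the
cusps (`j_q / j^q ≡ 1`, `j_{q²} / j^{q²} ≡ 1` on `W1`; `j / j_{q²}^{q²} ≡ 1` on `W2`;
`j_q / j^q ≡ 1`, `j_{q²} / j ≡ 1` on `W3`; …).
-/

set_option autoImplicit false

noncomputable section

namespace Fermat.Agent.S36.CuspMono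

open ModularCurve ModularCurve.IgusaScheme AlgebraicCurve HahnSeries Fermat.Agent.S18.Arith
open Fermat.Agent.S18 Fermat.Agent.S24 Fermat.Agent.S28 Fermat.Agent.S34

/-! ### Series level -/

section Series

variable (q : ℕ) [NeZero q]

/-- `J ^ a * J(Q^q) ^ b * J(Q^{q²}) ^ c` as a Laurent series over a field `F`. -/
def monoS (F : Type*) [Field F] (a b c : ℤ) : LaurentSeries F :=
  jqModC F ^ a * qExpand F q (jqModC F) ^ b * qExpand F (q * q) (jqModC F) ^ c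

variable (A : ValuationSubring Qb)

local notation "k" => IsLocalRing.ResidueField A

/-- Every monomial is Gauss-integral, with the monomial of the reductions as reduction. -/
theorem gRel_monoS (a b c : ℤ) : GRel A (monoS q Qb a b c) (monoS q k a b c) := by
  have hG := V12Rel.gFacts A
  exact hG.mul _ _ _ _ (hG.mul _ _ _ _
    (GaussE.gRel_zpow hG (V12Rel.gRel_j A) (V12Rel.jqModC_ne_zero k) a)
    (GaussE.gRel_zpow hG (V12Rel.gRel_jd A q) (V12Rel.qExpand_jqModC_ne_zero k q) b))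
    (GaussE.gRel_zpow hG (V12Rel.gRel_jd A (q * q)) (V12Rel.qExpand_jqModC_ne_zero k (q * q)) c)

/-- In characteristic `q`: `J̄(Q^q) = J̄ ^ q`. -/
theorem qExpand_jqModC_char [Fact q.Prime] (hA : A.LiesOverPrime q) :
    qExpand k q (jqModC k) = jqModC k ^ q := by
  have := BaseRes.charP_residueField q A hA
  rw [S37.KC.pow_char_eq_qExpand_frobenius q (jqModC k), coeffMap_jqModC]

/-- In characteristic `q`: `J̄(Q^{q²}) = J̄ ^ (q²)`. -/
theorem qExpand_sq_jqModC_char [Fact q.Prime] (hA : A.LiesOverPrime q) :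
    qExpand k (q * q) (jqModC k) = jqModC k ^ (q * q) := by
  rw [← qExpand_qExpand q q (jqModC k), qExpand_jqModC_char q A hA, map_pow,
    qExpand_jqModC_char q A hA, ← pow_mul]

/-- The reduction of a monomial of weight `(a, b, c)` with `j_{q²} ↦ J̄(Q^{q²})`. -/
theorem monoS_char [Fact q.Prime] (hA : A.LiesOverPrime q) (a b c : ℤ) :
    monoS q k a b c = jqModC k ^ (a + (q : ℤ) * b + (q : ℤ) * q * c) := by
  have h0 : jqModC k ≠ 0 := V12Rel.jqModC_ne_zero k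
  rw [monoS, qExpand_jqModC_char q A hA, qExpand_sq_jqModC_char q A hA, ← zpow_natCast,
    ← zpow_natCast (jqModC k) (q * q), ← zpow_mul, ← zpow_mul, ← zpow_add₀ h0, ← zpow_add₀ h0]
  push_cast
  rfl

/-- The monomial with `j_{q²}` replaced by `j` (the shape of the reduction along the middle
cusp). -/
theorem monoS_char3 [Fact q.Prime] (hA : A.LiesOverPrime q) (a b c : ℤ) :
    jqModC k ^ a * qExpand k q (jqModC k) ^ b * jqModC k ^ c
      = jqModC k ^ (a + (q : ℤ) * b + c) := by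
  have h0 : jqModC k ≠ 0 := V12Rel.jqModC_ne_zero k
  rw [qExpand_jqModC_char q A hA, ← zpow_natCast, ← zpow_mul, ← zpow_add₀ h0, ← zpow_add₀ h0]

end Series

/-! ### The monomials in `F_K`, level `M * q * q` -/

section Level

variable (M q : ℕ) [NeZero M] [NeZero q] (hq : q.Prime) (hqM : ¬ q ∣ M)
variable (A : ValuationSubring Qb) (K : IntermediateField ℚ Qb)

local notation "k" => IsLocalRing.ResidueField A

/-- `mono a b c = j ^ a * j_q ^ b * j_{q²} ^ c`. -/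
def mono (a b c : ℤ) : FK (M * q * q) K :=
  jK (M * q * q) K ^ a * WQ2.jqK2 M q hq hqM K ^ b * WQ2.jqqK2 M q hq hqM K ^ c

omit [NeZero M] [NeZero q] in
theorem coe_zpow_FK (N : ℕ) (x : FK N K) (n : ℤ) :
    ((x ^ n : FK N K) : LaurentSeries Qb) = (x : LaurentSeries Qb) ^ n :=
  map_zpow₀ (FK N K).subtype x n

theorem coe_mono (a b c : ℤ) :
    ((mono M q hq hqM K a b c : FK (M * q * q) K) : LaurentSeries Qb) = monoS q Qb a b c := by
  have h1 : ((mono M q hq hqM K a b c : FK (M * q * q) K) : LaurentSeries Qb)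
      = ((jK (M * q * q) K ^ a : FK (M * q * q) K) : LaurentSeries Qb)
        * ((WQ2.jqK2 M q hq hqM K ^ b : FK (M * q * q) K) : LaurentSeries Qb)
        * ((WQ2.jqqK2 M q hq hqM K ^ c : FK (M * q * q) K) : LaurentSeries Qb) := rfl
  rw [h1, coe_zpow_FK, coe_zpow_FK, coe_zpow_FK, S18.ModelBasicCore.coe_jK, S28.jd_one,
    Wit3.coe_jq, Wit3.coe_jqq]
  rfl

theorem jK_ne_zero : jK (M * q * q) K ≠ 0 := by
  intro h
  have h1 : ((jK (M * q * q) K : FK (M * q * q) K) : LaurentSeries Qb) = 0 := by rw [h]; rfl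
  rw [S18.ModelBasicCore.coe_jK, S28.jd_one] at h1
  exact V12Rel.jqModC_ne_zero Qb h1

theorem jqK2_ne_zero : WQ2.jqK2 M q hq hqM K ≠ 0 := by
  intro h
  have h1 : ((WQ2.jqK2 M q hq hqM K : FK (M * q * q) K) : LaurentSeries Qb) = 0 := by rw [h]; rfl
  rw [Wit3.coe_jq] at h1
  exact V12Rel.qExpand_jqModC_ne_zero Qb q h1

theorem jqqK2_ne_zero : WQ2.jqqK2 M q hq hqM K ≠ 0 := by
  intro h
  have h1 : ((WQ2.jqqK2 M q hq hqM K : FK (M * q * q) K) : LaurentSeries Qb) = 0 := by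
    rw [h]; rfl
  rw [Wit3.coe_jqq] at h1
  exact V12Rel.qExpand_jqModC_ne_zero Qb (q * q) h1

/-! #### Calculus of monomials -/

theorem mono_zero : mono M q hq hqM K 0 0 0 = 1 := by
  simp [mono]

theorem mono_mul (a b c a' b' c' : ℤ) :
    mono M q hq hqM K a b c * mono M q hq hqM K a' b' c'
      = mono M q hq hqM K (a + a') (b + b') (c + c') := by
  unfold mono
  rw [zpow_add₀ (jK_ne_zero M q K), zpow_add₀ (jqK2_ne_zero M q hq hqM K),
    zpow_add₀ (jqqK2_ne_zero M q hq hqM K)]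
  ring

theorem mono_inv (a b c : ℤ) :
    (mono M q hq hqM K a b c)⁻¹ = mono M q hq hqM K (-a) (-b) (-c) := by
  unfold mono
  rw [mul_inv, mul_inv, zpow_neg, zpow_neg, zpow_neg]

theorem mono_div (a b c a' b' c' : ℤ) :
    mono M q hq hqM K a b c / mono M q hq hqM K a' b' c'
      = mono M q hq hqM K (a - a') (b - b') (c - c') := by
  rw [div_eq_mul_inv, mono_inv, mono_mul, sub_eq_add_neg, sub_eq_add_neg, sub_eq_add_neg]

theorem mono_zpow (a b c n : ℤ) :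
    mono M q hq hqM K a b c ^ n = mono M q hq hqM K (a * n) (b * n) (c * n) := by
  unfold mono
  rw [mul_zpow, mul_zpow, ← zpow_mul, ← zpow_mul, ← zpow_mul]

theorem mono_pow (a b c : ℤ) (n : ℕ) :
    mono M q hq hqM K a b c ^ n = mono M q hq hqM K (a * n) (b * n) (c * n) := by
  rw [← zpow_natCast, mono_zpow]

theorem jK_zpow (n : ℤ) : jK (M * q * q) K ^ n = mono M q hq hqM K n 0 0 := by
  simp [mono]

theorem jqK2_zpow (n : ℤ) : WQ2.jqK2 M q hq hqM K ^ n = mono M q hq hqM K 0 n 0 := by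
  simp [mono]

theorem jqqK2_zpow (n : ℤ) : WQ2.jqqK2 M q hq hqM K ^ n = mono M q hq hqM K 0 0 n := by
  simp [mono]

theorem jK_eq_mono : jK (M * q * q) K = mono M q hq hqM K 1 0 0 := by
  simp [mono]

theorem jqK2_eq_mono : WQ2.jqK2 M q hq hqM K = mono M q hq hqM K 0 1 0 := by
  simp [mono]

theorem jqqK2_eq_mono : WQ2.jqqK2 M q hq hqM K = mono M q hq hqM K 0 0 1 := by
  simp [mono]

/-- `w_{q²}` exchanges the exponents of `j` and `j_{q²}`. -/
theorem wK2_mono (a b c : ℤ) :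
    WQ2.wK2 M q hq hqM K (mono M q hq hqM K a b c) = mono M q hq hqM K c b a := by
  unfold mono
  rw [map_mul, map_mul, map_zpow₀, map_zpow₀, map_zpow₀, WQ2.wK2_jK, WQ2.wK2_jqK2,
    WQ2.wK2_jqqK2]
  ring

/-! #### First branch `W1 = V1` -/

theorem gRel_mono (a b c : ℤ) :
    GRel A ((mono M q hq hqM K a b c : FK (M * q * q) K) : LaurentSeries Qb)
      (monoS q k a b c) := by
  rw [coe_mono]
  exact gRel_monoS q A a b c

variable (hdvr : IsDiscreteValuationRing (OK A K))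

/-- **(U, W1)** every monomial lies in `V1` (and so does its inverse, again a monomial). -/
theorem mono_mem_V1 (a b c : ℤ) : mono M q hq hqM K a b c ∈ GaussV.V1 (M * q * q) A K hdvr :=
  (GaussV.mem_V1_iff hdvr).mpr ⟨_, gRel_mono M q hq hqM A K a b c⟩

theorem mono_inv_mem_V1 (a b c : ℤ) :
    (mono M q hq hqM K a b c)⁻¹ ∈ GaussV.V1 (M * q * q) A K hdvr := by
  rw [mono_inv]
  exact mono_mem_V1 M q hq hqM A K hdvr _ _ _

/-- **(W1)** the reduction of a monomial is `J̄ ^ (a + q b + q² c)`. -/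
theorem red1_mono (hA : A.LiesOverPrime q) (a b c : ℤ) :
    GaussV.red1 hdvr ⟨mono M q hq hqM K a b c, mono_mem_V1 M q hq hqM A K hdvr a b c⟩
      = jqModC k ^ (a + (q : ℤ) * b + (q : ℤ) * q * c) := by
  haveI : Fact q.Prime := ⟨hq⟩
  rw [← monoS_char q A hA]
  exact GaussV.red1_eq_of_gRel hdvr _ (gRel_mono M q hq hqM A K a b c)

/-- Gauss form: two monomials of the same `W1`-weight are congruent. -/
theorem gRel_mono_sub_mono (hA : A.LiesOverPrime q) {a b c a' b' c' : ℤ}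
    (h : a + (q : ℤ) * b + (q : ℤ) * q * c = a' + (q : ℤ) * b' + (q : ℤ) * q * c') :
    GRel A ((mono M q hq hqM K a b c - mono M q hq hqM K a' b' c' : FK (M * q * q) K) :
      LaurentSeries Qb) 0 := by
  haveI : Fact q.Prime := ⟨hq⟩
  have h1 := V12Rel.gRel_sub A (gRel_mono M q hq hqM A K a b c)
    (gRel_mono M q hq hqM A K a' b' c')
  rw [monoS_char q A hA, monoS_char q A hA, h, sub_self] at h1
  exact h1

/-- **(K-W1)** two monomials of the same `W1`-weight `a + q b + q² c` differ by an element of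
`π V1`. -/
theorem mono_sub_mono_pi1 (hA : A.LiesOverPrime q) {π : OK A K} (hπ : Irreducible π)
    {a b c a' b' c' : ℤ}
    (h : a + (q : ℤ) * b + (q : ℤ) * q * c = a' + (q : ℤ) * b' + (q : ℤ) * q * c') :
    ∃ z ∈ GaussV.V1 (M * q * q) A K hdvr,
      mono M q hq hqM K a b c - mono M q hq hqM K a' b' c'
        = algebraMap (OK A K) (FK (M * q * q) K) π * z :=
  Wit3.pi1_of_gRel_zero hdvr hπ (gRel_mono_sub_mono M q hq hqM A K hA h)

/-- **(K-W1)** a monomial of `W1`-weight `0` is `≡ 1` modulo `π V1`. -/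
theorem mono_sub_one_pi1 (hA : A.LiesOverPrime q) {π : OK A K} (hπ : Irreducible π)
    {a b c : ℤ} (h : a + (q : ℤ) * b + (q : ℤ) * q * c = 0) :
    ∃ z ∈ GaussV.V1 (M * q * q) A K hdvr,
      mono M q hq hqM K a b c - 1 = algebraMap (OK A K) (FK (M * q * q) K) π * z := by
  rw [← mono_zero M q hq hqM K]
  exact mono_sub_mono_pi1 M q hq hqM A K hdvr hA hπ (by rw [h]; ring)

/-! #### Second branch `W2 = V2 wK2` -/

/-- **(U, W2)** every monomial lies in `V2`. -/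
theorem mono_mem_V2 (a b c : ℤ) :
    mono M q hq hqM K a b c ∈ GaussV.V2 (WQ2.wK2 M q hq hqM K) hdvr := by
  rw [GaussV.mem_V2_iff, wK2_mono]
  exact mono_mem_V1 M q hq hqM A K hdvr c b a

theorem mono_inv_mem_V2 (a b c : ℤ) :
    (mono M q hq hqM K a b c)⁻¹ ∈ GaussV.V2 (WQ2.wK2 M q hq hqM K) hdvr := by
  rw [mono_inv]
  exact mono_mem_V2 M q hq hqM A K hdvr _ _ _

/-- **(W2)** the reduction (along `red2 = red1 ∘ w_{q²}`) of a monomial is
`J̄ ^ (c + q b + q² a)`. -/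
theorem red2_mono (hA : A.LiesOverPrime q) (a b c : ℤ) :
    GaussV.red2 (WQ2.wK2 M q hq hqM K) hdvr
        ⟨mono M q hq hqM K a b c, mono_mem_V2 M q hq hqM A K hdvr a b c⟩
      = jqModC k ^ (c + (q : ℤ) * b + (q : ℤ) * q * a) := by
  haveI : Fact q.Prime := ⟨hq⟩
  rw [GaussV.red2_apply, ← monoS_char q A hA]
  apply GaussV.red1_eq_of_gRel hdvr
  show GRel A ((WQ2.wK2 M q hq hqM K (mono M q hq hqM K a b c) : FK (M * q * q) K) :
    LaurentSeries Qb) _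
  rw [wK2_mono]
  exact gRel_mono M q hq hqM A K c b a

/-- **(K-W2)** two monomials of the same `W2`-weight `c + q b + q² a` differ by an element of
`π V2`. -/
theorem mono_sub_mono_pi2 (hA : A.LiesOverPrime q) {π : OK A K} (hπ : Irreducible π)
    {a b c a' b' c' : ℤ}
    (h : c + (q : ℤ) * b + (q : ℤ) * q * a = c' + (q : ℤ) * b' + (q : ℤ) * q * a') :
    ∃ z ∈ GaussV.V2 (WQ2.wK2 M q hq hqM K) hdvr,
      mono M q hq hqM K a b c - mono M q hq hqM K a' b' c'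
        = algebraMap (OK A K) (FK (M * q * q) K) π * z := by
  apply Wit3.pi2_of_pi1 (WQ2.wK2 M q hq hqM K) (WQ2.wK2_algebraMap_OK M q hq hqM K A) hdvr
  rw [map_sub, wK2_mono, wK2_mono]
  exact mono_sub_mono_pi1 M q hq hqM A K hdvr hA hπ h

/-- **(K-W2)** a monomial of `W2`-weight `0` is `≡ 1` modulo `π V2`. -/
theorem mono_sub_one_pi2 (hA : A.LiesOverPrime q) {π : OK A K} (hπ : Irreducible π)
    {a b c : ℤ} (h : c + (q : ℤ) * b + (q : ℤ) * q * a = 0) :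
    ∃ z ∈ GaussV.V2 (WQ2.wK2 M q hq hqM K) hdvr,
      mono M q hq hqM K a b c - 1 = algebraMap (OK A K) (FK (M * q * q) K) π * z := by
  rw [← mono_zero M q hq hqM K]
  exact mono_sub_mono_pi2 M q hq hqM A K hdvr hA hπ (by rw [h]; ring)

/-! #### Third branch `W3` (the middle cusp) -/

section W3

variable {M q hq hqM A K}
variable {K' : IntermediateField ℚ Qb} {ξ : Qb} {hξ0 : ξ ≠ 0}
  {ι : FK (M * q * q) K →+* LaurentSeries Qb} {ϖ : OK A K'}
variable (H : V3.Hyp3 M q hq hqM A K K' ξ hξ0 ι ϖ)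

include H in
/-- **(W3)** along the middle-cusp embedding a monomial is Gauss-integral with reduction
`J̄ ^ (a + q b + c)`. -/
theorem gRel_iota_mono (hA : A.LiesOverPrime q) (a b c : ℤ) :
    GRel A (ι (mono M q hq hqM K a b c)) (jqModC k ^ (a + (q : ℤ) * b + c)) := by
  haveI : Fact q.Prime := ⟨hq⟩
  have hG := V12Rel.gFacts A
  have hj : GRel A (ι (jK (M * q * q) K)) (jqModC k) := by
    have h := H.gRel_red3 ⟨jK (M * q * q) K, H.jK_unit.1⟩
    rwa [H.red3_jK, S28.jd_one] at h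
  have hjq : GRel A (ι (WQ2.jqK2 M q hq hqM K)) (qExpand k q (jqModC k)) := by
    have h := H.gRel_red3 ⟨WQ2.jqK2 M q hq hqM K, H.jqK2_unit.1⟩
    rwa [H.red3_jqK2, S28.jd_eq] at h
  have hjqq : GRel A (ι (WQ2.jqqK2 M q hq hqM K)) (jqModC k) := by
    have h := H.gRel_red3 ⟨WQ2.jqqK2 M q hq hqM K, H.jqqK2_unit.1⟩
    rwa [H.red3_jqqK2 hA, S28.jd_one] at h
  rw [← monoS_char3 q A hA]
  unfold mono
  rw [map_mul, map_mul, map_zpow₀, map_zpow₀, map_zpow₀]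
  exact hG.mul _ _ _ _ (hG.mul _ _ _ _
    (GaussE.gRel_zpow hG hj (V12Rel.jqModC_ne_zero k) a)
    (GaussE.gRel_zpow hG hjq (V12Rel.qExpand_jqModC_ne_zero k q) b))
    (GaussE.gRel_zpow hG hjqq (V12Rel.jqModC_ne_zero k) c)

/-- **(U, W3)** every monomial lies in `W3`. -/
theorem mono_mem_W3 (hA : A.LiesOverPrime q) (a b c : ℤ) : mono M q hq hqM K a b c ∈ H.W3 :=
  H.mem_W3_of_gRel (gRel_iota_mono H hA a b c)

theorem mono_inv_mem_W3 (hA : A.LiesOverPrime q) (a b c : ℤ) :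
    (mono M q hq hqM K a b c)⁻¹ ∈ H.W3 := by
  rw [mono_inv]
  exact mono_mem_W3 H hA _ _ _

/-- **(W3)** the reduction of a monomial is `J̄ ^ (a + q b + c)`. -/
theorem red3_mono (hA : A.LiesOverPrime q) (a b c : ℤ) :
    H.red3 ⟨mono M q hq hqM K a b c, mono_mem_W3 H hA a b c⟩
      = jqModC k ^ (a + (q : ℤ) * b + c) :=
  H.red3_eq_of_gRel _ (gRel_iota_mono H hA a b c)

include H in
/-- **(K-W3)**, Gauss form: two monomials of the same `W3`-weight `a + q b + c` are congruent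
along the middle-cusp embedding. -/
theorem gRel_iota_mono_sub_mono (hA : A.LiesOverPrime q) {a b c a' b' c' : ℤ}
    (h : a + (q : ℤ) * b + c = a' + (q : ℤ) * b' + c') :
    GRel A (ι (mono M q hq hqM K a b c - mono M q hq hqM K a' b' c')) 0 := by
  have h1 := V12Rel.gRel_sub A (gRel_iota_mono H hA a b c) (gRel_iota_mono H hA a' b' c')
  rw [h, sub_self, ← map_sub] at h1
  exact h1

theorem mono_sub_mono_mem_W3 (hA : A.LiesOverPrime q) (a b c a' b' c' : ℤ) :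
    mono M q hq hqM K a b c - mono M q hq hqM K a' b' c' ∈ H.W3 :=
  H.W3.sub_mem (mono_mem_W3 H hA a b c) (mono_mem_W3 H hA a' b' c')

/-- **(K-W3)** two monomials of the same `W3`-weight differ by an element of `s W3`
(`s = j_{q²} − j` the uniformiser of `W3`). -/
theorem mono_sub_mono_s3 (hA : A.LiesOverPrime q) {a b c a' b' c' : ℤ}
    (h : a + (q : ℤ) * b + c = a' + (q : ℤ) * b' + c') :
    ∃ z ∈ H.W3, mono M q hq hqM K a b c - mono M q hq hqM K a' b' c'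
      = Wit3.sE M q hq hqM K * z :=
  (H.red3_eq_zero_iff ⟨_, mono_sub_mono_mem_W3 H hA a b c a' b' c'⟩).mp
    (H.red3_eq_of_gRel _ (gRel_iota_mono_sub_mono H hA h))

/-- **(K-W3)** a monomial of `W3`-weight `0` is `≡ 1` modulo `s W3`. -/
theorem mono_sub_one_s3 (hA : A.LiesOverPrime q) {a b c : ℤ}
    (h : a + (q : ℤ) * b + c = 0) :
    ∃ z ∈ H.W3, mono M q hq hqM K a b c - 1 = Wit3.sE M q hq hqM K * z := by
  rw [← mono_zero M q hq hqM K]
  exact mono_sub_mono_s3 H hA (by rw [h]; ring)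

/-- **(K-W3)**, `nonunits` form. -/
theorem mono_sub_mono_mem_nonunits3 (hA : A.LiesOverPrime q) {a b c a' b' c' : ℤ}
    (h : a + (q : ℤ) * b + c = a' + (q : ℤ) * b' + c') :
    mono M q hq hqM K a b c - mono M q hq hqM K a' b' c' ∈ H.W3.nonunits := by
  obtain ⟨z, hz, hxz⟩ := mono_sub_mono_s3 H hA h
  rw [hxz, ValuationSubring.mem_nonunits_iff, map_mul]
  have hs : H.W3.valuation (Wit3.sE M q hq hqM K) < 1 := by
    rw [← ValuationSubring.mem_nonunits_iff, ValuationSubring.mem_nonunits_iff_or]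
    exact Or.inr H.s_inv_not_mem
  exact mul_lt_one_of_nonneg_of_lt_one_left zero_le hs ((H.W3.valuation_le_one_iff _).mpr hz)

end W3

/-! #### Dictionary: the named functions at the cusps as monomials

`X = j⁻¹`, `Z = j_q⁻¹`, `Y = j_{q²}⁻¹`, `m₁ = j_{q²} / j^{q²}`, `m₂ = j / j_{q²}^{q²}`,
`μ₀ = j_q / j^q`, `μ₁ = j_q / (j^{q-1} j_{q²})`, `v₂ = j_q / j_{q²}^q`, `y = j_{q²} / j`. -/

section Dict

theorem inv_jK_eq : (jK (M * q * q) K)⁻¹ = mono M q hq hqM K (-1) 0 0 := by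
  rw [← jK_zpow M q hq hqM K, zpow_neg_one]

theorem inv_jqK2_eq : (WQ2.jqK2 M q hq hqM K)⁻¹ = mono M q hq hqM K 0 (-1) 0 := by
  rw [← jqK2_zpow M q hq hqM K, zpow_neg_one]

theorem inv_jqqK2_eq : (WQ2.jqqK2 M q hq hqM K)⁻¹ = mono M q hq hqM K 0 0 (-1) := by
  rw [← jqqK2_zpow M q hq hqM K, zpow_neg_one]

theorem inv_jK_pow_eq (n : ℕ) :
    ((jK (M * q * q) K)⁻¹) ^ n = mono M q hq hqM K (-(n : ℤ)) 0 0 := by
  rw [← jK_zpow M q hq hqM K, zpow_neg, zpow_natCast, inv_pow]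

theorem inv_jqqK2_pow_eq (n : ℕ) :
    ((WQ2.jqqK2 M q hq hqM K)⁻¹) ^ n = mono M q hq hqM K 0 0 (-(n : ℤ)) := by
  rw [← jqqK2_zpow M q hq hqM K, zpow_neg, zpow_natCast, inv_pow]

/-- `m₁ = j_{q²} / j^{q²}`. -/
theorem m1_eq : WQ2.jqqK2 M q hq hqM K / jK (M * q * q) K ^ (q * q)
    = mono M q hq hqM K (-((q * q : ℕ) : ℤ)) 0 1 := by
  unfold mono
  rw [zpow_neg, zpow_natCast, zpow_zero, zpow_one, mul_one, div_eq_mul_inv]
  exact mul_comm _ _

/-- `m₂ = j / j_{q²}^{q²}`. -/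
theorem m2_eq : jK (M * q * q) K / WQ2.jqqK2 M q hq hqM K ^ (q * q)
    = mono M q hq hqM K 1 0 (-((q * q : ℕ) : ℤ)) := by
  unfold mono
  rw [zpow_one, zpow_zero, mul_one, zpow_neg, zpow_natCast, div_eq_mul_inv]

/-- `μ₀ = j_q / j^q`. -/
theorem mu0_eq : WQ2.jqK2 M q hq hqM K / jK (M * q * q) K ^ q
    = mono M q hq hqM K (-(q : ℤ)) 1 0 := by
  unfold mono
  rw [zpow_neg, zpow_natCast, zpow_one, zpow_zero, mul_one, div_eq_mul_inv]
  exact mul_comm _ _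

/-- `v₂ = j_q / j_{q²}^q`. -/
theorem v2_eq : WQ2.jqK2 M q hq hqM K / WQ2.jqqK2 M q hq hqM K ^ q
    = mono M q hq hqM K 0 1 (-(q : ℤ)) := by
  unfold mono
  rw [zpow_zero, one_mul, zpow_one, zpow_neg, zpow_natCast, div_eq_mul_inv]

/-- `j_{q²} / j_q^q`. -/
theorem jqq_div_jq_pow_eq : WQ2.jqqK2 M q hq hqM K / WQ2.jqK2 M q hq hqM K ^ q
    = mono M q hq hqM K 0 (-(q : ℤ)) 1 := by
  unfold mono
  rw [zpow_zero, one_mul, zpow_neg, zpow_natCast, zpow_one, div_eq_mul_inv]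
  exact mul_comm _ _

/-- `j / j_q^q`. -/
theorem j_div_jq_pow_eq : jK (M * q * q) K / WQ2.jqK2 M q hq hqM K ^ q
    = mono M q hq hqM K 1 (-(q : ℤ)) 0 := by
  unfold mono
  rw [zpow_one, zpow_neg, zpow_natCast, zpow_zero, mul_one, div_eq_mul_inv]

/-- `y = j_{q²} / j`. -/
theorem y_eq : WQ2.jqqK2 M q hq hqM K / jK (M * q * q) K = mono M q hq hqM K (-1) 0 1 := by
  unfold mono
  rw [zpow_neg_one, zpow_zero, zpow_one, mul_one, div_eq_mul_inv]
  exact mul_comm _ _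

/-- `μ₁ = j_q / (j^{q-1} j_{q²})`. -/
theorem mu1_eq : WQ2.jqK2 M q hq hqM K / (jK (M * q * q) K ^ (q - 1) * WQ2.jqqK2 M q hq hqM K)
    = mono M q hq hqM K (-((q - 1 : ℕ) : ℤ)) 1 (-1) := by
  unfold mono
  rw [zpow_neg, zpow_natCast, zpow_one, zpow_neg_one, div_eq_mul_inv, mul_inv]
  ring

end Dict

/-! #### The congruences of record on `W1`, `W2` -/

section Named12

variable {M q hq hqM A K} in
theorem neg_form {V : ValuationSubring (FK (M * q * q) K)} {p x y : FK (M * q * q) K}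
    (h : ∃ z ∈ V, x - y = p * z) : ∃ z ∈ V, y - x = p * z := by
  obtain ⟨z, hz, hxz⟩ := h
  exact ⟨-z, V.neg_mem _ hz, by rw [mul_neg, ← hxz]; ring⟩

variable (hA : A.LiesOverPrime q) {π : OK A K} (hπ : Irreducible π)

include hA hπ

/-- `m₁ − 1 ∈ π V1`. -/
theorem m1_sub_one_pi1 : ∃ z ∈ GaussV.V1 (M * q * q) A K hdvr,
    WQ2.jqqK2 M q hq hqM K / jK (M * q * q) K ^ (q * q) - 1
      = algebraMap (OK A K) (FK (M * q * q) K) π * z := by
  rw [m1_eq]
  exact mono_sub_one_pi1 M q hq hqM A K hdvr hA hπ (by push_cast; ring)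

/-- `1 − m₁ ∈ π V1`. -/
theorem one_sub_m1_pi1 : ∃ z ∈ GaussV.V1 (M * q * q) A K hdvr,
    1 - WQ2.jqqK2 M q hq hqM K / jK (M * q * q) K ^ (q * q)
      = algebraMap (OK A K) (FK (M * q * q) K) π * z :=
  neg_form (m1_sub_one_pi1 M q hq hqM A K hdvr hA hπ)

/-- `μ₀ − 1 ∈ π V1` (Kronecker). -/
theorem mu0_sub_one_pi1 : ∃ z ∈ GaussV.V1 (M * q * q) A K hdvr,
    WQ2.jqK2 M q hq hqM K / jK (M * q * q) K ^ q - 1
      = algebraMap (OK A K) (FK (M * q * q) K) π * z := by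
  rw [mu0_eq]
  exact mono_sub_one_pi1 M q hq hqM A K hdvr hA hπ (by ring)

/-- `j_{q²} / j_q^q − 1 ∈ π V1` (Kronecker). -/
theorem jqq_div_jq_pow_sub_one_pi1 : ∃ z ∈ GaussV.V1 (M * q * q) A K hdvr,
    WQ2.jqqK2 M q hq hqM K / WQ2.jqK2 M q hq hqM K ^ q - 1
      = algebraMap (OK A K) (FK (M * q * q) K) π * z := by
  rw [jqq_div_jq_pow_eq]
  exact mono_sub_one_pi1 M q hq hqM A K hdvr hA hπ (by ring)

/-- `Y − X^{q²} ∈ π V1` (`X = j⁻¹`, `Y = j_{q²}⁻¹`). -/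
theorem Y_sub_X_pow_pi1 : ∃ z ∈ GaussV.V1 (M * q * q) A K hdvr,
    (WQ2.jqqK2 M q hq hqM K)⁻¹ - ((jK (M * q * q) K)⁻¹) ^ (q * q)
      = algebraMap (OK A K) (FK (M * q * q) K) π * z := by
  rw [inv_jqqK2_eq, inv_jK_pow_eq]
  exact mono_sub_mono_pi1 M q hq hqM A K hdvr hA hπ (by push_cast; ring)

/-- `m₂ − 1 ∈ π V2`. -/
theorem m2_sub_one_pi2 : ∃ z ∈ GaussV.V2 (WQ2.wK2 M q hq hqM K) hdvr,
    jK (M * q * q) K / WQ2.jqqK2 M q hq hqM K ^ (q * q) - 1
      = algebraMap (OK A K) (FK (M * q * q) K) π * z := by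
  rw [m2_eq]
  exact mono_sub_one_pi2 M q hq hqM A K hdvr hA hπ (by push_cast; ring)

/-- `1 − m₂ ∈ π V2`. -/
theorem one_sub_m2_pi2 : ∃ z ∈ GaussV.V2 (WQ2.wK2 M q hq hqM K) hdvr,
    1 - jK (M * q * q) K / WQ2.jqqK2 M q hq hqM K ^ (q * q)
      = algebraMap (OK A K) (FK (M * q * q) K) π * z :=
  neg_form (m2_sub_one_pi2 M q hq hqM A K hdvr hA hπ)

/-- `v₂ − 1 ∈ π V2`. -/
theorem v2_sub_one_pi2 : ∃ z ∈ GaussV.V2 (WQ2.wK2 M q hq hqM K) hdvr,
    WQ2.jqK2 M q hq hqM K / WQ2.jqqK2 M q hq hqM K ^ q - 1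
      = algebraMap (OK A K) (FK (M * q * q) K) π * z := by
  rw [v2_eq]
  exact mono_sub_one_pi2 M q hq hqM A K hdvr hA hπ (by ring)

/-- `j / j_q^q − 1 ∈ π V2`. -/
theorem j_div_jq_pow_sub_one_pi2 : ∃ z ∈ GaussV.V2 (WQ2.wK2 M q hq hqM K) hdvr,
    jK (M * q * q) K / WQ2.jqK2 M q hq hqM K ^ q - 1
      = algebraMap (OK A K) (FK (M * q * q) K) π * z := by
  rw [j_div_jq_pow_eq]
  exact mono_sub_one_pi2 M q hq hqM A K hdvr hA hπ (by ring)

/-- `X − Y^{q²} ∈ π V2`. -/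
theorem X_sub_Y_pow_pi2 : ∃ z ∈ GaussV.V2 (WQ2.wK2 M q hq hqM K) hdvr,
    (jK (M * q * q) K)⁻¹ - ((WQ2.jqqK2 M q hq hqM K)⁻¹) ^ (q * q)
      = algebraMap (OK A K) (FK (M * q * q) K) π * z := by
  rw [inv_jK_eq, inv_jqqK2_pow_eq]
  exact mono_sub_mono_pi2 M q hq hqM A K hdvr hA hπ (by push_cast; ring)

end Named12

/-! #### The congruences of record on `W3` -/

section Named3

variable {M q hq hqM A K}
variable {K' : IntermediateField ℚ Qb} {ξ : Qb} {hξ0 : ξ ≠ 0}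
  {ι : FK (M * q * q) K →+* LaurentSeries Qb} {ϖ : OK A K'}
variable (H : V3.Hyp3 M q hq hqM A K K' ξ hξ0 ι ϖ) (hA : A.LiesOverPrime q)

include hA

/-- `μ₀ − 1 ∈ s W3`. -/
theorem mu0_sub_one_s3 : ∃ z ∈ H.W3,
    WQ2.jqK2 M q hq hqM K / jK (M * q * q) K ^ q - 1 = Wit3.sE M q hq hqM K * z := by
  rw [mu0_eq]
  exact mono_sub_one_s3 H hA (by ring)

/-- `v₂ − 1 ∈ s W3`. -/
theorem v2_sub_one_s3 : ∃ z ∈ H.W3,
    WQ2.jqK2 M q hq hqM K / WQ2.jqqK2 M q hq hqM K ^ q - 1 = Wit3.sE M q hq hqM K * z := by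
  rw [v2_eq]
  exact mono_sub_one_s3 H hA (by ring)

/-- `y − 1 = j_{q²} / j − 1 ∈ s W3`. -/
theorem y_sub_one_s3 : ∃ z ∈ H.W3,
    WQ2.jqqK2 M q hq hqM K / jK (M * q * q) K - 1 = Wit3.sE M q hq hqM K * z := by
  rw [y_eq]
  exact mono_sub_one_s3 H hA (by ring)

/-- `μ₁ − 1 ∈ s W3`. -/
theorem mu1_sub_one_s3 : ∃ z ∈ H.W3,
    WQ2.jqK2 M q hq hqM K / (jK (M * q * q) K ^ (q - 1) * WQ2.jqqK2 M q hq hqM K) - 1
      = Wit3.sE M q hq hqM K * z := by
  rw [mu1_eq]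
  refine mono_sub_one_s3 H hA ?_
  rw [Nat.cast_sub hq.one_lt.le]
  push_cast
  ring

/-- `m₁ − X^{q²−1} ∈ s W3`. -/
theorem m1_sub_X_pow_s3 : ∃ z ∈ H.W3,
    WQ2.jqqK2 M q hq hqM K / jK (M * q * q) K ^ (q * q)
        - ((jK (M * q * q) K)⁻¹) ^ (q * q - 1) = Wit3.sE M q hq hqM K * z := by
  rw [m1_eq, inv_jK_pow_eq]
  refine mono_sub_mono_s3 H hA ?_
  rw [Nat.cast_sub (Nat.mul_pos hq.pos hq.pos)]
  push_cast
  ring

/-- `m₂ − X^{q²−1} ∈ s W3`. -/
theorem m2_sub_X_pow_s3 : ∃ z ∈ H.W3,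
    jK (M * q * q) K / WQ2.jqqK2 M q hq hqM K ^ (q * q)
        - ((jK (M * q * q) K)⁻¹) ^ (q * q - 1) = Wit3.sE M q hq hqM K * z := by
  rw [m2_eq, inv_jK_pow_eq]
  refine mono_sub_mono_s3 H hA ?_
  rw [Nat.cast_sub (Nat.mul_pos hq.pos hq.pos)]
  push_cast
  ring

/-- `X − Y ∈ s W3`. -/
theorem X_sub_Y_s3 : ∃ z ∈ H.W3,
    (jK (M * q * q) K)⁻¹ - (WQ2.jqqK2 M q hq hqM K)⁻¹ = Wit3.sE M q hq hqM K * z := by
  rw [inv_jK_eq, inv_jqqK2_eq]
  exact mono_sub_mono_s3 H hA (by ring)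

/-- `Z − X^q ∈ s W3`. -/
theorem Z_sub_X_pow_s3 : ∃ z ∈ H.W3,
    (WQ2.jqK2 M q hq hqM K)⁻¹ - ((jK (M * q * q) K)⁻¹) ^ q = Wit3.sE M q hq hqM K * z := by
  rw [inv_jqK2_eq, inv_jK_pow_eq]
  exact mono_sub_mono_s3 H hA (by ring)

end Named3

end Level

end Fermat.Agent.S36.CuspMono
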