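/-
S36 — CuspOff3.lean (helper9; packages [MODEL3] / [B1] / [TORIC36], leaf [CUSP1]).

**The cuspidal closed points are one-branch points** — from the TWO chart elements
`v1 = jq / j ^ d`, `v2 = jq / jqq ^ d` only (`d = q`; no `m₁`, `m₂`, `j / jq ^ q`, …).

`X = j⁻¹`, `Z = jq⁻¹`, `Y = jqq⁻¹` in the chart `R` at infinity, `P 0`, `P 1`, `P 2` the vertical
primes (`W1`, `W2`, `W3`).  Congruences (`k = d ^ 3 - d`):
  (c1) `1 - v1 ∈ P 0`   (Kronecker on `W1`: `jq ≡ j ^ d`),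
  (c4) `v2 - X ^ k ∈ P 0`   (on `W1`: `jqq ≡ j ^ (d ^ 2)`),
  (c3) `1 - v2 ∈ P 1`, (c2) `v1 - Y ^ k ∈ P 1`   (the `w`-twins),
  (c5) `1 - v1 ∈ P 2`, (c6) `1 - v2 ∈ P 2`, (c7) `X - Y ∈ P 2`   (on `W3`: `jq ≡ j ^ d ≡ jqq ^ d`,
       `jqq ≡ j`).
At a prime `n ∋ X * Z * Y`: `X ∈ n` or `Y ∈ n` up to `X ^ d = v1 * Z`; if `X ∈ n` then
`1 - X ^ k = (1 - v2) + (v2 - X ^ k) ∈ P 1 + P 0` is a unit at `n`, so `n` is not on both `P 0` and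
`P 1`; etc.

* `not_both`, `not_01`, `one_of_v` : the abstract core (any commutative ring);
* `side_one`, `side_pow`, `side_diff` : the valuation computations (one valuation ring);
* `not_01_of_val` : `¬ (P 0 ≤ n ∧ P 1 ≤ n)` at every prime `n ∋ X * Z * Y` — the input `hcusp01` of
  `Princ3Cases.princ_of_cases` (only `W1`, `W2` facts);
* `one_of_val` : `∀ i j, P i ≤ n → P j ≤ n → i = j` at every prime `n ∋ X * Z * Y` — the field `one`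
  of `ChartTorInst.TorInCusp`.
-/
import Mathlib
import Fermat.Agent.S36.Model3Plan

set_option autoImplicit false

namespace Fermat.Agent.S36.CuspOff3

open Fermat.Agent.S36.Model3Plan

/-! ### The abstract core -/

section Core

variable {R : Type*} [CommRing R]

/-- If `1 - v ∈ I`, `v - X ^ k ∈ J` (`k ≠ 0`) and `X ∈ n`, then the prime `n` does not contain
both `I` and `J`. -/
theorem not_both (n : Ideal R) (hn : n.IsPrime) {I J : Ideal R} (X v : R) (k : ℕ) (hk : k ≠ 0)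
    (hX : X ∈ n) (ha : 1 - v ∈ I) (hb : v - X ^ k ∈ J) : ¬ (I ≤ n ∧ J ≤ n) := by
  rintro ⟨hI, hJ⟩
  have h1 : (1 : R) - X ^ k ∈ n := by
    have := n.add_mem (hI ha) (hJ hb)
    rwa [sub_add_sub_cancel] at this
  have hXk : X ^ k ∈ n := n.pow_mem_of_mem hX k (Nat.pos_of_ne_zero hk)
  have h : (1 : R) ∈ n := by
    have := n.add_mem h1 hXk
    rwa [sub_add_cancel] at this
  exact hn.ne_top ((Ideal.eq_top_iff_one n).mpr h)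

variable {P : Fin 3 → Ideal R}

/-- **A cuspidal point does not lie on both `P 0` and `P 1`** (abstract core). -/
theorem not_01 (n : Ideal R) (hn : n.IsPrime) (X Y Z v1 v2 : R) (d k : ℕ) (hk : k ≠ 0)
    (hv1 : X ^ d = v1 * Z)
    (c1 : 1 - v1 ∈ P 0) (c2 : v1 - Y ^ k ∈ P 1) (c3 : 1 - v2 ∈ P 1) (c4 : v2 - X ^ k ∈ P 0)
    (hmem : X * Z * Y ∈ n) : ¬ (P 0 ≤ n ∧ P 1 ≤ n) := by
  have hX : X ∈ n → ¬ (P 0 ≤ n ∧ P 1 ≤ n) := fun hX h =>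
    not_both n hn X v2 k hk hX c3 c4 ⟨h.2, h.1⟩
  rcases hn.mem_or_mem hmem with h | hY
  · rcases hn.mem_or_mem h with hX' | hZ
    · exact hX hX'
    · refine hX (hn.mem_of_pow_mem d ?_)
      rw [hv1]
      exact n.mul_mem_left _ hZ
  · exact not_both n hn Y v1 k hk hY c1 c2

/-- **A cuspidal point lies on exactly one vertical prime** (abstract core). -/
theorem one_of_v (n : Ideal R) (hn : n.IsPrime) (X Y Z v1 v2 : R) (d k : ℕ) (hk : k ≠ 0)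
    (hv1 : X ^ d = v1 * Z)
    (c1 : 1 - v1 ∈ P 0) (c2 : v1 - Y ^ k ∈ P 1) (c3 : 1 - v2 ∈ P 1) (c4 : v2 - X ^ k ∈ P 0)
    (c5 : 1 - v1 ∈ P 2) (c6 : 1 - v2 ∈ P 2) (c7 : X - Y ∈ P 2)
    (hmem : X * Z * Y ∈ n) : ∀ i j : Fin 3, P i ≤ n → P j ≤ n → i = j := by
  have h01 := not_01 n hn X Y Z v1 v2 d k hk hv1 c1 c2 c3 c4 hmem
  have hX2 : P 2 ≤ n → X ∈ n := by
    intro h2
    rcases hn.mem_or_mem hmem with h | hY
    · rcases hn.mem_or_mem h with hX | hZ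
      · exact hX
      · refine hn.mem_of_pow_mem d ?_
        rw [hv1]
        exact n.mul_mem_left _ hZ
    · have := n.add_mem (h2 c7) hY
      rwa [sub_add_cancel] at this
  have hY2 : P 2 ≤ n → Y ∈ n := by
    intro h2
    have := n.sub_mem (hX2 h2) (h2 c7)
    rwa [sub_sub_cancel] at this
  have h02 : ¬ (P 0 ≤ n ∧ P 2 ≤ n) := fun h =>
    not_both n hn X v2 k hk (hX2 h.2) c6 c4 ⟨h.2, h.1⟩
  have h12 : ¬ (P 1 ≤ n ∧ P 2 ≤ n) := fun h =>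
    not_both n hn Y v1 k hk (hY2 h.2) c5 c2 ⟨h.2, h.1⟩
  intro i j hi hj
  fin_cases i <;> fin_cases j
  · rfl
  · exact absurd ⟨hi, hj⟩ h01
  · exact absurd ⟨hi, hj⟩ h02
  · exact absurd ⟨hj, hi⟩ h01
  · rfl
  · exact absurd ⟨hi, hj⟩ h12
  · exact absurd ⟨hj, hi⟩ h02
  · exact absurd ⟨hj, hi⟩ h12
  · rfl

end Core

/-! ### The valuation computations -/

section Side

variable {E : Type*} [Field E]

/-- `jq ≡ j ^ d` modulo `p W` and `j⁻¹ ∈ W` give `1 - jq / j ^ d ∈ p W`. -/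
theorem side_one (W : ValuationSubring E) (p j jq : E) (d : ℕ) (hj0 : j ≠ 0)
    (hj' : j⁻¹ ∈ W) (h1 : ∃ y ∈ W, jq - j ^ d = p * y) :
    ∃ y ∈ W, 1 - jq / j ^ d = p * y := by
  obtain ⟨y, hy, h1⟩ := h1
  refine ⟨-(y * j⁻¹ ^ d), neg_mem (mul_mem hy (pow_mem hj' d)), ?_⟩
  have hA : j⁻¹ ^ d * j ^ d = 1 := by rw [← mul_pow, inv_mul_cancel₀ hj0, one_pow]
  rw [div_eq_mul_inv, ← inv_pow]
  linear_combination (-(j⁻¹ ^ d)) * h1 - hA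

/-- `jq ≡ j ^ d` and `jqq ≡ j ^ (d ^ 2)` modulo `p W` (`j`, `jqq` units of `W`) give
`jq / jqq ^ d ≡ (j⁻¹) ^ (d ^ 3 - d)` modulo `p W`. -/
theorem side_pow (W : ValuationSubring E) (p j jq jqq : E) (d : ℕ) (hj0 : j ≠ 0)
    (hjqq0 : jqq ≠ 0) (hj : j ∈ W) (hj' : j⁻¹ ∈ W) (hjqq : jqq ∈ W) (hjqq' : jqq⁻¹ ∈ W)
    (h1 : ∃ y ∈ W, jq - j ^ d = p * y) (h2 : ∃ y ∈ W, jqq - j ^ (d ^ 2) = p * y) :
    ∃ y ∈ W, jq / jqq ^ d - j⁻¹ ^ (d ^ 3 - d) = p * y := by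
  obtain ⟨y₁, hy₁, h1⟩ := h1
  obtain ⟨y₂, hy₂, h2⟩ := h2
  set G : E := ∑ i ∈ Finset.range d, (j ^ (d ^ 2)) ^ i * jqq ^ (d - 1 - i) with hGdef
  have hGW : G ∈ W :=
    sum_mem (fun i _ => mul_mem (pow_mem (pow_mem hj _) _) (pow_mem hjqq _))
  have hG : G * (j ^ (d ^ 2) - jqq) = j ^ (d ^ 3) - jqq ^ d := by
    have h := Commute.geom_sum₂_mul (Commute.all (j ^ (d ^ 2)) jqq) d
    rw [← pow_mul] at h
    have e : d ^ 2 * d = d ^ 3 := by ring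
    rw [e] at h
    exact h
  have hle : d ≤ d ^ 3 := by
    rcases Nat.eq_zero_or_pos d with h0 | hpos
    · subst h0; simp
    · calc d = d ^ 1 := (pow_one d).symm
        _ ≤ d ^ 3 := Nat.pow_le_pow_right hpos (by norm_num)
  have hAd : j⁻¹ ^ d * j ^ d = 1 := by rw [← mul_pow, inv_mul_cancel₀ hj0, one_pow]
  have hA : j⁻¹ ^ (d ^ 3) * j ^ (d ^ 3) = 1 := by rw [← mul_pow, inv_mul_cancel₀ hj0, one_pow]
  have hB : jqq⁻¹ ^ d * jqq ^ d = 1 := by rw [← mul_pow, inv_mul_cancel₀ hjqq0, one_pow]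
  have e1 : j⁻¹ ^ (d ^ 3 - d) = j⁻¹ ^ (d ^ 3) * j ^ d := by
    calc j⁻¹ ^ (d ^ 3 - d) = j⁻¹ ^ (d ^ 3 - d) * (j⁻¹ ^ d * j ^ d) := by rw [hAd, mul_one]
      _ = j⁻¹ ^ (d ^ 3) * j ^ d := by
        rw [← mul_assoc, ← pow_add, Nat.sub_add_cancel hle]
  refine ⟨(y₁ * j ^ (d ^ 3) - j ^ d * G * y₂) * j⁻¹ ^ (d ^ 3) * jqq⁻¹ ^ d,
    mul_mem (mul_mem (sub_mem (mul_mem hy₁ (pow_mem hj _))
      (mul_mem (mul_mem (pow_mem hj _) hGW) hy₂)) (pow_mem hj' _)) (pow_mem hjqq' _), ?_⟩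
  rw [div_eq_mul_inv, ← inv_pow, e1]
  linear_combination (j ^ (d ^ 3) * j⁻¹ ^ (d ^ 3) * jqq⁻¹ ^ d) * h1
    + (-(j ^ d * G * j⁻¹ ^ (d ^ 3) * jqq⁻¹ ^ d)) * h2
    + (-(j ^ d * j⁻¹ ^ (d ^ 3) * jqq⁻¹ ^ d)) * hG
    + (-(jq * jqq⁻¹ ^ d)) * hA + (j⁻¹ ^ (d ^ 3) * j ^ d) * hB

/-- `jqq ≡ j` modulo `p W` and `j⁻¹, jqq⁻¹ ∈ W` give `j⁻¹ - jqq⁻¹ ∈ p W`. -/
theorem side_diff (W : ValuationSubring E) (p j jqq : E) (hj0 : j ≠ 0) (hjqq0 : jqq ≠ 0)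
    (hj' : j⁻¹ ∈ W) (hjqq' : jqq⁻¹ ∈ W) (h7 : ∃ y ∈ W, jqq - j = p * y) :
    ∃ y ∈ W, j⁻¹ - jqq⁻¹ = p * y := by
  obtain ⟨y, hy, h7⟩ := h7
  refine ⟨y * j⁻¹ * jqq⁻¹, mul_mem (mul_mem hy hj') hjqq', ?_⟩
  have hja : j * j⁻¹ = 1 := mul_inv_cancel₀ hj0
  have hqb : jqq * jqq⁻¹ = 1 := mul_inv_cancel₀ hjqq0
  linear_combination (j⁻¹ * jqq⁻¹) * h7 + jqq⁻¹ * hja - j⁻¹ * hqb

end Side

/-! ### The charts -/

section Chart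

variable {O : Type*} [CommRing O] {R : Type*} [CommRing R] [Algebra O R]
  {E : Type*} [Field E] [Algebra R E]
  {π : O} {ϖ : Fin 3 → E} {V : Fin 3 → ValuationSubring E} {P : Fin 3 → Ideal R}

/-- `d ^ 3 - d ≠ 0` for `2 ≤ d`. -/
theorem cube_sub_ne_zero {d : ℕ} (hd : 2 ≤ d) : d ^ 3 - d ≠ 0 := by
  have h : d ^ 1 < d ^ 3 := Nat.pow_lt_pow_right (by omega) (by norm_num)
  rw [pow_one] at h
  omega

/-- **[CUSP1], `W1`/`W2` half = `hcusp01` of `Princ3Cases.princ_of_cases`.**  With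
`X = j⁻¹`, `Z = jq⁻¹`, `Y = jqq⁻¹`, `v1 = jq / j ^ d`, `v2 = jq / jqq ^ d` in the chart `R`, and the
Kronecker congruences on `V 0` and `V 1`: no prime `n ∋ X * Z * Y` contains both `P 0` and `P 1`. -/
theorem not_01_of_val (hyp : ChartHyp3 π ϖ V P) (hinj : Function.Injective (algebraMap R E))
    (j jq jqq : E) (hj0 : j ≠ 0) (hjq0 : jq ≠ 0) (hjqq0 : jqq ≠ 0)
    (X Y Z v1 v2 : R) (d : ℕ) (hd : 2 ≤ d)
    (hX : algebraMap R E X = j⁻¹) (hZ : algebraMap R E Z = jq⁻¹) (hY : algebraMap R E Y = jqq⁻¹)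
    (hv1 : algebraMap R E v1 = jq / j ^ d) (hv2 : algebraMap R E v2 = jq / jqq ^ d)
    (hj1 : j ∈ V 0) (hjqq1 : jqq ∈ V 0)
    (h10 : ∃ y ∈ V 0, jq - j ^ d = ϖ 0 * y) (hF0 : ∃ y ∈ V 0, jqq - j ^ (d ^ 2) = ϖ 0 * y)
    (hj2 : j ∈ V 1) (hjqq2 : jqq ∈ V 1)
    (h11 : ∃ y ∈ V 1, jq - jqq ^ d = ϖ 1 * y) (hF1 : ∃ y ∈ V 1, j - jqq ^ (d ^ 2) = ϖ 1 * y)
    (n : Ideal R) (hn : n.IsPrime) (hmem : X * Z * Y ∈ n) : ¬ (P 0 ≤ n ∧ P 1 ≤ n) := by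
  have hXV : ∀ i, j⁻¹ ∈ V i := fun i => hX ▸ hyp.le i X
  have hYV : ∀ i, jqq⁻¹ ∈ V i := fun i => hY ▸ hyp.le i Y
  have hrel : X ^ d = v1 * Z := by
    apply hinj
    rw [map_pow, map_mul, hX, hZ, hv1, inv_pow, div_eq_mul_inv, mul_assoc, mul_comm _ jq⁻¹,
      ← mul_assoc, mul_inv_cancel₀ hjq0, one_mul]
  have c1 : 1 - v1 ∈ P 0 := by
    refine (hyp.mem_P 0 _).mpr ?_
    rw [map_sub, map_one, hv1]
    exact side_one (V 0) (ϖ 0) j jq d hj0 (hXV 0) h10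
  have c4 : v2 - X ^ (d ^ 3 - d) ∈ P 0 := by
    refine (hyp.mem_P 0 _).mpr ?_
    rw [map_sub, map_pow, hv2, hX]
    exact side_pow (V 0) (ϖ 0) j jq jqq d hj0 hjqq0 hj1 (hXV 0) hjqq1 (hYV 0) h10 hF0
  have c3 : 1 - v2 ∈ P 1 := by
    refine (hyp.mem_P 1 _).mpr ?_
    rw [map_sub, map_one, hv2]
    exact side_one (V 1) (ϖ 1) jqq jq d hjqq0 (hYV 1) h11
  have c2 : v1 - Y ^ (d ^ 3 - d) ∈ P 1 := by
    refine (hyp.mem_P 1 _).mpr ?_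
    rw [map_sub, map_pow, hv1, hY]
    exact side_pow (V 1) (ϖ 1) jqq jq j d hjqq0 hj0 hjqq2 (hYV 1) hj2 (hXV 1) h11 hF1
  exact not_01 n hn X Y Z v1 v2 d (d ^ 3 - d) (cube_sub_ne_zero hd) hrel c1 c2 c3 c4 hmem

/-- **[CUSP1] = the field `one` of `ChartTorInst.TorInCusp`.**  With `X = j⁻¹`, `Z = jq⁻¹`,
`Y = jqq⁻¹`, `v1 = jq / j ^ d`, `v2 = jq / jqq ^ d` in the chart `R`, the Kronecker congruences on
`V 0`, `V 1`, and `jq ≡ j ^ d ≡ jqq ^ d`, `jqq ≡ j` on `V 2`: every prime `n ∋ X * Z * Y` lies on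
at most one of `P 0`, `P 1`, `P 2`. -/
theorem one_of_val (hyp : ChartHyp3 π ϖ V P) (hinj : Function.Injective (algebraMap R E))
    (j jq jqq : E) (hj0 : j ≠ 0) (hjq0 : jq ≠ 0) (hjqq0 : jqq ≠ 0)
    (X Y Z v1 v2 : R) (d : ℕ) (hd : 2 ≤ d)
    (hX : algebraMap R E X = j⁻¹) (hZ : algebraMap R E Z = jq⁻¹) (hY : algebraMap R E Y = jqq⁻¹)
    (hv1 : algebraMap R E v1 = jq / j ^ d) (hv2 : algebraMap R E v2 = jq / jqq ^ d)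
    (hj1 : j ∈ V 0) (hjqq1 : jqq ∈ V 0)
    (h10 : ∃ y ∈ V 0, jq - j ^ d = ϖ 0 * y) (hF0 : ∃ y ∈ V 0, jqq - j ^ (d ^ 2) = ϖ 0 * y)
    (hj2 : j ∈ V 1) (hjqq2 : jqq ∈ V 1)
    (h11 : ∃ y ∈ V 1, jq - jqq ^ d = ϖ 1 * y) (hF1 : ∃ y ∈ V 1, j - jqq ^ (d ^ 2) = ϖ 1 * y)
    (h52 : ∃ y ∈ V 2, jq - j ^ d = ϖ 2 * y) (h62 : ∃ y ∈ V 2, jq - jqq ^ d = ϖ 2 * y)
    (h72 : ∃ y ∈ V 2, jqq - j = ϖ 2 * y)
    (n : Ideal R) (hn : n.IsPrime) (hmem : X * Z * Y ∈ n) :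
    ∀ i i' : Fin 3, P i ≤ n → P i' ≤ n → i = i' := by
  have hXV : ∀ i, j⁻¹ ∈ V i := fun i => hX ▸ hyp.le i X
  have hYV : ∀ i, jqq⁻¹ ∈ V i := fun i => hY ▸ hyp.le i Y
  have hrel : X ^ d = v1 * Z := by
    apply hinj
    rw [map_pow, map_mul, hX, hZ, hv1, inv_pow, div_eq_mul_inv, mul_assoc, mul_comm _ jq⁻¹,
      ← mul_assoc, mul_inv_cancel₀ hjq0, one_mul]
  have c1 : 1 - v1 ∈ P 0 := by
    refine (hyp.mem_P 0 _).mpr ?_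
    rw [map_sub, map_one, hv1]
    exact side_one (V 0) (ϖ 0) j jq d hj0 (hXV 0) h10
  have c4 : v2 - X ^ (d ^ 3 - d) ∈ P 0 := by
    refine (hyp.mem_P 0 _).mpr ?_
    rw [map_sub, map_pow, hv2, hX]
    exact side_pow (V 0) (ϖ 0) j jq jqq d hj0 hjqq0 hj1 (hXV 0) hjqq1 (hYV 0) h10 hF0
  have c3 : 1 - v2 ∈ P 1 := by
    refine (hyp.mem_P 1 _).mpr ?_
    rw [map_sub, map_one, hv2]
    exact side_one (V 1) (ϖ 1) jqq jq d hjqq0 (hYV 1) h11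
  have c2 : v1 - Y ^ (d ^ 3 - d) ∈ P 1 := by
    refine (hyp.mem_P 1 _).mpr ?_
    rw [map_sub, map_pow, hv1, hY]
    exact side_pow (V 1) (ϖ 1) jqq jq j d hjqq0 hj0 hjqq2 (hYV 1) hj2 (hXV 1) h11 hF1
  have c5 : 1 - v1 ∈ P 2 := by
    refine (hyp.mem_P 2 _).mpr ?_
    rw [map_sub, map_one, hv1]
    exact side_one (V 2) (ϖ 2) j jq d hj0 (hXV 2) h52
  have c6 : 1 - v2 ∈ P 2 := by
    refine (hyp.mem_P 2 _).mpr ?_
    rw [map_sub, map_one, hv2]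
    exact side_one (V 2) (ϖ 2) jqq jq d hjqq0 (hYV 2) h62
  have c7 : X - Y ∈ P 2 := by
    refine (hyp.mem_P 2 _).mpr ?_
    rw [map_sub, hX, hY]
    exact side_diff (V 2) (ϖ 2) j jqq hj0 hjqq0 (hXV 2) (hYV 2) h72
  exact one_of_v n hn X Y Z v1 v2 d (d ^ 3 - d) (cube_sub_ne_zero hd) hrel c1 c2 c3 c4 c5 c6 c7
    hmem

end Chart

end Fermat.Agent.S36.CuspOff3
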