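/-
S36 — CuspOff3Inst.lean (helper9; packages [MODEL3] / [B1] / [TORIC36], leaf [CUSP1]).

The instance of `S36/CuspOff3.lean` on the chart at infinity `chart (M q²) A K J3⁻¹` of the level
`M q²` model (`J3 = j · jq · jqq`): **the cuspidal closed points are one-branch points**, with the
two chart memberships

  `hv1 : jq / j ^ q ∈ chart J3⁻¹`,   `hv2 : jq / jqq ^ q ∈ chart J3⁻¹`      ([CUSP-a])

(`hv2` follows from `hv1` by `w_{q²}`: `v2_mem`; `hcusp01'`, `one'` take `hv1` only)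
as the ONLY modular hypotheses left (`V 0 = W1`, `V 1 = W2` concrete; `V 2 = W3` abstract, with the
two witness facts `x1, x2 ∈ π W3` of `Wit3W3` as hypotheses).

* `frob_pi1`, `frob_pi2` : `jqq − j^(q²) ∈ π W1`, `j − jqq^(q²) ∈ π W2`;
* `not_01_chart`  : no prime `n ∋ J3⁻¹` of the chart contains both `P 0` and `P 1`;
* `hcusp01`       : the same in the shape of `Princ3Cases.princ_of_cases`;
* `one_chart`     : every prime `n ∋ J3⁻¹` lies on at most one `P i`;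
* `one`           : the same in the shape of the field `one` of `ChartTorInst.TorInCusp`.
-/
import Mathlib
import Fermat.Agent.S36.Chart3B
import Fermat.Agent.S36.Wit3
import Fermat.Agent.S36.CuspOff3

set_option autoImplicit false

open ModularCurve AlgebraicCurve HahnSeries

namespace Fermat.Agent.S36.CuspOff3Inst

open Fermat.Agent.S18 Fermat.Agent.S18.Arith Fermat.Agent.S34 Fermat.Agent.S36.Model3Plan

noncomputable section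

variable (M q : ℕ) [NeZero M] [NeZero q] (hq : q.Prime) (hqM : ¬ q ∣ M)
variable (A : ValuationSubring Qb) (K : IntermediateField ℚ Qb)
variable (hdvr : IsDiscreteValuationRing (OK A K))

/-- **(W1)** `jqq − j^(q²) ∈ π V1` (Kronecker twice). -/
theorem frob_pi1 (hA : A.LiesOverPrime q) {π : OK A K} (hπ : Irreducible π) :
    ∃ z ∈ GaussV.V1 (M * q * q) A K hdvr,
      WQ2.jqqK2 M q hq hqM K - jK (M * q * q) K ^ (q ^ 2)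
        = algebraMap (OK A K) (FK (M * q * q) K) π * z := by
  have : Fact q.Prime := ⟨hq⟩
  refine Wit3.pi1_of_gRel_zero hdvr hπ ?_
  rw [Subfield.coe_sub, SubmonoidClass.coe_pow, Wit3.coe_jqq, ModelQFrac.coe_jK]
  exact Wit3.gRel_frob2 A q hA

/-- **(W2)** `j − jqq^(q²) ∈ π V2` (the `w`-twin). -/
theorem frob_pi2 (hA : A.LiesOverPrime q) {π : OK A K} (hπ : Irreducible π) :
    ∃ z ∈ GaussV.V2 (WQ2.wK2 M q hq hqM K) hdvr,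
      jK (M * q * q) K - WQ2.jqqK2 M q hq hqM K ^ (q ^ 2)
        = algebraMap (OK A K) (FK (M * q * q) K) π * z :=
  Wit3.pi2_of_pi1 _ (WQ2.wK2_algebraMap_OK M q hq hqM K A) hdvr
    (by rw [map_sub, map_pow, WQ2.wK2_jK, WQ2.wK2_jqqK2]
        exact frob_pi1 M q hq hqM A K hdvr hA hπ)

/-- the chart at infinity -/
local notation "Rinf" => chart (M * q * q) A K (Chart3B.J3 M q hq hqM K)⁻¹

variable {π : OK A K} {e : Fin 3 → ℕ} {ϖ : Fin 3 → FK (M * q * q) K}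
  {V : Fin 3 → ValuationSubring (FK (M * q * q) K)}
  {P : Fin 3 → Ideal (chart (M * q * q) A K (Chart3B.J3 M q hq hqM K)⁻¹)}

/-- `J3⁻¹ = j⁻¹ · jq⁻¹ · jqq⁻¹` in the chart. -/
theorem J3_inv_eq :
    (⟨(Chart3B.J3 M q hq hqM K)⁻¹, Chart3B.J3_inv_mem_chart M q hq hqM A K⟩ : Rinf)
      = ⟨(jK (M * q * q) K)⁻¹, Chart3B.jK_inv_mem_chart_J3_inv M q hq hqM A K⟩
        * ⟨(WQ2.jqK2 M q hq hqM K)⁻¹, Chart3B.jqK2_inv_mem_chart_J3_inv M q hq hqM A K⟩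
        * ⟨(WQ2.jqqK2 M q hq hqM K)⁻¹, Chart3B.jqqK2_inv_mem_chart_J3_inv M q hq hqM A K⟩ := by
  apply Subtype.ext
  show (Chart3B.J3 M q hq hqM K)⁻¹
    = (jK (M * q * q) K)⁻¹ * (WQ2.jqK2 M q hq hqM K)⁻¹ * (WQ2.jqqK2 M q hq hqM K)⁻¹
  rw [Chart3B.J3, mul_inv, mul_inv]

/-- `v2 = w_{q²} v1`: the membership `jq / jqq ^ q ∈ chart J3⁻¹` follows from
`jq / j ^ q ∈ chart J3⁻¹`. -/
theorem v2_mem (hv1 : WQ2.jqK2 M q hq hqM K / jK (M * q * q) K ^ q ∈ Rinf) :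
    WQ2.jqK2 M q hq hqM K / WQ2.jqqK2 M q hq hqM K ^ q ∈ Rinf := by
  have h := Chart3B.wK2_mem_chart_J3_inv M q hq hqM A K hv1
  rwa [map_div₀, map_pow, WQ2.wK2_jqK2, WQ2.wK2_jK] at h

/-- **[CUSP1], `W1`/`W2` half.**  No prime `n ∋ J3⁻¹` of the chart at infinity contains both
`P 0` and `P 1`. -/
theorem not_01_chart (hA : A.LiesOverPrime q) (hπ : Irreducible π)
    (hyp : ChartHyp3 π ϖ V P)
    (hV0 : V 0 = GaussV.V1 (M * q * q) A K hdvr)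
    (hV1 : V 1 = GaussV.V2 (WQ2.wK2 M q hq hqM K) hdvr)
    (hϖ0 : ϖ 0 = algebraMap (OK A K) (FK (M * q * q) K) π)
    (hϖ1 : ϖ 1 = algebraMap (OK A K) (FK (M * q * q) K) π)
    (hv1 : WQ2.jqK2 M q hq hqM K / jK (M * q * q) K ^ q ∈ Rinf)
    (hv2 : WQ2.jqK2 M q hq hqM K / WQ2.jqqK2 M q hq hqM K ^ q ∈ Rinf)
    (n : Ideal Rinf) (hn : n.IsPrime)
    (hcusp : (⟨(Chart3B.J3 M q hq hqM K)⁻¹, Chart3B.J3_inv_mem_chart M q hq hqM A K⟩ : Rinf)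
      ∈ n) :
    ¬ (P 0 ≤ n ∧ P 1 ≤ n) := by
  rw [J3_inv_eq] at hcusp
  refine CuspOff3.not_01_of_val hyp (fun a b h => Subtype.ext h)
    (jK (M * q * q) K) (WQ2.jqK2 M q hq hqM K) (WQ2.jqqK2 M q hq hqM K)
    (ModelBasicCore.jK_ne_zero (M * q * q) K) (Chart3B.jqK2_ne_zero M q hq hqM K)
    (Chart3B.jqqK2_ne_zero M q hq hqM K)
    ⟨(jK (M * q * q) K)⁻¹, Chart3B.jK_inv_mem_chart_J3_inv M q hq hqM A K⟩
    ⟨(WQ2.jqqK2 M q hq hqM K)⁻¹, Chart3B.jqqK2_inv_mem_chart_J3_inv M q hq hqM A K⟩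
    ⟨(WQ2.jqK2 M q hq hqM K)⁻¹, Chart3B.jqK2_inv_mem_chart_J3_inv M q hq hqM A K⟩
    ⟨_, hv1⟩ ⟨_, hv2⟩ q hq.two_le rfl rfl rfl rfl rfl ?_ ?_ ?_ ?_ ?_ ?_ ?_ ?_ n hn hcusp
  · rw [hV0]; exact GaussV.jK_mem_V1 hdvr
  · rw [hV0]; exact Chart3B.jqqK2_mem_V1 M q hq hqM A K hdvr
  · rw [hV0, hϖ0]; exact Wit3.x2_pi1 M q hq hqM A K hdvr hA hπ
  · rw [hV0, hϖ0]; exact frob_pi1 M q hq hqM A K hdvr hA hπ
  · rw [hV1]
    exact Chart3B.chart_J3_le_W2 M q hq hqM A K hdvr _ (Chart3B.jK_mem_chart_J3 M q hq hqM A K)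
  · rw [hV1]
    exact Chart3B.chart_J3_le_W2 M q hq hqM A K hdvr _
      (Chart3B.jqqK2_mem_chart_J3 M q hq hqM A K)
  · rw [hV1, hϖ1]; exact Wit3.x1_pi2 M q hq hqM A K hdvr hA hπ
  · rw [hV1, hϖ1]; exact frob_pi2 M q hq hqM A K hdvr hA hπ

/-- **`hcusp01` of `Princ3Cases.princ_of_cases`** for the chart at infinity, with
`C n := ⟨J3⁻¹, _⟩ ∉ n` ("`n` is non-cuspidal"). -/
theorem hcusp01 (hA : A.LiesOverPrime q) (hπ : Irreducible π)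
    (hyp : ChartHyp3 π ϖ V P)
    (hV0 : V 0 = GaussV.V1 (M * q * q) A K hdvr)
    (hV1 : V 1 = GaussV.V2 (WQ2.wK2 M q hq hqM K) hdvr)
    (hϖ0 : ϖ 0 = algebraMap (OK A K) (FK (M * q * q) K) π)
    (hϖ1 : ϖ 1 = algebraMap (OK A K) (FK (M * q * q) K) π)
    (hv1 : WQ2.jqK2 M q hq hqM K / jK (M * q * q) K ^ q ∈ Rinf)
    (hv2 : WQ2.jqK2 M q hq hqM K / WQ2.jqqK2 M q hq hqM K ^ q ∈ Rinf) :
    ∀ n : Ideal Rinf, n.IsMaximal → algebraMap (OK A K) Rinf π ∈ n →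
      ¬ ((⟨(Chart3B.J3 M q hq hqM K)⁻¹, Chart3B.J3_inv_mem_chart M q hq hqM A K⟩ : Rinf) ∉ n) →
      ¬ P 2 ≤ n → ¬ (P 0 ≤ n ∧ P 1 ≤ n) :=
  fun n hn _ hC _ => not_01_chart M q hq hqM A K hdvr hA hπ hyp hV0 hV1 hϖ0 hϖ1 hv1 hv2 n
    hn.isPrime (not_not.mp hC)

omit [NeZero M] [NeZero q] in
/-- `π ∈ ϖ 2 · V 2`. -/
theorem pi_mem_unif (val : ValHyp3 (algebraMap (OK A K) (FK (M * q * q) K) π) e ϖ V) :
    ∃ y ∈ V 2, algebraMap (OK A K) (FK (M * q * q) K) π = ϖ 2 * y := by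
  obtain ⟨u, hu, -, h⟩ := val.ram 2
  refine ⟨ϖ 2 ^ (e 2 - 1) * u, mul_mem (pow_mem (val.unif_mem 2) _) hu, ?_⟩
  rw [h, ← mul_assoc, ← pow_succ', Nat.sub_add_cancel (val.e_pos 2)]

/-- **[CUSP1].**  Every prime `n ∋ J3⁻¹` of the chart at infinity lies on at most one of the
vertical primes `P 0`, `P 1`, `P 2`. -/
theorem one_chart (hA : A.LiesOverPrime q) (hπ : Irreducible π)
    (val : ValHyp3 (algebraMap (OK A K) (FK (M * q * q) K) π) e ϖ V)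
    (hyp : ChartHyp3 π ϖ V P)
    (hV0 : V 0 = GaussV.V1 (M * q * q) A K hdvr)
    (hV1 : V 1 = GaussV.V2 (WQ2.wK2 M q hq hqM K) hdvr)
    (hϖ0 : ϖ 0 = algebraMap (OK A K) (FK (M * q * q) K) π)
    (hϖ1 : ϖ 1 = algebraMap (OK A K) (FK (M * q * q) K) π)
    (hϖ2 : ϖ 2 = Wit3.sE M q hq hqM K)
    (hx1 : ∃ z ∈ V 2, Wit3.x1 M q hq hqM K = algebraMap (OK A K) (FK (M * q * q) K) π * z)
    (hx2 : ∃ z ∈ V 2, Wit3.x2 M q hq hqM K = algebraMap (OK A K) (FK (M * q * q) K) π * z)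
    (hv1 : WQ2.jqK2 M q hq hqM K / jK (M * q * q) K ^ q ∈ Rinf)
    (hv2 : WQ2.jqK2 M q hq hqM K / WQ2.jqqK2 M q hq hqM K ^ q ∈ Rinf)
    (n : Ideal Rinf) (hn : n.IsPrime)
    (hcusp : (⟨(Chart3B.J3 M q hq hqM K)⁻¹, Chart3B.J3_inv_mem_chart M q hq hqM A K⟩ : Rinf)
      ∈ n) :
    ∀ i i' : Fin 3, P i ≤ n → P i' ≤ n → i = i' := by
  rw [J3_inv_eq] at hcusp
  obtain ⟨y, hy, hπy⟩ := pi_mem_unif M q A K val
  refine CuspOff3.one_of_val hyp (fun a b h => Subtype.ext h)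
    (jK (M * q * q) K) (WQ2.jqK2 M q hq hqM K) (WQ2.jqqK2 M q hq hqM K)
    (ModelBasicCore.jK_ne_zero (M * q * q) K) (Chart3B.jqK2_ne_zero M q hq hqM K)
    (Chart3B.jqqK2_ne_zero M q hq hqM K)
    ⟨(jK (M * q * q) K)⁻¹, Chart3B.jK_inv_mem_chart_J3_inv M q hq hqM A K⟩
    ⟨(WQ2.jqqK2 M q hq hqM K)⁻¹, Chart3B.jqqK2_inv_mem_chart_J3_inv M q hq hqM A K⟩
    ⟨(WQ2.jqK2 M q hq hqM K)⁻¹, Chart3B.jqK2_inv_mem_chart_J3_inv M q hq hqM A K⟩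
    ⟨_, hv1⟩ ⟨_, hv2⟩ q hq.two_le rfl rfl rfl rfl rfl ?_ ?_ ?_ ?_ ?_ ?_ ?_ ?_ ?_ ?_ ?_ n hn hcusp
  · rw [hV0]; exact GaussV.jK_mem_V1 hdvr
  · rw [hV0]; exact Chart3B.jqqK2_mem_V1 M q hq hqM A K hdvr
  · rw [hV0, hϖ0]; exact Wit3.x2_pi1 M q hq hqM A K hdvr hA hπ
  · rw [hV0, hϖ0]; exact frob_pi1 M q hq hqM A K hdvr hA hπ
  · rw [hV1]
    exact Chart3B.chart_J3_le_W2 M q hq hqM A K hdvr _ (Chart3B.jK_mem_chart_J3 M q hq hqM A K)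
  · rw [hV1]
    exact Chart3B.chart_J3_le_W2 M q hq hqM A K hdvr _
      (Chart3B.jqqK2_mem_chart_J3 M q hq hqM A K)
  · rw [hV1, hϖ1]; exact Wit3.x1_pi2 M q hq hqM A K hdvr hA hπ
  · rw [hV1, hϖ1]; exact frob_pi2 M q hq hqM A K hdvr hA hπ
  · obtain ⟨z, hz, hxz⟩ := hx2
    exact ⟨y * z, mul_mem hy hz, by rw [← mul_assoc, ← hπy]; exact hxz⟩
  · obtain ⟨z, hz, hxz⟩ := hx1
    exact ⟨y * z, mul_mem hy hz, by rw [← mul_assoc, ← hπy]; exact hxz⟩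
  · exact ⟨1, one_mem _, by rw [mul_one, hϖ2]; rfl⟩

/-- **The field `one` of `ChartTorInst.TorInCusp`** for the chart at infinity, with
`D n := ⟨J3⁻¹, _⟩ ∈ n` ("`n` is cuspidal"). -/
theorem one (hA : A.LiesOverPrime q) (hπ : Irreducible π)
    (val : ValHyp3 (algebraMap (OK A K) (FK (M * q * q) K) π) e ϖ V)
    (hyp : ChartHyp3 π ϖ V P)
    (hV0 : V 0 = GaussV.V1 (M * q * q) A K hdvr)
    (hV1 : V 1 = GaussV.V2 (WQ2.wK2 M q hq hqM K) hdvr)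
    (hϖ0 : ϖ 0 = algebraMap (OK A K) (FK (M * q * q) K) π)
    (hϖ1 : ϖ 1 = algebraMap (OK A K) (FK (M * q * q) K) π)
    (hϖ2 : ϖ 2 = Wit3.sE M q hq hqM K)
    (hx1 : ∃ z ∈ V 2, Wit3.x1 M q hq hqM K = algebraMap (OK A K) (FK (M * q * q) K) π * z)
    (hx2 : ∃ z ∈ V 2, Wit3.x2 M q hq hqM K = algebraMap (OK A K) (FK (M * q * q) K) π * z)
    (hv1 : WQ2.jqK2 M q hq hqM K / jK (M * q * q) K ^ q ∈ Rinf)
    (hv2 : WQ2.jqK2 M q hq hqM K / WQ2.jqqK2 M q hq hqM K ^ q ∈ Rinf) :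
    ∀ n : Ideal Rinf, n.IsMaximal → algebraMap (OK A K) Rinf π ∈ n →
      (⟨(Chart3B.J3 M q hq hqM K)⁻¹, Chart3B.J3_inv_mem_chart M q hq hqM A K⟩ : Rinf) ∈ n →
      ∀ i i' : Fin 3, P i ≤ n → P i' ≤ n → i = i' :=
  fun n hn _ hD => one_chart M q hq hqM A K hdvr hA hπ val hyp hV0 hV1 hϖ0 hϖ1 hϖ2 hx1 hx2 hv1
    hv2 n hn.isPrime hD

/-- `hcusp01` with the single chart membership `jq / j ^ q ∈ chart J3⁻¹`. -/
theorem hcusp01' (hA : A.LiesOverPrime q) (hπ : Irreducible π)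
    (hyp : ChartHyp3 π ϖ V P)
    (hV0 : V 0 = GaussV.V1 (M * q * q) A K hdvr)
    (hV1 : V 1 = GaussV.V2 (WQ2.wK2 M q hq hqM K) hdvr)
    (hϖ0 : ϖ 0 = algebraMap (OK A K) (FK (M * q * q) K) π)
    (hϖ1 : ϖ 1 = algebraMap (OK A K) (FK (M * q * q) K) π)
    (hv1 : WQ2.jqK2 M q hq hqM K / jK (M * q * q) K ^ q ∈ Rinf) :
    ∀ n : Ideal Rinf, n.IsMaximal → algebraMap (OK A K) Rinf π ∈ n →
      ¬ ((⟨(Chart3B.J3 M q hq hqM K)⁻¹, Chart3B.J3_inv_mem_chart M q hq hqM A K⟩ : Rinf) ∉ n) →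
      ¬ P 2 ≤ n → ¬ (P 0 ≤ n ∧ P 1 ≤ n) :=
  hcusp01 M q hq hqM A K hdvr hA hπ hyp hV0 hV1 hϖ0 hϖ1 hv1 (v2_mem M q hq hqM A K hv1)

/-- `one` with the single chart membership `jq / j ^ q ∈ chart J3⁻¹`. -/
theorem one' (hA : A.LiesOverPrime q) (hπ : Irreducible π)
    (val : ValHyp3 (algebraMap (OK A K) (FK (M * q * q) K) π) e ϖ V)
    (hyp : ChartHyp3 π ϖ V P)
    (hV0 : V 0 = GaussV.V1 (M * q * q) A K hdvr)
    (hV1 : V 1 = GaussV.V2 (WQ2.wK2 M q hq hqM K) hdvr)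
    (hϖ0 : ϖ 0 = algebraMap (OK A K) (FK (M * q * q) K) π)
    (hϖ1 : ϖ 1 = algebraMap (OK A K) (FK (M * q * q) K) π)
    (hϖ2 : ϖ 2 = Wit3.sE M q hq hqM K)
    (hx1 : ∃ z ∈ V 2, Wit3.x1 M q hq hqM K = algebraMap (OK A K) (FK (M * q * q) K) π * z)
    (hx2 : ∃ z ∈ V 2, Wit3.x2 M q hq hqM K = algebraMap (OK A K) (FK (M * q * q) K) π * z)
    (hv1 : WQ2.jqK2 M q hq hqM K / jK (M * q * q) K ^ q ∈ Rinf) :
    ∀ n : Ideal Rinf, n.IsMaximal → algebraMap (OK A K) Rinf π ∈ n →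
      (⟨(Chart3B.J3 M q hq hqM K)⁻¹, Chart3B.J3_inv_mem_chart M q hq hqM A K⟩ : Rinf) ∈ n →
      ∀ i i' : Fin 3, P i ≤ n → P i' ≤ n → i = i' :=
  one M q hq hqM A K hdvr hA hπ val hyp hV0 hV1 hϖ0 hϖ1 hϖ2 hx1 hx2 hv1
    (v2_mem M q hq hqM A K hv1)

end

end Fermat.Agent.S36.CuspOff3Inst
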