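/-
S36 — SmoothFixN.lean (helper22): the one-branch repair of the local input of the Čech block, for
ANY finite family of component valuations and an ARBITRARY precision element.

Abstract, Mathlib only.  Picture: `R` a chart with fraction field `E`, `V l` the valuation rings
of the components of the special fibre, `ϖ ∈ R` the precision (`π`; no discreteness of `V l`
with respect to `ϖ` is used, so a component of multiplicity `> 1` is allowed), `n` a prime of `R`
containing `ϖ`.  A valuation `V j` is *far* from `n` when there is `s ∈ R ∖ n` whose powers kill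
every pole at `V j` (`s ∈ P_j ∖ n` for the centre `P_j` of a rank-one `V j`), and *near* when
`R_n ⊆ V i`.

* `exists_fix`   for `a₀ ≠ 0` there is `y ∈ R_n` with `a₀ (1 + ϖ y) ≡ 1` modulo `ϖ (V j)` for
                 every far `j`;
* `smoothFixN`   if `a₀ ≡ 1` modulo `ϖ (V i)` at the near valuations and `w a₀ ^ m ∈ 1 + ϖ R_n`,
                 then there is `a ≡ 1` modulo `ϖ (V l)` for ALL `l` with `w a ^ m ∈ 1 + ϖ R_n`
                 (the shape of the conclusion of `S34.LocPlan.LocAStatement`);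
* `arch_of_disc` the "far" hypothesis from a uniformizer-style description of `V j`.

`a = a₀ (1 + ϖ y)`, `y = A ϖ / (B ϖ + S ^ k)`, where `A / B = (a₀⁻¹ - 1) / ϖ`, `S` is the product
of the far witnesses and `k ≫ 0`.
-/
import Mathlib

set_option autoImplicit false

namespace Fermat.Agent.S36.SmoothFixN

section Aux

variable {E : Type*} [Field E]

/-- In a valuation ring, `1 + t` is a unit for a nonunit `t`. -/
theorem one_add_inv_mem (A : ValuationSubring E) {t : E} (hti : t⁻¹ ∉ A) :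
    (1 + t)⁻¹ ∈ A := by
  by_cases ht0 : t = 0
  · exact absurd (by rw [ht0, inv_zero]; exact A.zero_mem) hti
  by_cases h1 : 1 + t = 0
  · rw [h1, inv_zero]; exact A.zero_mem
  by_contra hcon
  -- `t / (1 + t) = 1 - (1 + t)⁻¹ ∉ A`, hence its inverse `1 + t⁻¹ ∈ A`
  have h2 : t * (1 + t)⁻¹ ∉ A := by
    intro h
    apply hcon
    have : (1 + t)⁻¹ = 1 - t * (1 + t)⁻¹ := by
      field_simp
      ring
    rw [this]
    exact sub_mem A.one_mem h
  have h3 : (t * (1 + t)⁻¹)⁻¹ ∈ A := (A.mem_or_inv_mem _).resolve_left h2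
  apply hti
  have : t⁻¹ = (t * (1 + t)⁻¹)⁻¹ - 1 := by
    field_simp
    ring
  rw [this]
  exact sub_mem h3 A.one_mem

/-- The "far" hypothesis from a uniformizer-style description of the valuation ring: if every
nonzero element is `t ^ k * unit` and `s` is a nonunit of `V`, the powers of `s` kill every
pole. -/
theorem arch_of_disc (V : ValuationSubring E) (t : E) (htV : t ∈ V)
    (hdisc : ∀ x : E, x ≠ 0 → ∃ k : ℤ, ∃ u ∈ V, u⁻¹ ∈ V ∧ x = t ^ k * u)
    (s : E) (hs' : s⁻¹ ∉ V) :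
    ∀ x : E, ∃ k₀ : ℕ, ∀ k : ℕ, k₀ ≤ k → s ^ k * x ∈ V := by
  have hs0 : s ≠ 0 := by
    rintro rfl
    exact hs' (by rw [inv_zero]; exact V.zero_mem)
  obtain ⟨e, u, hu, hu', hsu⟩ := hdisc s hs0
  have ht0 : t ≠ 0 := by
    rintro rfl
    by_cases he : e = 0
    · subst he
      rw [zpow_zero, one_mul] at hsu
      exact hs' (hsu ▸ hu')
    · rw [zero_zpow e he, zero_mul] at hsu
      exact hs0 hsu
  have hu0 : u ≠ 0 := by
    rintro rfl
    rw [mul_zero] at hsu
    exact hs0 hsu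
  have he : 1 ≤ e := by
    by_contra hlt
    apply hs'
    obtain ⟨l, hl⟩ : ∃ l : ℕ, -e = l := ⟨(-e).toNat, by omega⟩
    have : s⁻¹ = t ^ l * u⁻¹ := by
      rw [hsu, mul_inv, ← zpow_neg, hl, zpow_natCast]
    rw [this]
    exact mul_mem (pow_mem htV l) hu'
  intro x
  by_cases hx : x = 0
  · exact ⟨0, fun k _ => by rw [hx, mul_zero]; exact V.zero_mem⟩
  obtain ⟨f, u', hu1, -, hxu⟩ := hdisc x hx
  refine ⟨(-f).toNat, fun k hk => ?_⟩
  obtain ⟨l, hl⟩ : ∃ l : ℕ, (k : ℤ) * e + f = l := ⟨((k : ℤ) * e + f).toNat, by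
    have : (k : ℤ) ≤ k * e := by nlinarith
    omega⟩
  have : s ^ k * x = t ^ l * (u ^ k * u') := by
    rw [hsu, hxu, mul_pow, ← zpow_natCast (t ^ e) k, ← zpow_mul, ← zpow_natCast t l, ← hl,
      zpow_add₀ ht0, mul_comm e (k : ℤ)]
    ring
  rw [this]
  exact mul_mem (pow_mem htV l) (mul_mem (pow_mem hu k) hu1)

end Aux

section Main

variable {R E : Type*} [CommRing R] [IsDomain R] [Field E] [Algebra R E] [IsFractionRing R E]
  {ι : Type*} [Finite ι]

/-- **[SmoothFixN], core**: `y ∈ R_n` with `a₀ (1 + ϖ y) ≡ 1` modulo `ϖ (V j)` for every far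
valuation `j`. -/
theorem exists_fix (V : ι → ValuationSubring E) (ϖ : R) (hϖ : ϖ ≠ 0) (n : Ideal R)
    (hn : n.IsPrime) (hϖn : ϖ ∈ n) (far : ι → Prop)
    (hle : ∀ j, far j → ∀ r : R, algebraMap R E r ∈ V j)
    (hfar : ∀ j, far j → ∃ s : R, s ∉ n ∧
      ∀ x : E, ∃ k₀ : ℕ, ∀ k : ℕ, k₀ ≤ k → algebraMap R E s ^ k * x ∈ V j)
    (a₀ : E) (ha₀ : a₀ ≠ 0) :
    ∃ y : E, (∃ s : R, s ∉ n ∧ ∃ r : R, algebraMap R E s * y = algebraMap R E r) ∧
      ∀ j, far j → ∃ v ∈ V j, a₀ * (1 + algebraMap R E ϖ * y) - 1 = algebraMap R E ϖ * v := by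
  classical
  cases nonempty_fintype ι
  have hinj : Function.Injective (algebraMap R E) := IsFractionRing.injective R E
  set p : E := algebraMap R E ϖ with hp
  have hp0 : p ≠ 0 := fun h => hϖ (hinj (h.trans (map_zero _).symm))
  -- the far witnesses
  have hs : ∀ j, ∃ s : R, s ∉ n ∧ (far j →
      ∀ x : E, ∃ k₀ : ℕ, ∀ k : ℕ, k₀ ≤ k → algebraMap R E s ^ k * x ∈ V j) := by
    intro j
    by_cases hj : far j
    · obtain ⟨s, hsn, hsa⟩ := hfar j hj
      exact ⟨s, hsn, fun _ => hsa⟩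
    · exact ⟨1, hn.one_notMem, fun h => absurd h hj⟩
  choose s hsn hsarch using hs
  set S : R := ∏ j, s j with hS
  have hSn : S ∉ n := by
    rw [hS, hn.prod_mem_iff]
    rintro ⟨j, -, hj⟩
    exact hsn j hj
  have hS0 : algebraMap R E S ≠ 0 := by
    intro h
    apply hSn
    rw [hinj (h.trans (map_zero _).symm)]
    exact n.zero_mem
  have hSarch : ∀ j, far j → ∀ x : E, ∃ k₀ : ℕ, ∀ k : ℕ, k₀ ≤ k →
      algebraMap R E S ^ k * x ∈ V j := by
    intro j hj x
    obtain ⟨k₀, hk₀⟩ := hsarch j hj x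
    refine ⟨k₀, fun k hk => ?_⟩
    have hSj : S = s j * ∏ l ∈ Finset.univ.erase j, s l := by
      rw [hS, Finset.mul_prod_erase _ _ (Finset.mem_univ j)]
    have : algebraMap R E S ^ k * x =
        (algebraMap R E (s j) ^ k * x) * algebraMap R E (∏ l ∈ Finset.univ.erase j, s l) ^ k := by
      rw [hSj, map_mul, mul_pow]
      ring
    rw [this]
    exact mul_mem (hk₀ k hk) (pow_mem (hle j hj _) k)
  -- `(a₀⁻¹ - 1) / ϖ = A / B`
  obtain ⟨A, B, hB, hAB⟩ := IsFractionRing.div_surjective (A := R) ((a₀⁻¹ - 1) / p)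
  set a : E := algebraMap R E A with ha
  set b : E := algebraMap R E B with hb
  have hb0 : b ≠ 0 := fun h => nonZeroDivisors.ne_zero hB (hinj (h.trans (map_zero _).symm))
  -- `a₀ (b + p a) = b`
  have hrel : a₀ * (b + p * a) = b := by
    have h1 : a₀⁻¹ - 1 = p * (a / b) := by
      rw [hAB]
      field_simp
    have h2 : a₀⁻¹ = (b + p * a) / b := by
      field_simp
      field_simp at h1
      linear_combination h1
    have h3 : a₀ * a₀⁻¹ = 1 := mul_inv_cancel₀ ha₀
    rw [h2] at h3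
    field_simp at h3
    linear_combination h3
  have hbpa : b + p * a ≠ 0 := by
    intro h
    rw [h, mul_zero] at hrel
    exact hb0 hrel.symm
  set X₁ : E := (b * p)⁻¹ with hX₁
  set X₃ : E := a₀ * a * (b * b * p)⁻¹ with hX₃
  have hX₁0 : X₁ ≠ 0 := inv_ne_zero (mul_ne_zero hb0 hp0)
  have hex : ∀ j, ∃ k₀ : ℕ, far j → ∀ k : ℕ, k₀ ≤ k →
      algebraMap R E S ^ k * X₁ ∈ V j ∧ algebraMap R E S ^ k * X₃ ∈ V j := by
    intro j
    by_cases hj : far j
    · obtain ⟨k₁, hk₁⟩ := hSarch j hj X₁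
      obtain ⟨k₃, hk₃⟩ := hSarch j hj X₃
      exact ⟨max k₁ k₃, fun _ k hk =>
        ⟨hk₁ k (le_trans (le_max_left _ _) hk), hk₃ k (le_trans (le_max_right _ _) hk)⟩⟩
    · exact ⟨0, fun h => absurd h hj⟩
  choose kk hkk using hex
  set K : ℕ := Finset.univ.sup kk with hK
  set σ : E := algebraMap R E S ^ (K + 1) with hσ
  set den : R := B * ϖ + S ^ (K + 1) with hden
  have hden_n : den ∉ n := by
    intro h
    have h1 : S ^ (K + 1) ∈ n := by
      have : S ^ (K + 1) = den - B * ϖ := by rw [hden]; ring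
      rw [this]
      exact n.sub_mem h (n.mul_mem_left B hϖn)
    exact hSn (hn.mem_of_pow_mem _ h1)
  have hdenE : algebraMap R E den = b * p + σ := by
    rw [hden, map_add, map_mul, map_pow]
  have hden0 : algebraMap R E den ≠ 0 := by
    intro h
    apply hden_n
    rw [hinj (h.trans (map_zero _).symm)]
    exact n.zero_mem
  refine ⟨algebraMap R E (A * ϖ) / algebraMap R E den, ⟨den, hden_n, A * ϖ, ?_⟩, ?_⟩
  · field_simp
  intro j hj
  have hKj : kk j ≤ K := Finset.le_sup (f := kk) (Finset.mem_univ j)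
  by_cases hSi : (algebraMap R E S)⁻¹ ∈ V j
  · -- `V j` is everything
    have hall : ∀ x : E, x ∈ V j := by
      intro x
      obtain ⟨k₀, hk₀⟩ := hSarch j hj x
      have : x = (algebraMap R E S)⁻¹ ^ k₀ * (algebraMap R E S ^ k₀ * x) := by
        rw [← mul_assoc, ← mul_pow, inv_mul_cancel₀ hS0, one_pow, one_mul]
      rw [this]
      exact mul_mem (pow_mem hSi k₀) (hk₀ k₀ le_rfl)
    refine ⟨(a₀ * (1 + p * (algebraMap R E (A * ϖ) / algebraMap R E den)) - 1) / p, hall _, ?_⟩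
    field_simp
  · -- `S` is a nonunit of `V j`
    set t : E := σ * X₁ with ht
    have ht1 : algebraMap R E S ^ K * X₁ ∈ V j := (hkk j hj K hKj).1
    have ht1' : algebraMap R E S ^ K * X₁ ≠ 0 := mul_ne_zero (pow_ne_zero _ hS0) hX₁0
    have hteq : t = algebraMap R E S * (algebraMap R E S ^ K * X₁) := by
      rw [ht, hσ, pow_succ]
      ring
    have htV : t ∈ V j := by
      rw [hteq]
      exact mul_mem (hle j hj S) ht1
    have htinv : t⁻¹ ∉ V j := by
      intro h
      apply hSi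
      have : (algebraMap R E S)⁻¹ = (algebraMap R E S ^ K * X₁) * t⁻¹ := by
        rw [hteq, mul_inv, mul_comm (algebraMap R E S)⁻¹, ← mul_assoc, mul_inv_cancel₀ ht1',
          one_mul]
      rw [this]
      exact mul_mem ht1 h
    have hu : (1 + t)⁻¹ ∈ V j := one_add_inv_mem (V j) htinv
    have h1t : 1 + t ≠ 0 := by
      intro h
      apply htinv
      have : t = -1 := by linear_combination h
      rw [this, inv_neg, inv_one]
      exact neg_mem (V j).one_mem
    have hσ3 : σ * X₃ ∈ V j := (hkk j hj (K + 1) (le_trans hKj (Nat.le_succ K))).2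
    refine ⟨-(σ * X₃) * (1 + t)⁻¹, mul_mem (neg_mem hσ3) hu, ?_⟩
    have hden' : b * p + σ = b * p * (1 + t) := by
      rw [ht, hX₁]
      field_simp
    have hden'0 : b * p + σ ≠ 0 := by
      rw [← hdenE]
      exact hden0
    rw [map_mul, ← ha, ← hp, hdenE]
    have h1t' : (1 + t)⁻¹ = b * p / (b * p + σ) := by
      rw [hden']
      field_simp
    have hne : p * b + σ ≠ 0 := by
      rw [mul_comm]
      exact hden'0
    rw [h1t', hX₃]
    field_simp
    linear_combination (p * b + σ) * hrel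

/-- **[SmoothFixN]**, in the shape of the conclusion of `S34.LocPlan.LocAStatement`: a local
section `a₀` which is `≡ 1` modulo `ϖ` at the near valuations (those containing `R_n`) can be
replaced by one which is `≡ 1` modulo `ϖ` at ALL the valuations, keeping
`w * a ^ m ∈ 1 + ϖ R_n`. -/
theorem smoothFixN (V : ι → ValuationSubring E) (ϖ : R) (hϖ : ϖ ≠ 0) (n : Ideal R)
    (hn : n.IsPrime) (hϖn : ϖ ∈ n) (far : ι → Prop)
    (hle : ∀ j, far j → ∀ r : R, algebraMap R E r ∈ V j)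
    (hfar : ∀ j, far j → ∃ s : R, s ∉ n ∧
      ∀ x : E, ∃ k₀ : ℕ, ∀ k : ℕ, k₀ ≤ k → algebraMap R E s ^ k * x ∈ V j)
    (hnear : ∀ i, ¬ far i → ∀ y : E,
      (∃ s : R, s ∉ n ∧ ∃ r : R, algebraMap R E s * y = algebraMap R E r) → y ∈ V i)
    (w a₀ : E) (m : ℕ)
    (ha₀ : ∀ i, ¬ far i → ∃ v ∈ V i, a₀ - 1 = algebraMap R E ϖ * v)
    (hloc : ∃ s : R, s ∉ n ∧ ∃ r : R,
      algebraMap R E s * (w * a₀ ^ m - 1) = algebraMap R E ϖ * algebraMap R E r) :
    ∃ a : E, (∀ l, ∃ v ∈ V l, a - 1 = algebraMap R E ϖ * v) ∧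
      ∃ s : R, s ∉ n ∧ ∃ r : R,
        algebraMap R E s * (w * a ^ m - 1) = algebraMap R E ϖ * algebraMap R E r := by
  have hinj : Function.Injective (algebraMap R E) := IsFractionRing.injective R E
  set p : E := algebraMap R E ϖ with hp
  -- reduce to `a₀ ≠ 0`
  obtain ⟨a₁, ha₁0, ha₁, hloc₁⟩ : ∃ a₁ : E, a₁ ≠ 0 ∧
      (∀ i, ¬ far i → ∃ v ∈ V i, a₁ - 1 = p * v) ∧
      ∃ s : R, s ∉ n ∧ ∃ r : R, algebraMap R E s * (w * a₁ ^ m - 1) = p * algebraMap R E r := by
    by_cases h0 : a₀ = 0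
    · refine ⟨1, one_ne_zero, fun i _ => ⟨0, (V i).zero_mem, by rw [sub_self, mul_zero]⟩, ?_⟩
      obtain ⟨s, hs, r, hr⟩ := hloc
      by_cases hm : m = 0
      · subst hm
        refine ⟨s, hs, r, ?_⟩
        rw [pow_zero] at hr ⊢
        exact hr
      · exfalso
        apply hs
        rw [h0, zero_pow hm, mul_zero, zero_sub] at hr
        have h1 : algebraMap R E s = algebraMap R E (-(ϖ * r)) := by
          rw [map_neg, map_mul, ← hp]
          linear_combination -hr
        rw [hinj h1]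
        exact n.neg_mem (n.mul_mem_right r hϖn)
    · exact ⟨a₀, h0, ha₀, hloc⟩
  obtain ⟨y, ⟨s₂, hs₂, r₂, hy⟩, hyfar⟩ := exists_fix V ϖ hϖ n hn hϖn far hle hfar a₁ ha₁0
  refine ⟨a₁ * (1 + p * y), ?_, ?_⟩
  · intro l
    by_cases hl : far l
    · exact hyfar l hl
    · obtain ⟨v₀, hv₀, hav⟩ := ha₁ l hl
      have hyV : y ∈ V l := hnear l hl y ⟨s₂, hs₂, r₂, hy⟩
      have hpV : p ∈ V l :=
        hnear l hl p ⟨1, hn.one_notMem, ϖ, by rw [map_one, one_mul]⟩
      refine ⟨v₀ + y + p * v₀ * y, add_mem (add_mem hv₀ hyV) (mul_mem (mul_mem hpV hv₀) hyV), ?_⟩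
      linear_combination (1 + p * y) * hav
  · obtain ⟨s₁, hs₁, r₁, hr₁⟩ := hloc₁
    obtain ⟨c, hc⟩ := sub_dvd_pow_sub_pow (s₂ + ϖ * r₂) s₂ m
    refine ⟨s₁ * s₂ ^ m,
      fun h => (hn.mem_or_mem h).elim hs₁ (fun h' => hs₂ (hn.mem_of_pow_mem m h')),
      r₁ * (s₂ + ϖ * r₂) ^ m + s₁ * r₂ * c, ?_⟩
    have hcE : (algebraMap R E s₂ + p * algebraMap R E r₂) ^ m - algebraMap R E s₂ ^ m =
        p * algebraMap R E r₂ * algebraMap R E c := by
      have := congrArg (algebraMap R E) hc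
      rw [map_sub, map_pow, map_pow, map_add, map_mul, map_mul, map_sub, map_add, map_mul,
        ← hp] at this
      rw [this]
      ring
    have key : algebraMap R E s₂ ^ m * (1 + p * y) ^ m =
        (algebraMap R E s₂ + p * algebraMap R E r₂) ^ m := by
      rw [← mul_pow, mul_add, mul_one, mul_left_comm, hy]
    rw [map_mul, map_add, map_mul, map_mul, map_mul, map_pow, map_pow, map_add, map_mul, ← hp,
      mul_pow]
    generalize (algebraMap R E s₂ + p * algebraMap R E r₂) ^ m = Tm at hcE key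
    linear_combination Tm * hr₁ + algebraMap R E s₁ * hcE +
      algebraMap R E s₁ * w * a₁ ^ m * key

end Main

end Fermat.Agent.S36.SmoothFixN
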