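/-
S36 — ToricRel.lean (helper72): block [TORIC-rel] of the S36 campaign (blueprint #2891 (6)).

**The relation between the gluing constants of a Kummer generator at a crossing point, coming
from ONE norm relation.**  Abstract (Mathlib only).

Picture.  `R` = the chart at level `q² M''` (fraction field `E`), `n` a crossing point of its
special fibre, `V i` the valuation rings of the vertical components (all of them pass through
`n`); `R'` = the chart at level `q M''` (fraction field `E'`), `n'` the node below `n` for one of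
the two degeneracy maps, `V' j` its two component valuation rings; `Nm : E →*₀ E'` the norm;
`O` the base discrete valuation ring with uniformizer `π`.

* Normal form of `G` at `n` (output of `S36/LocGMulti`): `G = g₀ ^ m * u₀`, `u₀ ∈ 1 + π R_n`,
  `g₀ ≡ γ i` (a CONSTANT of `O`) modulo `π (V i)` for every `i`.
* Norm relation: `Nm G = c₀ * h ^ m`, `c₀` a unit at `n'`, `h ≡ η j` (constants) modulo
  `π (V' j)`.
* (N1) `Nm (1 + π R_n) ⊆ 1 + π R'_{n'}` (see `S36/NormOne.lean`);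
* (N2) `x ≡ c i` modulo `π (V i)` for all `i` (constants) implies
  `Nm x ≡ ∏ i, c i ^ d i j` modulo `π (V' j)` (the exponents `d i j = e·f` of `V i` over `V' j`).

Then (`rel`):  `π ∣ η j₁ * ∏ i, γ i ^ d i j₂ - η j₂ * ∏ i, γ i ^ d i j₁`  for all `j₁ j₂`.

Proof: `y := h / Nm g₀` satisfies `c₀ y ^ m = Nm (G / g₀ ^ m) ∈ 1 + π R'_{n'}`, so `y` is a unit
of the (integrally closed) local ring `R'_{n'}`, and `y * ∏ i, γ i ^ d i j ≡ η j` modulo
`π (V' j)` for every `j`; since the centre of each `V' j` lies in `n'`, all the constants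
`η j / ∏ i, γ i ^ d i j` are the value of `y` at `n'`.

`exists_eta` supplies the constants `η j` (from a primitive `m`-th root of unity in `O`), and
`solve` is the elimination used for the two degeneracy maps
(`d = (1, 0, q-1 | 0, q, 0)` and `(q, 0, 0 | 0, 1, q-1)`): the `(q² - 1)`-th powers of the
gluing constants are independent of the crossing point.  `fix`: the corrected function
`G ^ N * H ^ m` (`H ≡` constants on the components) then has a local `m`-th root which is `≡ 1`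
on every branch through the point — the hypotheses `ha₀`, `hloc` of `S36/SmoothFixN`.
-/
import Mathlib

set_option autoImplicit false

namespace Fermat.Agent.S36.ToricRel

section Rel

variable {O : Type*} [CommRing O]
  {R : Type*} [CommRing R] [Algebra O R] {E : Type*} [Field E] [Algebra R E]
  {R' : Type*} [CommRing R'] [Algebra O R'] {E' : Type*} [Field E'] [Algebra R' E']
  [IsFractionRing R' E'] [IsIntegrallyClosed R']
  {ι ι' : Type*} [Fintype ι]

/-- **[TORIC-rel]** the relation between the gluing constants `γ i` of `G` at the crossing point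
`n` imposed by one norm relation `Nm G = c₀ * h ^ m` at the node `n'` below `n`. -/
theorem rel (π : O) (V : ι → ValuationSubring E) (V' : ι' → ValuationSubring E')
    (n : Ideal R) (n' : Ideal R') (hn' : n'.IsPrime) (hπn' : algebraMap O R' π ∈ n')
    (m : ℕ) (hm : 0 < m) (Nm : E →*₀ E') (d : ι → ι' → ℕ)
    (hN1 : ∀ x : E, (∃ s : R, s ∉ n ∧ ∃ r : R, algebraMap R E s * (x - 1) =
        algebraMap R E (algebraMap O R π) * algebraMap R E r) →
      ∃ s' : R', s' ∉ n' ∧ ∃ r' : R', algebraMap R' E' s' * (Nm x - 1) =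
        algebraMap R' E' (algebraMap O R' π) * algebraMap R' E' r')
    (hN2 : ∀ (x : E) (c : ι → O),
      (∀ i, ∃ z ∈ V i, x - algebraMap R E (algebraMap O R (c i)) =
        algebraMap R E (algebraMap O R π) * z) →
      ∀ j, ∃ z' ∈ V' j, Nm x - algebraMap R' E' (algebraMap O R' (∏ i, c i ^ d i j)) =
        algebraMap R' E' (algebraMap O R' π) * z')
    (hle' : ∀ j (r : R'), algebraMap R' E' r ∈ V' j)
    (hcen' : ∀ j (r : R'), (∃ z ∈ V' j, algebraMap R' E' r =
        algebraMap R' E' (algebraMap O R' π) * z) → r ∈ n')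
    (hO : ∀ c : O, algebraMap O R' c ∈ n' → π ∣ c)
    (G g₀ : E) (hg₀ : g₀ ≠ 0) (γ : ι → O)
    (hγ : ∀ i, ∃ z ∈ V i, g₀ - algebraMap R E (algebraMap O R (γ i)) =
        algebraMap R E (algebraMap O R π) * z)
    (hu₀ : ∃ s : R, s ∉ n ∧ ∃ r : R, algebraMap R E s * (G / g₀ ^ m - 1) =
        algebraMap R E (algebraMap O R π) * algebraMap R E r)
    (c₀ : R') (hc₀ : c₀ ∉ n') (h : E') (hNm : Nm G = algebraMap R' E' c₀ * h ^ m)
    (η : ι' → O)
    (hη : ∀ j, ∃ z' ∈ V' j, h - algebraMap R' E' (algebraMap O R' (η j)) =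
        algebraMap R' E' (algebraMap O R' π) * z') :
    ∀ j₁ j₂ : ι', π ∣ η j₁ * ∏ i, γ i ^ d i j₂ - η j₂ * ∏ i, γ i ^ d i j₁ := by
  classical
  -- notation
  set a := algebraMap R' E' with ha
  have hinj : Function.Injective a := IsFractionRing.injective R' E'
  set ϖ' : R' := algebraMap O R' π with hϖ'
  -- the norm of `g₀`
  set ν : E' := Nm g₀ with hν
  have hν0 : ν ≠ 0 := (map_ne_zero Nm).2 hg₀
  -- (N1) applied to `u₀ = G / g₀ ^ m`
  obtain ⟨s', hs', r', hr'⟩ := hN1 (G / g₀ ^ m) hu₀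
  have hNu : Nm (G / g₀ ^ m) = a c₀ * (h / ν) ^ m := by
    rw [map_div₀, map_pow, hNm, div_pow, mul_div_assoc]
  rw [hNu] at hr'
  -- `a0 := s' + π r'`
  set a0 : R' := s' + ϖ' * r' with ha0
  have ha0n : a0 ∉ n' := by
    intro h0
    apply hs'
    have : s' = a0 - ϖ' * r' := by rw [ha0]; ring
    rw [this]
    exact n'.sub_mem h0 (n'.mul_mem_right _ hπn')
  have hy : a (c₀ * s') * (h / ν) ^ m = a a0 := by
    have h1 : a s' * (a c₀ * (h / ν) ^ m) = a s' + a ϖ' * a r' := by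
      have := hr'
      rw [mul_sub, mul_one, sub_eq_iff_eq_add] at this
      rw [this]; ring
    rw [ha0, map_add, map_mul, map_mul, ← h1]; ring
  -- `b := c₀ s' y` is in `R'`
  have hbm : (a (c₀ * s') * (h / ν)) ^ m = a (a0 * (c₀ * s') ^ (m - 1)) := by
    obtain ⟨k, rfl⟩ : ∃ k, m = k + 1 := ⟨m - 1, by omega⟩
    rw [Nat.add_sub_cancel]
    calc (a (c₀ * s') * (h / ν)) ^ (k + 1)
        = a (c₀ * s') ^ k * (a (c₀ * s') * (h / ν) ^ (k + 1)) := by ring
      _ = a (c₀ * s') ^ k * a a0 := by rw [hy]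
      _ = a (a0 * (c₀ * s') ^ k) := by rw [map_mul a a0, map_pow]; ring
  obtain ⟨b, hb⟩ : ∃ b : R', a b = a (c₀ * s') * (h / ν) := by
    apply IsIntegrallyClosed.exists_algebraMap_eq_of_isIntegral_pow (R := R') hm
    rw [hbm]
    exact isIntegral_algebraMap
  have hbn : b ∉ n' := by
    intro hbn
    have h1 : b ^ m = a0 * (c₀ * s') ^ (m - 1) := by
      apply hinj
      rw [map_pow, hb, hbm]
    have h2 : b ^ m ∈ n' := by
      obtain ⟨k, rfl⟩ : ∃ k, m = k + 1 := ⟨m - 1, by omega⟩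
      rw [pow_succ]
      exact n'.mul_mem_left _ hbn
    rw [h1] at h2
    rcases hn'.mem_or_mem h2 with h3 | h3
    · exact ha0n h3
    · exact (hn'.mul_mem_iff_mem_or_mem.1 (hn'.mem_of_pow_mem _ h3)).elim hc₀ hs'
  -- `b * ν = c₀ s' h`
  have hbν : a b * ν = a (c₀ * s') * h := by
    rw [hb, mul_assoc, div_mul_cancel₀ _ hν0]
  -- the key membership, for every `j`
  have key : ∀ j : ι', b * algebraMap O R' (∏ i, γ i ^ d i j)
      - c₀ * s' * algebraMap O R' (η j) ∈ n' := by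
    intro j
    obtain ⟨z1, hz1, hz1e⟩ := hN2 g₀ γ hγ j
    obtain ⟨z2, hz2, hz2e⟩ := hη j
    apply hcen' j
    refine ⟨a (c₀ * s') * z2 - a b * z1,
      (V' j).toSubring.sub_mem ((V' j).toSubring.mul_mem (hle' j _) hz2)
        ((V' j).toSubring.mul_mem (hle' j _) hz1), ?_⟩
    have e1 : a (algebraMap O R' (∏ i, γ i ^ d i j)) = ν - a ϖ' * z1 := by
      rw [← hz1e]; ring
    have e2 : a (algebraMap O R' (η j)) = h - a ϖ' * z2 := by
      rw [← hz2e]; ring
    rw [map_sub, map_mul, map_mul, e1, e2, mul_sub, mul_sub, hbν]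
    ring
  intro j₁ j₂
  apply hO
  have h1 := n'.sub_mem (n'.mul_mem_left (algebraMap O R' (η j₁)) (key j₂))
    (n'.mul_mem_left (algebraMap O R' (η j₂)) (key j₁))
  have h2 : algebraMap O R' (η j₁) * (b * algebraMap O R' (∏ i, γ i ^ d i j₂)
        - c₀ * s' * algebraMap O R' (η j₂))
      - algebraMap O R' (η j₂) * (b * algebraMap O R' (∏ i, γ i ^ d i j₁)
        - c₀ * s' * algebraMap O R' (η j₁))
      = b * algebraMap O R' (η j₁ * ∏ i, γ i ^ d i j₂ - η j₂ * ∏ i, γ i ^ d i j₁) := by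
    rw [map_sub, map_mul, map_mul]; ring
  rw [h2] at h1
  exact (hn'.mem_or_mem h1).resolve_left hbn

end Rel

/-! ### The constants `η j` -/

section Eta

variable {O : Type*} [CommRing O] {E' : Type*} [Field E']

/-- If `h ^ m * c ≡ 1` modulo the maximal ideal of the valuation ring `V'` (`c` a constant), the
constants contain a primitive `m`-th root of unity and an `m`-th root `e` of `c⁻¹` modulo `π`,
and `π` generates the maximal ideal of `V'`, then `h ≡ η` modulo `π V'` for a constant `η`. -/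
theorem exists_eta (κ : O →+* E') (hκ : Function.Injective κ) (V' : ValuationSubring E')
    (hκV : ∀ c : O, κ c ∈ V') (π : O) (hπ : V'.valuation (κ π) < 1)
    (hunif : ∀ x : E', V'.valuation x < 1 → ∃ z ∈ V', x = κ π * z)
    (m : ℕ) (hm : 0 < m) (ζ : O) (hζ : IsPrimitiveRoot ζ m) (c e : O)
    (he : π ∣ e ^ m * c - 1) (h : E') (hh : V'.valuation (h ^ m * κ c - 1) < 1) :
    ∃ η : O, ∃ z ∈ V', h - κ η = κ π * z := by
  classical
  set v := V'.valuation with hv
  have hle : ∀ c : O, v (κ c) ≤ 1 := fun c => (V'.valuation_le_one_iff _).2 (hκV c)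
  -- `c` and `e` are units of `V'`
  have hec : v (κ (e ^ m * c) - 1) < 1 := by
    obtain ⟨t, ht⟩ := he
    have : κ (e ^ m * c) - 1 = κ π * κ t := by
      rw [← map_one κ, ← map_sub, ht, map_mul]
    rw [this, map_mul]
    exact lt_of_le_of_lt (mul_le_of_le_one_right' (hle t)) hπ
  have hone : ∀ x : E', v (x - 1) < 1 → v x = 1 := by
    intro x hx
    have : x = 1 + (x - 1) := by ring
    rw [this]
    exact v.map_one_add_of_lt hx
  have hec1 : v (κ (e ^ m * c)) = 1 := hone _ hec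
  have hc1 : v (κ c) = 1 := by
    apply le_antisymm (hle c)
    have h1 : v (κ (e ^ m * c)) = v (κ (e ^ m)) * v (κ c) := by rw [map_mul, map_mul]
    rw [← hec1, h1]
    exact mul_le_of_le_one_left' (hle _)
  have he1 : v (κ e) = 1 := by
    apply le_antisymm (hle e)
    have h1 : v (κ (e ^ m * c)) = v (κ e) ^ m * v (κ c) := by rw [map_mul, map_mul, map_pow, map_pow]
    rw [hc1, mul_one, hec1] at h1
    by_contra hlt
    have h2 : v (κ e) < 1 := not_le.1 hlt
    have h3 : v (κ e) ^ m < 1 := pow_lt_one₀ zero_le h2 (Nat.pos_iff_ne_zero.1 hm)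
    rw [← h1] at h3
    exact lt_irrefl _ h3
  -- `h ^ m ≡ e ^ m`
  have hhm : v (h ^ m * κ c) = 1 := hone _ hh
  have hh1 : v h = 1 := by
    have h1 : v (h ^ m * κ c) = v h ^ m := by rw [map_mul, map_pow, hc1, mul_one]
    rw [h1] at hhm
    exact (pow_eq_one_iff_of_nonneg zero_le (Nat.pos_iff_ne_zero.1 hm)).1 hhm
  have hdiff : v (h ^ m - κ e ^ m) < 1 := by
    have h1 : (h ^ m - κ e ^ m) * κ c = (h ^ m * κ c - 1) - (κ (e ^ m * c) - 1) := by
      rw [map_mul, map_pow]; ring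
    have h2 : v ((h ^ m - κ e ^ m) * κ c) < 1 := by
      rw [h1]
      exact lt_of_le_of_lt (Valuation.map_sub _ _ _) (max_lt hh hec)
    rwa [map_mul, hc1, mul_one] at h2
  -- factor `X ^ m - Y ^ m`
  have hζ' : IsPrimitiveRoot (κ ζ) m := hζ.map_of_injective hκ
  have hprod : h ^ m - κ e ^ m = ∏ ξ ∈ Polynomial.nthRootsFinset m (1 : E'), (h - ξ * κ e) :=
    hζ'.pow_sub_pow_eq_prod_sub_mul h (κ e) hm
  rw [hprod, map_prod] at hdiff
  -- some factor is a nonunit
  have hex : ∃ ξ ∈ Polynomial.nthRootsFinset m (1 : E'), v (h - ξ * κ e) < 1 := by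
    by_contra hcon
    simp only [not_exists, not_and, not_lt] at hcon
    have hge : (1 : _) ≤ ∏ ξ ∈ Polynomial.nthRootsFinset m (1 : E'), v (h - ξ * κ e) :=
      Finset.one_le_prod' hcon
    exact not_lt.2 hge hdiff
  obtain ⟨ξ, hξ, hξv⟩ := hex
  have hξ1 : ξ ^ m = 1 := (Polynomial.mem_nthRootsFinset hm 1).1 hξ
  have : NeZero m := ⟨Nat.pos_iff_ne_zero.1 hm⟩
  obtain ⟨i, -, hi⟩ := hζ'.eq_pow_of_pow_eq_one hξ1
  refine ⟨ζ ^ i * e, ?_⟩
  have : h - κ (ζ ^ i * e) = h - ξ * κ e := by rw [map_mul, map_pow, hi]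
  rw [this]
  exact hunif _ hξv

end Eta

/-! ### Elimination -/

section Solve

variable {k : Type*} [CommRing k] [IsDomain k]

/-- The two relations at a crossing point (`α`: `η₁ γ₂ ^ q = η₂ γ₃ ^ (q - 1)`;
`β`: `η₁' γ₂ γ₃ ^ (q - 1) = η₂'`, normalised by `γ₁ = 1`) determine `γ₂ ^ (q + 1)` and
`γ₃ ^ ((q + 1) (q - 1))`: they are the same at any two crossing points. -/
theorem solve (q : ℕ) (η₁ η₂ η₁' η₂' γ₂ γ₃ δ₂ δ₃ : k)
    (hη₁ : η₁ ≠ 0) (hη₁' : η₁' ≠ 0) (hγ₂ : γ₂ ≠ 0) (hγ₃ : γ₃ ≠ 0) (hδ₃ : δ₃ ≠ 0)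
    (hα : η₁ * γ₂ ^ q = η₂ * γ₃ ^ (q - 1)) (hβ : η₁' * (γ₂ * γ₃ ^ (q - 1)) = η₂')
    (hα' : η₁ * δ₂ ^ q = η₂ * δ₃ ^ (q - 1)) (hβ' : η₁' * (δ₂ * δ₃ ^ (q - 1)) = η₂') :
    γ₂ ^ (q + 1) = δ₂ ^ (q + 1) ∧ γ₃ ^ ((q + 1) * (q - 1)) = δ₃ ^ ((q + 1) * (q - 1)) := by
  -- `η₁ η₁' γ₂ ^ (q+1) = η₂ η₂'`
  have h1 : η₁ * η₁' * γ₂ ^ (q + 1) = η₂ * η₂' := by
    have : (η₁ * η₁' * γ₂ ^ (q + 1)) * γ₃ ^ (q - 1) = (η₂ * η₂') * γ₃ ^ (q - 1) := by
      calc (η₁ * η₁' * γ₂ ^ (q + 1)) * γ₃ ^ (q - 1)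
          = (η₁ * γ₂ ^ q) * (η₁' * (γ₂ * γ₃ ^ (q - 1))) := by ring
        _ = (η₂ * γ₃ ^ (q - 1)) * η₂' := by rw [hα, hβ]
        _ = (η₂ * η₂') * γ₃ ^ (q - 1) := by ring
    exact mul_right_cancel₀ (pow_ne_zero _ hγ₃) this
  have h2 : η₁ * η₁' * δ₂ ^ (q + 1) = η₂ * η₂' := by
    have : (η₁ * η₁' * δ₂ ^ (q + 1)) * δ₃ ^ (q - 1) = (η₂ * η₂') * δ₃ ^ (q - 1) := by
      calc (η₁ * η₁' * δ₂ ^ (q + 1)) * δ₃ ^ (q - 1)
          = (η₁ * δ₂ ^ q) * (η₁' * (δ₂ * δ₃ ^ (q - 1))) := by ring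
        _ = (η₂ * δ₃ ^ (q - 1)) * η₂' := by rw [hα', hβ']
        _ = (η₂ * η₂') * δ₃ ^ (q - 1) := by ring
    exact mul_right_cancel₀ (pow_ne_zero _ hδ₃) this
  have h3 : γ₂ ^ (q + 1) = δ₂ ^ (q + 1) :=
    mul_left_cancel₀ (mul_ne_zero hη₁ hη₁') (h1.trans h2.symm)
  refine ⟨h3, ?_⟩
  have h4 : γ₂ * γ₃ ^ (q - 1) = δ₂ * δ₃ ^ (q - 1) :=
    mul_left_cancel₀ hη₁' (hβ.trans hβ'.symm)
  have h5 : γ₂ ^ (q + 1) * γ₃ ^ ((q + 1) * (q - 1)) = γ₂ ^ (q + 1) * δ₃ ^ ((q + 1) * (q - 1)) := by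
    calc γ₂ ^ (q + 1) * γ₃ ^ ((q + 1) * (q - 1))
        = (γ₂ * γ₃ ^ (q - 1)) ^ (q + 1) := by rw [mul_pow, ← pow_mul, mul_comm (q - 1)]
      _ = (δ₂ * δ₃ ^ (q - 1)) ^ (q + 1) := by rw [h4]
      _ = δ₂ ^ (q + 1) * δ₃ ^ ((q + 1) * (q - 1)) := by rw [mul_pow, ← pow_mul, mul_comm (q - 1)]
      _ = γ₂ ^ (q + 1) * δ₃ ^ ((q + 1) * (q - 1)) := by rw [h3]
  exact mul_left_cancel₀ (pow_ne_zero _ hγ₂) h5

end Solve

/-! ### The corrected function -/

section Fix

variable {O : Type*} [CommRing O] {R : Type*} [CommRing R] [Algebra O R]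
  {E : Type*} [Field E] [Algebra R E] {ι : Type*}

/-- **[TORIC-fix]** Let `G = g₀ ^ m * u₀` be a normal form at the point `n` (`u₀ ∈ 1 + π R_n`,
`g₀ ≡ γ i` modulo `π (V i)` on the branches `T` through `n`), and let `H ≡ c i` modulo `π (V i)`
(constants).  If `γ i ^ N * c i * κ ≡ 1` modulo `π` on every branch through `n`, for a constant
`κ` with `κ ^ m ≡ 1`, then `G ^ N * H ^ m` has a local `m`-th root `a⁻¹` at `n` which is `≡ 1`
modulo `π (V i)` on every branch through `n`: the input of `S36/SmoothFixN`. -/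
theorem fix (π : O) (V : ι → ValuationSubring E) (T : ι → Prop)
    (n : Ideal R) (hn : n.IsPrime) (hπn : algebraMap O R π ∈ n)
    (hle : ∀ i, T i → ∀ r : R, algebraMap R E r ∈ V i)
    (hπV : ∀ i, T i → (V i).valuation (algebraMap R E (algebraMap O R π)) < 1)
    (m N : ℕ) (G g₀ : E) (hg₀ : g₀ ≠ 0) (γ : ι → O)
    (hγ : ∀ i, T i → ∃ z ∈ V i, g₀ - algebraMap R E (algebraMap O R (γ i)) =
        algebraMap R E (algebraMap O R π) * z)
    (hu₀ : ∃ s : R, s ∉ n ∧ ∃ r : R, algebraMap R E s * (G / g₀ ^ m - 1) =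
        algebraMap R E (algebraMap O R π) * algebraMap R E r)
    (H : E) (hH0 : H ≠ 0) (c : ι → O)
    (hH : ∀ i, T i → ∃ z ∈ V i, H - algebraMap R E (algebraMap O R (c i)) =
        algebraMap R E (algebraMap O R π) * z)
    (κ : O) (hκ0 : algebraMap R E (algebraMap O R κ) ≠ 0) (hκm : π ∣ κ ^ m - 1)
    (hκ : ∀ i, T i → π ∣ γ i ^ N * c i * κ - 1) :
    ∃ a : E, (∀ i, T i → ∃ v ∈ V i, a - 1 = algebraMap R E (algebraMap O R π) * v) ∧
      ∃ s : R, s ∉ n ∧ ∃ r : R, algebraMap R E s * (G ^ N * H ^ m * a ^ m - 1) =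
        algebraMap R E (algebraMap O R π) * algebraMap R E r := by
  classical
  set k : O →+* E := (algebraMap R E).comp (algebraMap O R) with hk
  have hkap : ∀ x : O, algebraMap R E (algebraMap O R x) = k x := fun _ => rfl
  simp only [hkap] at *
  set g' : E := g₀ ^ N * H * k κ with hg'
  have hg'0 : g' ≠ 0 := mul_ne_zero (mul_ne_zero (pow_ne_zero _ hg₀) hH0) hκ0
  refine ⟨g'⁻¹, ?_, ?_⟩
  · intro i hi
    have hkV : ∀ x : O, k x ∈ V i := fun x => hle i hi _
    obtain ⟨z1, hz1, e1⟩ := hγ i hi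
    obtain ⟨z2, hz2, e2⟩ := hH i hi
    obtain ⟨t, ht⟩ := hκ i hi
    have hg₀V : g₀ ∈ V i := by
      have : g₀ = k (γ i) + k π * z1 := by rw [← e1]; ring
      rw [this]
      exact (V i).toSubring.add_mem (hkV _) ((V i).toSubring.mul_mem (hkV _) hz1)
    -- `g₀ ^ N - k (γ i) ^ N = k π * z3`
    obtain ⟨z3, hz3, e3⟩ : ∃ z3 ∈ V i, g₀ ^ N - k (γ i) ^ N = k π * z3 := by
      refine ⟨z1 * ∑ j ∈ Finset.range N, g₀ ^ j * k (γ i) ^ (N - 1 - j), ?_, ?_⟩
      · apply (V i).toSubring.mul_mem hz1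
        apply (V i).toSubring.sum_mem
        intro j _
        exact (V i).toSubring.mul_mem ((V i).toSubring.pow_mem hg₀V _)
          ((V i).toSubring.pow_mem (hkV _) _)
      · rw [← (Commute.all g₀ (k (γ i))).mul_geom_sum₂ N, e1]; ring
    -- `g' = 1 + k π * v'`
    obtain ⟨v', hv', ev'⟩ : ∃ v' ∈ V i, g' = 1 + k π * v' := by
      refine ⟨k t + (z3 * H * k κ + k (γ i) ^ N * z2 * k κ), ?_, ?_⟩
      · have hHV : H ∈ V i := by
          have : H = k (c i) + k π * z2 := by rw [← e2]; ring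
          rw [this]
          exact (V i).toSubring.add_mem (hkV _) ((V i).toSubring.mul_mem (hkV _) hz2)
        apply (V i).toSubring.add_mem (hkV _)
        apply (V i).toSubring.add_mem
        · exact (V i).toSubring.mul_mem ((V i).toSubring.mul_mem hz3 hHV) (hkV _)
        · exact (V i).toSubring.mul_mem
            ((V i).toSubring.mul_mem ((V i).toSubring.pow_mem (hkV _) _) hz2) (hkV _)
      · have h1 : g₀ ^ N = k (γ i) ^ N + k π * z3 := by rw [← e3]; ring
        have h2 : H = k (c i) + k π * z2 := by rw [← e2]; ring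
        have h3 : k (γ i) ^ N * k (c i) * k κ = 1 + k π * k t := by
          have := congrArg k ht
          rw [map_sub, map_mul, map_mul, map_pow, map_one, map_mul] at this
          rw [← this]; ring
        rw [hg', h1]
        linear_combination h3 + (k (γ i) ^ N * k κ) * h2
    have hval : (V i).valuation g' = 1 := by
      rw [ev']
      apply Valuation.map_one_add_of_lt
      rw [map_mul]
      exact lt_of_le_of_lt (mul_le_of_le_one_right' ((V i).valuation_le_one_iff _ |>.2 hv'))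
        (hπV i hi)
    have hginv : g'⁻¹ ∈ V i := by
      rw [← (V i).valuation_le_one_iff, map_inv₀, hval, inv_one]
    refine ⟨-(v' * g'⁻¹), (V i).toSubring.neg_mem ((V i).toSubring.mul_mem hv' hginv), ?_⟩
    have : g'⁻¹ - 1 = (1 - g') * g'⁻¹ := by
      rw [sub_mul, one_mul, mul_inv_cancel₀ hg'0]
    rw [this, ev']; ring
  · obtain ⟨s0, hs0, r0, h0⟩ := hu₀
    obtain ⟨k0, hk0⟩ := hκm
    set π' : R := algebraMap O R π with hπ'
    obtain ⟨w, hw⟩ : π' * r0 ∣ (s0 + π' * r0) ^ N - s0 ^ N := by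
      have := sub_dvd_pow_sub_pow (s0 + π' * r0) s0 N
      rwa [add_sub_cancel_left] at this
    have hκmn : algebraMap O R (κ ^ m) ∉ n := by
      intro hmem
      have h1 : algebraMap O R (κ ^ m) - π' * algebraMap O R k0 = 1 := by
        rw [hπ', ← map_mul, ← map_sub, ← hk0]
        simp
      have h2 : (1 : R) ∈ n := by
        rw [← h1]
        exact n.sub_mem hmem (n.mul_mem_right _ hπn)
      exact hn.ne_top ((Ideal.eq_top_iff_one n).2 h2)
    refine ⟨s0 ^ N * algebraMap O R (κ ^ m), ?_, r0 * w - s0 ^ N * algebraMap O R k0, ?_⟩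
    · intro hmem
      rcases hn.mem_or_mem hmem with h1 | h1
      · exact hs0 (hn.mem_of_pow_mem _ h1)
      · exact hκmn h1
    · -- the computation
      have hu : algebraMap R E s0 * (G / g₀ ^ m) = algebraMap R E (s0 + π' * r0) := by
        have h0' : algebraMap R E s0 * (G / g₀ ^ m) = algebraMap R E s0 + k π * algebraMap R E r0 := by
          rw [mul_sub, mul_one, sub_eq_iff_eq_add] at h0
          rw [h0]; ring
        rw [h0', map_add, map_mul]
        rfl
      have hGa : G ^ N * H ^ m * g'⁻¹ ^ m = (G / g₀ ^ m) ^ N / k κ ^ m := by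
        have hgm : g' ^ m = (g₀ ^ m) ^ N * H ^ m * k κ ^ m := by
          rw [hg', mul_pow, mul_pow, ← pow_mul, ← pow_mul, mul_comm N m]
        rw [eq_div_iff (pow_ne_zero _ hκ0), div_pow,
          eq_div_iff (pow_ne_zero _ (pow_ne_zero _ hg₀)), inv_pow]
        have : G ^ N * H ^ m * (g' ^ m)⁻¹ * k κ ^ m * (g₀ ^ m) ^ N =
            G ^ N * (g' ^ m * (g' ^ m)⁻¹) := by rw [hgm]; ring
        rw [this, mul_inv_cancel₀ (pow_ne_zero _ hg'0), mul_one]
      have hkκ : k κ ^ m = 1 + k π * k k0 := by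
        have := congrArg k hk0
        rw [map_sub, map_pow, map_one, map_mul] at this
        rw [← this]; ring
      have hpow : algebraMap R E ((s0 + π' * r0) ^ N) =
          algebraMap R E (s0 ^ N) + k π * algebraMap R E (r0 * w) := by
        have : (s0 + π' * r0) ^ N = s0 ^ N + π' * r0 * w := by rw [← hw]; ring
        rw [this, map_add, map_mul, map_mul, map_mul]
        have : algebraMap R E π' = k π := rfl
        rw [this]; ring
      have hkm : algebraMap R E (algebraMap O R (κ ^ m)) = k κ ^ m := by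
        rw [map_pow, map_pow]; rfl
      have hk0' : algebraMap R E (algebraMap O R k0) = k k0 := rfl
      rw [hGa, map_mul, map_sub, map_mul, map_mul, hkm, hk0', map_pow]
      have hne : k κ ^ m ≠ 0 := pow_ne_zero _ hκ0
      have e1 : algebraMap R E s0 ^ N * k κ ^ m * ((G / g₀ ^ m) ^ N / k κ ^ m - 1) =
          (algebraMap R E s0 * (G / g₀ ^ m)) ^ N - algebraMap R E s0 ^ N * k κ ^ m := by
        have e0 : k κ ^ m * ((G / g₀ ^ m) ^ N / k κ ^ m) = (G / g₀ ^ m) ^ N := by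
          rw [mul_comm, div_mul_cancel₀ _ hne]
        rw [mul_sub, mul_one, mul_assoc, e0, mul_pow]
      rw [e1, hu, ← map_pow, hpow, map_pow, hkκ, map_mul]
      ring

end Fix

end Fermat.Agent.S36.ToricRel
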