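/-
S36 — ToricAsm.lean (helper22): block [TOR-ASM] of the S36 campaign — the ASSEMBLY of the toric
step (blueprint #2891 (6)) on the landed abstract pieces:

* `S36/ToricRel.lean` (helper72): `solve` (elimination), `fix` (corrected function at a point);
* `S36/ApproxN.lean` (helper43): weak approximation `exists_approx`;
* `S36/SmoothFixN.lean`: extension of the local root to the components not through the point;
* `S36/AbsTopN.lean` (helper29): `LocForm` / `LocField`, the local input of the Čech block.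

Picture.  `O` the base discrete valuation ring, uniformizer `π`; `E` the function field of the
level `q² M`; `V 0, V 1, V 2` the valuation rings of the three components `W1, W2, W3` of the
special fibre; `R` a chart, `n` a closed point of its special fibre, `T n i` = "the branch `i`
passes through `n`".  `G ≡ 1` modulo `π (V i)` for all `i`.

A *normal form* of `G` at `n` (`NF`, the conclusion of `S36/LocGMulti`): `g₀ ≠ 0`, constants
`γ i ∈ O` with `g₀ ≡ γ i` modulo `π (V i)` on every branch through `n`, `G / g₀ ^ m ∈ 1 + π R_n`.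

Input at the crossing points (`relα`, `relβ`: the conclusions of `ToricRel.rel` for the two
degeneracy maps): `ηα 0 γ₁^q ≡ ηα 1 γ₀ γ₂^{q-1}` and `ηβ 0 γ₁ γ₂^{q-1} ≡ ηβ 1 γ₀^q` modulo `π`.

Output (`exists_corrector`, `exists_corrector₂`): ONE corrector `H` (a constant on every
component) such that `G' := G ^ ((q+1)(q-1)) * H ^ m` is `≡ 1` modulo `π (V i)` for all `i` and
satisfies `AbsTopN.LocForm` (resp. `LocField`, the shape of `HypN.loc0 / locInf`) at EVERY closed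
point of the special fibre of every chart.
-/
import Mathlib
import Fermat.Agent.S36.ToricRel
import Fermat.Agent.S36.ApproxN
import Fermat.Agent.S36.SmoothFixN
import Fermat.Agent.S36.AbsTopN

set_option autoImplicit false

namespace Fermat.Agent.S36.ToricAsm

open Fermat.Agent.S36

/-! ### The constants -/

section Field

variable {k : Type*} [Field k]

/-- Homogeneity of the two relations: normalise by `g0`. -/
theorem normalise (q : ℕ) (hq : 0 < q) (e1 e2 f1 f2 g0 g1 g2 : k) (hg0 : g0 ≠ 0)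
    (hα : e1 * g1 ^ q = e2 * (g0 * g2 ^ (q - 1)))
    (hβ : f1 * (g1 * g2 ^ (q - 1)) = f2 * g0 ^ q) :
    e1 * (g1 / g0) ^ q = e2 * (g2 / g0) ^ (q - 1) ∧
      f1 * (g1 / g0 * (g2 / g0) ^ (q - 1)) = f2 := by
  obtain ⟨r, rfl⟩ : ∃ r, q = r + 1 := ⟨q - 1, by omega⟩
  rw [Nat.add_sub_cancel] at hα hβ ⊢
  constructor
  · rw [div_pow, div_pow]
    field_simp
    linear_combination g0 ^ r * hα
  · rw [div_pow]
    field_simp
    linear_combination hβ

end Field

section Consts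

variable {O : Type*} [CommRing O] [IsDomain O] [IsDiscreteValuationRing O]

/-- **Constants of the toric step.**  `P T γ` = "`γ` are the constants of a normal form at a
closed point whose set of branches is `T`".  If the constants are `m`-th roots of unity modulo
`π`, two branches through a point force all three, and the two relations hold at the triple
points, then there are constants `c i` (`c i ^ m ≡ 1`) such that at every point the
`N = (q+1)(q-1)`-th powers of the `γ i` are, up to ONE constant `κ` (`κ ^ m ≡ 1`), inverse to the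
`c i` on the branches through the point. -/
theorem exists_consts (π : O) (hπ : Irreducible π) (q m : ℕ) (hq : 0 < q) (hm : 0 < m)
    (P : (Fin 3 → Prop) → (Fin 3 → O) → Prop)
    (hPm : ∀ T γ, P T γ → ∀ i, T i → π ∣ γ i ^ m - 1)
    (hX : ∀ T γ, P T γ → ∀ i j, i ≠ j → T i → T j → ∀ l, T l)
    (ηα ηβ : Fin 2 → O) (hηα : ¬ π ∣ ηα 0) (hηβ : ¬ π ∣ ηβ 0)
    (hα : ∀ T γ, P T γ → (∀ l, T l) → π ∣ ηα 0 * γ 1 ^ q - ηα 1 * (γ 0 * γ 2 ^ (q - 1)))
    (hβ : ∀ T γ, P T γ → (∀ l, T l) → π ∣ ηβ 0 * (γ 1 * γ 2 ^ (q - 1)) - ηβ 1 * γ 0 ^ q) :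
    ∃ c : Fin 3 → O, (∀ i, π ∣ c i ^ m - 1) ∧
      ∀ T γ, P T γ → ∃ κ : O, π ∣ κ ^ m - 1 ∧
        ∀ i, T i → π ∣ γ i ^ ((q + 1) * (q - 1)) * c i * κ - 1 := by
  classical
  have hmax : (Ideal.span {π}).IsMaximal := PrincipalIdealRing.isMaximal_of_irreducible hπ
  let _ : Field (O ⧸ Ideal.span {π}) := Ideal.Quotient.field _
  set red : O →+* (O ⧸ Ideal.span {π}) := Ideal.Quotient.mk _ with hred
  have hred0 : ∀ x : O, red x = 0 ↔ π ∣ x := fun x => by
    rw [hred, Ideal.Quotient.eq_zero_iff_mem, Ideal.mem_span_singleton]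
  have hsurj : Function.Surjective red := Ideal.Quotient.mk_surjective
  have hm0 : m ≠ 0 := Nat.pos_iff_ne_zero.1 hm
  set N := (q + 1) * (q - 1) with hN
  -- roots of unity
  have hroot : ∀ T γ, P T γ → ∀ i, T i → red (γ i) ^ m = 1 := by
    intro T γ hP i hi
    have := (hred0 _).2 (hPm T γ hP i hi)
    rw [map_sub, map_pow, map_one, sub_eq_zero] at this
    exact this
  have hne : ∀ x : O ⧸ Ideal.span {π}, x ^ m = 1 → x ≠ 0 := by
    rintro x hx rfl
    rw [zero_pow hm0] at hx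
    exact zero_ne_one hx
  have hpow : ∀ x : O ⧸ Ideal.span {π}, x ^ m = 1 → (x ^ N) ^ m = 1 := by
    intro x hx
    rw [← pow_mul, mul_comm, pow_mul, hx, one_pow]
  -- the relations in the residue field, normalised
  have hrel : ∀ T γ, P T γ → (∀ l, T l) →
      red (ηα 0) * (red (γ 1) / red (γ 0)) ^ q = red (ηα 1) * (red (γ 2) / red (γ 0)) ^ (q - 1) ∧
      red (ηβ 0) * (red (γ 1) / red (γ 0) * (red (γ 2) / red (γ 0)) ^ (q - 1)) = red (ηβ 1) := by
    intro T γ hP hT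
    apply normalise q hq _ _ _ _ _ _ _ (hne _ (hroot T γ hP 0 (hT 0)))
    · have := (hred0 _).2 (hα T γ hP hT)
      rw [map_sub, sub_eq_zero] at this
      simpa only [map_mul, map_pow] using this
    · have := (hred0 _).2 (hβ T γ hP hT)
      rw [map_sub, sub_eq_zero] at this
      simpa only [map_mul, map_pow] using this
  have hη1 : red (ηα 0) ≠ 0 := fun h => hηα ((hred0 _).1 h)
  have hη2 : red (ηβ 0) ≠ 0 := fun h => hηβ ((hred0 _).1 h)
  -- the constants `d i`
  obtain ⟨d, hdm, hd⟩ : ∃ d : Fin 3 → (O ⧸ Ideal.span {π}), (∀ i, d i ^ m = 1) ∧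
      ∀ T γ, P T γ → (∀ l, T l) → ∀ i, red (γ i) ^ N = d i * red (γ 0) ^ N := by
    by_cases hex : ∃ T γ, P T γ ∧ ∀ l, T l
    · obtain ⟨T₀, δ, hP₀, hT₀⟩ := hex
      refine ⟨fun i => (red (δ i) / red (δ 0)) ^ N, ?_, ?_⟩
      · intro i
        apply hpow
        rw [div_pow, hroot T₀ δ hP₀ i (hT₀ i), hroot T₀ δ hP₀ 0 (hT₀ 0), div_one]
      · intro T γ hP hT
        have h0 : red (γ 0) ≠ 0 := hne _ (hroot T γ hP 0 (hT 0))
        have hδ0 : red (δ 0) ≠ 0 := hne _ (hroot T₀ δ hP₀ 0 (hT₀ 0))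
        obtain ⟨a1, a2⟩ := hrel T γ hP hT
        obtain ⟨b1, b2⟩ := hrel T₀ δ hP₀ hT₀
        have hs := ToricRel.solve q (red (ηα 0)) (red (ηα 1)) (red (ηβ 0)) (red (ηβ 1))
          (red (γ 1) / red (γ 0)) (red (γ 2) / red (γ 0))
          (red (δ 1) / red (δ 0)) (red (δ 2) / red (δ 0)) hη1 hη2
          (div_ne_zero (hne _ (hroot T γ hP 1 (hT 1))) h0)
          (div_ne_zero (hne _ (hroot T γ hP 2 (hT 2))) h0)
          (div_ne_zero (hne _ (hroot T₀ δ hP₀ 2 (hT₀ 2))) hδ0) a1 a2 b1 b2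
        have key : ∀ i, (red (γ i) / red (γ 0)) ^ N = (red (δ i) / red (δ 0)) ^ N := by
          intro i
          fin_cases i
          · simp only [Fin.zero_eta, div_self h0, div_self hδ0, one_pow]
          · show (red (γ 1) / red (γ 0)) ^ N = (red (δ 1) / red (δ 0)) ^ N
            rw [hN, pow_mul, pow_mul, hs.1]
          · exact hs.2
        intro i
        show red (γ i) ^ N = (red (δ i) / red (δ 0)) ^ N * red (γ 0) ^ N
        rw [← key i, div_pow, div_mul_cancel₀ _ (pow_ne_zero _ h0)]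
    · exact ⟨fun _ => 1, fun _ => one_pow _, fun T γ hP hT => absurd ⟨T, γ, hP, hT⟩ hex⟩
  have hd0 : ∀ i, d i ≠ 0 := fun i => hne _ (hdm i)
  -- lift the inverses
  have hlift : ∀ x : O ⧸ Ideal.span {π}, ∃ y : O, red y = x := fun x => hsurj x
  choose lift hliftspec using hlift
  have hdvd : ∀ x : O, red x = 1 → π ∣ x - 1 := by
    intro x hx
    rw [← hred0, map_sub, hx, map_one, sub_self]
  refine ⟨fun i => lift (d i)⁻¹, ?_, ?_⟩
  · intro i
    apply hdvd
    rw [map_pow, hliftspec, inv_pow, hdm, inv_one]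
  · intro T γ hP
    by_cases hT : ∀ l, T l
    · -- a triple point
      have h0 : red (γ 0) ≠ 0 := hne _ (hroot T γ hP 0 (hT 0))
      refine ⟨lift (red (γ 0) ^ N)⁻¹, ?_, ?_⟩
      · apply hdvd
        rw [map_pow, hliftspec, inv_pow, hpow _ (hroot T γ hP 0 (hT 0)), inv_one]
      · intro i _
        apply hdvd
        rw [map_mul, map_mul, map_pow, hliftspec, hliftspec, hd T γ hP hT i]
        field_simp [hd0 i, pow_ne_zero N h0]
    · by_cases hex : ∃ i, T i
      · obtain ⟨i, hi⟩ := hex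
        have hgi : red (γ i) ≠ 0 := hne _ (hroot T γ hP i hi)
        refine ⟨lift (d i * (red (γ i) ^ N)⁻¹), ?_, ?_⟩
        · apply hdvd
          rw [map_pow, hliftspec, mul_pow, hdm, inv_pow, hpow _ (hroot T γ hP i hi), inv_one,
            mul_one]
        · intro j hj
          have hji : j = i := by
            by_contra hne'
            exact hT (hX T γ hP j i hne' hj hi)
          subst hji
          apply hdvd
          rw [map_mul, map_mul, map_pow, hliftspec, hliftspec]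
          field_simp [hd0 j, pow_ne_zero N hgi]
      · refine ⟨1, by simp, fun i hi => absurd ⟨i, hi⟩ hex⟩

end Consts

/-! ### Normal forms at a closed point -/

section Point

variable {O : Type*} [CommRing O] [IsDomain O] [IsDiscreteValuationRing O]
  {E : Type*} [Field E] [Algebra O E] {ι : Type*}

/-- A **normal form** of `G` at the closed point `n` of the chart `R` (the conclusion of
`S36/LocGMulti`): `G = g₀ ^ m * u₀` with `u₀ ∈ 1 + π R_n` and `g₀ ≡ γ i` (a constant of `O`)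
modulo `π (V i)` on every branch `i` through `n` (`T i`). -/
def NF (R : Subalgebra O E) (π : O) (V : ι → ValuationSubring E) (m : ℕ) (G : E)
    (n : Ideal R) (T : ι → Prop) (g₀ : E) (γ : ι → O) : Prop :=
  g₀ ≠ 0 ∧ (∀ i, T i → ∃ z ∈ V i, g₀ - algebraMap O E (γ i) = algebraMap O E π * z) ∧
    ∃ s : R, s ∉ n ∧ ∃ r : R, (s : E) * (G / g₀ ^ m - 1) = algebraMap O E π * (r : E)

omit [IsDomain O] [IsDiscreteValuationRing O] [Algebra O E] in
/-- `x ≡ y` modulo `p V` implies `x ^ k ≡ y ^ k` modulo `p V`. -/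
theorem pow_sub_pow_mem (A : ValuationSubring E) (p : E) {x y : E} (hy : y ∈ A)
    (h : ∃ z ∈ A, x - y = p * z) (hp : p ∈ A) (k : ℕ) : ∃ z ∈ A, x ^ k - y ^ k = p * z := by
  obtain ⟨z, hz, e⟩ := h
  have hx : x ∈ A := by
    have : x = y + p * z := by rw [← e]; ring
    rw [this]
    exact add_mem hy (mul_mem hp hz)
  refine ⟨z * ∑ j ∈ Finset.range k, x ^ j * y ^ (k - 1 - j), ?_, ?_⟩
  · apply mul_mem hz
    apply sum_mem
    intro j _
    exact mul_mem (pow_mem hx _) (pow_mem hy _)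
  · rw [← (Commute.all x y).mul_geom_sum₂ k, e]; ring

/-- A constant divisible by `π` in a component valuation ring is divisible by `π` in `O`. -/
theorem dvd_of_mem (π : O) (hπ : Irreducible π)
    (A : ValuationSubring E) (hOA : ∀ x : O, algebraMap O E x ∈ A)
    (hπA : (algebraMap O E π)⁻¹ ∉ A) (y : O)
    (h : ∃ z ∈ A, algebraMap O E y = algebraMap O E π * z) : π ∣ y := by
  by_contra hnd
  have hu : IsUnit y := by
    rw [← IsLocalRing.notMem_maximalIdeal, hπ.maximalIdeal_eq, Ideal.mem_span_singleton]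
    exact hnd
  obtain ⟨u, rfl⟩ := hu
  obtain ⟨z, hz, e⟩ := h
  apply hπA
  have h1 : algebraMap O E (u : O) * algebraMap O E ((u⁻¹ : Oˣ) : O) = 1 := by
    rw [← map_mul, Units.mul_inv, map_one]
  have hp0 : algebraMap O E π ≠ 0 := by
    intro h0
    rw [h0, zero_mul] at e
    rw [e, zero_mul] at h1
    exact zero_ne_one h1
  have : (algebraMap O E π)⁻¹ = z * algebraMap O E ((u⁻¹ : Oˣ) : O) := by
    apply inv_eq_of_mul_eq_one_right
    rw [← mul_assoc, ← e, h1]
  rw [this]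
  exact mul_mem hz (hOA _)

variable (R : Subalgebra O E) {π : O} {V : ι → ValuationSubring E} {m : ℕ} {G : E}
  {n : Ideal R} {T : ι → Prop} {g₀ : E} {γ : ι → O}

/-- The constants of a normal form are `m`-th roots of unity modulo `π` (when `G ≡ 1`). -/
theorem NF.dvd_pow_sub_one (hNF : NF R π V m G n T g₀ γ) (hπ : Irreducible π)
    (hOV : ∀ i (x : O), algebraMap O E x ∈ V i)
    (hπV : ∀ i, (algebraMap O E π)⁻¹ ∉ V i)
    (hnear : ∀ i, T i → ∀ y : E, (∃ s : R, s ∉ n ∧ ∃ r : R, (s : E) * y = (r : E)) → y ∈ V i)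
    (hG : ∀ i, ∃ z ∈ V i, G - 1 = algebraMap O E π * z) (i : ι) (hi : T i) :
    π ∣ γ i ^ m - 1 := by
  obtain ⟨hg₀, hγ, s, hs, r, hr⟩ := hNF
  set p : E := algebraMap O E π with hp
  have hp0 : p ≠ 0 := by
    intro h0
    apply hπV i
    rw [h0, inv_zero]
    exact (V i).zero_mem
  apply dvd_of_mem π hπ (V i) (hOV i) (hπV i)
  -- `x := (G / g₀ ^ m - 1) / p ∈ R_n ⊆ V i`
  set x : E := (G / g₀ ^ m - 1) / p with hx
  have hxV : x ∈ V i := by
    apply hnear i hi
    refine ⟨s, hs, r, ?_⟩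
    rw [hx, ← mul_div_assoc, hr, mul_div_cancel_left₀ _ hp0]
  have hGx : G = g₀ ^ m * (1 + p * x) := by
    have h1 : p * x = G / g₀ ^ m - 1 := by rw [hx, mul_div_cancel₀ _ hp0]
    rw [h1, add_sub_cancel, mul_div_cancel₀ _ (pow_ne_zero _ hg₀)]
  obtain ⟨z1, hz1, e1⟩ := hγ i hi
  have hg₀V : g₀ ∈ V i := by
    have : g₀ = algebraMap O E (γ i) + p * z1 := by rw [← e1]; ring
    rw [this]
    exact add_mem (hOV i _) (mul_mem (hOV i _) hz1)
  obtain ⟨z3, hz3, e3⟩ := pow_sub_pow_mem (V i) p (hOV i (γ i)) ⟨z1, hz1, e1⟩ (hOV i π) m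
  obtain ⟨z, hz, e⟩ := hG i
  refine ⟨z - z3 - g₀ ^ m * x, ?_, ?_⟩
  · exact sub_mem (sub_mem hz hz3) (mul_mem (pow_mem hg₀V _) hxV)
  · rw [map_sub, map_pow, map_one]
    have : algebraMap O E (γ i) ^ m - 1 =
        (G - 1) - (g₀ ^ m - algebraMap O E (γ i) ^ m) - (G - g₀ ^ m) := by ring
    rw [this, e, e3]
    rw [hGx]
    ring

omit [IsDomain O] [IsDiscreteValuationRing O] in
/-- **The local form of the corrected function at one closed point**: `ToricRel.fix` followed by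
`SmoothFixN.smoothFixN`. -/
theorem locForm_of_nf [Finite ι] [Nonempty ι] [IsFractionRing R E] (hm : 0 < m) (N : ℕ)
    (hn : n.IsPrime) (hπn : algebraMap O R π ∈ n)
    (hle : ∀ i, ∀ x ∈ R, x ∈ V i)
    (hπV : ∀ i, (algebraMap O E π)⁻¹ ∉ V i)
    (hnear : ∀ i, T i → ∀ y : E, (∃ s : R, s ∉ n ∧ ∃ r : R, (s : E) * y = (r : E)) → y ∈ V i)
    (hfar : ∀ i, ¬ T i → ∃ s : R, s ∉ n ∧
      ∀ x : E, ∃ k₀ : ℕ, ∀ k : ℕ, k₀ ≤ k → (s : E) ^ k * x ∈ V i)
    (hNF : NF R π V m G n T g₀ γ)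
    (H : E) (hH0 : H ≠ 0) (c : ι → O)
    (hH : ∀ i, ∃ z ∈ V i, H - algebraMap O E (c i) = algebraMap O E π * z)
    (κ : O) (hκm : π ∣ κ ^ m - 1) (hκ : ∀ i, T i → π ∣ γ i ^ N * c i * κ - 1) :
    AbsTopN.LocForm R π V (G ^ N * H ^ m) m n := by
  classical
  obtain ⟨hg₀, hγ, hu₀⟩ := hNF
  obtain ⟨i₀⟩ := (inferInstance : Nonempty ι)
  set p : E := algebraMap O E π with hp
  have hp0 : p ≠ 0 := by
    intro h0
    apply hπV i₀
    rw [h0, inv_zero]
    exact (V i₀).zero_mem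
  have hOV : ∀ i (x : O), algebraMap O E x ∈ V i := fun i x => hle i _ (R.algebraMap_mem x)
  have hval : ∀ i, (V i).valuation p < 1 := by
    intro i
    by_contra hcon
    apply hπV i
    rw [← (V i).valuation_le_one_iff, map_inv₀]
    exact inv_le_one_of_one_le₀ (not_lt.1 hcon)
  -- `κ` is nonzero in `E`
  have hκ0 : algebraMap O E κ ≠ 0 := by
    intro h0
    obtain ⟨t, ht⟩ := hκm
    have h1 : algebraMap O E κ ^ m - 1 = p * algebraMap O E t := by
      rw [← map_pow, ← map_one (algebraMap O E), ← map_sub, ht, map_mul]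
    rw [h0, zero_pow (Nat.pos_iff_ne_zero.1 hm), zero_sub] at h1
    apply hπV i₀
    have : p⁻¹ = -algebraMap O E t := by
      apply inv_eq_of_mul_eq_one_right
      rw [mul_neg, ← h1, neg_neg]
    rw [this]
    exact neg_mem (hOV i₀ t)
  obtain ⟨a₀, ha₀, hloc⟩ := ToricRel.fix (R := R) (E := E) π V T n hn hπn
    (fun i _ r => hle i _ r.2) (fun i _ => hval i) m N G g₀ hg₀ γ hγ hu₀ H hH0 c
    (fun i _ => hH i) κ hκ0 hκm hκ
  have hϖ : (algebraMap O R π : R) ≠ 0 := by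
    intro h0
    apply hp0
    have : ((algebraMap O R π : R) : E) = 0 := by rw [h0]; rfl
    exact this
  obtain ⟨a, ha, s, hs, r, hr⟩ := SmoothFixN.smoothFixN (R := R) (E := E) V (algebraMap O R π) hϖ n
    hn hπn (fun i => ¬ T i) (fun i _ r => hle i _ r.2) hfar
    (fun i hi => hnear i (not_not.1 hi)) (G ^ N * H ^ m) a₀ m
    (fun i hi => ha₀ i (not_not.1 hi)) hloc
  exact ⟨a, ha, s, hs, r, hr⟩

end Point

/-! ### The corrector -/

section Corrector

variable {O : Type*} [CommRing O] [IsDomain O] [IsDiscreteValuationRing O]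
  {E : Type*} [Field E] [Algebra O E] {ι : Type*} [Fintype ι] [DecidableEq ι] [Nonempty ι]

omit [IsDomain O] [IsDiscreteValuationRing O] in
/-- **The corrector**: `H ≡ c i` modulo `π (V i)` (weak approximation); if `c i ^ m ≡ 1` modulo
`π` and `G ≡ 1` modulo `π (V i)`, then `G ^ N * H ^ m ≡ 1` modulo `π (V i)` for every `i`. -/
theorem exists_H (π : O) (V : ι → ValuationSubring E) {s : ι → E} (hS : ApproxN.Sep V s)
    (hOV : ∀ i (x : O), algebraMap O E x ∈ V i) (hπV : ∀ i, (algebraMap O E π)⁻¹ ∉ V i)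
    (m N : ℕ) (hm : 0 < m) (G : E) (hG : ∀ i, ∃ z ∈ V i, G - 1 = algebraMap O E π * z)
    (c : ι → O) (hc : ∀ i, π ∣ c i ^ m - 1) :
    ∃ H : E, H ≠ 0 ∧ (∀ i, ∃ z ∈ V i, H - algebraMap O E (c i) = algebraMap O E π * z) ∧
      ∀ i, ∃ z ∈ V i, G ^ N * H ^ m - 1 = algebraMap O E π * z := by
  obtain ⟨i₀⟩ := (inferInstance : Nonempty ι)
  set p : E := algebraMap O E π with hp
  have hp0 : p ≠ 0 := by
    intro h0
    apply hπV i₀
    rw [h0, inv_zero]
    exact (V i₀).zero_mem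
  obtain ⟨H, hH⟩ := ApproxN.exists_approx hS p hp0 (fun i => algebraMap O E (c i))
  -- `H ^ m ≡ 1`
  have hHm : ∀ i, ∃ z ∈ V i, H ^ m - 1 = p * z := by
    intro i
    obtain ⟨z1, hz1, e1⟩ := pow_sub_pow_mem (V i) p (hOV i (c i)) (hH i) (hOV i π) m
    obtain ⟨t, ht⟩ := hc i
    refine ⟨z1 + algebraMap O E t, add_mem hz1 (hOV i t), ?_⟩
    have h1 : algebraMap O E (c i) ^ m - 1 = p * algebraMap O E t := by
      rw [← map_pow, ← map_one (algebraMap O E), ← map_sub, ht, map_mul]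
    have : H ^ m - 1 = (H ^ m - algebraMap O E (c i) ^ m) + (algebraMap O E (c i) ^ m - 1) := by
      ring
    rw [this, e1, h1]; ring
  refine ⟨H, ?_, hH, ?_⟩
  · rintro rfl
    obtain ⟨z, hz, e⟩ := hHm i₀
    rw [zero_pow (Nat.pos_iff_ne_zero.1 hm), zero_sub] at e
    apply hπV i₀
    have : p⁻¹ = -z := by
      apply inv_eq_of_mul_eq_one_right
      rw [mul_neg, ← e, neg_neg]
    rw [this]
    exact neg_mem hz
  · intro i
    obtain ⟨z1, hz1, e1⟩ := hHm i
    obtain ⟨z2, hz2, e2⟩ := pow_sub_pow_mem (V i) p (V i).one_mem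
      (by simpa only [one_pow] using hG i) (hOV i π) N
    rw [one_pow] at e2
    have hGV : G ^ N ∈ V i := by
      have : G ^ N = 1 + p * z2 := by rw [← e2]; ring
      rw [this]
      exact add_mem (V i).one_mem (mul_mem (hOV i π) hz2)
    refine ⟨G ^ N * z1 + z2, add_mem (mul_mem hGV hz1) hz2, ?_⟩
    have : G ^ N * H ^ m - 1 = G ^ N * (H ^ m - 1) + (G ^ N - 1) := by ring
    rw [this, e1, e2]; ring

end Corrector

/-! ### The assembly -/

section Asm

variable {O : Type*} [CommRing O] [IsDomain O] [IsDiscreteValuationRing O]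
  {E : Type*} [Field E] [Algebra O E]

/-- **The toric hypotheses on one chart** `R` (`T n i` = "the branch `i` passes through the
closed point `n`"):

* `near`   : `R_n ⊆ V i` for the branches through `n`;
* `far`    : for the other branches, an element of `R ∖ n` whose powers kill the poles at `V i`
             (`s ∈ P i ∖ n`, see `SmoothFixN.arch_of_disc`);
* `triple` : two branches through `n` force all three ([INC3]);
* `nf`     : a normal form of `G` at every closed point ([HorGen] + [LocG3]);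
* `relα`, `relβ` : the two relations between the constants of ANY normal form at a triple point
             (the conclusions of `ToricRel.rel` for the norms along `α` and `β`, see
             `relα_of_rel`, `relβ_of_rel`). -/
structure ChartTor (R : Subalgebra O E) (π : O) (V : Fin 3 → ValuationSubring E) (q m : ℕ)
    (G : E) (ηα ηβ : Fin 2 → O) (T : Ideal R → Fin 3 → Prop) : Prop where
  frac : IsFractionRing R E
  le : ∀ i, ∀ x ∈ R, x ∈ V i
  near : ∀ n : Ideal R, n.IsMaximal → algebraMap O R π ∈ n → ∀ i, T n i →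
    ∀ y : E, (∃ s : R, s ∉ n ∧ ∃ r : R, (s : E) * y = (r : E)) → y ∈ V i
  far : ∀ n : Ideal R, n.IsMaximal → algebraMap O R π ∈ n → ∀ i, ¬ T n i →
    ∃ s : R, s ∉ n ∧ ∀ x : E, ∃ k₀ : ℕ, ∀ k : ℕ, k₀ ≤ k → (s : E) ^ k * x ∈ V i
  triple : ∀ n : Ideal R, n.IsMaximal → algebraMap O R π ∈ n →
    ∀ i j, i ≠ j → T n i → T n j → ∀ l, T n l
  nf : ∀ n : Ideal R, n.IsMaximal → algebraMap O R π ∈ n →
    ∃ (g₀ : E) (γ : Fin 3 → O), NF R π V m G n (T n) g₀ γ
  relα : ∀ n : Ideal R, n.IsMaximal → algebraMap O R π ∈ n → (∀ l, T n l) →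
    ∀ (g₀ : E) (γ : Fin 3 → O), NF R π V m G n (T n) g₀ γ →
      π ∣ ηα 0 * γ 1 ^ q - ηα 1 * (γ 0 * γ 2 ^ (q - 1))
  relβ : ∀ n : Ideal R, n.IsMaximal → algebraMap O R π ∈ n → (∀ l, T n l) →
    ∀ (g₀ : E) (γ : Fin 3 → O), NF R π V m G n (T n) g₀ γ →
      π ∣ ηβ 0 * (γ 1 * γ 2 ^ (q - 1)) - ηβ 1 * γ 0 ^ q

/-- **[TOR-ASM], family of charts.**  One corrector `H` for all the charts: the function
`G ^ ((q+1)(q-1)) * H ^ m` is `≡ 1` modulo `π (V i)` and has the local form `AbsTopN.LocForm` at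
every closed point of the special fibre of every chart. -/
theorem exists_corrector {𝒞 : Type*} (R : 𝒞 → Subalgebra O E) (π : O) (hπ : Irreducible π)
    (V : Fin 3 → ValuationSubring E) {s : Fin 3 → E} (hS : ApproxN.Sep V s)
    (hOV : ∀ i (x : O), algebraMap O E x ∈ V i) (hπV : ∀ i, (algebraMap O E π)⁻¹ ∉ V i)
    (q m : ℕ) (hq : 0 < q) (hm : 0 < m) (G : E)
    (hG : ∀ i, ∃ z ∈ V i, G - 1 = algebraMap O E π * z)
    (ηα ηβ : Fin 2 → O) (hηα : ¬ π ∣ ηα 0) (hηβ : ¬ π ∣ ηβ 0)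
    (T : ∀ c, Ideal (R c) → Fin 3 → Prop)
    (hC : ∀ c, ChartTor (R c) π V q m G ηα ηβ (T c)) :
    ∃ H : E, H ≠ 0 ∧
      (∀ i, ∃ z ∈ V i, G ^ ((q + 1) * (q - 1)) * H ^ m - 1 = algebraMap O E π * z) ∧
      ∀ (c : 𝒞) (n : Ideal (R c)), n.IsMaximal → algebraMap O (R c) π ∈ n →
        AbsTopN.LocForm (R c) π V (G ^ ((q + 1) * (q - 1)) * H ^ m) m n := by
  classical
  -- the constants
  let P : (Fin 3 → Prop) → (Fin 3 → O) → Prop := fun T' γ =>
    ∃ (c : 𝒞) (n : Ideal (R c)), n.IsMaximal ∧ algebraMap O (R c) π ∈ n ∧ T' = T c n ∧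
      ∃ g₀ : E, NF (R c) π V m G n (T c n) g₀ γ
  obtain ⟨cst, hcst, hκ⟩ := exists_consts π hπ q m hq hm P
    (by
      rintro T' γ ⟨c, n, hn, hπn, rfl, g₀, hNF⟩ i hi
      exact hNF.dvd_pow_sub_one (R c) hπ hOV hπV ((hC c).near n hn hπn) hG i hi)
    (by
      rintro T' γ ⟨c, n, hn, hπn, rfl, g₀, hNF⟩ i j hij hi hj
      exact (hC c).triple n hn hπn i j hij hi hj)
    ηα ηβ hηα hηβ
    (by
      rintro T' γ ⟨c, n, hn, hπn, rfl, g₀, hNF⟩ hT
      exact (hC c).relα n hn hπn hT g₀ γ hNF)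
    (by
      rintro T' γ ⟨c, n, hn, hπn, rfl, g₀, hNF⟩ hT
      exact (hC c).relβ n hn hπn hT g₀ γ hNF)
  obtain ⟨H, hH0, hH, hw⟩ := exists_H π V hS hOV hπV m ((q + 1) * (q - 1)) hm G hG cst hcst
  refine ⟨H, hH0, hw, ?_⟩
  intro c n hn hπn
  obtain ⟨g₀, γ, hNF⟩ := (hC c).nf n hn hπn
  obtain ⟨κ, hκm, hκi⟩ := hκ (T c n) γ ⟨c, n, hn, hπn, rfl, g₀, hNF⟩
  have := (hC c).frac
  exact locForm_of_nf (R c) hm ((q + 1) * (q - 1)) hn.isPrime hπn (hC c).le hπV
    ((hC c).near n hn hπn) ((hC c).far n hn hπn) hNF H hH0 cst hH κ hκm hκi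

/-- **[TOR-ASM], two charts** (the shape consumed by `AbsTopN.HypN`): one corrector `H`; the
function `w := G ^ ((q+1)(q-1)) * H ^ m` satisfies the fields `hw`, `loc0`, `locInf` of
`AbsTopN.HypN π m j R0 Rinf V w`. -/
theorem exists_corrector₂ (R0 Rinf : Subalgebra O E) (π : O) (hπ : Irreducible π)
    (V : Fin 3 → ValuationSubring E) {s : Fin 3 → E} (hS : ApproxN.Sep V s)
    (hπV : ∀ i, (algebraMap O E π)⁻¹ ∉ V i)
    (q m : ℕ) (hq : 0 < q) (hm : 0 < m) (G : E)
    (hG : ∀ i, ∃ z ∈ V i, G - 1 = algebraMap O E π * z)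
    (ηα ηβ : Fin 2 → O) (hηα : ¬ π ∣ ηα 0) (hηβ : ¬ π ∣ ηβ 0)
    (T0 : Ideal R0 → Fin 3 → Prop) (Tinf : Ideal Rinf → Fin 3 → Prop)
    (h0 : ChartTor R0 π V q m G ηα ηβ T0) (hinf : ChartTor Rinf π V q m G ηα ηβ Tinf) :
    ∃ H : E, H ≠ 0 ∧
      (∀ i, ∃ z ∈ V i, G ^ ((q + 1) * (q - 1)) * H ^ m - 1 = algebraMap O E π * z) ∧
      (∀ n : Ideal R0, n.IsMaximal → algebraMap O R0 π ∈ n →
        AbsTopN.LocField R0 π V (G ^ ((q + 1) * (q - 1)) * H ^ m) m n) ∧
      (∀ n : Ideal Rinf, n.IsMaximal → algebraMap O Rinf π ∈ n →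
        AbsTopN.LocField Rinf π V (G ^ ((q + 1) * (q - 1)) * H ^ m) m n) := by
  have hOV : ∀ i (x : O), algebraMap O E x ∈ V i := fun i x => h0.le i _ (R0.algebraMap_mem x)
  obtain ⟨H, hH0, hw, hloc⟩ := exists_corrector (𝒞 := Bool)
    (fun b => Bool.rec Rinf R0 b) π hπ V hS hOV hπV q m hq hm G hG ηα ηβ hηα hηβ
    (fun b => Bool.rec (motive := fun b => Ideal ((Bool.rec Rinf R0 b : Subalgebra O E)) →
      Fin 3 → Prop) Tinf T0 b)
    (fun b => by cases b; exacts [hinf, h0])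
  refine ⟨H, hH0, hw, ?_, ?_⟩
  · intro n hn hπn
    exact AbsTopN.loc_of_locForm R0 h0.le hm n (hloc true n hn hπn)
  · intro n hn hπn
    exact AbsTopN.loc_of_locForm Rinf hinf.le hm n (hloc false n hn hπn)

/-! ### Adapters to `ToricRel.rel` -/

/-- The exponents `e·f` of `W1, W2, W3` over the two components of level `q M` along `α`. -/
def dAlpha (q : ℕ) : Fin 3 → Fin 2 → ℕ := ![![1, 0], ![0, q], ![q - 1, 0]]

/-- The exponents `e·f` of `W1, W2, W3` over the two components of level `q M` along `β`. -/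
def dBeta (q : ℕ) : Fin 3 → Fin 2 → ℕ := ![![q, 0], ![0, 1], ![0, q - 1]]

omit [IsDomain O] [IsDiscreteValuationRing O] in
/-- The conclusion of `ToricRel.rel` with `d := dAlpha q` is the field `relα`. -/
theorem relα_of_rel (π : O) (q : ℕ) (η : Fin 2 → O) (γ : Fin 3 → O)
    (h : ∀ j₁ j₂ : Fin 2, π ∣ η j₁ * ∏ i, γ i ^ dAlpha q i j₂ - η j₂ * ∏ i, γ i ^ dAlpha q i j₁) :
    π ∣ η 0 * γ 1 ^ q - η 1 * (γ 0 * γ 2 ^ (q - 1)) := by
  have := h 0 1
  simpa [Fin.prod_univ_three, dAlpha] using this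

omit [IsDomain O] [IsDiscreteValuationRing O] in
/-- The conclusion of `ToricRel.rel` with `d := dBeta q` is the field `relβ`. -/
theorem relβ_of_rel (π : O) (q : ℕ) (η : Fin 2 → O) (γ : Fin 3 → O)
    (h : ∀ j₁ j₂ : Fin 2, π ∣ η j₁ * ∏ i, γ i ^ dBeta q i j₂ - η j₂ * ∏ i, γ i ^ dBeta q i j₁) :
    π ∣ η 0 * (γ 1 * γ 2 ^ (q - 1)) - η 1 * γ 0 ^ q := by
  have := h 0 1
  simpa [Fin.prod_univ_three, dBeta] using this

end Asm

end Fermat.Agent.S36.ToricAsm
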