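/-
S36 — ChartGlue.lean (helper117).  Abstract TRANSPORT between two charts glued along a coordinate.

Setting: `R0`, `Rinf` subalgebras of a field `E` over `O` (the charts `chart t`, `chart t⁻¹`),
`t ∈ R0`, `t⁻¹ ∈ Rinf`, `R0 ⊆ Rinf[t]`, `Rinf ⊆ R0[t⁻¹]` (`S34.ChartJ.glue`, `glue'`).  A prime
`n` of `Rinf` not containing `t⁻¹` (a point of `chart t⁻¹` where `t` is finite) corresponds to the
prime `contr G n` of `R0`, and the two local rings coincide.  Hence every statement of the form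
"`∃ s ∉ n, ∃ r, s * y = c * r`" (regularity at the point, congruences modulo `π R_n`, the local
form `AbsTopN.LocForm` consumed by the Čech block, local generators of ideals, regular branches)
can be moved between the charts.

Use: blocks which need integrality over a lower level (going-down, norms, Nakayama equaliser) can
only be run on the finite chart `chart t`; `chart t⁻¹` is integral over nothing comparable.  With
this file, the chart `t⁻¹` only needs honest work at the points with `t⁻¹ ∈ n`.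

Mathlib + `S36/AbsTopN` (for the definition `LocForm`) + `S36/ToricAsm` (for the definition `NF`).
-/
import Mathlib
import Fermat.Agent.S36.AbsTopN
import Fermat.Agent.S36.ToricAsm

set_option autoImplicit false

namespace Fermat.Agent.S36.ChartGlue

variable {O : Type*} [CommRing O] {E : Type*} [Field E] [Algebra O E]

/-! ### Membership of an element of `E` in an ideal of a subalgebra -/

/-- `y ∈ E` lies in the subalgebra `R` and, as an element of `R`, in the ideal `n`. -/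
def In (R : Subalgebra O E) (n : Ideal R) (y : E) : Prop := ∃ h : y ∈ R, (⟨y, h⟩ : R) ∈ n

section In

variable {R : Subalgebra O E} {n : Ideal R}

theorem in_coe (x : R) : In R n (x : E) ↔ x ∈ n :=
  ⟨fun ⟨_, hx⟩ => hx, fun hx => ⟨x.2, hx⟩⟩

theorem In.mem {y : E} (h : In R n y) : y ∈ R := h.1

theorem in_zero : In R n (0 : E) := ⟨R.zero_mem, n.zero_mem⟩

theorem In.add {y z : E} (hy : In R n y) (hz : In R n z) : In R n (y + z) := by
  obtain ⟨hy1, hy2⟩ := hy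
  obtain ⟨hz1, hz2⟩ := hz
  exact ⟨R.add_mem hy1 hz1, n.add_mem hy2 hz2⟩

theorem In.sub {y z : E} (hy : In R n y) (hz : In R n z) : In R n (y - z) := by
  obtain ⟨hy1, hy2⟩ := hy
  obtain ⟨hz1, hz2⟩ := hz
  exact ⟨R.sub_mem hy1 hz1, n.sub_mem hy2 hz2⟩

theorem In.mul_left {r y : E} (hr : r ∈ R) (hy : In R n y) : In R n (r * y) := by
  obtain ⟨hy1, hy2⟩ := hy
  exact ⟨R.mul_mem hr hy1, n.mul_mem_left ⟨r, hr⟩ hy2⟩

theorem In.mul_right {r y : E} (hr : r ∈ R) (hy : In R n y) : In R n (y * r) := by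
  rw [mul_comm]
  exact hy.mul_left hr

theorem in_or_in_of_mul [hn : n.IsPrime] {a b : E} (ha : a ∈ R) (hb : b ∈ R)
    (h : In R n (a * b)) : In R n a ∨ In R n b := by
  obtain ⟨_, h2⟩ := h
  have h3 : (⟨a, ha⟩ : R) * ⟨b, hb⟩ ∈ n := h2
  rcases hn.mem_or_mem h3 with h4 | h4
  · exact Or.inl ⟨ha, h4⟩
  · exact Or.inr ⟨hb, h4⟩

theorem in_of_in_pow [hn : n.IsPrime] {a : E} (ha : a ∈ R) (k : ℕ) (h : In R n (a ^ k)) :
    In R n a := by
  obtain ⟨_, h2⟩ := h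
  have h3 : (⟨a, ha⟩ : R) ^ k ∈ n := h2
  exact ⟨ha, hn.mem_of_pow_mem k h3⟩

theorem not_in_one [hn : n.IsPrime] : ¬ In R n (1 : E) := by
  rintro ⟨_, h2⟩
  exact hn.ne_top ((Ideal.eq_top_iff_one n).2 h2)

end In

/-! ### Gluing data and the contraction of a point -/

/-- Two charts `R0`, `Rinf` glued along `t`: `t ∈ R0`, `t⁻¹ ∈ Rinf`, `R0 ⊆ Rinf[t]` and
`Rinf ⊆ R0[t⁻¹]`. -/
structure Glue (R0 Rinf : Subalgebra O E) (t : E) : Prop where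
  t_mem : t ∈ R0
  tinv_mem : t⁻¹ ∈ Rinf
  glue0 : ∀ x ∈ R0, ∃ k : ℕ, x * t⁻¹ ^ k ∈ Rinf
  glueInf : ∀ x ∈ Rinf, ∃ k : ℕ, x * t ^ k ∈ R0

variable {R0 Rinf : Subalgebra O E} {t : E}

/-- The gluing is symmetric. -/
theorem Glue.symm (G : Glue R0 Rinf t) : Glue Rinf R0 t⁻¹ where
  t_mem := G.tinv_mem
  tinv_mem := by rw [inv_inv]; exact G.t_mem
  glue0 := fun x hx => by
    obtain ⟨k, hk⟩ := G.glueInf x hx
    exact ⟨k, by rw [inv_inv]; exact hk⟩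
  glueInf := G.glue0

theorem Glue.in_raise (G : Glue R0 Rinf t) {n : Ideal Rinf} {x : E} {k : ℕ} (l : ℕ)
    (h : In Rinf n (x * t⁻¹ ^ k)) : In Rinf n (x * t⁻¹ ^ (k + l)) := by
  have e : x * t⁻¹ ^ (k + l) = t⁻¹ ^ l * (x * t⁻¹ ^ k) := by rw [pow_add]; ring
  rw [e]
  exact h.mul_left (Rinf.pow_mem G.tinv_mem l)

/-- The exponent in the definition of the contraction does not matter. -/
theorem Glue.in_indep (G : Glue R0 Rinf t) {n : Ideal Rinf} [hn : n.IsPrime]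
    (htn : ¬ In Rinf n t⁻¹) {x : E} {k l : ℕ} (h : In Rinf n (x * t⁻¹ ^ k))
    (hl : x * t⁻¹ ^ l ∈ Rinf) : In Rinf n (x * t⁻¹ ^ l) := by
  have h1 := G.in_raise l h
  have e : x * t⁻¹ ^ (k + l) = (x * t⁻¹ ^ l) * t⁻¹ ^ k := by rw [pow_add]; ring
  rw [e] at h1
  rcases in_or_in_of_mul hl (Rinf.pow_mem G.tinv_mem k) h1 with h2 | h2
  · exact h2
  · exact absurd (in_of_in_pow G.tinv_mem k h2) htn

/-- The contraction to `R0` of an ideal `n` of `Rinf`: the elements `x` of `R0` with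
`x * t⁻¹ ^ k ∈ n` for some `k`. -/
def contr (G : Glue R0 Rinf t) (n : Ideal Rinf) : Ideal R0 where
  carrier := {x | ∃ k : ℕ, In Rinf n ((x : E) * t⁻¹ ^ k)}
  zero_mem' := ⟨0, by
    have e : ((0 : R0) : E) * t⁻¹ ^ 0 = 0 := by simp
    rw [e]
    exact in_zero⟩
  add_mem' := by
    rintro x y ⟨k, hk⟩ ⟨l, hl⟩
    refine ⟨k + l, ?_⟩
    have e : ((x + y : R0) : E) * t⁻¹ ^ (k + l) =
        (x : E) * t⁻¹ ^ (k + l) + (y : E) * t⁻¹ ^ (l + k) := by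
      rw [add_comm l k]; push_cast; ring
    rw [e]
    exact (G.in_raise l hk).add (G.in_raise k hl)
  smul_mem' := by
    rintro r x ⟨k, hk⟩
    obtain ⟨l, hl⟩ := G.glue0 r r.2
    refine ⟨k + l, ?_⟩
    have e : ((r • x : R0) : E) * t⁻¹ ^ (k + l) = ((r : E) * t⁻¹ ^ l) * ((x : E) * t⁻¹ ^ k) := by
      rw [smul_eq_mul, pow_add]; push_cast; ring
    rw [e]
    exact hk.mul_left hl

theorem mem_contr (G : Glue R0 Rinf t) (n : Ideal Rinf) (x : R0) :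
    x ∈ contr G n ↔ ∃ k : ℕ, In Rinf n ((x : E) * t⁻¹ ^ k) := Iff.rfl

/-- Membership in the contraction can be tested with ANY admissible exponent. -/
theorem mem_contr_iff (G : Glue R0 Rinf t) (n : Ideal Rinf) [n.IsPrime]
    (htn : ¬ In Rinf n t⁻¹) (x : R0) (k : ℕ) (hk : (x : E) * t⁻¹ ^ k ∈ Rinf) :
    x ∈ contr G n ↔ In Rinf n ((x : E) * t⁻¹ ^ k) :=
  ⟨fun ⟨_, hl⟩ => G.in_indep htn hl hk, fun h => ⟨k, h⟩⟩

theorem t_ne_zero_of_not_in {n : Ideal Rinf} (htn : ¬ In Rinf n t⁻¹) : t ≠ 0 := by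
  rintro rfl
  apply htn
  rw [inv_zero]
  exact in_zero

/-- For `x ∈ Rinf` and `x * t ^ k ∈ R0`: `x * t ^ k` lies in the contraction iff `x ∈ n`. -/
theorem mul_pow_mem_contr_iff (G : Glue R0 Rinf t) (n : Ideal Rinf) [n.IsPrime]
    (htn : ¬ In Rinf n t⁻¹) (x : Rinf) (k : ℕ) (hk : (x : E) * t ^ k ∈ R0) :
    (⟨(x : E) * t ^ k, hk⟩ : R0) ∈ contr G n ↔ x ∈ n := by
  have ht0 := t_ne_zero_of_not_in htn
  have e : ((⟨(x : E) * t ^ k, hk⟩ : R0) : E) * t⁻¹ ^ k = (x : E) := by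
    show (x : E) * t ^ k * t⁻¹ ^ k = (x : E)
    rw [mul_assoc, ← mul_pow, mul_inv_cancel₀ ht0, one_pow, mul_one]
  rw [mem_contr_iff G n htn _ k (by rw [e]; exact x.2), e, in_coe]

/-- Constants: `c ∈ O` lies in the contraction iff it lies in `n`. -/
theorem algebraMap_mem_contr_iff (G : Glue R0 Rinf t) (n : Ideal Rinf) [n.IsPrime]
    (htn : ¬ In Rinf n t⁻¹) (c : O) :
    algebraMap O R0 c ∈ contr G n ↔ algebraMap O Rinf c ∈ n := by
  have e : ((algebraMap O R0 c : R0) : E) * t⁻¹ ^ 0 = ((algebraMap O Rinf c : Rinf) : E) := by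
    rw [pow_zero, mul_one]; rfl
  rw [mem_contr_iff G n htn _ 0 (by rw [e]; exact (algebraMap O Rinf c).2), e, in_coe]

/-- `t` is not in the contraction. -/
theorem t_notMem_contr (G : Glue R0 Rinf t) (n : Ideal Rinf) [n.IsPrime]
    (htn : ¬ In Rinf n t⁻¹) : (⟨t, G.t_mem⟩ : R0) ∉ contr G n := by
  have ht0 := t_ne_zero_of_not_in htn
  have e : ((⟨t, G.t_mem⟩ : R0) : E) * t⁻¹ ^ 1 = 1 := by
    show t * t⁻¹ ^ 1 = 1
    rw [pow_one, mul_inv_cancel₀ ht0]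
  rw [mem_contr_iff G n htn _ 1 (by rw [e]; exact Rinf.one_mem), e]
  exact not_in_one

/-- The contraction of a prime not containing `t⁻¹` is prime. -/
theorem contr_isPrime (G : Glue R0 Rinf t) (n : Ideal Rinf) [n.IsPrime]
    (htn : ¬ In Rinf n t⁻¹) : (contr G n).IsPrime := by
  refine ⟨?_, ?_⟩
  · intro htop
    have h1 : (1 : R0) ∈ contr G n := by rw [htop]; trivial
    have e : ((1 : R0) : E) * t⁻¹ ^ 0 = 1 := by simp
    rw [mem_contr_iff G n htn _ 0 (by rw [e]; exact Rinf.one_mem), e] at h1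
    exact not_in_one h1
  · intro x y hxy
    obtain ⟨k, hk⟩ := G.glue0 x x.2
    obtain ⟨l, hl⟩ := G.glue0 y y.2
    have e : ((x * y : R0) : E) * t⁻¹ ^ (k + l) = ((x : E) * t⁻¹ ^ k) * ((y : E) * t⁻¹ ^ l) := by
      rw [pow_add]; push_cast; ring
    rw [mem_contr_iff G n htn _ (k + l) (by rw [e]; exact Rinf.mul_mem hk hl), e] at hxy
    rcases in_or_in_of_mul hk hl hxy with h | h
    · exact Or.inl ⟨k, h⟩
    · exact Or.inr ⟨l, h⟩

/-- **The contraction of an `O`-rational closed point is a closed point.** -/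
theorem contr_isMaximal (G : Glue R0 Rinf t) (n : Ideal Rinf) (hn : n.IsMaximal)
    (htn : ¬ In Rinf n t⁻¹)
    (hrat : ∀ x : Rinf, ∃ c : O, x - algebraMap O Rinf c ∈ n) : (contr G n).IsMaximal := by
  have hnp : n.IsPrime := hn.isPrime
  have hprime := contr_isPrime G n htn
  rw [Ideal.isMaximal_iff]
  refine ⟨fun h1 => hprime.ne_top ((Ideal.eq_top_iff_one _).2 h1), ?_⟩
  intro J x hIJ hx hxJ
  obtain ⟨k, hk⟩ := G.glue0 x x.2
  -- `x' = x t⁻¹ ^ k ≡ c`, `t⁻¹ ≡ c₀`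
  obtain ⟨c, hc⟩ := hrat ⟨(x : E) * t⁻¹ ^ k, hk⟩
  obtain ⟨c₀, hc₀⟩ := hrat ⟨t⁻¹, G.tinv_mem⟩
  have hx' : (⟨(x : E) * t⁻¹ ^ k, hk⟩ : Rinf) ∉ n := by
    intro h
    exact hx ⟨k, hk, h⟩
  have hcn : algebraMap O Rinf c ∉ n := by
    intro h
    apply hx'
    have := n.add_mem hc h
    rwa [sub_add_cancel] at this
  -- an inverse `e` of `c` modulo `n`, in `O`
  obtain ⟨y, i, hi, hyi⟩ := hn.exists_inv hcn
  obtain ⟨e, he⟩ := hrat y
  have hce : algebraMap O Rinf (c * e) - 1 ∈ n := by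
    have h1 : algebraMap O Rinf (c * e) - 1 =
        -(y - algebraMap O Rinf e) * algebraMap O Rinf c - i := by
      rw [map_mul, ← hyi]; ring
    rw [h1]
    exact n.sub_mem (n.mul_mem_right _ (n.neg_mem he)) hi
  -- `x * (c₀ ^ k * e) - 1` lies in the contraction
  have key : x * algebraMap O R0 (c₀ ^ k * e) - 1 ∈ contr G n := by
    have e1 : ((x * algebraMap O R0 (c₀ ^ k * e) - 1 : R0) : E) * t⁻¹ ^ k =
        ((x : E) * t⁻¹ ^ k) * algebraMap O E (c₀ ^ k * e) - t⁻¹ ^ k := by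
      show ((x : E) * algebraMap O E (c₀ ^ k * e) - 1) * t⁻¹ ^ k = _
      ring
    have hmem : ((x : E) * t⁻¹ ^ k) * algebraMap O E (c₀ ^ k * e) - t⁻¹ ^ k ∈ Rinf :=
      Rinf.sub_mem (Rinf.mul_mem hk (Rinf.algebraMap_mem _)) (Rinf.pow_mem G.tinv_mem k)
    refine ⟨k, ?_⟩
    rw [e1]
    refine ⟨hmem, ?_⟩
    -- compute modulo `n` in `Rinf`
    set X : Rinf := ⟨(x : E) * t⁻¹ ^ k, hk⟩ with hX
    set T : Rinf := ⟨t⁻¹, G.tinv_mem⟩ with hT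
    have h2 : (⟨((x : E) * t⁻¹ ^ k) * algebraMap O E (c₀ ^ k * e) - t⁻¹ ^ k, hmem⟩ : Rinf) =
        X * algebraMap O Rinf (c₀ ^ k * e) - T ^ k := by
      apply Subtype.ext
      rfl
    rw [h2]
    -- `X ≡ c`, `T ≡ c₀`, `c e ≡ 1`
    have hT' : T ^ k - algebraMap O Rinf (c₀ ^ k) ∈ n := by
      rw [map_pow]
      exact Ideal.mem_of_dvd n (sub_dvd_pow_sub_pow T (algebraMap O Rinf c₀) k) hc₀
    have h3 : X * algebraMap O Rinf (c₀ ^ k * e) - T ^ k =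
        (X - algebraMap O Rinf c) * algebraMap O Rinf (c₀ ^ k * e)
          + algebraMap O Rinf (c₀ ^ k) * (algebraMap O Rinf (c * e) - 1)
          - (T ^ k - algebraMap O Rinf (c₀ ^ k)) := by
      simp only [map_mul]; ring
    rw [h3]
    exact n.sub_mem (n.add_mem (n.mul_mem_right _ hc) (n.mul_mem_left _ hce)) hT'
  have h1 : (1 : R0) = x * algebraMap O R0 (c₀ ^ k * e) - (x * algebraMap O R0 (c₀ ^ k * e) - 1) := by
    ring
  rw [h1]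
  exact J.sub_mem (J.mul_mem_right _ hxJ) (hIJ key)

/-! ### Transport of local statements between the two charts -/

theorem not_in_iff (G : Glue R0 Rinf t) (n : Ideal Rinf) :
    ¬ In Rinf n t⁻¹ ↔ (⟨t⁻¹, G.tinv_mem⟩ : Rinf) ∉ n :=
  not_congr (in_coe (⟨t⁻¹, G.tinv_mem⟩ : Rinf))

/-- A common exponent for two elements of `R0`. -/
theorem Glue.exists_pow_mem₂ (G : Glue R0 Rinf t) (a b : R0) :
    ∃ k : ℕ, (a : E) * t⁻¹ ^ k ∈ Rinf ∧ (b : E) * t⁻¹ ^ k ∈ Rinf := by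
  obtain ⟨k, hk⟩ := G.glue0 a a.2
  obtain ⟨l, hl⟩ := G.glue0 b b.2
  refine ⟨k + l, ?_, ?_⟩
  · have e : (a : E) * t⁻¹ ^ (k + l) = ((a : E) * t⁻¹ ^ k) * t⁻¹ ^ l := by rw [pow_add]; ring
    rw [e]
    exact Rinf.mul_mem hk (Rinf.pow_mem G.tinv_mem l)
  · have e : (b : E) * t⁻¹ ^ (k + l) = ((b : E) * t⁻¹ ^ l) * t⁻¹ ^ k := by rw [pow_add]; ring
    rw [e]
    exact Rinf.mul_mem hl (Rinf.pow_mem G.tinv_mem k)

/-- A common exponent for two elements of `Rinf`. -/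
theorem Glue.exists_pow_mem₂' (G : Glue R0 Rinf t) (a b : Rinf) :
    ∃ k : ℕ, (a : E) * t ^ k ∈ R0 ∧ (b : E) * t ^ k ∈ R0 := by
  obtain ⟨k, hk⟩ := G.glueInf a a.2
  obtain ⟨l, hl⟩ := G.glueInf b b.2
  refine ⟨k + l, ?_, ?_⟩
  · have e : (a : E) * t ^ (k + l) = ((a : E) * t ^ k) * t ^ l := by rw [pow_add]; ring
    rw [e]
    exact R0.mul_mem hk (R0.pow_mem G.t_mem l)
  · have e : (b : E) * t ^ (k + l) = ((b : E) * t ^ l) * t ^ k := by rw [pow_add]; ring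
    rw [e]
    exact R0.mul_mem hl (R0.pow_mem G.t_mem k)

/-- **(G1), from `chart t` to `chart t⁻¹`**: a relation `s * y = c * r` with `s, r ∈ R0`,
`s ∉ contr G n`, gives one with `s, r ∈ Rinf`, `s ∉ n`. -/
theorem exists_inf_of_exists_zero (G : Glue R0 Rinf t) (n : Ideal Rinf) (y c : E)
    (h : ∃ s : R0, s ∉ contr G n ∧ ∃ r : R0, (s : E) * y = c * (r : E)) :
    ∃ s : Rinf, s ∉ n ∧ ∃ r : Rinf, (s : E) * y = c * (r : E) := by
  obtain ⟨s, hs, r, hr⟩ := h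
  obtain ⟨k, hks, hkr⟩ := G.exists_pow_mem₂ s r
  refine ⟨⟨(s : E) * t⁻¹ ^ k, hks⟩, fun h1 => hs ⟨k, hks, h1⟩, ⟨(r : E) * t⁻¹ ^ k, hkr⟩, ?_⟩
  show (s : E) * t⁻¹ ^ k * y = c * ((r : E) * t⁻¹ ^ k)
  calc (s : E) * t⁻¹ ^ k * y = ((s : E) * y) * t⁻¹ ^ k := by ring
    _ = c * (r : E) * t⁻¹ ^ k := by rw [hr]
    _ = c * ((r : E) * t⁻¹ ^ k) := by ring

/-- **(G1), from `chart t⁻¹` to `chart t`**. -/
theorem exists_zero_of_exists_inf (G : Glue R0 Rinf t) (n : Ideal Rinf) [n.IsPrime]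
    (htn : ¬ In Rinf n t⁻¹) (y c : E)
    (h : ∃ s : Rinf, s ∉ n ∧ ∃ r : Rinf, (s : E) * y = c * (r : E)) :
    ∃ s : R0, s ∉ contr G n ∧ ∃ r : R0, (s : E) * y = c * (r : E) := by
  obtain ⟨s, hs, r, hr⟩ := h
  obtain ⟨k, hks, hkr⟩ := G.exists_pow_mem₂' s r
  refine ⟨⟨(s : E) * t ^ k, hks⟩, ?_, ⟨(r : E) * t ^ k, hkr⟩, ?_⟩
  · rw [mul_pow_mem_contr_iff G n htn s k hks]
    exact hs
  · show (s : E) * t ^ k * y = c * ((r : E) * t ^ k)
    calc (s : E) * t ^ k * y = ((s : E) * y) * t ^ k := by ring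
      _ = c * (r : E) * t ^ k := by rw [hr]
      _ = c * ((r : E) * t ^ k) := by ring

theorem exists_glue_iff (G : Glue R0 Rinf t) (n : Ideal Rinf) [n.IsPrime]
    (htn : ¬ In Rinf n t⁻¹) (y c : E) :
    (∃ s : R0, s ∉ contr G n ∧ ∃ r : R0, (s : E) * y = c * (r : E)) ↔
      ∃ s : Rinf, s ∉ n ∧ ∃ r : Rinf, (s : E) * y = c * (r : E) :=
  ⟨exists_inf_of_exists_zero G n y c, exists_zero_of_exists_inf G n htn y c⟩

section LocForm

variable {ι : Type*}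

/-- **(G2)** the local form of the Čech block moves from `chart t` at `contr G n` to
`chart t⁻¹` at `n` (same `a`). -/
theorem locForm_glue (G : Glue R0 Rinf t) (n : Ideal Rinf) (π : O) (V : ι → ValuationSubring E)
    (w : E) (m : ℕ) (h : AbsTopN.LocForm R0 π V w m (contr G n)) :
    AbsTopN.LocForm Rinf π V w m n := by
  obtain ⟨a, ha, hs⟩ := h
  exact ⟨a, ha, exists_inf_of_exists_zero G n _ _ hs⟩

/-- **(G2), converse.** -/
theorem locForm_glue_symm (G : Glue R0 Rinf t) (n : Ideal Rinf) [n.IsPrime]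
    (htn : ¬ In Rinf n t⁻¹) (π : O) (V : ι → ValuationSubring E)
    (w : E) (m : ℕ) (h : AbsTopN.LocForm Rinf π V w m n) :
    AbsTopN.LocForm R0 π V w m (contr G n) := by
  obtain ⟨a, ha, hs⟩ := h
  exact ⟨a, ha, exists_zero_of_exists_inf G n htn _ _ hs⟩

/-- **The normal form `ToricAsm.NF` moves from `chart t⁻¹` at `n` to `chart t` at `contr G n`**
(same `g₀`, `γ`; the set of branches may shrink). -/
theorem nf_glue (G : Glue R0 Rinf t) (n : Ideal Rinf) [n.IsPrime] (htn : ¬ In Rinf n t⁻¹)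
    (π : O) (V : ι → ValuationSubring E) (m : ℕ) (G' : E) (T T' : ι → Prop)
    (hT : ∀ i, T' i → T i) (g₀ : E) (γ : ι → O)
    (h : ToricAsm.NF Rinf π V m G' n T g₀ γ) :
    ToricAsm.NF R0 π V m G' (contr G n) T' g₀ γ := by
  obtain ⟨h0, hγ, hs⟩ := h
  exact ⟨h0, fun i hi => hγ i (hT i hi), exists_zero_of_exists_inf G n htn _ _ hs⟩

/-- **The normal form `ToricAsm.NF` moves from `chart t` at `contr G n` to `chart t⁻¹` at
`n`**. -/
theorem nf_glue_symm (G : Glue R0 Rinf t) (n : Ideal Rinf)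
    (π : O) (V : ι → ValuationSubring E) (m : ℕ) (G' : E) (T T' : ι → Prop)
    (hT : ∀ i, T' i → T i) (g₀ : E) (γ : ι → O)
    (h : ToricAsm.NF R0 π V m G' (contr G n) T g₀ γ) :
    ToricAsm.NF Rinf π V m G' n T' g₀ γ := by
  obtain ⟨h0, hγ, hs⟩ := h
  exact ⟨h0, fun i hi => hγ i (hT i hi), exists_inf_of_exists_zero G n _ _ hs⟩

/-- **Packaged form**: at an `O`-rational closed point `n` of `chart t⁻¹` with `t⁻¹ ∉ n` and
`π ∈ n` there is a closed point `n0` of `chart t` with `π ∈ n0` from which every local form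
transports. -/
theorem exists_contr_locForm (G : Glue R0 Rinf t) (π : O) (V : ι → ValuationSubring E) (m : ℕ)
    (n : Ideal Rinf) (hn : n.IsMaximal) (hπn : algebraMap O Rinf π ∈ n)
    (htn : (⟨t⁻¹, G.tinv_mem⟩ : Rinf) ∉ n)
    (hrat : ∀ x : Rinf, ∃ c : O, x - algebraMap O Rinf c ∈ n) :
    ∃ n0 : Ideal R0, n0.IsMaximal ∧ algebraMap O R0 π ∈ n0 ∧
      (⟨t, G.t_mem⟩ : R0) ∉ n0 ∧
      ∀ w : E, AbsTopN.LocForm R0 π V w m n0 → AbsTopN.LocForm Rinf π V w m n := by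
  have hnp : n.IsPrime := hn.isPrime
  have htn' : ¬ In Rinf n t⁻¹ := (not_in_iff G n).2 htn
  exact ⟨contr G n, contr_isMaximal G n hn htn' hrat,
    (algebraMap_mem_contr_iff G n htn' π).2 hπn, t_notMem_contr G n htn',
    fun w h => locForm_glue G n π V w m h⟩

/-- **The `locInf` input of the Čech block from the `loc0` input and the cusps**: the local
form at every closed point of the special fibre of `chart t⁻¹` follows from the local form at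
every closed point of the special fibre of `chart t` and at the closed points of `chart t⁻¹`
containing `t⁻¹`. -/
theorem locInf_of_loc0 (G : Glue R0 Rinf t) (π : O) (V : ι → ValuationSubring E) (w : E) (m : ℕ)
    (hrat : ∀ n : Ideal Rinf, n.IsMaximal → algebraMap O Rinf π ∈ n →
      ∀ x : Rinf, ∃ c : O, x - algebraMap O Rinf c ∈ n)
    (h0 : ∀ n0 : Ideal R0, n0.IsMaximal → algebraMap O R0 π ∈ n0 →
      AbsTopN.LocForm R0 π V w m n0)
    (hcusp : ∀ n : Ideal Rinf, n.IsMaximal → algebraMap O Rinf π ∈ n →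
      (⟨t⁻¹, G.tinv_mem⟩ : Rinf) ∈ n → AbsTopN.LocForm Rinf π V w m n) :
    ∀ n : Ideal Rinf, n.IsMaximal → algebraMap O Rinf π ∈ n → AbsTopN.LocForm Rinf π V w m n := by
  intro n hn hπn
  by_cases htn : (⟨t⁻¹, G.tinv_mem⟩ : Rinf) ∈ n
  · exact hcusp n hn hπn htn
  · obtain ⟨n0, hn0, hπ0, -, h⟩ := exists_contr_locForm G π V m n hn hπn htn (hrat n hn hπn)
    exact h w (h0 n0 hn0 hπ0)

end LocForm

/-! ### Ideals which correspond under the gluing -/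

/-- The ideals `𝔮0 ⊆ R0` and `𝔮inf ⊆ Rinf` correspond under the gluing along `t`: each one
contains the admissible `t`-multiples of the elements of the other. -/
def Corr (t : E) (𝔮0 : Ideal R0) (𝔮inf : Ideal Rinf) : Prop :=
  (∀ x : R0, x ∈ 𝔮0 → ∀ k : ℕ, (x : E) * t⁻¹ ^ k ∈ Rinf → In Rinf 𝔮inf ((x : E) * t⁻¹ ^ k)) ∧
    ∀ x : Rinf, x ∈ 𝔮inf → ∀ k : ℕ, (x : E) * t ^ k ∈ R0 → In R0 𝔮0 ((x : E) * t ^ k)

/-- The centres of a valuation ring containing `t` and `t⁻¹` correspond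
(`P = R ∩ ϖ V` in both charts: the field `mem_P` of `Model3Plan.ChartHyp3`). -/
theorem corr_of_val (V : ValuationSubring E) (ϖ : E) (htV : t ∈ V) (htV' : t⁻¹ ∈ V)
    (P0 : Ideal R0) (Pinf : Ideal Rinf)
    (h0 : ∀ r : R0, r ∈ P0 ↔ ∃ y ∈ V, (r : E) = ϖ * y)
    (hinf : ∀ r : Rinf, r ∈ Pinf ↔ ∃ y ∈ V, (r : E) = ϖ * y) : Corr t P0 Pinf := by
  refine ⟨?_, ?_⟩
  · intro x hx k hk
    obtain ⟨y, hy, hxy⟩ := (h0 x).1 hx
    refine ⟨hk, (hinf ⟨_, hk⟩).2 ⟨y * t⁻¹ ^ k, V.mul_mem _ _ hy (pow_mem htV' k), ?_⟩⟩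
    show (x : E) * t⁻¹ ^ k = ϖ * (y * t⁻¹ ^ k)
    rw [hxy]; ring
  · intro x hx k hk
    obtain ⟨y, hy, hxy⟩ := (hinf x).1 hx
    refine ⟨hk, (h0 ⟨_, hk⟩).2 ⟨y * t ^ k, V.mul_mem _ _ hy (pow_mem htV k), ?_⟩⟩
    show (x : E) * t ^ k = ϖ * (y * t ^ k)
    rw [hxy]; ring

/-- A prime `n ∌ t⁻¹` of `Rinf` corresponds to its contraction. -/
theorem corr_contr (G : Glue R0 Rinf t) (n : Ideal Rinf) [n.IsPrime] (htn : ¬ In Rinf n t⁻¹) :
    Corr t (contr G n) n :=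
  ⟨fun x hx k hk => (mem_contr_iff G n htn x k hk).1 hx,
    fun x hx k hk => ⟨hk, (mul_pow_mem_contr_iff G n htn x k hk).2 hx⟩⟩

/-- **(G3)** incidence: `𝔮0 ≤ contr G n ↔ 𝔮inf ≤ n` for corresponding ideals (e.g. the centres
of a component valuation: the SAME branches pass through `n` and through `contr G n`). -/
theorem le_contr_iff (G : Glue R0 Rinf t) (n : Ideal Rinf) [n.IsPrime] (htn : ¬ In Rinf n t⁻¹)
    {𝔮0 : Ideal R0} {𝔮inf : Ideal Rinf} (hc : Corr t 𝔮0 𝔮inf) :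
    𝔮0 ≤ contr G n ↔ 𝔮inf ≤ n := by
  constructor
  · intro h x hx
    obtain ⟨k, hk⟩ := G.glueInf x x.2
    obtain ⟨_, h2⟩ := hc.2 x hx k hk
    exact (mul_pow_mem_contr_iff G n htn x k hk).1 (h h2)
  · intro h x hx
    obtain ⟨k, hk⟩ := G.glue0 x x.2
    obtain ⟨_, h2⟩ := hc.1 x hx k hk
    exact ⟨k, hk, h h2⟩

/-- **(G4)** local generators: if `𝔮0` is generated by `g` locally at `contr G n`, the
corresponding ideal `𝔮inf` is generated locally at `n` by a `t⁻¹`-multiple of `g`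
(the shape of `NakPlan.GenAt` and of the field `princ` of `Model3Plan.ChartModel3`). -/
theorem genAt_glue (G : Glue R0 Rinf t) (n : Ideal Rinf) (htn : ¬ In Rinf n t⁻¹)
    {𝔮0 : Ideal R0} {𝔮inf : Ideal Rinf} (hc : Corr t 𝔮0 𝔮inf)
    (h : ∃ g ∈ 𝔮0, ∀ y ∈ 𝔮0, ∃ s : R0, s ∉ contr G n ∧ ∃ c : R0, s * y = c * g) :
    ∃ g ∈ 𝔮inf, ∀ y ∈ 𝔮inf, ∃ s : Rinf, s ∉ n ∧ ∃ c : Rinf, s * y = c * g := by
  have ht0 := t_ne_zero_of_not_in htn
  obtain ⟨g, hg, hgen⟩ := h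
  obtain ⟨kg, hkg⟩ := G.glue0 g g.2
  obtain ⟨_, hg'⟩ := hc.1 g hg kg hkg
  refine ⟨⟨(g : E) * t⁻¹ ^ kg, hkg⟩, hg', ?_⟩
  intro y hy
  obtain ⟨ky, hky⟩ := G.glueInf y y.2
  obtain ⟨_, hy0⟩ := hc.2 y hy ky hky
  obtain ⟨s, hs, c, hsc⟩ := hgen ⟨(y : E) * t ^ ky, hky⟩ hy0
  have hsc' : (s : E) * ((y : E) * t ^ ky) = (c : E) * (g : E) := congrArg Subtype.val hsc
  obtain ⟨ks, hks⟩ := G.glue0 s s.2
  obtain ⟨kc, hkc⟩ := G.glue0 c c.2
  have hs' : (s : E) * t⁻¹ ^ (ks + kc + kg) ∈ Rinf := by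
    have e : (s : E) * t⁻¹ ^ (ks + kc + kg) = ((s : E) * t⁻¹ ^ ks) * t⁻¹ ^ (kc + kg) := by
      rw [add_assoc, pow_add]; ring
    rw [e]
    exact Rinf.mul_mem hks (Rinf.pow_mem G.tinv_mem _)
  have hc' : (c : E) * t⁻¹ ^ (ks + kc + ky) ∈ Rinf := by
    have e : (c : E) * t⁻¹ ^ (ks + kc + ky) = ((c : E) * t⁻¹ ^ kc) * t⁻¹ ^ (ks + ky) := by
      rw [show ks + kc + ky = kc + (ks + ky) by ring, pow_add]; ring
    rw [e]
    exact Rinf.mul_mem hkc (Rinf.pow_mem G.tinv_mem _)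
  refine ⟨⟨_, hs'⟩, fun h1 => hs ⟨_, hs', h1⟩, ⟨_, hc'⟩, ?_⟩
  apply Subtype.ext
  show (s : E) * t⁻¹ ^ (ks + kc + kg) * (y : E) =
    (c : E) * t⁻¹ ^ (ks + kc + ky) * ((g : E) * t⁻¹ ^ kg)
  have h1 : (c : E) * t⁻¹ ^ (ks + kc + ky) * ((g : E) * t⁻¹ ^ kg) =
      ((c : E) * (g : E)) * (t⁻¹ ^ (ks + kc + kg) * t⁻¹ ^ ky) := by
    rw [show ks + kc + ky = ks + kc + ky from rfl, pow_add, pow_add, pow_add, pow_add]; ring
  rw [h1, ← hsc']
  have h2 : t ^ ky * t⁻¹ ^ ky = 1 := by rw [← mul_pow, mul_inv_cancel₀ ht0, one_pow]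
  calc (s : E) * t⁻¹ ^ (ks + kc + kg) * (y : E)
      = (s : E) * (y : E) * t⁻¹ ^ (ks + kc + kg) * 1 := by ring
    _ = (s : E) * (y : E) * t⁻¹ ^ (ks + kc + kg) * (t ^ ky * t⁻¹ ^ ky) := by rw [h2]
    _ = (s : E) * ((y : E) * t ^ ky) * (t⁻¹ ^ (ks + kc + kg) * t⁻¹ ^ ky) := by ring

/-- **(G5)** regular branches: the field `branch` of `Model3Plan.ChartModel3` at `contr G n`
(for `P0`) gives the same field at `n` (for the corresponding `Pinf`). -/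
theorem branch_glue (G : Glue R0 Rinf t) (n : Ideal Rinf) [n.IsPrime] (htn : ¬ In Rinf n t⁻¹)
    {P0 : Ideal R0} {Pinf : Ideal Rinf} (hc : Corr t P0 Pinf)
    (h : (∃ x ∈ contr G n, x ∉ P0) ∧ ∃ u ∈ contr G n, ∀ x ∈ contr G n,
      ∃ s : R0, s ∉ contr G n ∧ ∃ c : R0, s * x - c * u ∈ P0) :
    (∃ x ∈ n, x ∉ Pinf) ∧ ∃ u ∈ n, ∀ x ∈ n,
      ∃ s : Rinf, s ∉ n ∧ ∃ c : Rinf, s * x - c * u ∈ Pinf := by
  have ht0 := t_ne_zero_of_not_in htn
  have htt : ∀ k : ℕ, t ^ k * t⁻¹ ^ k = 1 := fun k => by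
    rw [← mul_pow, mul_inv_cancel₀ ht0, one_pow]
  obtain ⟨⟨x0, hx0, hx0P⟩, u0, hu0, hgen⟩ := h
  refine ⟨?_, ?_⟩
  · obtain ⟨k, hk, hkn⟩ := hx0
    refine ⟨⟨(x0 : E) * t⁻¹ ^ k, hk⟩, hkn, ?_⟩
    intro hP
    have e : (x0 : E) * t⁻¹ ^ k * t ^ k = (x0 : E) := by
      rw [mul_assoc, mul_comm (t⁻¹ ^ k), htt, mul_one]
    obtain ⟨_, h2⟩ := hc.2 ⟨(x0 : E) * t⁻¹ ^ k, hk⟩ hP k (by rw [e]; exact x0.2)
    apply hx0P
    have e2 : (⟨(x0 : E) * t⁻¹ ^ k * t ^ k, by rw [e]; exact x0.2⟩ : R0) = x0 :=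
      Subtype.ext e
    rw [← e2]
    exact h2
  · obtain ⟨ku, hku, hkun⟩ := hu0
    refine ⟨⟨(u0 : E) * t⁻¹ ^ ku, hku⟩, hkun, ?_⟩
    intro x hx
    obtain ⟨kx, hkx⟩ := G.glueInf x x.2
    have hx0 : (⟨(x : E) * t ^ kx, hkx⟩ : R0) ∈ contr G n :=
      (mul_pow_mem_contr_iff G n htn x kx hkx).2 hx
    obtain ⟨s0, hs0, c0, hsc⟩ := hgen _ hx0
    obtain ⟨ks, hks⟩ := G.glue0 s0 s0.2
    obtain ⟨kc, hkc⟩ := G.glue0 c0 c0.2
    have hs' : (s0 : E) * t⁻¹ ^ (ks + kc + ku) ∈ Rinf := by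
      have e : (s0 : E) * t⁻¹ ^ (ks + kc + ku) = ((s0 : E) * t⁻¹ ^ ks) * t⁻¹ ^ (kc + ku) := by
        rw [add_assoc, pow_add]; ring
      rw [e]
      exact Rinf.mul_mem hks (Rinf.pow_mem G.tinv_mem _)
    have hc' : (c0 : E) * t⁻¹ ^ (ks + kc + kx) ∈ Rinf := by
      have e : (c0 : E) * t⁻¹ ^ (ks + kc + kx) = ((c0 : E) * t⁻¹ ^ kc) * t⁻¹ ^ (ks + kx) := by
        rw [show ks + kc + kx = kc + (ks + kx) by ring, pow_add]; ring
      rw [e]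
      exact Rinf.mul_mem hkc (Rinf.pow_mem G.tinv_mem _)
    refine ⟨⟨_, hs'⟩, fun h1 => hs0 ⟨_, hs', h1⟩, ⟨_, hc'⟩, ?_⟩
    -- the difference is a `t⁻¹`-multiple of an element of `P0`
    set p0 : R0 := s0 * ⟨(x : E) * t ^ kx, hkx⟩ - c0 * u0 with hp0
    have key : (((⟨_, hs'⟩ : Rinf) * x - ⟨_, hc'⟩ * ⟨(u0 : E) * t⁻¹ ^ ku, hku⟩ : Rinf) : E) =
        (p0 : E) * t⁻¹ ^ (ks + kc + ku + kx) := by
      show (s0 : E) * t⁻¹ ^ (ks + kc + ku) * (x : E) -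
          (c0 : E) * t⁻¹ ^ (ks + kc + kx) * ((u0 : E) * t⁻¹ ^ ku) =
        ((s0 : E) * ((x : E) * t ^ kx) - (c0 : E) * (u0 : E)) * t⁻¹ ^ (ks + kc + ku + kx)
      have h3 : (s0 : E) * ((x : E) * t ^ kx) * t⁻¹ ^ (ks + kc + ku + kx) =
          (s0 : E) * t⁻¹ ^ (ks + kc + ku) * (x : E) := by
        rw [pow_add _ (ks + kc + ku) kx]
        calc (s0 : E) * ((x : E) * t ^ kx) * (t⁻¹ ^ (ks + kc + ku) * t⁻¹ ^ kx)
            = (s0 : E) * t⁻¹ ^ (ks + kc + ku) * (x : E) * (t ^ kx * t⁻¹ ^ kx) := by ring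
          _ = (s0 : E) * t⁻¹ ^ (ks + kc + ku) * (x : E) := by rw [htt, mul_one]
      have h4 : (c0 : E) * (u0 : E) * t⁻¹ ^ (ks + kc + ku + kx) =
          (c0 : E) * t⁻¹ ^ (ks + kc + kx) * ((u0 : E) * t⁻¹ ^ ku) := by
        rw [show ks + kc + ku + kx = (ks + kc + kx) + ku by ring, pow_add]; ring
      rw [sub_mul, h3, h4]
    have hmem : (p0 : E) * t⁻¹ ^ (ks + kc + ku + kx) ∈ Rinf := by
      rw [← key]
      exact Subtype.mem _
    obtain ⟨_, h5⟩ := hc.1 p0 hsc _ hmem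
    have e5 : ((⟨_, hs'⟩ : Rinf) * x - ⟨_, hc'⟩ * ⟨(u0 : E) * t⁻¹ ^ ku, hku⟩ : Rinf) =
        ⟨(p0 : E) * t⁻¹ ^ (ks + kc + ku + kx), hmem⟩ := Subtype.ext key
    rw [e5]
    exact h5

end Fermat.Agent.S36.ChartGlue
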