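/-
S36 — NakGlue.lean (helper124; packages [B1-nak] / [MODEL3], seam with helper117's `ChartGlue`).

The (B1) packages which need integrality over a lower level (the Nakayama route `NakAsm`, the
going-down blocks) can only be run on the FINITE chart `chart t`.  This file moves their outputs
to the chart `chart t⁻¹` at the closed points `n` with `t⁻¹ ∉ n` (the non-cuspidal points), in
the exact shapes consumed by `Princ3Cases.princ_of_cases` (`heta`, `hnak`) and by the fields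
`princ`, `branch` of `Model3Plan.ChartModel3`.

Abstract part (Mathlib + `ChartGlue` + `Model3Plan`): `R0`, `Rinf` subalgebras of a field `E`
over `O`, glued along `t` (`ChartGlue.Glue`), families `P0 i`, `Pinf i` of corresponding ideals
(`ChartGlue.Corr`; for the vertical primes of two charts with `ChartHyp3` against the SAME
valuation rings this is `corr_of_chartHyp3`), closed points of the special fibre of `Rinf`
rational over `O` (`hrat`).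

* `corr_of_chartHyp3` : the vertical primes of the two charts correspond (`t`, `t⁻¹ ∈ V i`);
* `princAt_glue`      : the `princ` shape at `contr G n` gives the `princ` shape at `n`;
* `cases_inf`         : generic transport for an arbitrary incidence pattern `Φ`;
* `hnak_inf`, `heta_inf`, `princ_inf` : the three shapes of record;
* `branch_inf`        : the field `branch` at the non-cuspidal points of `Rinf`.

Chart instance (`S34.ChartJ` + `S35.ResPtB`): `glue_chart`, `hnak_chart_inv`, `heta_chart_inv`,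
`princ_chart_inv`, `branch_chart_inv` for `R0 = chart N A K t`, `Rinf = chart N A K t⁻¹`;
`princ_chart_inv_of_cusp`, `branch_chart_inv_of_cusp` (the full fields of `chart t⁻¹` from those
of `chart t` and the cuspidal points), `of_chartModel3`.
-/
import Mathlib
import Fermat.Agent.S36.ChartGlue
import Fermat.Agent.S36.Model3Plan
import Fermat.Agent.S34.ChartJ
import Fermat.Agent.S35.ResPtB

set_option autoImplicit false

namespace Fermat.Agent.S36.NakGlue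

open Fermat.Agent.S36.ChartGlue Fermat.Agent.S36.Model3Plan

section Abstract

variable {O : Type*} [CommRing O] {E : Type*} [Field E] [Algebra O E]
  {R0 Rinf : Subalgebra O E} {t : E}

/-- The vertical primes of two glued charts with `ChartHyp3` against the same valuation rings
correspond, as soon as `t` is a unit of every `V i`. -/
theorem corr_of_chartHyp3 {π : O} {ϖ : Fin 3 → E} {V : Fin 3 → ValuationSubring E}
    {P0 : Fin 3 → Ideal R0} {Pinf : Fin 3 → Ideal Rinf}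
    (hyp0 : ChartHyp3 π ϖ V P0) (hypInf : ChartHyp3 π ϖ V Pinf)
    (htV : ∀ i : Fin 3, t ∈ V i) (htV' : ∀ i : Fin 3, t⁻¹ ∈ V i) (i : Fin 3) :
    Corr t (P0 i) (Pinf i) :=
  corr_of_val (V i) (ϖ i) (htV i) (htV' i) (P0 i) (Pinf i)
    (fun r => hyp0.mem_P i r) (fun r => hypInf.mem_P i r)

variable {ι : Type*}

/-- **`princ` at one point**: the shape of the field `princ` of `ChartModel3` at the point
`contr G n` of `R0` gives the same shape at the point `n ∌ t⁻¹` of `Rinf`. -/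
theorem princAt_glue (G : Glue R0 Rinf t) (n : Ideal Rinf) [n.IsPrime]
    (htn : ¬ In Rinf n t⁻¹) {P0 : ι → Ideal R0} {Pinf : ι → Ideal Rinf}
    (hc : ∀ i, Corr t (P0 i) (Pinf i))
    (h : ∃ i, P0 i ≤ contr G n ∧
      ∃ g ∈ P0 i, ∀ y ∈ P0 i, ∃ s : R0, s ∉ contr G n ∧ ∃ c : R0, s * y = c * g) :
    ∃ i, Pinf i ≤ n ∧
      ∃ g ∈ Pinf i, ∀ y ∈ Pinf i, ∃ s : Rinf, s ∉ n ∧ ∃ c : Rinf, s * y = c * g := by
  obtain ⟨i, hle, hgen⟩ := h
  exact ⟨i, (le_contr_iff G n htn (hc i)).1 hle, genAt_glue G n htn (hc i) hgen⟩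

/-- The incidence pattern of `contr G n` is that of `n`. -/
theorem incidence_eq (G : Glue R0 Rinf t) (n : Ideal Rinf) [n.IsPrime]
    (htn : ¬ In Rinf n t⁻¹) {P0 : ι → Ideal R0} {Pinf : ι → Ideal Rinf}
    (hc : ∀ i, Corr t (P0 i) (Pinf i)) :
    (fun i => P0 i ≤ contr G n) = fun i => Pinf i ≤ n :=
  funext fun i => propext (le_contr_iff G n htn (hc i))

/-- **Generic transport**: a statement "at every closed point of the special fibre of `R0`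
with incidence pattern `Φ`, some `P0 i` through the point is locally principal" gives the same
statement at the closed points `n ∌ t⁻¹` of the special fibre of `Rinf`. -/
theorem cases_inf (G : Glue R0 Rinf t) (π : O) {P0 : ι → Ideal R0} {Pinf : ι → Ideal Rinf}
    (hc : ∀ i, Corr t (P0 i) (Pinf i))
    (hrat : ∀ n : Ideal Rinf, n.IsMaximal → algebraMap O Rinf π ∈ n →
      ∀ x : Rinf, ∃ c : O, x - algebraMap O Rinf c ∈ n)
    (Φ : (ι → Prop) → Prop)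
    (h0 : ∀ n : Ideal R0, n.IsMaximal → algebraMap O R0 π ∈ n → Φ (fun i => P0 i ≤ n) →
      ∃ i, P0 i ≤ n ∧ ∃ g ∈ P0 i, ∀ y ∈ P0 i, ∃ s : R0, s ∉ n ∧ ∃ c : R0, s * y = c * g) :
    ∀ n : Ideal Rinf, n.IsMaximal → algebraMap O Rinf π ∈ n →
      (⟨t⁻¹, G.tinv_mem⟩ : Rinf) ∉ n → Φ (fun i => Pinf i ≤ n) →
      ∃ i, Pinf i ≤ n ∧
        ∃ g ∈ Pinf i, ∀ y ∈ Pinf i, ∃ s : Rinf, s ∉ n ∧ ∃ c : Rinf, s * y = c * g := by
  intro n hn hπn htn' hΦ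
  have hnp : n.IsPrime := hn.isPrime
  have htn : ¬ In Rinf n t⁻¹ := (not_in_iff G n).2 htn'
  have hmax : (contr G n).IsMaximal := contr_isMaximal G n hn htn (hrat n hn hπn)
  have hπ0 : algebraMap O R0 π ∈ contr G n := (algebraMap_mem_contr_iff G n htn π).2 hπn
  refine princAt_glue G n htn hc (h0 _ hmax hπ0 ?_)
  rw [incidence_eq G n htn hc]
  exact hΦ

/-- **`hnak` on the chart `t⁻¹`**: the input `hnak` of `Princ3Cases.princ_of_cases` for `Rinf`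
with `C n := t⁻¹ ∉ n`, from the same input for `R0` (with `C := fun _ => True`). -/
theorem hnak_inf (G : Glue R0 Rinf t) (π : O) {P0 : Fin 3 → Ideal R0}
    {Pinf : Fin 3 → Ideal Rinf} (hc : ∀ i, Corr t (P0 i) (Pinf i))
    (hrat : ∀ n : Ideal Rinf, n.IsMaximal → algebraMap O Rinf π ∈ n →
      ∀ x : Rinf, ∃ c : O, x - algebraMap O Rinf c ∈ n)
    (h0 : ∀ n : Ideal R0, n.IsMaximal → algebraMap O R0 π ∈ n → ¬ P0 0 ≤ n → ¬ P0 1 ≤ n →
      P0 2 ≤ n →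
      ∃ i : Fin 3, P0 i ≤ n ∧
        ∃ g ∈ P0 i, ∀ y ∈ P0 i, ∃ s : R0, s ∉ n ∧ ∃ c : R0, s * y = c * g) :
    ∀ n : Ideal Rinf, n.IsMaximal → algebraMap O Rinf π ∈ n →
      (⟨t⁻¹, G.tinv_mem⟩ : Rinf) ∉ n → ¬ Pinf 0 ≤ n → ¬ Pinf 1 ≤ n → Pinf 2 ≤ n →
      ∃ i : Fin 3, Pinf i ≤ n ∧
        ∃ g ∈ Pinf i, ∀ y ∈ Pinf i, ∃ s : Rinf, s ∉ n ∧ ∃ c : Rinf, s * y = c * g := by
  intro n hn hπn htn h0' h1' h2'
  exact cases_inf G π hc hrat (fun p => ¬ p 0 ∧ ¬ p 1 ∧ p 2)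
    (fun n0 hn0 hπ0 hΦ => h0 n0 hn0 hπ0 hΦ.1 hΦ.2.1 hΦ.2.2) n hn hπn htn ⟨h0', h1', h2'⟩

/-- **`heta` on the chart `t⁻¹`**: the input `heta` of `Princ3Cases.princ_of_cases` for `Rinf`
with `C n := t⁻¹ ∉ n`, from the same input for `R0`. -/
theorem heta_inf (G : Glue R0 Rinf t) (π : O) {P0 : Fin 3 → Ideal R0}
    {Pinf : Fin 3 → Ideal Rinf} (hc : ∀ i, Corr t (P0 i) (Pinf i))
    (hrat : ∀ n : Ideal Rinf, n.IsMaximal → algebraMap O Rinf π ∈ n →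
      ∀ x : Rinf, ∃ c : O, x - algebraMap O Rinf c ∈ n)
    (h0 : ∀ n : Ideal R0, n.IsMaximal → algebraMap O R0 π ∈ n → (P0 0 ≤ n ∨ P0 1 ≤ n) →
      ∃ i : Fin 3, P0 i ≤ n ∧
        ∃ g ∈ P0 i, ∀ y ∈ P0 i, ∃ s : R0, s ∉ n ∧ ∃ c : R0, s * y = c * g) :
    ∀ n : Ideal Rinf, n.IsMaximal → algebraMap O Rinf π ∈ n →
      (⟨t⁻¹, G.tinv_mem⟩ : Rinf) ∉ n → (Pinf 0 ≤ n ∨ Pinf 1 ≤ n) →
      ∃ i : Fin 3, Pinf i ≤ n ∧
        ∃ g ∈ Pinf i, ∀ y ∈ Pinf i, ∃ s : Rinf, s ∉ n ∧ ∃ c : Rinf, s * y = c * g := by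
  intro n hn hπn htn h01
  exact cases_inf G π hc hrat (fun p => p 0 ∨ p 1)
    (fun n0 hn0 hπ0 hΦ => h0 n0 hn0 hπ0 hΦ) n hn hπn htn h01

/-- **`princ` on the chart `t⁻¹`** at the non-cuspidal points, from the field `princ` of the
chart `t`. -/
theorem princ_inf (G : Glue R0 Rinf t) (π : O) {P0 : ι → Ideal R0} {Pinf : ι → Ideal Rinf}
    (hc : ∀ i, Corr t (P0 i) (Pinf i))
    (hrat : ∀ n : Ideal Rinf, n.IsMaximal → algebraMap O Rinf π ∈ n →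
      ∀ x : Rinf, ∃ c : O, x - algebraMap O Rinf c ∈ n)
    (h0 : ∀ n : Ideal R0, n.IsMaximal → algebraMap O R0 π ∈ n →
      ∃ i, P0 i ≤ n ∧ ∃ g ∈ P0 i, ∀ y ∈ P0 i, ∃ s : R0, s ∉ n ∧ ∃ c : R0, s * y = c * g) :
    ∀ n : Ideal Rinf, n.IsMaximal → algebraMap O Rinf π ∈ n →
      (⟨t⁻¹, G.tinv_mem⟩ : Rinf) ∉ n →
      ∃ i, Pinf i ≤ n ∧
        ∃ g ∈ Pinf i, ∀ y ∈ Pinf i, ∃ s : Rinf, s ∉ n ∧ ∃ c : Rinf, s * y = c * g := by
  intro n hn hπn htn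
  exact cases_inf G π hc hrat (fun _ => True) (fun n0 hn0 hπ0 _ => h0 n0 hn0 hπ0) n hn hπn htn
    trivial

/-- **`branch` on the chart `t⁻¹`** at the non-cuspidal points, from the field `branch` of the
chart `t`. -/
theorem branch_inf (G : Glue R0 Rinf t) (π : O) {P0 : ι → Ideal R0} {Pinf : ι → Ideal Rinf}
    (hc : ∀ i, Corr t (P0 i) (Pinf i))
    (hrat : ∀ n : Ideal Rinf, n.IsMaximal → algebraMap O Rinf π ∈ n →
      ∀ x : Rinf, ∃ c : O, x - algebraMap O Rinf c ∈ n)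
    (h0 : ∀ n : Ideal R0, n.IsMaximal → algebraMap O R0 π ∈ n → ∀ i, P0 i ≤ n →
      (∃ x ∈ n, x ∉ P0 i) ∧
        ∃ u ∈ n, ∀ x ∈ n, ∃ s : R0, s ∉ n ∧ ∃ c : R0, s * x - c * u ∈ P0 i) :
    ∀ n : Ideal Rinf, n.IsMaximal → algebraMap O Rinf π ∈ n →
      (⟨t⁻¹, G.tinv_mem⟩ : Rinf) ∉ n → ∀ i, Pinf i ≤ n →
      (∃ x ∈ n, x ∉ Pinf i) ∧
        ∃ u ∈ n, ∀ x ∈ n, ∃ s : Rinf, s ∉ n ∧ ∃ c : Rinf, s * x - c * u ∈ Pinf i := by
  intro n hn hπn htn' i hle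
  have hnp : n.IsPrime := hn.isPrime
  have htn : ¬ In Rinf n t⁻¹ := (not_in_iff G n).2 htn'
  have hmax : (contr G n).IsMaximal := contr_isMaximal G n hn htn (hrat n hn hπn)
  have hπ0 : algebraMap O R0 π ∈ contr G n := (algebraMap_mem_contr_iff G n htn π).2 hπn
  exact branch_glue G n htn (hc i) (h0 _ hmax hπ0 i ((le_contr_iff G n htn (hc i)).2 hle))

end Abstract

/-! ### The two charts `chart N A K t`, `chart N A K t⁻¹` -/

section Chart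

open Fermat.Agent.S18.Arith Fermat.Agent.S34

variable (N : ℕ) [NeZero N] (A : ValuationSubring Qb) (K : IntermediateField ℚ Qb)

/-- The two charts of a coordinate `t ≠ 0` are glued along `t`. -/
theorem glue_chart {t : FK N K} (ht : t ≠ 0) : Glue (chart N A K t) (chart N A K t⁻¹) t where
  t_mem := ChartJ.self_mem_chart N A K t
  tinv_mem := ChartJ.self_mem_chart N A K t⁻¹
  glue0 := fun _ hx => ChartJ.glue N A K ht hx
  glueInf := fun _ hx => ChartJ.glue' N A K ht hx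

variable {N A K}

/-- **`hnak` on `chart t⁻¹`** (`C n := t⁻¹ ∉ n`) from `hnak` on `chart t`: the vertical primes
being those of `ChartHyp3` against the same valuation rings, with `t` a unit of each. -/
theorem hnak_chart_inv (ℓ : ℕ) [Fact ℓ.Prime] (hB : BaseFacts ℓ A K) {t : FK N K} (ht : t ≠ 0)
    {π : OK A K} (hπ : Irreducible π) {ϖ : Fin 3 → FK N K}
    {V : Fin 3 → ValuationSubring (FK N K)} {P0 : Fin 3 → Ideal (chart N A K t)}
    {Pinf : Fin 3 → Ideal (chart N A K t⁻¹)}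
    (hyp0 : ChartHyp3 π ϖ V P0) (hypInf : ChartHyp3 π ϖ V Pinf)
    (htV : ∀ i : Fin 3, t ∈ V i) (htV' : ∀ i : Fin 3, t⁻¹ ∈ V i)
    (h0 : ∀ n : Ideal (chart N A K t), n.IsMaximal →
      algebraMap (OK A K) (chart N A K t) π ∈ n → ¬ P0 0 ≤ n → ¬ P0 1 ≤ n → P0 2 ≤ n →
      ∃ i : Fin 3, P0 i ≤ n ∧
        ∃ g ∈ P0 i, ∀ y ∈ P0 i, ∃ s : chart N A K t, s ∉ n ∧ ∃ c : chart N A K t, s * y = c * g) :
    ∀ n : Ideal (chart N A K t⁻¹), n.IsMaximal →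
      algebraMap (OK A K) (chart N A K t⁻¹) π ∈ n →
      (⟨t⁻¹, ChartJ.self_mem_chart N A K t⁻¹⟩ : chart N A K t⁻¹) ∉ n →
      ¬ Pinf 0 ≤ n → ¬ Pinf 1 ≤ n → Pinf 2 ≤ n →
      ∃ i : Fin 3, Pinf i ≤ n ∧
        ∃ g ∈ Pinf i, ∀ y ∈ Pinf i, ∃ s : chart N A K t⁻¹, s ∉ n ∧
          ∃ c : chart N A K t⁻¹, s * y = c * g :=
  hnak_inf (glue_chart N A K ht) π (corr_of_chartHyp3 hyp0 hypInf htV htV')
    (Fermat.Agent.S35.ResPtB.res_chart_base N ℓ hB t⁻¹ π hπ) h0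

/-- **`heta` on `chart t⁻¹`** (`C n := t⁻¹ ∉ n`) from `heta` on `chart t`. -/
theorem heta_chart_inv (ℓ : ℕ) [Fact ℓ.Prime] (hB : BaseFacts ℓ A K) {t : FK N K} (ht : t ≠ 0)
    {π : OK A K} (hπ : Irreducible π) {ϖ : Fin 3 → FK N K}
    {V : Fin 3 → ValuationSubring (FK N K)} {P0 : Fin 3 → Ideal (chart N A K t)}
    {Pinf : Fin 3 → Ideal (chart N A K t⁻¹)}
    (hyp0 : ChartHyp3 π ϖ V P0) (hypInf : ChartHyp3 π ϖ V Pinf)
    (htV : ∀ i : Fin 3, t ∈ V i) (htV' : ∀ i : Fin 3, t⁻¹ ∈ V i)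
    (h0 : ∀ n : Ideal (chart N A K t), n.IsMaximal →
      algebraMap (OK A K) (chart N A K t) π ∈ n → (P0 0 ≤ n ∨ P0 1 ≤ n) →
      ∃ i : Fin 3, P0 i ≤ n ∧
        ∃ g ∈ P0 i, ∀ y ∈ P0 i, ∃ s : chart N A K t, s ∉ n ∧ ∃ c : chart N A K t, s * y = c * g) :
    ∀ n : Ideal (chart N A K t⁻¹), n.IsMaximal →
      algebraMap (OK A K) (chart N A K t⁻¹) π ∈ n →
      (⟨t⁻¹, ChartJ.self_mem_chart N A K t⁻¹⟩ : chart N A K t⁻¹) ∉ n →
      (Pinf 0 ≤ n ∨ Pinf 1 ≤ n) →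
      ∃ i : Fin 3, Pinf i ≤ n ∧
        ∃ g ∈ Pinf i, ∀ y ∈ Pinf i, ∃ s : chart N A K t⁻¹, s ∉ n ∧
          ∃ c : chart N A K t⁻¹, s * y = c * g :=
  heta_inf (glue_chart N A K ht) π (corr_of_chartHyp3 hyp0 hypInf htV htV')
    (Fermat.Agent.S35.ResPtB.res_chart_base N ℓ hB t⁻¹ π hπ) h0

/-- **`princ` on `chart t⁻¹`** at the points with `t⁻¹ ∉ n`, from the field `princ` of
`chart t`. -/
theorem princ_chart_inv (ℓ : ℕ) [Fact ℓ.Prime] (hB : BaseFacts ℓ A K) {t : FK N K} (ht : t ≠ 0)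
    {π : OK A K} (hπ : Irreducible π) {ϖ : Fin 3 → FK N K}
    {V : Fin 3 → ValuationSubring (FK N K)} {P0 : Fin 3 → Ideal (chart N A K t)}
    {Pinf : Fin 3 → Ideal (chart N A K t⁻¹)}
    (hyp0 : ChartHyp3 π ϖ V P0) (hypInf : ChartHyp3 π ϖ V Pinf)
    (htV : ∀ i : Fin 3, t ∈ V i) (htV' : ∀ i : Fin 3, t⁻¹ ∈ V i)
    (h0 : ∀ n : Ideal (chart N A K t), n.IsMaximal →
      algebraMap (OK A K) (chart N A K t) π ∈ n →
      ∃ i : Fin 3, P0 i ≤ n ∧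
        ∃ g ∈ P0 i, ∀ y ∈ P0 i, ∃ s : chart N A K t, s ∉ n ∧ ∃ c : chart N A K t, s * y = c * g) :
    ∀ n : Ideal (chart N A K t⁻¹), n.IsMaximal →
      algebraMap (OK A K) (chart N A K t⁻¹) π ∈ n →
      (⟨t⁻¹, ChartJ.self_mem_chart N A K t⁻¹⟩ : chart N A K t⁻¹) ∉ n →
      ∃ i : Fin 3, Pinf i ≤ n ∧
        ∃ g ∈ Pinf i, ∀ y ∈ Pinf i, ∃ s : chart N A K t⁻¹, s ∉ n ∧
          ∃ c : chart N A K t⁻¹, s * y = c * g :=
  princ_inf (glue_chart N A K ht) π (corr_of_chartHyp3 hyp0 hypInf htV htV')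
    (Fermat.Agent.S35.ResPtB.res_chart_base N ℓ hB t⁻¹ π hπ) h0

/-- **`branch` on `chart t⁻¹`** at the points with `t⁻¹ ∉ n`, from the field `branch` of
`chart t`. -/
theorem branch_chart_inv (ℓ : ℕ) [Fact ℓ.Prime] (hB : BaseFacts ℓ A K) {t : FK N K}
    (ht : t ≠ 0) {π : OK A K} (hπ : Irreducible π) {ϖ : Fin 3 → FK N K}
    {V : Fin 3 → ValuationSubring (FK N K)} {P0 : Fin 3 → Ideal (chart N A K t)}
    {Pinf : Fin 3 → Ideal (chart N A K t⁻¹)}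
    (hyp0 : ChartHyp3 π ϖ V P0) (hypInf : ChartHyp3 π ϖ V Pinf)
    (htV : ∀ i : Fin 3, t ∈ V i) (htV' : ∀ i : Fin 3, t⁻¹ ∈ V i)
    (h0 : ∀ n : Ideal (chart N A K t), n.IsMaximal →
      algebraMap (OK A K) (chart N A K t) π ∈ n → ∀ i : Fin 3, P0 i ≤ n →
      (∃ x ∈ n, x ∉ P0 i) ∧
        ∃ u ∈ n, ∀ x ∈ n, ∃ s : chart N A K t, s ∉ n ∧
          ∃ c : chart N A K t, s * x - c * u ∈ P0 i) :
    ∀ n : Ideal (chart N A K t⁻¹), n.IsMaximal →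
      algebraMap (OK A K) (chart N A K t⁻¹) π ∈ n →
      (⟨t⁻¹, ChartJ.self_mem_chart N A K t⁻¹⟩ : chart N A K t⁻¹) ∉ n → ∀ i : Fin 3, Pinf i ≤ n →
      (∃ x ∈ n, x ∉ Pinf i) ∧
        ∃ u ∈ n, ∀ x ∈ n, ∃ s : chart N A K t⁻¹, s ∉ n ∧
          ∃ c : chart N A K t⁻¹, s * x - c * u ∈ Pinf i :=
  branch_inf (glue_chart N A K ht) π (corr_of_chartHyp3 hyp0 hypInf htV htV')
    (Fermat.Agent.S35.ResPtB.res_chart_base N ℓ hB t⁻¹ π hπ) h0

/-- **The field `princ` of `chart t⁻¹`** from the field `princ` of `chart t` and (B1) at the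
cuspidal closed points (`t⁻¹ ∈ n`) only. -/
theorem princ_chart_inv_of_cusp (ℓ : ℕ) [Fact ℓ.Prime] (hB : BaseFacts ℓ A K) {t : FK N K}
    (ht : t ≠ 0) {π : OK A K} (hπ : Irreducible π) {ϖ : Fin 3 → FK N K}
    {V : Fin 3 → ValuationSubring (FK N K)} {P0 : Fin 3 → Ideal (chart N A K t)}
    {Pinf : Fin 3 → Ideal (chart N A K t⁻¹)}
    (hyp0 : ChartHyp3 π ϖ V P0) (hypInf : ChartHyp3 π ϖ V Pinf)
    (htV : ∀ i : Fin 3, t ∈ V i) (htV' : ∀ i : Fin 3, t⁻¹ ∈ V i)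
    (h0 : ∀ n : Ideal (chart N A K t), n.IsMaximal →
      algebraMap (OK A K) (chart N A K t) π ∈ n →
      ∃ i : Fin 3, P0 i ≤ n ∧
        ∃ g ∈ P0 i, ∀ y ∈ P0 i, ∃ s : chart N A K t, s ∉ n ∧ ∃ c : chart N A K t, s * y = c * g)
    (hcusp : ∀ n : Ideal (chart N A K t⁻¹), n.IsMaximal →
      algebraMap (OK A K) (chart N A K t⁻¹) π ∈ n →
      (⟨t⁻¹, ChartJ.self_mem_chart N A K t⁻¹⟩ : chart N A K t⁻¹) ∈ n →
      ∃ i : Fin 3, Pinf i ≤ n ∧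
        ∃ g ∈ Pinf i, ∀ y ∈ Pinf i, ∃ s : chart N A K t⁻¹, s ∉ n ∧
          ∃ c : chart N A K t⁻¹, s * y = c * g) :
    ∀ n : Ideal (chart N A K t⁻¹), n.IsMaximal →
      algebraMap (OK A K) (chart N A K t⁻¹) π ∈ n →
      ∃ i : Fin 3, Pinf i ≤ n ∧
        ∃ g ∈ Pinf i, ∀ y ∈ Pinf i, ∃ s : chart N A K t⁻¹, s ∉ n ∧
          ∃ c : chart N A K t⁻¹, s * y = c * g := by
  intro n hn hπn
  by_cases htn : (⟨t⁻¹, ChartJ.self_mem_chart N A K t⁻¹⟩ : chart N A K t⁻¹) ∈ n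
  · exact hcusp n hn hπn htn
  · exact princ_chart_inv ℓ hB ht hπ hyp0 hypInf htV htV' h0 n hn hπn htn

/-- **The field `branch` of `chart t⁻¹`** from the field `branch` of `chart t` and the regular
branches at the cuspidal closed points (`t⁻¹ ∈ n`) only. -/
theorem branch_chart_inv_of_cusp (ℓ : ℕ) [Fact ℓ.Prime] (hB : BaseFacts ℓ A K) {t : FK N K}
    (ht : t ≠ 0) {π : OK A K} (hπ : Irreducible π) {ϖ : Fin 3 → FK N K}
    {V : Fin 3 → ValuationSubring (FK N K)} {P0 : Fin 3 → Ideal (chart N A K t)}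
    {Pinf : Fin 3 → Ideal (chart N A K t⁻¹)}
    (hyp0 : ChartHyp3 π ϖ V P0) (hypInf : ChartHyp3 π ϖ V Pinf)
    (htV : ∀ i : Fin 3, t ∈ V i) (htV' : ∀ i : Fin 3, t⁻¹ ∈ V i)
    (h0 : ∀ n : Ideal (chart N A K t), n.IsMaximal →
      algebraMap (OK A K) (chart N A K t) π ∈ n → ∀ i : Fin 3, P0 i ≤ n →
      (∃ x ∈ n, x ∉ P0 i) ∧
        ∃ u ∈ n, ∀ x ∈ n, ∃ s : chart N A K t, s ∉ n ∧
          ∃ c : chart N A K t, s * x - c * u ∈ P0 i)
    (hcusp : ∀ n : Ideal (chart N A K t⁻¹), n.IsMaximal →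
      algebraMap (OK A K) (chart N A K t⁻¹) π ∈ n →
      (⟨t⁻¹, ChartJ.self_mem_chart N A K t⁻¹⟩ : chart N A K t⁻¹) ∈ n → ∀ i : Fin 3, Pinf i ≤ n →
      (∃ x ∈ n, x ∉ Pinf i) ∧
        ∃ u ∈ n, ∀ x ∈ n, ∃ s : chart N A K t⁻¹, s ∉ n ∧
          ∃ c : chart N A K t⁻¹, s * x - c * u ∈ Pinf i) :
    ∀ n : Ideal (chart N A K t⁻¹), n.IsMaximal →
      algebraMap (OK A K) (chart N A K t⁻¹) π ∈ n → ∀ i : Fin 3, Pinf i ≤ n →
      (∃ x ∈ n, x ∉ Pinf i) ∧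
        ∃ u ∈ n, ∀ x ∈ n, ∃ s : chart N A K t⁻¹, s ∉ n ∧
          ∃ c : chart N A K t⁻¹, s * x - c * u ∈ Pinf i := by
  intro n hn hπn
  by_cases htn : (⟨t⁻¹, ChartJ.self_mem_chart N A K t⁻¹⟩ : chart N A K t⁻¹) ∈ n
  · exact hcusp n hn hπn htn
  · exact branch_chart_inv ℓ hB ht hπ hyp0 hypInf htV htV' h0 n hn hπn htn

/-- The same two transports from a `ChartModel3` of the finite chart: at the closed points
`n ∌ t⁻¹` of `chart t⁻¹`, `princ` and `branch` hold for ANY family `Pinf` with `ChartHyp3`. -/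
theorem of_chartModel3 (ℓ : ℕ) [Fact ℓ.Prime] (hB : BaseFacts ℓ A K) {t : FK N K}
    (ht : t ≠ 0) {π : OK A K} (hπ : Irreducible π) {ϖ : Fin 3 → FK N K}
    {V : Fin 3 → ValuationSubring (FK N K)}
    (C0 : ChartModel3 N A K π ϖ V (chart N A K t))
    {Pinf : Fin 3 → Ideal (chart N A K t⁻¹)} (hypInf : ChartHyp3 π ϖ V Pinf)
    (htV : ∀ i : Fin 3, t ∈ V i) (htV' : ∀ i : Fin 3, t⁻¹ ∈ V i)
    (n : Ideal (chart N A K t⁻¹)) (hn : n.IsMaximal)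
    (hπn : algebraMap (OK A K) (chart N A K t⁻¹) π ∈ n)
    (htn : (⟨t⁻¹, ChartJ.self_mem_chart N A K t⁻¹⟩ : chart N A K t⁻¹) ∉ n) :
    (∃ i : Fin 3, Pinf i ≤ n ∧
        ∃ g ∈ Pinf i, ∀ y ∈ Pinf i, ∃ s : chart N A K t⁻¹, s ∉ n ∧
          ∃ c : chart N A K t⁻¹, s * y = c * g) ∧
      ∀ i : Fin 3, Pinf i ≤ n →
        (∃ x ∈ n, x ∉ Pinf i) ∧
          ∃ u ∈ n, ∀ x ∈ n, ∃ s : chart N A K t⁻¹, s ∉ n ∧
            ∃ c : chart N A K t⁻¹, s * x - c * u ∈ Pinf i :=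
  ⟨princ_chart_inv ℓ hB ht hπ C0.hyp hypInf htV htV' C0.princ n hn hπn htn,
    branch_chart_inv ℓ hB ht hπ C0.hyp hypInf htV htV' C0.branch n hn hπn htn⟩

end Chart

end Fermat.Agent.S36.NakGlue
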