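/-
S36 — Princ3.lean (helper9; package [MODEL3]): the field `princ` of `Model3Plan.ChartModel3`,
abstractly (Mathlib + `Model3Plan`), from the chart hypotheses `ChartHyp3` + `ValHyp3`:

* `exists_pi_mul` (localised `desc`): at a prime `n`, an element `y ∈ R` which lies in `π (V i)`
  for every branch `P i ≤ n` through `n` lies in `π R_n` (`s y = π r'` with `s ∉ n`);
* `exists_le` : a prime `n ∋ π` contains one of the three vertical primes;
* `pi_genAt` : at a point `n` lying on exactly ONE vertical prime `P i`, of multiplicity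
  `e i = 1` (the one-branch points of `W1`, `W2`, cusps included), `P i R_n = π R_n`;
* `princ_of_triple` : the field `princ` from
    [TRIPLE]  a closed point on `P 0` and `P 1` lies on `P 2`, and
    (B1)      at the closed points of `P 2` (one-branch points of `W3`, triple points, middle
              cusps) some vertical prime through `n` is principal at `n`.
-/
import Mathlib
import Fermat.Agent.S36.Model3Plan

set_option autoImplicit false

namespace Fermat.Agent.S36.Princ3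

open Fermat.Agent.S36.Model3Plan

variable {O : Type*} [CommRing O] {R : Type*} [CommRing R] [Algebra O R]
  {E : Type*} [Field E] [Algebra R E]
  {π : O} {e : Fin 3 → ℕ} {ϖ : Fin 3 → E} {V : Fin 3 → ValuationSubring E}
  {P : Fin 3 → Ideal R}

/-- `ϖ j ^ e j = π * unit⁻¹`: the `e j`-th power of an element of `ϖ j (V j)` lies in
`π (V j)`. -/
theorem pow_mem_pi (val : ValHyp3 (algebraMap R E (algebraMap O R π)) e ϖ V)
    (hp0 : algebraMap R E (algebraMap O R π) ≠ 0) (j : Fin 3) {x : E}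
    (hx : ∃ v ∈ V j, x = ϖ j * v) :
    ∃ y ∈ V j, x ^ e j = algebraMap R E (algebraMap O R π) * y := by
  obtain ⟨v, hv, rfl⟩ := hx
  obtain ⟨u, -, hu', hpu⟩ := val.ram j
  have hu0 : u ≠ 0 := by
    rintro rfl
    exact hp0 (by rw [hpu, mul_zero])
  refine ⟨u⁻¹ * v ^ e j, mul_mem hu' (pow_mem hv _), ?_⟩
  rw [mul_pow, hpu]
  field_simp

/-- **Localised `desc`**: if `y ∈ π (V i)` for every `i` with `P i ≤ n` (`n` prime), then
`s * y ∈ π R` for some `s ∉ n`. -/
theorem exists_pi_mul (val : ValHyp3 (algebraMap R E (algebraMap O R π)) e ϖ V)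
    (hyp : ChartHyp3 π ϖ V P) (hp0 : algebraMap R E (algebraMap O R π) ≠ 0)
    (n : Ideal R) (hn : n.IsPrime) (y : R)
    (hy : ∀ i : Fin 3, P i ≤ n →
      ∃ v ∈ V i, algebraMap R E y = algebraMap R E (algebraMap O R π) * v) :
    ∃ s : R, s ∉ n ∧ ∃ r' : R, s * y = algebraMap O R π * r' := by
  classical
  -- for every `j` an element `σ j ∉ n`, lying in `P j` unless `P j ≤ n`
  have hex : ∀ j : Fin 3, ∃ σ : R, σ ∉ n ∧ (¬ P j ≤ n → σ ∈ P j) := by
    intro j
    by_cases hj : P j ≤ n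
    · exact ⟨1, fun h => hn.ne_top ((Ideal.eq_top_iff_one n).mpr h), fun h => absurd hj h⟩
    · obtain ⟨σ, hσ, hσn⟩ := Set.not_subset.mp hj
      exact ⟨σ, hσn, fun _ => hσ⟩
  choose σ hσn hσP using hex
  set s : R := ∏ j : Fin 3, σ j ^ e j with hs
  have hsn : s ∉ n := by
    rw [hs]
    refine Finset.prod_induction (fun j => σ j ^ e j) (fun a => a ∉ n)
      (fun a b ha hb hab => (hn.mem_or_mem hab).elim ha hb)
      (fun h => hn.ne_top ((Ideal.eq_top_iff_one n).mpr h)) (fun j _ hj => ?_)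
    exact hσn j (hn.mem_of_pow_mem _ hj)
  refine ⟨s, hsn, ?_⟩
  have hdesc := hyp.desc (s * y) ?_
  · exact hdesc
  intro k
  by_cases hk : P k ≤ n
  · obtain ⟨v, hv, hyv⟩ := hy k hk
    refine ⟨algebraMap R E s * v, mul_mem (hyp.le k s) hv, ?_⟩
    rw [map_mul, hyv]
    ring
  · obtain ⟨w, hw, hσw⟩ := pow_mem_pi val hp0 k ((hyp.mem_P k (σ k)).mp (hσP k hk))
    have h1 : s = (∏ j ∈ Finset.univ.erase k, σ j ^ e j) * σ k ^ e k := by
      rw [hs, Finset.prod_erase_mul _ _ (Finset.mem_univ k)]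
    refine ⟨algebraMap R E (∏ j ∈ Finset.univ.erase k, σ j ^ e j) * w * algebraMap R E y,
      mul_mem (mul_mem (hyp.le k _) hw) (hyp.le k y), ?_⟩
    rw [map_mul, h1, map_mul, map_pow, hσw]
    ring

/-- A prime `n ∋ π` contains one of the three vertical primes. -/
theorem exists_le (val : ValHyp3 (algebraMap R E (algebraMap O R π)) e ϖ V)
    (hyp : ChartHyp3 π ϖ V P) (hp0 : algebraMap R E (algebraMap O R π) ≠ 0)
    (n : Ideal R) (hn : n.IsPrime) (hπn : algebraMap O R π ∈ n) : ∃ i : Fin 3, P i ≤ n := by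
  by_contra hcon
  have hcon' : ∀ i : Fin 3, ¬ P i ≤ n := fun i hi => hcon ⟨i, hi⟩
  obtain ⟨s, hsn, r', hr'⟩ := exists_pi_mul val hyp hp0 n hn 1 (fun i hi => absurd hi (hcon' i))
  apply hsn
  rw [mul_one] at hr'
  rw [hr']
  exact n.mul_mem_right _ hπn

/-- `π ∈ P i`. -/
theorem pi_mem (val : ValHyp3 (algebraMap R E (algebraMap O R π)) e ϖ V)
    (hyp : ChartHyp3 π ϖ V P) (i : Fin 3) : algebraMap O R π ∈ P i := by
  rw [hyp.mem_P]
  obtain ⟨u, hu, -, hpu⟩ := val.ram i
  obtain ⟨k, hk⟩ : ∃ k : ℕ, e i = k + 1 := ⟨e i - 1, by have := val.e_pos i; omega⟩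
  refine ⟨ϖ i ^ k * u, mul_mem (pow_mem (val.unif_mem i) k) hu, ?_⟩
  rw [hpu, hk, pow_succ]
  ring

/-- **One-branch points of multiplicity one**: if `n` (prime) lies on `P i` only and `e i = 1`,
then `π` generates `P i` locally at `n`. -/
theorem pi_genAt (val : ValHyp3 (algebraMap R E (algebraMap O R π)) e ϖ V)
    (hyp : ChartHyp3 π ϖ V P) (hp0 : algebraMap R E (algebraMap O R π) ≠ 0)
    (n : Ideal R) (hn : n.IsPrime) (i : Fin 3) (hei : e i = 1)
    (hother : ∀ j : Fin 3, j ≠ i → ¬ P j ≤ n) :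
    ∃ g ∈ P i, ∀ y ∈ P i, ∃ s : R, s ∉ n ∧ ∃ c : R, s * y = c * g := by
  refine ⟨algebraMap O R π, pi_mem val hyp i, fun y hy => ?_⟩
  have hyk : ∀ k : Fin 3, P k ≤ n →
      ∃ v ∈ V k, algebraMap R E y = algebraMap R E (algebraMap O R π) * v := by
    intro k hk
    have hki : k = i := by
      by_contra hne
      exact hother k hne hk
    subst hki
    have h := pow_mem_pi val hp0 k ((hyp.mem_P k y).mp hy)
    rw [hei, pow_one] at h
    exact h
  obtain ⟨s, hsn, r', hr'⟩ := exists_pi_mul val hyp hp0 n hn y hyk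
  exact ⟨s, hsn, r', by rw [hr', mul_comm]⟩

/-- **[princ]** the field `Model3Plan.ChartModel3.princ` (stated for maximal ideals `n ∋ π`)
from [TRIPLE] and the input (B1) at the closed points of `P 2`. -/
theorem princ_of_triple (val : ValHyp3 (algebraMap R E (algebraMap O R π)) e ϖ V)
    (hyp : ChartHyp3 π ϖ V P) (hp0 : algebraMap R E (algebraMap O R π) ≠ 0)
    (he0 : e 0 = 1) (he1 : e 1 = 1)
    (htriple : ∀ n : Ideal R, n.IsMaximal → algebraMap O R π ∈ n → P 0 ≤ n → P 1 ≤ n → P 2 ≤ n)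
    (hB1 : ∀ n : Ideal R, n.IsMaximal → algebraMap O R π ∈ n → P 2 ≤ n →
      ∃ i : Fin 3, P i ≤ n ∧ ∃ g ∈ P i, ∀ y ∈ P i, ∃ s : R, s ∉ n ∧ ∃ c : R, s * y = c * g) :
    ∀ n : Ideal R, n.IsMaximal → algebraMap O R π ∈ n →
      ∃ i : Fin 3, P i ≤ n ∧ ∃ g ∈ P i, ∀ y ∈ P i, ∃ s : R, s ∉ n ∧ ∃ c : R, s * y = c * g := by
  intro n hn hπn
  by_cases h2 : P 2 ≤ n
  · exact hB1 n hn hπn h2
  obtain ⟨i, hi⟩ := exists_le val hyp hp0 n hn.isPrime hπn
  fin_cases i
  · refine ⟨0, hi, pi_genAt val hyp hp0 n hn.isPrime 0 he0 (fun j hj => ?_)⟩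
    fin_cases j
    · exact absurd rfl hj
    · exact fun h1 => h2 (htriple n hn hπn hi h1)
    · exact h2
  · refine ⟨1, hi, pi_genAt val hyp hp0 n hn.isPrime 1 he1 (fun j hj => ?_)⟩
    fin_cases j
    · exact fun h0 => h2 (htriple n hn hπn h0 hi)
    · exact absurd rfl hj
    · exact h2
  · exact absurd hi h2

end Fermat.Agent.S36.Princ3
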