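/-
S36 — Princ3Cases.lean (helper9; package [MODEL3]): the field `princ` of
`Model3Plan.ChartModel3` by cases, in the shape delivered by the (B1) packages.

* `princ_at` (sharp abstract reduction): at a prime `n ∋ π` a modular input is needed ONLY if
  `n` lies on `P 2`, or on both `P 0` and `P 1`; every other point lies on exactly one of
  `P 0`, `P 1` (multiplicity one) and `π` generates that vertical prime at `n`
  (`Princ3.pi_genAt`);
* `princ_of_cases` : the field `princ` from the four modular inputs, `C n` = "`n` is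
  non-cuspidal":
    (eta)   non-cuspidal `n` on `P 0` or `P 1` (triple points included);
    (nak)   non-cuspidal `n` on `P 2` only;
    (cusp2) cuspidal `n` on `P 2`;
    (cusp01) a cuspidal `n` outside `P 2` does not lie on both `P 0` and `P 1`.
  No incidence statement ([TRIPLE]) is needed.
-/
import Mathlib
import Fermat.Agent.S36.Princ3

set_option autoImplicit false

namespace Fermat.Agent.S36.Princ3Cases

open Fermat.Agent.S36.Model3Plan

variable {O : Type*} [CommRing O] {R : Type*} [CommRing R] [Algebra O R]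
  {E : Type*} [Field E] [Algebra R E]
  {π : O} {e : Fin 3 → ℕ} {ϖ : Fin 3 → E} {V : Fin 3 → ValuationSubring E}
  {P : Fin 3 → Ideal R}

/-- **`princ` at one point**: a modular input is needed only at the points of `P 2` and at the
points lying on both `P 0` and `P 1`. -/
theorem princ_at (val : ValHyp3 (algebraMap R E (algebraMap O R π)) e ϖ V)
    (hyp : ChartHyp3 π ϖ V P) (hp0 : algebraMap R E (algebraMap O R π) ≠ 0)
    (he0 : e 0 = 1) (he1 : e 1 = 1) (n : Ideal R) (hn : n.IsPrime)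
    (hπn : algebraMap O R π ∈ n)
    (hmod : (P 0 ≤ n ∧ P 1 ≤ n) ∨ P 2 ≤ n →
      ∃ i : Fin 3, P i ≤ n ∧ ∃ g ∈ P i, ∀ y ∈ P i, ∃ s : R, s ∉ n ∧ ∃ c : R, s * y = c * g) :
    ∃ i : Fin 3, P i ≤ n ∧ ∃ g ∈ P i, ∀ y ∈ P i, ∃ s : R, s ∉ n ∧ ∃ c : R, s * y = c * g := by
  by_cases h2 : P 2 ≤ n
  · exact hmod (Or.inr h2)
  by_cases h01 : P 0 ≤ n ∧ P 1 ≤ n
  · exact hmod (Or.inl h01)
  obtain ⟨i, hi⟩ := Princ3.exists_le val hyp hp0 n hn hπn
  fin_cases i
  · refine ⟨0, hi, Princ3.pi_genAt val hyp hp0 n hn 0 he0 (fun j hj => ?_)⟩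
    fin_cases j
    · exact absurd rfl hj
    · exact fun h1 => h01 ⟨hi, h1⟩
    · exact h2
  · refine ⟨1, hi, Princ3.pi_genAt val hyp hp0 n hn 1 he1 (fun j hj => ?_)⟩
    fin_cases j
    · exact fun h0 => h01 ⟨h0, hi⟩
    · exact absurd rfl hj
    · exact h2
  · exact absurd hi h2

/-- **[princ] by cases** (`C n` = "`n` is non-cuspidal"): the field
`Model3Plan.ChartModel3.princ` from the outputs of the (B1) packages. -/
theorem princ_of_cases (val : ValHyp3 (algebraMap R E (algebraMap O R π)) e ϖ V)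
    (hyp : ChartHyp3 π ϖ V P) (hp0 : algebraMap R E (algebraMap O R π) ≠ 0)
    (he0 : e 0 = 1) (he1 : e 1 = 1) (C : Ideal R → Prop)
    (heta : ∀ n : Ideal R, n.IsMaximal → algebraMap O R π ∈ n → C n → (P 0 ≤ n ∨ P 1 ≤ n) →
      ∃ i : Fin 3, P i ≤ n ∧ ∃ g ∈ P i, ∀ y ∈ P i, ∃ s : R, s ∉ n ∧ ∃ c : R, s * y = c * g)
    (hnak : ∀ n : Ideal R, n.IsMaximal → algebraMap O R π ∈ n → C n → ¬ P 0 ≤ n → ¬ P 1 ≤ n →
      P 2 ≤ n →
      ∃ i : Fin 3, P i ≤ n ∧ ∃ g ∈ P i, ∀ y ∈ P i, ∃ s : R, s ∉ n ∧ ∃ c : R, s * y = c * g)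
    (hcusp2 : ∀ n : Ideal R, n.IsMaximal → algebraMap O R π ∈ n → ¬ C n → P 2 ≤ n →
      ∃ i : Fin 3, P i ≤ n ∧ ∃ g ∈ P i, ∀ y ∈ P i, ∃ s : R, s ∉ n ∧ ∃ c : R, s * y = c * g)
    (hcusp01 : ∀ n : Ideal R, n.IsMaximal → algebraMap O R π ∈ n → ¬ C n → ¬ P 2 ≤ n →
      ¬ (P 0 ≤ n ∧ P 1 ≤ n)) :
    ∀ n : Ideal R, n.IsMaximal → algebraMap O R π ∈ n →
      ∃ i : Fin 3, P i ≤ n ∧ ∃ g ∈ P i, ∀ y ∈ P i, ∃ s : R, s ∉ n ∧ ∃ c : R, s * y = c * g := by
  intro n hn hπn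
  refine princ_at val hyp hp0 he0 he1 n hn.isPrime hπn (fun hmod => ?_)
  by_cases hC : C n
  · by_cases h01 : P 0 ≤ n ∨ P 1 ≤ n
    · exact heta n hn hπn hC h01
    · have h0 : ¬ P 0 ≤ n := fun h => h01 (Or.inl h)
      have h1 : ¬ P 1 ≤ n := fun h => h01 (Or.inr h)
      rcases hmod with h | h2
      · exact absurd h.1 h0
      · exact hnak n hn hπn hC h0 h1 h2
  · by_cases h2 : P 2 ≤ n
    · exact hcusp2 n hn hπn hC h2
    · rcases hmod with h | h2'
      · exact absurd h (hcusp01 n hn hπn hC h2)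
      · exact absurd h2' h2

end Fermat.Agent.S36.Princ3Cases
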