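/-
S36 — CuspClose.lean (helper39; block [N10] + [CUSP1], CLOSER; dealt by the architect helper25).

The CUSPIDAL closed points of the chart at infinity `chart (M q²) A K J3⁻¹` of the level-`M q²`
model, for the objects of record of `Model3Top`

  `V = ![W1, W2, H.W3]`, `ϖ = ![π, π, sE]`, `e = ram q`   (`H : V3.Hyp3 …`),

in CLOSED form (no hypothesis beyond those of `Model3Top.model3`):

* `hyp3_one`, `hf3_one`   : the level-one companion of `H` (embedding `Iota3.iota3 1 q K`) and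
                            residue degree one of `W3` over level ONE (`Model3Top.wit` at
                            `M = 1` + `ResDeg3Inst.hf3'`) — the input `hf3` of `CuspKS`;
* `exists_polys`          : [CUSP-c] closed (`CuspKS.exists_polys` without `hf3`);
* `one_cusp`              : [CUSP1] closed (`CuspOff3Inst.one_chart` + `CuspMem`);
* `hB1_cusp`              : [N10] closed: at a prime `n ∋ J3⁻¹` with `P 2 ≤ n`, `P 2` is
                            principal locally at `n` (`CuspAsm.cusp_hB1_asm'` + `CuspMem` +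
                            `CuspMono` + `CuspKS`);
* `hcusp2`, `hcusp01`     : the inputs of `Princ3Cases.princ_of_cases` on the chart at infinity
                            (`C n := J3⁻¹ ∉ n`), verbatim;
* `princ_cusp`            : `princ` at EVERY cuspidal closed point of the special fibre;
* `princInf`              : the field `princ` of the chart at infinity from `heta`, `hnak` at its
                            non-cuspidal points (`Princ3Cases.princ_of_cases`);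
* `princInf_of_princ0`    : the field `princ` of the chart at infinity from the field `princ` of
                            the chart `J3` (`NakGlue.princ_chart_inv_of_cusp`);
* `chartHyp3_zero`, `model3_of_princ0`, `model3_of_eta_nak` :
                            **[MODEL3] from (B1) on the chart `J3` alone** (`Model3Top.model3`).
-/
import Mathlib
import Fermat.Agent.S36.Model3Top
import Fermat.Agent.S36.Princ3Cases
import Fermat.Agent.S36.CuspAsm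
import Fermat.Agent.S36.CuspKS
import Fermat.Agent.S36.CuspMono
import Fermat.Agent.S36.CuspMem
import Fermat.Agent.S36.CuspOff3Inst
import Fermat.Agent.S36.NakGlue

set_option autoImplicit false

noncomputable section

namespace Fermat.Agent.S36.CuspClose

open ModularCurve ModularCurve.IgusaScheme AlgebraicCurve HahnSeries
open Fermat.Agent.S18 Fermat.Agent.S18.Arith Fermat.Agent.S18.ModelPlan
open Fermat.Agent.S34 Fermat.Agent.S36.Model3Plan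

variable {M q : ℕ} [NeZero M] [NeZero q] {hq : q.Prime} {hqM : ¬ q ∣ M}
variable {A : ValuationSubring Qb} {K K' : IntermediateField ℚ Qb}
variable {ξ : Qb} {hξ0 : ξ ≠ 0} {ι : FK (M * q * q) K →+* LaurentSeries Qb} {ϖ' : OK A K'}

/-! ### Level one: the input `hf3` of `CuspKS` -/

include hq in
theorem not_dvd_one : ¬ q ∣ 1 := fun h => hq.one_lt.ne' (Nat.dvd_one.mp h)

/-- The level-one companion of `H`: the same base data, with the algebraic middle-cusp embedding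
`Iota3.iota3` of level `1 · q²`. -/
theorem hyp3_one (H : V3.Hyp3 M q hq hqM A K K' ξ hξ0 ι ϖ') (hq1 : ¬ q ∣ 1) :
    V3.Hyp3 1 q hq hq1 A K K' ξ hξ0 (Iota3.iota3 1 q K hq hq1 ξ H.xi_pow H.xi_ne) ϖ' where
  mid := V3.midEmb_iota3 1 q hq hq1 K ξ H.xi_pow H.xi_ne
  le := H.le
  xi_mem := H.xi_mem
  xi_pow := H.xi_pow
  xi_ne := H.xi_ne
  dvr' := H.dvr'
  irr := H.irr
  coe_unif := H.coe_unif

/-- **Residue degree one of `W3` over level ONE** (the hypothesis `hf3` of `CuspKS`). -/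
theorem hf3_one (H : V3.Hyp3 M q hq hqM A K K' ξ hξ0 ι ϖ') (hA : A.LiesOverPrime q)
    (hB : BaseFacts q A K) {π : OK A K} (hπ : Irreducible π) (a : A)
    (hqa : (q : Qb) = incO A K π * (a : Qb))
    (hπϖ : ∃ u : A, IsUnit u ∧ incO A K π = incO A K' ϖ' ^ (q - 1) * (u : Qb))
    (hq1 : ¬ q ∣ 1) :
    ∀ (x : FK (1 * q * q) K) (y : LaurentSeries (IsLocalRing.ResidueField A)),
      GRel A (Iota3.iota3 1 q K hq hq1 ξ H.xi_pow H.xi_ne x) y →
      ∃ x' : FK 1 K, GRel A ((x' : FK 1 K) : LaurentSeries Qb) y := by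
  haveI : Fact q.Prime := ⟨hq⟩
  have H₁ := hyp3_one H hq1
  have hC : ChartFacts 1 A K (chart 1 A K (jK 1 K)) (jK 1 K) :=
    Red2B.chartFacts 1 q hq hq1 A K hA hB
  have hW := Model3Top.wit H₁ hB.dvr hA hC hπ a hqa hπϖ
  exact ResDeg3Inst.hf3' 1 q hq hB.dvr hπ hC H₁.mid.alpha (V3Wit.hW3 H₁) hW

/-- **[CUSP-c], closed**: `u = (j_{q²} / j - 1)^(q-1) / π` satisfies
`u · b(1/j) - a(1/j) ∈ s · W3` for polynomials `a, b ∈ O[X]` with unit constant coefficients. -/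
theorem exists_polys (H : V3.Hyp3 M q hq hqM A K K' ξ hξ0 ι ϖ') (hA : A.LiesOverPrime q)
    (hB : BaseFacts q A K) {π : OK A K} (hπ : Irreducible π) (a : A)
    (hqa : (q : Qb) = incO A K π * (a : Qb))
    (hπϖ : ∃ u : A, IsUnit u ∧ incO A K π = incO A K' ϖ' ^ (q - 1) * (u : Qb)) :
    ∃ a' b' : Polynomial (OK A K), IsUnit (a'.coeff 0) ∧ IsUnit (b'.coeff 0) ∧
      ∃ z ∈ H.W3, CuspKS.uK M q hq hqM K A π * Polynomial.aeval (jK (M * q * q) K)⁻¹ b'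
          - Polynomial.aeval (jK (M * q * q) K)⁻¹ a' = Wit3.sE M q hq hqM K * z := by
  haveI : Fact q.Prime := ⟨hq⟩
  have hq1 : ¬ q ∣ 1 := not_dvd_one (hq := hq)
  exact (CuspKS.exists_polys H hA hB.dvr π hπϖ hq1 _ (hyp3_one H hq1).mid
    (hf3_one H hA hB hπ a hqa hπϖ hq1)).2.2

/-! ### The cuspidal points of the chart at infinity -/

/-- **[CUSP1], closed**: a prime `n ∋ J3⁻¹` of the chart at infinity lies on at most one of the
three vertical primes. -/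
theorem one_cusp (H : V3.Hyp3 M q hq hqM A K K' ξ hξ0 ι ϖ') (hA : A.LiesOverPrime q)
    (hB : BaseFacts q A K) {π : OK A K} (hπ : Irreducible π) (a : A)
    (hqa : (q : Qb) = incO A K π * (a : Qb))
    (hπϖ : ∃ u : A, IsUnit u ∧ incO A K π = incO A K' ϖ' ^ (q - 1) * (u : Qb))
    {P : Fin 3 → Ideal ↥(chart (M * q * q) A K (Chart3B.J3 M q hq hqM K)⁻¹)}
    (hyp : ChartHyp3 π
      ![algebraMap (OK A K) (FK (M * q * q) K) π, algebraMap (OK A K) (FK (M * q * q) K) π,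
        Wit3.sE M q hq hqM K]
      ![GaussV.V1 (M * q * q) A K hB.dvr, GaussV.V2 (WQ2.wK2 M q hq hqM K) hB.dvr, H.W3] P)
    (n : Ideal ↥(chart (M * q * q) A K (Chart3B.J3 M q hq hqM K)⁻¹)) (hn : n.IsPrime)
    (hJ : (⟨(Chart3B.J3 M q hq hqM K)⁻¹, Chart3B.J3_inv_mem_chart M q hq hqM A K⟩ :
      ↥(chart (M * q * q) A K (Chart3B.J3 M q hq hqM K)⁻¹)) ∈ n) :
    ∀ i i' : Fin 3, P i ≤ n → P i' ≤ n → i = i' :=
  CuspOff3Inst.one_chart M q hq hqM A K hB.dvr hA hπ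
    (V3Wit.valHyp3 H hB.dvr hA hπ a hqa hπϖ) hyp rfl rfl rfl rfl rfl
    (V3Wit.x1_pi3 H hB.dvr hA hπ a hqa) (V3Wit.x2_pi3 H hB.dvr hA hπ)
    (CuspMem.v1_mem M q hq hqM A K) (CuspMem.v2_mem M q hq hqM A K) n hn hJ

/-- **[N10], closed**: at a prime `n ∋ J3⁻¹` of the chart at infinity lying on `P 2` (a cuspidal
point of the middle component `W3`), `P 2` is principal locally at `n`. -/
theorem hB1_cusp (H : V3.Hyp3 M q hq hqM A K K' ξ hξ0 ι ϖ') (hA : A.LiesOverPrime q)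
    (hB : BaseFacts q A K) {π : OK A K} (hπ : Irreducible π) (a : A)
    (hqa : (q : Qb) = incO A K π * (a : Qb))
    (hπϖ : ∃ u : A, IsUnit u ∧ incO A K π = incO A K' ϖ' ^ (q - 1) * (u : Qb))
    {P : Fin 3 → Ideal ↥(chart (M * q * q) A K (Chart3B.J3 M q hq hqM K)⁻¹)}
    (hyp : ChartHyp3 π
      ![algebraMap (OK A K) (FK (M * q * q) K) π, algebraMap (OK A K) (FK (M * q * q) K) π,
        Wit3.sE M q hq hqM K]
      ![GaussV.V1 (M * q * q) A K hB.dvr, GaussV.V2 (WQ2.wK2 M q hq hqM K) hB.dvr, H.W3] P)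
    (n : Ideal ↥(chart (M * q * q) A K (Chart3B.J3 M q hq hqM K)⁻¹)) (hn : n.IsPrime)
    (hJ : (⟨(Chart3B.J3 M q hq hqM K)⁻¹, Chart3B.J3_inv_mem_chart M q hq hqM A K⟩ :
      ↥(chart (M * q * q) A K (Chart3B.J3 M q hq hqM K)⁻¹)) ∈ n)
    (hP2 : P 2 ≤ n) :
    ∃ i : Fin 3, P i ≤ n ∧ ∃ g ∈ P i, ∀ y ∈ P i,
      ∃ s : ↥(chart (M * q * q) A K (Chart3B.J3 M q hq hqM K)⁻¹), s ∉ n ∧
        ∃ c : ↥(chart (M * q * q) A K (Chart3B.J3 M q hq hqM K)⁻¹), s * y = c * g := by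
  have hR := Chart3B.rings M q hq hqM A K hB.dvr
  haveI := hR.2.1.2.1
  haveI := hR.2.1.2.2
  have val := V3Wit.valHyp3 H hB.dvr hA hπ a hqa hπϖ
  have hp0 : algebraMap (OK A K) (FK (M * q * q) K) π ≠ 0 :=
    GaussV.algebraMap_ne_zero (M * q * q) A K hπ.ne_zero
  have hone := one_cusp H hA hB hπ a hqa hπϖ hyp n hn hJ
  have hP0 : ¬ P 0 ≤ n := fun h => absurd (hone 0 2 h hP2) (by decide)
  have hP1 : ¬ P 1 ≤ n := fun h => absurd (hone 1 2 h hP2) (by decide)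
  obtain ⟨a', b', ha', hb', z, hz, hks⟩ := exists_polys H hA hB hπ a hqa hπϖ
  obtain ⟨z2, hz2, hv2'⟩ := CuspMono.v2_sub_one_s3 H hA
  have hj : jK (M * q * q) K ≠ 0 := ModelBasicCore.jK_ne_zero (M * q * q) K
  have hjq : WQ2.jqK2 M q hq hqM K ≠ 0 := Chart3B.jqK2_ne_zero M q hq hqM K
  have hjqq : WQ2.jqqK2 M q hq hqM K ≠ 0 := Chart3B.jqqK2_ne_zero M q hq hqM K
  refine CuspAsm.cusp_hB1_asm' val hyp hp0 (jK (M * q * q) K) (WQ2.jqK2 M q hq hqM K)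
    (WQ2.jqqK2 M q hq hqM K) hj hjq hjqq q hq.ne_zero
    ⟨(jK (M * q * q) K)⁻¹, Chart3B.jK_inv_mem_chart_J3_inv M q hq hqM A K⟩
    ⟨(WQ2.jqqK2 M q hq hqM K)⁻¹, Chart3B.jqqK2_inv_mem_chart_J3_inv M q hq hqM A K⟩
    ⟨(WQ2.jqK2 M q hq hqM K)⁻¹, Chart3B.jqK2_inv_mem_chart_J3_inv M q hq hqM A K⟩
    ⟨_, CuspMem.v1_mem M q hq hqM A K⟩ ⟨_, CuspMem.v2_mem M q hq hqM A K⟩ rfl rfl rfl rfl rfl
    ?_ a' b' ha' hb' (CuspKS.uK M q hq hqM K A π) z hz ?_ hks n hn hP2 hP0 hP1 ?_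
  · exact (hyp.mem_P 2 _).mpr ⟨z2, hz2, hv2'⟩
  · show CuspKS.uK M q hq hqM K A π * algebraMap (OK A K) (FK (M * q * q) K) π
      = (WQ2.jqqK2 M q hq hqM K / jK (M * q * q) K - 1) ^ (q - 1)
    unfold CuspKS.uK
    rw [div_eq_mul_inv]
    exact inv_mul_cancel_right₀ hp0 _
  · have h := hJ
    rw [CuspOff3Inst.J3_inv_eq] at h
    have e : ∀ x y z : ↥(chart (M * q * q) A K (Chart3B.J3 M q hq hqM K)⁻¹),
        x * y * z = x * z * y := fun x y z => mul_right_comm x y z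
    rw [e]
    exact h

/-! ### The consumer shapes -/

/-- **`hcusp2`** of `Princ3Cases.princ_of_cases` on the chart at infinity (`C n := J3⁻¹ ∉ n`),
closed. -/
theorem hcusp2 (H : V3.Hyp3 M q hq hqM A K K' ξ hξ0 ι ϖ') (hA : A.LiesOverPrime q)
    (hB : BaseFacts q A K) {π : OK A K} (hπ : Irreducible π) (a : A)
    (hqa : (q : Qb) = incO A K π * (a : Qb))
    (hπϖ : ∃ u : A, IsUnit u ∧ incO A K π = incO A K' ϖ' ^ (q - 1) * (u : Qb))
    {P : Fin 3 → Ideal ↥(chart (M * q * q) A K (Chart3B.J3 M q hq hqM K)⁻¹)} (hyp : ChartHyp3 π ![algebraMap (OK A K) (FK (M * q * q) K) π, algebraMap (OK A K) (FK (M * q * q) K) π,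
      Wit3.sE M q hq hqM K] ![GaussV.V1 (M * q * q) A K hB.dvr, GaussV.V2 (WQ2.wK2 M q hq hqM K) hB.dvr, H.W3] P) :
    ∀ n : Ideal ↥(chart (M * q * q) A K (Chart3B.J3 M q hq hqM K)⁻¹), n.IsMaximal → algebraMap (OK A K) ↥(chart (M * q * q) A K (Chart3B.J3 M q hq hqM K)⁻¹) π ∈ n → ¬ ((⟨(Chart3B.J3 M q hq hqM K)⁻¹, Chart3B.J3_inv_mem_chart M q hq hqM A K⟩ :
      ↥(chart (M * q * q) A K (Chart3B.J3 M q hq hqM K)⁻¹)) ∉ n) → P 2 ≤ n →
      ∃ i : Fin 3, P i ≤ n ∧ ∃ g ∈ P i, ∀ y ∈ P i,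
        ∃ s : ↥(chart (M * q * q) A K (Chart3B.J3 M q hq hqM K)⁻¹), s ∉ n ∧ ∃ c : ↥(chart (M * q * q) A K (Chart3B.J3 M q hq hqM K)⁻¹), s * y = c * g :=
  fun n hn _ hC hP2 => hB1_cusp H hA hB hπ a hqa hπϖ hyp n hn.isPrime (not_not.mp hC) hP2

/-- **`hcusp01`** of `Princ3Cases.princ_of_cases` on the chart at infinity, closed. -/
theorem hcusp01 (H : V3.Hyp3 M q hq hqM A K K' ξ hξ0 ι ϖ') (hA : A.LiesOverPrime q)
    (hB : BaseFacts q A K) {π : OK A K} (hπ : Irreducible π) (a : A)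
    (hqa : (q : Qb) = incO A K π * (a : Qb))
    (hπϖ : ∃ u : A, IsUnit u ∧ incO A K π = incO A K' ϖ' ^ (q - 1) * (u : Qb))
    {P : Fin 3 → Ideal ↥(chart (M * q * q) A K (Chart3B.J3 M q hq hqM K)⁻¹)} (hyp : ChartHyp3 π ![algebraMap (OK A K) (FK (M * q * q) K) π, algebraMap (OK A K) (FK (M * q * q) K) π,
      Wit3.sE M q hq hqM K] ![GaussV.V1 (M * q * q) A K hB.dvr, GaussV.V2 (WQ2.wK2 M q hq hqM K) hB.dvr, H.W3] P) :
    ∀ n : Ideal ↥(chart (M * q * q) A K (Chart3B.J3 M q hq hqM K)⁻¹), n.IsMaximal → algebraMap (OK A K) ↥(chart (M * q * q) A K (Chart3B.J3 M q hq hqM K)⁻¹) π ∈ n → ¬ ((⟨(Chart3B.J3 M q hq hqM K)⁻¹, Chart3B.J3_inv_mem_chart M q hq hqM A K⟩ :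
      ↥(chart (M * q * q) A K (Chart3B.J3 M q hq hqM K)⁻¹)) ∉ n) → ¬ P 2 ≤ n →
      ¬ (P 0 ≤ n ∧ P 1 ≤ n) :=
  fun n hn _ hC _ h01 => absurd
    (one_cusp H hA hB hπ a hqa hπϖ hyp n hn.isPrime (not_not.mp hC) 0 1 h01.1 h01.2) (by decide)

/-- **`princ` at every cuspidal closed point** of the special fibre of the chart at infinity. -/
theorem princ_cusp (H : V3.Hyp3 M q hq hqM A K K' ξ hξ0 ι ϖ') (hA : A.LiesOverPrime q)
    (hB : BaseFacts q A K) {π : OK A K} (hπ : Irreducible π) (a : A)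
    (hqa : (q : Qb) = incO A K π * (a : Qb))
    (hπϖ : ∃ u : A, IsUnit u ∧ incO A K π = incO A K' ϖ' ^ (q - 1) * (u : Qb))
    {P : Fin 3 → Ideal ↥(chart (M * q * q) A K (Chart3B.J3 M q hq hqM K)⁻¹)} (hyp : ChartHyp3 π ![algebraMap (OK A K) (FK (M * q * q) K) π, algebraMap (OK A K) (FK (M * q * q) K) π,
      Wit3.sE M q hq hqM K] ![GaussV.V1 (M * q * q) A K hB.dvr, GaussV.V2 (WQ2.wK2 M q hq hqM K) hB.dvr, H.W3] P) :
    ∀ n : Ideal ↥(chart (M * q * q) A K (Chart3B.J3 M q hq hqM K)⁻¹), n.IsMaximal → algebraMap (OK A K) ↥(chart (M * q * q) A K (Chart3B.J3 M q hq hqM K)⁻¹) π ∈ n → (⟨(Chart3B.J3 M q hq hqM K)⁻¹, Chart3B.J3_inv_mem_chart M q hq hqM A K⟩ :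
      ↥(chart (M * q * q) A K (Chart3B.J3 M q hq hqM K)⁻¹)) ∈ n →
      ∃ i : Fin 3, P i ≤ n ∧ ∃ g ∈ P i, ∀ y ∈ P i,
        ∃ s : ↥(chart (M * q * q) A K (Chart3B.J3 M q hq hqM K)⁻¹), s ∉ n ∧ ∃ c : ↥(chart (M * q * q) A K (Chart3B.J3 M q hq hqM K)⁻¹), s * y = c * g := by
  intro n hn hπn hJ
  have val := V3Wit.valHyp3 H hB.dvr hA hπ a hqa hπϖ
  have hp0 : algebraMap (OK A K) (FK (M * q * q) K) π ≠ 0 :=
    GaussV.algebraMap_ne_zero (M * q * q) A K hπ.ne_zero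
  refine Princ3Cases.princ_at val hyp hp0 rfl rfl n hn.isPrime hπn (fun hmod => ?_)
  rcases hmod with h01 | h2
  · exact absurd (one_cusp H hA hB hπ a hqa hπϖ hyp n hn.isPrime hJ 0 1 h01.1 h01.2) (by decide)
  · exact hB1_cusp H hA hB hπ a hqa hπϖ hyp n hn.isPrime hJ h2

/-- **The field `princ` of the chart at infinity** from `heta`, `hnak` at its NON-cuspidal
closed points (`Princ3Cases.princ_of_cases` with the two cusp inputs discharged). -/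
theorem princInf (H : V3.Hyp3 M q hq hqM A K K' ξ hξ0 ι ϖ') (hA : A.LiesOverPrime q)
    (hB : BaseFacts q A K) {π : OK A K} (hπ : Irreducible π) (a : A)
    (hqa : (q : Qb) = incO A K π * (a : Qb))
    (hπϖ : ∃ u : A, IsUnit u ∧ incO A K π = incO A K' ϖ' ^ (q - 1) * (u : Qb))
    {P : Fin 3 → Ideal ↥(chart (M * q * q) A K (Chart3B.J3 M q hq hqM K)⁻¹)} (hyp : ChartHyp3 π ![algebraMap (OK A K) (FK (M * q * q) K) π, algebraMap (OK A K) (FK (M * q * q) K) π,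
      Wit3.sE M q hq hqM K] ![GaussV.V1 (M * q * q) A K hB.dvr, GaussV.V2 (WQ2.wK2 M q hq hqM K) hB.dvr, H.W3] P)
    (heta : ∀ n : Ideal ↥(chart (M * q * q) A K (Chart3B.J3 M q hq hqM K)⁻¹), n.IsMaximal → algebraMap (OK A K) ↥(chart (M * q * q) A K (Chart3B.J3 M q hq hqM K)⁻¹) π ∈ n → (⟨(Chart3B.J3 M q hq hqM K)⁻¹, Chart3B.J3_inv_mem_chart M q hq hqM A K⟩ :
      ↥(chart (M * q * q) A K (Chart3B.J3 M q hq hqM K)⁻¹)) ∉ n →
      (P 0 ≤ n ∨ P 1 ≤ n) →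
      ∃ i : Fin 3, P i ≤ n ∧ ∃ g ∈ P i, ∀ y ∈ P i,
        ∃ s : ↥(chart (M * q * q) A K (Chart3B.J3 M q hq hqM K)⁻¹), s ∉ n ∧ ∃ c : ↥(chart (M * q * q) A K (Chart3B.J3 M q hq hqM K)⁻¹), s * y = c * g)
    (hnak : ∀ n : Ideal ↥(chart (M * q * q) A K (Chart3B.J3 M q hq hqM K)⁻¹), n.IsMaximal → algebraMap (OK A K) ↥(chart (M * q * q) A K (Chart3B.J3 M q hq hqM K)⁻¹) π ∈ n → (⟨(Chart3B.J3 M q hq hqM K)⁻¹, Chart3B.J3_inv_mem_chart M q hq hqM A K⟩ :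
      ↥(chart (M * q * q) A K (Chart3B.J3 M q hq hqM K)⁻¹)) ∉ n →
      ¬ P 0 ≤ n → ¬ P 1 ≤ n → P 2 ≤ n →
      ∃ i : Fin 3, P i ≤ n ∧ ∃ g ∈ P i, ∀ y ∈ P i,
        ∃ s : ↥(chart (M * q * q) A K (Chart3B.J3 M q hq hqM K)⁻¹), s ∉ n ∧ ∃ c : ↥(chart (M * q * q) A K (Chart3B.J3 M q hq hqM K)⁻¹), s * y = c * g) :
    ∀ n : Ideal ↥(chart (M * q * q) A K (Chart3B.J3 M q hq hqM K)⁻¹), n.IsMaximal → algebraMap (OK A K) ↥(chart (M * q * q) A K (Chart3B.J3 M q hq hqM K)⁻¹) π ∈ n →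
      ∃ i : Fin 3, P i ≤ n ∧ ∃ g ∈ P i, ∀ y ∈ P i,
        ∃ s : ↥(chart (M * q * q) A K (Chart3B.J3 M q hq hqM K)⁻¹), s ∉ n ∧ ∃ c : ↥(chart (M * q * q) A K (Chart3B.J3 M q hq hqM K)⁻¹), s * y = c * g :=
  Princ3Cases.princ_of_cases (V3Wit.valHyp3 H hB.dvr hA hπ a hqa hπϖ) hyp
    (GaussV.algebraMap_ne_zero (M * q * q) A K hπ.ne_zero) rfl rfl (fun n => (⟨(Chart3B.J3 M q hq hqM K)⁻¹, Chart3B.J3_inv_mem_chart M q hq hqM A K⟩ :
      ↥(chart (M * q * q) A K (Chart3B.J3 M q hq hqM K)⁻¹)) ∉ n) heta hnak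
    (hcusp2 H hA hB hπ a hqa hπϖ hyp) (hcusp01 H hA hB hπ a hqa hπϖ hyp)

/-- **The field `princ` of the chart at infinity from the field `princ` of the chart `J3`**
(the non-cuspidal points by the glueing of the two charts, the cuspidal ones by
`princ_cusp`). -/
theorem princInf_of_princ0 (H : V3.Hyp3 M q hq hqM A K K' ξ hξ0 ι ϖ') (hA : A.LiesOverPrime q)
    (hB : BaseFacts q A K) {π : OK A K} (hπ : Irreducible π) (a : A)
    (hqa : (q : Qb) = incO A K π * (a : Qb))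
    (hπϖ : ∃ u : A, IsUnit u ∧ incO A K π = incO A K' ϖ' ^ (q - 1) * (u : Qb))
    {P0 : Fin 3 → Ideal ↥(chart (M * q * q) A K (Chart3B.J3 M q hq hqM K))} {Pinf : Fin 3 → Ideal ↥(chart (M * q * q) A K (Chart3B.J3 M q hq hqM K)⁻¹)}
    (hyp0 : ChartHyp3 π ![algebraMap (OK A K) (FK (M * q * q) K) π, algebraMap (OK A K) (FK (M * q * q) K) π,
      Wit3.sE M q hq hqM K] ![GaussV.V1 (M * q * q) A K hB.dvr, GaussV.V2 (WQ2.wK2 M q hq hqM K) hB.dvr, H.W3] P0) (hypInf : ChartHyp3 π ![algebraMap (OK A K) (FK (M * q * q) K) π, algebraMap (OK A K) (FK (M * q * q) K) π,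
      Wit3.sE M q hq hqM K] ![GaussV.V1 (M * q * q) A K hB.dvr, GaussV.V2 (WQ2.wK2 M q hq hqM K) hB.dvr, H.W3] Pinf)
    (h0 : ∀ n : Ideal ↥(chart (M * q * q) A K (Chart3B.J3 M q hq hqM K)), n.IsMaximal → algebraMap (OK A K) ↥(chart (M * q * q) A K (Chart3B.J3 M q hq hqM K)) π ∈ n →
      ∃ i : Fin 3, P0 i ≤ n ∧ ∃ g ∈ P0 i, ∀ y ∈ P0 i,
        ∃ s : ↥(chart (M * q * q) A K (Chart3B.J3 M q hq hqM K)), s ∉ n ∧ ∃ c : ↥(chart (M * q * q) A K (Chart3B.J3 M q hq hqM K)), s * y = c * g) :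
    ∀ n : Ideal ↥(chart (M * q * q) A K (Chart3B.J3 M q hq hqM K)⁻¹), n.IsMaximal → algebraMap (OK A K) ↥(chart (M * q * q) A K (Chart3B.J3 M q hq hqM K)⁻¹) π ∈ n →
      ∃ i : Fin 3, Pinf i ≤ n ∧ ∃ g ∈ Pinf i, ∀ y ∈ Pinf i,
        ∃ s : ↥(chart (M * q * q) A K (Chart3B.J3 M q hq hqM K)⁻¹), s ∉ n ∧ ∃ c : ↥(chart (M * q * q) A K (Chart3B.J3 M q hq hqM K)⁻¹), s * y = c * g := by
  haveI : Fact q.Prime := ⟨hq⟩
  exact NakGlue.princ_chart_inv_of_cusp q hB (Chart3B.J3_ne_zero M q hq hqM K) hπ hyp0 hypInf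
    (fun i => Model3Top.le0 H hB.dvr i _ (Chart3B.J3_mem_chart M q hq hqM A K))
    (fun i => Model3Top.leInf H hB.dvr i _ (Chart3B.J3_inv_mem_chart M q hq hqM A K))
    h0 (princ_cusp H hA hB hπ a hqa hπϖ hypInf)

/-! ### [MODEL3] from (B1) on the chart `J3` alone -/

/-- `ChartHyp3` of the chart `J3` for the objects of record. -/
theorem chartHyp3_zero (H : V3.Hyp3 M q hq hqM A K K' ξ hξ0 ι ϖ') (hA : A.LiesOverPrime q)
    (hB : BaseFacts q A K) {π : OK A K} (hπ : Irreducible π) (a : A)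
    (hqa : (q : Qb) = incO A K π * (a : Qb))
    (hπϖ : ∃ u : A, IsUnit u ∧ incO A K π = incO A K' ϖ' ^ (q - 1) * (u : Qb)) :
    ChartHyp3 π ![algebraMap (OK A K) (FK (M * q * q) K) π, algebraMap (OK A K) (FK (M * q * q) K) π,
      Wit3.sE M q hq hqM K] ![GaussV.V1 (M * q * q) A K hB.dvr, GaussV.V2 (WQ2.wK2 M q hq hqM K) hB.dvr, H.W3] (Model3Asm.Pc (chart (M * q * q) A K (Chart3B.J3 M q hq hqM K)) ![algebraMap (OK A K) (FK (M * q * q) K) π, algebraMap (OK A K) (FK (M * q * q) K) π,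
      Wit3.sE M q hq hqM K] ![GaussV.V1 (M * q * q) A K hB.dvr, GaussV.V2 (WQ2.wK2 M q hq hqM K) hB.dvr, H.W3] (Model3Top.le0 H hB.dvr)) := by
  haveI : Fact q.Prime := ⟨hq⟩
  have hC : ChartFacts M A K (chart M A K (jK M K)) (jK M K) :=
    Red2B.chartFacts M q hq hqM A K hA hB
  exact Model3Asm.chartHyp3 _ π _ _ (Model3Top.le0 H hB.dvr)
    (GaussV.algebraMap_ne_zero (M * q * q) A K hπ.ne_zero)
    (Model3Top.loc H hB.dvr hA hC hπ a hqa hπϖ) (Model3Top.desc0 H hB.dvr hA hC hπ a hqa hπϖ)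

/-- **[MODEL3] from the field `princ` of the chart `J3` alone**: the chart at infinity needs no
further input (its cuspidal points are [N10] + [CUSP1], closed above). -/
def model3_of_princ0 (H : V3.Hyp3 M q hq hqM A K K' ξ hξ0 ι ϖ') (hA : A.LiesOverPrime q)
    (hB : BaseFacts q A K) {π : OK A K} (hπ : Irreducible π) (a : A)
    (hqa : (q : Qb) = incO A K π * (a : Qb))
    (hπϖ : ∃ u : A, IsUnit u ∧ incO A K π = incO A K' ϖ' ^ (q - 1) * (u : Qb))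
    (hprinc0 : ∀ n : Ideal ↥(chart (M * q * q) A K (Chart3B.J3 M q hq hqM K)), n.IsMaximal → algebraMap (OK A K) ↥(chart (M * q * q) A K (Chart3B.J3 M q hq hqM K)) π ∈ n →
      ∃ i : Fin 3, Model3Asm.Pc (chart (M * q * q) A K (Chart3B.J3 M q hq hqM K)) ![algebraMap (OK A K) (FK (M * q * q) K) π, algebraMap (OK A K) (FK (M * q * q) K) π,
      Wit3.sE M q hq hqM K] ![GaussV.V1 (M * q * q) A K hB.dvr, GaussV.V2 (WQ2.wK2 M q hq hqM K) hB.dvr, H.W3] (Model3Top.le0 H hB.dvr) i ≤ n ∧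
        ∃ g ∈ Model3Asm.Pc (chart (M * q * q) A K (Chart3B.J3 M q hq hqM K)) ![algebraMap (OK A K) (FK (M * q * q) K) π, algebraMap (OK A K) (FK (M * q * q) K) π,
      Wit3.sE M q hq hqM K] ![GaussV.V1 (M * q * q) A K hB.dvr, GaussV.V2 (WQ2.wK2 M q hq hqM K) hB.dvr, H.W3] (Model3Top.le0 H hB.dvr) i,
          ∀ y ∈ Model3Asm.Pc (chart (M * q * q) A K (Chart3B.J3 M q hq hqM K)) ![algebraMap (OK A K) (FK (M * q * q) K) π, algebraMap (OK A K) (FK (M * q * q) K) π,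
      Wit3.sE M q hq hqM K] ![GaussV.V1 (M * q * q) A K hB.dvr, GaussV.V2 (WQ2.wK2 M q hq hqM K) hB.dvr, H.W3] (Model3Top.le0 H hB.dvr) i,
            ∃ s : ↥(chart (M * q * q) A K (Chart3B.J3 M q hq hqM K)), s ∉ n ∧ ∃ c : ↥(chart (M * q * q) A K (Chart3B.J3 M q hq hqM K)), s * y = c * g) :
    Model3 (M * q * q) A K π (Model3Plan.ram q) ![algebraMap (OK A K) (FK (M * q * q) K) π, algebraMap (OK A K) (FK (M * q * q) K) π,
      Wit3.sE M q hq hqM K] ![GaussV.V1 (M * q * q) A K hB.dvr, GaussV.V2 (WQ2.wK2 M q hq hqM K) hB.dvr, H.W3] (Chart3B.J3 M q hq hqM K) :=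
  Model3Top.model3 H hA hB hπ a hqa hπϖ (fun _ => hprinc0)
    (fun hypInf => princInf_of_princ0 H hA hB hπ a hqa hπϖ
      (chartHyp3_zero H hA hB hπ a hqa hπϖ) hypInf hprinc0)

/-- **[MODEL3] from [B1-eta] and [B1-nak] on the chart `J3` alone.** -/
def model3_of_eta_nak (H : V3.Hyp3 M q hq hqM A K K' ξ hξ0 ι ϖ') (hA : A.LiesOverPrime q)
    (hB : BaseFacts q A K) {π : OK A K} (hπ : Irreducible π) (a : A)
    (hqa : (q : Qb) = incO A K π * (a : Qb))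
    (hπϖ : ∃ u : A, IsUnit u ∧ incO A K π = incO A K' ϖ' ^ (q - 1) * (u : Qb))
    (heta : ∀ n : Ideal ↥(chart (M * q * q) A K (Chart3B.J3 M q hq hqM K)), n.IsMaximal → algebraMap (OK A K) ↥(chart (M * q * q) A K (Chart3B.J3 M q hq hqM K)) π ∈ n →
      (Model3Asm.Pc (chart (M * q * q) A K (Chart3B.J3 M q hq hqM K)) ![algebraMap (OK A K) (FK (M * q * q) K) π, algebraMap (OK A K) (FK (M * q * q) K) π,
      Wit3.sE M q hq hqM K] ![GaussV.V1 (M * q * q) A K hB.dvr, GaussV.V2 (WQ2.wK2 M q hq hqM K) hB.dvr, H.W3] (Model3Top.le0 H hB.dvr) 0 ≤ n ∨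
        Model3Asm.Pc (chart (M * q * q) A K (Chart3B.J3 M q hq hqM K)) ![algebraMap (OK A K) (FK (M * q * q) K) π, algebraMap (OK A K) (FK (M * q * q) K) π,
      Wit3.sE M q hq hqM K] ![GaussV.V1 (M * q * q) A K hB.dvr, GaussV.V2 (WQ2.wK2 M q hq hqM K) hB.dvr, H.W3] (Model3Top.le0 H hB.dvr) 1 ≤ n) →
      ∃ i : Fin 3, Model3Asm.Pc (chart (M * q * q) A K (Chart3B.J3 M q hq hqM K)) ![algebraMap (OK A K) (FK (M * q * q) K) π, algebraMap (OK A K) (FK (M * q * q) K) π,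
      Wit3.sE M q hq hqM K] ![GaussV.V1 (M * q * q) A K hB.dvr, GaussV.V2 (WQ2.wK2 M q hq hqM K) hB.dvr, H.W3] (Model3Top.le0 H hB.dvr) i ≤ n ∧
        ∃ g ∈ Model3Asm.Pc (chart (M * q * q) A K (Chart3B.J3 M q hq hqM K)) ![algebraMap (OK A K) (FK (M * q * q) K) π, algebraMap (OK A K) (FK (M * q * q) K) π,
      Wit3.sE M q hq hqM K] ![GaussV.V1 (M * q * q) A K hB.dvr, GaussV.V2 (WQ2.wK2 M q hq hqM K) hB.dvr, H.W3] (Model3Top.le0 H hB.dvr) i,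
          ∀ y ∈ Model3Asm.Pc (chart (M * q * q) A K (Chart3B.J3 M q hq hqM K)) ![algebraMap (OK A K) (FK (M * q * q) K) π, algebraMap (OK A K) (FK (M * q * q) K) π,
      Wit3.sE M q hq hqM K] ![GaussV.V1 (M * q * q) A K hB.dvr, GaussV.V2 (WQ2.wK2 M q hq hqM K) hB.dvr, H.W3] (Model3Top.le0 H hB.dvr) i,
            ∃ s : ↥(chart (M * q * q) A K (Chart3B.J3 M q hq hqM K)), s ∉ n ∧ ∃ c : ↥(chart (M * q * q) A K (Chart3B.J3 M q hq hqM K)), s * y = c * g)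
    (hnak : ∀ n : Ideal ↥(chart (M * q * q) A K (Chart3B.J3 M q hq hqM K)), n.IsMaximal → algebraMap (OK A K) ↥(chart (M * q * q) A K (Chart3B.J3 M q hq hqM K)) π ∈ n →
      ¬ Model3Asm.Pc (chart (M * q * q) A K (Chart3B.J3 M q hq hqM K)) ![algebraMap (OK A K) (FK (M * q * q) K) π, algebraMap (OK A K) (FK (M * q * q) K) π,
      Wit3.sE M q hq hqM K] ![GaussV.V1 (M * q * q) A K hB.dvr, GaussV.V2 (WQ2.wK2 M q hq hqM K) hB.dvr, H.W3] (Model3Top.le0 H hB.dvr) 0 ≤ n →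
      ¬ Model3Asm.Pc (chart (M * q * q) A K (Chart3B.J3 M q hq hqM K)) ![algebraMap (OK A K) (FK (M * q * q) K) π, algebraMap (OK A K) (FK (M * q * q) K) π,
      Wit3.sE M q hq hqM K] ![GaussV.V1 (M * q * q) A K hB.dvr, GaussV.V2 (WQ2.wK2 M q hq hqM K) hB.dvr, H.W3] (Model3Top.le0 H hB.dvr) 1 ≤ n →
      Model3Asm.Pc (chart (M * q * q) A K (Chart3B.J3 M q hq hqM K)) ![algebraMap (OK A K) (FK (M * q * q) K) π, algebraMap (OK A K) (FK (M * q * q) K) π,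
      Wit3.sE M q hq hqM K] ![GaussV.V1 (M * q * q) A K hB.dvr, GaussV.V2 (WQ2.wK2 M q hq hqM K) hB.dvr, H.W3] (Model3Top.le0 H hB.dvr) 2 ≤ n →
      ∃ i : Fin 3, Model3Asm.Pc (chart (M * q * q) A K (Chart3B.J3 M q hq hqM K)) ![algebraMap (OK A K) (FK (M * q * q) K) π, algebraMap (OK A K) (FK (M * q * q) K) π,
      Wit3.sE M q hq hqM K] ![GaussV.V1 (M * q * q) A K hB.dvr, GaussV.V2 (WQ2.wK2 M q hq hqM K) hB.dvr, H.W3] (Model3Top.le0 H hB.dvr) i ≤ n ∧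
        ∃ g ∈ Model3Asm.Pc (chart (M * q * q) A K (Chart3B.J3 M q hq hqM K)) ![algebraMap (OK A K) (FK (M * q * q) K) π, algebraMap (OK A K) (FK (M * q * q) K) π,
      Wit3.sE M q hq hqM K] ![GaussV.V1 (M * q * q) A K hB.dvr, GaussV.V2 (WQ2.wK2 M q hq hqM K) hB.dvr, H.W3] (Model3Top.le0 H hB.dvr) i,
          ∀ y ∈ Model3Asm.Pc (chart (M * q * q) A K (Chart3B.J3 M q hq hqM K)) ![algebraMap (OK A K) (FK (M * q * q) K) π, algebraMap (OK A K) (FK (M * q * q) K) π,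
      Wit3.sE M q hq hqM K] ![GaussV.V1 (M * q * q) A K hB.dvr, GaussV.V2 (WQ2.wK2 M q hq hqM K) hB.dvr, H.W3] (Model3Top.le0 H hB.dvr) i,
            ∃ s : ↥(chart (M * q * q) A K (Chart3B.J3 M q hq hqM K)), s ∉ n ∧ ∃ c : ↥(chart (M * q * q) A K (Chart3B.J3 M q hq hqM K)), s * y = c * g) :
    Model3 (M * q * q) A K π (Model3Plan.ram q) ![algebraMap (OK A K) (FK (M * q * q) K) π, algebraMap (OK A K) (FK (M * q * q) K) π,
      Wit3.sE M q hq hqM K] ![GaussV.V1 (M * q * q) A K hB.dvr, GaussV.V2 (WQ2.wK2 M q hq hqM K) hB.dvr, H.W3] (Chart3B.J3 M q hq hqM K) :=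
  model3_of_princ0 H hA hB hπ a hqa hπϖ
    (Princ3Cases.princ_of_cases (V3Wit.valHyp3 H hB.dvr hA hπ a hqa hπϖ)
      (chartHyp3_zero H hA hB hπ a hqa hπϖ)
      (GaussV.algebraMap_ne_zero (M * q * q) A K hπ.ne_zero) rfl rfl (fun _ => True)
      (fun n hn hπn _ h => heta n hn hπn h)
      (fun n hn hπn _ h0 h1 h2 => hnak n hn hπn h0 h1 h2)
      (fun _ _ _ h => absurd trivial h) (fun _ _ _ h => absurd trivial h))

end Fermat.Agent.S36.CuspClose
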