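/-
S36 / CuspRel: the relation at the cusp for a modular-type polynomial.
If `Φ(X := y, Y := x) = 0` with `x ≠ 0`, then `σ = y * x⁻¹ ^ p` satisfies
`σ^(p+1) + γ σ^p + x⁻¹ * G(x⁻¹, σ) = 0`.  Pure polynomial algebra.
-/
import Mathlib
import Fermat.Agent.S28.Defs

set_option autoImplicit false

namespace Fermat.Agent.S36.CuspRel

open Polynomial

/-- the leading cusp coefficient -/
noncomputable def gam (p : ℕ) (Φ : Polynomial (Polynomial ℤ)) : ℤ := (Φ.coeff p).coeff p

/-- the remainder polynomial -/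
noncomputable def G (p : ℕ) (Φ : Polynomial (Polynomial ℤ)) : Polynomial (Polynomial ℤ) :=
  ∑ k ∈ Finset.range (p + 1),
    Polynomial.monomial k (Polynomial.divX (Polynomial.reflect (p * (p + 1 - k)) (Φ.coeff k)))

theorem natDegree_G_le (p : ℕ) (Φ : Polynomial (Polynomial ℤ)) : (G p Φ).natDegree ≤ p := by
  unfold G
  refine Polynomial.natDegree_sum_le_of_forall_le _ _ (fun k hk => ?_)
  have hk' : k ≤ p := Nat.lt_succ_iff.mp (Finset.mem_range.mp hk)
  exact (Polynomial.natDegree_monomial_le _).trans hk'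

/-- single coefficient identity -/
theorem key_coeff {E : Type*} [Field E] (x : E) (hx : x ≠ 0) (N : ℕ) (c : Polynomial ℤ)
    (hc : c.natDegree ≤ N) :
    x⁻¹ ^ N * eval₂ (Int.castRingHom E) x c
      = eval₂ (Int.castRingHom E) x⁻¹ (divX (reflect N c)) * x⁻¹ + (c.coeff N : E) := by
  have : Invertible x := invertibleOfNonzero hx
  have h1 := Polynomial.eval₂_reflect_mul_pow (Int.castRingHom E) x N c hc
  rw [invOf_eq_inv] at h1
  have h2 : eval₂ (Int.castRingHom E) x⁻¹ (reflect N c)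
      = eval₂ (Int.castRingHom E) x⁻¹ (divX (reflect N c)) * x⁻¹ + (c.coeff N : E) := by
    conv_lhs => rw [← Polynomial.divX_mul_X_add (reflect N c)]
    rw [Polynomial.eval₂_add, Polynomial.eval₂_mul, Polynomial.eval₂_X, Polynomial.eval₂_C,
      Polynomial.coeff_reflect, Polynomial.revAt_le (Nat.zero_le N), Nat.sub_zero]
    simp
  rw [← h2, ← h1]
  have h3 : x⁻¹ ^ N * x ^ N = 1 := by
    rw [← mul_pow, inv_mul_cancel₀ hx, one_pow]
  linear_combination (eval₂ (Int.castRingHom E) x⁻¹ (reflect N c)) * h3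

theorem eval_PhiAt_G {E : Type*} [Field E] (p : ℕ) (Φ : Polynomial (Polynomial ℤ)) (a s : E) :
    (S28.PhiAt (G p Φ) a).eval s
      = ∑ k ∈ Finset.range (p + 1),
          eval₂ (Int.castRingHom E) a (divX (reflect (p * (p + 1 - k)) (Φ.coeff k))) * s ^ k := by
  unfold S28.PhiAt G
  rw [Polynomial.eval_map, Polynomial.eval₂_finsetSum]
  refine Finset.sum_congr rfl (fun k _ => ?_)
  rw [Polynomial.eval₂_monomial, Polynomial.coe_eval₂RingHom]

/-- the relation, in a field -/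
theorem rel {p : ℕ} (hp : 2 ≤ p) {Φ : Polynomial (Polynomial ℤ)} (hm : Φ.Monic)
    (hdeg : Φ.natDegree = p + 1) (hk : ∀ k, 1 ≤ k → (Φ.coeff k).natDegree ≤ p)
    (h0 : (Φ.coeff 0).natDegree ≤ p + 1) {E : Type*} [Field E] (x y : E) (hx : x ≠ 0)
    (hroot : (S28.PhiAt Φ x).eval y = 0) :
    (y * x⁻¹ ^ p) ^ (p + 1) + (gam p Φ : E) * (y * x⁻¹ ^ p) ^ p
      + x⁻¹ * (S28.PhiAt (G p Φ) x⁻¹).eval (y * x⁻¹ ^ p) = 0 := by
  have hsum : (S28.PhiAt Φ x).eval y
      = ∑ k ∈ Finset.range (p + 2), eval₂ (Int.castRingHom E) x (Φ.coeff k) * y ^ k := by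
    unfold S28.PhiAt
    rw [Polynomial.eval_map, Polynomial.eval₂_eq_sum_range' _ (n := p + 2) (by omega)]
    rfl
  rw [hsum, Finset.sum_range_succ] at hroot
  have hlead : Φ.coeff (p + 1) = 1 := by
    have := hm.coeff_natDegree
    rwa [hdeg] at this
  rw [hlead, Polynomial.eval₂_one, one_mul] at hroot
  -- each lower term
  have hterm : ∀ k ∈ Finset.range (p + 1),
      x⁻¹ ^ (p * (p + 1)) * (eval₂ (Int.castRingHom E) x (Φ.coeff k) * y ^ k)
        = (eval₂ (Int.castRingHom E) x⁻¹ (divX (reflect (p * (p + 1 - k)) (Φ.coeff k))) * x⁻¹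
            + ((Φ.coeff k).coeff (p * (p + 1 - k)) : E)) * (y * x⁻¹ ^ p) ^ k := by
    intro k hkr
    have hkp : k ≤ p := Nat.lt_succ_iff.mp (Finset.mem_range.mp hkr)
    have hN : (Φ.coeff k).natDegree ≤ p * (p + 1 - k) := by
      rcases Nat.eq_zero_or_pos k with h | h
      · subst h
        refine h0.trans ?_
        rw [Nat.sub_zero]
        nlinarith
      · refine (hk k h).trans ?_
        have : 1 ≤ p + 1 - k := by omega
        nlinarith
    rw [← key_coeff x hx _ _ hN]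
    have hsplit : p * (p + 1) = p * (p + 1 - k) + p * k := by
      rw [← Nat.mul_add]
      congr 1
      omega
    rw [hsplit, pow_add, mul_pow, ← pow_mul]
    ring
  have hmul : x⁻¹ ^ (p * (p + 1)) *
      (∑ k ∈ Finset.range (p + 1), eval₂ (Int.castRingHom E) x (Φ.coeff k) * y ^ k
        + y ^ (p + 1)) = 0 := by
    rw [hroot, mul_zero]
  rw [mul_add, Finset.mul_sum, Finset.sum_congr rfl hterm] at hmul
  have htop : x⁻¹ ^ (p * (p + 1)) * y ^ (p + 1) = (y * x⁻¹ ^ p) ^ (p + 1) := by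
    rw [mul_pow, ← pow_mul]
    ring
  rw [htop] at hmul
  simp only [add_mul, Finset.sum_add_distrib] at hmul
  -- the constant parts
  have hconst : ∑ k ∈ Finset.range (p + 1),
      ((Φ.coeff k).coeff (p * (p + 1 - k)) : E) * (y * x⁻¹ ^ p) ^ k
        = (gam p Φ : E) * (y * x⁻¹ ^ p) ^ p := by
    rw [Finset.sum_range_succ]
    have hz : ∑ k ∈ Finset.range p,
        ((Φ.coeff k).coeff (p * (p + 1 - k)) : E) * (y * x⁻¹ ^ p) ^ k = 0 := by
      refine Finset.sum_eq_zero (fun k hkr => ?_)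
      have hkp : k < p := Finset.mem_range.mp hkr
      have hd : (Φ.coeff k).natDegree ≤ p + 1 := by
        rcases Nat.eq_zero_or_pos k with h | h
        · subst h
          exact h0
        · exact (hk k h).trans (Nat.le_succ p)
      have hlt : (Φ.coeff k).natDegree < p * (p + 1 - k) := by
        have : 2 ≤ p + 1 - k := by omega
        nlinarith
      rw [Polynomial.coeff_eq_zero_of_natDegree_lt hlt]
      simp
    rw [hz, zero_add]
    have : p * (p + 1 - p) = p := by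
      rw [Nat.add_sub_cancel_left, mul_one]
    rw [this]
    rfl
  rw [hconst] at hmul
  rw [eval_PhiAt_G, Finset.mul_sum]
  rw [← hmul]
  have : ∀ k ∈ Finset.range (p + 1),
      x⁻¹ * (eval₂ (Int.castRingHom E) x⁻¹ (divX (reflect (p * (p + 1 - k)) (Φ.coeff k)))
          * (y * x⁻¹ ^ p) ^ k)
        = eval₂ (Int.castRingHom E) x⁻¹ (divX (reflect (p * (p + 1 - k)) (Φ.coeff k))) * x⁻¹
          * (y * x⁻¹ ^ p) ^ k := fun k _ => by ring
  rw [Finset.sum_congr rfl this]
  ring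

/-- integrality: `y * x⁻¹ ^ p` is integral over any subring-algebra containing `x⁻¹` -/
theorem isIntegral {p : ℕ} (hp : 2 ≤ p) {Φ : Polynomial (Polynomial ℤ)} (hm : Φ.Monic)
    (hdeg : Φ.natDegree = p + 1) (hk : ∀ k, 1 ≤ k → (Φ.coeff k).natDegree ≤ p)
    (h0 : (Φ.coeff 0).natDegree ≤ p + 1) {E : Type*} [Field E] (x y : E) (hx : x ≠ 0)
    (hroot : (S28.PhiAt Φ x).eval y = 0) {A : Type*} [CommRing A] [Algebra A E] (a : A)
    (ha : algebraMap A E a = x⁻¹) : IsIntegral A (y * x⁻¹ ^ p) := by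
  have hnd : (C ((gam p Φ : ℤ) : A) * X ^ p + C a * S28.PhiAt (G p Φ) a).natDegree ≤ p := by
    refine (Polynomial.natDegree_add_le _ _).trans (max_le ?_ ?_)
    · exact Polynomial.natDegree_C_mul_X_pow_le _ _
    · refine (Polynomial.natDegree_C_mul_le _ _).trans ?_
      exact (Polynomial.natDegree_map_le).trans (natDegree_G_le p Φ)
  have hdlt : (C ((gam p Φ : ℤ) : A) * X ^ p + C a * S28.PhiAt (G p Φ) a).degree
      < ((p + 1 : ℕ) : WithBot ℕ) :=
    (Polynomial.degree_le_of_natDegree_le hnd).trans_lt (by exact_mod_cast Nat.lt_succ_self p)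
  refine ⟨X ^ (p + 1) + (C ((gam p Φ : ℤ) : A) * X ^ p + C a * S28.PhiAt (G p Φ) a),
    Polynomial.monic_X_pow_add hdlt, ?_⟩
  have hG : eval₂ (algebraMap A E) (y * x⁻¹ ^ p) (S28.PhiAt (G p Φ) a)
      = (S28.PhiAt (G p Φ) x⁻¹).eval (y * x⁻¹ ^ p) := by
    rw [← Polynomial.eval_map, S28.PhiAt_map, ha]
  rw [Polynomial.eval₂_add, Polynomial.eval₂_add, Polynomial.eval₂_mul, Polynomial.eval₂_mul,
    Polynomial.eval₂_X_pow, Polynomial.eval₂_X_pow, Polynomial.eval₂_C, Polynomial.eval₂_C,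
    hG, ha, map_intCast, ← add_assoc]
  exact rel hp hm hdeg hk h0 x y hx hroot

end Fermat.Agent.S36.CuspRel
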