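/-
S36 — HeckeDeg.lean (helper44; block [N10]/[CUSP-alg2]).

THE WEIGHT BOUND OF THE MODULAR POLYNOMIAL from `S28.HeckeData` alone.

Let `Φ = X^(p+1) + ∑_{k ≤ p} c_k(Y) X^k ∈ ℤ[Y][X]` be monic of degree `p + 1` (`p ≥ 2`) with
`Φ(j_p, j) = 0 = Φ(j, j_p)` where `j`, `j_p` are elements of a ring with an additive valuation
`v` such that `v j = -1`, `v j_p = -p` and `v n = 0` for the nonzero integers `n`.  Then

    `deg c_0 ≤ p + 1`   and   `deg c_k ≤ p`  for `1 ≤ k ≤ p`.

Proof: in each of the two relations the minimum of the valuations of the terms is attained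
twice.  In `Φ(j, j_p) = 0` the term of index `k` has valuation `-(p * deg c_k + k)`, so two terms
can only tie if their indices agree modulo `p`: `{0, p}` or `{1, p + 1}`; the second case is
excluded by `Φ(j_p, j) = 0` (valuations `-(deg c_k + p * k)`: the leading term would be the
unique minimum), and in the first case the same relation gives `deg c_0 - 1 ≤ p`.

* `comb`               : the combinatorial core;
* `natDegree_coeff_le_of_val` : the abstract statement;
* `natDegree_coeff_le` : for `D : S28.HeckeData p` (valuation = `q`-adic order on `ℤ((q))`).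
-/
import Mathlib
import Fermat.Agent.S28.Defs

set_option autoImplicit false

namespace Fermat.Agent.S36.HeckeDeg

open Polynomial Fermat.Agent.S28

/-! ### The combinatorial core -/

/-- If neither of the two weights `p * d k + k`, `d k + p * k` has a unique maximum on a finite
set `K ⊆ {0, …, p + 1}` containing `p + 1` with `d (p + 1) = 0`, then `d k ≤ p` for `1 ≤ k` and
`d 0 ≤ p + 1`. -/
theorem comb {p : ℕ} (hp : 2 ≤ p) (K : Finset ℕ) (d : ℕ → ℕ) (hK : ∀ k ∈ K, k ≤ p + 1)
    (hpK : p + 1 ∈ K) (hd : d (p + 1) = 0)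
    (U2 : ∀ k₀ ∈ K, ∃ k ∈ K, k ≠ k₀ ∧ p * d k₀ + k₀ ≤ p * d k + k)
    (U1 : ∀ k₀ ∈ K, ∃ k ∈ K, k ≠ k₀ ∧ d k₀ + p * k₀ ≤ d k + p * k) :
    ∀ k ∈ K, (1 ≤ k → d k ≤ p) ∧ (k = 0 → d k ≤ p + 1) := by
  -- a maximiser of the second weight
  obtain ⟨m, hmK, hmax⟩ := Finset.exists_max_image K (fun k => p * d k + k) ⟨p + 1, hpK⟩
  obtain ⟨m', hm'K, hne, hle⟩ := U2 m hmK
  have heq : p * d m + m = p * d m' + m' := le_antisymm hle (hmax m' hm'K)
  have hm1 : m ≤ p + 1 := hK m hmK
  have hm'1 : m' ≤ p + 1 := hK m' hm'K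
  -- the two tied indices differ by exactly `p`
  have key : ∀ a b : ℕ, a ∈ K → b ∈ K → a < b → p * d a + a = p * d b + b →
      (∀ k ∈ K, p * d k + k ≤ p * d a + a) →
      ∀ k ∈ K, (1 ≤ k → d k ≤ p) ∧ (k = 0 → d k ≤ p + 1) := by
    intro a b haK hbK hab he hmx
    have hb1 : b ≤ p + 1 := hK b hbK
    -- `d a = d b + 1`, `b = a + p`
    have hda : d a = d b + 1 := by
      rcases Nat.lt_trichotomy (d a) (d b + 1) with h | h | h
      · exfalso
        have h1 : d a ≤ d b := by omega
        have h2 : p * d a ≤ p * d b := Nat.mul_le_mul_left p h1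
        omega
      · exact h
      · exfalso
        have h1 : d b + 2 ≤ d a := by omega
        have h2 : p * (d b + 2) ≤ p * d a := Nat.mul_le_mul_left p h1
        have h3 : p * (d b + 2) = p * d b + 2 * p := by ring
        omega
    have h3 : p * d a = p * d b + p := by rw [hda]; ring
    have hba : b = a + p := by omega
    -- two cases: `(a, b) = (0, p)` or `(1, p + 1)`
    have ha01 : a = 0 ∨ a = 1 := by omega
    rcases ha01 with rfl | rfl
    · -- `(0, p)`: `d 0 = d p + 1`, and every weight is `≤ p * d 0`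
      have hbp : b = p := by omega
      subst hbp
      have hmx' : ∀ k ∈ K, b * d k + k ≤ b * d 0 := by
        intro k hk
        have := hmx k hk
        omega
      -- `d 0 ≤ p + 1` from the first weight at `k₀ = p`
      have hd0 : d 0 ≤ b + 1 := by
        obtain ⟨k, hkK, hkne, hkle⟩ := U1 b hbK
        have hk1 : k ≤ b + 1 := hK k hkK
        rcases Nat.lt_trichotomy k b with hlt | heq' | hgt
        · exfalso
          rcases Nat.eq_zero_or_pos k with rfl | hkpos
          · -- `k = 0`
            have h5 : b * b ≥ 2 * b := Nat.mul_le_mul_right b hp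
            omega
          · -- `1 ≤ k < p`
            have h4 := hmx' k hkK
            have h5 : d k < d 0 := by
              by_contra hcon
              have h6 : d 0 ≤ d k := by omega
              have h7 : b * d 0 ≤ b * d k := Nat.mul_le_mul_left b h6
              omega
            have h8 : b * k ≤ b * (b - 1) := Nat.mul_le_mul_left b (by omega)
            have h9 : b * (b - 1) + b = b * b := by
              rw [← Nat.mul_succ]
              congr 1
              omega
            omega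
        · exact absurd heq' hkne
        · have hkp : k = b + 1 := by omega
          subst hkp
          rw [hd] at hkle
          have h5 : b * (b + 1) = b * b + b := by ring
          omega
      intro k hkK
      refine ⟨fun hk1 => ?_, fun hk0 => by subst hk0; exact hd0⟩
      have h4 := hmx' k hkK
      by_contra hcon
      have h6 : b + 1 ≤ d k := by omega
      have h7 : b * (b + 1) ≤ b * d k := Nat.mul_le_mul_left b h6
      have h8 : b * d 0 ≤ b * (b + 1) := Nat.mul_le_mul_left b hd0
      omega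
    · -- `(1, p + 1)`: impossible by the first weight at `k₀ = p + 1`
      exfalso
      have hbp : b = p + 1 := by omega
      subst hbp
      rw [hd] at he
      have hmx' : ∀ k ∈ K, p * d k + k ≤ p + 1 := by
        intro k hk
        have := hmx k hk
        omega
      obtain ⟨k, hkK, hkne, hkle⟩ := U1 (p + 1) hbK
      rw [hd] at hkle
      have hk1 : k ≤ p + 1 := hK k hkK
      have h4 := hmx' k hkK
      have h5 : p * (p + 1) = p * p + p := by ring
      have h6 : p * p ≥ 2 * p := Nat.mul_le_mul_right p hp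
      rcases Nat.lt_or_ge k 2 with hk2 | hk2
      · -- `k ≤ 1`: `d k ≤ 1`
        have h7 : d k ≤ 1 := by
          by_contra hcon
          have h8 : 2 ≤ d k := by omega
          have h9 : p * 2 ≤ p * d k := Nat.mul_le_mul_left p h8
          omega
        have h10 : p * k ≤ p * 1 := Nat.mul_le_mul_left p (by omega)
        omega
      · -- `2 ≤ k ≤ p`: `d k = 0`
        have h7 : d k = 0 := by
          by_contra hcon
          have h8 : 1 ≤ d k := by omega
          have h9 : p * 1 ≤ p * d k := Nat.mul_le_mul_left p h8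
          omega
        have h10 : p * k ≤ p * p := Nat.mul_le_mul_left p (by omega)
        omega
  rcases Nat.lt_or_gt_of_ne hne with hlt | hgt
  · -- `m' < m`
    exact key m' m hm'K hmK hlt heq.symm (fun k hk => by rw [← heq]; exact hmax k hk)
  · exact key m m' hmK hm'K hgt heq (fun k hk => hmax k hk)

/-! ### Valuations of polynomial values -/

section Val

variable {L : Type*} [CommRing L] (v : AddValuation L (WithTop ℤ))

theorem val_pow {t : L} {m : ℤ} (ht : v t = (m : WithTop ℤ)) (i : ℕ) :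
    v (t ^ i) = (((i : ℤ) * m : ℤ) : WithTop ℤ) := by
  rw [AddValuation.map_pow, ht, ← WithTop.coe_nsmul, nsmul_eq_mul]

/-- The valuation of `c(t)` for `c ∈ ℤ[Y]` nonzero and `v t = m < 0` is `deg c * m`. -/
theorem val_eval (hchar : ∀ n : ℤ, n ≠ 0 → v (n : L) = 0) {t : L} {m : ℤ} (hm : m < 0)
    (ht : v t = (m : WithTop ℤ)) {c : Polynomial ℤ} (hc : c ≠ 0) :
    v (c.eval₂ (Int.castRingHom L) t) = (((c.natDegree : ℤ) * m : ℤ) : WithTop ℤ) := by
  rw [Polynomial.eval₂_eq_sum_range, Finset.sum_range_succ]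
  have hlead : v (Int.castRingHom L (c.coeff c.natDegree) * t ^ c.natDegree)
      = (((c.natDegree : ℤ) * m : ℤ) : WithTop ℤ) := by
    have hc0 : c.coeff c.natDegree ≠ 0 := Polynomial.leadingCoeff_ne_zero.mpr hc
    rw [AddValuation.map_mul, val_pow v ht, eq_intCast, hchar _ hc0, zero_add]
  have hlow : (((c.natDegree : ℤ) * m : ℤ) : WithTop ℤ)
      < v (∑ i ∈ Finset.range c.natDegree, Int.castRingHom L (c.coeff i) * t ^ i) := by
    apply AddValuation.map_lt_sum v WithTop.coe_ne_top
    intro i hi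
    rw [Finset.mem_range] at hi
    by_cases h0 : c.coeff i = 0
    · rw [h0, map_zero, zero_mul, AddValuation.map_zero]
      exact WithTop.coe_lt_top _
    · rw [AddValuation.map_mul, val_pow v ht, eq_intCast, hchar _ h0, zero_add, WithTop.coe_lt_coe]
      have h1 : (i : ℤ) < c.natDegree := by exact_mod_cast hi
      nlinarith
  rw [AddValuation.map_add_eq_of_lt_right v (by rw [hlead]; exact hlow), hlead]

/-- The valuation of a term `c(t) * s ^ k`. -/
theorem val_term (hchar : ∀ n : ℤ, n ≠ 0 → v (n : L) = 0) {t s : L} {mt ms : ℤ} (hmt : mt < 0)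
    (ht : v t = (mt : WithTop ℤ)) (hs : v s = (ms : WithTop ℤ)) {c : Polynomial ℤ} (hc : c ≠ 0)
    (k : ℕ) :
    v (c.eval₂ (Int.castRingHom L) t * s ^ k)
      = (((c.natDegree : ℤ) * mt + (k : ℤ) * ms : ℤ) : WithTop ℤ) := by
  rw [AddValuation.map_mul, val_eval v hchar hmt ht hc, val_pow v hs, ← WithTop.coe_add]

/-- A finite sum with a unique term of minimal valuation is nonzero. -/
theorem sum_ne_zero_of_unique_min (s : Finset ℕ) (f : ℕ → L) (i₀ : ℕ) (hi₀ : i₀ ∈ s) (a : ℤ)
    (h0 : v (f i₀) = (a : WithTop ℤ)) (h : ∀ i ∈ s, i ≠ i₀ → (a : WithTop ℤ) < v (f i)) :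
    ∑ i ∈ s, f i ≠ 0 := by
  intro hsum
  rw [← Finset.add_sum_erase s f hi₀] at hsum
  have hlt : (a : WithTop ℤ) < v (∑ i ∈ s.erase i₀, f i) :=
    AddValuation.map_lt_sum v WithTop.coe_ne_top
      (fun i hi => h i (Finset.mem_of_mem_erase hi) (Finset.ne_of_mem_erase hi))
  have h1 := AddValuation.map_add_eq_of_lt_left v (x := f i₀) (y := ∑ i ∈ s.erase i₀, f i)
    (by rw [h0]; exact hlt)
  rw [hsum, AddValuation.map_zero, h0] at h1
  exact WithTop.coe_ne_top h1.symm

/-- Expansion of `Φ(x, y)` (outer variable `x`, inner variable `y`). -/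
theorem eval_PhiAt_eq_sum {Φ : Polynomial (Polynomial ℤ)} {N : ℕ} (hdeg : Φ.natDegree = N)
    (y x : L) :
    (PhiAt Φ y).eval x
      = ∑ k ∈ Finset.range (N + 1), (Φ.coeff k).eval₂ (Int.castRingHom L) y * x ^ k := by
  unfold PhiAt
  rw [Polynomial.eval_map, Polynomial.eval₂_eq_sum_range, hdeg]
  rfl

/-- **The weight bound**, abstract form. -/
theorem natDegree_coeff_le_of_val {p : ℕ} (hp : 2 ≤ p)
    (hchar : ∀ n : ℤ, n ≠ 0 → v (n : L) = 0) {j jp : L}
    (hj : v j = ((-1 : ℤ) : WithTop ℤ)) (hjp : v jp = ((-(p : ℤ) : ℤ) : WithTop ℤ))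
    {Φ : Polynomial (Polynomial ℤ)} (hm : Φ.Monic) (hdeg : Φ.natDegree = p + 1)
    (hroot : (PhiAt Φ j).eval jp = 0) (hroot' : (PhiAt Φ jp).eval j = 0) :
    (∀ k, 1 ≤ k → (Φ.coeff k).natDegree ≤ p) ∧ (Φ.coeff 0).natDegree ≤ p + 1 := by
  classical
  set K : Finset ℕ := (Finset.range (p + 2)).filter (fun k => Φ.coeff k ≠ 0) with hKdef
  set d : ℕ → ℕ := fun k => (Φ.coeff k).natDegree with hddef
  have hlead : Φ.coeff (p + 1) = 1 := by
    have := hm.coeff_natDegree
    rwa [hdeg] at this
  have hK : ∀ k ∈ K, k ≤ p + 1 := by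
    intro k hk
    have := Finset.mem_range.mp (Finset.mem_filter.mp hk).1
    omega
  have hpK : p + 1 ∈ K := by
    rw [hKdef, Finset.mem_filter, Finset.mem_range]
    exact ⟨by omega, by rw [hlead]; exact one_ne_zero⟩
  have hd : d (p + 1) = 0 := by
    simp only [hddef, hlead, Polynomial.natDegree_one]
  have hp0 : (-(p : ℤ)) < 0 := by
    have : (0 : ℤ) < p := by exact_mod_cast (by omega : 0 < p)
    omega
  have hmemK : ∀ k, k ∈ K ↔ k < p + 2 ∧ Φ.coeff k ≠ 0 := by
    intro k
    rw [hKdef, Finset.mem_filter, Finset.mem_range]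
  -- second weight: the relation `Φ(j, jp) = 0`
  have U2 : ∀ k₀ ∈ K, ∃ k ∈ K, k ≠ k₀ ∧ p * d k₀ + k₀ ≤ p * d k + k := by
    intro k₀ hk₀
    by_contra hcon
    push Not at hcon
    have hsum := eval_PhiAt_eq_sum (L := L) hdeg jp j
    rw [hroot'] at hsum
    refine sum_ne_zero_of_unique_min v (Finset.range (p + 1 + 1))
      (fun k => (Φ.coeff k).eval₂ (Int.castRingHom L) jp * j ^ k) k₀
      (Finset.mem_range.mpr ((hmemK k₀).mp hk₀).1) (-((p * d k₀ + k₀ : ℕ) : ℤ)) ?_ ?_ hsum.symm
    · rw [val_term v hchar hp0 hjp hj ((hmemK k₀).mp hk₀).2]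
      congr 1
      push_cast
      ring
    · intro i hi hne
      by_cases h0 : Φ.coeff i = 0
      · simp only [h0, Polynomial.eval₂_zero, zero_mul, AddValuation.map_zero]
        exact WithTop.coe_lt_top _
      · have hiK : i ∈ K := (hmemK i).mpr ⟨Finset.mem_range.mp hi, h0⟩
        have hlt := hcon i hiK hne
        rw [val_term v hchar hp0 hjp hj h0, WithTop.coe_lt_coe]
        have hlt' : ((p * d i + i : ℕ) : ℤ) < ((p * d k₀ + k₀ : ℕ) : ℤ) := by exact_mod_cast hlt
        push_cast at hlt' ⊢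
        simp only [hddef] at hlt'
        linarith
  -- first weight: the relation `Φ(jp, j) = 0`
  have U1 : ∀ k₀ ∈ K, ∃ k ∈ K, k ≠ k₀ ∧ d k₀ + p * k₀ ≤ d k + p * k := by
    intro k₀ hk₀
    by_contra hcon
    push Not at hcon
    have hsum := eval_PhiAt_eq_sum (L := L) hdeg j jp
    rw [hroot] at hsum
    refine sum_ne_zero_of_unique_min v (Finset.range (p + 1 + 1))
      (fun k => (Φ.coeff k).eval₂ (Int.castRingHom L) j * jp ^ k) k₀
      (Finset.mem_range.mpr ((hmemK k₀).mp hk₀).1) (-((d k₀ + p * k₀ : ℕ) : ℤ)) ?_ ?_ hsum.symm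
    · rw [val_term v hchar (by norm_num) hj hjp ((hmemK k₀).mp hk₀).2]
      congr 1
      push_cast
      ring
    · intro i hi hne
      by_cases h0 : Φ.coeff i = 0
      · simp only [h0, Polynomial.eval₂_zero, zero_mul, AddValuation.map_zero]
        exact WithTop.coe_lt_top _
      · have hiK : i ∈ K := (hmemK i).mpr ⟨Finset.mem_range.mp hi, h0⟩
        have hlt := hcon i hiK hne
        rw [val_term v hchar (by norm_num) hj hjp h0, WithTop.coe_lt_coe]
        have hlt' : ((d i + p * i : ℕ) : ℤ) < ((d k₀ + p * k₀ : ℕ) : ℤ) := by exact_mod_cast hlt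
        push_cast at hlt' ⊢
        simp only [hddef] at hlt'
        linarith
  have hcomb := comb hp K d hK hpK hd U2 U1
  refine ⟨fun k hk1 => ?_, ?_⟩
  · by_cases h0 : Φ.coeff k = 0
    · rw [h0, Polynomial.natDegree_zero]; exact Nat.zero_le _
    · by_cases hk : k < p + 2
      · exact (hcomb k ((hmemK k).mpr ⟨hk, h0⟩)).1 hk1
      · exact absurd (Polynomial.coeff_eq_zero_of_natDegree_lt (by rw [hdeg]; omega)) h0
  · by_cases h0 : Φ.coeff 0 = 0
    · rw [h0, Polynomial.natDegree_zero]; exact Nat.zero_le _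
    · exact (hcomb 0 ((hmemK 0).mpr ⟨by omega, h0⟩)).2 rfl

end Val

/-! ### The instance: `q`-adic order on `ℤ((q))` -/

section Laurent

open ModularCurve

/-- The `q`-adic order of `j(q^d)` is `-d`. -/
theorem orderTop_jd (d : ℕ) (hd : d ≠ 0) :
    (jd ℤ d).orderTop = ((-(d : ℤ) : ℤ) : WithTop ℤ) := by
  have : NeZero d := ⟨hd⟩
  rw [jd_eq]
  apply HahnSeries.orderTop_eq_of_le
  · rw [HahnSeries.mem_support, show (-(d : ℤ)) = (d : ℤ) * (-1) by ring, qExpand_coeff_mul,
      coeff_jqModC_neg_one]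
    exact one_ne_zero
  · intro g hg
    rw [HahnSeries.mem_support] at hg
    by_cases hdvd : (d : ℤ) ∣ g
    · obtain ⟨k, rfl⟩ := hdvd
      rw [qExpand_coeff_mul] at hg
      have hk : -1 ≤ k := by
        by_contra hcon
        apply hg
        have h1 := coeff_jqModC_pow_of_lt ℤ (b := 1) (m := k) (by push_cast; omega)
        rwa [pow_one] at h1
      have hd0 : (0 : ℤ) < d := by exact_mod_cast Nat.pos_of_ne_zero hd
      nlinarith
    · exact absurd (qExpand_coeff_of_not_dvd d _ hdvd) hg

/-- **The weight bound of the modular polynomial**: for `D : HeckeData p`, `p ≥ 2`, the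
coefficient of `X^k` in `Φ ∈ ℤ[Y][X]` has `Y`-degree `≤ p` for `1 ≤ k`, and `≤ p + 1` for
`k = 0`. -/
theorem natDegree_coeff_le {p : ℕ} (hp : 2 ≤ p) (D : HeckeData p) :
    (∀ k, 1 ≤ k → (D.Φ.coeff k).natDegree ≤ p) ∧ (D.Φ.coeff 0).natDegree ≤ p + 1 := by
  refine natDegree_coeff_le_of_val (HahnSeries.addVal ℤ ℤ) hp ?_ ?_ ?_ D.monic D.natDegree_eq
    D.root D.root'
  · intro n hn
    rw [HahnSeries.addVal_apply, ← map_intCast (HahnSeries.C : ℤ →+* HahnSeries ℤ ℤ) n,
      Int.cast_id, HahnSeries.C_apply, HahnSeries.orderTop_single hn]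
    rfl
  · rw [HahnSeries.addVal_apply, orderTop_jd 1 one_ne_zero]
    rfl
  · rw [HahnSeries.addVal_apply, orderTop_jd p (by omega)]

/-- The same with the monomial formulation: every monomial `X^a Y^b` of `Φ` has
`a + p * b ≤ p * p + p`. -/
theorem weight_le {p : ℕ} (hp : 2 ≤ p) (D : HeckeData p) (a b : ℕ)
    (h : (D.Φ.coeff a).coeff b ≠ 0) : a + p * b ≤ p * p + p := by
  obtain ⟨h1, h0⟩ := natDegree_coeff_le hp D
  have hb : b ≤ (D.Φ.coeff a).natDegree := Polynomial.le_natDegree_of_ne_zero h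
  have ha : a ≤ p + 1 := by
    by_contra hcon
    apply h
    have hz : D.Φ.coeff a = 0 :=
      Polynomial.coeff_eq_zero_of_natDegree_lt (by rw [D.natDegree_eq]; omega)
    rw [hz, Polynomial.coeff_zero]
  rcases Nat.eq_zero_or_pos a with rfl | hapos
  · have h2 : p * b ≤ p * (p + 1) := Nat.mul_le_mul_left p (hb.trans h0)
    have h3 : p * (p + 1) = p * p + p := by ring
    omega
  · rcases Nat.lt_or_ge a (p + 1) with hlt | hge
    · have h2 : p * b ≤ p * p := Nat.mul_le_mul_left p (hb.trans (h1 a hapos))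
      omega
    · have hap : a = p + 1 := by omega
      subst hap
      have hl : D.Φ.coeff (p + 1) = 1 := by
        have := D.monic.coeff_natDegree
        rwa [D.natDegree_eq] at this
      rw [hl, Polynomial.natDegree_one] at hb
      have hb0 : b = 0 := by omega
      subst hb0
      have h4 : p * p ≥ 2 * p := Nat.mul_le_mul_right p hp
      omega

end Laurent

end Fermat.Agent.S36.HeckeDeg
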