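/-
S36 — CuspAlg.lean (helper44; block [N10], leaf [CUSP-a], closed, hypothesis-free).

Level `N = M * q * q`, `j = j(Q)`, `jq = j(Q^q)`, `jqq = j(Q^(q*q))` in `F_K = FK N K`.  With the
modular polynomial `Φ = Phi q hq ∈ ℤ[Y][X]` of `S28.exists_heckeData` (weight bound:
`HeckeDeg.natDegree_coeff_le`; relation shape: `CuspRel.rel`, `CuspRel.isIntegral`):

* `root_j_jq`, `root_jqq_jq`, `root_jq_jqq`, `root_jq_j` : the four root relations in `F_K`;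
* `v1 = jq / j^q`, `v2 = jq / jqq^q`, `v3 = jqq / jq^q`, `v4 = j / jq^q`:
  - `isIntegral_v1` … : integral over `O[j⁻¹]`, `O[jqq⁻¹]`, `O[jq⁻¹]`, `O[jq⁻¹]`;
  - `v1_mem` … `v4_mem` : they lie in `chart N A K J3⁻¹`;
  - `rel_v1`, `rel_v2`  : `v^(q+1) + γ v^q + a · G(a, v) = 0` for `(a, v) = (j⁻¹, v1)` and
    `(jqq⁻¹, v2)`, with the SAME `γ = gam q hq ∈ ℤ` and `G = G q hq ∈ ℤ[a][v]`;
* `m1 = jqq / j^(q^2) = v3 * v1^q`, `m2 = j / jqq^(q^2) = v4 * v2^q` lie in `chart N A K J3⁻¹`.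
-/
import Mathlib
import Fermat.Agent.S18.ModelBasicCore
import Fermat.Agent.S36.Chart3B
import Fermat.Agent.S36.HeckeDeg
import Fermat.Agent.S36.CuspRel

set_option autoImplicit false

open ModularCurve AlgebraicCurve HahnSeries

namespace Fermat.Agent.S36.CuspAlg

open Fermat.Agent.S18 Fermat.Agent.S18.Arith Fermat.Agent.S34

noncomputable section

variable (q : ℕ) (hq : q.Prime)

/-- The Hecke data at `q`. -/
def hecke : S28.HeckeData q := (S28.exists_heckeData q hq).some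

/-- The modular polynomial `Φ_q ∈ ℤ[Y][X]`. -/
def Phi : Polynomial (Polynomial ℤ) := (hecke q hq).Φ

/-- The constant `γ` of the relation `v^(q+1) + γ v^q + a G(a, v) = 0`. -/
def gam : ℤ := CuspRel.gam q (Phi q hq)

/-- The polynomial `G ∈ ℤ[a][v]` of the relation `v^(q+1) + γ v^q + a G(a, v) = 0`. -/
def G : Polynomial (Polynomial ℤ) := CuspRel.G q (Phi q hq)

theorem Phi_monic : (Phi q hq).Monic := (hecke q hq).monic

theorem Phi_natDegree : (Phi q hq).natDegree = q + 1 := (hecke q hq).natDegree_eq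

theorem Phi_coeff_le : ∀ k, 1 ≤ k → ((Phi q hq).coeff k).natDegree ≤ q :=
  (HeckeDeg.natDegree_coeff_le hq.two_le (hecke q hq)).1

theorem Phi_coeff_zero_le : ((Phi q hq).coeff 0).natDegree ≤ q + 1 :=
  (HeckeDeg.natDegree_coeff_le hq.two_le (hecke q hq)).2

variable (M : ℕ) [NeZero M] [NeZero q] (hqM : ¬ q ∣ M)
variable (A : ValuationSubring Qb) (K : IntermediateField ℚ Qb)

/-! ### The four root relations in `F_K` -/

/-- Transport of a relation between `q`-expansions to `F_K`. -/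
theorem root_of_coe {N : ℕ} [NeZero N] (Φ : Polynomial (Polynomial ℤ)) (x y : FK N K)
    (h : (S28.PhiAt Φ ((x : FK N K) : LaurentSeries Qb)).eval ((y : FK N K) : LaurentSeries Qb)
      = 0) :
    (S28.PhiAt Φ x).eval y = 0 := by
  apply Subtype.val_injective
  have h1 := S28.map_eval_PhiAt (FK N K).subtype Φ x y
  rw [Subfield.coe_subtype] at h1
  rw [h1]
  exact h

/-- `Φ(jq, j) = 0`. -/
theorem root_j_jq :
    (S28.PhiAt (Phi q hq) (jK (M * q * q) K)).eval (WQ2.jqK2 M q hq hqM K) = 0 := by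
  apply root_of_coe
  rw [ModelBasicCore.coe_jK, WQ2.coe_jqK2]
  have h := (hecke q hq).root_jd Qb hq.ne_zero 1 one_ne_zero
  rwa [one_mul] at h

/-- `Φ(jq, jqq) = 0`. -/
theorem root_jqq_jq :
    (S28.PhiAt (Phi q hq) (WQ2.jqqK2 M q hq hqM K)).eval (WQ2.jqK2 M q hq hqM K) = 0 := by
  apply root_of_coe
  rw [WQ2.coe_jqqK2, WQ2.coe_jqK2]
  exact (hecke q hq).root'_jd Qb hq.ne_zero q hq.ne_zero

/-- `Φ(jqq, jq) = 0`. -/
theorem root_jq_jqq :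
    (S28.PhiAt (Phi q hq) (WQ2.jqK2 M q hq hqM K)).eval (WQ2.jqqK2 M q hq hqM K) = 0 := by
  apply root_of_coe
  rw [WQ2.coe_jqqK2, WQ2.coe_jqK2]
  exact (hecke q hq).root_jd Qb hq.ne_zero q hq.ne_zero

/-- `Φ(j, jq) = 0`. -/
theorem root_jq_j :
    (S28.PhiAt (Phi q hq) (WQ2.jqK2 M q hq hqM K)).eval (jK (M * q * q) K) = 0 := by
  apply root_of_coe
  rw [ModelBasicCore.coe_jK, WQ2.coe_jqK2]
  have h := (hecke q hq).root'_jd Qb hq.ne_zero 1 one_ne_zero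
  rwa [one_mul] at h

/-! ### The four monomials -/

/-- `v1 = jq / j^q`. -/
def v1 : FK (M * q * q) K := WQ2.jqK2 M q hq hqM K * (jK (M * q * q) K)⁻¹ ^ q

/-- `v2 = jq / jqq^q`. -/
def v2 : FK (M * q * q) K := WQ2.jqK2 M q hq hqM K * (WQ2.jqqK2 M q hq hqM K)⁻¹ ^ q

/-- `v3 = jqq / jq^q`. -/
def v3 : FK (M * q * q) K := WQ2.jqqK2 M q hq hqM K * (WQ2.jqK2 M q hq hqM K)⁻¹ ^ q

/-- `v4 = j / jq^q`. -/
def v4 : FK (M * q * q) K := jK (M * q * q) K * (WQ2.jqK2 M q hq hqM K)⁻¹ ^ q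

theorem v1_eq : v1 q hq M hqM K = WQ2.jqK2 M q hq hqM K / jK (M * q * q) K ^ q := by
  rw [v1, div_eq_mul_inv, inv_pow]

theorem v2_eq : v2 q hq M hqM K = WQ2.jqK2 M q hq hqM K / WQ2.jqqK2 M q hq hqM K ^ q := by
  rw [v2, div_eq_mul_inv, inv_pow]

theorem v3_eq : v3 q hq M hqM K = WQ2.jqqK2 M q hq hqM K / WQ2.jqK2 M q hq hqM K ^ q := by
  rw [v3, div_eq_mul_inv, inv_pow]

theorem v4_eq : v4 q hq M hqM K = jK (M * q * q) K / WQ2.jqK2 M q hq hqM K ^ q := by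
  rw [v4, div_eq_mul_inv, inv_pow]

omit [NeZero q] in
/-- Generic integrality: a root relation `Φ(y, x) = 0` makes `y / x^q` integral over `O[x⁻¹]`. -/
theorem isIntegral_of_root {N : ℕ} [NeZero N] (x y : FK N K) (hx : x ≠ 0)
    (h : (S28.PhiAt (Phi q hq) x).eval y = 0) :
    IsIntegral (Algebra.adjoin (OK A K) {x⁻¹}) (y * x⁻¹ ^ q) :=
  CuspRel.isIntegral hq.two_le (Phi_monic q hq) (Phi_natDegree q hq) (Phi_coeff_le q hq)
    (Phi_coeff_zero_le q hq) x y hx h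
    (⟨x⁻¹, Algebra.subset_adjoin (Set.mem_singleton _)⟩ : Algebra.adjoin (OK A K) {x⁻¹}) rfl

theorem isIntegral_v1 :
    IsIntegral (Algebra.adjoin (OK A K) {(jK (M * q * q) K)⁻¹}) (v1 q hq M hqM K) :=
  isIntegral_of_root q hq A K _ _ (ModelBasicCore.jK_ne_zero (M * q * q) K)
    (root_j_jq q hq M hqM K)

theorem isIntegral_v2 :
    IsIntegral (Algebra.adjoin (OK A K) {(WQ2.jqqK2 M q hq hqM K)⁻¹}) (v2 q hq M hqM K) :=
  isIntegral_of_root q hq A K _ _ (Chart3B.jqqK2_ne_zero M q hq hqM K)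
    (root_jqq_jq q hq M hqM K)

theorem isIntegral_v3 :
    IsIntegral (Algebra.adjoin (OK A K) {(WQ2.jqK2 M q hq hqM K)⁻¹}) (v3 q hq M hqM K) :=
  isIntegral_of_root q hq A K _ _ (Chart3B.jqK2_ne_zero M q hq hqM K)
    (root_jq_jqq q hq M hqM K)

theorem isIntegral_v4 :
    IsIntegral (Algebra.adjoin (OK A K) {(WQ2.jqK2 M q hq hqM K)⁻¹}) (v4 q hq M hqM K) :=
  isIntegral_of_root q hq A K _ _ (Chart3B.jqK2_ne_zero M q hq hqM K)
    (root_jq_j q hq M hqM K)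

/-- `v1 = jq / j^q ∈ chart J3⁻¹`. -/
theorem v1_mem : v1 q hq M hqM K ∈ chart (M * q * q) A K (Chart3B.J3 M q hq hqM K)⁻¹ :=
  Chart3B.chart_jK_inv_le M q hq hqM A K
    ((mem_chart_iff (M * q * q) A K).mpr (isIntegral_v1 q hq M hqM A K))

/-- `v2 = jq / jqq^q ∈ chart J3⁻¹`. -/
theorem v2_mem : v2 q hq M hqM K ∈ chart (M * q * q) A K (Chart3B.J3 M q hq hqM K)⁻¹ :=
  Chart3B.chart_jqqK2_inv_le M q hq hqM A K
    ((mem_chart_iff (M * q * q) A K).mpr (isIntegral_v2 q hq M hqM A K))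

/-- `v3 = jqq / jq^q ∈ chart J3⁻¹`. -/
theorem v3_mem : v3 q hq M hqM K ∈ chart (M * q * q) A K (Chart3B.J3 M q hq hqM K)⁻¹ :=
  Chart3B.chart_jqK2_inv_le M q hq hqM A K
    ((mem_chart_iff (M * q * q) A K).mpr (isIntegral_v3 q hq M hqM A K))

/-- `v4 = j / jq^q ∈ chart J3⁻¹`. -/
theorem v4_mem : v4 q hq M hqM K ∈ chart (M * q * q) A K (Chart3B.J3 M q hq hqM K)⁻¹ :=
  Chart3B.chart_jqK2_inv_le M q hq hqM A K
    ((mem_chart_iff (M * q * q) A K).mpr (isIntegral_v4 q hq M hqM A K))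

/-! ### The relations -/

/-- `v1^(q+1) + γ v1^q + j⁻¹ · G(j⁻¹, v1) = 0`. -/
theorem rel_v1 :
    v1 q hq M hqM K ^ (q + 1) + (gam q hq : FK (M * q * q) K) * v1 q hq M hqM K ^ q
      + (jK (M * q * q) K)⁻¹ *
        (S28.PhiAt (G q hq) (jK (M * q * q) K)⁻¹).eval (v1 q hq M hqM K) = 0 :=
  CuspRel.rel hq.two_le (Phi_monic q hq) (Phi_natDegree q hq) (Phi_coeff_le q hq)
    (Phi_coeff_zero_le q hq) _ _ (ModelBasicCore.jK_ne_zero (M * q * q) K)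
    (root_j_jq q hq M hqM K)

/-- `v2^(q+1) + γ v2^q + jqq⁻¹ · G(jqq⁻¹, v2) = 0`. -/
theorem rel_v2 :
    v2 q hq M hqM K ^ (q + 1) + (gam q hq : FK (M * q * q) K) * v2 q hq M hqM K ^ q
      + (WQ2.jqqK2 M q hq hqM K)⁻¹ *
        (S28.PhiAt (G q hq) (WQ2.jqqK2 M q hq hqM K)⁻¹).eval (v2 q hq M hqM K) = 0 :=
  CuspRel.rel hq.two_le (Phi_monic q hq) (Phi_natDegree q hq) (Phi_coeff_le q hq)
    (Phi_coeff_zero_le q hq) _ _ (Chart3B.jqqK2_ne_zero M q hq hqM K)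
    (root_jqq_jq q hq M hqM K)

/-- `j^q · v2 = jqq^q · v1` in the form `(j⁻¹)^q * v2 = (jqq⁻¹)^q * v1`. -/
theorem pow_mul_v2 :
    (jK (M * q * q) K)⁻¹ ^ q * v2 q hq M hqM K
      = (WQ2.jqqK2 M q hq hqM K)⁻¹ ^ q * v1 q hq M hqM K := by
  rw [v1, v2]
  ring

/-! ### The monomials `m1 = jqq / j^(q^2)`, `m2 = j / jqq^(q^2)` -/

theorem m1_eq :
    WQ2.jqqK2 M q hq hqM K / jK (M * q * q) K ^ (q ^ 2)
      = v3 q hq M hqM K * v1 q hq M hqM K ^ q := by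
  have h1 := Chart3B.jqK2_ne_zero M q hq hqM K
  have h3 : (WQ2.jqK2 M q hq hqM K)⁻¹ ^ q * WQ2.jqK2 M q hq hqM K ^ q = 1 := by
    rw [← mul_pow, inv_mul_cancel₀ h1, one_pow]
  rw [v3, v1, div_eq_mul_inv, ← inv_pow, pow_two, pow_mul, mul_pow]
  linear_combination (-(WQ2.jqqK2 M q hq hqM K * ((jK (M * q * q) K)⁻¹ ^ q) ^ q)) * h3

theorem m2_eq :
    jK (M * q * q) K / WQ2.jqqK2 M q hq hqM K ^ (q ^ 2)
      = v4 q hq M hqM K * v2 q hq M hqM K ^ q := by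
  have h1 := Chart3B.jqK2_ne_zero M q hq hqM K
  have h3 : (WQ2.jqK2 M q hq hqM K)⁻¹ ^ q * WQ2.jqK2 M q hq hqM K ^ q = 1 := by
    rw [← mul_pow, inv_mul_cancel₀ h1, one_pow]
  rw [v4, v2, div_eq_mul_inv, ← inv_pow, pow_two, pow_mul, mul_pow]
  linear_combination (-(jK (M * q * q) K * ((WQ2.jqqK2 M q hq hqM K)⁻¹ ^ q) ^ q)) * h3

/-- `m1 = jqq / j^(q^2) ∈ chart J3⁻¹`. -/
theorem m1_mem :
    WQ2.jqqK2 M q hq hqM K / jK (M * q * q) K ^ (q ^ 2)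
      ∈ chart (M * q * q) A K (Chart3B.J3 M q hq hqM K)⁻¹ := by
  rw [m1_eq]
  exact mul_mem (v3_mem q hq M hqM A K) (pow_mem (v1_mem q hq M hqM A K) q)

/-- `m2 = j / jqq^(q^2) ∈ chart J3⁻¹`. -/
theorem m2_mem :
    jK (M * q * q) K / WQ2.jqqK2 M q hq hqM K ^ (q ^ 2)
      ∈ chart (M * q * q) A K (Chart3B.J3 M q hq hqM K)⁻¹ := by
  rw [m2_eq]
  exact mul_mem (v4_mem q hq M hqM A K) (pow_mem (v2_mem q hq M hqM A K) q)

end

end Fermat.Agent.S36.CuspAlg
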