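/-
S36 — CuspOneB.lean (helper52; package [TORIC36] / [CUSP1], B-copy; A = helper89 `CuspOne`).

**One branch through every cuspidal closed point of the chart `J3⁻¹`** at level `N = M q²`:
the field `one` of `ChartTorInst.TorInCusp` (= `TorOutInst.CuspOne π t P`), and the hypothesis
`hcusp01` of `Princ3Cases.princ_of_cases`, for the chart `R = chart N A K J3⁻¹`, the valuation
rings `V 0 = W1 = GaussV.V1`, `V 1 = W2 = GaussV.V2 w_{q²}`, `V 2 = W3` (ANY valuation ring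
containing the chart) and the uniformizers `ϖ 0 = ϖ 1 = π`, `ϖ 2 = sE = j_{q²} − j`.

Notation: `X = j⁻¹`, `Z = j_q⁻¹`, `Y = j_{q²}⁻¹` (all in `R`), `m₁ = j_{q²} / j^(q²)`,
`m₂ = j / j_{q²}^(q²) = w_{q²} m₁`.

* `one_core`      (abstract, Mathlib only): `n` prime, `X ∈ n`, `1 − m₁ ∈ P 0`,
                  `m₁ − X^k ∈ P 2`, `1 − m₂ ∈ P 1`, `m₂ − X^k ∈ P 2`, `m₂ − X^l ∈ P 0`
                  (`k, l ≥ 1`) ⟹ at most one `P i` lies in `n`;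
* `mem_core`      (abstract): `X Z Y ∈ n`, `X^d' = m₁ Y`, `Z − X^d ∈ P 0`, `Z − Y^d ∈ P 1`,
                  and `P 0 ≤ n` or `P 1 ≤ n` ⟹ `X ∈ n`;
* `one_core'`     : the two together;
* `one_J3_inv`    : the chart statement, from `ChartHyp3.le`/`mem_P` ALONE plus the ONE modular
                  input `hm₁ : j_{q²} · (j⁻¹)^(q²) ∈ chart N A K J3⁻¹` ([CUSP-a]; the Kronecker
                  congruences on `W1`, `W2` are taken from `Wit3`, the congruences on `W3` are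
                  formal because `ϖ 2 = j_{q²} − j`);
* `cuspOne`, `cuspOne_model3`, `hcusp01` : the consumer shapes;
* `m₁_mem_of_v`, `m₁_mem_of_level` : `hm₁` from `j_q / j^q ∈ chart` and `j_{q²} / j_q^q ∈ chart`,
                  resp. from the single level-`M q` fact `j_q / j^q ∈ chart_{Mq} JK⁻¹`.
-/
import Mathlib
import Fermat.Agent.S36.Chart3B
import Fermat.Agent.S36.Wit3
import Fermat.Agent.S36.Model3Plan

set_option autoImplicit false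

open ModularCurve AlgebraicCurve HahnSeries

namespace Fermat.Agent.S36.CuspOneB

open Fermat.Agent.S18 Fermat.Agent.S18.Arith Fermat.Agent.S34 Fermat.Agent.S36.Model3Plan

/-! ### Abstract cores -/

section Core

variable {R : Type*} [CommRing R]

/-- `a, b ∈ n`, `a + b = 1 − X ^ k` with `X ∈ n`, `k ≥ 1`: impossible for a proper ideal. -/
theorem false_of_add_eq {n : Ideal R} (hn : n ≠ ⊤) {X a b : R} {k : ℕ} (hk : k ≠ 0)
    (hX : X ∈ n) (ha : a ∈ n) (hb : b ∈ n) (h : a + b = 1 - X ^ k) : False := by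
  apply hn
  rw [Ideal.eq_top_iff_one]
  have hXk : X ^ k ∈ n := Ideal.pow_mem_of_mem n hX k (Nat.pos_of_ne_zero hk)
  have h1 : (1 : R) = a + b + X ^ k := by rw [h]; ring
  rw [h1]
  exact n.add_mem (n.add_mem ha hb) hXk

/-- **Abstract core of [CUSP1].** -/
theorem one_core (P : Fin 3 → Ideal R) (n : Ideal R) (hn : n ≠ ⊤) (X m₁ m₂ : R) (k l : ℕ)
    (hk : k ≠ 0) (hl : l ≠ 0) (hX : X ∈ n)
    (h0 : 1 - m₁ ∈ P 0) (h2 : m₁ - X ^ k ∈ P 2)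
    (h1 : 1 - m₂ ∈ P 1) (h2' : m₂ - X ^ k ∈ P 2) (h0' : m₂ - X ^ l ∈ P 0) :
    ∀ i j : Fin 3, P i ≤ n → P j ≤ n → i = j := by
  have h02 : P 0 ≤ n → P 2 ≤ n → False := fun hP0 hP2 =>
    false_of_add_eq hn hk hX (hP0 h0) (hP2 h2) (by ring)
  have h12 : P 1 ≤ n → P 2 ≤ n → False := fun hP1 hP2 =>
    false_of_add_eq hn hk hX (hP1 h1) (hP2 h2') (by ring)
  have h01 : P 0 ≤ n → P 1 ≤ n → False := fun hP0 hP1 =>
    false_of_add_eq hn hl hX (hP1 h1) (hP0 h0') (by ring)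
  intro i j hi hj
  fin_cases i <;> fin_cases j
  · rfl
  · exact (h01 hi hj).elim
  · exact (h02 hi hj).elim
  · exact (h01 hj hi).elim
  · rfl
  · exact (h12 hi hj).elim
  · exact (h02 hj hi).elim
  · exact (h12 hj hi).elim
  · rfl

/-- **`X ∈ n` at a cuspidal point on `P 0` or `P 1`.** -/
theorem mem_core (P0 P1 n : Ideal R) (hn : n.IsPrime) (X Y Z m₁ : R) (d d' : ℕ)
    (hXZY : X * Z * Y ∈ n) (hm₁ : X ^ d' = m₁ * Y)
    (hZ0 : Z - X ^ d ∈ P0) (hZ1 : Z - Y ^ d ∈ P1) (h01 : P0 ≤ n ∨ P1 ≤ n) : X ∈ n := by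
  have hY : Y ∈ n → X ∈ n := fun hY =>
    hn.mem_of_pow_mem d' (by rw [hm₁]; exact n.mul_mem_left _ hY)
  rcases hn.mem_or_mem hXZY with hXZ | hY'
  · rcases hn.mem_or_mem hXZ with hX | hZ
    · exact hX
    · rcases h01 with h | h
      · have h1 : X ^ d ∈ n := by
          have h2 : X ^ d = Z - (Z - X ^ d) := by ring
          rw [h2]
          exact n.sub_mem hZ (h hZ0)
        exact hn.mem_of_pow_mem d h1
      · have h1 : Y ^ d ∈ n := by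
          have h2 : Y ^ d = Z - (Z - Y ^ d) := by ring
          rw [h2]
          exact n.sub_mem hZ (h hZ1)
        exact hY (hn.mem_of_pow_mem d h1)
  · exact hY hY'

/-- **Abstract [CUSP1]**: cuspidality in the form `X * Z * Y ∈ n`. -/
theorem one_core' (P : Fin 3 → Ideal R) (n : Ideal R) (hn : n.IsPrime) (X Y Z m₁ m₂ : R)
    (d d' k l : ℕ) (hk : k ≠ 0) (hl : l ≠ 0)
    (hXZY : X * Z * Y ∈ n) (hm₁ : X ^ d' = m₁ * Y)
    (hZ0 : Z - X ^ d ∈ P 0) (hZ1 : Z - Y ^ d ∈ P 1)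
    (h0 : 1 - m₁ ∈ P 0) (h2 : m₁ - X ^ k ∈ P 2)
    (h1 : 1 - m₂ ∈ P 1) (h2' : m₂ - X ^ k ∈ P 2) (h0' : m₂ - X ^ l ∈ P 0) :
    ∀ i j : Fin 3, P i ≤ n → P j ≤ n → i = j := by
  intro i j hi hj
  by_contra hij
  have h01 : P 0 ≤ n ∨ P 1 ≤ n := by
    fin_cases i <;> fin_cases j
    · exact (hij rfl).elim
    · exact Or.inl hi
    · exact Or.inl hi
    · exact Or.inl hj
    · exact (hij rfl).elim
    · exact Or.inr hi
    · exact Or.inl hj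
    · exact Or.inr hj
    · exact (hij rfl).elim
  have hX : X ∈ n := mem_core (P 0) (P 1) n hn X Y Z m₁ d d' hXZY hm₁ hZ0 hZ1 h01
  exact hij (one_core P n hn.ne_top X m₁ m₂ k l hk hl hX h0 h2 h1 h2' h0' i j hi hj)

end Core

/-! ### The chart `J3⁻¹` at level `M q²` -/

noncomputable section Chart

variable (M q : ℕ) [NeZero M] [NeZero q] (hq : q.Prime) (hqM : ¬ q ∣ M)
variable (A : ValuationSubring Qb) (K : IntermediateField ℚ Qb)

/-- `m₂ = j / j_{q²}^(q²) = w_{q²} m₁` lies in the chart `J3⁻¹` as soon as `m₁ = j_{q²} / j^(q²)`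
does. -/
theorem m₂_mem
    (hm₁ : WQ2.jqqK2 M q hq hqM K * (jK (M * q * q) K)⁻¹ ^ (q ^ 2) ∈
      chart (M * q * q) A K (Chart3B.J3 M q hq hqM K)⁻¹) :
    jK (M * q * q) K * (WQ2.jqqK2 M q hq hqM K)⁻¹ ^ (q ^ 2) ∈
      chart (M * q * q) A K (Chart3B.J3 M q hq hqM K)⁻¹ := by
  have h := Chart3B.wK2_mem_chart_J3_inv M q hq hqM A K hm₁
  rwa [map_mul, map_pow, map_inv₀, WQ2.wK2_jqqK2, WQ2.wK2_jK] at h

/-- `j_{q²} − j^(q²) ∈ π W1` (Kronecker twice). -/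
theorem frob2_pi1 (hdvr : IsDiscreteValuationRing (OK A K)) (hA : A.LiesOverPrime q)
    {π : OK A K} (hπ : Irreducible π) :
    ∃ z ∈ GaussV.V1 (M * q * q) A K hdvr,
      WQ2.jqqK2 M q hq hqM K - jK (M * q * q) K ^ (q ^ 2) =
        algebraMap (OK A K) (FK (M * q * q) K) π * z := by
  have : Fact q.Prime := ⟨hq⟩
  refine Wit3.pi1_of_gRel_zero hdvr hπ ?_
  rw [Subfield.coe_sub, SubmonoidClass.coe_pow, Wit3.coe_jqq, ModelQFrac.coe_jK]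
  exact Wit3.gRel_frob2 A q hA

/-- **[CUSP1] on the chart `J3⁻¹`, hypothesis form over `le`/`mem_P`**: at a prime `n` of the
chart containing `J3⁻¹` at most one of the three vertical ideals lies in `n`. -/
theorem one_J3_inv (hdvr : IsDiscreteValuationRing (OK A K)) (hA : A.LiesOverPrime q)
    {π : OK A K} (hπ : Irreducible π)
    {ϖ : Fin 3 → FK (M * q * q) K} {V : Fin 3 → ValuationSubring (FK (M * q * q) K)}
    {P : Fin 3 → Ideal (chart (M * q * q) A K (Chart3B.J3 M q hq hqM K)⁻¹)}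
    (hle : ∀ (i : Fin 3) (r : chart (M * q * q) A K (Chart3B.J3 M q hq hqM K)⁻¹),
      (r : FK (M * q * q) K) ∈ V i)
    (hP : ∀ (i : Fin 3) (r : chart (M * q * q) A K (Chart3B.J3 M q hq hqM K)⁻¹),
      r ∈ P i ↔ ∃ y ∈ V i, (r : FK (M * q * q) K) = ϖ i * y)
    (hV0 : V 0 = GaussV.V1 (M * q * q) A K hdvr)
    (hV1 : V 1 = GaussV.V2 (WQ2.wK2 M q hq hqM K) hdvr)
    (hϖ0 : ϖ 0 = algebraMap (OK A K) (FK (M * q * q) K) π)
    (hϖ1 : ϖ 1 = algebraMap (OK A K) (FK (M * q * q) K) π)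
    (h2 : ∃ v ∈ V 2, Wit3.sE M q hq hqM K = ϖ 2 * v)
    (hm₁ : WQ2.jqqK2 M q hq hqM K * (jK (M * q * q) K)⁻¹ ^ (q ^ 2) ∈
      chart (M * q * q) A K (Chart3B.J3 M q hq hqM K)⁻¹)
    (n : Ideal (chart (M * q * q) A K (Chart3B.J3 M q hq hqM K)⁻¹)) (hn : n.IsPrime)
    (hcusp : (⟨(Chart3B.J3 M q hq hqM K)⁻¹, ChartJ.self_mem_chart (M * q * q) A K _⟩ :
      chart (M * q * q) A K (Chart3B.J3 M q hq hqM K)⁻¹) ∈ n) :
    ∀ i j : Fin 3, P i ≤ n → P j ≤ n → i = j := by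
  have hj0 : jK (M * q * q) K ≠ 0 := ModelBasicCore.jK_ne_zero (M * q * q) K
  have hjq0 : WQ2.jqK2 M q hq hqM K ≠ 0 := Chart3B.jqK2_ne_zero M q hq hqM K
  have hjqq0 : WQ2.jqqK2 M q hq hqM K ≠ 0 := Chart3B.jqqK2_ne_zero M q hq hqM K
  have hq2 : 2 ≤ q := hq.two_le
  have hqq : 1 ≤ q ^ 2 := Nat.one_le_pow _ _ (by omega)
  have hqq4 : 4 ≤ q ^ 2 := by nlinarith
  -- the elements of the chart
  obtain ⟨X, hX⟩ : ∃ X : chart (M * q * q) A K (Chart3B.J3 M q hq hqM K)⁻¹,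
      (X : FK (M * q * q) K) = (jK (M * q * q) K)⁻¹ :=
    ⟨⟨_, Chart3B.jK_inv_mem_chart_J3_inv M q hq hqM A K⟩, rfl⟩
  obtain ⟨Z, hZ⟩ : ∃ Z : chart (M * q * q) A K (Chart3B.J3 M q hq hqM K)⁻¹,
      (Z : FK (M * q * q) K) = (WQ2.jqK2 M q hq hqM K)⁻¹ :=
    ⟨⟨_, Chart3B.jqK2_inv_mem_chart_J3_inv M q hq hqM A K⟩, rfl⟩
  obtain ⟨Y, hY⟩ : ∃ Y : chart (M * q * q) A K (Chart3B.J3 M q hq hqM K)⁻¹,
      (Y : FK (M * q * q) K) = (WQ2.jqqK2 M q hq hqM K)⁻¹ :=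
    ⟨⟨_, Chart3B.jqqK2_inv_mem_chart_J3_inv M q hq hqM A K⟩, rfl⟩
  obtain ⟨m₁, hm₁'⟩ : ∃ m₁ : chart (M * q * q) A K (Chart3B.J3 M q hq hqM K)⁻¹,
      (m₁ : FK (M * q * q) K) = WQ2.jqqK2 M q hq hqM K * (jK (M * q * q) K)⁻¹ ^ (q ^ 2) :=
    ⟨⟨_, hm₁⟩, rfl⟩
  obtain ⟨m₂, hm₂'⟩ : ∃ m₂ : chart (M * q * q) A K (Chart3B.J3 M q hq hqM K)⁻¹,
      (m₂ : FK (M * q * q) K) = jK (M * q * q) K * (WQ2.jqqK2 M q hq hqM K)⁻¹ ^ (q ^ 2) :=
    ⟨⟨_, m₂_mem M q hq hqM A K hm₁⟩, rfl⟩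
  -- membership in the three vertical ideals
  have mem0 : ∀ (r : chart (M * q * q) A K (Chart3B.J3 M q hq hqM K)⁻¹) (y : FK (M * q * q) K),
      y ∈ GaussV.V1 (M * q * q) A K hdvr →
      (r : FK (M * q * q) K) = algebraMap (OK A K) (FK (M * q * q) K) π * y → r ∈ P 0 := by
    intro r y hy h
    rw [hP]
    exact ⟨y, by rw [hV0]; exact hy, by rw [hϖ0]; exact h⟩
  have mem1 : ∀ (r : chart (M * q * q) A K (Chart3B.J3 M q hq hqM K)⁻¹) (y : FK (M * q * q) K),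
      y ∈ GaussV.V2 (WQ2.wK2 M q hq hqM K) hdvr →
      (r : FK (M * q * q) K) = algebraMap (OK A K) (FK (M * q * q) K) π * y → r ∈ P 1 := by
    intro r y hy h
    rw [hP]
    exact ⟨y, by rw [hV1]; exact hy, by rw [hϖ1]; exact h⟩
  have mem2 : ∀ (r s : chart (M * q * q) A K (Chart3B.J3 M q hq hqM K)⁻¹),
      (r : FK (M * q * q) K) =
        (WQ2.jqqK2 M q hq hqM K - jK (M * q * q) K) * (s : FK (M * q * q) K) → r ∈ P 2 := by
    intro r s h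
    obtain ⟨v, hv, hve⟩ := h2
    rw [hP]
    refine ⟨v * (s : FK (M * q * q) K), mul_mem hv (hle 2 s), ?_⟩
    rw [h, ← mul_assoc, ← hve]
    rfl
  have le0 : ∀ r : chart (M * q * q) A K (Chart3B.J3 M q hq hqM K)⁻¹,
      (r : FK (M * q * q) K) ∈ GaussV.V1 (M * q * q) A K hdvr := fun r => hV0 ▸ hle 0 r
  have le1 : ∀ r : chart (M * q * q) A K (Chart3B.J3 M q hq hqM K)⁻¹,
      (r : FK (M * q * q) K) ∈ GaussV.V2 (WQ2.wK2 M q hq hqM K) hdvr := fun r => hV1 ▸ hle 1 r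
  -- Kronecker on `W1`
  obtain ⟨z0, hz0, hz0e⟩ := frob2_pi1 M q hq hqM A K hdvr hA hπ
  have key0 : (1 : FK (M * q * q) K) -
      WQ2.jqqK2 M q hq hqM K * (jK (M * q * q) K)⁻¹ ^ (q ^ 2) =
      algebraMap (OK A K) (FK (M * q * q) K) π * (-(z0 * (jK (M * q * q) K)⁻¹ ^ (q ^ 2))) := by
    have e : (1 : FK (M * q * q) K) -
        WQ2.jqqK2 M q hq hqM K * (jK (M * q * q) K)⁻¹ ^ (q ^ 2) =
        -((WQ2.jqqK2 M q hq hqM K - jK (M * q * q) K ^ (q ^ 2)) *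
          (jK (M * q * q) K)⁻¹ ^ (q ^ 2)) := by
      rw [inv_pow]
      field_simp
      ring
    rw [e, hz0e]
    ring
  have hXpow0 : (jK (M * q * q) K)⁻¹ ^ (q ^ 2) ∈ GaussV.V1 (M * q * q) A K hdvr := by
    have h := le0 (X ^ (q ^ 2))
    rwa [SubmonoidClass.coe_pow, hX] at h
  refine one_core' P n hn X Y Z m₁ m₂ q (q ^ 2) (q ^ 2 - 1) ((q ^ 2) ^ 2 - 1)
    (by omega) (by have : 1 < (q ^ 2) ^ 2 := by nlinarith
                   omega) ?_ ?_ ?_ ?_ ?_ ?_ ?_ ?_ ?_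
  · -- cuspidality
    have e : X * Z * Y = (⟨(Chart3B.J3 M q hq hqM K)⁻¹, ChartJ.self_mem_chart (M * q * q) A K _⟩ :
        chart (M * q * q) A K (Chart3B.J3 M q hq hqM K)⁻¹) := by
      apply Subtype.ext
      show (X : FK (M * q * q) K) * (Z : FK (M * q * q) K) * (Y : FK (M * q * q) K) = _
      rw [hX, hZ, hY, Chart3B.J3_eq, mul_inv, mul_inv]
    rw [e]
    exact hcusp
  · -- `X ^ (q ^ 2) = m₁ * Y`
    apply Subtype.ext
    show (X : FK (M * q * q) K) ^ (q ^ 2) = (m₁ : FK (M * q * q) K) * (Y : FK (M * q * q) K)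
    rw [hX, hm₁', hY]
    field_simp
  · -- `Z - X ^ q ∈ P 0`
    obtain ⟨z, hz, hze⟩ := Wit3.x2_pi1 M q hq hqM A K hdvr hA hπ
    refine mem0 _ (-(z * ((Z : FK (M * q * q) K) * (X : FK (M * q * q) K) ^ q))) ?_ ?_
    · have h := le0 (Z * X ^ q)
      exact neg_mem (mul_mem hz h)
    · show (Z : FK (M * q * q) K) - (X : FK (M * q * q) K) ^ q = _
      have e : (Z : FK (M * q * q) K) - (X : FK (M * q * q) K) ^ q =
          -(Wit3.x2 M q hq hqM K * ((Z : FK (M * q * q) K) * (X : FK (M * q * q) K) ^ q)) := by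
        rw [hX, hZ, Wit3.x2, inv_pow]
        field_simp
        ring
      rw [e, hze]
      ring
  · -- `Z - Y ^ q ∈ P 1`
    obtain ⟨z, hz, hze⟩ := Wit3.x1_pi2 M q hq hqM A K hdvr hA hπ
    refine mem1 _ (-(z * ((Z : FK (M * q * q) K) * (Y : FK (M * q * q) K) ^ q))) ?_ ?_
    · have h := le1 (Z * Y ^ q)
      exact neg_mem (mul_mem hz h)
    · show (Z : FK (M * q * q) K) - (Y : FK (M * q * q) K) ^ q = _
      have e : (Z : FK (M * q * q) K) - (Y : FK (M * q * q) K) ^ q =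
          -(Wit3.x1 M q hq hqM K * ((Z : FK (M * q * q) K) * (Y : FK (M * q * q) K) ^ q)) := by
        rw [hY, hZ, Wit3.x1, inv_pow]
        field_simp
        ring
      rw [e, hze]
      ring
  · -- `1 - m₁ ∈ P 0`
    refine mem0 _ (-(z0 * (jK (M * q * q) K)⁻¹ ^ (q ^ 2))) (neg_mem (mul_mem hz0 hXpow0)) ?_
    show (1 : FK (M * q * q) K) - (m₁ : FK (M * q * q) K) = _
    rw [hm₁']
    exact key0
  · -- `m₁ - X ^ (q ^ 2 - 1) ∈ P 2`
    refine mem2 _ (X ^ (q ^ 2)) ?_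
    show (m₁ : FK (M * q * q) K) - (X : FK (M * q * q) K) ^ (q ^ 2 - 1) =
      _ * (X : FK (M * q * q) K) ^ (q ^ 2)
    rw [hm₁', hX]
    have e : (jK (M * q * q) K)⁻¹ ^ (q ^ 2) =
        (jK (M * q * q) K)⁻¹ ^ (q ^ 2 - 1) * (jK (M * q * q) K)⁻¹ := by
      rw [← pow_succ, Nat.sub_add_cancel hqq]
    rw [e]
    field_simp
  · -- `1 - m₂ ∈ P 1`
    obtain ⟨z, hz, hze⟩ := Wit3.pi2_of_pi1 (WQ2.wK2 M q hq hqM K)
      (WQ2.wK2_algebraMap_OK M q hq hqM K A) hdvr (π := π)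
      (x := 1 - jK (M * q * q) K * (WQ2.jqqK2 M q hq hqM K)⁻¹ ^ (q ^ 2))
      ⟨-(z0 * (jK (M * q * q) K)⁻¹ ^ (q ^ 2)), neg_mem (mul_mem hz0 hXpow0), by
        rw [map_sub, map_one, map_mul, map_pow, map_inv₀, WQ2.wK2_jqqK2, WQ2.wK2_jK]
        exact key0⟩
    refine mem1 _ z hz ?_
    show (1 : FK (M * q * q) K) - (m₂ : FK (M * q * q) K) = _
    rw [hm₂']
    exact hze
  · -- `m₂ - X ^ (q ^ 2 - 1) ∈ P 2`
    obtain ⟨c, hc⟩ := sub_dvd_pow_sub_pow Y X (q ^ 2)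
    have hc' : (Y : FK (M * q * q) K) ^ (q ^ 2) - (X : FK (M * q * q) K) ^ (q ^ 2) =
        ((Y : FK (M * q * q) K) - (X : FK (M * q * q) K)) * (c : FK (M * q * q) K) :=
      congrArg Subtype.val hc
    refine mem2 _ (-(Y * c)) ?_
    show (m₂ : FK (M * q * q) K) - (X : FK (M * q * q) K) ^ (q ^ 2 - 1) =
      _ * -((Y : FK (M * q * q) K) * (c : FK (M * q * q) K))
    have e1 : (X : FK (M * q * q) K) ^ (q ^ 2 - 1) =
        jK (M * q * q) K * (X : FK (M * q * q) K) ^ (q ^ 2) := by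
      have e : (X : FK (M * q * q) K) ^ (q ^ 2) =
          (X : FK (M * q * q) K) ^ (q ^ 2 - 1) * (X : FK (M * q * q) K) := by
        rw [← pow_succ, Nat.sub_add_cancel hqq]
      rw [e, hX]
      field_simp
    have e2 : (m₂ : FK (M * q * q) K) - (X : FK (M * q * q) K) ^ (q ^ 2 - 1) =
        jK (M * q * q) K *
          ((Y : FK (M * q * q) K) ^ (q ^ 2) - (X : FK (M * q * q) K) ^ (q ^ 2)) := by
      rw [e1, hm₂', hY]
      ring
    rw [e2, hc', hX, hY]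
    field_simp
    ring
  · -- `m₂ - X ^ ((q ^ 2) ^ 2 - 1) ∈ P 0`
    obtain ⟨c, hc⟩ := sub_dvd_pow_sub_pow Y (X ^ (q ^ 2)) (q ^ 2)
    have hc' : (Y : FK (M * q * q) K) ^ (q ^ 2) -
        ((X : FK (M * q * q) K) ^ (q ^ 2)) ^ (q ^ 2) =
        ((Y : FK (M * q * q) K) - (X : FK (M * q * q) K) ^ (q ^ 2)) * (c : FK (M * q * q) K) :=
      congrArg Subtype.val hc
    have hqq2 : 1 ≤ (q ^ 2) ^ 2 := Nat.one_le_pow _ _ (by omega)
    have e1 : (X : FK (M * q * q) K) ^ ((q ^ 2) ^ 2 - 1) =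
        jK (M * q * q) K * ((X : FK (M * q * q) K) ^ (q ^ 2)) ^ (q ^ 2) := by
      have e : ((X : FK (M * q * q) K) ^ (q ^ 2)) ^ (q ^ 2) =
          (X : FK (M * q * q) K) ^ ((q ^ 2) ^ 2 - 1) * (X : FK (M * q * q) K) := by
        rw [← pow_mul, ← pow_succ, ← pow_two, Nat.sub_add_cancel hqq2]
      rw [e, hX]
      field_simp
    have e2 : (m₂ : FK (M * q * q) K) - (X : FK (M * q * q) K) ^ ((q ^ 2) ^ 2 - 1) =
        jK (M * q * q) K * ((Y : FK (M * q * q) K) ^ (q ^ 2) -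
          ((X : FK (M * q * q) K) ^ (q ^ 2)) ^ (q ^ 2)) := by
      rw [e1, hm₂', hY]
      ring
    have e3 : (Y : FK (M * q * q) K) - (X : FK (M * q * q) K) ^ (q ^ 2) =
        -((WQ2.jqqK2 M q hq hqM K - jK (M * q * q) K ^ (q ^ 2)) *
          ((Y : FK (M * q * q) K) * (X : FK (M * q * q) K) ^ (q ^ 2))) := by
      rw [hX, hY, inv_pow]
      field_simp
      ring
    refine mem0 _ (-(jK (M * q * q) K * (z0 * (((Y * X ^ (q ^ 2) : chart (M * q * q) A K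
      (Chart3B.J3 M q hq hqM K)⁻¹) : FK (M * q * q) K) * (c : FK (M * q * q) K))))) ?_ ?_
    · exact neg_mem (mul_mem (GaussV.jK_mem_V1 hdvr)
        (mul_mem hz0 (mul_mem (le0 _) (le0 c))))
    · show (m₂ : FK (M * q * q) K) - (X : FK (M * q * q) K) ^ ((q ^ 2) ^ 2 - 1) =
        _ * -(jK (M * q * q) K * (z0 * ((Y : FK (M * q * q) K) *
          (X : FK (M * q * q) K) ^ (q ^ 2) * (c : FK (M * q * q) K))))
      rw [e2, hc', e3, hz0e]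
      ring

/-- **[CUSP1]** in the consumer shape (`ChartTorInst.TorInCusp.one` with
`D n := J3⁻¹ ∈ n`, i.e. `TorOutInst.CuspOne π J3 P`), for ANY `ChartHyp3 π ϖ V P` on the chart
`J3⁻¹` with `V 0 = W1`, `V 1 = W2`, `ϖ 0 = ϖ 1 = π` and `j_{q²} − j ∈ ϖ 2 (V 2)`. -/
theorem cuspOne (hdvr : IsDiscreteValuationRing (OK A K)) (hA : A.LiesOverPrime q)
    {π : OK A K} (hπ : Irreducible π)
    {ϖ : Fin 3 → FK (M * q * q) K} {V : Fin 3 → ValuationSubring (FK (M * q * q) K)}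
    {P : Fin 3 → Ideal (chart (M * q * q) A K (Chart3B.J3 M q hq hqM K)⁻¹)}
    (hyp : ChartHyp3 π ϖ V P)
    (hV0 : V 0 = GaussV.V1 (M * q * q) A K hdvr)
    (hV1 : V 1 = GaussV.V2 (WQ2.wK2 M q hq hqM K) hdvr)
    (hϖ0 : ϖ 0 = algebraMap (OK A K) (FK (M * q * q) K) π)
    (hϖ1 : ϖ 1 = algebraMap (OK A K) (FK (M * q * q) K) π)
    (h2 : ∃ v ∈ V 2, Wit3.sE M q hq hqM K = ϖ 2 * v)
    (hm₁ : WQ2.jqqK2 M q hq hqM K * (jK (M * q * q) K)⁻¹ ^ (q ^ 2) ∈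
      chart (M * q * q) A K (Chart3B.J3 M q hq hqM K)⁻¹) :
    ∀ n : Ideal (chart (M * q * q) A K (Chart3B.J3 M q hq hqM K)⁻¹), n.IsMaximal →
      algebraMap (OK A K) (chart (M * q * q) A K (Chart3B.J3 M q hq hqM K)⁻¹) π ∈ n →
      (⟨(Chart3B.J3 M q hq hqM K)⁻¹, ChartJ.self_mem_chart (M * q * q) A K _⟩ :
        chart (M * q * q) A K (Chart3B.J3 M q hq hqM K)⁻¹) ∈ n →
      ∀ i j : Fin 3, P i ≤ n → P j ≤ n → i = j :=
  fun n hn _ hcusp =>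
    one_J3_inv M q hq hqM A K hdvr hA hπ (fun i r => hyp.le i r) (fun i r => hyp.mem_P i r)
      hV0 hV1 hϖ0 hϖ1 h2 hm₁ n hn.isPrime hcusp

/-- **[CUSP1]** for the vectors of record `ϖ = ![π, π, sE]`, `V = ![W1, W2, W3]` (`W3` ANY
valuation ring; only `ChartHyp3` is used). -/
theorem cuspOne_vec (hdvr : IsDiscreteValuationRing (OK A K)) (hA : A.LiesOverPrime q)
    {π : OK A K} (hπ : Irreducible π) (W3 : ValuationSubring (FK (M * q * q) K))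
    {P : Fin 3 → Ideal (chart (M * q * q) A K (Chart3B.J3 M q hq hqM K)⁻¹)}
    (hyp : ChartHyp3 π
      ![algebraMap (OK A K) (FK (M * q * q) K) π, algebraMap (OK A K) (FK (M * q * q) K) π,
        Wit3.sE M q hq hqM K]
      ![GaussV.V1 (M * q * q) A K hdvr, GaussV.V2 (WQ2.wK2 M q hq hqM K) hdvr, W3] P)
    (hm₁ : WQ2.jqqK2 M q hq hqM K * (jK (M * q * q) K)⁻¹ ^ (q ^ 2) ∈
      chart (M * q * q) A K (Chart3B.J3 M q hq hqM K)⁻¹) :
    ∀ n : Ideal (chart (M * q * q) A K (Chart3B.J3 M q hq hqM K)⁻¹), n.IsMaximal →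
      algebraMap (OK A K) (chart (M * q * q) A K (Chart3B.J3 M q hq hqM K)⁻¹) π ∈ n →
      (⟨(Chart3B.J3 M q hq hqM K)⁻¹, ChartJ.self_mem_chart (M * q * q) A K _⟩ :
        chart (M * q * q) A K (Chart3B.J3 M q hq hqM K)⁻¹) ∈ n →
      ∀ i j : Fin 3, P i ≤ n → P j ≤ n → i = j :=
  cuspOne M q hq hqM A K hdvr hA hπ hyp rfl rfl rfl rfl
    ⟨1, one_mem _, (mul_one _).symm⟩ hm₁

/-- **[CUSP1]** for the chart at infinity of a `Model3` with coordinate `J3`. -/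
theorem cuspOne_model3 (hdvr : IsDiscreteValuationRing (OK A K)) (hA : A.LiesOverPrime q)
    {π : OK A K} {e : Fin 3 → ℕ}
    {ϖ : Fin 3 → FK (M * q * q) K} {V : Fin 3 → ValuationSubring (FK (M * q * q) K)}
    (Md : Model3 (M * q * q) A K π e ϖ V (Chart3B.J3 M q hq hqM K))
    (hV0 : V 0 = GaussV.V1 (M * q * q) A K hdvr)
    (hV1 : V 1 = GaussV.V2 (WQ2.wK2 M q hq hqM K) hdvr)
    (hϖ0 : ϖ 0 = algebraMap (OK A K) (FK (M * q * q) K) π)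
    (hϖ1 : ϖ 1 = algebraMap (OK A K) (FK (M * q * q) K) π)
    (h2 : ∃ v ∈ V 2, Wit3.sE M q hq hqM K = ϖ 2 * v)
    (hm₁ : WQ2.jqqK2 M q hq hqM K * (jK (M * q * q) K)⁻¹ ^ (q ^ 2) ∈
      chart (M * q * q) A K (Chart3B.J3 M q hq hqM K)⁻¹) :
    ∀ n : Ideal (chart (M * q * q) A K (Chart3B.J3 M q hq hqM K)⁻¹), n.IsMaximal →
      algebraMap (OK A K) (chart (M * q * q) A K (Chart3B.J3 M q hq hqM K)⁻¹) π ∈ n →
      (⟨(Chart3B.J3 M q hq hqM K)⁻¹, ChartJ.self_mem_chart (M * q * q) A K _⟩ :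
        chart (M * q * q) A K (Chart3B.J3 M q hq hqM K)⁻¹) ∈ n →
      ∀ i j : Fin 3, Md.cInf.P i ≤ n → Md.cInf.P j ≤ n → i = j :=
  cuspOne M q hq hqM A K hdvr hA Md.irr Md.cInf.hyp hV0 hV1 hϖ0 hϖ1 h2 hm₁

/-- The hypothesis `hcusp01` of `Princ3Cases.princ_of_cases` for the chart `J3⁻¹` with
`C n := J3⁻¹ ∉ n`: a cuspidal closed point does not lie on both `P 0` and `P 1`. -/
theorem hcusp01 (hdvr : IsDiscreteValuationRing (OK A K)) (hA : A.LiesOverPrime q)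
    {π : OK A K} (hπ : Irreducible π)
    {ϖ : Fin 3 → FK (M * q * q) K} {V : Fin 3 → ValuationSubring (FK (M * q * q) K)}
    {P : Fin 3 → Ideal (chart (M * q * q) A K (Chart3B.J3 M q hq hqM K)⁻¹)}
    (hyp : ChartHyp3 π ϖ V P)
    (hV0 : V 0 = GaussV.V1 (M * q * q) A K hdvr)
    (hV1 : V 1 = GaussV.V2 (WQ2.wK2 M q hq hqM K) hdvr)
    (hϖ0 : ϖ 0 = algebraMap (OK A K) (FK (M * q * q) K) π)
    (hϖ1 : ϖ 1 = algebraMap (OK A K) (FK (M * q * q) K) π)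
    (h2 : ∃ v ∈ V 2, Wit3.sE M q hq hqM K = ϖ 2 * v)
    (hm₁ : WQ2.jqqK2 M q hq hqM K * (jK (M * q * q) K)⁻¹ ^ (q ^ 2) ∈
      chart (M * q * q) A K (Chart3B.J3 M q hq hqM K)⁻¹) :
    ∀ n : Ideal (chart (M * q * q) A K (Chart3B.J3 M q hq hqM K)⁻¹), n.IsMaximal →
      algebraMap (OK A K) (chart (M * q * q) A K (Chart3B.J3 M q hq hqM K)⁻¹) π ∈ n →
      ¬ ((⟨(Chart3B.J3 M q hq hqM K)⁻¹, ChartJ.self_mem_chart (M * q * q) A K _⟩ :
        chart (M * q * q) A K (Chart3B.J3 M q hq hqM K)⁻¹) ∉ n) →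
      ¬ P 2 ≤ n → ¬ (P 0 ≤ n ∧ P 1 ≤ n) := by
  intro n hn hπn hC _ h01
  have h := cuspOne M q hq hqM A K hdvr hA hπ hyp hV0 hV1 hϖ0 hϖ1 h2 hm₁ n hn hπn
    (not_not.mp hC) 0 1 h01.1 h01.2
  exact absurd h (by decide)

/-! ### The modular input `hm₁` from the [CUSP-a] memberships -/

/-- `m₁ = μ₂ · μ ^ q` with `μ = j_q / j^q`, `μ₂ = j_{q²} / j_q^q`: the input of `CuspOne`
(helper89) implies the input `hm₁` used here. -/
theorem m₁_mem_of_v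
    (hμ : WQ2.jqK2 M q hq hqM K * (jK (M * q * q) K)⁻¹ ^ q ∈
      chart (M * q * q) A K (Chart3B.J3 M q hq hqM K)⁻¹)
    (hμ₂ : WQ2.jqqK2 M q hq hqM K * (WQ2.jqK2 M q hq hqM K)⁻¹ ^ q ∈
      chart (M * q * q) A K (Chart3B.J3 M q hq hqM K)⁻¹) :
    WQ2.jqqK2 M q hq hqM K * (jK (M * q * q) K)⁻¹ ^ (q ^ 2) ∈
      chart (M * q * q) A K (Chart3B.J3 M q hq hqM K)⁻¹ := by
  have hjq0 : WQ2.jqK2 M q hq hqM K ≠ 0 := Chart3B.jqK2_ne_zero M q hq hqM K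
  have h := mul_mem hμ₂ (pow_mem hμ q)
  have e : WQ2.jqqK2 M q hq hqM K * (WQ2.jqK2 M q hq hqM K)⁻¹ ^ q *
      (WQ2.jqK2 M q hq hqM K * (jK (M * q * q) K)⁻¹ ^ q) ^ q =
      WQ2.jqqK2 M q hq hqM K * (jK (M * q * q) K)⁻¹ ^ (q ^ 2) := by
    rw [mul_pow, ← pow_mul, ← pow_two, inv_pow (WQ2.jqK2 M q hq hqM K)]
    field_simp
  rwa [e] at h

/-- `hm₁` from the single level-`M q` fact `j_q / j^q ∈ chart_{Mq} JK⁻¹` (apply `α` and `β`). -/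
theorem m₁_mem_of_level
    (hv : WK.jqK M q hq hqM K * (jK (M * q) K)⁻¹ ^ q ∈
      chart (M * q) A K (WKInst.JK M q hq hqM K)⁻¹) :
    WQ2.jqqK2 M q hq hqM K * (jK (M * q * q) K)⁻¹ ^ (q ^ 2) ∈
      chart (M * q * q) A K (Chart3B.J3 M q hq hqM K)⁻¹ := by
  refine m₁_mem_of_v M q hq hqM A K ?_ ?_
  · have h := Chart3B.alphaK2_mem_chart_J3_inv M q hq hqM A K hv
    rwa [map_mul, map_pow, map_inv₀, WQ2.alphaK2_jK] at h
  · have h := Chart3B.betaK2_mem_chart_J3_inv M q hq hqM A K hv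
    rwa [map_mul, map_pow, map_inv₀, WQ2.betaK2_jK] at h

end Chart

end Fermat.Agent.S36.CuspOneB
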