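/-
S36 — CuspOneBInst.lean (helper52; [CUSP1], CLOSED form): one branch through every cuspidal closed
point of the chart `J3⁻¹` at level `N = M q²`, with NO open modular input.

`CuspOneB` reduces [CUSP1] to the single chart membership `j_{q²} / j^(q²) ∈ chart N A K J3⁻¹`;
that membership is `CuspAlg.m1_mem` (helper44: weight bound of `Φ_q` from `S28.HeckeData`).

* `m₁_mem`         : `j_{q²} · (j⁻¹)^(q²) ∈ chart N A K J3⁻¹`;
* `cuspOne`        : the field `one` of `ChartTorInst.TorInCusp` with `D n := J3⁻¹ ∈ n`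
                     (= `TorOutInst.CuspOne π J3 P`), for ANY `ChartHyp3 π ϖ V P` on the chart
                     `J3⁻¹` with `V 0 = W1`, `V 1 = W2`, `ϖ 0 = ϖ 1 = π`, `j_{q²} − j ∈ ϖ 2 (V 2)`;
* `cuspOne_vec`    : the same for the vectors of record `ϖ = ![π, π, sE]`, `V = ![W1, W2, W3]`;
* `cuspOne_model3` : the same for `Md.cInf.P` of a `Model3` with coordinate `J3`;
* `hcusp01`        : the hypothesis `hcusp01` of `Princ3Cases.princ_of_cases` (`C n := J3⁻¹ ∉ n`);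
* `one_J3_inv`     : prime ideals, only the `le` / `mem_P` fields of `ChartHyp3`.
-/
import Mathlib
import Fermat.Agent.S36.CuspOneB
import Fermat.Agent.S36.CuspAlg

set_option autoImplicit false

open ModularCurve AlgebraicCurve HahnSeries

namespace Fermat.Agent.S36.CuspOneBInst

open Fermat.Agent.S18 Fermat.Agent.S18.Arith Fermat.Agent.S34 Fermat.Agent.S36.Model3Plan

noncomputable section

variable (M q : ℕ) [NeZero M] [NeZero q] (hq : q.Prime) (hqM : ¬ q ∣ M)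
variable (A : ValuationSubring Qb) (K : IntermediateField ℚ Qb)

/-- **[CUSP-a]** in the shape used by `CuspOneB`: `j_{q²} · (j⁻¹)^(q²) ∈ chart J3⁻¹`. -/
theorem m₁_mem :
    WQ2.jqqK2 M q hq hqM K * (jK (M * q * q) K)⁻¹ ^ (q ^ 2) ∈
      chart (M * q * q) A K (Chart3B.J3 M q hq hqM K)⁻¹ := by
  have h := CuspAlg.m1_mem q hq M hqM A K
  rwa [div_eq_mul_inv, ← inv_pow] at h

/-- **[CUSP1], closed**: the field `one` of `ChartTorInst.TorInCusp` (`D n := J3⁻¹ ∈ n`). -/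
theorem cuspOne (hdvr : IsDiscreteValuationRing (OK A K)) (hA : A.LiesOverPrime q)
    {π : OK A K} (hπ : Irreducible π)
    {ϖ : Fin 3 → FK (M * q * q) K} {V : Fin 3 → ValuationSubring (FK (M * q * q) K)}
    {P : Fin 3 → Ideal (chart (M * q * q) A K (Chart3B.J3 M q hq hqM K)⁻¹)}
    (hyp : ChartHyp3 π ϖ V P)
    (hV0 : V 0 = GaussV.V1 (M * q * q) A K hdvr)
    (hV1 : V 1 = GaussV.V2 (WQ2.wK2 M q hq hqM K) hdvr)
    (hϖ0 : ϖ 0 = algebraMap (OK A K) (FK (M * q * q) K) π)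
    (hϖ1 : ϖ 1 = algebraMap (OK A K) (FK (M * q * q) K) π)
    (h2 : ∃ v ∈ V 2, Wit3.sE M q hq hqM K = ϖ 2 * v) :
    ∀ n : Ideal (chart (M * q * q) A K (Chart3B.J3 M q hq hqM K)⁻¹), n.IsMaximal →
      algebraMap (OK A K) (chart (M * q * q) A K (Chart3B.J3 M q hq hqM K)⁻¹) π ∈ n →
      (⟨(Chart3B.J3 M q hq hqM K)⁻¹, ChartJ.self_mem_chart (M * q * q) A K _⟩ :
        chart (M * q * q) A K (Chart3B.J3 M q hq hqM K)⁻¹) ∈ n →
      ∀ i j : Fin 3, P i ≤ n → P j ≤ n → i = j :=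
  CuspOneB.cuspOne M q hq hqM A K hdvr hA hπ hyp hV0 hV1 hϖ0 hϖ1 h2 (m₁_mem M q hq hqM A K)

/-- **[CUSP1], closed**, for the vectors of record `ϖ = ![π, π, sE]`, `V = ![W1, W2, W3]`
(`W3` ANY valuation ring). -/
theorem cuspOne_vec (hdvr : IsDiscreteValuationRing (OK A K)) (hA : A.LiesOverPrime q)
    {π : OK A K} (hπ : Irreducible π) (W3 : ValuationSubring (FK (M * q * q) K))
    {P : Fin 3 → Ideal (chart (M * q * q) A K (Chart3B.J3 M q hq hqM K)⁻¹)}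
    (hyp : ChartHyp3 π
      ![algebraMap (OK A K) (FK (M * q * q) K) π, algebraMap (OK A K) (FK (M * q * q) K) π,
        Wit3.sE M q hq hqM K]
      ![GaussV.V1 (M * q * q) A K hdvr, GaussV.V2 (WQ2.wK2 M q hq hqM K) hdvr, W3] P) :
    ∀ n : Ideal (chart (M * q * q) A K (Chart3B.J3 M q hq hqM K)⁻¹), n.IsMaximal →
      algebraMap (OK A K) (chart (M * q * q) A K (Chart3B.J3 M q hq hqM K)⁻¹) π ∈ n →
      (⟨(Chart3B.J3 M q hq hqM K)⁻¹, ChartJ.self_mem_chart (M * q * q) A K _⟩ :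
        chart (M * q * q) A K (Chart3B.J3 M q hq hqM K)⁻¹) ∈ n →
      ∀ i j : Fin 3, P i ≤ n → P j ≤ n → i = j :=
  CuspOneB.cuspOne_vec M q hq hqM A K hdvr hA hπ W3 hyp (m₁_mem M q hq hqM A K)

/-- **[CUSP1], closed**, for the chart at infinity of a `Model3` with coordinate `J3`
(`exact`-fits `TorOutInst.CuspOne π (Chart3B.J3 M q hq hqM K) Md.cInf.P`). -/
theorem cuspOne_model3 (hdvr : IsDiscreteValuationRing (OK A K)) (hA : A.LiesOverPrime q)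
    {π : OK A K} {e : Fin 3 → ℕ}
    {ϖ : Fin 3 → FK (M * q * q) K} {V : Fin 3 → ValuationSubring (FK (M * q * q) K)}
    (Md : Model3 (M * q * q) A K π e ϖ V (Chart3B.J3 M q hq hqM K))
    (hV0 : V 0 = GaussV.V1 (M * q * q) A K hdvr)
    (hV1 : V 1 = GaussV.V2 (WQ2.wK2 M q hq hqM K) hdvr)
    (hϖ0 : ϖ 0 = algebraMap (OK A K) (FK (M * q * q) K) π)
    (hϖ1 : ϖ 1 = algebraMap (OK A K) (FK (M * q * q) K) π)
    (h2 : ∃ v ∈ V 2, Wit3.sE M q hq hqM K = ϖ 2 * v) :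
    ∀ n : Ideal (chart (M * q * q) A K (Chart3B.J3 M q hq hqM K)⁻¹), n.IsMaximal →
      algebraMap (OK A K) (chart (M * q * q) A K (Chart3B.J3 M q hq hqM K)⁻¹) π ∈ n →
      (⟨(Chart3B.J3 M q hq hqM K)⁻¹, ChartJ.self_mem_chart (M * q * q) A K _⟩ :
        chart (M * q * q) A K (Chart3B.J3 M q hq hqM K)⁻¹) ∈ n →
      ∀ i j : Fin 3, Md.cInf.P i ≤ n → Md.cInf.P j ≤ n → i = j :=
  CuspOneB.cuspOne_model3 M q hq hqM A K hdvr hA Md hV0 hV1 hϖ0 hϖ1 h2 (m₁_mem M q hq hqM A K)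

/-- **`hcusp01`, closed**: the hypothesis of `Princ3Cases.princ_of_cases` for the chart `J3⁻¹`
with `C n := J3⁻¹ ∉ n`. -/
theorem hcusp01 (hdvr : IsDiscreteValuationRing (OK A K)) (hA : A.LiesOverPrime q)
    {π : OK A K} (hπ : Irreducible π)
    {ϖ : Fin 3 → FK (M * q * q) K} {V : Fin 3 → ValuationSubring (FK (M * q * q) K)}
    {P : Fin 3 → Ideal (chart (M * q * q) A K (Chart3B.J3 M q hq hqM K)⁻¹)}
    (hyp : ChartHyp3 π ϖ V P)
    (hV0 : V 0 = GaussV.V1 (M * q * q) A K hdvr)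
    (hV1 : V 1 = GaussV.V2 (WQ2.wK2 M q hq hqM K) hdvr)
    (hϖ0 : ϖ 0 = algebraMap (OK A K) (FK (M * q * q) K) π)
    (hϖ1 : ϖ 1 = algebraMap (OK A K) (FK (M * q * q) K) π)
    (h2 : ∃ v ∈ V 2, Wit3.sE M q hq hqM K = ϖ 2 * v) :
    ∀ n : Ideal (chart (M * q * q) A K (Chart3B.J3 M q hq hqM K)⁻¹), n.IsMaximal →
      algebraMap (OK A K) (chart (M * q * q) A K (Chart3B.J3 M q hq hqM K)⁻¹) π ∈ n →
      ¬ ((⟨(Chart3B.J3 M q hq hqM K)⁻¹, ChartJ.self_mem_chart (M * q * q) A K _⟩ :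
        chart (M * q * q) A K (Chart3B.J3 M q hq hqM K)⁻¹) ∉ n) →
      ¬ P 2 ≤ n → ¬ (P 0 ≤ n ∧ P 1 ≤ n) :=
  CuspOneB.hcusp01 M q hq hqM A K hdvr hA hπ hyp hV0 hV1 hϖ0 hϖ1 h2 (m₁_mem M q hq hqM A K)

/-- **[CUSP1], closed**, prime ideals, only the `le` / `mem_P` fields of `ChartHyp3`. -/
theorem one_J3_inv (hdvr : IsDiscreteValuationRing (OK A K)) (hA : A.LiesOverPrime q)
    {π : OK A K} (hπ : Irreducible π)
    {ϖ : Fin 3 → FK (M * q * q) K} {V : Fin 3 → ValuationSubring (FK (M * q * q) K)}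
    {P : Fin 3 → Ideal (chart (M * q * q) A K (Chart3B.J3 M q hq hqM K)⁻¹)}
    (hle : ∀ (i : Fin 3) (r : chart (M * q * q) A K (Chart3B.J3 M q hq hqM K)⁻¹),
      (r : FK (M * q * q) K) ∈ V i)
    (hP : ∀ (i : Fin 3) (r : chart (M * q * q) A K (Chart3B.J3 M q hq hqM K)⁻¹),
      r ∈ P i ↔ ∃ y ∈ V i, (r : FK (M * q * q) K) = ϖ i * y)
    (hV0 : V 0 = GaussV.V1 (M * q * q) A K hdvr)
    (hV1 : V 1 = GaussV.V2 (WQ2.wK2 M q hq hqM K) hdvr)
    (hϖ0 : ϖ 0 = algebraMap (OK A K) (FK (M * q * q) K) π)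
    (hϖ1 : ϖ 1 = algebraMap (OK A K) (FK (M * q * q) K) π)
    (h2 : ∃ v ∈ V 2, Wit3.sE M q hq hqM K = ϖ 2 * v)
    (n : Ideal (chart (M * q * q) A K (Chart3B.J3 M q hq hqM K)⁻¹)) (hn : n.IsPrime)
    (hcusp : (⟨(Chart3B.J3 M q hq hqM K)⁻¹, ChartJ.self_mem_chart (M * q * q) A K _⟩ :
      chart (M * q * q) A K (Chart3B.J3 M q hq hqM K)⁻¹) ∈ n) :
    ∀ i j : Fin 3, P i ≤ n → P j ≤ n → i = j :=
  CuspOneB.one_J3_inv M q hq hqM A K hdvr hA hπ hle hP hV0 hV1 hϖ0 hϖ1 h2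
    (m₁_mem M q hq hqM A K) n hn hcusp

end

end Fermat.Agent.S36.CuspOneBInst
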