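import Mathlib
import Fermat.Agent.S23.Basic

/-!
# S36 [B1-eta] E3: the units `h1 = G(qz)/G(z)`, `h2 = G(q²z)/G(qz)` for an abstract weight-one `G`

Abstract in `(G, chi)`: `G : ℍ → ℂ` nowhere zero with the weight-one law
`G (γ • z) = chi d · (c z + d) · G z` for `γ = (a b; c d) ∈ Γ₀(N0)` (`Law N0 chi G`).
No hypothesis on `chi` is needed for the general statements.

* `Law.point` : the law in "point form" (`w · (c z' + d) = a z' + b` ⇒ `G w = chi d (c z' + d) G z'`);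
* `h1_smul`, `h2_smul` : `h1` is invariant under `Γ₀(N0 q)`, `h2` under `Γ₀(N0 q²)`
  (also `h1_smul_of_mem`, `h2_smul_of_mem`, and the weight-`0` slash forms);
* `h1_AL`, `h2_AL` : Atkin–Lehner at `q²`: for `γ0 = (a b; K q²D')`, `N0 ∣ K`, and `w z = γ0 • (q² z)`:
  `h1 (w z) = chi (q D') / chi (q² D') · q⁻¹ · (h2 z)⁻¹`,
  `h2 (w z) = chi D' / chi (q D') · q⁻¹ · (h1 z)⁻¹`;
* `h1_ALq` : Atkin–Lehner at `q` (level `q`): `γ0 = (a b; K qD')`: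
  `h1 (γ0 • (q z)) = chi D' / chi (q D') · q⁻¹ · (h1 z)⁻¹`;
* `h1_mid`, `h2_mid` : the middle cusp: `γ3 = (a b; qK d)`, `N0 ∣ K`, `K β + q y = d`:
  `h1 (γ3 • z) = h1 z`, `h2 (γ3 • z) = chi y / chi d · q⁻¹ · G (z + β/q) / G (q z)`.

`q ≥ 1` is arbitrary (no primality is used); the scaling `z ↦ q z` is `S23.mulN q`.
-/

set_option autoImplicit false

namespace Fermat.Agent.S36.EtaHInv

open UpperHalfPlane CongruenceSubgroup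
open scoped MatrixGroups ModularForm Manifold

open Fermat.Agent.S23 (mulN coe_mulN)

/-! ### Matrices and points -/

/-- The matrix `(a b; c d)` of determinant one, as an element of `SL(2, ℤ)`. -/
def mk4 (a b c d : ℤ) (h : a * d - b * c = 1) : SL(2, ℤ) :=
  ⟨!![a, b; c, d], by rw [Matrix.det_fin_two_of]; exact h⟩

section mk4

variable (a b c d : ℤ) (h : a * d - b * c = 1)

@[simp] theorem mk4_00 : mk4 a b c d h 0 0 = a := rfl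
@[simp] theorem mk4_01 : mk4 a b c d h 0 1 = b := rfl
@[simp] theorem mk4_10 : mk4 a b c d h 1 0 = c := rfl
@[simp] theorem mk4_11 : mk4 a b c d h 1 1 = d := rfl

end mk4

/-- The determinant relation of an element of `SL(2, ℤ)`. -/
theorem det_eq (γ : SL(2, ℤ)) : γ 0 0 * γ 1 1 - γ 0 1 * γ 1 0 = 1 := by
  have h := γ.det_coe
  rw [Matrix.det_fin_two] at h
  exact h

/-- The Möbius action of `SL(2, ℤ)` on points, with integer casts. -/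
theorem coe_smul (γ : SL(2, ℤ)) (z : ℍ) :
    ((γ • z : ℍ) : ℂ) =
      (((γ 0 0 : ℤ) : ℂ) * z + ((γ 0 1 : ℤ) : ℂ)) / (((γ 1 0 : ℤ) : ℂ) * z + ((γ 1 1 : ℤ) : ℂ)) := by
  rw [UpperHalfPlane.coe_specialLinearGroup_apply]
  simp

/-- The automorphy factor `c z + d` does not vanish. -/
theorem denom_ne (γ : SL(2, ℤ)) (z : ℍ) :
    (((γ 1 0 : ℤ) : ℂ) * z + ((γ 1 1 : ℤ) : ℂ)) ≠ 0 := by
  have h := UpperHalfPlane.denom_ne_zero (γ : GL (Fin 2) ℝ) z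
  rwa [ModularGroup.denom_apply] at h

theorem mem_Gamma0_iff (N : ℕ) (γ : SL(2, ℤ)) : γ ∈ Gamma0 N ↔ (N : ℤ) ∣ γ 1 0 := by
  rw [Gamma0_mem, ZMod.intCast_zmod_eq_zero_iff_dvd]

/-- `q (q z) = q² z`. -/
theorem mulN_mulN (q : ℕ) [NeZero q] [NeZero (q ^ 2)] (z : ℍ) :
    mulN q (mulN q z) = mulN (q ^ 2) z := by
  apply UpperHalfPlane.ext
  rw [coe_mulN, coe_mulN, coe_mulN]
  push_cast
  ring

theorem natCast_ne_zero' (q : ℕ) [NeZero q] : (q : ℂ) ≠ 0 :=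
  Nat.cast_ne_zero.mpr (NeZero.ne q)

/-- Clearing the denominator of a point `s · (num / den)`. -/
theorem aux1 {num den X Y s : ℂ} (hden : den ≠ 0) (h : s * num * X = Y * den) :
    s * (num / den) * X = Y := by
  rw [mul_div_assoc', div_mul_eq_mul_div, div_eq_iff hden]
  exact h

/-- Clearing the denominator of a point `s · (s · (num / den))`. -/
theorem aux2 {num den X Y s : ℂ} (hden : den ≠ 0) (h : s * s * num * X = Y * den) :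
    s * (s * (num / den)) * X = Y := by
  rw [← mul_assoc]
  exact aux1 hden h

/-! ### The weight-one law -/

/-- The weight-one transformation law of `G` on `Γ₀(N0)` with multiplier `chi d`:
`G (γ z) = chi d · (c z + d) · G z` for `γ = (a b; c d) ∈ Γ₀(N0)`. -/
def Law (N0 : ℕ) (chi : ℤ → ℂ) (G : ℍ → ℂ) : Prop :=
  ∀ γ : SL(2, ℤ), γ ∈ Gamma0 N0 → ∀ z : ℍ,
    G (γ • z) = chi (γ 1 1) * (((γ 1 0 : ℤ) : ℂ) * z + ((γ 1 1 : ℤ) : ℂ)) * G z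

variable {G : ℍ → ℂ} {N0 : ℕ} {chi : ℤ → ℂ}

/-- The law stated with Mathlib's `denom`. -/
theorem Law.of_denom
    (h : ∀ γ : SL(2, ℤ), γ ∈ Gamma0 N0 → ∀ z : ℍ, G (γ • z) = chi (γ 1 1) * denom γ z * G z) :
    Law N0 chi G :=
  fun γ hγ z => h γ hγ z

theorem Law.denom (hG : Law N0 chi G) (γ : SL(2, ℤ)) (hγ : γ ∈ Gamma0 N0) (z : ℍ) :
    G (γ • z) = chi (γ 1 1) * denom γ z * G z :=
  hG γ hγ z

/-- The law with a divisibility hypothesis. -/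
theorem Law.apply_of_dvd (hG : Law N0 chi G) (γ : SL(2, ℤ)) (hγ : (N0 : ℤ) ∣ γ 1 0) (z : ℍ) :
    G (γ • z) = chi (γ 1 1) * (((γ 1 0 : ℤ) : ℂ) * z + ((γ 1 1 : ℤ) : ℂ)) * G z :=
  hG γ ((mem_Gamma0_iff N0 γ).mpr hγ) z

/-- The law at a higher level. -/
theorem Law.mono (hG : Law N0 chi G) {N : ℕ} (hN : N0 ∣ N) : Law N chi G := by
  intro γ hγ z
  refine hG.apply_of_dvd γ ?_ z
  exact dvd_trans (Int.natCast_dvd_natCast.mpr hN) ((mem_Gamma0_iff N γ).mp hγ)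

/-- **Point form of the law**: if `w · (c z' + d) = a z' + b` with `(a b; c d) ∈ Γ₀(N0)`, then
`G w = chi d · (c z' + d) · G z'`. -/
theorem Law.point (hG : Law N0 chi G) {a b c d : ℤ} (hdet : a * d - b * c = 1)
    (hc : (N0 : ℤ) ∣ c) (z' w : ℍ)
    (hw : (w : ℂ) * ((c : ℂ) * (z' : ℂ) + (d : ℂ)) = (a : ℂ) * (z' : ℂ) + (b : ℂ)) :
    G w = chi d * ((c : ℂ) * (z' : ℂ) + (d : ℂ)) * G z' := by
  have hne := denom_ne (mk4 a b c d hdet) z'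
  simp only [mk4_10, mk4_11] at hne
  have hwz : w = mk4 a b c d hdet • z' := by
    apply UpperHalfPlane.ext
    rw [coe_smul]
    simp only [mk4_00, mk4_01, mk4_10, mk4_11]
    rw [eq_div_iff hne]
    exact hw
  rw [hwz]
  have h := hG.apply_of_dvd (mk4 a b c d hdet) (by simpa using hc) z'
  simpa using h

/-- The multiplier does not vanish at the lower right entries that occur (for `G` nowhere zero). -/
theorem Law.chi_ne_zero (hG : Law N0 chi G) (hG0 : ∀ z, G z ≠ 0) {a b c d : ℤ}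
    (hdet : a * d - b * c = 1) (hc : (N0 : ℤ) ∣ c) : chi d ≠ 0 := by
  intro h0
  have h := hG.apply_of_dvd (mk4 a b c d hdet) (by simpa using hc) UpperHalfPlane.I
  simp only [mk4_10, mk4_11, h0, zero_mul] at h
  exact hG0 _ h

/-! ### The functions `h1`, `h2` -/

/-- `h1 z = G (q z) / G z`. -/
noncomputable def h1 (G : ℍ → ℂ) (q : ℕ) [NeZero q] (z : ℍ) : ℂ :=
  G (mulN q z) / G z

/-- `h2 z = G (q² z) / G (q z)`. -/
noncomputable def h2 (G : ℍ → ℂ) (q : ℕ) [NeZero q] (z : ℍ) : ℂ :=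
  G (mulN q (mulN q z)) / G (mulN q z)

theorem h1_apply (G : ℍ → ℂ) (q : ℕ) [NeZero q] (z : ℍ) : h1 G q z = G (mulN q z) / G z := rfl

theorem h2_apply (G : ℍ → ℂ) (q : ℕ) [NeZero q] (z : ℍ) :
    h2 G q z = G (mulN q (mulN q z)) / G (mulN q z) := rfl

theorem h2_apply' (G : ℍ → ℂ) (q : ℕ) [NeZero q] [NeZero (q ^ 2)] (z : ℍ) :
    h2 G q z = G (mulN (q ^ 2) z) / G (mulN q z) := by
  rw [h2_apply, mulN_mulN]

theorem h2_eq_h1 (G : ℍ → ℂ) (q : ℕ) [NeZero q] (z : ℍ) : h2 G q z = h1 G q (mulN q z) := rfl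

theorem h1_ne_zero (hG0 : ∀ z, G z ≠ 0) (q : ℕ) [NeZero q] (z : ℍ) : h1 G q z ≠ 0 :=
  div_ne_zero (hG0 _) (hG0 _)

theorem h2_ne_zero (hG0 : ∀ z, G z ≠ 0) (q : ℕ) [NeZero q] (z : ℍ) : h2 G q z ≠ 0 :=
  div_ne_zero (hG0 _) (hG0 _)

/-! ### (F1) invariance -/

/-- `q · γ z = γ' (q z)` for `γ = (a b; q c' d)`, `γ' = (a qb; c' d)`. -/
theorem exists_mulN_smul (q : ℕ) [NeZero q] (γ : SL(2, ℤ)) (c' : ℤ) (hc : γ 1 0 = q * c') :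
    ∃ γ' : SL(2, ℤ), γ' 1 0 = c' ∧ γ' 1 1 = γ 1 1 ∧ γ' 0 0 = γ 0 0 ∧ γ' 0 1 = q * γ 0 1 ∧
      ∀ z : ℍ, mulN q (γ • z) = γ' • mulN q z := by
  have hdet : γ 0 0 * γ 1 1 - (q * γ 0 1) * c' = 1 := by
    have h := det_eq γ
    rw [hc] at h
    linarith
  refine ⟨mk4 (γ 0 0) (q * γ 0 1) c' (γ 1 1) hdet, rfl, rfl, rfl, rfl, fun z => ?_⟩
  apply UpperHalfPlane.ext
  have hne := denom_ne γ z
  have hne' := denom_ne (mk4 (γ 0 0) (q * γ 0 1) c' (γ 1 1) hdet) (mulN q z)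
  simp only [mk4_10, mk4_11, coe_mulN] at hne'
  rw [coe_mulN, coe_smul, coe_smul]
  simp only [mk4_00, mk4_01, mk4_10, mk4_11, coe_mulN]
  rw [hc] at hne ⊢
  push_cast at hne ⊢
  field_simp

/-- `G (q · γ z) = chi d · (c z + d) · G (q z)` for `γ = (a b; c d)`, `N0 q ∣ c`. -/
theorem G_mulN_smul (hG : Law N0 chi G) (q : ℕ) [NeZero q] (γ : SL(2, ℤ))
    (hγ : (N0 : ℤ) * q ∣ γ 1 0) (z : ℍ) :
    G (mulN q (γ • z)) =
      chi (γ 1 1) * (((γ 1 0 : ℤ) : ℂ) * z + ((γ 1 1 : ℤ) : ℂ)) * G (mulN q z) := by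
  obtain ⟨c', hc'⟩ := hγ
  have hc : γ 1 0 = q * ((N0 : ℤ) * c') := by rw [hc']; ring
  obtain ⟨γ', h10, h11, -, -, hz⟩ := exists_mulN_smul q γ ((N0 : ℤ) * c') hc
  rw [hz z, hG.apply_of_dvd γ' (by rw [h10]; exact dvd_mul_right _ _) (mulN q z), h10, h11, hc,
    coe_mulN]
  push_cast
  ring

/-- **(F1)** `h1` is invariant under `γ = (a b; c d)` with `N0 q ∣ c`. -/
theorem h1_smul (hG : Law N0 chi G) (hG0 : ∀ z, G z ≠ 0) (q : ℕ) [NeZero q] (γ : SL(2, ℤ))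
    (hγ : (N0 : ℤ) * q ∣ γ 1 0) (z : ℍ) : h1 G q (γ • z) = h1 G q z := by
  have hγ0 : (N0 : ℤ) ∣ γ 1 0 := dvd_trans (dvd_mul_right _ _) hγ
  have e1 := G_mulN_smul hG q γ hγ z
  have e2 := hG.apply_of_dvd γ hγ0 z
  have hden := denom_ne γ z
  have hchi : chi (γ 1 1) ≠ 0 := by
    intro h0
    rw [h0, zero_mul, zero_mul] at e2
    exact hG0 _ e2
  rw [h1_apply, h1_apply, e1, e2]
  have hGz := hG0 z
  field_simp

/-- **(F1)** `h2` is invariant under `γ = (a b; c d)` with `N0 q² ∣ c`. -/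
theorem h2_smul (hG : Law N0 chi G) (hG0 : ∀ z, G z ≠ 0) (q : ℕ) [NeZero q] (γ : SL(2, ℤ))
    (hγ : (N0 : ℤ) * q ^ 2 ∣ γ 1 0) (z : ℍ) : h2 G q (γ • z) = h2 G q z := by
  obtain ⟨c', hc'⟩ := hγ
  have hc : γ 1 0 = q * ((N0 : ℤ) * q * c') := by rw [hc']; ring
  obtain ⟨γ', h10, -, -, -, hz⟩ := exists_mulN_smul q γ ((N0 : ℤ) * q * c') hc
  rw [h2_eq_h1, h2_eq_h1, hz z]
  exact h1_smul hG hG0 q γ' (by rw [h10]; exact dvd_mul_right _ _) (mulN q z)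

/-- **(F1)**, subgroup form: `h1` is `Γ₀(N)`-invariant whenever `N0 q ∣ N`. -/
theorem h1_smul_of_mem (hG : Law N0 chi G) (hG0 : ∀ z, G z ≠ 0) (q : ℕ) [NeZero q] {N : ℕ}
    (hN : N0 * q ∣ N) (γ : SL(2, ℤ)) (hγ : γ ∈ Gamma0 N) (z : ℍ) :
    h1 G q (γ • z) = h1 G q z := by
  refine h1_smul hG hG0 q γ ?_ z
  have h := dvd_trans (Int.natCast_dvd_natCast.mpr hN) ((mem_Gamma0_iff N γ).mp hγ)
  simpa using h

/-- **(F1)**, subgroup form: `h2` is `Γ₀(N)`-invariant whenever `N0 q² ∣ N`. -/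
theorem h2_smul_of_mem (hG : Law N0 chi G) (hG0 : ∀ z, G z ≠ 0) (q : ℕ) [NeZero q] {N : ℕ}
    (hN : N0 * q ^ 2 ∣ N) (γ : SL(2, ℤ)) (hγ : γ ∈ Gamma0 N) (z : ℍ) :
    h2 G q (γ • z) = h2 G q z := by
  refine h2_smul hG hG0 q γ ?_ z
  have h := dvd_trans (Int.natCast_dvd_natCast.mpr hN) ((mem_Gamma0_iff N γ).mp hγ)
  simpa using h

/-- **(F1)**, slash form (weight `0`). -/
theorem h1_slash (hG : Law N0 chi G) (hG0 : ∀ z, G z ≠ 0) (q : ℕ) [NeZero q] {N : ℕ}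
    (hN : N0 * q ∣ N) (γ : SL(2, ℤ)) (hγ : γ ∈ Gamma0 N) :
    (h1 G q) ∣[(0 : ℤ)] γ = h1 G q := by
  ext z
  rw [ModularForm.SL_slash_apply, h1_smul_of_mem hG hG0 q hN γ hγ z]
  simp

/-- **(F1)**, slash form (weight `0`). -/
theorem h2_slash (hG : Law N0 chi G) (hG0 : ∀ z, G z ≠ 0) (q : ℕ) [NeZero q] {N : ℕ}
    (hN : N0 * q ^ 2 ∣ N) (γ : SL(2, ℤ)) (hγ : γ ∈ Gamma0 N) :
    (h2 G q) ∣[(0 : ℤ)] γ = h2 G q := by
  ext z
  rw [ModularForm.SL_slash_apply, h2_smul_of_mem hG hG0 q hN γ hγ z]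
  simp

/-! ### (F2) Atkin–Lehner at `q²` -/

/-- The values of `G` along `w = γ0 • (q² z)`, `γ0 = (a b; K q²D')`, `N0 ∣ K`:
`G (w) = chi (q²D') q² (K z + D') G (q² z)`, `G (q w) = chi (q D') q (K z + D') G (q z)`,
`G (q² w) = chi D' (K z + D') G z`. -/
theorem G_AL (hG : Law N0 chi G) (q : ℕ) [NeZero q] (γ0 : SL(2, ℤ)) (D' : ℤ)
    (hK : (N0 : ℤ) ∣ γ0 1 0) (h11 : γ0 1 1 = (q : ℤ) ^ 2 * D') (z : ℍ) :
    G (γ0 • mulN q (mulN q z)) =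
        chi ((q : ℤ) ^ 2 * D') * ((q : ℂ) ^ 2 * (((γ0 1 0 : ℤ) : ℂ) * z + (D' : ℂ))) *
          G (mulN q (mulN q z)) ∧
    G (mulN q (γ0 • mulN q (mulN q z))) =
        chi ((q : ℤ) * D') * ((q : ℂ) * (((γ0 1 0 : ℤ) : ℂ) * z + (D' : ℂ))) * G (mulN q z) ∧
    G (mulN q (mulN q (γ0 • mulN q (mulN q z)))) =
        chi D' * (((γ0 1 0 : ℤ) : ℂ) * z + (D' : ℂ)) * G z := by
  have hq : (q : ℂ) ≠ 0 := natCast_ne_zero' q
  have hdet := det_eq γ0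
  rw [h11] at hdet
  have hne := denom_ne γ0 (mulN q (mulN q z))
  rw [h11] at hne
  simp only [coe_mulN] at hne
  push_cast at hne
  have hne' : ((γ0 1 0 : ℤ) : ℂ) * z + (D' : ℂ) ≠ 0 := by
    intro h0
    apply hne
    linear_combination (q : ℂ) ^ 2 * h0
  refine ⟨?_, ?_, ?_⟩
  · rw [hG.apply_of_dvd γ0 hK (mulN q (mulN q z)), h11]
    simp only [coe_mulN]
    push_cast
    ring
  · have hdet2 : (γ0 0 0 * q) * ((q : ℤ) * D') - γ0 0 1 * γ0 1 0 = 1 := by linarith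
    rw [hG.point hdet2 hK (mulN q z) (mulN q (γ0 • mulN q (mulN q z))) ?_]
    · simp only [coe_mulN]
      push_cast
      ring
    · rw [coe_mulN, coe_smul, h11]
      simp only [coe_mulN]
      push_cast
      refine aux1 hne ?_
      ring
  · have hdet3 : (γ0 0 0 * (q : ℤ) ^ 2) * D' - γ0 0 1 * γ0 1 0 = 1 := by linarith
    rw [hG.point hdet3 hK z (mulN q (mulN q (γ0 • mulN q (mulN q z)))) ?_]
    rw [coe_mulN, coe_mulN, coe_smul, h11]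
    simp only [coe_mulN]
    push_cast
    refine aux2 hne ?_
    ring

/-- **(F2)** `h1 (γ0 • (q² z)) = chi (q D') / chi (q² D') · q⁻¹ · (h2 z)⁻¹` for
`γ0 = (a b; K q²D')`, `N0 ∣ K`. -/
theorem h1_AL (hG : Law N0 chi G) (hG0 : ∀ z, G z ≠ 0) (q : ℕ) [NeZero q] (γ0 : SL(2, ℤ))
    (D' : ℤ) (hK : (N0 : ℤ) ∣ γ0 1 0) (h11 : γ0 1 1 = (q : ℤ) ^ 2 * D') (z : ℍ) :
    h1 G q (γ0 • mulN q (mulN q z)) =
      chi ((q : ℤ) * D') / chi ((q : ℤ) ^ 2 * D') * (q : ℂ)⁻¹ * (h2 G q z)⁻¹ := by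
  have hq : (q : ℂ) ≠ 0 := natCast_ne_zero' q
  obtain ⟨e0, e1, -⟩ := G_AL hG q γ0 D' hK h11 z
  have hG0w := hG0 (γ0 • mulN q (mulN q z))
  rw [e0] at hG0w
  have hchi : chi ((q : ℤ) ^ 2 * D') ≠ 0 := fun h0 => hG0w (by rw [h0, zero_mul, zero_mul])
  have hne' : ((γ0 1 0 : ℤ) : ℂ) * z + (D' : ℂ) ≠ 0 := fun h0 => hG0w (by rw [h0]; ring)
  have hz1 := hG0 (mulN q z)
  have hz2 := hG0 (mulN q (mulN q z))
  rw [h1_apply, h2_apply, e0, e1]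
  field_simp

/-- **(F2)** `h2 (γ0 • (q² z)) = chi D' / chi (q D') · q⁻¹ · (h1 z)⁻¹` for
`γ0 = (a b; K q²D')`, `N0 ∣ K`. -/
theorem h2_AL (hG : Law N0 chi G) (hG0 : ∀ z, G z ≠ 0) (q : ℕ) [NeZero q] (γ0 : SL(2, ℤ))
    (D' : ℤ) (hK : (N0 : ℤ) ∣ γ0 1 0) (h11 : γ0 1 1 = (q : ℤ) ^ 2 * D') (z : ℍ) :
    h2 G q (γ0 • mulN q (mulN q z)) =
      chi D' / chi ((q : ℤ) * D') * (q : ℂ)⁻¹ * (h1 G q z)⁻¹ := by
  have hq : (q : ℂ) ≠ 0 := natCast_ne_zero' q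
  obtain ⟨-, e1, e2⟩ := G_AL hG q γ0 D' hK h11 z
  have hG0w := hG0 (mulN q (γ0 • mulN q (mulN q z)))
  rw [e1] at hG0w
  have hchi : chi ((q : ℤ) * D') ≠ 0 := fun h0 => hG0w (by rw [h0, zero_mul, zero_mul])
  have hne' : ((γ0 1 0 : ℤ) : ℂ) * z + (D' : ℂ) ≠ 0 := fun h0 => hG0w (by rw [h0]; ring)
  have hz0 := hG0 z
  have hz1 := hG0 (mulN q z)
  rw [h2_apply, h1_apply, e1, e2]
  field_simp

/-- **(F2)**, quadratic character, `γ0 = (a b; K q²)`: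
`h1 (γ0 • (q² z)) = chi q · q⁻¹ · (h2 z)⁻¹`. -/
theorem h1_AL_quad (hG : Law N0 chi G) (hG0 : ∀ z, G z ≠ 0) (q : ℕ) [NeZero q] (γ0 : SL(2, ℤ))
    (hK : (N0 : ℤ) ∣ γ0 1 0) (h11 : γ0 1 1 = (q : ℤ) ^ 2) (hχqq : chi ((q : ℤ) ^ 2) = 1)
    (z : ℍ) :
    h1 G q (γ0 • mulN q (mulN q z)) = chi (q : ℤ) * (q : ℂ)⁻¹ * (h2 G q z)⁻¹ := by
  rw [h1_AL hG hG0 q γ0 1 hK (by rw [h11, mul_one]) z, mul_one, mul_one, hχqq, div_one]

/-- **(F2)**, quadratic character, `γ0 = (a b; K q²)`: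
`h2 (γ0 • (q² z)) = chi q · q⁻¹ · (h1 z)⁻¹`. -/
theorem h2_AL_quad (hG : Law N0 chi G) (hG0 : ∀ z, G z ≠ 0) (q : ℕ) [NeZero q] (γ0 : SL(2, ℤ))
    (hK : (N0 : ℤ) ∣ γ0 1 0) (h11 : γ0 1 1 = (q : ℤ) ^ 2) (hχ1 : chi 1 = 1)
    (hχq : chi (q : ℤ) ^ 2 = 1) (z : ℍ) :
    h2 G q (γ0 • mulN q (mulN q z)) = chi (q : ℤ) * (q : ℂ)⁻¹ * (h1 G q z)⁻¹ := by
  have hne : chi (q : ℤ) ≠ 0 := fun h0 => by rw [h0] at hχq; norm_num at hχq
  have hinv : 1 / chi (q : ℤ) = chi (q : ℤ) := by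
    rw [div_eq_iff hne, ← pow_two, hχq]
  rw [h2_AL hG hG0 q γ0 1 hK (by rw [h11, mul_one]) z, mul_one, hχ1, hinv]

/-! ### (F2') Atkin–Lehner at `q` -/

/-- The values of `G` along `w = γ0 • (q z)`, `γ0 = (a b; K qD')`, `N0 ∣ K`. -/
theorem G_ALq (hG : Law N0 chi G) (q : ℕ) [NeZero q] (γ0 : SL(2, ℤ)) (D' : ℤ)
    (hK : (N0 : ℤ) ∣ γ0 1 0) (h11 : γ0 1 1 = (q : ℤ) * D') (z : ℍ) :
    G (γ0 • mulN q z) =
        chi ((q : ℤ) * D') * ((q : ℂ) * (((γ0 1 0 : ℤ) : ℂ) * z + (D' : ℂ))) * G (mulN q z) ∧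
    G (mulN q (γ0 • mulN q z)) = chi D' * (((γ0 1 0 : ℤ) : ℂ) * z + (D' : ℂ)) * G z := by
  have hq : (q : ℂ) ≠ 0 := natCast_ne_zero' q
  have hdet := det_eq γ0
  rw [h11] at hdet
  have hne := denom_ne γ0 (mulN q z)
  rw [h11] at hne
  simp only [coe_mulN] at hne
  push_cast at hne
  have hne' : ((γ0 1 0 : ℤ) : ℂ) * z + (D' : ℂ) ≠ 0 := by
    intro h0
    apply hne
    linear_combination (q : ℂ) * h0
  refine ⟨?_, ?_⟩
  · rw [hG.apply_of_dvd γ0 hK (mulN q z), h11]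
    simp only [coe_mulN]
    push_cast
    ring
  · have hdet2 : (γ0 0 0 * q) * D' - γ0 0 1 * γ0 1 0 = 1 := by linarith
    rw [hG.point hdet2 hK z (mulN q (γ0 • mulN q z)) ?_]
    rw [coe_mulN, coe_smul, h11]
    simp only [coe_mulN]
    push_cast
    refine aux1 hne ?_
    ring

/-- **(F2')** `h1 (γ0 • (q z)) = chi D' / chi (q D') · q⁻¹ · (h1 z)⁻¹` for `γ0 = (a b; K qD')`,
`N0 ∣ K` (the Atkin–Lehner involution `w_q`). -/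
theorem h1_ALq (hG : Law N0 chi G) (hG0 : ∀ z, G z ≠ 0) (q : ℕ) [NeZero q] (γ0 : SL(2, ℤ))
    (D' : ℤ) (hK : (N0 : ℤ) ∣ γ0 1 0) (h11 : γ0 1 1 = (q : ℤ) * D') (z : ℍ) :
    h1 G q (γ0 • mulN q z) = chi D' / chi ((q : ℤ) * D') * (q : ℂ)⁻¹ * (h1 G q z)⁻¹ := by
  have hq : (q : ℂ) ≠ 0 := natCast_ne_zero' q
  obtain ⟨e0, e1⟩ := G_ALq hG q γ0 D' hK h11 z
  have hG0w := hG0 (γ0 • mulN q z)
  rw [e0] at hG0w
  have hchi : chi ((q : ℤ) * D') ≠ 0 := fun h0 => hG0w (by rw [h0, zero_mul, zero_mul])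
  have hne' : ((γ0 1 0 : ℤ) : ℂ) * z + (D' : ℂ) ≠ 0 := fun h0 => hG0w (by rw [h0]; ring)
  have hz0 := hG0 z
  have hz1 := hG0 (mulN q z)
  rw [h1_apply, h1_apply, e0, e1]
  field_simp

/-! ### (F3) the middle cusp -/

/-- **(F3)** `h1 (γ3 • z) = h1 z` for `γ3 = (a b; qK d)`, `N0 ∣ K`. -/
theorem h1_mid (hG : Law N0 chi G) (hG0 : ∀ z, G z ≠ 0) (q : ℕ) [NeZero q] (γ3 : SL(2, ℤ))
    (K : ℤ) (hK : (N0 : ℤ) ∣ K) (h10 : γ3 1 0 = (q : ℤ) * K) (z : ℍ) :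
    h1 G q (γ3 • z) = h1 G q z := by
  refine h1_smul hG hG0 q γ3 ?_ z
  rw [h10, mul_comm]
  exact mul_dvd_mul_left _ hK

/-- The values of `G` at `q · γ3 z` and `q² · γ3 z` for `γ3 = (a b; qK d)`, `N0 ∣ K`,
`K β + q y = d`. -/
theorem G_mid (hG : Law N0 chi G) (q : ℕ) [NeZero q] (γ3 : SL(2, ℤ)) (K β y : ℤ)
    (hK : (N0 : ℤ) ∣ K) (h10 : γ3 1 0 = (q : ℤ) * K) (hβ : K * β + (q : ℤ) * y = γ3 1 1)
    (z : ℍ) :
    G (mulN q (γ3 • z)) =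
        chi (γ3 1 1) * (((γ3 1 0 : ℤ) : ℂ) * z + ((γ3 1 1 : ℤ) : ℂ)) * G (mulN q z) ∧
    G (mulN q (mulN q (γ3 • z))) =
        chi y * ((q : ℂ)⁻¹ * (((γ3 1 0 : ℤ) : ℂ) * z + ((γ3 1 1 : ℤ) : ℂ))) *
          G (((β : ℝ) / (q : ℝ)) +ᵥ z) := by
  have hq : (q : ℂ) ≠ 0 := natCast_ne_zero' q
  have hdet := det_eq γ3
  have hne := denom_ne γ3 z
  refine ⟨G_mulN_smul hG q γ3 (by rw [h10, mul_comm]; exact mul_dvd_mul_left _ hK) z, ?_⟩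
  have hdet2 : ((q : ℤ) * γ3 0 0) * y - ((q : ℤ) * γ3 0 1 - γ3 0 0 * β) * K = 1 := by
    rw [h10, ← hβ] at hdet
    linarith
  rw [hG.point hdet2 hK (((β : ℝ) / (q : ℝ)) +ᵥ z) (mulN q (mulN q (γ3 • z))) ?_]
  · have e : (K : ℂ) * (((β : ℝ) / (q : ℝ) : ℝ) + (z : ℂ)) + (y : ℂ) =
        (q : ℂ)⁻¹ * (((γ3 1 0 : ℤ) : ℂ) * z + ((γ3 1 1 : ℤ) : ℂ)) := by
      rw [h10, ← hβ]
      push_cast
      field_simp
      ring
    rw [UpperHalfPlane.coe_vadd, e]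
  · rw [coe_mulN, coe_mulN, coe_smul, UpperHalfPlane.coe_vadd]
    rw [h10, ← hβ] at hne ⊢
    push_cast at hne ⊢
    refine aux2 hne ?_
    field_simp
    ring

/-- **(F3)** `h2 (γ3 • z) = chi y / chi d · q⁻¹ · G (z + β/q) / G (q z)` for `γ3 = (a b; qK d)`,
`N0 ∣ K`, `K β + q y = d`. -/
theorem h2_mid (hG : Law N0 chi G) (hG0 : ∀ z, G z ≠ 0) (q : ℕ) [NeZero q] (γ3 : SL(2, ℤ))
    (K β y : ℤ) (hK : (N0 : ℤ) ∣ K) (h10 : γ3 1 0 = (q : ℤ) * K)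
    (hβ : K * β + (q : ℤ) * y = γ3 1 1) (z : ℍ) :
    h2 G q (γ3 • z) =
      chi y / chi (γ3 1 1) * (q : ℂ)⁻¹ * (G (((β : ℝ) / (q : ℝ)) +ᵥ z) / G (mulN q z)) := by
  have hq : (q : ℂ) ≠ 0 := natCast_ne_zero' q
  obtain ⟨e1, e2⟩ := G_mid hG q γ3 K β y hK h10 hβ z
  have hG0w := hG0 (mulN q (γ3 • z))
  rw [e1] at hG0w
  have hchi : chi (γ3 1 1) ≠ 0 := fun h0 => hG0w (by rw [h0, zero_mul, zero_mul])
  have hne := denom_ne γ3 z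
  have hz1 := hG0 (mulN q z)
  rw [h2_apply, e1, e2]
  field_simp

/-- **(F3)** for `γ3 = (1 0; qK 1)` (lower right entry `1`) and `chi 1 = 1`:
`h2 (γ3 • z) = chi y · q⁻¹ · G (z + β/q) / G (q z)` where `K β + q y = 1`. -/
theorem h2_mid_one (hG : Law N0 chi G) (hG0 : ∀ z, G z ≠ 0) (q : ℕ) [NeZero q] (γ3 : SL(2, ℤ))
    (K β y : ℤ) (hK : (N0 : ℤ) ∣ K) (h10 : γ3 1 0 = (q : ℤ) * K) (h11 : γ3 1 1 = 1)
    (hβ : K * β + (q : ℤ) * y = 1) (hχ1 : chi 1 = 1) (z : ℍ) :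
    h2 G q (γ3 • z) =
      chi y * (q : ℂ)⁻¹ * (G (((β : ℝ) / (q : ℝ)) +ᵥ z) / G (mulN q z)) := by
  rw [h2_mid hG hG0 q γ3 K β y hK h10 (by rw [h11]; exact hβ) z, h11, hχ1, div_one]

/-! ### Complements: the scaled law, periodicity, holomorphy -/

/-- `z ↦ G (q z)` satisfies the same law on `Γ₀(N0 q)`. -/
theorem Law.scale (hG : Law N0 chi G) (q : ℕ) [NeZero q] :
    Law (N0 * q) chi (fun z => G (mulN q z)) := by
  intro γ hγ z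
  refine G_mulN_smul hG q γ ?_ z
  have h := (mem_Gamma0_iff (N0 * q) γ).mp hγ
  simpa using h

/-- `h1 (z + 1) = h1 z`. -/
theorem h1_vadd_one (hG : Law N0 chi G) (hG0 : ∀ z, G z ≠ 0) (q : ℕ) [NeZero q] (z : ℍ) :
    h1 G q ((1 : ℝ) +ᵥ z) = h1 G q z := by
  rw [← UpperHalfPlane.modular_T_smul]
  exact h1_smul hG hG0 q ModularGroup.T (by simp [ModularGroup.T]) z

/-- `h2 (z + 1) = h2 z`. -/
theorem h2_vadd_one (hG : Law N0 chi G) (hG0 : ∀ z, G z ≠ 0) (q : ℕ) [NeZero q] (z : ℍ) :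
    h2 G q ((1 : ℝ) +ᵥ z) = h2 G q z := by
  rw [← UpperHalfPlane.modular_T_smul]
  exact h2_smul hG hG0 q ModularGroup.T (by simp [ModularGroup.T]) z

/-- Composition with `z ↦ d z` preserves holomorphy. -/
theorem mdiff_comp_mulN (d : ℕ) [NeZero d] {f : ℍ → ℂ} (hf : MDiff f) :
    MDiff (fun z => f (mulN d z)) := by
  rw [UpperHalfPlane.mdifferentiable_iff] at hf ⊢
  have hd : (0 : ℝ) < d := Nat.cast_pos.mpr (NeZero.pos d)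
  have hmaps : Set.MapsTo (fun w : ℂ => (d : ℂ) * w) {w | 0 < w.im} {w | 0 < w.im} := by
    intro w hw
    simpa using mul_pos hd hw
  have h1 : DifferentiableOn ℂ ((f ∘ ofComplex) ∘ (fun w : ℂ => (d : ℂ) * w)) {w | 0 < w.im} :=
    hf.comp (by fun_prop) hmaps
  refine h1.congr ?_
  intro w hw
  have hw' : 0 < ((d : ℂ) * w).im := hmaps hw
  simp only [Function.comp_apply]
  congr 1
  apply UpperHalfPlane.ext
  rw [coe_mulN, ofComplex_apply_of_im_pos hw, ofComplex_apply_of_im_pos hw']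

/-- Quotients of holomorphic functions by nowhere vanishing ones are holomorphic. -/
theorem mdiff_div {f g : ℍ → ℂ} (hf : MDiff f) (hg : MDiff g) (hg0 : ∀ z, g z ≠ 0) :
    MDiff (fun z => f z / g z) := by
  rw [UpperHalfPlane.mdifferentiable_iff] at hf hg ⊢
  exact hf.div hg (fun w _ => hg0 _)

/-- `h1` is holomorphic. -/
theorem mdiff_h1 (hGd : MDiff G) (hG0 : ∀ z, G z ≠ 0) (q : ℕ) [NeZero q] : MDiff (h1 G q) :=
  mdiff_div (mdiff_comp_mulN q hGd) hGd hG0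

/-- `h2` is holomorphic. -/
theorem mdiff_h2 (hGd : MDiff G) (hG0 : ∀ z, G z ≠ 0) (q : ℕ) [NeZero q] : MDiff (h2 G q) :=
  mdiff_div (mdiff_comp_mulN q (mdiff_comp_mulN q hGd)) (mdiff_comp_mulN q hGd)
    (fun _ => hG0 _)

end Fermat.Agent.S36.EtaHInv
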