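import Mathlib
import Fermat.Agent.S23.Basic
import Fermat.Agent.S24.Rot
import Fermat.Agent.S24.AnBridge

/-!
# S36 [MODEL3] / [IOTA3] B-copy (analytic route), file 1 (helper113): the shift law for nice functions, real shifts

For a `1`-periodic holomorphic function `F` on the upper half plane, bounded at `i∞`
(`F ∈ S23.niceSub`) and a REAL number `r`, the translate `z ↦ F (r + z)` is again nice and its
`q`-expansion is obtained from that of `F` by the rotation `q ↦ e^{2πi r} q`: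

* `shiftNice r : S23.niceSub →+* S23.niceSub`;
* `Phi_shiftNice : Phi (shiftNice r F) = rotHom (exp (2πi r)) (Phi F)`.

(The proof is the one of `S24/AnCuspShift.qExpansion_shift_coeff`, for period `1` and an arbitrary
real shift.)  Used for the middle-cusp embedding `ι3` in `S36/Iota3.lean`.
-/

set_option autoImplicit false

namespace Fermat.Agent.S36.Iota3AnShift

open UpperHalfPlane Filter Topology Function ModularForm
open Fermat.Agent
open scoped Real Manifold MatrixGroups ModularForm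

local notation "𝕢" => Function.Periodic.qParam

/-- The real translate `z ↦ f (r + z)` of a function on the upper half plane. -/
def shiftFun (r : ℝ) (f : ℍ → ℂ) : ℍ → ℂ := fun z => f (r +ᵥ z)

@[simp] theorem shiftFun_apply (r : ℝ) (f : ℍ → ℂ) (z : ℍ) : shiftFun r f z = f (r +ᵥ z) := rfl

/-- A function on `ℍ` invariant under `z ↦ h + z` gives an `h`-periodic function on `ℂ`. -/
theorem periodic_of_vadd {h : ℝ} {f : ℍ → ℂ} (hf : ∀ z : ℍ, f (h +ᵥ z) = f z) :
    Periodic (f ∘ ofComplex) (h : ℂ) := by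
  intro w
  by_cases hw : 0 < w.im
  · have hw' : 0 < (w + h).im := by simpa using hw
    simp only [comp_apply, ofComplex_apply_of_im_pos hw', ofComplex_apply_of_im_pos hw]
    rw [← hf ⟨w, hw⟩]
    congr 1
    ext
    simp [add_comm]
  · have hw0 : w.im ≤ 0 := not_lt.mp hw
    have hw' : (w + h).im ≤ 0 := by simpa using hw0
    simp [ofComplex_apply_of_im_nonpos hw', ofComplex_apply_of_im_nonpos hw0]

/-- Conversely, a nice function is invariant under `z ↦ 1 + z`. -/
theorem vadd_one_of_mem_niceSub {F : ℍ → ℂ} (hF : F ∈ S23.niceSub) (z : ℍ) :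
    F ((1 : ℝ) +ᵥ z) = F z := by
  have h := hF.1 (z : ℂ)
  simp only [comp_apply, ofComplex_apply] at h
  rw [← h]
  have hz : 0 < ((z : ℂ) + 1).im := by simpa using z.im_pos
  rw [ofComplex_apply_of_im_pos hz]
  congr 1
  ext
  simp [add_comm]

/-- The real translate of a holomorphic function on `ℍ` is holomorphic. -/
theorem shiftFun_mdiff {f : ℍ → ℂ} (hf : MDiff f) (x : ℝ) : MDiff (shiftFun x f) := by
  rw [UpperHalfPlane.mdifferentiable_iff] at hf ⊢
  have h1 : DifferentiableOn ℂ (fun w : ℂ => (f ∘ ofComplex) ((x : ℂ) + w)) {w | 0 < w.im} := by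
    intro w hw
    have hw' : 0 < ((x : ℂ) + w).im := by simpa using hw
    have h2 : DifferentiableAt ℂ (f ∘ ofComplex) ((x : ℂ) + w) :=
      (hf _ hw').differentiableAt (isOpen_upperHalfPlaneSet.mem_nhds hw')
    have h3 : DifferentiableAt ℂ (fun w : ℂ => (x : ℂ) + w) w := by fun_prop
    exact (h2.comp w h3).differentiableWithinAt
  refine h1.congr fun w hw => ?_
  have hw' : 0 < ((x : ℂ) + w).im := by simpa using hw
  simp only [comp_apply, shiftFun_apply, ofComplex_apply_of_im_pos hw,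
    ofComplex_apply_of_im_pos hw']
  congr 1

/-- The real translate of a function bounded at `i∞` is bounded at `i∞`. -/
theorem shiftFun_bdd {f : ℍ → ℂ} (hf : IsBoundedAtImInfty f) (x : ℝ) :
    IsBoundedAtImInfty (shiftFun x f) := by
  rw [isBoundedAtImInfty_iff] at hf ⊢
  obtain ⟨M, A, h⟩ := hf
  exact ⟨M, A, fun z hz => h _ (by simpa using hz)⟩

theorem shiftFun_vadd_one {F : ℍ → ℂ} (hF : F ∈ S23.niceSub) (r : ℝ) (z : ℍ) :
    shiftFun r F ((1 : ℝ) +ᵥ z) = shiftFun r F z := by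
  simp only [shiftFun_apply]
  rw [vadd_comm, vadd_one_of_mem_niceSub hF]

/-- The real translate of a nice function is nice. -/
theorem shiftFun_mem_niceSub {F : ℍ → ℂ} (hF : F ∈ S23.niceSub) (r : ℝ) :
    shiftFun r F ∈ S23.niceSub := by
  refine ⟨?_, shiftFun_mdiff hF.2.1 r, shiftFun_bdd hF.2.2 r⟩
  have h := periodic_of_vadd (h := 1) (f := shiftFun r F) (shiftFun_vadd_one hF r)
  simpa using h

/-- The real translation, as a ring endomorphism of the nice functions. -/
noncomputable def shiftNice (r : ℝ) : S23.niceSub →+* S23.niceSub where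
  toFun F := ⟨shiftFun r (F : ℍ → ℂ), shiftFun_mem_niceSub F.2 r⟩
  map_one' := rfl
  map_mul' _ _ := rfl
  map_zero' := rfl
  map_add' _ _ := rfl

@[simp] theorem shiftNice_apply (r : ℝ) (F : S23.niceSub) (z : ℍ) :
    ((shiftNice r F : S23.niceSub) : ℍ → ℂ) z = (F : ℍ → ℂ) (r +ᵥ z) := rfl

theorem qParam_shift (r : ℝ) (τ : ℍ) :
    𝕢 (1 : ℝ) (((r : ℝ) +ᵥ τ : ℍ) : ℂ)
      = Complex.exp (2 * π * Complex.I * r) * 𝕢 (1 : ℝ) (τ : ℂ) := by
  have h : (((r : ℝ) +ᵥ τ : ℍ) : ℂ) = (r : ℂ) + (τ : ℂ) := by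
    rw [UpperHalfPlane.coe_vadd]
  rw [h]
  unfold Function.Periodic.qParam
  rw [← Complex.exp_add]
  congr 1
  push_cast
  ring

/-- Uniqueness of `q`-expansion coefficients for bare functions `ℍ → ℂ`. -/
theorem coeff_unique {h : ℝ} {f : ℍ → ℂ} {c : ℕ → ℂ} (hh : 0 < h)
    (han : AnalyticAt ℂ (cuspFunction h f) 0)
    (hf : ∀ τ : ℍ, HasSum (fun m : ℕ => c m • 𝕢 h (τ : ℂ) ^ m) (f τ)) (m : ℕ) :
    c m = (qExpansion h f).coeff m := by
  let _inst : FunLike (ℍ → ℂ) ℍ ℂ := ⟨id, fun _ _ h => h⟩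
  exact qExpansion_coeff_unique (F := ℍ → ℂ) f hh han hf m

/-- **Shift law** (period `1`, real shift): replacing `F` by `F (r + ·)` multiplies the `n`-th
coefficient of the `q`-expansion by `exp (2πi r) ^ n`. -/
theorem qExpansion_shiftFun_coeff {F : ℍ → ℂ} (hF : F ∈ S23.niceSub) (r : ℝ) (n : ℕ) :
    (qExpansion (1 : ℝ) (shiftFun r F)).coeff n
      = Complex.exp (2 * π * Complex.I * r) ^ n * (qExpansion (1 : ℝ) F).coeff n := by
  have h1 : (0 : ℝ) < 1 := one_pos
  have hper : Periodic (F ∘ ofComplex) ((1 : ℝ) : ℂ) :=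
    periodic_of_vadd (vadd_one_of_mem_niceSub hF)
  have hgper : Periodic (shiftFun r F ∘ ofComplex) ((1 : ℝ) : ℂ) :=
    periodic_of_vadd (shiftFun_vadd_one hF r)
  have hgan : AnalyticAt ℂ (cuspFunction (1 : ℝ) (shiftFun r F)) 0 :=
    analyticAt_cuspFunction_zero h1 hgper (shiftFun_mdiff hF.2.1 r) (shiftFun_bdd hF.2.2 r)
  have hsum : ∀ τ : ℍ, HasSum (fun m : ℕ =>
      (Complex.exp (2 * π * Complex.I * r) ^ m * (qExpansion (1 : ℝ) F).coeff m)
        • 𝕢 (1 : ℝ) (τ : ℂ) ^ m) (shiftFun r F τ) := by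
    intro τ
    have h2 := hasSum_qExpansion h1 hper hF.2.1 hF.2.2 ((r : ℝ) +ᵥ τ)
    rw [qParam_shift] at h2
    show HasSum _ (F (r +ᵥ τ))
    convert h2 using 2 with m
    simp only [smul_eq_mul]
    ring
  exact (coeff_unique h1 hgan hsum n).symm

/-- Laurent-series form of the shift law: `Phi (F (r + ·)) = (q ↦ e^{2πi r} q) (Phi F)`. -/
theorem Phi_shiftNice (r : ℝ) (F : S23.niceSub) :
    S24.AnBridge.Phi (shiftNice r F) =
      S24.rotHom (Complex.exp (2 * π * Complex.I * r)) (Complex.exp_ne_zero _)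
        (S24.AnBridge.Phi F) := by
  ext k
  rw [S24.rotHom_coeff, S24.AnBridge.Phi_apply, S24.AnBridge.Phi_apply]
  rcases lt_or_ge k 0 with hk | hk
  · rw [ModularCurve.ofPowerSeries_coeff_of_neg _ hk, ModularCurve.ofPowerSeries_coeff_of_neg _ hk,
      mul_zero]
  · obtain ⟨n, rfl⟩ := Int.eq_ofNat_of_zero_le hk
    rw [HahnSeries.ofPowerSeries_apply_coeff, HahnSeries.ofPowerSeries_apply_coeff, zpow_natCast]
    exact qExpansion_shiftFun_coeff F.2 r n

end Fermat.Agent.S36.Iota3AnShift
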