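import Mathlib
import Fermat.Agent.S36.EtaHInv
import Fermat.Agent.S36.Iota3AnShift

/-!
# S36 [B1-eta] E8c/E8d: the analytic inputs of the function-field bridge for `h1`, `h2`

`Rep X y` : the function `X : ℍ → ℂ` is a quotient `A / B` of two nice functions
(`S23.niceSub`: `1`-periodic, holomorphic, bounded at `i∞`) and `y ∈ ℂ((t))` is the quotient of
their q-expansions (`y * Phi B = Phi A`).

* calculus: `Rep.of_nice`, `Rep.congr`, `Rep.mul`, `Rep.const_mul`, `Rep.inv` (for `X` nowhere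
  zero), `Rep.shift` (real translates ↔ `S24.rotHom`), `Rep.scale` (`z ↦ q z` ↔ `qExpand q`),
  `Rep.phi_eq` (for a nice `X` the series is its q-expansion), `Rep.unique`;
* for `G` nice and nowhere zero, `Φ := Phi G`: `rep_h1 : Rep (h1 G q) (Φ(t^q)/Φ(t))`,
  `rep_h2 : Rep (h2 G q) (Φ(t^{q²})/Φ(t^q))`, and `h1`, `h2`, `h1⁻¹`, `h2⁻¹ ∈ niceSub` with
  q-expansions `Phi_h1`, `Phi_h2` when `1/G` is bounded at `i∞`
  (`isBoundedAtImInfty_inv_of_tendsto`: e.g. when `G` has a nonzero limit at `i∞`).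
-/

set_option autoImplicit false

namespace Fermat.Agent.S36.EtaRep

open UpperHalfPlane ModularForm ModularCurve Filter Topology
open Fermat.Agent Fermat.Agent.S36.EtaHInv Fermat.Agent.S36.Iota3AnShift
open Fermat.Agent.S23 (mulN coe_mulN niceSub)
open Fermat.Agent.S24.AnBridge (Phi)
open scoped MatrixGroups ModularForm Manifold Real

/-- `X = A / B` with `A, B` nice functions, and `y` is the quotient of their q-expansions. -/
def Rep (X : ℍ → ℂ) (y : LaurentSeries ℂ) : Prop :=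
  MDiff X ∧ ∃ A B : S23.niceSub, B ≠ 0 ∧ (∀ z, X z * (B : ℍ → ℂ) z = (A : ℍ → ℂ) z) ∧
    y * Phi B = Phi A

/-! ### Nice functions -/

theorem one_ne_zero_nice : (1 : S23.niceSub) ≠ 0 := by
  intro h
  have h1 := congrArg (fun F : S23.niceSub => (F : ℍ → ℂ) UpperHalfPlane.I) h
  simp at h1

theorem Phi_ne_zero {B : S23.niceSub} (hB : B ≠ 0) : Phi B ≠ 0 := fun h =>
  hB (S24.AnBridge.Phi_injective (by rw [h, map_zero]))

theorem mul_ne_zero_nice {B B' : S23.niceSub} (hB : B ≠ 0) (hB' : B' ≠ 0) : B * B' ≠ 0 := by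
  intro h
  have h1 : Phi B * Phi B' = 0 := by rw [← map_mul, h, map_zero]
  rcases mul_eq_zero.mp h1 with h2 | h2
  · exact Phi_ne_zero hB h2
  · exact Phi_ne_zero hB' h2

/-- The scaled nice function `z ↦ F (q z)`. -/
noncomputable def scaleNice (q : ℕ) [NeZero q] (F : S23.niceSub) : S23.niceSub :=
  ⟨fun z => (F : ℍ → ℂ) (mulN q z), S24.AnBridge.scale_mem_niceSub q F.2⟩

@[simp] theorem scaleNice_apply (q : ℕ) [NeZero q] (F : S23.niceSub) (z : ℍ) :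
    ((scaleNice q F : S23.niceSub) : ℍ → ℂ) z = (F : ℍ → ℂ) (mulN q z) := rfl

theorem Phi_scaleNice (q : ℕ) [NeZero q] (F : S23.niceSub) :
    Phi (scaleNice q F) = qExpand ℂ q (Phi F) :=
  S24.AnBridge.ofPowerSeries_qExpansion_scale q F.2

theorem scaleNice_ne_zero (q : ℕ) [NeZero q] {B : S23.niceSub} (hB : B ≠ 0) :
    scaleNice q B ≠ 0 := by
  intro h
  have h1 : qExpand ℂ q (Phi B) = 0 := by rw [← Phi_scaleNice, h, map_zero]
  exact Phi_ne_zero hB ((map_eq_zero (qExpand ℂ q)).mp h1)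

theorem shiftNice_ne_zero (r : ℝ) {B : S23.niceSub} (hB : B ≠ 0) : shiftNice r B ≠ 0 := by
  intro h
  have h1 : S24.rotHom (Complex.exp (2 * π * Complex.I * r)) (Complex.exp_ne_zero _) (Phi B) = 0 := by
    rw [← Phi_shiftNice, h, map_zero]
  exact Phi_ne_zero hB (S24.rotHom_injective _ _ (by rw [h1, map_zero]))

/-! ### The calculus of `Rep` -/

theorem Rep.mdiff {X : ℍ → ℂ} {y : LaurentSeries ℂ} (h : Rep X y) : MDiff X := h.1

/-- A nice function is represented by its q-expansion. -/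
theorem Rep.of_nice (F : S23.niceSub) : Rep (F : ℍ → ℂ) (Phi F) :=
  ⟨F.2.2.1, F, 1, one_ne_zero_nice, fun z => by simp, by rw [map_one, mul_one]⟩

theorem Rep.congr {X X' : ℍ → ℂ} {y : LaurentSeries ℂ} (h : Rep X y) (hX : ∀ z, X' z = X z) :
    Rep X' y := by
  have e : X' = X := funext hX
  rw [e]
  exact h

theorem Rep.congr_right {X : ℍ → ℂ} {y y' : LaurentSeries ℂ} (h : Rep X y) (hy : y' = y) :
    Rep X y' := by
  rw [hy]
  exact h

theorem Rep.mul {X X' : ℍ → ℂ} {y y' : LaurentSeries ℂ} (h : Rep X y) (h' : Rep X' y') :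
    Rep (fun z => X z * X' z) (y * y') := by
  obtain ⟨hX, A, B, hB, hAB, hy⟩ := h
  obtain ⟨hX', A', B', hB', hAB', hy'⟩ := h'
  refine ⟨hX.mul hX', A * A', B * B', mul_ne_zero_nice hB hB', fun z => ?_, ?_⟩
  · show X z * X' z * ((B : ℍ → ℂ) z * (B' : ℍ → ℂ) z) = (A : ℍ → ℂ) z * (A' : ℍ → ℂ) z
    rw [← hAB z, ← hAB' z]
    ring
  · rw [map_mul, map_mul, ← hy, ← hy']
    ring

theorem Rep.const_mul {X : ℍ → ℂ} {y : LaurentSeries ℂ} (h : Rep X y) (c : ℂ) :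
    Rep (fun z => c * X z) (algebraMap ℂ (LaurentSeries ℂ) c * y) := by
  obtain ⟨hX, A, B, hB, hAB, hy⟩ := h
  refine ⟨(mdifferentiable_const (c := c)).mul hX, algebraMap ℂ S23.niceSub c * A, B, hB,
    fun z => ?_, ?_⟩
  · show c * X z * (B : ℍ → ℂ) z = c * (A : ℍ → ℂ) z
    rw [← hAB z]
    ring
  · rw [map_mul, S24.AnBridge.Phi_algebraMap, ← hy]
    ring

/-- The series of a nowhere vanishing represented function is nonzero. -/
theorem Rep.ne_zero {X : ℍ → ℂ} {y : LaurentSeries ℂ} (h : Rep X y) (hX : ∀ z, X z ≠ 0) :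
    y ≠ 0 := by
  obtain ⟨-, A, B, hB, hAB, hy⟩ := h
  intro h0
  rw [h0, zero_mul] at hy
  have hA : A = 0 := S24.AnBridge.Phi_injective (by rw [← hy, map_zero])
  apply hB
  apply Subtype.ext
  funext z
  have h1 := hAB z
  rw [hA] at h1
  have h2 : X z * (B : ℍ → ℂ) z = 0 := h1
  rcases mul_eq_zero.mp h2 with h3 | h3
  · exact absurd h3 (hX z)
  · exact h3

theorem Rep.inv {X : ℍ → ℂ} {y : LaurentSeries ℂ} (h : Rep X y) (hX : ∀ z, X z ≠ 0) :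
    Rep (fun z => (X z)⁻¹) y⁻¹ := by
  have hy0 := h.ne_zero hX
  obtain ⟨hXd, A, B, hB, hAB, hy⟩ := h
  have hA : A ≠ 0 := by
    intro hA
    rw [hA, map_zero] at hy
    rcases mul_eq_zero.mp hy with h1 | h1
    · exact hy0 h1
    · exact Phi_ne_zero hB h1
  refine ⟨?_, B, A, hA, fun z => ?_, ?_⟩
  · have h1 : MDiff (fun z => (1 : ℂ) / X z) :=
      mdiff_div (mdifferentiable_const (c := (1 : ℂ))) hXd hX
    have e : (fun z => (X z)⁻¹) = fun z => (1 : ℂ) / X z := funext fun z => (one_div _).symm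
    rw [e]
    exact h1
  · rw [← hAB z, ← mul_assoc, inv_mul_cancel₀ (hX z), one_mul]
  · rw [← hy, ← mul_assoc, inv_mul_cancel₀ hy0, one_mul]

theorem Rep.div {X X' : ℍ → ℂ} {y y' : LaurentSeries ℂ} (h : Rep X y) (h' : Rep X' y')
    (hX' : ∀ z, X' z ≠ 0) : Rep (fun z => X z / X' z) (y * y'⁻¹) :=
  (h.mul (h'.inv hX')).congr fun _ => div_eq_mul_inv _ _

/-- Real translates: `X (r + ·)` is represented by the rotated series. -/
theorem Rep.shift {X : ℍ → ℂ} {y : LaurentSeries ℂ} (h : Rep X y) (r : ℝ) :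
    Rep (shiftFun r X)
      (S24.rotHom (Complex.exp (2 * π * Complex.I * r)) (Complex.exp_ne_zero _) y) := by
  obtain ⟨hX, A, B, hB, hAB, hy⟩ := h
  refine ⟨shiftFun_mdiff hX r, shiftNice r A, shiftNice r B, shiftNice_ne_zero r hB,
    fun z => ?_, ?_⟩
  · exact hAB (r +ᵥ z)
  · rw [Phi_shiftNice, Phi_shiftNice, ← map_mul, hy]

/-- Scaling: `X (q ·)` is represented by `y (t^q)`. -/
theorem Rep.scale {X : ℍ → ℂ} {y : LaurentSeries ℂ} (h : Rep X y) (q : ℕ) [NeZero q] :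
    Rep (fun z => X (mulN q z)) (qExpand ℂ q y) := by
  obtain ⟨hX, A, B, hB, hAB, hy⟩ := h
  refine ⟨mdiff_comp_mulN q hX, scaleNice q A, scaleNice q B, scaleNice_ne_zero q hB,
    fun z => ?_, ?_⟩
  · exact hAB (mulN q z)
  · rw [Phi_scaleNice, Phi_scaleNice, ← map_mul, hy]

/-- The series representing a given function is unique. -/
theorem Rep.unique {X : ℍ → ℂ} {y y' : LaurentSeries ℂ} (h : Rep X y) (h' : Rep X y') :
    y = y' := by
  obtain ⟨-, A, B, hB, hAB, hy⟩ := h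
  obtain ⟨-, A', B', hB', hAB', hy'⟩ := h'
  have hAB'' : A * B' = A' * B := by
    apply Subtype.ext
    funext z
    show (A : ℍ → ℂ) z * (B' : ℍ → ℂ) z = (A' : ℍ → ℂ) z * (B : ℍ → ℂ) z
    rw [← hAB z, ← hAB' z]
    ring
  have h1 : Phi A * Phi B' = Phi A' * Phi B := by rw [← map_mul, ← map_mul, hAB'']
  rw [← hy, ← hy'] at h1
  have h2 : (y - y') * (Phi B * Phi B') = 0 := by linear_combination h1
  rcases mul_eq_zero.mp h2 with h3 | h3
  · exact sub_eq_zero.mp h3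
  · exact absurd h3 (mul_ne_zero (Phi_ne_zero hB) (Phi_ne_zero hB'))

/-- For a nice function the representing series is the q-expansion. -/
theorem Rep.phi_eq {y : LaurentSeries ℂ} (F : S23.niceSub) (h : Rep (F : ℍ → ℂ) y) :
    Phi F = y :=
  (Rep.of_nice F).unique h

/-! ### (i) `h1`, `h2` and their inverses -/

section G

variable {G : ℍ → ℂ}

theorem mem_niceSub_of_eq {X F : ℍ → ℂ} (hF : F ∈ S23.niceSub) (h : ∀ z, X z = F z) :
    X ∈ S23.niceSub := by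
  have e : X = F := funext h
  rw [e]
  exact hF

/-- A limit `c ≠ 0` at `i∞` gives a bounded inverse. -/
theorem isBoundedAtImInfty_inv_of_tendsto {c : ℂ} (hc : c ≠ 0)
    (h : Tendsto G atImInfty (𝓝 c)) : IsBoundedAtImInfty (fun z => (G z)⁻¹) :=
  (h.inv₀ hc).isBigO_one ℝ

/-- The inverse of a nowhere vanishing nice function with bounded inverse is nice. -/
theorem inv_mem_niceSub (hGn : G ∈ S23.niceSub) (hG0 : ∀ z, G z ≠ 0)
    (hGib : IsBoundedAtImInfty (fun z => (G z)⁻¹)) : (fun z => (G z)⁻¹) ∈ S23.niceSub := by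
  refine ⟨fun w => ?_, ((Rep.of_nice ⟨G, hGn⟩).inv hG0).mdiff, hGib⟩
  have h := hGn.1 w
  simp only [Function.comp_apply] at h ⊢
  rw [h]

/-- `h1 = G(q·)/G` is nice. -/
theorem h1_mem_niceSub (hGn : G ∈ S23.niceSub) (hG0 : ∀ z, G z ≠ 0)
    (hGib : IsBoundedAtImInfty (fun z => (G z)⁻¹)) (q : ℕ) [NeZero q] :
    h1 G q ∈ S23.niceSub :=
  mem_niceSub_of_eq
    (S23.niceSub.mul_mem (S24.AnBridge.scale_mem_niceSub q hGn) (inv_mem_niceSub hGn hG0 hGib))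
    (fun _ => div_eq_mul_inv _ _)

/-- `1/h1 = G/G(q·)` is nice. -/
theorem h1_inv_mem_niceSub (hGn : G ∈ S23.niceSub) (hG0 : ∀ z, G z ≠ 0)
    (hGib : IsBoundedAtImInfty (fun z => (G z)⁻¹)) (q : ℕ) [NeZero q] :
    (fun z => (h1 G q z)⁻¹) ∈ S23.niceSub :=
  mem_niceSub_of_eq
    (S23.niceSub.mul_mem hGn
      (S24.AnBridge.scale_mem_niceSub q (inv_mem_niceSub hGn hG0 hGib)))
    (fun z => by
      show (G (mulN q z) / G z)⁻¹ = G z * (G (mulN q z))⁻¹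
      rw [inv_div, div_eq_mul_inv])

/-- `h2 = G(q²·)/G(q·)` is nice. -/
theorem h2_mem_niceSub (hGn : G ∈ S23.niceSub) (hG0 : ∀ z, G z ≠ 0)
    (hGib : IsBoundedAtImInfty (fun z => (G z)⁻¹)) (q : ℕ) [NeZero q] :
    h2 G q ∈ S23.niceSub :=
  S24.AnBridge.scale_mem_niceSub q (h1_mem_niceSub hGn hG0 hGib q)

/-- `1/h2` is nice. -/
theorem h2_inv_mem_niceSub (hGn : G ∈ S23.niceSub) (hG0 : ∀ z, G z ≠ 0)
    (hGib : IsBoundedAtImInfty (fun z => (G z)⁻¹)) (q : ℕ) [NeZero q] :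
    (fun z => (h2 G q z)⁻¹) ∈ S23.niceSub :=
  S24.AnBridge.scale_mem_niceSub q (h1_inv_mem_niceSub hGn hG0 hGib q)

/-- The series of `h1`: `Φ(t^q) / Φ(t)`, `Φ` the q-expansion of `G`. -/
noncomputable def y1 (Φ : LaurentSeries ℂ) (q : ℕ) [NeZero q] : LaurentSeries ℂ :=
  qExpand ℂ q Φ * Φ⁻¹

/-- The series of `h2`: `Φ(t^{q²}) / Φ(t^q)`. -/
noncomputable def y2 (Φ : LaurentSeries ℂ) (q : ℕ) [NeZero q] : LaurentSeries ℂ :=
  qExpand ℂ q (y1 Φ q)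

theorem y2_eq (Φ : LaurentSeries ℂ) (q : ℕ) [NeZero q] :
    y2 Φ q = qExpand ℂ q (qExpand ℂ q Φ) * (qExpand ℂ q Φ)⁻¹ := by
  rw [y2, y1, map_mul, map_inv₀]

/-- `Rep G (Phi G)`. -/
theorem rep_G (hGn : G ∈ S23.niceSub) : Rep G (Phi ⟨G, hGn⟩) := Rep.of_nice ⟨G, hGn⟩

/-- **(i)** `h1` is represented by `Φ(t^q)/Φ(t)`. -/
theorem rep_h1 (hGn : G ∈ S23.niceSub) (hG0 : ∀ z, G z ≠ 0) (q : ℕ) [NeZero q] :
    Rep (h1 G q) (y1 (Phi ⟨G, hGn⟩) q) :=
  ((rep_G hGn).scale q).div (rep_G hGn) hG0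

/-- **(i)** `h2` is represented by `Φ(t^{q²})/Φ(t^q)`. -/
theorem rep_h2 (hGn : G ∈ S23.niceSub) (hG0 : ∀ z, G z ≠ 0) (q : ℕ) [NeZero q] :
    Rep (h2 G q) (y2 (Phi ⟨G, hGn⟩) q) :=
  (rep_h1 hGn hG0 q).scale q

/-- The q-expansion of `h1` (as a nice function). -/
theorem Phi_h1 (hGn : G ∈ S23.niceSub) (hG0 : ∀ z, G z ≠ 0)
    (hGib : IsBoundedAtImInfty (fun z => (G z)⁻¹)) (q : ℕ) [NeZero q] :
    Phi ⟨h1 G q, h1_mem_niceSub hGn hG0 hGib q⟩ = y1 (Phi ⟨G, hGn⟩) q :=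
  Rep.phi_eq ⟨h1 G q, h1_mem_niceSub hGn hG0 hGib q⟩ (rep_h1 hGn hG0 q)

/-- The q-expansion of `h2` (as a nice function). -/
theorem Phi_h2 (hGn : G ∈ S23.niceSub) (hG0 : ∀ z, G z ≠ 0)
    (hGib : IsBoundedAtImInfty (fun z => (G z)⁻¹)) (q : ℕ) [NeZero q] :
    Phi ⟨h2 G q, h2_mem_niceSub hGn hG0 hGib q⟩ = y2 (Phi ⟨G, hGn⟩) q :=
  Rep.phi_eq ⟨h2 G q, h2_mem_niceSub hGn hG0 hGib q⟩ (rep_h2 hGn hG0 q)

theorem y1_ne_zero (hGn : G ∈ S23.niceSub) (hG0 : ∀ z, G z ≠ 0) (q : ℕ) [NeZero q] :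
    y1 (Phi ⟨G, hGn⟩) q ≠ 0 :=
  (rep_h1 hGn hG0 q).ne_zero (h1_ne_zero hG0 q)

theorem y2_ne_zero (hGn : G ∈ S23.niceSub) (hG0 : ∀ z, G z ≠ 0) (q : ℕ) [NeZero q] :
    y2 (Phi ⟨G, hGn⟩) q ≠ 0 :=
  (rep_h2 hGn hG0 q).ne_zero (h2_ne_zero hG0 q)

end G

end Fermat.Agent.S36.EtaRep
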