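import Mathlib
import Fermat.Agent.S35.ALQx
import Fermat.Agent.S36.EtaRep

/-!
# S36 [B1-eta]: the level-`q` Atkin–Lehner identity for `h1 = G(qz)/G(z)` in the function field

`G` nice, nowhere zero, with bounded inverse at `i∞` and the weight-one law `EtaHInv.Law N0 chi G`,
`N0 ∣ M`, `q` prime, `q ∤ M`.  If `g ∈ F̄_{Mq}` has the q-expansion of `h1` then

  `w_q (g) = c · g⁻¹`,  `c = chi 1 / chi q · q⁻¹`

(`wBar_h1`), and the same in `F_K` for `S34.WK.wK` (`wK_h1`).  This is `S35.ALQx.alqx` (weight `0`,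
`A = h1`, `B = 1`) combined with `EtaHInv.h1_ALq`.
-/

set_option autoImplicit false

namespace Fermat.Agent.S36.EtaALq

open UpperHalfPlane ModularForm ModularCurve Filter Topology
open Fermat.Agent Fermat.Agent.S18.Arith Fermat.Agent.S36.EtaHInv Fermat.Agent.S36.EtaRep
open Fermat.Agent.S23 (mulN coe_mulN niceSub)
open Fermat.Agent.S24 (embC)
open Fermat.Agent.S24.AnBridge (Phi)
open scoped MatrixGroups ModularForm Manifold Real

local notation "Qb" => AlgebraicClosure ℚ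

/-- Bézout: an Atkin–Lehner matrix `(a b; M q)` exists for `q` prime, `q ∤ M`. -/
theorem exists_bezout (M q : ℕ) (hq : q.Prime) (hqM : ¬ q ∣ M) :
    ∃ a b : ℤ, a * (q : ℤ) - b * (M : ℤ) = 1 := by
  have hcop : IsCoprime (q : ℤ) (M : ℤ) :=
    Nat.isCoprime_iff_coprime.mpr ((Nat.Prime.coprime_iff_not_dvd hq).mpr hqM)
  obtain ⟨u, v, huv⟩ := hcop
  exact ⟨u, -v, by linarith⟩

section Main

variable (M q : ℕ) [NeZero M] [NeZero q] (hq : q.Prime) (hqM : ¬ q ∣ M)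
variable {N0 : ℕ} {chi : ℤ → ℂ} {G : ℍ → ℂ}

/-- The q-expansion of `z ↦ c · (h1 z)⁻¹`. -/
theorem qx_const_mul_h1_inv (hGn : G ∈ S23.niceSub) (hG0 : ∀ z, G z ≠ 0)
    (hGib : IsBoundedAtImInfty (fun z => (G z)⁻¹)) (c : ℂ) :
    S29.K.qx (fun z => c * (h1 G q z)⁻¹) =
      algebraMap ℂ (LaurentSeries ℂ) c * (S29.K.qx (h1 G q))⁻¹ := by
  have hn : (fun z => c * (h1 G q z)⁻¹) ∈ S23.niceSub :=
    mem_niceSub_of_eq
      (S23.niceSub.mul_mem (S23.niceSub.algebraMap_mem c) (h1_inv_mem_niceSub hGn hG0 hGib q))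
      (fun _ => rfl)
  have e1 : Rep (fun z => c * (h1 G q z)⁻¹)
      (algebraMap ℂ (LaurentSeries ℂ) c * (y1 (Phi ⟨G, hGn⟩) q)⁻¹) :=
    ((rep_h1 hGn hG0 q).inv (h1_ne_zero hG0 q)).const_mul c
  have e2 := Rep.phi_eq ⟨_, hn⟩ e1
  have e3 := Phi_h1 hGn hG0 hGib q
  show Phi ⟨_, hn⟩ =
    algebraMap ℂ (LaurentSeries ℂ) c * (Phi ⟨h1 G q, h1_mem_niceSub hGn hG0 hGib q⟩)⁻¹
  rw [e2, e3]

/-- **Level-`q` Atkin–Lehner identity, `F̄` form**: `w_q(g) = c · g⁻¹` for the element `g` of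
`F̄_{Mq}` with the q-expansion of `h1 = G(qz)/G(z)`. -/
theorem wBar_h1 (hG : Law N0 chi G) (hG0 : ∀ z, G z ≠ 0) (hGn : G ∈ S23.niceSub)
    (hGib : IsBoundedAtImInfty (fun z => (G z)⁻¹)) (hN0 : N0 ∣ M)
    (g : modularFunctionFieldBar (M * q))
    (hg : coeffMap embC (g : LaurentSeries Qb) = S29.K.qx (h1 G q))
    (c' : Qb) (hc' : embC c' = chi 1 / chi (q : ℤ) * (q : ℂ)⁻¹) :
    S34.WK.wBar M q hq hqM g = algebraMap Qb (modularFunctionFieldBar (M * q)) c' * g⁻¹ := by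
  obtain ⟨a, b, hab⟩ := exists_bezout M q hq hqM
  set γ₀ : SL(2, ℤ) := mk4 a b (M : ℤ) (q : ℤ) hab with hγ₀
  have h₀ : (γ₀ : Matrix (Fin 2) (Fin 2) ℤ) = !![a, b; (M : ℤ), (q : ℤ)] := rfl
  have hK : (N0 : ℤ) ∣ γ₀ 1 0 := by
    rw [hγ₀, mk4_10]
    exact Int.natCast_dvd_natCast.mpr hN0
  have h11 : γ₀ 1 1 = (q : ℤ) * 1 := by rw [hγ₀, mk4_11, mul_one]
  have hAW : S35.ALQx.AW γ₀ q 0 (h1 G q) =
      fun z => (chi 1 / chi (q : ℤ) * (q : ℂ)⁻¹) * (h1 G q z)⁻¹ := by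
    funext z
    rw [S35.ALQx.AW_apply, neg_zero, zpow_zero, mul_one, h1_ALq hG hG0 q γ₀ 1 hK h11 z, mul_one]
  have hBW : S35.ALQx.AW γ₀ q 0 (1 : ℍ → ℂ) = 1 := by
    funext z
    rw [S35.ALQx.AW_apply, neg_zero, zpow_zero, mul_one]
    rfl
  have hone : (1 : ℍ → ℂ) ∈ S23.niceSub := S23.niceSub.one_mem
  have hqx1 : S29.K.qx (1 : ℍ → ℂ) = 1 := by
    show Phi (1 : S23.niceSub) = 1
    exact map_one Phi
  have hh1 := h1_mem_niceSub hGn hG0 hGib q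
  have hAWn : S35.ALQx.AW γ₀ q 0 (h1 G q) ∈ S23.niceSub := by
    rw [hAW]
    exact mem_niceSub_of_eq
      (S23.niceSub.mul_mem (S23.niceSub.algebraMap_mem _) (h1_inv_mem_niceSub hGn hG0 hGib q))
      (fun _ => rfl)
  have hBWn : S35.ALQx.AW γ₀ q 0 (1 : ℍ → ℂ) ∈ S23.niceSub := by
    rw [hBW]
    exact hone
  have key := S35.ALQx.alqx M q hq hqM γ₀ a b h₀ 0 hh1 hone hAWn hBWn g
    (by rw [hqx1, mul_one, hg])
  rw [hBW, hqx1, mul_one, hAW, qx_const_mul_h1_inv q hGn hG0 hGib, ← hg, ← hc'] at key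
  apply Subtype.ext
  apply S24.AnBridge.coeffMap_embC_injective
  rw [key]
  show _ = coeffMap embC ((algebraMap Qb (LaurentSeries Qb) c') * ((g : LaurentSeries Qb))⁻¹)
  rw [map_mul, map_inv₀, S24.AnBridge.coeffMap_embC_algebraMap]

/-- Constants of `K` in `F_K` and in `F̄`. -/
theorem toBar_algebraMap_K (N : ℕ) [NeZero N] (K : IntermediateField ℚ Qb) (c : K) :
    S18.Glob.toBar N K (algebraMap K (FK N K) c)
      = algebraMap Qb (modularFunctionFieldBar N) ((c : K) : Qb) := by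
  apply Subtype.ext
  rw [S18.Glob.coe_toBar]
  show (HahnSeries.C ((c : K) : Qb) : LaurentSeries Qb) = algebraMap Qb (LaurentSeries Qb) _
  rw [algebraMap_laurentSeries_eq_single]
  rfl

/-- **Level-`q` Atkin–Lehner identity, `F_K` form**: `w_q(x) = c · x⁻¹` for the element `x` of
`F_K(Mq)` with the q-expansion of `h1 = G(qz)/G(z)`. -/
theorem wK_h1 (hG : Law N0 chi G) (hG0 : ∀ z, G z ≠ 0) (hGn : G ∈ S23.niceSub)
    (hGib : IsBoundedAtImInfty (fun z => (G z)⁻¹)) (hN0 : N0 ∣ M)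
    (K : IntermediateField ℚ Qb) (x : FK (M * q) K)
    (hx : coeffMap embC ((x : FK (M * q) K) : LaurentSeries Qb) = S29.K.qx (h1 G q))
    (c' : K) (hc' : embC ((c' : K) : Qb) = chi 1 / chi (q : ℤ) * (q : ℂ)⁻¹) :
    S34.WK.wK M q hq hqM K x = algebraMap K (FK (M * q) K) c' * x⁻¹ := by
  apply (S18.Glob.toBar (M * q) K).injective
  rw [S34.WK.toBar_wK, map_mul, map_inv₀, toBar_algebraMap_K]
  exact wBar_h1 M q hq hqM hG hG0 hGn hGib hN0 (S18.Glob.toBar (M * q) K x) hx (c' : Qb) hc'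

/-- `F̄` form for a quadratic character value `chi q = ε ∈ {1, -1}` and `chi 1 = 1`:
`w_q(g) = (ε q⁻¹) · g⁻¹`. -/
theorem wBar_h1_sign (hG : Law N0 chi G) (hG0 : ∀ z, G z ≠ 0) (hGn : G ∈ S23.niceSub)
    (hGib : IsBoundedAtImInfty (fun z => (G z)⁻¹)) (hN0 : N0 ∣ M)
    (g : modularFunctionFieldBar (M * q))
    (hg : coeffMap embC (g : LaurentSeries Qb) = S29.K.qx (h1 G q))
    (hχ1 : chi 1 = 1) (ε : ℤ) (hε : ε = 1 ∨ ε = -1) (hχq : chi (q : ℤ) = (ε : ℂ)) :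
    S34.WK.wBar M q hq hqM g =
      algebraMap Qb (modularFunctionFieldBar (M * q)) ((ε : Qb) * (q : Qb)⁻¹) * g⁻¹ := by
  refine wBar_h1 M q hq hqM hG hG0 hGn hGib hN0 g hg _ ?_
  rw [map_mul, map_inv₀, map_intCast, map_natCast, hχ1, hχq]
  rcases hε with rfl | rfl <;> norm_num

/-- `F_K` form for a quadratic character value `chi q = ε ∈ {1, -1}` and `chi 1 = 1`. -/
theorem wK_h1_sign (hG : Law N0 chi G) (hG0 : ∀ z, G z ≠ 0) (hGn : G ∈ S23.niceSub)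
    (hGib : IsBoundedAtImInfty (fun z => (G z)⁻¹)) (hN0 : N0 ∣ M)
    (K : IntermediateField ℚ Qb) (x : FK (M * q) K)
    (hx : coeffMap embC ((x : FK (M * q) K) : LaurentSeries Qb) = S29.K.qx (h1 G q))
    (hχ1 : chi 1 = 1) (ε : ℤ) (hε : ε = 1 ∨ ε = -1) (hχq : chi (q : ℤ) = (ε : ℂ)) :
    S34.WK.wK M q hq hqM K x =
      algebraMap K (FK (M * q) K) ((ε : K) * (q : K)⁻¹) * x⁻¹ := by
  refine wK_h1 M q hq hqM hG hG0 hGn hGib hN0 K x hx _ ?_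
  push_cast
  rw [map_mul, map_inv₀, map_intCast, map_natCast, hχ1, hχq]
  rcases hε with rfl | rfl <;> norm_num

end Main

end Fermat.Agent.S36.EtaALq
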