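import Mathlib

/-!
# S36 [B1-eta] E4 (copy B, helper104): `q`-expansion integrality of the weight-one eta quotients

Mathlib only.  Main results (`η = ModularForm.eta`, `q = e^{2πiτ}`):

* `eulerSeries : PowerSeries ℤ` -- the formal Euler product `∏_{n ≥ 1} (1 - t^n)`, with
  `constantCoeff_eulerSeries` and `hasSum_eulerSeries`:
  `∏' n, (1 - q^(n+1)) = ∑ eulerSeries_m q^m` for `‖q‖ < 1`
  (route: `tprod_one_add` + `summable_finsetProd_of_summable_norm`, regrouping the sum over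
  finite subsets by weight; no derivatives, no pentagonal number theorem);
* `IsIntQ F P` -- `F : ℍ → ℂ` is `1`-periodic, holomorphic, bounded at `i∞`, with `q`-expansion
  `P ∈ ℤ[[t]]`; closed under `mul`, `pow`, `inv`, `div` (nowhere-vanishing denominators with
  constant coefficient `1`) and under `τ ↦ dτ` (`comp_scale`, giving `PowerSeries.expand d P`);
* `isIntQ_G4`, `isIntQ_G9` -- for ANY `G` with `G z = η(2z)^10 / (η(z)^4 η(4z)^4)`
  resp. `G z = η(z)^3 / η(3z)`: `IsIntQ G P4` resp. `IsIntQ G P9`, with explicit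
  `P4, P9 ∈ 1 + tℤ[[t]]` (`constantCoeff_P4`, `constantCoeff_P9`);
* `hSeries P d = P(t^d)/P(t) ∈ 1 + tℤ[[t]]`, `IsIntQ.quot_scale` (the `q`-expansion of
  `G(dτ)/G(τ)`), `IsIntQ.qExpansion_quot_mul`, and the Frobenius congruences `map_expand_zmod`,
  `map_hSeries_zmod` (`h · P ≡ P^q mod q`);
* `exists_series_G4`, `exists_series_G9` -- the summary in the shape of the package plan.
-/

set_option autoImplicit false

namespace Fermat.Agent.S36.EtaInt

open scoped BigOperators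

/-- The weight `∑_{n ∈ s} (n + 1)` of a finite set of naturals. -/
def wt (s : Finset ℕ) : ℕ := ∑ n ∈ s, (n + 1)

theorem subset_range_wt (s : Finset ℕ) : s ⊆ Finset.range (wt s) := by
  intro n hn
  rw [Finset.mem_range]
  have h : n + 1 ≤ wt s :=
    Finset.single_le_sum (f := fun n => n + 1) (fun _ _ => Nat.zero_le _) hn
  omega

/-- The finite sets of weight `m`. -/
def fib (m : ℕ) : Finset (Finset ℕ) := (Finset.range m).powerset.filter (fun s => wt s = m)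

theorem mem_fib {m : ℕ} {s : Finset ℕ} : s ∈ fib m ↔ wt s = m := by
  unfold fib
  rw [Finset.mem_filter, Finset.mem_powerset]
  constructor
  · exact fun h => h.2
  · intro h
    exact ⟨h ▸ subset_range_wt s, h⟩

/-- The coefficients of Euler's product `∏_{n ≥ 1} (1 - t ^ n)`. -/
def eulerCoeff (m : ℕ) : ℤ := ∑ s ∈ fib m, (-1) ^ s.card

theorem eulerCoeff_zero : eulerCoeff 0 = 1 := by
  have h : fib 0 = {∅} := by
    ext s
    rw [mem_fib, Finset.mem_singleton]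
    constructor
    · intro h
      have := subset_range_wt s
      rw [h] at this
      simpa using this
    · rintro rfl
      simp [wt]
  simp [eulerCoeff, h]

theorem hasSum_eulerCoeff {q : ℂ} (hq : ‖q‖ < 1) :
    HasSum (fun m => (eulerCoeff m : ℂ) * q ^ m) (∏' n : ℕ, (1 - q ^ (n + 1))) := by
  have hsum : Summable (fun n : ℕ => ‖-q ^ (n + 1)‖) := by
    simpa using (summable_nat_add_iff 1).mpr (summable_geometric_of_lt_one (norm_nonneg _) hq)
  have h1 : Summable (fun s : Finset ℕ => ∏ n ∈ s, (-q ^ (n + 1))) :=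
    summable_finsetProd_of_summable_norm hsum
  have h2 : ∏' n : ℕ, (1 + (-q ^ (n + 1))) = ∑' s : Finset ℕ, ∏ n ∈ s, (-q ^ (n + 1)) :=
    tprod_one_add h1
  have h3 : ∀ s : Finset ℕ, ∏ n ∈ s, (-q ^ (n + 1)) = (-1 : ℂ) ^ s.card * q ^ wt s := by
    intro s
    rw [wt, ← Finset.prod_pow_eq_pow_sum, ← Finset.prod_const, ← Finset.prod_mul_distrib]
    exact Finset.prod_congr rfl fun n _ => by ring
  have h4 : HasSum (fun s : Finset ℕ => (-1 : ℂ) ^ s.card * q ^ wt s)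
      (∏' n : ℕ, (1 - q ^ (n + 1))) := by
    have h := h1.hasSum
    rw [← h2] at h
    simp only [h3, ← sub_eq_add_neg] at h
    exact h
  have h5 := (Equiv.sigmaFiberEquiv wt).hasSum_iff.mpr h4
  refine HasSum.sigma h5 (fun m => ?_)
  have h6 : HasSum (Set.indicator {s | wt s = m}
      (fun s : Finset ℕ => (-1 : ℂ) ^ s.card * q ^ wt s))
      (∑ s ∈ fib m, (-1 : ℂ) ^ s.card * q ^ wt s) := by
    have h : HasSum (Set.indicator {s | wt s = m}
        (fun s : Finset ℕ => (-1 : ℂ) ^ s.card * q ^ wt s))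
        (∑ s ∈ fib m, Set.indicator {s | wt s = m}
          (fun s : Finset ℕ => (-1 : ℂ) ^ s.card * q ^ wt s) s) :=
      hasSum_sum_of_ne_finset_zero (fun s hs => by
        rw [Set.indicator_of_notMem]
        simpa [mem_fib] using hs)
    convert h using 1
    refine Finset.sum_congr rfl (fun s hs => ?_)
    rw [Set.indicator_of_mem]
    exact mem_fib.mp hs
  have h7 : (∑ s ∈ fib m, (-1 : ℂ) ^ s.card * q ^ wt s) = (eulerCoeff m : ℂ) * q ^ m := by
    rw [eulerCoeff, Int.cast_sum, Finset.sum_mul]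
    refine Finset.sum_congr rfl (fun s hs => ?_)
    rw [mem_fib.mp hs]
    push_cast
    rfl
  rw [← h7]
  exact (hasSum_subtype_iff_indicator (s := {s | wt s = m})).mpr h6


/-! ### Functions on `ℍ` given by integral power series in `q = e^{2πiτ}` -/

open UpperHalfPlane ModularForm Complex Filter Topology
open scoped Manifold Real

local notation "𝕢" => Function.Periodic.qParam

theorem qParam_vadd_one (τ : ℍ) : 𝕢 1 (((1 : ℝ) +ᵥ τ : ℍ) : ℂ) = 𝕢 1 (τ : ℂ) := by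
  rw [UpperHalfPlane.coe_vadd]
  simp only [Function.Periodic.qParam, ofReal_one, div_one]
  rw [mul_add, Complex.exp_add, mul_one, Complex.exp_two_pi_mul_I, one_mul]

theorem qParam_nat_mul (h : ℝ) (d : ℕ) (z : ℂ) : 𝕢 h ((d : ℂ) * z) = 𝕢 h z ^ d := by
  simp only [Function.Periodic.qParam]
  rw [← Complex.exp_nat_mul]
  congr 1
  ring

theorem periodic_of_vadd {F : ℍ → ℂ} (h : ∀ τ : ℍ, F ((1 : ℝ) +ᵥ τ) = F τ) :
    Function.Periodic (F ∘ ofComplex) 1 := by
  intro w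
  by_cases hw : 0 < w.im
  · have hw' : 0 < (w + 1).im := by simpa using hw
    simp only [Function.comp_apply, ofComplex_apply_of_im_pos hw', ofComplex_apply_of_im_pos hw]
    rw [← h ⟨w, hw⟩]
    congr 1
    ext
    simp [UpperHalfPlane.coe_vadd, add_comm]
  · have hw' : (w + 1).im ≤ 0 := by simpa using hw
    simp only [Function.comp_apply, ofComplex_apply_of_im_nonpos hw',
      ofComplex_apply_of_im_nonpos (not_lt.mp hw)]

theorem vadd_of_periodic {F : ℍ → ℂ} (h : Function.Periodic (F ∘ ofComplex) 1) (τ : ℍ) :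
    F ((1 : ℝ) +ᵥ τ) = F τ := by
  have h1 := h (τ : ℂ)
  simp only [Function.comp_apply, ofComplex_apply] at h1
  rw [← h1]
  congr 1
  have h2 : 0 < ((τ : ℂ) + 1).im := by simpa using τ.im_pos
  rw [ofComplex_apply_of_im_pos h2]
  ext
  simp [UpperHalfPlane.coe_vadd, add_comm]

/-- `F` is a `1`-periodic holomorphic function on `ℍ`, bounded at `i∞`, whose `q`-expansion is
the integral power series `P`. -/
def IsIntQ (F : ℍ → ℂ) (P : PowerSeries ℤ) : Prop :=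
  Function.Periodic (F ∘ ofComplex) 1 ∧ MDiff F ∧ IsBoundedAtImInfty F ∧
    qExpansion 1 F = PowerSeries.map (Int.castRingHom ℂ) P

namespace IsIntQ

variable {F G : ℍ → ℂ} {P Q : PowerSeries ℤ}

theorem periodic (h : IsIntQ F P) : Function.Periodic (F ∘ ofComplex) 1 := h.1
theorem mdiff (h : IsIntQ F P) : MDiff F := h.2.1
theorem bdd (h : IsIntQ F P) : IsBoundedAtImInfty F := h.2.2.1
theorem qExpansion_eq (h : IsIntQ F P) :
    qExpansion 1 F = PowerSeries.map (Int.castRingHom ℂ) P := h.2.2.2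

theorem analyticAt (h : IsIntQ F P) : AnalyticAt ℂ (cuspFunction 1 F) 0 :=
  analyticAt_cuspFunction_zero one_pos h.1 h.2.1 h.2.2.1

theorem hasSum (h : IsIntQ F P) (τ : ℍ) :
    HasSum (fun m : ℕ => (P.coeff m : ℂ) * 𝕢 1 (τ : ℂ) ^ m) (F τ) := by
  have h1 := hasSum_qExpansion one_pos h.1 h.2.1 h.2.2.1 τ
  simpa [h.qExpansion_eq] using h1

theorem tendsto (h : IsIntQ F P) :
    Tendsto F atImInfty (𝓝 ((PowerSeries.constantCoeff P : ℤ) : ℂ)) := by
  have h0 : cuspFunction 1 F 0 = ((PowerSeries.constantCoeff P : ℤ) : ℂ) := by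
    have h1 := qExpansion_coeff (h := 1) F 0
    rw [h.qExpansion_eq] at h1
    simpa using h1.symm
  have h2 : Tendsto (fun τ : ℍ => cuspFunction 1 F (𝕢 1 (τ : ℂ))) atImInfty
      (𝓝 (cuspFunction 1 F 0)) :=
    h.analyticAt.continuousAt.tendsto.comp (qParam_tendsto_atImInfty one_pos)
  rw [h0] at h2
  refine h2.congr (fun τ => ?_)
  exact eq_cuspFunction τ one_ne_zero h.1

end IsIntQ

/-- Uniqueness of `q`-expansion coefficients, for plain functions on `ℍ`. -/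
theorem qExpansion_coeff_unique' {F : ℍ → ℂ} {c : ℕ → ℂ}
    (hfanalytic : AnalyticAt ℂ (cuspFunction 1 F) 0)
    (hf : ∀ τ : ℍ, HasSum (fun m : ℕ => c m • 𝕢 1 (τ : ℂ) ^ m) (F τ)) (m : ℕ) :
    c m = (qExpansion 1 F).coeff m := by
  have h1 := (hasFPowerSeriesOnBall_cuspFunction one_pos hfanalytic hf).hasFPowerSeriesAt
  have h2 : HasFPowerSeriesAt (cuspFunction 1 F)
      (FormalMultilinearSeries.ofScalars ℂ fun m => (qExpansion 1 F).coeff m) 0 := by
    simpa [qExpansion_coeff, div_eq_mul_inv, mul_comm] using hfanalytic.hasFPowerSeriesAt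
  simpa [FormalMultilinearSeries.coeff_ofScalars] using
    congr_arg (FormalMultilinearSeries.coeff · m) (h1.eq_formalMultilinearSeries h2)

/-- A holomorphic function given by a convergent integral `q`-series. -/
theorem isIntQ_of_hasSum {F : ℍ → ℂ} {P : PowerSeries ℤ} (hmd : MDiff F)
    (hF : ∀ τ : ℍ, HasSum (fun m : ℕ => (P.coeff m : ℂ) * 𝕢 1 (τ : ℂ) ^ m) (F τ)) :
    IsIntQ F P := by
  have hper : Function.Periodic (F ∘ ofComplex) 1 := by
    refine periodic_of_vadd (fun τ => ?_)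
    have h1 := hF ((1 : ℝ) +ᵥ τ)
    rw [qParam_vadd_one] at h1
    exact h1.unique (hF τ)
  have hF' : ∀ τ : ℍ, HasSum (fun m : ℕ => ((P.coeff m : ℤ) : ℂ) • 𝕢 1 (τ : ℂ) ^ m) (F τ) := by
    intro τ
    simpa [smul_eq_mul] using hF τ
  have hbdd : IsBoundedAtImInfty F := isBoundedAtImInfty_of_hasSum_qExpansion one_pos hF'
  refine ⟨hper, hmd, hbdd, ?_⟩
  ext m
  rw [PowerSeries.coeff_map]
  exact (qExpansion_coeff_unique' (analyticAt_cuspFunction_zero one_pos hper hmd hbdd) hF' m).symm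

theorem isIntQ_one : IsIntQ (1 : ℍ → ℂ) 1 := by
  refine ⟨fun z => rfl, mdifferentiable_const, Filter.const_boundedAtFilter _ (1 : ℂ), ?_⟩
  rw [qExpansion_one, map_one]

theorem IsIntQ.mul {F G : ℍ → ℂ} {P Q : PowerSeries ℤ} (hF : IsIntQ F P) (hG : IsIntQ G Q) :
    IsIntQ (F * G) (P * Q) := by
  refine ⟨?_, hF.mdiff.mul hG.mdiff, hF.bdd.mul hG.bdd, ?_⟩
  · intro z
    have h1 := hF.periodic z
    have h2 := hG.periodic z
    simp only [Function.comp_apply, Pi.mul_apply] at h1 h2 ⊢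
    rw [h1, h2]
  · rw [qExpansion_mul hF.analyticAt hG.analyticAt, hF.qExpansion_eq, hG.qExpansion_eq, map_mul]

theorem IsIntQ.pow {F : ℍ → ℂ} {P : PowerSeries ℤ} (hF : IsIntQ F P) (n : ℕ) :
    IsIntQ (F ^ n) (P ^ n) := by
  induction n with
  | zero => simpa using isIntQ_one
  | succ n ih => simpa [pow_succ] using ih.mul hF


theorem mdiff_inv {G : ℍ → ℂ} (hG : MDiff G) (h0 : ∀ τ, G τ ≠ 0) : MDiff G⁻¹ := by
  rw [UpperHalfPlane.mdifferentiable_iff] at hG ⊢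
  exact hG.inv (fun z _ => h0 _)

theorem IsIntQ.inv {G : ℍ → ℂ} {Q : PowerSeries ℤ} (hG : IsIntQ G Q) (h0 : ∀ τ, G τ ≠ 0)
    (hQ : PowerSeries.constantCoeff Q = 1) : IsIntQ G⁻¹ (PowerSeries.invOfUnit Q 1) := by
  have hmd : MDiff G⁻¹ := mdiff_inv hG.mdiff h0
  have hper : Function.Periodic (G⁻¹ ∘ ofComplex) 1 := by
    intro z
    have h1 := hG.periodic z
    simp only [Function.comp_apply, Pi.inv_apply] at h1 ⊢
    rw [h1]
  have hbdd : IsBoundedAtImInfty G⁻¹ := by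
    have h1 := hG.tendsto
    rw [hQ] at h1
    have h2 : Tendsto (fun τ => (G τ)⁻¹) atImInfty (𝓝 ((1 : ℂ))⁻¹) := by
      have h3 := h1.inv₀ (by simp)
      simpa using h3
    exact h2.isBigO_one ℝ
  refine ⟨hper, hmd, hbdd, ?_⟩
  have hA : AnalyticAt ℂ (cuspFunction 1 G⁻¹) 0 :=
    analyticAt_cuspFunction_zero one_pos hper hmd hbdd
  have h1 : qExpansion 1 G⁻¹ * qExpansion 1 G = 1 := by
    rw [← qExpansion_mul hA hG.analyticAt]
    have h2 : G⁻¹ * G = 1 := by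
      funext τ
      simp [h0 τ]
    rw [h2, qExpansion_one]
  have h2 : PowerSeries.map (Int.castRingHom ℂ) Q *
      PowerSeries.map (Int.castRingHom ℂ) (PowerSeries.invOfUnit Q 1) = 1 := by
    rw [← map_mul, PowerSeries.mul_invOfUnit Q 1 (by simpa using hQ), map_one]
  rw [hG.qExpansion_eq] at h1
  exact left_inv_eq_right_inv h1 h2

theorem IsIntQ.div {F G : ℍ → ℂ} {P Q : PowerSeries ℤ} (hF : IsIntQ F P) (hG : IsIntQ G Q)
    (h0 : ∀ τ, G τ ≠ 0) (hQ : PowerSeries.constantCoeff Q = 1) :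
    IsIntQ (F / G) (P * PowerSeries.invOfUnit Q 1) := by
  rw [div_eq_mul_inv]
  exact hF.mul (hG.inv h0 hQ)

theorem hasSum_expand {P : PowerSeries ℤ} {d : ℕ} (hd : d ≠ 0) {q a : ℂ}
    (h : HasSum (fun m : ℕ => (P.coeff m : ℂ) * (q ^ d) ^ m) a) :
    HasSum (fun k : ℕ => ((PowerSeries.expand d hd P).coeff k : ℂ) * q ^ k) a := by
  have hinj : Function.Injective (fun m : ℕ => d * m) :=
    fun a b hab => Nat.eq_of_mul_eq_mul_left (Nat.pos_of_ne_zero hd) hab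
  refine (hinj.hasSum_iff (fun k hk => ?_)).mp ?_
  · rw [PowerSeries.coeff_expand_of_not_dvd, Int.cast_zero, zero_mul]
    rintro ⟨m, rfl⟩
    exact hk ⟨m, rfl⟩
  · convert h using 2 with m
    simp only [Function.comp_apply]
    rw [PowerSeries.coeff_expand_mul, pow_mul]

theorem IsIntQ.comp_scale {F : ℍ → ℂ} {P : PowerSeries ℤ} (hF : IsIntQ F P) {d : ℕ} (hd : d ≠ 0)
    (σ : ℍ → ℍ) (hσ : ∀ τ : ℍ, ((σ τ : ℍ) : ℂ) = (d : ℂ) * (τ : ℂ)) :
    IsIntQ (fun τ => F (σ τ)) (PowerSeries.expand d hd P) := by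
  refine isIntQ_of_hasSum ?_ (fun τ => ?_)
  · rw [UpperHalfPlane.mdifferentiable_iff]
    have h1 := UpperHalfPlane.mdifferentiable_iff.mp hF.mdiff
    have hpos : ∀ z : ℂ, 0 < z.im → 0 < ((d : ℂ) * z).im := by
      intro z hz
      have hd' : (0 : ℝ) < d := Nat.cast_pos.mpr (Nat.pos_of_ne_zero hd)
      simpa using mul_pos hd' hz
    have h2 : DifferentiableOn ℂ ((F ∘ ofComplex) ∘ (fun z : ℂ => (d : ℂ) * z))
        {z | 0 < z.im} :=
      h1.comp (by fun_prop) (fun z hz => hpos z hz)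
    refine h2.congr (fun z hz => ?_)
    simp only [Function.comp_apply]
    rw [ofComplex_apply_of_im_pos hz, ofComplex_apply_of_im_pos (hpos z hz)]
    congr 1
    ext
    rw [hσ]
  · have h1 := hF.hasSum (σ τ)
    rw [hσ, qParam_nat_mul] at h1
    exact hasSum_expand hd h1

/-! ### Euler's function and the eta function -/

/-- Euler's function `∏ (1 - q ^ (n + 1))` on the unit disc. -/
noncomputable def Phi : ℂ → ℂ := fun q => ∏' n : ℕ, (1 - q ^ (n + 1))

/-- `φ_d(τ) = ∏ (1 - q ^ (d (n + 1)))`, `q = e^{2πiτ}`. -/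
noncomputable def phi (d : ℕ) (τ : ℍ) : ℂ := Phi (𝕢 1 (τ : ℂ) ^ d)

/-- The formal Euler product `∏_{n ≥ 1} (1 - t ^ n) ∈ ℤ[[t]]`. -/
noncomputable def eulerSeries : PowerSeries ℤ := PowerSeries.mk eulerCoeff

@[simp] theorem coeff_eulerSeries (m : ℕ) : eulerSeries.coeff m = eulerCoeff m :=
  PowerSeries.coeff_mk m eulerCoeff

@[simp] theorem constantCoeff_eulerSeries : PowerSeries.constantCoeff eulerSeries = 1 := by
  rw [← PowerSeries.coeff_zero_eq_constantCoeff_apply, coeff_eulerSeries, eulerCoeff_zero]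

theorem hasSum_eulerSeries {q : ℂ} (hq : ‖q‖ < 1) :
    HasSum (fun m : ℕ => (eulerSeries.coeff m : ℂ) * q ^ m) (∏' n : ℕ, (1 - q ^ (n + 1))) := by
  simpa using hasSum_eulerCoeff hq

theorem norm_qParam_pow_lt_one (τ : ℍ) {d : ℕ} (hd : d ≠ 0) : ‖𝕢 1 (τ : ℂ) ^ d‖ < 1 := by
  rw [norm_pow]
  exact pow_lt_one₀ (norm_nonneg _) (Function.Periodic.norm_qParam_lt_one one_pos τ.im_pos) hd

theorem mdiff_phi {d : ℕ} (hd : d ≠ 0) : MDiff (phi d) := by
  rw [UpperHalfPlane.mdifferentiable_iff]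
  have h0 : DifferentiableOn ℂ Phi (Metric.ball (0 : ℂ) 1) :=
    ModularForm.differentiableOn_tprod_one_sub_pow
  have h1 : DifferentiableOn ℂ (Phi ∘ fun z : ℂ => 𝕢 1 z ^ d) {z | 0 < z.im} := by
    refine h0.comp (by fun_prop) (fun z hz => ?_)
    simp only [Metric.mem_ball, dist_zero_right, norm_pow]
    exact pow_lt_one₀ (norm_nonneg _) (Function.Periodic.norm_qParam_lt_one one_pos hz) hd
  refine h1.congr (fun z hz => ?_)
  simp only [Function.comp_apply, phi]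
  rw [ofComplex_apply_of_im_pos hz]

theorem isIntQ_phi {d : ℕ} (hd : d ≠ 0) :
    IsIntQ (phi d) (PowerSeries.expand d hd eulerSeries) :=
  isIntQ_of_hasSum (mdiff_phi hd)
    (fun τ => hasSum_expand hd (hasSum_eulerSeries (norm_qParam_pow_lt_one τ hd)))

theorem isIntQ_phi_one : IsIntQ (phi 1) eulerSeries := by
  have h := isIntQ_phi one_ne_zero
  rwa [PowerSeries.expand_one_apply] at h

theorem eta_nat_mul (d : ℕ) (τ : ℍ) :
    η ((d : ℂ) * (τ : ℂ)) = 𝕢 24 (τ : ℂ) ^ d * phi d τ := by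
  rw [ModularForm.eta, qParam_nat_mul]
  congr 1
  unfold phi Phi
  refine tprod_congr (fun n => ?_)
  rw [ModularForm.eta_q, qParam_nat_mul]

theorem phi_ne_zero {d : ℕ} (hd : d ≠ 0) (τ : ℍ) : phi d τ ≠ 0 := by
  have h1 : (d : ℂ) * (τ : ℂ) ∈ upperHalfPlaneSet := by
    have hd' : (0 : ℝ) < d := Nat.cast_pos.mpr (Nat.pos_of_ne_zero hd)
    simpa [upperHalfPlaneSet] using mul_pos hd' τ.im_pos
  have h2 := ModularForm.eta_ne_zero h1
  rw [eta_nat_mul] at h2
  exact right_ne_zero_of_mul h2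


/-! ### The weight-one eta quotients `G4 = η(2z)^10 / (η(z)^4 η(4z)^4)`, `G9 = η(z)^3 / η(3z)` -/

/-- The `q`-expansion of `η(2z)^10 / (η(z)^4 η(4z)^4)`: `E(t²)^10 / (E(t)^4 E(t⁴)^4)`. -/
noncomputable def P4 : PowerSeries ℤ :=
  PowerSeries.expand 2 two_ne_zero eulerSeries ^ 10 *
    PowerSeries.invOfUnit
      (eulerSeries ^ 4 * PowerSeries.expand 4 four_ne_zero eulerSeries ^ 4) 1

/-- The `q`-expansion of `η(z)^3 / η(3z)`: `E(t)^3 / E(t³)`. -/
noncomputable def P9 : PowerSeries ℤ :=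
  eulerSeries ^ 3 * PowerSeries.invOfUnit (PowerSeries.expand 3 three_ne_zero eulerSeries) 1

theorem constantCoeff_P4 : PowerSeries.constantCoeff P4 = 1 := by
  simp [P4, PowerSeries.constantCoeff_invOfUnit]

theorem constantCoeff_P9 : PowerSeries.constantCoeff P9 = 1 := by
  simp [P9, PowerSeries.constantCoeff_invOfUnit]

theorem isIntQ_G4 {G : ℍ → ℂ}
    (hG : ∀ z : ℍ, G z = η (2 * (z : ℂ)) ^ 10 / (η (z : ℂ) ^ 4 * η (4 * (z : ℂ)) ^ 4)) :
    IsIntQ G P4 := by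
  have h0 : ∀ τ : ℍ, (phi 1 ^ 4 * phi 4 ^ 4) τ ≠ 0 := fun τ =>
    mul_ne_zero (pow_ne_zero _ (phi_ne_zero one_ne_zero τ))
      (pow_ne_zero _ (phi_ne_zero four_ne_zero τ))
  have hG' : G = phi 2 ^ 10 / (phi 1 ^ 4 * phi 4 ^ 4) := by
    funext z
    have h1 := eta_nat_mul 1 z
    have h2 := eta_nat_mul 2 z
    have h4 := eta_nat_mul 4 z
    simp only [Nat.cast_one, one_mul, pow_one, Nat.cast_ofNat] at h1 h2 h4
    have hx : 𝕢 24 (z : ℂ) ≠ 0 := Function.Periodic.qParam_ne_zero _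
    have hp1 := phi_ne_zero one_ne_zero z
    have hp4 := phi_ne_zero four_ne_zero z
    rw [hG, h1, h2, h4]
    simp only [Pi.div_apply, Pi.mul_apply, Pi.pow_apply]
    field_simp
  rw [hG']
  exact ((isIntQ_phi two_ne_zero).pow 10).div
    ((isIntQ_phi_one.pow 4).mul ((isIntQ_phi four_ne_zero).pow 4)) h0 (by simp)

theorem isIntQ_G9 {G : ℍ → ℂ}
    (hG : ∀ z : ℍ, G z = η (z : ℂ) ^ 3 / η (3 * (z : ℂ))) :
    IsIntQ G P9 := by
  have hG' : G = phi 1 ^ 3 / phi 3 := by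
    funext z
    have h1 := eta_nat_mul 1 z
    have h3 := eta_nat_mul 3 z
    simp only [Nat.cast_one, one_mul, pow_one, Nat.cast_ofNat] at h1 h3
    have hx : 𝕢 24 (z : ℂ) ≠ 0 := Function.Periodic.qParam_ne_zero _
    have hp3 := phi_ne_zero three_ne_zero z
    rw [hG, h1, h3]
    simp only [Pi.div_apply, Pi.pow_apply]
    field_simp
  rw [hG']
  exact (isIntQ_phi_one.pow 3).div (isIntQ_phi three_ne_zero)
    (phi_ne_zero three_ne_zero) (by simp)


theorem eta_coe_ne_zero (τ : ℍ) {d : ℕ} (hd : d ≠ 0) : η ((d : ℂ) * (τ : ℂ)) ≠ 0 := by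
  rw [eta_nat_mul]
  exact mul_ne_zero (pow_ne_zero _ (Function.Periodic.qParam_ne_zero _)) (phi_ne_zero hd τ)

theorem ne_zero_G4 {G : ℍ → ℂ}
    (hG : ∀ z : ℍ, G z = η (2 * (z : ℂ)) ^ 10 / (η (z : ℂ) ^ 4 * η (4 * (z : ℂ)) ^ 4))
    (z : ℍ) : G z ≠ 0 := by
  have h1 := eta_coe_ne_zero z one_ne_zero
  have h2 := eta_coe_ne_zero z two_ne_zero
  have h4 := eta_coe_ne_zero z four_ne_zero
  simp only [Nat.cast_one, one_mul, Nat.cast_ofNat] at h1 h2 h4
  rw [hG]
  exact div_ne_zero (pow_ne_zero _ h2) (mul_ne_zero (pow_ne_zero _ h1) (pow_ne_zero _ h4))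

theorem ne_zero_G9 {G : ℍ → ℂ}
    (hG : ∀ z : ℍ, G z = η (z : ℂ) ^ 3 / η (3 * (z : ℂ))) (z : ℍ) : G z ≠ 0 := by
  have h1 := eta_coe_ne_zero z one_ne_zero
  have h3 := eta_coe_ne_zero z three_ne_zero
  simp only [Nat.cast_one, one_mul, Nat.cast_ofNat] at h1 h3
  rw [hG]
  exact div_ne_zero (pow_ne_zero _ h1) h3

/-! ### The unit series `h = G(q z) / G(z)` -/

/-- The series `P(t^d) / P(t)` (for `P` with constant coefficient `1`). -/
noncomputable def hSeries (P : PowerSeries ℤ) (d : ℕ) (hd : d ≠ 0) : PowerSeries ℤ :=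
  PowerSeries.expand d hd P * PowerSeries.invOfUnit P 1

theorem constantCoeff_hSeries {P : PowerSeries ℤ} (hP : PowerSeries.constantCoeff P = 1)
    (d : ℕ) (hd : d ≠ 0) : PowerSeries.constantCoeff (hSeries P d hd) = 1 := by
  simp [hSeries, PowerSeries.constantCoeff_invOfUnit, hP]

theorem hSeries_mul {P : PowerSeries ℤ} (hP : PowerSeries.constantCoeff P = 1)
    (d : ℕ) (hd : d ≠ 0) : hSeries P d hd * P = PowerSeries.expand d hd P := by
  rw [hSeries, mul_assoc, PowerSeries.invOfUnit_mul P 1 (by simpa using hP), mul_one]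

/-- Frobenius: `P(t^q) ≡ P(t)^q mod q`. -/
theorem map_expand_zmod (q : ℕ) [hq : Fact q.Prime] (P : PowerSeries ℤ) :
    PowerSeries.map (Int.castRingHom (ZMod q)) (PowerSeries.expand q hq.out.ne_zero P) =
      PowerSeries.map (Int.castRingHom (ZMod q)) P ^ q := by
  rw [PowerSeries.map_expand]
  have h := MvPowerSeries.map_frobenius_expand (σ := Unit) (R := ZMod q) q hq.out.ne_zero
    (f := PowerSeries.map (Int.castRingHom (ZMod q)) P)
  rw [ZMod.frobenius_zmod] at h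
  have h2 : MvPowerSeries.expand q hq.out.ne_zero
      (PowerSeries.map (Int.castRingHom (ZMod q)) P) =
      PowerSeries.map (Int.castRingHom (ZMod q)) P ^ q := by
    simpa using h
  exact h2

/-- `h · P ≡ P^q mod q`, i.e. `h ≡ P^{q-1} mod q`. -/
theorem map_hSeries_zmod (q : ℕ) [hq : Fact q.Prime] {P : PowerSeries ℤ}
    (hP : PowerSeries.constantCoeff P = 1) :
    PowerSeries.map (Int.castRingHom (ZMod q)) (hSeries P q hq.out.ne_zero) *
        PowerSeries.map (Int.castRingHom (ZMod q)) P =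
      PowerSeries.map (Int.castRingHom (ZMod q)) P ^ q := by
  rw [← map_mul, hSeries_mul hP, map_expand_zmod]

/-- The quotient `τ ↦ G(dτ) / G(τ)` of an integral nowhere-vanishing `G` with constant term `1`. -/
theorem IsIntQ.quot_scale {G : ℍ → ℂ} {P : PowerSeries ℤ} (hG : IsIntQ G P)
    (h0 : ∀ τ, G τ ≠ 0) (hP : PowerSeries.constantCoeff P = 1) {d : ℕ} (hd : d ≠ 0)
    (σ : ℍ → ℍ) (hσ : ∀ τ : ℍ, ((σ τ : ℍ) : ℂ) = (d : ℂ) * (τ : ℂ)) :
    IsIntQ (fun τ => G (σ τ) / G τ) (hSeries P d hd) :=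
  (hG.comp_scale hd σ hσ).div hG h0 hP

/-- The relation `qExp(G(d·)/G) · qExp(G) = qExp(G(d·))`. -/
theorem IsIntQ.qExpansion_quot_mul {G : ℍ → ℂ} {P : PowerSeries ℤ} (hG : IsIntQ G P)
    (h0 : ∀ τ, G τ ≠ 0) (hP : PowerSeries.constantCoeff P = 1) {d : ℕ} (hd : d ≠ 0)
    (σ : ℍ → ℍ) (hσ : ∀ τ : ℍ, ((σ τ : ℍ) : ℂ) = (d : ℂ) * (τ : ℂ)) :
    qExpansion 1 (fun τ => G (σ τ) / G τ) * qExpansion 1 G =
      qExpansion 1 (fun τ => G (σ τ)) := by
  rw [(hG.quot_scale h0 hP hd σ hσ).qExpansion_eq, hG.qExpansion_eq,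
    (hG.comp_scale hd σ hσ).qExpansion_eq, ← map_mul, hSeries_mul hP]

theorem IsIntQ.bdd_inv {G : ℍ → ℂ} {P : PowerSeries ℤ} (hG : IsIntQ G P)
    (h0 : ∀ τ, G τ ≠ 0) (hP : PowerSeries.constantCoeff P = 1) : IsBoundedAtImInfty G⁻¹ :=
  (hG.inv h0 hP).bdd

theorem IsIntQ.tendsto_one {G : ℍ → ℂ} {P : PowerSeries ℤ} (hG : IsIntQ G P)
    (hP : PowerSeries.constantCoeff P = 1) : Tendsto G atImInfty (𝓝 1) := by
  have h := hG.tendsto
  rw [hP] at h
  simpa using h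

/-- The scaling `τ ↦ d τ` of the upper half plane (`d ≠ 0`). -/
def scale (d : ℕ) (hd : d ≠ 0) (τ : ℍ) : ℍ :=
  ⟨(d : ℂ) * (τ : ℂ), by
    have hd' : (0 : ℝ) < d := Nat.cast_pos.mpr (Nat.pos_of_ne_zero hd)
    simpa using mul_pos hd' τ.im_pos⟩

@[simp] theorem coe_scale (d : ℕ) (hd : d ≠ 0) (τ : ℍ) :
    ((scale d hd τ : ℍ) : ℂ) = (d : ℂ) * (τ : ℂ) := rfl

/-! ### Summary (the shape asked for in the package plan) -/

/-- **[B1-eta] E4 for `N0 = 4`.** -/
theorem exists_series_G4 : ∃ Φ : PowerSeries ℤ, PowerSeries.constantCoeff Φ = 1 ∧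
    ∀ G : ℍ → ℂ,
      (∀ z : ℍ, G z = η (2 * (z : ℂ)) ^ 10 / (η (z : ℂ) ^ 4 * η (4 * (z : ℂ)) ^ 4)) →
      (Function.Periodic (G ∘ ofComplex) 1 ∧ MDiff G ∧ IsBoundedAtImInfty G ∧
        IsBoundedAtImInfty G⁻¹ ∧ (∀ z, G z ≠ 0) ∧
        qExpansion 1 G = PowerSeries.map (Int.castRingHom ℂ) Φ) ∧
      ∀ (d : ℕ) (hd : d ≠ 0) (σ : ℍ → ℍ), (∀ τ : ℍ, ((σ τ : ℍ) : ℂ) = (d : ℂ) * (τ : ℂ)) →
        qExpansion 1 (fun τ => G (σ τ)) =
            PowerSeries.map (Int.castRingHom ℂ) (PowerSeries.expand d hd Φ) ∧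
          IsBoundedAtImInfty (fun τ => G (σ τ) / G τ) ∧
          qExpansion 1 (fun τ => G (σ τ) / G τ) * qExpansion 1 G =
            qExpansion 1 (fun τ => G (σ τ)) := by
  refine ⟨P4, constantCoeff_P4, fun G hG => ?_⟩
  have h := isIntQ_G4 hG
  have h0 := ne_zero_G4 hG
  refine ⟨⟨h.periodic, h.mdiff, h.bdd, h.bdd_inv h0 constantCoeff_P4, h0, h.qExpansion_eq⟩,
    fun d hd σ hσ => ⟨(h.comp_scale hd σ hσ).qExpansion_eq,
      (h.quot_scale h0 constantCoeff_P4 hd σ hσ).bdd,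
      h.qExpansion_quot_mul h0 constantCoeff_P4 hd σ hσ⟩⟩

/-- **[B1-eta] E4 for `N0 = 9`.** -/
theorem exists_series_G9 : ∃ Φ : PowerSeries ℤ, PowerSeries.constantCoeff Φ = 1 ∧
    ∀ G : ℍ → ℂ,
      (∀ z : ℍ, G z = η (z : ℂ) ^ 3 / η (3 * (z : ℂ))) →
      (Function.Periodic (G ∘ ofComplex) 1 ∧ MDiff G ∧ IsBoundedAtImInfty G ∧
        IsBoundedAtImInfty G⁻¹ ∧ (∀ z, G z ≠ 0) ∧
        qExpansion 1 G = PowerSeries.map (Int.castRingHom ℂ) Φ) ∧
      ∀ (d : ℕ) (hd : d ≠ 0) (σ : ℍ → ℍ), (∀ τ : ℍ, ((σ τ : ℍ) : ℂ) = (d : ℂ) * (τ : ℂ)) →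
        qExpansion 1 (fun τ => G (σ τ)) =
            PowerSeries.map (Int.castRingHom ℂ) (PowerSeries.expand d hd Φ) ∧
          IsBoundedAtImInfty (fun τ => G (σ τ) / G τ) ∧
          qExpansion 1 (fun τ => G (σ τ) / G τ) * qExpansion 1 G =
            qExpansion 1 (fun τ => G (σ τ)) := by
  refine ⟨P9, constantCoeff_P9, fun G hG => ?_⟩
  have h := isIntQ_G9 hG
  have h0 := ne_zero_G9 hG
  refine ⟨⟨h.periodic, h.mdiff, h.bdd, h.bdd_inv h0 constantCoeff_P9, h0, h.qExpansion_eq⟩,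
    fun d hd σ hσ => ⟨(h.comp_scale hd σ hσ).qExpansion_eq,
      (h.quot_scale h0 constantCoeff_P9 hd σ hσ).bdd,
      h.qExpansion_quot_mul h0 constantCoeff_P9 hd σ hσ⟩⟩

end Fermat.Agent.S36.EtaInt
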