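import Fermat.Agent.S36.EtaCore

/-!
# S36 eta leaf for `N0 = 9` (the case `q = 2`)

The weight-one eta quotient `G9 z = η(z)^3 / η(3z)`:

* it is holomorphic and nowhere zero on the upper half plane;
* on `Γ₀(3)` it transforms with the multiplier `psi3 γ = χ₃(d) · ω̄^{(c/3)·d}`, `ω̄ = e^{-2πi/3}`;
* on `Γ₀(9)` the multiplier is the quadratic character `chi3 d`:
  `G9 (γ • z) = chi3 d * (c z + d) * G9 z`.

Route: the laws for `T`, `U 3 = (1 0; 3 1)` and `-1` come from `EtaCore.eta_add_one` and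
`EtaCore.eta_U` (the two square roots of `3 z + 1` that occur have positive real part, hence
coincide); `Γ₀(3)` is generated by these three elements (`EtaCore.Gamma0_three_le`), and
`psi3` is multiplicative on `Γ₀(3)`.
-/

namespace Fermat.Agent.S36.EtaNine

open Complex ModularForm CongruenceSubgroup
open UpperHalfPlane hiding I
open scoped Real MatrixGroups Manifold
open Fermat.Agent.S36.EtaCore

/-- The eta quotient `η(w)^3 / η(3w)` as a function on `ℂ`. -/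
noncomputable def g9 (w : ℂ) : ℂ := η w ^ 3 / η (3 * w)

theorem im_three_mul_pos {w : ℂ} (hw : 0 < w.im) : 0 < (3 * w).im := by
  simp only [Complex.mul_im, Complex.re_ofNat, Complex.im_ofNat, zero_mul, add_zero]
  positivity

theorem g9_ne_zero {w : ℂ} (hw : 0 < w.im) : g9 w ≠ 0 := by
  unfold g9
  have h1 : η w ≠ 0 := eta_ne_zero (show w ∈ upperHalfPlaneSet from hw)
  have h3 : η (3 * w) ≠ 0 :=
    eta_ne_zero (show 3 * w ∈ upperHalfPlaneSet from im_three_mul_pos hw)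
  exact div_ne_zero (pow_ne_zero _ h1) h3

theorem differentiableAt_g9 {w : ℂ} (hw : 0 < w.im) : DifferentiableAt ℂ g9 w := by
  have h3 : η (3 * w) ≠ 0 :=
    eta_ne_zero (show 3 * w ∈ upperHalfPlaneSet from im_three_mul_pos hw)
  have d1 : DifferentiableAt ℂ η w :=
    differentiableAt_eta_of_mem_upperHalfPlaneSet (show w ∈ upperHalfPlaneSet from hw)
  have d3 : DifferentiableAt ℂ (fun w : ℂ => η (3 * w)) w :=
    (differentiableAt_eta_of_mem_upperHalfPlaneSet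
      (show 3 * w ∈ upperHalfPlaneSet from im_three_mul_pos hw)).comp w
      (differentiableAt_id.const_mul (3 : ℂ))
  exact (d1.pow 3).div d3 h3

theorem g9_add_one (w : ℂ) : g9 (w + 1) = g9 w := by
  unfold g9
  have h3 : η (3 * (w + 1)) = cexp (π * I / 12) ^ 3 * η (3 * w) := by
    have e : 3 * (w + 1) = ((3 * w + 1) + 1) + 1 := by ring
    rw [e, eta_add_one, eta_add_one, eta_add_one]
    ring
  rw [eta_add_one, h3, mul_pow]
  have hne : cexp (π * I / 12) ^ 3 ≠ 0 := pow_ne_zero _ (Complex.exp_ne_zero _)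
  rw [mul_div_mul_left _ _ hne]

/-- `om k = ω̄ ^ k` with `ω̄ = e^{-2πi/3}`. -/
noncomputable def om (k : ℤ) : ℂ := cexp (-(2 * π * I * k / 3))

theorem om_zero : om 0 = 1 := by simp [om]

theorem om_add (k l : ℤ) : om (k + l) = om k * om l := by
  unfold om
  rw [← Complex.exp_add]
  congr 1
  push_cast
  ring

theorem om_three_mul (k : ℤ) : om (3 * k) = 1 := by
  unfold om
  have e : -(2 * (π : ℂ) * I * ((3 * k : ℤ) : ℂ) / 3) = ((-k : ℤ) : ℂ) * (2 * π * I) := by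
    push_cast; ring
  rw [e, Complex.exp_int_mul_two_pi_mul_I]

theorem om_eq_of_dvd {k l : ℤ} (h : (3 : ℤ) ∣ k - l) : om k = om l := by
  obtain ⟨t, ht⟩ := h
  have : k = l + 3 * t := by linarith
  rw [this, om_add, om_three_mul, mul_one]

theorem om_ne_zero (k : ℤ) : om k ≠ 0 := Complex.exp_ne_zero _

/-- The law of `g9` under `U 3 : w ↦ w / (3 w + 1)`. -/
theorem g9_U {w : ℂ} (hw : 0 < w.im) : g9 (w / (3 * w + 1)) = om 1 * (3 * w + 1) * g9 w := by
  obtain ⟨s₁, hs₁, hr₁, h₁⟩ := eta_U 3 hw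
  obtain ⟨s₂, hs₂, hr₂, h₂⟩ := eta_U 1 (im_three_mul_pos hw)
  have hss : s₂ = s₁ := by
    have : (s₂ - s₁) * (s₂ + s₁) = 0 := by
      push_cast at hs₁ hs₂
      linear_combination hs₂ - hs₁
    rcases mul_eq_zero.mp this with h | h
    · exact sub_eq_zero.mp h
    · exfalso
      have := congrArg Complex.re h
      simp only [Complex.add_re, Complex.zero_re] at this
      linarith
  subst hss
  have hs0 : s₂ ≠ 0 := by
    rintro rfl
    simp at hr₂
  have hη3 : η (3 * w) ≠ 0 :=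
    eta_ne_zero (show 3 * w ∈ upperHalfPlaneSet from im_three_mul_pos hw)
  have hE : cexp (-(((3 : ℕ) : ℂ) * π * I / 12)) ^ 3
      = om 1 * cexp (-(((1 : ℕ) : ℂ) * π * I / 12)) := by
    unfold om
    rw [← Complex.exp_nat_mul, ← Complex.exp_add]
    congr 1
    push_cast
    ring
  have e1 : w / (3 * w + 1) = w / (((3 : ℕ) : ℂ) * w + 1) := by push_cast; ring
  have e3 : 3 * (w / (3 * w + 1)) = (3 * w) / (((1 : ℕ) : ℂ) * (3 * w) + 1) := by
    push_cast; ring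
  have hg : g9 (w / (3 * w + 1))
      = (cexp (-(((3 : ℕ) : ℂ) * π * I / 12)) * s₂ * η w) ^ 3
        / (cexp (-(((1 : ℕ) : ℂ) * π * I / 12)) * s₂ * η (3 * w)) := by
    unfold g9
    rw [e3, h₂, e1, h₁]
  have hden : cexp (-(((1 : ℕ) : ℂ) * π * I / 12)) * s₂ * η (3 * w) ≠ 0 :=
    mul_ne_zero (mul_ne_zero (Complex.exp_ne_zero _) hs0) hη3
  rw [hg, div_eq_iff hden]
  have hr : g9 w * (cexp (-(((1 : ℕ) : ℂ) * π * I / 12)) * s₂ * η (3 * w))
      = η w ^ 3 * cexp (-(((1 : ℕ) : ℂ) * π * I / 12)) * s₂ := by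
    unfold g9
    field_simp
  rw [mul_assoc (om 1 * (3 * w + 1)), hr]
  push_cast at hs₁
  linear_combination (s₂ ^ 3 * η w ^ 3) * hE
    + (om 1 * cexp (-(((1 : ℕ) : ℂ) * π * I / 12)) * s₂ * η w ^ 3) * hs₁

/-- The weight-one eta quotient `η(z)^3 / η(3z)` on `ℍ`. -/
noncomputable def G9 (z : ℍ) : ℂ := g9 (z : ℂ)

theorem G9_apply (z : ℍ) : G9 z = η (z : ℂ) ^ 3 / η (3 * (z : ℂ)) := rfl

theorem G9_ne_zero (z : ℍ) : G9 z ≠ 0 := g9_ne_zero z.im_pos

theorem mdiff_G9 : MDiff G9 := by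
  rw [UpperHalfPlane.mdifferentiable_iff]
  have h : DifferentiableOn ℂ g9 {w : ℂ | 0 < w.im} := fun w hw =>
    (differentiableAt_g9 hw).differentiableWithinAt
  refine h.congr (fun w hw => ?_)
  simp only [Function.comp_apply, G9]
  rw [ofComplex_apply_of_im_pos hw]

/-- The quadratic character modulo `3` (`1, -1, 0` on the residues `1, 2, 0`), as a completely
multiplicative function `ℤ → ℂ`. -/
noncomputable def chi3 (d : ℤ) : ℂ := if d % 3 = 1 then 1 else if d % 3 = 2 then -1 else 0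

theorem chi3_one : chi3 1 = 1 := by simp [chi3]

theorem chi3_neg_one : chi3 (-1) = -1 := by simp [chi3]

theorem chi3_mul (a b : ℤ) : chi3 (a * b) = chi3 a * chi3 b := by
  have ha : a % 3 = 0 ∨ a % 3 = 1 ∨ a % 3 = 2 := by omega
  have hb : b % 3 = 0 ∨ b % 3 = 1 ∨ b % 3 = 2 := by omega
  unfold chi3
  rw [Int.mul_emod]
  rcases ha with h | h | h <;> rcases hb with h' | h' | h' <;> simp [h, h']

theorem chi3_add_three_mul (d k : ℤ) : chi3 (d + 3 * k) = chi3 d := by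
  unfold chi3
  rw [Int.add_mul_emod_self_left]

theorem chi3_eq_of_emod_eq {a b : ℤ} (h : a % 3 = b % 3) : chi3 a = chi3 b := by
  unfold chi3
  rw [h]

theorem chi3_eq_of_dvd_sub {a b : ℤ} (h : (3 : ℤ) ∣ a - b) : chi3 a = chi3 b :=
  chi3_eq_of_emod_eq (by omega)

theorem chi3_sq_of_not_dvd {d : ℤ} (h : ¬ (3 : ℤ) ∣ d) : chi3 d ^ 2 = 1 := by
  have hd : d % 3 = 1 ∨ d % 3 = 2 := by omega
  unfold chi3
  rcases hd with h' | h' <;> simp [h']

theorem chi3_ne_zero_of_not_dvd {d : ℤ} (h : ¬ (3 : ℤ) ∣ d) : chi3 d ≠ 0 := by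
  intro h0
  have := chi3_sq_of_not_dvd h
  rw [h0] at this
  simp at this

/-- For `γ ∈ Γ₀(3)` the lower right entry is prime to `3`. -/
theorem not_three_dvd_of_mem {γ : SL(2, ℤ)} (hγ : γ ∈ Gamma0 3) : ¬ (3 : ℤ) ∣ γ 1 1 := by
  rw [Gamma0_three_mem_iff] at hγ
  obtain ⟨e, he⟩ := hγ
  rintro ⟨f, hf⟩
  have hdet := Matrix.SpecialLinearGroup.det_coe γ
  rw [Matrix.det_fin_two, he, hf] at hdet
  have : (3 : ℤ) ∣ 1 := ⟨γ 0 0 * f - γ 0 1 * e, by linarith⟩
  omega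

/-- The multiplier of `G9` on `Γ₀(3)`: `χ₃(d) · ω̄^{(c/3) d}`. -/
noncomputable def psi3 (γ : SL(2, ℤ)) : ℂ := chi3 (γ 1 1) * om ((γ 1 0 / 3) * γ 1 1)

theorem psi3_one : psi3 1 = 1 := by
  simp [psi3, chi3_one, om_zero]

theorem psi3_neg_one : psi3 (-1) = -1 := by
  simp [psi3, chi3_neg_one, om_zero]

theorem psi3_T : psi3 ModularGroup.T = 1 := by
  simp [psi3, ModularGroup.T, chi3_one, om_zero]

theorem psi3_U : psi3 (U 3) = om 1 := by
  simp [psi3, chi3_one]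

theorem psi3_mul {γ γ' : SL(2, ℤ)} (hγ : γ ∈ Gamma0 3) (hγ' : γ' ∈ Gamma0 3) :
    psi3 (γ * γ') = psi3 γ * psi3 γ' := by
  have hd := not_three_dvd_of_mem hγ
  rw [Gamma0_three_mem_iff] at hγ hγ'
  obtain ⟨e, he⟩ := hγ
  obtain ⟨e', he'⟩ := hγ'
  have hdet' := Matrix.SpecialLinearGroup.det_coe γ'
  rw [Matrix.det_fin_two, he'] at hdet'
  have h10 : (γ * γ') 1 0 = 3 * (e * γ' 0 0 + γ 1 1 * e') := by
    simp only [Matrix.SpecialLinearGroup.coe_mul, Matrix.mul_apply, Fin.sum_univ_two, he, he']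
    ring
  have h11 : (γ * γ') 1 1 = γ 1 1 * γ' 1 1 + 3 * (e * γ' 0 1) := by
    simp only [Matrix.SpecialLinearGroup.coe_mul, Matrix.mul_apply, Fin.sum_univ_two, he]
    ring
  have hsq : ∃ k : ℤ, γ 1 1 ^ 2 - 1 = 3 * k := by
    have h12 : γ 1 1 % 3 = 1 ∨ γ 1 1 % 3 = 2 := by omega
    rcases h12 with h | h
    · refine ⟨(γ 1 1 / 3) * (3 * (γ 1 1 / 3) + 2), ?_⟩
      have := Int.emod_add_mul_ediv (γ 1 1) 3
      rw [h] at this
      have e1 : γ 1 1 = 1 + 3 * (γ 1 1 / 3) := by linarith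
      generalize γ 1 1 / 3 = t at e1 ⊢
      rw [e1]; ring
    · refine ⟨(γ 1 1 / 3) * (3 * (γ 1 1 / 3) + 4) + 1, ?_⟩
      have := Int.emod_add_mul_ediv (γ 1 1) 3
      rw [h] at this
      have e1 : γ 1 1 = 2 + 3 * (γ 1 1 / 3) := by linarith
      generalize γ 1 1 / 3 = t at e1 ⊢
      rw [e1]; ring
  obtain ⟨k, hk⟩ := hsq
  unfold psi3
  rw [h10, h11, chi3_add_three_mul, chi3_mul, he, he',
    Int.mul_ediv_cancel_left _ (by norm_num : (3 : ℤ) ≠ 0),
    Int.mul_ediv_cancel_left _ (by norm_num : (3 : ℤ) ≠ 0),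
    Int.mul_ediv_cancel_left _ (by norm_num : (3 : ℤ) ≠ 0)]
  have hom : om ((e * γ' 0 0 + γ 1 1 * e') * (γ 1 1 * γ' 1 1 + 3 * (e * γ' 0 1)))
      = om (e * γ 1 1) * om (e' * γ' 1 1) := by
    rw [← om_add]
    apply om_eq_of_dvd
    refine ⟨e * γ' 0 1 * (e * γ' 0 0 + γ 1 1 * e') + e * γ 1 1 * γ' 0 1 * e'
      + e' * γ' 1 1 * k, ?_⟩
    linear_combination (e * γ 1 1) * hdet' + (e' * γ' 1 1) * hk
  rw [hom]
  ring

/-- The three generators of `Γ₀(3)`. -/
def gens : Set SL(2, ℤ) := {-1, ModularGroup.T, U 3}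

theorem closure_gens : Subgroup.closure gens = Gamma0 3 := by
  apply le_antisymm
  · rw [Subgroup.closure_le]
    intro s hs
    rcases hs with rfl | rfl | rfl
    · exact (Gamma0_three_mem_iff _).mpr (by simp)
    · exact (Gamma0_three_mem_iff _).mpr (by simp [ModularGroup.T])
    · exact (Gamma0_three_mem_iff _).mpr (by simp)
  · exact Gamma0_three_le (Subgroup.subset_closure (by simp [gens]))
      (Subgroup.subset_closure (by simp [gens])) (Subgroup.subset_closure (by simp [gens]))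

/-- **The weight-one transformation law of `G9` on `Γ₀(3)`**, with the multiplier `psi3`. -/
theorem G9_smul_Gamma0_three (γ : SL(2, ℤ)) (hγ : γ ∈ Gamma0 3) (z : ℍ) :
    G9 (γ • z) = psi3 γ * EtaCore.J γ z * G9 z := by
  have key := smul_of_closure (S := gens) psi3 G9 psi3_one
    (fun γ hγ γ' hγ' => psi3_mul (closure_gens ▸ hγ) (closure_gens ▸ hγ'))
    (by
      intro s hs z
      rcases hs with rfl | rfl | rfl
      · rw [neg_one_smul_eq, psi3_neg_one, J_neg_one]; ring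
      · rw [psi3_T, J_T, one_mul, one_mul]
        unfold G9
        rw [coe_T_smul, g9_add_one]
      · rw [psi3_U, J_U]
        unfold G9
        rw [coe_U_smul]
        push_cast
        exact g9_U z.im_pos)
  exact key γ (closure_gens ▸ hγ) z

theorem Gamma0_nine_mem_iff (γ : SL(2, ℤ)) : γ ∈ Gamma0 9 ↔ (9 : ℤ) ∣ γ 1 0 := by
  rw [Gamma0_mem]
  exact ZMod.intCast_zmod_eq_zero_iff_dvd _ 9

theorem Gamma0_nine_le : Gamma0 9 ≤ Gamma0 3 := by
  intro γ hγ
  rw [Gamma0_nine_mem_iff] at hγ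
  rw [Gamma0_three_mem_iff]
  exact dvd_trans (by norm_num) hγ

theorem psi3_eq_chi3 {γ : SL(2, ℤ)} (hγ : γ ∈ Gamma0 9) : psi3 γ = chi3 (γ 1 1) := by
  rw [Gamma0_nine_mem_iff] at hγ
  obtain ⟨f, hf⟩ := hγ
  unfold psi3
  have : γ 1 0 / 3 * γ 1 1 = 3 * (f * γ 1 1) := by
    rw [hf, show (9 : ℤ) * f = 3 * (3 * f) by ring,
      Int.mul_ediv_cancel_left _ (by norm_num : (3 : ℤ) ≠ 0)]
    ring
  rw [this, om_three_mul, mul_one]

/-- **The weight-one transformation law of `G9` on `Γ₀(9)`** with the quadratic character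
`chi3` of the lower right entry. -/
theorem G9_smul (γ : SL(2, ℤ)) (hγ : γ ∈ Gamma0 9) (z : ℍ) :
    G9 (γ • z) = chi3 (γ 1 1) * ((γ 1 0 : ℂ) * z + (γ 1 1 : ℂ)) * G9 z := by
  rw [G9_smul_Gamma0_three γ (Gamma0_nine_le hγ) z, psi3_eq_chi3 hγ]
  rfl

theorem denom_eq_J (γ : SL(2, ℤ)) (z : ℍ) : denom γ z = EtaCore.J γ z := by
  simp [denom, EtaCore.J]

theorem G9_smul_denom (γ : SL(2, ℤ)) (hγ : γ ∈ Gamma0 9) (z : ℍ) :
    G9 (γ • z) = chi3 (γ 1 1) * denom γ z * G9 z := by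
  rw [denom_eq_J]
  exact G9_smul γ hγ z

/-- `G9 ^ 2` is slash-invariant of weight `2` under `Γ₀(9)`. -/
theorem G9_sq_slash (γ : SL(2, ℤ)) (hγ : γ ∈ Gamma0 9) : (G9 ^ 2) ∣[(2 : ℤ)] γ = G9 ^ 2 := by
  funext z
  rw [SL_slash_apply]
  have h := G9_smul_denom γ hγ z
  have hd : denom γ z ≠ 0 := by
    rw [denom_eq_J]
    exact J_ne_zero γ z
  simp only [Pi.pow_apply]
  rw [h, mul_pow, mul_pow, chi3_sq_of_not_dvd (not_three_dvd_of_mem (Gamma0_nine_le hγ)),
    one_mul, zpow_neg]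
  have : denom γ z ^ (2 : ℤ) = denom γ z ^ 2 := by norm_cast
  rw [this]
  field_simp

end Fermat.Agent.S36.EtaNine
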