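import Mathlib
import Fermat.Agent.S29.KDefs
import Fermat.Agent.S29.KBasic
import Fermat.Agent.S29.K1IntAux
import Fermat.Agent.S29.K1Gen
import Fermat.Agent.S29.K1Int
import Fermat.Agent.S20.RankLower
import Fermat.Agent.S23.Hermite
import Fermat.Agent.S24.AnCuspMem
import Fermat.Agent.S24.AnBridgeB

/-!
# S36, block [B1-eta], leaf E5 [DQ] (B-copy): the discriminant quotients are units over `ℂ[j]`

OWNER: helper15 (only the owner edits this file).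

For `d ∣ N` let `x_d ∈ ℂ((q))` be the `q`-expansion of `Δ(d z) / Δ(z)`.  Then `x_d` and `x_d⁻¹`
lie in the function field `F_ℂ(N)` and are integral over `ℂ[j]`.

The analytic input is `discQuot_mem_MF`: `Δ ^ (m+1) / Δ(d ·)` is a modular form of weight `12 m` on
`Γ₀(N)` as soon as `d ≤ m + 1` (growth at every cusp: Hermite decomposition
`(d 0; 0 1) g = γ' (a b; 0 d')` and the lower bound `e^{-2π Im τ} = O(Δ(τ))`).
-/

set_option autoImplicit false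

namespace Fermat.Agent.S36.EtaDQB

open UpperHalfPlane ModularForm CongruenceSubgroup Filter
open Fermat.Agent.S29 Fermat.Agent.LevelOne
open scoped MatrixGroups ModularForm Manifold Real

local notation "Δ" => (ModularForm.discriminant : ℍ → ℂ)

/-- Lower bound of `Δ` near `i∞`. -/
theorem exists_lower : ∃ C A : ℝ, 0 < C ∧
    ∀ τ : ℍ, A ≤ τ.im → Real.exp (-2 * π * τ.im) ≤ C * ‖Δ τ‖ := by
  obtain ⟨C, hC, hb⟩ := (ModularForm.exp_isBigO_discriminant).exists_pos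
  obtain ⟨A, hA⟩ := (atImInfty_mem _).mp hb.bound
  refine ⟨C, A, hC, fun τ hτ => ?_⟩
  have := hA τ hτ
  simp only [Set.mem_ofPred_eq] at this
  rwa [Real.norm_of_nonneg (Real.exp_pos _).le] at this

/-- Upper bound of `Δ` near `i∞`. -/
theorem exists_upper : ∃ C A : ℝ, 0 < C ∧
    ∀ τ : ℍ, A ≤ τ.im → ‖Δ τ‖ ≤ C * Real.exp (-2 * π * τ.im) := by
  have h := CuspFormClass.exp_decay_atImInfty (h := 1) CuspForm.discriminant one_pos
    one_mem_strictPeriods_SL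
  obtain ⟨C, hC, hb⟩ := h.exists_pos
  obtain ⟨A, hA⟩ := (atImInfty_mem _).mp hb.bound
  refine ⟨C, A, hC, fun τ hτ => ?_⟩
  have := hA τ hτ
  simp only [Set.mem_ofPred_eq] at this
  rw [Real.norm_of_nonneg (Real.exp_pos _).le, div_one] at this
  exact this

theorem uFun_ne_zero (d : ℕ) [NeZero d] (z : ℍ) : S23.uFun d z ≠ 0 :=
  ModularForm.discriminant_ne_zero _

/-- The `SL(2, ℤ)`-translates of `Δ / Δ(d ·)`: `(Δ / Δ(d ·)) (g z) = d' ^ 12 Δ(z) / Δ((a z + b)/d')`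
with `a d' = d`. -/
theorem exists_translate (d : ℕ) [NeZero d] (g : SL(2, ℤ)) :
    ∃ (a b d' : ℤ) (ha : 0 < a) (hd' : 0 < d'), a * d' = d ∧ ∀ z : ℍ,
      Δ (g • z) / S23.uFun d (g • z)
        = (d' : ℂ) ^ 12 * Δ z / Δ (S23.affPt a b d' ha hd' z) := by
  obtain ⟨γ', a, b, d', ha, hd', had, -, hmat⟩ := S23.exists_hermite d g
  refine ⟨a, b, d', ha, hd', had, fun z => ?_⟩
  have hpt := Fermat.Agent.S24.CuspMem.mulN_smul_eq_of_hermite d g γ' a b d' ha hd' hmat z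
  have e10 : g 1 0 = γ' 1 0 * a := by
    have := congrFun (congrFun hmat 1) 0
    simpa [Matrix.mul_apply, Fin.sum_univ_two] using this
  have e11 : g 1 1 = γ' 1 0 * b + γ' 1 1 * d' := by
    have := congrFun (congrFun hmat 1) 1
    simpa [Matrix.mul_apply, Fin.sum_univ_two] using this
  have c10 : (g 1 0 : ℂ) = (γ' 1 0 : ℂ) * a := by exact_mod_cast e10
  have c11 : (g 1 1 : ℂ) = (γ' 1 0 : ℂ) * b + (γ' 1 1 : ℂ) * d' := by exact_mod_cast e11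
  have hdc : (d' : ℂ) ≠ 0 := by exact_mod_cast hd'.ne'
  set w := S23.affPt a b d' ha hd' z with hw
  have hwc : (w : ℂ) = ((a : ℂ) * (z : ℂ) + (b : ℂ)) / (d' : ℂ) := rfl
  have hden : denom g z = denom γ' w * (d' : ℂ) := by
    have h1 : denom g z = (g 1 0 : ℂ) * z + (g 1 1 : ℂ) := by simp [denom]
    have h2 : denom γ' w = (γ' 1 0 : ℂ) * w + (γ' 1 1 : ℂ) := by simp [denom]
    rw [h1, h2, hwc, c10, c11]
    field_simp
    ring
  have hD : denom γ' w ≠ 0 := denom_ne_zero _ _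
  have hΔw : Δ w ≠ 0 := ModularForm.discriminant_ne_zero _
  show Δ (g • z) / Δ (S23.mulN d (g • z)) = _
  rw [hpt, discriminant_apply_smul g z, discriminant_apply_smul γ' w, hden]
  have e1 : (denom γ' w * (d' : ℂ)) ^ (12 : ℤ) = denom γ' w ^ 12 * (d' : ℂ) ^ 12 := by
    rw [mul_zpow]
    norm_cast
  have e2 : denom γ' w ^ (12 : ℤ) = denom γ' w ^ 12 := by norm_cast
  rw [e1, e2]
  field_simp

/-- Growth at the cusps: `Δ ^ m · ((Δ / Δ(d ·)) ∘ g)` is bounded at `i∞` when `d ≤ m + 1`. -/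
theorem bdd (d : ℕ) [NeZero d] (m : ℕ) (hm : d ≤ m + 1) (g : SL(2, ℤ)) :
    IsBoundedAtImInfty (fun z : ℍ => Δ z ^ m * (Δ (g • z) / S23.uFun d (g • z))) := by
  obtain ⟨a, b, d', ha, hd', had, key⟩ := exists_translate d g
  obtain ⟨C₁, A₁, hC₁, hlow⟩ := exists_lower
  obtain ⟨C₂, A₂, hC₂, hup⟩ := exists_upper
  have haR : (0 : ℝ) < a := by exact_mod_cast ha
  have hdR : (0 : ℝ) < d' := by exact_mod_cast hd'
  have hd1 : (1 : ℝ) ≤ d' := by exact_mod_cast hd'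
  have had' : (a : ℝ) * d' = d := by exact_mod_cast had
  have hmR : (d : ℝ) ≤ (m : ℝ) + 1 := by exact_mod_cast hm
  rw [isBoundedAtImInfty_iff]
  refine ⟨(d' : ℝ) ^ 12 * (C₂ ^ (m + 1) * C₁), max A₂ (A₁ * d' / a), fun z hz => ?_⟩
  have hz2 : A₂ ≤ z.im := le_trans (le_max_left _ _) hz
  have hz1 : A₁ * d' / a ≤ z.im := le_trans (le_max_right _ _) hz
  set w := S23.affPt a b d' ha hd' z with hw
  have hwim : w.im = (a : ℝ) * z.im / d' := S23.im_affPt a b d' ha hd' z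
  have hA1 : A₁ ≤ w.im := by
    rw [hwim, le_div_iff₀ hdR]
    rw [div_le_iff₀ haR] at hz1
    linarith
  have hΔz := hup z hz2
  have hΔw := hlow w hA1
  have hy : 0 < z.im := z.im_pos
  have hE : Real.exp (-2 * π * z.im) ^ (m + 1) ≤ Real.exp (-2 * π * w.im) := by
    rw [← Real.exp_nat_mul]
    apply Real.exp_le_exp.mpr
    rw [hwim]
    have h1 : (a : ℝ) * z.im / d' ≤ ((m : ℝ) + 1) * z.im := by
      rw [div_le_iff₀ hdR]
      have h2 : (a : ℝ) ≤ (m : ℝ) + 1 := by nlinarith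
      have h3 : (0 : ℝ) ≤ ((m : ℝ) + 1) * z.im := by positivity
      calc (a : ℝ) * z.im ≤ ((m : ℝ) + 1) * z.im := mul_le_mul_of_nonneg_right h2 hy.le
        _ = ((m : ℝ) + 1) * z.im * 1 := (mul_one _).symm
        _ ≤ ((m : ℝ) + 1) * z.im * d' := mul_le_mul_of_nonneg_left hd1 h3
    have hpi : 0 < π := Real.pi_pos
    push_cast
    nlinarith
  have hC2p : 0 ≤ C₂ ^ (m + 1) := (pow_pos hC₂ _).le
  have h1 : ‖Δ z‖ ^ (m + 1) ≤ C₂ ^ (m + 1) * (C₁ * ‖Δ w‖) :=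
    calc ‖Δ z‖ ^ (m + 1) ≤ (C₂ * Real.exp (-2 * π * z.im)) ^ (m + 1) :=
          pow_le_pow_left₀ (norm_nonneg _) hΔz _
      _ = C₂ ^ (m + 1) * Real.exp (-2 * π * z.im) ^ (m + 1) := mul_pow _ _ _
      _ ≤ C₂ ^ (m + 1) * Real.exp (-2 * π * w.im) := mul_le_mul_of_nonneg_left hE hC2p
      _ ≤ C₂ ^ (m + 1) * (C₁ * ‖Δ w‖) := mul_le_mul_of_nonneg_left hΔw hC2p
  have hΔwpos : 0 < ‖Δ w‖ := norm_pos_iff.mpr (ModularForm.discriminant_ne_zero _)
  have hnorm : ‖Δ z ^ m * (Δ (g • z) / S23.uFun d (g • z))‖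
      = (d' : ℝ) ^ 12 * ‖Δ z‖ ^ (m + 1) / ‖Δ w‖ := by
    rw [key z, norm_mul, norm_div, norm_mul, norm_pow, norm_pow, Complex.norm_intCast,
      abs_of_pos hdR, pow_succ]
    ring
  rw [hnorm, div_le_iff₀ hΔwpos]
  have hd12 : (0 : ℝ) ≤ (d' : ℝ) ^ 12 := by positivity
  calc (d' : ℝ) ^ 12 * ‖Δ z‖ ^ (m + 1)
      ≤ (d' : ℝ) ^ 12 * (C₂ ^ (m + 1) * (C₁ * ‖Δ w‖)) := mul_le_mul_of_nonneg_left h1 hd12
    _ = (d' : ℝ) ^ 12 * (C₂ ^ (m + 1) * C₁) * ‖Δ w‖ := by ring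

theorem mdiff_quot (d : ℕ) [NeZero d] : MDiff (fun z : ℍ => Δ z / S23.uFun d z) := by
  have h1 : MDiff Δ := S20.Base.mdiff_of_mem_MF (K.discriminant_mem_MF 1)
  have h2 : MDiff (S23.uFun d) := S20.Base.mdiff_of_mem_MF (S20.RankLower.uFun_mem_MF d)
  rw [UpperHalfPlane.mdifferentiable_iff] at h1 h2 ⊢
  exact h1.div h2 (fun w _ => uFun_ne_zero d _)

/-- **`Δ ^ (m+1) / Δ(d ·)` is a modular form of weight `12 m` on `Γ₀(N)`** for `d ∣ N`,
`d ≤ m + 1`. -/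
theorem discQuot_mem_MF (N d : ℕ) [NeZero N] [NeZero d] (hd : d ∣ N) (m : ℕ) (hm : d ≤ m + 1) :
    (fun z : ℍ => Δ z ^ m * (Δ z / S23.uFun d z)) ∈ S20.MF N (12 * (m : ℤ)) :=
  K1IntAux.mem_MF_of_quotient (A := Δ) (B := S23.uFun d) (h := fun z => Δ z / S23.uFun d z)
    (K.discriminant_mem_MF N) (K.K1Gen.MF_le_of_dvd hd 12 (S20.RankLower.uFun_mem_MF d))
    (fun h => uFun_ne_zero d UpperHalfPlane.I (congrFun h _)) (mdiff_quot d)
    (fun z => div_mul_cancel₀ _ (uFun_ne_zero d z)) m (fun g => bdd d m hm g)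

/-- **[DQ]** For `d ∣ N`, the `q`-expansion `x` of `Δ(d z) / Δ(z)` and its inverse lie in
`F_ℂ(N)` and are integral over `ℂ[j]`. -/
theorem exists_dq (N d : ℕ) [NeZero N] [NeZero d] (hd : d ∣ N) :
    ∃ x : LaurentSeries ℂ, x * K.DeltaC = K.qx (S23.uFun d) ∧ x ≠ 0 ∧
      x ∈ K.FC N ∧ x⁻¹ ∈ K.FC N ∧
      IsIntegral (Algebra.adjoin ℂ ({K.jC} : Set (LaurentSeries ℂ))) x ∧
      IsIntegral (Algebra.adjoin ℂ ({K.jC} : Set (LaurentSeries ℂ))) x⁻¹ := by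
  have hu : S23.uFun d ∈ S20.MF N 12 := K.K1Gen.MF_le_of_dvd hd 12 (S20.RankLower.uFun_mem_MF d)
  have hun : S23.uFun d ∈ S23.niceSub := K.mem_niceSub_of_mem_MF hu
  have hu0 : S23.uFun d ≠ 0 := fun h => uFun_ne_zero d UpperHalfPlane.I (congrFun h _)
  have hq0 : K.qx (S23.uFun d) ≠ 0 := K.qx_ne_zero hun hu0
  have hD0 : K.DeltaC ≠ 0 := K.DeltaC_ne_zero
  set x : LaurentSeries ℂ := K.qx (S23.uFun d) * K.DeltaC⁻¹ with hx
  have hx1 : x * K.DeltaC = K.qx (S23.uFun d) := by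
    rw [hx, mul_assoc, inv_mul_cancel₀ hD0, mul_one]
  have hx0 : x ≠ 0 := mul_ne_zero hq0 (inv_ne_zero hD0)
  have h1 := K.isIntegral_of_form (N := N) 1 (G := S23.uFun d)
    (by simpa using hu) (x := x) (by rw [pow_one]; exact hx1)
  -- the inverse
  have hG := discQuot_mem_MF N d hd d (Nat.le_succ d)
  have hGn : (fun z : ℍ => Δ z ^ d * (Δ z / S23.uFun d z)) ∈ S23.niceSub :=
    K.mem_niceSub_of_mem_MF hG
  have hmul : (fun z : ℍ => Δ z ^ d * (Δ z / S23.uFun d z)) * S23.uFun d = Δ ^ (d + 1) := by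
    funext z
    simp only [Pi.mul_apply, Pi.pow_apply]
    rw [mul_assoc, div_mul_cancel₀ _ (uFun_ne_zero d z), pow_succ]
  have hq : K.qx (fun z : ℍ => Δ z ^ d * (Δ z / S23.uFun d z)) * K.qx (S23.uFun d)
      = K.DeltaC ^ (d + 1) := by
    rw [← K.qx_mul hGn hun, hmul, K.qx_pow S24.AnBridge.discriminant_mem_niceSub]
    rfl
  have hx2 : x⁻¹ * K.DeltaC ^ d = K.qx (fun z : ℍ => Δ z ^ d * (Δ z / S23.uFun d z)) := by
    rw [hx, mul_inv, inv_inv]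
    calc (K.qx (S23.uFun d))⁻¹ * K.DeltaC * K.DeltaC ^ d
        = (K.qx (S23.uFun d))⁻¹ * K.DeltaC ^ (d + 1) := by rw [pow_succ]; ring
      _ = (K.qx (S23.uFun d))⁻¹ *
            (K.qx (fun z : ℍ => Δ z ^ d * (Δ z / S23.uFun d z)) * K.qx (S23.uFun d)) := by
          rw [hq]
      _ = K.qx (fun z : ℍ => Δ z ^ d * (Δ z / S23.uFun d z)) := by
          rw [mul_comm (K.qx (fun z : ℍ => Δ z ^ d * (Δ z / S23.uFun d z))), ← mul_assoc,
            inv_mul_cancel₀ hq0, one_mul]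
  have h2 := K.isIntegral_of_form (N := N) d hG hx2
  exact ⟨x, hx1, hx0, h1.1, h2.1, h1.2.1, h2.2.1⟩

end Fermat.Agent.S36.EtaDQB
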