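import Mathlib

/-!
# S36, block [B1-eta], step (0) for `N₀ = 4`: the weight-one eta quotient `G4`

OWNER: helper15 (only the owner edits this file).

`G4 z = η(2z)^10 / (η(z)^4 η(4z)^4)` is holomorphic and nowhere zero on the upper half plane and
satisfies `G4 (γ • z) = χ₄(d) (c z + d) G4 z` for every `γ = (a b; c d) ∈ Γ₀(4)`.

Route: `η(z + 1) = e^{2πi/24} η(z)` and Mathlib's `η(-1/z) = (√i)⁻¹ √z η(z)` give
`G4 (z + 1) = G4 z` and the Fricke relation `G4 (-1/(4z)) = -2 i z G4 z` (all eta exponents are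
even, so no branch of the square root matters); hence `G4 (z / (4z+1)) = (4z+1) G4 z`.  The set of
`γ ∈ Γ₀(4)` satisfying the law is a subgroup containing `-1`, `T`, `U = (1 0; 4 1)`, and these
generate `Γ₀(4)` (Euclid).
-/

set_option autoImplicit false

namespace Fermat.Agent.S36.EtaG4

open UpperHalfPlane ModularForm CongruenceSubgroup Complex
open scoped MatrixGroups ModularForm Manifold Real

/-! ### The eta function under integer translations and the inversion -/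

theorem eta_add_nat (w : ℂ) (k : ℕ) : η (w + k) = cexp (2 * π * Complex.I * k / 24) * η w := by
  have h1 : ∀ n : ℕ, eta_q n (w + k) = eta_q n w := by
    intro n
    rw [eta_q_eq_cexp, eta_q_eq_cexp]
    have e : 2 * (π : ℂ) * Complex.I * (n + 1) * (w + k)
        = 2 * π * Complex.I * (n + 1) * w + ((n + 1) * k : ℕ) * (2 * π * Complex.I) := by
      push_cast; ring
    rw [e, Complex.exp_add, Complex.exp_nat_mul_two_pi_mul_I, mul_one]
  have h2 : Function.Periodic.qParam 24 (w + k)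
      = cexp (2 * π * Complex.I * k / 24) * Function.Periodic.qParam 24 w := by
    unfold Function.Periodic.qParam
    rw [← Complex.exp_add]
    congr 1
    push_cast
    ring
  unfold ModularForm.eta
  simp_rw [h1]
  rw [h2, mul_assoc]

theorem eta_neg_inv (w : ℂ) (hw : 0 < w.im) :
    η (-1 / w) = (Complex.sqrt Complex.I)⁻¹ * (Complex.sqrt w * η w) := by
  have h := eta_comp_eq_csqrt_I_inv (show w ∈ upperHalfPlaneSet from hw)
  simpa using h

theorem sqrt_sq' (w : ℂ) : Complex.sqrt w ^ 2 = w := by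
  simp [Complex.sqrt]

/-! ### The function `g4` on `ℂ` -/

/-- `η(2w)^10 / (η(w)^4 η(4w)^4)` as a function on `ℂ`. -/
noncomputable def g4 (w : ℂ) : ℂ := η (2 * w) ^ 10 / (η w ^ 4 * η (4 * w) ^ 4)

theorem im_two_mul_pos {w : ℂ} (hw : 0 < w.im) : 0 < (2 * w).im := by
  simp only [Complex.mul_im, Complex.re_ofNat, Complex.im_ofNat, zero_mul, add_zero]
  positivity

theorem im_four_mul_pos {w : ℂ} (hw : 0 < w.im) : 0 < (4 * w).im := by
  simp only [Complex.mul_im, Complex.re_ofNat, Complex.im_ofNat, zero_mul, add_zero]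
  positivity

theorem g4_ne_zero {w : ℂ} (hw : 0 < w.im) : g4 w ≠ 0 := by
  unfold g4
  have h1 : η w ≠ 0 := eta_ne_zero (show w ∈ upperHalfPlaneSet from hw)
  have h2 : η (2 * w) ≠ 0 := eta_ne_zero (show 2 * w ∈ upperHalfPlaneSet from im_two_mul_pos hw)
  have h4 : η (4 * w) ≠ 0 := eta_ne_zero (show 4 * w ∈ upperHalfPlaneSet from im_four_mul_pos hw)
  exact div_ne_zero (pow_ne_zero _ h2) (mul_ne_zero (pow_ne_zero _ h1) (pow_ne_zero _ h4))

theorem differentiableAt_g4 {w : ℂ} (hw : 0 < w.im) : DifferentiableAt ℂ g4 w := by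
  have h1 : η w ≠ 0 := eta_ne_zero (show w ∈ upperHalfPlaneSet from hw)
  have h4 : η (4 * w) ≠ 0 := eta_ne_zero (show 4 * w ∈ upperHalfPlaneSet from im_four_mul_pos hw)
  have d1 : DifferentiableAt ℂ η w :=
    differentiableAt_eta_of_mem_upperHalfPlaneSet (show w ∈ upperHalfPlaneSet from hw)
  have d2 : DifferentiableAt ℂ (fun w : ℂ => η (2 * w)) w :=
    (differentiableAt_eta_of_mem_upperHalfPlaneSet
      (show 2 * w ∈ upperHalfPlaneSet from im_two_mul_pos hw)).comp w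
      (differentiableAt_id.const_mul (2 : ℂ))
  have d4 : DifferentiableAt ℂ (fun w : ℂ => η (4 * w)) w :=
    (differentiableAt_eta_of_mem_upperHalfPlaneSet
      (show 4 * w ∈ upperHalfPlaneSet from im_four_mul_pos hw)).comp w
      (differentiableAt_id.const_mul (4 : ℂ))
  exact (d2.pow 10).div ((d1.pow 4).mul (d4.pow 4))
    (mul_ne_zero (pow_ne_zero _ h1) (pow_ne_zero _ h4))

theorem g4_add_one (w : ℂ) : g4 (w + 1) = g4 w := by
  have e1 : η (w + 1) = cexp (2 * π * Complex.I * 1 / 24) * η w := by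
    have := eta_add_nat w 1
    simpa using this
  have e2 : η (2 * (w + 1)) = cexp (2 * π * Complex.I * 2 / 24) * η (2 * w) := by
    have := eta_add_nat (2 * w) 2
    rw [show 2 * (w + 1) = 2 * w + (2 : ℕ) by push_cast; ring, this]
    norm_num
  have e4 : η (4 * (w + 1)) = cexp (2 * π * Complex.I * 4 / 24) * η (4 * w) := by
    have := eta_add_nat (4 * w) 4
    rw [show 4 * (w + 1) = 4 * w + (4 : ℕ) by push_cast; ring, this]
    norm_num
  have hc : cexp (2 * π * Complex.I * 2 / 24) ^ 10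
      = cexp (2 * π * Complex.I * 1 / 24) ^ 4 * cexp (2 * π * Complex.I * 4 / 24) ^ 4 := by
    rw [← Complex.exp_nat_mul, ← Complex.exp_nat_mul, ← Complex.exp_nat_mul, ← Complex.exp_add]
    congr 1
    push_cast
    ring
  unfold g4
  rw [e1, e2, e4, mul_pow, mul_pow, mul_pow, hc]
  have h0 : cexp (2 * π * Complex.I * 1 / 24) ^ 4 * cexp (2 * π * Complex.I * 4 / 24) ^ 4 ≠ 0 :=
    mul_ne_zero (pow_ne_zero _ (Complex.exp_ne_zero _)) (pow_ne_zero _ (Complex.exp_ne_zero _))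
  rw [show cexp (2 * π * Complex.I * 1 / 24) ^ 4 * η w ^ 4 * (cexp (2 * π * Complex.I * 4 / 24) ^ 4 * η (4 * w) ^ 4)
      = cexp (2 * π * Complex.I * 1 / 24) ^ 4 * cexp (2 * π * Complex.I * 4 / 24) ^ 4 * (η w ^ 4 * η (4 * w) ^ 4)
      by ring, mul_div_mul_left _ _ h0]

theorem g4_sub_one (w : ℂ) : g4 (w - 1) = g4 w := by
  have := g4_add_one (w - 1)
  rw [sub_add_cancel] at this
  exact this.symm

theorem im_neg_one_div_pos {w : ℂ} (hw : 0 < w.im) : 0 < (-1 / w).im := by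
  have h := (UpperHalfPlane.mk w hw).im_inv_neg_coe_pos
  have e : (-1 / w) = (-((UpperHalfPlane.mk w hw : ℍ) : ℂ))⁻¹ := by
    rw [neg_div, one_div, neg_inv]
  rw [e]
  exact h

/-- The Fricke relation `g4 (-1/(4w)) = -2 i w g4 w`. -/
theorem g4_fricke (w : ℂ) (hw : 0 < w.im) : g4 (-1 / (4 * w)) = -2 * Complex.I * w * g4 w := by
  have hw0 : w ≠ 0 := by
    rintro rfl
    simp at hw
  have h1 : η w ≠ 0 := eta_ne_zero (show w ∈ upperHalfPlaneSet from hw)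
  have h2 : η (2 * w) ≠ 0 := eta_ne_zero (show 2 * w ∈ upperHalfPlaneSet from im_two_mul_pos hw)
  have h4 : η (4 * w) ≠ 0 := eta_ne_zero (show 4 * w ∈ upperHalfPlaneSet from im_four_mul_pos hw)
  have a1 : η (-1 / (4 * w)) = (Complex.sqrt Complex.I)⁻¹ * (Complex.sqrt (4 * w) * η (4 * w)) :=
    eta_neg_inv (4 * w) (im_four_mul_pos hw)
  have a2 : η (2 * (-1 / (4 * w))) = (Complex.sqrt Complex.I)⁻¹ * (Complex.sqrt (2 * w) * η (2 * w)) := by
    rw [show 2 * (-1 / (4 * w)) = -1 / (2 * w) by field_simp; ring]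
    exact eta_neg_inv (2 * w) (im_two_mul_pos hw)
  have a4 : η (4 * (-1 / (4 * w))) = (Complex.sqrt Complex.I)⁻¹ * (Complex.sqrt w * η w) := by
    rw [show 4 * (-1 / (4 * w)) = -1 / w by field_simp]
    exact eta_neg_inv w hw
  have hs : Complex.sqrt Complex.I ^ 2 = Complex.I := sqrt_sq' Complex.I
  have hA : Complex.sqrt (2 * w) ^ 2 = 2 * w := sqrt_sq' _
  have hB : Complex.sqrt (4 * w) ^ 2 = 4 * w := sqrt_sq' _
  have hC : Complex.sqrt w ^ 2 = w := sqrt_sq' _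
  have hs0 : Complex.sqrt Complex.I ≠ 0 := by
    intro h0
    rw [h0] at hs
    exact Complex.I_ne_zero (by simpa using hs.symm)
  have e5 : (Complex.I⁻¹ : ℂ) ^ 5 = -Complex.I := by
    rw [Complex.inv_I]
    have : (-Complex.I) ^ 5 = -(Complex.I ^ 4 * Complex.I) := by ring
    rw [this, Complex.I_pow_four, one_mul]
  have e2' : (Complex.I⁻¹ : ℂ) ^ 2 = -1 := by
    rw [Complex.inv_I, neg_sq, Complex.I_sq]
  unfold g4
  rw [a1, a2, a4]
  have n1 : ((Complex.sqrt Complex.I)⁻¹ * (Complex.sqrt (2 * w) * η (2 * w))) ^ 10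
      = ((Complex.sqrt Complex.I ^ 2)⁻¹) ^ 5 * (Complex.sqrt (2 * w) ^ 2) ^ 5 * η (2 * w) ^ 10 := by
    ring
  have n2 : ((Complex.sqrt Complex.I)⁻¹ * (Complex.sqrt (4 * w) * η (4 * w))) ^ 4
      = ((Complex.sqrt Complex.I ^ 2)⁻¹) ^ 2 * (Complex.sqrt (4 * w) ^ 2) ^ 2 * η (4 * w) ^ 4 := by
    ring
  have n3 : ((Complex.sqrt Complex.I)⁻¹ * (Complex.sqrt w * η w)) ^ 4
      = ((Complex.sqrt Complex.I ^ 2)⁻¹) ^ 2 * (Complex.sqrt w ^ 2) ^ 2 * η w ^ 4 := by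
    ring
  rw [n1, n2, n3, hs, hA, hB, hC, e5, e2']
  field_simp
  ring

/-- `g4 (w/(4w+1)) = (4w+1) g4 w`. -/
theorem g4_U (w : ℂ) (hw : 0 < w.im) : g4 (w / (4 * w + 1)) = (4 * w + 1) * g4 w := by
  have hw0 : w ≠ 0 := by
    rintro rfl
    simp at hw
  have hw1 : 0 < (-1 / (4 * w)).im := im_neg_one_div_pos (im_four_mul_pos hw)
  have hw2 : 0 < (-1 / (4 * w) - 1).im := by
    simpa using hw1
  have h41 : 4 * w + 1 ≠ 0 := by
    intro h
    have := congrArg Complex.im h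
    simp at this
    linarith
  have h5 : 4 * (-1 / (4 * w) - 1) = -(4 * w + 1) / w := by
    field_simp
    ring
  have e : w / (4 * w + 1) = -1 / (4 * (-1 / (4 * w) - 1)) := by
    rw [h5, div_div_eq_mul_div, neg_one_mul, neg_div_neg_eq]
  rw [e, g4_fricke _ hw2, g4_sub_one, g4_fricke w hw]
  have hI : (Complex.I : ℂ) * Complex.I = -1 := Complex.I_mul_I
  have h6 : -2 * Complex.I * (-1 / (4 * w) - 1) * (-2 * Complex.I * w * g4 w)
      = (Complex.I * Complex.I) * (4 * (-1 / (4 * w) - 1) * w) * g4 w := by ring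
  rw [h6, hI, h5, div_mul_cancel₀ _ hw0]
  ring

/-! ### The function `G4` on the upper half plane -/

/-- The weight-one eta quotient `η(2z)^10 / (η(z)^4 η(4z)^4)` on `ℍ`. -/
noncomputable def G4 (z : ℍ) : ℂ := g4 (z : ℂ)

theorem G4_ne_zero (z : ℍ) : G4 z ≠ 0 := g4_ne_zero z.im_pos

theorem mdiff_G4 : MDiff G4 := by
  rw [UpperHalfPlane.mdifferentiable_iff]
  have h : DifferentiableOn ℂ g4 {w : ℂ | 0 < w.im} := fun w hw =>
    (differentiableAt_g4 hw).differentiableWithinAt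
  refine h.congr (fun w hw => ?_)
  simp only [Function.comp_apply, G4]
  rw [ofComplex_apply_of_im_pos hw]

theorem coe_smul_eq (γ : SL(2, ℤ)) (z : ℍ) :
    ((γ • z : ℍ) : ℂ) = ((γ 0 0 : ℂ) * z + (γ 0 1 : ℂ)) / ((γ 1 0 : ℂ) * z + (γ 1 1 : ℂ)) := by
  rw [coe_specialLinearGroup_apply]
  simp

/-- The automorphy factor `c z + d`. -/
noncomputable def den (γ : SL(2, ℤ)) (z : ℍ) : ℂ := (γ 1 0 : ℂ) * z + (γ 1 1 : ℂ)

theorem denom_eq_den (γ : SL(2, ℤ)) (z : ℍ) : denom γ z = den γ z := by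
  simp [denom, den]

theorem den_ne_zero (γ : SL(2, ℤ)) (z : ℍ) : den γ z ≠ 0 := by
  rw [← denom_eq_den]
  exact denom_ne_zero _ z

theorem den_mul (γ₁ γ₂ : SL(2, ℤ)) (z : ℍ) :
    den (γ₁ * γ₂) z = den γ₁ (γ₂ • z) * den γ₂ z := by
  have h0 : (γ₂ 1 0 : ℂ) * z + (γ₂ 1 1 : ℂ) ≠ 0 := den_ne_zero γ₂ z
  unfold den
  rw [coe_smul_eq, add_mul, mul_assoc, div_mul_cancel₀ _ h0]
  simp only [Matrix.SpecialLinearGroup.coe_mul, Matrix.mul_apply, Fin.sum_univ_two]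
  push_cast
  ring

theorem den_one (z : ℍ) : den 1 z = 1 := by
  simp [den]

/-- The character `χ₄(d)` of `γ = (a b; c d)`. -/
noncomputable def chi4 (γ : SL(2, ℤ)) : ℂ := ((ZMod.χ₄ ((γ 1 1 : ℤ) : ZMod 4) : ℤ) : ℂ)

theorem chi4_mul {γ₁ γ₂ : SL(2, ℤ)} (h₁ : γ₁ ∈ Gamma0 4) :
    chi4 (γ₁ * γ₂) = chi4 γ₁ * chi4 γ₂ := by
  have hc : ((γ₁ 1 0 : ℤ) : ZMod 4) = 0 := Gamma0_mem.mp h₁
  unfold chi4
  have e : (((γ₁ * γ₂) 1 1 : ℤ) : ZMod 4) = ((γ₁ 1 1 : ℤ) : ZMod 4) * ((γ₂ 1 1 : ℤ) : ZMod 4) := by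
    simp only [Matrix.SpecialLinearGroup.coe_mul, Matrix.mul_apply, Fin.sum_univ_two]
    push_cast
    rw [hc, zero_mul, zero_add]
  rw [e, map_mul]
  push_cast
  rfl

theorem chi4_one : chi4 1 = 1 := by
  simp [chi4]

theorem chi4_sq {γ : SL(2, ℤ)} (h : γ ∈ Gamma0 4) : chi4 γ ^ 2 = 1 := by
  have h1 : chi4 (γ * γ⁻¹) = chi4 γ * chi4 γ⁻¹ := chi4_mul h
  rw [mul_inv_cancel, chi4_one] at h1
  have hd : ∀ x : ZMod 4, (ZMod.χ₄ x : ℤ) ^ 2 = 1 ∨ (ZMod.χ₄ x : ℤ) = 0 := by decide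
  rcases hd ((γ 1 1 : ℤ) : ZMod 4) with h2 | h2
  · unfold chi4
    exact_mod_cast h2
  · have : chi4 γ = 0 := by
      unfold chi4
      rw [h2]
      simp
    rw [this, zero_mul] at h1
    exact absurd h1 one_ne_zero

/-- The transformation law of `G4` for a given matrix. -/
def Law (γ : SL(2, ℤ)) : Prop := ∀ z : ℍ, G4 (γ • z) = chi4 γ * den γ z * G4 z

/-- The subgroup of `Γ₀(4)` of the matrices for which the transformation law holds. -/
def Good : Subgroup SL(2, ℤ) where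
  carrier := {γ | γ ∈ Gamma0 4 ∧ Law γ}
  one_mem' := ⟨one_mem _, fun z => by rw [one_smul, chi4_one, den_one, one_mul, one_mul]⟩
  mul_mem' := by
    rintro γ₁ γ₂ ⟨h1, l1⟩ ⟨h2, l2⟩
    refine ⟨mul_mem h1 h2, fun z => ?_⟩
    rw [mul_smul, l1 (γ₂ • z), l2 z, chi4_mul h1, den_mul]
    ring
  inv_mem' := by
    rintro γ ⟨h, l⟩
    refine ⟨inv_mem h, fun z => ?_⟩
    have h1 := l (γ⁻¹ • z)
    rw [smul_inv_smul] at h1
    have h2 : den γ (γ⁻¹ • z) * den γ⁻¹ z = 1 := by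
      rw [← den_mul, mul_inv_cancel, den_one]
    have h3 : chi4 γ * chi4 γ⁻¹ = 1 := by
      rw [← chi4_mul h, mul_inv_cancel, chi4_one]
    rw [h1]
    linear_combination (-(G4 (γ⁻¹ • z)) * (chi4 γ * chi4 γ⁻¹)) * h2 - (G4 (γ⁻¹ • z)) * h3

theorem mem_Good {γ : SL(2, ℤ)} : γ ∈ Good ↔ γ ∈ Gamma0 4 ∧ Law γ := Iff.rfl

/-- `U = (1 0; 4 1)`. -/
def U4 : SL(2, ℤ) := ⟨!![1, 0; 4, 1], by simp [Matrix.det_fin_two]⟩

/-- `U⁻¹ = (1 0; -4 1)`. -/
def U4' : SL(2, ℤ) := ⟨!![1, 0; -4, 1], by simp [Matrix.det_fin_two]⟩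

theorem U4'_eq : U4' = U4⁻¹ := by
  rw [eq_inv_iff_mul_eq_one]
  ext i j
  fin_cases i <;> fin_cases j <;>
    simp [U4, U4', Matrix.mul_apply, Fin.sum_univ_two]

theorem T_mem_Good : ModularGroup.T ∈ Good := by
  refine ⟨by rw [Gamma0_mem]; simp [ModularGroup.T], fun z => ?_⟩
  have e : ((ModularGroup.T • z : ℍ) : ℂ) = (z : ℂ) + 1 := by
    rw [modular_T_smul, coe_vadd]
    push_cast
    ring
  have h1 : chi4 ModularGroup.T = 1 := by simp [chi4, ModularGroup.T]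
  have h2 : den ModularGroup.T z = 1 := by simp [den, ModularGroup.T]
  rw [h1, h2, one_mul, one_mul]
  show g4 ((ModularGroup.T • z : ℍ) : ℂ) = g4 (z : ℂ)
  rw [e, g4_add_one]

theorem U4_mem_Good : U4 ∈ Good := by
  refine ⟨by rw [Gamma0_mem]; simp [U4]; rfl, fun z => ?_⟩
  have e : ((U4 • z : ℍ) : ℂ) = (z : ℂ) / (4 * z + 1) := by
    rw [coe_smul_eq]
    simp [U4]
  have h1 : chi4 U4 = 1 := by simp [chi4, U4]
  have h2 : den U4 z = 4 * (z : ℂ) + 1 := by simp [den, U4]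
  rw [h1, h2, one_mul]
  show g4 ((U4 • z : ℍ) : ℂ) = (4 * (z : ℂ) + 1) * g4 (z : ℂ)
  rw [e, g4_U _ z.im_pos]

theorem neg_one_mem_Good : (-1 : SL(2, ℤ)) ∈ Good := by
  refine ⟨by rw [Gamma0_mem]; simp, fun z => ?_⟩
  have e : ((-1 : SL(2, ℤ)) • z : ℍ) = z := by
    rw [show (-1 : SL(2, ℤ)) = -(1 : SL(2, ℤ)) from rfl, ModularGroup.SL_neg_smul, one_smul]
  have h1 : chi4 (-1) = -1 := by
    unfold chi4
    have : ((((-1 : SL(2, ℤ)) 1 1 : ℤ)) : ZMod 4) = 3 := by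
      simp
      decide
    rw [this]
    have : (ZMod.χ₄ (3 : ZMod 4) : ℤ) = -1 := by decide
    rw [this]
    push_cast
    rfl
  have h2 : den (-1) z = -1 := by simp [den]
  rw [e, h1, h2]
  ring

theorem Good_le : Good ≤ Gamma0 4 := fun _ h => h.1

/-! ### Euclid: `Γ₀(4)` is generated by `-1`, `T`, `U` -/

theorem mul_T_10 (γ : SL(2, ℤ)) : (γ * ModularGroup.T) 1 0 = γ 1 0 := by
  simp [Matrix.SpecialLinearGroup.coe_mul, Matrix.mul_apply, Fin.sum_univ_two, ModularGroup.T]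

theorem mul_T_11 (γ : SL(2, ℤ)) : (γ * ModularGroup.T) 1 1 = γ 1 0 + γ 1 1 := by
  simp [Matrix.SpecialLinearGroup.coe_mul, Matrix.mul_apply, Fin.sum_univ_two, ModularGroup.T]

theorem mul_Tinv_10 (γ : SL(2, ℤ)) : (γ * ModularGroup.T⁻¹) 1 0 = γ 1 0 := by
  simp [Matrix.SpecialLinearGroup.coe_mul, Matrix.mul_apply, Fin.sum_univ_two]

theorem mul_Tinv_11 (γ : SL(2, ℤ)) : (γ * ModularGroup.T⁻¹) 1 1 = γ 1 1 - γ 1 0 := by
  simp [Matrix.SpecialLinearGroup.coe_mul, Matrix.mul_apply, Fin.sum_univ_two]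
  ring

theorem mul_U4_10 (γ : SL(2, ℤ)) : (γ * U4) 1 0 = γ 1 0 + 4 * γ 1 1 := by
  simp [Matrix.SpecialLinearGroup.coe_mul, Matrix.mul_apply, Fin.sum_univ_two, U4]
  ring

theorem mul_U4_11 (γ : SL(2, ℤ)) : (γ * U4) 1 1 = γ 1 1 := by
  simp [Matrix.SpecialLinearGroup.coe_mul, Matrix.mul_apply, Fin.sum_univ_two, U4]

theorem mul_U4'_10 (γ : SL(2, ℤ)) : (γ * U4') 1 0 = γ 1 0 - 4 * γ 1 1 := by
  simp [Matrix.SpecialLinearGroup.coe_mul, Matrix.mul_apply, Fin.sum_univ_two, U4']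
  ring

theorem mul_U4'_11 (γ : SL(2, ℤ)) : (γ * U4') 1 1 = γ 1 1 := by
  simp [Matrix.SpecialLinearGroup.coe_mul, Matrix.mul_apply, Fin.sum_univ_two, U4']

theorem step {n : ℕ}
    (ih : ∀ m < n, ∀ γ : SL(2, ℤ), γ ∈ Gamma0 4 →
      (γ 1 0).natAbs + (γ 1 1).natAbs = m → γ ∈ Good)
    (γ : SL(2, ℤ)) (hγ : γ ∈ Gamma0 4) (g : SL(2, ℤ)) (hg : g ∈ Good)
    (hlt : ((γ * g) 1 0).natAbs + ((γ * g) 1 1).natAbs < n) : γ ∈ Good := by
  have h1 : γ * g ∈ Good := ih _ hlt (γ * g) (mul_mem hγ (Good_le hg)) rfl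
  have e : γ = γ * g * g⁻¹ := by group
  rw [e]
  exact Good.mul_mem h1 (Good.inv_mem hg)

theorem four_dvd_of_mem {γ : SL(2, ℤ)} (hγ : γ ∈ Gamma0 4) : (4 : ℤ) ∣ γ 1 0 := by
  have h : ((γ 1 0 : ℤ) : ZMod 4) = 0 := Gamma0_mem.mp hγ
  exact_mod_cast (ZMod.intCast_zmod_eq_zero_iff_dvd (γ 1 0) 4).mp h

theorem odd_of_mem {γ : SL(2, ℤ)} (hγ : γ ∈ Gamma0 4) : Odd (γ 1 1) := by
  obtain ⟨c', hc'⟩ := four_dvd_of_mem hγ
  have hdet := γ.det_coe
  rw [Matrix.det_fin_two] at hdet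
  have h : Odd (γ 0 0 * γ 1 1) := by
    refine ⟨2 * (γ 0 1 * c'), ?_⟩
    rw [hc'] at hdet
    linarith
  exact (Int.odd_mul.mp h).2

theorem mem_Good_of_sum (n : ℕ) : ∀ γ : SL(2, ℤ), γ ∈ Gamma0 4 →
    (γ 1 0).natAbs + (γ 1 1).natAbs = n → γ ∈ Good := by
  induction n using Nat.strong_induction_on with
  | _ n ih =>
    intro γ hγ hn
    by_cases hc : γ 1 0 = 0
    · -- upper triangular: `γ = ± T ^ k`
      obtain ⟨k, hk⟩ := ModularGroup.exists_eq_T_zpow_of_c_eq_zero hc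
      have hT : ModularGroup.T ^ k ∈ Good := Good.zpow_mem T_mem_Good k
      refine ⟨hγ, fun z => ?_⟩
      rw [hk z, hT.2 z]
      have hdet := γ.det_coe
      rw [Matrix.det_fin_two, hc, mul_zero, sub_zero] at hdet
      have h1 : chi4 (ModularGroup.T ^ k) * den (ModularGroup.T ^ k) z = 1 := by
        simp [chi4, den, ModularGroup.coe_T_zpow]
      have h2 : chi4 γ * den γ z = 1 := by
        unfold chi4 den
        rw [hc]
        rcases Int.eq_one_or_neg_one_of_mul_eq_one' hdet with ⟨-, hd⟩ | ⟨-, hd⟩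
        · rw [hd]
          simp
        · rw [hd]
          have e3 : (((-1 : ℤ) : ℤ) : ZMod 4) = 3 := by decide
          have e4 : (ZMod.χ₄ (3 : ZMod 4) : ℤ) = -1 := by decide
          rw [e3, e4]
          push_cast
          ring
      rw [h1, h2]
    · obtain ⟨c', hc'⟩ := four_dvd_of_mem hγ
      obtain ⟨e, he⟩ := odd_of_mem hγ
      have hTi : ModularGroup.T⁻¹ ∈ Good := Good.inv_mem T_mem_Good
      have hU' : U4' ∈ Good := by
        rw [U4'_eq]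
        exact Good.inv_mem U4_mem_Good
      rcases lt_or_gt_of_ne hc with hneg | hpos
      · -- c < 0
        rcases lt_trichotomy (2 * (γ 1 1).natAbs) (γ 1 0).natAbs with h | h | h
        · -- 2|d| < |c| : use U or U'
          by_cases hd : 0 < γ 1 1
          · exact step ih γ hγ U4 U4_mem_Good (by rw [mul_U4_10, mul_U4_11]; omega)
          · exact step ih γ hγ U4' hU' (by rw [mul_U4'_10, mul_U4'_11]; omega)
        · omega
        · by_cases hd : 0 < γ 1 1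
          · exact step ih γ hγ ModularGroup.T T_mem_Good (by rw [mul_T_10, mul_T_11]; omega)
          · exact step ih γ hγ ModularGroup.T⁻¹ hTi (by rw [mul_Tinv_10, mul_Tinv_11]; omega)
      · -- c > 0
        rcases lt_trichotomy (2 * (γ 1 1).natAbs) (γ 1 0).natAbs with h | h | h
        · by_cases hd : 0 < γ 1 1
          · exact step ih γ hγ U4' hU' (by rw [mul_U4'_10, mul_U4'_11]; omega)
          · exact step ih γ hγ U4 U4_mem_Good (by rw [mul_U4_10, mul_U4_11]; omega)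
        · omega
        · by_cases hd : 0 < γ 1 1
          · exact step ih γ hγ ModularGroup.T⁻¹ hTi (by rw [mul_Tinv_10, mul_Tinv_11]; omega)
          · exact step ih γ hγ ModularGroup.T T_mem_Good (by rw [mul_T_10, mul_T_11]; omega)

theorem Good_eq : Good = Gamma0 4 :=
  le_antisymm Good_le (fun γ hγ => mem_Good_of_sum _ γ hγ rfl)

/-! ### The transformation law -/

/-- **The weight-one transformation law of `G4` on `Γ₀(4)`** with the character `χ₄(d)`. -/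
theorem G4_smul (γ : SL(2, ℤ)) (hγ : γ ∈ Gamma0 4) (z : ℍ) :
    G4 (γ • z) = chi4 γ * ((γ 1 0 : ℂ) * z + (γ 1 1 : ℂ)) * G4 z :=
  (mem_Good_of_sum _ γ hγ rfl).2 z

theorem G4_smul_denom (γ : SL(2, ℤ)) (hγ : γ ∈ Gamma0 4) (z : ℍ) :
    G4 (γ • z) = chi4 γ * denom γ z * G4 z := by
  rw [denom_eq_den]
  exact G4_smul γ hγ z

/-- `G4 ^ 2` is slash-invariant of weight `2` under `Γ₀(4)`. -/
theorem G4_sq_slash (γ : SL(2, ℤ)) (hγ : γ ∈ Gamma0 4) : (G4 ^ 2) ∣[(2 : ℤ)] γ = G4 ^ 2 := by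
  funext z
  rw [SL_slash_apply]
  have h := G4_smul_denom γ hγ z
  have hd : denom γ z ≠ 0 := by
    rw [denom_eq_den]
    exact den_ne_zero γ z
  simp only [Pi.pow_apply]
  rw [h, mul_pow, mul_pow, chi4_sq hγ, one_mul, zpow_neg]
  have : denom γ z ^ (2 : ℤ) = denom γ z ^ 2 := by norm_cast
  rw [this]
  field_simp

end Fermat.Agent.S36.EtaG4
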