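import Mathlib
import Fermat.Agent.S29.K12Stmt
import Fermat.Agent.S29.K1IntB
import Fermat.Agent.S29.K1IntConv
import Fermat.Agent.S29.K1Gen
import Fermat.Agent.S29.RootChar
import Fermat.Agent.S29.SturmChi
import Fermat.Agent.S29.RatDescent

/-!
# S36 block [B1-eta], leaf E6 [UF]: roots of quotients of forms are modular functions

Let `h` be a holomorphic `Γ₀(N)`-invariant function on `ℍ`, bounded at `i∞`, such that
`h ^ k * Den = Num` for two forms `Num`, `Den` of the same weight on `Γ₀(N)` (`k ≠ 0`).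
Then `A := h * Den` is a modular form (its `k`-th power `Num * Den ^ (k - 1)` is one, so `A ∣ g`
is bounded at every cusp), hence the q-expansion of `h` lies in `Mchi N 1 = F_ℂ(N)`.

This is the way the eta quotients `G(qz)/G(z)` of the (B1) regularity block enter the function
field: no asymptotics of `η` at the cusps other than `i∞` are needed.
-/

set_option autoImplicit false

namespace Fermat.Agent.S36.EtaUnitField

open UpperHalfPlane ModularForm CongruenceSubgroup Filter Topology ModularCurve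
open Fermat.Agent Fermat.Agent.S29 Fermat.Agent.S29.K
open scoped MatrixGroups ModularForm Manifold

/-- A function whose `k`-th power (`k ≠ 0`) is bounded at `i∞` is bounded at `i∞`. -/
theorem isBoundedAtImInfty_of_pow {f : ℍ → ℂ} {k : ℕ} (hk : k ≠ 0)
    (h : IsBoundedAtImInfty (f ^ k)) : IsBoundedAtImInfty f := by
  rw [UpperHalfPlane.isBoundedAtImInfty_iff] at h ⊢
  obtain ⟨M, A, hMA⟩ := h
  refine ⟨max M 1, A, fun z hz => ?_⟩
  have h1 : ‖f z‖ ^ k ≤ M := by
    have := hMA z hz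
    simpa [Pi.pow_apply, norm_pow] using this
  by_contra hcon
  push Not at hcon
  have h2 : max M 1 < ‖f z‖ ^ k := by
    have h3 : 1 < ‖f z‖ := lt_of_le_of_lt (le_max_right M 1) hcon
    calc max M 1 < ‖f z‖ := hcon
      _ = ‖f z‖ ^ 1 := (pow_one _).symm
      _ ≤ ‖f z‖ ^ k := pow_le_pow_right₀ h3.le (Nat.one_le_iff_ne_zero.mpr hk)
  exact absurd (lt_of_le_of_lt (le_max_left M 1) h2) (not_lt.mpr h1)

/-- Weight-`w` slash of `h * B` by `γ` when `h` is `γ`-invariant. -/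
theorem mul_slash_of_inv {h B : ℍ → ℂ} (w : ℤ) (γ : SL(2, ℤ))
    (hγ : ∀ z, h (γ • z) = h z) : (h * B) ∣[w] γ = h * (B ∣[w] γ) := by
  funext z
  rw [SL_slash_apply, Pi.mul_apply, Pi.mul_apply, SL_slash_apply, hγ z]
  ring

/-- **The root trick.** `h` holomorphic and `Γ₀(N)`-invariant with `h ^ k * Den = Num`,
`Num, Den ∈ M_w(Γ₀(N))`: then `h * Den ∈ M_w(Γ₀(N))`. -/
theorem mul_mem_MF_of_pow {N : ℕ} [NeZero N] {w : ℤ} {h Num Den : ℍ → ℂ} (hh : MDiff h)
    (hinv : ∀ γ ∈ Gamma0 N, ∀ z, h (γ • z) = h z)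
    (hNum : Num ∈ S20.MF N w) (hDen : Den ∈ S20.MF N w) {k : ℕ} (hk : k ≠ 0)
    (hpow : ∀ z, h z ^ k * Den z = Num z) : h * Den ∈ S20.MF N w := by
  have hD := S20.mem_MF_iff'.mp hDen
  rw [S20.mem_MF_iff']
  refine ⟨hh.mul hD.1, fun γ hγ => ?_, fun g => ?_⟩
  · rw [mul_slash_of_inv w γ (hinv γ hγ), hD.2.1 γ hγ]
  · -- the k-th power is the form `Num * Den ^ (k - 1)`
    obtain ⟨k', rfl⟩ := Nat.exists_eq_succ_of_ne_zero hk
    have e : (h * Den) ^ (k' + 1) = Num * Den ^ k' := by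
      funext z
      simp only [Pi.mul_apply, Pi.pow_apply]
      rw [← hpow z, Nat.succ_eq_add_one]
      ring
    have hform : (h * Den) ^ (k' + 1) ∈ S20.MF N (w + (k' : ℤ) * w) := by
      rw [e]
      exact S20.mul_mem_MF hNum (S20.pow_mem_MF hDen k')
    have hb := (S20.mem_MF_iff'.mp hform).2.2 g
    have e2 : w + (k' : ℤ) * w = ((k' + 1 : ℕ) : ℤ) * w := by push_cast; ring
    rw [e2, RootChar.pow_slash] at hb
    exact isBoundedAtImInfty_of_pow (Nat.succ_ne_zero k') hb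

/-- A `Γ₀(N)`-invariant function is `1`-periodic. -/
theorem periodic_of_inv {N : ℕ} {h : ℍ → ℂ}
    (hinv : ∀ γ ∈ Gamma0 N, ∀ z, h (γ • z) = h z) : Function.Periodic (h ∘ ofComplex) 1 := by
  refine SturmChi.periodic_of_slash_T (k := 0) ?_
  funext z
  rw [SL_slash_apply, hinv _ (SturmChi.T_mem_Gamma0 N) z]
  simp

/-- A holomorphic `Γ₀(N)`-invariant function bounded at `i∞` is in `niceSub`. -/
theorem mem_niceSub_of_inv {N : ℕ} {h : ℍ → ℂ} (hh : MDiff h)
    (hinv : ∀ γ ∈ Gamma0 N, ∀ z, h (γ • z) = h z) (hb : IsBoundedAtImInfty h) :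
    h ∈ S23.niceSub :=
  ⟨periodic_of_inv hinv, hh, hb⟩

/-- `qx` is multiplicative on `niceSub`. -/
theorem qx_mul {A B : ℍ → ℂ} (hA : A ∈ S23.niceSub) (hB : B ∈ S23.niceSub) :
    qx (A * B) = qx A * qx B := by
  have h := map_mul S24.AnBridge.Phi (⟨A, hA⟩ : S23.niceSub) ⟨B, hB⟩
  exact h

/-- **[UF]** the q-expansion of a root of a quotient of forms lies in `F_ℂ(N)`. -/
theorem qx_mem_FC_of_pow {N : ℕ} [NeZero N] {w : ℤ} {h Num Den : ℍ → ℂ} (hh : MDiff h)
    (hinv : ∀ γ ∈ Gamma0 N, ∀ z, h (γ • z) = h z) (hb : IsBoundedAtImInfty h)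
    (hNum : Num ∈ S20.MF N w) (hDen : Den ∈ S20.MF N w) (hDen0 : Den ≠ 0) {k : ℕ} (hk : k ≠ 0)
    (hpow : ∀ z, h z ^ k * Den z = Num z) : qx h ∈ FC N := by
  have hA := mul_mem_MF_of_pow hh hinv hNum hDen hk hpow
  have hmem : qx h ∈ Mchi N 1 :=
    ⟨w, h * Den, Den, K1Gen.mem_MFchi_one_of_mem_MF hA, hDen, hDen0,
      (qx_mul (mem_niceSub_of_inv hh hinv hb) (K1IntConv.mem_niceSub_of_mem_MF hDen)).symm⟩
  have hK1 : Mchi N 1 = (FC N : Set (LaurentSeries ℂ)) := k1Statement N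
  rw [hK1] at hmem
  exact hmem

/-- Descent form: a series with `ℚ̄`-coefficients whose base change is the q-expansion of such
an `h` lies in `F̄_N`. -/
theorem mem_modularFunctionFieldBar_of_pow {N : ℕ} [NeZero N] {w : ℤ} {h Num Den : ℍ → ℂ}
    (hh : MDiff h) (hinv : ∀ γ ∈ Gamma0 N, ∀ z, h (γ • z) = h z) (hb : IsBoundedAtImInfty h)
    (hNum : Num ∈ S20.MF N w) (hDen : Den ∈ S20.MF N w) (hDen0 : Den ≠ 0) {k : ℕ} (hk : k ≠ 0)
    (hpow : ∀ z, h z ^ k * Den z = Num z)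
    (y : LaurentSeries (AlgebraicClosure ℚ)) (hy : coeffMap S24.embC y = qx h) :
    y ∈ modularFunctionFieldBar N := by
  have h1 := qx_mem_FC_of_pow hh hinv hb hNum hDen hDen0 hk hpow
  rw [← hy] at h1
  exact (RatDescent.coeffMap_mem_iff_mem_modularFunctionFieldBar S24.embC N y).mp h1

end Fermat.Agent.S36.EtaUnitField
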