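import Mathlib
import Fermat.Agent.S36.EtaDQB
import Fermat.Agent.S36.EtaUnitField

/-!
# S36 block [B1-eta], leaf E6 [UF], second part: units from roots of `Δ`-monomials

Complement of `S36/EtaUnitField.lean` (the membership `qx h ∈ F_ℂ(N)`): integrality.

* `mem_MF_of_pow_mem_MF` : a holomorphic weight-`w` invariant function whose `k`-th power is a
  modular form is a modular form.
* `DM N m F` : `F` is a nowhere vanishing form of weight `12 m` on `Γ₀(N)` whose normalised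
  q-series `qx F / DeltaC ^ m` is integral over `ℂ[j]` together with its inverse
  ("`Δ`-monomial"); closed under products and powers, contains `Δ(d z)` for `d ∣ N`.
* `unit_of_pow` : a holomorphic `Γ₀(N)`-invariant function `h`, bounded at `i∞`, with
  `h ^ k * Den = Num` for two `Δ`-monomials of the same weight: `qx h ∈ F_ℂ(N)`, and both
  `qx h` and `(qx h)⁻¹` are integral over `ℂ[j]`.

The descent of these integrality statements to the arithmetic charts is in
`S36/EtaChartInt.lean`.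
-/

set_option autoImplicit false

namespace Fermat.Agent.S36.EtaUnitFieldB

open UpperHalfPlane ModularForm CongruenceSubgroup Filter Topology ModularCurve
open Fermat.Agent Fermat.Agent.S29 Fermat.Agent.S29.K
open scoped MatrixGroups ModularForm Manifold

local notation "Δ" => ModularForm.discriminant

/-! ### Roots of modular forms -/

/-- A holomorphic function, invariant of weight `w` under `Γ₀(N)`, whose `k`-th power
(`k ≠ 0`) is a modular form of weight `k * w`, is a modular form of weight `w`. -/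
theorem mem_MF_of_pow_mem_MF {N : ℕ} [NeZero N] {w : ℤ} {A : ℍ → ℂ} (hA : MDiff A)
    (hinv : S20.IsInv N w A) {k : ℕ} (hk : k ≠ 0) (hpow : A ^ k ∈ S20.MF N ((k : ℤ) * w)) :
    A ∈ S20.MF N w := by
  rw [S20.mem_MF_iff']
  refine ⟨hA, hinv, fun g => ?_⟩
  have hb := (S20.mem_MF_iff'.mp hpow).2.2 g
  rw [RootChar.pow_slash] at hb
  exact EtaUnitField.isBoundedAtImInfty_of_pow hk hb

/-! ### `Δ`-monomials -/

/-- `F` is a nowhere vanishing modular form of weight `12 m` on `Γ₀(N)` such that the q-series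
`x = qx F / DeltaC ^ m` and its inverse are integral over `ℂ[j]`. -/
def DM (N : ℕ) (m : ℕ) (F : ℍ → ℂ) : Prop :=
  F ∈ S20.MF N (12 * (m : ℤ)) ∧ (∀ z, F z ≠ 0) ∧
    ∃ x : LaurentSeries ℂ, x * DeltaC ^ m = qx F ∧ x ≠ 0 ∧
      IsIntegral (Algebra.adjoin ℂ ({jC} : Set (LaurentSeries ℂ))) x ∧
      IsIntegral (Algebra.adjoin ℂ ({jC} : Set (LaurentSeries ℂ))) x⁻¹

theorem DM.mem_MF {N m : ℕ} {F : ℍ → ℂ} (h : DM N m F) : F ∈ S20.MF N (12 * (m : ℤ)) := h.1

theorem DM.ne_zero {N m : ℕ} {F : ℍ → ℂ} (h : DM N m F) (z : ℍ) : F z ≠ 0 := h.2.1 z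

theorem DM.ne_zero' {N m : ℕ} {F : ℍ → ℂ} (h : DM N m F) : F ≠ 0 :=
  fun h0 => h.2.1 UpperHalfPlane.I (congrFun h0 _)

theorem DM.one (N : ℕ) [NeZero N] : DM N 0 (1 : ℍ → ℂ) := by
  refine ⟨by simpa using S20.Base.one_mem_MF N, fun z => one_ne_zero, 1, ?_, one_ne_zero,
    isIntegral_one, ?_⟩
  · rw [pow_zero, mul_one, qx_one]
  · rw [inv_one]; exact isIntegral_one

theorem DM.mul {N : ℕ} [NeZero N] {m m' : ℕ} {F F' : ℍ → ℂ} (h : DM N m F) (h' : DM N m' F') :
    DM N (m + m') (F * F') := by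
  obtain ⟨hF, hF0, x, hx, hx0, hxi, hxi'⟩ := h
  obtain ⟨hF', hF0', x', hx', hx0', hxi2, hxi2'⟩ := h'
  refine ⟨?_, fun z => mul_ne_zero (hF0 z) (hF0' z), x * x', ?_, mul_ne_zero hx0 hx0',
    hxi.mul hxi2, ?_⟩
  · have := S20.mul_mem_MF hF hF'
    have e : (12 : ℤ) * ((m + m' : ℕ) : ℤ) = 12 * (m : ℤ) + 12 * (m' : ℤ) := by push_cast; ring
    rw [e]; exact this
  · rw [K.qx_mul (mem_niceSub_of_mem_MF hF) (mem_niceSub_of_mem_MF hF'), ← hx, ← hx', pow_add]
    ring
  · rw [mul_inv]; exact hxi'.mul hxi2'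

theorem DM.pow {N : ℕ} [NeZero N] {m : ℕ} {F : ℍ → ℂ} (h : DM N m F) (n : ℕ) :
    DM N (n * m) (F ^ n) := by
  induction n with
  | zero => simpa using DM.one N
  | succ n ih =>
      have := ih.mul h
      rw [pow_succ, Nat.succ_mul]
      exact this

theorem DM.congr {N : ℕ} {m m' : ℕ} {F F' : ℍ → ℂ} (h : DM N m F) (hm : m = m') (hF : F = F') :
    DM N m' F' := by
  subst hm; subst hF; exact h

/-- `Δ` is a `Δ`-monomial at every level. -/
theorem DM.discriminant (N : ℕ) [NeZero N] : DM N 1 (Δ : ℍ → ℂ) := by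
  refine ⟨by simpa using discriminant_mem_MF N, fun z => ModularForm.discriminant_ne_zero z, 1,
    ?_, one_ne_zero, isIntegral_one, ?_⟩
  · rw [pow_one, one_mul]; rfl
  · rw [inv_one]; exact isIntegral_one

/-- `Δ(d z)` is a `Δ`-monomial of level `N` for `d ∣ N`. -/
theorem DM.uFun (N d : ℕ) [NeZero N] [NeZero d] (hd : d ∣ N) : DM N 1 (S23.uFun d) := by
  obtain ⟨x, hx, hx0, -, -, hxi, hxi'⟩ := EtaDQB.exists_dq N d hd
  refine ⟨by simpa using K1Gen.MF_le_of_dvd hd 12 (S20.RankLower.uFun_mem_MF d),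
    fun z => EtaDQB.uFun_ne_zero d z, x, ?_, hx0, hxi, hxi'⟩
  rw [pow_one]; exact hx

/-! ### The unit theorem -/

/-- **[UF], integrality.** Let `h` be holomorphic, `Γ₀(N)`-invariant and bounded at `i∞`, with
`h ^ k * Den = Num` (`k ≠ 0`) for two `Δ`-monomials of the same weight. Then `qx h` is a nonzero
element of `F_ℂ(N)`, and `qx h`, `(qx h)⁻¹` are integral over `ℂ[j]`. -/
theorem unit_of_pow {N : ℕ} [NeZero N] {m : ℕ} {h Num Den : ℍ → ℂ} (hh : MDiff h)
    (hinv : ∀ γ ∈ Gamma0 N, ∀ z, h (γ • z) = h z) (hb : IsBoundedAtImInfty h)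
    (hNum : DM N m Num) (hDen : DM N m Den) {k : ℕ} (hk : k ≠ 0)
    (hpow : ∀ z, h z ^ k * Den z = Num z) :
    qx h ≠ 0 ∧ qx h ∈ FC N ∧
      IsIntegral (Algebra.adjoin ℂ ({jC} : Set (LaurentSeries ℂ))) (qx h) ∧
      IsIntegral (Algebra.adjoin ℂ ({jC} : Set (LaurentSeries ℂ))) (qx h)⁻¹ := by
  have hFC := EtaUnitField.qx_mem_FC_of_pow hh hinv hb hNum.mem_MF hDen.mem_MF hDen.ne_zero' hk
    hpow
  have hhn : h ∈ S23.niceSub := EtaUnitField.mem_niceSub_of_inv hh hinv hb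
  obtain ⟨hN, -, a, ha, ha0, hai, hai'⟩ := hNum
  obtain ⟨hD, -, b, hb', hb0, hbi, hbi'⟩ := hDen
  have hDn : Den ∈ S23.niceSub := mem_niceSub_of_mem_MF hD
  have hfun : h ^ k * Den = Num := by
    funext z
    simp only [Pi.mul_apply, Pi.pow_apply]
    exact hpow z
  have hq : qx h ^ k * qx Den = qx Num := by
    rw [← K.qx_pow hhn, ← K.qx_mul (Subalgebra.pow_mem _ hhn k) hDn, hfun]
  have hD0 : DeltaC ^ m ≠ 0 := pow_ne_zero _ DeltaC_ne_zero
  have hxk : qx h ^ k * b = a := by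
    have : (qx h ^ k * b) * DeltaC ^ m = a * DeltaC ^ m := by
      rw [mul_assoc, hb', ha, hq]
    exact mul_right_cancel₀ hD0 this
  have hx0 : qx h ≠ 0 := by
    intro h0
    rw [h0, zero_pow hk, zero_mul] at hxk
    exact ha0 hxk.symm
  have hk' : 0 < k := Nat.pos_of_ne_zero hk
  refine ⟨hx0, hFC, ?_, ?_⟩
  · refine IsIntegral.of_pow hk' ?_
    have e : qx h ^ k = a * b⁻¹ := by
      rw [← hxk, mul_assoc, mul_inv_cancel₀ hb0, mul_one]
    rw [e]
    exact hai.mul hbi'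
  · refine IsIntegral.of_pow hk' ?_
    have e : (qx h)⁻¹ ^ k = b * a⁻¹ := by
      rw [← hxk, inv_pow, mul_inv, mul_comm b, mul_assoc, inv_mul_cancel₀ hb0, mul_one]
    rw [e]
    exact hbi.mul hai'

end Fermat.Agent.S36.EtaUnitFieldB
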