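import Mathlib
import Fermat.Agent.S36.EtaG4
import Fermat.Agent.S36.EtaDQB
import Fermat.Agent.S36.EtaUnitField
import Fermat.Agent.S36.EtaUnitFieldB
import Fermat.Agent.S36.EtaHInv

/-!
# S36, block [B1-eta], leaf E9: the eta units for `N₀ = 4`

OWNER: helper15 (only the owner edits this file).

With `G4 z = η(2z)^10 / (η(z)^4 η(4z)^4)` (`EtaG4`), put `Gs d z = G4 (d z)` and
`hq d e = Gs d / Gs e`.  For every level `N` divisible by `4 d` and `4 e`: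

* `hq d e` is holomorphic, nowhere zero, `Γ₀(N)`-invariant and bounded at `i∞`;
* `hq d e ^ 24` is an explicit quotient of products of `Δ(δ z)`, `δ ∣ N`;
* the `q`-expansion of `hq d e` lies in `F_ℂ(N)`, and it and its inverse are integral over `ℂ[j]`.

The units of the plan are `EtaHInv.h1 G4 q = hq q 1 = G4(qz)/G4(z)` and
`EtaHInv.h2 G4 q = hq (q^2) q = G4(q²z)/G4(qz)` (`h1_eq`, `h2_eq`); the final statements are
`law_G4` (the weight-one law in the form used by `EtaHInv`), `h1_props`, `h2_props` (function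
side) and `h1_unit`, `h2_unit` (`q`-expansion side).
-/

set_option autoImplicit false

namespace Fermat.Agent.S36.EtaUnits4

open UpperHalfPlane ModularForm CongruenceSubgroup Filter
open Fermat.Agent.S29 Fermat.Agent.S36.EtaG4
open scoped MatrixGroups ModularForm Manifold Real

local notation "Δ" => (ModularForm.discriminant : ℍ → ℂ)

/-- `z ↦ G4 (d z)`. -/
noncomputable def Gs (d : ℕ) [NeZero d] (z : ℍ) : ℂ := G4 (S23.mulN d z)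

theorem Gs_eq (d : ℕ) [NeZero d] (z : ℍ) : Gs d z = g4 ((d : ℂ) * (z : ℂ)) := rfl

theorem Gs_ne_zero (d : ℕ) [NeZero d] (z : ℍ) : Gs d z ≠ 0 := G4_ne_zero _

theorem im_natCast_mul_pos (d : ℕ) [NeZero d] {w : ℂ} (hw : 0 < w.im) :
    0 < ((d : ℂ) * w).im := by
  have hd : (0 : ℝ) < d := Nat.cast_pos.mpr (NeZero.pos d)
  simpa using mul_pos hd hw

theorem mdiff_Gs (d : ℕ) [NeZero d] : MDiff (Gs d) := by
  rw [UpperHalfPlane.mdifferentiable_iff]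
  have h : DifferentiableOn ℂ (fun w : ℂ => g4 ((d : ℂ) * w)) {w : ℂ | 0 < w.im} := fun w hw =>
    ((differentiableAt_g4 (im_natCast_mul_pos d hw)).comp w
      (differentiableAt_id.const_mul (d : ℂ))).differentiableWithinAt
  refine h.congr (fun w hw => ?_)
  simp only [Function.comp_apply, Gs_eq]
  rw [ofComplex_apply_of_im_pos hw]

theorem Gs_one : Gs 1 = G4 := by
  funext z
  rw [Gs_eq]
  simp [G4]

/-- The transformation law of `Gs d` on `Γ₀(4 d)`. -/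
theorem Gs_smul (d : ℕ) [NeZero d] (γ : SL(2, ℤ)) (hγ : γ ∈ Gamma0 (4 * d)) (z : ℍ) :
    Gs d (γ • z) = chi4 γ * den γ z * Gs d z := by
  have hc : (((4 * d : ℕ) : ℤ)) ∣ γ 1 0 := by
    have h : ((γ 1 0 : ℤ) : ZMod (4 * d)) = 0 := Gamma0_mem.mp hγ
    exact (ZMod.intCast_zmod_eq_zero_iff_dvd (γ 1 0) (4 * d)).mp h
  obtain ⟨c', hc'⟩ := hc
  have hc'' : γ 1 0 = 4 * (d : ℤ) * c' := by rw [hc']; push_cast; ring
  have hdet := γ.det_coe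
  rw [Matrix.det_fin_two] at hdet
  let γ' : SL(2, ℤ) := ⟨!![γ 0 0, d * γ 0 1; 4 * c', γ 1 1], by
    rw [Matrix.det_fin_two_of]
    rw [hc''] at hdet
    linarith⟩
  have hγ' : γ' ∈ Gamma0 4 := by
    rw [Gamma0_mem]
    show (((4 * c' : ℤ)) : ZMod 4) = 0
    push_cast
    have : (4 : ZMod 4) = 0 := by decide
    rw [this, zero_mul]
  have h00 : γ' 0 0 = γ 0 0 := rfl
  have h01 : γ' 0 1 = d * γ 0 1 := rfl
  have h10 : γ' 1 0 = 4 * c' := rfl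
  have h11 : γ' 1 1 = γ 1 1 := rfl
  have hden0 : (γ 1 0 : ℂ) * z + (γ 1 1 : ℂ) ≠ 0 := den_ne_zero γ z
  have hcC : (γ 1 0 : ℂ) = 4 * (d : ℂ) * (c' : ℂ) := by exact_mod_cast hc''
  have hpt : S23.mulN d (γ • z) = γ' • S23.mulN d z := by
    apply UpperHalfPlane.ext
    rw [S23.coe_mulN, coe_smul_eq, coe_smul_eq, S23.coe_mulN, h00, h01, h10, h11]
    have hden1 : ((4 * c' : ℤ) : ℂ) * ((d : ℂ) * (z : ℂ)) + (γ 1 1 : ℂ)
        = (γ 1 0 : ℂ) * z + (γ 1 1 : ℂ) := by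
      rw [hcC]; push_cast; ring
    rw [hden1]
    field_simp
    push_cast
    ring
  show G4 (S23.mulN d (γ • z)) = chi4 γ * den γ z * G4 (S23.mulN d z)
  rw [hpt, G4_smul γ' hγ' (S23.mulN d z)]
  have e1 : chi4 γ' = chi4 γ := rfl
  have e2 : (γ' 1 0 : ℂ) * ((S23.mulN d z : ℍ) : ℂ) + (γ' 1 1 : ℂ) = den γ z := by
    rw [S23.coe_mulN, h10, h11]
    unfold den
    rw [hcC]; push_cast; ring
  rw [e1, e2]

theorem chi4_ne_zero {γ : SL(2, ℤ)} (h : γ ∈ Gamma0 4) : chi4 γ ≠ 0 := by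
  intro h0
  have := chi4_sq h
  rw [h0] at this
  norm_num at this

/-- The quotient `Gs d / Gs e`. -/
noncomputable def hq (d e : ℕ) [NeZero d] [NeZero e] (z : ℍ) : ℂ := Gs d z / Gs e z

theorem hq_ne_zero (d e : ℕ) [NeZero d] [NeZero e] (z : ℍ) : hq d e z ≠ 0 :=
  div_ne_zero (Gs_ne_zero d z) (Gs_ne_zero e z)

theorem mdiff_hq (d e : ℕ) [NeZero d] [NeZero e] : MDiff (hq d e) := by
  have h1 := mdiff_Gs d
  have h2 := mdiff_Gs e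
  rw [UpperHalfPlane.mdifferentiable_iff] at h1 h2 ⊢
  exact h1.div h2 (fun w _ => Gs_ne_zero e _)

theorem hq_mul_hq (d e : ℕ) [NeZero d] [NeZero e] (z : ℍ) : hq d e z * hq e d z = 1 := by
  unfold hq
  have h1 := Gs_ne_zero d z
  have h2 := Gs_ne_zero e z
  field_simp

/-- `hq d e` is invariant under `Γ₀(N)` when `4 d ∣ N` and `4 e ∣ N`. -/
theorem hq_smul (d e : ℕ) [NeZero d] [NeZero e] {N : ℕ} (hd : 4 * d ∣ N) (he : 4 * e ∣ N)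
    (γ : SL(2, ℤ)) (hγ : γ ∈ Gamma0 N) (z : ℍ) : hq d e (γ • z) = hq d e z := by
  have h4 : γ ∈ Gamma0 4 :=
    K.K1Gen.Gamma0_le_of_dvd (dvd_trans (dvd_mul_right 4 d) hd) hγ
  have h1 := Gs_smul d γ (K.K1Gen.Gamma0_le_of_dvd hd hγ) z
  have h2 := Gs_smul e γ (K.K1Gen.Gamma0_le_of_dvd he hγ) z
  unfold hq
  rw [h1, h2]
  have hχ := chi4_ne_zero h4
  have hden := den_ne_zero γ z
  have h3 := Gs_ne_zero e z
  field_simp

/-! ### The 24-th power: a quotient of discriminants -/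

theorem uFun_eq (d : ℕ) [NeZero d] (z : ℍ) :
    S23.uFun d z = ModularForm.eta ((d : ℂ) * (z : ℂ)) ^ 24 := rfl

theorem Gs_pow (d e2 e4 : ℕ) [NeZero d] [NeZero e2] [NeZero e4] (h2 : e2 = 2 * d)
    (h4 : e4 = 4 * d) (z : ℍ) :
    Gs d z ^ 24 * (S23.uFun d z ^ 4 * S23.uFun e4 z ^ 4) = S23.uFun e2 z ^ 10 := by
  subst h2 h4
  rw [Gs_eq, uFun_eq, uFun_eq, uFun_eq]
  unfold g4
  have e2c : (((2 * d : ℕ)) : ℂ) * (z : ℂ) = 2 * ((d : ℂ) * z) := by push_cast; ring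
  have e4c : (((4 * d : ℕ)) : ℂ) * (z : ℂ) = 4 * ((d : ℂ) * z) := by push_cast; ring
  rw [e2c, e4c]
  have hw := im_natCast_mul_pos d z.im_pos
  have hB : ModularForm.eta ((d : ℂ) * z) ≠ 0 :=
    eta_ne_zero (show (d : ℂ) * z ∈ upperHalfPlaneSet from hw)
  have hC : ModularForm.eta (4 * ((d : ℂ) * z)) ≠ 0 :=
    eta_ne_zero (show 4 * ((d : ℂ) * z) ∈ upperHalfPlaneSet from im_four_mul_pos hw)
  generalize ModularForm.eta ((d : ℂ) * z) = B at hB ⊢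
  generalize ModularForm.eta (4 * ((d : ℂ) * z)) = C at hC ⊢
  generalize ModularForm.eta (2 * ((d : ℂ) * z)) = A
  rw [div_pow]
  field_simp

/-! ### Boundedness at `i∞` -/

/-- Two-sided bounds for `Δ(d z)` near `i∞`, uniform in `d`. -/
theorem uFun_bounds : ∃ C A : ℝ, 0 < C ∧ ∀ (d : ℕ) [NeZero d] (z : ℍ), A ≤ z.im →
    Real.exp (-2 * π * (d * z.im)) ≤ C * ‖S23.uFun d z‖ ∧
      ‖S23.uFun d z‖ ≤ C * Real.exp (-2 * π * (d * z.im)) := by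
  obtain ⟨C₁, A₁, hC₁, hlow⟩ := EtaDQB.exists_lower
  obtain ⟨C₂, A₂, hC₂, hup⟩ := EtaDQB.exists_upper
  refine ⟨max C₁ C₂, max A₁ A₂, lt_max_of_lt_left hC₁, fun d _ z hz => ?_⟩
  have hA1 : A₁ ≤ z.im := le_trans (le_max_left _ _) hz
  have hA2 : A₂ ≤ z.im := le_trans (le_max_right _ _) hz
  have him : (S23.mulN d z).im = d * z.im := S23.im_mulN d z
  have hd1 : (1 : ℝ) ≤ d := Nat.one_le_cast.mpr (NeZero.pos d)
  have hge : z.im ≤ (S23.mulN d z).im := by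
    rw [him]
    nlinarith [z.im_pos]
  have h1 := hlow (S23.mulN d z) (le_trans hA1 hge)
  have h2 := hup (S23.mulN d z) (le_trans hA2 hge)
  rw [him] at h1 h2
  constructor
  · exact le_trans h1 (mul_le_mul_of_nonneg_right (le_max_left _ _) (norm_nonneg _))
  · exact le_trans h2 (mul_le_mul_of_nonneg_right (le_max_right _ _) (Real.exp_pos _).le)

/-- The real-variable inequality behind the boundedness of `Gs d ^ 24`. -/
theorem real_bounds {E u1 u2 u4 C G : ℝ} (hE : 0 < E) (hC : 0 < C) (hu1 : 0 < u1)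
    (hu2 : 0 < u2) (hu4 : 0 < u4) (hG : 0 < G)
    (l1 : E ≤ C * u1) (r1 : u1 ≤ C * E) (l2 : E ^ 2 ≤ C * u2) (r2 : u2 ≤ C * E ^ 2)
    (l4 : E ^ 4 ≤ C * u4) (r4 : u4 ≤ C * E ^ 4) (hid : G * (u1 ^ 4 * u4 ^ 4) = u2 ^ 10) :
    G ≤ C ^ 18 ∧ G⁻¹ ≤ C ^ 18 := by
  have hP : 0 < u1 ^ 4 * u4 ^ 4 := mul_pos (pow_pos hu1 4) (pow_pos hu4 4)
  have hE2 : 0 ≤ E ^ 2 := (pow_pos hE 2).le
  have hE4 : 0 ≤ E ^ 4 := (pow_pos hE 4).le
  have hC8 : 0 ≤ C ^ 8 := (pow_pos hC 8).le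
  have hC10 : 0 ≤ C ^ 10 := (pow_pos hC 10).le
  -- upper bound
  have hA : E ^ 20 ≤ C ^ 8 * (u1 ^ 4 * u4 ^ 4) :=
    calc E ^ 20 = E ^ 4 * (E ^ 4) ^ 4 := by ring
      _ ≤ (C * u1) ^ 4 * (C * u4) ^ 4 :=
          mul_le_mul (pow_le_pow_left₀ hE.le l1 4) (pow_le_pow_left₀ hE4 l4 4)
            (pow_nonneg hE4 4) (pow_nonneg (mul_pos hC hu1).le 4)
      _ = C ^ 8 * (u1 ^ 4 * u4 ^ 4) := by ring
  have hB : u2 ^ 10 ≤ C ^ 10 * E ^ 20 :=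
    calc u2 ^ 10 ≤ (C * E ^ 2) ^ 10 := pow_le_pow_left₀ hu2.le r2 10
      _ = C ^ 10 * E ^ 20 := by ring
  have hup : u2 ^ 10 ≤ C ^ 18 * (u1 ^ 4 * u4 ^ 4) :=
    calc u2 ^ 10 ≤ C ^ 10 * E ^ 20 := hB
      _ ≤ C ^ 10 * (C ^ 8 * (u1 ^ 4 * u4 ^ 4)) := mul_le_mul_of_nonneg_left hA hC10
      _ = C ^ 18 * (u1 ^ 4 * u4 ^ 4) := by ring
  -- lower bound
  have hA' : u1 ^ 4 * u4 ^ 4 ≤ C ^ 8 * E ^ 20 :=
    calc u1 ^ 4 * u4 ^ 4 ≤ (C * E) ^ 4 * (C * E ^ 4) ^ 4 :=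
          mul_le_mul (pow_le_pow_left₀ hu1.le r1 4) (pow_le_pow_left₀ hu4.le r4 4)
            (pow_nonneg hu4.le 4) (pow_nonneg (mul_pos hC hE).le 4)
      _ = C ^ 8 * E ^ 20 := by ring
  have hB' : E ^ 20 ≤ C ^ 10 * u2 ^ 10 :=
    calc E ^ 20 = (E ^ 2) ^ 10 := by ring
      _ ≤ (C * u2) ^ 10 := pow_le_pow_left₀ hE2 l2 10
      _ = C ^ 10 * u2 ^ 10 := by ring
  have hlow : u1 ^ 4 * u4 ^ 4 ≤ C ^ 18 * u2 ^ 10 :=
    calc u1 ^ 4 * u4 ^ 4 ≤ C ^ 8 * E ^ 20 := hA'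
      _ ≤ C ^ 8 * (C ^ 10 * u2 ^ 10) := mul_le_mul_of_nonneg_left hB' hC8
      _ = C ^ 18 * u2 ^ 10 := by ring
  constructor
  · have h' : G * (u1 ^ 4 * u4 ^ 4) ≤ C ^ 18 * (u1 ^ 4 * u4 ^ 4) := by
      rw [hid]
      exact hup
    exact le_of_mul_le_mul_right h' hP
  · have h' : 1 * (u1 ^ 4 * u4 ^ 4) ≤ C ^ 18 * G * (u1 ^ 4 * u4 ^ 4) := by
      rw [one_mul, mul_assoc, hid]
      exact hlow
    have h1 : 1 ≤ C ^ 18 * G := le_of_mul_le_mul_right h' hP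
    rw [inv_le_iff_one_le_mul₀ hG]
    exact h1

theorem exp_two (d : ℕ) (y : ℝ) :
    Real.exp (-2 * π * (((2 * d : ℕ) : ℝ) * y)) = Real.exp (-2 * π * ((d : ℝ) * y)) ^ 2 := by
  rw [← Real.exp_nat_mul]
  congr 1
  push_cast
  ring

theorem exp_four (d : ℕ) (y : ℝ) :
    Real.exp (-2 * π * (((4 * d : ℕ) : ℝ) * y)) = Real.exp (-2 * π * ((d : ℝ) * y)) ^ 4 := by
  rw [← Real.exp_nat_mul]
  congr 1
  push_cast
  ring

theorem norm_Gs_pow (d : ℕ) [NeZero d] (z : ℍ) :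
    ‖Gs d z‖ ^ 24 * (‖S23.uFun d z‖ ^ 4 * ‖S23.uFun (4 * d) z‖ ^ 4)
      = ‖S23.uFun (2 * d) z‖ ^ 10 := by
  have h := congrArg norm (Gs_pow d (2 * d) (4 * d) rfl rfl z)
  rw [norm_mul, norm_mul, norm_pow, norm_pow, norm_pow, norm_pow] at h
  exact h

theorem Gs_pow_bounds : ∃ M A : ℝ, ∀ (d : ℕ) [NeZero d] (z : ℍ), A ≤ z.im →
    ‖Gs d z‖ ^ 24 ≤ M ∧ ‖(Gs d z)⁻¹‖ ^ 24 ≤ M := by
  obtain ⟨C, A, hC, hb⟩ := uFun_bounds
  refine ⟨C ^ 18, A, fun d _ z hz => ?_⟩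
  obtain ⟨l1, r1⟩ := hb d z hz
  obtain ⟨l2, r2⟩ := hb (2 * d) z hz
  obtain ⟨l4, r4⟩ := hb (4 * d) z hz
  rw [exp_two] at l2 r2
  rw [exp_four] at l4 r4
  have key := real_bounds (Real.exp_pos _) hC (norm_pos_iff.mpr (EtaDQB.uFun_ne_zero d z))
    (norm_pos_iff.mpr (EtaDQB.uFun_ne_zero (2 * d) z))
    (norm_pos_iff.mpr (EtaDQB.uFun_ne_zero (4 * d) z))
    (pow_pos (norm_pos_iff.mpr (Gs_ne_zero d z)) 24) l1 r1 l2 r2 l4 r4 (norm_Gs_pow d z)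
  rw [norm_inv, inv_pow]
  exact key

theorem bdd_Gs (d : ℕ) [NeZero d] : IsBoundedAtImInfty (Gs d) := by
  obtain ⟨M, A, hb⟩ := Gs_pow_bounds
  apply EtaUnitField.isBoundedAtImInfty_of_pow (k := 24) (by norm_num)
  rw [isBoundedAtImInfty_iff]
  refine ⟨M, A, fun z hz => ?_⟩
  simp only [Pi.pow_apply, norm_pow]
  exact (hb d z hz).1

theorem bdd_Gs_inv (d : ℕ) [NeZero d] : IsBoundedAtImInfty (fun z : ℍ => (Gs d z)⁻¹) := by
  obtain ⟨M, A, hb⟩ := Gs_pow_bounds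
  apply EtaUnitField.isBoundedAtImInfty_of_pow (k := 24) (by norm_num)
  rw [isBoundedAtImInfty_iff]
  refine ⟨M, A, fun z hz => ?_⟩
  simp only [Pi.pow_apply, norm_pow]
  exact (hb d z hz).2

theorem bdd_hq (d e : ℕ) [NeZero d] [NeZero e] : IsBoundedAtImInfty (hq d e) := by
  have h := (bdd_Gs d).mul (bdd_Gs_inv e)
  have e' : hq d e = Gs d * fun z : ℍ => (Gs e z)⁻¹ := by
    funext z
    simp only [hq, Pi.mul_apply]
    rw [div_eq_mul_inv]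
  rw [e']
  exact h

/-! ### Modular forms: numerator and denominator of `hq d e ^ 24` -/

/-- The denominator `Δ(d z)^4 Δ(4 d z)^4 Δ(2 e z)^10`. -/
noncomputable def Den (d e : ℕ) [NeZero d] [NeZero e] : ℍ → ℂ :=
  S23.uFun d ^ 4 * S23.uFun (4 * d) ^ 4 * S23.uFun (2 * e) ^ 10

/-- The numerator `Δ(2 d z)^10 Δ(e z)^4 Δ(4 e z)^4`. -/
noncomputable def Num (d e : ℕ) [NeZero d] [NeZero e] : ℍ → ℂ :=
  S23.uFun (2 * d) ^ 10 * S23.uFun e ^ 4 * S23.uFun (4 * e) ^ 4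

theorem Num_eq_Den (d e : ℕ) [NeZero d] [NeZero e] : Num d e = Den e d := by
  unfold Num Den
  ring

theorem uFun_mem {N : ℕ} [NeZero N] (d : ℕ) [NeZero d] (hd : d ∣ N) :
    S23.uFun d ∈ S20.MF N 12 :=
  K.K1Gen.MF_le_of_dvd hd 12 (S20.RankLower.uFun_mem_MF d)

theorem Den_mem {N : ℕ} [NeZero N] (d e : ℕ) [NeZero d] [NeZero e] (hd : 4 * d ∣ N)
    (he : 4 * e ∣ N) : Den d e ∈ S20.MF N 216 := by
  have h1 : S23.uFun d ∈ S20.MF N 12 := uFun_mem d (dvd_trans (dvd_mul_left d 4) hd)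
  have h4 : S23.uFun (4 * d) ∈ S20.MF N 12 := uFun_mem (4 * d) hd
  have h2 : S23.uFun (2 * e) ∈ S20.MF N 12 :=
    uFun_mem (2 * e) (dvd_trans (mul_dvd_mul_right (by norm_num : 2 ∣ 4) e) he)
  exact S20.Base.cast_mem_MF (by norm_num)
    (S20.Base.mul_mem_MF (S20.Base.mul_mem_MF (S20.Base.pow_mem_MF h1 4)
      (S20.Base.pow_mem_MF h4 4)) (S20.Base.pow_mem_MF h2 10))

theorem Num_mem {N : ℕ} [NeZero N] (d e : ℕ) [NeZero d] [NeZero e] (hd : 4 * d ∣ N)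
    (he : 4 * e ∣ N) : Num d e ∈ S20.MF N 216 := by
  rw [Num_eq_Den]
  exact Den_mem e d he hd

theorem Den_apply_ne_zero (d e : ℕ) [NeZero d] [NeZero e] (z : ℍ) : Den d e z ≠ 0 := by
  unfold Den
  simp only [Pi.mul_apply, Pi.pow_apply]
  exact mul_ne_zero (mul_ne_zero (pow_ne_zero _ (EtaDQB.uFun_ne_zero d z))
    (pow_ne_zero _ (EtaDQB.uFun_ne_zero (4 * d) z))) (pow_ne_zero _ (EtaDQB.uFun_ne_zero (2 * e) z))

theorem Den_ne_zero (d e : ℕ) [NeZero d] [NeZero e] : Den d e ≠ 0 := fun h =>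
  Den_apply_ne_zero d e UpperHalfPlane.I (congrFun h _)

/-- `hq d e ^ 24 = Num / Den`. -/
theorem hq_pow (d e : ℕ) [NeZero d] [NeZero e] (z : ℍ) :
    hq d e z ^ 24 * Den d e z = Num d e z := by
  have P1 := Gs_pow d (2 * d) (4 * d) rfl rfl z
  have P2 := Gs_pow e (2 * e) (4 * e) rfl rfl z
  have hB := Gs_ne_zero e z
  unfold hq Den Num
  simp only [Pi.mul_apply, Pi.pow_apply]
  rw [div_pow]
  field_simp
  linear_combination (S23.uFun (2 * e) z ^ 10) * P1 - (S23.uFun (2 * d) z ^ 10) * P2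

/-- **The `q`-expansion of `hq d e` lies in `F_ℂ(N)`** when `4 d ∣ N`, `4 e ∣ N`. -/
theorem qx_hq_mem_FC {N : ℕ} [NeZero N] (d e : ℕ) [NeZero d] [NeZero e] (hd : 4 * d ∣ N)
    (he : 4 * e ∣ N) : K.qx (hq d e) ∈ K.FC N :=
  EtaUnitField.qx_mem_FC_of_pow (mdiff_hq d e) (fun γ hγ z => hq_smul d e hd he γ hγ z)
    (bdd_hq d e) (Num_mem d e hd he) (Den_mem d e hd he) (Den_ne_zero d e) (k := 24)
    (by norm_num) (hq_pow d e)

theorem hq_mem_niceSub {N : ℕ} (d e : ℕ) [NeZero d] [NeZero e] (hd : 4 * d ∣ N)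
    (he : 4 * e ∣ N) : hq d e ∈ S23.niceSub :=
  EtaUnitField.mem_niceSub_of_inv (N := N) (mdiff_hq d e)
    (fun γ hγ z => hq_smul d e hd he γ hγ z) (bdd_hq d e)

/-! ### Integrality over `ℂ[j]` -/

theorem Den_DM {N : ℕ} [NeZero N] (d e : ℕ) [NeZero d] [NeZero e] (hd : 4 * d ∣ N)
    (he : 4 * e ∣ N) : EtaUnitFieldB.DM N 18 (Den d e) := by
  have h1 := EtaUnitFieldB.DM.uFun N d (dvd_trans (dvd_mul_left d 4) hd)
  have h4 := EtaUnitFieldB.DM.uFun N (4 * d) hd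
  have h2 := EtaUnitFieldB.DM.uFun N (2 * e)
    (dvd_trans (mul_dvd_mul_right (by norm_num : 2 ∣ 4) e) he)
  exact (((h1.pow 4).mul (h4.pow 4)).mul (h2.pow 10)).congr (by norm_num) rfl

theorem Num_DM {N : ℕ} [NeZero N] (d e : ℕ) [NeZero d] [NeZero e] (hd : 4 * d ∣ N)
    (he : 4 * e ∣ N) : EtaUnitFieldB.DM N 18 (Num d e) := by
  rw [Num_eq_Den]
  exact Den_DM e d he hd

/-- **The eta quotient `hq d e` is a unit**: its `q`-expansion is a nonzero element of `F_ℂ(N)`,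
integral over `ℂ[j]` together with its inverse (`4 d ∣ N`, `4 e ∣ N`). -/
theorem hq_unit {N : ℕ} [NeZero N] (d e : ℕ) [NeZero d] [NeZero e] (hd : 4 * d ∣ N)
    (he : 4 * e ∣ N) :
    K.qx (hq d e) ≠ 0 ∧ K.qx (hq d e) ∈ K.FC N ∧
      IsIntegral (Algebra.adjoin ℂ ({K.jC} : Set (LaurentSeries ℂ))) (K.qx (hq d e)) ∧
      IsIntegral (Algebra.adjoin ℂ ({K.jC} : Set (LaurentSeries ℂ))) (K.qx (hq d e))⁻¹ :=
  EtaUnitFieldB.unit_of_pow (mdiff_hq d e) (fun γ hγ z => hq_smul d e hd he γ hγ z) (bdd_hq d e)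
    (Num_DM d e hd he) (Den_DM d e hd he) (k := 24) (by norm_num) (hq_pow d e)

/-- The inverse of the `q`-expansion of `hq d e` is the `q`-expansion of `hq e d`. -/
theorem qx_hq_inv (d e : ℕ) [NeZero d] [NeZero e] : (K.qx (hq d e))⁻¹ = K.qx (hq e d) := by
  have h1 : hq d e ∈ S23.niceSub :=
    hq_mem_niceSub (N := 4 * d * e) d e ⟨e, by ring⟩ ⟨d, by ring⟩
  have h2 : hq e d ∈ S23.niceSub :=
    hq_mem_niceSub (N := 4 * d * e) e d ⟨d, by ring⟩ ⟨e, by ring⟩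
  have hfun : hq d e * hq e d = 1 := funext fun z => hq_mul_hq d e z
  have h := congrArg K.qx hfun
  rw [K.qx_mul h1 h2, K.qx_one] at h
  exact (eq_inv_of_mul_eq_one_right h).symm

/-! ### The two units `h1 = G4(qz)/G4(z)`, `h2 = G4(q²z)/G4(qz)` of the plan -/

/-- The character `χ₄` as a function on `ℤ` (the multiplier of `G4`). -/
noncomputable def chiZ (d : ℤ) : ℂ := ((ZMod.χ₄ (d : ZMod 4) : ℤ) : ℂ)

theorem chiZ_eq (γ : SL(2, ℤ)) : chiZ (γ 1 1) = chi4 γ := rfl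

/-- `G4` satisfies the weight-one law of `EtaHInv` on `Γ₀(4)` with multiplier `χ₄`. -/
theorem law_G4 : EtaHInv.Law 4 chiZ G4 := fun γ hγ z => G4_smul γ hγ z

theorem mulN_one (z : ℍ) : S23.mulN 1 z = z := by
  apply UpperHalfPlane.ext
  rw [S23.coe_mulN]
  push_cast
  ring

theorem h1_eq (q : ℕ) [NeZero q] : EtaHInv.h1 G4 q = hq q 1 := by
  funext z
  show G4 (S23.mulN q z) / G4 z = G4 (S23.mulN q z) / G4 (S23.mulN 1 z)
  rw [mulN_one]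

theorem h2_eq (q : ℕ) [NeZero q] : EtaHInv.h2 G4 q = hq (q ^ 2) q := by
  funext z
  rw [EtaHInv.h2_apply']
  rfl

theorem four_mul_dvd {q N : ℕ} (hN : 4 * q ^ 2 ∣ N) : 4 * q ∣ N :=
  dvd_trans (mul_dvd_mul_left 4 (dvd_pow_self q two_ne_zero)) hN

theorem four_one_dvd {q N : ℕ} (hN : 4 * q ^ 2 ∣ N) : 4 * 1 ∣ N :=
  dvd_trans (mul_dvd_mul_left 4 (one_dvd _)) hN

/-- Function side of `h1 = G4(qz)/G4(z)` at every level `N` divisible by `4 q²`: holomorphic,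
nowhere zero, `Γ₀(N)`-invariant, bounded at `i∞`. -/
theorem h1_props {N : ℕ} (q : ℕ) [NeZero q] (hN : 4 * q ^ 2 ∣ N) :
    MDiff (EtaHInv.h1 G4 q) ∧ (∀ z, EtaHInv.h1 G4 q z ≠ 0) ∧
      (∀ γ ∈ Gamma0 N, ∀ z, EtaHInv.h1 G4 q (γ • z) = EtaHInv.h1 G4 q z) ∧
      IsBoundedAtImInfty (EtaHInv.h1 G4 q) := by
  rw [h1_eq]
  exact ⟨mdiff_hq q 1, hq_ne_zero q 1,
    fun γ hγ z => hq_smul q 1 (four_mul_dvd hN) (four_one_dvd hN) γ hγ z, bdd_hq q 1⟩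

/-- Function side of `h2 = G4(q²z)/G4(qz)` at every level `N` divisible by `4 q²`. -/
theorem h2_props {N : ℕ} (q : ℕ) [NeZero q] (hN : 4 * q ^ 2 ∣ N) :
    MDiff (EtaHInv.h2 G4 q) ∧ (∀ z, EtaHInv.h2 G4 q z ≠ 0) ∧
      (∀ γ ∈ Gamma0 N, ∀ z, EtaHInv.h2 G4 q (γ • z) = EtaHInv.h2 G4 q z) ∧
      IsBoundedAtImInfty (EtaHInv.h2 G4 q) := by
  rw [h2_eq]
  exact ⟨mdiff_hq (q ^ 2) q, hq_ne_zero (q ^ 2) q,
    fun γ hγ z => hq_smul (q ^ 2) q hN (four_mul_dvd hN) γ hγ z, bdd_hq (q ^ 2) q⟩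

/-- **(U2) for `h1`**: the `q`-expansion of `G4(qz)/G4(z)` is a nonzero element of `F_ℂ(N)`,
integral over `ℂ[j]` together with its inverse, for every `N` divisible by `4 q²`. -/
theorem h1_unit {N : ℕ} [NeZero N] (q : ℕ) [NeZero q] (hN : 4 * q ^ 2 ∣ N) :
    K.qx (EtaHInv.h1 G4 q) ≠ 0 ∧ K.qx (EtaHInv.h1 G4 q) ∈ K.FC N ∧
      IsIntegral (Algebra.adjoin ℂ ({K.jC} : Set (LaurentSeries ℂ))) (K.qx (EtaHInv.h1 G4 q)) ∧
      IsIntegral (Algebra.adjoin ℂ ({K.jC} : Set (LaurentSeries ℂ)))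
        (K.qx (EtaHInv.h1 G4 q))⁻¹ := by
  rw [h1_eq]
  exact hq_unit q 1 (four_mul_dvd hN) (four_one_dvd hN)

/-- **(U2) for `h2`**: the `q`-expansion of `G4(q²z)/G4(qz)` is a nonzero element of `F_ℂ(N)`,
integral over `ℂ[j]` together with its inverse, for every `N` divisible by `4 q²`. -/
theorem h2_unit {N : ℕ} [NeZero N] (q : ℕ) [NeZero q] (hN : 4 * q ^ 2 ∣ N) :
    K.qx (EtaHInv.h2 G4 q) ≠ 0 ∧ K.qx (EtaHInv.h2 G4 q) ∈ K.FC N ∧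
      IsIntegral (Algebra.adjoin ℂ ({K.jC} : Set (LaurentSeries ℂ))) (K.qx (EtaHInv.h2 G4 q)) ∧
      IsIntegral (Algebra.adjoin ℂ ({K.jC} : Set (LaurentSeries ℂ)))
        (K.qx (EtaHInv.h2 G4 q))⁻¹ := by
  rw [h2_eq]
  exact hq_unit (q ^ 2) q hN (four_mul_dvd hN)

/-- `h1`, `h2` lie in the algebra `niceSub` on which `K.qx` is multiplicative. -/
theorem h1_mem_niceSub (q : ℕ) [NeZero q] : EtaHInv.h1 G4 q ∈ S23.niceSub := by
  rw [h1_eq]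
  exact hq_mem_niceSub (N := 4 * q ^ 2) q 1 (four_mul_dvd dvd_rfl) (four_one_dvd dvd_rfl)

theorem h2_mem_niceSub (q : ℕ) [NeZero q] : EtaHInv.h2 G4 q ∈ S23.niceSub := by
  rw [h2_eq]
  exact hq_mem_niceSub (N := 4 * q ^ 2) (q ^ 2) q dvd_rfl (four_mul_dvd dvd_rfl)

end Fermat.Agent.S36.EtaUnits4
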