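import Mathlib
import Fermat.Agent.S36.EtaNine
import Fermat.Agent.S36.EtaHInv
import Fermat.Agent.S36.EtaDQB
import Fermat.Agent.S36.EtaUnitField

/-!
# S36 block [B1-eta], leaf E9 for `N0 = 9` (the prime `q = 2`): the eta units

Twin of `S36/EtaUnits4` with `(4, G4, chi4)` replaced by `(9, G9, chi3)`,
`G9(z) = η(z)^3 / η(3z)` (`S36/EtaNine`).  For `d, e ≥ 1` put `Gs d z = G9(d z)` and
`hq d e = Gs d / Gs e`.  If `9 d ∣ N` and `9 e ∣ N` then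

* `hq d e` is holomorphic, nowhere zero, `Γ₀(N)`-invariant and bounded at `i∞`;
* `hq d e ^ 24 * Den d e = Num d e` with `Den d e = Δ(3d·) Δ(e·)^3`, `Num d e = Δ(d·)^3 Δ(3e·)`
  two forms of weight `48` on `Γ₀(N)`;
* hence (`EtaUnitField`) `qx (hq d e) ∈ F_ℂ(N)`, and (`EtaDQB`) `qx (hq d e)` and its inverse are
  integral over `ℂ[j]` (`hq_unit`).

The two units of the plan are `EtaHInv.h1 G9 q = hq q 1 = G9(qz)/G9(z)` and
`EtaHInv.h2 G9 q = hq (q^2) q = G9(q²z)/G9(qz)` (`h1_unit`, `h2_unit`, level `9 q² ∣ N`).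
-/

set_option autoImplicit false

namespace Fermat.Agent.S36.EtaUnits9

open UpperHalfPlane ModularForm CongruenceSubgroup Filter
open Fermat.Agent.S29
open scoped MatrixGroups ModularForm Manifold Real

local notation "Δ" => (ModularForm.discriminant : ℍ → ℂ)

/-! ### The scaled functions `Gs d = G9(d ·)` -/

/-- `Gs d z = G9 (d z)`. -/
noncomputable def Gs (d : ℕ) [NeZero d] (z : ℍ) : ℂ := EtaNine.G9 (S23.mulN d z)

theorem Gs_ne_zero (d : ℕ) [NeZero d] (z : ℍ) : Gs d z ≠ 0 := EtaNine.G9_ne_zero _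

theorem mdiff_Gs (d : ℕ) [NeZero d] : MDiff (Gs d) :=
  EtaHInv.mdiff_comp_mulN d EtaNine.mdiff_G9

/-- The weight one law of `G9` in the vocabulary of `EtaHInv`. -/
theorem law_G9 : EtaHInv.Law 9 EtaNine.chi3 EtaNine.G9 :=
  EtaHInv.Law.of_denom (fun γ hγ z => EtaNine.G9_smul_denom γ hγ z)

/-- The weight one law of `Gs d` on `Γ₀(9 d)`. -/
theorem Gs_smul (d : ℕ) [NeZero d] (γ : SL(2, ℤ)) (hγ : γ ∈ Gamma0 (9 * d)) (z : ℍ) :
    Gs d (γ • z)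
      = EtaNine.chi3 (γ 1 1) * (((γ 1 0 : ℤ) : ℂ) * z + ((γ 1 1 : ℤ) : ℂ)) * Gs d z :=
  (EtaHInv.Law.scale law_G9 d) γ hγ z

/-- `Gs d z ^ 24 * Δ(3 d z) = Δ(d z) ^ 3`. -/
theorem Gs_pow (d : ℕ) [NeZero d] (z : ℍ) :
    Gs d z ^ 24 * S23.uFun (3 * d) z = S23.uFun d z ^ 3 := by
  have h3 : ModularForm.eta (3 * ((S23.mulN d z : ℍ) : ℂ)) ≠ 0 := by
    apply ModularForm.eta_ne_zero
    have hpos : 0 < ((S23.mulN d z : ℍ) : ℂ).im := (S23.mulN d z).im_pos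
    have him : (3 * ((S23.mulN d z : ℍ) : ℂ)).im = 3 * ((S23.mulN d z : ℍ) : ℂ).im := by
      simp only [Complex.mul_im, Complex.re_ofNat, Complex.im_ofNat, zero_mul, add_zero]
    show 0 < (3 * ((S23.mulN d z : ℍ) : ℂ)).im
    rw [him]
    positivity
  have e1 : S23.uFun (3 * d) z = ModularForm.eta (3 * ((S23.mulN d z : ℍ) : ℂ)) ^ 24 := by
    show ModularForm.eta ((S23.mulN (3 * d) z : ℍ) : ℂ) ^ 24 = _
    rw [S23.coe_mulN, S23.coe_mulN]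
    congr 2
    push_cast
    ring
  have e2 : S23.uFun d z = ModularForm.eta ((S23.mulN d z : ℍ) : ℂ) ^ 24 := rfl
  have e3 : Gs d z = ModularForm.eta ((S23.mulN d z : ℍ) : ℂ) ^ 3
      / ModularForm.eta (3 * ((S23.mulN d z : ℍ) : ℂ)) := rfl
  rw [e1, e2, e3, div_pow, div_mul_cancel₀ _ (pow_ne_zero 24 h3)]
  ring

/-! ### The quotients `hq d e = Gs d / Gs e` -/

/-- `hq d e z = G9(d z) / G9(e z)`. -/
noncomputable def hq (d e : ℕ) [NeZero d] [NeZero e] (z : ℍ) : ℂ := Gs d z / Gs e z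

theorem hq_ne_zero (d e : ℕ) [NeZero d] [NeZero e] (z : ℍ) : hq d e z ≠ 0 :=
  div_ne_zero (Gs_ne_zero d z) (Gs_ne_zero e z)

theorem mdiff_hq (d e : ℕ) [NeZero d] [NeZero e] : MDiff (hq d e) :=
  EtaHInv.mdiff_div (mdiff_Gs d) (mdiff_Gs e) (Gs_ne_zero e)

theorem hq_mul_hq (d e : ℕ) [NeZero d] [NeZero e] (z : ℍ) : hq d e z * hq e d z = 1 := by
  unfold hq
  have h1 := Gs_ne_zero d z
  have h2 := Gs_ne_zero e z
  field_simp

/-- `hq d e` is `Γ₀(N)`-invariant as soon as `9 d ∣ N` and `9 e ∣ N`. -/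
theorem hq_smul (d e : ℕ) [NeZero d] [NeZero e] {N : ℕ} (hd : 9 * d ∣ N) (he : 9 * e ∣ N)
    (γ : SL(2, ℤ)) (hγ : γ ∈ Gamma0 N) (z : ℍ) : hq d e (γ • z) = hq d e z := by
  have e1 := Gs_smul d γ (K.K1Gen.Gamma0_le_of_dvd hd hγ) z
  have e2 := Gs_smul e γ (K.K1Gen.Gamma0_le_of_dvd he hγ) z
  have hX : EtaNine.chi3 (γ 1 1) * (((γ 1 0 : ℤ) : ℂ) * z + ((γ 1 1 : ℤ) : ℂ)) ≠ 0 := by
    intro h0
    rw [h0, zero_mul] at e1
    exact Gs_ne_zero d _ e1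
  unfold hq
  rw [e1, e2]
  exact mul_div_mul_left _ _ hX

/-! ### The 24th power as a quotient of forms -/

/-- Denominator form: `Δ(3d ·) Δ(e ·)^3`, weight `48`. -/
noncomputable def Den (d e : ℕ) [NeZero d] [NeZero e] : ℍ → ℂ :=
  S23.uFun (3 * d) * S23.uFun e ^ 3

/-- Numerator form: `Δ(d ·)^3 Δ(3e ·)`, weight `48`. -/
noncomputable def Num (d e : ℕ) [NeZero d] [NeZero e] : ℍ → ℂ :=
  S23.uFun d ^ 3 * S23.uFun (3 * e)

theorem uFun_mem {N : ℕ} [NeZero N] (k : ℕ) [NeZero k] (hk : k ∣ N) : S23.uFun k ∈ S20.MF N 12 :=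
  K.K1Gen.MF_le_of_dvd hk 12 (S20.RankLower.uFun_mem_MF k)

theorem Den_mem {N : ℕ} [NeZero N] (d e : ℕ) [NeZero d] [NeZero e] (hd : 9 * d ∣ N)
    (he : 9 * e ∣ N) : Den d e ∈ S20.MF N 48 := by
  have h1 : S23.uFun (3 * d) ∈ S20.MF N 12 :=
    uFun_mem (3 * d) (Dvd.dvd.trans ⟨3, by ring⟩ hd)
  have h2 : S23.uFun e ∈ S20.MF N 12 := uFun_mem e (Dvd.dvd.trans ⟨9, by ring⟩ he)
  have h := S20.mul_mem_MF h1 (S20.pow_mem_MF h2 3)
  have e48 : (12 : ℤ) + ((3 : ℕ) : ℤ) * 12 = 48 := by norm_num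
  rw [e48] at h
  exact h

theorem Num_mem {N : ℕ} [NeZero N] (d e : ℕ) [NeZero d] [NeZero e] (hd : 9 * d ∣ N)
    (he : 9 * e ∣ N) : Num d e ∈ S20.MF N 48 := by
  have h1 : S23.uFun d ∈ S20.MF N 12 := uFun_mem d (Dvd.dvd.trans ⟨9, by ring⟩ hd)
  have h2 : S23.uFun (3 * e) ∈ S20.MF N 12 :=
    uFun_mem (3 * e) (Dvd.dvd.trans ⟨3, by ring⟩ he)
  have h := S20.mul_mem_MF (S20.pow_mem_MF h1 3) h2
  have e48 : ((3 : ℕ) : ℤ) * 12 + (12 : ℤ) = 48 := by norm_num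
  rw [e48] at h
  exact h

theorem Den_apply_ne_zero (d e : ℕ) [NeZero d] [NeZero e] (z : ℍ) : Den d e z ≠ 0 := by
  show S23.uFun (3 * d) z * S23.uFun e z ^ 3 ≠ 0
  exact mul_ne_zero (EtaDQB.uFun_ne_zero _ z) (pow_ne_zero 3 (EtaDQB.uFun_ne_zero _ z))

theorem Den_ne_zero (d e : ℕ) [NeZero d] [NeZero e] : Den d e ≠ 0 :=
  fun h => Den_apply_ne_zero d e UpperHalfPlane.I (congrFun h _)

/-- `hq d e ^ 24 * Den d e = Num d e`. -/
theorem hq_pow (d e : ℕ) [NeZero d] [NeZero e] (z : ℍ) :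
    hq d e z ^ 24 * Den d e z = Num d e z := by
  have h1 := Gs_pow d z
  have h2 := Gs_pow e z
  have hG := Gs_ne_zero e z
  show (Gs d z / Gs e z) ^ 24 * (S23.uFun (3 * d) z * S23.uFun e z ^ 3)
    = S23.uFun d z ^ 3 * S23.uFun (3 * e) z
  rw [div_pow, ← h1, ← h2]
  field_simp

/-! ### Boundedness at `i∞` -/

theorem im_mulN (k : ℕ) [NeZero k] (z : ℍ) : (S23.mulN k z).im = k * z.im := by
  show ((S23.mulN k z : ℍ) : ℂ).im = k * z.im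
  rw [S23.coe_mulN]
  simp

/-- The real inequality behind the boundedness of `hq d e` (the exponents balance). -/
theorem real_bound (C₁ C₂ a b c f y : ℝ) (d e : ℕ) (hC₁ : 0 < C₁) (hC₂ : 0 < C₂)
    (ha : 0 ≤ a) (hb : 0 ≤ b) (hc : 0 ≤ c)
    (u1 : a ≤ C₂ * Real.exp (-2 * π * (d * y)))
    (u2 : b ≤ C₂ * Real.exp (-2 * π * (((3 * e : ℕ) : ℝ) * y)))
    (l1 : Real.exp (-2 * π * (((3 * d : ℕ) : ℝ) * y)) ≤ C₁ * c)
    (l2 : Real.exp (-2 * π * (e * y)) ≤ C₁ * f) :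
    a ^ 3 * b ≤ (C₁ * C₂) ^ 4 * (c * f ^ 3) := by
  have hE : Real.exp (-2 * π * (d * y)) ^ 3 * Real.exp (-2 * π * (((3 * e : ℕ) : ℝ) * y))
      = Real.exp (-2 * π * (((3 * d : ℕ) : ℝ) * y)) * Real.exp (-2 * π * (e * y)) ^ 3 := by
    rw [← Real.exp_nat_mul, ← Real.exp_nat_mul, ← Real.exp_add, ← Real.exp_add]
    congr 1
    push_cast
    ring
  have p1 : (0 : ℝ) ≤ Real.exp (-2 * π * (d * y)) := (Real.exp_pos _).le
  have p2 : (0 : ℝ) ≤ Real.exp (-2 * π * (((3 * e : ℕ) : ℝ) * y)) := (Real.exp_pos _).le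
  have p3 : (0 : ℝ) ≤ Real.exp (-2 * π * (((3 * d : ℕ) : ℝ) * y)) := (Real.exp_pos _).le
  have p4 : (0 : ℝ) ≤ Real.exp (-2 * π * (e * y)) := (Real.exp_pos _).le
  calc a ^ 3 * b
      ≤ (C₂ * Real.exp (-2 * π * (d * y))) ^ 3
          * (C₂ * Real.exp (-2 * π * (((3 * e : ℕ) : ℝ) * y))) := by
        gcongr
    _ = C₂ ^ 4 * (Real.exp (-2 * π * (((3 * d : ℕ) : ℝ) * y))
          * Real.exp (-2 * π * (e * y)) ^ 3) := by
        rw [← hE]; ring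
    _ ≤ C₂ ^ 4 * ((C₁ * c) * (C₁ * f) ^ 3) := by
        gcongr
    _ = (C₁ * C₂) ^ 4 * (c * f ^ 3) := by ring

theorem bdd_hq (d e : ℕ) [NeZero d] [NeZero e] : IsBoundedAtImInfty (hq d e) := by
  apply EtaUnitField.isBoundedAtImInfty_of_pow (k := 24) (by norm_num)
  obtain ⟨C₁, A₁, hC₁, hlow⟩ := EtaDQB.exists_lower
  obtain ⟨C₂, A₂, hC₂, hupp⟩ := EtaDQB.exists_upper
  rw [UpperHalfPlane.isBoundedAtImInfty_iff]
  refine ⟨(C₁ * C₂) ^ 4, max (max A₁ A₂) 0, fun z hz => ?_⟩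
  have hz1 : A₁ ≤ z.im := le_trans (le_trans (le_max_left _ _) (le_max_left _ _)) hz
  have hz2 : A₂ ≤ z.im := le_trans (le_trans (le_max_right _ _) (le_max_left _ _)) hz
  have hy : 0 < z.im := z.im_pos
  -- bounds for `Δ(k z)`
  have hge : ∀ (k : ℕ) [NeZero k], z.im ≤ (S23.mulN k z).im := by
    intro k _
    rw [im_mulN]
    have hk : (1 : ℝ) ≤ k := by exact_mod_cast NeZero.one_le
    nlinarith
  have low : ∀ (k : ℕ) [NeZero k],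
      Real.exp (-2 * π * (k * z.im)) ≤ C₁ * ‖S23.uFun k z‖ := by
    intro k _
    have := hlow (S23.mulN k z) (le_trans hz1 (hge k))
    rwa [im_mulN] at this
  have upp : ∀ (k : ℕ) [NeZero k],
      ‖S23.uFun k z‖ ≤ C₂ * Real.exp (-2 * π * (k * z.im)) := by
    intro k _
    have := hupp (S23.mulN k z) (le_trans hz2 (hge k))
    rwa [im_mulN] at this
  have hnum : ‖Num d e z‖ ≤ (C₁ * C₂) ^ 4 * ‖Den d e z‖ := by
    have e1 : ‖Num d e z‖ = ‖S23.uFun d z‖ ^ 3 * ‖S23.uFun (3 * e) z‖ := by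
      show ‖S23.uFun d z ^ 3 * S23.uFun (3 * e) z‖ = _
      rw [norm_mul, norm_pow]
    have e2 : ‖Den d e z‖ = ‖S23.uFun (3 * d) z‖ * ‖S23.uFun e z‖ ^ 3 := by
      show ‖S23.uFun (3 * d) z * S23.uFun e z ^ 3‖ = _
      rw [norm_mul, norm_pow]
    rw [e1, e2]
    exact real_bound C₁ C₂ _ _ _ _ z.im d e hC₁ hC₂ (norm_nonneg _) (norm_nonneg _)
      (norm_nonneg _) (upp d) (upp (3 * e)) (low (3 * d)) (low e)
  have hD : 0 < ‖Den d e z‖ := norm_pos_iff.mpr (Den_apply_ne_zero d e z)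
  have hpow : (hq d e ^ 24) z = Num d e z / Den d e z := by
    rw [Pi.pow_apply, eq_div_iff (Den_apply_ne_zero d e z)]
    exact hq_pow d e z
  rw [hpow, norm_div, div_le_iff₀ hD]
  exact hnum

/-! ### Membership in the function field -/

theorem hq_mem_niceSub {N : ℕ} (d e : ℕ) [NeZero d] [NeZero e] (hd : 9 * d ∣ N)
    (he : 9 * e ∣ N) : hq d e ∈ S23.niceSub :=
  EtaUnitField.mem_niceSub_of_inv (N := N) (mdiff_hq d e)
    (fun γ hγ z => hq_smul d e hd he γ hγ z) (bdd_hq d e)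

/-- The q-expansion of `hq d e` lies in `F_ℂ(N)`. -/
theorem qx_hq_mem_FC {N : ℕ} [NeZero N] (d e : ℕ) [NeZero d] [NeZero e] (hd : 9 * d ∣ N)
    (he : 9 * e ∣ N) : K.qx (hq d e) ∈ K.FC N :=
  EtaUnitField.qx_mem_FC_of_pow (mdiff_hq d e) (fun γ hγ z => hq_smul d e hd he γ hγ z)
    (bdd_hq d e) (Num_mem d e hd he) (Den_mem d e hd he) (Den_ne_zero d e) (k := 24)
    (by norm_num) (hq_pow d e)

theorem qx_hq_ne_zero {N : ℕ} (d e : ℕ) [NeZero d] [NeZero e] (hd : 9 * d ∣ N)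
    (he : 9 * e ∣ N) : K.qx (hq d e) ≠ 0 :=
  K.qx_ne_zero (hq_mem_niceSub d e hd he)
    (fun h => hq_ne_zero d e UpperHalfPlane.I (congrFun h _))

/-! ### Integrality -/

theorem qx_hq_mul {N : ℕ} (d e : ℕ) [NeZero d] [NeZero e] (hd : 9 * d ∣ N) (he : 9 * e ∣ N) :
    K.qx (hq d e) * K.qx (hq e d) = 1 := by
  rw [← K.qx_mul (hq_mem_niceSub d e hd he) (hq_mem_niceSub e d he hd)]
  have : hq d e * hq e d = 1 := by
    funext z
    exact hq_mul_hq d e z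
  rw [this, K.qx_one]

theorem qx_hq_inv {N : ℕ} (d e : ℕ) [NeZero d] [NeZero e] (hd : 9 * d ∣ N) (he : 9 * e ∣ N) :
    (K.qx (hq d e))⁻¹ = K.qx (hq e d) :=
  inv_eq_of_mul_eq_one_right (qx_hq_mul d e hd he)

/-- `qx (hq d e)` is integral over `ℂ[j]`. -/
theorem isIntegral_qx_hq {N : ℕ} [NeZero N] (d e : ℕ) [NeZero d] [NeZero e] (hd : 9 * d ∣ N)
    (he : 9 * e ∣ N) :
    IsIntegral (Algebra.adjoin ℂ ({K.jC} : Set (LaurentSeries ℂ))) (K.qx (hq d e)) := by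
  have hdN : d ∣ N := Dvd.dvd.trans ⟨9, by ring⟩ hd
  have h3dN : 3 * d ∣ N := Dvd.dvd.trans ⟨3, by ring⟩ hd
  have heN : e ∣ N := Dvd.dvd.trans ⟨9, by ring⟩ he
  have h3eN : 3 * e ∣ N := Dvd.dvd.trans ⟨3, by ring⟩ he
  obtain ⟨xd, hxd, hxd0, -, -, hxdI, -⟩ := EtaDQB.exists_dq N d hdN
  obtain ⟨x3d, hx3d, hx3d0, -, -, -, hx3dI⟩ := EtaDQB.exists_dq N (3 * d) h3dN
  obtain ⟨xe, hxe, hxe0, -, -, -, hxeI⟩ := EtaDQB.exists_dq N e heN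
  obtain ⟨x3e, hx3e, hx3e0, -, -, hx3eI, -⟩ := EtaDQB.exists_dq N (3 * e) h3eN
  have hD0 : K.DeltaC ≠ 0 := K.DeltaC_ne_zero
  have nd : S23.uFun d ∈ S23.niceSub := K.mem_niceSub_of_mem_MF (uFun_mem (N := N) d hdN)
  have n3d : S23.uFun (3 * d) ∈ S23.niceSub :=
    K.mem_niceSub_of_mem_MF (uFun_mem (N := N) (3 * d) h3dN)
  have ne : S23.uFun e ∈ S23.niceSub := K.mem_niceSub_of_mem_MF (uFun_mem (N := N) e heN)
  have n3e : S23.uFun (3 * e) ∈ S23.niceSub :=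
    K.mem_niceSub_of_mem_MF (uFun_mem (N := N) (3 * e) h3eN)
  have nh : hq d e ∈ S23.niceSub := hq_mem_niceSub d e hd he
  -- the identity of q-expansions
  have hfun : hq d e ^ 24 * (S23.uFun (3 * d) * S23.uFun e ^ 3)
      = S23.uFun d ^ 3 * S23.uFun (3 * e) := by
    funext z
    exact hq_pow d e z
  have hqx : K.qx (hq d e) ^ 24 * (K.qx (S23.uFun (3 * d)) * K.qx (S23.uFun e) ^ 3)
      = K.qx (S23.uFun d) ^ 3 * K.qx (S23.uFun (3 * e)) := by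
    rw [← K.qx_pow nh, ← K.qx_pow ne, ← K.qx_pow nd,
      ← K.qx_mul n3d (S23.niceSub.pow_mem ne 3),
      ← K.qx_mul (S23.niceSub.pow_mem nh 24)
        (S23.niceSub.mul_mem n3d (S23.niceSub.pow_mem ne 3)),
      ← K.qx_mul (S23.niceSub.pow_mem nd 3) n3e, hfun]
  rw [← hxd, ← hx3d, ← hxe, ← hx3e] at hqx
  have key : K.qx (hq d e) ^ 24 = xd ^ 3 * x3e * (x3d⁻¹ * xe⁻¹ ^ 3) := by
    have hden : x3d * xe ^ 3 * K.DeltaC ^ 4 ≠ 0 :=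
      mul_ne_zero (mul_ne_zero hx3d0 (pow_ne_zero 3 hxe0)) (pow_ne_zero 4 hD0)
    apply mul_right_cancel₀ hden
    have e1 : xd ^ 3 * x3e * (x3d⁻¹ * xe⁻¹ ^ 3) * (x3d * xe ^ 3 * K.DeltaC ^ 4)
        = xd ^ 3 * x3e * K.DeltaC ^ 4 := by
      field_simp
    rw [e1]
    linear_combination hqx
  have hint : IsIntegral (Algebra.adjoin ℂ ({K.jC} : Set (LaurentSeries ℂ)))
      (K.qx (hq d e) ^ 24) := by
    rw [key]
    exact ((hxdI.pow 3).mul hx3eI).mul (hx3dI.mul (hxeI.pow 3))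
  exact IsIntegral.of_pow (by norm_num) hint

/-- **The unit theorem for `hq d e`.** -/
theorem hq_unit {N : ℕ} [NeZero N] (d e : ℕ) [NeZero d] [NeZero e] (hd : 9 * d ∣ N)
    (he : 9 * e ∣ N) :
    K.qx (hq d e) ≠ 0 ∧ K.qx (hq d e) ∈ K.FC N ∧
      IsIntegral (Algebra.adjoin ℂ ({K.jC} : Set (LaurentSeries ℂ))) (K.qx (hq d e)) ∧
      IsIntegral (Algebra.adjoin ℂ ({K.jC} : Set (LaurentSeries ℂ))) (K.qx (hq d e))⁻¹ := by
  refine ⟨qx_hq_ne_zero d e hd he, qx_hq_mem_FC d e hd he, isIntegral_qx_hq d e hd he, ?_⟩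
  rw [qx_hq_inv d e hd he]
  exact isIntegral_qx_hq e d he hd

/-! ### The two units `h1 = G9(qz)/G9(z)`, `h2 = G9(q²z)/G9(qz)` of the plan -/

theorem mulN_one (z : ℍ) : S23.mulN 1 z = z := by
  apply UpperHalfPlane.ext
  rw [S23.coe_mulN]
  push_cast
  ring

theorem h1_eq (q : ℕ) [NeZero q] : EtaHInv.h1 EtaNine.G9 q = hq q 1 := by
  funext z
  show EtaNine.G9 (S23.mulN q z) / EtaNine.G9 z
    = EtaNine.G9 (S23.mulN q z) / EtaNine.G9 (S23.mulN 1 z)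
  rw [mulN_one]

theorem h2_eq (q : ℕ) [NeZero q] : EtaHInv.h2 EtaNine.G9 q = hq (q ^ 2) q := by
  funext z
  rw [EtaHInv.h2_apply']
  rfl

theorem nine_mul_dvd {q N : ℕ} (hN : 9 * q ^ 2 ∣ N) : 9 * q ∣ N :=
  dvd_trans (mul_dvd_mul_left 9 (dvd_pow_self q two_ne_zero)) hN

theorem nine_one_dvd {q N : ℕ} (hN : 9 * q ^ 2 ∣ N) : 9 * 1 ∣ N :=
  dvd_trans (mul_dvd_mul_left 9 (one_dvd _)) hN

/-- Function side of `h1 = G9(qz)/G9(z)` at every level `N` divisible by `9 q²`: holomorphic,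
nowhere zero, `Γ₀(N)`-invariant, bounded at `i∞`. -/
theorem h1_props {N : ℕ} (q : ℕ) [NeZero q] (hN : 9 * q ^ 2 ∣ N) :
    MDiff (EtaHInv.h1 EtaNine.G9 q) ∧ (∀ z, EtaHInv.h1 EtaNine.G9 q z ≠ 0) ∧
      (∀ γ ∈ Gamma0 N, ∀ z, EtaHInv.h1 EtaNine.G9 q (γ • z) = EtaHInv.h1 EtaNine.G9 q z) ∧
      IsBoundedAtImInfty (EtaHInv.h1 EtaNine.G9 q) := by
  rw [h1_eq]
  exact ⟨mdiff_hq q 1, hq_ne_zero q 1,
    fun γ hγ z => hq_smul q 1 (nine_mul_dvd hN) (nine_one_dvd hN) γ hγ z, bdd_hq q 1⟩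

/-- Function side of `h2 = G9(q²z)/G9(qz)` at every level `N` divisible by `9 q²`. -/
theorem h2_props {N : ℕ} (q : ℕ) [NeZero q] (hN : 9 * q ^ 2 ∣ N) :
    MDiff (EtaHInv.h2 EtaNine.G9 q) ∧ (∀ z, EtaHInv.h2 EtaNine.G9 q z ≠ 0) ∧
      (∀ γ ∈ Gamma0 N, ∀ z, EtaHInv.h2 EtaNine.G9 q (γ • z) = EtaHInv.h2 EtaNine.G9 q z) ∧
      IsBoundedAtImInfty (EtaHInv.h2 EtaNine.G9 q) := by
  rw [h2_eq]
  exact ⟨mdiff_hq (q ^ 2) q, hq_ne_zero (q ^ 2) q,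
    fun γ hγ z => hq_smul (q ^ 2) q hN (nine_mul_dvd hN) γ hγ z, bdd_hq (q ^ 2) q⟩

/-- **(U2) for `h1`**: the `q`-expansion of `G9(qz)/G9(z)` is a nonzero element of `F_ℂ(N)`,
integral over `ℂ[j]` together with its inverse, for every `N` divisible by `9 q²`. -/
theorem h1_unit {N : ℕ} [NeZero N] (q : ℕ) [NeZero q] (hN : 9 * q ^ 2 ∣ N) :
    K.qx (EtaHInv.h1 EtaNine.G9 q) ≠ 0 ∧ K.qx (EtaHInv.h1 EtaNine.G9 q) ∈ K.FC N ∧
      IsIntegral (Algebra.adjoin ℂ ({K.jC} : Set (LaurentSeries ℂ)))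
        (K.qx (EtaHInv.h1 EtaNine.G9 q)) ∧
      IsIntegral (Algebra.adjoin ℂ ({K.jC} : Set (LaurentSeries ℂ)))
        (K.qx (EtaHInv.h1 EtaNine.G9 q))⁻¹ := by
  rw [h1_eq]
  exact hq_unit q 1 (nine_mul_dvd hN) (nine_one_dvd hN)

/-- **(U2) for `h2`**: the `q`-expansion of `G9(q²z)/G9(qz)` is a nonzero element of `F_ℂ(N)`,
integral over `ℂ[j]` together with its inverse, for every `N` divisible by `9 q²`. -/
theorem h2_unit {N : ℕ} [NeZero N] (q : ℕ) [NeZero q] (hN : 9 * q ^ 2 ∣ N) :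
    K.qx (EtaHInv.h2 EtaNine.G9 q) ≠ 0 ∧ K.qx (EtaHInv.h2 EtaNine.G9 q) ∈ K.FC N ∧
      IsIntegral (Algebra.adjoin ℂ ({K.jC} : Set (LaurentSeries ℂ)))
        (K.qx (EtaHInv.h2 EtaNine.G9 q)) ∧
      IsIntegral (Algebra.adjoin ℂ ({K.jC} : Set (LaurentSeries ℂ)))
        (K.qx (EtaHInv.h2 EtaNine.G9 q))⁻¹ := by
  rw [h2_eq]
  exact hq_unit (q ^ 2) q hN (nine_mul_dvd hN)

/-- `h1`, `h2` lie in the algebra `niceSub` on which `K.qx` is multiplicative. -/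
theorem h1_mem_niceSub (q : ℕ) [NeZero q] : EtaHInv.h1 EtaNine.G9 q ∈ S23.niceSub := by
  rw [h1_eq]
  exact hq_mem_niceSub (N := 9 * q ^ 2) q 1 (nine_mul_dvd dvd_rfl) (nine_one_dvd dvd_rfl)

theorem h2_mem_niceSub (q : ℕ) [NeZero q] : EtaHInv.h2 EtaNine.G9 q ∈ S23.niceSub := by
  rw [h2_eq]
  exact hq_mem_niceSub (N := 9 * q ^ 2) (q ^ 2) q dvd_rfl (nine_mul_dvd dvd_rfl)

end Fermat.Agent.S36.EtaUnits9
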