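import Mathlib
import Fermat.Agent.S29.KDefs
import Fermat.Agent.S29.RatDescent
import Fermat.Agent.S24.AnDefs
import Fermat.Agent.S34.GaussV
import Fermat.Agent.S36.NormK

/-!
# S36, package [B1-eta], leaf E8b: the `K`-rational form of an integral-series unit

Let `Φ ∈ ℤ⟦t⟧` have constant coefficient `1` and suppose that its base change to `ℂ((t))` lies
in the function field `F_ℂ(N)` (in the application: `Φ` is the `q`-expansion of the eta-quotient
unit `G(qz)/G(z)` or `G(q²z)/G(qz)`).  Then for EVERY intermediate field `K` of `ℚ̄/ℚ` and every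
valuation subring `A` of `ℚ̄` with `O = A ∩ K` a DVR:

* `serK N K Φ h : FK N K` is the element of `F_K` with `q`-expansion `Φ` (`coe_serK`), nonzero;
* `serK` and its inverse are Gauss-integral (`serK_mem_V1`, `serK_inv_mem_V1`), i.e. `serK` is a
  unit of the Gauss valuation ring `S34.GaussV.V1` (= `W1` of MODEL3), with reduction `Φ mod 𝔪`
  (`red1_serK`, `red1_serK_inv`);
* the bridges back to `ℂ((t))` (`coeffMap_embC_serK`, `coeffMap_embC_serK_inv`).
-/

set_option autoImplicit false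

noncomputable section

namespace Fermat.Agent.S36.EtaUnitsK

open ModularCurve AlgebraicCurve HahnSeries
open Fermat.Agent Fermat.Agent.S18.Arith

/-! ### Integral power series as Laurent series over any ring -/

section Ser

variable (R : Type*) [CommRing R]

/-- The Laurent series over `R` of an integral power series. -/
def ser (Φ : PowerSeries ℤ) : LaurentSeries R :=
  HahnSeries.ofPowerSeries ℤ R (Φ.map (Int.castRingHom R))

variable {R}

theorem coeffMap_ser {S : Type*} [CommRing S] (f : R →+* S) (Φ : PowerSeries ℤ) :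
    coeffMap f (ser R Φ) = ser S Φ := by
  rw [ser, coeffMap_ofPowerSeries, ser]
  congr 1
  ext n
  simp [PowerSeries.coeff_map]

variable (R)

theorem ser_one : ser R 1 = 1 := by
  rw [ser, map_one, map_one]

theorem ser_mul (Φ Ψ : PowerSeries ℤ) : ser R (Φ * Ψ) = ser R Φ * ser R Ψ := by
  rw [ser, map_mul, map_mul]
  rfl

/-- The series of the inverse of a power series with constant coefficient `1`. -/
theorem ser_mul_ser_invOfUnit (Φ : PowerSeries ℤ) (hΦ : PowerSeries.constantCoeff Φ = 1) :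
    ser R Φ * ser R (Φ.invOfUnit 1) = 1 := by
  rw [← ser_mul, PowerSeries.mul_invOfUnit Φ 1 (by simpa using hΦ), ser_one]

theorem ser_coeff_natCast (Φ : PowerSeries ℤ) (n : ℕ) :
    (ser R Φ).coeff (n : ℤ) = ((PowerSeries.coeff n Φ : ℤ) : R) := by
  rw [ser, HahnSeries.ofPowerSeries_apply_coeff, PowerSeries.coeff_map]
  rfl

theorem ser_coeff_of_neg (Φ : PowerSeries ℤ) {n : ℤ} (hn : n < 0) : (ser R Φ).coeff n = 0 :=
  ofPowerSeries_coeff_of_neg _ hn

/-- Every coefficient of `ser R Φ` is an integer. -/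
theorem ser_coeff_eq_intCast (Φ : PowerSeries ℤ) (n : ℤ) : ∃ a : ℤ, (ser R Φ).coeff n = (a : R) := by
  rcases le_or_gt 0 n with hn | hn
  · lift n to ℕ using hn
    exact ⟨_, ser_coeff_natCast R Φ n⟩
  · exact ⟨0, by rw [ser_coeff_of_neg R Φ hn, Int.cast_zero]⟩

theorem ser_ne_zero [Nontrivial R] (Φ : PowerSeries ℤ) (hΦ : PowerSeries.constantCoeff Φ = 1) :
    ser R Φ ≠ 0 := by
  intro h
  have h1 := ser_mul_ser_invOfUnit R Φ hΦ
  rw [h, zero_mul] at h1
  exact zero_ne_one h1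

end Ser

/-- Over a field, the inverse of `ser Φ` is the series of the inverse power series. -/
theorem ser_inv {F : Type*} [Field F] (Φ : PowerSeries ℤ) (hΦ : PowerSeries.constantCoeff Φ = 1) :
    (ser F Φ)⁻¹ = ser F (Φ.invOfUnit 1) :=
  inv_eq_of_mul_eq_one_right (ser_mul_ser_invOfUnit F Φ hΦ)

/-! ### Descent to `F̄_N` and to `F_K` -/

section Descent

variable (N : ℕ) [NeZero N] (K : IntermediateField ℚ Qb)

/-- If the complex series of `Φ` lies in `F_ℂ(N)`, its `ℚ̄`-series lies in `F̄_N`. -/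
theorem ser_mem_bar {Φ : PowerSeries ℤ} (h : ser ℂ Φ ∈ S29.K.FC N) :
    ser Qb Φ ∈ modularFunctionFieldBar N := by
  rw [← coeffMap_ser S24.embC Φ] at h
  exact (S29.RatDescent.coeffMap_mem_iff_mem_modularFunctionFieldBar S24.embC N (ser Qb Φ)).mp h

/-- If the complex series of `Φ` lies in `F_ℂ(N)`, its `ℚ̄`-series lies in `F_K`, for every `K`. -/
theorem ser_mem_FK {Φ : PowerSeries ℤ} (h : ser ℂ Φ ∈ S29.K.FC N) : ser Qb Φ ∈ FK N K := by
  refine NormK.mem_FK_of_coeff_mem N K (ser Qb Φ) (ser_mem_bar N h) (fun n => ?_)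
  obtain ⟨a, ha⟩ := ser_coeff_eq_intCast Qb Φ n
  rw [ha]
  exact intCast_mem K a

/-- The element of `F_K` with `q`-expansion `Φ`. -/
def serK {Φ : PowerSeries ℤ} (h : ser ℂ Φ ∈ S29.K.FC N) : FK N K := ⟨ser Qb Φ, ser_mem_FK N K h⟩

@[simp] theorem coe_serK {Φ : PowerSeries ℤ} (h : ser ℂ Φ ∈ S29.K.FC N) :
    ((serK N K h : FK N K) : LaurentSeries Qb) = ser Qb Φ := rfl

theorem serK_ne_zero {Φ : PowerSeries ℤ} (h : ser ℂ Φ ∈ S29.K.FC N)
    (hΦ : PowerSeries.constantCoeff Φ = 1) : serK N K h ≠ 0 := by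
  intro h0
  exact ser_ne_zero Qb Φ hΦ (congrArg Subtype.val h0)

theorem coe_serK_inv {Φ : PowerSeries ℤ} (h : ser ℂ Φ ∈ S29.K.FC N)
    (hΦ : PowerSeries.constantCoeff Φ = 1) :
    (((serK N K h)⁻¹ : FK N K) : LaurentSeries Qb) = ser Qb (Φ.invOfUnit 1) := by
  rw [Subfield.coe_inv, coe_serK, ser_inv Φ hΦ]

/-- Bridge to `ℂ((t))`. -/
theorem coeffMap_embC_serK {Φ : PowerSeries ℤ} (h : ser ℂ Φ ∈ S29.K.FC N) :
    coeffMap S24.embC ((serK N K h : FK N K) : LaurentSeries Qb) = ser ℂ Φ := by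
  rw [coe_serK, coeffMap_ser]

/-- Bridge to `ℂ((t))` for the inverse. -/
theorem coeffMap_embC_serK_inv {Φ : PowerSeries ℤ} (h : ser ℂ Φ ∈ S29.K.FC N)
    (hΦ : PowerSeries.constantCoeff Φ = 1) :
    coeffMap S24.embC (((serK N K h)⁻¹ : FK N K) : LaurentSeries Qb) = (ser ℂ Φ)⁻¹ := by
  rw [coe_serK_inv N K h hΦ, coeffMap_ser, ser_inv Φ hΦ]

end Descent

/-! ### Gauss-integrality (the `W1` facts) -/

section Gauss

variable {N : ℕ} [NeZero N] {A : ValuationSubring Qb} {K : IntermediateField ℚ Qb}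

/-- `serK` is Gauss-integral. -/
theorem serK_mem_V1 (hdvr : IsDiscreteValuationRing (OK A K)) {Φ : PowerSeries ℤ}
    (h : ser ℂ Φ ∈ S29.K.FC N) : serK N K h ∈ S34.GaussV.V1 N A K hdvr :=
  S34.GaussV.mem_V1_of_int hdvr (X := ser A Φ) (by rw [coe_serK, coeffMap_ser])

/-- The inverse of `serK` is Gauss-integral. -/
theorem serK_inv_mem_V1 (hdvr : IsDiscreteValuationRing (OK A K)) {Φ : PowerSeries ℤ}
    (h : ser ℂ Φ ∈ S29.K.FC N) (hΦ : PowerSeries.constantCoeff Φ = 1) :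
    (serK N K h)⁻¹ ∈ S34.GaussV.V1 N A K hdvr :=
  S34.GaussV.mem_V1_of_int hdvr (X := ser A (Φ.invOfUnit 1))
    (by rw [coe_serK_inv N K h hΦ, coeffMap_ser])

/-- The Gauss reduction of `serK` is `Φ mod 𝔪`. -/
theorem red1_serK (hdvr : IsDiscreteValuationRing (OK A K)) {Φ : PowerSeries ℤ}
    (h : ser ℂ Φ ∈ S29.K.FC N) :
    S34.GaussV.red1 hdvr ⟨serK N K h, serK_mem_V1 hdvr h⟩ = ser (IsLocalRing.ResidueField A) Φ := by
  have h1 := S34.GaussV.red1_of_int hdvr (x := serK N K h) (X := ser A Φ)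
    (by rw [coe_serK, coeffMap_ser])
  exact h1.trans (coeffMap_ser _ Φ)

/-- The Gauss reduction of the inverse of `serK`. -/
theorem red1_serK_inv (hdvr : IsDiscreteValuationRing (OK A K)) {Φ : PowerSeries ℤ}
    (h : ser ℂ Φ ∈ S29.K.FC N) (hΦ : PowerSeries.constantCoeff Φ = 1) :
    S34.GaussV.red1 hdvr ⟨(serK N K h)⁻¹, serK_inv_mem_V1 hdvr h hΦ⟩ =
      ser (IsLocalRing.ResidueField A) (Φ.invOfUnit 1) := by
  have h1 := S34.GaussV.red1_of_int hdvr (x := (serK N K h)⁻¹) (X := ser A (Φ.invOfUnit 1))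
    (by rw [coe_serK_inv N K h hΦ, coeffMap_ser])
  exact h1.trans (coeffMap_ser _ (Φ.invOfUnit 1))

/-- The reduction of `serK` is nonzero (a unit of `k((t))`). -/
theorem red1_serK_ne_zero (hdvr : IsDiscreteValuationRing (OK A K)) {Φ : PowerSeries ℤ}
    (h : ser ℂ Φ ∈ S29.K.FC N) (hΦ : PowerSeries.constantCoeff Φ = 1) :
    S34.GaussV.red1 hdvr ⟨serK N K h, serK_mem_V1 hdvr h⟩ ≠ 0 := by
  rw [red1_serK]
  exact ser_ne_zero _ Φ hΦ

end Gauss

/-! ### Function form: `h : ℍ → ℂ` with `qx h = Φ` -/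

section Fun

variable (N : ℕ) [NeZero N] (K : IntermediateField ℚ Qb)

/-- **E8b, packaged.** From an analytic unit `h` whose `q`-expansion is the integral series `Φ`
(constant coefficient `1`) and lies in `F_ℂ(N)`: a nonzero `hK ∈ F_K` with `q`-expansion `Φ`,
Gauss-integral together with its inverse for every `A`, and with the bridges to `qx h`. -/
theorem exists_unitK {h : UpperHalfPlane → ℂ} {Φ : PowerSeries ℤ}
    (hΦ : PowerSeries.constantCoeff Φ = 1)
    (hqx : S29.K.qx h = HahnSeries.ofPowerSeries ℤ ℂ (Φ.map (Int.castRingHom ℂ)))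
    (hFC : S29.K.qx h ∈ S29.K.FC N) :
    ∃ hK : FK N K, hK ≠ 0 ∧
      ((hK : FK N K) : LaurentSeries Qb) =
        HahnSeries.ofPowerSeries ℤ Qb (Φ.map (Int.castRingHom Qb)) ∧
      coeffMap S24.embC ((hK : FK N K) : LaurentSeries Qb) = S29.K.qx h ∧
      coeffMap S24.embC ((hK⁻¹ : FK N K) : LaurentSeries Qb) = (S29.K.qx h)⁻¹ ∧
      ∀ (A : ValuationSubring Qb) (hdvr : IsDiscreteValuationRing (OK A K)),
        ∃ (h1 : hK ∈ S34.GaussV.V1 N A K hdvr) (h2 : hK⁻¹ ∈ S34.GaussV.V1 N A K hdvr),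
          S34.GaussV.red1 hdvr ⟨hK, h1⟩ =
            HahnSeries.ofPowerSeries ℤ (IsLocalRing.ResidueField A)
              (Φ.map (Int.castRingHom (IsLocalRing.ResidueField A))) ∧
          S34.GaussV.red1 hdvr ⟨hK⁻¹, h2⟩ =
            HahnSeries.ofPowerSeries ℤ (IsLocalRing.ResidueField A)
              ((Φ.invOfUnit 1).map (Int.castRingHom (IsLocalRing.ResidueField A))) := by
  have hFC' : ser ℂ Φ ∈ S29.K.FC N := by
    rw [ser, ← hqx]
    exact hFC
  refine ⟨serK N K hFC', serK_ne_zero N K hFC' hΦ, rfl, ?_, ?_, fun A hdvr => ?_⟩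
  · rw [coeffMap_embC_serK, hqx]
    rfl
  · rw [coeffMap_embC_serK_inv N K hFC' hΦ, hqx]
    rfl
  · exact ⟨serK_mem_V1 hdvr hFC', serK_inv_mem_V1 hdvr hFC' hΦ, red1_serK hdvr hFC',
      red1_serK_inv hdvr hFC' hΦ⟩

end Fun

end Fermat.Agent.S36.EtaUnitsK
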