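import Mathlib
import Fermat.Agent.S18.GRel
import Fermat.Agent.S36.EtaUnitsK

/-!
# S36, package [B1-eta], leaf E8b (GRel form)

Complement of `S36/EtaUnitsK.lean`: the Gauss relation `GRel` (no DVR hypothesis, every
valuation subring `A` of `ℚ̄`) for the `K`-rational element attached to an integral series, and
for its inverse, with nonzero reductions.
-/

set_option autoImplicit false

noncomputable section

namespace Fermat.Agent.S36.EtaUnitsKG

open ModularCurve AlgebraicCurve HahnSeries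
open Fermat.Agent Fermat.Agent.S18.Arith Fermat.Agent.S36.EtaUnitsK

/-- The series of an integral power series is Gauss-integral, with the obvious reduction. -/
theorem gRel_ser (A : ValuationSubring Qb) (Φ : PowerSeries ℤ) :
    GRel A (ser Qb Φ) (ser (IsLocalRing.ResidueField A) Φ) := by
  have h := S18.GRel.gRel_of_int A (ser A Φ)
  rw [coeffMap_ser, coeffMap_ser] at h
  exact h

variable (N : ℕ) [NeZero N] (K : IntermediateField ℚ Qb)

theorem gRel_serK (A : ValuationSubring Qb) {Φ : PowerSeries ℤ} (h : ser ℂ Φ ∈ S29.K.FC N) :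
    GRel A ((serK N K h : FK N K) : LaurentSeries Qb) (ser (IsLocalRing.ResidueField A) Φ) :=
  gRel_ser A Φ

theorem gRel_serK_inv (A : ValuationSubring Qb) {Φ : PowerSeries ℤ} (h : ser ℂ Φ ∈ S29.K.FC N)
    (hΦ : PowerSeries.constantCoeff Φ = 1) :
    GRel A (((serK N K h)⁻¹ : FK N K) : LaurentSeries Qb)
      (ser (IsLocalRing.ResidueField A) (Φ.invOfUnit 1)) := by
  rw [coe_serK_inv N K h hΦ]
  exact gRel_ser A (Φ.invOfUnit 1)

theorem invOfUnit_constantCoeff (Φ : PowerSeries ℤ) :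
    PowerSeries.constantCoeff (Φ.invOfUnit 1) = 1 := by
  simp [PowerSeries.constantCoeff_invOfUnit]

/-- **E8b, GRel form.** From an analytic unit `h` whose `q`-expansion is the integral series `Φ`
(constant coefficient `1`) and lies in `F_ℂ(N)`: a nonzero `x ∈ F_K` with
`coeffMap embC ↑x = qx h`, such that `x` and `x⁻¹` are Gauss-integral with NONZERO reductions
for every valuation subring `A` of `ℚ̄`. -/
theorem exists_unitK_gRel {h : UpperHalfPlane → ℂ} {Φ : PowerSeries ℤ}
    (hΦ : PowerSeries.constantCoeff Φ = 1)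
    (hqx : S29.K.qx h = HahnSeries.ofPowerSeries ℤ ℂ (Φ.map (Int.castRingHom ℂ)))
    (hFC : S29.K.qx h ∈ S29.K.FC N) :
    ∃ x : FK N K, x ≠ 0 ∧
      coeffMap S24.embC ((x : FK N K) : LaurentSeries Qb) = S29.K.qx h ∧
      coeffMap S24.embC ((x⁻¹ : FK N K) : LaurentSeries Qb) = (S29.K.qx h)⁻¹ ∧
      ∀ A : ValuationSubring Qb,
        (∃ y : LaurentSeries (IsLocalRing.ResidueField A), y ≠ 0 ∧
          GRel A ((x : FK N K) : LaurentSeries Qb) y) ∧
        (∃ y : LaurentSeries (IsLocalRing.ResidueField A), y ≠ 0 ∧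
          GRel A ((x⁻¹ : FK N K) : LaurentSeries Qb) y) := by
  have hFC' : ser ℂ Φ ∈ S29.K.FC N := by
    rw [ser, ← hqx]
    exact hFC
  refine ⟨serK N K hFC', serK_ne_zero N K hFC' hΦ, ?_, ?_, fun A => ⟨?_, ?_⟩⟩
  · rw [coeffMap_embC_serK, hqx]
    rfl
  · rw [coeffMap_embC_serK_inv N K hFC' hΦ, hqx]
    rfl
  · exact ⟨_, ser_ne_zero _ Φ hΦ, gRel_serK N K A hFC'⟩
  · exact ⟨_, ser_ne_zero _ _ (invOfUnit_constantCoeff Φ), gRel_serK_inv N K A hFC' hΦ⟩

end Fermat.Agent.S36.EtaUnitsKG
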