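import Mathlib
import Fermat.Agent.S36.EtaALq
import Fermat.Agent.S36.EtaInt
import Fermat.Agent.S36.EtaUnits4
import Fermat.Agent.S36.EtaUnitsKG
import Fermat.Agent.S36.EtaNine
import Fermat.Agent.S36.EtaUnits9

/-!
# S36 [B1-eta]: the unit `h = G(qz)/G(z)` of `F_K(M q)` with all its facts (instance glue)

For `G = G4 = η(2z)^10/(η(z)^4 η(4z)^4)` (`q` odd, `4 ∣ M`) resp. `G = G9 = η(z)^3/η(3z)`
(`q = 2`, `9 ∣ M`), `q` prime, `q ∤ M`: there is `x ∈ F_K(M q)` with the q-expansion of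
`h1 = G(qz)/G(z)` such that

* `x ≠ 0`, `x` and `x⁻¹` are Gauss-integral with nonzero reductions (`GRel`, every `A`);
* the level-`q` Atkin–Lehner relation `w_q x = (ε q⁻¹) · x⁻¹`, `ε = ±1`;
* `x`, `x⁻¹` and their images under `t ↦ t^q` (the q-expansions of `h2^{±1}`) are integral over
  `ℂ[j]`.

`exists_unit_of` : the abstract glue (any `G` with `EtaHInv.Law`, an integral q-expansion and the
function-field facts as hypotheses); `exists_unit_four` : closed for `G4` (`EtaUnits4`);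
`exists_unit_nine` : closed for `G9` (`EtaUnits9`); `exists_unit_aux` : both cases under
`(q ≠ 2 → 4 ∣ M) ∧ (q = 2 → 9 ∣ M)`, no further hypothesis.
-/

set_option autoImplicit false

namespace Fermat.Agent.S36.EtaALqInst

open UpperHalfPlane ModularForm ModularCurve Filter Topology
open Fermat.Agent Fermat.Agent.S18.Arith Fermat.Agent.S36.EtaHInv
open Fermat.Agent.S23 (mulN coe_mulN niceSub)
open Fermat.Agent.S24 (embC)
open scoped MatrixGroups ModularForm Manifold Real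

local notation "Qb" => AlgebraicClosure ℚ

/-- The q-expansion of `h2 = h1(q·)` is `(qx h1)(t^q)`. -/
theorem qx_h2 {G : ℍ → ℂ} (q : ℕ) [NeZero q] (hh1 : h1 G q ∈ S23.niceSub) :
    S29.K.qx (h2 G q) = qExpand ℂ q (S29.K.qx (h1 G q)) := by
  have e : h2 G q = fun z => h1 G q (mulN q z) := rfl
  unfold S29.K.qx
  rw [e]
  exact S24.AnBridge.ofPowerSeries_qExpansion_scale q hh1

section Abstract

variable (M q : ℕ) [NeZero M] [NeZero q] (hq : q.Prime) (hqM : ¬ q ∣ M)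

/-- **Abstract glue.** -/
theorem exists_unit_of {N0 : ℕ} {chi : ℤ → ℂ} {G : ℍ → ℂ} {P : PowerSeries ℤ}
    (hG : Law N0 chi G) (hG0 : ∀ z, G z ≠ 0) (hGP : EtaInt.IsIntQ G P)
    (hP : PowerSeries.constantCoeff P = 1) (hN0 : N0 ∣ M)
    (hχ1 : chi 1 = 1) (ε : ℤ) (hε : ε = 1 ∨ ε = -1) (hχq : chi (q : ℤ) = (ε : ℂ))
    (hFC : S29.K.qx (h1 G q) ∈ S29.K.FC (M * q))
    (hI1 : IsIntegral (Algebra.adjoin ℂ ({S29.K.jC} : Set (LaurentSeries ℂ))) (S29.K.qx (h1 G q)))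
    (hI2 : IsIntegral (Algebra.adjoin ℂ ({S29.K.jC} : Set (LaurentSeries ℂ))) (S29.K.qx (h1 G q))⁻¹)
    (hI3 : IsIntegral (Algebra.adjoin ℂ ({S29.K.jC} : Set (LaurentSeries ℂ))) (S29.K.qx (h2 G q)))
    (hI4 : IsIntegral (Algebra.adjoin ℂ ({S29.K.jC} : Set (LaurentSeries ℂ))) (S29.K.qx (h2 G q))⁻¹)
    (K : IntermediateField ℚ Qb) :
    ∃ x : FK (M * q) K, x ≠ 0 ∧
      coeffMap embC ((x : FK (M * q) K) : LaurentSeries Qb) = S29.K.qx (h1 G q) ∧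
      (∀ A : ValuationSubring Qb,
        (∃ y : LaurentSeries (IsLocalRing.ResidueField A), y ≠ 0 ∧
          GRel A ((x : FK (M * q) K) : LaurentSeries Qb) y) ∧
        (∃ y : LaurentSeries (IsLocalRing.ResidueField A), y ≠ 0 ∧
          GRel A ((x⁻¹ : FK (M * q) K) : LaurentSeries Qb) y)) ∧
      S34.WK.wK M q hq hqM K x = algebraMap K (FK (M * q) K) ((ε : K) * (q : K)⁻¹) * x⁻¹ ∧
      IsIntegral (Algebra.adjoin ℂ ({S29.K.jC} : Set (LaurentSeries ℂ))) (coeffMap embC ((x : FK (M * q) K) : LaurentSeries Qb)) ∧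
      IsIntegral (Algebra.adjoin ℂ ({S29.K.jC} : Set (LaurentSeries ℂ))) (coeffMap embC ((x : FK (M * q) K) : LaurentSeries Qb))⁻¹ ∧
      IsIntegral (Algebra.adjoin ℂ ({S29.K.jC} : Set (LaurentSeries ℂ))) (qExpand ℂ q (coeffMap embC ((x : FK (M * q) K) : LaurentSeries Qb))) ∧
      IsIntegral (Algebra.adjoin ℂ ({S29.K.jC} : Set (LaurentSeries ℂ)))
        (qExpand ℂ q (coeffMap embC ((x : FK (M * q) K) : LaurentSeries Qb)))⁻¹ := by
  have hq0 : q ≠ 0 := NeZero.ne q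
  have hh : EtaInt.IsIntQ (h1 G q) (EtaInt.hSeries P q hq0) :=
    hGP.quot_scale hG0 hP hq0 (mulN q) (fun τ => coe_mulN q τ)
  have hqx : S29.K.qx (h1 G q) = HahnSeries.ofPowerSeries ℤ ℂ
      ((EtaInt.hSeries P q hq0).map (Int.castRingHom ℂ)) := by
    unfold S29.K.qx
    rw [hh.qExpansion_eq]
  obtain ⟨x, hx0, hxc, -, hA⟩ := EtaUnitsKG.exists_unitK_gRel (M * q) K
    (EtaInt.constantCoeff_hSeries hP q hq0) hqx hFC
  have hGn : G ∈ S23.niceSub := ⟨hGP.periodic, hGP.mdiff, hGP.bdd⟩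
  have hGib : IsBoundedAtImInfty (fun z => (G z)⁻¹) := hGP.bdd_inv hG0 hP
  have hh1 : h1 G q ∈ S23.niceSub := EtaRep.h1_mem_niceSub hGn hG0 hGib q
  refine ⟨x, hx0, hxc, hA, ?_, ?_, ?_, ?_, ?_⟩
  · exact EtaALq.wK_h1_sign M q hq hqM hG hG0 hGn hGib hN0 K x hxc hχ1 ε hε hχq
  · rw [hxc]; exact hI1
  · rw [hxc]; exact hI2
  · rw [hxc, ← qx_h2 q hh1]; exact hI3
  · rw [hxc, ← qx_h2 q hh1]; exact hI4

end Abstract

/-! ### `N0 = 4`: `G4`, `q` odd -/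

/-- `χ₄(q) = ±1` for an odd prime `q`. -/
theorem chi4_odd (q : ℕ) (hq : q.Prime) (hq2 : q ≠ 2) :
    (ZMod.χ₄ (((q : ℕ) : ℤ) : ZMod 4) : ℤ) = 1 ∨ (ZMod.χ₄ (((q : ℕ) : ℤ) : ZMod 4) : ℤ) = -1 := by
  have hodd : q % 2 = 1 := hq.eq_two_or_odd.resolve_left hq2
  rw [ZMod.χ₄_int_eq_if_mod_four]
  have h2 : ((q : ℕ) : ℤ) % 2 ≠ 0 := by omega
  rw [if_neg h2]
  split_ifs
  · exact Or.inl rfl
  · exact Or.inr rfl

section Four

variable (M q : ℕ) [NeZero M] [NeZero q] (hq : q.Prime) (hqM : ¬ q ∣ M)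

/-- **The unit for `G4`** (`q` odd prime, `4 ∣ M`, `q ∤ M`), closed. -/
theorem exists_unit_four (hq2 : q ≠ 2) (h4 : 4 ∣ M) (K : IntermediateField ℚ Qb) :
    ∃ (ε : ℤ) (x : FK (M * q) K), (ε = 1 ∨ ε = -1) ∧ x ≠ 0 ∧
      coeffMap embC ((x : FK (M * q) K) : LaurentSeries Qb) = S29.K.qx (h1 EtaG4.G4 q) ∧
      (∀ A : ValuationSubring Qb,
        (∃ y : LaurentSeries (IsLocalRing.ResidueField A), y ≠ 0 ∧
          GRel A ((x : FK (M * q) K) : LaurentSeries Qb) y) ∧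
        (∃ y : LaurentSeries (IsLocalRing.ResidueField A), y ≠ 0 ∧
          GRel A ((x⁻¹ : FK (M * q) K) : LaurentSeries Qb) y)) ∧
      S34.WK.wK M q hq hqM K x = algebraMap K (FK (M * q) K) ((ε : K) * (q : K)⁻¹) * x⁻¹ ∧
      IsIntegral (Algebra.adjoin ℂ ({S29.K.jC} : Set (LaurentSeries ℂ))) (coeffMap embC ((x : FK (M * q) K) : LaurentSeries Qb)) ∧
      IsIntegral (Algebra.adjoin ℂ ({S29.K.jC} : Set (LaurentSeries ℂ))) (coeffMap embC ((x : FK (M * q) K) : LaurentSeries Qb))⁻¹ ∧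
      IsIntegral (Algebra.adjoin ℂ ({S29.K.jC} : Set (LaurentSeries ℂ))) (qExpand ℂ q (coeffMap embC ((x : FK (M * q) K) : LaurentSeries Qb))) ∧
      IsIntegral (Algebra.adjoin ℂ ({S29.K.jC} : Set (LaurentSeries ℂ)))
        (qExpand ℂ q (coeffMap embC ((x : FK (M * q) K) : LaurentSeries Qb)))⁻¹ := by
  have hd1 : 4 * q ∣ M * q := mul_dvd_mul_right h4 q
  have he1 : 4 * 1 ∣ M * q := by
    rw [mul_one]
    exact dvd_mul_of_dvd_left h4 q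
  have hd2 : 4 * q ^ 2 ∣ M * q * q := by
    rw [pow_two, ← mul_assoc]
    exact mul_dvd_mul_right (mul_dvd_mul_right h4 q) q
  have he2 : 4 * q ∣ M * q * q := dvd_mul_of_dvd_left hd1 q
  have hu1 := EtaUnits4.hq_unit (N := M * q) q 1 hd1 he1
  have hu2 := EtaUnits4.hq_unit (N := M * q * q) (q ^ 2) q hd2 he2
  rw [← EtaUnits4.h1_eq] at hu1
  rw [← EtaUnits4.h2_eq] at hu2
  have hχ1 : EtaUnits4.chiZ 1 = 1 := by
    unfold EtaUnits4.chiZ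
    simp
  refine ⟨(ZMod.χ₄ (((q : ℕ) : ℤ) : ZMod 4) : ℤ), ?_⟩
  obtain ⟨x, hx⟩ := exists_unit_of M q hq hqM EtaUnits4.law_G4 EtaG4.G4_ne_zero
    (EtaInt.isIntQ_G4 (G := EtaG4.G4) (fun _ => rfl)) EtaInt.constantCoeff_P4 h4 hχ1
    (ZMod.χ₄ (((q : ℕ) : ℤ) : ZMod 4) : ℤ) (chi4_odd q hq hq2) rfl
    hu1.2.1 hu1.2.2.1 hu1.2.2.2 hu2.2.2.1 hu2.2.2.2 K
  exact ⟨x, chi4_odd q hq hq2, hx⟩

end Four

/-! ### `N0 = 9`: `G9`, `q = 2` -/

section Nine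

variable (M q : ℕ) [NeZero M] [NeZero q] (hq : q.Prime) (hqM : ¬ q ∣ M)

/-- **The unit for `G9`** (`q = 2`, `9 ∣ M`, `2 ∤ M`), closed. -/
theorem exists_unit_nine (hq2 : q = 2) (h9 : 9 ∣ M) (K : IntermediateField ℚ Qb) :
    ∃ (ε : ℤ) (x : FK (M * q) K), (ε = 1 ∨ ε = -1) ∧ x ≠ 0 ∧
      coeffMap embC ((x : FK (M * q) K) : LaurentSeries Qb) = S29.K.qx (h1 EtaNine.G9 q) ∧
      (∀ A : ValuationSubring Qb,
        (∃ y : LaurentSeries (IsLocalRing.ResidueField A), y ≠ 0 ∧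
          GRel A ((x : FK (M * q) K) : LaurentSeries Qb) y) ∧
        (∃ y : LaurentSeries (IsLocalRing.ResidueField A), y ≠ 0 ∧
          GRel A ((x⁻¹ : FK (M * q) K) : LaurentSeries Qb) y)) ∧
      S34.WK.wK M q hq hqM K x = algebraMap K (FK (M * q) K) ((ε : K) * (q : K)⁻¹) * x⁻¹ ∧
      IsIntegral (Algebra.adjoin ℂ ({S29.K.jC} : Set (LaurentSeries ℂ))) (coeffMap embC ((x : FK (M * q) K) : LaurentSeries Qb)) ∧
      IsIntegral (Algebra.adjoin ℂ ({S29.K.jC} : Set (LaurentSeries ℂ))) (coeffMap embC ((x : FK (M * q) K) : LaurentSeries Qb))⁻¹ ∧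
      IsIntegral (Algebra.adjoin ℂ ({S29.K.jC} : Set (LaurentSeries ℂ))) (qExpand ℂ q (coeffMap embC ((x : FK (M * q) K) : LaurentSeries Qb))) ∧
      IsIntegral (Algebra.adjoin ℂ ({S29.K.jC} : Set (LaurentSeries ℂ)))
        (qExpand ℂ q (coeffMap embC ((x : FK (M * q) K) : LaurentSeries Qb)))⁻¹ := by
  have hd1 : 9 * q ∣ M * q := mul_dvd_mul_right h9 q
  have he1 : 9 * 1 ∣ M * q := by
    rw [mul_one]
    exact dvd_mul_of_dvd_left h9 q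
  have hd2 : 9 * q ^ 2 ∣ M * q * q := by
    rw [pow_two, ← mul_assoc]
    exact mul_dvd_mul_right (mul_dvd_mul_right h9 q) q
  have he2 : 9 * q ∣ M * q * q := dvd_mul_of_dvd_left hd1 q
  have hu1 := EtaUnits9.hq_unit (N := M * q) q 1 hd1 he1
  have hu2 := EtaUnits9.hq_unit (N := M * q * q) (q ^ 2) q hd2 he2
  rw [← EtaUnits9.h1_eq] at hu1
  rw [← EtaUnits9.h2_eq] at hu2
  have hχq : EtaNine.chi3 ((q : ℕ) : ℤ) = (((-1 : ℤ)) : ℂ) := by
    rw [hq2]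
    simp [EtaNine.chi3]
  obtain ⟨x, hx⟩ := exists_unit_of M q hq hqM EtaUnits9.law_G9 EtaNine.G9_ne_zero
    (EtaInt.isIntQ_G9 (G := EtaNine.G9) (fun z => EtaNine.G9_apply z)) EtaInt.constantCoeff_P9 h9
    EtaNine.chi3_one (-1) (Or.inr rfl) hχq hu1.2.1 hu1.2.2.1 hu1.2.2.2 hu2.2.2.1 hu2.2.2.2 K
  exact ⟨-1, x, Or.inr rfl, hx⟩

end Nine

/-! ### Both cases under the auxiliary-level hypothesis -/

/-- **The unit under `AuxHyp`**: `q` prime, `q ∤ M`, `4 ∣ M` if `q ≠ 2`, `9 ∣ M` if `q = 2`. -/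
theorem exists_unit_aux (M q : ℕ) [NeZero M] [NeZero q] (hq : q.Prime) (hqM : ¬ q ∣ M)
    (haux : (q ≠ 2 → 4 ∣ M) ∧ (q = 2 → 9 ∣ M)) (K : IntermediateField ℚ Qb) :
    ∃ (ε : ℤ) (x : FK (M * q) K), (ε = 1 ∨ ε = -1) ∧ x ≠ 0 ∧
      (∀ A : ValuationSubring Qb,
        (∃ y : LaurentSeries (IsLocalRing.ResidueField A), y ≠ 0 ∧
          GRel A ((x : FK (M * q) K) : LaurentSeries Qb) y) ∧
        (∃ y : LaurentSeries (IsLocalRing.ResidueField A), y ≠ 0 ∧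
          GRel A ((x⁻¹ : FK (M * q) K) : LaurentSeries Qb) y)) ∧
      S34.WK.wK M q hq hqM K x = algebraMap K (FK (M * q) K) ((ε : K) * (q : K)⁻¹) * x⁻¹ ∧
      IsIntegral (Algebra.adjoin ℂ ({S29.K.jC} : Set (LaurentSeries ℂ))) (coeffMap embC ((x : FK (M * q) K) : LaurentSeries Qb)) ∧
      IsIntegral (Algebra.adjoin ℂ ({S29.K.jC} : Set (LaurentSeries ℂ))) (coeffMap embC ((x : FK (M * q) K) : LaurentSeries Qb))⁻¹ ∧
      IsIntegral (Algebra.adjoin ℂ ({S29.K.jC} : Set (LaurentSeries ℂ))) (qExpand ℂ q (coeffMap embC ((x : FK (M * q) K) : LaurentSeries Qb))) ∧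
      IsIntegral (Algebra.adjoin ℂ ({S29.K.jC} : Set (LaurentSeries ℂ)))
        (qExpand ℂ q (coeffMap embC ((x : FK (M * q) K) : LaurentSeries Qb)))⁻¹ := by
  by_cases hq2 : q = 2
  · obtain ⟨ε, x, hε, hx0, -, hrest⟩ := exists_unit_nine M q hq hqM hq2 (haux.2 hq2) K
    exact ⟨ε, x, hε, hx0, hrest⟩
  · obtain ⟨ε, x, hε, hx0, -, hrest⟩ := exists_unit_four M q hq hqM hq2 (haux.1 hq2) K
    exact ⟨ε, x, hε, hx0, hrest⟩

end Fermat.Agent.S36.EtaALqInst
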