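import Mathlib
import Fermat.Agent.S34.LocPlan

/-!
# S36, package [B1-nak] : vocabulary and exact leaf statements (no proofs)

Package lead: helper92.  Route: `δ_f = f(q²z) - f(z)` has no horizontal zero through a closed
point `n` of the multiplicity-`(q-1)` component `W3` (Nakayama equaliser + rigidity of an
unramified prime), hence `P3 R_n = δ_f R_n` (Krull), `R_n / δ_f` is a discrete valuation ring,
and every prime of `R_n` not containing `δ_f` is principal (SmoothCut′).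

Leaves (all abstract; every leaf file proves the `Prop` stated here under a fresh name):

* [N1] `SmoothCutPStatement`  local ring, `𝔪 = (δ, t)`, `(δ)` prime: primes `∌ δ` are principal;
* [N2] `CutAtPStatement`      chart-level transport of [N1] along `R → R_n`;
* [N3] `PrincP3Statement`     Krull: `P = (δ)` at `n` if `δ` generates `P` at `P` and lies in no
                              other height-one prime through `n`;
* [N4] `EqualiserStatement`   Nakayama: two algebra maps agreeing modulo `𝔮` on local generators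
                              of a rational closed point agree modulo `𝔮`;
* [N5] `RigidStatement`       two maps agreeing on `A`, congruent modulo `𝔮`, with `φ⁻¹ 𝔮`
                              unramified over `A` (characteristic zero) are equal;
* [N6] `Z1Statement`          assembly of [N4] + [N5]: `δ_f ∉ 𝔮` for horizontal `𝔮 ≤ n`;
* [N7] `B1CutStatement`       assembly of [N1] + [N2] + [N3]: every height-one prime `≠ P`
                              through `n` is principal at `n`.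
-/

set_option autoImplicit false

namespace Fermat.Agent.S36.NakPlan

open Fermat.Agent.S34.LocPlan

/-- `e ∈ 𝔮` generates `𝔮` locally at `n` (chart-level form of `𝔮 R_n = e R_n`). -/
def GenAt {R : Type*} [CommRing R] (n 𝔮 : Ideal R) (e : R) : Prop :=
  e ∈ 𝔮 ∧ ∀ y ∈ 𝔮, ∃ s : R, s ∉ n ∧ ∃ c : R, s * y = c * e

/-- **[N1] SmoothCut′** (local ring): if `𝔪 = (δ, t)` and `(δ)` is prime, every prime not
containing `δ` is principal.  No hypothesis on residue fields. -/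
def SmoothCutPStatement : Prop :=
  ∀ (R : Type) [CommRing R] [IsDomain R] [IsNoetherianRing R] [IsLocalRing R] (δ t : R)
    (𝔮 : Ideal R),
    IsLocalRing.maximalIdeal R = Ideal.span {δ, t} → (Ideal.span {δ}).IsPrime → 𝔮.IsPrime →
    δ ∉ 𝔮 → ∃ e : R, e ∈ 𝔮 ∧ 𝔮 = Ideal.span {e}

/-- **[N2] CutAt′** (chart level): if `P = (δ)` locally at the closed point `n` and the branch
`R / P` is regular of dimension one at `n`, every prime `𝔮 ≤ n` not containing `δ` is principal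
at `n`. -/
def CutAtPStatement : Prop :=
  ∀ (R : Type) [CommRing R] [IsDomain R] [IsNoetherianRing R] (n P 𝔮 : Ideal R) (δ : R),
    n.IsMaximal → P.IsPrime → P ≤ n → 𝔮.IsPrime → 𝔮 ≤ n → δ ∉ 𝔮 →
    GenAt n P δ →
    (∃ t ∈ n, ∀ x ∈ n, ∃ s : R, s ∉ n ∧ ∃ c : R, s * x - c * t ∈ P) →
    ∃ e : R, GenAt n 𝔮 e

/-- **[N3] PrincP3** (Krull): in a noetherian integrally closed domain, if `δ` generates the
prime `P` locally at `P` and lies in no other prime `𝔭 ≤ n` with `PrincAt 𝔭`, then `δ` generates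
`P` locally at `n`. -/
def PrincP3Statement : Prop :=
  ∀ (R : Type) [CommRing R] [IsDomain R] [IsNoetherianRing R] [IsIntegrallyClosed R]
    (n P : Ideal R) (δ : R),
    n.IsMaximal → P.IsPrime → P ≤ n → δ ≠ 0 → δ ∈ P →
    (∀ y ∈ P, ∃ s : R, s ∉ P ∧ ∃ c : R, s * y = c * δ) →
    (∀ 𝔭 : Ideal R, 𝔭.IsPrime → 𝔭 ≤ n → PrincAt 𝔭 → 𝔭 ≠ P → δ ∉ 𝔭) →
    GenAt n P δ

/-- **[N4] Equaliser** (Nakayama): `φa, φb : B → C` over `O`, `n` a closed point of `C` whose
pull-backs along `φa` and `φb` are the same `O`-rational point `nB`, which is generated locally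
by a set `G` on which `φa ≡ φb` modulo the prime `𝔮 ≤ n`.  Then `φa ≡ φb` modulo `𝔮`. -/
def EqualiserStatement : Prop :=
  ∀ (O B C : Type) [CommRing O] [CommRing B] [CommRing C] [IsNoetherianRing C]
    [Algebra O B] [Algebra O C] (φa φb : B →ₐ[O] C) (nB : Ideal B) (n 𝔮 : Ideal C) (G : Set B),
    n.IsMaximal → 𝔮.IsPrime → 𝔮 ≤ n →
    (∀ r : B, φa r ∈ n ↔ r ∈ nB) → (∀ r : B, φb r ∈ n ↔ r ∈ nB) →
    (∀ r : B, ∃ c : O, r - algebraMap O B c ∈ nB) →
    G ⊆ (nB : Set B) → (∀ g ∈ G, φa g - φb g ∈ 𝔮) →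
    (∀ x ∈ nB, ∃ s : B, s ∉ nB ∧ s * x ∈ Ideal.span G) →
    ∀ r : B, φa r - φb r ∈ 𝔮

/-- **[N5] Rigid**: `φa, φb : B → C` agree on `ι A`, `B` is integral over `ι A`, `φa ≡ φb`
modulo the prime `𝔮` of the noetherian domain `C` (residue characteristic zero), and the prime
`φa⁻¹ 𝔮` of `B` is unramified over `A`.  Then `φa = φb`. -/
def RigidStatement : Prop :=
  ∀ (A B C : Type) [CommRing A] [CommRing B] [CommRing C] [IsDomain C] [IsNoetherianRing C]
    (ι : A →+* B) (φa φb : B →+* C) (𝔮 : Ideal C),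
    𝔮.IsPrime →
    (∀ k : ℕ, k ≠ 0 → (k : C) ∉ 𝔮) →
    (∀ a : A, φa (ι a) = φb (ι a)) →
    (∀ b : B, ∃ p : Polynomial A, p.Monic ∧ Polynomial.eval₂ ι b p = 0) →
    (∀ b : B, φa b - φb b ∈ 𝔮) →
    (∀ r : B, φa r ∈ 𝔮 → ∃ s : B, φa s ∉ 𝔮 ∧
      s * r ∈ Ideal.map ι (Ideal.comap (φa.comp ι) 𝔮)) →
    ∀ b : B, φa b = φb b

/-- **[N6] Z1** (assembly of [N4] + [N5]).  `A`, `B`, `C` = charts of levels `M'`, `qM'`,
`q²M'`; `ι` the source embedding `A → B`, `ι1` the target embedding; `φa`, `φb` the two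
embeddings `B → C` with common restriction to `ι A`; `n` a closed point of `C` on the component
`P3`; `P2` the component of `B` below `P3` (for both embeddings), mapped isomorphically onto the
special fibre of `A` by `ι1`; `δ_g = φb (ι1 g) - φa (ι1 g) ∈ P3` for all `g`.  If the point of `B`
below `n` is `O`-rational and generated locally by elements of `O[ι A, ι1 f]`, and the horizontal
primes of `B` through it are unramified over `A`, then `δ_f` lies in no horizontal prime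
through `n`. -/
def Z1Statement : Prop :=
  ∀ (O A B C : Type) [CommRing O] [CharZero O] [CommRing A] [CommRing B] [CommRing C]
    [IsDomain C] [IsNoetherianRing C] [Algebra O A] [Algebra O B] [Algebra O C]
    (ι ι1 : A →ₐ[O] B) (φa φb : B →ₐ[O] C) (n P3 : Ideal C) (P2 : Ideal B) (f : A),
    n.IsMaximal → P3 ≤ n →
    (∀ a : A, φa (ι a) = φb (ι a)) →
    (∀ b : B, ∃ p : Polynomial A, p.Monic ∧ Polynomial.eval₂ (ι : A →+* B) b p = 0) →
    (∀ r : B, φa r ∈ P3 ↔ r ∈ P2) → (∀ r : B, φb r ∈ P3 ↔ r ∈ P2) →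
    (∀ r : B, ∃ g : A, r - ι1 g ∈ P2) →
    (∀ g : A, φb (ι1 g) - φa (ι1 g) ∈ P3) →
    (∀ r : B, ∃ c : O, r - algebraMap O B c ∈ Ideal.comap (φa : B →+* C) n) →
    (∀ x ∈ Ideal.comap (φa : B →+* C) n, ∃ s : B, s ∉ Ideal.comap (φa : B →+* C) n ∧
      s * x ∈ Ideal.span (((Ideal.comap (φa : B →+* C) n : Ideal B) : Set B) ∩
        ((Algebra.adjoin O (Set.range ι ∪ {ι1 f}) : Subalgebra O B) : Set B))) →
    (∀ 𝔮B : Ideal B, 𝔮B.IsPrime → 𝔮B ≤ Ideal.comap (φa : B →+* C) n →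
      (∀ c : O, algebraMap O B c ∈ 𝔮B → c = 0) →
      ∀ r ∈ 𝔮B, ∃ s : B, s ∉ 𝔮B ∧
        s * r ∈ Ideal.map (ι : A →+* B) (Ideal.comap (ι : A →+* B) 𝔮B)) →
    φb (ι1 f) - φa (ι1 f) ≠ 0 →
    ∀ 𝔮 : Ideal C, 𝔮.IsPrime → 𝔮 ≤ n → (∀ c : O, algebraMap O C c ∈ 𝔮 → c = 0) →
      φb (ι1 f) - φa (ι1 f) ∉ 𝔮

/-- **[N7] B1Cut** (assembly of [N1] + [N2] + [N3]): `R` a noetherian integrally closed domain,
`n` a closed point on the prime `P`, `δ ∈ P` generating `P` at `P`, the branch `R / P` regular of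
dimension one at `n`, and `δ` in no other height-one prime through `n`.  Then every prime
`𝔮 ≤ n` with `PrincAt 𝔮`, `𝔮 ≠ P`, is principal at `n`. -/
def B1CutStatement : Prop :=
  ∀ (R : Type) [CommRing R] [IsDomain R] [IsNoetherianRing R] [IsIntegrallyClosed R]
    (n P : Ideal R) (δ : R),
    n.IsMaximal → P.IsPrime → P ≤ n → δ ≠ 0 → δ ∈ P →
    (∀ y ∈ P, ∃ s : R, s ∉ P ∧ ∃ c : R, s * y = c * δ) →
    (∃ t ∈ n, ∀ x ∈ n, ∃ s : R, s ∉ n ∧ ∃ c : R, s * x - c * t ∈ P) →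
    (∀ 𝔭 : Ideal R, 𝔭.IsPrime → 𝔭 ≤ n → PrincAt 𝔭 → 𝔭 ≠ P → δ ∉ 𝔭) →
    GenAt n P δ ∧ ∀ 𝔮 : Ideal R, 𝔮.IsPrime → 𝔮 ≤ n → PrincAt 𝔮 → 𝔮 ≠ P → ∃ e : R, GenAt n 𝔮 e

/-- `GenAt` gives a cut function in the sense of `S34/LocPlan`. -/
theorem cut_of_genAt {R : Type*} [CommRing R] (ϖ : R) {n 𝔮 : Ideal R} {e : R} (hle : 𝔮 ≤ n)
    (h : GenAt n 𝔮 e) : Cut ϖ n 𝔮 e := by
  refine ⟨h.1, ?_, ?_⟩
  · intro 𝔮' h𝔮' hle' he' _ y hy
    obtain ⟨s, hs, c, hc⟩ := h.2 y hy
    have h1 : s * y ∈ 𝔮' := by rw [hc]; exact 𝔮'.mul_mem_left c he'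
    rcases h𝔮'.mem_or_mem h1 with h2 | h2
    · exact absurd (hle' h2) hs
    · exact h2
  · intro y hy
    obtain ⟨s, hs, c, hc⟩ := h.2 y hy
    exact ⟨s, fun h2 => hs (hle h2), c, hc⟩

end Fermat.Agent.S36.NakPlan
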