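import Mathlib
import Fermat.Agent.S34.KrullStmt
import Fermat.Agent.S36.NakPlan

/-!
# S36, package [B1-nak], leaf [N3] : `NakPlan.PrincP3Statement`

Krull: in a noetherian integrally closed domain `R`, if `δ` generates the prime `P` locally at
`P` and `δ` lies in no other prime `𝔭 ≤ n` with `PrincAt 𝔭`, then `δ` generates `P` locally at
the closed point `n`: for `y ∈ P` the quotient `y / δ` is regular at every height-one prime
through `n`, hence at `n` (`S34.KrullStmt.regAt_of_forall_princAt`).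
-/

set_option autoImplicit false

namespace Fermat.Agent.S36.NakP3

open Fermat.Agent.S34.LocPlan Fermat.Agent.S36.NakPlan

/-- **[N3]** `NakPlan.PrincP3Statement`. -/
theorem princP3Statement : PrincP3Statement := by
  intro R _ _ _ _ n P δ hn hP hPn hδ0 hδP hgen hother
  have hnp : n.IsPrime := hn.isPrime
  refine ⟨hδP, fun y hy => ?_⟩
  let E := FractionRing R
  have hinj : Function.Injective (algebraMap R E) := IsFractionRing.injective R E
  have hδE : algebraMap R E δ ≠ 0 := fun h0 => hδ0 (hinj (by rw [h0, map_zero]))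
  have hreg : RegAt n (algebraMap R E y / algebraMap R E δ) := by
    refine Fermat.Agent.S34.KrullStmt.regAt_of_forall_princAt n _ ?_
    intro 𝔭 h𝔭 hle hprinc
    by_cases hEq : 𝔭 = P
    · subst hEq
      obtain ⟨s, hs, c, hc⟩ := hgen y hy
      refine ⟨c, s, hs, ?_⟩
      rw [div_mul_eq_mul_div, div_eq_iff hδE, ← map_mul, ← map_mul]
      congr 1
      rw [mul_comm y s, hc]
    · have hδ𝔭 : δ ∉ 𝔭 := hother 𝔭 h𝔭 hle hprinc hEq
      refine ⟨y, δ, hδ𝔭, ?_⟩
      rw [div_mul_cancel₀ _ hδE]
  obtain ⟨a, s, hs, hxs⟩ := hreg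
  refine ⟨s, hs, a, ?_⟩
  apply hinj
  rw [map_mul, map_mul, ← hxs, div_mul_eq_mul_div, div_mul_cancel₀ _ hδE, mul_comm]

end Fermat.Agent.S36.NakP3
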