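import Mathlib
import Fermat.Agent.S34.LocPlan
import Fermat.Agent.S34.HorProd
import Fermat.Agent.S34.KrullStmt
import Fermat.Agent.S34.LocAStmt
import Fermat.Agent.S36.NakPlan

/-!
# S36, abstract block [HorGen] : the honest local generator at a closed point

The S36 replacement of the S35 leaves [Decomp] + [YG] (no automorphism, no second difference).

`R` a noetherian integrally closed domain (a chart of the normal model) with fraction field `E`,
`n` a prime of `R` (a closed point of the special fibre), `G ∈ Eˣ`, `m : ℕ`.  If at every prime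
`𝔮 ≤ n` with `PrincAt 𝔮` either `G` is a unit, or `G` is a unit times an `m`-th power and `𝔮` is
principal at `n` (`NakPlan.GenAt n 𝔮 e`, the output of (B1)), then

  `G = g ^ m * u`  with `g ≠ 0` and `u` a unit of `R_n`.

(`g` = the product of the generators `e_𝔮` to the powers `ord_𝔮 G / m`; `u` is a unit at every
height-one prime through `n`, hence a unit at `n` by Krull.)  This is the input `hG`, `hu` of the
multi-branch normal form [LocG3].

* `HorGenStatement`, `horGenStatement`            : all height-one primes through `n` at once;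
* `unitAt_of_valuation_unit`                      : [VertUnit] for one valuation ring `V ⊇ R`
  centred at a prime `P` with `PrincAt P` (`V = R_P` on units);
* `exists_eq_of_desc`                             : the height-one primes containing `ϖ` are the
  centres `P i` of the component valuations, if `R ∩ ⋂ ϖ V i = ϖ R`;
* `HorGenChartStatement`, `horGenChartStatement`  : chart form — the hypothesis is only asked at
  the horizontal primes (`ϖ ∉ 𝔮`); at the vertical primes through `n` it follows from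
  `G ≡ 1` modulo `ϖ (V i)`.  Moreover `g` is a unit of every `V i` through `n`.
-/

set_option autoImplicit false
set_option linter.unusedSectionVars false

namespace Fermat.Agent.S36.HorGen

open Fermat.Agent.S34.LocPlan Fermat.Agent.S36.NakPlan

/-! ### The statements -/

/-- **[HorGen]**: `G` is an `m`-th power times a unit of `R_n`, if at every height-one prime
through `n` it is a unit, or a unit times an `m`-th power with the prime principal at `n`. -/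
def HorGenStatement : Prop :=
  ∀ (R : Type) [CommRing R] [IsDomain R] [IsNoetherianRing R] [IsIntegrallyClosed R]
    (E : Type) [Field E] [Algebra R E] [IsFractionRing R E] (n : Ideal R) (m : ℕ) (G : E),
    n.IsPrime → G ≠ 0 →
    (∀ 𝔮 : Ideal R, 𝔮.IsPrime → 𝔮 ≤ n → PrincAt 𝔮 →
      UnitAt 𝔮 G ∨ ((∃ x : E, x ≠ 0 ∧ UnitAt 𝔮 (G * x ^ m)) ∧ ∃ e : R, GenAt n 𝔮 e)) →
    ∃ g u : E, g ≠ 0 ∧ G = g ^ m * u ∧ UnitAt n u

/-- **[HorGen], chart form**: `V i` the valuation rings of the vertical components, `P i` their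
centres on `R`; every height-one prime through `n` containing `ϖ` is one of the `P i`;
`G ≡ 1` modulo `ϖ (V i)` on the components through `n`; the hypothesis of `HorGenStatement` at the
horizontal primes only.  Then `G = g ^ m * u`, `u` a unit of `R_n`, `g` a unit of every `V i`
through `n`. -/
def HorGenChartStatement : Prop :=
  ∀ (R : Type) [CommRing R] [IsDomain R] [IsNoetherianRing R] [IsIntegrallyClosed R]
    (E : Type) [Field E] [Algebra R E] [IsFractionRing R E]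
    (ι : Type) (V : ι → ValuationSubring E) (P : ι → Ideal R) (ϖ : R) (n : Ideal R) (m : ℕ)
    (G : E),
    n.IsPrime → 0 < m →
    -- `R ⊆ V i`
    (∀ (i : ι) (r : R), algebraMap R E r ∈ V i) →
    -- `P i` is the centre of `V i` on `R`
    (∀ (i : ι) (r : R), r ∉ P i → (algebraMap R E r)⁻¹ ∈ V i) →
    (∀ (i : ι) (r : R), r ∈ P i → r ≠ 0 → (algebraMap R E r)⁻¹ ∉ V i) →
    -- `ϖ ≠ 0` lies in every `P i`
    ϖ ≠ 0 → (∀ i : ι, ϖ ∈ P i) →
    -- the vertical height-one primes through `n` are among the `P i`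
    (∀ 𝔮 : Ideal R, 𝔮.IsPrime → 𝔮 ≤ n → ϖ ∈ 𝔮 → PrincAt 𝔮 → ∃ i : ι, 𝔮 = P i) →
    -- `G ≡ 1` modulo `ϖ (V i)` on the components through `n`
    (∀ i : ι, P i ≤ n → ∃ z ∈ V i, G - 1 = algebraMap R E ϖ * z) →
    G ≠ 0 →
    (∀ 𝔮 : Ideal R, 𝔮.IsPrime → 𝔮 ≤ n → ϖ ∉ 𝔮 → PrincAt 𝔮 →
      UnitAt 𝔮 G ∨ ((∃ x : E, x ≠ 0 ∧ UnitAt 𝔮 (G * x ^ m)) ∧ ∃ e : R, GenAt n 𝔮 e)) →
    ∃ g u : E, g ≠ 0 ∧ G = g ^ m * u ∧ UnitAt n u ∧
      ∀ i : ι, P i ≤ n → g ∈ V i ∧ g⁻¹ ∈ V i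

/-! ### The core -/

section Core

variable {R : Type*} [CommRing R] [IsDomain R] [IsNoetherianRing R] [IsIntegrallyClosed R]
  {E : Type*} [Field E] [Algebra R E] [IsFractionRing R E]

/-- **[HorGen]**, universe-polymorphic form. -/
theorem exists_pow_mul_unit (n : Ideal R) [hn : n.IsPrime] (m : ℕ) (G : E) (hG : G ≠ 0)
    (h : ∀ 𝔮 : Ideal R, 𝔮.IsPrime → 𝔮 ≤ n → PrincAt 𝔮 →
      UnitAt 𝔮 G ∨ ((∃ x : E, x ≠ 0 ∧ UnitAt 𝔮 (G * x ^ m)) ∧ ∃ e : R, GenAt n 𝔮 e)) :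
    ∃ g u : E, g ≠ 0 ∧ G = g ^ m * u ∧ UnitAt n u := by
  by_cases hm : m = 0
  · -- `m = 0`: `G` is a unit at every height-one prime through `n`
    subst hm
    refine ⟨1, G, one_ne_zero, by simp, ?_⟩
    refine Fermat.Agent.S34.KrullStmt.unitAt_of_forall_princAt n G hG ?_
    intro 𝔮 h𝔮 hle hP
    rcases h 𝔮 h𝔮 hle hP with h1 | ⟨⟨x, -, hx⟩, -⟩
    · exact h1
    · rw [pow_zero, mul_one] at hx
      exact hx
  · -- `m ≠ 0`: the product of the generators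
    have hD : ∀ 𝔮 : Ideal R, 𝔮.IsPrime → PrincAt 𝔮 →
        𝔮 ≠ ⊥ ∧ ∀ 𝔮' : Ideal R, 𝔮'.IsPrime → 𝔮' ≤ 𝔮 → 𝔮' = ⊥ ∨ 𝔮' = 𝔮 := by
      intro 𝔮 h𝔮 hP
      refine ⟨hP.1, fun 𝔮' h𝔮' hle => ?_⟩
      by_cases hb : 𝔮' = ⊥
      · exact Or.inl hb
      · have := h𝔮
        have := h𝔮'
        exact Or.inr (Fermat.Agent.S34.KrullStmt.eq_of_le_of_princAt hP hle hb)
    have hcut : ∀ 𝔮 : Ideal R, 𝔮.IsPrime → 𝔮 ≤ n → True → PrincAt 𝔮 →
        Fermat.Agent.S34.HorProd.UnitAt 𝔮 G ∨ ∃ e : R, e ∈ 𝔮 ∧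
          (∀ 𝔮' : Ideal R, 𝔮'.IsPrime → 𝔮' ≤ n → True → e ∈ 𝔮' → 𝔮 ≤ 𝔮') ∧
          ∃ k : ℤ, Fermat.Agent.S34.HorProd.UnitAt 𝔮
            (G / algebraMap R E e ^ ((m : ℤ) * k)) := by
      intro 𝔮 h𝔮 hle _ hP
      have := h𝔮
      rcases h 𝔮 h𝔮 hle hP with h1 | ⟨⟨x, hx0, hx⟩, e, hgen⟩
      · exact Or.inl h1
      · right
        have hc := cut_of_genAt (1 : R) hle hgen
        obtain ⟨k, hk⟩ := Fermat.Agent.S34.KrullStmt.exists_zpow_unitAt (E := E) hP.1 hc.1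
          hc.2.2 hx0
        refine ⟨e, hc.1, fun 𝔮' h𝔮' hle' _ he' => hc.2.1 𝔮' h𝔮' hle' he' ?_, k, ?_⟩
        · intro h1
          exact h𝔮'.ne_top ((Ideal.eq_top_iff_one 𝔮').2 h1)
        · have e1 : G / algebraMap R E e ^ ((m : ℤ) * k) =
              (G * x ^ m) / (x * algebraMap R E e ^ k) ^ m := by
            rw [zpow_mul', zpow_natCast, mul_pow, mul_comm (x ^ m),
              mul_div_mul_right _ _ (pow_ne_zero m hx0)]
          rw [e1]
          exact Fermat.Agent.S34.HorProd.UnitAt.div hx (Fermat.Agent.S34.HorProd.UnitAt.pow hk m)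
    obtain ⟨e, he, hφ⟩ := Fermat.Agent.S34.HorProd.exists_unitAt_div_pow (R := R) (E := E) n
      (fun _ => True) PrincAt hD m G hG hcut
    refine ⟨e, G / e ^ m, he, ?_, ?_⟩
    · rw [mul_div_cancel₀ _ (pow_ne_zero m he)]
    · exact Fermat.Agent.S34.KrullStmt.unitAt_of_forall_princAt n (G / e ^ m)
        (div_ne_zero hG (pow_ne_zero m he)) (fun 𝔮 h𝔮 hle hP => hφ 𝔮 h𝔮 hle trivial hP)

end Core

/-- **[HorGen]** (`HorGenStatement`). -/
theorem horGenStatement : HorGenStatement := by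
  intro R _ _ _ _ E _ _ _ n m G hn hG h
  exact exists_pow_mul_unit n m G hG h

/-! ### Valuation rings centred at a height-one prime -/

section Val

variable {E : Type*} [Field E]

/-- A nonzero nonunit `t` of a valuation ring has no unit power other than `t ^ 0`. -/
theorem zpow_unit_eq_zero (V : ValuationSubring E) {t : E} (ht0 : t ≠ 0) (ht : t ∈ V)
    (ht' : t⁻¹ ∉ V) {k : ℤ} (h1 : t ^ k ∈ V) (h2 : (t ^ k)⁻¹ ∈ V) : k = 0 := by
  have key : ∀ j : ℕ, (t ^ (j + 1))⁻¹ ∈ V → False := by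
    intro j hj
    apply ht'
    have e1 : t⁻¹ = t ^ j * (t ^ (j + 1))⁻¹ := by
      rw [pow_succ]
      field_simp
    rw [e1]
    exact V.mul_mem _ _ (pow_mem ht j) hj
  rcases lt_trichotomy k 0 with hk | hk | hk
  · exfalso
    obtain ⟨j, rfl⟩ := Int.eq_negSucc_of_lt_zero hk
    rw [zpow_negSucc] at h1
    exact key j h1
  · exact hk
  · exfalso
    obtain ⟨j, rfl⟩ := Int.eq_succ_of_zero_lt hk
    have e2 : t ^ ((j : ℤ) + 1) = t ^ (j + 1) := by
      rw [← Nat.cast_succ, zpow_natCast]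
    rw [e2] at h2
    exact key j h2

/-- Roots of units of a valuation ring are units. -/
theorem mem_and_inv_mem_of_pow (V : ValuationSubring E) {g : E} {m : ℕ} (hm : 0 < m)
    (h1 : g ^ m ∈ V) (h2 : (g ^ m)⁻¹ ∈ V) : g ∈ V ∧ g⁻¹ ∈ V := by
  obtain ⟨j, rfl⟩ : ∃ j : ℕ, m = j + 1 := ⟨m - 1, by omega⟩
  by_cases hg0 : g = 0
  · subst hg0
    simp
  rcases V.mem_or_inv_mem g with hg | hg
  · refine ⟨hg, ?_⟩
    have e1 : g⁻¹ = g ^ j * (g ^ (j + 1))⁻¹ := by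
      rw [pow_succ]
      field_simp
    rw [e1]
    exact V.mul_mem _ _ (pow_mem hg j) h2
  · refine ⟨?_, hg⟩
    have e1 : g = g⁻¹ ^ j * g ^ (j + 1) := by
      rw [pow_succ, inv_pow]
      field_simp
    rw [e1]
    exact V.mul_mem _ _ (pow_mem hg j) h1

end Val

section Chart

variable {R : Type*} [CommRing R] [IsDomain R] [IsNoetherianRing R]
  {E : Type*} [Field E] [Algebra R E] [IsFractionRing R E]

/-- A unit at `𝔮` is a unit of every valuation ring `V ⊇ R` in which the elements outside `𝔮`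
are units. -/
theorem mem_and_inv_mem_of_unitAt (V : ValuationSubring E) {𝔮 : Ideal R}
    (hle : ∀ r : R, algebraMap R E r ∈ V)
    (hcen : ∀ r : R, r ∉ 𝔮 → (algebraMap R E r)⁻¹ ∈ V) {x : E} (hx : UnitAt 𝔮 x) :
    x ∈ V ∧ x⁻¹ ∈ V := by
  obtain ⟨a, s, ha, hs, h⟩ := hx
  have hinj : Function.Injective (algebraMap R E) := IsFractionRing.injective R E
  have hsE : algebraMap R E s ≠ 0 := fun h0 =>
    hs ((hinj (by rw [h0, map_zero]) : s = 0) ▸ 𝔮.zero_mem)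
  have e1 : x = algebraMap R E a * (algebraMap R E s)⁻¹ := by
    rw [← h]
    field_simp
  constructor
  · rw [e1]
    exact V.mul_mem _ _ (hle a) (hcen s hs)
  · rw [e1, mul_inv, inv_inv]
    exact V.mul_mem _ _ (hcen a ha) (hle s)

/-- **[VertUnit]**, one valuation ring: if `V ⊇ R` is centred at the prime `P` and `P` is locally
principal at itself, a nonzero unit of `V` is a unit of `R_P` (`V = R_P`). -/
theorem unitAt_of_valuation_unit (V : ValuationSubring E) (P : Ideal R) [hPp : P.IsPrime]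
    (hP : PrincAt P) (hle : ∀ r : R, algebraMap R E r ∈ V)
    (hcen : ∀ r : R, r ∉ P → (algebraMap R E r)⁻¹ ∈ V)
    (hnon : ∀ r : R, r ∈ P → r ≠ 0 → (algebraMap R E r)⁻¹ ∉ V)
    {x : E} (hx0 : x ≠ 0) (hx : x ∈ V) (hx' : x⁻¹ ∈ V) : UnitAt P x := by
  have hinj : Function.Injective (algebraMap R E) := IsFractionRing.injective R E
  have hP' := hP
  obtain ⟨hne, t, ht, hgen⟩ := hP
  have ht0 : t ≠ 0 := Fermat.Agent.S34.KrullStmt.gen_ne_zero hne hgen
  have htE : algebraMap R E t ≠ 0 := fun h0 => ht0 (hinj (by rw [h0, map_zero]))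
  obtain ⟨k, hk⟩ := Fermat.Agent.S34.KrullStmt.exists_zpow_unitAt (E := E) hne ht hgen hx0
  obtain ⟨hy, hy'⟩ := mem_and_inv_mem_of_unitAt V hle hcen hk
  have h1 : algebraMap R E t ^ k ∈ V := by
    have e1 : algebraMap R E t ^ k = x⁻¹ * (x * algebraMap R E t ^ k) := by
      field_simp
    rw [e1]
    exact V.mul_mem _ _ hx' hy
  have h2 : (algebraMap R E t ^ k)⁻¹ ∈ V := by
    have e1 : (algebraMap R E t ^ k)⁻¹ = x * (x * algebraMap R E t ^ k)⁻¹ := by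
      have := zpow_ne_zero k htE
      field_simp
    rw [e1]
    exact V.mul_mem _ _ hx hy'
  have hk0 : k = 0 := zpow_unit_eq_zero V htE (hle t) (hnon t ht ht0) h1 h2
  rw [hk0, zpow_zero, mul_one] at hk
  exact hk

/-- The height-one primes containing `ϖ` are the centres `P i` of the component valuations, if
`R ∩ ⋂ ϖ (V i) = ϖ R` and every element of `P i` has a power in `ϖ (V i)`. -/
theorem exists_eq_of_desc {ι : Type*} [Finite ι] (V : ι → ValuationSubring E) (P : ι → Ideal R)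
    (ϖ : R) (hϖ0 : ϖ ≠ 0) (hϖP : ∀ i, ϖ ∈ P i) (hPp : ∀ i, (P i).IsPrime)
    (hle : ∀ (i : ι) (r : R), algebraMap R E r ∈ V i)
    (hnil : ∀ (i : ι) (r : R), r ∈ P i →
      ∃ N : ℕ, ∃ z ∈ V i, algebraMap R E (r ^ N) = algebraMap R E ϖ * z)
    (hdesc : ∀ r : R, (∀ i, ∃ z ∈ V i, algebraMap R E r = algebraMap R E ϖ * z) → ϖ ∣ r)
    (𝔮 : Ideal R) [h𝔮 : 𝔮.IsPrime] (hϖ𝔮 : ϖ ∈ 𝔮) (hP : PrincAt 𝔮) : ∃ i, 𝔮 = P i := by
  classical
  cases nonempty_fintype ι
  by_contra hcon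
  push Not at hcon
  have hnot : ∀ i, ∃ r ∈ P i, r ∉ 𝔮 := by
    intro i
    by_contra hall
    push Not at hall
    have hle' : P i ≤ 𝔮 := fun r hr => hall r hr
    have hne : P i ≠ ⊥ := by
      intro hb
      have := hϖP i
      rw [hb, Ideal.mem_bot] at this
      exact hϖ0 this
    have := hPp i
    exact hcon i (Fermat.Agent.S34.KrullStmt.eq_of_le_of_princAt hP hle' hne).symm
  choose r hrP hr𝔮 using hnot
  have hN : ∀ i, ∃ N : ℕ, ∃ z ∈ V i, algebraMap R E (r i ^ N) = algebraMap R E ϖ * z :=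
    fun i => hnil i (r i) (hrP i)
  choose N z hz hNz using hN
  have hdvd : ϖ ∣ ∏ i, r i ^ N i := by
    apply hdesc
    intro j
    refine ⟨z j * algebraMap R E (∏ i ∈ Finset.univ.erase j, r i ^ N i),
      (V j).mul_mem _ _ (hz j) (hle j _), ?_⟩
    rw [← Finset.mul_prod_erase Finset.univ _ (Finset.mem_univ j), map_mul, hNz j]
    ring
  have hmem : ∏ i, r i ^ N i ∈ 𝔮 := by
    obtain ⟨c, hc⟩ := hdvd
    rw [hc]
    exact 𝔮.mul_mem_right _ hϖ𝔮
  obtain ⟨i, -, hi⟩ := (Ideal.IsPrime.prod_mem_iff).mp hmem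
  exact hr𝔮 i (h𝔮.mem_of_pow_mem _ hi)

variable [IsIntegrallyClosed R]

/-- **[HorGen], chart form**, universe-polymorphic. -/
theorem exists_pow_mul_unit_chart {ι : Type*} (V : ι → ValuationSubring E) (P : ι → Ideal R)
    (ϖ : R) (n : Ideal R) [hn : n.IsPrime] (m : ℕ) (G : E) (hm : 0 < m)
    (hle : ∀ (i : ι) (r : R), algebraMap R E r ∈ V i)
    (hcen : ∀ (i : ι) (r : R), r ∉ P i → (algebraMap R E r)⁻¹ ∈ V i)
    (hnon : ∀ (i : ι) (r : R), r ∈ P i → r ≠ 0 → (algebraMap R E r)⁻¹ ∉ V i)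
    (hϖ0 : ϖ ≠ 0) (hϖP : ∀ i : ι, ϖ ∈ P i)
    (hvert : ∀ 𝔮 : Ideal R, 𝔮.IsPrime → 𝔮 ≤ n → ϖ ∈ 𝔮 → PrincAt 𝔮 → ∃ i : ι, 𝔮 = P i)
    (hcong : ∀ i : ι, P i ≤ n → ∃ z ∈ V i, G - 1 = algebraMap R E ϖ * z)
    (hG : G ≠ 0)
    (hhor : ∀ 𝔮 : Ideal R, 𝔮.IsPrime → 𝔮 ≤ n → ϖ ∉ 𝔮 → PrincAt 𝔮 →
      UnitAt 𝔮 G ∨ ((∃ x : E, x ≠ 0 ∧ UnitAt 𝔮 (G * x ^ m)) ∧ ∃ e : R, GenAt n 𝔮 e)) :
    ∃ g u : E, g ≠ 0 ∧ G = g ^ m * u ∧ UnitAt n u ∧
      ∀ i : ι, P i ≤ n → g ∈ V i ∧ g⁻¹ ∈ V i := by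
  -- `G` is a unit of `V i` on the components through `n`
  have hGV : ∀ i : ι, P i ≤ n → G ∈ V i ∧ G⁻¹ ∈ V i := by
    intro i hi
    obtain ⟨z, hz, hGz⟩ := hcong i hi
    have e1 : G = 1 + algebraMap R E ϖ * z := by rw [← hGz]; ring
    refine ⟨?_, ?_⟩
    · rw [e1]
      exact (V i).add_mem _ _ (V i).one_mem ((V i).mul_mem _ _ (hle i ϖ) hz)
    · rw [e1]
      exact Fermat.Agent.S34.LocAStmt.inv_one_add_mem (V i) (hnon i ϖ (hϖP i) hϖ0) hz
  obtain ⟨g, u, hg, hGgu, hu⟩ := exists_pow_mul_unit n m G hG (by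
    intro 𝔮 h𝔮 hle𝔮 hP
    by_cases hϖ𝔮 : ϖ ∈ 𝔮
    · obtain ⟨i, rfl⟩ := hvert 𝔮 h𝔮 hle𝔮 hϖ𝔮 hP
      have := h𝔮
      exact Or.inl (unitAt_of_valuation_unit (V i) (P i) hP (hle i) (hcen i) (hnon i) hG
        (hGV i hle𝔮).1 (hGV i hle𝔮).2)
    · exact hhor 𝔮 h𝔮 hle𝔮 hϖ𝔮 hP)
  refine ⟨g, u, hg, hGgu, hu, ?_⟩
  intro i hi
  obtain ⟨hu1, hu2⟩ := mem_and_inv_mem_of_unitAt (V i) (hle i)
    (fun r hr => hcen i r (fun h => hr (hi h))) hu
  have hu0 : u ≠ 0 := by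
    rintro rfl
    rw [mul_zero] at hGgu
    exact hG hGgu
  have e1 : g ^ m = G * u⁻¹ := by
    rw [hGgu]
    field_simp
  refine mem_and_inv_mem_of_pow (V i) hm ?_ ?_
  · rw [e1]
    exact (V i).mul_mem _ _ (hGV i hi).1 hu2
  · rw [e1, mul_inv, inv_inv]
    exact (V i).mul_mem _ _ (hGV i hi).2 hu1

end Chart

/-- **[HorGen], chart form** (`HorGenChartStatement`). -/
theorem horGenChartStatement : HorGenChartStatement := by
  intro R _ _ _ _ E _ _ _ ι V P ϖ n m G hn hm hle hcen hnon hϖ0 hϖP hvert hcong hG hhor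
  exact exists_pow_mul_unit_chart V P ϖ n m G hm hle hcen hnon hϖ0 hϖP hvert hcong hG hhor

end Fermat.Agent.S36.HorGen
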