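import Mathlib
import Fermat.Agent.S36.NakPlan

/-!
# S36, block [B1-nak], leaf [N1] `NakPlan.SmoothCutPStatement`: the cut lemma
(Nakayama only; no regularity, no UFD theory)

**Cut lemma.**  Let `g` lie in the Jacobson radical of `R`, let `Q` be a finitely generated prime
with `g ∉ Q`, and assume that the image of `Q` in `R / (g)` is principal.  Then `Q` is principal.
(Pick `e ∈ Q` lifting a generator; for `x ∈ Q` write `x = a e + g y`; then `g y ∈ Q`, so `y ∈ Q`;
hence `Q = (e) + g Q` and Nakayama gives `Q = (e)`.)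

No rationality of `Q`, no hypothesis on its residue field or ramification is used: at a closed
point `n` of a chart at which ONE prime is principal, `= (δ)`, with `R_n / (δ)` a discrete
valuation ring (equivalently `n R_n = (δ, t)`), EVERY prime `Q ≤ n` not containing `δ` is
principal in `R_n`.

* `eq_span_of_decomp`                     : the Nakayama core;
* `exists_eq_span_of_map_isPrincipal`     : `φ : R → D` onto, `ker φ = (g)`, `φ(Q) D` principal;
* `isPrincipalIdealRing_of_maximalIdeal_eq_span` : noetherian local with principal maximal ideal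
                                            is a principal ideal ring (no domain hypothesis);
* `exists_eq_span_of_quotient_pir`        : `R` noetherian local, `R / (g)` a principal ideal ring;
* `exists_eq_span_of_max_eq_pair`         : `R` noetherian local, `𝔪 = (g, t)`;
* `cut_of_eq_span`                        : a generator is a `LocPlan.Cut` (for every `ϖ`);
* `smoothCutP`                            : **[N1]** `NakPlan.SmoothCutPStatement`, verbatim.

The chart-level transport ([N2] `NakPlan.CutAtPStatement`) is in `S36/NakCutAtB.lean`.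
-/

set_option autoImplicit false
set_option linter.unusedSectionVars false

namespace Fermat.Agent.S36.CutLemma

open IsLocalRing Fermat.Agent.S34.LocPlan Fermat.Agent.S36.NakPlan

/-! ### Local forms -/

section General

variable {R : Type*} [CommRing R]

/-- **Cut lemma, Nakayama core.**  If `g` is in the Jacobson radical, `Q` is a finitely generated
prime with `g ∉ Q`, `e ∈ Q`, and every `x ∈ Q` is `a e + g y`, then `Q = (e)`. -/
theorem eq_span_of_decomp {g : R} (hg : g ∈ Ideal.jacobson (⊥ : Ideal R)) {Q : Ideal R}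
    (hQ : Q.IsPrime) (hfg : Q.FG) (hgQ : g ∉ Q) {e : R} (he : e ∈ Q)
    (hdec : ∀ x ∈ Q, ∃ a y : R, x = a * e + g * y) : Q = Ideal.span {e} := by
  apply le_antisymm
  · have hjac : Ideal.span {g} ≤ Ideal.jacobson (⊥ : Ideal R) := by
      rw [Ideal.span_le]
      intro x hx
      rw [Set.mem_singleton_iff] at hx
      rw [hx]; exact hg
    refine Submodule.le_of_le_smul_of_le_jacobson_bot hfg hjac ?_
    intro x hx
    obtain ⟨a, y, hxy⟩ := hdec x hx
    have hgy : g * y ∈ Q := by
      have h1 : g * y = x - a * e := by rw [hxy]; ring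
      rw [h1]; exact Q.sub_mem hx (Q.mul_mem_left _ he)
    have hy : y ∈ Q := (hQ.mem_or_mem hgy).resolve_left hgQ
    rw [hxy]
    refine Submodule.add_mem_sup ?_ ?_
    · exact Ideal.mul_mem_left _ _ (Ideal.subset_span rfl)
    · rw [smul_eq_mul]
      exact Ideal.mul_mem_mul (Ideal.subset_span rfl) hy
  · rw [Ideal.span_le]
    intro x hx
    rw [Set.mem_singleton_iff] at hx
    rw [hx]; exact he

/-- **Cut lemma, ring-hom form.**  `φ : R → D` surjective with kernel `(g)`, `g` in the Jacobson
radical, `Q` a finitely generated prime with `g ∉ Q` whose image in `D` is principal: then `Q`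
is principal. -/
theorem exists_eq_span_of_map_isPrincipal {D : Type*} [CommRing D] (φ : R →+* D)
    (hφ : Function.Surjective φ) {g : R} (hker : RingHom.ker φ = Ideal.span {g})
    (hg : g ∈ Ideal.jacobson (⊥ : Ideal R)) {Q : Ideal R} (hQ : Q.IsPrime) (hfg : Q.FG)
    (hgQ : g ∉ Q) (hprin : (Q.map φ).IsPrincipal) : ∃ e ∈ Q, Q = Ideal.span {e} := by
  obtain ⟨d, hd⟩ := hprin
  have hdmem : d ∈ Q.map φ := by
    rw [hd]; exact Submodule.mem_span_singleton_self d
  obtain ⟨e, he, rfl⟩ := (Ideal.mem_map_iff_of_surjective φ hφ).mp hdmem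
  refine ⟨e, he, eq_span_of_decomp hg hQ hfg hgQ he ?_⟩
  intro x hx
  have hx' : φ x ∈ Q.map φ := Ideal.mem_map_of_mem φ hx
  rw [hd] at hx'
  obtain ⟨b, hb⟩ := Submodule.mem_span_singleton.mp hx'
  obtain ⟨a, rfl⟩ := hφ b
  have hk : x - a * e ∈ RingHom.ker φ := by
    rw [RingHom.mem_ker, map_sub, map_mul, ← hb, smul_eq_mul, sub_self]
  rw [hker, Ideal.mem_span_singleton'] at hk
  obtain ⟨y, hy⟩ := hk
  exact ⟨a, y, by linear_combination -hy⟩

/-- A noetherian local ring whose maximal ideal is principal is a principal ideal ring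
(a discrete valuation ring, a field, or an artinian principal ring; no domain hypothesis). -/
theorem isPrincipalIdealRing_of_maximalIdeal_eq_span {D : Type*} [CommRing D] [IsLocalRing D]
    [IsNoetherianRing D] {t : D} (ht : maximalIdeal D = Ideal.span {t}) :
    IsPrincipalIdealRing D := by
  refine IsPrincipalIdealRing.of_prime fun P hP => ?_
  by_cases htP : t ∈ P
  · have hPm : P = maximalIdeal D := by
      apply le_antisymm (IsLocalRing.le_maximalIdeal hP.ne_top)
      rw [ht, Ideal.span_le]
      intro x hx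
      rw [Set.mem_singleton_iff] at hx
      rw [hx]; exact htP
    rw [hPm, ht]
    exact ⟨⟨t, rfl⟩⟩
  · have hbot : P = ⊥ := by
      refine Submodule.eq_bot_of_le_smul_of_le_jacobson_bot (Ideal.span {t}) P
        (IsNoetherian.noetherian P) ?_ ?_
      · intro x hx
        have hxm : x ∈ Ideal.span {t} := ht ▸ IsLocalRing.le_maximalIdeal hP.ne_top hx
        rw [Ideal.mem_span_singleton'] at hxm
        obtain ⟨y, rfl⟩ := hxm
        have hy : y ∈ P := (hP.mem_or_mem hx).resolve_right htP
        have hcomm : y * t = t * y := mul_comm y t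
        rw [hcomm, smul_eq_mul]
        exact Ideal.mul_mem_mul (Ideal.subset_span rfl) hy
      · rw [IsLocalRing.jacobson_eq_maximalIdeal ⊥ bot_ne_top, ht]
    rw [hbot]
    exact ⟨⟨0, (Submodule.span_zero_singleton D).symm⟩⟩

/-- **Cut lemma, local form (F1).**  `R` noetherian local, `g ∈ 𝔪`, `R / (g)` a principal ideal
ring (for instance a discrete valuation ring), `Q` a prime with `g ∉ Q`: then `Q` is
principal. -/
theorem exists_eq_span_of_quotient_pir [IsLocalRing R] [IsNoetherianRing R] {g : R}
    (hg : g ∈ maximalIdeal R) (hpir : IsPrincipalIdealRing (R ⧸ Ideal.span {g}))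
    {Q : Ideal R} (hQ : Q.IsPrime) (hgQ : g ∉ Q) : ∃ e ∈ Q, Q = Ideal.span {e} := by
  have hjac : g ∈ Ideal.jacobson (⊥ : Ideal R) := by
    rw [IsLocalRing.jacobson_eq_maximalIdeal ⊥ bot_ne_top]; exact hg
  exact exists_eq_span_of_map_isPrincipal (Ideal.Quotient.mk (Ideal.span {g}))
    Ideal.Quotient.mk_surjective Ideal.mk_ker hjac hQ (IsNoetherian.noetherian Q) hgQ
    (hpir.principal _)

/-- **Cut lemma, two-generator form.**  `R` noetherian local with `𝔪 = (g, t)`, `Q` a prime with
`g ∉ Q`: then `Q` is principal. -/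
theorem exists_eq_span_of_max_eq_pair [IsLocalRing R] [IsNoetherianRing R] {g t : R}
    (hmax : maximalIdeal R = Ideal.span {g, t}) {Q : Ideal R} (hQ : Q.IsPrime) (hgQ : g ∉ Q) :
    ∃ e ∈ Q, Q = Ideal.span {e} := by
  have hg : g ∈ maximalIdeal R := by
    rw [hmax]; exact Ideal.subset_span (by simp)
  have htm : t ∈ maximalIdeal R := by
    rw [hmax]; exact Ideal.subset_span (by simp)
  have hne : Ideal.span {g} ≠ (⊤ : Ideal R) := by
    intro h
    have h1 : (1 : R) ∈ Ideal.span {g} := by rw [h]; trivial
    have h2 : (1 : R) ∈ maximalIdeal R := by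
      refine (Ideal.span_le.mpr ?_) h1
      intro x hx
      rw [Set.mem_singleton_iff] at hx
      rw [hx]; exact hg
    exact (Ideal.ne_top_iff_one _).mp (maximalIdeal.isMaximal R).ne_top h2
  have : Nontrivial (R ⧸ Ideal.span {g}) := Ideal.Quotient.nontrivial_iff.mpr hne
  have : IsLocalRing (R ⧸ Ideal.span {g}) :=
    IsLocalRing.of_surjective' (Ideal.Quotient.mk (Ideal.span {g})) Ideal.Quotient.mk_surjective
  have hmaxD : maximalIdeal (R ⧸ Ideal.span {g})
      = Ideal.span {Ideal.Quotient.mk (Ideal.span {g}) t} := by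
    have hcomap : (maximalIdeal (R ⧸ Ideal.span {g})).comap (Ideal.Quotient.mk (Ideal.span {g}))
        = maximalIdeal R := by
      have := Ideal.comap_isMaximal_of_surjective (Ideal.Quotient.mk (Ideal.span {g}))
        Ideal.Quotient.mk_surjective (K := maximalIdeal (R ⧸ Ideal.span {g}))
      exact IsLocalRing.eq_maximalIdeal this
    apply le_antisymm
    · intro z hz
      obtain ⟨x, rfl⟩ := Ideal.Quotient.mk_surjective z
      have hx : x ∈ maximalIdeal R := by
        rw [← hcomap]; exact hz
      rw [hmax, Ideal.mem_span_pair] at hx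
      obtain ⟨a, b, hab⟩ := hx
      rw [Ideal.mem_span_singleton']
      refine ⟨Ideal.Quotient.mk _ b, ?_⟩
      have h0 : Ideal.Quotient.mk (Ideal.span {g}) g = 0 :=
        Ideal.Quotient.eq_zero_iff_mem.mpr (Ideal.subset_span rfl)
      rw [← hab, map_add, map_mul, map_mul, h0, mul_zero, zero_add]
    · rw [Ideal.span_le]
      intro z hz
      rw [Set.mem_singleton_iff] at hz
      rw [hz]
      have : t ∈ (maximalIdeal (R ⧸ Ideal.span {g})).comap
          (Ideal.Quotient.mk (Ideal.span {g})) := by
        rw [hcomap]; exact htm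
      exact this
  exact exists_eq_span_of_quotient_pir hg
    (isPrincipalIdealRing_of_maximalIdeal_eq_span hmaxD) hQ hgQ

/-- A generator of a prime is a cut function in the sense of `S34/LocPlan` (for every `ϖ`,
every `n`). -/
theorem cut_of_eq_span (ϖ : R) (n : Ideal R) {Q : Ideal R} (hQ : Q.IsPrime) {e : R}
    (he : e ∈ Q) (h : Q = Ideal.span {e}) : Cut ϖ n Q e := by
  refine ⟨he, ?_, ?_⟩
  · intro 𝔮' _ _ he' _
    rw [h, Ideal.span_le]
    intro x hx
    rw [Set.mem_singleton_iff] at hx
    rw [hx]; exact he'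
  · intro y hy
    have hy' : y ∈ Ideal.span {e} := h ▸ hy
    rw [Ideal.mem_span_singleton'] at hy'
    obtain ⟨c, hc⟩ := hy'
    exact ⟨1, fun h1 => hQ.ne_top ((Ideal.eq_top_iff_one _).mpr h1), c, by rw [one_mul, hc]⟩

/-- **[N1]** `NakPlan.SmoothCutPStatement`.  (Neither `IsDomain R` nor the primality of `(δ)`
is used.) -/
theorem smoothCutP : SmoothCutPStatement := by
  intro R _ _ _ _ δ t 𝔮 hmax _ h𝔮 hδ
  exact exists_eq_span_of_max_eq_pair hmax h𝔮 hδ

end General

end Fermat.Agent.S36.CutLemma
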