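import Mathlib
import Fermat.Agent.S36.CutLemma
import Fermat.Agent.S34.CutAt

/-!
# S36, block [B1-nak], leaf [N2] `NakPlan.CutAtPStatement` (B-copy): the cut lemma at chart level

Transport of the cut lemma (`S36/CutLemma.lean`) along `R → Localization.AtPrime n`, with the
elementwise localisation toolkit of `S34/CutAt.lean`.

`R` a noetherian domain, `n` a prime:
* `exists_genAt`            : if `n R_n = (δ, t) R_n`, every prime `Q ≤ n` with `δ ∉ Q` is
                              principal locally at `n` (`NakPlan.GenAt n Q e`);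
* `exists_genAt_of_branch`  : the same from `P R_n = δ R_n` and `n = P + (t)` locally at `n`;
* `exists_cut_at`, `exists_cut_at_of_branch` : the `LocPlan.Cut` forms (every `ϖ`);
* `cutAtP`                  : **[N2]** `NakPlan.CutAtPStatement`, verbatim.
-/

set_option autoImplicit false
set_option linter.unusedSectionVars false

namespace Fermat.Agent.S36.NakCutAtB

open IsLocalRing Fermat.Agent.S34.LocPlan Fermat.Agent.S36.NakPlan Fermat.Agent.S36.CutLemma

section Chart

open Fermat.Agent.S34.CutAt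

variable {R : Type} [CommRing R] [IsDomain R] [IsNoetherianRing R]

/-- **Cut lemma, chart form.**  `n` a prime of the noetherian domain `R` with
`n R_n = (δ, t) R_n`; then every prime `Q ≤ n` with `δ ∉ Q` is principal locally at `n`. -/
theorem exists_genAt {n Q : Ideal R} (hn : n.IsPrime) (hQ : Q.IsPrime) (hQn : Q ≤ n) {δ t : R}
    (hδn : δ ∈ n) (htn : t ∈ n) (hδQ : δ ∉ Q)
    (hgen : ∀ x ∈ n, ∃ s : R, s ∉ n ∧ ∃ c d : R, s * x = c * δ + d * t) :
    ∃ e : R, GenAt n Q e := by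
  have := hn
  have hQ' := map_isPrime n hQ hQn
  have hδQ' : algebraMap R (Localization.AtPrime n) δ ∉
      Q.map (algebraMap R (Localization.AtPrime n)) :=
    fun h => hδQ ((algebraMap_mem_map_iff n hQ hQn).mp h)
  have hmax : maximalIdeal (Localization.AtPrime n)
      = Ideal.span {algebraMap R (Localization.AtPrime n) δ,
          algebraMap R (Localization.AtPrime n) t} := by
    rw [maximalIdeal_eq n]
    apply le_antisymm
    · rw [Ideal.map_le_iff_le_comap]
      intro x hx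
      rw [Ideal.mem_comap]
      obtain ⟨s, hs, c, d, hcd⟩ := hgen x hx
      obtain ⟨us, hus⟩ := isUnit_algebraMap n hs
      have e1 : (us : Localization.AtPrime n) * ↑us⁻¹ = 1 := Units.mul_inv us
      have h3 : (us : Localization.AtPrime n) * algebraMap R _ x
          = algebraMap R _ c * algebraMap R _ δ + algebraMap R _ d * algebraMap R _ t := by
        rw [hus, ← map_mul, hcd, map_add, map_mul, map_mul]
      have h2 : algebraMap R (Localization.AtPrime n) x
          = algebraMap R _ δ * (algebraMap R _ c * ↑us⁻¹)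
            + algebraMap R _ t * (algebraMap R _ d * ↑us⁻¹) := by
        linear_combination (↑us⁻¹ : Localization.AtPrime n) * h3
          + (- algebraMap R (Localization.AtPrime n) x) * e1
      rw [h2]
      exact Ideal.add_mem _
        (Ideal.mul_mem_right _ _ (Ideal.subset_span (Set.mem_insert _ _)))
        (Ideal.mul_mem_right _ _ (Ideal.subset_span (Set.mem_insert_of_mem _ rfl)))
    · rw [Ideal.span_le]
      intro z hz
      rcases hz with rfl | rfl
      · exact Ideal.mem_map_of_mem _ hδn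
      · exact Ideal.mem_map_of_mem _ htn
  obtain ⟨e', he', heq⟩ := exists_eq_span_of_max_eq_pair hmax hQ' hδQ'
  obtain ⟨e, σ, hσ, hrep⟩ := exists_rep n e'
  have heQ : e ∈ Q := by
    rw [← algebraMap_mem_map_iff n hQ hQn, ← hrep]
    exact Ideal.mul_mem_right _ _ he'
  refine ⟨e, heQ, ?_⟩
  intro y hy
  have hy' : algebraMap R (Localization.AtPrime n) y ∈ Ideal.span {e'} :=
    heq ▸ Ideal.mem_map_of_mem _ hy
  rw [Ideal.mem_span_singleton'] at hy'
  obtain ⟨c', hc'⟩ := hy'
  obtain ⟨c₀, σ₂, hσ₂, hc₀⟩ := exists_rep n c'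
  refine ⟨σ₂ * σ, ?_, c₀, ?_⟩
  · intro hmem
    rcases hn.mem_or_mem hmem with h | h
    · exact hσ₂ h
    · exact hσ h
  · apply algebraMap_injective n
    simp only [map_mul]
    calc algebraMap R (Localization.AtPrime n) σ₂ * algebraMap R _ σ * algebraMap R _ y
        = (c' * algebraMap R _ σ₂) * (e' * algebraMap R _ σ) := by rw [← hc']; ring
      _ = algebraMap R _ c₀ * algebraMap R _ e := by rw [hc₀, hrep]

/-- **Cut lemma, branch form.**  `P R_n = δ R_n` and `n = P + (t)` locally at `n` (the branch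
`R_n / P` is regular of dimension one with parameter `t`); then every prime `Q ≤ n` with
`δ ∉ Q` is principal locally at `n`. -/
theorem exists_genAt_of_branch {n P Q : Ideal R} (hn : n.IsPrime) (hQ : Q.IsPrime)
    (hQn : Q ≤ n) {δ t : R} (hδn : δ ∈ n) (htn : t ∈ n) (hδQ : δ ∉ Q)
    (hPδ : ∀ y ∈ P, ∃ s : R, s ∉ n ∧ ∃ d : R, s * y = d * δ)
    (hbr : ∀ x ∈ n, ∃ s : R, s ∉ n ∧ ∃ c : R, s * x - c * t ∈ P) :
    ∃ e : R, GenAt n Q e := by
  refine exists_genAt hn hQ hQn hδn htn hδQ ?_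
  intro x hx
  obtain ⟨s, hs, c, hc⟩ := hbr x hx
  obtain ⟨s', hs', d, hd⟩ := hPδ _ hc
  refine ⟨s' * s, ?_, d, s' * c, ?_⟩
  · intro hmem
    rcases hn.mem_or_mem hmem with h | h
    · exact hs' h
    · exact hs h
  · linear_combination hd

/-- `LocPlan.Cut` form of `exists_genAt`. -/
theorem exists_cut_at (ϖ : R) {n Q : Ideal R} (hn : n.IsPrime) (hQ : Q.IsPrime) (hQn : Q ≤ n)
    {δ t : R} (hδn : δ ∈ n) (htn : t ∈ n) (hδQ : δ ∉ Q)
    (hgen : ∀ x ∈ n, ∃ s : R, s ∉ n ∧ ∃ c d : R, s * x = c * δ + d * t) :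
    ∃ e : R, Cut ϖ n Q e := by
  obtain ⟨e, he⟩ := exists_genAt hn hQ hQn hδn htn hδQ hgen
  exact ⟨e, cut_of_genAt ϖ hQn he⟩

/-- `LocPlan.Cut` form of `exists_genAt_of_branch`. -/
theorem exists_cut_at_of_branch (ϖ : R) {n P Q : Ideal R} (hn : n.IsPrime) (hQ : Q.IsPrime)
    (hQn : Q ≤ n) {δ t : R} (hδn : δ ∈ n) (htn : t ∈ n) (hδQ : δ ∉ Q)
    (hPδ : ∀ y ∈ P, ∃ s : R, s ∉ n ∧ ∃ d : R, s * y = d * δ)
    (hbr : ∀ x ∈ n, ∃ s : R, s ∉ n ∧ ∃ c : R, s * x - c * t ∈ P) :
    ∃ e : R, Cut ϖ n Q e := by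
  obtain ⟨e, he⟩ := exists_genAt_of_branch hn hQ hQn hδn htn hδQ hPδ hbr
  exact ⟨e, cut_of_genAt ϖ hQn he⟩

end Chart


/-- **[N2]** `NakPlan.CutAtPStatement`.  (`n` prime suffices; the primality of `P` and `P ≤ n`
are not used.) -/
theorem cutAtP : CutAtPStatement := by
  intro R _ _ _ n P 𝔮 δ hn _ hPn h𝔮 h𝔮n hδ𝔮 hPδ hbr
  obtain ⟨t, htn, hgen⟩ := hbr
  exact exists_genAt_of_branch hn.isPrime h𝔮 h𝔮n (hPn hPδ.1) htn hδ𝔮 hPδ.2 hgen

end Fermat.Agent.S36.NakCutAtB
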