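import Mathlib
import Fermat.Agent.S36.NakPlan
import Fermat.Agent.S36.NakP3
import Fermat.Agent.S36.NakCutAtB

/-!
# S36, package [B1-nak], leaf [N7] : `NakPlan.B1CutStatement`

Assembly of [N2] (`CutAtPStatement`, which contains [N1]) and [N3] (`PrincP3Statement`):
at a closed point `n` of a noetherian integrally closed domain lying on the prime `P`, if `δ ∈ P`
generates `P` at `P`, lies in no other height-one prime through `n`, and the branch `R / P` is
regular of dimension one at `n`, then `P = (δ)` at `n` and every other height-one prime through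
`n` is principal at `n`.

* `b1Cut_of_leaves` : hypothesis form;
* `b1CutStatement`  : closed form (leaves: `NakCutAtB.cutAtP`, `NakP3.princP3Statement`);
* `exists_cut`      : the same conclusion in the `Cut` vocabulary of `S34/LocPlan`.
-/

set_option autoImplicit false

namespace Fermat.Agent.S36.NakB1

open Fermat.Agent.S34.LocPlan Fermat.Agent.S36.NakPlan

/-- **[N7]**, hypothesis form. -/
theorem b1Cut_of_leaves (h2 : CutAtPStatement) (h3 : PrincP3Statement) : B1CutStatement := by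
  intro R _ _ _ _ n P δ hn hP hPn hδ0 hδP hgen hbranch hother
  have hG : GenAt n P δ := h3 R n P δ hn hP hPn hδ0 hδP hgen hother
  refine ⟨hG, fun 𝔮 h𝔮 hle hprinc hne => ?_⟩
  exact h2 R n P 𝔮 δ hn hP hPn h𝔮 hle (hother 𝔮 h𝔮 hle hprinc hne) hG hbranch

/-- **[N7]** `NakPlan.B1CutStatement`. -/
theorem b1CutStatement : B1CutStatement :=
  b1Cut_of_leaves Fermat.Agent.S36.NakCutAtB.cutAtP Fermat.Agent.S36.NakP3.princP3Statement

/-- The conclusion of [N7] in the `Cut` vocabulary: every height-one prime `𝔮 ≠ P` through `n`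
has a cut function at `n` (relative to any `ϖ`). -/
theorem exists_cut {R : Type} [CommRing R] [IsDomain R] [IsNoetherianRing R]
    [IsIntegrallyClosed R] (ϖ : R) (n P : Ideal R) (δ : R) (hn : n.IsMaximal) (hP : P.IsPrime)
    (hPn : P ≤ n) (hδ0 : δ ≠ 0) (hδP : δ ∈ P)
    (hgen : ∀ y ∈ P, ∃ s : R, s ∉ P ∧ ∃ c : R, s * y = c * δ)
    (hbranch : ∃ t ∈ n, ∀ x ∈ n, ∃ s : R, s ∉ n ∧ ∃ c : R, s * x - c * t ∈ P)
    (hother : ∀ 𝔭 : Ideal R, 𝔭.IsPrime → 𝔭 ≤ n → PrincAt 𝔭 → 𝔭 ≠ P → δ ∉ 𝔭)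
    (𝔮 : Ideal R) (h𝔮 : 𝔮.IsPrime) (hle : 𝔮 ≤ n) (hprinc : PrincAt 𝔮) (hne : 𝔮 ≠ P) :
    ∃ e : R, Cut ϖ n 𝔮 e := by
  obtain ⟨e, he⟩ := (b1CutStatement R n P δ hn hP hPn hδ0 hδP hgen hbranch hother).2 𝔮 h𝔮 hle
    hprinc hne
  exact ⟨e, cut_of_genAt ϖ hle he⟩

end Fermat.Agent.S36.NakB1
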