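import Mathlib
import Fermat.Agent.S34.KrullStmt
import Fermat.Agent.S36.NakPlan
import Fermat.Agent.S36.Model3Plan
import Fermat.Agent.S36.HorGen
import Fermat.Agent.S36.NakB1

/-!
# S36, package [B1-nak], leaf [N9-vert] : the vertical side of (B1), abstract over
`Model3Plan.ChartHyp3` + `Model3Plan.ValHyp3`

`R` a chart (noetherian integrally closed domain, `O`-algebra) with fraction field `E`, three
component valuation rings `V i` with uniformizers `ϖ i`, `π = ϖ i ^ e i · unit`, vertical primes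
`P i = R ∩ ϖ i (V i)`, `V i = R_{P i}`, `R ∩ π (V 0 ∩ V 1 ∩ V 2) = π R`.

Valuation side (`ValHyp3` only):
* `unif_ne_zero`, `inv_mem_or_exists`, `not_inv_mem_of_eq`, `p_eq_unif_mul`, `pow_mem_p`.

Chart side:
* `P_isPrime`, `pi_mem_P`                : `P i` is a prime containing `π`;
* `gen_at_P_of_unif`  **(k3)**            : `δ = ϖ i · unit` ⟹ `δ` generates `P i` at `P i`;
* `notMem_P_of_inv_mem`                  : a unit of `V i` is not in `P i`;
* `eq_P_of_princAt`   **(k5a)**           : a `PrincAt` prime containing `π` is one of the `P i`;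
* `forall_notMem_of_horizontal`          : the "other primes" hypothesis of
                                           `NakPlan.B1CutStatement` from `δ ∉ P 0`, `δ ∉ P 1` and the
                                           conclusion of `NakPlan.Z1Statement`;
* `b1_at_W3`, `b1_at_W3_of_unif`         : the conclusion of `B1CutStatement` at a closed point
                                           `n` of `P 2`;
* `genAt_pi_of_one_branch`               : at a closed point on exactly one component `P i` with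
                                           `e i = 1`, `π` generates `P i` at `n`;
* `le_of_unit_elsewhere`                 : Krull half of `W1 ∩ W2 ⊆ W3`: if `δ ∈ n` lies in no
                                           horizontal height-one prime through `n` and not in
                                           `P 0`, `P 1`, then `P 2 ≤ n`;
* `exists_le_of_pi_mem`                  : a prime containing `π` contains some `P i`;
* `princ_of`                             : the field `princ` of `Model3Plan.ChartModel3` at `n`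
                                           from the two modular inputs (generator of `P 2` at the
                                           points of `P 2`; `P 0, P 1 ≤ n → P 2 ≤ n`).

Pure algebra:
* `exists_gen_delta`                     : twisted Leibniz choice of the function: for
                                           `d x = a x - b x` with values in the prime `Q`, if
                                           `d j` generates `Q` at `Q` and `a t ∉ Q`, then `d t` or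
                                           `d (t + t² j)` generates `Q` at `Q`;
* `eq_zero_of_algebraMap_mem`            : a prime not containing the uniformizer `π` of the
                                           discrete valuation ring `O` meets `O` in `0`.
-/

set_option autoImplicit false
set_option linter.unusedSectionVars false

namespace Fermat.Agent.S36.NakVert

open Fermat.Agent.S34.LocPlan Fermat.Agent.S36.NakPlan Fermat.Agent.S36.Model3Plan

theorem fin3_cases (i : Fin 3) : i = 0 ∨ i = 1 ∨ i = 2 := by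
  fin_cases i <;> simp

/-! ### The valuation side -/

section Val

variable {E : Type*} [Field E] {p : E} {e : Fin 3 → ℕ} {ϖ : Fin 3 → E}
  {V : Fin 3 → ValuationSubring E}

theorem unif_ne_zero (hval : ValHyp3 p e ϖ V) (i : Fin 3) : ϖ i ≠ 0 := by
  intro h
  apply hval.unif_not i
  rw [h, inv_zero]
  exact (V i).zero_mem

/-- A nonzero element of `V i` is a unit of `V i` or a multiple of the uniformizer. -/
theorem inv_mem_or_exists (hval : ValHyp3 p e ϖ V) (i : Fin 3) {x : E} (hx : x ∈ V i)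
    (hx0 : x ≠ 0) : x⁻¹ ∈ V i ∨ ∃ y ∈ V i, x = ϖ i * y := by
  obtain ⟨k, u, hu, hu', rfl⟩ := hval.disc i x hx0
  have hϖ0 := unif_ne_zero hval i
  rcases le_or_gt k 0 with hk | hk
  · left
    rw [mul_inv, ← zpow_neg]
    obtain ⟨m, hm⟩ := Int.eq_ofNat_of_zero_le (neg_nonneg.mpr hk)
    rw [hm, zpow_natCast]
    exact mul_mem (pow_mem (hval.unif_mem i) m) hu'
  · right
    obtain ⟨m, hm⟩ := Int.eq_ofNat_of_zero_le (by omega : 0 ≤ k - 1)
    refine ⟨ϖ i ^ m * u, mul_mem (pow_mem (hval.unif_mem i) m) hu, ?_⟩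
    have hk' : k = (m : ℤ) + 1 := by omega
    rw [hk', zpow_add_one₀ hϖ0, zpow_natCast]
    ring

/-- A nonzero multiple of the uniformizer is not a unit of `V i`. -/
theorem not_inv_mem_of_eq (hval : ValHyp3 p e ϖ V) (i : Fin 3) {x y : E} (hx0 : x ≠ 0)
    (hy : y ∈ V i) (hxy : x = ϖ i * y) : x⁻¹ ∉ V i := by
  intro h
  apply hval.unif_not i
  have hy0 : y ≠ 0 := by
    rintro rfl
    exact hx0 (by rw [hxy, mul_zero])
  have hϖ0 := unif_ne_zero hval i
  have h1 : (ϖ i)⁻¹ = y * x⁻¹ := by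
    rw [hxy, mul_inv]
    field_simp
  rw [h1]
  exact mul_mem hy h

/-- `p ∈ ϖ i (V i)`. -/
theorem p_eq_unif_mul (hval : ValHyp3 p e ϖ V) (i : Fin 3) : ∃ y ∈ V i, p = ϖ i * y := by
  obtain ⟨u, hu, -, hp⟩ := hval.ram i
  obtain ⟨m, hm⟩ : ∃ m, e i = m + 1 := ⟨e i - 1, by have := hval.e_pos i; omega⟩
  refine ⟨ϖ i ^ m * u, mul_mem (pow_mem (hval.unif_mem i) m) hu, ?_⟩
  rw [hp, hm, pow_succ]
  ring

/-- `x ∈ ϖ i (V i) ⟹ x ^ e i ∈ p (V i)`. -/
theorem pow_mem_p (hval : ValHyp3 p e ϖ V) (hp0 : p ≠ 0) (i : Fin 3) {x y : E} (hy : y ∈ V i)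
    (hxy : x = ϖ i * y) : ∃ z ∈ V i, x ^ e i = p * z := by
  obtain ⟨u, hu, hu', hp⟩ := hval.ram i
  have hu0 : u ≠ 0 := by
    rintro rfl
    exact hp0 (by rw [hp, mul_zero])
  refine ⟨u⁻¹ * y ^ e i, mul_mem hu' (pow_mem hy _), ?_⟩
  rw [hxy, hp, mul_pow]
  field_simp

end Val

/-! ### The chart side -/

section Chart

variable {O : Type*} [CommRing O] {R : Type*} [CommRing R] [IsDomain R] [Algebra O R]
  {E : Type*} [Field E] [Algebra R E] [IsFractionRing R E]
  {π : O} {e : Fin 3 → ℕ} {ϖ : Fin 3 → E} {V : Fin 3 → ValuationSubring E}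
  {P : Fin 3 → Ideal R}

theorem algebraMap_ne_zero' {r : R} (hr : r ≠ 0) : algebraMap R E r ≠ 0 := fun h0 =>
  hr (IsFractionRing.injective R E (by rw [h0, map_zero]))

/-- `P i` is prime. -/
theorem P_isPrime (hyp : ChartHyp3 π ϖ V P)
    (hval : ValHyp3 (algebraMap R E (algebraMap O R π)) e ϖ V) (i : Fin 3) : (P i).IsPrime := by
  refine ⟨?_, ?_⟩
  · intro htop
    have h1 : (1 : R) ∈ P i := by rw [htop]; trivial
    obtain ⟨y, hy, h⟩ := (hyp.mem_P i 1).mp h1
    rw [map_one] at h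
    exact not_inv_mem_of_eq hval i one_ne_zero hy h (by rw [inv_one]; exact (V i).one_mem)
  · intro a b hab
    by_cases ha : a = 0
    · left; rw [ha]; exact (P i).zero_mem
    have haE : algebraMap R E a ≠ 0 := algebraMap_ne_zero' ha
    obtain ⟨y, hy, h⟩ := (hyp.mem_P i (a * b)).mp hab
    rw [map_mul] at h
    rcases inv_mem_or_exists hval i (hyp.le i a) haE with h1 | ⟨z, hz, h1⟩
    · right
      rw [hyp.mem_P]
      refine ⟨(algebraMap R E a)⁻¹ * y, mul_mem h1 hy, ?_⟩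
      calc algebraMap R E b = (algebraMap R E a)⁻¹ * (algebraMap R E a * algebraMap R E b) := by
            field_simp
        _ = ϖ i * ((algebraMap R E a)⁻¹ * y) := by rw [h]; ring
    · left
      rw [hyp.mem_P]
      exact ⟨z, hz, h1⟩

/-- `π ∈ P i`. -/
theorem pi_mem_P (hyp : ChartHyp3 π ϖ V P)
    (hval : ValHyp3 (algebraMap R E (algebraMap O R π)) e ϖ V) (i : Fin 3) :
    algebraMap O R π ∈ P i := by
  rw [hyp.mem_P]
  exact p_eq_unif_mul hval i

/-- **(k3)** If `δ = ϖ i · unit` in `V i`, then `δ ∈ P i` generates `P i` locally at `P i`. -/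
theorem gen_at_P_of_unif (hyp : ChartHyp3 π ϖ V P) (i : Fin 3) {δ : R} (hδ0 : δ ≠ 0) {u : E}
    (hu : u ∈ V i) (hu' : u⁻¹ ∈ V i) (hδ : algebraMap R E δ = ϖ i * u) :
    δ ∈ P i ∧ ∀ y ∈ P i, ∃ s : R, s ∉ P i ∧ ∃ c : R, s * y = c * δ := by
  have hinj := IsFractionRing.injective R E
  refine ⟨(hyp.mem_P i δ).mpr ⟨u, hu, hδ⟩, fun y hy => ?_⟩
  have hu0 : u ≠ 0 := by
    rintro rfl
    apply hδ0
    apply hinj
    rw [hδ, mul_zero, map_zero]
  obtain ⟨y', hy', hyy⟩ := (hyp.mem_P i y).mp hy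
  obtain ⟨a, s, hs, has⟩ := hyp.loc i (u⁻¹ * y') (mul_mem hu' hy')
  refine ⟨s, hs, a, hinj ?_⟩
  rw [map_mul, map_mul, hyy, hδ, ← has]
  field_simp

/-- A nonzero element of `R` which is a unit of `V i` does not lie in `P i`. -/
theorem notMem_P_of_inv_mem (hyp : ChartHyp3 π ϖ V P)
    (hval : ValHyp3 (algebraMap R E (algebraMap O R π)) e ϖ V) (i : Fin 3) {δ : R} (hδ0 : δ ≠ 0)
    (h : (algebraMap R E δ)⁻¹ ∈ V i) : δ ∉ P i := by
  intro hmem
  obtain ⟨y, hy, hδ⟩ := (hyp.mem_P i δ).mp hmem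
  exact not_inv_mem_of_eq hval i (algebraMap_ne_zero' hδ0) hy hδ h

/-- A prime containing `π` contains one of the `P i`. -/
theorem exists_le_of_pi_mem (hyp : ChartHyp3 π ϖ V P)
    (hval : ValHyp3 (algebraMap R E (algebraMap O R π)) e ϖ V) (hπ0 : algebraMap O R π ≠ 0)
    {n : Ideal R} (hn : n.IsPrime) (hπn : algebraMap O R π ∈ n) : ∃ i, P i ≤ n := by
  classical
  have hp0 : algebraMap R E (algebraMap O R π) ≠ 0 := algebraMap_ne_zero' hπ0
  by_contra hcon
  have hex : ∀ j : Fin 3, ∃ a : R, a ∈ P j ∧ a ∉ n := fun j =>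
    Set.not_subset.mp (fun hle => hcon ⟨j, hle⟩)
  choose a haP han using hex
  have hmem : ∏ j, a j ^ e j ∈ n := by
    obtain ⟨r', hr'⟩ := hyp.desc (∏ j, a j ^ e j) (by
      intro k
      obtain ⟨y', hy', hyy⟩ := (hyp.mem_P k (a k)).mp (haP k)
      obtain ⟨z, hz, hyz⟩ := pow_mem_p hval hp0 k hy' hyy
      refine ⟨z * algebraMap R E (∏ j ∈ Finset.univ.erase k, a j ^ e j),
        mul_mem hz (hyp.le k _), ?_⟩
      rw [← Finset.mul_prod_erase Finset.univ _ (Finset.mem_univ k), map_mul, map_pow, hyz]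
      ring)
    rw [hr']
    exact n.mul_mem_right _ hπn
  obtain ⟨j, -, hj⟩ := (Ideal.IsPrime.prod_mem_iff).mp hmem
  exact han j (hn.mem_of_pow_mem _ hj)

/-- At a prime `n` lying on exactly one component `P i`, with `e i = 1`, the element `π`
generates `P i` locally at `n`. -/
theorem genAt_pi_of_one_branch (hyp : ChartHyp3 π ϖ V P)
    (hval : ValHyp3 (algebraMap R E (algebraMap O R π)) e ϖ V) (hπ0 : algebraMap O R π ≠ 0)
    {n : Ideal R} (hn : n.IsPrime) (i : Fin 3) (hei : e i = 1)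
    (hother : ∀ j : Fin 3, j ≠ i → ¬ P j ≤ n) : GenAt n (P i) (algebraMap O R π) := by
  classical
  have hp0 : algebraMap R E (algebraMap O R π) ≠ 0 := algebraMap_ne_zero' hπ0
  refine ⟨pi_mem_P hyp hval i, fun y hy => ?_⟩
  have hex : ∀ j : Fin 3, ∃ a : R, a ∉ n ∧ (j ≠ i → a ∈ P j) := by
    intro j
    by_cases hji : j = i
    · exact ⟨1, (Ideal.ne_top_iff_one n).mp hn.ne_top, fun h => absurd hji h⟩
    · obtain ⟨a, haP, han⟩ := Set.not_subset.mp (hother j hji)
      exact ⟨a, han, fun _ => haP⟩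
  choose a han haP using hex
  have hsn : ∏ j, a j ^ e j ∉ n := by
    intro hmem
    obtain ⟨j, -, hj⟩ := (Ideal.IsPrime.prod_mem_iff).mp hmem
    exact han j (hn.mem_of_pow_mem _ hj)
  refine ⟨∏ j, a j ^ e j, hsn, ?_⟩
  have hdesc : ∃ r' : R, (∏ j, a j ^ e j) * y = algebraMap O R π * r' := by
    apply hyp.desc
    intro k
    by_cases hki : k = i
    · rw [hki]
      obtain ⟨y', hy', hyy⟩ := (hyp.mem_P i y).mp hy
      obtain ⟨z, hz, hyz⟩ := pow_mem_p hval hp0 i hy' hyy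
      rw [hei, pow_one] at hyz
      exact ⟨algebraMap R E (∏ j, a j ^ e j) * z, mul_mem (hyp.le i _) hz, by
        rw [map_mul, hyz]; ring⟩
    · obtain ⟨y', hy', hyy⟩ := (hyp.mem_P k (a k)).mp (haP k hki)
      obtain ⟨z, hz, hyz⟩ := pow_mem_p hval hp0 k hy' hyy
      refine ⟨z * algebraMap R E (∏ j ∈ Finset.univ.erase k, a j ^ e j) * algebraMap R E y,
        mul_mem (mul_mem hz (hyp.le k _)) (hyp.le k y), ?_⟩
      rw [← Finset.mul_prod_erase Finset.univ _ (Finset.mem_univ k), map_mul, map_mul, map_pow,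
        hyz]
      ring
  obtain ⟨r', hr'⟩ := hdesc
  exact ⟨r', by rw [hr', mul_comm]⟩

variable [IsNoetherianRing R] [IsIntegrallyClosed R]

/-- **(k5a)** A prime with `PrincAt` (height one) containing `π` is one of the `P i`. -/
theorem eq_P_of_princAt (hyp : ChartHyp3 π ϖ V P)
    (hval : ValHyp3 (algebraMap R E (algebraMap O R π)) e ϖ V) (hπ0 : algebraMap O R π ≠ 0)
    (𝔮 : Ideal R) [h𝔮 : 𝔮.IsPrime] (hπ𝔮 : algebraMap O R π ∈ 𝔮) (hP : PrincAt 𝔮) :
    ∃ i, 𝔮 = P i := by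
  have hp0 : algebraMap R E (algebraMap O R π) ≠ 0 := algebraMap_ne_zero' hπ0
  refine Fermat.Agent.S36.HorGen.exists_eq_of_desc V P (algebraMap O R π) hπ0
    (pi_mem_P hyp hval) (P_isPrime hyp hval) hyp.le ?_ ?_ 𝔮 hπ𝔮 hP
  · intro i r hr
    obtain ⟨y, hy, hry⟩ := (hyp.mem_P i r).mp hr
    obtain ⟨z, hz, hrz⟩ := pow_mem_p hval hp0 i hy hry
    exact ⟨e i, z, hz, by rw [map_pow, hrz]⟩
  · intro r hr
    obtain ⟨r', hr'⟩ := hyp.desc r hr
    exact ⟨r', hr'⟩

/-- The "other primes" hypothesis of `NakPlan.B1CutStatement` at `(n, P 2, δ)`: from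
`δ ∉ P 0`, `δ ∉ P 1` and `δ ∉ 𝔮` for the horizontal height-one primes `𝔮 ≤ n` (the conclusion of
`NakPlan.Z1Statement`). -/
theorem forall_notMem_of_horizontal (hyp : ChartHyp3 π ϖ V P)
    (hval : ValHyp3 (algebraMap R E (algebraMap O R π)) e ϖ V) (hπ0 : algebraMap O R π ≠ 0)
    {n : Ideal R} {δ : R} (h0 : δ ∉ P 0) (h1 : δ ∉ P 1)
    (hZ : ∀ 𝔮 : Ideal R, 𝔮.IsPrime → 𝔮 ≤ n → algebraMap O R π ∉ 𝔮 → PrincAt 𝔮 → δ ∉ 𝔮) :
    ∀ 𝔭 : Ideal R, 𝔭.IsPrime → 𝔭 ≤ n → PrincAt 𝔭 → 𝔭 ≠ P 2 → δ ∉ 𝔭 := by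
  intro 𝔭 h𝔭 hle hP hne
  by_cases hπ𝔭 : algebraMap O R π ∈ 𝔭
  · obtain ⟨i, hi⟩ := eq_P_of_princAt hyp hval hπ0 𝔭 hπ𝔭 hP
    rcases fin3_cases i with rfl | rfl | rfl
    · rw [hi]; exact h0
    · rw [hi]; exact h1
    · exact absurd hi hne
  · exact hZ 𝔭 h𝔭 hle hπ𝔭 hP

/-- **Krull half of `W1 ∩ W2 ⊆ W3`.**  If `δ ∈ n` lies in no horizontal height-one prime through
`n` and neither in `P 0` nor in `P 1`, then `P 2 ≤ n`. -/
theorem le_of_unit_elsewhere (hyp : ChartHyp3 π ϖ V P)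
    (hval : ValHyp3 (algebraMap R E (algebraMap O R π)) e ϖ V) (hπ0 : algebraMap O R π ≠ 0)
    {n : Ideal R} (hn : n.IsPrime) {δ : R} (hδ0 : δ ≠ 0) (hδn : δ ∈ n) (h0 : δ ∉ P 0)
    (h1 : δ ∉ P 1)
    (hZ : ∀ 𝔮 : Ideal R, 𝔮.IsPrime → 𝔮 ≤ n → algebraMap O R π ∉ 𝔮 → PrincAt 𝔮 → δ ∉ 𝔮) :
    P 2 ≤ n := by
  by_contra hP2
  have hinj := IsFractionRing.injective R E
  have hunit : UnitAt n (algebraMap R E δ) := by
    have := hn
    refine Fermat.Agent.S34.KrullStmt.unitAt_of_forall_princAt n _ (algebraMap_ne_zero' hδ0) ?_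
    intro 𝔮 h𝔮 hle hP
    have hδ𝔮 : δ ∉ 𝔮 := by
      by_cases hπ𝔮 : algebraMap O R π ∈ 𝔮
      · obtain ⟨i, hi⟩ := eq_P_of_princAt hyp hval hπ0 𝔮 hπ𝔮 hP
        rcases fin3_cases i with rfl | rfl | rfl
        · rw [hi]; exact h0
        · rw [hi]; exact h1
        · exact absurd (hi ▸ hle) hP2
      · exact hZ 𝔮 h𝔮 hle hπ𝔮 hP
    exact ⟨δ, 1, hδ𝔮, fun h1' => h𝔮.ne_top ((Ideal.eq_top_iff_one _).mpr h1'), by
      rw [map_one, mul_one]⟩
  obtain ⟨a, s, ha, -, has⟩ := hunit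
  apply ha
  have h2 : δ * s = a := hinj (by rw [map_mul, has])
  rw [← h2]
  exact n.mul_mem_right _ hδn

/-- **The field `princ` of `Model3Plan.ChartModel3` at one closed point `n`**, from the two
modular inputs: a local generator of `P 2` at `n` when `P 2 ≤ n`, and `P 0, P 1 ≤ n → P 2 ≤ n`. -/
theorem princ_of (hyp : ChartHyp3 π ϖ V P)
    (hval : ValHyp3 (algebraMap R E (algebraMap O R π)) e ϖ V) (hπ0 : algebraMap O R π ≠ 0)
    (he0 : e 0 = 1) (he1 : e 1 = 1) {n : Ideal R} (hn : n.IsPrime)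
    (hπn : algebraMap O R π ∈ n)
    (hW3 : P 2 ≤ n → ∃ g ∈ P 2, ∀ y ∈ P 2, ∃ s : R, s ∉ n ∧ ∃ c : R, s * y = c * g)
    (hEx : P 0 ≤ n → P 1 ≤ n → P 2 ≤ n) :
    ∃ i : Fin 3, P i ≤ n ∧ ∃ g ∈ P i, ∀ y ∈ P i, ∃ s : R, s ∉ n ∧ ∃ c : R, s * y = c * g := by
  by_cases h2 : P 2 ≤ n
  · exact ⟨2, h2, hW3 h2⟩
  by_cases h0 : P 0 ≤ n
  · have h1 : ¬ P 1 ≤ n := fun h1 => h2 (hEx h0 h1)
    have hg := genAt_pi_of_one_branch hyp hval hπ0 hn 0 he0 (by
      intro j hj
      rcases fin3_cases j with rfl | rfl | rfl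
      · exact absurd rfl hj
      · exact h1
      · exact h2)
    exact ⟨0, h0, _, hg.1, hg.2⟩
  by_cases h1 : P 1 ≤ n
  · have hg := genAt_pi_of_one_branch hyp hval hπ0 hn 1 he1 (by
      intro j hj
      rcases fin3_cases j with rfl | rfl | rfl
      · exact h0
      · exact absurd rfl hj
      · exact h2)
    exact ⟨1, h1, _, hg.1, hg.2⟩
  exfalso
  obtain ⟨i, hi⟩ := exists_le_of_pi_mem hyp hval hπ0 hn hπn
  rcases fin3_cases i with rfl | rfl | rfl
  · exact h0 hi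
  · exact h1 hi
  · exact h2 hi

end Chart

/-! ### The conclusion of `B1CutStatement` at a closed point of `P 2` -/

section B1

variable {O : Type*} [CommRing O] {R : Type} [CommRing R] [IsDomain R] [IsNoetherianRing R]
  [IsIntegrallyClosed R] [Algebra O R]
  {E : Type*} [Field E] [Algebra R E] [IsFractionRing R E]
  {π : O} {e : Fin 3 → ℕ} {ϖ : Fin 3 → E} {V : Fin 3 → ValuationSubring E}
  {P : Fin 3 → Ideal R}

/-- **(B1) at a closed point `n` of `P 2`**, ring form: if `δ` generates `P 2` at `P 2`, lies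
neither in `P 0` nor in `P 1` nor in a horizontal height-one prime through `n`, and the branch
`R / P 2` is regular of dimension one at `n`, then `δ` generates `P 2` at `n` and every other
height-one prime through `n` is principal at `n`. -/
theorem b1_at_W3 (hyp : ChartHyp3 π ϖ V P)
    (hval : ValHyp3 (algebraMap R E (algebraMap O R π)) e ϖ V) (hπ0 : algebraMap O R π ≠ 0)
    {n : Ideal R} (hn : n.IsMaximal) (hPn : P 2 ≤ n) {δ : R} (hδ0 : δ ≠ 0) (hδP : δ ∈ P 2)
    (hgen : ∀ y ∈ P 2, ∃ s : R, s ∉ P 2 ∧ ∃ c : R, s * y = c * δ)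
    (h0 : δ ∉ P 0) (h1 : δ ∉ P 1)
    (hbr : ∃ t ∈ n, ∀ x ∈ n, ∃ s : R, s ∉ n ∧ ∃ c : R, s * x - c * t ∈ P 2)
    (hZ : ∀ 𝔮 : Ideal R, 𝔮.IsPrime → 𝔮 ≤ n → algebraMap O R π ∉ 𝔮 → PrincAt 𝔮 → δ ∉ 𝔮) :
    GenAt n (P 2) δ ∧
      ∀ 𝔮 : Ideal R, 𝔮.IsPrime → 𝔮 ≤ n → PrincAt 𝔮 → 𝔮 ≠ P 2 → ∃ e' : R, GenAt n 𝔮 e' :=
  Fermat.Agent.S36.NakB1.b1CutStatement R n (P 2) δ hn (P_isPrime hyp hval 2) hPn hδ0 hδP hgen
    hbr (forall_notMem_of_horizontal hyp hval hπ0 h0 h1 hZ)

/-- **(B1) at a closed point `n` of `P 2`**, valuation form: `δ = ϖ 2 · unit` in `V 2` and `δ` a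
unit of `V 0` and of `V 1`. -/
theorem b1_at_W3_of_unif (hyp : ChartHyp3 π ϖ V P)
    (hval : ValHyp3 (algebraMap R E (algebraMap O R π)) e ϖ V) (hπ0 : algebraMap O R π ≠ 0)
    {n : Ideal R} (hn : n.IsMaximal) (hPn : P 2 ≤ n) {δ : R} (hδ0 : δ ≠ 0) {u : E}
    (hu : u ∈ V 2) (hu' : u⁻¹ ∈ V 2) (hδ : algebraMap R E δ = ϖ 2 * u)
    (h0 : (algebraMap R E δ)⁻¹ ∈ V 0) (h1 : (algebraMap R E δ)⁻¹ ∈ V 1)
    (hbr : ∃ t ∈ n, ∀ x ∈ n, ∃ s : R, s ∉ n ∧ ∃ c : R, s * x - c * t ∈ P 2)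
    (hZ : ∀ 𝔮 : Ideal R, 𝔮.IsPrime → 𝔮 ≤ n → algebraMap O R π ∉ 𝔮 → PrincAt 𝔮 → δ ∉ 𝔮) :
    GenAt n (P 2) δ ∧
      ∀ 𝔮 : Ideal R, 𝔮.IsPrime → 𝔮 ≤ n → PrincAt 𝔮 → 𝔮 ≠ P 2 → ∃ e' : R, GenAt n 𝔮 e' := by
  obtain ⟨hδP, hgen⟩ := gen_at_P_of_unif hyp 2 hδ0 hu hu' hδ
  exact b1_at_W3 hyp hval hπ0 hn hPn hδ0 hδP hgen (notMem_P_of_inv_mem hyp hval 0 hδ0 h0)
    (notMem_P_of_inv_mem hyp hval 1 hδ0 h1) hbr hZ

end B1

/-! ### Pure algebra -/

section Alg

/-- **Twisted Leibniz choice of the function.**  `a, b : A → C` ring homomorphisms whose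
difference takes values in the prime `Q`.  If `a j - b j` generates `Q` locally at `Q` and
`a t ∉ Q`, then `a f - b f` generates `Q` locally at `Q` for `f = t` or for `f = t + t ^ 2 * j`. -/
theorem exists_gen_delta {A C : Type*} [CommRing A] [CommRing C] (a b : A →+* C) (Q : Ideal C)
    (hQ : Q.IsPrime) (hd : ∀ x : A, a x - b x ∈ Q) (j t : A)
    (hj : ∀ y ∈ Q, ∃ s : C, s ∉ Q ∧ ∃ c : C, s * y = c * (a j - b j)) (ht : a t ∉ Q) :
    ∃ f : A, (f = t ∨ f = t + t ^ 2 * j) ∧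
      ∀ y ∈ Q, ∃ s : C, s ∉ Q ∧ ∃ c : C, s * y = c * (a f - b f) := by
  obtain ⟨s, hs, c, hc⟩ := hj _ (hd t)
  -- transfer of generation from `a j - b j` to an element `x` with `s x = c'' (a j - b j)`
  have key : ∀ (x c'' : C), c'' ∉ Q → s * x = c'' * (a j - b j) →
      ∀ y ∈ Q, ∃ s' : C, s' ∉ Q ∧ ∃ c' : C, s' * y = c' * x := by
    intro x c'' hc'' hx y hy
    obtain ⟨s', hs', c', hc'⟩ := hj y hy
    refine ⟨c'' * s', fun h => ?_, c' * s, ?_⟩
    · rcases hQ.mem_or_mem h with h1 | h1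
      · exact hc'' h1
      · exact hs' h1
    · linear_combination c'' * hc' - c' * hx
  by_cases hcQ : c ∈ Q
  · refine ⟨t + t ^ 2 * j, Or.inr rfl,
      key _ (c * (1 + (a t + b t) * b j) + s * a t ^ 2) ?_ ?_⟩
    · intro h
      have h1 : s * a t ^ 2 ∈ Q := by
        have h2 : s * a t ^ 2 = (c * (1 + (a t + b t) * b j) + s * a t ^ 2)
            - c * (1 + (a t + b t) * b j) := by ring
        rw [h2]
        exact Q.sub_mem h (Q.mul_mem_right _ hcQ)
      rcases hQ.mem_or_mem h1 with h3 | h3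
      · exact hs h3
      · exact ht (hQ.mem_of_pow_mem 2 h3)
    · simp only [map_add, map_mul, map_pow]
      linear_combination (1 + (a t + b t) * b j) * hc
  · exact ⟨t, Or.inl rfl, key _ c hcQ hc⟩

/-- A prime ideal of an algebra over a discrete valuation ring `O` which does not contain the
uniformizer `π` meets `O` in `0` (a horizontal prime). -/
theorem eq_zero_of_algebraMap_mem {O C : Type*} [CommRing O] [IsDomain O]
    [IsDiscreteValuationRing O] [CommRing C] [Algebra O C] {π : O} (hπ : Irreducible π)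
    {𝔮 : Ideal C} (h𝔮 : 𝔮.IsPrime) (hπ𝔮 : algebraMap O C π ∉ 𝔮) (c : O)
    (hc : algebraMap O C c ∈ 𝔮) : c = 0 := by
  by_contra hc0
  obtain ⟨k, u, rfl⟩ := IsDiscreteValuationRing.eq_unit_mul_pow_irreducible hc0 hπ
  rw [map_mul, map_pow] at hc
  rcases h𝔮.mem_or_mem hc with h1 | h1
  · exact h𝔮.ne_top (Ideal.eq_top_of_isUnit_mem _ h1 (u.isUnit.map (algebraMap O C)))
  · exact hπ𝔮 (h𝔮.mem_of_pow_mem k h1)

end Alg

end Fermat.Agent.S36.NakVert
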