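import Mathlib
import Fermat.Agent.S36.NakVert
import Fermat.Agent.S36.NakP3

/-!
# S36 block [B1-eta], leaf E7: a vertical uniformizer which is a unit elsewhere generates its
component at every closed point through which it passes

Abstract over `Model3Plan.ChartHyp3` + `Model3Plan.ValHyp3` (the chart `R` with its three vertical
primes `P i`, valuation rings `V i`).  If `x ∈ Frac R` is

* a uniformizer of `V i` (`x = ϖ i · unit`) and a unit of the two other `V j`,
* integral up to a power of `π` (`π ^ k · x ∈ R`),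
* invertible up to a power of `π` and an element `c ∉ n` (`π ^ k · c · x⁻¹ ∈ R`),

then `x ∈ R` and `x` generates `P i` locally at the closed point `n ⊇ P i`
(`NakPlan.GenAt n (P i) x`): this is the field `princ` of `Model3Plan.ChartModel3` at `n`.

Application ((B1), eta route): `x = π · h₂` for `i = 0` and `x = h₁⁻¹` for `i = 1` on the chart
`j ≠ ∞` (`c = 1`), and `x = π · h₂ · j⁻ᵃ`, `x = h₁⁻¹ · j⁻ᵃ` on the chart `j ≠ 0` away from the
cusps (`c` a power of `j⁻¹`), where `h₁ = G(qz)/G(z)`, `h₂ = G(q²z)/G(qz)` are the eta units.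
-/

set_option autoImplicit false
set_option linter.unusedSectionVars false

namespace Fermat.Agent.S36.EtaPrinc

open Fermat.Agent.S34.LocPlan Fermat.Agent.S36.NakPlan Fermat.Agent.S36.Model3Plan
open Fermat.Agent.S36

section Chart

variable {O : Type} [CommRing O] {R : Type} [CommRing R] [IsDomain R] [Algebra O R]
  {E : Type} [Field E] [Algebra R E] [IsFractionRing R E]
  {π : O} {e : Fin 3 → ℕ} {ϖ : Fin 3 → E} {V : Fin 3 → ValuationSubring E}
  {P : Fin 3 → Ideal R}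

/-- `π ∈ V i`. -/
theorem pi_mem_V (hyp : ChartHyp3 π ϖ V P) (i : Fin 3) :
    algebraMap R E (algebraMap O R π) ∈ V i :=
  hyp.le i _

/-- **Chart membership from the valuations** (`desc` iterated): if `π ^ k · x ∈ R` and
`x ∈ V i` for all `i`, then `x ∈ R`. -/
theorem exists_eq_of_pow_mul (hyp : ChartHyp3 π ϖ V P) (hπ0 : algebraMap O R π ≠ 0) :
    ∀ (k : ℕ) (x : E), (∀ i, x ∈ V i) →
      (∃ r : R, algebraMap R E r = algebraMap R E (algebraMap O R π) ^ k * x) →
      ∃ r : R, algebraMap R E r = x := by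
  have hinj := IsFractionRing.injective R E
  have hp0 : algebraMap R E (algebraMap O R π) ≠ 0 := NakVert.algebraMap_ne_zero' hπ0
  intro k
  induction k with
  | zero =>
    intro x _ ⟨r, hr⟩
    exact ⟨r, by rw [hr, pow_zero, one_mul]⟩
  | succ k ih =>
    intro x hx ⟨r, hr⟩
    -- `r = π · (π ^ k x)` with `π ^ k x ∈ V i` for all `i`
    have h1 : ∀ i : Fin 3, ∃ y ∈ V i,
        algebraMap R E r = algebraMap R E (algebraMap O R π) * y := by
      intro i
      refine ⟨algebraMap R E (algebraMap O R π) ^ k * x,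
        mul_mem (pow_mem (pi_mem_V hyp i) k) (hx i), ?_⟩
      rw [hr, pow_succ]
      ring
    obtain ⟨r', hr'⟩ := hyp.desc r h1
    refine ih x hx ⟨r', ?_⟩
    have h2 : algebraMap R E (algebraMap O R π) * algebraMap R E r' =
        algebraMap R E (algebraMap O R π) * (algebraMap R E (algebraMap O R π) ^ k * x) := by
      rw [← map_mul, ← hr', hr, pow_succ]
      ring
    exact mul_left_cancel₀ hp0 h2

/-- A factor of `π ^ k · c` with `c ∉ n` lies in no horizontal prime through `n`. -/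
theorem notMem_of_mul_eq {n 𝔮 : Ideal R} (h𝔮 : 𝔮.IsPrime) (hle : 𝔮 ≤ n)
    (hπ : algebraMap O R π ∉ 𝔮) {δ δ' c : R} {k : ℕ} (hc : c ∉ n)
    (h : δ * δ' = algebraMap O R π ^ k * c) : δ ∉ 𝔮 := by
  intro hδ
  have h1 : algebraMap O R π ^ k * c ∈ 𝔮 := by
    rw [← h]
    exact 𝔮.mul_mem_right _ hδ
  rcases h𝔮.mem_or_mem h1 with h2 | h2
  · exact hπ (h𝔮.mem_of_pow_mem k h2)
  · exact hc (hle h2)

variable [IsNoetherianRing R] [IsIntegrallyClosed R]

/-- **(B1), eta route, ring form.** `δ ∈ R` a uniformizer of `V i`, a unit of the other `V j`,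
with `δ · δ' = π ^ k · c`, `c ∉ n`: then `δ` generates `P i` locally at the closed point
`n ⊇ P i`. -/
theorem genAt_of_unif (hyp : ChartHyp3 π ϖ V P)
    (hval : ValHyp3 (algebraMap R E (algebraMap O R π)) e ϖ V) (hπ0 : algebraMap O R π ≠ 0)
    {n : Ideal R} (hn : n.IsMaximal) (i : Fin 3) (hPn : P i ≤ n) {δ : R} (hδ0 : δ ≠ 0) {u : E}
    (hu : u ∈ V i) (hu' : u⁻¹ ∈ V i) (hδ : algebraMap R E δ = ϖ i * u)
    (hother : ∀ j : Fin 3, j ≠ i → (algebraMap R E δ)⁻¹ ∈ V j)
    (hhor : ∃ (δ' c : R) (k : ℕ), c ∉ n ∧ δ * δ' = algebraMap O R π ^ k * c) :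
    GenAt n (P i) δ := by
  obtain ⟨hδP, hgen⟩ := NakVert.gen_at_P_of_unif hyp i hδ0 hu hu' hδ
  obtain ⟨δ', c, k, hc, hmul⟩ := hhor
  refine NakP3.princP3Statement R n (P i) δ hn (NakVert.P_isPrime hyp hval i) hPn hδ0 hδP hgen ?_
  intro 𝔭 h𝔭 hle hP hne
  by_cases hπ𝔭 : algebraMap O R π ∈ 𝔭
  · have := h𝔭
    obtain ⟨j, hj⟩ := NakVert.eq_P_of_princAt hyp hval hπ0 𝔭 hπ𝔭 hP
    have hji : j ≠ i := by
      rintro rfl
      exact hne hj
    rw [hj]
    exact NakVert.notMem_P_of_inv_mem hyp hval j hδ0 (hother j hji)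
  · exact notMem_of_mul_eq h𝔭 hle hπ𝔭 hc hmul

/-- **(B1), eta route, field form.** `x ∈ Frac R` a uniformizer of `V i`, a unit of the other
`V j`, with `π ^ k · x ∈ R` and `π ^ k · c · x⁻¹ ∈ R` for some `c ∉ n`: then `x ∈ R` and `x`
generates `P i` locally at the closed point `n ⊇ P i`. -/
theorem exists_genAt_of_val (hyp : ChartHyp3 π ϖ V P)
    (hval : ValHyp3 (algebraMap R E (algebraMap O R π)) e ϖ V) (hπ0 : algebraMap O R π ≠ 0)
    {n : Ideal R} (hn : n.IsMaximal) (i : Fin 3) (hPn : P i ≤ n) {x u : E} (hx0 : x ≠ 0)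
    (hu : u ∈ V i) (hu' : u⁻¹ ∈ V i) (hx : x = ϖ i * u)
    (hxj : ∀ j : Fin 3, j ≠ i → x ∈ V j ∧ x⁻¹ ∈ V j)
    (hint : ∃ (k : ℕ) (r : R), algebraMap R E r = algebraMap R E (algebraMap O R π) ^ k * x)
    (hinv : ∃ (k : ℕ) (r c : R), c ∉ n ∧
      algebraMap R E r = algebraMap R E (algebraMap O R π) ^ k * algebraMap R E c * x⁻¹) :
    ∃ δ : R, algebraMap R E δ = x ∧ GenAt n (P i) δ := by
  have hinj := IsFractionRing.injective R E
  have hxV : ∀ j : Fin 3, x ∈ V j := by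
    intro j
    by_cases hji : j = i
    · subst hji
      rw [hx]
      exact mul_mem (hval.unif_mem j) hu
    · exact (hxj j hji).1
  obtain ⟨k, r, hr⟩ := hint
  obtain ⟨δ, hδ⟩ := exists_eq_of_pow_mul hyp hπ0 k x hxV ⟨r, hr⟩
  have hδ0 : δ ≠ 0 := by
    rintro rfl
    rw [map_zero] at hδ
    exact hx0 hδ.symm
  refine ⟨δ, hδ, genAt_of_unif hyp hval hπ0 hn i hPn hδ0 hu hu' (hδ.trans hx) ?_ ?_⟩
  · intro j hji
    rw [hδ]
    exact (hxj j hji).2
  · obtain ⟨k', r', c, hc, hr'⟩ := hinv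
    refine ⟨r', c, k', hc, ?_⟩
    apply hinj
    rw [map_mul, map_mul, map_pow, hδ, hr']
    field_simp

end Chart

end Fermat.Agent.S36.EtaPrinc
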