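import Mathlib
import Fermat.Agent.S34.ChartJ
import Fermat.Agent.S36.EtaPrinc

/-!
# S36 block [B1-eta]: the field `princ` of `Model3Plan.ChartModel3` at the closed points of a
vertical component cut out by a global function — chart form

`N` a level, `K` the base field, `O = A ∩ K` with uniformizer `π`, `E = F_K(N)`, `t` the chart
coordinate.  Let `x ∈ F_K` be a uniformizer of the component `V i` (`x = ϖ i · unit`), a unit of
the two other components, with `π ^ k · x` and `π ^ k · x⁻¹` in `chart t` for some `k` (`x` and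
`x⁻¹` are integral over `K[t]`: no zeros or poles on the generic fibre off `t = ∞`).  Then

* `princ_chart`     : `x` generates `P i` locally at EVERY closed point `n ⊇ P i` of `chart t`;
* `princ_chart_inv` : `x · t⁻ᵃ` generates `P i` locally at every closed point `n ⊇ P i` of
                      `chart t⁻¹` with `t⁻¹ ∉ n`.

Application ((B1), eta route): `x = π · h₂` (`i = 0`), `x = h₁⁻¹` (`i = 1`) with the eta units
`h₁ = G(qz)/G(z)`, `h₂ = G(q²z)/G(qz)`.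
-/

set_option autoImplicit false
set_option linter.unusedSectionVars false

open ModularCurve AlgebraicCurve HahnSeries

namespace Fermat.Agent.S36.EtaPrincInst

open Fermat.Agent.S18.Arith Fermat.Agent.S34 Fermat.Agent.S36.Model3Plan
open Fermat.Agent.S36.NakPlan Fermat.Agent.S36

noncomputable section

variable {N : ℕ} [NeZero N] {A : ValuationSubring Qb} {K : IntermediateField ℚ Qb}

/-- `algebraMap R F_K (algebraMap O R π) = algebraMap O F_K π` for a subalgebra `R`. -/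
theorem algebraMap_algebraMap (R : Subalgebra (OK A K) (FK N K)) (π : OK A K) :
    algebraMap R (FK N K) (algebraMap (OK A K) R π) = algebraMap (OK A K) (FK N K) π := rfl

/-- **The eta route on one chart, abstract subalgebra form.** -/
theorem princ_subalgebra (R : Subalgebra (OK A K) (FK N K)) [IsNoetherianRing R]
    [IsIntegrallyClosed R] [IsFractionRing R (FK N K)]
    {π : OK A K} {e : Fin 3 → ℕ} {ϖ : Fin 3 → FK N K} {V : Fin 3 → ValuationSubring (FK N K)}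
    {P : Fin 3 → Ideal R} (hyp : ChartHyp3 π ϖ V P)
    (val : ValHyp3 (algebraMap (OK A K) (FK N K) π) e ϖ V)
    (hp0 : algebraMap (OK A K) (FK N K) π ≠ 0)
    (i : Fin 3) {x u : FK N K} (hx0 : x ≠ 0) (hu : u ∈ V i) (hu' : u⁻¹ ∈ V i)
    (hx : x = ϖ i * u) (hxj : ∀ j : Fin 3, j ≠ i → x ∈ V j ∧ x⁻¹ ∈ V j)
    {n : Ideal R} (hn : n.IsMaximal) (hPn : P i ≤ n)
    (hint : ∃ k : ℕ, algebraMap (OK A K) (FK N K) π ^ k * x ∈ R)
    (hinv : ∃ (k : ℕ) (c : R), c ∉ n ∧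
      algebraMap (OK A K) (FK N K) π ^ k * (c : FK N K) * x⁻¹ ∈ R) :
    ∃ g ∈ P i, ∀ y ∈ P i, ∃ s : R, s ∉ n ∧ ∃ c : R, s * y = c * g := by
  have hπ0 : algebraMap (OK A K) R π ≠ 0 := by
    intro h0
    apply hp0
    rw [← algebraMap_algebraMap R π, h0, map_zero]
  obtain ⟨k, hk⟩ := hint
  obtain ⟨k', c, hc, hk'⟩ := hinv
  obtain ⟨δ, -, hδ⟩ := EtaPrinc.exists_genAt_of_val (R := R) (E := FK N K) hyp val hπ0 hn i hPn
    hx0 hu hu' hx hxj ⟨k, ⟨_, hk⟩, rfl⟩ ⟨k', ⟨_, hk'⟩, c, hc, rfl⟩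
  exact ⟨δ, hδ.1, hδ.2⟩

/-- **(B1), eta route, chart `t`**: at every closed point `n ⊇ P i` of `chart t`. -/
theorem princ_chart (t : FK N K) [IsNoetherianRing (chart N A K t)]
    [IsIntegrallyClosed (chart N A K t)] [IsFractionRing (chart N A K t) (FK N K)]
    {π : OK A K} {e : Fin 3 → ℕ} {ϖ : Fin 3 → FK N K} {V : Fin 3 → ValuationSubring (FK N K)}
    {P : Fin 3 → Ideal (chart N A K t)} (hyp : ChartHyp3 π ϖ V P)
    (val : ValHyp3 (algebraMap (OK A K) (FK N K) π) e ϖ V)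
    (hp0 : algebraMap (OK A K) (FK N K) π ≠ 0)
    (i : Fin 3) {x u : FK N K} (hx0 : x ≠ 0) (hu : u ∈ V i) (hu' : u⁻¹ ∈ V i)
    (hx : x = ϖ i * u) (hxj : ∀ j : Fin 3, j ≠ i → x ∈ V j ∧ x⁻¹ ∈ V j)
    (hint : ∃ k : ℕ, algebraMap (OK A K) (FK N K) π ^ k * x ∈ chart N A K t)
    (hinv : ∃ k : ℕ, algebraMap (OK A K) (FK N K) π ^ k * x⁻¹ ∈ chart N A K t)
    {n : Ideal (chart N A K t)} (hn : n.IsMaximal) (hPn : P i ≤ n) :
    ∃ g ∈ P i, ∀ y ∈ P i, ∃ s : chart N A K t, s ∉ n ∧ ∃ c : chart N A K t, s * y = c * g := by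
  obtain ⟨k', hk'⟩ := hinv
  refine princ_subalgebra (chart N A K t) hyp val hp0 i hx0 hu hu' hx hxj hn hPn hint
    ⟨k', 1, fun h1 => hn.ne_top ((Ideal.eq_top_iff_one n).mpr h1), ?_⟩
  have e1 : algebraMap (OK A K) (FK N K) π ^ k' * ((1 : chart N A K t) : FK N K) * x⁻¹ =
      algebraMap (OK A K) (FK N K) π ^ k' * x⁻¹ := by
    rw [OneMemClass.coe_one, mul_one]
  rw [e1]
  exact hk'

/-- **(B1), eta route, chart `t⁻¹`**: at every closed point `n ⊇ P i` of `chart t⁻¹` with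
`t⁻¹ ∉ n` (the points not on `t = ∞`). -/
theorem princ_chart_inv (t : FK N K) (ht : t ≠ 0) [IsNoetherianRing (chart N A K t⁻¹)]
    [IsIntegrallyClosed (chart N A K t⁻¹)] [IsFractionRing (chart N A K t⁻¹) (FK N K)]
    {π : OK A K} {e : Fin 3 → ℕ} {ϖ : Fin 3 → FK N K} {V : Fin 3 → ValuationSubring (FK N K)}
    {P : Fin 3 → Ideal (chart N A K t⁻¹)} (hyp : ChartHyp3 π ϖ V P)
    (val : ValHyp3 (algebraMap (OK A K) (FK N K) π) e ϖ V)
    (hp0 : algebraMap (OK A K) (FK N K) π ≠ 0)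
    (htV : ∀ j : Fin 3, t ∈ V j ∧ t⁻¹ ∈ V j)
    (i : Fin 3) {x u : FK N K} (hx0 : x ≠ 0) (hu : u ∈ V i) (hu' : u⁻¹ ∈ V i)
    (hx : x = ϖ i * u) (hxj : ∀ j : Fin 3, j ≠ i → x ∈ V j ∧ x⁻¹ ∈ V j)
    (hint : ∃ k : ℕ, algebraMap (OK A K) (FK N K) π ^ k * x ∈ chart N A K t)
    (hinv : ∃ k : ℕ, algebraMap (OK A K) (FK N K) π ^ k * x⁻¹ ∈ chart N A K t)
    {n : Ideal (chart N A K t⁻¹)} (hn : n.IsMaximal) (hPn : P i ≤ n)
    (htn : (⟨t⁻¹, ChartJ.self_mem_chart N A K t⁻¹⟩ : chart N A K t⁻¹) ∉ n) :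
    ∃ g ∈ P i, ∀ y ∈ P i, ∃ s : chart N A K t⁻¹, s ∉ n ∧
      ∃ c : chart N A K t⁻¹, s * y = c * g := by
  obtain ⟨k, hk⟩ := hint
  obtain ⟨k', hk'⟩ := hinv
  obtain ⟨a, ha⟩ := ChartJ.glue N A K ht hk
  obtain ⟨a', ha'⟩ := ChartJ.glue N A K ht hk'
  have htinv0 : t⁻¹ ≠ 0 := inv_ne_zero ht
  set T : chart N A K t⁻¹ := ⟨t⁻¹, ChartJ.self_mem_chart N A K t⁻¹⟩ with hT
  have hTn : ∀ m : ℕ, T ^ m ∉ n := fun m hm => htn (hn.isPrime.mem_of_pow_mem m hm)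
  -- the generator `x · t⁻ᵃ`
  refine princ_subalgebra (chart N A K t⁻¹) hyp val hp0 i (x := x * t⁻¹ ^ a)
    (u := u * t⁻¹ ^ a) (mul_ne_zero hx0 (pow_ne_zero a htinv0))
    (mul_mem hu (pow_mem (htV i).2 a)) ?_ (by rw [hx]; ring) ?_ hn hPn ⟨k, ?_⟩
    ⟨k', T ^ (a + a'), hTn _, ?_⟩
  · rw [mul_inv, ← inv_pow, inv_inv]
    exact mul_mem hu' (pow_mem (htV i).1 a)
  · intro j hji
    refine ⟨mul_mem (hxj j hji).1 (pow_mem (htV j).2 a), ?_⟩
    rw [mul_inv, ← inv_pow, inv_inv]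
    exact mul_mem (hxj j hji).2 (pow_mem (htV j).1 a)
  · rw [← mul_assoc]
    exact ha
  · have e1 : algebraMap (OK A K) (FK N K) π ^ k' * ((T ^ (a + a') : chart N A K t⁻¹) : FK N K) *
        (x * t⁻¹ ^ a)⁻¹ = algebraMap (OK A K) (FK N K) π ^ k' * x⁻¹ * t⁻¹ ^ a' := by
      have hT' : ((T ^ (a + a') : chart N A K t⁻¹) : FK N K) = t⁻¹ ^ (a + a') := by
        rw [SubmonoidClass.coe_pow]
      rw [hT', _root_.pow_add, mul_inv]
      have hta : (t⁻¹ ^ a : FK N K) ≠ 0 := pow_ne_zero a htinv0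
      field_simp
    rw [e1]
    exact ha'

end

end Fermat.Agent.S36.EtaPrincInst
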