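/-
S36 — EtaVal.lean (helper93): block [B1-eta] E8, ALGEBRAIC form.

The valuations along the three components `W1`, `W2`, `W3` of the level-`M q²` model of the two
"eta units" `h1 = α h`, `h2 = β h` (in the application `h = G(qz)/G(z)` at level `M q`, so that
`β h = G(q²z)/G(qz)`) follow from TWO facts about the single element `h ∈ F_K(M q)`:

* `h` is a Gauss unit (its `q`-expansion is Gauss-integral with nonzero reduction);
* the level-`q` Atkin–Lehner relation `w_q h = c · h⁻¹` with a constant `c`, `c · π` a unit.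

No analytic input at level `q²` is needed: `w_{q²} ∘ α = β ∘ w_q`, `w_{q²} ∘ β = α ∘ w_q`
(`WQ2`), and the middle-cusp embedding satisfies `ι ∘ α = id`, `ι ∘ β = rot_ξ ∘ w_q`.

Results (`a := α h`, `b := β h`, `π` the uniformiser of the base):
* `δ₁ := π · b` is `π · (unit)` on `W1` and a unit on `W2` and on `W3`;
* `δ₂ := a⁻¹`   is a unit on `W1` and on `W3`, and `π · (unit)` on `W2`.
-/
import Mathlib
import Fermat.Agent.S36.WQ2
import Fermat.Agent.S36.Wit3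
import Fermat.Agent.S36.Wit3Xi
import Fermat.Agent.S36.GaussE
import Fermat.Agent.S34.GaussV
import Fermat.Agent.S34.V12Rel

set_option autoImplicit false

noncomputable section

namespace Fermat.Agent.S36.EtaVal

open ModularCurve HahnSeries
open Fermat.Agent.S18 Fermat.Agent.S18.Arith Fermat.Agent.S18.ModelPlan
open Fermat.Agent.S24 Fermat.Agent.S34 Fermat.Agent.S36.WQ2

/-! ### Rotation and constants -/

/-- A rotation fixes the constants. -/
theorem rotHom_C (ξ : Qb) (hξ0 : ξ ≠ 0) (c : Qb) :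
    rotHom ξ hξ0 (C c : LaurentSeries Qb) = C c := by
  ext n
  rw [rotHom_coeff]
  by_cases hn : n = 0
  · subst hn
    rw [zpow_zero, one_mul]
  · rw [HahnSeries.C_apply, HahnSeries.coeff_single_of_ne hn, mul_zero]

/-! ### Field identities -/

section Field

variable (M q : ℕ) [NeZero M] [NeZero q] (hq : q.Prime) (hqM : ¬ q ∣ M)
variable (K : IntermediateField ℚ Qb)

/-- **The level-`q` Atkin–Lehner relation** `w_q h = c · h⁻¹`. -/
def ALRel (h : FK (M * q) K) (c : K) : Prop :=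
  S34.WK.wK M q hq hqM K h = constK (M * q) K c * h⁻¹

variable {M q hq hqM K}
variable {h : FK (M * q) K} {c : K}

/-- `w_{q²} (α h) = c · (β h)⁻¹`. -/
theorem wK2_alphaK2_eq (hw : ALRel M q hq hqM K h c) :
    wK2 M q hq hqM K (alphaK2 M q K h)
      = constK (M * q * q) K c * (betaK2 M q hq hqM K h)⁻¹ := by
  rw [wK2_alphaK2, hw, map_mul, map_inv₀, betaK2_constK]

/-- `w_{q²} (β h) = c · (α h)⁻¹`. -/
theorem wK2_betaK2_eq (hw : ALRel M q hq hqM K h c) :
    wK2 M q hq hqM K (betaK2 M q hq hqM K h)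
      = constK (M * q * q) K c * (alphaK2 M q K h)⁻¹ := by
  rw [wK2_betaK2, hw, map_mul, map_inv₀, alphaK2_constK]

/-- The relation in `algebraMap` form (the constants of `F_K` are `constK`). -/
theorem alRel_of_algebraMap
    (hw : S34.WK.wK M q hq hqM K h = algebraMap K (FK (M * q) K) c * h⁻¹) :
    ALRel M q hq hqM K h c := hw

/-- The `q`-expansion of `w_q h`. -/
theorem coe_wK_eq (hw : ALRel M q hq hqM K h c) :
    ((S34.WK.wK M q hq hqM K h : FK (M * q) K) : LaurentSeries Qb)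
      = C (c : Qb) * ((h : FK (M * q) K) : LaurentSeries Qb)⁻¹ := by
  rw [hw]
  rfl

/-- Middle-cusp image of `β h`: `ι (β h) = c · (h(ξ Q))⁻¹`. -/
theorem iota_betaK2_eq {ι : FK (M * q * q) K →+* LaurentSeries Qb} {ξ : Qb} {hξ0 : ξ ≠ 0}
    (hβ : ∀ x : FK (M * q) K, ι (betaK2 M q hq hqM K x)
      = rotHom ξ hξ0 ((S34.WK.wK M q hq hqM K x : FK (M * q) K) : LaurentSeries Qb))
    (hw : ALRel M q hq hqM K h c) :
    ι (betaK2 M q hq hqM K h)
      = C (c : Qb) * (rotHom ξ hξ0 ((h : FK (M * q) K) : LaurentSeries Qb))⁻¹ := by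
  rw [hβ, coe_wK_eq hw, map_mul, map_inv₀, rotHom_C]

end Field

/-! ### Gauss relations -/

section Gauss

variable {M q : ℕ} [NeZero M] [NeZero q] {hq : q.Prime} {hqM : ¬ q ∣ M}
variable {A : ValuationSubring Qb} {K : IntermediateField ℚ Qb}
variable {h : FK (M * q) K} {c : K}
variable {y : LaurentSeries (IsLocalRing.ResidueField A)}

/-- The residue of a unit of `A` is nonzero. -/
theorem residue_ne_zero {u : A} (hu : IsUnit u) : IsLocalRing.residue A u ≠ 0 :=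
  (hu.map (IsLocalRing.residue A)).ne_zero

theorem C_residue_ne_zero {u : A} (hu : IsUnit u) :
    (C (IsLocalRing.residue A u) : LaurentSeries (IsLocalRing.ResidueField A)) ≠ 0 := by
  intro h0
  apply residue_ne_zero hu
  have h1 := congrArg (fun z : LaurentSeries (IsLocalRing.ResidueField A) => z.coeff 0) h0
  simpa using h1

/-- If `(c π)² = 1` (e.g. `c = ± q⁻¹`, `π = q`) then `c π` is a unit of `A`. -/
theorem exists_unit_of_sq_eq_one {π : OK A K} (hsq : ((c : Qb) * incO A K π) ^ 2 = 1) :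
    ∃ u : A, IsUnit u ∧ (c : Qb) * incO A K π = (u : Qb) := by
  rw [sq] at hsq
  rcases mul_self_eq_one_iff.mp hsq with h1 | h1
  · exact ⟨1, isUnit_one, by rw [h1]; rfl⟩
  · exact ⟨-1, isUnit_one.neg, by rw [h1]; rfl⟩

/-- `C (c π) = C u` is a Gauss unit. -/
theorem gRel_C_mul {π : OK A K} {u : A} (hcπ : (c : Qb) * incO A K π = (u : Qb)) :
    GRel A ((C (incO A K π) : LaurentSeries Qb) * C (c : Qb)) (C (IsLocalRing.residue A u)) := by
  have h1 : (C (incO A K π) : LaurentSeries Qb) * C (c : Qb) = C (u : Qb) := by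
    rw [← map_mul, mul_comm, hcπ]
  rw [h1]
  exact GaussE.gRel_C (V12Rel.gFacts A) u

/-- **W1**: `α h` has the Gauss reduction of `h`. -/
theorem gRel_alpha (hG : GRel A ((h : FK (M * q) K) : LaurentSeries Qb) y) :
    GRel A ((alphaK2 M q K h : FK (M * q * q) K) : LaurentSeries Qb) y := by
  rw [coe_alphaK2]
  exact hG

/-- **W1**: `β h` is Gauss-integral with reduction `y(Q^q)`. -/
theorem gRel_beta (hG : GRel A ((h : FK (M * q) K) : LaurentSeries Qb) y) :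
    GRel A ((betaK2 M q hq hqM K h : FK (M * q * q) K) : LaurentSeries Qb)
      (qExpand (IsLocalRing.ResidueField A) q y) := by
  rw [coe_betaK2]
  exact V12Rel.gRel_qExpand A q hG

theorem qExpand_ne_zero (hy : y ≠ 0) : qExpand (IsLocalRing.ResidueField A) q y ≠ 0 :=
  fun h0 => hy (qExpand_injective q (by rw [h0, map_zero]))

/-- **W2**: `w_{q²} (π · β h) = (c π) · (α h)⁻¹` is a Gauss unit. -/
theorem gRel_wK2_pi_beta (hw : ALRel M q hq hqM K h c) {π : OK A K} {u : A}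
    (hcπ : (c : Qb) * incO A K π = (u : Qb))
    (hG : GRel A ((h : FK (M * q) K) : LaurentSeries Qb) y) (hy : y ≠ 0) :
    GRel A ((wK2 M q hq hqM K (algebraMap (OK A K) (FK (M * q * q) K) π
        * betaK2 M q hq hqM K h) : FK (M * q * q) K) : LaurentSeries Qb)
      (C (IsLocalRing.residue A u) * y⁻¹) := by
  have h1 : ((wK2 M q hq hqM K (algebraMap (OK A K) (FK (M * q * q) K) π
        * betaK2 M q hq hqM K h) : FK (M * q * q) K) : LaurentSeries Qb)
      = (C (incO A K π) : LaurentSeries Qb) * C (c : Qb)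
          * ((h : FK (M * q) K) : LaurentSeries Qb)⁻¹ := by
    rw [map_mul, wK2_algebraMap_OK, wK2_betaK2_eq hw]
    show (C (incO A K π) : LaurentSeries Qb)
        * (C (c : Qb) * ((alphaK2 M q K h : FK (M * q * q) K) : LaurentSeries Qb)⁻¹) = _
    rw [coe_alphaK2]
    exact (mul_assoc _ _ _).symm
  rw [h1]
  exact (V12Rel.gFacts A).mul _ _ _ _ (gRel_C_mul hcπ) ((V12Rel.gFacts A).inv _ _ hG hy)

/-- **W2**: `w_{q²} ((α h)⁻¹ · π⁻¹) = (c π)⁻¹ · β h` is a Gauss unit. -/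
theorem gRel_wK2_alpha_inv (hw : ALRel M q hq hqM K h c) {π : OK A K} {u : A} (hu : IsUnit u)
    (hcπ : (c : Qb) * incO A K π = (u : Qb))
    (hG : GRel A ((h : FK (M * q) K) : LaurentSeries Qb) y) :
    GRel A ((wK2 M q hq hqM K ((alphaK2 M q K h)⁻¹
        * (algebraMap (OK A K) (FK (M * q * q) K) π)⁻¹) : FK (M * q * q) K) : LaurentSeries Qb)
      (qExpand (IsLocalRing.ResidueField A) q y * (C (IsLocalRing.residue A u))⁻¹) := by
  have h1 : ((wK2 M q hq hqM K ((alphaK2 M q K h)⁻¹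
        * (algebraMap (OK A K) (FK (M * q * q) K) π)⁻¹) : FK (M * q * q) K) : LaurentSeries Qb)
      = ((betaK2 M q hq hqM K h : FK (M * q * q) K) : LaurentSeries Qb)
          * ((C (incO A K π) : LaurentSeries Qb) * C (c : Qb))⁻¹ := by
    rw [map_mul, map_inv₀, map_inv₀, wK2_algebraMap_OK, wK2_alphaK2_eq hw]
    show ((C (c : Qb) : LaurentSeries Qb)
          * ((betaK2 M q hq hqM K h : FK (M * q * q) K) : LaurentSeries Qb)⁻¹)⁻¹
        * (C (incO A K π) : LaurentSeries Qb)⁻¹ = _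
    rw [mul_inv, inv_inv, mul_inv]
    ring
  rw [h1]
  exact (V12Rel.gFacts A).mul _ _ _ _ (gRel_beta hG)
    ((V12Rel.gFacts A).inv _ _ (gRel_C_mul hcπ) (C_residue_ne_zero hu))

section Mid

variable {ι : FK (M * q * q) K →+* LaurentSeries Qb} {ξ : Qb} {hξ0 : ξ ≠ 0}

/-- **W3**: `ι (α h) = h`. -/
theorem gRel_iota_alpha
    (hα : ∀ x : FK (M * q) K, ι (alphaK2 M q K x) = ((x : FK (M * q) K) : LaurentSeries Qb))
    (hG : GRel A ((h : FK (M * q) K) : LaurentSeries Qb) y) :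
    GRel A (ι (alphaK2 M q K h)) y := by
  rw [hα]
  exact hG

/-- **W3**: `ι (π · β h) = (c π) · (h(ξ Q))⁻¹` is a Gauss unit. -/
theorem gRel_iota_pi_beta (hA : A.LiesOverPrime q) (hξ : IsPrimitiveRoot ξ q)
    (hconst : ∀ x : OK A K, ι (algebraMap (OK A K) (FK (M * q * q) K) x)
      = (C (incO A K x) : LaurentSeries Qb))
    (hβ : ∀ x : FK (M * q) K, ι (betaK2 M q hq hqM K x)
      = rotHom ξ hξ0 ((S34.WK.wK M q hq hqM K x : FK (M * q) K) : LaurentSeries Qb))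
    (hw : ALRel M q hq hqM K h c) {π : OK A K} {u : A}
    (hcπ : (c : Qb) * incO A K π = (u : Qb))
    (hG : GRel A ((h : FK (M * q) K) : LaurentSeries Qb) y) (hy : y ≠ 0) :
    GRel A (ι (algebraMap (OK A K) (FK (M * q * q) K) π * betaK2 M q hq hqM K h))
      (C (IsLocalRing.residue A u) * y⁻¹) := by
  have : Fact q.Prime := ⟨hq⟩
  rw [map_mul, hconst, iota_betaK2_eq hβ hw, ← mul_assoc]
  exact (V12Rel.gFacts A).mul _ _ _ _ (gRel_C_mul hcπ)
    ((V12Rel.gFacts A).inv _ _ (Wit3Xi.gRel_rot A q hA hξ hξ0 hG) hy)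

end Mid

end Gauss

/-! ### Valuation-subring form -/

section Val

variable {M q : ℕ} [NeZero M] [NeZero q] {hq : q.Prime} {hqM : ¬ q ∣ M}
variable {A : ValuationSubring Qb} {K : IntermediateField ℚ Qb}
variable {h : FK (M * q) K} {c : K}
variable {y : LaurentSeries (IsLocalRing.ResidueField A)}
variable (hdvr : IsDiscreteValuationRing (OK A K))

/-- `α h` is a unit of `W1`. -/
theorem alpha_unit1 (hG : GRel A ((h : FK (M * q) K) : LaurentSeries Qb) y) (hy : y ≠ 0) :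
    alphaK2 M q K h ∈ GaussV.V1 (M * q * q) A K hdvr ∧
      (alphaK2 M q K h)⁻¹ ∈ GaussV.V1 (M * q * q) A K hdvr :=
  Wit3.unit1_of_gRel hdvr (gRel_alpha hG) hy

/-- `β h` is a unit of `W1`; so `π · β h` is `π · (unit of W1)`. -/
theorem beta_unit1 (hG : GRel A ((h : FK (M * q) K) : LaurentSeries Qb) y) (hy : y ≠ 0) :
    betaK2 M q hq hqM K h ∈ GaussV.V1 (M * q * q) A K hdvr ∧
      (betaK2 M q hq hqM K h)⁻¹ ∈ GaussV.V1 (M * q * q) A K hdvr :=
  Wit3.unit1_of_gRel hdvr (gRel_beta hG) (qExpand_ne_zero hy)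

/-- `π · β h` is a unit of `W2 = V1.comap w_{q²}`. -/
theorem pi_beta_unit2 (hw : ALRel M q hq hqM K h c) {π : OK A K} {u : A} (hu : IsUnit u)
    (hcπ : (c : Qb) * incO A K π = (u : Qb))
    (hG : GRel A ((h : FK (M * q) K) : LaurentSeries Qb) y) (hy : y ≠ 0) :
    algebraMap (OK A K) (FK (M * q * q) K) π * betaK2 M q hq hqM K h
        ∈ GaussV.V2 (wK2 M q hq hqM K) hdvr ∧
      (algebraMap (OK A K) (FK (M * q * q) K) π * betaK2 M q hq hqM K h)⁻¹
        ∈ GaussV.V2 (wK2 M q hq hqM K) hdvr :=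
  Wit3.unit2_of_unit1 (wK2 M q hq hqM K) hdvr
    (Wit3.unit1_of_gRel hdvr (gRel_wK2_pi_beta hw hcπ hG hy)
      (mul_ne_zero (C_residue_ne_zero hu) (inv_ne_zero hy)))

/-- `(α h)⁻¹ = π · (unit of W2)`. -/
theorem alpha_inv_eq_pi_unit2 (hw : ALRel M q hq hqM K h c) {π : OK A K} (hπ0 : π ≠ 0) {u : A}
    (hu : IsUnit u) (hcπ : (c : Qb) * incO A K π = (u : Qb))
    (hG : GRel A ((h : FK (M * q) K) : LaurentSeries Qb) y) (hy : y ≠ 0) :
    ∃ v : FK (M * q * q) K, v ∈ GaussV.V2 (wK2 M q hq hqM K) hdvr ∧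
      v⁻¹ ∈ GaussV.V2 (wK2 M q hq hqM K) hdvr ∧
      (alphaK2 M q K h)⁻¹ = algebraMap (OK A K) (FK (M * q * q) K) π * v := by
  have hπF : algebraMap (OK A K) (FK (M * q * q) K) π ≠ 0 :=
    GaussV.algebraMap_ne_zero (M * q * q) A K hπ0
  have hunit := Wit3.unit2_of_unit1 (wK2 M q hq hqM K) hdvr
    (Wit3.unit1_of_gRel hdvr (gRel_wK2_alpha_inv hw hu hcπ hG)
      (mul_ne_zero (qExpand_ne_zero hy) (inv_ne_zero (C_residue_ne_zero hu))))
  refine ⟨(alphaK2 M q K h)⁻¹ * (algebraMap (OK A K) (FK (M * q * q) K) π)⁻¹,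
    hunit.1, hunit.2, ?_⟩
  rw [mul_comm ((alphaK2 M q K h)⁻¹), ← mul_assoc, mul_inv_cancel₀ hπF, one_mul]

section Mid

variable {K' : IntermediateField ℚ Qb} {ι : FK (M * q * q) K →+* LaurentSeries Qb}
variable {ξ : Qb} {hξ0 : ξ ≠ 0}

/-- `α h` is a unit of `W3` (the Gauss ring along the middle-cusp embedding `ι`). -/
theorem alpha_unit3 (hE : GaussE.Emb A K K' ι) (hdvr' : IsDiscreteValuationRing (OK A K'))
    (hα : ∀ x : FK (M * q) K, ι (alphaK2 M q K x) = ((x : FK (M * q) K) : LaurentSeries Qb))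
    (hG : GRel A ((h : FK (M * q) K) : LaurentSeries Qb) y) (hy : y ≠ 0) :
    alphaK2 M q K h ∈ GaussE.V hE hdvr' ∧ (alphaK2 M q K h)⁻¹ ∈ GaussE.V hE hdvr' := by
  refine ⟨⟨y, gRel_iota_alpha hα hG⟩, ⟨y⁻¹, ?_⟩⟩
  rw [map_inv₀]
  exact (V12Rel.gFacts A).inv _ _ (gRel_iota_alpha hα hG) hy

/-- `π · β h` is a unit of `W3`. -/
theorem pi_beta_unit3 (hE : GaussE.Emb A K K' ι) (hdvr' : IsDiscreteValuationRing (OK A K'))
    (hA : A.LiesOverPrime q) (hξ : IsPrimitiveRoot ξ q)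
    (hβ : ∀ x : FK (M * q) K, ι (betaK2 M q hq hqM K x)
      = rotHom ξ hξ0 ((S34.WK.wK M q hq hqM K x : FK (M * q) K) : LaurentSeries Qb))
    (hw : ALRel M q hq hqM K h c) {π : OK A K} {u : A} (hu : IsUnit u)
    (hcπ : (c : Qb) * incO A K π = (u : Qb))
    (hG : GRel A ((h : FK (M * q) K) : LaurentSeries Qb) y) (hy : y ≠ 0) :
    algebraMap (OK A K) (FK (M * q * q) K) π * betaK2 M q hq hqM K h ∈ GaussE.V hE hdvr' ∧
      (algebraMap (OK A K) (FK (M * q * q) K) π * betaK2 M q hq hqM K h)⁻¹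
        ∈ GaussE.V hE hdvr' := by
  have hrel := gRel_iota_pi_beta hA hξ hE.const hβ hw hcπ hG hy
  refine ⟨⟨_, hrel⟩, ⟨(C (IsLocalRing.residue A u) * y⁻¹)⁻¹, ?_⟩⟩
  rw [map_inv₀]
  exact (V12Rel.gFacts A).inv _ _ hrel (mul_ne_zero (C_residue_ne_zero hu) (inv_ne_zero hy))

/-- **`δ₁ = π · β h` generates `W1` exactly**: `π · (unit)` on `W1`, a unit on `W2` and on
`W3`. -/
theorem delta1 (hE : GaussE.Emb A K K' ι) (hdvr' : IsDiscreteValuationRing (OK A K'))
    (hA : A.LiesOverPrime q) (hξ : IsPrimitiveRoot ξ q)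
    (hβ : ∀ x : FK (M * q) K, ι (betaK2 M q hq hqM K x)
      = rotHom ξ hξ0 ((S34.WK.wK M q hq hqM K x : FK (M * q) K) : LaurentSeries Qb))
    (hw : ALRel M q hq hqM K h c) {π : OK A K} {u : A} (hu : IsUnit u)
    (hcπ : (c : Qb) * incO A K π = (u : Qb))
    (hG : GRel A ((h : FK (M * q) K) : LaurentSeries Qb) y) (hy : y ≠ 0) :
    (∃ v : FK (M * q * q) K, v ∈ GaussV.V1 (M * q * q) A K hdvr ∧
        v⁻¹ ∈ GaussV.V1 (M * q * q) A K hdvr ∧
        algebraMap (OK A K) (FK (M * q * q) K) π * betaK2 M q hq hqM K h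
          = algebraMap (OK A K) (FK (M * q * q) K) π * v) ∧
      (algebraMap (OK A K) (FK (M * q * q) K) π * betaK2 M q hq hqM K h
          ∈ GaussV.V2 (wK2 M q hq hqM K) hdvr ∧
        (algebraMap (OK A K) (FK (M * q * q) K) π * betaK2 M q hq hqM K h)⁻¹
          ∈ GaussV.V2 (wK2 M q hq hqM K) hdvr) ∧
      (algebraMap (OK A K) (FK (M * q * q) K) π * betaK2 M q hq hqM K h ∈ GaussE.V hE hdvr' ∧
        (algebraMap (OK A K) (FK (M * q * q) K) π * betaK2 M q hq hqM K h)⁻¹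
          ∈ GaussE.V hE hdvr') :=
  ⟨⟨_, (beta_unit1 hdvr hG hy).1, (beta_unit1 hdvr hG hy).2, rfl⟩,
    pi_beta_unit2 hdvr hw hu hcπ hG hy,
    pi_beta_unit3 hE hdvr' hA hξ hβ hw hu hcπ hG hy⟩

/-- **`δ₂ = (α h)⁻¹` generates `W2` exactly**: a unit on `W1` and on `W3`, `π · (unit)` on
`W2`. -/
theorem delta2 (hE : GaussE.Emb A K K' ι) (hdvr' : IsDiscreteValuationRing (OK A K'))
    (hα : ∀ x : FK (M * q) K, ι (alphaK2 M q K x) = ((x : FK (M * q) K) : LaurentSeries Qb))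
    (hw : ALRel M q hq hqM K h c) {π : OK A K} (hπ0 : π ≠ 0) {u : A} (hu : IsUnit u)
    (hcπ : (c : Qb) * incO A K π = (u : Qb))
    (hG : GRel A ((h : FK (M * q) K) : LaurentSeries Qb) y) (hy : y ≠ 0) :
    ((alphaK2 M q K h)⁻¹ ∈ GaussV.V1 (M * q * q) A K hdvr ∧
        ((alphaK2 M q K h)⁻¹)⁻¹ ∈ GaussV.V1 (M * q * q) A K hdvr) ∧
      (∃ v : FK (M * q * q) K, v ∈ GaussV.V2 (wK2 M q hq hqM K) hdvr ∧
        v⁻¹ ∈ GaussV.V2 (wK2 M q hq hqM K) hdvr ∧
        (alphaK2 M q K h)⁻¹ = algebraMap (OK A K) (FK (M * q * q) K) π * v) ∧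
      ((alphaK2 M q K h)⁻¹ ∈ GaussE.V hE hdvr' ∧
        ((alphaK2 M q K h)⁻¹)⁻¹ ∈ GaussE.V hE hdvr') := by
  refine ⟨⟨(alpha_unit1 hdvr hG hy).2, ?_⟩, alpha_inv_eq_pi_unit2 hdvr hw hπ0 hu hcπ hG hy,
    ⟨(alpha_unit3 hE hdvr' hα hG hy).2, ?_⟩⟩
  · rw [inv_inv]
    exact (alpha_unit1 hdvr hG hy).1
  · rw [inv_inv]
    exact (alpha_unit3 hE hdvr' hα hG hy).1

end Mid

end Val

end Fermat.Agent.S36.EtaVal
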