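import Mathlib
import Fermat.Agent.S36.EtaVal
import Fermat.Agent.S36.EtaPrincInst

/-!
# S36 block [B1-eta]: closed form of the eta route for the field `princ`

Setting of `EtaVal` (level `M q²`, `V = ![W1, W2, W3]`, `ϖ 0 = ϖ 1 = π`): a single element
`h ∈ F_K(M q)` which is a Gauss unit and satisfies the level-`q` Atkin–Lehner relation
`w_q h = c · h⁻¹` with `c · π` a unit, and such that `α h`, `β h` and their inverses are in the
chart `t` up to a power of `π` (they are integral over `K[t]`).  Then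

* `princ_eta_chart`     : at EVERY closed point `n` of `chart t` on `P 0` or `P 1` some `P i ≤ n`
                          is principal at `n` (`P 0` by `π · β h`, `P 1` by `(α h)⁻¹`);
* `princ_eta_chart_inv` : the same at every closed point `n` of `chart t⁻¹` with `t⁻¹ ∉ n`.

Both are in the shape of the hypothesis `heta` of `Princ3Cases.princ_of_cases`.
-/

set_option autoImplicit false
set_option linter.unusedSectionVars false

open ModularCurve AlgebraicCurve HahnSeries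

namespace Fermat.Agent.S36.EtaB1

open Fermat.Agent.S18 Fermat.Agent.S18.Arith Fermat.Agent.S18.ModelPlan
open Fermat.Agent.S24 Fermat.Agent.S34 Fermat.Agent.S36.WQ2 Fermat.Agent.S36.Model3Plan
open Fermat.Agent.S36

noncomputable section

variable {M q : ℕ} [NeZero M] [NeZero q] {hq : q.Prime} {hqM : ¬ q ∣ M}
variable {A : ValuationSubring Qb} {K K' : IntermediateField ℚ Qb}
variable {h : FK (M * q) K} {c : K}
variable {y : LaurentSeries (IsLocalRing.ResidueField A)}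
variable {ι : FK (M * q * q) K →+* LaurentSeries Qb} {ξ : Qb} {hξ0 : ξ ≠ 0}

/-- A Gauss unit is nonzero. -/
theorem ne_zero_of_gRel (hG : GRel A ((h : FK (M * q) K) : LaurentSeries Qb) y) (hy : y ≠ 0) :
    h ≠ 0 := by
  rintro rfl
  apply hy
  have h0 : GRel A (0 : LaurentSeries Qb) (0 : LaurentSeries (IsLocalRing.ResidueField A)) := by
    have := (V12Rel.gFacts A).of_int 0
    simpa using this
  have hG' : GRel A (0 : LaurentSeries Qb) y := by
    have e0 : (((0 : FK (M * q) K)) : LaurentSeries Qb) = 0 := rfl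
    rw [e0] at hG
    exact hG
  exact (V12Rel.gFacts A).unique _ _ _ hG' h0

/-- **(B1), eta route, chart `t`**: at every closed point `n` of `chart t` on `P 0` or `P 1`;
`π · β h` generates `P 0`, `(α h)⁻¹` generates `P 1`. -/
theorem princ_eta_chart (hdvr : IsDiscreteValuationRing (OK A K))
    (hE : GaussE.Emb A K K' ι) (hdvr' : IsDiscreteValuationRing (OK A K'))
    (hA : A.LiesOverPrime q) (hξ : IsPrimitiveRoot ξ q)
    (hα : ∀ x : FK (M * q) K, ι (alphaK2 M q K x) = ((x : FK (M * q) K) : LaurentSeries Qb))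
    (hβ : ∀ x : FK (M * q) K, ι (betaK2 M q hq hqM K x)
      = rotHom ξ hξ0 ((S34.WK.wK M q hq hqM K x : FK (M * q) K) : LaurentSeries Qb))
    (hw : EtaVal.ALRel M q hq hqM K h c) {π : OK A K} (hπ0 : π ≠ 0) {u : A} (hu : IsUnit u)
    (hcπ : (c : Qb) * incO A K π = (u : Qb))
    (hG : GRel A ((h : FK (M * q) K) : LaurentSeries Qb) y) (hy : y ≠ 0)
    (t : FK (M * q * q) K) [IsNoetherianRing (chart (M * q * q) A K t)]
    [IsIntegrallyClosed (chart (M * q * q) A K t)]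
    [IsFractionRing (chart (M * q * q) A K t) (FK (M * q * q) K)]
    {e : Fin 3 → ℕ} {ϖ : Fin 3 → FK (M * q * q) K}
    {V : Fin 3 → ValuationSubring (FK (M * q * q) K)}
    {P : Fin 3 → Ideal (chart (M * q * q) A K t)} (hyp : ChartHyp3 π ϖ V P)
    (val : ValHyp3 (algebraMap (OK A K) (FK (M * q * q) K) π) e ϖ V)
    (hV0 : V 0 = GaussV.V1 (M * q * q) A K hdvr)
    (hV1 : V 1 = GaussV.V2 (wK2 M q hq hqM K) hdvr)
    (hV2 : V 2 = GaussE.V hE hdvr')
    (hϖ0 : ϖ 0 = algebraMap (OK A K) (FK (M * q * q) K) π)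
    (hϖ1 : ϖ 1 = algebraMap (OK A K) (FK (M * q * q) K) π)
    (hαint : ∃ k : ℕ, algebraMap (OK A K) (FK (M * q * q) K) π ^ k * alphaK2 M q K h
      ∈ chart (M * q * q) A K t)
    (hαinv : ∃ k : ℕ, algebraMap (OK A K) (FK (M * q * q) K) π ^ k * (alphaK2 M q K h)⁻¹
      ∈ chart (M * q * q) A K t)
    (hβint : ∃ k : ℕ, algebraMap (OK A K) (FK (M * q * q) K) π ^ k * betaK2 M q hq hqM K h
      ∈ chart (M * q * q) A K t)
    (hβinv : ∃ k : ℕ, algebraMap (OK A K) (FK (M * q * q) K) π ^ k * (betaK2 M q hq hqM K h)⁻¹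
      ∈ chart (M * q * q) A K t)
    (n : Ideal (chart (M * q * q) A K t)) (hn : n.IsMaximal) (h01 : P 0 ≤ n ∨ P 1 ≤ n) :
    ∃ i : Fin 3, P i ≤ n ∧ ∃ g ∈ P i, ∀ y ∈ P i, ∃ s : chart (M * q * q) A K t, s ∉ n ∧
      ∃ c : chart (M * q * q) A K t, s * y = c * g := by
  have hp0 : algebraMap (OK A K) (FK (M * q * q) K) π ≠ 0 :=
    GaussV.algebraMap_ne_zero (M * q * q) A K hπ0
  have hh0 : h ≠ 0 := ne_zero_of_gRel hG hy
  have ha0 : alphaK2 M q K h ≠ 0 := (map_ne_zero _).mpr hh0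
  have hb0 : betaK2 M q hq hqM K h ≠ 0 := (map_ne_zero _).mpr hh0
  have hπmem : algebraMap (OK A K) (FK (M * q * q) K) π ∈ chart (M * q * q) A K t :=
    Subalgebra.algebraMap_mem _ π
  rcases h01 with h0 | h1
  · -- `P 0` by `π · β h`
    refine ⟨0, h0, ?_⟩
    have hb1 := EtaVal.beta_unit1 (hq := hq) (hqM := hqM) hdvr hG hy
    have hb2 := EtaVal.pi_beta_unit2 hdvr hw hu hcπ hG hy
    have hb3 := EtaVal.pi_beta_unit3 hE hdvr' hA hξ hβ hw hu hcπ hG hy
    refine EtaPrincInst.princ_chart t hyp val hp0 0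
      (x := algebraMap (OK A K) (FK (M * q * q) K) π * betaK2 M q hq hqM K h)
      (u := betaK2 M q hq hqM K h) (mul_ne_zero hp0 hb0) (by rw [hV0]; exact hb1.1)
      (by rw [hV0]; exact hb1.2) (by rw [hϖ0]) ?_ ?_ ?_ hn h0
    · intro j hj
      fin_cases j
      · exact absurd rfl hj
      · show _ ∈ V 1 ∧ _ ∈ V 1
        rw [hV1]
        exact hb2
      · show _ ∈ V 2 ∧ _ ∈ V 2
        rw [hV2]
        exact hb3
    · obtain ⟨k, hk⟩ := hβint
      refine ⟨k, ?_⟩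
      have e1 : algebraMap (OK A K) (FK (M * q * q) K) π ^ k *
          (algebraMap (OK A K) (FK (M * q * q) K) π * betaK2 M q hq hqM K h) =
          algebraMap (OK A K) (FK (M * q * q) K) π *
            (algebraMap (OK A K) (FK (M * q * q) K) π ^ k * betaK2 M q hq hqM K h) := by ring
      rw [e1]
      exact mul_mem hπmem hk
    · obtain ⟨k, hk⟩ := hβinv
      refine ⟨k + 1, ?_⟩
      have e1 : algebraMap (OK A K) (FK (M * q * q) K) π ^ (k + 1) *
          (algebraMap (OK A K) (FK (M * q * q) K) π * betaK2 M q hq hqM K h)⁻¹ =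
          algebraMap (OK A K) (FK (M * q * q) K) π ^ k * (betaK2 M q hq hqM K h)⁻¹ := by
        rw [mul_inv, pow_succ]
        field_simp
      rw [e1]
      exact hk
  · -- `P 1` by `(α h)⁻¹`
    refine ⟨1, h1, ?_⟩
    have ha1 := EtaVal.alpha_unit1 hdvr hG hy
    obtain ⟨v, hv, hv', hav⟩ := EtaVal.alpha_inv_eq_pi_unit2 hdvr hw hπ0 hu hcπ hG hy
    have ha3 := EtaVal.alpha_unit3 hE hdvr' hα hG hy
    refine EtaPrincInst.princ_chart t hyp val hp0 1
      (x := (alphaK2 M q K h)⁻¹) (u := v) (inv_ne_zero ha0) (by rw [hV1]; exact hv)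
      (by rw [hV1]; exact hv') (by rw [hϖ1]; exact hav) ?_ hαinv ?_ hn h1
    · intro j hj
      fin_cases j
      · show _ ∈ V 0 ∧ _ ∈ V 0
        rw [hV0, inv_inv]
        exact ⟨ha1.2, ha1.1⟩
      · exact absurd rfl hj
      · show _ ∈ V 2 ∧ _ ∈ V 2
        rw [hV2, inv_inv]
        exact ⟨ha3.2, ha3.1⟩
    · rw [inv_inv]
      exact hαint

/-- **(B1), eta route, chart `t⁻¹`**: at every closed point `n` of `chart t⁻¹` on `P 0` or `P 1`
with `t⁻¹ ∉ n`. -/
theorem princ_eta_chart_inv (hdvr : IsDiscreteValuationRing (OK A K))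
    (hE : GaussE.Emb A K K' ι) (hdvr' : IsDiscreteValuationRing (OK A K'))
    (hA : A.LiesOverPrime q) (hξ : IsPrimitiveRoot ξ q)
    (hα : ∀ x : FK (M * q) K, ι (alphaK2 M q K x) = ((x : FK (M * q) K) : LaurentSeries Qb))
    (hβ : ∀ x : FK (M * q) K, ι (betaK2 M q hq hqM K x)
      = rotHom ξ hξ0 ((S34.WK.wK M q hq hqM K x : FK (M * q) K) : LaurentSeries Qb))
    (hw : EtaVal.ALRel M q hq hqM K h c) {π : OK A K} (hπ0 : π ≠ 0) {u : A} (hu : IsUnit u)
    (hcπ : (c : Qb) * incO A K π = (u : Qb))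
    (hG : GRel A ((h : FK (M * q) K) : LaurentSeries Qb) y) (hy : y ≠ 0)
    (t : FK (M * q * q) K) (ht : t ≠ 0) [IsNoetherianRing (chart (M * q * q) A K t⁻¹)]
    [IsIntegrallyClosed (chart (M * q * q) A K t⁻¹)]
    [IsFractionRing (chart (M * q * q) A K t⁻¹) (FK (M * q * q) K)]
    {e : Fin 3 → ℕ} {ϖ : Fin 3 → FK (M * q * q) K}
    {V : Fin 3 → ValuationSubring (FK (M * q * q) K)}
    {P : Fin 3 → Ideal (chart (M * q * q) A K t⁻¹)} (hyp : ChartHyp3 π ϖ V P)
    (val : ValHyp3 (algebraMap (OK A K) (FK (M * q * q) K) π) e ϖ V)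
    (hV0 : V 0 = GaussV.V1 (M * q * q) A K hdvr)
    (hV1 : V 1 = GaussV.V2 (wK2 M q hq hqM K) hdvr)
    (hV2 : V 2 = GaussE.V hE hdvr')
    (hϖ0 : ϖ 0 = algebraMap (OK A K) (FK (M * q * q) K) π)
    (hϖ1 : ϖ 1 = algebraMap (OK A K) (FK (M * q * q) K) π)
    (htV : ∀ j : Fin 3, t ∈ V j ∧ t⁻¹ ∈ V j)
    (hαint : ∃ k : ℕ, algebraMap (OK A K) (FK (M * q * q) K) π ^ k * alphaK2 M q K h
      ∈ chart (M * q * q) A K t)
    (hαinv : ∃ k : ℕ, algebraMap (OK A K) (FK (M * q * q) K) π ^ k * (alphaK2 M q K h)⁻¹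
      ∈ chart (M * q * q) A K t)
    (hβint : ∃ k : ℕ, algebraMap (OK A K) (FK (M * q * q) K) π ^ k * betaK2 M q hq hqM K h
      ∈ chart (M * q * q) A K t)
    (hβinv : ∃ k : ℕ, algebraMap (OK A K) (FK (M * q * q) K) π ^ k * (betaK2 M q hq hqM K h)⁻¹
      ∈ chart (M * q * q) A K t)
    (n : Ideal (chart (M * q * q) A K t⁻¹)) (hn : n.IsMaximal)
    (htn : (⟨t⁻¹, ChartJ.self_mem_chart (M * q * q) A K t⁻¹⟩ : chart (M * q * q) A K t⁻¹) ∉ n)
    (h01 : P 0 ≤ n ∨ P 1 ≤ n) :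
    ∃ i : Fin 3, P i ≤ n ∧ ∃ g ∈ P i, ∀ y ∈ P i, ∃ s : chart (M * q * q) A K t⁻¹, s ∉ n ∧
      ∃ c : chart (M * q * q) A K t⁻¹, s * y = c * g := by
  have hp0 : algebraMap (OK A K) (FK (M * q * q) K) π ≠ 0 :=
    GaussV.algebraMap_ne_zero (M * q * q) A K hπ0
  have hh0 : h ≠ 0 := ne_zero_of_gRel hG hy
  have ha0 : alphaK2 M q K h ≠ 0 := (map_ne_zero _).mpr hh0
  have hb0 : betaK2 M q hq hqM K h ≠ 0 := (map_ne_zero _).mpr hh0
  have hπmem : algebraMap (OK A K) (FK (M * q * q) K) π ∈ chart (M * q * q) A K t :=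
    Subalgebra.algebraMap_mem _ π
  rcases h01 with h0 | h1
  · -- `P 0` by `π · β h`
    refine ⟨0, h0, ?_⟩
    have hb1 := EtaVal.beta_unit1 (hq := hq) (hqM := hqM) hdvr hG hy
    have hb2 := EtaVal.pi_beta_unit2 hdvr hw hu hcπ hG hy
    have hb3 := EtaVal.pi_beta_unit3 hE hdvr' hA hξ hβ hw hu hcπ hG hy
    refine EtaPrincInst.princ_chart_inv t ht hyp val hp0 htV 0
      (x := algebraMap (OK A K) (FK (M * q * q) K) π * betaK2 M q hq hqM K h)
      (u := betaK2 M q hq hqM K h) (mul_ne_zero hp0 hb0) (by rw [hV0]; exact hb1.1)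
      (by rw [hV0]; exact hb1.2) (by rw [hϖ0]) ?_ ?_ ?_ hn h0 htn
    · intro j hj
      fin_cases j
      · exact absurd rfl hj
      · show _ ∈ V 1 ∧ _ ∈ V 1
        rw [hV1]
        exact hb2
      · show _ ∈ V 2 ∧ _ ∈ V 2
        rw [hV2]
        exact hb3
    · obtain ⟨k, hk⟩ := hβint
      refine ⟨k, ?_⟩
      have e1 : algebraMap (OK A K) (FK (M * q * q) K) π ^ k *
          (algebraMap (OK A K) (FK (M * q * q) K) π * betaK2 M q hq hqM K h) =
          algebraMap (OK A K) (FK (M * q * q) K) π *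
            (algebraMap (OK A K) (FK (M * q * q) K) π ^ k * betaK2 M q hq hqM K h) := by ring
      rw [e1]
      exact mul_mem hπmem hk
    · obtain ⟨k, hk⟩ := hβinv
      refine ⟨k + 1, ?_⟩
      have e1 : algebraMap (OK A K) (FK (M * q * q) K) π ^ (k + 1) *
          (algebraMap (OK A K) (FK (M * q * q) K) π * betaK2 M q hq hqM K h)⁻¹ =
          algebraMap (OK A K) (FK (M * q * q) K) π ^ k * (betaK2 M q hq hqM K h)⁻¹ := by
        rw [mul_inv, pow_succ]
        field_simp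
      rw [e1]
      exact hk
  · -- `P 1` by `(α h)⁻¹`
    refine ⟨1, h1, ?_⟩
    have ha1 := EtaVal.alpha_unit1 hdvr hG hy
    obtain ⟨v, hv, hv', hav⟩ := EtaVal.alpha_inv_eq_pi_unit2 hdvr hw hπ0 hu hcπ hG hy
    have ha3 := EtaVal.alpha_unit3 hE hdvr' hα hG hy
    refine EtaPrincInst.princ_chart_inv t ht hyp val hp0 htV 1
      (x := (alphaK2 M q K h)⁻¹) (u := v) (inv_ne_zero ha0) (by rw [hV1]; exact hv)
      (by rw [hV1]; exact hv') (by rw [hϖ1]; exact hav) ?_ hαinv ?_ hn h1 htn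
    · intro j hj
      fin_cases j
      · show _ ∈ V 0 ∧ _ ∈ V 0
        rw [hV0, inv_inv]
        exact ⟨ha1.2, ha1.1⟩
      · exact absurd rfl hj
      · show _ ∈ V 2 ∧ _ ∈ V 2
        rw [hV2, inv_inv]
        exact ⟨ha3.2, ha3.1⟩
    · rw [inv_inv]
      exact hαint

end

end Fermat.Agent.S36.EtaB1
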