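import Mathlib
import Fermat.Agent.S36.EtaB1
import Fermat.Agent.S36.V3
import Fermat.Agent.S36.Chart3B

/-!
# S36 block [B1-eta]: the eta route for the model of record

Level `N = M q²`, coordinate `t = J3`, `V = ![W1, W2, H.W3]` (`H : V3.Hyp3`), `ϖ = ![π, π, s]`.

* `EtaHyp M q hq hqM A K π` : existence of the eta unit `h ∈ F_K(M q)` — a Gauss unit with the
  level-`q` Atkin–Lehner relation `w_q h = c · h⁻¹`, `c · π` a unit of `A`, and `α h`, `β h` and
  their inverses in `chart J3` up to powers of `π`;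
* `heta0`   : at EVERY closed point `n` of `chart J3` on `P 0` or `P 1`, some `P i ≤ n` is
              principal at `n`;
* `hetaInf` : the same at every closed point `n` of `chart J3⁻¹` with `J3⁻¹ ∉ n`.

These are the binder `heta` of `Princ3Cases.princ_of_cases` on the two charts (`C n := True`,
resp. `C n := J3⁻¹ ∉ n`).
-/

set_option autoImplicit false
set_option linter.unusedSectionVars false

open ModularCurve AlgebraicCurve HahnSeries

namespace Fermat.Agent.S36.EtaB1Inst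

open Fermat.Agent.S18 Fermat.Agent.S18.Arith Fermat.Agent.S18.ModelPlan
open Fermat.Agent.S24 Fermat.Agent.S34 Fermat.Agent.S36.WQ2 Fermat.Agent.S36.Model3Plan
open Fermat.Agent.S36

noncomputable section

/-- **Existence of the eta unit** with all the `h`-side hypotheses of `EtaB1.princ_eta_chart`
on the chart `J3`. -/
def EtaHyp (M q : ℕ) [NeZero M] [NeZero q] (hq : q.Prime) (hqM : ¬ q ∣ M)
    (A : ValuationSubring Qb) (K : IntermediateField ℚ Qb) (π : OK A K) : Prop :=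
  ∃ (h : FK (M * q) K) (c : K) (u : A) (y : LaurentSeries (IsLocalRing.ResidueField A)),
    EtaVal.ALRel M q hq hqM K h c ∧ IsUnit u ∧ (c : Qb) * incO A K π = (u : Qb) ∧
    GRel A ((h : FK (M * q) K) : LaurentSeries Qb) y ∧ y ≠ 0 ∧
    (∃ k : ℕ, algebraMap (OK A K) (FK (M * q * q) K) π ^ k * alphaK2 M q K h
      ∈ chart (M * q * q) A K (Chart3B.J3 M q hq hqM K)) ∧
    (∃ k : ℕ, algebraMap (OK A K) (FK (M * q * q) K) π ^ k * (alphaK2 M q K h)⁻¹
      ∈ chart (M * q * q) A K (Chart3B.J3 M q hq hqM K)) ∧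
    (∃ k : ℕ, algebraMap (OK A K) (FK (M * q * q) K) π ^ k * betaK2 M q hq hqM K h
      ∈ chart (M * q * q) A K (Chart3B.J3 M q hq hqM K)) ∧
    (∃ k : ℕ, algebraMap (OK A K) (FK (M * q * q) K) π ^ k * (betaK2 M q hq hqM K h)⁻¹
      ∈ chart (M * q * q) A K (Chart3B.J3 M q hq hqM K))

variable {M q : ℕ} [NeZero M] [NeZero q] {hq : q.Prime} {hqM : ¬ q ∣ M}
variable {A : ValuationSubring Qb} {K K' : IntermediateField ℚ Qb}
variable {ξ : Qb} {hξ0 : ξ ≠ 0} {ι : FK (M * q * q) K →+* LaurentSeries Qb} {ϖ' : OK A K'}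

/-- A `q`-th root of unity `≠ 1` is primitive (`q` prime). -/
theorem isPrimitiveRoot_xi (H : V3.Hyp3 M q hq hqM A K K' ξ hξ0 ι ϖ') : IsPrimitiveRoot ξ q := by
  have : Fact q.Prime := ⟨hq⟩
  have h1 : orderOf ξ = q := orderOf_eq_prime H.xi_pow H.xi_ne
  have h2 := IsPrimitiveRoot.orderOf ξ
  rwa [h1] at h2

/-- **(B1), eta route, chart `J3`** (model of record): at every closed point `n` of `chart J3`
on `P 0` or `P 1`, some vertical prime through `n` is principal at `n`. -/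
theorem heta0 (H : V3.Hyp3 M q hq hqM A K K' ξ hξ0 ι ϖ')
    (hdvr : IsDiscreteValuationRing (OK A K)) (hA : A.LiesOverPrime q)
    {π : OK A K} (hπ0 : π ≠ 0) (hex : EtaHyp M q hq hqM A K π)
    {e : Fin 3 → ℕ} {s : FK (M * q * q) K}
    (val : ValHyp3 (algebraMap (OK A K) (FK (M * q * q) K) π) e
      ![algebraMap (OK A K) (FK (M * q * q) K) π, algebraMap (OK A K) (FK (M * q * q) K) π, s]
      ![GaussV.V1 (M * q * q) A K hdvr, GaussV.V2 (wK2 M q hq hqM K) hdvr, H.W3])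
    {P : Fin 3 → Ideal (chart (M * q * q) A K (Chart3B.J3 M q hq hqM K))}
    (hyp : ChartHyp3 π
      ![algebraMap (OK A K) (FK (M * q * q) K) π, algebraMap (OK A K) (FK (M * q * q) K) π, s]
      ![GaussV.V1 (M * q * q) A K hdvr, GaussV.V2 (wK2 M q hq hqM K) hdvr, H.W3] P)
    (n : Ideal (chart (M * q * q) A K (Chart3B.J3 M q hq hqM K))) (hn : n.IsMaximal)
    (h01 : P 0 ≤ n ∨ P 1 ≤ n) :
    ∃ i : Fin 3, P i ≤ n ∧ ∃ g ∈ P i, ∀ y ∈ P i,
      ∃ s : chart (M * q * q) A K (Chart3B.J3 M q hq hqM K), s ∉ n ∧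
        ∃ c : chart (M * q * q) A K (Chart3B.J3 M q hq hqM K), s * y = c * g := by
  obtain ⟨h, c, u, y, hw, hu, hcπ, hG, hy, hαint, hαinv, hβint, hβinv⟩ := hex
  obtain ⟨⟨hnoeth, hfrac, hintcl⟩, -, -, -⟩ := Chart3B.rings M q hq hqM A K hdvr
  have := hnoeth
  have := hfrac
  have := hintcl
  exact EtaB1.princ_eta_chart hdvr H.emb H.dvr' hA (isPrimitiveRoot_xi H) H.mid.alpha H.mid.beta
    hw hπ0 hu hcπ hG hy (Chart3B.J3 M q hq hqM K) hyp val rfl rfl rfl rfl rfl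
    hαint hαinv hβint hβinv n hn h01

/-- **(B1), eta route, chart `J3⁻¹`** (model of record): at every closed point `n` of
`chart J3⁻¹` on `P 0` or `P 1` with `J3⁻¹ ∉ n`. -/
theorem hetaInf (H : V3.Hyp3 M q hq hqM A K K' ξ hξ0 ι ϖ')
    (hdvr : IsDiscreteValuationRing (OK A K)) (hA : A.LiesOverPrime q)
    {π : OK A K} (hπ0 : π ≠ 0) (hex : EtaHyp M q hq hqM A K π)
    {e : Fin 3 → ℕ} {s : FK (M * q * q) K}
    (val : ValHyp3 (algebraMap (OK A K) (FK (M * q * q) K) π) e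
      ![algebraMap (OK A K) (FK (M * q * q) K) π, algebraMap (OK A K) (FK (M * q * q) K) π, s]
      ![GaussV.V1 (M * q * q) A K hdvr, GaussV.V2 (wK2 M q hq hqM K) hdvr, H.W3])
    (hle0 : ∀ i : Fin 3, ∀ x ∈ chart (M * q * q) A K (Chart3B.J3 M q hq hqM K),
      x ∈ (![GaussV.V1 (M * q * q) A K hdvr, GaussV.V2 (wK2 M q hq hqM K) hdvr, H.W3] :
        Fin 3 → ValuationSubring (FK (M * q * q) K)) i)
    (hleInf : ∀ i : Fin 3, ∀ x ∈ chart (M * q * q) A K (Chart3B.J3 M q hq hqM K)⁻¹,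
      x ∈ (![GaussV.V1 (M * q * q) A K hdvr, GaussV.V2 (wK2 M q hq hqM K) hdvr, H.W3] :
        Fin 3 → ValuationSubring (FK (M * q * q) K)) i)
    {P : Fin 3 → Ideal (chart (M * q * q) A K (Chart3B.J3 M q hq hqM K)⁻¹)}
    (hyp : ChartHyp3 π
      ![algebraMap (OK A K) (FK (M * q * q) K) π, algebraMap (OK A K) (FK (M * q * q) K) π, s]
      ![GaussV.V1 (M * q * q) A K hdvr, GaussV.V2 (wK2 M q hq hqM K) hdvr, H.W3] P)
    (n : Ideal (chart (M * q * q) A K (Chart3B.J3 M q hq hqM K)⁻¹)) (hn : n.IsMaximal)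
    (htn : (⟨(Chart3B.J3 M q hq hqM K)⁻¹,
      ChartJ.self_mem_chart (M * q * q) A K (Chart3B.J3 M q hq hqM K)⁻¹⟩ :
        chart (M * q * q) A K (Chart3B.J3 M q hq hqM K)⁻¹) ∉ n)
    (h01 : P 0 ≤ n ∨ P 1 ≤ n) :
    ∃ i : Fin 3, P i ≤ n ∧ ∃ g ∈ P i, ∀ y ∈ P i,
      ∃ s : chart (M * q * q) A K (Chart3B.J3 M q hq hqM K)⁻¹, s ∉ n ∧
        ∃ c : chart (M * q * q) A K (Chart3B.J3 M q hq hqM K)⁻¹, s * y = c * g := by
  obtain ⟨h, c, u, y, hw, hu, hcπ, hG, hy, hαint, hαinv, hβint, hβinv⟩ := hex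
  obtain ⟨-, ⟨hnoeth, hfrac, hintcl⟩, -, -⟩ := Chart3B.rings M q hq hqM A K hdvr
  have := hnoeth
  have := hfrac
  have := hintcl
  exact EtaB1.princ_eta_chart_inv hdvr H.emb H.dvr' hA (isPrimitiveRoot_xi H) H.mid.alpha
    H.mid.beta hw hπ0 hu hcπ hG hy (Chart3B.J3 M q hq hqM K) (Chart3B.J3_ne_zero M q hq hqM K)
    hyp val rfl rfl rfl rfl rfl
    (fun j => ⟨hle0 j _ (Chart3B.J3_mem_chart M q hq hqM A K),
      hleInf j _ (Chart3B.J3_inv_mem_chart M q hq hqM A K)⟩)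
    hαint hαinv hβint hβinv n hn htn h01

end

end Fermat.Agent.S36.EtaB1Inst
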