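import Mathlib
import Fermat.Agent.S18.ArithPlan
import Fermat.Agent.S18.DescCoeff
import Fermat.Agent.S24.AnDefs
import Fermat.Agent.S29.KDefs
import Fermat.Agent.S29.RatDescent

/-!
# S36 block [B1-eta], leaf (III-K): from integrality over `ℂ[j]` to the arithmetic charts

Let `y ∈ F_K = FK N K` be an element of the function field over a subfield `K ⊆ ℚ̄` whose
q-expansion, base changed to `ℂ`, is integral over `ℂ[j]`. Then

* `y` satisfies a monic relation over `K[j]` (integrality descends along the extension of the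
  coefficient field: apply a `K`-linear functional `ℂ → K` coefficientwise);
* `π ^ k * y` lies in the chart `chart N A K j` (clear the finitely many denominators), and
* `π ^ k * j⁻¹ ^ a * y` lies in the chart `chart N A K j⁻¹`,

for a uniformiser `π` of the discrete valuation ring `O = OK A K`.

The general lemmas are stated for arbitrary rings.
-/

set_option autoImplicit false

namespace Fermat.Agent.S36.EtaChartInt

open Polynomial ModularCurve
open Fermat.Agent Fermat.Agent.S29 Fermat.Agent.S18.Arith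

/-! ### Integrality in explicit form -/

section Explicit

variable {R A : Type*} [CommRing R] [CommRing A] [Algebra R A]

/-- An integral element satisfies an explicit monic relation. -/
theorem exists_rel_of_isIntegral (S : Subalgebra R A) {y : A} (h : IsIntegral S y) :
    ∃ (n : ℕ) (c : ℕ → A), (∀ i, c i ∈ S) ∧ y ^ n = ∑ i ∈ Finset.range n, c i * y ^ i := by
  obtain ⟨p, hp, he⟩ := h
  refine ⟨p.natDegree, fun i => -((p.coeff i : S) : A), fun i => S.neg_mem (p.coeff i).2, ?_⟩
  rw [Polynomial.eval₂_eq_sum_range, Finset.sum_range_succ, hp.coeff_natDegree, map_one,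
    one_mul] at he
  have h1 : y ^ p.natDegree = -∑ i ∈ Finset.range p.natDegree,
      algebraMap S A (p.coeff i) * y ^ i := eq_neg_of_add_eq_zero_right he
  rw [h1, ← Finset.sum_neg_distrib]
  refine Finset.sum_congr rfl (fun i _ => ?_)
  rw [neg_mul]
  rfl

/-- An explicit monic relation gives integrality. -/
theorem isIntegral_of_rel (S : Subalgebra R A) {y : A} (n : ℕ) (c : ℕ → A) (hc : ∀ i, c i ∈ S)
    (h : y ^ n = ∑ i ∈ Finset.range n, c i * y ^ i) : IsIntegral S y := by
  refine ⟨X ^ n + -∑ i ∈ Finset.range n, C (⟨c i, hc i⟩ : S) * X ^ i, ?_, ?_⟩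
  · refine monic_X_pow_add ?_
    rw [degree_neg]
    refine lt_of_le_of_lt (degree_sum_le _ _) ?_
    refine (Finset.sup_lt_iff (WithBot.bot_lt_coe n)).mpr (fun i hi => ?_)
    exact lt_of_le_of_lt (degree_C_mul_X_pow_le i _)
      (WithBot.coe_lt_coe.mpr (Finset.mem_range.mp hi))
  · rw [eval₂_add, eval₂_neg, eval₂_finsetSum, eval₂_X_pow, h]
    have : ∀ i ∈ Finset.range n,
        eval₂ (algebraMap S A) y (C (⟨c i, hc i⟩ : S) * X ^ i) = c i * y ^ i := by
      intro i _
      rw [eval₂_mul, eval₂_C, eval₂_X_pow]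
      rfl
    rw [Finset.sum_congr rfl this, add_neg_cancel]

/-- Scaling an explicit relation: if `m ^ k' * c i ∈ S` for all large `k'`, then `m ^ k * y`
satisfies an explicit relation over `S` for some `k`. -/
theorem exists_scaled_rel (S : Subalgebra R A) (m y : A) (n : ℕ) (c : ℕ → A)
    (hc : ∀ i, ∃ k, ∀ k', k ≤ k' → m ^ k' * c i ∈ S)
    (h : y ^ n = ∑ i ∈ Finset.range n, c i * y ^ i) :
    ∃ (k : ℕ) (c' : ℕ → A), (∀ i, c' i ∈ S) ∧
      (m ^ k * y) ^ n = ∑ i ∈ Finset.range n, c' i * (m ^ k * y) ^ i := by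
  choose kf hkf using hc
  set k := (Finset.range n).sup kf with hk
  refine ⟨k, fun i => if i < n then m ^ (k * (n - i)) * c i else 0, fun i => ?_, ?_⟩
  · by_cases hi : i < n
    · simp only [if_pos hi]
      refine hkf i _ ?_
      have h1 : kf i ≤ k := Finset.le_sup (Finset.mem_range.mpr hi)
      have h2 : k ≤ k * (n - i) := Nat.le_mul_of_pos_right k (Nat.sub_pos_of_lt hi)
      exact h1.trans h2
    · simp only [if_neg hi]
      exact S.zero_mem
  · rw [mul_pow, h, Finset.mul_sum]
    refine Finset.sum_congr rfl (fun i hi => ?_)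
    have hi' : i < n := Finset.mem_range.mp hi
    simp only [if_pos hi']
    have e : k * n = k * (n - i) + k * i := by
      rw [← Nat.mul_add, Nat.sub_add_cancel hi'.le]
    rw [mul_pow, ← pow_mul, ← pow_mul, e, pow_add]
    ring

/-- The scaling property is additive. -/
theorem scaled_add (S : Subalgebra R A) {m x y : A}
    (hx : ∃ k, ∀ k', k ≤ k' → m ^ k' * x ∈ S) (hy : ∃ k, ∀ k', k ≤ k' → m ^ k' * y ∈ S) :
    ∃ k, ∀ k', k ≤ k' → m ^ k' * (x + y) ∈ S := by
  obtain ⟨k1, h1⟩ := hx
  obtain ⟨k2, h2⟩ := hy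
  refine ⟨max k1 k2, fun k' hk' => ?_⟩
  rw [mul_add]
  exact S.add_mem (h1 k' ((le_max_left _ _).trans hk')) (h2 k' ((le_max_right _ _).trans hk'))

/-- The scaling property is multiplicative. -/
theorem scaled_mul (S : Subalgebra R A) {m x y : A}
    (hx : ∃ k, ∀ k', k ≤ k' → m ^ k' * x ∈ S) (hy : ∃ k, ∀ k', k ≤ k' → m ^ k' * y ∈ S) :
    ∃ k, ∀ k', k ≤ k' → m ^ k' * (x * y) ∈ S := by
  obtain ⟨k1, h1⟩ := hx
  obtain ⟨k2, h2⟩ := hy
  refine ⟨k1 + k2, fun k' hk' => ?_⟩
  have e : m ^ k' * (x * y) = (m ^ k1 * x) * (m ^ (k' - k1) * y) := by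
    have : k' = k1 + (k' - k1) := by omega
    conv_lhs => rw [this, pow_add]
    ring
  rw [e]
  exact S.mul_mem (h1 k1 le_rfl) (h2 _ (by omega))

end Explicit

/-! ### Clearing denominators and changing the coordinate -/

section Clear

variable {O K F : Type*} [CommRing O] [CommRing K] [CommRing F] [Algebra O K] [Algebra K F]
  [Algebra O F] [IsScalarTower O K F]

/-- If every element of `K` becomes an element of `O` after multiplication by a power of `π`,
then every element of `K[t]` lands in `O[t]` after multiplication by (large) powers of `π`. -/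
theorem exists_pow_mul_mem_adjoin (π : O)
    (hπ : ∀ r : K, ∃ k : ℕ, ∃ o : O, algebraMap O K π ^ k * r = algebraMap O K o) (t : F)
    {c : F} (hc : c ∈ Algebra.adjoin K ({t} : Set F)) :
    ∃ k, ∀ k', k ≤ k' → algebraMap O F π ^ k' * c ∈ Algebra.adjoin O ({t} : Set F) := by
  induction hc using Algebra.adjoin_induction with
  | mem x hx =>
      rw [Set.mem_singleton_iff] at hx
      subst hx
      exact ⟨0, fun k' _ => mul_mem (pow_mem (Subalgebra.algebraMap_mem _ π) k')
        (Algebra.subset_adjoin (Set.mem_singleton _))⟩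
  | algebraMap r =>
      obtain ⟨k, o, ho⟩ := hπ r
      refine ⟨k, fun k' hk' => ?_⟩
      have e : algebraMap O F π ^ k' * algebraMap K F r
          = algebraMap O F π ^ (k' - k) * algebraMap O F o := by
        have h1 : algebraMap O F π ^ k * algebraMap K F r = algebraMap O F o := by
          rw [IsScalarTower.algebraMap_apply O K F, IsScalarTower.algebraMap_apply O K F,
            ← map_pow, ← map_mul, ho]
        have : k' = (k' - k) + k := by omega
        conv_lhs => rw [this, pow_add, mul_assoc, h1]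
      rw [e]
      exact mul_mem (pow_mem (Subalgebra.algebraMap_mem _ π) _) (Subalgebra.algebraMap_mem _ o)
  | add x y _ _ hx hy => exact scaled_add _ hx hy
  | mul x y _ _ hx hy => exact scaled_mul _ hx hy

end Clear

section Inv

variable {K F : Type*} [CommRing K] [Field F] [Algebra K F]

/-- Every element of `K[t]` lands in `K[t⁻¹]` after multiplication by (large) powers of
`t⁻¹`. -/
theorem exists_inv_pow_mul_mem_adjoin {t : F} (ht : t ≠ 0) {c : F}
    (hc : c ∈ Algebra.adjoin K ({t} : Set F)) :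
    ∃ a, ∀ a', a ≤ a' → t⁻¹ ^ a' * c ∈ Algebra.adjoin K ({t⁻¹} : Set F) := by
  induction hc using Algebra.adjoin_induction with
  | mem x hx =>
      rw [Set.mem_singleton_iff] at hx
      subst hx
      refine ⟨1, fun a' ha' => ?_⟩
      obtain ⟨b, rfl⟩ : ∃ b, a' = b + 1 := ⟨a' - 1, by omega⟩
      have e : x⁻¹ ^ (b + 1) * x = x⁻¹ ^ b := by
        rw [pow_succ, mul_assoc, inv_mul_cancel₀ ht, mul_one]
      rw [e]
      exact pow_mem (Algebra.subset_adjoin (Set.mem_singleton _)) _
  | algebraMap r =>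
      exact ⟨0, fun a' _ => mul_mem (pow_mem (Algebra.subset_adjoin (Set.mem_singleton _)) a')
        (Subalgebra.algebraMap_mem _ r)⟩
  | add x y _ _ hx hy => exact scaled_add _ hx hy
  | mul x y _ _ hx hy => exact scaled_mul _ hx hy

end Inv

/-! ### Descent of integrality along an extension of the coefficient field -/

section Descent

variable {K L : Type*} [Field K] [Field L] (φ : K →+* L)

omit [Field K] in
theorem algebraMap_eq_C (a : L) : algebraMap L (LaurentSeries L) a = HahnSeries.C a := by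
  rw [algebraMap_laurentSeries_eq_single]
  rfl

/-- Coefficientwise application of a `K`-linear functional to `c * coeffMap φ z`, for
`c ∈ L[coeffMap φ t]`, is multiplication of `z` by an element of `K[t]`. -/
theorem exists_coeffAdd_mul_aeval (t : LaurentSeries K) {l : L →+ K} (hl : RatDescent.KLin φ l)
    (f : L[X]) :
    ∃ d ∈ Algebra.adjoin K ({t} : Set (LaurentSeries K)),
      ∀ z : LaurentSeries K,
        RatDescent.coeffAdd l (Polynomial.aeval (coeffMap φ t) f * coeffMap φ z) = d * z := by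
  induction f using Polynomial.induction_on' with
  | add p q hp hq =>
      obtain ⟨d1, hd1, h1⟩ := hp
      obtain ⟨d2, hd2, h2⟩ := hq
      exact ⟨d1 + d2, Subalgebra.add_mem _ hd1 hd2, fun z => by
        rw [map_add, add_mul, map_add, h1, h2, add_mul]⟩
  | monomial k a =>
      refine ⟨algebraMap K (LaurentSeries K) (l a) * t ^ k,
        mul_mem (Subalgebra.algebraMap_mem _ _)
          (pow_mem (Algebra.subset_adjoin (Set.mem_singleton _)) k), fun z => ?_⟩
      have e1 : Polynomial.aeval (coeffMap φ t) (Polynomial.monomial k a) * coeffMap φ z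
          = a • coeffMap φ (t ^ k * z) := by
        rw [Polynomial.aeval_monomial, RatDescent.smul_eq_C_mul, map_mul, map_pow, mul_assoc,
          algebraMap_eq_C]
      have e2 : algebraMap K (LaurentSeries K) (l a) * t ^ k * z = l a • (t ^ k * z) := by
        rw [RatDescent.smul_eq_C_mul, mul_assoc, algebraMap_eq_C]
      rw [e1, e2, RatDescent.coeffAdd_smul_coeffMap hl]

theorem exists_coeffAdd_mul (t : LaurentSeries K) {l : L →+ K} (hl : RatDescent.KLin φ l)
    {c : LaurentSeries L}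
    (hc : c ∈ Algebra.adjoin L ({coeffMap φ t} : Set (LaurentSeries L))) :
    ∃ d ∈ Algebra.adjoin K ({t} : Set (LaurentSeries K)),
      ∀ z : LaurentSeries K, RatDescent.coeffAdd l (c * coeffMap φ z) = d * z := by
  rw [Algebra.adjoin_singleton_eq_range_aeval] at hc
  obtain ⟨f, rfl⟩ := hc
  exact exists_coeffAdd_mul_aeval φ t hl f

/-- **Integrality descends along an extension of the coefficient field** (explicit form). -/
theorem exists_rel_of_isIntegral_coeffMap (t y : LaurentSeries K)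
    (h : IsIntegral (Algebra.adjoin L ({coeffMap φ t} : Set (LaurentSeries L))) (coeffMap φ y)) :
    ∃ (n : ℕ) (d : ℕ → LaurentSeries K), (∀ i, d i ∈ Algebra.adjoin K ({t} : Set (LaurentSeries K))) ∧
      y ^ n = ∑ i ∈ Finset.range n, d i * y ^ i := by
  obtain ⟨n, c, hc, hrel⟩ := exists_rel_of_isIntegral _ h
  obtain ⟨l, hl, hl1⟩ := RatDescent.exists_kLin_ne_zero φ (one_ne_zero : (1 : L) ≠ 0)
  have key := fun i => exists_coeffAdd_mul φ t hl (hc i)
  choose d hd hdz using key
  refine ⟨n, fun i => algebraMap K (LaurentSeries K) (l 1)⁻¹ * d i,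
    fun i => mul_mem (Subalgebra.algebraMap_mem _ _) (hd i), ?_⟩
  have h1 : algebraMap K (LaurentSeries K) (l 1) * y ^ n
      = ∑ i ∈ Finset.range n, d i * y ^ i := by
    have h2 := congrArg (RatDescent.coeffAdd l) hrel
    rw [← map_pow, ← one_smul L (coeffMap φ (y ^ n)), RatDescent.coeffAdd_smul_coeffMap hl,
      map_sum, RatDescent.smul_eq_C_mul] at h2
    rw [algebraMap_eq_C, h2]
    refine Finset.sum_congr rfl (fun i _ => ?_)
    rw [← map_pow, hdz]
  have h3 : y ^ n = algebraMap K (LaurentSeries K) (l 1)⁻¹ *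
      (algebraMap K (LaurentSeries K) (l 1) * y ^ n) := by
    rw [← mul_assoc, ← map_mul, inv_mul_cancel₀ hl1, map_one, one_mul]
  rw [h3, h1, Finset.mul_sum]
  refine Finset.sum_congr rfl (fun i _ => ?_)
  rw [mul_assoc]

/-- **Integrality descends along an extension of the coefficient field.** -/
theorem isIntegral_of_coeffMap (t y : LaurentSeries K)
    (h : IsIntegral (Algebra.adjoin L ({coeffMap φ t} : Set (LaurentSeries L))) (coeffMap φ y)) :
    IsIntegral (Algebra.adjoin K ({t} : Set (LaurentSeries K))) y := by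
  obtain ⟨n, d, hd, hrel⟩ := exists_rel_of_isIntegral_coeffMap φ t y h
  exact isIntegral_of_rel _ n d hd hrel

end Descent

/-! ### The arithmetic charts -/

section Chart

variable (N : ℕ) [NeZero N] (A : ValuationSubring Qb) (K : IntermediateField ℚ Qb)

/-- `j ≠ 0` in `F_K`. -/
theorem jK_ne_zero : jK N K ≠ 0 := by
  intro h
  have h1 : ((jK N K : FK N K) : LaurentSeries Qb) = 0 := by rw [h]; rfl
  have h2 : coeffEmb Qb jq = 0 := h1
  exact jq_ne_zero ((map_eq_zero (coeffEmb Qb)).mp h2)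

/-- Elements of `K[j] ⊆ K((q))` are (the expansions of) elements of `K[j] ⊆ F_K`. -/
theorem exists_coe_eq_of_mem_adjoin {d : LaurentSeries K}
    (hd : d ∈ Algebra.adjoin K ({coeffEmb K jq} : Set (LaurentSeries K))) :
    ∃ d' ∈ Algebra.adjoin K ({jK N K} : Set (FK N K)),
      ((d' : FK N K) : LaurentSeries Qb) = coeffMap (algebraMap K Qb) d := by
  induction hd using Algebra.adjoin_induction with
  | mem x hx =>
      rw [Set.mem_singleton_iff] at hx
      subst hx
      refine ⟨jK N K, Algebra.subset_adjoin (Set.mem_singleton _), ?_⟩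
      rw [RatDescent.coeffMap_coeffEmb]
      rfl
  | algebraMap r =>
      refine ⟨algebraMap K (FK N K) r, Subalgebra.algebraMap_mem _ r, ?_⟩
      rw [RatDescent.coeffMap_algebraMap, algebraMap_eq_C]
      rfl
  | add x y _ _ hx hy =>
      obtain ⟨x', hx', ex⟩ := hx
      obtain ⟨y', hy', ey⟩ := hy
      exact ⟨x' + y', Subalgebra.add_mem _ hx' hy', by rw [map_add, ← ex, ← ey]; rfl⟩
  | mul x y _ _ hx hy =>
      obtain ⟨x', hx', ex⟩ := hx
      obtain ⟨y', hy', ey⟩ := hy
      exact ⟨x' * y', Subalgebra.mul_mem _ hx' hy', by rw [map_mul, ← ex, ← ey]; rfl⟩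

/-- **Descent to `K[j]`.** An element `y` of `F_K` whose expansion over `ℂ` is integral over
`ℂ[j]` satisfies an explicit monic relation over `K[j] ⊆ F_K`. -/
theorem exists_rel_jK (y : FK N K)
    (hy : IsIntegral (Algebra.adjoin ℂ ({S29.K.jC} : Set (LaurentSeries ℂ)))
      (coeffMap S24.embC (y : LaurentSeries Qb))) :
    ∃ (n : ℕ) (c : ℕ → FK N K), (∀ i, c i ∈ Algebra.adjoin K ({jK N K} : Set (FK N K))) ∧
      y ^ n = ∑ i ∈ Finset.range n, c i * y ^ i := by
  obtain ⟨y₀, hy₀⟩ := S18.DescCoeff.FK_le_fieldRange N K y.2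
  have e1 : coeffMap (S24.embC.comp (algebraMap K Qb)) (coeffEmb K jq) = S29.K.jC := by
    rw [RatDescent.coeffMap_coeffEmb]
    rfl
  have e2 : coeffMap (S24.embC.comp (algebraMap K Qb)) y₀
      = coeffMap S24.embC (y : LaurentSeries Qb) := by
    rw [← hy₀, coeffMap_coeffMap]
  obtain ⟨n, d, hd, hrel⟩ := exists_rel_of_isIntegral_coeffMap
    (S24.embC.comp (algebraMap K Qb)) (coeffEmb K jq) y₀ (by rw [e1, e2]; exact hy)
  have key := fun i => exists_coe_eq_of_mem_adjoin N K (hd i)
  choose c hc hcd using key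
  refine ⟨n, c, hc, Subtype.ext ?_⟩
  have h1 : ((y ^ n : FK N K) : LaurentSeries Qb) = coeffMap (algebraMap K Qb) (y₀ ^ n) := by
    rw [map_pow, hy₀]
    rfl
  have h2 : ((∑ i ∈ Finset.range n, c i * y ^ i : FK N K) : LaurentSeries Qb)
      = ∑ i ∈ Finset.range n, coeffMap (algebraMap K Qb) (d i * y₀ ^ i) := by
    have h3 : ((∑ i ∈ Finset.range n, c i * y ^ i : FK N K) : LaurentSeries Qb)
        = ∑ i ∈ Finset.range n, ((c i * y ^ i : FK N K) : LaurentSeries Qb) :=
      map_sum (FK N K).subtype _ _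
    rw [h3]
    refine Finset.sum_congr rfl (fun i _ => ?_)
    rw [map_mul, map_pow, hy₀, ← hcd i]
    rfl
  rw [h1, h2, hrel, map_sum]

/-- In a discrete valuation subring of `K` with uniformiser `π`, every element of `K` becomes
integral after multiplication by a power of `π`. -/
theorem exists_pow_mul_eq_of_irreducible (hdvr : IsDiscreteValuationRing (OK A K)) {π : OK A K}
    (hπ : Irreducible π) (r : K) :
    ∃ k : ℕ, ∃ o : OK A K, algebraMap (OK A K) K π ^ k * r = algebraMap (OK A K) K o := by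
  rcases (OK A K).mem_or_inv_mem r with h | h
  · exact ⟨0, ⟨r, h⟩, by rw [pow_zero, one_mul]; rfl⟩
  · rcases eq_or_ne r 0 with rfl | hr
    · exact ⟨0, 0, by rw [mul_zero, map_zero]⟩
    · have hs : (⟨r⁻¹, h⟩ : OK A K) ≠ 0 := by
        intro h0
        exact inv_ne_zero hr (congrArg Subtype.val h0)
      obtain ⟨k, u, hu⟩ := IsDiscreteValuationRing.eq_unit_mul_pow_irreducible hs hπ
      refine ⟨k, ((u⁻¹ : (OK A K)ˣ) : OK A K), ?_⟩
      have h1 : r⁻¹ = algebraMap (OK A K) K (u : OK A K) * algebraMap (OK A K) K π ^ k := by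
        have := congrArg (algebraMap (OK A K) K) hu
        rw [map_mul, map_pow] at this
        exact this
      have h2 : algebraMap (OK A K) K ((u⁻¹ : (OK A K)ˣ) : OK A K)
          * algebraMap (OK A K) K (u : OK A K) = 1 := by
        rw [← map_mul, Units.inv_mul, map_one]
      calc algebraMap (OK A K) K π ^ k * r
          = (algebraMap (OK A K) K ((u⁻¹ : (OK A K)ˣ) : OK A K)
              * algebraMap (OK A K) K (u : OK A K)) * (algebraMap (OK A K) K π ^ k * r) := by
            rw [h2, one_mul]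
        _ = algebraMap (OK A K) K ((u⁻¹ : (OK A K)ˣ) : OK A K)
              * ((algebraMap (OK A K) K (u : OK A K) * algebraMap (OK A K) K π ^ k) * r) := by
            ring
        _ = algebraMap (OK A K) K ((u⁻¹ : (OK A K)ˣ) : OK A K) := by
            rw [← h1, inv_mul_cancel₀ hr, mul_one]

/-- **(III-K)(a), abstract form.** -/
theorem exists_pow_mul_mem_chart' (π : OK A K)
    (hπ : ∀ r : K, ∃ k : ℕ, ∃ o : OK A K,
      algebraMap (OK A K) K π ^ k * r = algebraMap (OK A K) K o)
    (y : FK N K)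
    (hy : IsIntegral (Algebra.adjoin ℂ ({S29.K.jC} : Set (LaurentSeries ℂ)))
      (coeffMap S24.embC (y : LaurentSeries Qb))) :
    ∃ k : ℕ, algebraMap (OK A K) (FK N K) π ^ k * y ∈ chart N A K (jK N K) := by
  obtain ⟨n, c, hc, hrel⟩ := exists_rel_jK N K y hy
  obtain ⟨k, c', hc', hrel'⟩ := exists_scaled_rel
    (Algebra.adjoin (OK A K) ({jK N K} : Set (FK N K))) (algebraMap (OK A K) (FK N K) π) y n c
    (fun i => exists_pow_mul_mem_adjoin π hπ (jK N K) (hc i)) hrel
  exact ⟨k, (mem_chart_iff N A K).mpr (isIntegral_of_rel _ n c' hc' hrel')⟩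

/-- **(III-K)(b), abstract form.** -/
theorem exists_pow_mul_inv_pow_mul_mem_chart' (π : OK A K)
    (hπ : ∀ r : K, ∃ k : ℕ, ∃ o : OK A K,
      algebraMap (OK A K) K π ^ k * r = algebraMap (OK A K) K o)
    (y : FK N K)
    (hy : IsIntegral (Algebra.adjoin ℂ ({S29.K.jC} : Set (LaurentSeries ℂ)))
      (coeffMap S24.embC (y : LaurentSeries Qb))) :
    ∃ k a : ℕ, algebraMap (OK A K) (FK N K) π ^ k * (jK N K)⁻¹ ^ a * y
      ∈ chart N A K (jK N K)⁻¹ := by
  obtain ⟨n, c, hc, hrel⟩ := exists_rel_jK N K y hy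
  obtain ⟨a, c', hc', hrel'⟩ := exists_scaled_rel
    (Algebra.adjoin K ({(jK N K)⁻¹} : Set (FK N K))) (jK N K)⁻¹ y n c
    (fun i => exists_inv_pow_mul_mem_adjoin (jK_ne_zero N K) (hc i)) hrel
  obtain ⟨k, c'', hc'', hrel''⟩ := exists_scaled_rel
    (Algebra.adjoin (OK A K) ({(jK N K)⁻¹} : Set (FK N K))) (algebraMap (OK A K) (FK N K) π)
    ((jK N K)⁻¹ ^ a * y) n c'
    (fun i => exists_pow_mul_mem_adjoin π hπ (jK N K)⁻¹ (hc' i)) hrel'
  refine ⟨k, a, ?_⟩
  rw [mul_assoc]
  exact (mem_chart_iff N A K).mpr (isIntegral_of_rel _ n c'' hc'' hrel'')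

/-- **(III-K)(a).** Let `O = OK A K` be a discrete valuation ring with uniformiser `π`, and let
`y ∈ F_K` have an expansion over `ℂ` which is integral over `ℂ[j]`. Then `π ^ k * y` lies in the
chart `j ≠ ∞` for some `k`. -/
theorem exists_pow_mul_mem_chart (hdvr : IsDiscreteValuationRing (OK A K)) {π : OK A K}
    (hπ : Irreducible π) (y : FK N K)
    (hy : IsIntegral (Algebra.adjoin ℂ ({S29.K.jC} : Set (LaurentSeries ℂ)))
      (coeffMap S24.embC (y : LaurentSeries Qb))) :
    ∃ k : ℕ, algebraMap (OK A K) (FK N K) π ^ k * y ∈ chart N A K (jK N K) :=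
  exists_pow_mul_mem_chart' N A K π (exists_pow_mul_eq_of_irreducible A K hdvr hπ) y hy

/-- **(III-K)(b).** In the same situation `π ^ k * j⁻¹ ^ a * y` lies in the chart `j ≠ 0` for
some `k`, `a`. -/
theorem exists_pow_mul_inv_pow_mul_mem_chart (hdvr : IsDiscreteValuationRing (OK A K))
    {π : OK A K} (hπ : Irreducible π) (y : FK N K)
    (hy : IsIntegral (Algebra.adjoin ℂ ({S29.K.jC} : Set (LaurentSeries ℂ)))
      (coeffMap S24.embC (y : LaurentSeries Qb))) :
    ∃ k a : ℕ, algebraMap (OK A K) (FK N K) π ^ k * (jK N K)⁻¹ ^ a * y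
      ∈ chart N A K (jK N K)⁻¹ :=
  exists_pow_mul_inv_pow_mul_mem_chart' N A K π (exists_pow_mul_eq_of_irreducible A K hdvr hπ)
    y hy

omit [NeZero N] in
/-- The expansion over `ℂ` of the inverse. -/
theorem coeffMap_coe_inv (y : FK N K) :
    coeffMap S24.embC ((y⁻¹ : FK N K) : LaurentSeries Qb)
      = (coeffMap S24.embC (y : LaurentSeries Qb))⁻¹ := by
  rw [← map_inv₀]
  rfl

/-- **(III-K)(a) for a unit**: if the expansion of `y` over `ℂ` and its inverse are integral
over `ℂ[j]`, then `π ^ k * y` and `π ^ k * y⁻¹` lie in the chart `j ≠ ∞` for some `k`. -/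
theorem exists_pow_mul_mem_chart_unit (hdvr : IsDiscreteValuationRing (OK A K)) {π : OK A K}
    (hπ : Irreducible π) (y : FK N K)
    (hy : IsIntegral (Algebra.adjoin ℂ ({S29.K.jC} : Set (LaurentSeries ℂ)))
      (coeffMap S24.embC (y : LaurentSeries Qb)))
    (hy' : IsIntegral (Algebra.adjoin ℂ ({S29.K.jC} : Set (LaurentSeries ℂ)))
      (coeffMap S24.embC (y : LaurentSeries Qb))⁻¹) :
    ∃ k : ℕ, algebraMap (OK A K) (FK N K) π ^ k * y ∈ chart N A K (jK N K) ∧
      algebraMap (OK A K) (FK N K) π ^ k * y⁻¹ ∈ chart N A K (jK N K) := by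
  obtain ⟨k1, h1⟩ := exists_pow_mul_mem_chart N A K hdvr hπ y hy
  obtain ⟨k2, h2⟩ := exists_pow_mul_mem_chart N A K hdvr hπ y⁻¹
    (by rw [coeffMap_coe_inv]; exact hy')
  refine ⟨k1 + k2, ?_, ?_⟩
  · have e : algebraMap (OK A K) (FK N K) π ^ (k1 + k2) * y
        = algebraMap (OK A K) (FK N K) π ^ k2 * (algebraMap (OK A K) (FK N K) π ^ k1 * y) := by
      rw [pow_add]; ring
    rw [e]
    exact mul_mem (pow_mem (Subalgebra.algebraMap_mem _ π) k2) h1
  · have e : algebraMap (OK A K) (FK N K) π ^ (k1 + k2) * y⁻¹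
        = algebraMap (OK A K) (FK N K) π ^ k1 * (algebraMap (OK A K) (FK N K) π ^ k2 * y⁻¹) := by
      rw [pow_add]; ring
    rw [e]
    exact mul_mem (pow_mem (Subalgebra.algebraMap_mem _ π) k1) h2

/-- **(III-K)(b) for a unit**: in the same situation `π ^ k * j⁻¹ ^ a * y` and
`π ^ k * j⁻¹ ^ a * y⁻¹` lie in the chart `j ≠ 0` for some `k`, `a`. -/
theorem exists_pow_mul_inv_pow_mul_mem_chart_unit (hdvr : IsDiscreteValuationRing (OK A K))
    {π : OK A K} (hπ : Irreducible π) (y : FK N K)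
    (hy : IsIntegral (Algebra.adjoin ℂ ({S29.K.jC} : Set (LaurentSeries ℂ)))
      (coeffMap S24.embC (y : LaurentSeries Qb)))
    (hy' : IsIntegral (Algebra.adjoin ℂ ({S29.K.jC} : Set (LaurentSeries ℂ)))
      (coeffMap S24.embC (y : LaurentSeries Qb))⁻¹) :
    ∃ k a : ℕ, algebraMap (OK A K) (FK N K) π ^ k * (jK N K)⁻¹ ^ a * y
        ∈ chart N A K (jK N K)⁻¹ ∧
      algebraMap (OK A K) (FK N K) π ^ k * (jK N K)⁻¹ ^ a * y⁻¹ ∈ chart N A K (jK N K)⁻¹ := by
  obtain ⟨k1, a1, h1⟩ := exists_pow_mul_inv_pow_mul_mem_chart N A K hdvr hπ y hy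
  obtain ⟨k2, a2, h2⟩ := exists_pow_mul_inv_pow_mul_mem_chart N A K hdvr hπ y⁻¹
    (by rw [coeffMap_coe_inv]; exact hy')
  have hj : (jK N K)⁻¹ ∈ chart N A K (jK N K)⁻¹ :=
    (mem_chart_iff N A K).mpr
      (isIntegral_algebraMap (x := (⟨(jK N K)⁻¹, Algebra.subset_adjoin (Set.mem_singleton _)⟩ :
        Algebra.adjoin (OK A K) ({(jK N K)⁻¹} : Set (FK N K)))))
  refine ⟨k1 + k2, a1 + a2, ?_, ?_⟩
  · have e : algebraMap (OK A K) (FK N K) π ^ (k1 + k2) * (jK N K)⁻¹ ^ (a1 + a2) * y
        = (algebraMap (OK A K) (FK N K) π ^ k2 * (jK N K)⁻¹ ^ a2)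
          * (algebraMap (OK A K) (FK N K) π ^ k1 * (jK N K)⁻¹ ^ a1 * y) := by
      rw [pow_add, pow_add]; ring
    rw [e]
    exact mul_mem (mul_mem (pow_mem (Subalgebra.algebraMap_mem _ π) k2) (pow_mem hj a2)) h1
  · have e : algebraMap (OK A K) (FK N K) π ^ (k1 + k2) * (jK N K)⁻¹ ^ (a1 + a2) * y⁻¹
        = (algebraMap (OK A K) (FK N K) π ^ k1 * (jK N K)⁻¹ ^ a1)
          * (algebraMap (OK A K) (FK N K) π ^ k2 * (jK N K)⁻¹ ^ a2 * y⁻¹) := by
      rw [pow_add, pow_add]; ring
    rw [e]
    exact mul_mem (mul_mem (pow_mem (Subalgebra.algebraMap_mem _ π) k1) (pow_mem hj a1)) h2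

end Chart

end Fermat.Agent.S36.EtaChartInt
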