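import Mathlib
import Fermat.Prelude.Thm_ModularCurve_coeffMap_qExpand
import Fermat.Agent.S36.EtaB1Inst
import Fermat.Agent.S36.EtaALqInst
import Fermat.Agent.S36.EtaChartInt

/-!
# S36 block [B1-eta]: `EtaB1Inst.EtaHyp` — existence of the eta unit (closed form)

Under the auxiliary level structure (`4 ∣ M` for odd `q`, `9 ∣ M` for `q = 2`), for a discrete
valuation ring `O = A ∩ K` with uniformiser `π`, `q = π · (unit of A)`:
`EtaB1Inst.EtaHyp M q hq hqM A K π`.  (Third copy of the glue: `EtaALqInst.exists_unit_aux` +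
`EtaChartInt.exists_pow_mul_mem_chart_unit` + `Chart3B.chart_J3_eq`.)
-/

set_option autoImplicit false
set_option linter.unusedSectionVars false

open ModularCurve AlgebraicCurve HahnSeries

namespace Fermat.Agent.S36.EtaB1HypC

open Fermat.Agent.S18 Fermat.Agent.S18.Arith Fermat.Agent.S18.ModelPlan
open Fermat.Agent.S24 Fermat.Agent.S34 Fermat.Agent.S36.WQ2 Fermat.Agent.S36

noncomputable section

/-- **`EtaHyp`, general form**: `q = π · u₀` with `u₀` a unit of `A`. -/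
theorem etaHyp_of_unit (M q : ℕ) [NeZero M] [NeZero q] (hq : q.Prime) (hqM : ¬ q ∣ M)
    (haux : (q ≠ 2 → 4 ∣ M) ∧ (q = 2 → 9 ∣ M)) (A : ValuationSubring Qb)
    (K : IntermediateField ℚ Qb) (hdvr : IsDiscreteValuationRing (OK A K)) {π : OK A K}
    (hπ : Irreducible π) {u₀ : A} (hu₀ : IsUnit u₀) (hqπ : (q : Qb) = incO A K π * (u₀ : Qb)) :
    EtaB1Inst.EtaHyp M q hq hqM A K π := by
  obtain ⟨ε, x, hε, hx0, hGA, hw, hI1, hI2, hI3, hI4⟩ :=
    EtaALqInst.exists_unit_aux M q hq hqM haux K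
  obtain ⟨⟨y, hy, hG⟩, -⟩ := hGA A
  obtain ⟨v₀, hv₀⟩ := hu₀.exists_right_inv
  have huv : (u₀ : Qb) * (v₀ : Qb) = 1 := by
    have := congrArg (Subtype.val : A → Qb) hv₀
    simpa using this
  have hq0 : (q : Qb) ≠ 0 := Nat.cast_ne_zero.mpr hq.ne_zero
  have hπ0 : incO A K π ≠ 0 := by
    intro h0
    rw [h0, zero_mul] at hqπ
    exact hq0 hqπ
  have hu0 : (u₀ : Qb) ≠ 0 := by
    intro h0
    rw [h0, mul_zero] at hqπ
    exact hq0 hqπ
  have hv : (v₀ : Qb) = (u₀ : Qb)⁻¹ := eq_inv_of_mul_eq_one_right huv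
  have hv₀u : IsUnit v₀ := ⟨⟨v₀, u₀, by rw [mul_comm]; exact hv₀, hv₀⟩, rfl⟩
  -- the constant `c = ε q⁻¹`, `c · π = ε · u₀⁻¹`
  have hc : ((((ε : K) * (q : K)⁻¹ : K)) : Qb) * incO A K π = (ε : Qb) * (v₀ : Qb) := by
    have e1 : ((((ε : K) * (q : K)⁻¹ : K)) : Qb) = (ε : Qb) * (q : Qb)⁻¹ := by
      push_cast
      rfl
    rw [e1, hqπ, hv]
    field_simp
  have hunit : ∃ u : A, IsUnit u ∧ ((((ε : K) * (q : K)⁻¹ : K)) : Qb) * incO A K π = (u : Qb) := by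
    rcases hε with rfl | rfl
    · refine ⟨v₀, hv₀u, ?_⟩
      rw [hc]
      simp
    · refine ⟨-v₀, hv₀u.neg, ?_⟩
      rw [hc]
      simp
  obtain ⟨u, hu, hcπ⟩ := hunit
  -- chart memberships
  have hJ := Chart3B.chart_J3_eq M q hq hqM A K
  have hαc : coeffMap embC ((alphaK2 M q K x : FK (M * q * q) K) : LaurentSeries Qb)
      = coeffMap embC ((x : FK (M * q) K) : LaurentSeries Qb) := by
    rw [coe_alphaK2]
  have hβc : coeffMap embC ((betaK2 M q hq hqM K x : FK (M * q * q) K) : LaurentSeries Qb)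
      = qExpand ℂ q (coeffMap embC ((x : FK (M * q) K) : LaurentSeries Qb)) := by
    rw [coe_betaK2, ModularCurve.coeffMap_qExpand]
  obtain ⟨ka, hka1, hka2⟩ := EtaChartInt.exists_pow_mul_mem_chart_unit (M * q * q) A K hdvr hπ
    (alphaK2 M q K x) (by rw [hαc]; exact hI1) (by rw [hαc]; exact hI2)
  obtain ⟨kb, hkb1, hkb2⟩ := EtaChartInt.exists_pow_mul_mem_chart_unit (M * q * q) A K hdvr hπ
    (betaK2 M q hq hqM K x) (by rw [hβc]; exact hI3) (by rw [hβc]; exact hI4)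
  refine ⟨x, (ε : K) * (q : K)⁻¹, u, y, EtaVal.alRel_of_algebraMap hw, hu, hcπ, hG, hy,
    ⟨ka, ?_⟩, ⟨ka, ?_⟩, ⟨kb, ?_⟩, ⟨kb, ?_⟩⟩
  · rw [hJ]; exact hka1
  · rw [hJ]; exact hka2
  · rw [hJ]; exact hkb1
  · rw [hJ]; exact hkb2

/-- **`EtaHyp`** for the uniformiser `π = q`. -/
theorem etaHyp (M q : ℕ) [NeZero M] [NeZero q] (hq : q.Prime) (hqM : ¬ q ∣ M)
    (haux : (q ≠ 2 → 4 ∣ M) ∧ (q = 2 → 9 ∣ M)) (A : ValuationSubring Qb)
    (K : IntermediateField ℚ Qb) (hdvr : IsDiscreteValuationRing (OK A K)) {π : OK A K}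
    (hπ : Irreducible π) (hπq : incO A K π = (q : Qb)) :
    EtaB1Inst.EtaHyp M q hq hqM A K π :=
  etaHyp_of_unit M q hq hqM haux A K hdvr hπ (u₀ := 1) isUnit_one (by rw [hπq]; simp)

end

end Fermat.Agent.S36.EtaB1HypC
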