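/-
S36 — Inc3.lean (helper95): incidence of the three branches of the special fibre at level
`q² M` over the two branches at level `q M`, abstractly (Mathlib only).

Picture: `S` = a chart at level `q M`, `R` = the corresponding chart at level `q² M`,
`α β : S →+* R` the two degeneracy maps, `P : Fin 3 → Ideal R` the centres of the three vertical
valuations `W1, W2, W3` (`W3` = the middle component, of multiplicity `q - 1`), `P' : Fin 2 → Ideal S`
the centres of the two vertical valuations `V'1, V'2` downstairs, `ϖ : S` the uniformiser.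

Inputs (bundled in `Hyp`), each one a single fact about the model:

* lying over: `W1 ∘ α = V'1`, `W2 ∘ α = V'2`, `W3 ∘ α = V'1`; `W1 ∘ β = V'1`, `W2 ∘ β = V'2`,
  `W3 ∘ β = V'2`;
* `V'1`, `V'2` have incomparable centres, both containing `ϖ`;
* every prime of `R` containing the uniformiser contains one of the `P i`;
* going-down for `α` and `β` (`goingDown_of_isIntegral`: integral injective maps out of an
  integrally closed ring into a domain);
* residue degree one: `R = α S + P 0`, `R = α S + P 2`, `R = β S + P 1`;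
* purely inseparable branches: every element of `R` has a power in `α S + P 1`, and a power in
  `β S + P 0`.

Outputs: a prime of `R` containing two of the `P i` contains all three (`Hyp.triple`); its images
under `α` and `β` are crossing points downstairs (`Hyp.node_below_alpha/beta`); and it is the only
prime of `R` over its image, for `α` and for `β` (`Hyp.unique_over_alpha/beta`).
-/
import Mathlib

set_option autoImplicit false

namespace Fermat.Agent.S36.Inc3

variable {S R : Type*} [CommRing S] [CommRing R]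

/-- Going-down for a ring homomorphism, in explicit form. -/
def GoingDown (φ : S →+* R) : Prop :=
  ∀ n : Ideal R, n.IsPrime → ∀ p : Ideal S, p.IsPrime → p ≤ n.comap φ →
    ∃ Q : Ideal R, Q.IsPrime ∧ Q ≤ n ∧ Q.comap φ = p

/-- An injective integral ring homomorphism from an integrally closed ring to a domain satisfies
going-down. -/
theorem goingDown_of_isIntegral [IsDomain R] [IsIntegrallyClosed S] (φ : S →+* R)
    (hinj : Function.Injective φ) (hint : φ.IsIntegral) : GoingDown φ := by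
  intro n hn p hp hpn
  letI : Algebra S R := φ.toAlgebra
  haveI : FaithfulSMul S R := (faithfulSMul_iff_algebraMap_injective S R).mpr hinj
  haveI : Algebra.IsIntegral S R := ⟨hint⟩
  haveI := hn
  haveI := hp
  haveI : (n.comap φ).IsPrime := Ideal.comap_isPrime φ n
  haveI : n.LiesOver (n.comap φ) := ⟨rfl⟩
  obtain ⟨Q, hQn, hQ, hQp⟩ :=
    Ideal.exists_ideal_le_liesOver_of_le (p := p) (q := n.comap φ) n hpn
  exact ⟨Q, hQ, hQn, hQp.over.symm⟩

/-- Going-down plus "the primes over the uniformiser are the `P i`": a prime `n` over (a prime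
containing) `p ∋ ϖ` contains a branch `P i` whose restriction is inside `p`. -/
theorem exists_le_of_le_comap (φ : S →+* R) (hgd : GoingDown φ) {ι : Type*} (P : ι → Ideal R)
    (ϖ : S) (hmin : ∀ Q : Ideal R, Q.IsPrime → φ ϖ ∈ Q → ∃ i, P i ≤ Q)
    (p : Ideal S) (hp : p.IsPrime) (hϖ : ϖ ∈ p) (n : Ideal R) (hn : n.IsPrime)
    (hpn : p ≤ n.comap φ) : ∃ i, (P i).comap φ ≤ p ∧ P i ≤ n := by
  obtain ⟨Q, hQ, hQn, hQp⟩ := hgd n hn p hp hpn
  have hϖQ : φ ϖ ∈ Q := by
    have h : ϖ ∈ Q.comap φ := by rw [hQp]; exact hϖ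
    exact h
  obtain ⟨i, hi⟩ := hmin Q hQ hϖQ
  refine ⟨i, ?_, hi.trans hQn⟩
  rw [← hQp]
  exact Ideal.comap_mono hi

/-- A purely inseparable branch carries at most one point over a given point downstairs. -/
theorem le_of_comap_le_of_radicial (φ : S →+* R) (P : Ideal R)
    (hrad : ∀ x : R, ∃ (y : S) (k : ℕ), k ≠ 0 ∧ x ^ k - φ y ∈ P)
    (n₁ n₂ : Ideal R) (hn₂ : n₂.IsPrime) (h1 : P ≤ n₁) (h2 : P ≤ n₂)
    (h : n₁.comap φ ≤ n₂.comap φ) : n₁ ≤ n₂ := by
  intro x hx
  obtain ⟨y, k, hk, hxy⟩ := hrad x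
  have hxk : x ^ k ∈ n₁ := Ideal.pow_mem_of_mem n₁ hx k (Nat.pos_of_ne_zero hk)
  have hy1 : φ y ∈ n₁ := by
    have h3 := n₁.sub_mem hxk (h1 hxy)
    have e : x ^ k - (x ^ k - φ y) = φ y := by ring
    rwa [e] at h3
  have hy2 : φ y ∈ n₂ := h hy1
  have hxk2 : x ^ k ∈ n₂ := by
    have h3 := n₂.add_mem (h2 hxy) hy2
    have e : x ^ k - φ y + φ y = x ^ k := by ring
    rwa [e] at h3
  exact hn₂.mem_of_pow_mem k hxk2

/-- A branch of residue degree one carries a point over every point of its image downstairs. -/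
theorem exists_over_of_degOne (φ : S →+* R) (P : Ideal R)
    (hdeg : ∀ x : R, ∃ y : S, x - φ y ∈ P) (p : Ideal S) (hp : p.IsPrime)
    (hPp : P.comap φ ≤ p) : ∃ n₃ : Ideal R, n₃.IsPrime ∧ P ≤ n₃ ∧ n₃.comap φ = p := by
  set ψ : S →+* R ⧸ P := (Ideal.Quotient.mk P).comp φ with hψ
  have hsurj : Function.Surjective ψ := by
    intro z
    obtain ⟨x, rfl⟩ := Ideal.Quotient.mk_surjective z
    obtain ⟨y, hy⟩ := hdeg x
    refine ⟨y, ?_⟩
    rw [hψ, RingHom.comp_apply]
    exact (Ideal.Quotient.eq.mpr hy).symm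
  have hker : RingHom.ker ψ ≤ p := by
    intro y hy
    apply hPp
    rw [Ideal.mem_comap]
    rw [RingHom.mem_ker, hψ, RingHom.comp_apply, Ideal.Quotient.eq_zero_iff_mem] at hy
    exact hy
  haveI := hp
  have hprime : (Ideal.map ψ p).IsPrime := Ideal.map_isPrime_of_surjective hsurj hker
  refine ⟨Ideal.comap (Ideal.Quotient.mk P) (Ideal.map ψ p), Ideal.comap_isPrime _ _, ?_, ?_⟩
  · intro x hx
    rw [Ideal.mem_comap, Ideal.Quotient.eq_zero_iff_mem.mpr hx]
    exact Ideal.zero_mem _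
  · rw [Ideal.comap_comap]
    change Ideal.comap ψ (Ideal.map ψ p) = p
    rw [Ideal.comap_map_of_surjective ψ hsurj]
    refine sup_eq_left.mpr ?_
    rw [← RingHom.ker_eq_comap_bot]
    exact hker

/-- The core step: `Pu` purely inseparable over `φ` and the only branch over its restriction,
`Pv` of residue degree one over `φ`.  A prime through `Pu` lying over a point of (the image of)
`Pv` passes through `Pv`. -/
theorem le_of_radicial_of_degOne (φ : S →+* R) (Pu Pv : Ideal R)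
    (hrad : ∀ x : R, ∃ (y : S) (k : ℕ), k ≠ 0 ∧ x ^ k - φ y ∈ Pu)
    (hdeg : ∀ x : R, ∃ y : S, x - φ y ∈ Pv)
    (honly : ∀ n₃ : Ideal R, n₃.IsPrime → Pu.comap φ ≤ n₃.comap φ → Pu ≤ n₃)
    (n : Ideal R) (hn : n.IsPrime) (hu : Pu ≤ n) (hv : Pv.comap φ ≤ n.comap φ) : Pv ≤ n := by
  obtain ⟨n₃, hn₃, hv₃, hc⟩ :=
    exists_over_of_degOne φ Pv hdeg (n.comap φ) (Ideal.comap_isPrime φ n) hv
  have hu₃ : Pu ≤ n₃ := honly n₃ hn₃ (by rw [hc]; exact Ideal.comap_mono hu)
  have h₁ : n₃ ≤ n := le_of_comap_le_of_radicial φ Pu hrad n₃ n hn hu₃ hu hc.le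
  exact hv₃.trans h₁

/-- The incidence hypotheses of the three-branch model over the two-branch model. -/
structure Hyp (α β : S →+* R) (P : Fin 3 → Ideal R) (P' : Fin 2 → Ideal S) (ϖ : S) : Prop where
  /-- `W1 ∘ α = V'1` -/
  α0 : (P 0).comap α = P' 0
  /-- `W2 ∘ α = V'2` -/
  α1 : (P 1).comap α = P' 1
  /-- `W3 ∘ α = V'1` -/
  α2 : (P 2).comap α = P' 0
  /-- `W1 ∘ β = V'1` -/
  β0 : (P 0).comap β = P' 0
  /-- `W2 ∘ β = V'2` -/
  β1 : (P 1).comap β = P' 1
  /-- `W3 ∘ β = V'2` -/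
  β2 : (P 2).comap β = P' 1
  /-- the two centres downstairs are incomparable -/
  not01 : ¬ P' 0 ≤ P' 1
  not10 : ¬ P' 1 ≤ P' 0
  prime' : ∀ j, (P' j).IsPrime
  mem' : ∀ j, ϖ ∈ P' j
  /-- primes over the uniformiser contain a branch -/
  minα : ∀ Q : Ideal R, Q.IsPrime → α ϖ ∈ Q → ∃ i, P i ≤ Q
  minβ : ∀ Q : Ideal R, Q.IsPrime → β ϖ ∈ Q → ∃ i, P i ≤ Q
  gdα : GoingDown α
  gdβ : GoingDown β
  /-- residue degree one: `W1 / V'1` and `W3 / V'1` via `α`, `W2 / V'2` via `β` -/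
  degα0 : ∀ x : R, ∃ y : S, x - α y ∈ P 0
  degα2 : ∀ x : R, ∃ y : S, x - α y ∈ P 2
  degβ1 : ∀ x : R, ∃ y : S, x - β y ∈ P 1
  /-- purely inseparable: `W2 / V'2` via `α`, `W1 / V'1` via `β` -/
  radα1 : ∀ x : R, ∃ (y : S) (k : ℕ), k ≠ 0 ∧ x ^ k - α y ∈ P 1
  radβ0 : ∀ x : R, ∃ (y : S) (k : ℕ), k ≠ 0 ∧ x ^ k - β y ∈ P 0

namespace Hyp

variable {α β : S →+* R} {P : Fin 3 → Ideal R} {P' : Fin 2 → Ideal S} {ϖ : S}

/-- `W2` is the only branch over `V'2` via `α`: every prime over a point of `V'2` is on `W2`. -/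
theorem only_alpha (H : Hyp α β P P' ϖ) (n : Ideal R) (hn : n.IsPrime)
    (h : P' 1 ≤ n.comap α) : P 1 ≤ n := by
  obtain ⟨i, hi, hin⟩ :=
    exists_le_of_le_comap α H.gdα P ϖ H.minα (P' 1) (H.prime' 1) (H.mem' 1) n hn h
  fin_cases i
  · exact absurd (H.α0 ▸ hi) H.not01
  · exact hin
  · exact absurd (H.α2 ▸ hi) H.not01

/-- `W1` is the only branch over `V'1` via `β`. -/
theorem only_beta (H : Hyp α β P P' ϖ) (n : Ideal R) (hn : n.IsPrime)
    (h : P' 0 ≤ n.comap β) : P 0 ≤ n := by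
  obtain ⟨i, hi, hin⟩ :=
    exists_le_of_le_comap β H.gdβ P ϖ H.minβ (P' 0) (H.prime' 0) (H.mem' 0) n hn h
  fin_cases i
  · exact hin
  · exact absurd (H.β1 ▸ hi) H.not10
  · exact absurd (H.β2 ▸ hi) H.not10

/-- A prime over a point of `V'1` via `α` is on `W1` or on `W3`. -/
theorem alpha_zero_or_two (H : Hyp α β P P' ϖ) (n : Ideal R) (hn : n.IsPrime)
    (h : P' 0 ≤ n.comap α) : P 0 ≤ n ∨ P 2 ≤ n := by
  obtain ⟨i, hi, hin⟩ :=
    exists_le_of_le_comap α H.gdα P ϖ H.minα (P' 0) (H.prime' 0) (H.mem' 0) n hn h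
  fin_cases i
  · exact Or.inl hin
  · exact absurd (H.α1 ▸ hi) H.not10
  · exact Or.inr hin

/-- A prime over a point of `V'2` via `β` is on `W2` or on `W3`. -/
theorem beta_one_or_two (H : Hyp α β P P' ϖ) (n : Ideal R) (hn : n.IsPrime)
    (h : P' 1 ≤ n.comap β) : P 1 ≤ n ∨ P 2 ≤ n := by
  obtain ⟨i, hi, hin⟩ :=
    exists_le_of_le_comap β H.gdβ P ϖ H.minβ (P' 1) (H.prime' 1) (H.mem' 1) n hn h
  fin_cases i
  · exact absurd (H.β0 ▸ hi) H.not01
  · exact Or.inl hin
  · exact Or.inr hin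

/-- `W1 ∩ W2 ⊆ W3`. -/
theorem two_of_zero_one (H : Hyp α β P P' ϖ) (n : Ideal R) (hn : n.IsPrime)
    (h0 : P 0 ≤ n) (h1 : P 1 ≤ n) : P 2 ≤ n := by
  refine le_of_radicial_of_degOne α (P 1) (P 2) H.radα1 H.degα2 ?_ n hn h1 ?_
  · intro n₃ hn₃ h
    exact H.only_alpha n₃ hn₃ (H.α1 ▸ h)
  · rw [H.α2, ← H.α0]
    exact Ideal.comap_mono h0

/-- `W1 ∩ W3 ⊆ W2`. -/
theorem one_of_zero_two (H : Hyp α β P P' ϖ) (n : Ideal R) (hn : n.IsPrime)
    (h0 : P 0 ≤ n) (h2 : P 2 ≤ n) : P 1 ≤ n := by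
  refine le_of_radicial_of_degOne β (P 0) (P 1) H.radβ0 H.degβ1 ?_ n hn h0 ?_
  · intro n₃ hn₃ h
    exact H.only_beta n₃ hn₃ (H.β0 ▸ h)
  · rw [H.β1, ← H.β2]
    exact Ideal.comap_mono h2

/-- `W2 ∩ W3 ⊆ W1`. -/
theorem zero_of_one_two (H : Hyp α β P P' ϖ) (n : Ideal R) (hn : n.IsPrime)
    (h1 : P 1 ≤ n) (h2 : P 2 ≤ n) : P 0 ≤ n := by
  refine le_of_radicial_of_degOne α (P 1) (P 0) H.radα1 H.degα0 ?_ n hn h1 ?_
  · intro n₃ hn₃ h
    exact H.only_alpha n₃ hn₃ (H.α1 ▸ h)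
  · rw [H.α0, ← H.α2]
    exact Ideal.comap_mono h2

/-- **Every crossing point is a triple point**: a prime of `R` containing two distinct branches
contains all three. -/
theorem triple (H : Hyp α β P P' ϖ) (n : Ideal R) (hn : n.IsPrime) (i j : Fin 3) (hij : i ≠ j)
    (hi : P i ≤ n) (hj : P j ≤ n) : ∀ k, P k ≤ n := by
  have key : P 0 ≤ n ∧ P 1 ≤ n ∧ P 2 ≤ n := by
    fin_cases i <;> fin_cases j
    · exact absurd rfl hij
    · exact ⟨hi, hj, H.two_of_zero_one n hn hi hj⟩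
    · exact ⟨hi, H.one_of_zero_two n hn hi hj, hj⟩
    · exact ⟨hj, hi, H.two_of_zero_one n hn hj hi⟩
    · exact absurd rfl hij
    · exact ⟨H.zero_of_one_two n hn hi hj, hi, hj⟩
    · exact ⟨hj, H.one_of_zero_two n hn hj hi, hi⟩
    · exact ⟨H.zero_of_one_two n hn hj hi, hj, hi⟩
    · exact absurd rfl hij
  intro k
  fin_cases k
  · exact key.1
  · exact key.2.1
  · exact key.2.2

/-- The image of a triple point under `α` is a crossing point downstairs. -/
theorem node_below_alpha (H : Hyp α β P P' ϖ) (n : Ideal R) (h0 : P 0 ≤ n) (h1 : P 1 ≤ n) :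
    ∀ j, P' j ≤ n.comap α := by
  intro j
  fin_cases j
  · exact H.α0 ▸ Ideal.comap_mono h0
  · exact H.α1 ▸ Ideal.comap_mono h1

/-- The image of a triple point under `β` is a crossing point downstairs. -/
theorem node_below_beta (H : Hyp α β P P' ϖ) (n : Ideal R) (h0 : P 0 ≤ n) (h1 : P 1 ≤ n) :
    ∀ j, P' j ≤ n.comap β := by
  intro j
  fin_cases j
  · exact H.β0 ▸ Ideal.comap_mono h0
  · exact H.β1 ▸ Ideal.comap_mono h1

/-- A prime of `R` over a crossing point downstairs (via `α`) is a triple point. -/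
theorem triple_of_node_alpha (H : Hyp α β P P' ϖ) (n : Ideal R) (hn : n.IsPrime)
    (h : ∀ j, P' j ≤ n.comap α) : ∀ k, P k ≤ n := by
  have h1 : P 1 ≤ n := H.only_alpha n hn (h 1)
  rcases H.alpha_zero_or_two n hn (h 0) with h0 | h2
  · exact H.triple n hn 0 1 (by decide) h0 h1
  · exact H.triple n hn 1 2 (by decide) h1 h2

/-- A prime of `R` over a crossing point downstairs (via `β`) is a triple point. -/
theorem triple_of_node_beta (H : Hyp α β P P' ϖ) (n : Ideal R) (hn : n.IsPrime)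
    (h : ∀ j, P' j ≤ n.comap β) : ∀ k, P k ≤ n := by
  have h0 : P 0 ≤ n := H.only_beta n hn (h 0)
  rcases H.beta_one_or_two n hn (h 1) with h1 | h2
  · exact H.triple n hn 0 1 (by decide) h0 h1
  · exact H.triple n hn 0 2 (by decide) h0 h2

/-- **Uniqueness over `α`**: a point of `W2` is the only prime of `R` over its image under `α`. -/
theorem unique_over_alpha (H : Hyp α β P P' ϖ) (n n₂ : Ideal R) (hn : n.IsPrime)
    (hn₂ : n₂.IsPrime) (h1 : P 1 ≤ n) (h : n₂.comap α = n.comap α) : n₂ = n := by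
  have h1' : P 1 ≤ n₂ := by
    apply H.only_alpha n₂ hn₂
    rw [h, ← H.α1]
    exact Ideal.comap_mono h1
  exact le_antisymm
    (le_of_comap_le_of_radicial α (P 1) H.radα1 n₂ n hn h1' h1 h.le)
    (le_of_comap_le_of_radicial α (P 1) H.radα1 n n₂ hn₂ h1 h1' h.ge)

/-- **Uniqueness over `β`**: a point of `W1` is the only prime of `R` over its image under `β`. -/
theorem unique_over_beta (H : Hyp α β P P' ϖ) (n n₂ : Ideal R) (hn : n.IsPrime)
    (hn₂ : n₂.IsPrime) (h0 : P 0 ≤ n) (h : n₂.comap β = n.comap β) : n₂ = n := by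
  have h0' : P 0 ≤ n₂ := by
    apply H.only_beta n₂ hn₂
    rw [h, ← H.β0]
    exact Ideal.comap_mono h0
  exact le_antisymm
    (le_of_comap_le_of_radicial β (P 0) H.radβ0 n₂ n hn h0' h0 h.le)
    (le_of_comap_le_of_radicial β (P 0) H.radβ0 n n₂ hn₂ h0 h0' h.ge)

/-- Over every crossing point `p` downstairs there is a triple point, via `α`. -/
theorem exists_triple_over_alpha (H : Hyp α β P P' ϖ) (p : Ideal S) (hp : p.IsPrime)
    (h : ∀ j, P' j ≤ p) : ∃ n : Ideal R, n.IsPrime ∧ (∀ k, P k ≤ n) ∧ n.comap α = p := by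
  obtain ⟨n, hn, -, hc⟩ := exists_over_of_degOne α (P 0) H.degα0 p hp (H.α0 ▸ h 0)
  exact ⟨n, hn, H.triple_of_node_alpha n hn (fun j => hc ▸ h j), hc⟩

end Hyp

end Fermat.Agent.S36.Inc3
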