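/-
S36 — Inc3Gd.lean (helper75): standalone chart-level lemmas for the instantiation of
`S36/Inc3.Hyp` (block [INC3], split of helper63): the two degeneracy maps between the charts

    `S = chart (M * q) A K JK`  (level `M q`,  coordinate `JK = j · j_q`),
    `R = chart (M * q * q) A K J3`  (level `M q²`, coordinate `J3 = j · j_q · j_{q²}`),

`alphaC`, `betaC : S →+* R` (the chart restrictions of `WQ2.alphaK2`, `WQ2.betaK2`).

* `chartHom_injective`, `chartHom_algebraMap`, `chartHom_isIntegral` : generic facts on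
  `S34.BranchInst.chartHom`;
* `alphaC_coe`, `betaC_coe`, `alphaC_injective`, `betaC_injective`, `alphaC_algebraMap`,
  `betaC_algebraMap`;
* `alphaC_isIntegral`, `betaC_isIntegral` : `R` is integral over `α S` and over `β S`
  (the hypothesis `hint` of `TorRelInst.relα_field / relβ_field`);
* `isIntegrallyClosed_chart_JK`;
* `goingDown_alphaC`, `goingDown_betaC` : the fields `gdα`, `gdβ` of `Inc3.Hyp`;

The remaining chart-level fields (`min`, the level-`M q` primes, the Gauss lying-over
equalities) are in `S36/Inc3Low.lean`.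
-/
import Mathlib
import Fermat.Agent.S34.WKInst
import Fermat.Agent.S34.BranchInst
import Fermat.Agent.S34.ChartRing
import Fermat.Agent.S36.WQ2
import Fermat.Agent.S36.Chart3B
import Fermat.Agent.S36.Inc3

set_option autoImplicit false

open ModularCurve AlgebraicCurve HahnSeries

namespace Fermat.Agent.S36.Inc3Gd

open Fermat.Agent.S18 Fermat.Agent.S18.Arith Fermat.Agent.S34

noncomputable section

set_option synthInstance.maxHeartbeats 400000

/-! ### Generic facts on chart homs -/

section Generic

variable {M N : ℕ} [NeZero M] [NeZero N] {A : ValuationSubring Qb} {K : IntermediateField ℚ Qb}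

omit [NeZero M] [NeZero N] in
/-- A chart hom induced by a ring hom of the function fields is injective. -/
theorem chartHom_injective (tM : FK M K) (t : FK N K) (a : FK M K →+* FK N K)
    (hat : ∀ y ∈ chart M A K tM, a y ∈ chart N A K t) :
    Function.Injective (BranchInst.chartHom tM t a hat) := by
  intro x y hxy
  have h := congrArg (fun z : ↥(chart N A K t) => (z : FK N K)) hxy
  simp only [BranchInst.chartHom_coe] at h
  exact Subtype.ext (a.injective h)

omit [NeZero M] [NeZero N] in
/-- A chart hom induced by a ring hom fixing the constants commutes with the structure maps. -/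
theorem chartHom_algebraMap (tM : FK M K) (t : FK N K) (a : FK M K →+* FK N K)
    (hat : ∀ y ∈ chart M A K tM, a y ∈ chart N A K t)
    (ha : ∀ c : OK A K, a (algebraMap (OK A K) (FK M K) c) = algebraMap (OK A K) (FK N K) c)
    (c : OK A K) :
    BranchInst.chartHom tM t a hat (algebraMap (OK A K) ↥(chart M A K tM) c) =
      algebraMap (OK A K) ↥(chart N A K t) c :=
  Subtype.ext (ha c)

omit [NeZero M] [NeZero N] in
/-- A chart hom induced by a ring hom `a` fixing the constants is integral as soon as the target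
chart is integral over `O[a s]` for some `s` in the source chart. -/
theorem chartHom_isIntegral (tM : FK M K) (t : FK N K) (a : FK M K →+* FK N K)
    (hat : ∀ y ∈ chart M A K tM, a y ∈ chart N A K t)
    (ha : ∀ c : OK A K, a (algebraMap (OK A K) (FK M K) c) = algebraMap (OK A K) (FK N K) c)
    (s : FK M K) (hs : s ∈ chart M A K tM)
    (hint : ∀ x ∈ chart N A K t, IsIntegral (Algebra.adjoin (OK A K) {a s}) x) :
    (BranchInst.chartHom tM t a hat).IsIntegral := by
  intro r
  obtain ⟨P, hP, hPr⟩ := hint r r.2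
  set g : ↥(chart M A K tM) →+* FK N K := a.comp (chart M A K tM).val.toRingHom with hg
  have hcoef : ∀ b ∈ Algebra.adjoin (OK A K) {a s}, b ∈ Set.range g := by
    intro b hb
    induction hb using Algebra.adjoin_induction with
    | mem y hy =>
      rw [Set.mem_singleton_iff.mp hy]
      exact ⟨⟨s, hs⟩, rfl⟩
    | algebraMap c => exact ⟨algebraMap (OK A K) _ c, ha c⟩
    | add y z _ _ hy hz =>
      obtain ⟨y', rfl⟩ := hy
      obtain ⟨z', rfl⟩ := hz
      exact ⟨y' + z', map_add g y' z'⟩
    | mul y z _ _ hy hz =>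
      obtain ⟨y', rfl⟩ := hy
      obtain ⟨z', rfl⟩ := hz
      exact ⟨y' * z', map_mul g y' z'⟩
  set P' : Polynomial (FK N K) :=
    P.map (algebraMap (Algebra.adjoin (OK A K) {a s}) (FK N K)) with hP'
  have hP'm : P'.Monic := hP.map _
  have hP'r : P'.eval (r : FK N K) = 0 := by
    rw [hP', Polynomial.eval_map]
    exact hPr
  have hlift : P' ∈ Polynomial.lifts g := by
    rw [Polynomial.lifts_iff_coeff_lifts]
    intro n
    rw [hP', Polynomial.coeff_map]
    exact hcoef _ (P.coeff n).2
  obtain ⟨Q, hQ, -, hQm⟩ := Polynomial.lifts_and_natDegree_eq_and_monic hlift hP'm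
  refine ⟨Q, hQm, ?_⟩
  apply Subtype.ext
  have h1 : ((chart N A K t).val.toRingHom
      (Polynomial.eval₂ (BranchInst.chartHom tM t a hat) r Q)) =
      Polynomial.eval₂ g (r : FK N K) Q := by
    rw [Polynomial.hom_eval₂]
    rfl
  have h2 : Polynomial.eval₂ g (r : FK N K) Q = 0 := by
    rw [← Polynomial.eval_map, hQ]
    exact hP'r
  exact h1.trans h2

end Generic

/-! ### The two degeneracy maps on the charts -/

variable (M q : ℕ) [NeZero M] [NeZero q] (hq : q.Prime) (hqM : ¬ q ∣ M)
variable (A : ValuationSubring Qb) (K : IntermediateField ℚ Qb)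

/-- The chart restriction of `α = WQ2.alphaK2`: `chart_{Mq} JK → chart_{Mq²} J3`. -/
def alphaC : ↥(chart (M * q) A K (WKInst.JK M q hq hqM K)) →+*
    ↥(chart (M * q * q) A K (Chart3B.J3 M q hq hqM K)) :=
  BranchInst.chartHom (WKInst.JK M q hq hqM K) (Chart3B.J3 M q hq hqM K) (WQ2.alphaK2 M q K)
    (fun _ hy => Chart3B.alphaK2_mem_chart_J3 M q hq hqM A K hy)

/-- The chart restriction of `β = WQ2.betaK2`: `chart_{Mq} JK → chart_{Mq²} J3`. -/
def betaC : ↥(chart (M * q) A K (WKInst.JK M q hq hqM K)) →+*
    ↥(chart (M * q * q) A K (Chart3B.J3 M q hq hqM K)) :=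
  BranchInst.chartHom (WKInst.JK M q hq hqM K) (Chart3B.J3 M q hq hqM K)
    (WQ2.betaK2 M q hq hqM K) (fun _ hy => Chart3B.betaK2_mem_chart_J3 M q hq hqM A K hy)

theorem alphaC_coe (y : ↥(chart (M * q) A K (WKInst.JK M q hq hqM K))) :
    ((alphaC M q hq hqM A K y : ↥(chart (M * q * q) A K (Chart3B.J3 M q hq hqM K))) :
      FK (M * q * q) K) = WQ2.alphaK2 M q K (y : FK (M * q) K) := rfl

theorem betaC_coe (y : ↥(chart (M * q) A K (WKInst.JK M q hq hqM K))) :
    ((betaC M q hq hqM A K y : ↥(chart (M * q * q) A K (Chart3B.J3 M q hq hqM K))) :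
      FK (M * q * q) K) = WQ2.betaK2 M q hq hqM K (y : FK (M * q) K) := rfl

theorem alphaC_injective : Function.Injective (alphaC M q hq hqM A K) :=
  chartHom_injective _ _ _ _

theorem betaC_injective : Function.Injective (betaC M q hq hqM A K) :=
  chartHom_injective _ _ _ _

/-- `α` fixes the constants. -/
theorem alphaK2_algebraMap_OK (c : OK A K) :
    WQ2.alphaK2 M q K (algebraMap (OK A K) (FK (M * q) K) c) =
      algebraMap (OK A K) (FK (M * q * q) K) c :=
  WQ2.alphaK2_constK M q K (c : K)

/-- `β` fixes the constants. -/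
theorem betaK2_algebraMap_OK (c : OK A K) :
    WQ2.betaK2 M q hq hqM K (algebraMap (OK A K) (FK (M * q) K) c) =
      algebraMap (OK A K) (FK (M * q * q) K) c :=
  WQ2.betaK2_constK M q hq hqM K (c : K)

theorem alphaC_algebraMap (c : OK A K) :
    alphaC M q hq hqM A K (algebraMap (OK A K) _ c) = algebraMap (OK A K) _ c :=
  chartHom_algebraMap _ _ _ _ (alphaK2_algebraMap_OK M q A K) c

theorem betaC_algebraMap (c : OK A K) :
    betaC M q hq hqM A K (algebraMap (OK A K) _ c) = algebraMap (OK A K) _ c :=
  chartHom_algebraMap _ _ _ _ (betaK2_algebraMap_OK M q hq hqM A K) c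

/-- `j ∈ chart_{Mq} JK`. -/
theorem jK_mem_chart_JK : jK (M * q) K ∈ chart (M * q) A K (WKInst.JK M q hq hqM K) := by
  rw [WKInst.chart_JK_eq]
  exact ChartJ.self_mem_chart (M * q) A K _

/-- **`chart_{Mq²} J3` is integral over `α (chart_{Mq} JK)`.** -/
theorem alphaC_isIntegral : (alphaC M q hq hqM A K).IsIntegral := by
  refine chartHom_isIntegral _ _ _ _ (alphaK2_algebraMap_OK M q A K) (jK (M * q) K)
    (jK_mem_chart_JK M q hq hqM A K) ?_
  intro x hx
  rw [WQ2.alphaK2_jK]
  rw [Chart3B.chart_J3_eq] at hx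
  exact (mem_chart_iff (M * q * q) A K).mp hx

/-- **`chart_{Mq²} J3` is integral over `β (chart_{Mq} JK)`.** -/
theorem betaC_isIntegral : (betaC M q hq hqM A K).IsIntegral := by
  refine chartHom_isIntegral _ _ _ _ (betaK2_algebraMap_OK M q hq hqM A K) (jK (M * q) K)
    (jK_mem_chart_JK M q hq hqM A K) ?_
  intro x hx
  rw [WQ2.betaK2_jK]
  rw [Chart3B.chart_J3_eq] at hx
  exact ChartJ.isIntegral_adjoin_trans (Chart3B.isIntegral_jK_jq M q hq hqM A K)
    ((mem_chart_iff (M * q * q) A K).mp hx)

/-- The level-`M q` chart `chart JK` is integrally closed. -/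
theorem isIntegrallyClosed_chart_JK :
    IsIntegrallyClosed ↥(chart (M * q) A K (WKInst.JK M q hq hqM K)) := by
  rw [WKInst.chart_JK_eq]
  have : Fact (Nat.Prime 2) := ⟨Nat.prime_two⟩
  exact ChartRing.isIntegrallyClosed_R0 (M * q) A K 2

/-- **Going-down for `α`** on the charts (the field `gdα` of `Inc3.Hyp`). -/
theorem goingDown_alphaC : Inc3.GoingDown (alphaC M q hq hqM A K) := by
  have := isIntegrallyClosed_chart_JK M q hq hqM A K
  exact Inc3.goingDown_of_isIntegral _ (alphaC_injective M q hq hqM A K)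
    (alphaC_isIntegral M q hq hqM A K)

/-- **Going-down for `β`** on the charts (the field `gdβ` of `Inc3.Hyp`). -/
theorem goingDown_betaC : Inc3.GoingDown (betaC M q hq hqM A K) := by
  have := isIntegrallyClosed_chart_JK M q hq hqM A K
  exact Inc3.goingDown_of_isIntegral _ (betaC_injective M q hq hqM A K)
    (betaC_isIntegral M q hq hqM A K)

end

end Fermat.Agent.S36.Inc3Gd
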