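/-
S36 — Inc3Low.lean (helper75): second file of standalone chart-level lemmas for the
instantiation of `S36/Inc3.Hyp` (block [INC3]); continuation of `S36/Inc3Gd.lean`.

`S = chart (M * q) A K JK`, `R = chart (M * q * q) A K J3`, `alphaC`, `betaC : S →+* R`.

* `min_alphaC`, `min_betaC` : the fields `minα`, `minβ` of `Inc3.Hyp` (with `ϖ = π` downstairs)
  from `Model3Plan.ValHyp3` + `ChartHyp3` for the level-`M q²` chart;
* level `M q`: `chart_JK_le` (`S ⊆ V1 ∩ V2`), `PK'` (the two vertical primes of `S`, `= V12.PK`),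
  `mem_PK'`, `PK'_isPrime`, `pi_mem_PK'`, `not_le_01`, `not_le_10`, `eq_PK'` : the fields
  `prime'`, `mem'`, `not01`, `not10`;
* `mem_PK'_zero_iff`, `mem_PK'_one_iff` : `PK' 0`, `PK' 1` in Gauss-reduction (`GRel`) form;
* `comap_alphaC_P0`, `comap_alphaC_P1`, `comap_betaC_P0`, `comap_betaC_P1` : the four Gauss
  contraction equalities (fields `α0`, `α1`, `β0`, `β1`), for vertical primes `P 0`, `P 1` of `R`
  given in the `GRel` vocabulary of `S36/TorM` (`hP0`, `hP1`; see `TorM.gRel_iff_of_V1/V2`);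
* `hyp_of_pieces` : `Inc3.Hyp alphaC betaC P PK' π` from `ValHyp3` + `ChartHyp3`, `hP0`, `hP1`,
  the two `W3` contraction equalities and the deg/rad statements (`TorM.transfer`).
-/
import Mathlib
import Fermat.Agent.S34.V12
import Fermat.Agent.S34.V12Rel
import Fermat.Agent.S36.Inc3Gd
import Fermat.Agent.S36.Model3Plan
import Fermat.Agent.S36.Princ3

set_option autoImplicit false

open ModularCurve AlgebraicCurve HahnSeries

namespace Fermat.Agent.S36.Inc3Low

open Fermat.Agent.S18 Fermat.Agent.S18.Arith Fermat.Agent.S34 Fermat.Agent.S36.Inc3Gd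

noncomputable section

set_option synthInstance.maxHeartbeats 400000

variable (M q : ℕ) [NeZero M] [NeZero q] (hq : q.Prime) (hqM : ¬ q ∣ M)
variable (A : ValuationSubring Qb) (K : IntermediateField ℚ Qb)

/-! ### The fields `minα`, `minβ` -/

section Min

open Model3Plan

variable {M q hq hqM A K}
variable {π : OK A K} {e : Fin 3 → ℕ} {ϖ : Fin 3 → FK (M * q * q) K}
  {V : Fin 3 → ValuationSubring (FK (M * q * q) K)}
  {P : Fin 3 → Ideal ↥(chart (M * q * q) A K (Chart3B.J3 M q hq hqM K))}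

/-- The field `minα` of `Inc3.Hyp`: a prime of the level-`M q²` chart containing `α π` contains
one of the three vertical primes. -/
theorem min_alphaC (val : ValHyp3 (algebraMap (OK A K) (FK (M * q * q) K) π) e ϖ V)
    (hyp : ChartHyp3 π ϖ V P) (hπ0 : algebraMap (OK A K) (FK (M * q * q) K) π ≠ 0)
    (Q : Ideal ↥(chart (M * q * q) A K (Chart3B.J3 M q hq hqM K))) (hQ : Q.IsPrime)
    (h : alphaC M q hq hqM A K (algebraMap (OK A K) _ π) ∈ Q) : ∃ i, P i ≤ Q := by
  rw [alphaC_algebraMap] at h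
  exact Princ3.exists_le val hyp hπ0 Q hQ h

/-- The field `minβ` of `Inc3.Hyp`. -/
theorem min_betaC (val : ValHyp3 (algebraMap (OK A K) (FK (M * q * q) K) π) e ϖ V)
    (hyp : ChartHyp3 π ϖ V P) (hπ0 : algebraMap (OK A K) (FK (M * q * q) K) π ≠ 0)
    (Q : Ideal ↥(chart (M * q * q) A K (Chart3B.J3 M q hq hqM K))) (hQ : Q.IsPrime)
    (h : betaC M q hq hqM A K (algebraMap (OK A K) _ π) ∈ Q) : ∃ i, P i ≤ Q := by
  rw [betaC_algebraMap] at h
  exact Princ3.exists_le val hyp hπ0 Q hQ h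

end Min

/-! ### The two vertical primes of the level-`M q` chart -/

section Low

variable (hdvr : IsDiscreteValuationRing (OK A K))

/-- `chart_{Mq} JK ⊆ V1 ∩ V2`. -/
theorem chart_JK_le : ∀ x ∈ chart (M * q) A K (WKInst.JK M q hq hqM K),
    x ∈ V12.V12K M q hq hqM A K hdvr :=
  V12.chart_JK_le M q hq hqM A K hdvr

/-- The two vertical primes of `S = chart_{Mq} JK` (`= S ∩ π (V' j)`, `V' = V12.VK`). -/
def PK' : Fin 2 → Ideal ↥(chart (M * q) A K (WKInst.JK M q hq hqM K)) :=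
  V12.PK M q hq hqM A K hdvr (chart (M * q) A K (WKInst.JK M q hq hqM K))
    (chart_JK_le M q hq hqM A K hdvr)

/-- `PK' j = S ∩ π (V' j)`. -/
theorem mem_PK' {π : OK A K} (hπ : Irreducible π) (j : Fin 2)
    (r : ↥(chart (M * q) A K (WKInst.JK M q hq hqM K))) :
    r ∈ PK' M q hq hqM A K hdvr j ↔ ∃ y ∈ V12.VK M q hq hqM A K hdvr j,
      (r : FK (M * q) K) = algebraMap (OK A K) (FK (M * q) K) π * y :=
  V12.mem_PK M q hq hqM A K hdvr _ _ hπ j r

/-- The field `prime'` of `Inc3.Hyp`. -/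
theorem PK'_isPrime (j : Fin 2) : (PK' M q hq hqM A K hdvr j).IsPrime :=
  V12.PK_isPrime M q hq hqM A K hdvr _ _ j

/-- The field `mem'` of `Inc3.Hyp` (`ϖ := algebraMap O S π`). -/
theorem pi_mem_PK' {π : OK A K} (hπ : Irreducible π) (j : Fin 2) :
    algebraMap (OK A K) ↥(chart (M * q) A K (WKInst.JK M q hq hqM K)) π ∈
      PK' M q hq hqM A K hdvr j :=
  V12.pi_mem_PP _ hdvr _ _ (WK.wK_algebraMap_OK M q hq hqM K A) hπ j

/-- `PK' 0` in Gauss-reduction form. -/
theorem mem_PK'_zero_iff (r : ↥(chart (M * q) A K (WKInst.JK M q hq hqM K))) :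
    r ∈ PK' M q hq hqM A K hdvr 0 ↔ GRel A ((r : FK (M * q) K) : LaurentSeries Qb) 0 := by
  constructor
  · intro h
    have h1 := V12.gRel_rho1 (WK.wK M q hq hqM K) hdvr _ (chart_JK_le M q hq hqM A K hdvr) r
    have h2 : V12.rho1 (WK.wK M q hq hqM K) hdvr _ (chart_JK_le M q hq hqM A K hdvr) r = 0 := h
    rwa [h2] at h1
  · intro h
    exact V12.rho1_eq_of_gRel (WK.wK M q hq hqM K) hdvr _ (chart_JK_le M q hq hqM A K hdvr) r h

/-- `PK' 1` in Gauss-reduction form. -/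
theorem mem_PK'_one_iff (r : ↥(chart (M * q) A K (WKInst.JK M q hq hqM K))) :
    r ∈ PK' M q hq hqM A K hdvr 1 ↔
      GRel A ((WK.wK M q hq hqM K (r : FK (M * q) K) : FK (M * q) K) : LaurentSeries Qb) 0 := by
  constructor
  · intro h
    have h1 := V12.gRel_rho2 (WK.wK M q hq hqM K) hdvr _ (chart_JK_le M q hq hqM A K hdvr) r
    have h2 : V12.rho2 (WK.wK M q hq hqM K) hdvr _ (chart_JK_le M q hq hqM A K hdvr) r = 0 := h
    rwa [h2] at h1
  · intro h
    exact V12.rho2_eq_of_gRel (WK.wK M q hq hqM K) hdvr _ (chart_JK_le M q hq hqM A K hdvr) r h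

/-- `j_q = w_q j ∈ chart_{Mq} JK`. -/
theorem wK_jK_mem_chart_JK :
    WK.wK M q hq hqM K (jK (M * q) K) ∈ chart (M * q) A K (WKInst.JK M q hq hqM K) :=
  WKInst.wK_mem_chart_JK M q hq hqM A K (jK_mem_chart_JK M q hq hqM A K)

/-- The field `not01` of `Inc3.Hyp`: the two vertical primes downstairs are incomparable. -/
theorem not_le_01 [Fact q.Prime] (hA : A.LiesOverPrime q) :
    ¬ PK' M q hq hqM A K hdvr 0 ≤ PK' M q hq hqM A K hdvr 1 := by
  intro hle
  obtain ⟨r, h0, h1⟩ := V12.exists_mem_PP_zero_notMem_one (WK.wK M q hq hqM K) hdvr q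
    (V12.coe_wK_jK M q hq hqM K) (V12.wK_wK_jK M q hq hqM K) _
    (chart_JK_le M q hq hqM A K hdvr) hA (jK_mem_chart_JK M q hq hqM A K)
    (wK_jK_mem_chart_JK M q hq hqM A K)
  exact h1 (hle h0)

/-- The field `not10` of `Inc3.Hyp`. -/
theorem not_le_10 [Fact q.Prime] (hA : A.LiesOverPrime q) :
    ¬ PK' M q hq hqM A K hdvr 1 ≤ PK' M q hq hqM A K hdvr 0 := by
  intro hle
  obtain ⟨r, h1, h0⟩ := V12.exists_mem_PP_one_notMem_zero (WK.wK M q hq hqM K) hdvr q
    (V12.coe_wK_jK M q hq hqM K) (V12.wK_wK_jK M q hq hqM K) _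
    (chart_JK_le M q hq hqM A K hdvr) hA (jK_mem_chart_JK M q hq hqM A K)
    (wK_jK_mem_chart_JK M q hq hqM A K)
  exact h0 (hle h1)

/-- Any family of ideals of `S` with the `mem_P` characterisation `P' j = S ∩ π (V' j)`
(`S34.LocPlan.ChartHyp.mem_P`) is `PK'`. -/
theorem eq_PK' {π : OK A K} (hπ : Irreducible π)
    (P' : Fin 2 → Ideal ↥(chart (M * q) A K (WKInst.JK M q hq hqM K)))
    (hP' : ∀ (j : Fin 2) (r : ↥(chart (M * q) A K (WKInst.JK M q hq hqM K))),
      r ∈ P' j ↔ ∃ y ∈ V12.VK M q hq hqM A K hdvr j,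
        (r : FK (M * q) K) = algebraMap (OK A K) (FK (M * q) K) π * y) :
    P' = PK' M q hq hqM A K hdvr := by
  funext j
  ext r
  rw [hP', mem_PK' M q hq hqM A K hdvr hπ]

/-! ### The four Gauss contraction equalities -/

variable {M q hq hqM A K}
variable (P : Fin 3 → Ideal ↥(chart (M * q * q) A K (Chart3B.J3 M q hq hqM K)))

/-- The field `α0` of `Inc3.Hyp`: `W1 ∘ α = V'1`. -/
theorem comap_alphaC_P0
    (hP0 : ∀ r : ↥(chart (M * q * q) A K (Chart3B.J3 M q hq hqM K)), r ∈ P 0 ↔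
      GRel A (((r : FK (M * q * q) K)) : LaurentSeries Qb) 0) :
    (P 0).comap (alphaC M q hq hqM A K) = PK' M q hq hqM A K hdvr 0 := by
  ext y
  rw [Ideal.mem_comap, hP0, alphaC_coe, WQ2.coe_alphaK2, mem_PK'_zero_iff]

/-- The field `β1` of `Inc3.Hyp`: `W2 ∘ β = V'2`. -/
theorem comap_betaC_P1
    (hP1 : ∀ r : ↥(chart (M * q * q) A K (Chart3B.J3 M q hq hqM K)), r ∈ P 1 ↔
      GRel A ((WQ2.wK2 M q hq hqM K (r : FK (M * q * q) K) : FK (M * q * q) K) :
        LaurentSeries Qb) 0) :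
    (P 1).comap (betaC M q hq hqM A K) = PK' M q hq hqM A K hdvr 1 := by
  ext y
  rw [Ideal.mem_comap, hP1, betaC_coe, WQ2.wK2_betaK2, WQ2.coe_alphaK2, mem_PK'_one_iff]

/-- The field `β0` of `Inc3.Hyp`: `W1 ∘ β = V'1`. -/
theorem comap_betaC_P0
    (hP0 : ∀ r : ↥(chart (M * q * q) A K (Chart3B.J3 M q hq hqM K)), r ∈ P 0 ↔
      GRel A (((r : FK (M * q * q) K)) : LaurentSeries Qb) 0) :
    (P 0).comap (betaC M q hq hqM A K) = PK' M q hq hqM A K hdvr 0 := by
  have hG := GRel.gRelStatement A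
  ext y
  rw [Ideal.mem_comap, hP0, betaC_coe, WQ2.coe_betaK2]
  have h1 := V12.gRel_rho1 (WK.wK M q hq hqM K) hdvr _ (chart_JK_le M q hq hqM A K hdvr) y
  have h2 := V12Rel.gRel_qExpand A q h1
  constructor
  · intro h
    have h3 := hG.unique _ _ _ h2 h
    have h4 : V12.rho1 (WK.wK M q hq hqM K) hdvr _ (chart_JK_le M q hq hqM A K hdvr) y = 0 :=
      qExpand_injective (R := IsLocalRing.ResidueField A) (N := q) (h3.trans (map_zero _).symm)
    exact h4
  · intro h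
    have h4 : V12.rho1 (WK.wK M q hq hqM K) hdvr _ (chart_JK_le M q hq hqM A K hdvr) y = 0 := h
    rw [h4, map_zero] at h2
    exact h2

/-- The field `α1` of `Inc3.Hyp`: `W2 ∘ α = V'2`. -/
theorem comap_alphaC_P1
    (hP1 : ∀ r : ↥(chart (M * q * q) A K (Chart3B.J3 M q hq hqM K)), r ∈ P 1 ↔
      GRel A ((WQ2.wK2 M q hq hqM K (r : FK (M * q * q) K) : FK (M * q * q) K) :
        LaurentSeries Qb) 0) :
    (P 1).comap (alphaC M q hq hqM A K) = PK' M q hq hqM A K hdvr 1 := by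
  have hG := GRel.gRelStatement A
  ext y
  rw [Ideal.mem_comap, hP1, alphaC_coe, WQ2.wK2_alphaK2, WQ2.coe_betaK2]
  have h1 := V12.gRel_rho2 (WK.wK M q hq hqM K) hdvr _ (chart_JK_le M q hq hqM A K hdvr) y
  have h2 := V12Rel.gRel_qExpand A q h1
  constructor
  · intro h
    have h3 := hG.unique _ _ _ h2 h
    have h4 : V12.rho2 (WK.wK M q hq hqM K) hdvr _ (chart_JK_le M q hq hqM A K hdvr) y = 0 :=
      qExpand_injective (R := IsLocalRing.ResidueField A) (N := q) (h3.trans (map_zero _).symm)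
    exact h4
  · intro h
    have h4 : V12.rho2 (WK.wK M q hq hqM K) hdvr _ (chart_JK_le M q hq hqM A K hdvr) y = 0 := h
    rw [h4, map_zero] at h2
    exact h2

/-! ### Assembly of `Inc3.Hyp` from the pieces -/

open Model3Plan in
/-- **`Inc3.Hyp` for the charts `chart_{Mq} JK → chart_{Mq²} J3`**, from: the model facts
`ValHyp3` + `ChartHyp3` of the upper chart, the Gauss descriptions `hP0`, `hP1` of its first two
vertical primes (`TorM.gRel_iff_of_V1/V2`), the two `W3` contraction equalities (`hα2`, `hβ2`: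
`S36/Inc3W3`), and the residue-degree-one / purely-inseparable statements (`TorM.transfer`).
Going-down, `min`, the Gauss contraction equalities and the facts on the level-`M q` primes are
discharged here. -/
theorem hyp_of_pieces [Fact q.Prime] (hA : A.LiesOverPrime q) {π : OK A K} (hπ : Irreducible π)
    {e : Fin 3 → ℕ} {ϖ : Fin 3 → FK (M * q * q) K}
    {V : Fin 3 → ValuationSubring (FK (M * q * q) K)}
    (val : ValHyp3 (algebraMap (OK A K) (FK (M * q * q) K) π) e ϖ V) (hyp : ChartHyp3 π ϖ V P)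
    (hP0 : ∀ r : ↥(chart (M * q * q) A K (Chart3B.J3 M q hq hqM K)), r ∈ P 0 ↔
      GRel A (((r : FK (M * q * q) K)) : LaurentSeries Qb) 0)
    (hP1 : ∀ r : ↥(chart (M * q * q) A K (Chart3B.J3 M q hq hqM K)), r ∈ P 1 ↔
      GRel A ((WQ2.wK2 M q hq hqM K (r : FK (M * q * q) K) : FK (M * q * q) K) :
        LaurentSeries Qb) 0)
    (hα2 : (P 2).comap (alphaC M q hq hqM A K) = PK' M q hq hqM A K hdvr 0)
    (hβ2 : (P 2).comap (betaC M q hq hqM A K) = PK' M q hq hqM A K hdvr 1)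
    (hdegα0 : ∀ x : ↥(chart (M * q * q) A K (Chart3B.J3 M q hq hqM K)),
      ∃ y : ↥(chart (M * q) A K (WKInst.JK M q hq hqM K)), x - alphaC M q hq hqM A K y ∈ P 0)
    (hdegα2 : ∀ x : ↥(chart (M * q * q) A K (Chart3B.J3 M q hq hqM K)),
      ∃ y : ↥(chart (M * q) A K (WKInst.JK M q hq hqM K)), x - alphaC M q hq hqM A K y ∈ P 2)
    (hdegβ1 : ∀ x : ↥(chart (M * q * q) A K (Chart3B.J3 M q hq hqM K)),
      ∃ y : ↥(chart (M * q) A K (WKInst.JK M q hq hqM K)), x - betaC M q hq hqM A K y ∈ P 1)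
    (hradα1 : ∀ x : ↥(chart (M * q * q) A K (Chart3B.J3 M q hq hqM K)),
      ∃ y : ↥(chart (M * q) A K (WKInst.JK M q hq hqM K)),
        x ^ q - alphaC M q hq hqM A K y ∈ P 1)
    (hradβ0 : ∀ x : ↥(chart (M * q * q) A K (Chart3B.J3 M q hq hqM K)),
      ∃ y : ↥(chart (M * q) A K (WKInst.JK M q hq hqM K)),
        x ^ q - betaC M q hq hqM A K y ∈ P 0) :
    Inc3.Hyp (alphaC M q hq hqM A K) (betaC M q hq hqM A K) P (PK' M q hq hqM A K hdvr)
      (algebraMap (OK A K) ↥(chart (M * q) A K (WKInst.JK M q hq hqM K)) π) where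
  α0 := comap_alphaC_P0 hdvr P hP0
  α1 := comap_alphaC_P1 hdvr P hP1
  α2 := hα2
  β0 := comap_betaC_P0 hdvr P hP0
  β1 := comap_betaC_P1 hdvr P hP1
  β2 := hβ2
  not01 := not_le_01 M q hq hqM A K hdvr hA
  not10 := not_le_10 M q hq hqM A K hdvr hA
  prime' := PK'_isPrime M q hq hqM A K hdvr
  mem' := pi_mem_PK' M q hq hqM A K hdvr hπ
  minα := min_alphaC val hyp (GaussV.algebraMap_ne_zero (M * q * q) A K hπ.ne_zero)
  minβ := min_betaC val hyp (GaussV.algebraMap_ne_zero (M * q * q) A K hπ.ne_zero)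
  gdα := goingDown_alphaC M q hq hqM A K
  gdβ := goingDown_betaC M q hq hqM A K
  degα0 := hdegα0
  degα2 := hdegα2
  degβ1 := hdegβ1
  radα1 := fun x => by
    obtain ⟨y, hy⟩ := hradα1 x
    exact ⟨y, q, NeZero.ne q, hy⟩
  radβ0 := fun x => by
    obtain ⟨y, hy⟩ := hradβ0 x
    exact ⟨y, q, NeZero.ne q, hy⟩

end Low

end

end Fermat.Agent.S36.Inc3Low
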