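/-
S36 — Inc3W3.lean (helper2; package [INC3], dealt by the [TORIC36] lead helper63).

The `W3`-fields of `Inc3.Hyp` at FIELD level, for `W3 = ` the Gauss valuation ring along the
middle-cusp embedding (`V3.Hyp3.W3`; in particular for `Iota3.iota3`):

* `(α2)`  `W3 ∘ α = V1(M q)`:  `alphaK2_mem_W3_iff`, `alphaK2_mem_nonunits_iff`, `comap_alphaK2`;
* `(β2)`  `W3 ∘ β = V2(M q)`:  `betaK2_mem_W3_iff`, `betaK2_mem_nonunits_iff`, `comap_betaK2`
          (`V2 = V1 ∘ w_q`), with the `GRel` forms `gRel_alphaK2_iff`, `gRel_betaK2_iff`;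
* `(hδ)`  `δ_y = β₂(β y) − α₂(α y)` (`= y(Q^{q²}) − y(Q)`) lies in `𝔪(W3)` for every
          Gauss-integral `y` of level `M`: `gRel_delta`, `delta_mem_nonunits`;
* the dictionary between the three vocabularies of "the centre of a Gauss valuation":
  `x ∈ V.nonunits ↔ GRel A (E x) 0` (`mem_nonunits_iff_gRel_of`, with the instances
  `mem_nonunits_W3_iff`, `mem_nonunits_V1_iff`, `mem_nonunits_V2_iff`), and
  `x ∈ V.nonunits ↔ ∃ y ∈ V, x = ϖ * y` for a uniformiser `ϖ` (`mem_nonunits_iff_exists_mul`);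
* the ideal-level consequence in abstract form: `comap_eq_of_nonunits`.
-/
import Mathlib
import Fermat.Agent.S36.V3

set_option autoImplicit false

noncomputable section

namespace Fermat.Agent.S36.Inc3W3

open ModularCurve ModularCurve.IgusaScheme AlgebraicCurve HahnSeries Fermat.Agent.S18.Arith
open Fermat.Agent.S18.ModelPlan Fermat.Agent.S18.ModelRed Fermat.Agent.S24 Fermat.Agent.S28
open Fermat.Agent

/-! ### Valuation subrings: non-units and pull-backs -/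

section Val

variable {F F' : Type*} [Field F] [Field F']

/-- The non-units of a valuation subring: `0` and the elements whose inverse is not in it. -/
theorem mem_nonunits_iff_inv (V : ValuationSubring F) (a : F) :
    a ∈ V.nonunits ↔ a = 0 ∨ a⁻¹ ∉ V := by
  rw [ValuationSubring.mem_nonunits_iff]
  rcases eq_or_ne a 0 with rfl | ha
  · simp
  · have hinv : a⁻¹ ≠ 0 := inv_ne_zero ha
    have h1 := Valuation.one_lt_val_iff V.valuation hinv
    rw [inv_inv] at h1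
    rw [← h1, ← not_le, ValuationSubring.valuation_le_one_iff]
    constructor
    · exact fun h => Or.inr h
    · rintro (h | h)
      · exact absurd h ha
      · exact h

/-- If `V' = V ∩ F'` along `φ`, the non-units correspond. -/
theorem nonunits_iff_of_mem_iff (φ : F' →+* F) (V : ValuationSubring F)
    (V' : ValuationSubring F') (h : ∀ y, φ y ∈ V ↔ y ∈ V') (y : F') :
    φ y ∈ V.nonunits ↔ y ∈ V'.nonunits := by
  rw [mem_nonunits_iff_inv, mem_nonunits_iff_inv, ← map_inv₀, h, map_eq_zero]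

theorem comap_eq_of_mem_iff (φ : F' →+* F) (V : ValuationSubring F)
    (V' : ValuationSubring F') (h : ∀ y, φ y ∈ V ↔ y ∈ V') : V.comap φ = V' :=
  ValuationSubring.ext _ _ fun y => by rw [ValuationSubring.mem_comap]; exact h y

/-- Uniformiser form of the non-units of a discrete valuation subring (the fields `unif_mem`,
`unif_not`, `disc` of `Model3Plan.ValHyp3`). -/
theorem mem_nonunits_iff_exists_mul (V : ValuationSubring F) {ϖ : F} (hϖ : ϖ ∈ V)
    (hϖ' : ϖ⁻¹ ∉ V)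
    (hdisc : ∀ x : F, x ≠ 0 → ∃ k : ℤ, ∃ u ∈ V, u⁻¹ ∈ V ∧ x = ϖ ^ k * u) (x : F) :
    x ∈ V.nonunits ↔ ∃ y ∈ V, x = ϖ * y := by
  have hϖ0 : ϖ ≠ 0 := fun h => hϖ' (by rw [h, inv_zero]; exact V.zero_mem)
  rw [mem_nonunits_iff_inv]
  constructor
  · rintro (rfl | hx)
    · exact ⟨0, V.zero_mem, (mul_zero _).symm⟩
    · have hx0 : x ≠ 0 := fun h => hx (by rw [h, inv_zero]; exact V.zero_mem)
      obtain ⟨k, u, hu, hu', rfl⟩ := hdisc x hx0
      rcases le_or_gt k 0 with hk | hk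
      · exfalso
        apply hx
        obtain ⟨n, rfl⟩ : ∃ n : ℕ, k = -(n : ℤ) := ⟨(-k).toNat, by omega⟩
        rw [mul_inv, ← zpow_neg, neg_neg, zpow_natCast]
        exact V.mul_mem _ _ (V.pow_mem hϖ n) hu'
      · obtain ⟨n, rfl⟩ : ∃ n : ℕ, k = (n : ℤ) + 1 := ⟨(k - 1).toNat, by omega⟩
        refine ⟨ϖ ^ n * u, V.mul_mem _ _ (V.pow_mem hϖ n) hu, ?_⟩
        rw [zpow_add_one₀ hϖ0, zpow_natCast]
        ring
  · rintro ⟨y, hy, rfl⟩
    rcases eq_or_ne y 0 with rfl | hy0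
    · exact Or.inl (mul_zero _)
    · refine Or.inr fun h => hϖ' ?_
      have e : ϖ⁻¹ = (ϖ * y)⁻¹ * y := by
        rw [mul_inv, mul_assoc, inv_mul_cancel₀ hy0, mul_one]
      rw [e]
      exact V.mul_mem _ _ h hy

/-- Ideal level, abstractly: if the centres `P`, `P'` of `V`, `V'` on `R`, `S` are cut out by the
non-units and the non-units correspond along `φ`, then `P.comap αc = P'` for every ring
homomorphism `αc : S → R` inducing `φ`. -/
theorem comap_eq_of_nonunits {S R : Type*} [CommRing S] [CommRing R] (φ : F' →+* F)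
    (cS : S → F') (cR : R → F) (αc : S →+* R) (hα : ∀ s, cR (αc s) = φ (cS s))
    (V : ValuationSubring F) (V' : ValuationSubring F')
    (hVV' : ∀ y, φ y ∈ V.nonunits ↔ y ∈ V'.nonunits)
    (P : Ideal R) (hP : ∀ r, r ∈ P ↔ cR r ∈ V.nonunits)
    (P' : Ideal S) (hP' : ∀ s, s ∈ P' ↔ cS s ∈ V'.nonunits) : P.comap αc = P' := by
  ext s
  rw [Ideal.mem_comap, hP, hα, hVV', hP']

end Val

/-! ### Gauss valuation rings: the centre is `{x | GRel A (E x) 0}` -/

section Gauss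

variable {A : ValuationSubring Qb}

theorem gRel_zero_zero : GRel A 0 0 := by
  have h := (Fermat.Agent.S18.GRel.gRelStatement A).of_int 0
  rwa [map_zero, map_zero] at h

theorem gRel_one_one : GRel A 1 1 := by
  have h := (Fermat.Agent.S18.GRel.gRelStatement A).of_int 1
  rwa [map_one, map_one] at h

/-- For ANY Gauss valuation ring `V = {x | ∃ r, GRel A (E x) r}` of a field `F` along a ring
homomorphism `E : F → ℚ̄((Q))`: the non-units are the elements reducing to `0`. -/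
theorem mem_nonunits_iff_gRel_of {F : Type*} [Field F] (E : F →+* LaurentSeries Qb)
    (V : ValuationSubring F) (hV : ∀ x, x ∈ V ↔ ∃ r, GRel A (E x) r) (x : F) :
    x ∈ V.nonunits ↔ GRel A (E x) 0 := by
  rw [mem_nonunits_iff_inv]
  constructor
  · rintro (rfl | hx)
    · rw [map_zero]; exact gRel_zero_zero
    · have hxV : x ∈ V := (V.mem_or_inv_mem x).resolve_right hx
      obtain ⟨r, hr⟩ := (hV x).mp hxV
      rcases eq_or_ne r 0 with rfl | hr0
      · exact hr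
      · exfalso
        apply hx
        rw [hV, map_inv₀]
        exact ⟨r⁻¹, (Fermat.Agent.S18.GRel.gRelStatement A).inv _ _ hr hr0⟩
  · intro h
    by_contra hcon
    rw [not_or, not_not] at hcon
    obtain ⟨hx0, hinv⟩ := hcon
    obtain ⟨r', hr'⟩ := (hV _).mp hinv
    have h1 := (Fermat.Agent.S18.GRel.gRelStatement A).mul _ _ _ _ h hr'
    rw [← map_mul, mul_inv_cancel₀ hx0, map_one, zero_mul] at h1
    exact zero_ne_one ((Fermat.Agent.S18.GRel.gRelStatement A).unique _ _ _ h1 gRel_one_one)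

variable {N : ℕ} [NeZero N] {K : IntermediateField ℚ Qb}

/-- The centre of the Gauss valuation `V1` (any level). -/
theorem mem_nonunits_V1_iff (hdvr : IsDiscreteValuationRing (OK A K)) (x : FK N K) :
    x ∈ (S34.GaussV.V1 N A K hdvr).nonunits ↔ GRel A (x : LaurentSeries Qb) 0 :=
  mem_nonunits_iff_gRel_of (FK N K).subtype _ (fun _ => S34.GaussV.mem_V1_iff hdvr) x

/-- The centre of a transported Gauss valuation `V2 = V1 ∘ w`. -/
theorem mem_nonunits_V2_iff (w : FK N K ≃+* FK N K) (hdvr : IsDiscreteValuationRing (OK A K))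
    (x : FK N K) :
    x ∈ (S34.GaussV.V2 w hdvr).nonunits ↔ GRel A ((w x : FK N K) : LaurentSeries Qb) 0 :=
  mem_nonunits_iff_gRel_of ((FK N K).subtype.comp (w : FK N K →+* FK N K)) _
    (fun _ => (S34.GaussV.mem_V2_iff w hdvr).trans (S34.GaussV.mem_V1_iff hdvr)) x

/-- `𝔪(V1) = π · V1`. -/
theorem mem_nonunits_V1_iff_exists (hdvr : IsDiscreteValuationRing (OK A K)) {π : OK A K}
    (hπ : Irreducible π) (x : FK N K) :
    x ∈ (S34.GaussV.V1 N A K hdvr).nonunits ↔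
      ∃ z ∈ S34.GaussV.V1 N A K hdvr, x = algebraMap (OK A K) (FK N K) π * z := by
  rw [mem_nonunits_V1_iff]
  constructor
  · intro h
    have hx : x ∈ S34.GaussV.V1 N A K hdvr := ⟨0, h⟩
    exact (S34.GaussV.red1_eq_zero_iff hdvr hπ ⟨x, hx⟩).mp
      (S34.GaussV.red1_eq_of_gRel hdvr ⟨x, hx⟩ h)
  · rintro ⟨z, hz, rfl⟩
    have hx : algebraMap (OK A K) (FK N K) π * z ∈ S34.GaussV.V1 N A K hdvr :=
      (S34.GaussV.V1 N A K hdvr).mul_mem _ _ (S34.GaussV.algebraMap_mem_V1 hdvr π) hz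
    have h0 := (S34.GaussV.red1_eq_zero_iff hdvr hπ ⟨_, hx⟩).mpr ⟨z, hz, rfl⟩
    have h1 := S34.GaussV.gRel_red1 hdvr ⟨_, hx⟩
    rwa [h0] at h1

/-- `𝔪(V2) = π · V2`. -/
theorem mem_nonunits_V2_iff_exists (w : FK N K ≃+* FK N K)
    (hw : ∀ c : OK A K, w (algebraMap (OK A K) (FK N K) c) = algebraMap (OK A K) (FK N K) c)
    (hdvr : IsDiscreteValuationRing (OK A K)) {π : OK A K} (hπ : Irreducible π) (x : FK N K) :
    x ∈ (S34.GaussV.V2 w hdvr).nonunits ↔
      ∃ z ∈ S34.GaussV.V2 w hdvr, x = algebraMap (OK A K) (FK N K) π * z := by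
  rw [mem_nonunits_V2_iff]
  constructor
  · intro h
    have hx : x ∈ S34.GaussV.V2 w hdvr := ⟨0, h⟩
    refine (S34.GaussV.red2_eq_zero_iff w hw hdvr hπ ⟨x, hx⟩).mp ?_
    rw [S34.GaussV.red2_apply]
    exact S34.GaussV.red1_eq_of_gRel hdvr _ h
  · rintro ⟨z, hz, rfl⟩
    have hx : algebraMap (OK A K) (FK N K) π * z ∈ S34.GaussV.V2 w hdvr :=
      (S34.GaussV.V2 w hdvr).mul_mem _ _ (S34.GaussV.algebraMap_mem_V2 w hw hdvr π) hz
    have h0 := (S34.GaussV.red2_eq_zero_iff w hw hdvr hπ ⟨_, hx⟩).mpr ⟨z, hz, rfl⟩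
    have h1 := S34.GaussV.gRel_red2 w hdvr ⟨_, hx⟩
    rwa [h0] at h1

end Gauss

/-! ### The `W3`-fields -/

section W3

variable {M q : ℕ} [NeZero M] [NeZero q] {hq : q.Prime} {hqM : ¬ q ∣ M}
variable {A : ValuationSubring Qb} {K K' : IntermediateField ℚ Qb}
variable {ξ : Qb} {hξ0 : ξ ≠ 0} {ι : FK (M * q * q) K →+* LaurentSeries Qb} {ϖ : OK A K'}
variable (H : V3.Hyp3 M q hq hqM A K K' ξ hξ0 ι ϖ)

include H

/-- The centre of `W3`: `𝔪(W3) = {x | GRel A (ι x) 0}`. -/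
theorem mem_nonunits_W3_iff (x : FK (M * q * q) K) :
    x ∈ H.W3.nonunits ↔ GRel A (ι x) 0 :=
  mem_nonunits_iff_gRel_of ι _ (fun _ => H.mem_W3_iff) x

/-- `𝔪(W3) = s · W3`, `s = j_{q²} − j`. -/
theorem mem_nonunits_W3_iff_exists (x : FK (M * q * q) K) :
    x ∈ H.W3.nonunits ↔ ∃ y ∈ H.W3, x = Wit3.sE M q hq hqM K * y :=
  mem_nonunits_iff_exists_mul _ H.s_mem H.s_inv_not_mem H.disc x

/-! #### `(α2)`: `W3 ∘ α = V1(M q)` -/

theorem gRel_alphaK2_iff (y : FK (M * q) K) (r : LaurentSeries (IsLocalRing.ResidueField A)) :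
    GRel A (ι (WQ2.alphaK2 M q K y)) r ↔ GRel A (y : LaurentSeries Qb) r := by
  rw [H.mid.alpha]

/-- **(α2)**, membership form. -/
theorem alphaK2_mem_W3_iff (hdvr : IsDiscreteValuationRing (OK A K)) (y : FK (M * q) K) :
    WQ2.alphaK2 M q K y ∈ H.W3 ↔ y ∈ S34.GaussV.V1 (M * q) A K hdvr :=
  H.alpha_mem_iff y

/-- **(α2)**, centre form. -/
theorem alphaK2_mem_nonunits_iff (hdvr : IsDiscreteValuationRing (OK A K)) (y : FK (M * q) K) :
    WQ2.alphaK2 M q K y ∈ H.W3.nonunits ↔ y ∈ (S34.GaussV.V1 (M * q) A K hdvr).nonunits :=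
  nonunits_iff_of_mem_iff (WQ2.alphaK2 M q K) H.W3 _ (alphaK2_mem_W3_iff H hdvr) y

/-- **(α2)**: `W3 ∩ α(F_K(M q)) = α(V1)`. -/
theorem comap_alphaK2 (hdvr : IsDiscreteValuationRing (OK A K)) :
    H.W3.comap (WQ2.alphaK2 M q K) = S34.GaussV.V1 (M * q) A K hdvr :=
  comap_eq_of_mem_iff _ _ _ (alphaK2_mem_W3_iff H hdvr)

/-! #### `(β2)`: `W3 ∘ β = V2(M q) = V1(M q) ∘ w_q` -/

omit H in
theorem rotHom_of_eq_one (ζ : Qb) (hζ : ζ ≠ 0) (h1 : ζ = 1) (f : LaurentSeries Qb) :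
    rotHom ζ hζ f = f := by
  subst h1
  exact rotHom_one f

theorem gRel_betaK2_iff (hA : A.LiesOverPrime q) (y : FK (M * q) K)
    (r : LaurentSeries (IsLocalRing.ResidueField A)) :
    GRel A (ι (WQ2.betaK2 M q hq hqM K y)) r ↔
      GRel A ((S34.WK.wK M q hq hqM K y : FK (M * q) K) : LaurentSeries Qb) r := by
  have : Fact q.Prime := ⟨hq⟩
  refine ⟨fun h => ?_, fun h => H.gRel_beta hA h⟩
  rw [H.mid.beta] at h
  have hξi : ξ⁻¹ ^ q = 1 := by rw [inv_pow, H.xi_pow, inv_one]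
  have h2 := S34.ConjMod.gRel_rot q hA hξi (inv_ne_zero hξ0) h
  rwa [rotHom_rotHom, rotHom_of_eq_one _ _ (inv_mul_cancel₀ hξ0)] at h2

/-- **(β2)**, membership form. -/
theorem betaK2_mem_W3_iff (hA : A.LiesOverPrime q) (hdvr : IsDiscreteValuationRing (OK A K))
    (y : FK (M * q) K) :
    WQ2.betaK2 M q hq hqM K y ∈ H.W3 ↔
      y ∈ S34.GaussV.V2 (S34.WK.wK M q hq hqM K) hdvr := by
  rw [H.mem_W3_iff, S34.GaussV.mem_V2_iff, S34.GaussV.mem_V1_iff]
  exact exists_congr fun r => gRel_betaK2_iff H hA y r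

/-- **(β2)**, centre form. -/
theorem betaK2_mem_nonunits_iff (hA : A.LiesOverPrime q)
    (hdvr : IsDiscreteValuationRing (OK A K)) (y : FK (M * q) K) :
    WQ2.betaK2 M q hq hqM K y ∈ H.W3.nonunits ↔
      y ∈ (S34.GaussV.V2 (S34.WK.wK M q hq hqM K) hdvr).nonunits :=
  nonunits_iff_of_mem_iff (WQ2.betaK2 M q hq hqM K) H.W3 _ (betaK2_mem_W3_iff H hA hdvr) y

/-- **(β2)**: `W3 ∩ β(F_K(M q)) = β(V2)`. -/
theorem comap_betaK2 (hA : A.LiesOverPrime q) (hdvr : IsDiscreteValuationRing (OK A K)) :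
    H.W3.comap (WQ2.betaK2 M q hq hqM K) = S34.GaussV.V2 (S34.WK.wK M q hq hqM K) hdvr :=
  comap_eq_of_mem_iff _ _ _ (betaK2_mem_W3_iff H hA hdvr)

/-! #### `(hδ)`: `y(Q^{q²}) − y(Q) ∈ 𝔪(W3)` -/

/-- `ι (β₂ (β y)) = rot_ξ y` for `y` of level `M`. -/
theorem iota_betaK2_betaK (y : FK M K) :
    ι (WQ2.betaK2 M q hq hqM K (S34.WK.betaK M q hq hqM K y))
      = rotHom ξ hξ0 ((y : FK M K) : LaurentSeries Qb) := by
  rw [H.mid.beta, S34.WK.wK_betaK, S34.WK.coe_alphaK]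

/-- `ι (α₂ (α y)) = y` for `y` of level `M`. -/
theorem iota_alphaK2_alphaK (y : FK M K) :
    ι (WQ2.alphaK2 M q K (S34.WK.alphaK M q K y)) = ((y : FK M K) : LaurentSeries Qb) := by
  rw [H.mid.alpha, S34.WK.coe_alphaK]

/-- **(hδ)**, `GRel` form: `δ_y = β₂(β y) − α₂(α y)` reduces to `0` along `ι` for every
Gauss-integral `y` of level `M`. -/
theorem gRel_delta (hA : A.LiesOverPrime q) (y : FK M K)
    {r : LaurentSeries (IsLocalRing.ResidueField A)}
    (h : GRel A ((y : FK M K) : LaurentSeries Qb) r) :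
    GRel A (ι (WQ2.betaK2 M q hq hqM K (S34.WK.betaK M q hq hqM K y)
      - WQ2.alphaK2 M q K (S34.WK.alphaK M q K y))) 0 := by
  have : Fact q.Prime := ⟨hq⟩
  rw [map_sub, iota_betaK2_betaK H, iota_alphaK2_alphaK H]
  have h1 := S34.ConjMod.gRel_rot q hA H.xi_pow hξ0 h
  have h2 := (Fermat.Agent.S18.GRel.gRelStatement A).add _ _ _ _ h1
    ((Fermat.Agent.S18.GRel.gRelStatement A).neg _ _ h)
  rwa [← sub_eq_add_neg, ← sub_eq_add_neg, sub_self] at h2

/-- **(hδ)**, centre form. -/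
theorem delta_mem_nonunits (hA : A.LiesOverPrime q) (hdvr : IsDiscreteValuationRing (OK A K))
    (y : FK M K) (hy : y ∈ S34.GaussV.V1 M A K hdvr) :
    WQ2.betaK2 M q hq hqM K (S34.WK.betaK M q hq hqM K y)
      - WQ2.alphaK2 M q K (S34.WK.alphaK M q K y) ∈ H.W3.nonunits := by
  obtain ⟨r, hr⟩ := hy
  exact (mem_nonunits_W3_iff H _).mpr (gRel_delta H hA y hr)

/-! #### Ideal level (`Inc3.Hyp.α2`, `Inc3.Hyp.β2`)

`R`, `S` are ANY subalgebras (charts) of levels `M q²`, `M q`; `αc`, `βc` ANY ring homomorphisms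
`S → R` inducing `α₂`, `β₂`; the vertical primes are given in the `mem_P` shape
`r ∈ P ↔ ∃ y ∈ V, r = ϖ * y` (`Model3Plan.ChartHyp3.mem_P`, `S34.LocPlan.ChartHyp.mem_P`) with
`ϖ = s = j_{q²} − j` upstairs on `W3` and `ϖ = π` downstairs. -/

/-- **`Inc3.Hyp.α2`**: `(P 2).comap α = P' 0`. -/
theorem comap_alpha_P2 (hdvr : IsDiscreteValuationRing (OK A K)) {π : OK A K}
    (hπ : Irreducible π)
    {S : Subalgebra (OK A K) (FK (M * q) K)} {R : Subalgebra (OK A K) (FK (M * q * q) K)}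
    (αc : S →+* R)
    (hαc : ∀ s : S, ((αc s : R) : FK (M * q * q) K) = WQ2.alphaK2 M q K (s : FK (M * q) K))
    (P2 : Ideal R)
    (hP2 : ∀ r : R, r ∈ P2 ↔
      ∃ y ∈ H.W3, (r : FK (M * q * q) K) = Wit3.sE M q hq hqM K * y)
    (P0' : Ideal S)
    (hP0' : ∀ s : S, s ∈ P0' ↔ ∃ y ∈ S34.GaussV.V1 (M * q) A K hdvr,
      (s : FK (M * q) K) = algebraMap (OK A K) (FK (M * q) K) π * y) :
    P2.comap αc = P0' :=
  comap_eq_of_nonunits (WQ2.alphaK2 M q K) (fun s : S => (s : FK (M * q) K))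
    (fun r : R => (r : FK (M * q * q) K)) αc hαc H.W3 (S34.GaussV.V1 (M * q) A K hdvr)
    (alphaK2_mem_nonunits_iff H hdvr) P2
    (fun r => (hP2 r).trans (mem_nonunits_W3_iff_exists H _).symm) P0'
    (fun s => (hP0' s).trans (mem_nonunits_V1_iff_exists hdvr hπ _).symm)

/-- **`Inc3.Hyp.β2`**: `(P 2).comap β = P' 1`. -/
theorem comap_beta_P2 (hA : A.LiesOverPrime q) (hdvr : IsDiscreteValuationRing (OK A K))
    {π : OK A K} (hπ : Irreducible π)
    {S : Subalgebra (OK A K) (FK (M * q) K)} {R : Subalgebra (OK A K) (FK (M * q * q) K)}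
    (βc : S →+* R)
    (hβc : ∀ s : S,
      ((βc s : R) : FK (M * q * q) K) = WQ2.betaK2 M q hq hqM K (s : FK (M * q) K))
    (P2 : Ideal R)
    (hP2 : ∀ r : R, r ∈ P2 ↔
      ∃ y ∈ H.W3, (r : FK (M * q * q) K) = Wit3.sE M q hq hqM K * y)
    (P1' : Ideal S)
    (hP1' : ∀ s : S, s ∈ P1' ↔ ∃ y ∈ S34.GaussV.V2 (S34.WK.wK M q hq hqM K) hdvr,
      (s : FK (M * q) K) = algebraMap (OK A K) (FK (M * q) K) π * y) :
    P2.comap βc = P1' :=
  comap_eq_of_nonunits (WQ2.betaK2 M q hq hqM K) (fun s : S => (s : FK (M * q) K))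
    (fun r : R => (r : FK (M * q * q) K)) βc hβc H.W3
    (S34.GaussV.V2 (S34.WK.wK M q hq hqM K) hdvr)
    (betaK2_mem_nonunits_iff H hA hdvr) P2
    (fun r => (hP2 r).trans (mem_nonunits_W3_iff_exists H _).symm) P1'
    (fun s => (hP1' s).trans
      (mem_nonunits_V2_iff_exists (S34.WK.wK M q hq hqM K)
        (S34.WK.wK_algebraMap_OK M q hq hqM K A) hdvr hπ _).symm)

end W3

end Fermat.Agent.S36.Inc3W3
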