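import Mathlib
import Fermat.Agent.S34.FrobTwist

/-!
# S36, leaf [TOR-M] (F) (helper86): forward Frobenius stability of the level-`M` special fibre

Setting of `S34/FrobTwist`: `q ∤ M`, `A` a valuation ring of `ℚ̄` over `q`, `K` a base with
`BaseFacts q A K`, `k` the residue field of `A`, `R_M ∈ {R0 M q A K, Rinf M q A K}`.

* `exists_frob_fwd_R0`, `exists_frob_fwd_Rinf` : for every `x ∈ R_M` there is `z ∈ R_M` with
  `z(Q^q) ≡ x^q` modulo the Gauss maximal ideal:

    `GRel A (qExpand Qb q z - x ^ q) 0`.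

  Indeed `(red x)^q = (φ (red x))(Q^q)` (`φ` the coefficientwise Frobenius of `k((Q))`), and
  `φ (red x)` lies in `ρ_M(R_M)`: it lies in `F_k(M)`, hence is the reduction of an element of
  `F_K(M)`, and it is integral over `ρ_M(R_M)`.

This is the twin of `S34/FrobTwist.exists_frob_root_R0/_Rinf` (the root direction
`x(Q^q) ≡ z^q`); it is the input of the purely inseparable branch statements (`x ^ q` is
congruent to a pull-back from the lower level).
-/

set_option autoImplicit false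

noncomputable section

namespace Fermat.Agent.S36.FrobFwd

open ModularCurve HahnSeries Fermat.Agent.S18 Fermat.Agent.S18.Arith Fermat.Agent.S18.ModelPlan
open Fermat.Agent.S34.Branch Fermat.Agent.S34.FrobTwist

/-! ### Forward Frobenius -/

section Frob

variable (M : ℕ) [NeZero M] (q : ℕ) [Fact q.Prime] {A : ValuationSubring Qb}
  {K : IntermediateField ℚ Qb}

/-- **Forward Frobenius, general chart.**  For `x ∈ R` there is `z ∈ R` with
`z(Q^q) ≡ x^q` modulo the Gauss maximal ideal. -/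
theorem exists_frob_fwd_of (hA : A.LiesOverPrime q)
    (hres : ∀ a : A, ∃ (x : K) (hx : (x : Qb) ∈ A),
      IsLocalRing.residue A a = IsLocalRing.residue A ⟨(x : Qb), hx⟩)
    (R : Subalgebra (OK A K) (FK M K)) (t : FK M K) (hC : ChartFacts M A K R t)
    (hB1 : ∀ y : LaurentSeries (IsLocalRing.ResidueField A),
      (∃ x' : FK M K, GRel A ((x' : FK M K) : LaurentSeries Qb) y) →
      IsIntegral (redRing M A K R) y → y ∈ redRing M A K R)
    (yt : LaurentSeries (IsLocalRing.ResidueField A))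
    (hyt : GRel A ((t : FK M K) : LaurentSeries Qb) yt)
    (hσt : ∀ s : IsLocalRing.ResidueField A →+* IsLocalRing.ResidueField A, coeffMap s yt = yt)
    (x : FK M K) (hx : x ∈ R) :
    ∃ z ∈ R, GRel A (qExpand Qb q ((z : FK M K) : LaurentSeries Qb) -
      ((x : FK M K) : LaurentSeries Qb) ^ q) 0 := by
  have hG := GRel.gRelStatement A
  have : CharP (IsLocalRing.ResidueField A) q := BaseRes.charP_residueField q A hA
  obtain ⟨ρ, hρ, -, hFk⟩ := hC.red
  let σ : IsLocalRing.ResidueField A →+* IsLocalRing.ResidueField A :=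
    frobenius (IsLocalRing.ResidueField A) q
  have hz1 : coeffMap σ (ρ ⟨x, hx⟩) ∈ modularFunctionFieldFullC (IsLocalRing.ResidueField A) M :=
    QExpFrac.coeffMap_mem_fullC σ M (hFk ⟨x, hx⟩)
  have hz2 := exists_gRel_of_mem_fullC (K := K) M hres hz1
  have hconst : ∀ c : IsLocalRing.ResidueField A,
      (C c : LaurentSeries (IsLocalRing.ResidueField A)) ∈ redRing M A K R := by
    intro c
    obtain ⟨a, rfl⟩ := IsLocalRing.residue_surjective c
    obtain ⟨x₀, hx₀, hax⟩ := hres a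
    have h := const_mem_redRing R (⟨x₀, hx₀⟩ : OK A K)
    have e : resO A K ⟨x₀, hx₀⟩ = IsLocalRing.residue A a := hax.symm
    rwa [e] at h
  have hz3 : IsIntegral (redRing M A K R) (coeffMap σ (ρ ⟨x, hx⟩)) := by
    refine isIntegral_map_red M R t hC.t_mem hC.integral ρ hρ (coeffMap σ) ?_ ?_ ⟨x, hx⟩
    · have e : ρ ⟨t, hC.t_mem⟩ = yt := hG.unique _ _ _ (hρ _) hyt
      rw [e, hσt σ]
      exact ⟨t, hC.t_mem, hyt⟩
    · intro c
      have e : coeffMap σ (C (resO A K c) : LaurentSeries (IsLocalRing.ResidueField A)) =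
          C (σ (resO A K c)) := coeffMap_single _ _ _
      rw [e]
      exact hconst _
  obtain ⟨z, hzR, hzG⟩ := hB1 _ hz2 hz3
  refine ⟨z, hzR, ?_⟩
  have h1 : GRel A (qExpand Qb q ((z : FK M K) : LaurentSeries Qb))
      (qExpand (IsLocalRing.ResidueField A) q (coeffMap σ (ρ ⟨x, hx⟩))) := gRel_qExpand q hzG
  have h2 : ρ ⟨x, hx⟩ ^ q = qExpand (IsLocalRing.ResidueField A) q (coeffMap σ (ρ ⟨x, hx⟩)) :=
    Fermat.Agent.S37.KC.pow_eq_qExpand_coeffMap q σ (fun a => frobenius_def q a) (ρ ⟨x, hx⟩)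
  have h3 : GRel A (((x : FK M K) : LaurentSeries Qb) ^ q) (ρ ⟨x, hx⟩ ^ q) :=
    ModelRed.gRel_pow hG (hρ ⟨x, hx⟩) q
  have h4 := hG.add _ _ _ _ h1 (hG.neg _ _ h3)
  rw [← h2, add_neg_cancel, ← sub_eq_add_neg] at h4
  exact h4

/-- **Forward Frobenius on `R0`** : for `x ∈ R0(M)` there is `z ∈ R0(M)` with
`z(Q^q) ≡ x^q` modulo the Gauss maximal ideal. -/
theorem exists_frob_fwd_R0 (hqM : ¬ q ∣ M) (hA : A.LiesOverPrime q) (hB : BaseFacts q A K)
    (x : FK M K) (hx : x ∈ R0 M q A K) :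
    ∃ z ∈ R0 M q A K, GRel A (qExpand Qb q ((z : FK M K) : LaurentSeries Qb) -
      ((x : FK M K) : LaurentSeries Qb) ^ q) 0 := by
  have hG := GRel.gRelStatement A
  have hM := ModelAll.modelStatement M q hqM A hA K hB
  exact exists_frob_fwd_of M q hA hB.res_surj (R0 M q A K) (jK M K) hM.c0
    (fun y hy hint => mem_redRing_R0 M q hqM hA hB hy hint)
    (jqModC (IsLocalRing.ResidueField A)) (QExpDefs.gRel_jΩ hG)
    (fun s => coeffMap_jqModC s) x hx

/-- **Forward Frobenius on `Rinf`** : for `x ∈ Rinf(M)` there is `z ∈ Rinf(M)` with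
`z(Q^q) ≡ x^q` modulo the Gauss maximal ideal. -/
theorem exists_frob_fwd_Rinf (hqM : ¬ q ∣ M) (hA : A.LiesOverPrime q) (hB : BaseFacts q A K)
    (x : FK M K) (hx : x ∈ Rinf M q A K) :
    ∃ z ∈ Rinf M q A K, GRel A (qExpand Qb q ((z : FK M K) : LaurentSeries Qb) -
      ((x : FK M K) : LaurentSeries Qb) ^ q) 0 := by
  have hG := GRel.gRelStatement A
  have hM := ModelAll.modelStatement M q hqM A hA K hB
  have hjb : jqModC (IsLocalRing.ResidueField A) ≠ 0 := by
    intro h
    have h1 : QExpDefs.evbar A K Polynomial.X = 0 := by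
      rw [QExpDefs.evbar_apply, Polynomial.eval₂_X, h]
    have h2 := (QExpDefs.evbar_eq_zero_iff A K _).mp h1
    rw [Polynomial.map_X] at h2
    exact Polynomial.X_ne_zero h2
  have hjM : GRel A (((jK M K)⁻¹ : FK M K) : LaurentSeries Qb)
      (jqModC (IsLocalRing.ResidueField A))⁻¹ := hG.inv _ _ (QExpDefs.gRel_jΩ hG) hjb
  exact exists_frob_fwd_of M q hA hB.res_surj (Rinf M q A K) (jK M K)⁻¹ hM.cInf
    (fun y hy hint => mem_redRing_Rinf M q hqM hA hB hy hint)
    (jqModC (IsLocalRing.ResidueField A))⁻¹ hjM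
    (fun s => by rw [map_inv₀, coeffMap_jqModC]) x hx

end Frob

end Fermat.Agent.S36.FrobFwd
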