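import Mathlib
import Fermat.Agent.S34.BranchInst
import Fermat.Agent.S36.FrobFwd
import Fermat.Agent.S36.WQ2

/-!
# S36, leaf [TOR-M] (helper86): branch transfer between the levels `M q` and `M q²`

Levels `M`, `M * q`, `M * q * q` (`q` prime, `q ∤ M`); `R_M` a chart of level `M`,
`R_Y = chart (M * q) A K tY`, `R_Z = chart (M * q * q) A K t`; `α = WQ2.alphaK2`,
`β = WQ2.betaK2 : F_K(M q) → F_K(M q²)`, `w = WQ2.wK2`; `αc`, `βc` their restrictions to the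
charts (`S34.BranchInst.chartHom`).  `P0`, `P1`, `P2` are the three vertical primes of `R_Z`
(centres of `W1` = Gauss, `W2 = W1 ∘ w`, `W3`).

Chart-level statements (the hypotheses `(deg1)` and `(rad)` of `S36/Inc3`):

* `exists_alpha_P0` : `∀ x : R_Z, ∃ y : R_Y, x - αc y ∈ P0`        (residue degree one, `W1` over `α`)
* `exists_alpha_P2` : `∀ x : R_Z, ∃ y : R_Y, x - αc y ∈ P2`        (residue degree one, `W3` over `α`)
* `exists_beta_P1`  : `∀ x : R_Z, ∃ y : R_Y, x - βc y ∈ P1`        (residue degree one, `W2` over `β`)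
* `exists_beta_P2`  : `∀ x : R_Z, ∃ y : R_Y, x - βc y ∈ P2`        (residue degree one, `W3` over `β`)
* `exists_beta_pow_P0`  : `∀ x : R_Z, ∃ y : R_Y, x ^ q - βc y ∈ P0`  (purely inseparable, `W1` over `β`)
* `exists_alpha_pow_P1` : `∀ x : R_Z, ∃ y : R_Y, x ^ q - αc y ∈ P1`  (purely inseparable, `W2` over `α`)

from the residue-degree-one statements of the level-`M q²` chart over the level-`M` chart
(`h0` for `W1`, `h2` for `W3`; these are what the `branch` field of the model proves), the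
description of `P0`, `P1` by Gauss reductions, `δ_y = y(Q^{q²}) - y(Q) ∈ P2` (`hδ`), and the
forward Frobenius stability of the level-`M` chart (`S36/FrobFwd`).
-/

set_option autoImplicit false

noncomputable section

namespace Fermat.Agent.S36.TorM

open ModularCurve HahnSeries Fermat.Agent.S18 Fermat.Agent.S18.Arith Fermat.Agent.S18.ModelPlan
open Fermat.Agent.S34

variable (M q : ℕ) [NeZero M] [NeZero q] (hq : q.Prime) (hqM : ¬ q ∣ M)
variable {A : ValuationSubring Qb} (K : IntermediateField ℚ Qb)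

/-! ### Field-level identities -/

/-- The inclusion `F_K(M) → F_K(M q²)`. -/
def incl2 : FK M K →+* FK (M * q * q) K := (WQ2.alphaK2 M q K).comp (WK.alphaK M q K)

theorem incl2_apply (y : FK M K) :
    incl2 M q K y = WQ2.alphaK2 M q K (WK.alphaK M q K y) := rfl

theorem coe_incl2 (y : FK M K) :
    ((incl2 M q K y : FK (M * q * q) K) : LaurentSeries Qb) = (y : LaurentSeries Qb) := by
  rw [incl2_apply, WQ2.coe_alphaK2, WK.coe_alphaK]

/-- `w_{q²} (y(Q)) = y(Q^{q²}) = β (β_Y y)`. -/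
theorem wK2_incl2 (y : FK M K) :
    WQ2.wK2 M q hq hqM K (incl2 M q K y) =
      WQ2.betaK2 M q hq hqM K (WK.betaK M q hq hqM K y) := by
  rw [incl2_apply, WQ2.wK2_alphaK2, WK.wK_alphaK]

/-- `w_{q²} (β (β_Y y)) = y(Q)`. -/
theorem wK2_betaK2_betaK (y : FK M K) :
    WQ2.wK2 M q hq hqM K (WQ2.betaK2 M q hq hqM K (WK.betaK M q hq hqM K y)) =
      incl2 M q K y := by
  rw [WQ2.wK2_betaK2, WK.wK_betaK, incl2_apply]

/-- `w_{q²} (β (α_Y z)) = α (β_Y z)` (both are `z(Q^q)`). -/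
theorem wK2_betaK2_alphaK (z : FK M K) :
    WQ2.wK2 M q hq hqM K (WQ2.betaK2 M q hq hqM K (WK.alphaK M q K z)) =
      WQ2.alphaK2 M q K (WK.betaK M q hq hqM K z) := by
  rw [WQ2.wK2_betaK2, WK.wK_alphaK]

/-- `w_{q²} (α (β_Y z)) = β (α_Y z)`. -/
theorem wK2_alphaK2_betaK (z : FK M K) :
    WQ2.wK2 M q hq hqM K (WQ2.alphaK2 M q K (WK.betaK M q hq hqM K z)) =
      WQ2.betaK2 M q hq hqM K (WK.alphaK M q K z) := by
  rw [WQ2.wK2_alphaK2, WK.wK_betaK]

/-- `β (α_Y z) = z(Q^q)` on `q`-expansions. -/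
theorem coe_betaK2_alphaK (z : FK M K) :
    ((WQ2.betaK2 M q hq hqM K (WK.alphaK M q K z) : FK (M * q * q) K) : LaurentSeries Qb) =
      qExpand Qb q (z : LaurentSeries Qb) := by
  rw [WQ2.coe_betaK2, WK.coe_alphaK]

/-! ### Residue degree one -/

section Deg1

variable {M q K}
variable (RM : Subalgebra (OK A K) (FK M K)) (tY : FK (M * q) K) (t : FK (M * q * q) K)

/-- **(deg1), `W1` over `α`.**  Every element of the level-`M q²` chart is congruent modulo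
`P0` to the `α`-pull-back of an element of the level-`M q` chart. -/
theorem exists_alpha_P0
    (haY : ∀ y ∈ RM, WK.alphaK M q K y ∈ chart (M * q) A K tY)
    (hat : ∀ y ∈ chart (M * q) A K tY, WQ2.alphaK2 M q K y ∈ chart (M * q * q) A K t)
    (P0 : Ideal ↥(chart (M * q * q) A K t))
    (hP0 : ∀ r : ↥(chart (M * q * q) A K t), r ∈ P0 ↔
      GRel A (((r : FK (M * q * q) K)) : LaurentSeries Qb) 0)
    (h0 : ∀ x ∈ chart (M * q * q) A K t, ∃ y ∈ RM,
      GRel A (((x : FK (M * q * q) K) : LaurentSeries Qb) - ((y : FK M K) : LaurentSeries Qb)) 0)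
    (x : ↥(chart (M * q * q) A K t)) :
    ∃ y : ↥(chart (M * q) A K tY),
      x - BranchInst.chartHom tY t (WQ2.alphaK2 M q K) hat y ∈ P0 := by
  obtain ⟨y₀, hy₀, hg⟩ := h0 x x.2
  refine ⟨⟨WK.alphaK M q K y₀, haY y₀ hy₀⟩, ?_⟩
  rw [hP0, Subalgebra.coe_sub, BranchInst.chartHom_coe, Subfield.coe_sub, WQ2.coe_alphaK2,
    WK.coe_alphaK]
  exact hg

/-- **(deg1), `W3` over `α`.** -/
theorem exists_alpha_P2
    (haY : ∀ y ∈ RM, WK.alphaK M q K y ∈ chart (M * q) A K tY)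
    (hat : ∀ y ∈ chart (M * q) A K tY, WQ2.alphaK2 M q K y ∈ chart (M * q * q) A K t)
    (P2 : Ideal ↥(chart (M * q * q) A K t))
    (h2 : ∀ x ∈ chart (M * q * q) A K t, ∃ y ∈ RM, ∃ r ∈ P2,
      ((r : ↥(chart (M * q * q) A K t)) : FK (M * q * q) K) = x - incl2 M q K y)
    (x : ↥(chart (M * q * q) A K t)) :
    ∃ y : ↥(chart (M * q) A K tY),
      x - BranchInst.chartHom tY t (WQ2.alphaK2 M q K) hat y ∈ P2 := by
  obtain ⟨y₀, hy₀, r, hr, hrx⟩ := h2 x x.2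
  refine ⟨⟨WK.alphaK M q K y₀, haY y₀ hy₀⟩, ?_⟩
  have e : x - BranchInst.chartHom tY t (WQ2.alphaK2 M q K) hat
      ⟨WK.alphaK M q K y₀, haY y₀ hy₀⟩ = r := by
    apply Subtype.ext
    rw [Subalgebra.coe_sub, BranchInst.chartHom_coe, hrx, incl2_apply]
  rw [e]
  exact hr

/-- **(deg1), `W2` over `β`.** -/
theorem exists_beta_P1
    (hbY : ∀ y ∈ RM, WK.betaK M q hq hqM K y ∈ chart (M * q) A K tY)
    (hbt : ∀ y ∈ chart (M * q) A K tY, WQ2.betaK2 M q hq hqM K y ∈ chart (M * q * q) A K t)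
    (hwt : ∀ x ∈ chart (M * q * q) A K t, WQ2.wK2 M q hq hqM K x ∈ chart (M * q * q) A K t)
    (P1 : Ideal ↥(chart (M * q * q) A K t))
    (hP1 : ∀ r : ↥(chart (M * q * q) A K t), r ∈ P1 ↔
      GRel A ((WQ2.wK2 M q hq hqM K (r : FK (M * q * q) K) : FK (M * q * q) K) :
        LaurentSeries Qb) 0)
    (h0 : ∀ x ∈ chart (M * q * q) A K t, ∃ y ∈ RM,
      GRel A (((x : FK (M * q * q) K) : LaurentSeries Qb) - ((y : FK M K) : LaurentSeries Qb)) 0)
    (x : ↥(chart (M * q * q) A K t)) :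
    ∃ y : ↥(chart (M * q) A K tY),
      x - BranchInst.chartHom tY t (WQ2.betaK2 M q hq hqM K) hbt y ∈ P1 := by
  obtain ⟨y₀, hy₀, hg⟩ := h0 _ (hwt x x.2)
  refine ⟨⟨WK.betaK M q hq hqM K y₀, hbY y₀ hy₀⟩, ?_⟩
  rw [hP1, Subalgebra.coe_sub, BranchInst.chartHom_coe, map_sub, wK2_betaK2_betaK,
    Subfield.coe_sub, coe_incl2]
  exact hg

/-- **(deg1), `W3` over `β`.** -/
theorem exists_beta_P2
    (hbY : ∀ y ∈ RM, WK.betaK M q hq hqM K y ∈ chart (M * q) A K tY)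
    (hbt : ∀ y ∈ chart (M * q) A K tY, WQ2.betaK2 M q hq hqM K y ∈ chart (M * q * q) A K t)
    (P2 : Ideal ↥(chart (M * q * q) A K t))
    (h2 : ∀ x ∈ chart (M * q * q) A K t, ∃ y ∈ RM, ∃ r ∈ P2,
      ((r : ↥(chart (M * q * q) A K t)) : FK (M * q * q) K) = x - incl2 M q K y)
    (hδ : ∀ y ∈ RM, ∃ r ∈ P2, ((r : ↥(chart (M * q * q) A K t)) : FK (M * q * q) K) =
      WQ2.betaK2 M q hq hqM K (WK.betaK M q hq hqM K y) - incl2 M q K y)
    (x : ↥(chart (M * q * q) A K t)) :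
    ∃ y : ↥(chart (M * q) A K tY),
      x - BranchInst.chartHom tY t (WQ2.betaK2 M q hq hqM K) hbt y ∈ P2 := by
  obtain ⟨y₀, hy₀, r, hr, hrx⟩ := h2 x x.2
  obtain ⟨r', hr', hrδ⟩ := hδ y₀ hy₀
  refine ⟨⟨WK.betaK M q hq hqM K y₀, hbY y₀ hy₀⟩, ?_⟩
  have e : x - BranchInst.chartHom tY t (WQ2.betaK2 M q hq hqM K) hbt
      ⟨WK.betaK M q hq hqM K y₀, hbY y₀ hy₀⟩ = r - r' := by
    apply Subtype.ext
    rw [Subalgebra.coe_sub, Subalgebra.coe_sub, BranchInst.chartHom_coe, hrx, hrδ]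
    ring
  rw [e]
  exact P2.sub_mem hr hr'

end Deg1

/-! ### The purely inseparable branches -/

section Rad

variable {M q K}
variable (RM : Subalgebra (OK A K) (FK M K)) (tY : FK (M * q) K) (t : FK (M * q * q) K)

/-- **(rad), `W1` over `β`.**  The `q`-th power of every element of the level-`M q²` chart is
congruent modulo `P0` to the `β`-pull-back of an element of the level-`M q` chart. -/
theorem exists_beta_pow_P0
    (haY : ∀ y ∈ RM, WK.alphaK M q K y ∈ chart (M * q) A K tY)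
    (hat : ∀ y ∈ chart (M * q) A K tY, WQ2.alphaK2 M q K y ∈ chart (M * q * q) A K t)
    (hbt : ∀ y ∈ chart (M * q) A K tY, WQ2.betaK2 M q hq hqM K y ∈ chart (M * q * q) A K t)
    (P0 : Ideal ↥(chart (M * q * q) A K t))
    (hP0 : ∀ r : ↥(chart (M * q * q) A K t), r ∈ P0 ↔
      GRel A (((r : FK (M * q * q) K)) : LaurentSeries Qb) 0)
    (h0 : ∀ x ∈ chart (M * q * q) A K t, ∃ y ∈ RM,
      GRel A (((x : FK (M * q * q) K) : LaurentSeries Qb) - ((y : FK M K) : LaurentSeries Qb)) 0)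
    (hF : ∀ x ∈ RM, ∃ z ∈ RM, GRel A (qExpand Qb q ((z : FK M K) : LaurentSeries Qb) -
      ((x : FK M K) : LaurentSeries Qb) ^ q) 0)
    (x : ↥(chart (M * q * q) A K t)) :
    ∃ y : ↥(chart (M * q) A K tY),
      x ^ q - BranchInst.chartHom tY t (WQ2.betaK2 M q hq hqM K) hbt y ∈ P0 := by
  have hG := GRel.gRelStatement A
  obtain ⟨y₀, hy₀, hg⟩ := h0 x x.2
  obtain ⟨z, hz, hzg⟩ := hF y₀ hy₀
  refine ⟨⟨WK.alphaK M q K z, haY z hz⟩, ?_⟩
  -- the image of `y₀` in the level-`M q²` chart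
  let a : ↥(chart (M * q * q) A K t) := ⟨incl2 M q K y₀, hat _ (haY y₀ hy₀)⟩
  have ha : x - a ∈ P0 := by
    rw [hP0, Subalgebra.coe_sub, Subfield.coe_sub]
    show GRel A (((x : FK (M * q * q) K) : LaurentSeries Qb) -
      ((incl2 M q K y₀ : FK (M * q * q) K) : LaurentSeries Qb)) 0
    rw [coe_incl2]
    exact hg
  have h1 : x ^ q - a ^ q ∈ P0 := Ideal.mem_of_dvd P0 (sub_dvd_pow_sub_pow x a q) ha
  have h2 : a ^ q - BranchInst.chartHom tY t (WQ2.betaK2 M q hq hqM K) hbt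
      ⟨WK.alphaK M q K z, haY z hz⟩ ∈ P0 := by
    rw [hP0, Subalgebra.coe_sub, BranchInst.chartHom_coe, Subfield.coe_sub, coe_betaK2_alphaK,
      Subalgebra.coe_pow]
    show GRel A ((((incl2 M q K y₀ : FK (M * q * q) K) ^ q : FK (M * q * q) K) :
      LaurentSeries Qb) - qExpand Qb q ((z : FK M K) : LaurentSeries Qb)) 0
    rw [SubmonoidClass.coe_pow, coe_incl2]
    have h := hG.neg _ _ hzg
    rw [neg_sub, neg_zero] at h
    exact h
  have e : x ^ q - BranchInst.chartHom tY t (WQ2.betaK2 M q hq hqM K) hbt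
      ⟨WK.alphaK M q K z, haY z hz⟩ =
      (x ^ q - a ^ q) + (a ^ q - BranchInst.chartHom tY t (WQ2.betaK2 M q hq hqM K) hbt
        ⟨WK.alphaK M q K z, haY z hz⟩) := by ring
  rw [e]
  exact P0.add_mem h1 h2

/-- **(rad), `W2` over `α`.**  The `q`-th power of every element of the level-`M q²` chart is
congruent modulo `P1` to the `α`-pull-back of an element of the level-`M q` chart. -/
theorem exists_alpha_pow_P1
    (haY : ∀ y ∈ RM, WK.alphaK M q K y ∈ chart (M * q) A K tY)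
    (hbY : ∀ y ∈ RM, WK.betaK M q hq hqM K y ∈ chart (M * q) A K tY)
    (hat : ∀ y ∈ chart (M * q) A K tY, WQ2.alphaK2 M q K y ∈ chart (M * q * q) A K t)
    (hwt : ∀ x ∈ chart (M * q * q) A K t, WQ2.wK2 M q hq hqM K x ∈ chart (M * q * q) A K t)
    (P0 P1 : Ideal ↥(chart (M * q * q) A K t))
    (hP0 : ∀ r : ↥(chart (M * q * q) A K t), r ∈ P0 ↔
      GRel A (((r : FK (M * q * q) K)) : LaurentSeries Qb) 0)
    (hP1 : ∀ r : ↥(chart (M * q * q) A K t), r ∈ P1 ↔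
      GRel A ((WQ2.wK2 M q hq hqM K (r : FK (M * q * q) K) : FK (M * q * q) K) :
        LaurentSeries Qb) 0)
    (h0 : ∀ x ∈ chart (M * q * q) A K t, ∃ y ∈ RM,
      GRel A (((x : FK (M * q * q) K) : LaurentSeries Qb) - ((y : FK M K) : LaurentSeries Qb)) 0)
    (hF : ∀ x ∈ RM, ∃ z ∈ RM, GRel A (qExpand Qb q ((z : FK M K) : LaurentSeries Qb) -
      ((x : FK M K) : LaurentSeries Qb) ^ q) 0)
    (x : ↥(chart (M * q * q) A K t)) :
    ∃ y : ↥(chart (M * q) A K tY),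
      x ^ q - BranchInst.chartHom tY t (WQ2.alphaK2 M q K) hat y ∈ P1 := by
  have hG := GRel.gRelStatement A
  -- work with `w x`
  let wx : ↥(chart (M * q * q) A K t) := ⟨WQ2.wK2 M q hq hqM K x, hwt x x.2⟩
  obtain ⟨y₀, hy₀, hg⟩ := h0 wx wx.2
  obtain ⟨z, hz, hzg⟩ := hF y₀ hy₀
  refine ⟨⟨WK.betaK M q hq hqM K z, hbY z hz⟩, ?_⟩
  let a : ↥(chart (M * q * q) A K t) := ⟨incl2 M q K y₀, hat _ (haY y₀ hy₀)⟩
  have ha : wx - a ∈ P0 := by
    rw [hP0, Subalgebra.coe_sub, Subfield.coe_sub]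
    show GRel A (((WQ2.wK2 M q hq hqM K x : FK (M * q * q) K) : LaurentSeries Qb) -
      ((incl2 M q K y₀ : FK (M * q * q) K) : LaurentSeries Qb)) 0
    rw [coe_incl2]
    exact hg
  have h1 : wx ^ q - a ^ q ∈ P0 := Ideal.mem_of_dvd P0 (sub_dvd_pow_sub_pow wx a q) ha
  have h1' := (hP0 _).mp h1
  rw [Subalgebra.coe_sub, Subfield.coe_sub, Subalgebra.coe_pow, Subalgebra.coe_pow] at h1'
  have h1'' : GRel A ((((WQ2.wK2 M q hq hqM K x : FK (M * q * q) K) ^ q : FK (M * q * q) K) :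
      LaurentSeries Qb) - ((y₀ : FK M K) : LaurentSeries Qb) ^ q) 0 := by
    have e : (((incl2 M q K y₀ : FK (M * q * q) K) ^ q : FK (M * q * q) K) : LaurentSeries Qb) =
        ((y₀ : FK M K) : LaurentSeries Qb) ^ q := by
      rw [SubmonoidClass.coe_pow, coe_incl2]
    rw [← e]
    exact h1'
  rw [hP1, Subalgebra.coe_sub, BranchInst.chartHom_coe, map_sub, Subalgebra.coe_pow, map_pow,
    wK2_alphaK2_betaK, Subfield.coe_sub, coe_betaK2_alphaK]
  have h3 := hG.add _ _ _ _ h1'' (hG.neg _ _ hzg)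
  rw [neg_zero, add_zero] at h3
  have e2 : (((WQ2.wK2 M q hq hqM K x : FK (M * q * q) K) ^ q : FK (M * q * q) K) :
      LaurentSeries Qb) - ((y₀ : FK M K) : LaurentSeries Qb) ^ q +
      -(qExpand Qb q ((z : FK M K) : LaurentSeries Qb) - ((y₀ : FK M K) : LaurentSeries Qb) ^ q) =
      (((WQ2.wK2 M q hq hqM K x : FK (M * q * q) K) ^ q : FK (M * q * q) K) :
      LaurentSeries Qb) - qExpand Qb q ((z : FK M K) : LaurentSeries Qb) := by ring
  rw [e2] at h3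
  exact h3

end Rad

/-! ### Bundled forms -/

section Bundle

variable {M q K}
variable (RM : Subalgebra (OK A K) (FK M K)) (tY : FK (M * q) K) (t : FK (M * q * q) K)

/-- `P0 = R ∩ π V1` in Gauss-reduction form. -/
theorem gRel_iff_of_V1 (hdvr : IsDiscreteValuationRing (OK A K)) {π : OK A K}
    (hπ : Irreducible π) (P0 : Ideal ↥(chart (M * q * q) A K t))
    (hP0 : ∀ r : ↥(chart (M * q * q) A K t), r ∈ P0 ↔
      ∃ y ∈ GaussV.V1 (M * q * q) A K hdvr,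
        (r : FK (M * q * q) K) = algebraMap (OK A K) (FK (M * q * q) K) π * y)
    (r : ↥(chart (M * q * q) A K t)) :
    r ∈ P0 ↔ GRel A (((r : FK (M * q * q) K)) : LaurentSeries Qb) 0 := by
  rw [hP0, BranchInst.exists_V1_iff_gRel hdvr hπ]

/-- `P1 = R ∩ π V2`, `V2 = w⁻¹ V1`, in Gauss-reduction form. -/
theorem gRel_iff_of_V2 (hdvr : IsDiscreteValuationRing (OK A K)) {π : OK A K}
    (hπ : Irreducible π) (P1 : Ideal ↥(chart (M * q * q) A K t))
    (hP1 : ∀ r : ↥(chart (M * q * q) A K t), r ∈ P1 ↔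
      ∃ y ∈ GaussV.V2 (WQ2.wK2 M q hq hqM K) hdvr,
        (r : FK (M * q * q) K) = algebraMap (OK A K) (FK (M * q * q) K) π * y)
    (r : ↥(chart (M * q * q) A K t)) :
    r ∈ P1 ↔ GRel A ((WQ2.wK2 M q hq hqM K (r : FK (M * q * q) K) : FK (M * q * q) K) :
      LaurentSeries Qb) 0 := by
  rw [hP1, ← BranchInst.exists_V1_iff_gRel hdvr hπ]
  constructor
  · rintro ⟨y, hy, hr⟩
    refine ⟨WQ2.wK2 M q hq hqM K y, (GaussV.mem_V2_iff _ hdvr).mp hy, ?_⟩
    rw [hr, map_mul, WQ2.wK2_algebraMap_OK]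
  · rintro ⟨y, hy, hr⟩
    refine ⟨WQ2.wK2 M q hq hqM K y, ?_, ?_⟩
    · rw [GaussV.mem_V2_iff, WQ2.wK2_wK2]
      exact hy
    · have h := congrArg (WQ2.wK2 M q hq hqM K) hr
      rw [WQ2.wK2_wK2, map_mul, WQ2.wK2_algebraMap_OK] at h
      exact h

/-- **[TOR-M], bundled.**  The hypotheses `(deg1)` and `(rad)` of `S36/Inc3` for the charts
`chart (M * q) A K tY → chart (M * q * q) A K t`, with `k = q`, and `(deg1)` for `W3` over
`β`. -/
theorem transfer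
    (haY : ∀ y ∈ RM, WK.alphaK M q K y ∈ chart (M * q) A K tY)
    (hbY : ∀ y ∈ RM, WK.betaK M q hq hqM K y ∈ chart (M * q) A K tY)
    (hat : ∀ y ∈ chart (M * q) A K tY, WQ2.alphaK2 M q K y ∈ chart (M * q * q) A K t)
    (hbt : ∀ y ∈ chart (M * q) A K tY, WQ2.betaK2 M q hq hqM K y ∈ chart (M * q * q) A K t)
    (hwt : ∀ x ∈ chart (M * q * q) A K t, WQ2.wK2 M q hq hqM K x ∈ chart (M * q * q) A K t)
    (P : Fin 3 → Ideal ↥(chart (M * q * q) A K t))
    (hP0 : ∀ r : ↥(chart (M * q * q) A K t), r ∈ P 0 ↔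
      GRel A (((r : FK (M * q * q) K)) : LaurentSeries Qb) 0)
    (hP1 : ∀ r : ↥(chart (M * q * q) A K t), r ∈ P 1 ↔
      GRel A ((WQ2.wK2 M q hq hqM K (r : FK (M * q * q) K) : FK (M * q * q) K) :
        LaurentSeries Qb) 0)
    (h0 : ∀ x ∈ chart (M * q * q) A K t, ∃ y ∈ RM,
      GRel A (((x : FK (M * q * q) K) : LaurentSeries Qb) - ((y : FK M K) : LaurentSeries Qb)) 0)
    (h2 : ∀ x ∈ chart (M * q * q) A K t, ∃ y ∈ RM, ∃ r ∈ P 2,
      ((r : ↥(chart (M * q * q) A K t)) : FK (M * q * q) K) = x - incl2 M q K y)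
    (hδ : ∀ y ∈ RM, ∃ r ∈ P 2, ((r : ↥(chart (M * q * q) A K t)) : FK (M * q * q) K) =
      WQ2.betaK2 M q hq hqM K (WK.betaK M q hq hqM K y) - incl2 M q K y)
    (hF : ∀ x ∈ RM, ∃ z ∈ RM, GRel A (qExpand Qb q ((z : FK M K) : LaurentSeries Qb) -
      ((x : FK M K) : LaurentSeries Qb) ^ q) 0) :
    (∀ x : ↥(chart (M * q * q) A K t), ∃ y : ↥(chart (M * q) A K tY),
      x - BranchInst.chartHom tY t (WQ2.alphaK2 M q K) hat y ∈ P 0) ∧
    (∀ x : ↥(chart (M * q * q) A K t), ∃ y : ↥(chart (M * q) A K tY),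
      x - BranchInst.chartHom tY t (WQ2.alphaK2 M q K) hat y ∈ P 2) ∧
    (∀ x : ↥(chart (M * q * q) A K t), ∃ y : ↥(chart (M * q) A K tY),
      x - BranchInst.chartHom tY t (WQ2.betaK2 M q hq hqM K) hbt y ∈ P 1) ∧
    (∀ x : ↥(chart (M * q * q) A K t), ∃ y : ↥(chart (M * q) A K tY),
      x - BranchInst.chartHom tY t (WQ2.betaK2 M q hq hqM K) hbt y ∈ P 2) ∧
    (∀ x : ↥(chart (M * q * q) A K t), ∃ y : ↥(chart (M * q) A K tY),
      x ^ q - BranchInst.chartHom tY t (WQ2.alphaK2 M q K) hat y ∈ P 1) ∧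
    (∀ x : ↥(chart (M * q * q) A K t), ∃ y : ↥(chart (M * q) A K tY),
      x ^ q - BranchInst.chartHom tY t (WQ2.betaK2 M q hq hqM K) hbt y ∈ P 0) :=
  ⟨exists_alpha_P0 RM tY t haY hat (P 0) hP0 h0,
    exists_alpha_P2 RM tY t haY hat (P 2) h2,
    exists_beta_P1 hq hqM RM tY t hbY hbt hwt (P 1) hP1 h0,
    exists_beta_P2 hq hqM RM tY t hbY hbt (P 2) h2 hδ,
    exists_alpha_pow_P1 hq hqM RM tY t haY hbY hat hwt (P 0) (P 1) hP0 hP1 h0 hF,
    exists_beta_pow_P0 hq hqM RM tY t haY hat hbt (P 0) hP0 h0 hF⟩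

/-- `transfer` over the level-`M` chart `R0 M` (`j ≠ ∞`): the Frobenius hypothesis is
discharged by `FrobFwd.exists_frob_fwd_R0`. -/
theorem transfer_R0 [Fact q.Prime] (hA : A.LiesOverPrime q) (hB : BaseFacts q A K)
    (haY : ∀ y ∈ R0 M q A K, WK.alphaK M q K y ∈ chart (M * q) A K tY)
    (hbY : ∀ y ∈ R0 M q A K, WK.betaK M q hq hqM K y ∈ chart (M * q) A K tY)
    (hat : ∀ y ∈ chart (M * q) A K tY, WQ2.alphaK2 M q K y ∈ chart (M * q * q) A K t)
    (hbt : ∀ y ∈ chart (M * q) A K tY, WQ2.betaK2 M q hq hqM K y ∈ chart (M * q * q) A K t)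
    (hwt : ∀ x ∈ chart (M * q * q) A K t, WQ2.wK2 M q hq hqM K x ∈ chart (M * q * q) A K t)
    (P : Fin 3 → Ideal ↥(chart (M * q * q) A K t))
    (hP0 : ∀ r : ↥(chart (M * q * q) A K t), r ∈ P 0 ↔
      GRel A (((r : FK (M * q * q) K)) : LaurentSeries Qb) 0)
    (hP1 : ∀ r : ↥(chart (M * q * q) A K t), r ∈ P 1 ↔
      GRel A ((WQ2.wK2 M q hq hqM K (r : FK (M * q * q) K) : FK (M * q * q) K) :
        LaurentSeries Qb) 0)
    (h0 : ∀ x ∈ chart (M * q * q) A K t, ∃ y ∈ R0 M q A K,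
      GRel A (((x : FK (M * q * q) K) : LaurentSeries Qb) - ((y : FK M K) : LaurentSeries Qb)) 0)
    (h2 : ∀ x ∈ chart (M * q * q) A K t, ∃ y ∈ R0 M q A K, ∃ r ∈ P 2,
      ((r : ↥(chart (M * q * q) A K t)) : FK (M * q * q) K) = x - incl2 M q K y)
    (hδ : ∀ y ∈ R0 M q A K, ∃ r ∈ P 2, ((r : ↥(chart (M * q * q) A K t)) : FK (M * q * q) K) =
      WQ2.betaK2 M q hq hqM K (WK.betaK M q hq hqM K y) - incl2 M q K y) :
    (∀ x : ↥(chart (M * q * q) A K t), ∃ y : ↥(chart (M * q) A K tY),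
      x - BranchInst.chartHom tY t (WQ2.alphaK2 M q K) hat y ∈ P 0) ∧
    (∀ x : ↥(chart (M * q * q) A K t), ∃ y : ↥(chart (M * q) A K tY),
      x - BranchInst.chartHom tY t (WQ2.alphaK2 M q K) hat y ∈ P 2) ∧
    (∀ x : ↥(chart (M * q * q) A K t), ∃ y : ↥(chart (M * q) A K tY),
      x - BranchInst.chartHom tY t (WQ2.betaK2 M q hq hqM K) hbt y ∈ P 1) ∧
    (∀ x : ↥(chart (M * q * q) A K t), ∃ y : ↥(chart (M * q) A K tY),
      x - BranchInst.chartHom tY t (WQ2.betaK2 M q hq hqM K) hbt y ∈ P 2) ∧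
    (∀ x : ↥(chart (M * q * q) A K t), ∃ y : ↥(chart (M * q) A K tY),
      x ^ q - BranchInst.chartHom tY t (WQ2.alphaK2 M q K) hat y ∈ P 1) ∧
    (∀ x : ↥(chart (M * q * q) A K t), ∃ y : ↥(chart (M * q) A K tY),
      x ^ q - BranchInst.chartHom tY t (WQ2.betaK2 M q hq hqM K) hbt y ∈ P 0) :=
  transfer hq hqM (R0 M q A K) tY t haY hbY hat hbt hwt P hP0 hP1 h0 h2 hδ
    (fun x hx => FrobFwd.exists_frob_fwd_R0 M q hqM hA hB x hx)

/-- `transfer` over the level-`M` chart `Rinf M` (`j ≠ 0`): the Frobenius hypothesis is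
discharged by `FrobFwd.exists_frob_fwd_Rinf`. -/
theorem transfer_Rinf [Fact q.Prime] (hA : A.LiesOverPrime q) (hB : BaseFacts q A K)
    (haY : ∀ y ∈ Rinf M q A K, WK.alphaK M q K y ∈ chart (M * q) A K tY)
    (hbY : ∀ y ∈ Rinf M q A K, WK.betaK M q hq hqM K y ∈ chart (M * q) A K tY)
    (hat : ∀ y ∈ chart (M * q) A K tY, WQ2.alphaK2 M q K y ∈ chart (M * q * q) A K t)
    (hbt : ∀ y ∈ chart (M * q) A K tY, WQ2.betaK2 M q hq hqM K y ∈ chart (M * q * q) A K t)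
    (hwt : ∀ x ∈ chart (M * q * q) A K t, WQ2.wK2 M q hq hqM K x ∈ chart (M * q * q) A K t)
    (P : Fin 3 → Ideal ↥(chart (M * q * q) A K t))
    (hP0 : ∀ r : ↥(chart (M * q * q) A K t), r ∈ P 0 ↔
      GRel A (((r : FK (M * q * q) K)) : LaurentSeries Qb) 0)
    (hP1 : ∀ r : ↥(chart (M * q * q) A K t), r ∈ P 1 ↔
      GRel A ((WQ2.wK2 M q hq hqM K (r : FK (M * q * q) K) : FK (M * q * q) K) :
        LaurentSeries Qb) 0)
    (h0 : ∀ x ∈ chart (M * q * q) A K t, ∃ y ∈ Rinf M q A K,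
      GRel A (((x : FK (M * q * q) K) : LaurentSeries Qb) - ((y : FK M K) : LaurentSeries Qb)) 0)
    (h2 : ∀ x ∈ chart (M * q * q) A K t, ∃ y ∈ Rinf M q A K, ∃ r ∈ P 2,
      ((r : ↥(chart (M * q * q) A K t)) : FK (M * q * q) K) = x - incl2 M q K y)
    (hδ : ∀ y ∈ Rinf M q A K, ∃ r ∈ P 2,
      ((r : ↥(chart (M * q * q) A K t)) : FK (M * q * q) K) =
        WQ2.betaK2 M q hq hqM K (WK.betaK M q hq hqM K y) - incl2 M q K y) :
    (∀ x : ↥(chart (M * q * q) A K t), ∃ y : ↥(chart (M * q) A K tY),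
      x - BranchInst.chartHom tY t (WQ2.alphaK2 M q K) hat y ∈ P 0) ∧
    (∀ x : ↥(chart (M * q * q) A K t), ∃ y : ↥(chart (M * q) A K tY),
      x - BranchInst.chartHom tY t (WQ2.alphaK2 M q K) hat y ∈ P 2) ∧
    (∀ x : ↥(chart (M * q * q) A K t), ∃ y : ↥(chart (M * q) A K tY),
      x - BranchInst.chartHom tY t (WQ2.betaK2 M q hq hqM K) hbt y ∈ P 1) ∧
    (∀ x : ↥(chart (M * q * q) A K t), ∃ y : ↥(chart (M * q) A K tY),
      x - BranchInst.chartHom tY t (WQ2.betaK2 M q hq hqM K) hbt y ∈ P 2) ∧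
    (∀ x : ↥(chart (M * q * q) A K t), ∃ y : ↥(chart (M * q) A K tY),
      x ^ q - BranchInst.chartHom tY t (WQ2.alphaK2 M q K) hat y ∈ P 1) ∧
    (∀ x : ↥(chart (M * q * q) A K t), ∃ y : ↥(chart (M * q) A K tY),
      x ^ q - BranchInst.chartHom tY t (WQ2.betaK2 M q hq hqM K) hbt y ∈ P 0) :=
  transfer hq hqM (Rinf M q A K) tY t haY hbY hat hbt hwt P hP0 hP1 h0 h2 hδ
    (fun x hx => FrobFwd.exists_frob_fwd_Rinf M q hqM hA hB x hx)

end Bundle

end Fermat.Agent.S36.TorM
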