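import Mathlib
import Fermat.Agent.S36.TorM
import Fermat.Agent.S36.Level3J3B
import Fermat.Agent.S36.Chart3B
import Fermat.Agent.S36.V3
import Fermat.Agent.S36.Model3Asm

/-!
# S36, leaf [TOR-M-INST] (helper86): the instance of `S36/TorM` at the charts of record

Levels `M`, `M * q`, `M * q * q` (`q` prime, `q ∤ M`).  The charts of record:
`R_Z = chart (M * q * q) A K J3^{±1}` (`J3 = Chart3B.J3 = j · j_q · j_{q²}`),
`R_Y = chart (M * q) A K JK^{±1}` (`JK = S34.WKInst.JK = j · j_q`), `R_M = R0 / Rinf` of level `M`.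
The three valuation rings of record: `W1 = GaussV.V1`, `W2 = GaussV.V2 w_{q²}`,
`W3 = GaussE.V hE hdvr'` (the Gauss ring along an expansion `E`, uniformiser `s`), and the
vertical ideals `P i = R_Z ∩ ϖ i (W i)`, `ϖ = ![π, π, s]`.

`transfer_J3`, `transfer_J3_inv` : the six chart-level branch-transfer statements of
`TorM.transfer` (= the fields `degα0`, `degα2`, `degβ1`, `degβ2`-twin, `radα1`, `radβ0` of
`S36/Inc3.Hyp`) for these charts; every hypothesis of `TorM.transfer` is discharged: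

* `hP0`, `hP1`  : `TorM.gRel_iff_of_V1 / _V2`;
* `h0`          : `S34.Branch.exists_level` (residue degree one along `W1`, `hf1`);
* `h2`          : `Level3B.exists_sub_eq_mul_E` (residue degree one along `W3`, `hf3`);
* `hδ`          : `E (β (β_Y y)) ≡ E (y)` (`hEb`: on `β(F_K(M q))` the Gauss relation along `E`
                  is that of `w_q x`; for the middle-cusp embedding this is `V3.Hyp3.gRel_beta`);
* the chart maps: `S34.WKInst`, `S36.Chart3B`;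
* the Frobenius hypothesis: `S36/FrobFwd`.

What is left as hypothesis: the residue-degree-one statements `hf1`, `hf3` (the same two
hypotheses as `Level3J3B.branch3_J3`), and the expansion data of `W3`.

`transfer_J3_Pc`, `transfer_J3_inv_Pc` : the same for `P i = Model3Asm.Pc R_Z ϖ V hle i`, with
`V`, `ϖ` given up to the six equations `hV0 … hϖ2`.

`transfer_J3_hyp3`, `transfer_J3_inv_hyp3` : the same over `V3.Hyp3` (`E = ι`, `s = Wit3.sE`).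
-/

set_option autoImplicit false

noncomputable section

namespace Fermat.Agent.S36.TorMInst

open ModularCurve HahnSeries Fermat.Agent.S18 Fermat.Agent.S18.Arith Fermat.Agent.S18.ModelPlan
open Fermat.Agent.S34

variable (M q : ℕ) [NeZero M] [NeZero q] (hq : q.Prime) (hqM : ¬ q ∣ M)
variable {A : ValuationSubring Qb} {K K' : IntermediateField ℚ Qb}

/-! ### The general chart -/

/-- **The instance of `TorM.transfer`, general chart.**  `R_M` a chart of level `M` whose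
elements are Gauss-integral (`hRM`), with the Igusa closedness (`hB1`) and the forward
Frobenius (`hF`); `t` a coordinate of level `M q²` whose reductions along `W1` and along `E` are
integral over the reduction ring of `R_M` (`ht1`, `ht3`). -/
theorem transfer_gen (hdvr : IsDiscreteValuationRing (OK A K))
    (π : OK A K) (hπ : Irreducible π)
    {E : FK (M * q * q) K →+* LaurentSeries Qb} (hE : GaussE.Emb A K K' E)
    (hdvr' : IsDiscreteValuationRing (OK A K')) {ϖ' : OK A K'} (hϖ' : Irreducible ϖ')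
    {s : FK (M * q * q) K} (hs : GaussE.Unif A K' ϖ' E s)
    (hEq : ∀ y : FK (M * q) K, E (WQ2.alphaK2 M q K y) = ((y : FK (M * q) K) : LaurentSeries Qb))
    (hEb : ∀ (x : FK (M * q) K) (y : LaurentSeries (IsLocalRing.ResidueField A)),
      GRel A ((WK.wK M q hq hqM K x : FK (M * q) K) : LaurentSeries Qb) y →
      GRel A (E (WQ2.betaK2 M q hq hqM K x)) y)
    (hf1 : ∀ (x : FK (M * q * q) K) (y : LaurentSeries (IsLocalRing.ResidueField A)),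
      GRel A ((x : FK (M * q * q) K) : LaurentSeries Qb) y →
      ∃ x' : FK M K, GRel A ((x' : FK M K) : LaurentSeries Qb) y)
    (hf3 : ∀ (x : FK (M * q * q) K) (y : LaurentSeries (IsLocalRing.ResidueField A)),
      GRel A (E x) y → ∃ x' : FK M K, GRel A ((x' : FK M K) : LaurentSeries Qb) y)
    (RM : Subalgebra (OK A K) (FK M K))
    (hRM : ∀ y ∈ RM, ∃ y' : LaurentSeries (IsLocalRing.ResidueField A),
      GRel A ((y : FK M K) : LaurentSeries Qb) y')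
    (hB1 : ∀ y : LaurentSeries (IsLocalRing.ResidueField A),
      (∃ x' : FK M K, GRel A ((x' : FK M K) : LaurentSeries Qb) y) →
      IsIntegral (Branch.redRing M A K RM) y → y ∈ Branch.redRing M A K RM)
    (hF : ∀ x ∈ RM, ∃ z ∈ RM, GRel A (qExpand Qb q ((z : FK M K) : LaurentSeries Qb) -
      ((x : FK M K) : LaurentSeries Qb) ^ q) 0)
    (tY : FK (M * q) K) (t : FK (M * q * q) K)
    (ht1 : ∃ yt, GRel A ((t : FK (M * q * q) K) : LaurentSeries Qb) yt ∧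
      IsIntegral (Branch.redRing M A K RM) yt)
    (ht3 : ∃ yt, GRel A (E t) yt ∧ IsIntegral (Branch.redRing M A K RM) yt)
    (haY : ∀ y ∈ RM, WK.alphaK M q K y ∈ chart (M * q) A K tY)
    (hbY : ∀ y ∈ RM, WK.betaK M q hq hqM K y ∈ chart (M * q) A K tY)
    (hat : ∀ y ∈ chart (M * q) A K tY, WQ2.alphaK2 M q K y ∈ chart (M * q * q) A K t)
    (hbt : ∀ y ∈ chart (M * q) A K tY, WQ2.betaK2 M q hq hqM K y ∈ chart (M * q * q) A K t)
    (hwt : ∀ x ∈ chart (M * q * q) A K t, WQ2.wK2 M q hq hqM K x ∈ chart (M * q * q) A K t)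
    (P : Fin 3 → Ideal ↥(chart (M * q * q) A K t))
    (hP0 : ∀ r : ↥(chart (M * q * q) A K t), r ∈ P 0 ↔
      ∃ y ∈ GaussV.V1 (M * q * q) A K hdvr,
        (r : FK (M * q * q) K) = algebraMap (OK A K) (FK (M * q * q) K) π * y)
    (hP1 : ∀ r : ↥(chart (M * q * q) A K t), r ∈ P 1 ↔
      ∃ y ∈ GaussV.V2 (WQ2.wK2 M q hq hqM K) hdvr,
        (r : FK (M * q * q) K) = algebraMap (OK A K) (FK (M * q * q) K) π * y)
    (hP2 : ∀ r : ↥(chart (M * q * q) A K t), r ∈ P 2 ↔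
      ∃ y ∈ GaussE.V hE hdvr', (r : FK (M * q * q) K) = s * y) :
    (∀ x : ↥(chart (M * q * q) A K t), ∃ y : ↥(chart (M * q) A K tY),
      x - BranchInst.chartHom tY t (WQ2.alphaK2 M q K) hat y ∈ P 0) ∧
    (∀ x : ↥(chart (M * q * q) A K t), ∃ y : ↥(chart (M * q) A K tY),
      x - BranchInst.chartHom tY t (WQ2.alphaK2 M q K) hat y ∈ P 2) ∧
    (∀ x : ↥(chart (M * q * q) A K t), ∃ y : ↥(chart (M * q) A K tY),
      x - BranchInst.chartHom tY t (WQ2.betaK2 M q hq hqM K) hbt y ∈ P 1) ∧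
    (∀ x : ↥(chart (M * q * q) A K t), ∃ y : ↥(chart (M * q) A K tY),
      x - BranchInst.chartHom tY t (WQ2.betaK2 M q hq hqM K) hbt y ∈ P 2) ∧
    (∀ x : ↥(chart (M * q * q) A K t), ∃ y : ↥(chart (M * q) A K tY),
      x ^ q - BranchInst.chartHom tY t (WQ2.alphaK2 M q K) hat y ∈ P 1) ∧
    (∀ x : ↥(chart (M * q * q) A K t), ∃ y : ↥(chart (M * q) A K tY),
      x ^ q - BranchInst.chartHom tY t (WQ2.betaK2 M q hq hqM K) hbt y ∈ P 0) := by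
  have hG := GRel.gRelStatement A
  have hincl : ∀ y ∈ RM, TorM.incl2 M q K y ∈ chart (M * q * q) A K t :=
    fun y hy => hat _ (haY y hy)
  have hEincl : ∀ y : FK M K, E (TorM.incl2 M q K y) = ((y : FK M K) : LaurentSeries Qb) := by
    intro y
    rw [TorM.incl2_apply, hEq, WK.coe_alphaK]
  refine TorM.transfer hq hqM RM tY t haY hbY hat hbt hwt P
    (fun r => TorM.gRel_iff_of_V1 t hdvr hπ (P 0) hP0 r)
    (fun r => TorM.gRel_iff_of_V2 hq hqM t hdvr hπ (P 1) hP1 r) ?_ ?_ ?_ hF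
  · -- residue degree one along `W1`
    intro x hx
    exact Branch.exists_level M (M * q * q) hdvr RM hB1 hf1 t ht1 x hx
  · -- residue degree one along `W3`
    intro x hx
    obtain ⟨y, hy, v, hv, hxy⟩ := Level3B.exists_sub_eq_mul_E M (M * q * q) hE hdvr' hϖ' hs t RM
      hB1 hf3 ht3 (TorM.incl2 M q K) hEincl x hx
    exact ⟨y, hy, ⟨x - TorM.incl2 M q K y, sub_mem hx (hincl y hy)⟩,
      (hP2 _).mpr ⟨v, hv, hxy⟩, rfl⟩
  · -- `δ_y ∈ P 2`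
    intro y hy
    obtain ⟨y', hy'⟩ := hRM y hy
    have h1 : GRel A (E (WQ2.betaK2 M q hq hqM K (WK.betaK M q hq hqM K y))) y' := by
      refine hEb _ _ ?_
      rw [WK.wK_betaK, WK.coe_alphaK]
      exact hy'
    have h2 : GRel A (E (TorM.incl2 M q K y)) y' := by
      rw [hEincl]
      exact hy'
    have h0 : GRel A (E (WQ2.betaK2 M q hq hqM K (WK.betaK M q hq hqM K y) -
        TorM.incl2 M q K y)) 0 := by
      have h := hG.add _ _ _ _ h1 (hG.neg _ _ h2)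
      rw [← sub_eq_add_neg, ← sub_eq_add_neg, sub_self, ← map_sub] at h
      exact h
    have hxV : WQ2.betaK2 M q hq hqM K (WK.betaK M q hq hqM K y) - TorM.incl2 M q K y ∈
        GaussE.V hE hdvr' := ⟨0, h0⟩
    obtain ⟨v, hv, hval⟩ := (GaussE.red_eq_zero_iff hE hdvr' hϖ' hs ⟨_, hxV⟩).mp
      (GaussE.red_eq_of_gRel hE hdvr' ⟨_, hxV⟩ h0)
    exact ⟨⟨_, sub_mem (hbt _ (hbY y hy)) (hincl y hy)⟩, (hP2 _).mpr ⟨v, hv, hval⟩, rfl⟩

/-! ### The chart maps of record -/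

section Maps

variable (A K)

/-- `α (chart_{Mq} JK) ⊆ chart J3`. -/
theorem hat_J3 : ∀ y ∈ chart (M * q) A K (WKInst.JK M q hq hqM K), WQ2.alphaK2 M q K y ∈ chart (M * q * q) A K (Chart3B.J3 M q hq hqM K) :=
  fun _ hy => Chart3B.alphaK2_mem_chart_J3 M q hq hqM A K hy

/-- `β (chart_{Mq} JK) ⊆ chart J3`. -/
theorem hbt_J3 : ∀ y ∈ chart (M * q) A K (WKInst.JK M q hq hqM K), WQ2.betaK2 M q hq hqM K y ∈ chart (M * q * q) A K (Chart3B.J3 M q hq hqM K) :=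
  fun _ hy => Chart3B.betaK2_mem_chart_J3 M q hq hqM A K hy

/-- `α (chart_{Mq} JK⁻¹) ⊆ chart J3⁻¹`. -/
theorem hat_J3_inv : ∀ y ∈ chart (M * q) A K (WKInst.JK M q hq hqM K)⁻¹, WQ2.alphaK2 M q K y ∈ chart (M * q * q) A K (Chart3B.J3 M q hq hqM K)⁻¹ :=
  fun _ hy => Chart3B.alphaK2_mem_chart_J3_inv M q hq hqM A K hy

/-- `β (chart_{Mq} JK⁻¹) ⊆ chart J3⁻¹`. -/
theorem hbt_J3_inv : ∀ y ∈ chart (M * q) A K (WKInst.JK M q hq hqM K)⁻¹, WQ2.betaK2 M q hq hqM K y ∈ chart (M * q * q) A K (Chart3B.J3 M q hq hqM K)⁻¹ :=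
  fun _ hy => Chart3B.betaK2_mem_chart_J3_inv M q hq hqM A K hy

end Maps

/-! ### The charts of record -/

section Inst

variable [Fact q.Prime]

/-- **`TorM.transfer` at the chart `J3 ≠ ∞`** (over `R0(M)`, `chart_{Mq} JK`): the six
branch-transfer statements, from residue degree one along `W1`, `W3` (`hf1`, `hf3`) and the
expansion data of `W3`. -/
theorem transfer_J3 (hA : A.LiesOverPrime q) (hB : BaseFacts q A K)
    (hdvr : IsDiscreteValuationRing (OK A K)) (π : OK A K) (hπ : Irreducible π)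
    {E : FK (M * q * q) K →+* LaurentSeries Qb} (hE : GaussE.Emb A K K' E)
    (hdvr' : IsDiscreteValuationRing (OK A K')) {ϖ' : OK A K'} (hϖ' : Irreducible ϖ')
    {s : FK (M * q * q) K} (hs : GaussE.Unif A K' ϖ' E s)
    (hEq : ∀ y : FK (M * q) K, E (WQ2.alphaK2 M q K y) = ((y : FK (M * q) K) : LaurentSeries Qb))
    (hEb : ∀ (x : FK (M * q) K) (y : LaurentSeries (IsLocalRing.ResidueField A)),
      GRel A ((WK.wK M q hq hqM K x : FK (M * q) K) : LaurentSeries Qb) y →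
      GRel A (E (WQ2.betaK2 M q hq hqM K x)) y)
    (hEs : GRel A (E (WQ2.jqqK2 M q hq hqM K - jK (M * q * q) K)) 0)
    (hf1 : ∀ (x : FK (M * q * q) K) (y : LaurentSeries (IsLocalRing.ResidueField A)),
      GRel A ((x : FK (M * q * q) K) : LaurentSeries Qb) y →
      ∃ x' : FK M K, GRel A ((x' : FK M K) : LaurentSeries Qb) y)
    (hf3 : ∀ (x : FK (M * q * q) K) (y : LaurentSeries (IsLocalRing.ResidueField A)),
      GRel A (E x) y → ∃ x' : FK M K, GRel A ((x' : FK M K) : LaurentSeries Qb) y)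
    (hat : ∀ y ∈ chart (M * q) A K (WKInst.JK M q hq hqM K), WQ2.alphaK2 M q K y ∈ chart (M * q * q) A K (Chart3B.J3 M q hq hqM K))
    (hbt : ∀ y ∈ chart (M * q) A K (WKInst.JK M q hq hqM K), WQ2.betaK2 M q hq hqM K y ∈ chart (M * q * q) A K (Chart3B.J3 M q hq hqM K))
    (P : Fin 3 → Ideal ↥(chart (M * q * q) A K (Chart3B.J3 M q hq hqM K)))
    (hP0 : ∀ r : ↥(chart (M * q * q) A K (Chart3B.J3 M q hq hqM K)), r ∈ P 0 ↔
      ∃ y ∈ GaussV.V1 (M * q * q) A K hdvr,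
        (r : FK (M * q * q) K) = algebraMap (OK A K) (FK (M * q * q) K) π * y)
    (hP1 : ∀ r : ↥(chart (M * q * q) A K (Chart3B.J3 M q hq hqM K)), r ∈ P 1 ↔
      ∃ y ∈ GaussV.V2 (WQ2.wK2 M q hq hqM K) hdvr,
        (r : FK (M * q * q) K) = algebraMap (OK A K) (FK (M * q * q) K) π * y)
    (hP2 : ∀ r : ↥(chart (M * q * q) A K (Chart3B.J3 M q hq hqM K)), r ∈ P 2 ↔
      ∃ y ∈ GaussE.V hE hdvr', (r : FK (M * q * q) K) = s * y) :
    (∀ x : ↥(chart (M * q * q) A K (Chart3B.J3 M q hq hqM K)), ∃ y : ↥(chart (M * q) A K (WKInst.JK M q hq hqM K)),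
      x - BranchInst.chartHom _ _ (WQ2.alphaK2 M q K) hat y ∈ P 0) ∧
    (∀ x : ↥(chart (M * q * q) A K (Chart3B.J3 M q hq hqM K)), ∃ y : ↥(chart (M * q) A K (WKInst.JK M q hq hqM K)),
      x - BranchInst.chartHom _ _ (WQ2.alphaK2 M q K) hat y ∈ P 2) ∧
    (∀ x : ↥(chart (M * q * q) A K (Chart3B.J3 M q hq hqM K)), ∃ y : ↥(chart (M * q) A K (WKInst.JK M q hq hqM K)),
      x - BranchInst.chartHom _ _ (WQ2.betaK2 M q hq hqM K) hbt y ∈ P 1) ∧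
    (∀ x : ↥(chart (M * q * q) A K (Chart3B.J3 M q hq hqM K)), ∃ y : ↥(chart (M * q) A K (WKInst.JK M q hq hqM K)),
      x - BranchInst.chartHom _ _ (WQ2.betaK2 M q hq hqM K) hbt y ∈ P 2) ∧
    (∀ x : ↥(chart (M * q * q) A K (Chart3B.J3 M q hq hqM K)), ∃ y : ↥(chart (M * q) A K (WKInst.JK M q hq hqM K)),
      x ^ q - BranchInst.chartHom _ _ (WQ2.alphaK2 M q K) hat y ∈ P 1) ∧
    (∀ x : ↥(chart (M * q * q) A K (Chart3B.J3 M q hq hqM K)), ∃ y : ↥(chart (M * q) A K (WKInst.JK M q hq hqM K)),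
      x ^ q - BranchInst.chartHom _ _ (WQ2.betaK2 M q hq hqM K) hbt y ∈ P 0) := by
  have hG := GRel.gRelStatement A
  have hM := ModelAll.modelStatement M q hqM A hA K hB
  obtain ⟨ρ, hρ, -, -⟩ := hM.c0.red
  have hjmem : jqModC (IsLocalRing.ResidueField A) ∈ Branch.redRing M A K (R0 M q A K) :=
    Level3B.jqModC_mem_redRing M (R0 M q A K) (Model.self_mem_chart M A K _)
  exact transfer_gen M q hq hqM hdvr π hπ hE hdvr' hϖ' hs hEq hEb hf1 hf3 (R0 M q A K)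
    (fun y hy => ⟨ρ ⟨y, hy⟩, hρ ⟨y, hy⟩⟩)
    (fun y hy hint => Branch.mem_redRing_R0 M q hqM hA hB hy hint)
    (fun x hx => FrobFwd.exists_frob_fwd_R0 M q hqM hA hB x hx)
    (WKInst.JK M q hq hqM K) (Chart3B.J3 M q hq hqM K)
    ⟨_, Level3J3B.gRel_J3K M q hq hqM A K hA, Level3B.isIntegral_pow_of_mem M _ hjmem _⟩
    ⟨_, Level3J3B.gRel_E_J3K M q hq hqM hA hEq hEs, Level3B.isIntegral_pow_of_mem M _ hjmem _⟩
    (fun y hy => WKInst.alphaK_mem_chart_JK M q hq hqM A K hy)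
    (fun y hy => WKInst.betaK_mem_chart_JK M q hq hqM A K hy)
    hat hbt (fun x hx => Chart3B.wK2_mem_chart_J3 M q hq hqM A K hx) P hP0 hP1 hP2

/-- **`TorM.transfer` at the chart `J3 ≠ 0`** (over `Rinf(M)`, `chart_{Mq} JK⁻¹`). -/
theorem transfer_J3_inv (hA : A.LiesOverPrime q) (hB : BaseFacts q A K)
    (hdvr : IsDiscreteValuationRing (OK A K)) (π : OK A K) (hπ : Irreducible π)
    {E : FK (M * q * q) K →+* LaurentSeries Qb} (hE : GaussE.Emb A K K' E)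
    (hdvr' : IsDiscreteValuationRing (OK A K')) {ϖ' : OK A K'} (hϖ' : Irreducible ϖ')
    {s : FK (M * q * q) K} (hs : GaussE.Unif A K' ϖ' E s)
    (hEq : ∀ y : FK (M * q) K, E (WQ2.alphaK2 M q K y) = ((y : FK (M * q) K) : LaurentSeries Qb))
    (hEb : ∀ (x : FK (M * q) K) (y : LaurentSeries (IsLocalRing.ResidueField A)),
      GRel A ((WK.wK M q hq hqM K x : FK (M * q) K) : LaurentSeries Qb) y →
      GRel A (E (WQ2.betaK2 M q hq hqM K x)) y)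
    (hEs : GRel A (E (WQ2.jqqK2 M q hq hqM K - jK (M * q * q) K)) 0)
    (hf1 : ∀ (x : FK (M * q * q) K) (y : LaurentSeries (IsLocalRing.ResidueField A)),
      GRel A ((x : FK (M * q * q) K) : LaurentSeries Qb) y →
      ∃ x' : FK M K, GRel A ((x' : FK M K) : LaurentSeries Qb) y)
    (hf3 : ∀ (x : FK (M * q * q) K) (y : LaurentSeries (IsLocalRing.ResidueField A)),
      GRel A (E x) y → ∃ x' : FK M K, GRel A ((x' : FK M K) : LaurentSeries Qb) y)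
    (hat : ∀ y ∈ chart (M * q) A K (WKInst.JK M q hq hqM K)⁻¹, WQ2.alphaK2 M q K y ∈ chart (M * q * q) A K (Chart3B.J3 M q hq hqM K)⁻¹)
    (hbt : ∀ y ∈ chart (M * q) A K (WKInst.JK M q hq hqM K)⁻¹, WQ2.betaK2 M q hq hqM K y ∈ chart (M * q * q) A K (Chart3B.J3 M q hq hqM K)⁻¹)
    (P : Fin 3 → Ideal ↥(chart (M * q * q) A K (Chart3B.J3 M q hq hqM K)⁻¹))
    (hP0 : ∀ r : ↥(chart (M * q * q) A K (Chart3B.J3 M q hq hqM K)⁻¹), r ∈ P 0 ↔
      ∃ y ∈ GaussV.V1 (M * q * q) A K hdvr,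
        (r : FK (M * q * q) K) = algebraMap (OK A K) (FK (M * q * q) K) π * y)
    (hP1 : ∀ r : ↥(chart (M * q * q) A K (Chart3B.J3 M q hq hqM K)⁻¹), r ∈ P 1 ↔
      ∃ y ∈ GaussV.V2 (WQ2.wK2 M q hq hqM K) hdvr,
        (r : FK (M * q * q) K) = algebraMap (OK A K) (FK (M * q * q) K) π * y)
    (hP2 : ∀ r : ↥(chart (M * q * q) A K (Chart3B.J3 M q hq hqM K)⁻¹), r ∈ P 2 ↔
      ∃ y ∈ GaussE.V hE hdvr', (r : FK (M * q * q) K) = s * y) :
    (∀ x : ↥(chart (M * q * q) A K (Chart3B.J3 M q hq hqM K)⁻¹), ∃ y : ↥(chart (M * q) A K (WKInst.JK M q hq hqM K)⁻¹),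
      x - BranchInst.chartHom _ _ (WQ2.alphaK2 M q K) hat y ∈ P 0) ∧
    (∀ x : ↥(chart (M * q * q) A K (Chart3B.J3 M q hq hqM K)⁻¹), ∃ y : ↥(chart (M * q) A K (WKInst.JK M q hq hqM K)⁻¹),
      x - BranchInst.chartHom _ _ (WQ2.alphaK2 M q K) hat y ∈ P 2) ∧
    (∀ x : ↥(chart (M * q * q) A K (Chart3B.J3 M q hq hqM K)⁻¹), ∃ y : ↥(chart (M * q) A K (WKInst.JK M q hq hqM K)⁻¹),
      x - BranchInst.chartHom _ _ (WQ2.betaK2 M q hq hqM K) hbt y ∈ P 1) ∧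
    (∀ x : ↥(chart (M * q * q) A K (Chart3B.J3 M q hq hqM K)⁻¹), ∃ y : ↥(chart (M * q) A K (WKInst.JK M q hq hqM K)⁻¹),
      x - BranchInst.chartHom _ _ (WQ2.betaK2 M q hq hqM K) hbt y ∈ P 2) ∧
    (∀ x : ↥(chart (M * q * q) A K (Chart3B.J3 M q hq hqM K)⁻¹), ∃ y : ↥(chart (M * q) A K (WKInst.JK M q hq hqM K)⁻¹),
      x ^ q - BranchInst.chartHom _ _ (WQ2.alphaK2 M q K) hat y ∈ P 1) ∧
    (∀ x : ↥(chart (M * q * q) A K (Chart3B.J3 M q hq hqM K)⁻¹), ∃ y : ↥(chart (M * q) A K (WKInst.JK M q hq hqM K)⁻¹),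
      x ^ q - BranchInst.chartHom _ _ (WQ2.betaK2 M q hq hqM K) hbt y ∈ P 0) := by
  have hG := GRel.gRelStatement A
  have hM := ModelAll.modelStatement M q hqM A hA K hB
  obtain ⟨ρ, hρ, -, -⟩ := hM.cInf.red
  have hjmem : (jqModC (IsLocalRing.ResidueField A))⁻¹ ∈
      Branch.redRing M A K (Rinf M q A K) :=
    Level3B.jqModC_inv_mem_redRing M (Rinf M q A K) (Model.self_mem_chart M A K _)
  exact transfer_gen M q hq hqM hdvr π hπ hE hdvr' hϖ' hs hEq hEb hf1 hf3 (Rinf M q A K)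
    (fun y hy => ⟨ρ ⟨y, hy⟩, hρ ⟨y, hy⟩⟩)
    (fun y hy hint => Branch.mem_redRing_Rinf M q hqM hA hB hy hint)
    (fun x hx => FrobFwd.exists_frob_fwd_Rinf M q hqM hA hB x hx)
    (WKInst.JK M q hq hqM K)⁻¹ (Chart3B.J3 M q hq hqM K)⁻¹
    ⟨_, Level3J3B.gRel_J3K_inv M q hq hqM A K hA, Level3B.isIntegral_pow_of_mem M _ hjmem _⟩
    ⟨_, Level3J3B.gRel_E_J3K_inv M q hq hqM hA hEq hEs,
      Level3B.isIntegral_pow_of_mem M _ hjmem _⟩
    (fun y hy => WKInst.alphaK_mem_chart_JK_inv M q hq hqM A K hy)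
    (fun y hy => WKInst.betaK_mem_chart_JK_inv M q hq hqM A K hy)
    hat hbt (fun x hx => Chart3B.wK2_mem_chart_J3_inv M q hq hqM A K hx) P hP0 hP1 hP2

/-! ### The vertical ideals of record `Model3Asm.Pc` -/

/-- `transfer_J3` for the vertical ideals of record `P i = Model3Asm.Pc (chart J3) ϖ V hle i`,
`V = (W1, W2, W3)`, `ϖ = (π, π, s)` (given up to the six equations). -/
theorem transfer_J3_Pc (hA : A.LiesOverPrime q) (hB : BaseFacts q A K)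
    (hdvr : IsDiscreteValuationRing (OK A K)) (π : OK A K) (hπ : Irreducible π)
    {E : FK (M * q * q) K →+* LaurentSeries Qb} (hE : GaussE.Emb A K K' E)
    (hdvr' : IsDiscreteValuationRing (OK A K')) {ϖ' : OK A K'} (hϖ' : Irreducible ϖ')
    {s : FK (M * q * q) K} (hs : GaussE.Unif A K' ϖ' E s)
    (hEq : ∀ y : FK (M * q) K, E (WQ2.alphaK2 M q K y) = ((y : FK (M * q) K) : LaurentSeries Qb))
    (hEb : ∀ (x : FK (M * q) K) (y : LaurentSeries (IsLocalRing.ResidueField A)),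
      GRel A ((WK.wK M q hq hqM K x : FK (M * q) K) : LaurentSeries Qb) y →
      GRel A (E (WQ2.betaK2 M q hq hqM K x)) y)
    (hEs : GRel A (E (WQ2.jqqK2 M q hq hqM K - jK (M * q * q) K)) 0)
    (hf1 : ∀ (x : FK (M * q * q) K) (y : LaurentSeries (IsLocalRing.ResidueField A)),
      GRel A ((x : FK (M * q * q) K) : LaurentSeries Qb) y →
      ∃ x' : FK M K, GRel A ((x' : FK M K) : LaurentSeries Qb) y)
    (hf3 : ∀ (x : FK (M * q * q) K) (y : LaurentSeries (IsLocalRing.ResidueField A)),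
      GRel A (E x) y → ∃ x' : FK M K, GRel A ((x' : FK M K) : LaurentSeries Qb) y)
    (hat : ∀ y ∈ chart (M * q) A K (WKInst.JK M q hq hqM K), WQ2.alphaK2 M q K y ∈ chart (M * q * q) A K (Chart3B.J3 M q hq hqM K))
    (hbt : ∀ y ∈ chart (M * q) A K (WKInst.JK M q hq hqM K), WQ2.betaK2 M q hq hqM K y ∈ chart (M * q * q) A K (Chart3B.J3 M q hq hqM K))
    (ϖ : Fin 3 → FK (M * q * q) K) (V : Fin 3 → ValuationSubring (FK (M * q * q) K))
    (hle : ∀ i : Fin 3, ∀ x ∈ chart (M * q * q) A K (Chart3B.J3 M q hq hqM K), x ∈ V i)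
    (hV0 : V 0 = GaussV.V1 (M * q * q) A K hdvr)
    (hV1 : V 1 = GaussV.V2 (WQ2.wK2 M q hq hqM K) hdvr)
    (hV2 : V 2 = GaussE.V hE hdvr')
    (hϖ0 : ϖ 0 = algebraMap (OK A K) (FK (M * q * q) K) π)
    (hϖ1 : ϖ 1 = algebraMap (OK A K) (FK (M * q * q) K) π)
    (hϖ2 : ϖ 2 = s) :
    (∀ x : ↥(chart (M * q * q) A K (Chart3B.J3 M q hq hqM K)), ∃ y : ↥(chart (M * q) A K (WKInst.JK M q hq hqM K)),
      x - BranchInst.chartHom _ _ (WQ2.alphaK2 M q K) hat y ∈ Model3Asm.Pc (chart (M * q * q) A K (Chart3B.J3 M q hq hqM K)) ϖ V hle 0) ∧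
    (∀ x : ↥(chart (M * q * q) A K (Chart3B.J3 M q hq hqM K)), ∃ y : ↥(chart (M * q) A K (WKInst.JK M q hq hqM K)),
      x - BranchInst.chartHom _ _ (WQ2.alphaK2 M q K) hat y ∈ Model3Asm.Pc (chart (M * q * q) A K (Chart3B.J3 M q hq hqM K)) ϖ V hle 2) ∧
    (∀ x : ↥(chart (M * q * q) A K (Chart3B.J3 M q hq hqM K)), ∃ y : ↥(chart (M * q) A K (WKInst.JK M q hq hqM K)),
      x - BranchInst.chartHom _ _ (WQ2.betaK2 M q hq hqM K) hbt y ∈ Model3Asm.Pc (chart (M * q * q) A K (Chart3B.J3 M q hq hqM K)) ϖ V hle 1) ∧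
    (∀ x : ↥(chart (M * q * q) A K (Chart3B.J3 M q hq hqM K)), ∃ y : ↥(chart (M * q) A K (WKInst.JK M q hq hqM K)),
      x - BranchInst.chartHom _ _ (WQ2.betaK2 M q hq hqM K) hbt y ∈ Model3Asm.Pc (chart (M * q * q) A K (Chart3B.J3 M q hq hqM K)) ϖ V hle 2) ∧
    (∀ x : ↥(chart (M * q * q) A K (Chart3B.J3 M q hq hqM K)), ∃ y : ↥(chart (M * q) A K (WKInst.JK M q hq hqM K)),
      x ^ q - BranchInst.chartHom _ _ (WQ2.alphaK2 M q K) hat y ∈ Model3Asm.Pc (chart (M * q * q) A K (Chart3B.J3 M q hq hqM K)) ϖ V hle 1) ∧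
    (∀ x : ↥(chart (M * q * q) A K (Chart3B.J3 M q hq hqM K)), ∃ y : ↥(chart (M * q) A K (WKInst.JK M q hq hqM K)),
      x ^ q - BranchInst.chartHom _ _ (WQ2.betaK2 M q hq hqM K) hbt y ∈ Model3Asm.Pc (chart (M * q * q) A K (Chart3B.J3 M q hq hqM K)) ϖ V hle 0) := by
  refine transfer_J3 M q hq hqM hA hB hdvr π hπ hE hdvr' hϖ' hs hEq hEb hEs hf1 hf3 hat hbt
    (Model3Asm.Pc (chart (M * q * q) A K (Chart3B.J3 M q hq hqM K)) ϖ V hle) (fun r => ?_) (fun r => ?_) (fun r => ?_)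
  · show (∃ y ∈ V 0, (r : FK (M * q * q) K) = ϖ 0 * y) ↔ _
    rw [hV0, hϖ0]
  · show (∃ y ∈ V 1, (r : FK (M * q * q) K) = ϖ 1 * y) ↔ _
    rw [hV1, hϖ1]
  · show (∃ y ∈ V 2, (r : FK (M * q * q) K) = ϖ 2 * y) ↔ _
    rw [hV2, hϖ2]

/-- `transfer_J3_inv` for the vertical ideals of record
`P i = Model3Asm.Pc (chart J3⁻¹) ϖ V hle i`. -/
theorem transfer_J3_inv_Pc (hA : A.LiesOverPrime q) (hB : BaseFacts q A K)
    (hdvr : IsDiscreteValuationRing (OK A K)) (π : OK A K) (hπ : Irreducible π)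
    {E : FK (M * q * q) K →+* LaurentSeries Qb} (hE : GaussE.Emb A K K' E)
    (hdvr' : IsDiscreteValuationRing (OK A K')) {ϖ' : OK A K'} (hϖ' : Irreducible ϖ')
    {s : FK (M * q * q) K} (hs : GaussE.Unif A K' ϖ' E s)
    (hEq : ∀ y : FK (M * q) K, E (WQ2.alphaK2 M q K y) = ((y : FK (M * q) K) : LaurentSeries Qb))
    (hEb : ∀ (x : FK (M * q) K) (y : LaurentSeries (IsLocalRing.ResidueField A)),
      GRel A ((WK.wK M q hq hqM K x : FK (M * q) K) : LaurentSeries Qb) y →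
      GRel A (E (WQ2.betaK2 M q hq hqM K x)) y)
    (hEs : GRel A (E (WQ2.jqqK2 M q hq hqM K - jK (M * q * q) K)) 0)
    (hf1 : ∀ (x : FK (M * q * q) K) (y : LaurentSeries (IsLocalRing.ResidueField A)),
      GRel A ((x : FK (M * q * q) K) : LaurentSeries Qb) y →
      ∃ x' : FK M K, GRel A ((x' : FK M K) : LaurentSeries Qb) y)
    (hf3 : ∀ (x : FK (M * q * q) K) (y : LaurentSeries (IsLocalRing.ResidueField A)),
      GRel A (E x) y → ∃ x' : FK M K, GRel A ((x' : FK M K) : LaurentSeries Qb) y)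
    (hat : ∀ y ∈ chart (M * q) A K (WKInst.JK M q hq hqM K)⁻¹, WQ2.alphaK2 M q K y ∈ chart (M * q * q) A K (Chart3B.J3 M q hq hqM K)⁻¹)
    (hbt : ∀ y ∈ chart (M * q) A K (WKInst.JK M q hq hqM K)⁻¹, WQ2.betaK2 M q hq hqM K y ∈ chart (M * q * q) A K (Chart3B.J3 M q hq hqM K)⁻¹)
    (ϖ : Fin 3 → FK (M * q * q) K) (V : Fin 3 → ValuationSubring (FK (M * q * q) K))
    (hle : ∀ i : Fin 3, ∀ x ∈ chart (M * q * q) A K (Chart3B.J3 M q hq hqM K)⁻¹, x ∈ V i)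
    (hV0 : V 0 = GaussV.V1 (M * q * q) A K hdvr)
    (hV1 : V 1 = GaussV.V2 (WQ2.wK2 M q hq hqM K) hdvr)
    (hV2 : V 2 = GaussE.V hE hdvr')
    (hϖ0 : ϖ 0 = algebraMap (OK A K) (FK (M * q * q) K) π)
    (hϖ1 : ϖ 1 = algebraMap (OK A K) (FK (M * q * q) K) π)
    (hϖ2 : ϖ 2 = s) :
    (∀ x : ↥(chart (M * q * q) A K (Chart3B.J3 M q hq hqM K)⁻¹), ∃ y : ↥(chart (M * q) A K (WKInst.JK M q hq hqM K)⁻¹),
      x - BranchInst.chartHom _ _ (WQ2.alphaK2 M q K) hat y ∈ Model3Asm.Pc (chart (M * q * q) A K (Chart3B.J3 M q hq hqM K)⁻¹) ϖ V hle 0) ∧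
    (∀ x : ↥(chart (M * q * q) A K (Chart3B.J3 M q hq hqM K)⁻¹), ∃ y : ↥(chart (M * q) A K (WKInst.JK M q hq hqM K)⁻¹),
      x - BranchInst.chartHom _ _ (WQ2.alphaK2 M q K) hat y ∈ Model3Asm.Pc (chart (M * q * q) A K (Chart3B.J3 M q hq hqM K)⁻¹) ϖ V hle 2) ∧
    (∀ x : ↥(chart (M * q * q) A K (Chart3B.J3 M q hq hqM K)⁻¹), ∃ y : ↥(chart (M * q) A K (WKInst.JK M q hq hqM K)⁻¹),
      x - BranchInst.chartHom _ _ (WQ2.betaK2 M q hq hqM K) hbt y ∈ Model3Asm.Pc (chart (M * q * q) A K (Chart3B.J3 M q hq hqM K)⁻¹) ϖ V hle 1) ∧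
    (∀ x : ↥(chart (M * q * q) A K (Chart3B.J3 M q hq hqM K)⁻¹), ∃ y : ↥(chart (M * q) A K (WKInst.JK M q hq hqM K)⁻¹),
      x - BranchInst.chartHom _ _ (WQ2.betaK2 M q hq hqM K) hbt y ∈ Model3Asm.Pc (chart (M * q * q) A K (Chart3B.J3 M q hq hqM K)⁻¹) ϖ V hle 2) ∧
    (∀ x : ↥(chart (M * q * q) A K (Chart3B.J3 M q hq hqM K)⁻¹), ∃ y : ↥(chart (M * q) A K (WKInst.JK M q hq hqM K)⁻¹),
      x ^ q - BranchInst.chartHom _ _ (WQ2.alphaK2 M q K) hat y ∈ Model3Asm.Pc (chart (M * q * q) A K (Chart3B.J3 M q hq hqM K)⁻¹) ϖ V hle 1) ∧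
    (∀ x : ↥(chart (M * q * q) A K (Chart3B.J3 M q hq hqM K)⁻¹), ∃ y : ↥(chart (M * q) A K (WKInst.JK M q hq hqM K)⁻¹),
      x ^ q - BranchInst.chartHom _ _ (WQ2.betaK2 M q hq hqM K) hbt y ∈ Model3Asm.Pc (chart (M * q * q) A K (Chart3B.J3 M q hq hqM K)⁻¹) ϖ V hle 0) := by
  refine transfer_J3_inv M q hq hqM hA hB hdvr π hπ hE hdvr' hϖ' hs hEq hEb hEs hf1 hf3 hat hbt
    (Model3Asm.Pc (chart (M * q * q) A K (Chart3B.J3 M q hq hqM K)⁻¹) ϖ V hle) (fun r => ?_) (fun r => ?_) (fun r => ?_)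
  · show (∃ y ∈ V 0, (r : FK (M * q * q) K) = ϖ 0 * y) ↔ _
    rw [hV0, hϖ0]
  · show (∃ y ∈ V 1, (r : FK (M * q * q) K) = ϖ 1 * y) ↔ _
    rw [hV1, hϖ1]
  · show (∃ y ∈ V 2, (r : FK (M * q * q) K) = ϖ 2 * y) ↔ _
    rw [hV2, hϖ2]

end Inst

/-! ### Over the hypotheses of record `V3.Hyp3` of `W3` -/

section Hyp3

variable [Fact q.Prime]
variable {ξ : Qb} {hξ0 : ξ ≠ 0} {ι : FK (M * q * q) K →+* LaurentSeries Qb} {ϖ' : OK A K'}

/-- **`transfer_J3` over `V3.Hyp3`**: `W3 = H.W3`, uniformiser `Wit3.sE = j_{q²} - j`. -/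
theorem transfer_J3_hyp3 (hA : A.LiesOverPrime q) (hB : BaseFacts q A K)
    (hdvr : IsDiscreteValuationRing (OK A K)) (π : OK A K) (hπ : Irreducible π)
    (H : V3.Hyp3 M q hq hqM A K K' ξ hξ0 ι ϖ')
    (hf1 : ∀ (x : FK (M * q * q) K) (y : LaurentSeries (IsLocalRing.ResidueField A)),
      GRel A ((x : FK (M * q * q) K) : LaurentSeries Qb) y →
      ∃ x' : FK M K, GRel A ((x' : FK M K) : LaurentSeries Qb) y)
    (hf3 : ∀ (x : FK (M * q * q) K) (y : LaurentSeries (IsLocalRing.ResidueField A)),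
      GRel A (ι x) y → ∃ x' : FK M K, GRel A ((x' : FK M K) : LaurentSeries Qb) y)
    (hat : ∀ y ∈ chart (M * q) A K (WKInst.JK M q hq hqM K), WQ2.alphaK2 M q K y ∈ chart (M * q * q) A K (Chart3B.J3 M q hq hqM K))
    (hbt : ∀ y ∈ chart (M * q) A K (WKInst.JK M q hq hqM K), WQ2.betaK2 M q hq hqM K y ∈ chart (M * q * q) A K (Chart3B.J3 M q hq hqM K))
    (P : Fin 3 → Ideal ↥(chart (M * q * q) A K (Chart3B.J3 M q hq hqM K)))
    (hP0 : ∀ r : ↥(chart (M * q * q) A K (Chart3B.J3 M q hq hqM K)), r ∈ P 0 ↔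
      ∃ y ∈ GaussV.V1 (M * q * q) A K hdvr,
        (r : FK (M * q * q) K) = algebraMap (OK A K) (FK (M * q * q) K) π * y)
    (hP1 : ∀ r : ↥(chart (M * q * q) A K (Chart3B.J3 M q hq hqM K)), r ∈ P 1 ↔
      ∃ y ∈ GaussV.V2 (WQ2.wK2 M q hq hqM K) hdvr,
        (r : FK (M * q * q) K) = algebraMap (OK A K) (FK (M * q * q) K) π * y)
    (hP2 : ∀ r : ↥(chart (M * q * q) A K (Chart3B.J3 M q hq hqM K)), r ∈ P 2 ↔
      ∃ y ∈ H.W3, (r : FK (M * q * q) K) = Wit3.sE M q hq hqM K * y) :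
    (∀ x : ↥(chart (M * q * q) A K (Chart3B.J3 M q hq hqM K)), ∃ y : ↥(chart (M * q) A K (WKInst.JK M q hq hqM K)),
      x - BranchInst.chartHom _ _ (WQ2.alphaK2 M q K) hat y ∈ P 0) ∧
    (∀ x : ↥(chart (M * q * q) A K (Chart3B.J3 M q hq hqM K)), ∃ y : ↥(chart (M * q) A K (WKInst.JK M q hq hqM K)),
      x - BranchInst.chartHom _ _ (WQ2.alphaK2 M q K) hat y ∈ P 2) ∧
    (∀ x : ↥(chart (M * q * q) A K (Chart3B.J3 M q hq hqM K)), ∃ y : ↥(chart (M * q) A K (WKInst.JK M q hq hqM K)),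
      x - BranchInst.chartHom _ _ (WQ2.betaK2 M q hq hqM K) hbt y ∈ P 1) ∧
    (∀ x : ↥(chart (M * q * q) A K (Chart3B.J3 M q hq hqM K)), ∃ y : ↥(chart (M * q) A K (WKInst.JK M q hq hqM K)),
      x - BranchInst.chartHom _ _ (WQ2.betaK2 M q hq hqM K) hbt y ∈ P 2) ∧
    (∀ x : ↥(chart (M * q * q) A K (Chart3B.J3 M q hq hqM K)), ∃ y : ↥(chart (M * q) A K (WKInst.JK M q hq hqM K)),
      x ^ q - BranchInst.chartHom _ _ (WQ2.alphaK2 M q K) hat y ∈ P 1) ∧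
    (∀ x : ↥(chart (M * q * q) A K (Chart3B.J3 M q hq hqM K)), ∃ y : ↥(chart (M * q) A K (WKInst.JK M q hq hqM K)),
      x ^ q - BranchInst.chartHom _ _ (WQ2.betaK2 M q hq hqM K) hbt y ∈ P 0) :=
  transfer_J3 M q hq hqM hA hB hdvr π hπ H.emb H.dvr' H.irr H.unif H.mid.alpha
    (fun _ _ h => H.gRel_beta hA h) (GaussE.gRel_unif H.irr H.unif) hf1 hf3 hat hbt P
    hP0 hP1 hP2

/-- **`transfer_J3_inv` over `V3.Hyp3`.** -/
theorem transfer_J3_inv_hyp3 (hA : A.LiesOverPrime q) (hB : BaseFacts q A K)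
    (hdvr : IsDiscreteValuationRing (OK A K)) (π : OK A K) (hπ : Irreducible π)
    (H : V3.Hyp3 M q hq hqM A K K' ξ hξ0 ι ϖ')
    (hf1 : ∀ (x : FK (M * q * q) K) (y : LaurentSeries (IsLocalRing.ResidueField A)),
      GRel A ((x : FK (M * q * q) K) : LaurentSeries Qb) y →
      ∃ x' : FK M K, GRel A ((x' : FK M K) : LaurentSeries Qb) y)
    (hf3 : ∀ (x : FK (M * q * q) K) (y : LaurentSeries (IsLocalRing.ResidueField A)),
      GRel A (ι x) y → ∃ x' : FK M K, GRel A ((x' : FK M K) : LaurentSeries Qb) y)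
    (hat : ∀ y ∈ chart (M * q) A K (WKInst.JK M q hq hqM K)⁻¹, WQ2.alphaK2 M q K y ∈ chart (M * q * q) A K (Chart3B.J3 M q hq hqM K)⁻¹)
    (hbt : ∀ y ∈ chart (M * q) A K (WKInst.JK M q hq hqM K)⁻¹, WQ2.betaK2 M q hq hqM K y ∈ chart (M * q * q) A K (Chart3B.J3 M q hq hqM K)⁻¹)
    (P : Fin 3 → Ideal ↥(chart (M * q * q) A K (Chart3B.J3 M q hq hqM K)⁻¹))
    (hP0 : ∀ r : ↥(chart (M * q * q) A K (Chart3B.J3 M q hq hqM K)⁻¹), r ∈ P 0 ↔
      ∃ y ∈ GaussV.V1 (M * q * q) A K hdvr,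
        (r : FK (M * q * q) K) = algebraMap (OK A K) (FK (M * q * q) K) π * y)
    (hP1 : ∀ r : ↥(chart (M * q * q) A K (Chart3B.J3 M q hq hqM K)⁻¹), r ∈ P 1 ↔
      ∃ y ∈ GaussV.V2 (WQ2.wK2 M q hq hqM K) hdvr,
        (r : FK (M * q * q) K) = algebraMap (OK A K) (FK (M * q * q) K) π * y)
    (hP2 : ∀ r : ↥(chart (M * q * q) A K (Chart3B.J3 M q hq hqM K)⁻¹), r ∈ P 2 ↔
      ∃ y ∈ H.W3, (r : FK (M * q * q) K) = Wit3.sE M q hq hqM K * y) :
    (∀ x : ↥(chart (M * q * q) A K (Chart3B.J3 M q hq hqM K)⁻¹), ∃ y : ↥(chart (M * q) A K (WKInst.JK M q hq hqM K)⁻¹),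
      x - BranchInst.chartHom _ _ (WQ2.alphaK2 M q K) hat y ∈ P 0) ∧
    (∀ x : ↥(chart (M * q * q) A K (Chart3B.J3 M q hq hqM K)⁻¹), ∃ y : ↥(chart (M * q) A K (WKInst.JK M q hq hqM K)⁻¹),
      x - BranchInst.chartHom _ _ (WQ2.alphaK2 M q K) hat y ∈ P 2) ∧
    (∀ x : ↥(chart (M * q * q) A K (Chart3B.J3 M q hq hqM K)⁻¹), ∃ y : ↥(chart (M * q) A K (WKInst.JK M q hq hqM K)⁻¹),
      x - BranchInst.chartHom _ _ (WQ2.betaK2 M q hq hqM K) hbt y ∈ P 1) ∧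
    (∀ x : ↥(chart (M * q * q) A K (Chart3B.J3 M q hq hqM K)⁻¹), ∃ y : ↥(chart (M * q) A K (WKInst.JK M q hq hqM K)⁻¹),
      x - BranchInst.chartHom _ _ (WQ2.betaK2 M q hq hqM K) hbt y ∈ P 2) ∧
    (∀ x : ↥(chart (M * q * q) A K (Chart3B.J3 M q hq hqM K)⁻¹), ∃ y : ↥(chart (M * q) A K (WKInst.JK M q hq hqM K)⁻¹),
      x ^ q - BranchInst.chartHom _ _ (WQ2.alphaK2 M q K) hat y ∈ P 1) ∧
    (∀ x : ↥(chart (M * q * q) A K (Chart3B.J3 M q hq hqM K)⁻¹), ∃ y : ↥(chart (M * q) A K (WKInst.JK M q hq hqM K)⁻¹),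
      x ^ q - BranchInst.chartHom _ _ (WQ2.betaK2 M q hq hqM K) hbt y ∈ P 0) :=
  transfer_J3_inv M q hq hqM hA hB hdvr π hπ H.emb H.dvr' H.irr H.unif H.mid.alpha
    (fun _ _ h => H.gRel_beta hA h) (GaussE.gRel_unif H.irr H.unif) hf1 hf3 hat hbt P
    hP0 hP1 hP2

/-- **`transfer_J3_Pc` over `V3.Hyp3`**: `P i = Model3Asm.Pc (chart J3) ϖ V hle i` with
`V = (W1, W2, H.W3)`, `ϖ = (π, π, Wit3.sE)` (given up to the six equations; `rfl` for the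
literal vectors `![_, _, _]`). -/
theorem transfer_J3_Pc_hyp3 (hA : A.LiesOverPrime q) (hB : BaseFacts q A K)
    (hdvr : IsDiscreteValuationRing (OK A K)) (π : OK A K) (hπ : Irreducible π)
    (H : V3.Hyp3 M q hq hqM A K K' ξ hξ0 ι ϖ')
    (hf1 : ∀ (x : FK (M * q * q) K) (y : LaurentSeries (IsLocalRing.ResidueField A)),
      GRel A ((x : FK (M * q * q) K) : LaurentSeries Qb) y →
      ∃ x' : FK M K, GRel A ((x' : FK M K) : LaurentSeries Qb) y)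
    (hf3 : ∀ (x : FK (M * q * q) K) (y : LaurentSeries (IsLocalRing.ResidueField A)),
      GRel A (ι x) y → ∃ x' : FK M K, GRel A ((x' : FK M K) : LaurentSeries Qb) y)
    (hat : ∀ y ∈ chart (M * q) A K (WKInst.JK M q hq hqM K), WQ2.alphaK2 M q K y ∈ chart (M * q * q) A K (Chart3B.J3 M q hq hqM K))
    (hbt : ∀ y ∈ chart (M * q) A K (WKInst.JK M q hq hqM K), WQ2.betaK2 M q hq hqM K y ∈ chart (M * q * q) A K (Chart3B.J3 M q hq hqM K))
    (ϖ : Fin 3 → FK (M * q * q) K) (V : Fin 3 → ValuationSubring (FK (M * q * q) K))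
    (hle : ∀ i : Fin 3, ∀ x ∈ chart (M * q * q) A K (Chart3B.J3 M q hq hqM K), x ∈ V i)
    (hV0 : V 0 = GaussV.V1 (M * q * q) A K hdvr)
    (hV1 : V 1 = GaussV.V2 (WQ2.wK2 M q hq hqM K) hdvr)
    (hV2 : V 2 = H.W3)
    (hϖ0 : ϖ 0 = algebraMap (OK A K) (FK (M * q * q) K) π)
    (hϖ1 : ϖ 1 = algebraMap (OK A K) (FK (M * q * q) K) π)
    (hϖ2 : ϖ 2 = Wit3.sE M q hq hqM K) :
    (∀ x : ↥(chart (M * q * q) A K (Chart3B.J3 M q hq hqM K)), ∃ y : ↥(chart (M * q) A K (WKInst.JK M q hq hqM K)),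
      x - BranchInst.chartHom _ _ (WQ2.alphaK2 M q K) hat y ∈ Model3Asm.Pc (chart (M * q * q) A K (Chart3B.J3 M q hq hqM K)) ϖ V hle 0) ∧
    (∀ x : ↥(chart (M * q * q) A K (Chart3B.J3 M q hq hqM K)), ∃ y : ↥(chart (M * q) A K (WKInst.JK M q hq hqM K)),
      x - BranchInst.chartHom _ _ (WQ2.alphaK2 M q K) hat y ∈ Model3Asm.Pc (chart (M * q * q) A K (Chart3B.J3 M q hq hqM K)) ϖ V hle 2) ∧
    (∀ x : ↥(chart (M * q * q) A K (Chart3B.J3 M q hq hqM K)), ∃ y : ↥(chart (M * q) A K (WKInst.JK M q hq hqM K)),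
      x - BranchInst.chartHom _ _ (WQ2.betaK2 M q hq hqM K) hbt y ∈ Model3Asm.Pc (chart (M * q * q) A K (Chart3B.J3 M q hq hqM K)) ϖ V hle 1) ∧
    (∀ x : ↥(chart (M * q * q) A K (Chart3B.J3 M q hq hqM K)), ∃ y : ↥(chart (M * q) A K (WKInst.JK M q hq hqM K)),
      x - BranchInst.chartHom _ _ (WQ2.betaK2 M q hq hqM K) hbt y ∈ Model3Asm.Pc (chart (M * q * q) A K (Chart3B.J3 M q hq hqM K)) ϖ V hle 2) ∧
    (∀ x : ↥(chart (M * q * q) A K (Chart3B.J3 M q hq hqM K)), ∃ y : ↥(chart (M * q) A K (WKInst.JK M q hq hqM K)),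
      x ^ q - BranchInst.chartHom _ _ (WQ2.alphaK2 M q K) hat y ∈ Model3Asm.Pc (chart (M * q * q) A K (Chart3B.J3 M q hq hqM K)) ϖ V hle 1) ∧
    (∀ x : ↥(chart (M * q * q) A K (Chart3B.J3 M q hq hqM K)), ∃ y : ↥(chart (M * q) A K (WKInst.JK M q hq hqM K)),
      x ^ q - BranchInst.chartHom _ _ (WQ2.betaK2 M q hq hqM K) hbt y ∈ Model3Asm.Pc (chart (M * q * q) A K (Chart3B.J3 M q hq hqM K)) ϖ V hle 0) :=
  transfer_J3_Pc M q hq hqM hA hB hdvr π hπ H.emb H.dvr' H.irr H.unif H.mid.alpha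
    (fun _ _ h => H.gRel_beta hA h) (GaussE.gRel_unif H.irr H.unif) hf1 hf3 hat hbt ϖ V hle
    hV0 hV1 hV2 hϖ0 hϖ1 hϖ2

/-- **`transfer_J3_inv_Pc` over `V3.Hyp3`.** -/
theorem transfer_J3_inv_Pc_hyp3 (hA : A.LiesOverPrime q) (hB : BaseFacts q A K)
    (hdvr : IsDiscreteValuationRing (OK A K)) (π : OK A K) (hπ : Irreducible π)
    (H : V3.Hyp3 M q hq hqM A K K' ξ hξ0 ι ϖ')
    (hf1 : ∀ (x : FK (M * q * q) K) (y : LaurentSeries (IsLocalRing.ResidueField A)),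
      GRel A ((x : FK (M * q * q) K) : LaurentSeries Qb) y →
      ∃ x' : FK M K, GRel A ((x' : FK M K) : LaurentSeries Qb) y)
    (hf3 : ∀ (x : FK (M * q * q) K) (y : LaurentSeries (IsLocalRing.ResidueField A)),
      GRel A (ι x) y → ∃ x' : FK M K, GRel A ((x' : FK M K) : LaurentSeries Qb) y)
    (hat : ∀ y ∈ chart (M * q) A K (WKInst.JK M q hq hqM K)⁻¹, WQ2.alphaK2 M q K y ∈ chart (M * q * q) A K (Chart3B.J3 M q hq hqM K)⁻¹)
    (hbt : ∀ y ∈ chart (M * q) A K (WKInst.JK M q hq hqM K)⁻¹, WQ2.betaK2 M q hq hqM K y ∈ chart (M * q * q) A K (Chart3B.J3 M q hq hqM K)⁻¹)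
    (ϖ : Fin 3 → FK (M * q * q) K) (V : Fin 3 → ValuationSubring (FK (M * q * q) K))
    (hle : ∀ i : Fin 3, ∀ x ∈ chart (M * q * q) A K (Chart3B.J3 M q hq hqM K)⁻¹, x ∈ V i)
    (hV0 : V 0 = GaussV.V1 (M * q * q) A K hdvr)
    (hV1 : V 1 = GaussV.V2 (WQ2.wK2 M q hq hqM K) hdvr)
    (hV2 : V 2 = H.W3)
    (hϖ0 : ϖ 0 = algebraMap (OK A K) (FK (M * q * q) K) π)
    (hϖ1 : ϖ 1 = algebraMap (OK A K) (FK (M * q * q) K) π)
    (hϖ2 : ϖ 2 = Wit3.sE M q hq hqM K) :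
    (∀ x : ↥(chart (M * q * q) A K (Chart3B.J3 M q hq hqM K)⁻¹), ∃ y : ↥(chart (M * q) A K (WKInst.JK M q hq hqM K)⁻¹),
      x - BranchInst.chartHom _ _ (WQ2.alphaK2 M q K) hat y ∈ Model3Asm.Pc (chart (M * q * q) A K (Chart3B.J3 M q hq hqM K)⁻¹) ϖ V hle 0) ∧
    (∀ x : ↥(chart (M * q * q) A K (Chart3B.J3 M q hq hqM K)⁻¹), ∃ y : ↥(chart (M * q) A K (WKInst.JK M q hq hqM K)⁻¹),
      x - BranchInst.chartHom _ _ (WQ2.alphaK2 M q K) hat y ∈ Model3Asm.Pc (chart (M * q * q) A K (Chart3B.J3 M q hq hqM K)⁻¹) ϖ V hle 2) ∧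
    (∀ x : ↥(chart (M * q * q) A K (Chart3B.J3 M q hq hqM K)⁻¹), ∃ y : ↥(chart (M * q) A K (WKInst.JK M q hq hqM K)⁻¹),
      x - BranchInst.chartHom _ _ (WQ2.betaK2 M q hq hqM K) hbt y ∈ Model3Asm.Pc (chart (M * q * q) A K (Chart3B.J3 M q hq hqM K)⁻¹) ϖ V hle 1) ∧
    (∀ x : ↥(chart (M * q * q) A K (Chart3B.J3 M q hq hqM K)⁻¹), ∃ y : ↥(chart (M * q) A K (WKInst.JK M q hq hqM K)⁻¹),
      x - BranchInst.chartHom _ _ (WQ2.betaK2 M q hq hqM K) hbt y ∈ Model3Asm.Pc (chart (M * q * q) A K (Chart3B.J3 M q hq hqM K)⁻¹) ϖ V hle 2) ∧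
    (∀ x : ↥(chart (M * q * q) A K (Chart3B.J3 M q hq hqM K)⁻¹), ∃ y : ↥(chart (M * q) A K (WKInst.JK M q hq hqM K)⁻¹),
      x ^ q - BranchInst.chartHom _ _ (WQ2.alphaK2 M q K) hat y ∈ Model3Asm.Pc (chart (M * q * q) A K (Chart3B.J3 M q hq hqM K)⁻¹) ϖ V hle 1) ∧
    (∀ x : ↥(chart (M * q * q) A K (Chart3B.J3 M q hq hqM K)⁻¹), ∃ y : ↥(chart (M * q) A K (WKInst.JK M q hq hqM K)⁻¹),
      x ^ q - BranchInst.chartHom _ _ (WQ2.betaK2 M q hq hqM K) hbt y ∈ Model3Asm.Pc (chart (M * q * q) A K (Chart3B.J3 M q hq hqM K)⁻¹) ϖ V hle 0) :=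
  transfer_J3_inv_Pc M q hq hqM hA hB hdvr π hπ H.emb H.dvr' H.irr H.unif H.mid.alpha
    (fun _ _ h => H.gRel_beta hA h) (GaussE.gRel_unif H.irr H.unif) hf1 hf3 hat hbt ϖ V hle
    hV0 hV1 hV2 hϖ0 hϖ1 hϖ2

end Hyp3

end Fermat.Agent.S36.TorMInst
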