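/-
S36 — Inc3AsmB.lean (helper22): block [INC3], independent assembly (deal of the [TORIC36] lead
helper63): the incidence hypotheses `Inc3.Hyp` for the charts of record

    `S = chart (M * q) A K JK`  →  `R = chart (M * q * q) A K J3`   (`alphaC`, `betaC`),

for the three vertical primes `P` of a model whose valuation rings are the ones of record
(`V = ![V1, V2 (w_{q²}), W3]`, `ϖ = ![π, π, s]`, given up to the six equations `hV0 … hϖ2`), and
its consequences in the CONSUMER shapes: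

* `hyp_J3`       : `Inc3.Hyp alphaC betaC P PK' π` = `Inc3Low.hyp_of_pieces` ∘
                   `Inc3W3.comap_alpha_P2 / comap_beta_P2` ∘ `TorMInst.transfer_J3_hyp3`
                   (open modular inputs: the residue-degree-one statements `hf1`, `hf3`);
* `triple_of_hyp`: the field `triple` of `ChartTorInst.TorIn` / `htriple` of
                   `TorInInst.torIn_chart`, `TorOutInst.torOutProp_of_relAt`;
* `huniq_alpha_of_hyp`, `huniq_beta_of_hyp` : the hypothesis `huniq` of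
                   `TorRelInst.relα_field` / `relβ_field` (`T n l := P l ≤ n`);
* `hcen_alpha_of_hyp`, `hcen_beta_of_hyp`   : the hypothesis `hcen'` of the same
                   (`V' = V12.VK = ![V1 (M q), V2 (w_q)]`);
* `triple_J3`, `huniq_alpha_J3`, `huniq_beta_J3`, `hcen_alpha_J3`, `hcen_beta_J3` : the same
  directly from the model data.
-/
import Mathlib
import Fermat.Agent.S36.Inc3Low
import Fermat.Agent.S36.Inc3W3
import Fermat.Agent.S36.TorMInst

set_option autoImplicit false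

open ModularCurve AlgebraicCurve HahnSeries

namespace Fermat.Agent.S36.Inc3AsmB

open Fermat.Agent.S18 Fermat.Agent.S18.Arith Fermat.Agent.S34 Fermat.Agent.S36.Model3Plan

/-! ### Consumer shapes from an abstract `Inc3.Hyp` -/

section Abstract

variable {O S R : Type*} [CommRing O] [CommRing S] [CommRing R] [Algebra O R]
  {α β : S →+* R} {P : Fin 3 → Ideal R} {P' : Fin 2 → Ideal S} {ϖS : S}

/-- The field `triple` of `ChartTorInst.TorIn`. -/
theorem triple_of_hyp (H : Inc3.Hyp α β P P' ϖS) (π : O) :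
    ∀ n : Ideal R, n.IsMaximal → algebraMap O R π ∈ n →
      ∀ i j, i ≠ j → P i ≤ n → P j ≤ n → ∀ l, P l ≤ n :=
  fun n hn _ i j hij hi hj => H.triple n hn.isPrime i j hij hi hj

/-- The hypothesis `huniq` of `TorRelInst.relα_field` (`φ = α`). -/
theorem huniq_alpha_of_hyp (H : Inc3.Hyp α β P P' ϖS) (π : O) :
    ∀ n : Ideal R, n.IsMaximal → algebraMap O R π ∈ n → (∀ l, P l ≤ n) →
      ∀ n₂ : Ideal R, n₂.IsPrime → n₂.comap α = n.comap α → n₂ = n :=
  fun n hn _ hT n₂ hn₂ h => H.unique_over_alpha n n₂ hn.isPrime hn₂ (hT 1) h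

/-- The hypothesis `huniq` of `TorRelInst.relβ_field` (`φ = β`). -/
theorem huniq_beta_of_hyp (H : Inc3.Hyp α β P P' ϖS) (π : O) :
    ∀ n : Ideal R, n.IsMaximal → algebraMap O R π ∈ n → (∀ l, P l ≤ n) →
      ∀ n₂ : Ideal R, n₂.IsPrime → n₂.comap β = n.comap β → n₂ = n :=
  fun n hn _ hT n₂ hn₂ h => H.unique_over_beta n n₂ hn.isPrime hn₂ (hT 0) h

/-- The hypothesis `hcen'` of `TorRelInst.relα_field`, in ideal form: the image of a triple
point under `α` lies on both branches downstairs. -/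
theorem hcen_alpha_of_hyp (H : Inc3.Hyp α β P P' ϖS) (π : O) :
    ∀ n : Ideal R, n.IsMaximal → algebraMap O R π ∈ n → (∀ l, P l ≤ n) →
      ∀ j, ∀ r : S, r ∈ P' j → α r ∈ n :=
  fun n _ _ hT j _ hr => H.node_below_alpha n (hT 0) (hT 1) j hr

/-- The hypothesis `hcen'` of `TorRelInst.relβ_field`, in ideal form. -/
theorem hcen_beta_of_hyp (H : Inc3.Hyp α β P P' ϖS) (π : O) :
    ∀ n : Ideal R, n.IsMaximal → algebraMap O R π ∈ n → (∀ l, P l ≤ n) →
      ∀ j, ∀ r : S, r ∈ P' j → β r ∈ n :=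
  fun n _ _ hT j _ hr => H.node_below_beta n (hT 0) (hT 1) j hr

end Abstract

/-! ### The charts of record -/

section Record

variable {M q : ℕ} [NeZero M] [NeZero q] {hq : q.Prime} {hqM : ¬ q ∣ M}
variable {A : ValuationSubring Qb} {K K' : IntermediateField ℚ Qb}
variable {ξ : Qb} {hξ0 : ξ ≠ 0} {ι : FK (M * q * q) K →+* LaurentSeries Qb} {ϖ' : OK A K'}

/-- **`Inc3.Hyp` on the chart `J3` over the chart `JK`** for the vertical primes `P` of the
valuation rings of record. -/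
theorem hyp_J3 [Fact q.Prime] (hA : A.LiesOverPrime q) (hB : BaseFacts q A K)
    (hdvr : IsDiscreteValuationRing (OK A K)) {π : OK A K} (hπ : Irreducible π)
    (H : V3.Hyp3 M q hq hqM A K K' ξ hξ0 ι ϖ')
    (hf1 : ∀ (x : FK (M * q * q) K) (y : LaurentSeries (IsLocalRing.ResidueField A)),
      GRel A ((x : FK (M * q * q) K) : LaurentSeries Qb) y →
      ∃ x' : FK M K, GRel A ((x' : FK M K) : LaurentSeries Qb) y)
    (hf3 : ∀ (x : FK (M * q * q) K) (y : LaurentSeries (IsLocalRing.ResidueField A)),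
      GRel A (ι x) y → ∃ x' : FK M K, GRel A ((x' : FK M K) : LaurentSeries Qb) y)
    {e : Fin 3 → ℕ} {ϖ : Fin 3 → FK (M * q * q) K}
    {V : Fin 3 → ValuationSubring (FK (M * q * q) K)}
    (val : ValHyp3 (algebraMap (OK A K) (FK (M * q * q) K) π) e ϖ V)
    (P : Fin 3 → Ideal ↥(chart (M * q * q) A K (Chart3B.J3 M q hq hqM K)))
    (hyp : ChartHyp3 π ϖ V P)
    (hV0 : V 0 = GaussV.V1 (M * q * q) A K hdvr)
    (hV1 : V 1 = GaussV.V2 (WQ2.wK2 M q hq hqM K) hdvr)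
    (hV2 : V 2 = H.W3)
    (hϖ0 : ϖ 0 = algebraMap (OK A K) (FK (M * q * q) K) π)
    (hϖ1 : ϖ 1 = algebraMap (OK A K) (FK (M * q * q) K) π)
    (hϖ2 : ϖ 2 = Wit3.sE M q hq hqM K) :
    Inc3.Hyp (Inc3Gd.alphaC M q hq hqM A K) (Inc3Gd.betaC M q hq hqM A K) P
      (Inc3Low.PK' M q hq hqM A K hdvr)
      (algebraMap (OK A K) ↥(chart (M * q) A K (WKInst.JK M q hq hqM K)) π) := by
  have hP0 : ∀ r : ↥(chart (M * q * q) A K (Chart3B.J3 M q hq hqM K)), r ∈ P 0 ↔
      ∃ y ∈ GaussV.V1 (M * q * q) A K hdvr,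
        (r : FK (M * q * q) K) = algebraMap (OK A K) (FK (M * q * q) K) π * y := by
    intro r
    have h := hyp.mem_P 0 r
    rw [hV0, hϖ0] at h
    exact h
  have hP1 : ∀ r : ↥(chart (M * q * q) A K (Chart3B.J3 M q hq hqM K)), r ∈ P 1 ↔
      ∃ y ∈ GaussV.V2 (WQ2.wK2 M q hq hqM K) hdvr,
        (r : FK (M * q * q) K) = algebraMap (OK A K) (FK (M * q * q) K) π * y := by
    intro r
    have h := hyp.mem_P 1 r
    rw [hV1, hϖ1] at h
    exact h
  have hP2 : ∀ r : ↥(chart (M * q * q) A K (Chart3B.J3 M q hq hqM K)), r ∈ P 2 ↔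
      ∃ y ∈ H.W3, (r : FK (M * q * q) K) = Wit3.sE M q hq hqM K * y := by
    intro r
    have h := hyp.mem_P 2 r
    rw [hV2, hϖ2] at h
    exact h
  obtain ⟨d0, d2, d1, -, r1, r0⟩ := TorMInst.transfer_J3_hyp3 M q hq hqM hA hB hdvr π hπ H hf1
    hf3 (fun _ hy => Chart3B.alphaK2_mem_chart_J3 M q hq hqM A K hy)
    (fun _ hy => Chart3B.betaK2_mem_chart_J3 M q hq hqM A K hy) P hP0 hP1 hP2
  exact Inc3Low.hyp_of_pieces hdvr P hA hπ val hyp
    (TorM.gRel_iff_of_V1 (Chart3B.J3 M q hq hqM K) hdvr hπ (P 0) hP0)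
    (TorM.gRel_iff_of_V2 hq hqM (Chart3B.J3 M q hq hqM K) hdvr hπ (P 1) hP1)
    (Inc3W3.comap_alpha_P2 H hdvr hπ (Inc3Gd.alphaC M q hq hqM A K) (fun _ => rfl) (P 2) hP2
      (Inc3Low.PK' M q hq hqM A K hdvr 0)
      (fun s => Inc3Low.mem_PK' M q hq hqM A K hdvr hπ 0 s))
    (Inc3W3.comap_beta_P2 H hA hdvr hπ (Inc3Gd.betaC M q hq hqM A K) (fun _ => rfl) (P 2) hP2
      (Inc3Low.PK' M q hq hqM A K hdvr 1)
      (fun s => Inc3Low.mem_PK' M q hq hqM A K hdvr hπ 1 s))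
    d0 d2 d1 r1 r0

/-- **`hcen'` of `TorRelInst.relα_field`** (`φ = alphaC`, `V' = V12.VK = ![V1 (M q), V2 (w_q)]`)
from the incidence hypotheses. -/
theorem hcen_alpha_J3 (hdvr : IsDiscreteValuationRing (OK A K)) {π : OK A K}
    (hπ : Irreducible π)
    {P : Fin 3 → Ideal ↥(chart (M * q * q) A K (Chart3B.J3 M q hq hqM K))}
    (Hinc : Inc3.Hyp (Inc3Gd.alphaC M q hq hqM A K) (Inc3Gd.betaC M q hq hqM A K) P
      (Inc3Low.PK' M q hq hqM A K hdvr)
      (algebraMap (OK A K) ↥(chart (M * q) A K (WKInst.JK M q hq hqM K)) π)) :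
    ∀ n : Ideal ↥(chart (M * q * q) A K (Chart3B.J3 M q hq hqM K)), n.IsMaximal →
      algebraMap (OK A K) ↥(chart (M * q * q) A K (Chart3B.J3 M q hq hqM K)) π ∈ n →
      (∀ l, P l ≤ n) →
      ∀ j, ∀ r : ↥(chart (M * q) A K (WKInst.JK M q hq hqM K)),
        (∃ z ∈ V12.VK M q hq hqM A K hdvr j,
          (r : FK (M * q) K) = algebraMap (OK A K) (FK (M * q) K) π * z) →
        Inc3Gd.alphaC M q hq hqM A K r ∈ n :=
  fun n hn hπn hT j r hr => hcen_alpha_of_hyp Hinc π n hn hπn hT j r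
    ((Inc3Low.mem_PK' M q hq hqM A K hdvr hπ j r).2 hr)

/-- **`hcen'` of `TorRelInst.relβ_field`** (`φ = betaC`). -/
theorem hcen_beta_J3 (hdvr : IsDiscreteValuationRing (OK A K)) {π : OK A K}
    (hπ : Irreducible π)
    {P : Fin 3 → Ideal ↥(chart (M * q * q) A K (Chart3B.J3 M q hq hqM K))}
    (Hinc : Inc3.Hyp (Inc3Gd.alphaC M q hq hqM A K) (Inc3Gd.betaC M q hq hqM A K) P
      (Inc3Low.PK' M q hq hqM A K hdvr)
      (algebraMap (OK A K) ↥(chart (M * q) A K (WKInst.JK M q hq hqM K)) π)) :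
    ∀ n : Ideal ↥(chart (M * q * q) A K (Chart3B.J3 M q hq hqM K)), n.IsMaximal →
      algebraMap (OK A K) ↥(chart (M * q * q) A K (Chart3B.J3 M q hq hqM K)) π ∈ n →
      (∀ l, P l ≤ n) →
      ∀ j, ∀ r : ↥(chart (M * q) A K (WKInst.JK M q hq hqM K)),
        (∃ z ∈ V12.VK M q hq hqM A K hdvr j,
          (r : FK (M * q) K) = algebraMap (OK A K) (FK (M * q) K) π * z) →
        Inc3Gd.betaC M q hq hqM A K r ∈ n :=
  fun n hn hπn hT j r hr => hcen_beta_of_hyp Hinc π n hn hπn hT j r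
    ((Inc3Low.mem_PK' M q hq hqM A K hdvr hπ j r).2 hr)

/-- **`Inc3.Hyp` for the chart `J3` of a model** whose valuation rings and uniformizers are the
ones of record. -/
theorem hyp_model [Fact q.Prime] (hA : A.LiesOverPrime q) (hB : BaseFacts q A K)
    (hdvr : IsDiscreteValuationRing (OK A K)) {π : OK A K}
    (H : V3.Hyp3 M q hq hqM A K K' ξ hξ0 ι ϖ')
    (hf1 : ∀ (x : FK (M * q * q) K) (y : LaurentSeries (IsLocalRing.ResidueField A)),
      GRel A ((x : FK (M * q * q) K) : LaurentSeries Qb) y →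
      ∃ x' : FK M K, GRel A ((x' : FK M K) : LaurentSeries Qb) y)
    (hf3 : ∀ (x : FK (M * q * q) K) (y : LaurentSeries (IsLocalRing.ResidueField A)),
      GRel A (ι x) y → ∃ x' : FK M K, GRel A ((x' : FK M K) : LaurentSeries Qb) y)
    {e : Fin 3 → ℕ} {ϖ : Fin 3 → FK (M * q * q) K}
    {V : Fin 3 → ValuationSubring (FK (M * q * q) K)}
    (Md : Model3 (M * q * q) A K π e ϖ V (Chart3B.J3 M q hq hqM K))
    (hV0 : V 0 = GaussV.V1 (M * q * q) A K hdvr)
    (hV1 : V 1 = GaussV.V2 (WQ2.wK2 M q hq hqM K) hdvr)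
    (hV2 : V 2 = H.W3)
    (hϖ0 : ϖ 0 = algebraMap (OK A K) (FK (M * q * q) K) π)
    (hϖ1 : ϖ 1 = algebraMap (OK A K) (FK (M * q * q) K) π)
    (hϖ2 : ϖ 2 = Wit3.sE M q hq hqM K) :
    Inc3.Hyp (Inc3Gd.alphaC M q hq hqM A K) (Inc3Gd.betaC M q hq hqM A K) Md.c0.P
      (Inc3Low.PK' M q hq hqM A K hdvr)
      (algebraMap (OK A K) ↥(chart (M * q) A K (WKInst.JK M q hq hqM K)) π) :=
  hyp_J3 hA hB hdvr Md.irr H hf1 hf3 Md.val Md.c0.P Md.c0.hyp hV0 hV1 hV2 hϖ0 hϖ1 hϖ2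

/-- **[INC3] `triple` for the chart `J3` of the model** (= `htriple` of
`TorInInst.torIn_chart` / `TorOutInst.torOutProp_of_relAt`, the field `triple` of
`ChartTorInst.TorIn`). -/
theorem triple_J3 [Fact q.Prime] (hA : A.LiesOverPrime q) (hB : BaseFacts q A K)
    (hdvr : IsDiscreteValuationRing (OK A K)) {π : OK A K}
    (H : V3.Hyp3 M q hq hqM A K K' ξ hξ0 ι ϖ')
    (hf1 : ∀ (x : FK (M * q * q) K) (y : LaurentSeries (IsLocalRing.ResidueField A)),
      GRel A ((x : FK (M * q * q) K) : LaurentSeries Qb) y →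
      ∃ x' : FK M K, GRel A ((x' : FK M K) : LaurentSeries Qb) y)
    (hf3 : ∀ (x : FK (M * q * q) K) (y : LaurentSeries (IsLocalRing.ResidueField A)),
      GRel A (ι x) y → ∃ x' : FK M K, GRel A ((x' : FK M K) : LaurentSeries Qb) y)
    {e : Fin 3 → ℕ} {ϖ : Fin 3 → FK (M * q * q) K}
    {V : Fin 3 → ValuationSubring (FK (M * q * q) K)}
    (Md : Model3 (M * q * q) A K π e ϖ V (Chart3B.J3 M q hq hqM K))
    (hV0 : V 0 = GaussV.V1 (M * q * q) A K hdvr)
    (hV1 : V 1 = GaussV.V2 (WQ2.wK2 M q hq hqM K) hdvr)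
    (hV2 : V 2 = H.W3)
    (hϖ0 : ϖ 0 = algebraMap (OK A K) (FK (M * q * q) K) π)
    (hϖ1 : ϖ 1 = algebraMap (OK A K) (FK (M * q * q) K) π)
    (hϖ2 : ϖ 2 = Wit3.sE M q hq hqM K) :
    ∀ n : Ideal ↥(chart (M * q * q) A K (Chart3B.J3 M q hq hqM K)), n.IsMaximal →
      algebraMap (OK A K) ↥(chart (M * q * q) A K (Chart3B.J3 M q hq hqM K)) π ∈ n →
      ∀ i j, i ≠ j → Md.c0.P i ≤ n → Md.c0.P j ≤ n → ∀ l, Md.c0.P l ≤ n :=
  triple_of_hyp (hyp_model hA hB hdvr H hf1 hf3 Md hV0 hV1 hV2 hϖ0 hϖ1 hϖ2) π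

end Record

end Fermat.Agent.S36.Inc3AsmB
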