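import Mathlib
import Fermat.Agent.S34.LocPlan
import Fermat.Agent.S36.NakPlan
import Fermat.Agent.S36.Model3Plan
import Fermat.Agent.S36.HorGen

/-!
# S36, block [HorGen3] : the local datum at a closed point of a `Model3Plan` chart

Adapter from the [MODEL3] interface (`S36/Model3Plan.lean`: `ValHyp3`, `ChartHyp3`,
`ChartModel3`, `Hor3`, `OneMod`, `FactStatement`) to the abstract leaf [HorGen]
(`S36/HorGen.lean`).

Result (`exists_local_datum`): let `C : ChartModel3 N A K π ϖ V R` be a chart of the model,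
`π ≠ 0`, and `G ∈ F_K` with `G ≡ 1` modulo `π (V i)` (all `i`) and `m ∣ ord_𝔮 G` at the horizontal
height-one primes of `R` (`Hor3 π m G R`).  Then at every closed point `n` of the special fibre

  `G = g ^ m * u`,  `g ≠ 0`,  `u` a unit of `R_n`,  `g` a unit of `V i` for every branch `P i ≤ n`.

This is the LOCAL DATUM consumed by the multi-branch normal form ([LocG3], [Loc3]).  The
principality of the horizontal primes through `n` comes from `Model3Plan.FactStatement` applied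
to the vertical prime supplied by `ChartModel3.princ` and the branch data `ChartModel3.branch`.

Abstract layer (`section Abs`, any `O`-algebra `R` with fraction field `E`):
* `unif_ne_zero`, `inv_mem_of_notMem_P`, `inv_notMem_of_mem_P`, `P_isPrime` : `P i` is the centre
  of `V i` on `R` (a prime ideal);
* `pi_mem_P`, `exists_pow_eq` : `π ∈ P i` and `P i ^ (e i) ⊆ π (V i)`;
* `exists_eq_P` : the height-one primes of `R` containing `π` are the `P i`;
* `exists_pow_mul_unit_of_chartHyp3` : [HorGen] for `ChartHyp3` + `ValHyp3`.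
-/

set_option autoImplicit false
set_option linter.unusedSectionVars false

namespace Fermat.Agent.S36.HorGen3

open Fermat.Agent.S34.LocPlan Fermat.Agent.S36.NakPlan Fermat.Agent.S36.Model3Plan

/-! ### Abstract layer -/

section Abs

variable {O : Type*} [CommRing O] {R : Type*} [CommRing R] [IsDomain R] [Algebra O R]
  {E : Type*} [Field E] [Algebra R E] [IsFractionRing R E]
  {π : O} {p : E} {e : Fin 3 → ℕ} {ϖ : Fin 3 → E} {V : Fin 3 → ValuationSubring E}
  {P : Fin 3 → Ideal R}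

/-- The uniformizers are nonzero. -/
theorem unif_ne_zero (hV : ValHyp3 p e ϖ V) (i : Fin 3) : ϖ i ≠ 0 := by
  intro h0
  apply hV.unif_not i
  rw [h0, inv_zero]
  exact (V i).zero_mem

/-- Elements of `R` outside `P i` are units of `V i`. -/
theorem inv_mem_of_notMem_P (hV : ValHyp3 p e ϖ V) (hC : ChartHyp3 π ϖ V P) (i : Fin 3) {r : R}
    (hr : r ∉ P i) : (algebraMap R E r)⁻¹ ∈ V i := by
  have hinj : Function.Injective (algebraMap R E) := IsFractionRing.injective R E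
  have hr0 : r ≠ 0 := fun h0 => hr (h0 ▸ (P i).zero_mem)
  have hx0 : algebraMap R E r ≠ 0 := fun h0 => hr0 (hinj (by rw [h0, map_zero]))
  obtain ⟨k, u, hu, hu', hk⟩ := hV.disc i (algebraMap R E r) hx0
  by_cases hpos : 0 < k
  · exfalso
    obtain ⟨j, rfl⟩ := Int.eq_succ_of_zero_lt hpos
    apply hr
    rw [hC.mem_P]
    refine ⟨ϖ i ^ j * u, (V i).mul_mem _ _ (pow_mem (hV.unif_mem i) j) hu, ?_⟩
    have e2 : ϖ i ^ ((j : ℤ) + 1) = ϖ i ^ (j + 1) := by
      rw [← Nat.cast_succ, zpow_natCast]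
    rw [hk, e2, pow_succ]
    ring
  · obtain ⟨j, rfl⟩ := Int.exists_eq_neg_ofNat (not_lt.mp hpos)
    rw [hk, zpow_neg, zpow_natCast, mul_inv, inv_inv]
    exact (V i).mul_mem _ _ (pow_mem (hV.unif_mem i) j) hu'

/-- Nonzero elements of `P i` are nonunits of `V i`. -/
theorem inv_notMem_of_mem_P (hV : ValHyp3 p e ϖ V) (hC : ChartHyp3 π ϖ V P) (i : Fin 3) {r : R}
    (hr : r ∈ P i) (hr0 : r ≠ 0) : (algebraMap R E r)⁻¹ ∉ V i := by
  have hinj : Function.Injective (algebraMap R E) := IsFractionRing.injective R E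
  have hx0 : algebraMap R E r ≠ 0 := fun h0 => hr0 (hinj (by rw [h0, map_zero]))
  obtain ⟨y, hy, hry⟩ := (hC.mem_P i r).mp hr
  intro hinv
  apply hV.unif_not i
  have hϖ0 := unif_ne_zero hV i
  have hy0 : y ≠ 0 := by
    rintro rfl
    rw [mul_zero] at hry
    exact hx0 hry
  have e1 : (ϖ i)⁻¹ = y * (algebraMap R E r)⁻¹ := by
    rw [hry]
    field_simp
  rw [e1]
  exact (V i).mul_mem _ _ hy hinv

/-- `P i` is a prime ideal (the centre of `V i` on `R`). -/
theorem P_isPrime (hV : ValHyp3 p e ϖ V) (hC : ChartHyp3 π ϖ V P) (i : Fin 3) :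
    (P i).IsPrime := by
  rw [Ideal.isPrime_iff]
  constructor
  · intro htop
    have h1 : (1 : R) ∈ P i := by rw [htop]; exact Submodule.mem_top
    have h2 := inv_notMem_of_mem_P hV hC i h1 one_ne_zero
    apply h2
    rw [map_one, inv_one]
    exact (V i).one_mem
  · intro a b hab
    by_contra hcon
    rw [not_or] at hcon
    obtain ⟨ha, hb⟩ := hcon
    have ha0 : a ≠ 0 := fun h0 => ha (h0 ▸ (P i).zero_mem)
    have hb0 : b ≠ 0 := fun h0 => hb (h0 ▸ (P i).zero_mem)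
    have h2 := inv_notMem_of_mem_P hV hC i hab (mul_ne_zero ha0 hb0)
    apply h2
    rw [map_mul, mul_inv]
    exact (V i).mul_mem _ _ (inv_mem_of_notMem_P hV hC i ha) (inv_mem_of_notMem_P hV hC i hb)

/-- `π ∈ P i`. -/
theorem pi_mem_P (hV : ValHyp3 (algebraMap R E (algebraMap O R π)) e ϖ V)
    (hC : ChartHyp3 π ϖ V P) (i : Fin 3) : algebraMap O R π ∈ P i := by
  rw [hC.mem_P]
  obtain ⟨u, hu, -, hpu⟩ := hV.ram i
  obtain ⟨j, hj⟩ : ∃ j : ℕ, e i = j + 1 := ⟨e i - 1, by have := hV.e_pos i; omega⟩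
  refine ⟨ϖ i ^ j * u, (V i).mul_mem _ _ (pow_mem (hV.unif_mem i) j) hu, ?_⟩
  rw [hpu, hj, pow_succ]
  ring

/-- `P i ^ (e i) ⊆ π (V i)`. -/
theorem exists_pow_eq (hV : ValHyp3 (algebraMap R E (algebraMap O R π)) e ϖ V)
    (hC : ChartHyp3 π ϖ V P) (hπ0 : algebraMap O R π ≠ 0) (i : Fin 3) {r : R} (hr : r ∈ P i) :
    ∃ z ∈ V i, algebraMap R E (r ^ e i) = algebraMap R E (algebraMap O R π) * z := by
  have hinj : Function.Injective (algebraMap R E) := IsFractionRing.injective R E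
  have hp0 : algebraMap R E (algebraMap O R π) ≠ 0 :=
    fun h0 => hπ0 (hinj (by rw [h0, map_zero]))
  obtain ⟨y, hy, hry⟩ := (hC.mem_P i r).mp hr
  obtain ⟨u, -, hu', hpu⟩ := hV.ram i
  have hu0 : u ≠ 0 := by
    rintro rfl
    rw [mul_zero] at hpu
    exact hp0 hpu
  refine ⟨u⁻¹ * y ^ e i, (V i).mul_mem _ _ hu' (pow_mem hy _), ?_⟩
  rw [map_pow, hry, hpu, mul_pow]
  field_simp

/-- The height-one primes of `R` containing `π` are the `P i`. -/
theorem exists_eq_P [IsNoetherianRing R]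
    (hV : ValHyp3 (algebraMap R E (algebraMap O R π)) e ϖ V) (hC : ChartHyp3 π ϖ V P)
    (hπ0 : algebraMap O R π ≠ 0) (𝔮 : Ideal R) [h𝔮 : 𝔮.IsPrime] (hπ𝔮 : algebraMap O R π ∈ 𝔮)
    (hP : PrincAt 𝔮) : ∃ i : Fin 3, 𝔮 = P i :=
  Fermat.Agent.S36.HorGen.exists_eq_of_desc V P (algebraMap O R π) hπ0 (pi_mem_P hV hC)
    (P_isPrime hV hC) hC.le (fun i _ hr => ⟨e i, exists_pow_eq hV hC hπ0 i hr⟩)
    (fun r hr => by
      obtain ⟨r', hr'⟩ := hC.desc r hr
      exact ⟨r', hr'⟩) 𝔮 hπ𝔮 hP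

/-- **[HorGen] for `ChartHyp3` + `ValHyp3`**: if `G ≡ 1` modulo `π (V i)` on the branches
through `n` and, at the horizontal height-one primes through `n`, `G` is a unit or a unit times
an `m`-th power with the prime principal at `n`, then `G = g ^ m * u` with `u` a unit of `R_n`
and `g` a unit of every `V i` through `n`. -/
theorem exists_pow_mul_unit_of_chartHyp3 [IsNoetherianRing R] [IsIntegrallyClosed R]
    (hV : ValHyp3 (algebraMap R E (algebraMap O R π)) e ϖ V) (hC : ChartHyp3 π ϖ V P)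
    (hπ0 : algebraMap O R π ≠ 0) (n : Ideal R) [hn : n.IsPrime] (m : ℕ) (hm : 0 < m) (G : E)
    (hG0 : G ≠ 0)
    (hG : ∀ i : Fin 3, P i ≤ n →
      ∃ z ∈ V i, G - 1 = algebraMap R E (algebraMap O R π) * z)
    (hhor : ∀ 𝔮 : Ideal R, 𝔮.IsPrime → 𝔮 ≤ n → algebraMap O R π ∉ 𝔮 → PrincAt 𝔮 →
      UnitAt 𝔮 G ∨ ((∃ x : E, x ≠ 0 ∧ UnitAt 𝔮 (G * x ^ m)) ∧ ∃ e : R, GenAt n 𝔮 e)) :
    ∃ g u : E, g ≠ 0 ∧ G = g ^ m * u ∧ UnitAt n u ∧
      ∀ i : Fin 3, P i ≤ n → g ∈ V i ∧ g⁻¹ ∈ V i :=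
  Fermat.Agent.S36.HorGen.exists_pow_mul_unit_chart V P (algebraMap O R π) n m G hm hC.le
    (fun i _ hr => inv_mem_of_notMem_P hV hC i hr)
    (fun i _ hr hr0 => inv_notMem_of_mem_P hV hC i hr hr0) hπ0 (pi_mem_P hV hC)
    (fun 𝔮 h𝔮 _ hπ𝔮 hP => by
      have := h𝔮
      exact exists_eq_P hV hC hπ0 𝔮 hπ𝔮 hP)
    hG hG0 hhor

end Abs

/-! ### The local datum at a closed point of a `ChartModel3` -/

section Model

open Fermat.Agent.S18.Arith

variable {N : ℕ} [NeZero N] {A : ValuationSubring Qb} {K : IntermediateField ℚ Qb}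
  {π : OK A K} {e : Fin 3 → ℕ} {ϖ : Fin 3 → FK N K} {V : Fin 3 → ValuationSubring (FK N K)}
  {R : Subalgebra (OK A K) (FK N K)}

/-- `G ≡ 1` modulo `π (V i)` forces `G ≠ 0`. -/
theorem ne_zero_of_oneMod (hV : ValHyp3 (algebraMap (OK A K) (FK N K) π) e ϖ V) {G : FK N K}
    (hG : OneMod (algebraMap (OK A K) (FK N K) π) V G) : G ≠ 0 := by
  rintro rfl
  obtain ⟨y, hy, hpy⟩ := hG 0
  obtain ⟨u, hu, -, hpu⟩ := hV.ram 0
  obtain ⟨j, hj⟩ : ∃ j : ℕ, e 0 = j + 1 := ⟨e 0 - 1, by have := hV.e_pos 0; omega⟩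
  apply hV.unif_not 0
  have hϖ0 := unif_ne_zero hV 0
  have e1 : (ϖ 0)⁻¹ = -(ϖ 0 ^ j * u * y) := by
    have h1 : ϖ 0 * (ϖ 0 ^ j * u * y) = -1 := by
      have h2 : algebraMap (OK A K) (FK N K) π * y = -1 := by rw [← hpy]; ring
      rw [← h2, hpu, hj, pow_succ]
      ring
    have h3 : ϖ 0 * -(ϖ 0 ^ j * u * y) = 1 := by rw [mul_neg, h1, neg_neg]
    exact (eq_inv_of_mul_eq_one_right h3).symm
  rw [e1]
  exact neg_mem ((V 0).mul_mem _ _ ((V 0).mul_mem _ _ (pow_mem (hV.unif_mem 0) j) hu) hy)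

/-- **[HorGen3] the local datum**: at every closed point `n` of the special fibre of a chart of
the model, a function `G ≡ 1` modulo `π V` with `m ∣ ord_𝔮 G` at the horizontal primes is
`g ^ m * u` with `u` a unit of `R_n` and `g` a unit of `V i` on every branch through `n`. -/
theorem exists_local_datum (hFact : FactStatement) (C : ChartModel3 N A K π ϖ V R)
    (hV : ValHyp3 (algebraMap (OK A K) (FK N K) π) e ϖ V) (hπ0 : π ≠ 0)
    (m : ℕ) (hm : 0 < m) (G : FK N K)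
    (hG : OneMod (algebraMap (OK A K) (FK N K) π) V G) (hHor : Hor3 π m G R)
    (n : Ideal R) (hn : n.IsMaximal) (hπn : algebraMap (OK A K) R π ∈ n) :
    ∃ g u : FK N K, g ≠ 0 ∧ G = g ^ m * u ∧ UnitAt n u ∧
      ∀ i : Fin 3, C.P i ≤ n → g ∈ V i ∧ g⁻¹ ∈ V i := by
  have := C.noeth
  have := C.frac
  have := C.intcl
  have : n.IsPrime := hn.isPrime
  have hinjOE : Function.Injective (algebraMap (OK A K) (FK N K)) := by
    have h1 : Function.Injective (constK N K) := (constK N K).injective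
    have h2 : Function.Injective (OK A K).subtype := Subtype.val_injective
    exact h1.comp h2
  have hinj : Function.Injective (algebraMap (OK A K) R) := by
    intro a b hab
    have h1 : algebraMap (OK A K) (FK N K) a = algebraMap (OK A K) (FK N K) b := by
      rw [IsScalarTower.algebraMap_apply (OK A K) R (FK N K),
        IsScalarTower.algebraMap_apply (OK A K) R (FK N K), hab]
    exact hinjOE h1
  have hπR : algebraMap (OK A K) R π ≠ 0 := fun h0 => hπ0 (hinj (by rw [h0, map_zero]))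
  have hV' : ValHyp3 (algebraMap R (FK N K) (algebraMap (OK A K) R π)) e ϖ V := by
    rw [← IsScalarTower.algebraMap_apply (OK A K) R (FK N K)]
    exact hV
  have hPp : ∀ i, (C.P i).IsPrime := P_isPrime hV' C.hyp
  obtain ⟨i₀, hi₀, hgen⟩ := C.princ n hn hπn
  obtain ⟨hx, hu⟩ := C.branch n hn hπn i₀ hi₀
  refine exists_pow_mul_unit_of_chartHyp3 hV' C.hyp hπR n m hm G (ne_zero_of_oneMod hV hG) ?_ ?_
  · intro i _
    obtain ⟨z, hz, hGz⟩ := hG i
    exact ⟨z, hz, by rw [hGz, ← IsScalarTower.algebraMap_apply (OK A K) R (FK N K)]⟩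
  · intro 𝔮 h𝔮 hle hπ𝔮 hP
    right
    exact ⟨hHor 𝔮 h𝔮 hπ𝔮 hP, hFact R n (C.P i₀) 𝔮 hn (hPp i₀) h𝔮 hi₀ hle hgen hx hu hP⟩

end Model

end Fermat.Agent.S36.HorGen3
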