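/-
S36, ABSTRACT block [LocG3] (helper28): chart-level MULTI-BRANCH NORMAL FORM WITH MULTIPLICITIES.

Picture (as in `S34/LocPlan.lean`, `S35/LocFPlan.lean`): `O` a discrete valuation ring with
uniformizer `π`, `R` a chart (noetherian domain, an `O`-algebra) with fraction field `E`, `n` a
closed point of the special fibre.  NEW here: an arbitrary FINITE family `V i` of valuation rings
of `E` containing `R` and centred in `n` (the vertical components THROUGH `n`), in which `π` need
NOT be a uniformizer (`hnil`: some power of the maximal ideal of `V i` lies in `π (V i)`; e.g. the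
component of multiplicity `q - 1` of the level `q²` model).  No transversality, no fibre-product
description of `R_n / π`, no regularity of `R_n`.

Main result `locGMulti` (valuation form `locGMulti_val`, predicate form `locGMulti_pred`):
if `G = g ^ m * u` with `u` a unit of `R_n` and `G ≡ 1` modulo `π (V i)` for all `i`, then
`G = g₀ ^ m * u₀` with `u₀ ∈ 1 + π R_n` and `g₀ ≡ γ i` modulo the FULL `π (V i)` for CONSTANTS
`γ i ∈ O` with `γ i ^ m ≡ 1` modulo `π` (and `γ i₀ = 1` for a chosen branch `i₀`).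

Hypotheses at `n`: every branch is regular (`hbranch`, the `BranchAt` of `S35/LocFPlan` for the
centre of `V i`), the residue field of `V i` is the fraction field of the branch (`hres`),
`R_n ∩ ⋂ π (V i) = π R_n` (`hdesc`, normality), `m` is invertible at `n` (`hmn`) and the `m`-th
roots of unity of `R / n` are represented by constants (`hroot`, as in `S35` `LocGStatement`).

Proof.  On each branch `g ≡ w i` modulo the maximal ideal of `V i` for a unit `w i` of `R_n`
(`branch_unit_gen`, a port of `S35/NodeNorm.branch_unit`); the values of the `w i` at `n` differ by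
`m`-th roots of unity, represented by constants `γ i`.  In the `R_n`-algebra `C = R_n[X] / J`,
`J = {Q | Q(γ i⁻¹ g) ∈ π (V i) for all i}`, the class `t` of `X` is a root of the monic polynomial
`X ^ m - u⁻¹`, which has the SIMPLE root `w i₀` modulo the maximal ideal, and `∏ (t - w i)` is
nilpotent; so `t` is a constant (`core`: Taylor expansion + Nakayama), i.e. there is `r ∈ R_n`
with `r ≡ γ i⁻¹ g` modulo `π (V i)` for all `i`.  Then `g₀ = g / r`.
-/
import Mathlib
import Fermat.Agent.S35.NodeNorm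

set_option autoImplicit false

namespace Fermat.Agent.S36.LocGMulti

open Fermat.Agent.S34 Fermat.Agent.S34.LocPlan Fermat.Agent.S35
open Polynomial

/-! ### Part 1: an integral element with a simple residual root is a constant -/

/-- Let `A` be a local ring, `C` an `A`-algebra and `t ∈ C` a root of a monic `P ∈ A[X]`.  If
`w i₀ ∈ A` is a simple root of `P` modulo the maximal ideal, the `w i` are congruent to `w i₀`
modulo the maximal ideal and `∏ (t - w i)` is nilpotent, then `t` is (the image of) an element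
of `A`. -/
theorem core {A C : Type*} [CommRing A] [IsLocalRing A] [CommRing C] [Algebra A C]
    {ι : Type*} [Fintype ι] (t : C) (P : A[X]) (hP : P.Monic) (hPt : aeval t P = 0)
    (w : ι → A) (i₀ : ι) (hw : ∀ i, w i - w i₀ ∈ IsLocalRing.maximalIdeal A)
    (hroot : P.eval (w i₀) ∈ IsLocalRing.maximalIdeal A)
    (hder : IsUnit (P.derivative.eval (w i₀)))
    (hnil : IsNilpotent (∏ i, (t - algebraMap A C (w i)))) :
    ∃ r : A, algebraMap A C r = t := by
  classical
  let S := Algebra.adjoin A {t}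
  let ts : S := ⟨t, Algebra.self_mem_adjoin_singleton A t⟩
  have hint : IsIntegral A t := ⟨P, hP, hPt⟩
  have hfg : (⊤ : Submodule A S).FG := by
    have h1 : (Algebra.adjoin A {t}).toSubmodule.FG := hint.fg_adjoin_singleton
    have h2 : Module.Finite A S := Module.Finite.of_fg h1
    exact h2.fg_top
  let I : Ideal S := (IsLocalRing.maximalIdeal A).map (algebraMap A S)
  let τ : S := ts - algebraMap A S (w i₀)
  have hval : Function.Injective (Subtype.val : S → C) := Subtype.val_injective
  -- the product is nilpotent in `S`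
  have hnilS : IsNilpotent (∏ i, (ts - algebraMap A S (w i))) := by
    obtain ⟨N, hN⟩ := hnil
    refine ⟨N, hval ?_⟩
    have e : ((∏ i, (ts - algebraMap A S (w i)) : S) : C) = ∏ i, (t - algebraMap A C (w i)) := by
      rw [← Subalgebra.coe_val, map_prod]
      rfl
    change (((∏ i, (ts - algebraMap A S (w i))) ^ N : S) : C) = ((0 : S) : C)
    rw [Subalgebra.coe_pow, e, hN]
    rfl
  -- `τ` is nilpotent modulo `I`
  have hmkw : ∀ i, Ideal.Quotient.mk I (ts - algebraMap A S (w i)) = Ideal.Quotient.mk I τ := by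
    intro i
    rw [Ideal.Quotient.eq]
    have e : ts - algebraMap A S (w i) - τ = - algebraMap A S (w i - w i₀) := by
      simp only [τ, map_sub]
      ring
    rw [e]
    exact I.neg_mem (Ideal.mem_map_of_mem _ (hw i))
  have hτnil : IsNilpotent (Ideal.Quotient.mk I τ) := by
    have h1 : IsNilpotent (Ideal.Quotient.mk I (∏ i, (ts - algebraMap A S (w i)))) :=
      hnilS.map _
    rw [map_prod, Finset.prod_congr rfl (fun i _ => hmkw i), Finset.prod_const] at h1
    exact h1.of_pow
  -- the Taylor expansion of `P` at `w i₀`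
  have hPts : aeval ts P = 0 := by
    apply hval
    rw [aeval_subalgebra_coe]
    exact hPt
  obtain ⟨k, hk⟩ := Polynomial.binomExpansion (P.map (algebraMap A S)) (algebraMap A S (w i₀)) τ
  have e1 : algebraMap A S (w i₀) + τ = ts := by simp [τ]
  rw [e1, eval_map_algebraMap, hPts, eval_map_apply, derivative_map, eval_map_apply] at hk
  have hk' := congrArg (Ideal.Quotient.mk I) hk
  have h0 : Ideal.Quotient.mk I (algebraMap A S (P.eval (w i₀))) = 0 :=
    Ideal.Quotient.eq_zero_iff_mem.2 (Ideal.mem_map_of_mem _ hroot)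
  rw [map_zero, map_add, map_add, h0, zero_add, map_mul, map_mul, map_pow] at hk'
  set a := Ideal.Quotient.mk I (algebraMap A S (P.derivative.eval (w i₀))) with ha
  set x := Ideal.Quotient.mk I τ with hx
  have hau : IsUnit a := (hder.map (algebraMap A S)).map (Ideal.Quotient.mk I)
  have hunit : IsUnit (a + Ideal.Quotient.mk I k * x) := by
    have h2 : IsNilpotent (Ideal.Quotient.mk I k * x) :=
      Commute.isNilpotent_mul_left (Commute.all _ _) hτnil
    exact h2.isUnit_add_left_of_commute hau (Commute.all _ _)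
  have hx0 : x = 0 := by
    have h3 : (a + Ideal.Quotient.mk I k * x) * x = 0 := by
      rw [hk']
      ring
    exact (hunit.mul_right_eq_zero).1 h3
  have hτI : τ ∈ I := Ideal.Quotient.eq_zero_iff_mem.1 hx0
  -- every element of `S` is a constant modulo `I`
  have hp : ∀ y : S, ∃ r : A, y - algebraMap A S r ∈ I := by
    rintro ⟨y, hy⟩
    induction hy using Algebra.adjoin_induction with
    | mem z hz =>
      rw [Set.mem_singleton_iff] at hz
      subst hz
      exact ⟨w i₀, hτI⟩
    | algebraMap r =>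
      refine ⟨r, ?_⟩
      have : (⟨algebraMap A C r, Subalgebra.algebraMap_mem _ r⟩ : S) = algebraMap A S r := rfl
      rw [this, sub_self]
      exact I.zero_mem
    | add y z hy hz ihy ihz =>
      obtain ⟨r1, h1⟩ := ihy
      obtain ⟨r2, h2⟩ := ihz
      refine ⟨r1 + r2, ?_⟩
      have e : (⟨y + z, Subalgebra.add_mem _ hy hz⟩ : S) - algebraMap A S (r1 + r2)
          = ((⟨y, hy⟩ : S) - algebraMap A S r1) + ((⟨z, hz⟩ : S) - algebraMap A S r2) := by
        rw [map_add]
        ext
        simp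
        ring
      rw [e]
      exact I.add_mem h1 h2
    | mul y z hy hz ihy ihz =>
      obtain ⟨r1, h1⟩ := ihy
      obtain ⟨r2, h2⟩ := ihz
      refine ⟨r1 * r2, ?_⟩
      have e : (⟨y * z, Subalgebra.mul_mem _ hy hz⟩ : S) - algebraMap A S (r1 * r2)
          = ((⟨y, hy⟩ : S) - algebraMap A S r1) * (⟨z, hz⟩ : S)
            + algebraMap A S r1 * ((⟨z, hz⟩ : S) - algebraMap A S r2) := by
        rw [map_mul]
        ext
        simp
        ring
      rw [e]
      exact I.add_mem (I.mul_mem_right _ h1) (I.mul_mem_left _ h2)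
  -- Nakayama
  have hle : (⊤ : Submodule A S) ≤ LinearMap.range (Algebra.linearMap A S) := by
    apply Submodule.le_of_le_smul_of_le_jacobson_bot hfg
      (IsLocalRing.maximalIdeal_le_jacobson (⊥ : Ideal A))
    intro y _
    obtain ⟨r, hr⟩ := hp y
    have e : y = algebraMap A S r + (y - algebraMap A S r) := by ring
    rw [e]
    refine Submodule.add_mem_sup ⟨r, rfl⟩ ?_
    rw [Ideal.smul_top_eq_map]
    exact hr
  obtain ⟨r, hr⟩ := hle (Submodule.mem_top (x := ts))
  refine ⟨r, ?_⟩
  have := congrArg (Subtype.val : S → C) hr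
  exact this

/-! ### Part 2: valuation calculus -/

section Val

variable {E : Type*} [Field E] (W : ValuationSubring E)

theorem val_le_of_eq_mul {p x : E} (h : ∃ z ∈ W, x = p * z) : W.valuation x ≤ W.valuation p := by
  obtain ⟨z, hz, rfl⟩ := h
  rw [map_mul]
  exact mul_le_of_le_one_right' ((W.valuation_le_one_iff z).2 hz)

theorem eq_mul_of_val_le {p x : E} (hp : p ≠ 0) (h : W.valuation x ≤ W.valuation p) :
    ∃ z ∈ W, x = p * z := by
  refine ⟨x / p, ?_, by field_simp⟩
  rw [← W.valuation_le_one_iff, map_div₀]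
  have hp0 : 0 < W.valuation p := by
    rw [pos_iff_ne_zero, ne_eq, map_eq_zero]
    exact hp
  exact (div_le_one₀ hp0).2 h

theorem val_pow_sub_pow_le {x y : E} (hx : W.valuation x ≤ 1) (hy : W.valuation y ≤ 1)
    {c : W.ValueGroup} (hxy : W.valuation (x - y) ≤ c) (m : ℕ) :
    W.valuation (x ^ m - y ^ m) ≤ c := by
  induction m with
  | zero => simp
  | succ k ih =>
    have e : x ^ (k + 1) - y ^ (k + 1) = x ^ k * (x - y) + (x ^ k - y ^ k) * y := by ring
    rw [e]
    apply (W.valuation).map_add_le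
    · rw [map_mul]
      exact le_trans (mul_le_of_le_one_left' (by rw [map_pow]; exact pow_le_one₀ zero_le hx)) hxy
    · rw [map_mul]
      exact le_trans (mul_le_of_le_one_right' hy) ih

end Val

/-! ### Part 3: the centre of a valuation ring and [BranchUnit] for a general centre -/

section Centre

variable {R : Type*} [CommRing R] {E : Type*} [Field E] [Algebra R E] (W : ValuationSubring E)

/-- The centre of the valuation ring `W ⊇ R` on `R`. -/
def centre (hle : ∀ r : R, algebraMap R E r ∈ W) : Ideal R where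
  carrier := {r | W.valuation (algebraMap R E r) < 1}
  add_mem' := fun {a b} ha hb => by
    change W.valuation (algebraMap R E (a + b)) < 1
    rw [map_add]
    exact (W.valuation).map_add_lt ha hb
  zero_mem' := by simp
  smul_mem' := fun c {x} hx => by
    change W.valuation (algebraMap R E (c * x)) < 1
    rw [map_mul, map_mul]
    exact lt_of_le_of_lt (mul_le_of_le_one_left' ((W.valuation_le_one_iff _).2 (hle c))) hx

theorem mem_centre (hle : ∀ r : R, algebraMap R E r ∈ W) (r : R) :
    r ∈ centre W hle ↔ W.valuation (algebraMap R E r) < 1 := Iff.rfl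

theorem val_eq_one_of_notMem_centre (hle : ∀ r : R, algebraMap R E r ∈ W) {r : R}
    (hr : r ∉ centre W hle) : W.valuation (algebraMap R E r) = 1 :=
  le_antisymm ((W.valuation_le_one_iff _).2 (hle r)) (not_lt.1 hr)

theorem centre_isPrime (hle : ∀ r : R, algebraMap R E r ∈ W) : (centre W hle).IsPrime := by
  refine ⟨fun h => ?_, fun {a b} hab => ?_⟩
  · have h1 : (1 : R) ∈ centre W hle := by rw [h]; exact Submodule.mem_top
    rw [mem_centre, map_one, map_one] at h1
    exact lt_irrefl _ h1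
  · by_contra hcon
    rw [not_or] at hcon
    have h1 := val_eq_one_of_notMem_centre W hle hcon.1
    have h2 := val_eq_one_of_notMem_centre W hle hcon.2
    rw [mem_centre, map_mul, map_mul, h1, h2, mul_one] at hab
    exact lt_irrefl _ hab

variable [IsNoetherianRing R]

/-- **[BranchUnit] for a general centre**: `W ⊇ R` a valuation ring centred in the closed point
`n`, whose residue field is generated by `R` and whose centre is a branch regular at `n`.  If
`g ^ m * U ≡ 1` modulo the maximal ideal of `W` with `U` a unit at `n`, then `g` is congruent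
modulo the maximal ideal of `W` to a unit at `n`. -/
theorem branch_unit_gen (hle : ∀ r : R, algebraMap R E r ∈ W) {n : Ideal R} (hn : n.IsMaximal)
    (hcen : ∀ r : R, W.valuation (algebraMap R E r) < 1 → r ∈ n)
    (hres : ∀ x : E, W.valuation x ≤ 1 → ∃ a s : R, W.valuation (algebraMap R E s) = 1 ∧
      W.valuation (x * algebraMap R E s - algebraMap R E a) < 1)
    (hx : ∃ x ∈ n, W.valuation (algebraMap R E x) = 1)
    {t : R} (ht : t ∈ n)
    (hgen : ∀ x ∈ n, ∃ s : R, s ∉ n ∧ ∃ c : R,
      W.valuation (algebraMap R E (s * x - c * t)) < 1)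
    {m : ℕ} (hm : 0 < m) {g U : E} (hU : UnitAt n U)
    (hgU : W.valuation (g ^ m * U - 1) < 1) :
    ∃ a s : R, a ∉ n ∧ s ∉ n ∧
      W.valuation (algebraMap R E s * g - algebraMap R E a) < 1 := by
  set 𝔭 : Ideal R := centre W hle with h𝔭
  have hprime : 𝔭.IsPrime := centre_isPrime W hle
  have hnp : n.IsPrime := hn.isPrime
  have hPn : 𝔭 ≤ n := fun r hr => hcen r hr
  have hvle : ∀ r : R, W.valuation (algebraMap R E r) ≤ 1 :=
    fun r => (W.valuation_le_one_iff _).2 (hle r)
  have hone : ∀ {r : R}, r ∉ n → W.valuation (algebraMap R E r) = 1 :=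
    fun {r} hr => val_eq_one_of_notMem_centre W hle (fun h => hr (hPn h))
  have hx' : ∃ x ∈ n, x ∉ 𝔭 := by
    obtain ⟨x, hxn, hx1⟩ := hx
    refine ⟨x, hxn, fun h => ?_⟩
    rw [h𝔭, mem_centre, hx1] at h
    exact lt_irrefl _ h
  have hgen' : ∀ x ∈ n, ∃ s : R, s ∉ n ∧ ∃ c : R, s * x - c * t ∈ 𝔭 := hgen
  obtain ⟨a_u, s_u, ha_u, hs_u, hU'⟩ := hU
  have hvU : W.valuation U = 1 := by
    have h1 := congrArg W.valuation hU'
    rw [map_mul, hone hs_u, mul_one, hone ha_u] at h1
    exact h1
  have hvgU : W.valuation (g ^ m * U) = 1 :=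
    NodeNorm.val_eq_one_of_sub_lt W (map_one _) hgU
  have hvg : W.valuation g = 1 := by
    rw [map_mul, hvU, mul_one, map_pow] at hvgU
    exact (pow_eq_one_iff_of_nonneg zero_le hm.ne').1 hvgU
  obtain ⟨a₀, s₀, hs₀1, hgs⟩ := hres g hvg.le
  have hvgs : W.valuation (g * algebraMap R E s₀) = 1 := by rw [map_mul, hvg, hs₀1, mul_one]
  have ha₀1 : W.valuation (algebraMap R E a₀) = 1 := by
    have h1 : W.valuation (algebraMap R E a₀ - g * algebraMap R E s₀) < 1 := by
      rw [Valuation.map_sub_swap]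
      exact hgs
    exact NodeNorm.val_eq_one_of_sub_lt W hvgs h1
  have ha₀ : a₀ ∉ 𝔭 := fun h => by
    rw [h𝔭, mem_centre, ha₀1] at h
    exact lt_irrefl _ h
  have hs₀ : s₀ ∉ 𝔭 := fun h => by
    rw [h𝔭, mem_centre, hs₀1] at h
    exact lt_irrefl _ h
  obtain ⟨ka, ta, ca, hta, hca, hA⟩ :=
    NodeNorm.exists_branch_decomp 𝔭 n hn hPn hx' ht hgen' ha₀
  obtain ⟨ks, ts, cs, hts, hcs, hS⟩ :=
    NodeNorm.exists_branch_decomp 𝔭 n hn hPn hx' ht hgen' hs₀
  -- `g ^ m * a_u ≡ s_u` modulo the maximal ideal of `W`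
  have hgau : W.valuation (g ^ m * algebraMap R E a_u - algebraMap R E s_u) < 1 := by
    have e : g ^ m * algebraMap R E a_u - algebraMap R E s_u
        = (g ^ m * U - 1) * algebraMap R E s_u := by
      rw [← hU']
      ring
    rw [e, map_mul]
    exact lt_of_le_of_lt (mul_le_of_le_one_right' (hvle s_u)) hgU
  -- the relation `a₀ ^ m * a_u ≡ s₀ ^ m * s_u` modulo `𝔭`
  have hN1 : a₀ ^ m * a_u - s₀ ^ m * s_u ∈ 𝔭 := by
    rw [h𝔭, mem_centre]
    have e : algebraMap R E (a₀ ^ m * a_u - s₀ ^ m * s_u)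
        = (algebraMap R E a₀ ^ m - (g * algebraMap R E s₀) ^ m) * algebraMap R E a_u
          + algebraMap R E s₀ ^ m * (g ^ m * algebraMap R E a_u - algebraMap R E s_u) := by
      rw [map_sub, map_mul, map_mul, map_pow, map_pow]
      ring
    rw [e]
    apply (W.valuation).map_add_lt
    · rw [map_mul]
      refine lt_of_le_of_lt (mul_le_of_le_one_right' (hvle a_u)) ?_
      apply NodeNorm.val_pow_sub_pow_lt W ha₀1.le hvgs.le
      rw [Valuation.map_sub_swap]
      exact hgs
    · rw [map_mul]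
      refine lt_of_le_of_lt (mul_le_of_le_one_left' ?_) hgau
      rw [map_pow]
      exact pow_le_one₀ zero_le (hvle s₀)
  have huP : t ∉ 𝔭 := by
    obtain ⟨x, hxn, hxP⟩ := hx'
    obtain ⟨s, hs, c, hc⟩ := hgen' x hxn
    intro huP
    have h1 : s * x ∈ 𝔭 := by
      have h2 := 𝔭.add_mem hc (𝔭.mul_mem_left c huP)
      simpa using h2
    rcases hprime.mem_or_mem h1 with h3 | h3
    · exact hs (hPn h3)
    · exact hxP h3
  -- the key congruence
  have key : ca ^ m * ts ^ m * a_u * t ^ (m * ka) - cs ^ m * ta ^ m * s_u * t ^ (m * ks) ∈ 𝔭 := by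
    have e : ca ^ m * ts ^ m * a_u * t ^ (m * ka) - cs ^ m * ta ^ m * s_u * t ^ (m * ks)
        = ts ^ m * a_u * ((ca * t ^ ka) ^ m - (a₀ * ta) ^ m)
          + (ta * ts) ^ m * (a₀ ^ m * a_u - s₀ ^ m * s_u)
          + ta ^ m * s_u * ((s₀ * ts) ^ m - (cs * t ^ ks) ^ m) := by ring
    rw [e]
    refine 𝔭.add_mem (𝔭.add_mem (𝔭.mul_mem_left _ ?_) (𝔭.mul_mem_left _ hN1))
      (𝔭.mul_mem_left _ ?_)
    · obtain ⟨c, hc⟩ := sub_dvd_pow_sub_pow (ca * t ^ ka) (a₀ * ta) m
      rw [hc]
      apply 𝔭.mul_mem_right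
      have h1 := 𝔭.neg_mem hA
      rwa [neg_sub] at h1
    · obtain ⟨c, hc⟩ := sub_dvd_pow_sub_pow (s₀ * ts) (cs * t ^ ks) m
      rw [hc]
      exact 𝔭.mul_mem_right _ hS
  have hAn : ca ^ m * ts ^ m * a_u ∉ n := fun hmem => by
    rcases hnp.mem_or_mem hmem with h1 | h1
    · rcases hnp.mem_or_mem h1 with h2 | h2
      · exact hca (hnp.mem_of_pow_mem _ h2)
      · exact hts (hnp.mem_of_pow_mem _ h2)
    · exact ha_u h1
  have hBn : cs ^ m * ta ^ m * s_u ∉ n := fun hmem => by
    rcases hnp.mem_or_mem hmem with h1 | h1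
    · rcases hnp.mem_or_mem h1 with h2 | h2
      · exact hcs (hnp.mem_of_pow_mem _ h2)
      · exact hta (hnp.mem_of_pow_mem _ h2)
    · exact hs_u h1
  have hk : ka = ks := by
    rcases lt_trichotomy ka ks with hlt | heq | hgt
    · exfalso
      obtain ⟨d, rfl⟩ : ∃ d, ks = ka + d + 1 := ⟨ks - ka - 1, by omega⟩
      exact NodeNorm.aux_pow_cancel hprime hPn ht huP hAn hm ka d key
    · exact heq
    · exfalso
      obtain ⟨d, rfl⟩ : ∃ d, ka = ks + d + 1 := ⟨ka - ks - 1, by omega⟩
      have key' := 𝔭.neg_mem key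
      rw [neg_sub] at key'
      exact NodeNorm.aux_pow_cancel hprime hPn ht huP hBn hm ks d key'
  subst hk
  have hN : cs * ta * a₀ - ca * ts * s₀ ∈ 𝔭 := by
    have e : cs * ta * a₀ - ca * ts * s₀
        = cs * (a₀ * ta - ca * t ^ ka) - ca * (s₀ * ts - cs * t ^ ka) := by ring
    rw [e]
    exact 𝔭.sub_mem (𝔭.mul_mem_left _ hA) (𝔭.mul_mem_left _ hS)
  refine ⟨ca * ts, cs * ta, hnp.mul_notMem hca hts, hnp.mul_notMem hcs hta, ?_⟩
  have e2 : (algebraMap R E (cs * ta) * g - algebraMap R E (ca * ts)) * algebraMap R E s₀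
      = algebraMap R E (cs * ta) * (g * algebraMap R E s₀ - algebraMap R E a₀)
        + algebraMap R E (cs * ta * a₀ - ca * ts * s₀) := by
    rw [map_sub, map_mul, map_mul, map_mul, map_mul, map_mul, map_mul]
    ring
  have h3 : W.valuation ((algebraMap R E (cs * ta) * g - algebraMap R E (ca * ts))
      * algebraMap R E s₀) < 1 := by
    rw [e2]
    apply (W.valuation).map_add_lt
    · rw [map_mul]
      exact lt_of_le_of_lt (mul_le_of_le_one_left' (hvle _)) hgs
    · exact hN
  rw [map_mul, hs₀1, mul_one] at h3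
  exact h3

end Centre

/-! ### Part 4: the multi-branch normal form -/

/-- `core` for the quotient `A[X] ⧸ J`: if `J` contains a monic `P` with a simple root `w i₀`
modulo the maximal ideal, and a power of `∏ (X - w i)` (all `w i` congruent to `w i₀`), then
`X` is congruent modulo `J` to a constant. -/
theorem core_poly {A : Type*} [CommRing A] [IsLocalRing A] (J : Ideal A[X])
    {ι : Type*} [Fintype ι] (P : A[X]) (hP : P.Monic) (hPJ : P ∈ J)
    (w : ι → A) (i₀ : ι) (hw : ∀ i, w i - w i₀ ∈ IsLocalRing.maximalIdeal A)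
    (hroot : P.eval (w i₀) ∈ IsLocalRing.maximalIdeal A)
    (hder : IsUnit (P.derivative.eval (w i₀)))
    (hnil : ∃ M : ℕ, (∏ i, ((X : A[X]) - C (w i))) ^ M ∈ J) :
    ∃ r : A, C r - X ∈ J := by
  have hPt : aeval (Ideal.Quotient.mk J (X : A[X])) P = 0 := by
    have h1 := Polynomial.aeval_algHom_apply (Ideal.Quotient.mkₐ A J) (X : A[X]) P
    rw [aeval_X_left_apply] at h1
    rw [Ideal.Quotient.mkₐ_eq_mk] at h1
    rw [h1]
    exact Ideal.Quotient.eq_zero_iff_mem.2 hPJ
  have hnilP : IsNilpotent (∏ i, (Ideal.Quotient.mk J (X : A[X])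
      - algebraMap A (A[X] ⧸ J) (w i))) := by
    obtain ⟨M, hM⟩ := hnil
    have e : (∏ i, (Ideal.Quotient.mk J (X : A[X]) - algebraMap A (A[X] ⧸ J) (w i)))
        = Ideal.Quotient.mk J (∏ i, ((X : A[X]) - C (w i))) := by
      rw [map_prod]
      refine Finset.prod_congr rfl (fun i _ => ?_)
      rw [map_sub]
      rfl
    rw [e]
    refine ⟨M, ?_⟩
    rw [← map_pow, Ideal.Quotient.eq_zero_iff_mem]
    exact hM
  obtain ⟨r, hr⟩ := core (Ideal.Quotient.mk J (X : A[X])) P hP hPt w i₀ hw hroot hder hnilP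
  refine ⟨r, ?_⟩
  rw [← Ideal.Quotient.eq]
  exact hr

section Main

variable {O : Type*} [CommRing O] [IsDomain O] [IsDiscreteValuationRing O]
  {R : Type*} [CommRing R] [IsNoetherianRing R] [Algebra O R]
  {E : Type*} [Field E] [Algebra R E] [IsFractionRing R E]

/-- **Multi-branch normal form, valuation form.** -/
theorem locGMulti_val {π : O} {ι : Type*} [Finite ι] (V : ι → ValuationSubring E) {m : ℕ}
    {n : Ideal R} {G g u : E}
    (hπ : Irreducible π) (hn : n.IsMaximal) (hm : 0 < m)
    (hmn : (m : R) ∉ n)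
    (hle : ∀ (i : ι) (r : R), algebraMap R E r ∈ V i)
    (hcen : ∀ (i : ι) (r : R), (V i).valuation (algebraMap R E r) < 1 → r ∈ n)
    (hpi : ∀ i : ι, (V i).valuation (algebraMap R E (algebraMap O R π)) < 1)
    (hnil : ∀ i : ι, ∃ N : ℕ, ∀ x : E, (V i).valuation x < 1 →
      (V i).valuation (x ^ N) ≤ (V i).valuation (algebraMap R E (algebraMap O R π)))
    (hres : ∀ (i : ι) (x : E), (V i).valuation x ≤ 1 → ∃ a s : R,
      (V i).valuation (algebraMap R E s) = 1 ∧
      (V i).valuation (x * algebraMap R E s - algebraMap R E a) < 1)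
    (hbranch : ∀ i : ι, (∃ x ∈ n, (V i).valuation (algebraMap R E x) = 1) ∧
      ∃ t ∈ n, ∀ x ∈ n, ∃ s : R, s ∉ n ∧ ∃ c : R,
        (V i).valuation (algebraMap R E (s * x - c * t)) < 1)
    (hdesc : ∀ x : E, RegAt n x →
      (∀ i : ι, (V i).valuation x ≤ (V i).valuation (algebraMap R E (algebraMap O R π))) →
      ∃ s : R, s ∉ n ∧ ∃ r : R,
        algebraMap R E s * x = algebraMap R E (algebraMap O R π) * algebraMap R E r)
    (hroot : ∀ x : R, x ^ m - 1 ∈ n → ∃ c : O, x - algebraMap O R c ∈ n)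
    (hG : G = g ^ m * u) (hu : UnitAt n u)
    (hcong : ∀ i : ι,
      (V i).valuation (G - 1) ≤ (V i).valuation (algebraMap R E (algebraMap O R π)))
    (i₀ : ι) :
    ∃ (g₀ : E) (γ : ι → O), g₀ ≠ 0 ∧ γ i₀ = 1 ∧ (∀ i, ∃ c : O, γ i ^ m - 1 = π * c) ∧
      (∀ i, (V i).valuation (g₀ - algebraMap R E (algebraMap O R (γ i)))
        ≤ (V i).valuation (algebraMap R E (algebraMap O R π))) ∧
      ∃ s : R, s ∉ n ∧ ∃ r : R, algebraMap R E s * (G / g₀ ^ m - 1) =
        algebraMap R E (algebraMap O R π) * algebraMap R E r := by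
  classical
  have := Fintype.ofFinite ι
  have hnp : n.IsPrime := hn.isPrime
  set ϖ : E := algebraMap R E (algebraMap O R π) with hϖ
  have hinj : Function.Injective (algebraMap R E) := IsFractionRing.injective R E
  -- basic valuations
  have hvle : ∀ (i : ι) (r : R), (V i).valuation (algebraMap R E r) ≤ 1 :=
    fun i r => ((V i).valuation_le_one_iff _).2 (hle i r)
  have hone : ∀ (i : ι) {r : R}, r ∉ n → (V i).valuation (algebraMap R E r) = 1 :=
    fun i r hr => le_antisymm (hvle i r) (not_lt.1 (fun h => hr (hcen i r h)))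
  have hne0 : ∀ {r : R}, r ∉ n → algebraMap R E r ≠ 0 := fun {r} hr h0 => hr (by
    rw [(map_eq_zero_iff _ hinj).1 h0]
    exact n.zero_mem)
  obtain ⟨a_u, s_u, ha_u, hs_u, hU⟩ := hu
  have hvu : ∀ i, (V i).valuation u = 1 := by
    intro i
    have h1 := congrArg (V i).valuation hU
    rw [map_mul, hone i hs_u, mul_one, hone i ha_u] at h1
    exact h1
  have hu0 : u ≠ 0 := by
    intro h0
    have h1 := hvu i₀
    rw [h0, map_zero] at h1
    exact zero_ne_one h1
  have hlt : ∀ i, (V i).valuation (G - 1) < 1 := fun i => lt_of_le_of_lt (hcong i) (hpi i)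
  have hvg : ∀ i, (V i).valuation g = 1 := by
    intro i
    have h1 : (V i).valuation G = 1 := NodeNorm.val_eq_one_of_sub_lt (V i) (map_one _) (hlt i)
    rw [hG, map_mul, hvu i, mul_one, map_pow] at h1
    exact (pow_eq_one_iff_of_nonneg zero_le hm.ne').1 h1
  have hg0 : g ≠ 0 := by
    intro h0
    have h1 := hvg i₀
    rw [h0, map_zero] at h1
    exact zero_ne_one h1
  -- branch units
  have hBU : ∀ i, ∃ a s : R, a ∉ n ∧ s ∉ n ∧
      (V i).valuation (algebraMap R E s * g - algebraMap R E a) < 1 := by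
    intro i
    obtain ⟨hx, t, ht, hgen⟩ := hbranch i
    exact branch_unit_gen (V i) (hle i) hn (hcen i) (hres i) hx ht hgen hm
      ⟨a_u, s_u, ha_u, hs_u, hU⟩ (by rw [← hG]; exact hlt i)
  choose a s ha hs has using hBU
  -- `(a i) ^ m * a_u ≡ (s i) ^ m * s_u` modulo `n`
  have hkey : ∀ i, a i ^ m * a_u - s i ^ m * s_u ∈ n := by
    intro i
    apply hcen i
    have e : algebraMap R E (a i ^ m * a_u - s i ^ m * s_u)
        = (algebraMap R E (a i) ^ m - (algebraMap R E (s i) * g) ^ m) * algebraMap R E a_u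
          + algebraMap R E (s i) ^ m * ((G - 1) * algebraMap R E s_u) := by
      rw [map_sub, map_mul, map_mul, map_pow, map_pow, hG, ← hU]
      ring
    rw [e]
    apply ((V i).valuation).map_add_lt
    · rw [map_mul]
      refine lt_of_le_of_lt (mul_le_of_le_one_right' (hvle i a_u)) ?_
      apply NodeNorm.val_pow_sub_pow_lt (V i) (hvle i _)
      · rw [map_mul, hvg i, mul_one]
        exact hvle i _
      · rw [Valuation.map_sub_swap]
        exact has i
    · rw [map_mul, map_mul]
      refine lt_of_le_of_lt (mul_le_of_le_one_left' ?_)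
        (lt_of_le_of_lt (mul_le_of_le_one_right' (hvle i s_u)) (hlt i))
      rw [map_pow]
      exact pow_le_one₀ zero_le (hvle i _)
  -- the residue field at `n`
  have := hn
  let _ := Ideal.Quotient.field n
  set q := Ideal.Quotient.mk n with hq
  have hq0 : ∀ {r : R}, r ∉ n → q r ≠ 0 := fun {r} hr h0 => hr (Ideal.Quotient.eq_zero_iff_mem.1 h0)
  have hqkey : ∀ i, q (a i) ^ m * q a_u = q (s i) ^ m * q s_u := by
    intro i
    have h1 := Ideal.Quotient.eq_zero_iff_mem.2 (hkey i)
    rw [map_sub, map_mul, map_mul, map_pow, map_pow, sub_eq_zero] at h1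
    exact h1
  set xb : ι → R ⧸ n := fun i => q (a i) * q (s i₀) / (q (a i₀) * q (s i)) with hxb
  have hxb1 : ∀ i, xb i ^ m = 1 := by
    intro i
    have hden : q (a i₀) * q (s i) ≠ 0 := mul_ne_zero (hq0 (ha i₀)) (hq0 (hs i))
    rw [hxb]
    simp only
    rw [div_pow, div_eq_one_iff_eq (pow_ne_zero _ hden), mul_pow, mul_pow]
    apply mul_right_cancel₀ (hq0 ha_u)
    linear_combination q (s i₀) ^ m * hqkey i - q (s i) ^ m * hqkey i₀
  have hxb0 : xb i₀ = 1 := by
    rw [hxb]
    simp only
    exact div_self (mul_ne_zero (hq0 (ha i₀)) (hq0 (hs i₀)))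
  have hc : ∀ i, ∃ c : O, q (algebraMap O R c) = xb i := by
    intro i
    obtain ⟨x, hx⟩ := Ideal.Quotient.mk_surjective (xb i)
    have h1 : x ^ m - 1 ∈ n := by
      rw [← Ideal.Quotient.eq_zero_iff_mem, map_sub, map_pow, map_one]
      change q x ^ m - 1 = 0
      rw [hx, hxb1 i, sub_self]
    obtain ⟨c, hc⟩ := hroot x h1
    refine ⟨c, ?_⟩
    have h2 := Ideal.Quotient.eq_zero_iff_mem.2 hc
    rw [map_sub, sub_eq_zero] at h2
    rw [← hx]
    exact h2.symm
  choose c₁ hc₁ using hc
  set γ : ι → O := fun i => if i = i₀ then 1 else c₁ i with hγ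
  have hγ₀ : γ i₀ = 1 := by simp [hγ]
  have hγq : ∀ i, q (algebraMap O R (γ i)) = xb i := by
    intro i
    by_cases hi : i = i₀
    · subst hi
      rw [hγ₀, map_one, map_one, hxb0]
    · rw [hγ]
      simp only [if_neg hi]
      exact hc₁ i
  have hγn : ∀ i, algebraMap O R (γ i) ∉ n := by
    intro i hmem
    have h1 := Ideal.Quotient.eq_zero_iff_mem.2 hmem
    change q (algebraMap O R (γ i)) = 0 at h1
    rw [hγq i] at h1
    have h2 := hxb1 i
    rw [h1, zero_pow hm.ne'] at h2
    exact zero_ne_one h2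
  have hγpow : ∀ i, ∃ δ : O, γ i ^ m - 1 = π * δ := by
    intro i
    apply NodeNorm.dvd_of_mem (R := R) hπ hn
    rw [← Ideal.Quotient.eq_zero_iff_mem, map_sub, map_pow, map_one, map_sub, map_pow, map_one]
    change q (algebraMap O R (γ i)) ^ m - 1 = 0
    rw [hγq i, hxb1 i, sub_self]
  have hγmem : ∀ i, a i * (algebraMap O R (γ i₀) * s i₀) - a i₀ * (algebraMap O R (γ i) * s i) ∈ n := by
    intro i
    rw [← Ideal.Quotient.eq_zero_iff_mem, map_sub, map_mul, map_mul, map_mul, map_mul]
    change q (a i) * (q (algebraMap O R (γ i₀)) * q (s i₀))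
      - q (a i₀) * (q (algebraMap O R (γ i)) * q (s i)) = 0
    have hden : q (a i₀) * q (s i) ≠ 0 := mul_ne_zero (hq0 (ha i₀)) (hq0 (hs i))
    have hxbmul : xb i * (q (a i₀) * q (s i)) = q (a i) * q (s i₀) := by
      rw [hxb]
      exact div_mul_cancel₀ _ hden
    rw [hγq i, hγq i₀, hxb0, one_mul]
    linear_combination -hxbmul
  set Γ : ι → E := fun i => algebraMap R E (algebraMap O R (γ i)) with hΓ
  have hΓv : ∀ i j, (V j).valuation (Γ i) = 1 := fun i j => hone j (hγn i)
  have hΓ0 : ∀ i, Γ i ≠ 0 := fun i => hne0 (hγn i)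
  have hΓpow : ∀ i j, (V j).valuation (Γ i ^ m - 1) ≤ (V j).valuation ϖ := by
    intro i j
    obtain ⟨δ, hδ⟩ := hγpow i
    have e : Γ i ^ m - 1 = ϖ * algebraMap R E (algebraMap O R δ) := by
      have h1 : algebraMap R E (algebraMap O R (γ i ^ m - 1))
          = algebraMap R E (algebraMap O R (π * δ)) := by rw [hδ]
      rw [map_sub, map_sub, map_pow, map_pow, map_one, map_one, map_mul, map_mul] at h1
      exact h1
    rw [e, map_mul]
    exact mul_le_of_le_one_right' (hvle j _)
  -- the localisation at `n`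
  let A := Localization.AtPrime n
  have hunit : ∀ y : n.primeCompl, IsUnit (algebraMap R E (y : R)) :=
    fun y => (hne0 (Ideal.mem_primeCompl_iff.1 y.2)).isUnit
  let f : A →+* E := IsLocalization.lift hunit
  have hf_alg : ∀ r : R, f (algebraMap R A r) = algebraMap R E r :=
    fun r => IsLocalization.lift_eq hunit r
  have hf_mk : ∀ (x : R) (y : n.primeCompl),
      f (IsLocalization.mk' A x y) * algebraMap R E (y : R) = algebraMap R E x := by
    intro x y
    rw [← hf_alg (y : R), ← map_mul, IsLocalization.mk'_spec, hf_alg]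
  have hf_reg : ∀ z : A, ∃ x y : R, y ∉ n ∧ f z * algebraMap R E y = algebraMap R E x := by
    intro z
    obtain ⟨⟨x, y⟩, rfl⟩ := IsLocalization.mk'_surjective n.primeCompl z
    exact ⟨x, y, Ideal.mem_primeCompl_iff.1 y.2, hf_mk x y⟩
  have hf_val : ∀ (j : ι) (z : A), (V j).valuation (f z) ≤ 1 := by
    intro j z
    obtain ⟨x, y, hy, hxy⟩ := hf_reg z
    have h1 := congrArg (V j).valuation hxy
    rw [map_mul, hone j hy, mul_one] at h1
    rw [h1]
    exact hvle j x
  -- membership in the maximal ideal / units of `A`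
  have hcrit : ∀ (z : A) (d b : R), d ∉ n → b ∈ n →
      f z * algebraMap R E d = algebraMap R E b → z ∈ IsLocalRing.maximalIdeal A := by
    intro z d b hd hb hz
    obtain ⟨⟨x, y⟩, rfl⟩ := IsLocalization.mk'_surjective n.primeCompl z
    rw [IsLocalization.AtPrime.mk'_mem_maximal_iff A n]
    have h1 : x * d = b * (y : R) := by
      apply hinj
      rw [map_mul, map_mul, ← hf_mk x y, ← hz]
      ring
    have h2 : x * d ∈ n := by
      rw [h1]
      exact n.mul_mem_right _ hb
    rcases hnp.mem_or_mem h2 with h3 | h3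
    · exact h3
    · exact absurd h3 hd
  -- the elements `u⁻¹`, `u`, `w i` of `A`
  let yau : n.primeCompl := ⟨a_u, Ideal.mem_primeCompl_iff.2 ha_u⟩
  let ysu : n.primeCompl := ⟨s_u, Ideal.mem_primeCompl_iff.2 hs_u⟩
  let uinv : A := IsLocalization.mk' A s_u yau
  let uA : A := IsLocalization.mk' A a_u ysu
  have hfuinv : f uinv * algebraMap R E a_u = algebraMap R E s_u := hf_mk s_u yau
  have hfuA : f uA = u := by
    have h1 : f uA * algebraMap R E s_u = algebraMap R E a_u := hf_mk a_u ysu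
    rw [← hU] at h1
    exact mul_right_cancel₀ (hne0 hs_u) h1
  have hfuinv' : f uinv * u = 1 := by
    have h1 : f uinv * u * algebraMap R E s_u = 1 * algebraMap R E s_u := by
      rw [mul_assoc, hU, hfuinv, one_mul]
    exact mul_right_cancel₀ (hne0 hs_u) h1
  have hden : ∀ i, algebraMap O R (γ i) * s i ∉ n := fun i => hnp.mul_notMem (hγn i) (hs i)
  let yw : ι → n.primeCompl :=
    fun i => ⟨algebraMap O R (γ i) * s i, Ideal.mem_primeCompl_iff.2 (hden i)⟩
  let wA : ι → A := fun i => IsLocalization.mk' A (a i) (yw i)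
  have hfw : ∀ i, f (wA i) * (Γ i * algebraMap R E (s i)) = algebraMap R E (a i) := by
    intro i
    have h1 := hf_mk (a i) (yw i)
    change f (wA i) * algebraMap R E (algebraMap O R (γ i) * s i) = algebraMap R E (a i) at h1
    rw [map_mul] at h1
    exact h1
  -- the evaluation points
  set x : ι → E := fun i => (Γ i)⁻¹ * g with hx
  have hxv : ∀ i j, (V j).valuation (x i) = 1 := by
    intro i j
    rw [hx]
    simp only
    rw [map_mul, map_inv₀, hΓv i j, hvg j, inv_one, mul_one]
  have hxw : ∀ i, (V i).valuation (x i - f (wA i)) < 1 := by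
    intro i
    have e : (x i - f (wA i)) * (Γ i * algebraMap R E (s i))
        = algebraMap R E (s i) * g - algebraMap R E (a i) := by
      rw [sub_mul, hfw i, hx]
      simp only
      field_simp [hΓ0 i]
    have h1 := congrArg (V i).valuation e
    rw [map_mul, map_mul, hΓv i i, one_mul, hone i (hs i), mul_one] at h1
    rw [h1]
    exact has i
  -- polynomials over `A` evaluated at `x j` stay in `V j`
  have heval : ∀ (j : ι) (Q : A[X]), (V j).valuation (Q.eval₂ f (x j)) ≤ 1 := by
    intro j Q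
    induction Q using Polynomial.induction_on' with
    | add p p' hp hp' =>
      rw [eval₂_add]
      exact ((V j).valuation).map_add_le hp hp'
    | monomial k b =>
      rw [eval₂_monomial, map_mul, map_pow, hxv j j, one_pow, mul_one]
      exact hf_val j b
  -- the ideal `J`
  let J : Ideal A[X] :=
    { carrier := {Q | ∀ j : ι, (V j).valuation (Q.eval₂ f (x j)) ≤ (V j).valuation ϖ}
      add_mem' := fun {Q Q'} hQ hQ' j => by
        rw [eval₂_add]
        exact ((V j).valuation).map_add_le (hQ j) (hQ' j)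
      zero_mem' := fun j => by
        rw [eval₂_zero, map_zero]
        exact zero_le
      smul_mem' := fun Q' {Q} hQ j => by
        rw [smul_eq_mul, eval₂_mul, map_mul]
        exact le_trans (mul_le_of_le_one_left' (heval j Q')) (hQ j) }
  have hJ : ∀ Q : A[X], Q ∈ J ↔
      ∀ j : ι, (V j).valuation (Q.eval₂ f (x j)) ≤ (V j).valuation ϖ := fun Q => Iff.rfl
  -- the polynomial `P = X ^ m - u⁻¹`
  let P : A[X] := X ^ m - C uinv
  have hPm : P.Monic := monic_X_pow_sub_C uinv hm.ne'
  have hxm : ∀ j, (V j).valuation ((x j) ^ m * u - 1) ≤ (V j).valuation ϖ := by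
    intro j
    have e : (x j) ^ m * u - 1 = (Γ j ^ m)⁻¹ * ((G - 1) - (Γ j ^ m - 1)) := by
      have h1 : (Γ j ^ m)⁻¹ * Γ j ^ m = 1 := inv_mul_cancel₀ (pow_ne_zero m (hΓ0 j))
      have h2 : x j = (Γ j)⁻¹ * g := rfl
      rw [h2, hG, mul_pow, inv_pow]
      linear_combination h1
    rw [e, map_mul, map_inv₀, map_pow, hΓv j j, one_pow, inv_one, one_mul]
    exact ((V j).valuation).map_sub_le (hcong j) (hΓpow j j)
  have hPJ : P ∈ J := by
    rw [hJ]
    intro j
    have e : P.eval₂ f (x j) = f uinv * ((x j) ^ m * u - 1) := by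
      change (X ^ m - C uinv : A[X]).eval₂ f (x j) = _
      rw [eval₂_sub, eval₂_pow, eval₂_X, eval₂_C]
      linear_combination (-(x j) ^ m) * hfuinv'
    rw [e, map_mul]
    exact le_trans (mul_le_of_le_one_left' (hf_val j uinv)) (hxm j)
  -- hypotheses of `core_poly`
  have hw : ∀ i, wA i - wA i₀ ∈ IsLocalRing.maximalIdeal A := by
    intro i
    refine hcrit (wA i - wA i₀) ((algebraMap O R (γ i) * s i) * (algebraMap O R (γ i₀) * s i₀))
      (a i * (algebraMap O R (γ i₀) * s i₀) - a i₀ * (algebraMap O R (γ i) * s i))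
      (hnp.mul_notMem (hden i) (hden i₀)) (hγmem i) ?_
    rw [map_sub, map_sub, map_mul, map_mul, map_mul, map_mul, map_mul, map_mul, map_mul]
    linear_combination (Γ i₀ * algebraMap R E (s i₀)) * hfw i
      - (Γ i * algebraMap R E (s i)) * hfw i₀
  have hrootP : P.eval (wA i₀) ∈ IsLocalRing.maximalIdeal A := by
    have e : P.eval (wA i₀) = wA i₀ ^ m - uinv := by
      change (X ^ m - C uinv : A[X]).eval (wA i₀) = _
      rw [eval_sub, eval_pow, eval_X, eval_C]
    rw [e]
    refine hcrit _ ((algebraMap O R (γ i₀) * s i₀) ^ m * a_u)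
      (a i₀ ^ m * a_u - s_u * (algebraMap O R (γ i₀) * s i₀) ^ m)
      (hnp.mul_notMem (fun h => hden i₀ (hnp.mem_of_pow_mem _ h)) ha_u) ?_ ?_
    · have h1 := hkey i₀
      rw [hγ₀, map_one, one_mul]
      have e2 : a i₀ ^ m * a_u - s_u * s i₀ ^ m = a i₀ ^ m * a_u - s i₀ ^ m * s_u := by ring
      rw [e2]
      exact h1
    · rw [map_sub, map_pow, map_sub, map_mul, map_mul, map_mul, map_pow, map_pow, map_mul]
      linear_combination (algebraMap R E a_u) * (congrArg (fun z => z ^ m) (hfw i₀))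
        - (Γ i₀ * algebraMap R E (s i₀)) ^ m * hfuinv
  have hderP : IsUnit (P.derivative.eval (wA i₀)) := by
    have e : P.derivative.eval (wA i₀) = (m : A) * wA i₀ ^ (m - 1) := by
      change (X ^ m - C uinv : A[X]).derivative.eval (wA i₀) = _
      rw [derivative_sub, derivative_X_pow, derivative_C, sub_zero, eval_mul, eval_pow, eval_X,
        eval_C]
    rw [e]
    apply IsUnit.mul
    · have h1 : (m : A) = algebraMap R A (m : R) := by rw [map_natCast]
      rw [h1, IsLocalization.AtPrime.isUnit_to_map_iff A n]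
      exact hmn
    · apply IsUnit.pow
      rw [IsLocalization.AtPrime.isUnit_mk'_iff A n]
      exact ha i₀
  have hnilP : ∃ M : ℕ, (∏ i, ((X : A[X]) - C (wA i))) ^ M ∈ J := by
    choose N hN using hnil
    let M : ℕ := Finset.univ.sup N
    refine ⟨M, ?_⟩
    rw [hJ]
    intro j
    have e2 : ((∏ i, ((X : A[X]) - C (wA i))) ^ M).eval₂ f (x j)
        = (∏ i, (x j - f (wA i))) ^ M := by
      rw [eval₂_pow, eval₂_finsetProd]
      congr 1
      refine Finset.prod_congr rfl (fun i _ => ?_)
      rw [eval₂_sub, eval₂_X, eval₂_C]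
    rw [e2]
    set y := ∏ i, (x j - f (wA i)) with hy
    have hy1 : (V j).valuation y < 1 := by
      rw [hy, ← Finset.mul_prod_erase Finset.univ _ (Finset.mem_univ j), map_mul]
      refine lt_of_le_of_lt (mul_le_of_le_one_right' ?_) (hxw j)
      rw [map_prod]
      apply Finset.prod_le_one'
      intro i _
      apply ((V j).valuation).map_sub_le (hxv j j).le (hf_val j _)
    have hMN : N j ≤ M := Finset.le_sup (f := N) (Finset.mem_univ j)
    have e3 : y ^ M = y ^ (N j) * y ^ (M - N j) := by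
      rw [← pow_add, Nat.add_sub_cancel' hMN]
    rw [e3, map_mul]
    refine le_trans (mul_le_of_le_one_right' ?_) (hN j y hy1)
    rw [map_pow]
    exact pow_le_one₀ zero_le hy1.le
  obtain ⟨r, hrJ⟩ := core_poly J P hPm hPJ wA i₀ hw hrootP hderP hnilP
  have hrx : ∀ j, (V j).valuation (f r - x j) ≤ (V j).valuation ϖ := by
    intro j
    have h1 := (hJ _).1 hrJ j
    rw [eval₂_sub, eval₂_C, eval₂_X] at h1
    exact h1
  -- the solution
  set r' : E := f r with hr'
  have hvr : ∀ j, (V j).valuation r' = 1 := fun j =>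
    NodeNorm.val_eq_one_of_sub_lt (V j) (hxv j j) (lt_of_le_of_lt (hrx j) (hpi j))
  have hr0 : r' ≠ 0 := by
    intro h0
    have h1 := hvr i₀
    rw [h0, map_zero] at h1
    exact zero_ne_one h1
  refine ⟨g / r', γ, div_ne_zero hg0 hr0, hγ₀, hγpow, ?_, ?_⟩
  · intro i
    have e : g / r' - algebraMap R E (algebraMap O R (γ i)) = Γ i * (x i - r') * r'⁻¹ := by
      rw [hx]
      simp only
      change g / r' - Γ i = _
      field_simp [hΓ0 i]
    rw [e, map_mul, map_mul, hΓv i i, one_mul, map_inv₀, hvr i, inv_one, mul_one,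
      Valuation.map_sub_swap]
    exact hrx i
  · -- `y = r' ^ m * u - 1 ∈ π R_n`
    have hreg : RegAt n (r' ^ m * u - 1) := by
      obtain ⟨x₁, y₁, hy₁, hxy⟩ := hf_reg (r ^ m * uA - 1)
      refine ⟨x₁, y₁, hy₁, ?_⟩
      rw [← hxy, map_sub, map_mul, map_pow, map_one, hfuA]
    have hval : ∀ i, (V i).valuation (r' ^ m * u - 1) ≤ (V i).valuation ϖ := by
      intro i
      have e : r' ^ m * u - 1 = (r' ^ m - (x i) ^ m) * u + ((x i) ^ m * u - 1) := by ring
      rw [e]
      apply ((V i).valuation).map_add_le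
      · rw [map_mul, hvu i, mul_one]
        exact val_pow_sub_pow_le (V i) (hvr i).le (hxv i i).le (hrx i) m
      · exact hxm i
    obtain ⟨s₁, hs₁, r₁, hsr⟩ := hdesc _ hreg hval
    refine ⟨s₁, hs₁, r₁, ?_⟩
    have e : G / (g / r') ^ m - 1 = r' ^ m * u - 1 := by
      have h1 : g ^ m ≠ 0 := pow_ne_zero m hg0
      have h2 : r' ^ m ≠ 0 := pow_ne_zero m hr0
      rw [hG, div_pow]
      field_simp
    rw [← hsr, e]

/-- **Multi-branch normal form with multiplicities** ([LocG3]), all branches of the family pass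
through `n`.  Congruences modulo `π (V i)` are written `∃ z ∈ V i, _ = ϖ * z` with
`ϖ = algebraMap R E (algebraMap O R π)`. -/
theorem locGMulti {π : O} {ι : Type*} [Finite ι] (V : ι → ValuationSubring E) {m : ℕ}
    {n : Ideal R} {G g u : E}
    (hπ : Irreducible π) (hn : n.IsMaximal) (hm : 0 < m) (hmn : (m : R) ∉ n)
    (hle : ∀ (i : ι) (r : R), algebraMap R E r ∈ V i)
    (hcen : ∀ (i : ι) (r : R), (V i).valuation (algebraMap R E r) < 1 → r ∈ n)
    (hpi : ∀ i : ι, (V i).valuation (algebraMap R E (algebraMap O R π)) < 1)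
    (hnil : ∀ i : ι, ∃ N : ℕ, ∀ x : E, (V i).valuation x < 1 →
      ∃ z ∈ V i, x ^ N = algebraMap R E (algebraMap O R π) * z)
    (hres : ∀ (i : ι) (x : E), (V i).valuation x ≤ 1 → ∃ a s : R,
      (V i).valuation (algebraMap R E s) = 1 ∧
        (V i).valuation (x * algebraMap R E s - algebraMap R E a) < 1)
    (hbranch : ∀ i : ι, (∃ x ∈ n, (V i).valuation (algebraMap R E x) = 1) ∧
      ∃ t ∈ n, ∀ x ∈ n, ∃ s : R, s ∉ n ∧ ∃ c : R,
        (V i).valuation (algebraMap R E (s * x - c * t)) < 1)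
    (hdesc : ∀ x : E, RegAt n x →
      (∀ i : ι, ∃ z ∈ V i, x = algebraMap R E (algebraMap O R π) * z) →
      ∃ s : R, s ∉ n ∧ ∃ r : R,
        algebraMap R E s * x = algebraMap R E (algebraMap O R π) * algebraMap R E r)
    (hroot : ∀ x : R, x ^ m - 1 ∈ n → ∃ c : O, x - algebraMap O R c ∈ n)
    (hG : G = g ^ m * u) (hu : UnitAt n u)
    (hcong : ∀ i : ι, ∃ z ∈ V i, G - 1 = algebraMap R E (algebraMap O R π) * z)
    (i₀ : ι) :
    ∃ (g₀ : E) (γ : ι → O), g₀ ≠ 0 ∧ γ i₀ = 1 ∧ (∀ i, π ∣ γ i ^ m - 1) ∧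
      (∀ i, ∃ z ∈ V i, g₀ - algebraMap R E (algebraMap O R (γ i))
        = algebraMap R E (algebraMap O R π) * z) ∧
      ∃ s : R, s ∉ n ∧ ∃ r : R, algebraMap R E s * (G / g₀ ^ m - 1) =
        algebraMap R E (algebraMap O R π) * algebraMap R E r := by
  by_cases hϖ0 : algebraMap R E (algebraMap O R π) = 0
  · -- degenerate case `π = 0` in `E`: then `G = 1`
    have hG1 : G = 1 := by
      obtain ⟨z, -, hz⟩ := hcong i₀
      rw [hϖ0, zero_mul] at hz
      exact sub_eq_zero.1 hz
    refine ⟨1, fun _ => 1, one_ne_zero, rfl, fun i => ?_, fun i => ?_, 1, ?_, 0, ?_⟩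
    · rw [one_pow, sub_self]
      exact dvd_zero π
    · refine ⟨0, (V i).zero_mem, ?_⟩
      rw [map_one, map_one, sub_self, mul_zero]
    · exact fun h => hn.ne_top ((Ideal.eq_top_iff_one n).2 h)
    · rw [hG1, one_pow, div_one, sub_self, mul_zero, map_zero, mul_zero]
  · obtain ⟨g₀, γ, hg₀, hγ₀, hγm, hγv, hloc⟩ := locGMulti_val V hπ hn hm hmn hle hcen hpi
      (fun i => by
        obtain ⟨N, hN⟩ := hnil i
        exact ⟨N, fun x hx => val_le_of_eq_mul (V i) (hN x hx)⟩)
      hres hbranch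
      (fun x hx hv => hdesc x hx (fun i => eq_mul_of_val_le (V i) hϖ0 (hv i)))
      hroot hG hu (fun i => val_le_of_eq_mul (V i) (hcong i)) i₀
    exact ⟨g₀, γ, hg₀, hγ₀, fun i => hγm i, fun i => eq_mul_of_val_le (V i) hϖ0 (hγv i), hloc⟩

/-- **Multi-branch normal form with multiplicities** ([LocG3]), predicate form: `T i` means
"the branch `V i` passes through `n`"; only these branches are used and controlled.  The constants
`γ i` are `1` for the other indices. -/
theorem locGMulti_pred {π : O} {ι : Type*} [Finite ι] (V : ι → ValuationSubring E) (T : ι → Prop)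
    {m : ℕ} {n : Ideal R} {G g u : E}
    (hπ : Irreducible π) (hn : n.IsMaximal) (hm : 0 < m) (hmn : (m : R) ∉ n)
    (hle : ∀ i : ι, T i → ∀ r : R, algebraMap R E r ∈ V i)
    (hcen : ∀ i : ι, T i → ∀ r : R, (V i).valuation (algebraMap R E r) < 1 → r ∈ n)
    (hpi : ∀ i : ι, T i → (V i).valuation (algebraMap R E (algebraMap O R π)) < 1)
    (hnil : ∀ i : ι, T i → ∃ N : ℕ, ∀ x : E, (V i).valuation x < 1 →
      ∃ z ∈ V i, x ^ N = algebraMap R E (algebraMap O R π) * z)
    (hres : ∀ i : ι, T i → ∀ x : E, (V i).valuation x ≤ 1 → ∃ a s : R,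
      (V i).valuation (algebraMap R E s) = 1 ∧
        (V i).valuation (x * algebraMap R E s - algebraMap R E a) < 1)
    (hbranch : ∀ i : ι, T i → (∃ x ∈ n, (V i).valuation (algebraMap R E x) = 1) ∧
      ∃ t ∈ n, ∀ x ∈ n, ∃ s : R, s ∉ n ∧ ∃ c : R,
        (V i).valuation (algebraMap R E (s * x - c * t)) < 1)
    (hdesc : ∀ x : E, RegAt n x →
      (∀ i : ι, T i → ∃ z ∈ V i, x = algebraMap R E (algebraMap O R π) * z) →
      ∃ s : R, s ∉ n ∧ ∃ r : R,
        algebraMap R E s * x = algebraMap R E (algebraMap O R π) * algebraMap R E r)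
    (hroot : ∀ x : R, x ^ m - 1 ∈ n → ∃ c : O, x - algebraMap O R c ∈ n)
    (hG : G = g ^ m * u) (hu : UnitAt n u)
    (hcong : ∀ i : ι, T i → ∃ z ∈ V i, G - 1 = algebraMap R E (algebraMap O R π) * z)
    (i₀ : ι) (hi₀ : T i₀) :
    ∃ (g₀ : E) (γ : ι → O), g₀ ≠ 0 ∧ γ i₀ = 1 ∧ (∀ i, π ∣ γ i ^ m - 1) ∧
      (∀ i, T i → ∃ z ∈ V i, g₀ - algebraMap R E (algebraMap O R (γ i))
        = algebraMap R E (algebraMap O R π) * z) ∧
      ∃ s : R, s ∉ n ∧ ∃ r : R, algebraMap R E s * (G / g₀ ^ m - 1) =
        algebraMap R E (algebraMap O R π) * algebraMap R E r := by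
  classical
  obtain ⟨g₀, γ, hg₀, hγ₀, hγm, hγv, hloc⟩ :=
    locGMulti (ι := {i : ι // T i}) (fun i => V i.1) (π := π) hπ hn hm hmn
      (fun i => hle i.1 i.2) (fun i => hcen i.1 i.2) (fun i => hpi i.1 i.2)
      (fun i => hnil i.1 i.2) (fun i => hres i.1 i.2) (fun i => hbranch i.1 i.2)
      (fun x hx hv => hdesc x hx (fun i hi => hv ⟨i, hi⟩))
      hroot hG hu (fun i => hcong i.1 i.2) ⟨i₀, hi₀⟩
  refine ⟨g₀, fun i => if h : T i then γ ⟨i, h⟩ else 1, hg₀, ?_, fun i => ?_, fun i hi => ?_,
    hloc⟩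
  · beta_reduce
    rw [dif_pos hi₀]
    exact hγ₀
  · beta_reduce
    by_cases h : T i
    · rw [dif_pos h]
      exact hγm ⟨i, h⟩
    · rw [dif_neg h, one_pow, sub_self]
      exact dvd_zero π
  · beta_reduce
    rw [dif_pos hi]
    exact hγv ⟨i, hi⟩

end Main

end Fermat.Agent.S36.LocGMulti
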