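import Mathlib
import Fermat.Agent.S36.Model3Plan
import Fermat.Agent.S36.ApproxN

/-!
# S36 [MODEL3 abstract]: separating elements for the three component valuation rings

OWNER: helper132 (split of [Approx3] agreed with helper49 / helper122).

From `Model3Plan.ValHyp3 p e ϖ V` (only the fields `sep`, `disc`, `unif_mem`, `unif_not` are
used; no hypothesis on `p`) we construct `s : Fin 3 → E` with `ApproxN.Sep V s`: `s i` is a
nonzero nonunit of `V i` and a unit of the two other rings, and every `V i` has rank one.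

Construction: for `i ≠ j` pick `x ∈ V i ∖ V j`, `x' ∈ V j ∖ V i`; then `c = x / x'` has
`v_i c < 1 < v_j c`.  Combining the two elements for the two other indices (one of them, or their
sum) gives `c_i` with `v_i c_i < 1` and `1 < v_l c_i` for both `l ≠ i`; `s i := c_i / (1 + c_i)`.
-/

set_option autoImplicit false

namespace Fermat.Agent.S36.Sep3

open Fermat.Agent.S36

variable {E : Type*} [Field E]

/-- `a ∈ V`, `b ∉ V` ⟹ `v (a / b) < 1`. -/
theorem valuation_div_lt_one (V : ValuationSubring E) {a b : E} (ha : a ∈ V) (hb : b ∉ V) :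
    V.valuation (a / b) < 1 := by
  have hb' : 1 < V.valuation b := not_le.mp (mt (V.valuation_le_one_iff b).1 hb)
  have ha' : V.valuation a ≤ 1 := (V.valuation_le_one_iff a).2 ha
  rw [map_div₀]
  exact (div_lt_one₀ (zero_lt_one.trans hb')).2 (ha'.trans_lt hb')

/-- `a ∉ V`, `b ∈ V`, `b ≠ 0` ⟹ `1 < v (a / b)`. -/
theorem one_lt_valuation_div (V : ValuationSubring E) {a b : E} (ha : a ∉ V) (hb : b ∈ V)
    (hb0 : b ≠ 0) : 1 < V.valuation (a / b) := by
  have ha' : 1 < V.valuation a := not_le.mp (mt (V.valuation_le_one_iff a).1 ha)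
  have hb' : V.valuation b ≤ 1 := (V.valuation_le_one_iff b).2 hb
  have hpos : 0 < V.valuation b := zero_lt_iff.2 ((Valuation.ne_zero_iff _).2 hb0)
  rw [map_div₀]
  exact (one_lt_div₀ hpos).2 (hb'.trans_lt ha')

/-- Two valuation rings, none contained in the other: an element small for the first and large
for the second. -/
theorem exists_pair (V W : ValuationSubring E) (h1 : ∃ x ∈ V, x ∉ W) (h2 : ∃ x ∈ W, x ∉ V) :
    ∃ c : E, V.valuation c < 1 ∧ 1 < W.valuation c := by
  obtain ⟨x, hxV, hxW⟩ := h1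
  obtain ⟨y, hyW, hyV⟩ := h2
  have hy0 : y ≠ 0 := by
    rintro rfl
    exact hyV (zero_mem _)
  exact ⟨x / y, valuation_div_lt_one V hxV hyV, one_lt_valuation_div W hxW hyW hy0⟩

/-- Three valuation rings, pairwise incomparable: an element small for the first and large for
the two others. -/
theorem exists_triple (V W₁ W₂ : ValuationSubring E)
    (h1 : ∃ x ∈ V, x ∉ W₁) (h1' : ∃ x ∈ W₁, x ∉ V)
    (h2 : ∃ x ∈ V, x ∉ W₂) (h2' : ∃ x ∈ W₂, x ∉ V) :
    ∃ c : E, V.valuation c < 1 ∧ 1 < W₁.valuation c ∧ 1 < W₂.valuation c := by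
  obtain ⟨c₁, hc₁V, hc₁W⟩ := exists_pair V W₁ h1 h1'
  obtain ⟨c₂, hc₂V, hc₂W⟩ := exists_pair V W₂ h2 h2'
  by_cases ha : 1 < W₂.valuation c₁
  · exact ⟨c₁, hc₁V, hc₁W, ha⟩
  by_cases hb : 1 < W₁.valuation c₂
  · exact ⟨c₂, hc₂V, hb, hc₂W⟩
  rw [not_lt] at ha hb
  refine ⟨c₁ + c₂, Valuation.map_add_lt _ hc₁V hc₂V, ?_, ?_⟩
  · rw [Valuation.map_add_eq_of_lt_left _ (hb.trans_lt hc₁W)]
    exact hc₁W
  · rw [Valuation.map_add_eq_of_lt_right _ (ha.trans_lt hc₂W)]
    exact hc₂W

/-- From `c` small for `V` and large for `W`: `s := c / (1 + c)` is a nonzero nonunit of `V`. -/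
theorem div_one_add_nonunit (V : ValuationSubring E) {c : E} (hc0 : c ≠ 0)
    (hc : V.valuation c < 1) : c / (1 + c) ∈ V.nonunits ∧ c / (1 + c) ≠ 0 := by
  have h1 : V.valuation (1 + c) = 1 := by
    rw [Valuation.map_add_eq_of_lt_left _ (by rw [map_one]; exact hc), map_one]
  have hne : (1 : E) + c ≠ 0 := by
    intro h0
    rw [h0, map_zero] at h1
    exact zero_ne_one h1
  refine ⟨?_, div_ne_zero hc0 hne⟩
  rw [ValuationSubring.mem_nonunits_iff, map_div₀, h1, div_one]
  exact hc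

/-- From `c` large for `W`: `s := c / (1 + c)` is a unit of `W`. -/
theorem div_one_add_unit (W : ValuationSubring E) {c : E} (hc : 1 < W.valuation c) :
    c / (1 + c) ∈ W ∧ (c / (1 + c))⁻¹ ∈ W := by
  have h1 : W.valuation (1 + c) = W.valuation c := by
    rw [Valuation.map_add_eq_of_lt_right _ (by rw [map_one]; exact hc)]
  have hpos : W.valuation c ≠ 0 := (zero_lt_one.trans hc).ne'
  have h2 : W.valuation (c / (1 + c)) = 1 := by
    rw [map_div₀, h1, div_self hpos]
  refine ⟨(W.valuation_le_one_iff _).1 h2.le, (W.valuation_le_one_iff _).1 ?_⟩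
  rw [map_inv₀, h2, inv_one]

/-- A uniformizer (an element of `V` whose inverse is not in `V`) is a nonunit. -/
theorem mem_nonunits_of_inv_not_mem (V : ValuationSubring E) {t : E} (ht : t ∈ V)
    (ht' : t⁻¹ ∉ V) : t ∈ V.nonunits := by
  have h0 : t ≠ 0 := by
    rintro rfl
    exact ht' (by rw [inv_zero]; exact zero_mem _)
  have h1 : 1 < V.valuation t⁻¹ := not_le.mp (mt (V.valuation_le_one_iff _).1 ht')
  have hpos : 0 < V.valuation t := zero_lt_iff.2 ((Valuation.ne_zero_iff _).2 h0)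
  rw [map_inv₀] at h1
  rw [ValuationSubring.mem_nonunits_iff]
  exact (one_lt_inv₀ hpos).1 h1

/-- the two other indices of `Fin 3` -/
theorem fin3_others :
    ∀ i : Fin 3, ∃ j k : Fin 3, j ≠ i ∧ k ≠ i ∧ ∀ l : Fin 3, l = i ∨ l = j ∨ l = k := by
  decide

/-- **Separating family for a generic finite family of three pairwise incomparable valuation
rings of rank one** (index type `Fin 3`). -/
theorem exists_sep_of_incomparable (V : Fin 3 → ValuationSubring E)
    (hsep : ∀ i j : Fin 3, i ≠ j → ∃ x ∈ V i, x ∉ V j)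
    (harch : ∀ i, ∀ a ∈ (V i).nonunits, a ≠ 0 → ∀ x : E, ∃ N : ℕ, a ^ N * x ∈ V i) :
    ∃ s : Fin 3 → E, ApproxN.Sep V s := by
  have hc : ∀ i : Fin 3, ∃ c : E, (V i).valuation c < 1 ∧ ∀ l : Fin 3, l ≠ i →
      1 < (V l).valuation c := by
    intro i
    obtain ⟨j, k, hji, hki, hall⟩ := fin3_others i
    obtain ⟨c, hci, hcj, hck⟩ := exists_triple (V i) (V j) (V k)
      (hsep i j hji.symm) (hsep j i hji) (hsep i k hki.symm) (hsep k i hki)
    refine ⟨c, hci, fun l hl => ?_⟩
    rcases hall l with rfl | rfl | rfl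
    · exact absurd rfl hl
    · exact hcj
    · exact hck
  choose c hci hcl using hc
  have hc0 : ∀ i, c i ≠ 0 := by
    intro i
    obtain ⟨j, -, hji, -, -⟩ := fin3_others i
    intro h0
    have := hcl i j hji
    rw [h0, map_zero] at this
    exact not_lt_zero this
  refine ⟨fun i => c i / (1 + c i), ?_, ?_, ?_, harch⟩
  · exact fun i => (div_one_add_nonunit (V i) (hc0 i) (hci i)).1
  · exact fun i => (div_one_add_nonunit (V i) (hc0 i) (hci i)).2
  · exact fun i j hji => div_one_add_unit (V j) (hcl i j hji)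

/-- **[Sep3]** The three component valuation rings of a `ValHyp3` have a separating family
(`ApproxN.Sep`): no hypothesis on `p` is needed. -/
theorem sep_of_valHyp3 {p : E} {e : Fin 3 → ℕ} {ϖ : Fin 3 → E} {V : Fin 3 → ValuationSubring E}
    (hV : Model3Plan.ValHyp3 p e ϖ V) : ∃ s : Fin 3 → E, ApproxN.Sep V s :=
  exists_sep_of_incomparable V hV.sep fun i =>
    ApproxN.arch_of_unif (V i) (ϖ i) (hV.disc i)
      (mem_nonunits_of_inv_not_mem (V i) (hV.unif_mem i) (hV.unif_not i))

/-- Same statement under the name used by `S36/Approx3.lean`. -/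
theorem exists_sep {p : E} {e : Fin 3 → ℕ} {ϖ : Fin 3 → E} {V : Fin 3 → ValuationSubring E}
    (hV : Model3Plan.ValHyp3 p e ϖ V) : ∃ s : Fin 3 → E, ApproxN.Sep V s :=
  sep_of_valHyp3 hV

/-- In a `ValHyp3`, the element `p` is a nonunit of every `V i`. -/
theorem p_mem_nonunits {p : E} {e : Fin 3 → ℕ} {ϖ : Fin 3 → E} {V : Fin 3 → ValuationSubring E}
    (hV : Model3Plan.ValHyp3 p e ϖ V) (i : Fin 3) : p ∈ (V i).nonunits := by
  obtain ⟨u, hu, -, hpu⟩ := hV.ram i
  have hϖ : ϖ i ∈ (V i).nonunits :=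
    mem_nonunits_of_inv_not_mem (V i) (hV.unif_mem i) (hV.unif_not i)
  rw [hpu]
  exact ApproxN.nonunit_mul_mem (V i) (ApproxN.nonunit_pow (V i) hϖ (hV.e_pos i).ne') hu

/-- In a `ValHyp3`, the uniformizer `ϖ i` is a nonunit of `V i`. -/
theorem unif_mem_nonunits {p : E} {e : Fin 3 → ℕ} {ϖ : Fin 3 → E}
    {V : Fin 3 → ValuationSubring E} (hV : Model3Plan.ValHyp3 p e ϖ V) (i : Fin 3) :
    ϖ i ∈ (V i).nonunits :=
  mem_nonunits_of_inv_not_mem (V i) (hV.unif_mem i) (hV.unif_not i)

end Fermat.Agent.S36.Sep3
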