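/-
S36 — LocAsm3B.lean (helper87).  Adapter half of (E2) [ASM36] (board #3115, deal of the
architect): from the [MODEL3] interface (`Model3Plan.ChartModel3`, `ValHyp3`, `Hor3`, `OneMod`)
to the hypotheses of the multi-branch normal form `LocGMulti.locGMulti_pred` and to the `nf`
field of `ToricAsm.ChartTor`.

Abstract layer (`R` any `O`-algebra with fraction field `E`, `hV : ValHyp3`, `hC : ChartHyp3`):
* `valuation_lt_one_iff`, `valuation_eq_one_of_notMem` : `P i` is the centre of `V i` in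
  valuation language;
* `exists_unif_mul_of_lt_one`, `exists_pi_mul_pow`    : `𝔪(V i) = ϖ i (V i)`, `𝔪(V i) ^ e i ⊆ π (V i)`;
* `cen_at`, `pi_lt_one`, `nil_at`, `res_at`, `branch_at`, `desc_at`, `root_at`, `natCast_notMem` :
  the hypotheses `hcen`, `hpi`, `hnil`, `hres`, `hbranch`, `hdesc`, `hroot`, `hmn` of
  `LocGMulti.locGMulti_pred` for `ι = Fin 3`, `T i := P i ≤ n`.

Model layer (`C : ChartModel3 N A K π ϖ V R`):
* `exists_normal_form` : at every closed point `n` of the special fibre and every branch `i₀`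
  through `n`, the normal form `G = g₀ ^ m * u₀`, `u₀ ∈ 1 + π R_n`, `g₀ ≡ γ i` modulo `π (V i)` on
  the branches through `n` (`γ i` constants, `γ i₀ = 1`, `γ i ^ m ≡ 1`);
* `exists_nf`          : the `nf` field of `ToricAsm.ChartTor` for `T n i := C.P i ≤ n`;
* `exists_primitiveRoot_OK` : a primitive `m`-th root of unity in `O = A ∩ K` from `BaseFacts`.
-/
import Mathlib
import Fermat.Agent.S18.ArithPlan
import Fermat.Agent.S34.LocPlan
import Fermat.Agent.S34.AbsTop
import Fermat.Agent.S35.RootConst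
import Fermat.Agent.S36.Model3Plan
import Fermat.Agent.S36.HorGen3
import Fermat.Agent.S36.LocV3
import Fermat.Agent.S36.Sep3
import Fermat.Agent.S36.ApproxN
import Fermat.Agent.S36.LocGMulti
import Fermat.Agent.S36.ToricAsm

set_option autoImplicit false
set_option linter.unusedSectionVars false

namespace Fermat.Agent.S36.LocAsm3B

open Fermat.Agent.S34.LocPlan Fermat.Agent.S36.Model3Plan

/-! ### Abstract layer -/

section Abs

variable {O : Type*} [CommRing O] {R : Type*} [CommRing R] [IsDomain R] [Algebra O R]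
  {E : Type*} [Field E] [Algebra R E] [IsFractionRing R E]
  {π : O} {p : E} {e : Fin 3 → ℕ} {ϖ : Fin 3 → E} {V : Fin 3 → ValuationSubring E}
  {P : Fin 3 → Ideal R}

/-- A nonzero element of a valuation ring whose inverse also lies in it has valuation `1`. -/
theorem valuation_eq_one_of_inv_mem (W : ValuationSubring E) {x : E} (hx : x ∈ W)
    (hx' : x⁻¹ ∈ W) (hx0 : x ≠ 0) : W.valuation x = 1 := by
  have h1 : W.valuation x ≤ 1 := (W.valuation_le_one_iff x).2 hx
  have h2 : W.valuation x⁻¹ ≤ 1 := (W.valuation_le_one_iff _).2 hx'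
  have hpos : 0 < W.valuation x := zero_lt_iff.2 ((Valuation.ne_zero_iff _).2 hx0)
  rw [map_inv₀, inv_le_one₀ hpos] at h2
  exact le_antisymm h1 h2

/-- If `x⁻¹ ∈ W` and `x ≠ 0` then `1 ≤ v x`. -/
theorem one_le_valuation_of_inv_mem (W : ValuationSubring E) {x : E}
    (hx' : x⁻¹ ∈ W) (hx0 : x ≠ 0) : 1 ≤ W.valuation x := by
  have h2 : W.valuation x⁻¹ ≤ 1 := (W.valuation_le_one_iff _).2 hx'
  have hpos : 0 < W.valuation x := zero_lt_iff.2 ((Valuation.ne_zero_iff _).2 hx0)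
  rw [map_inv₀, inv_le_one₀ hpos] at h2
  exact h2

/-- Elements of `R` outside `P i` have valuation `1` in `V i`. -/
theorem valuation_eq_one_of_notMem (hV : ValHyp3 p e ϖ V) (hC : ChartHyp3 π ϖ V P) (i : Fin 3)
    {r : R} (hr : r ∉ P i) : (V i).valuation (algebraMap R E r) = 1 := by
  have hinj : Function.Injective (algebraMap R E) := IsFractionRing.injective R E
  have hr0 : r ≠ 0 := fun h0 => hr (h0 ▸ (P i).zero_mem)
  have hx0 : algebraMap R E r ≠ 0 := fun h0 => hr0 (hinj (by rw [h0, map_zero]))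
  exact valuation_eq_one_of_inv_mem (V i) (hC.le i r)
    (HorGen3.inv_mem_of_notMem_P hV hC i hr) hx0

/-- `P i` is the centre of `V i`, in valuation language. -/
theorem valuation_lt_one_iff (hV : ValHyp3 p e ϖ V) (hC : ChartHyp3 π ϖ V P) (i : Fin 3)
    (r : R) : (V i).valuation (algebraMap R E r) < 1 ↔ r ∈ P i := by
  constructor
  · intro h
    by_contra hr
    rw [valuation_eq_one_of_notMem hV hC i hr] at h
    exact lt_irrefl _ h
  · intro hr
    by_cases hr0 : r = 0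
    · rw [hr0, map_zero, map_zero]
      exact zero_lt_one
    · have h1 := HorGen3.inv_notMem_of_mem_P hV hC i hr hr0
      rw [← ValuationSubring.mem_nonunits_iff]
      exact Sep3.mem_nonunits_of_inv_not_mem (V i) (hC.le i r) h1

/-- `𝔪(V i) = ϖ i (V i)`. -/
theorem exists_unif_mul_of_lt_one (hV : ValHyp3 p e ϖ V) (i : Fin 3) {x : E}
    (hx : (V i).valuation x < 1) : ∃ z ∈ V i, x = ϖ i * z := by
  by_contra hcon
  have hx0 : x ≠ 0 := fun h0 => hcon ⟨0, (V i).zero_mem, by rw [h0, mul_zero]⟩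
  have hinv : x⁻¹ ∈ V i := LocV3.inv_mem_of_not_unif (hV.unif_mem i) (hV.disc i) hcon
  exact absurd hx (not_lt.mpr (one_le_valuation_of_inv_mem (V i) hinv hx0))

/-- `𝔪(V i) ^ e i ⊆ p (V i)` (for `p ≠ 0`). -/
theorem exists_pi_mul_pow (hV : ValHyp3 p e ϖ V) (hp0 : p ≠ 0) (i : Fin 3) {x : E}
    (hx : (V i).valuation x < 1) : ∃ z ∈ V i, x ^ e i = p * z := by
  obtain ⟨y, hy, hxy⟩ := exists_unif_mul_of_lt_one hV i hx
  obtain ⟨u, -, hu', hpu⟩ := hV.ram i
  have hu0 : u ≠ 0 := by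
    rintro rfl
    rw [mul_zero] at hpu
    exact hp0 hpu
  refine ⟨u⁻¹ * y ^ e i, (V i).mul_mem _ _ hu' (pow_mem hy _), ?_⟩
  rw [hxy, hpu, mul_pow]
  field_simp

/-- `hcen` of `LocGMulti.locGMulti_pred`. -/
theorem cen_at (hV : ValHyp3 p e ϖ V) (hC : ChartHyp3 π ϖ V P) {n : Ideal R} (i : Fin 3)
    (hi : P i ≤ n) (r : R) (hr : (V i).valuation (algebraMap R E r) < 1) : r ∈ n :=
  hi ((valuation_lt_one_iff hV hC i r).1 hr)

/-- `hpi` of `LocGMulti.locGMulti_pred`. -/
theorem pi_lt_one (hV : ValHyp3 p e ϖ V) (i : Fin 3) : (V i).valuation p < 1 := by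
  rw [← ValuationSubring.mem_nonunits_iff]
  exact Sep3.p_mem_nonunits hV i

/-- `hnil` of `LocGMulti.locGMulti_pred`. -/
theorem nil_at (hV : ValHyp3 p e ϖ V) (hp0 : p ≠ 0) (i : Fin 3) :
    ∃ N : ℕ, ∀ x : E, (V i).valuation x < 1 → ∃ z ∈ V i, x ^ N = p * z :=
  ⟨e i, fun _ hx => exists_pi_mul_pow hV hp0 i hx⟩

/-- `hres` of `LocGMulti.locGMulti_pred`. -/
theorem res_at (hV : ValHyp3 p e ϖ V) (hC : ChartHyp3 π ϖ V P) (i : Fin 3) (x : E)
    (hx : (V i).valuation x ≤ 1) : ∃ a s : R, (V i).valuation (algebraMap R E s) = 1 ∧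
      (V i).valuation (x * algebraMap R E s - algebraMap R E a) < 1 := by
  obtain ⟨a, s, hs, hxs⟩ := hC.loc i x ((V i).valuation_le_one_iff x |>.1 hx)
  refine ⟨a, s, valuation_eq_one_of_notMem hV hC i hs, ?_⟩
  rw [hxs, sub_self, map_zero]
  exact zero_lt_one

/-- `hbranch` of `LocGMulti.locGMulti_pred`, from the `branch` data of a chart. -/
theorem branch_at (hV : ValHyp3 p e ϖ V) (hC : ChartHyp3 π ϖ V P) {n : Ideal R} (i : Fin 3)
    (hb : (∃ x ∈ n, x ∉ P i) ∧
      ∃ u ∈ n, ∀ x ∈ n, ∃ s : R, s ∉ n ∧ ∃ c : R, s * x - c * u ∈ P i) :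
    (∃ x ∈ n, (V i).valuation (algebraMap R E x) = 1) ∧
      ∃ t ∈ n, ∀ x ∈ n, ∃ s : R, s ∉ n ∧ ∃ c : R,
        (V i).valuation (algebraMap R E (s * x - c * t)) < 1 := by
  obtain ⟨⟨x, hxn, hxP⟩, u, hun, hu⟩ := hb
  refine ⟨⟨x, hxn, valuation_eq_one_of_notMem hV hC i hxP⟩, u, hun, fun y hy => ?_⟩
  obtain ⟨s, hs, c, hc⟩ := hu y hy
  exact ⟨s, hs, c, (valuation_lt_one_iff hV hC i _).2 hc⟩

/-- `hdesc` of `LocGMulti.locGMulti_pred`: local normality at `n`,
`R_n ∩ ⋂_{P i ≤ n} π (V i) = π R_n`. -/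
theorem desc_at (hV : ValHyp3 (algebraMap R E (algebraMap O R π)) e ϖ V)
    (hC : ChartHyp3 π ϖ V P) (hπ0 : algebraMap O R π ≠ 0) (n : Ideal R) [hn : n.IsPrime]
    (x : E) (hx : RegAt n x)
    (h : ∀ i : Fin 3, P i ≤ n → ∃ z ∈ V i, x = algebraMap R E (algebraMap O R π) * z) :
    ∃ s : R, s ∉ n ∧ ∃ r : R,
      algebraMap R E s * x = algebraMap R E (algebraMap O R π) * algebraMap R E r := by
  classical
  obtain ⟨a, s₀, hs₀, hxa⟩ := hx
  have key : ∀ j : Fin 3, ∃ σ : R, σ ∉ n ∧ ∃ z ∈ V j,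
      algebraMap R E (σ * a) = algebraMap R E (algebraMap O R π) * z := by
    intro j
    by_cases hj : P j ≤ n
    · obtain ⟨z, hz, hxz⟩ := h j hj
      refine ⟨1, hn.one_notMem, z * algebraMap R E s₀, (V j).mul_mem _ _ hz (hC.le j s₀), ?_⟩
      rw [one_mul, ← hxa, hxz]
      ring
    · obtain ⟨s, hsP, hsn⟩ := SetLike.not_le_iff_exists.mp hj
      obtain ⟨z, hz, hsz⟩ := HorGen3.exists_pow_eq hV hC hπ0 j hsP
      refine ⟨s ^ e j, fun h' => hsn (hn.mem_of_pow_mem _ h'), z * algebraMap R E a,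
        (V j).mul_mem _ _ hz (hC.le j a), ?_⟩
      rw [map_mul, hsz]
      ring
  choose σ hσn z hz hσz using key
  have hall : ∀ j : Fin 3, ∃ y ∈ V j,
      algebraMap R E ((∏ l, σ l) * a) = algebraMap R E (algebraMap O R π) * y := by
    intro j
    refine ⟨algebraMap R E (∏ l ∈ Finset.univ.erase j, σ l) * z j,
      (V j).mul_mem _ _ (hC.le j _) (hz j), ?_⟩
    have h1 : (∏ l, σ l) * a = (∏ l ∈ Finset.univ.erase j, σ l) * (σ j * a) := by
      rw [← Finset.mul_prod_erase Finset.univ σ (Finset.mem_univ j)]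
      ring
    rw [h1, map_mul, hσz j]
    ring
  obtain ⟨r', hr'⟩ := hC.desc _ hall
  refine ⟨(∏ l, σ l) * s₀, ?_, r', ?_⟩
  · intro hmem
    rcases hn.mem_or_mem hmem with h1 | h1
    · obtain ⟨l, -, hl⟩ := (Ideal.IsPrime.prod_mem_iff).mp h1
      exact hσn l hl
    · exact hs₀ h1
  · have h2 : algebraMap R E ((∏ l, σ l) * s₀) * x =
        algebraMap R E ((∏ l, σ l) * a) := by
      rw [map_mul, map_mul, ← hxa]
      ring
    rw [h2, hr', map_mul]

/-- `hroot` of `LocGMulti.locGMulti_pred`, from a primitive `m`-th root of unity of `O`. -/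
theorem root_at [IsDomain O] {m : ℕ} (hm : 0 < m) {ζ : O} (hζ : IsPrimitiveRoot ζ m)
    (n : Ideal R) [hn : n.IsPrime] (x : R) (hx : x ^ m - 1 ∈ n) :
    ∃ c : O, x - algebraMap O R c ∈ n := by
  obtain ⟨c, -, hc⟩ :=
    Fermat.Agent.S35.RootConst.exists_const_of_pow_sub_one_mem hm hζ n hn x hx
  exact ⟨c, hc⟩

/-- `hmn` of `LocGMulti.locGMulti_pred`: `m` is invertible at `n`. -/
theorem natCast_notMem {m : ℕ} (hmu : IsUnit ((m : ℕ) : O)) (n : Ideal R) [hn : n.IsPrime] :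
    ((m : ℕ) : R) ∉ n := by
  intro h
  have h1 : IsUnit (algebraMap O R ((m : ℕ) : O)) := hmu.map (algebraMap O R)
  rw [map_natCast] at h1
  exact hn.ne_top (Ideal.eq_top_of_isUnit_mem n h h1)

end Abs

/-! ### The normal form at a closed point of a `ChartModel3` -/

section Model

open Fermat.Agent.S18.Arith

variable {N : ℕ} [NeZero N] {A : ValuationSubring Qb} {K : IntermediateField ℚ Qb}
  [IsDiscreteValuationRing (OK A K)]
  {π : OK A K} {e : Fin 3 → ℕ} {ϖ : Fin 3 → FK N K} {V : Fin 3 → ValuationSubring (FK N K)}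
  {R : Subalgebra (OK A K) (FK N K)}

/-- **[HorGen3] + [LocG3] on a chart of the model**: at every closed point `n` of the special
fibre and every branch `i₀` through `n`, a function `G ≡ 1` modulo `π (V i)` (all `i`) with
`m ∣ ord_𝔮 G` at the horizontal primes has the normal form `G = g₀ ^ m * u₀`, `u₀ ∈ 1 + π R_n`,
`g₀ ≡ γ i` modulo `π (V i)` on every branch through `n`, with constants `γ i ∈ O`, `γ i₀ = 1`,
`γ i ^ m ≡ 1` modulo `π`. -/
theorem exists_normal_form (hFact : FactStatement) (C : ChartModel3 N A K π ϖ V R)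
    (hV : ValHyp3 (algebraMap (OK A K) (FK N K) π) e ϖ V) (hπ : Irreducible π)
    (m : ℕ) (hm : 0 < m) (hmu : IsUnit ((m : ℕ) : OK A K)) {ζ : OK A K}
    (hζ : IsPrimitiveRoot ζ m) (G : FK N K)
    (hG : OneMod (algebraMap (OK A K) (FK N K) π) V G) (hHor : Hor3 π m G R)
    (n : Ideal R) (hn : n.IsMaximal) (hπn : algebraMap (OK A K) R π ∈ n)
    (i₀ : Fin 3) (hi₀ : C.P i₀ ≤ n) :
    ∃ (g₀ : FK N K) (γ : Fin 3 → OK A K), g₀ ≠ 0 ∧ γ i₀ = 1 ∧ (∀ i, π ∣ γ i ^ m - 1) ∧
      (∀ i, C.P i ≤ n → ∃ z ∈ V i, g₀ - algebraMap (OK A K) (FK N K) (γ i) =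
        algebraMap (OK A K) (FK N K) π * z) ∧
      ∃ s : R, s ∉ n ∧ ∃ r : R, (s : FK N K) * (G / g₀ ^ m - 1) =
        algebraMap (OK A K) (FK N K) π * (r : FK N K) := by
  have := C.noeth
  have := C.frac
  have := C.intcl
  have hnp : n.IsPrime := hn.isPrime
  have hinjOE : Function.Injective (algebraMap (OK A K) (FK N K)) := by
    have h1 : Function.Injective (constK N K) := (constK N K).injective
    have h2 : Function.Injective (OK A K).subtype := Subtype.val_injective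
    exact h1.comp h2
  have hinj : Function.Injective (algebraMap (OK A K) R) := by
    intro a b hab
    have h1 : algebraMap (OK A K) (FK N K) a = algebraMap (OK A K) (FK N K) b := by
      rw [IsScalarTower.algebraMap_apply (OK A K) R (FK N K),
        IsScalarTower.algebraMap_apply (OK A K) R (FK N K), hab]
    exact hinjOE h1
  have hπR : algebraMap (OK A K) R π ≠ 0 := fun h0 => hπ.ne_zero (hinj (by rw [h0, map_zero]))
  have hV' : ValHyp3 (algebraMap R (FK N K) (algebraMap (OK A K) R π)) e ϖ V := by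
    rw [← IsScalarTower.algebraMap_apply (OK A K) R (FK N K)]
    exact hV
  have hp0 : algebraMap R (FK N K) (algebraMap (OK A K) R π) ≠ 0 := by
    rw [← IsScalarTower.algebraMap_apply (OK A K) R (FK N K)]
    exact fun h0 => hπ.ne_zero (hinjOE (by rw [h0, map_zero]))
  obtain ⟨g, u, -, hGgu, hu, -⟩ :=
    HorGen3.exists_local_datum hFact C hV hπ.ne_zero m hm G hG hHor n hn hπn
  obtain ⟨g₀, γ, hg₀, hγ₀, hγm, hγv, s, hs, r, hr⟩ :=
    LocGMulti.locGMulti_pred (O := OK A K) (R := R) (E := FK N K) V (fun i => C.P i ≤ n)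
      hπ hn hm (natCast_notMem hmu n)
      (fun i _ r => C.hyp.le i r)
      (fun i hi r hr => cen_at hV' C.hyp i hi r hr)
      (fun i _ => pi_lt_one hV' i)
      (fun i _ => nil_at hV' hp0 i)
      (fun i _ x hx => res_at hV' C.hyp i x hx)
      (fun i hi => branch_at hV' C.hyp i (C.branch n hn hπn i hi))
      (fun x hx h => desc_at hV' C.hyp hπR n x hx h)
      (fun x hx => root_at hm hζ n x hx)
      hGgu hu
      (fun i _ => by
        obtain ⟨z, hz, hGz⟩ := hG i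
        exact ⟨z, hz, by rw [hGz, ← IsScalarTower.algebraMap_apply (OK A K) R (FK N K)]⟩)
      i₀ hi₀
  refine ⟨g₀, γ, hg₀, hγ₀, hγm, fun i hi => ?_, s, hs, r, ?_⟩
  · obtain ⟨z, hz, hgz⟩ := hγv i hi
    refine ⟨z, hz, ?_⟩
    rw [IsScalarTower.algebraMap_apply (OK A K) R (FK N K) (γ i),
      IsScalarTower.algebraMap_apply (OK A K) R (FK N K) π]
    exact hgz
  · rw [IsScalarTower.algebraMap_apply (OK A K) R (FK N K) π]
    exact hr

/-- **The `nf` field of `ToricAsm.ChartTor`** for a chart of the model, `T n i := C.P i ≤ n`: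
a normal form of `G` at every closed point of the special fibre. -/
theorem exists_nf (hFact : FactStatement) (C : ChartModel3 N A K π ϖ V R)
    (hV : ValHyp3 (algebraMap (OK A K) (FK N K) π) e ϖ V) (hπ : Irreducible π)
    (m : ℕ) (hm : 0 < m) (hmu : IsUnit ((m : ℕ) : OK A K)) {ζ : OK A K}
    (hζ : IsPrimitiveRoot ζ m) (G : FK N K)
    (hG : OneMod (algebraMap (OK A K) (FK N K) π) V G) (hHor : Hor3 π m G R) :
    ∀ n : Ideal R, n.IsMaximal → algebraMap (OK A K) R π ∈ n →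
      ∃ (g₀ : FK N K) (γ : Fin 3 → OK A K),
        ToricAsm.NF R π V m G n ((fun (n : Ideal R) (i : Fin 3) => C.P i ≤ n) n) g₀ γ := by
  intro n hn hπn
  obtain ⟨i₀, hi₀, -⟩ := C.princ n hn hπn
  obtain ⟨g₀, γ, hg₀, -, -, hγv, hloc⟩ :=
    exists_normal_form hFact C hV hπ m hm hmu hζ G hG hHor n hn hπn i₀ hi₀
  exact ⟨g₀, γ, hg₀, hγv, hloc⟩

end Model

/-! ### Roots of unity in the base -/

section Base

open Fermat.Agent.S18.Arith

/-- A primitive `m`-th root of unity in `O = A ∩ K`, for `m` prime to the residue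
characteristic, from `BaseFacts` (the input `hζ` of `exists_normal_form`). -/
theorem exists_primitiveRoot_OK {ℓ : ℕ} [Fact ℓ.Prime] (A : ValuationSubring Qb)
    (K : IntermediateField ℚ Qb) (hB : BaseFacts ℓ A K) {m : ℕ} (hm : 0 < m) (hℓm : ¬ ℓ ∣ m) :
    ∃ ζ : OK A K, IsPrimitiveRoot ζ m := by
  have : NeZero m := ⟨hm.ne'⟩
  obtain ⟨ζ₀, hζ₀⟩ := HasEnoughRootsOfUnity.exists_primitiveRoot Qb m
  have hK : ζ₀ ∈ K := hB.roots m ζ₀ hℓm hζ₀.pow_eq_one
  have hA : ζ₀ ∈ A :=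
    Fermat.Agent.S34.AbsTop.mem_of_pow_mem A hm ζ₀ (by rw [hζ₀.pow_eq_one]; exact A.one_mem)
  refine ⟨⟨⟨ζ₀, hK⟩, hA⟩, ?_⟩
  have hinj : Function.Injective (incO A K) := by
    intro a b hab
    exact Subtype.ext (Subtype.ext hab)
  exact IsPrimitiveRoot.of_map_of_injective (f := incO A K) hζ₀ hinj

end Base

end Fermat.Agent.S36.LocAsm3B
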