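import Mathlib
import Fermat.Agent.S36.Model3Top
import Fermat.Agent.S36.Princ3Cases
import Fermat.Agent.S36.EtaB1Inst
import Fermat.Agent.S36.NakGlue

/-!
# S36 block [MODEL3], leaf [M3.9], route (I): the field `princ` of both charts of the model of
record, by cases

Objects of record at level `N = M q²`: `V = ![W1, W2, H.W3]`, `ϖ = ![π, π, sE]`, coordinate
`J3 = j · j_q · j_{q²}`; vertical primes `P i = Model3Asm.Pc …`.

`Princ3Cases.princ_of_cases` with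

* (eta)    closed points on `P 0` or `P 1`, non-cuspidal: `EtaB1Inst.heta0 / hetaInf` from the
           existence of the eta unit `hex : EtaB1Inst.EtaHyp M q hq hqM A K π`;
* (nak)    non-cuspidal closed points on `P 2` only: ONE named hypothesis `hnak0` on `chart J3`
           (`chart J3⁻¹` follows by `NakGlue.hnak_chart_inv`);
* (cusp2)  cuspidal closed points on `P 2` ([N10]): ONE named hypothesis on `chart J3⁻¹`;
* (cusp01) a cuspidal closed point off `P 2` is not on both `P 0` and `P 1` ([CUSP1]): ONE named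
           hypothesis on `chart J3⁻¹`.

Exports:

* `princ0_of`, `princInf_of` : any `P` with `ChartHyp3` (general `e`, `s`);
* `hprinc0`, `hprincInf`     : the binders `hprinc0`, `hprincInf` of `Model3Top.model3` VERBATIM;
* `hprincInf'`               : the same with the two cusp inputs in the literal
                               `Princ3Cases.princ_of_cases` shape (`¬ C n`, `C n := J3⁻¹ ∉ n`);
* `model3`                   : `Model3Plan.Model3 (M q²) A K π (ram q) ![π, π, sE] ![W1, W2, W3] J3`.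
-/

set_option autoImplicit false
set_option linter.unusedSectionVars false

noncomputable section

namespace Fermat.Agent.S36.Model3PrincB

open ModularCurve AlgebraicCurve HahnSeries
open Fermat.Agent.S18 Fermat.Agent.S18.Arith Fermat.Agent.S18.ModelPlan
open Fermat.Agent.S34 Fermat.Agent.S36.Model3Plan

variable {M q : ℕ} [NeZero M] [NeZero q] {hq : q.Prime} {hqM : ¬ q ∣ M}
variable {A : ValuationSubring Qb} {K K' : IntermediateField ℚ Qb}
variable {ξ : Qb} {hξ0 : ξ ≠ 0} {ι : FK (M * q * q) K →+* LaurentSeries Qb} {ϖ : OK A K'}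
variable (H : V3.Hyp3 M q hq hqM A K K' ξ hξ0 ι ϖ)

/-! ### Any family of vertical primes with `ChartHyp3` -/

/-- **`princ` on `chart J3`** (every closed point is non-cuspidal): eta on `P 0 ∪ P 1`, the
named input `hnak` at the points of `P 2` only. -/
theorem princ0_of (hdvr : IsDiscreteValuationRing (OK A K)) (hA : A.LiesOverPrime q)
    {π : OK A K} (hπ0 : π ≠ 0) (hex : EtaB1Inst.EtaHyp M q hq hqM A K π)
    {e : Fin 3 → ℕ} (he0 : e 0 = 1) (he1 : e 1 = 1) {s : FK (M * q * q) K}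
    (val : ValHyp3 (algebraMap (OK A K) (FK (M * q * q) K) π) e
      ![algebraMap (OK A K) (FK (M * q * q) K) π, algebraMap (OK A K) (FK (M * q * q) K) π, s]
      ![GaussV.V1 (M * q * q) A K hdvr, GaussV.V2 (WQ2.wK2 M q hq hqM K) hdvr, H.W3])
    {P : Fin 3 → Ideal (chart (M * q * q) A K (Chart3B.J3 M q hq hqM K))}
    (hyp : ChartHyp3 π
      ![algebraMap (OK A K) (FK (M * q * q) K) π, algebraMap (OK A K) (FK (M * q * q) K) π, s]
      ![GaussV.V1 (M * q * q) A K hdvr, GaussV.V2 (WQ2.wK2 M q hq hqM K) hdvr, H.W3] P)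
    (hnak : ∀ n : Ideal (chart (M * q * q) A K (Chart3B.J3 M q hq hqM K)), n.IsMaximal →
      algebraMap (OK A K) (chart (M * q * q) A K (Chart3B.J3 M q hq hqM K)) π ∈ n →
      ¬ P 0 ≤ n → ¬ P 1 ≤ n → P 2 ≤ n →
      ∃ i : Fin 3, P i ≤ n ∧ ∃ g ∈ P i, ∀ y ∈ P i,
        ∃ s : chart (M * q * q) A K (Chart3B.J3 M q hq hqM K), s ∉ n ∧
          ∃ c : chart (M * q * q) A K (Chart3B.J3 M q hq hqM K), s * y = c * g) :
    ∀ n : Ideal (chart (M * q * q) A K (Chart3B.J3 M q hq hqM K)), n.IsMaximal →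
      algebraMap (OK A K) (chart (M * q * q) A K (Chart3B.J3 M q hq hqM K)) π ∈ n →
      ∃ i : Fin 3, P i ≤ n ∧ ∃ g ∈ P i, ∀ y ∈ P i,
        ∃ s : chart (M * q * q) A K (Chart3B.J3 M q hq hqM K), s ∉ n ∧
          ∃ c : chart (M * q * q) A K (Chart3B.J3 M q hq hqM K), s * y = c * g :=
  Princ3Cases.princ_of_cases (O := OK A K)
    (R := chart (M * q * q) A K (Chart3B.J3 M q hq hqM K)) (E := FK (M * q * q) K)
    val hyp (GaussV.algebraMap_ne_zero (M * q * q) A K hπ0) he0 he1 (fun _ => True)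
    (fun n hn _ _ h01 => EtaB1Inst.heta0 H hdvr hA hπ0 hex val hyp n hn h01)
    (fun n hn hπn _ h0 h1 h2 => hnak n hn hπn h0 h1 h2)
    (fun _ _ _ hC => absurd trivial hC)
    (fun _ _ _ hC => absurd trivial hC)

/-- **`princ` on `chart J3⁻¹`** (`C n := J3⁻¹ ∉ n`): eta on `P 0 ∪ P 1` off the cusps, `hnak`
transported from `chart J3` by `NakGlue`, the two cusp inputs in the literal
`Princ3Cases.princ_of_cases` shape. -/
theorem princInf_of (hA : A.LiesOverPrime q) (hB : BaseFacts q A K)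
    {π : OK A K} (hπ : Irreducible π) (hex : EtaB1Inst.EtaHyp M q hq hqM A K π)
    {e : Fin 3 → ℕ} (he0 : e 0 = 1) (he1 : e 1 = 1) {s : FK (M * q * q) K}
    (val : ValHyp3 (algebraMap (OK A K) (FK (M * q * q) K) π) e
      ![algebraMap (OK A K) (FK (M * q * q) K) π, algebraMap (OK A K) (FK (M * q * q) K) π, s]
      ![GaussV.V1 (M * q * q) A K hB.dvr, GaussV.V2 (WQ2.wK2 M q hq hqM K) hB.dvr, H.W3])
    (hle0 : ∀ i : Fin 3, ∀ x ∈ chart (M * q * q) A K (Chart3B.J3 M q hq hqM K),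
      x ∈ (![GaussV.V1 (M * q * q) A K hB.dvr, GaussV.V2 (WQ2.wK2 M q hq hqM K) hB.dvr, H.W3] :
        Fin 3 → ValuationSubring (FK (M * q * q) K)) i)
    (hleInf : ∀ i : Fin 3, ∀ x ∈ chart (M * q * q) A K (Chart3B.J3 M q hq hqM K)⁻¹,
      x ∈ (![GaussV.V1 (M * q * q) A K hB.dvr, GaussV.V2 (WQ2.wK2 M q hq hqM K) hB.dvr, H.W3] :
        Fin 3 → ValuationSubring (FK (M * q * q) K)) i)
    {P0 : Fin 3 → Ideal (chart (M * q * q) A K (Chart3B.J3 M q hq hqM K))}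
    {P : Fin 3 → Ideal (chart (M * q * q) A K (Chart3B.J3 M q hq hqM K)⁻¹)}
    (hyp0 : ChartHyp3 π
      ![algebraMap (OK A K) (FK (M * q * q) K) π, algebraMap (OK A K) (FK (M * q * q) K) π, s]
      ![GaussV.V1 (M * q * q) A K hB.dvr, GaussV.V2 (WQ2.wK2 M q hq hqM K) hB.dvr, H.W3] P0)
    (hyp : ChartHyp3 π
      ![algebraMap (OK A K) (FK (M * q * q) K) π, algebraMap (OK A K) (FK (M * q * q) K) π, s]
      ![GaussV.V1 (M * q * q) A K hB.dvr, GaussV.V2 (WQ2.wK2 M q hq hqM K) hB.dvr, H.W3] P)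
    (hnak : ∀ n : Ideal (chart (M * q * q) A K (Chart3B.J3 M q hq hqM K)), n.IsMaximal →
      algebraMap (OK A K) (chart (M * q * q) A K (Chart3B.J3 M q hq hqM K)) π ∈ n →
      ¬ P0 0 ≤ n → ¬ P0 1 ≤ n → P0 2 ≤ n →
      ∃ i : Fin 3, P0 i ≤ n ∧ ∃ g ∈ P0 i, ∀ y ∈ P0 i,
        ∃ s : chart (M * q * q) A K (Chart3B.J3 M q hq hqM K), s ∉ n ∧
          ∃ c : chart (M * q * q) A K (Chart3B.J3 M q hq hqM K), s * y = c * g)
    (hcusp2 : ∀ n : Ideal (chart (M * q * q) A K (Chart3B.J3 M q hq hqM K)⁻¹), n.IsMaximal →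
      algebraMap (OK A K) (chart (M * q * q) A K (Chart3B.J3 M q hq hqM K)⁻¹) π ∈ n →
      ¬ (⟨(Chart3B.J3 M q hq hqM K)⁻¹,
          ChartJ.self_mem_chart (M * q * q) A K (Chart3B.J3 M q hq hqM K)⁻¹⟩ :
        chart (M * q * q) A K (Chart3B.J3 M q hq hqM K)⁻¹) ∉ n →
      P 2 ≤ n →
      ∃ i : Fin 3, P i ≤ n ∧ ∃ g ∈ P i, ∀ y ∈ P i,
        ∃ s : chart (M * q * q) A K (Chart3B.J3 M q hq hqM K)⁻¹, s ∉ n ∧
          ∃ c : chart (M * q * q) A K (Chart3B.J3 M q hq hqM K)⁻¹, s * y = c * g)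
    (hcusp01 : ∀ n : Ideal (chart (M * q * q) A K (Chart3B.J3 M q hq hqM K)⁻¹), n.IsMaximal →
      algebraMap (OK A K) (chart (M * q * q) A K (Chart3B.J3 M q hq hqM K)⁻¹) π ∈ n →
      ¬ (⟨(Chart3B.J3 M q hq hqM K)⁻¹,
          ChartJ.self_mem_chart (M * q * q) A K (Chart3B.J3 M q hq hqM K)⁻¹⟩ :
        chart (M * q * q) A K (Chart3B.J3 M q hq hqM K)⁻¹) ∉ n →
      ¬ P 2 ≤ n → ¬ (P 0 ≤ n ∧ P 1 ≤ n)) :
    ∀ n : Ideal (chart (M * q * q) A K (Chart3B.J3 M q hq hqM K)⁻¹), n.IsMaximal →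
      algebraMap (OK A K) (chart (M * q * q) A K (Chart3B.J3 M q hq hqM K)⁻¹) π ∈ n →
      ∃ i : Fin 3, P i ≤ n ∧ ∃ g ∈ P i, ∀ y ∈ P i,
        ∃ s : chart (M * q * q) A K (Chart3B.J3 M q hq hqM K)⁻¹, s ∉ n ∧
          ∃ c : chart (M * q * q) A K (Chart3B.J3 M q hq hqM K)⁻¹, s * y = c * g := by
  have : Fact q.Prime := ⟨hq⟩
  have hnakInf := NakGlue.hnak_chart_inv (N := M * q * q) q hB (Chart3B.J3_ne_zero M q hq hqM K)
    hπ hyp0 hyp (fun i => hle0 i _ (Chart3B.J3_mem_chart M q hq hqM A K))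
    (fun i => hleInf i _ (Chart3B.J3_inv_mem_chart M q hq hqM A K)) hnak
  exact Princ3Cases.princ_of_cases (O := OK A K)
    (R := chart (M * q * q) A K (Chart3B.J3 M q hq hqM K)⁻¹) (E := FK (M * q * q) K)
    val hyp (GaussV.algebraMap_ne_zero (M * q * q) A K hπ.ne_zero) he0 he1
    (fun n => (⟨(Chart3B.J3 M q hq hqM K)⁻¹,
        ChartJ.self_mem_chart (M * q * q) A K (Chart3B.J3 M q hq hqM K)⁻¹⟩ :
      chart (M * q * q) A K (Chart3B.J3 M q hq hqM K)⁻¹) ∉ n)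
    (fun n hn _ hC h01 =>
      EtaB1Inst.hetaInf H hB.dvr hA hπ.ne_zero hex val hle0 hleInf hyp n hn hC h01)
    (fun n hn hπn hC h0 h1 h2 => hnakInf n hn hπn hC h0 h1 h2)
    hcusp2 hcusp01

/-! ### The binders of `Model3Top.model3` -/

section Record

variable (hB : BaseFacts q A K) (π : OK A K)

/-- the uniformizer family of record `![π, π, sE]` -/
local notation "WRec" => (![algebraMap (OK A K) (FK (M * q * q) K) π,
  algebraMap (OK A K) (FK (M * q * q) K) π, Wit3.sE M q hq hqM K] : Fin 3 → FK (M * q * q) K)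

/-- the valuation rings of record `![W1, W2, W3]` -/
local notation "VRec" => (![GaussV.V1 (M * q * q) A K hB.dvr,
  GaussV.V2 (WQ2.wK2 M q hq hqM K) hB.dvr, H.W3] :
    Fin 3 → ValuationSubring (FK (M * q * q) K))

/-- the vertical primes of `chart J3` -/
local notation "P0Rec" => Model3Asm.Pc (chart (M * q * q) A K (Chart3B.J3 M q hq hqM K))
  WRec VRec (Model3Top.le0 H hB.dvr)

/-- the vertical primes of `chart J3⁻¹` -/
local notation "PInfRec" => Model3Asm.Pc (chart (M * q * q) A K (Chart3B.J3 M q hq hqM K)⁻¹)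
  WRec VRec (Model3Top.leInf H hB.dvr)

variable {π}

/-- `ChartHyp3` of `chart J3` for the objects of record (from `Model3Top.loc`, `desc0`). -/
theorem chartHyp3_J3 (hA : A.LiesOverPrime q) (hπ : Irreducible π) (a : A)
    (hqa : (q : Qb) = incO A K π * (a : Qb))
    (hπϖ : ∃ u : A, IsUnit u ∧ incO A K π = incO A K' ϖ ^ (q - 1) * (u : Qb)) :
    ChartHyp3 π WRec VRec P0Rec := by
  have : Fact q.Prime := ⟨hq⟩
  have hC : ChartFacts M A K (chart M A K (jK M K)) (jK M K) :=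
    Red2B.chartFacts M q hq hqM A K hA hB
  exact Model3Asm.chartHyp3 _ π _ _ (Model3Top.le0 H hB.dvr)
    (GaussV.algebraMap_ne_zero (M * q * q) A K hπ.ne_zero)
    (Model3Top.loc H hB.dvr hA hC hπ a hqa hπϖ) (Model3Top.desc0 H hB.dvr hA hC hπ a hqa hπϖ)

/-- **The binder `hprinc0` of `Model3Top.model3`, VERBATIM**, from the eta unit and the
Nakayama input at the points of `P 2` only. -/
theorem hprinc0 (hA : A.LiesOverPrime q) (hπ : Irreducible π) (a : A)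
    (hqa : (q : Qb) = incO A K π * (a : Qb))
    (hπϖ : ∃ u : A, IsUnit u ∧ incO A K π = incO A K' ϖ ^ (q - 1) * (u : Qb))
    (hex : EtaB1Inst.EtaHyp M q hq hqM A K π)
    (hnak0 : ChartHyp3 π WRec VRec P0Rec →
      ∀ n : Ideal (chart (M * q * q) A K (Chart3B.J3 M q hq hqM K)), n.IsMaximal →
        algebraMap (OK A K) (chart (M * q * q) A K (Chart3B.J3 M q hq hqM K)) π ∈ n →
        ¬ P0Rec 0 ≤ n → ¬ P0Rec 1 ≤ n → P0Rec 2 ≤ n →
        ∃ i : Fin 3, P0Rec i ≤ n ∧ ∃ g ∈ P0Rec i, ∀ y ∈ P0Rec i,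
          ∃ s : chart (M * q * q) A K (Chart3B.J3 M q hq hqM K), s ∉ n ∧
            ∃ c : chart (M * q * q) A K (Chart3B.J3 M q hq hqM K), s * y = c * g) :
    ChartHyp3 π WRec VRec P0Rec →
      ∀ n : Ideal (chart (M * q * q) A K (Chart3B.J3 M q hq hqM K)), n.IsMaximal →
        algebraMap (OK A K) (chart (M * q * q) A K (Chart3B.J3 M q hq hqM K)) π ∈ n →
        ∃ i : Fin 3, P0Rec i ≤ n ∧ ∃ g ∈ P0Rec i, ∀ y ∈ P0Rec i,
          ∃ s : chart (M * q * q) A K (Chart3B.J3 M q hq hqM K), s ∉ n ∧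
            ∃ c : chart (M * q * q) A K (Chart3B.J3 M q hq hqM K), s * y = c * g :=
  fun hyp =>
    princ0_of H hB.dvr hA hπ.ne_zero hex (e := Model3Plan.ram q) rfl rfl
      (V3Wit.valHyp3 H hB.dvr hA hπ a hqa hπϖ) hyp (hnak0 hyp)

/-- **The binder `hprincInf` of `Model3Top.model3`, VERBATIM**; the two cusp inputs in the
literal `Princ3Cases.princ_of_cases` shape (`C n := J3⁻¹ ∉ n`). -/
theorem hprincInf' (hA : A.LiesOverPrime q) (hπ : Irreducible π) (a : A)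
    (hqa : (q : Qb) = incO A K π * (a : Qb))
    (hπϖ : ∃ u : A, IsUnit u ∧ incO A K π = incO A K' ϖ ^ (q - 1) * (u : Qb))
    (hex : EtaB1Inst.EtaHyp M q hq hqM A K π)
    (hnak0 : ChartHyp3 π WRec VRec P0Rec →
      ∀ n : Ideal (chart (M * q * q) A K (Chart3B.J3 M q hq hqM K)), n.IsMaximal →
        algebraMap (OK A K) (chart (M * q * q) A K (Chart3B.J3 M q hq hqM K)) π ∈ n →
        ¬ P0Rec 0 ≤ n → ¬ P0Rec 1 ≤ n → P0Rec 2 ≤ n →
        ∃ i : Fin 3, P0Rec i ≤ n ∧ ∃ g ∈ P0Rec i, ∀ y ∈ P0Rec i,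
          ∃ s : chart (M * q * q) A K (Chart3B.J3 M q hq hqM K), s ∉ n ∧
            ∃ c : chart (M * q * q) A K (Chart3B.J3 M q hq hqM K), s * y = c * g)
    (hcusp2 : ChartHyp3 π WRec VRec PInfRec →
      ∀ n : Ideal (chart (M * q * q) A K (Chart3B.J3 M q hq hqM K)⁻¹), n.IsMaximal →
        algebraMap (OK A K) (chart (M * q * q) A K (Chart3B.J3 M q hq hqM K)⁻¹) π ∈ n →
        ¬ (⟨(Chart3B.J3 M q hq hqM K)⁻¹,
            ChartJ.self_mem_chart (M * q * q) A K (Chart3B.J3 M q hq hqM K)⁻¹⟩ :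
          chart (M * q * q) A K (Chart3B.J3 M q hq hqM K)⁻¹) ∉ n → PInfRec 2 ≤ n →
        ∃ i : Fin 3, PInfRec i ≤ n ∧ ∃ g ∈ PInfRec i, ∀ y ∈ PInfRec i,
          ∃ s : chart (M * q * q) A K (Chart3B.J3 M q hq hqM K)⁻¹, s ∉ n ∧
            ∃ c : chart (M * q * q) A K (Chart3B.J3 M q hq hqM K)⁻¹, s * y = c * g)
    (hcusp01 : ChartHyp3 π WRec VRec PInfRec →
      ∀ n : Ideal (chart (M * q * q) A K (Chart3B.J3 M q hq hqM K)⁻¹), n.IsMaximal →
        algebraMap (OK A K) (chart (M * q * q) A K (Chart3B.J3 M q hq hqM K)⁻¹) π ∈ n →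
        ¬ (⟨(Chart3B.J3 M q hq hqM K)⁻¹,
            ChartJ.self_mem_chart (M * q * q) A K (Chart3B.J3 M q hq hqM K)⁻¹⟩ :
          chart (M * q * q) A K (Chart3B.J3 M q hq hqM K)⁻¹) ∉ n → ¬ PInfRec 2 ≤ n → ¬ (PInfRec 0 ≤ n ∧ PInfRec 1 ≤ n)) :
    ChartHyp3 π WRec VRec PInfRec →
      ∀ n : Ideal (chart (M * q * q) A K (Chart3B.J3 M q hq hqM K)⁻¹), n.IsMaximal →
        algebraMap (OK A K) (chart (M * q * q) A K (Chart3B.J3 M q hq hqM K)⁻¹) π ∈ n →
        ∃ i : Fin 3, PInfRec i ≤ n ∧ ∃ g ∈ PInfRec i, ∀ y ∈ PInfRec i,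
          ∃ s : chart (M * q * q) A K (Chart3B.J3 M q hq hqM K)⁻¹, s ∉ n ∧
            ∃ c : chart (M * q * q) A K (Chart3B.J3 M q hq hqM K)⁻¹, s * y = c * g :=
  fun hyp =>
    princInf_of H hA hB hπ hex (e := Model3Plan.ram q) rfl rfl
      (V3Wit.valHyp3 H hB.dvr hA hπ a hqa hπϖ) (Model3Top.le0 H hB.dvr)
      (Model3Top.leInf H hB.dvr) (chartHyp3_J3 H hB hA hπ a hqa hπϖ) hyp
      (hnak0 (chartHyp3_J3 H hB hA hπ a hqa hπϖ)) (hcusp2 hyp) (hcusp01 hyp)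

/-- **The binder `hprincInf` of `Model3Top.model3`, VERBATIM**; the two cusp inputs in positive
form (`J3⁻¹ ∈ n`). -/
theorem hprincInf (hA : A.LiesOverPrime q) (hπ : Irreducible π) (a : A)
    (hqa : (q : Qb) = incO A K π * (a : Qb))
    (hπϖ : ∃ u : A, IsUnit u ∧ incO A K π = incO A K' ϖ ^ (q - 1) * (u : Qb))
    (hex : EtaB1Inst.EtaHyp M q hq hqM A K π)
    (hnak0 : ChartHyp3 π WRec VRec P0Rec →
      ∀ n : Ideal (chart (M * q * q) A K (Chart3B.J3 M q hq hqM K)), n.IsMaximal →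
        algebraMap (OK A K) (chart (M * q * q) A K (Chart3B.J3 M q hq hqM K)) π ∈ n →
        ¬ P0Rec 0 ≤ n → ¬ P0Rec 1 ≤ n → P0Rec 2 ≤ n →
        ∃ i : Fin 3, P0Rec i ≤ n ∧ ∃ g ∈ P0Rec i, ∀ y ∈ P0Rec i,
          ∃ s : chart (M * q * q) A K (Chart3B.J3 M q hq hqM K), s ∉ n ∧
            ∃ c : chart (M * q * q) A K (Chart3B.J3 M q hq hqM K), s * y = c * g)
    (hcusp2 : ChartHyp3 π WRec VRec PInfRec →
      ∀ n : Ideal (chart (M * q * q) A K (Chart3B.J3 M q hq hqM K)⁻¹), n.IsMaximal →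
        algebraMap (OK A K) (chart (M * q * q) A K (Chart3B.J3 M q hq hqM K)⁻¹) π ∈ n →
        (⟨(Chart3B.J3 M q hq hqM K)⁻¹,
            ChartJ.self_mem_chart (M * q * q) A K (Chart3B.J3 M q hq hqM K)⁻¹⟩ :
          chart (M * q * q) A K (Chart3B.J3 M q hq hqM K)⁻¹) ∈ n → PInfRec 2 ≤ n →
        ∃ i : Fin 3, PInfRec i ≤ n ∧ ∃ g ∈ PInfRec i, ∀ y ∈ PInfRec i,
          ∃ s : chart (M * q * q) A K (Chart3B.J3 M q hq hqM K)⁻¹, s ∉ n ∧
            ∃ c : chart (M * q * q) A K (Chart3B.J3 M q hq hqM K)⁻¹, s * y = c * g)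
    (hcusp01 : ChartHyp3 π WRec VRec PInfRec →
      ∀ n : Ideal (chart (M * q * q) A K (Chart3B.J3 M q hq hqM K)⁻¹), n.IsMaximal →
        algebraMap (OK A K) (chart (M * q * q) A K (Chart3B.J3 M q hq hqM K)⁻¹) π ∈ n →
        (⟨(Chart3B.J3 M q hq hqM K)⁻¹,
            ChartJ.self_mem_chart (M * q * q) A K (Chart3B.J3 M q hq hqM K)⁻¹⟩ :
          chart (M * q * q) A K (Chart3B.J3 M q hq hqM K)⁻¹) ∈ n → ¬ PInfRec 2 ≤ n → ¬ (PInfRec 0 ≤ n ∧ PInfRec 1 ≤ n)) :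
    ChartHyp3 π WRec VRec PInfRec →
      ∀ n : Ideal (chart (M * q * q) A K (Chart3B.J3 M q hq hqM K)⁻¹), n.IsMaximal →
        algebraMap (OK A K) (chart (M * q * q) A K (Chart3B.J3 M q hq hqM K)⁻¹) π ∈ n →
        ∃ i : Fin 3, PInfRec i ≤ n ∧ ∃ g ∈ PInfRec i, ∀ y ∈ PInfRec i,
          ∃ s : chart (M * q * q) A K (Chart3B.J3 M q hq hqM K)⁻¹, s ∉ n ∧
            ∃ c : chart (M * q * q) A K (Chart3B.J3 M q hq hqM K)⁻¹, s * y = c * g :=
  hprincInf' H hB hA hπ a hqa hπϖ hex hnak0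
    (fun hyp n hn hπn hC h2 => hcusp2 hyp n hn hπn (not_not.mp hC) h2)
    (fun hyp n hn hπn hC h2 => hcusp01 hyp n hn hπn (not_not.mp hC) h2)

/-- **[MODEL3]** the model of record at level `M * q * q`, from the eta unit (`hex`), the
Nakayama input at the non-cuspidal points of `P 2` only on `chart J3` (`hnak0`), and the two
cusp inputs on `chart J3⁻¹` (`hcusp2` = [N10], `hcusp01` = [CUSP1]). -/
def model3 (hA : A.LiesOverPrime q) (hπ : Irreducible π) (a : A)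
    (hqa : (q : Qb) = incO A K π * (a : Qb))
    (hπϖ : ∃ u : A, IsUnit u ∧ incO A K π = incO A K' ϖ ^ (q - 1) * (u : Qb))
    (hex : EtaB1Inst.EtaHyp M q hq hqM A K π)
    (hnak0 : ChartHyp3 π WRec VRec P0Rec →
      ∀ n : Ideal (chart (M * q * q) A K (Chart3B.J3 M q hq hqM K)), n.IsMaximal →
        algebraMap (OK A K) (chart (M * q * q) A K (Chart3B.J3 M q hq hqM K)) π ∈ n →
        ¬ P0Rec 0 ≤ n → ¬ P0Rec 1 ≤ n → P0Rec 2 ≤ n →
        ∃ i : Fin 3, P0Rec i ≤ n ∧ ∃ g ∈ P0Rec i, ∀ y ∈ P0Rec i,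
          ∃ s : chart (M * q * q) A K (Chart3B.J3 M q hq hqM K), s ∉ n ∧
            ∃ c : chart (M * q * q) A K (Chart3B.J3 M q hq hqM K), s * y = c * g)
    (hcusp2 : ChartHyp3 π WRec VRec PInfRec →
      ∀ n : Ideal (chart (M * q * q) A K (Chart3B.J3 M q hq hqM K)⁻¹), n.IsMaximal →
        algebraMap (OK A K) (chart (M * q * q) A K (Chart3B.J3 M q hq hqM K)⁻¹) π ∈ n →
        (⟨(Chart3B.J3 M q hq hqM K)⁻¹,
            ChartJ.self_mem_chart (M * q * q) A K (Chart3B.J3 M q hq hqM K)⁻¹⟩ :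
          chart (M * q * q) A K (Chart3B.J3 M q hq hqM K)⁻¹) ∈ n → PInfRec 2 ≤ n →
        ∃ i : Fin 3, PInfRec i ≤ n ∧ ∃ g ∈ PInfRec i, ∀ y ∈ PInfRec i,
          ∃ s : chart (M * q * q) A K (Chart3B.J3 M q hq hqM K)⁻¹, s ∉ n ∧
            ∃ c : chart (M * q * q) A K (Chart3B.J3 M q hq hqM K)⁻¹, s * y = c * g)
    (hcusp01 : ChartHyp3 π WRec VRec PInfRec →
      ∀ n : Ideal (chart (M * q * q) A K (Chart3B.J3 M q hq hqM K)⁻¹), n.IsMaximal →
        algebraMap (OK A K) (chart (M * q * q) A K (Chart3B.J3 M q hq hqM K)⁻¹) π ∈ n →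
        (⟨(Chart3B.J3 M q hq hqM K)⁻¹,
            ChartJ.self_mem_chart (M * q * q) A K (Chart3B.J3 M q hq hqM K)⁻¹⟩ :
          chart (M * q * q) A K (Chart3B.J3 M q hq hqM K)⁻¹) ∈ n → ¬ PInfRec 2 ≤ n → ¬ (PInfRec 0 ≤ n ∧ PInfRec 1 ≤ n)) :
    Model3 (M * q * q) A K π (Model3Plan.ram q) WRec VRec (Chart3B.J3 M q hq hqM K) :=
  Model3Top.model3 H hA hB hπ a hqa hπϖ (hprinc0 H hB hA hπ a hqa hπϖ hex hnak0)
    (hprincInf H hB hA hπ a hqa hπϖ hex hnak0 hcusp2 hcusp01)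

end Record

end Fermat.Agent.S36.Model3PrincB

end
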