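/-
S36 — ChartTorInst.lean (helper22): adapter half (A1)+(A2) of (E2) [ASM36] (split agreed with
helper87, `S36/LocAsm3B.lean`): the hypotheses of the toric assembly `S36/ToricAsm.lean` from the
[MODEL3] interface `S36/Model3Plan.lean`.

For a chart `R` with `ChartHyp3 π ϖ V P` and the three valuation rings with `ValHyp3`, and
`T n i := P i ≤ n` ("the branch `i` passes through the closed point `n`"):

* `pi_not`, `le`, `near`, `far` : the fields of `ToricAsm.ChartTor` that are pure chart facts;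
* `TorIn R π V P q m G ηα ηβ`   : the HONEST inputs of the toric step on the chart `R`
                                  (`triple` = [INC3], `nf` = [HorGen3] + [LocG3],
                                  `relα`, `relβ` = [TOR-REL-INST]);
* `chartTor_of_chartHyp3`       : `ChartHyp3` + `ValHyp3` + `TorIn` ⟹ `ToricAsm.ChartTor`;
* `exists_corrector_form₂`      : `ToricAsm.exists_corrector` for two charts, `LocForm` output;
* `exists_corrector_of_chartHyp3` : the abstract two-chart statement over `ChartHyp3`;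
* `exists_corrector_of_model3`  : for a `Model3Plan.Model3`: ONE corrector `H` such that
  `G' := G ^ ((q+1)(q-1)) * H ^ m` satisfies `OneMod π V G'` and `AbsTopN.LocForm` at every closed
  point of the special fibre of `chart t` and `chart t⁻¹` — the three local conjuncts of
  `CoreAsm3.LocDataStatement`.

GLUE VARIANT (board [S36-gap] of helper117: the chart `t⁻¹` is not integral over the level-`q M`
charts, so the relations `relα`, `relβ` and the incidence `triple` can only be produced on the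
chart `t`):

* `ChartTorOn … D T`            : `ToricAsm.ChartTor` restricted to a set `D` of closed points;
* `exists_corrector_on`         : `ToricAsm.exists_corrector` for restricted charts;
* `TorInCusp R π V P m G D`     : the honest inputs at ONE-BRANCH points (`one`, `nf`);
* `exists_corrector_glue`, `exists_corrector_of_chartHyp3_glue`, `exists_corrector_of_model3_glue` :
  the full inputs `TorIn` on the chart `t`, the one-branch inputs `TorInCusp` on the chart `t⁻¹`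
  at the points of `D` (the cusps), and a transport of `LocForm` from the chart `t` to the other
  closed points of the chart `t⁻¹` (`S36/ChartGlue.lean`) — same conclusion.
-/
import Mathlib
import Fermat.Agent.S36.Model3Plan
import Fermat.Agent.S36.Sep3
import Fermat.Agent.S36.HorGen3
import Fermat.Agent.S36.SmoothFixN
import Fermat.Agent.S36.ToricAsm
import Fermat.Agent.S36.CoreAsm3

set_option autoImplicit false

open ModularCurve AlgebraicCurve HahnSeries

namespace Fermat.Agent.S36.ChartTorInst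

open Fermat.Agent.S36 Fermat.Agent.S36.Model3Plan

/-! ### Chart facts -/

section Abs

variable {O : Type*} [CommRing O] {E : Type*} [Field E] [Algebra O E]
  {R : Subalgebra O E} [IsFractionRing R E]
  {π : O} {p : E} {e : Fin 3 → ℕ} {ϖ : Fin 3 → E} {V : Fin 3 → ValuationSubring E}
  {P : Fin 3 → Ideal R}

omit [IsFractionRing R E] in
/-- A nonzero `p` is a non-unit of every `V i`. -/
theorem pi_not (hV : ValHyp3 p e ϖ V) (hp0 : p ≠ 0) (i : Fin 3) : p⁻¹ ∉ V i := by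
  intro h
  have h1 : (V i).valuation p < 1 := (Sep3.p_mem_nonunits hV i)
  have h2 : (V i).valuation p⁻¹ ≤ 1 := ((V i).valuation_le_one_iff _).2 h
  rw [map_inv₀] at h2
  have h3 : (V i).valuation p ≠ 0 := (Valuation.ne_zero_iff _).2 hp0
  have h4 : 1 ≤ (V i).valuation p := (inv_le_one₀ (zero_lt_iff.2 h3)).1 h2
  exact absurd h1 (not_lt.2 h4)

omit [IsFractionRing R E] in
/-- `R ⊆ V i`. -/
theorem le (hC : ChartHyp3 π ϖ V P) (i : Fin 3) : ∀ x ∈ R, x ∈ V i :=
  fun x hx => hC.le i ⟨x, hx⟩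

/-- `R_n ⊆ V i` for a branch through `n`. -/
theorem near (hV : ValHyp3 p e ϖ V) (hC : ChartHyp3 π ϖ V P) (n : Ideal R) (i : Fin 3)
    (hi : P i ≤ n) (y : E) (hy : ∃ s : R, s ∉ n ∧ ∃ r : R, (s : E) * y = (r : E)) :
    y ∈ V i := by
  obtain ⟨s, hs, r, hr⟩ := hy
  have hsP : s ∉ P i := fun h => hs (hi h)
  have h1 : ((s : R) : E)⁻¹ ∈ V i := HorGen3.inv_mem_of_notMem_P hV hC i hsP
  have hs0 : (s : E) ≠ 0 := by
    intro h0
    apply hs
    have : s = 0 := Subtype.ext h0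
    rw [this]
    exact n.zero_mem
  have h2 : y = (r : E) * ((s : R) : E)⁻¹ := by
    rw [← hr]
    field_simp
  rw [h2]
  exact mul_mem (hC.le i r) h1

/-- For a branch not through `n`: an element of `R ∖ n` whose powers kill the poles at `V i`. -/
theorem far (hV : ValHyp3 p e ϖ V) (hC : ChartHyp3 π ϖ V P) (n : Ideal R) (i : Fin 3)
    (hi : ¬ P i ≤ n) :
    ∃ s : R, s ∉ n ∧ ∀ x : E, ∃ k₀ : ℕ, ∀ k : ℕ, k₀ ≤ k → (s : E) ^ k * x ∈ V i := by
  obtain ⟨s, hsP, hsn⟩ := SetLike.not_le_iff_exists.1 hi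
  have hs0 : s ≠ 0 := fun h => hsn (h ▸ n.zero_mem)
  exact ⟨s, hsn, SmoothFixN.arch_of_disc (V i) (ϖ i) (hV.unif_mem i) (hV.disc i) (s : E)
    (HorGen3.inv_notMem_of_mem_P hV hC i hsP hs0)⟩

/-- **The honest inputs of the toric step on one chart** (`T n i := P i ≤ n`):

* `triple` : two branches through a closed point force all three ([INC3]);
* `nf`     : a normal form of `G` at every closed point of the special fibre
             ([HorGen3] + [LocG3]);
* `relα`, `relβ` : the two relations between the constants of any normal form at a triple point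
             ([TOR-REL-INST]: `ToricRel.rel` for the norms along `α` and `β`). -/
structure TorIn (R : Subalgebra O E) (π : O) (V : Fin 3 → ValuationSubring E)
    (P : Fin 3 → Ideal R) (q m : ℕ) (G : E) (ηα ηβ : Fin 2 → O) : Prop where
  triple : ∀ n : Ideal R, n.IsMaximal → algebraMap O R π ∈ n →
    ∀ i j, i ≠ j → P i ≤ n → P j ≤ n → ∀ l, P l ≤ n
  nf : ∀ n : Ideal R, n.IsMaximal → algebraMap O R π ∈ n →
    ∃ (g₀ : E) (γ : Fin 3 → O), ToricAsm.NF R π V m G n (fun i => P i ≤ n) g₀ γ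
  relα : ∀ n : Ideal R, n.IsMaximal → algebraMap O R π ∈ n → (∀ l, P l ≤ n) →
    ∀ (g₀ : E) (γ : Fin 3 → O), ToricAsm.NF R π V m G n (fun i => P i ≤ n) g₀ γ →
      π ∣ ηα 0 * γ 1 ^ q - ηα 1 * (γ 0 * γ 2 ^ (q - 1))
  relβ : ∀ n : Ideal R, n.IsMaximal → algebraMap O R π ∈ n → (∀ l, P l ≤ n) →
    ∀ (g₀ : E) (γ : Fin 3 → O), ToricAsm.NF R π V m G n (fun i => P i ≤ n) g₀ γ →
      π ∣ ηβ 0 * (γ 1 * γ 2 ^ (q - 1)) - ηβ 1 * γ 0 ^ q

/-- `ChartHyp3` + `ValHyp3` + the honest inputs give the bundle `ToricAsm.ChartTor`. -/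
theorem chartTor_of_chartHyp3 (hV : ValHyp3 p e ϖ V) (hC : ChartHyp3 π ϖ V P)
    {q m : ℕ} {G : E} {ηα ηβ : Fin 2 → O} (hin : TorIn R π V P q m G ηα ηβ) :
    ToricAsm.ChartTor R π V q m G ηα ηβ (fun n i => P i ≤ n) where
  frac := inferInstance
  le := le hC
  near := fun n _ _ i hi y hy => near hV hC n i hi y hy
  far := fun n _ _ i hi => far hV hC n i hi
  triple := hin.triple
  nf := hin.nf
  relα := hin.relα
  relβ := hin.relβ

end Abs

/-! ### Two charts -/

section Two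

variable {O : Type*} [CommRing O] [IsDomain O] [IsDiscreteValuationRing O]
  {E : Type*} [Field E] [Algebra O E]

/-- `ToricAsm.exists_corrector` for two charts, with the output in the shape `AbsTopN.LocForm`
(the shape consumed by `CoreAsm3.hypN_of_model3`). -/
theorem exists_corrector_form₂ (R0 Rinf : Subalgebra O E) (π : O) (hπ : Irreducible π)
    (V : Fin 3 → ValuationSubring E) {s : Fin 3 → E} (hS : ApproxN.Sep V s)
    (hπV : ∀ i, (algebraMap O E π)⁻¹ ∉ V i)
    (q m : ℕ) (hq : 0 < q) (hm : 0 < m) (G : E)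
    (hG : ∀ i, ∃ z ∈ V i, G - 1 = algebraMap O E π * z)
    (ηα ηβ : Fin 2 → O) (hηα : ¬ π ∣ ηα 0) (hηβ : ¬ π ∣ ηβ 0)
    (T0 : Ideal R0 → Fin 3 → Prop) (Tinf : Ideal Rinf → Fin 3 → Prop)
    (h0 : ToricAsm.ChartTor R0 π V q m G ηα ηβ T0)
    (hinf : ToricAsm.ChartTor Rinf π V q m G ηα ηβ Tinf) :
    ∃ H : E, H ≠ 0 ∧
      (∀ i, ∃ z ∈ V i, G ^ ((q + 1) * (q - 1)) * H ^ m - 1 = algebraMap O E π * z) ∧
      (∀ n : Ideal R0, n.IsMaximal → algebraMap O R0 π ∈ n →
        AbsTopN.LocForm R0 π V (G ^ ((q + 1) * (q - 1)) * H ^ m) m n) ∧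
      (∀ n : Ideal Rinf, n.IsMaximal → algebraMap O Rinf π ∈ n →
        AbsTopN.LocForm Rinf π V (G ^ ((q + 1) * (q - 1)) * H ^ m) m n) := by
  have hOV : ∀ i (x : O), algebraMap O E x ∈ V i := fun i x => h0.le i _ (R0.algebraMap_mem x)
  obtain ⟨H, hH0, hw, hloc⟩ := ToricAsm.exists_corrector (𝒞 := Bool)
    (fun b => Bool.rec Rinf R0 b) π hπ V hS hOV hπV q m hq hm G hG ηα ηβ hηα hηβ
    (fun b => Bool.rec (motive := fun b => Ideal ((Bool.rec Rinf R0 b : Subalgebra O E)) →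
      Fin 3 → Prop) Tinf T0 b)
    (fun b => by cases b; exacts [hinf, h0])
  exact ⟨H, hH0, hw, fun n hn hπn => hloc true n hn hπn, fun n hn hπn => hloc false n hn hπn⟩

/-- **The toric step over `ChartHyp3`** (abstract two-chart form). -/
theorem exists_corrector_of_chartHyp3 (R0 Rinf : Subalgebra O E)
    [IsFractionRing R0 E] [IsFractionRing Rinf E] (π : O) (hπ : Irreducible π)
    {e : Fin 3 → ℕ} {ϖ : Fin 3 → E} {V : Fin 3 → ValuationSubring E}
    (hV : ValHyp3 (algebraMap O E π) e ϖ V) (hp0 : algebraMap O E π ≠ 0)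
    {P0 : Fin 3 → Ideal R0} {Pinf : Fin 3 → Ideal Rinf}
    (hC0 : ChartHyp3 π ϖ V P0) (hCinf : ChartHyp3 π ϖ V Pinf)
    (q m : ℕ) (hq : 0 < q) (hm : 0 < m) (G : E)
    (hG : OneMod (algebraMap O E π) V G)
    (ηα ηβ : Fin 2 → O) (hηα : ¬ π ∣ ηα 0) (hηβ : ¬ π ∣ ηβ 0)
    (h0 : TorIn R0 π V P0 q m G ηα ηβ) (hinf : TorIn Rinf π V Pinf q m G ηα ηβ) :
    ∃ H : E, H ≠ 0 ∧
      OneMod (algebraMap O E π) V (G ^ ((q + 1) * (q - 1)) * H ^ m) ∧
      (∀ n : Ideal R0, n.IsMaximal → algebraMap O R0 π ∈ n →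
        AbsTopN.LocForm R0 π V (G ^ ((q + 1) * (q - 1)) * H ^ m) m n) ∧
      (∀ n : Ideal Rinf, n.IsMaximal → algebraMap O Rinf π ∈ n →
        AbsTopN.LocForm Rinf π V (G ^ ((q + 1) * (q - 1)) * H ^ m) m n) := by
  obtain ⟨s, hS⟩ := Sep3.sep_of_valHyp3 hV
  exact exists_corrector_form₂ R0 Rinf π hπ V hS (pi_not hV hp0) q m hq hm G hG ηα ηβ hηα hηβ
    _ _ (chartTor_of_chartHyp3 hV hC0 h0) (chartTor_of_chartHyp3 hV hCinf hinf)

end Two

/-! ### Restriction to a set of closed points, and glueing -/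

section On

variable {O : Type*} [CommRing O] [IsDomain O] [IsDiscreteValuationRing O]
  {E : Type*} [Field E] [Algebra O E]

/-- `ToricAsm.ChartTor` restricted to the closed points `n` with `D n`. -/
structure ChartTorOn (R : Subalgebra O E) (π : O) (V : Fin 3 → ValuationSubring E) (q m : ℕ)
    (G : E) (ηα ηβ : Fin 2 → O) (D : Ideal R → Prop) (T : Ideal R → Fin 3 → Prop) : Prop where
  frac : IsFractionRing R E
  le : ∀ i, ∀ x ∈ R, x ∈ V i
  near : ∀ n : Ideal R, n.IsMaximal → algebraMap O R π ∈ n → D n → ∀ i, T n i →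
    ∀ y : E, (∃ s : R, s ∉ n ∧ ∃ r : R, (s : E) * y = (r : E)) → y ∈ V i
  far : ∀ n : Ideal R, n.IsMaximal → algebraMap O R π ∈ n → D n → ∀ i, ¬ T n i →
    ∃ s : R, s ∉ n ∧ ∀ x : E, ∃ k₀ : ℕ, ∀ k : ℕ, k₀ ≤ k → (s : E) ^ k * x ∈ V i
  triple : ∀ n : Ideal R, n.IsMaximal → algebraMap O R π ∈ n → D n →
    ∀ i j, i ≠ j → T n i → T n j → ∀ l, T n l
  nf : ∀ n : Ideal R, n.IsMaximal → algebraMap O R π ∈ n → D n →
    ∃ (g₀ : E) (γ : Fin 3 → O), ToricAsm.NF R π V m G n (T n) g₀ γ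
  relα : ∀ n : Ideal R, n.IsMaximal → algebraMap O R π ∈ n → D n → (∀ l, T n l) →
    ∀ (g₀ : E) (γ : Fin 3 → O), ToricAsm.NF R π V m G n (T n) g₀ γ →
      π ∣ ηα 0 * γ 1 ^ q - ηα 1 * (γ 0 * γ 2 ^ (q - 1))
  relβ : ∀ n : Ideal R, n.IsMaximal → algebraMap O R π ∈ n → D n → (∀ l, T n l) →
    ∀ (g₀ : E) (γ : Fin 3 → O), ToricAsm.NF R π V m G n (T n) g₀ γ →
      π ∣ ηβ 0 * (γ 1 * γ 2 ^ (q - 1)) - ηβ 1 * γ 0 ^ q

omit [IsDomain O] [IsDiscreteValuationRing O] in
/-- The unrestricted bundle is the case `D = True`. -/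
theorem ChartTorOn.of_chartTor {R : Subalgebra O E} {π : O} {V : Fin 3 → ValuationSubring E}
    {q m : ℕ} {G : E} {ηα ηβ : Fin 2 → O} {T : Ideal R → Fin 3 → Prop}
    (h : ToricAsm.ChartTor R π V q m G ηα ηβ T) :
    ChartTorOn R π V q m G ηα ηβ (fun _ => True) T where
  frac := h.frac
  le := h.le
  near := fun n hn hπn _ => h.near n hn hπn
  far := fun n hn hπn _ => h.far n hn hπn
  triple := fun n hn hπn _ => h.triple n hn hπn
  nf := fun n hn hπn _ => h.nf n hn hπn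
  relα := fun n hn hπn _ => h.relα n hn hπn
  relβ := fun n hn hπn _ => h.relβ n hn hπn

/-- **[TOR-ASM] for a family of charts with prescribed sets of closed points**: one corrector
`H`; `AbsTopN.LocForm` of `G ^ ((q+1)(q-1)) * H ^ m` at every closed point `n` with `D c n`. -/
theorem exists_corrector_on {𝒞 : Type*} (R : 𝒞 → Subalgebra O E) (π : O) (hπ : Irreducible π)
    (V : Fin 3 → ValuationSubring E) {s : Fin 3 → E} (hS : ApproxN.Sep V s)
    (hOV : ∀ i (x : O), algebraMap O E x ∈ V i) (hπV : ∀ i, (algebraMap O E π)⁻¹ ∉ V i)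
    (q m : ℕ) (hq : 0 < q) (hm : 0 < m) (G : E)
    (hG : ∀ i, ∃ z ∈ V i, G - 1 = algebraMap O E π * z)
    (ηα ηβ : Fin 2 → O) (hηα : ¬ π ∣ ηα 0) (hηβ : ¬ π ∣ ηβ 0)
    (D : ∀ c, Ideal (R c) → Prop) (T : ∀ c, Ideal (R c) → Fin 3 → Prop)
    (hC : ∀ c, ChartTorOn (R c) π V q m G ηα ηβ (D c) (T c)) :
    ∃ H : E, H ≠ 0 ∧
      (∀ i, ∃ z ∈ V i, G ^ ((q + 1) * (q - 1)) * H ^ m - 1 = algebraMap O E π * z) ∧
      ∀ (c : 𝒞) (n : Ideal (R c)), n.IsMaximal → algebraMap O (R c) π ∈ n → D c n →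
        AbsTopN.LocForm (R c) π V (G ^ ((q + 1) * (q - 1)) * H ^ m) m n := by
  classical
  let P : (Fin 3 → Prop) → (Fin 3 → O) → Prop := fun T' γ =>
    ∃ (c : 𝒞) (n : Ideal (R c)), n.IsMaximal ∧ algebraMap O (R c) π ∈ n ∧ D c n ∧ T' = T c n ∧
      ∃ g₀ : E, ToricAsm.NF (R c) π V m G n (T c n) g₀ γ
  obtain ⟨cst, hcst, hκ⟩ := ToricAsm.exists_consts π hπ q m hq hm P
    (by
      rintro T' γ ⟨c, n, hn, hπn, hD, rfl, g₀, hNF⟩ i hi
      exact hNF.dvd_pow_sub_one (R c) hπ hOV hπV ((hC c).near n hn hπn hD) hG i hi)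
    (by
      rintro T' γ ⟨c, n, hn, hπn, hD, rfl, g₀, hNF⟩ i j hij hi hj
      exact (hC c).triple n hn hπn hD i j hij hi hj)
    ηα ηβ hηα hηβ
    (by
      rintro T' γ ⟨c, n, hn, hπn, hD, rfl, g₀, hNF⟩ hT
      exact (hC c).relα n hn hπn hD hT g₀ γ hNF)
    (by
      rintro T' γ ⟨c, n, hn, hπn, hD, rfl, g₀, hNF⟩ hT
      exact (hC c).relβ n hn hπn hD hT g₀ γ hNF)
  obtain ⟨H, hH0, hH, hw⟩ :=
    ToricAsm.exists_H π V hS hOV hπV m ((q + 1) * (q - 1)) hm G hG cst hcst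
  refine ⟨H, hH0, hw, ?_⟩
  intro c n hn hπn hD
  obtain ⟨g₀, γ, hNF⟩ := (hC c).nf n hn hπn hD
  obtain ⟨κ, hκm, hκi⟩ := hκ (T c n) γ ⟨c, n, hn, hπn, hD, rfl, g₀, hNF⟩
  have := (hC c).frac
  exact ToricAsm.locForm_of_nf (R c) hm ((q + 1) * (q - 1)) hn.isPrime hπn (hC c).le hπV
    ((hC c).near n hn hπn hD) ((hC c).far n hn hπn hD) hNF H hH0 cst hH κ hκm hκi

/-- **[TOR-ASM] with glueing**: the full toric inputs on the chart `R0`; on the chart `Rinf` the
inputs only at the closed points of `D` (the cusps), and for the other closed points of `Rinf` a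
transport of the local form from a closed point of `R0` (`S36/ChartGlue.lean`). -/
theorem exists_corrector_glue (R0 Rinf : Subalgebra O E) (π : O) (hπ : Irreducible π)
    (V : Fin 3 → ValuationSubring E) {s : Fin 3 → E} (hS : ApproxN.Sep V s)
    (hπV : ∀ i, (algebraMap O E π)⁻¹ ∉ V i)
    (q m : ℕ) (hq : 0 < q) (hm : 0 < m) (G : E)
    (hG : ∀ i, ∃ z ∈ V i, G - 1 = algebraMap O E π * z)
    (ηα ηβ : Fin 2 → O) (hηα : ¬ π ∣ ηα 0) (hηβ : ¬ π ∣ ηβ 0)
    (T0 : Ideal R0 → Fin 3 → Prop) (Tinf : Ideal Rinf → Fin 3 → Prop) (D : Ideal Rinf → Prop)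
    (h0 : ToricAsm.ChartTor R0 π V q m G ηα ηβ T0)
    (hinf : ChartTorOn Rinf π V q m G ηα ηβ D Tinf)
    (hglue : ∀ n : Ideal Rinf, n.IsMaximal → algebraMap O Rinf π ∈ n → ¬ D n →
      ∃ n0 : Ideal R0, n0.IsMaximal ∧ algebraMap O R0 π ∈ n0 ∧
        ∀ w : E, AbsTopN.LocForm R0 π V w m n0 → AbsTopN.LocForm Rinf π V w m n) :
    ∃ H : E, H ≠ 0 ∧
      (∀ i, ∃ z ∈ V i, G ^ ((q + 1) * (q - 1)) * H ^ m - 1 = algebraMap O E π * z) ∧
      (∀ n : Ideal R0, n.IsMaximal → algebraMap O R0 π ∈ n →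
        AbsTopN.LocForm R0 π V (G ^ ((q + 1) * (q - 1)) * H ^ m) m n) ∧
      (∀ n : Ideal Rinf, n.IsMaximal → algebraMap O Rinf π ∈ n →
        AbsTopN.LocForm Rinf π V (G ^ ((q + 1) * (q - 1)) * H ^ m) m n) := by
  classical
  have hOV : ∀ i (x : O), algebraMap O E x ∈ V i := fun i x => h0.le i _ (R0.algebraMap_mem x)
  obtain ⟨H, hH0, hw, hloc⟩ := exists_corrector_on (𝒞 := Bool)
    (fun b => Bool.rec Rinf R0 b) π hπ V hS hOV hπV q m hq hm G hG ηα ηβ hηα hηβ
    (fun b => Bool.rec (motive := fun b => Ideal ((Bool.rec Rinf R0 b : Subalgebra O E)) → Prop)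
      D (fun _ => True) b)
    (fun b => Bool.rec (motive := fun b => Ideal ((Bool.rec Rinf R0 b : Subalgebra O E)) →
      Fin 3 → Prop) Tinf T0 b)
    (fun b => by cases b; exacts [hinf, ChartTorOn.of_chartTor h0])
  have hloc0 : ∀ n : Ideal R0, n.IsMaximal → algebraMap O R0 π ∈ n →
      AbsTopN.LocForm R0 π V (G ^ ((q + 1) * (q - 1)) * H ^ m) m n :=
    fun n hn hπn => hloc true n hn hπn trivial
  refine ⟨H, hH0, hw, hloc0, ?_⟩
  intro n hn hπn
  by_cases hD : D n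
  · exact hloc false n hn hπn hD
  · obtain ⟨n0, hn0, hπn0, htr⟩ := hglue n hn hπn hD
    exact htr _ (hloc0 n0 hn0 hπn0)

end On

section AbsCusp

variable {O : Type*} [CommRing O] {E : Type*} [Field E] [Algebra O E]

/-- **The honest inputs of the toric step at one-branch closed points** (the points of `D`, in
the application the cusps of the chart `t⁻¹`): exactly one branch through the point, and a normal
form of `G`. -/
structure TorInCusp (R : Subalgebra O E) (π : O) (V : Fin 3 → ValuationSubring E)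
    (P : Fin 3 → Ideal R) (m : ℕ) (G : E) (D : Ideal R → Prop) : Prop where
  one : ∀ n : Ideal R, n.IsMaximal → algebraMap O R π ∈ n → D n →
    ∀ i j, P i ≤ n → P j ≤ n → i = j
  nf : ∀ n : Ideal R, n.IsMaximal → algebraMap O R π ∈ n → D n →
    ∃ (g₀ : E) (γ : Fin 3 → O), ToricAsm.NF R π V m G n (fun i => P i ≤ n) g₀ γ

/-- `ChartHyp3` + `ValHyp3` + the one-branch inputs give the restricted bundle (the relations
are vacuous). -/
theorem chartTorOn_of_cusp {R : Subalgebra O E} [IsFractionRing R E] {π : O} {p : E}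
    {e : Fin 3 → ℕ} {ϖ : Fin 3 → E} {V : Fin 3 → ValuationSubring E} {P : Fin 3 → Ideal R}
    (hV : ValHyp3 p e ϖ V) (hC : ChartHyp3 π ϖ V P)
    {m : ℕ} {G : E} {D : Ideal R → Prop} (hin : TorInCusp R π V P m G D)
    (q : ℕ) (ηα ηβ : Fin 2 → O) :
    ChartTorOn R π V q m G ηα ηβ D (fun n i => P i ≤ n) where
  frac := inferInstance
  le := le hC
  near := fun n _ _ _ i hi y hy => near hV hC n i hi y hy
  far := fun n _ _ _ i hi => far hV hC n i hi
  triple := fun n hn hπn hD i j hij hi hj => absurd (hin.one n hn hπn hD i j hi hj) hij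
  nf := hin.nf
  relα := fun n hn hπn hD hT _ _ _ =>
    absurd (hin.one n hn hπn hD 0 1 (hT 0) (hT 1)) (by decide)
  relβ := fun n hn hπn hD hT _ _ _ =>
    absurd (hin.one n hn hπn hD 0 1 (hT 0) (hT 1)) (by decide)

end AbsCusp

section TwoGlue

variable {O : Type*} [CommRing O] [IsDomain O] [IsDiscreteValuationRing O]
  {E : Type*} [Field E] [Algebra O E]

/-- **The toric step over `ChartHyp3`, with glueing** (abstract two-chart form). -/
theorem exists_corrector_of_chartHyp3_glue (R0 Rinf : Subalgebra O E)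
    [IsFractionRing R0 E] [IsFractionRing Rinf E] (π : O) (hπ : Irreducible π)
    {e : Fin 3 → ℕ} {ϖ : Fin 3 → E} {V : Fin 3 → ValuationSubring E}
    (hV : ValHyp3 (algebraMap O E π) e ϖ V) (hp0 : algebraMap O E π ≠ 0)
    {P0 : Fin 3 → Ideal R0} {Pinf : Fin 3 → Ideal Rinf}
    (hC0 : ChartHyp3 π ϖ V P0) (hCinf : ChartHyp3 π ϖ V Pinf)
    (q m : ℕ) (hq : 0 < q) (hm : 0 < m) (G : E)
    (hG : OneMod (algebraMap O E π) V G)
    (ηα ηβ : Fin 2 → O) (hηα : ¬ π ∣ ηα 0) (hηβ : ¬ π ∣ ηβ 0)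
    (h0 : TorIn R0 π V P0 q m G ηα ηβ)
    (D : Ideal Rinf → Prop) (hinf : TorInCusp Rinf π V Pinf m G D)
    (hglue : ∀ n : Ideal Rinf, n.IsMaximal → algebraMap O Rinf π ∈ n → ¬ D n →
      ∃ n0 : Ideal R0, n0.IsMaximal ∧ algebraMap O R0 π ∈ n0 ∧
        ∀ w : E, AbsTopN.LocForm R0 π V w m n0 → AbsTopN.LocForm Rinf π V w m n) :
    ∃ H : E, H ≠ 0 ∧
      OneMod (algebraMap O E π) V (G ^ ((q + 1) * (q - 1)) * H ^ m) ∧
      (∀ n : Ideal R0, n.IsMaximal → algebraMap O R0 π ∈ n →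
        AbsTopN.LocForm R0 π V (G ^ ((q + 1) * (q - 1)) * H ^ m) m n) ∧
      (∀ n : Ideal Rinf, n.IsMaximal → algebraMap O Rinf π ∈ n →
        AbsTopN.LocForm Rinf π V (G ^ ((q + 1) * (q - 1)) * H ^ m) m n) := by
  obtain ⟨s, hS⟩ := Sep3.sep_of_valHyp3 hV
  exact exists_corrector_glue R0 Rinf π hπ V hS (pi_not hV hp0) q m hq hm G hG ηα ηβ hηα hηβ
    _ _ D (chartTor_of_chartHyp3 hV hC0 h0) (chartTorOn_of_cusp hV hCinf hinf q ηα ηβ) hglue

end TwoGlue

/-! ### The model -/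

section Model

open Fermat.Agent.S18.Arith

variable {N : ℕ} [NeZero N] {A : ValuationSubring Qb} {K : IntermediateField ℚ Qb}
  [IsDiscreteValuationRing (OK A K)] {π : OK A K} {e : Fin 3 → ℕ} {ϖ : Fin 3 → FK N K}
  {V : Fin 3 → ValuationSubring (FK N K)} {t : FK N K}

/-- **[TORIC36] + [LOC36] + [FIX3] for a model.**  Given the honest inputs `TorIn` on both charts
(`triple`, `nf`, `relα`, `relβ`), ONE corrector `H`: the function
`G' := G ^ ((q+1)(q-1)) * H ^ m` is `≡ 1` modulo `π V` and has the local form `AbsTopN.LocForm`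
at every closed point of the special fibre of both charts — the local conjuncts of
`CoreAsm3.LocDataStatement`. -/
theorem exists_corrector_of_model3 (Md : Model3 N A K π e ϖ V t) (q m : ℕ) (hq : 0 < q)
    (hm : 0 < m) (G : FK N K) (hG : OneMod (algebraMap (OK A K) (FK N K) π) V G)
    (ηα ηβ : Fin 2 → OK A K) (hηα : ¬ π ∣ ηα 0) (hηβ : ¬ π ∣ ηβ 0)
    (h0 : TorIn (chart N A K t) π V Md.c0.P q m G ηα ηβ)
    (hinf : TorIn (chart N A K t⁻¹) π V Md.cInf.P q m G ηα ηβ) :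
    ∃ H : FK N K, H ≠ 0 ∧
      OneMod (algebraMap (OK A K) (FK N K) π) V (G ^ ((q + 1) * (q - 1)) * H ^ m) ∧
      (∀ n : Ideal (chart N A K t), n.IsMaximal →
        algebraMap (OK A K) (chart N A K t) π ∈ n →
        AbsTopN.LocForm (chart N A K t) π V (G ^ ((q + 1) * (q - 1)) * H ^ m) m n) ∧
      (∀ n : Ideal (chart N A K t⁻¹), n.IsMaximal →
        algebraMap (OK A K) (chart N A K t⁻¹) π ∈ n →
        AbsTopN.LocForm (chart N A K t⁻¹) π V (G ^ ((q + 1) * (q - 1)) * H ^ m) m n) := by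
  have := Md.c0.frac
  have := Md.cInf.frac
  exact exists_corrector_of_chartHyp3 (chart N A K t) (chart N A K t⁻¹) π Md.irr Md.val
    (CoreAsm3.pi_ne_zero Md) Md.c0.hyp Md.cInf.hyp q m hq hm G hG ηα ηβ hηα hηβ h0 hinf

/-- **[TORIC36] + [LOC36] + [FIX3] for a model, with glueing.**  The full inputs `TorIn` on the
chart `t` (= all the non-cuspidal closed points), the one-branch inputs `TorInCusp` at the
closed points `D` of the chart `t⁻¹` (the cusps), and for the other closed points of the chart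
`t⁻¹` a transport of the local form from the chart `t` (`S36/ChartGlue.lean`).  Same conclusion
as `exists_corrector_of_model3`. -/
theorem exists_corrector_of_model3_glue (Md : Model3 N A K π e ϖ V t) (q m : ℕ) (hq : 0 < q)
    (hm : 0 < m) (G : FK N K) (hG : OneMod (algebraMap (OK A K) (FK N K) π) V G)
    (ηα ηβ : Fin 2 → OK A K) (hηα : ¬ π ∣ ηα 0) (hηβ : ¬ π ∣ ηβ 0)
    (h0 : TorIn (chart N A K t) π V Md.c0.P q m G ηα ηβ)
    (D : Ideal (chart N A K t⁻¹) → Prop)
    (hinf : TorInCusp (chart N A K t⁻¹) π V Md.cInf.P m G D)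
    (hglue : ∀ n : Ideal (chart N A K t⁻¹), n.IsMaximal →
      algebraMap (OK A K) (chart N A K t⁻¹) π ∈ n → ¬ D n →
      ∃ n0 : Ideal (chart N A K t), n0.IsMaximal ∧ algebraMap (OK A K) (chart N A K t) π ∈ n0 ∧
        ∀ w : FK N K, AbsTopN.LocForm (chart N A K t) π V w m n0 →
          AbsTopN.LocForm (chart N A K t⁻¹) π V w m n) :
    ∃ H : FK N K, H ≠ 0 ∧
      OneMod (algebraMap (OK A K) (FK N K) π) V (G ^ ((q + 1) * (q - 1)) * H ^ m) ∧
      (∀ n : Ideal (chart N A K t), n.IsMaximal →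
        algebraMap (OK A K) (chart N A K t) π ∈ n →
        AbsTopN.LocForm (chart N A K t) π V (G ^ ((q + 1) * (q - 1)) * H ^ m) m n) ∧
      (∀ n : Ideal (chart N A K t⁻¹), n.IsMaximal →
        algebraMap (OK A K) (chart N A K t⁻¹) π ∈ n →
        AbsTopN.LocForm (chart N A K t⁻¹) π V (G ^ ((q + 1) * (q - 1)) * H ^ m) m n) := by
  have := Md.c0.frac
  have := Md.cInf.frac
  exact exists_corrector_of_chartHyp3_glue (chart N A K t) (chart N A K t⁻¹) π Md.irr Md.val
    (CoreAsm3.pi_ne_zero Md) Md.c0.hyp Md.cInf.hyp q m hq hm G hG ηα ηβ hηα hηβ h0 D hinf hglue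

end Model

end Fermat.Agent.S36.ChartTorInst
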