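import Mathlib

/-!
# S36, abstract block (B1): primes avoiding a "smooth" element are principal

Mathlib-only.  `R` is a noetherian local ring and `g` lies in its maximal ideal.

* `exists_eq_span_of_notMem` **(F1)**: if every ideal of `R ⧸ (g)` is principal (for instance
  `R ⧸ (g)` is a discrete valuation ring), then every prime ideal `Q` with `g ∉ Q` is principal.
  No domain hypothesis, no rationality of the residue ring of `Q`, no regularity, no completion.
* `isPrincipalIdealRing_quotient_of_span_pair`: if the maximal ideal is `(g, t)` and `(g)` is a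
  prime ideal, then `R ⧸ (g)` is a principal ideal ring (the input of (F1) at a regular point).
* `exists_eq_span_of_span_pair`: (F1) at a point whose maximal ideal is `(g, t)`, `(g)` prime.
* `ufd_of_quotient`: a noetherian local domain with a prime element `g` in the maximal ideal and
  `R ⧸ (g)` a principal ideal ring is a unique factorisation domain (Kaplansky's criterion).
* `exists_prime_factor_of_notMem`: in the situation of (F1) over a domain, the generator of a
  nonzero prime `Q ∌ g` is a prime element.

Intended use (S36, lead's (B1)): `R = R_n` the local ring of the normal model at a closed point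
`n`, `g` a generator of one vertical prime with `R_n ⧸ (g)` a DVR (`g = π` at one-branch points of
`W1`, `W2`; `g = f(q²z) − f(z)` at one-branch points of `W3`; `g =` the generator of `P1` at
triple points): every horizontal prime through `n` is principal in `R_n`, with constant `1`.
-/

set_option autoImplicit false

namespace Fermat.Agent.S36.PrinPrime

open IsLocalRing

variable {R : Type*} [CommRing R]

/-- **(F1).**  `R` noetherian local, `g` in the maximal ideal, every ideal of `R ⧸ (g)`
principal; then every prime `Q` with `g ∉ Q` is principal. -/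
theorem exists_eq_span_of_notMem [IsNoetherianRing R] [IsLocalRing R] (g : R)
    (hg : g ∈ maximalIdeal R) [IsPrincipalIdealRing (R ⧸ Ideal.span {g})]
    (Q : Ideal R) [hQ : Q.IsPrime] (hgQ : g ∉ Q) : ∃ e ∈ Q, Q = Ideal.span {e} := by
  have hsurj : Function.Surjective (Ideal.Quotient.mk (Ideal.span {g})) :=
    Ideal.Quotient.mk_surjective
  obtain ⟨ebar, hebar⟩ := (IsPrincipalIdealRing.principal
    (Q.map (Ideal.Quotient.mk (Ideal.span {g})))).principal
  have hemem : ebar ∈ Q.map (Ideal.Quotient.mk (Ideal.span {g})) := by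
    rw [hebar]; exact Submodule.mem_span_singleton_self ebar
  obtain ⟨e, he, rfl⟩ := (Ideal.mem_map_iff_of_surjective _ hsurj).mp hemem
  have hle : Q ≤ Ideal.span {e} ⊔ (Ideal.span {g} : Ideal R) • Q := by
    intro y hy
    have hy' : Ideal.Quotient.mk (Ideal.span {g}) y ∈
        Q.map (Ideal.Quotient.mk (Ideal.span {g})) := Ideal.mem_map_of_mem _ hy
    rw [hebar] at hy'
    obtain ⟨abar, ha⟩ := Ideal.mem_span_singleton'.mp hy'
    obtain ⟨a, rfl⟩ := hsurj abar
    have h1 : y - a * e ∈ Ideal.span {g} := by
      rw [← Ideal.Quotient.eq_zero_iff_mem, map_sub, map_mul, ha, sub_self]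
    obtain ⟨b, hb⟩ := Ideal.mem_span_singleton'.mp h1
    have hbQ : b ∈ Q := by
      have h2 : b * g ∈ Q := by
        rw [hb]
        exact Ideal.sub_mem _ hy (Ideal.mul_mem_left _ _ he)
      exact (hQ.mem_or_mem h2).resolve_right hgQ
    have h3 : y = a * e + g * b := by rw [mul_comm g b, hb]; ring
    rw [h3]
    refine Submodule.add_mem_sup (Ideal.mul_mem_left _ _ (Ideal.mem_span_singleton_self e)) ?_
    rw [smul_eq_mul]
    exact Ideal.mul_mem_mul (Ideal.mem_span_singleton_self g) hbQ
  have hgm : (Ideal.span {g} : Ideal R) ≤ Ideal.jacobson ⊥ := by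
    rw [IsLocalRing.jacobson_eq_maximalIdeal ⊥ bot_ne_top, Ideal.span_le]
    intro x hx
    rw [Set.mem_singleton_iff] at hx
    rw [hx]; exact hg
  have hQe : Q ≤ Ideal.span {e} :=
    Submodule.le_of_le_smul_of_le_jacobson_bot (IsNoetherian.noetherian Q) hgm hle
  exact ⟨e, he, le_antisymm hQe ((Ideal.span_singleton_le_iff_mem Q).mpr he)⟩

/-- In the situation of (F1) over a domain, a nonzero prime `Q ∌ g` is generated by a prime
element. -/
theorem exists_prime_factor_of_notMem [IsDomain R] [IsNoetherianRing R] [IsLocalRing R] (g : R)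
    (hg : g ∈ maximalIdeal R) [IsPrincipalIdealRing (R ⧸ Ideal.span {g})]
    (Q : Ideal R) [hQ : Q.IsPrime] (hQ0 : Q ≠ ⊥) (hgQ : g ∉ Q) :
    ∃ e : R, Prime e ∧ Q = Ideal.span {e} := by
  obtain ⟨e, -, hQe⟩ := exists_eq_span_of_notMem g hg Q hgQ
  have he0 : e ≠ 0 := by
    rintro rfl
    apply hQ0
    rw [hQe]
    simp
  exact ⟨e, (Ideal.span_singleton_prime he0).mp (hQe ▸ hQ), hQe⟩

/-- If the maximal ideal of the local ring `R` is `(g, t)`, the maximal ideal of `R ⧸ (g)` is
generated by the class of `t`. -/
theorem maximalIdeal_quotient_eq [IsLocalRing R] (g t : R)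
    (hm : maximalIdeal R = Ideal.span {g, t}) [IsLocalRing (R ⧸ Ideal.span {g})] :
    maximalIdeal (R ⧸ Ideal.span {g}) = Ideal.span {Ideal.Quotient.mk (Ideal.span {g}) t} := by
  have hsurj : Function.Surjective (Ideal.Quotient.mk (Ideal.span {g})) :=
    Ideal.Quotient.mk_surjective
  have h0 : Ideal.Quotient.mk (Ideal.span {g}) g = 0 :=
    Ideal.Quotient.eq_zero_iff_mem.mpr (Ideal.mem_span_singleton_self g)
  apply le_antisymm
  · intro xbar hx
    obtain ⟨x, rfl⟩ := hsurj xbar
    have hxm : x ∈ maximalIdeal R := by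
      by_contra hxn
      have hu : IsUnit x := by
        by_contra hnu
        exact hxn ((IsLocalRing.mem_maximalIdeal x).mpr hnu)
      exact (IsLocalRing.mem_maximalIdeal _).mp hx (hu.map _)
    rw [hm, Ideal.mem_span_pair] at hxm
    obtain ⟨a, b, rfl⟩ := hxm
    rw [map_add, map_mul, map_mul, h0, mul_zero, zero_add]
    exact Ideal.mul_mem_left _ _ (Ideal.mem_span_singleton_self _)
  · rw [Ideal.span_le]
    intro x hx
    rw [Set.mem_singleton_iff] at hx
    rw [hx]
    have htm : t ∈ maximalIdeal R := by
      rw [hm]; exact Ideal.subset_span (by simp)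
    rw [SetLike.mem_coe, IsLocalRing.mem_maximalIdeal]
    intro hu
    obtain ⟨ybar, hy⟩ := hu.exists_right_inv
    obtain ⟨y, rfl⟩ := hsurj ybar
    have h1 : t * y - 1 ∈ Ideal.span {g} := by
      rw [← Ideal.Quotient.eq_zero_iff_mem, map_sub, map_mul, hy, map_one, sub_self]
    have hgm : g ∈ maximalIdeal R := by
      rw [hm]; exact Ideal.subset_span (by simp)
    have h2 : t * y - 1 ∈ maximalIdeal R :=
      (Ideal.span_singleton_le_iff_mem _).mpr hgm h1
    have h3 : (1 : R) ∈ maximalIdeal R := by
      have h4 := Ideal.sub_mem _ (Ideal.mul_mem_right y _ htm) h2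
      rwa [sub_sub_cancel] at h4
    exact (Ideal.ne_top_iff_one _).mp (maximalIdeal.isMaximal R).ne_top h3

/-- If the maximal ideal of the noetherian local ring `R` is `(g, t)` and `(g)` is a prime ideal,
then `R ⧸ (g)` is a principal ideal ring (a field or a discrete valuation ring). -/
theorem isPrincipalIdealRing_quotient_of_span_pair [IsNoetherianRing R] [IsLocalRing R] (g t : R)
    (hm : maximalIdeal R = Ideal.span {g, t}) (hgp : (Ideal.span {g} : Ideal R).IsPrime) :
    IsPrincipalIdealRing (R ⧸ Ideal.span {g}) := by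
  have : IsDomain (R ⧸ Ideal.span {g}) := Ideal.Quotient.isDomain _
  have : IsLocalRing (R ⧸ Ideal.span {g}) :=
    IsLocalRing.of_surjective' (Ideal.Quotient.mk (Ideal.span {g})) Ideal.Quotient.mk_surjective
  have h : (maximalIdeal (R ⧸ Ideal.span {g})).IsPrincipal :=
    ⟨⟨_, maximalIdeal_quotient_eq g t hm⟩⟩
  exact ((tfae_of_isNoetherianRing_of_isLocalRing_of_isDomain (R ⧸ Ideal.span {g})).out 4 0).mp h

/-- (F1) at a point whose maximal ideal is `(g, t)` with `(g)` prime: every prime `Q ∌ g` is
principal. -/
theorem exists_eq_span_of_span_pair [IsNoetherianRing R] [IsLocalRing R] (g t : R)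
    (hm : maximalIdeal R = Ideal.span {g, t}) (hgp : (Ideal.span {g} : Ideal R).IsPrime)
    (Q : Ideal R) [Q.IsPrime] (hgQ : g ∉ Q) : ∃ e ∈ Q, Q = Ideal.span {e} := by
  have := isPrincipalIdealRing_quotient_of_span_pair g t hm hgp
  have hg : g ∈ maximalIdeal R := by
    rw [hm]; exact Ideal.subset_span (by simp)
  exact exists_eq_span_of_notMem g hg Q hgQ

/-- Kaplansky: a noetherian local domain with a prime element `g` in the maximal ideal such that
`R ⧸ (g)` is a principal ideal ring is a unique factorisation domain. -/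
theorem ufd_of_quotient [IsDomain R] [IsNoetherianRing R] [IsLocalRing R] (g : R) (hgp : Prime g)
    (hg : g ∈ maximalIdeal R) [IsPrincipalIdealRing (R ⧸ Ideal.span {g})] :
    UniqueFactorizationMonoid R := by
  rw [UniqueFactorizationMonoid.iff_exists_prime_mem_of_isPrime]
  intro p hp0 hp
  by_cases hgpm : g ∈ p
  · exact ⟨g, hgpm, hgp⟩
  · obtain ⟨e, he, hpe⟩ := exists_prime_factor_of_notMem g hg p hp0 hgpm
    exact ⟨e, hpe ▸ Ideal.mem_span_singleton_self e, he⟩

end Fermat.Agent.S36.PrinPrime
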