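import Mathlib
import Fermat.Agent.S36.NakPlan
import Fermat.Agent.S36.PrinPrime

/-!
# S36, package [B1-nak], leaf [N2] : chart-level transport of SmoothCut′

`R` a noetherian domain, `n` a maximal ideal, `P ≤ n` a prime generated by `δ` locally at `n`,
with `R / P` regular of dimension one at `n` (`n = (t) + P` locally at `n`).  Then every prime
`𝔮 ≤ n` not containing `δ` has a generator locally at `n`.

Proof: in the local ring `R_n` the maximal ideal is `(δ, t)` and `(δ) = P R_n` is prime, so
`𝔮 R_n` is principal by `PrinPrime.exists_eq_span_of_span_pair`; clear the denominator.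
-/

set_option autoImplicit false

namespace Fermat.Agent.S36.NakCutAt

open Fermat.Agent.S36.NakPlan

/-- **[N2] CutAt′.** -/
theorem cutAtP : CutAtPStatement := by
  intro R _ _ _ n P 𝔮 δ hn hP hPn h𝔮 h𝔮n hδ𝔮 hgen ht
  obtain ⟨t, htn, ht⟩ := ht
  obtain ⟨hδP, hgenP⟩ := hgen
  have hnp : n.IsPrime := hn.isPrime
  let S := Localization.AtPrime n
  have hM : n.primeCompl ≤ nonZeroDivisors R := Ideal.primeCompl_le_nonZeroDivisors n
  have hinj : Function.Injective (algebraMap R S) := IsLocalization.injective S hM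
  have hdom : IsDomain S := IsLocalization.isDomain_localization hM
  have hnoeth : IsNoetherianRing S := IsLocalization.isNoetherianRing n.primeCompl S inferInstance
  have hunit : ∀ s : R, s ∉ n → IsUnit (algebraMap R S s) := fun s hs =>
    IsLocalization.map_units S (⟨s, hs⟩ : n.primeCompl)
  have hdisjP : Disjoint (n.primeCompl : Set R) (P : Set R) := by
    rw [Set.disjoint_left]
    intro x hx hxP
    exact hx (hPn hxP)
  have hdisj𝔮 : Disjoint (n.primeCompl : Set R) (𝔮 : Set R) := by
    rw [Set.disjoint_left]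
    intro x hx hx𝔮
    exact hx (h𝔮n hx𝔮)
  -- `P R_n = δ R_n`
  have hPmap : P.map (algebraMap R S) = Ideal.span {algebraMap R S δ} := by
    apply le_antisymm
    · rw [Ideal.map_le_iff_le_comap]
      intro y hy
      obtain ⟨s, hs, c, hc⟩ := hgenP y hy
      rw [Ideal.mem_comap, Ideal.mem_span_singleton']
      obtain ⟨u, hu⟩ := hunit s hs
      refine ⟨(↑u⁻¹ : S) * algebraMap R S c, ?_⟩
      have h1 : algebraMap R S s * algebraMap R S y = algebraMap R S c * algebraMap R S δ := by
        rw [← map_mul, ← map_mul, hc]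
      rw [mul_assoc, ← h1, ← hu, ← mul_assoc, Units.inv_mul, one_mul]
    · rw [Ideal.span_le]
      intro x hx
      rw [Set.mem_singleton_iff] at hx
      rw [hx]
      exact Ideal.mem_map_of_mem _ hδP
  have hPprime : (Ideal.span {algebraMap R S δ} : Ideal S).IsPrime := by
    rw [← hPmap]
    exact IsLocalization.isPrime_of_isPrime_disjoint n.primeCompl S P hP hdisjP
  -- the maximal ideal of `R_n` is `(δ, t)`
  have hmax : IsLocalRing.maximalIdeal S =
      Ideal.span {algebraMap R S δ, algebraMap R S t} := by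
    rw [← Localization.AtPrime.map_eq_maximalIdeal]
    apply le_antisymm
    · rw [Ideal.map_le_iff_le_comap]
      intro x hx
      obtain ⟨s, hs, c, hc⟩ := ht x hx
      obtain ⟨s', hs', c', hc'⟩ := hgenP _ hc
      rw [Ideal.mem_comap, Ideal.mem_span_pair]
      obtain ⟨u, hu⟩ := hunit (s' * s) (fun h => by
        rcases hnp.mem_or_mem h with h1 | h1
        · exact hs' h1
        · exact hs h1)
      refine ⟨(↑u⁻¹ : S) * algebraMap R S c', (↑u⁻¹ : S) * algebraMap R S (s' * c), ?_⟩
      have h1 : algebraMap R S (s' * s) * algebraMap R S x =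
          algebraMap R S c' * algebraMap R S δ + algebraMap R S (s' * c) * algebraMap R S t := by
        rw [← map_mul, ← map_mul, ← map_mul, ← map_add]
        congr 1
        linear_combination hc'
      calc (↑u⁻¹ : S) * algebraMap R S c' * algebraMap R S δ +
            (↑u⁻¹ : S) * algebraMap R S (s' * c) * algebraMap R S t
          = (↑u⁻¹ : S) * (algebraMap R S c' * algebraMap R S δ +
              algebraMap R S (s' * c) * algebraMap R S t) := by ring
        _ = (↑u⁻¹ : S) * (algebraMap R S (s' * s) * algebraMap R S x) := by rw [h1]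
        _ = algebraMap R S x := by rw [← hu, ← mul_assoc, Units.inv_mul, one_mul]
    · rw [Ideal.span_le]
      intro x hx
      rcases hx with hx | hx
      · rw [hx]
        exact Ideal.mem_map_of_mem _ (hPn hδP)
      · rw [Set.mem_singleton_iff] at hx
        rw [hx]
        exact Ideal.mem_map_of_mem _ htn
  -- `𝔮 R_n` is a prime not containing `δ`
  have h𝔮prime : (𝔮.map (algebraMap R S)).IsPrime :=
    IsLocalization.isPrime_of_isPrime_disjoint n.primeCompl S 𝔮 h𝔮 hdisj𝔮
  have hδ𝔮' : algebraMap R S δ ∉ 𝔮.map (algebraMap R S) := by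
    intro h
    have h1 : δ ∈ (𝔮.map (algebraMap R S)).under R := h
    rw [IsLocalization.under_map_of_isPrime_disjoint n.primeCompl S h𝔮 hdisj𝔮] at h1
    exact hδ𝔮 h1
  obtain ⟨e', he', h𝔮e'⟩ := PrinPrime.exists_eq_span_of_span_pair (algebraMap R S δ)
    (algebraMap R S t) hmax hPprime (𝔮.map (algebraMap R S)) hδ𝔮'
  -- clear the denominator of `e'`
  obtain ⟨⟨⟨e, he𝔮⟩, ⟨s, hs⟩⟩, hes⟩ :=
    (IsLocalization.mem_map_algebraMap_iff n.primeCompl S).mp he'
  have hes' : e' * algebraMap R S s = algebraMap R S e := hes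
  refine ⟨e, he𝔮, ?_⟩
  intro y hy
  have hy' : algebraMap R S y ∈ Ideal.span {e'} := by
    rw [← h𝔮e']
    exact Ideal.mem_map_of_mem _ hy
  obtain ⟨a', ha'⟩ := Ideal.mem_span_singleton'.mp hy'
  obtain ⟨⟨a, ⟨u, hu⟩⟩, hau⟩ := IsLocalization.surj n.primeCompl a'
  have hau' : a' * algebraMap R S u = algebraMap R S a := hau
  refine ⟨u * s, fun h => ?_, a, ?_⟩
  · rcases hnp.mem_or_mem h with h1 | h1
    · exact hu h1
    · exact hs h1
  · apply hinj
    rw [map_mul, map_mul, map_mul, ← ha', ← hau', ← hes']
    ring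

end Fermat.Agent.S36.NakCutAt
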