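import Mathlib
import Fermat.Agent.S36.Model3Plan
import Fermat.Agent.S36.NakCutAt

/-!
# S36, package [MODEL3], abstract target [Fact3]

`theorem factStatement : Model3Plan.FactStatement` : in a noetherian domain `R`, if at a maximal
ideal `n` a prime `𝔭 ≤ n`, `𝔭 ≠ n`, is locally principal and `n / 𝔭` is locally principal, then
every prime `𝔮 ≤ n` with `PrincAt 𝔮` is principal locally at `n`.

Proof.  Let `g` generate `𝔭` at `n`.  If `g ∉ 𝔮` this is `NakCutAt.cutAtP` ([N2] of the package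
[B1-nak]).  If `g ∈ 𝔮` then `𝔭 ≤ 𝔮`, and `PrincAt 𝔮` forces `𝔭 = ⊥` or `𝔭 = 𝔮` (Nakayama in
`R_𝔮`).  For `𝔭 = 𝔮` take `e = g`; for `𝔭 = ⊥` the local ring `R_n` is a principal ideal domain
with maximal ideal `(u)`, so `𝔮 = n` and `e = u` works.
-/

set_option autoImplicit false

namespace Fermat.Agent.S36.Fact3

open Fermat.Agent.S34 Fermat.Agent.S36.Model3Plan

/-- A prime contained in a prime `𝔮` with `PrincAt 𝔮` (of a noetherian domain) is `⊥` or `𝔮`. -/
theorem eq_bot_or_eq_of_le_princAt {R : Type*} [CommRing R] [IsDomain R] [IsNoetherianRing R]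
    {𝔭 𝔮 : Ideal R} (h𝔭 : 𝔭.IsPrime) (h𝔮 : 𝔮.IsPrime) (hle : 𝔭 ≤ 𝔮) (hq : LocPlan.PrincAt 𝔮) :
    𝔭 = ⊥ ∨ 𝔭 = 𝔮 := by
  obtain ⟨-, t, ht𝔮, hgen⟩ := hq
  by_cases ht : t ∈ 𝔭
  · right
    refine le_antisymm hle fun y hy => ?_
    obtain ⟨s, hs, c, hc⟩ := hgen y hy
    have h1 : s * y ∈ 𝔭 := by rw [hc]; exact 𝔭.mul_mem_left c ht
    exact (h𝔭.mem_or_mem h1).resolve_left (fun h => hs (hle h))
  · left
    let S := Localization.AtPrime 𝔮
    have hinj : Function.Injective (algebraMap R S) :=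
      IsLocalization.injective S (Ideal.primeCompl_le_nonZeroDivisors 𝔮)
    have hnoeth : IsNoetherianRing S :=
      IsLocalization.isNoetherianRing 𝔮.primeCompl S inferInstance
    have hle' : 𝔭.map (algebraMap R S) ≤
        (Ideal.span {algebraMap R S t} : Ideal S) • 𝔭.map (algebraMap R S) := by
      rw [Ideal.map_le_iff_le_comap]
      intro y hy
      obtain ⟨s, hs, c, hc⟩ := hgen y (hle hy)
      have hc𝔭 : c ∈ 𝔭 := by
        have h1 : c * t ∈ 𝔭 := by rw [← hc]; exact 𝔭.mul_mem_left s hy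
        exact (h𝔭.mem_or_mem h1).resolve_right ht
      obtain ⟨u, hu⟩ := IsLocalization.map_units S (⟨s, hs⟩ : 𝔮.primeCompl)
      have hu' : (u : S) = algebraMap R S s := hu
      rw [Ideal.mem_comap, smul_eq_mul]
      have h3 : algebraMap R S s * algebraMap R S y = algebraMap R S c * algebraMap R S t := by
        rw [← map_mul, ← map_mul, hc]
      have h2 : algebraMap R S y = algebraMap R S t * ((↑u⁻¹ : S) * algebraMap R S c) := by
        calc algebraMap R S y = (↑u⁻¹ : S) * (algebraMap R S s * algebraMap R S y) := by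
              rw [← hu', ← mul_assoc, Units.inv_mul, one_mul]
          _ = algebraMap R S t * ((↑u⁻¹ : S) * algebraMap R S c) := by rw [h3]; ring
      rw [h2]
      exact Ideal.mul_mem_mul (Ideal.mem_span_singleton_self _)
        (Ideal.mul_mem_left _ _ (Ideal.mem_map_of_mem _ hc𝔭))
    have hjac : (Ideal.span {algebraMap R S t} : Ideal S) ≤ Ideal.jacobson ⊥ := by
      rw [IsLocalRing.jacobson_eq_maximalIdeal ⊥ bot_ne_top, Ideal.span_le]
      intro x hx
      rw [Set.mem_singleton_iff] at hx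
      rw [hx, SetLike.mem_coe, ← Localization.AtPrime.map_eq_maximalIdeal]
      exact Ideal.mem_map_of_mem _ ht𝔮
    have hbot : 𝔭.map (algebraMap R S) = ⊥ :=
      Submodule.eq_bot_of_le_smul_of_le_jacobson_bot _ _
        (IsNoetherian.noetherian (𝔭.map (algebraMap R S))) hle' hjac
    rw [eq_bot_iff]
    intro y hy
    have h1 : algebraMap R S y ∈ 𝔭.map (algebraMap R S) := Ideal.mem_map_of_mem _ hy
    rw [hbot, Ideal.mem_bot] at h1
    rw [Ideal.mem_bot]
    exact hinj (by rw [h1, map_zero])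

/-- If the maximal ideal `n` of a noetherian domain is generated by `u` locally at `n`, then
every nonzero prime below `n` is `n`. -/
theorem eq_of_le_of_locally_principal {R : Type*} [CommRing R] [IsDomain R] [IsNoetherianRing R]
    {n 𝔮 : Ideal R} (hn : n.IsMaximal) (h𝔮 : 𝔮.IsPrime) (h𝔮n : 𝔮 ≤ n) (h𝔮0 : 𝔮 ≠ ⊥)
    (u : R) (hun : u ∈ n) (hu : ∀ x ∈ n, ∃ s : R, s ∉ n ∧ ∃ c : R, s * x = c * u) : 𝔮 = n := by
  have hnp : n.IsPrime := hn.isPrime
  let S := Localization.AtPrime n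
  have hM : n.primeCompl ≤ nonZeroDivisors R := Ideal.primeCompl_le_nonZeroDivisors n
  have hinj : Function.Injective (algebraMap R S) := IsLocalization.injective S hM
  have hdom : IsDomain S := IsLocalization.isDomain_localization hM
  have hnoeth : IsNoetherianRing S :=
    IsLocalization.isNoetherianRing n.primeCompl S inferInstance
  have hmax : IsLocalRing.maximalIdeal S = Ideal.span {algebraMap R S u} := by
    rw [← Localization.AtPrime.map_eq_maximalIdeal]
    apply le_antisymm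
    · rw [Ideal.map_le_iff_le_comap]
      intro x hx
      obtain ⟨s, hs, c, hc⟩ := hu x hx
      obtain ⟨v, hv⟩ := IsLocalization.map_units S (⟨s, hs⟩ : n.primeCompl)
      have hv' : (v : S) = algebraMap R S s := hv
      rw [Ideal.mem_comap, Ideal.mem_span_singleton']
      refine ⟨(↑v⁻¹ : S) * algebraMap R S c, ?_⟩
      have h1 : algebraMap R S s * algebraMap R S x = algebraMap R S c * algebraMap R S u := by
        rw [← map_mul, ← map_mul, hc]
      rw [mul_assoc, ← h1, ← hv', ← mul_assoc, Units.inv_mul, one_mul]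
    · rw [Ideal.span_le]
      intro x hx
      rw [Set.mem_singleton_iff] at hx
      rw [hx]
      exact Ideal.mem_map_of_mem _ hun
  have hprin : (IsLocalRing.maximalIdeal S).IsPrincipal := ⟨⟨algebraMap R S u, hmax⟩⟩
  have hpir : IsPrincipalIdealRing S :=
    ((tfae_of_isNoetherianRing_of_isLocalRing_of_isDomain S).out 4 0).mp hprin
  have hdisj : Disjoint (n.primeCompl : Set R) (𝔮 : Set R) := by
    rw [Set.disjoint_left]
    intro x hx hx𝔮
    exact hx (h𝔮n hx𝔮)
  have h𝔮prime : (𝔮.map (algebraMap R S)).IsPrime :=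
    IsLocalization.isPrime_of_isPrime_disjoint n.primeCompl S 𝔮 h𝔮 hdisj
  have h𝔮ne : 𝔮.map (algebraMap R S) ≠ ⊥ := by
    intro h0
    apply h𝔮0
    rw [eq_bot_iff]
    intro y hy
    have h1 : algebraMap R S y ∈ 𝔮.map (algebraMap R S) := Ideal.mem_map_of_mem _ hy
    rw [h0, Ideal.mem_bot] at h1
    rw [Ideal.mem_bot]
    exact hinj (by rw [h1, map_zero])
  have hmaxq : (𝔮.map (algebraMap R S)).IsMaximal := IsPrime.to_maximal_ideal h𝔮ne
  have heq : 𝔮.map (algebraMap R S) = IsLocalRing.maximalIdeal S :=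
    IsLocalRing.eq_maximalIdeal hmaxq
  have h1 : (𝔮.map (algebraMap R S)).under R = 𝔮 :=
    IsLocalization.under_map_of_isPrime_disjoint n.primeCompl S h𝔮 hdisj
  have h2 : (IsLocalRing.maximalIdeal S).under R = n := by
    rw [← Localization.AtPrime.map_eq_maximalIdeal]
    exact IsLocalization.under_map_of_isPrime_disjoint n.primeCompl S hnp
      (by
        rw [Set.disjoint_left]
        intro x hx hxn
        exact hx hxn)
  rw [← h1, heq, h2]

/-- **[Fact3]**. -/
theorem factStatement : FactStatement := by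
  intro R _ _ _ n 𝔭 𝔮 hn h𝔭 h𝔮 h𝔭n h𝔮n hg hne hu hq
  obtain ⟨g, hg𝔭, hgen⟩ := hg
  by_cases hg𝔮 : g ∈ 𝔮
  · have hle : 𝔭 ≤ 𝔮 := by
      intro y hy
      obtain ⟨s, hs, c, hc⟩ := hgen y hy
      have h1 : s * y ∈ 𝔮 := by rw [hc]; exact 𝔮.mul_mem_left c hg𝔮
      exact (h𝔮.mem_or_mem h1).resolve_left (fun h => hs (h𝔮n h))
    rcases eq_bot_or_eq_of_le_princAt h𝔭 h𝔮 hle hq with h | h
    · obtain ⟨u, hun, hu⟩ := hu
      have hu' : ∀ x ∈ n, ∃ s : R, s ∉ n ∧ ∃ c : R, s * x = c * u := by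
        intro x hx
        obtain ⟨s, hs, c, hc⟩ := hu x hx
        rw [h, Ideal.mem_bot, sub_eq_zero] at hc
        exact ⟨s, hs, c, hc⟩
      have h𝔮eq : 𝔮 = n := eq_of_le_of_locally_principal hn h𝔮 h𝔮n hq.1 u hun hu'
      refine ⟨u, h𝔮eq ▸ hun, ?_⟩
      intro y hy
      exact hu' y (h𝔮eq ▸ hy)
    · exact ⟨g, h ▸ hg𝔭, fun y hy => hgen y (h ▸ hy)⟩
  · obtain ⟨e, he, hgen'⟩ :=
      NakCutAt.cutAtP R n 𝔭 𝔮 g hn h𝔭 h𝔭n h𝔮 h𝔮n hg𝔮 ⟨hg𝔭, hgen⟩ hu
    exact ⟨e, he, hgen'⟩

end Fermat.Agent.S36.Fact3
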