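/-
S36 — TorInInst.lean (helper22): seams (S1)–(S3) of (E2) [ASM36] (GO helper41, consumer
`S36/LocAsm3.lean`): the toric/local half of the chain for a model, from the LANDED leaf outputs

* `LocAsm3B.exists_nf` (helper87; [HorGen3] + [LocG3]) + `Fact3.factStatement` (helper49),
* `ChartTorInst.exists_corrector_of_model3_glue` ([TOR-ASM] + [FIX3] + chart glueing),

and four NAMED modular inputs, each stated for the model `Md`:

* `htriple` : two branches through a closed point of the chart `t` force all three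
              ([INC3]: `Inc3.Hyp.triple`);
* `RelAt Md q m G` : the two relations between the constants of any normal form of `G` at a
              triple point of the chart `t`, with global constants `ηα`, `ηβ`
              ([TOR-REL-INST] `relα_field` / `relβ_field` ⇐ NormCongInst, TorGlob, Inc3Inst);
* `hone`    : the closed points of `D` on the chart `t⁻¹` (the cusps) are one-branch ([CUSP1]);
* `hglue`   : the other closed points of the chart `t⁻¹` inherit `LocForm` from a closed point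
              of the chart `t` (`S36/ChartGlue.lean`).

Results:
* `torIn_chart`, `torInCusp` : the bundles `ChartTorInst.TorIn` / `TorInCusp`;
* `locData_local` : for one `G` (`OneMod`, `Hor3` on both charts, `RelAt`): ONE corrector `H`,
  `OneMod` and `LocForm` at every closed point of both charts for `G ^ ((q+1)(q-1)) * H ^ m`;
* `torOut` : the same for all `G` satisfying a predicate `NC` ("norm condition") which implies
  `RelAt` — for `N = M * q * q` and
  `NC G := ModelFPlan.NormCond (M * q) q m (Glob.toBar (M * q * q) K G)` the conclusion is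
  `LocAsm3.TorOutProp M q m A K π V t` verbatim.
-/
import Mathlib
import Fermat.Agent.S36.ChartTorInst
import Fermat.Agent.S36.LocAsm3B
import Fermat.Agent.S36.Fact3

set_option autoImplicit false

open ModularCurve AlgebraicCurve HahnSeries

namespace Fermat.Agent.S36.TorInInst

open Fermat.Agent.S18.Arith Fermat.Agent.S36 Fermat.Agent.S36.Model3Plan

variable {N : ℕ} [NeZero N] {A : ValuationSubring Qb} {K : IntermediateField ℚ Qb}
  [IsDiscreteValuationRing (OK A K)] {π : OK A K} {e : Fin 3 → ℕ} {ϖ : Fin 3 → FK N K}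
  {V : Fin 3 → ValuationSubring (FK N K)} {t : FK N K}

/-- **The relations of the toric step for one function `G`** on the chart `t` of the model:
global constants `ηα`, `ηβ` (units at index `0`) such that the constants `γ` of ANY normal form
of `G` at ANY triple point satisfy the two relations (norm along `α`, norm along `β`). -/
def RelAt (Md : Model3 N A K π e ϖ V t) (q m : ℕ) (G : FK N K) : Prop :=
  ∃ ηα ηβ : Fin 2 → OK A K, ¬ π ∣ ηα 0 ∧ ¬ π ∣ ηβ 0 ∧
    ∀ n : Ideal (chart N A K t), n.IsMaximal → algebraMap (OK A K) (chart N A K t) π ∈ n →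
      (∀ l, Md.c0.P l ≤ n) → ∀ (g₀ : FK N K) (γ : Fin 3 → OK A K),
        ToricAsm.NF (chart N A K t) π V m G n (fun i => Md.c0.P i ≤ n) g₀ γ →
          π ∣ ηα 0 * γ 1 ^ q - ηα 1 * (γ 0 * γ 2 ^ (q - 1)) ∧
          π ∣ ηβ 0 * (γ 1 * γ 2 ^ (q - 1)) - ηβ 1 * γ 0 ^ q

/-- (S1) The honest inputs of the toric step on the chart `t`. -/
theorem torIn_chart (Md : Model3 N A K π e ϖ V t) {q m : ℕ} (hm : 0 < m)
    (hmu : IsUnit ((m : ℕ) : OK A K)) {ζ : OK A K} (hζ : IsPrimitiveRoot ζ m)
    (htriple : ∀ n : Ideal (chart N A K t), n.IsMaximal →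
      algebraMap (OK A K) (chart N A K t) π ∈ n →
      ∀ i j, i ≠ j → Md.c0.P i ≤ n → Md.c0.P j ≤ n → ∀ l, Md.c0.P l ≤ n)
    (G : FK N K) (hG : OneMod (algebraMap (OK A K) (FK N K) π) V G)
    (hHor : Hor3 π m G (chart N A K t)) (ηα ηβ : Fin 2 → OK A K)
    (hrel : ∀ n : Ideal (chart N A K t), n.IsMaximal →
      algebraMap (OK A K) (chart N A K t) π ∈ n →
      (∀ l, Md.c0.P l ≤ n) → ∀ (g₀ : FK N K) (γ : Fin 3 → OK A K),
        ToricAsm.NF (chart N A K t) π V m G n (fun i => Md.c0.P i ≤ n) g₀ γ →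
          π ∣ ηα 0 * γ 1 ^ q - ηα 1 * (γ 0 * γ 2 ^ (q - 1)) ∧
          π ∣ ηβ 0 * (γ 1 * γ 2 ^ (q - 1)) - ηβ 1 * γ 0 ^ q) :
    ChartTorInst.TorIn (chart N A K t) π V Md.c0.P q m G ηα ηβ where
  triple := htriple
  nf := LocAsm3B.exists_nf Fact3.factStatement Md.c0 Md.val Md.irr m hm hmu hζ G hG hHor
  relα := fun n hn hπn hT g₀ γ h => (hrel n hn hπn hT g₀ γ h).1
  relβ := fun n hn hπn hT g₀ γ h => (hrel n hn hπn hT g₀ γ h).2

/-- (S2) The honest inputs at the one-branch closed points `D` of the chart `t⁻¹`. -/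
theorem torInCusp (Md : Model3 N A K π e ϖ V t) {m : ℕ} (hm : 0 < m)
    (hmu : IsUnit ((m : ℕ) : OK A K)) {ζ : OK A K} (hζ : IsPrimitiveRoot ζ m)
    (D : Ideal (chart N A K t⁻¹) → Prop)
    (hone : ∀ n : Ideal (chart N A K t⁻¹), n.IsMaximal →
      algebraMap (OK A K) (chart N A K t⁻¹) π ∈ n → D n →
      ∀ i j, Md.cInf.P i ≤ n → Md.cInf.P j ≤ n → i = j)
    (G : FK N K) (hG : OneMod (algebraMap (OK A K) (FK N K) π) V G)
    (hHor : Hor3 π m G (chart N A K t⁻¹)) :
    ChartTorInst.TorInCusp (chart N A K t⁻¹) π V Md.cInf.P m G D where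
  one := hone
  nf := fun n hn hπn _ =>
    LocAsm3B.exists_nf Fact3.factStatement Md.cInf Md.val Md.irr m hm hmu hζ G hG hHor n hn hπn

/-- **(S1)–(S3): the local half of `CoreAsm3.LocDataStatement` for one `G`.** -/
theorem locData_local (Md : Model3 N A K π e ϖ V t) (q m : ℕ) (hq : 0 < q) (hm : 0 < m)
    (hmu : IsUnit ((m : ℕ) : OK A K)) {ζ : OK A K} (hζ : IsPrimitiveRoot ζ m)
    (htriple : ∀ n : Ideal (chart N A K t), n.IsMaximal →
      algebraMap (OK A K) (chart N A K t) π ∈ n →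
      ∀ i j, i ≠ j → Md.c0.P i ≤ n → Md.c0.P j ≤ n → ∀ l, Md.c0.P l ≤ n)
    (D : Ideal (chart N A K t⁻¹) → Prop)
    (hone : ∀ n : Ideal (chart N A K t⁻¹), n.IsMaximal →
      algebraMap (OK A K) (chart N A K t⁻¹) π ∈ n → D n →
      ∀ i j, Md.cInf.P i ≤ n → Md.cInf.P j ≤ n → i = j)
    (hglue : ∀ n : Ideal (chart N A K t⁻¹), n.IsMaximal →
      algebraMap (OK A K) (chart N A K t⁻¹) π ∈ n → ¬ D n →
      ∃ n0 : Ideal (chart N A K t), n0.IsMaximal ∧ algebraMap (OK A K) (chart N A K t) π ∈ n0 ∧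
        ∀ w : FK N K, AbsTopN.LocForm (chart N A K t) π V w m n0 →
          AbsTopN.LocForm (chart N A K t⁻¹) π V w m n)
    (G : FK N K) (hG : OneMod (algebraMap (OK A K) (FK N K) π) V G)
    (hHor0 : Hor3 π m G (chart N A K t)) (hHorInf : Hor3 π m G (chart N A K t⁻¹))
    (hrel : RelAt Md q m G) :
    ∃ H : FK N K, H ≠ 0 ∧
      OneMod (algebraMap (OK A K) (FK N K) π) V (G ^ ((q + 1) * (q - 1)) * H ^ m) ∧
      (∀ n : Ideal (chart N A K t), n.IsMaximal →
        algebraMap (OK A K) (chart N A K t) π ∈ n →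
        AbsTopN.LocForm (chart N A K t) π V (G ^ ((q + 1) * (q - 1)) * H ^ m) m n) ∧
      (∀ n : Ideal (chart N A K t⁻¹), n.IsMaximal →
        algebraMap (OK A K) (chart N A K t⁻¹) π ∈ n →
        AbsTopN.LocForm (chart N A K t⁻¹) π V (G ^ ((q + 1) * (q - 1)) * H ^ m) m n) := by
  obtain ⟨ηα, ηβ, hηα, hηβ, hrel'⟩ := hrel
  exact ChartTorInst.exists_corrector_of_model3_glue Md q m hq hm G hG ηα ηβ hηα hηβ
    (torIn_chart Md hm hmu hζ htriple G hG hHor0 ηα ηβ hrel') D
    (torInCusp Md hm hmu hζ D hone G hG hHorInf) hglue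

/-- **The toric output for all `G` with a norm condition `NC`** (which implies `RelAt`).  For
`N = M * q * q` and `NC G := ModelFPlan.NormCond (M * q) q m (Glob.toBar (M * q * q) K G)` this
is `LocAsm3.TorOutProp M q m A K π V t`. -/
theorem torOut (Md : Model3 N A K π e ϖ V t) (q m : ℕ) (hq : 0 < q) (hm : 0 < m)
    (hmu : IsUnit ((m : ℕ) : OK A K)) {ζ : OK A K} (hζ : IsPrimitiveRoot ζ m)
    (htriple : ∀ n : Ideal (chart N A K t), n.IsMaximal →
      algebraMap (OK A K) (chart N A K t) π ∈ n →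
      ∀ i j, i ≠ j → Md.c0.P i ≤ n → Md.c0.P j ≤ n → ∀ l, Md.c0.P l ≤ n)
    (D : Ideal (chart N A K t⁻¹) → Prop)
    (hone : ∀ n : Ideal (chart N A K t⁻¹), n.IsMaximal →
      algebraMap (OK A K) (chart N A K t⁻¹) π ∈ n → D n →
      ∀ i j, Md.cInf.P i ≤ n → Md.cInf.P j ≤ n → i = j)
    (hglue : ∀ n : Ideal (chart N A K t⁻¹), n.IsMaximal →
      algebraMap (OK A K) (chart N A K t⁻¹) π ∈ n → ¬ D n →
      ∃ n0 : Ideal (chart N A K t), n0.IsMaximal ∧ algebraMap (OK A K) (chart N A K t) π ∈ n0 ∧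
        ∀ w : FK N K, AbsTopN.LocForm (chart N A K t) π V w m n0 →
          AbsTopN.LocForm (chart N A K t⁻¹) π V w m n)
    (NC : FK N K → Prop)
    (hrel : ∀ G : FK N K, OneMod (algebraMap (OK A K) (FK N K) π) V G → NC G → RelAt Md q m G) :
    ∀ G : FK N K,
      OneMod (algebraMap (OK A K) (FK N K) π) V G →
      Hor3 π m G (chart N A K t) → Hor3 π m G (chart N A K t⁻¹) →
      NC G →
      ∃ H : FK N K, H ≠ 0 ∧
        OneMod (algebraMap (OK A K) (FK N K) π) V (G ^ ((q + 1) * (q - 1)) * H ^ m) ∧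
        (∀ n : Ideal (chart N A K t), n.IsMaximal →
          algebraMap (OK A K) (chart N A K t) π ∈ n →
          AbsTopN.LocForm (chart N A K t) π V (G ^ ((q + 1) * (q - 1)) * H ^ m) m n) ∧
        (∀ n : Ideal (chart N A K t⁻¹), n.IsMaximal →
          algebraMap (OK A K) (chart N A K t⁻¹) π ∈ n →
          AbsTopN.LocForm (chart N A K t⁻¹) π V (G ^ ((q + 1) * (q - 1)) * H ^ m) m n) :=
  fun G hG hHor0 hHorInf hNC =>
    locData_local Md q m hq hm hmu hζ htriple D hone hglue G hG hHor0 hHorInf (hrel G hG hNC)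

end Fermat.Agent.S36.TorInInst
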