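/-
S36 — TorOutInst.lean (helper22): the FINAL seam of (E2) [ASM36]: `LocAsm3.TorOutProp M q m A K
π V t` VERBATIM for a model `Md : Model3 (M * q * q) A K π e ϖ V t` over a base with
`BaseFacts`, from the landed leaf outputs and exactly TWO named modular inputs:

* `h0`    : for every `G` (`OneMod`, `Hor3` on the chart `t`, norm conditions) global constants
            `ηα`, `ηβ` (units at index `0`) and the bundle
            `ChartTorInst.TorIn (chart t) π V Md.c0.P q m G ηα ηβ`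
            (= [INC3] `triple` + normal forms + the two relations at the triple points;
            supplied by `S36/TorInModel.lean`);
* `hcusp` : **[CUSP1]** the closed points of the special fibre of the chart `t⁻¹` containing
            `t⁻¹` (the cusps) lie on ONE branch.

Discharged here:
* (S2) the bundle `ChartTorInst.TorInCusp` at the cusps (`LocAsm3B.exists_nf` on `Md.cInf`);
* (S3) `hglue` : every other closed point of the chart `t⁻¹` inherits `AbsTopN.LocForm` from
  a closed point of the chart `t` (`ChartGlue.exists_contr_locForm` + `ResPtB.res_chart_base`).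

Exports:
* `glue_chart`            — `ChartGlue.Glue (chart t) (chart t⁻¹) t`;
* `Cusp`, `CuspOne`       — the cusp predicate and the [CUSP1] statement;
* `hglue_chart`           — (S3);
* `torOut_of_torIn`       — generic level `N`, abstract norm predicate `NC`;
* `torOut_of_relAt`       — the same from `triple` + `TorInInst.RelAt`;
* `torOutProp`            — `LocAsm3.TorOutProp M q m A K π V t` (from `h0`, `hcusp`);
* `torOutProp_of_relAt`   — the same from `triple` + `RelAt` + `hcusp`.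
-/
import Mathlib
import Fermat.Agent.S34.ChartJ
import Fermat.Agent.S35.ResPtB
import Fermat.Agent.S36.ChartGlue
import Fermat.Agent.S36.TorInInst
import Fermat.Agent.S36.LocAsm3

set_option autoImplicit false

open ModularCurve AlgebraicCurve HahnSeries

namespace Fermat.Agent.S36.TorOutInst

open Fermat.Agent.S18.Arith Fermat.Agent.S34 Fermat.Agent.S36 Fermat.Agent.S36.Model3Plan

section Gen

variable {N : ℕ} [NeZero N] {A : ValuationSubring Qb} {K : IntermediateField ℚ Qb}

/-- The two charts `chart t`, `chart t⁻¹` are glued along `t`. -/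
theorem glue_chart {t : FK N K} (ht : t ≠ 0) :
    ChartGlue.Glue (chart N A K t) (chart N A K t⁻¹) t :=
  ⟨ChartJ.self_mem_chart N A K t, ChartJ.self_mem_chart N A K t⁻¹,
    fun _ hx => ChartJ.glue N A K ht hx, fun _ hx => ChartJ.glue' N A K ht hx⟩

/-- The cusp predicate on the chart `t⁻¹`: the closed point contains `t⁻¹`. -/
def Cusp (N : ℕ) [NeZero N] (A : ValuationSubring Qb) (K : IntermediateField ℚ Qb) (t : FK N K)
    (n : Ideal (chart N A K t⁻¹)) : Prop :=
  (⟨t⁻¹, ChartJ.self_mem_chart N A K t⁻¹⟩ : chart N A K t⁻¹) ∈ n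

/-- **[CUSP1]** (statement): the cusps of the special fibre of the chart `t⁻¹` lie on one
branch. -/
def CuspOne (π : OK A K) (t : FK N K) (P : Fin 3 → Ideal (chart N A K t⁻¹)) : Prop :=
  ∀ n : Ideal (chart N A K t⁻¹), n.IsMaximal →
    algebraMap (OK A K) (chart N A K t⁻¹) π ∈ n → Cusp N A K t n →
    ∀ i j, P i ≤ n → P j ≤ n → i = j

variable [IsDiscreteValuationRing (OK A K)] {π : OK A K} {e : Fin 3 → ℕ} {ϖ : Fin 3 → FK N K}
  {V : Fin 3 → ValuationSubring (FK N K)} {t : FK N K}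

omit [IsDiscreteValuationRing (OK A K)] in
/-- **(S3)** every closed point of the special fibre of the chart `t⁻¹` which is not a cusp
inherits the local form from a closed point of the special fibre of the chart `t`. -/
theorem hglue_chart (ℓ : ℕ) [Fact ℓ.Prime] (hB : BaseFacts ℓ A K) (ht : t ≠ 0)
    (hπ : Irreducible π) (m : ℕ) :
    ∀ n : Ideal (chart N A K t⁻¹), n.IsMaximal →
      algebraMap (OK A K) (chart N A K t⁻¹) π ∈ n → ¬ Cusp N A K t n →
      ∃ n0 : Ideal (chart N A K t), n0.IsMaximal ∧ algebraMap (OK A K) (chart N A K t) π ∈ n0 ∧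
        ∀ w : FK N K, AbsTopN.LocForm (chart N A K t) π V w m n0 →
          AbsTopN.LocForm (chart N A K t⁻¹) π V w m n := by
  intro n hn hπn hD
  obtain ⟨n0, hn0, hπ0, -, h⟩ :=
    ChartGlue.exists_contr_locForm (glue_chart (A := A) ht) π V m n hn hπn hD
      (Fermat.Agent.S35.ResPtB.res_chart_base N ℓ hB t⁻¹ π hπ n hn hπn)
  exact ⟨n0, hn0, hπ0, h⟩

/-- **The toric output, generic level** (from the bundle `TorIn` on the chart `t` and
[CUSP1]): for all `G` with `OneMod`, `Hor3` on both charts and a norm predicate `NC`. -/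
theorem torOut_of_torIn (ℓ : ℕ) [Fact ℓ.Prime] (hB : BaseFacts ℓ A K)
    (Md : Model3 N A K π e ϖ V t) (q m : ℕ) (hq : 0 < q) (hm : 0 < m)
    (hmu : IsUnit ((m : ℕ) : OK A K)) {ζ : OK A K} (hζ : IsPrimitiveRoot ζ m)
    (NC : FK N K → Prop)
    (h0 : ∀ G : FK N K, OneMod (algebraMap (OK A K) (FK N K) π) V G →
      Hor3 π m G (chart N A K t) → NC G →
      ∃ ηα ηβ : Fin 2 → OK A K, ¬ π ∣ ηα 0 ∧ ¬ π ∣ ηβ 0 ∧
        ChartTorInst.TorIn (chart N A K t) π V Md.c0.P q m G ηα ηβ)
    (hcusp : CuspOne π t Md.cInf.P) :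
    ∀ G : FK N K,
      OneMod (algebraMap (OK A K) (FK N K) π) V G →
      Hor3 π m G (chart N A K t) → Hor3 π m G (chart N A K t⁻¹) →
      NC G →
      ∃ H : FK N K, H ≠ 0 ∧
        OneMod (algebraMap (OK A K) (FK N K) π) V (G ^ ((q + 1) * (q - 1)) * H ^ m) ∧
        (∀ n : Ideal (chart N A K t), n.IsMaximal →
          algebraMap (OK A K) (chart N A K t) π ∈ n →
          AbsTopN.LocForm (chart N A K t) π V (G ^ ((q + 1) * (q - 1)) * H ^ m) m n) ∧
        (∀ n : Ideal (chart N A K t⁻¹), n.IsMaximal →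
          algebraMap (OK A K) (chart N A K t⁻¹) π ∈ n →
          AbsTopN.LocForm (chart N A K t⁻¹) π V (G ^ ((q + 1) * (q - 1)) * H ^ m) m n) := by
  intro G hG hHor0 hHorInf hNC
  obtain ⟨ηα, ηβ, hηα, hηβ, hin⟩ := h0 G hG hHor0 hNC
  exact ChartTorInst.exists_corrector_of_model3_glue Md q m hq hm G hG ηα ηβ hηα hηβ hin
    (Cusp N A K t) (TorInInst.torInCusp Md hm hmu hζ (Cusp N A K t) hcusp G hG hHorInf)
    (hglue_chart ℓ hB Md.t_ne Md.irr m)

/-- **The toric output, generic level** (from `triple` + `TorInInst.RelAt` on the chart `t` and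
[CUSP1]). -/
theorem torOut_of_relAt (ℓ : ℕ) [Fact ℓ.Prime] (hB : BaseFacts ℓ A K)
    (Md : Model3 N A K π e ϖ V t) (q m : ℕ) (hq : 0 < q) (hm : 0 < m)
    (hmu : IsUnit ((m : ℕ) : OK A K)) {ζ : OK A K} (hζ : IsPrimitiveRoot ζ m)
    (htriple : ∀ n : Ideal (chart N A K t), n.IsMaximal →
      algebraMap (OK A K) (chart N A K t) π ∈ n →
      ∀ i j, i ≠ j → Md.c0.P i ≤ n → Md.c0.P j ≤ n → ∀ l, Md.c0.P l ≤ n)
    (NC : FK N K → Prop)
    (hrel : ∀ G : FK N K, OneMod (algebraMap (OK A K) (FK N K) π) V G →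
      Hor3 π m G (chart N A K t) → NC G → TorInInst.RelAt Md q m G)
    (hcusp : CuspOne π t Md.cInf.P) :
    ∀ G : FK N K,
      OneMod (algebraMap (OK A K) (FK N K) π) V G →
      Hor3 π m G (chart N A K t) → Hor3 π m G (chart N A K t⁻¹) →
      NC G →
      ∃ H : FK N K, H ≠ 0 ∧
        OneMod (algebraMap (OK A K) (FK N K) π) V (G ^ ((q + 1) * (q - 1)) * H ^ m) ∧
        (∀ n : Ideal (chart N A K t), n.IsMaximal →
          algebraMap (OK A K) (chart N A K t) π ∈ n →
          AbsTopN.LocForm (chart N A K t) π V (G ^ ((q + 1) * (q - 1)) * H ^ m) m n) ∧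
        (∀ n : Ideal (chart N A K t⁻¹), n.IsMaximal →
          algebraMap (OK A K) (chart N A K t⁻¹) π ∈ n →
          AbsTopN.LocForm (chart N A K t⁻¹) π V (G ^ ((q + 1) * (q - 1)) * H ^ m) m n) :=
  torOut_of_torIn ℓ hB Md q m hq hm hmu hζ NC
    (fun G hG hHor0 hNC => by
      obtain ⟨ηα, ηβ, hηα, hηβ, hrel'⟩ := hrel G hG hHor0 hNC
      exact ⟨ηα, ηβ, hηα, hηβ,
        TorInInst.torIn_chart Md hm hmu hζ htriple G hG hHor0 ηα ηβ hrel'⟩)
    hcusp

end Gen

section Level

variable {M q : ℕ} [NeZero M] [NeZero q] {A : ValuationSubring Qb}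
  {K : IntermediateField ℚ Qb} [IsDiscreteValuationRing (OK A K)] {π : OK A K}
  {e : Fin 3 → ℕ} {ϖ : Fin 3 → FK (M * q * q) K}
  {V : Fin 3 → ValuationSubring (FK (M * q * q) K)} {t : FK (M * q * q) K}

/-- **[TORIC36] + [LOC36] at the model level: `LocAsm3.TorOutProp` verbatim**, from the bundle
`ChartTorInst.TorIn` on the chart `t` (for every `G` with `OneMod`, `Hor3` on the chart `t` and
the norm conditions) and [CUSP1]. -/
theorem torOutProp (ℓ : ℕ) [Fact ℓ.Prime] (hB : BaseFacts ℓ A K)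
    (Md : Model3 (M * q * q) A K π e ϖ V t) {m : ℕ} (hm : m ≠ 0)
    (hmu : IsUnit ((m : ℕ) : OK A K)) {ζ : OK A K} (hζ : IsPrimitiveRoot ζ m)
    (h0 : ∀ G : FK (M * q * q) K,
      OneMod (algebraMap (OK A K) (FK (M * q * q) K) π) V G →
      Hor3 π m G (chart (M * q * q) A K t) →
      Fermat.Agent.S35.ModelFPlan.NormCond (M * q) q m
        (Fermat.Agent.S18.Glob.toBar (M * q * q) K G) →
      ∃ ηα ηβ : Fin 2 → OK A K, ¬ π ∣ ηα 0 ∧ ¬ π ∣ ηβ 0 ∧
        ChartTorInst.TorIn (chart (M * q * q) A K t) π V Md.c0.P q m G ηα ηβ)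
    (hcusp : CuspOne π t Md.cInf.P) :
    LocAsm3.TorOutProp M q m A K π V t :=
  torOut_of_torIn ℓ hB Md q m (Nat.pos_of_ne_zero (NeZero.ne q)) (Nat.pos_of_ne_zero hm) hmu hζ
    (fun G => Fermat.Agent.S35.ModelFPlan.NormCond (M * q) q m
      (Fermat.Agent.S18.Glob.toBar (M * q * q) K G)) h0 hcusp

/-- **`LocAsm3.TorOutProp` verbatim**, from `triple` ([INC3]) + `TorInInst.RelAt` on the chart
`t` and [CUSP1]. -/
theorem torOutProp_of_relAt (ℓ : ℕ) [Fact ℓ.Prime] (hB : BaseFacts ℓ A K)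
    (Md : Model3 (M * q * q) A K π e ϖ V t) {m : ℕ} (hm : m ≠ 0)
    (hmu : IsUnit ((m : ℕ) : OK A K)) {ζ : OK A K} (hζ : IsPrimitiveRoot ζ m)
    (htriple : ∀ n : Ideal (chart (M * q * q) A K t), n.IsMaximal →
      algebraMap (OK A K) (chart (M * q * q) A K t) π ∈ n →
      ∀ i j, i ≠ j → Md.c0.P i ≤ n → Md.c0.P j ≤ n → ∀ l, Md.c0.P l ≤ n)
    (hrel : ∀ G : FK (M * q * q) K,
      OneMod (algebraMap (OK A K) (FK (M * q * q) K) π) V G →
      Hor3 π m G (chart (M * q * q) A K t) →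
      Fermat.Agent.S35.ModelFPlan.NormCond (M * q) q m
        (Fermat.Agent.S18.Glob.toBar (M * q * q) K G) →
      TorInInst.RelAt Md q m G)
    (hcusp : CuspOne π t Md.cInf.P) :
    LocAsm3.TorOutProp M q m A K π V t :=
  torOut_of_relAt ℓ hB Md q m (Nat.pos_of_ne_zero (NeZero.ne q)) (Nat.pos_of_ne_zero hm) hmu hζ
    htriple
    (fun G => Fermat.Agent.S35.ModelFPlan.NormCond (M * q) q m
      (Fermat.Agent.S18.Glob.toBar (M * q * q) K G)) hrel hcusp

end Level

end Fermat.Agent.S36.TorOutInst
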