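/-
S36 — ChainM3C.lean (helper40; last-mile slice + compiled open-input ledger, dealt by the
captain helper85 / helper87).

`ChainM3.RecProp` (hence `LocAsm3L.ChainStatementL` and `LocAsm3.ChainStatement`) at the tuple
of record over an unramified base `K`, from the closers on main, with exactly TWO named inputs
left:

* `NakRec`  — [B1-nak] (B1) at the closed points of the special fibre of `chart J3` lying on
              `P 2` only (the shape `hnak0` of `Model3PrincB.hprinc0`);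
* `RelRec`  — [TOR-REL] `TorInInst.RelAt Md q m G` for every model `Md` at the tuple of record
              and every `G` with `OneMod`, `Hor3` on `chart J3` and `NormCond` of `toBar G`.

Discharged here (all by landed theorems):

* (D5) `d5`   : `LocAsm3.CorrProp`            — `Corr3Inst.corrProp_record_iota3` +
                                                 `V3Wit.valHyp3_iota3`;
* (D1) `d1`   : `princ` on `chart J3`         — `Model3PrincB.hprinc0` + `EtaB1HypC.etaHyp`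
                                                 (needs `Plan.AuxHyp q M`) + `NakRec`;
* (D2) `d2`   : `princ` on `chart J3⁻¹`       — `CuspClose.princInf_of_princ0` (cusps: [N10],
                                                 [CUSP1] closed) from `d1`;
* (D3) `d3`   : [INC3] `triple`               — `Inc3AsmB.triple_J3` + `ResDeg3Inst.hf1/hf3'`;
* (T)  `tor`  : `LocAsm3.TorOutProp`          — `TorOutInst.torOutProp_of_relAt` + `d3` +
                                                 `CuspOneBInst.cuspOne_model3` + `RelRec`.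

Exports: `recProp`, `chainL_of_nak_rel`, `chain_of_nak_rel`.
-/
import Mathlib
import Fermat.Agent.S18.FinalCore
import Fermat.Agent.S36.ChainM3
import Fermat.Agent.S36.Model3PrincB
import Fermat.Agent.S36.EtaB1HypC
import Fermat.Agent.S36.CuspClose
import Fermat.Agent.S36.Corr3Inst
import Fermat.Agent.S36.TorOutInst
import Fermat.Agent.S36.CuspOneBInst
import Fermat.Agent.S36.Inc3AsmB
import Fermat.Agent.S36.ResDeg3Inst
import Fermat.Agent.S36.LocAsm3B

set_option autoImplicit false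

noncomputable section

namespace Fermat.Agent.S36.ChainM3C

open ModularCurve AlgebraicCurve HahnSeries
open Fermat.Agent.S18 Fermat.Agent.S18.Arith Fermat.Agent.S18.ModelPlan
open Fermat.Agent.S34 Fermat.Agent.S36.Model3Plan
open Fermat.Agent.S36.ChainM3 (unif3 val3 PrincAt RecProp)

/-! ### The two named inputs -/

section Named

variable (M q : ℕ) [NeZero M] [NeZero q] (hq : q.Prime) (hqM : ¬ q ∣ M)
  (A : ValuationSubring Qb) (K : IntermediateField ℚ Qb)
  (hdvr : IsDiscreteValuationRing (OK A K)) (π : OK A K) (hπ : Irreducible π)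
  (hπq : incO A K π = (q : Qb)) (ξ : Qb) (hξ : IsPrimitiveRoot ξ q)

/-- **[B1-nak], the named input**: (B1) at the closed points of the special fibre of `chart J3`
which lie on `P 2` only, for the vertical ideals of record `Model3Asm.Pc` (the binder `hnak0` of
`Model3PrincB.hprinc0`, verbatim). -/
def NakRec : Prop :=
  ChartHyp3 π (unif3 M q hq hqM A K π) (val3 M q hq hqM A K hdvr π hπ hπq ξ hξ)
      (Model3Asm.Pc (chart (M * q * q) A K (Chart3B.J3 M q hq hqM K)) (unif3 M q hq hqM A K π)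
        (val3 M q hq hqM A K hdvr π hπ hπq ξ hξ)
        (Model3Top.le0 (V3.hyp3_iota3 hq hqM A hdvr π hπ hπq hξ) hdvr)) →
    ∀ n : Ideal (chart (M * q * q) A K (Chart3B.J3 M q hq hqM K)), n.IsMaximal →
      algebraMap (OK A K) (chart (M * q * q) A K (Chart3B.J3 M q hq hqM K)) π ∈ n →
      ¬ Model3Asm.Pc (chart (M * q * q) A K (Chart3B.J3 M q hq hqM K)) (unif3 M q hq hqM A K π)
        (val3 M q hq hqM A K hdvr π hπ hπq ξ hξ)
        (Model3Top.le0 (V3.hyp3_iota3 hq hqM A hdvr π hπ hπq hξ) hdvr) 0 ≤ n →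
      ¬ Model3Asm.Pc (chart (M * q * q) A K (Chart3B.J3 M q hq hqM K)) (unif3 M q hq hqM A K π)
        (val3 M q hq hqM A K hdvr π hπ hπq ξ hξ)
        (Model3Top.le0 (V3.hyp3_iota3 hq hqM A hdvr π hπ hπq hξ) hdvr) 1 ≤ n →
      Model3Asm.Pc (chart (M * q * q) A K (Chart3B.J3 M q hq hqM K)) (unif3 M q hq hqM A K π)
        (val3 M q hq hqM A K hdvr π hπ hπq ξ hξ)
        (Model3Top.le0 (V3.hyp3_iota3 hq hqM A hdvr π hπ hπq hξ) hdvr) 2 ≤ n →
      ∃ i : Fin 3,
        Model3Asm.Pc (chart (M * q * q) A K (Chart3B.J3 M q hq hqM K)) (unif3 M q hq hqM A K π)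
          (val3 M q hq hqM A K hdvr π hπ hπq ξ hξ)
          (Model3Top.le0 (V3.hyp3_iota3 hq hqM A hdvr π hπ hπq hξ) hdvr) i ≤ n ∧
        ∃ g ∈ Model3Asm.Pc (chart (M * q * q) A K (Chart3B.J3 M q hq hqM K))
            (unif3 M q hq hqM A K π) (val3 M q hq hqM A K hdvr π hπ hπq ξ hξ)
            (Model3Top.le0 (V3.hyp3_iota3 hq hqM A hdvr π hπ hπq hξ) hdvr) i,
          ∀ y ∈ Model3Asm.Pc (chart (M * q * q) A K (Chart3B.J3 M q hq hqM K))
              (unif3 M q hq hqM A K π) (val3 M q hq hqM A K hdvr π hπ hπq ξ hξ)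
              (Model3Top.le0 (V3.hyp3_iota3 hq hqM A hdvr π hπ hπq hξ) hdvr) i,
            ∃ s : chart (M * q * q) A K (Chart3B.J3 M q hq hqM K), s ∉ n ∧
              ∃ c : chart (M * q * q) A K (Chart3B.J3 M q hq hqM K), s * y = c * g

/-- **[TOR-REL], the named input**: the relations `TorInInst.RelAt` for every model at the tuple
of record and every `G` with `OneMod`, `Hor3` on `chart J3` and the norm conditions. -/
def RelRec (m : ℕ) : Prop :=
  ∀ Md : Model3 (M * q * q) A K π (ram q) (unif3 M q hq hqM A K π)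
      (val3 M q hq hqM A K hdvr π hπ hπq ξ hξ) (Chart3B.J3 M q hq hqM K),
    ∀ G : FK (M * q * q) K,
      OneMod (algebraMap (OK A K) (FK (M * q * q) K) π)
        (val3 M q hq hqM A K hdvr π hπ hπq ξ hξ) G →
      Hor3 π m G (chart (M * q * q) A K (Chart3B.J3 M q hq hqM K)) →
      Fermat.Agent.S35.ModelFPlan.NormCond (M * q) q m
        (Fermat.Agent.S18.Glob.toBar (M * q * q) K G) →
      TorInInst.RelAt Md q m G

end Named

/-! ### The closers -/

section Closers

variable {M q : ℕ} [NeZero M] [NeZero q] [Fact q.Prime] (hqM : ¬ q ∣ M)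
  {A : ValuationSubring Qb} {K : IntermediateField ℚ Qb}
  {π : OK A K} (hπ : Irreducible π) (hπq : incO A K π = (q : Qb))
  {ξ : Qb} (hξ : IsPrimitiveRoot ξ q)

omit [NeZero q] [Fact q.Prime] in
theorem hqa (hπq : incO A K π = (q : Qb)) : (q : Qb) = incO A K π * ((1 : A) : Qb) := by
  rw [hπq, OneMemClass.coe_one, mul_one]

/-- **(D5), closed**: `CorrProp` at the tuple of record. -/
theorem d5 (hA : A.LiesOverPrime q) (hK : Plan.UnrBase q A K) {m : ℕ} (hm : m ≠ 0) :
    LocAsm3.CorrProp M q m A K π (unif3 M q Fact.out hqM A K π)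
      (val3 M q Fact.out hqM A K hK.1.dvr π hπ hπq ξ hξ) :=
  Corr3Inst.corrProp_record_iota3 M q Fact.out hqM A K hA hK.1 hK.2.2 hK.1.dvr π hπ hπq hξ
    (V3Wit.valHyp3_iota3 M q Fact.out hqM A K hK.1.dvr hA π hπ hπq hξ) hm

/-- **(D1)** `princ` on `chart J3` from the eta unit (closed under `Plan.AuxHyp`) and the named
input `NakRec`. -/
theorem d1 (haux : Plan.AuxHyp q M) (hA : A.LiesOverPrime q) (hK : Plan.UnrBase q A K)
    (hnak : NakRec M q Fact.out hqM A K hK.1.dvr π hπ hπq ξ hξ) :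
    PrincAt (chart (M * q * q) A K (Chart3B.J3 M q Fact.out hqM K)) π
      (unif3 M q Fact.out hqM A K π) (val3 M q Fact.out hqM A K hK.1.dvr π hπ hπq ξ hξ)
      (Model3Top.le0 (V3.hyp3_iota3 Fact.out hqM A hK.1.dvr π hπ hπq hξ) hK.1.dvr) :=
  Model3PrincB.hprinc0 (V3.hyp3_iota3 Fact.out hqM A hK.1.dvr π hπ hπq hξ) hK.1 hA hπ 1
    (hqa hπq) (BaseXi.exists_unit Fact.out π hπ hπq hξ)
    (EtaB1HypC.etaHyp M q Fact.out hqM haux A K hK.1.dvr hπ hπq) hnak

/-- **(D2)** `princ` on `chart J3⁻¹` from `princ` on `chart J3` (the cusps are closed: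
`CuspClose.princInf_of_princ0`). -/
theorem d2 (haux : Plan.AuxHyp q M) (hA : A.LiesOverPrime q) (hK : Plan.UnrBase q A K)
    (hnak : NakRec M q Fact.out hqM A K hK.1.dvr π hπ hπq ξ hξ) :
    PrincAt (chart (M * q * q) A K (Chart3B.J3 M q Fact.out hqM K)⁻¹) π
      (unif3 M q Fact.out hqM A K π) (val3 M q Fact.out hqM A K hK.1.dvr π hπ hπq ξ hξ)
      (Model3Top.leInf (V3.hyp3_iota3 Fact.out hqM A hK.1.dvr π hπ hπq hξ) hK.1.dvr) :=
  fun hypInf =>
    CuspClose.princInf_of_princ0 (V3.hyp3_iota3 Fact.out hqM A hK.1.dvr π hπ hπq hξ) hA hK.1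
      hπ 1 (hqa hπq) (BaseXi.exists_unit Fact.out π hπ hπq hξ)
      (CuspClose.chartHyp3_zero (V3.hyp3_iota3 Fact.out hqM A hK.1.dvr π hπ hπq hξ) hA hK.1 hπ
        1 (hqa hπq) (BaseXi.exists_unit Fact.out π hπ hπq hξ)) hypInf
      (d1 hqM hπ hπq hξ haux hA hK hnak
        (CuspClose.chartHyp3_zero (V3.hyp3_iota3 Fact.out hqM A hK.1.dvr π hπ hπq hξ) hA hK.1
          hπ 1 (hqa hπq) (BaseXi.exists_unit Fact.out π hπ hπq hξ)))

/-- **(D3), closed**: [INC3] `triple` for every model at the tuple of record. -/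
theorem d3 (hA : A.LiesOverPrime q) (hK : Plan.UnrBase q A K)
    (Md : Model3 (M * q * q) A K π (ram q) (unif3 M q Fact.out hqM A K π)
      (val3 M q Fact.out hqM A K hK.1.dvr π hπ hπq ξ hξ) (Chart3B.J3 M q Fact.out hqM K)) :
    ∀ n : Ideal (chart (M * q * q) A K (Chart3B.J3 M q Fact.out hqM K)), n.IsMaximal →
      algebraMap (OK A K) (chart (M * q * q) A K (Chart3B.J3 M q Fact.out hqM K)) π ∈ n →
      ∀ i j, i ≠ j → Md.c0.P i ≤ n → Md.c0.P j ≤ n → ∀ l, Md.c0.P l ≤ n := by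
  have hC : ChartFacts M A K (chart M A K (jK M K)) (jK M K) :=
    Red2B.chartFacts M q Fact.out hqM A K hA hK.1
  have hW := Model3Top.wit (V3.hyp3_iota3 Fact.out hqM A hK.1.dvr π hπ hπq hξ) hK.1.dvr hA hC
    hπ 1 (hqa hπq) (BaseXi.exists_unit Fact.out π hπ hπq hξ)
  have hf1 := ResDeg3Inst.hf1 M q hK.1.dvr hπ hC hW
  have hf3 := ResDeg3Inst.hf3' M q Fact.out hK.1.dvr hπ hC
    (V3.hyp3_iota3 Fact.out hqM A hK.1.dvr π hπ hπq hξ).mid.alpha
    (V3Wit.hW3 (V3.hyp3_iota3 Fact.out hqM A hK.1.dvr π hπ hπq hξ)) hW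
  exact Inc3AsmB.triple_J3 hA hK.1 hK.1.dvr
    (V3.hyp3_iota3 Fact.out hqM A hK.1.dvr π hπ hπq hξ) hf1 hf3 Md rfl rfl rfl rfl rfl rfl

/-- **(T)** `TorOutProp` at the tuple of record from the named input `RelRec` (and any model at
the tuple). -/
theorem tor (hA : A.LiesOverPrime q) (hK : Plan.UnrBase q A K) {m : ℕ} (hm : m ≠ 0)
    (hqm : ¬ q ∣ m)
    (Md : Model3 (M * q * q) A K π (ram q) (unif3 M q Fact.out hqM A K π)
      (val3 M q Fact.out hqM A K hK.1.dvr π hπ hπq ξ hξ) (Chart3B.J3 M q Fact.out hqM K))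
    (hrel : RelRec M q Fact.out hqM A K hK.1.dvr π hπ hπq ξ hξ m) :
    LocAsm3.TorOutProp M q m A K π (val3 M q Fact.out hqM A K hK.1.dvr π hπ hπq ξ hξ)
      (Chart3B.J3 M q Fact.out hqM K) := by
  have hdvr : IsDiscreteValuationRing (OK A K) := hK.1.dvr
  obtain ⟨ζ, hζ⟩ := LocAsm3B.exists_primitiveRoot_OK A K hK.1 (Nat.pos_of_ne_zero hm) hqm
  exact TorOutInst.torOutProp_of_relAt q hK.1 Md hm
    (Fermat.Agent.S18.FinalCore.isUnit_natCast_OK A hA K hqm) hζ
    (d3 hqM hπ hπq hξ hA hK Md) (hrel Md)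
    (CuspOneBInst.cuspOne_model3 M q Fact.out hqM A K hK.1.dvr hA Md rfl rfl rfl rfl
      ⟨1, one_mem _, (mul_one _).symm⟩)

/-- **`ChainM3.RecProp` at the tuple of record from the two named inputs.** -/
theorem recProp (haux : Plan.AuxHyp q M) (hA : A.LiesOverPrime q) (hK : Plan.UnrBase q A K)
    {m : ℕ} (hm : m ≠ 0) (hqm : ¬ q ∣ m)
    (hnak : NakRec M q Fact.out hqM A K hK.1.dvr π hπ hπq ξ hξ)
    (hrel : RelRec M q Fact.out hqM A K hK.1.dvr π hπ hπq ξ hξ m) :
    RecProp M q Fact.out hqM A K m hK.1.dvr π hπ hπq ξ hξ :=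
  ⟨d1 hqM hπ hπq hξ haux hA hK hnak, d2 hqM hπ hπq hξ haux hA hK hnak,
    d5 hqM hπ hπq hξ hA hK hm,
    tor hqM hπ hπq hξ hA hK hm hqm
      (ChainM3.model3_rec hA hK.1 hπ hπq hξ (d1 hqM hπ hπq hξ haux hA hK hnak)
        (d2 hqM hπ hπq hξ haux hA hK hnak)) hrel⟩

end Closers

/-! ### The chain from the two named inputs -/

section Chain

variable (M q : ℕ) [NeZero M] [NeZero q] [Fact q.Prime]

/-- **The chain over the inertia field from [B1-nak] and [TOR-REL].** -/
theorem chainL_of_nak_rel (hqM : ¬ q ∣ M) (haux : Plan.AuxHyp q M)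
    (h : ∀ m : ℕ, m ≠ 0 → ¬ q ∣ m → ∀ A : ValuationSubring Qb, A.LiesOverPrime q →
      ∀ (hdvr : IsDiscreteValuationRing (OK A (UnrBaseL.inertiaField A)))
        (π : OK A (UnrBaseL.inertiaField A)) (hπ : Irreducible π)
        (hπq : incO A (UnrBaseL.inertiaField A) π = (q : Qb)) (ξ : Qb)
        (hξ : IsPrimitiveRoot ξ q),
        NakRec M q Fact.out hqM A (UnrBaseL.inertiaField A) hdvr π hπ hπq ξ hξ ∧
        RelRec M q Fact.out hqM A (UnrBaseL.inertiaField A) hdvr π hπ hπq ξ hξ m) :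
    LocAsm3L.ChainStatementL M q :=
  ChainM3.chainL_of_rec M q hqM (fun m hm hqm A hA _ π hπ hπq ξ hξ =>
    recProp hqM hπ hπq hξ haux hA (LocAsm3L.unrBase_inertiaField hA) hm hqm
      (h m hm hqm A hA _ π hπ hπq ξ hξ).1 (h m hm hqm A hA _ π hπ hπq ξ hξ).2)

/-- **The chain over every unramified base from [B1-nak] and [TOR-REL].** -/
theorem chain_of_nak_rel (hqM : ¬ q ∣ M) (haux : Plan.AuxHyp q M)
    (h : ∀ m : ℕ, m ≠ 0 → ¬ q ∣ m → ∀ A : ValuationSubring Qb, A.LiesOverPrime q →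
      ∀ K : IntermediateField ℚ Qb, Plan.UnrBase q A K →
      ∀ (hdvr : IsDiscreteValuationRing (OK A K)) (π : OK A K) (hπ : Irreducible π)
        (hπq : incO A K π = (q : Qb)) (ξ : Qb) (hξ : IsPrimitiveRoot ξ q),
        NakRec M q Fact.out hqM A K hdvr π hπ hπq ξ hξ ∧
        RelRec M q Fact.out hqM A K hdvr π hπ hπq ξ hξ m) :
    LocAsm3.ChainStatement M q :=
  ChainM3.chain_of_rec M q hqM (fun m hm hqm A hA K hK _ π hπ hπq ξ hξ =>
    recProp hqM hπ hπq hξ haux hA hK hm hqm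
      (h m hm hqm A hA K hK _ π hπ hπq ξ hξ).1 (h m hm hqm A hA K hK _ π hπ hπq ξ hξ).2)

end Chain

end Fermat.Agent.S36.ChainM3C

end
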