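import Mathlib
import Fermat.Agent.S36.WQ2
import Fermat.Agent.S34.Branch
import Fermat.Agent.S34.ResDeg
import Fermat.Agent.S34.V12Rel
import Fermat.Agent.S34.LocPlan
import Fermat.Agent.S34.ChartHypInst
import Fermat.Agent.S34.PointInst

/-!
# S36, package [B1-nak], leaf [N9-mod] : the modular inputs of `NakPlan.Z1Statement` /
`NakAsm.b1_at_W3_point` at the charts of levels `M`, `M q`, `M q²`

Setting: `q` prime, `q ∤ M`, `O = A ∩ K`.

* `CA = chart M A K (jK M K)` (the S18 chart `R0` of level `M`);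
* `CB` any subalgebra of `F_K(M q)` EQUAL to `chart (M q) A K (jK (M q) K)` (for instance the S34
  chart `chart (M q) A K (WKInst.JK …)`, by `WKInst.chart_JK_eq`);
* `CC` any subalgebra of `F_K(M q²)` EQUAL to `chart (M q²) A K (jK (M q²) K)` (for instance the
  chart of the symmetric coordinate `J = j * j_{q²}`).

The four `O`-algebra maps (restrictions of the field maps of `S34/WK`, `S36/WQ2`):

* `iota  : CA → CB`   the inclusion `α`                       (`x(Q) ↦ x(Q)`);
* `iota1 : CA → CB`   `β = w_q ∘ α`                           (`x(Q) ↦ x(Q^q)`);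
* `phiA  : CB → CC`   `α₂ ∘ w_q`                              (on `iota1 CA` : the inclusion);
* `phiB  : CB → CC`   `β₂ = w_{q²} ∘ α₂ ∘ w_q`                (`x(Q) ↦ x(Q^q)`);
* `delta g = phiB (iota1 g) - phiA (iota1 g)`                 (`g(Q^{q²}) - g(Q)`).

Results (`P2`, `P3` are ideals of `CB`, `CC` described by Gauss reductions: `P2 = CB ∩ 𝔪(V1 ∘ w_q)`
and `P3 = CC ∩ 𝔪(Gauss ∘ E)` for an ABSTRACT expansion `E : F_K(M q²) → ℚ̄((Q))` with
`E ∘ α₂ = coe` and `E ∘ β₂ ≡ coe ∘ w_q` — the middle-cusp embedding `ι3` of `S36/Iota3`):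

* `phi_comm`            (h2)  `phiA (iota a) = phiB (iota a)`;
* `iota_integral`       (h3)  `CB` is integral over `iota CA` (monic polynomial form);
* `phiA_mem_iff`, `phiB_mem_iff` (h4)  `phiA r ∈ P3 ↔ r ∈ P2`, `phiB r ∈ P3 ↔ r ∈ P2`;
* `exists_iota1_sub_mem` (h5) `CB = iota1 CA + P2` (residue degree one, `S34/Branch` + `ResDeg`);
* `delta_mem`           (h6)  `delta g ∈ P3`;
* `delta_ne_zero`       (h10) `delta f ≠ 0` unless the `q`-expansion of `f` is constant;
* `delta_notMem_P0`, `delta_notMem_P1`, `delta_notMem` (h01) for `f` with `iota1 f` in a proper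
  ideal `nB ⊇ P2` and `iota1 f ∉ P2` : `delta f ∉ P0`, `delta f ∉ P1`
  (`P0 = CC ∩ 𝔪(V1)`, `P1 = CC ∩ 𝔪(V1 ∘ w_{q²})`).
-/

set_option autoImplicit false

noncomputable section

namespace Fermat.Agent.S36.NakMod

open ModularCurve HahnSeries
open Fermat.Agent.S18 Fermat.Agent.S18.Arith Fermat.Agent.S18.ModelPlan
open Fermat.Agent.S34

/-! ### Generalities -/

/-- Restriction of a ring homomorphism between two `O`-algebras to subalgebras. -/
def resAlg {O F F' : Type*} [CommSemiring O] [Semiring F] [Semiring F'] [Algebra O F]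
    [Algebra O F'] (f : F →+* F') (hf : ∀ c : O, f (algebraMap O F c) = algebraMap O F' c)
    (S : Subalgebra O F) (S' : Subalgebra O F') (h : ∀ x ∈ S, f x ∈ S') : S →ₐ[O] S' where
  toFun x := ⟨f x, h x x.2⟩
  map_one' := Subtype.ext (map_one f)
  map_mul' _ _ := Subtype.ext (map_mul f _ _)
  map_zero' := Subtype.ext (map_zero f)
  map_add' _ _ := Subtype.ext (map_add f _ _)
  commutes' c := Subtype.ext (hf c)

theorem coe_resAlg {O F F' : Type*} [CommSemiring O] [Semiring F] [Semiring F'] [Algebra O F]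
    [Algebra O F'] (f : F →+* F') (hf : ∀ c : O, f (algebraMap O F c) = algebraMap O F' c)
    (S : Subalgebra O F) (S' : Subalgebra O F') (h : ∀ x ∈ S, f x ∈ S') (x : S) :
    ((resAlg f hf S S' h x : S') : F') = f x := rfl

/-- A series fixed by `Q ↦ Q^n` (`n ≥ 2`) is constant. -/
theorem eq_C_of_qExpand_eq {R : Type*} [CommRing R] (n : ℕ) [NeZero n] (hn : 2 ≤ n)
    {s : LaurentSeries R} (h : qExpand R n s = s) : s = HahnSeries.C (s.coeff 0) := by
  have hn0 : (0 : ℤ) < (n : ℤ) := by exact_mod_cast Nat.pos_of_ne_zero (NeZero.ne n)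
  have hn2 : (2 : ℤ) ≤ (n : ℤ) := by exact_mod_cast hn
  -- coefficients at nonzero exponents vanish, by strong induction on `|k|`
  have key : ∀ (m : ℕ) (k : ℤ), k.natAbs = m → k ≠ 0 → s.coeff k = 0 := by
    intro m
    induction m using Nat.strong_induction_on with
    | _ m ih =>
      intro k hkm hk0
      by_cases hdvd : (n : ℤ) ∣ k
      · obtain ⟨l, rfl⟩ := hdvd
        have hl0 : l ≠ 0 := by
          rintro rfl
          exact hk0 (mul_zero _)
        have hlt : l.natAbs < m := by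
          rw [← hkm, Int.natAbs_mul, Int.natAbs_natCast]
          have hl1 : 0 < l.natAbs := Int.natAbs_pos.mpr hl0
          nlinarith
        have h1 : s.coeff ((n : ℤ) * l) = s.coeff l := by
          conv_lhs => rw [← h]
          exact qExpand_coeff_mul n s l
        rw [h1]
        exact ih _ hlt l rfl hl0
      · rw [← h]
        exact qExpand_coeff_of_not_dvd n s hdvd
  ext k
  by_cases hk : k = 0
  · subst hk
    simp
  · rw [key _ k rfl hk]
    exact (HahnSeries.coeff_single_of_ne hk).symm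

variable (M q : ℕ) [NeZero M] [NeZero q] (hq : q.Prime) (hqM : ¬ q ∣ M)
variable {A : ValuationSubring Qb} {K : IntermediateField ℚ Qb}

/-! ### Gauss integrality on the charts `j ≠ ∞` -/

/-- Elements of the chart `j ≠ ∞` (any level) are Gauss-integral. -/
theorem exists_gRel_of_mem (N : ℕ) [NeZero N] (hdvr : IsDiscreteValuationRing (OK A K))
    {x : FK N K} (hx : x ∈ chart N A K (jK N K)) :
    ∃ y, GRel A ((x : FK N K) : LaurentSeries Qb) y :=
  ModelRed.exists_gRel_of_mem_chart N (GRel.gRelStatement A) (Branch.dich_level N hdvr) (jK N K)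
    ⟨jqModC (IsLocalRing.ResidueField A), QExpDefs.gRel_jΩ (GRel.gRelStatement A)⟩ x hx

/-! ### The four maps -/

section Maps

variable (CB : Subalgebra (OK A K) (FK (M * q) K))
  (hCB : CB = chart (M * q) A K (jK (M * q) K))
  (CC : Subalgebra (OK A K) (FK (M * q * q) K))
  (hCC : CC = chart (M * q * q) A K (jK (M * q * q) K))

/-- `ι = α : CA → CB`, the inclusion. -/
def iota : chart M A K (jK M K) →ₐ[OK A K] CB :=
  resAlg (O := OK A K) (WK.alphaK M q K) (fun c => WK.alphaK_constK M q K (c : K))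
    (chart M A K (jK M K)) CB
    (fun x hx => by rw [hCB]; exact WK.alphaK_mem_chart_jK M q A K hx)

/-- `ι1 = β : CA → CB`, `x(Q) ↦ x(Q^q)`. -/
def iota1 : chart M A K (jK M K) →ₐ[OK A K] CB :=
  resAlg (O := OK A K) (WK.betaK M q hq hqM K)
    (fun c => WK.betaK_constK M q hq hqM K (c : K)) (chart M A K (jK M K)) CB
    (fun x hx => by rw [hCB]; exact WK.betaK_mem_chart_jK M q hq hqM A K hx)

/-- `φa = α₂ ∘ w_q : CB → CC`. -/
def phiA : CB →ₐ[OK A K] CC :=
  resAlg (O := OK A K) ((WQ2.alphaK2 M q K).comp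
      ((WK.wK M q hq hqM K : FK (M * q) K ≃+* FK (M * q) K) : FK (M * q) K →+* FK (M * q) K))
    (fun c => by
      have h1 := WK.wK_algebraMap_OK M q hq hqM K A c
      have h2 : WQ2.alphaK2 M q K (algebraMap (OK A K) (FK (M * q) K) c)
          = algebraMap (OK A K) (FK (M * q * q) K) c := WQ2.alphaK2_constK M q K (c : K)
      rw [RingHom.comp_apply, RingHom.coe_coe, h1, h2]) CB CC
    (fun x hx => by
      rw [hCC]
      rw [hCB] at hx
      exact WQ2.alphaK2_mem_chart_jK M q A K (WK.wK_mem_chart_jK M q hq hqM A K hx))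

/-- `φb = β₂ : CB → CC`, `x(Q) ↦ x(Q^q)`. -/
def phiB : CB →ₐ[OK A K] CC :=
  resAlg (O := OK A K) (WQ2.betaK2 M q hq hqM K)
    (fun c => WQ2.betaK2_constK M q hq hqM K (c : K)) CB CC
    (fun x hx => by
      rw [hCC]
      rw [hCB] at hx
      exact WQ2.betaK2_mem_chart_jK M q hq hqM A K hx)

theorem coe_iota (a : chart M A K (jK M K)) :
    ((iota M q CB hCB a : CB) : FK (M * q) K) = WK.alphaK M q K a := rfl

theorem coe_iota1 (a : chart M A K (jK M K)) :
    ((iota1 M q hq hqM CB hCB a : CB) : FK (M * q) K) = WK.betaK M q hq hqM K a := rfl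

theorem coe_phiA (r : CB) :
    ((phiA M q hq hqM CB hCB CC hCC r : CC) : FK (M * q * q) K)
      = WQ2.alphaK2 M q K (WK.wK M q hq hqM K r) := rfl

theorem coe_phiB (r : CB) :
    ((phiB M q hq hqM CB hCB CC hCC r : CC) : FK (M * q * q) K)
      = WQ2.betaK2 M q hq hqM K r := rfl

/-- `δ_g = φb (ι1 g) - φa (ι1 g)`, the function `g(Q^{q²}) - g(Q)`. -/
def delta (g : chart M A K (jK M K)) : CC :=
  phiB M q hq hqM CB hCB CC hCC (iota1 M q hq hqM CB hCB g)
    - phiA M q hq hqM CB hCB CC hCC (iota1 M q hq hqM CB hCB g)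

theorem delta_def (g : chart M A K (jK M K)) :
    delta M q hq hqM CB hCB CC hCC g
      = phiB M q hq hqM CB hCB CC hCC (iota1 M q hq hqM CB hCB g)
        - phiA M q hq hqM CB hCB CC hCC (iota1 M q hq hqM CB hCB g) := rfl

/-- `φa (ι1 g) = g`, read in `F_K(M q²)`. -/
theorem coe_phiA_iota1 (g : chart M A K (jK M K)) :
    ((phiA M q hq hqM CB hCB CC hCC (iota1 M q hq hqM CB hCB g) : CC) : FK (M * q * q) K)
      = WQ2.alphaK2 M q K (WK.alphaK M q K g) := by
  rw [coe_phiA, coe_iota1, WK.wK_betaK]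

/-- The `q`-expansion of `φa (ι1 g)` is that of `g`. -/
theorem coe_coe_phiA_iota1 (g : chart M A K (jK M K)) :
    (((phiA M q hq hqM CB hCB CC hCC (iota1 M q hq hqM CB hCB g) : CC) : FK (M * q * q) K) :
        LaurentSeries Qb) = ((g : FK M K) : LaurentSeries Qb) := by
  rw [coe_phiA_iota1, WQ2.coe_alphaK2, WK.coe_alphaK]

/-- The `q`-expansion of `φb (ι1 g)` is `g(Q^{q²})`. -/
theorem coe_coe_phiB_iota1 (g : chart M A K (jK M K)) :
    (((phiB M q hq hqM CB hCB CC hCC (iota1 M q hq hqM CB hCB g) : CC) : FK (M * q * q) K) :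
        LaurentSeries Qb) = qExpand Qb q (qExpand Qb q ((g : FK M K) : LaurentSeries Qb)) := by
  rw [coe_phiB, coe_iota1, WQ2.coe_betaK2, WK.coe_betaK]

/-- The `q`-expansion of `δ_g` is `g(Q^{q²}) - g(Q)`. -/
theorem coe_coe_delta (g : chart M A K (jK M K)) :
    (((delta M q hq hqM CB hCB CC hCC g : CC) : FK (M * q * q) K) : LaurentSeries Qb)
      = qExpand Qb q (qExpand Qb q ((g : FK M K) : LaurentSeries Qb))
        - ((g : FK M K) : LaurentSeries Qb) := by
  rw [delta_def, Subalgebra.coe_sub, Subfield.coe_sub, coe_coe_phiB_iota1, coe_coe_phiA_iota1]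

/-- `w_{q²} δ_g = - δ_g`. -/
theorem wK2_delta (g : chart M A K (jK M K)) :
    WQ2.wK2 M q hq hqM K ((delta M q hq hqM CB hCB CC hCC g : CC) : FK (M * q * q) K)
      = - ((delta M q hq hqM CB hCB CC hCC g : CC) : FK (M * q * q) K) := by
  rw [delta_def, Subalgebra.coe_sub, map_sub, coe_phiB, coe_phiA, coe_iota1, WQ2.wK2_betaK2,
    WQ2.wK2_alphaK2, WK.wK_wK, neg_sub]

/-! ### (h2) : `φa ∘ ι = φb ∘ ι` -/

/-- **(h2)** `φa (ι a) = φb (ι a)` : both are `a(Q^q)`. -/
theorem phi_comm (a : chart M A K (jK M K)) :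
    phiA M q hq hqM CB hCB CC hCC (iota M q CB hCB a)
      = phiB M q hq hqM CB hCB CC hCC (iota M q CB hCB a) := by
  apply Subtype.ext
  rw [coe_phiA, coe_phiB, coe_iota]
  apply Subtype.ext
  rw [WQ2.coe_alphaK2, WK.wK_alphaK, WK.coe_betaK, WQ2.coe_betaK2, WK.coe_alphaK]

/-! ### (h3) : `CB` is integral over `ι CA` -/

include hCB in
/-- **(h3)** every element of `CB` is a root of a monic polynomial with coefficients in `ι CA`. -/
theorem iota_integral (b : CB) :
    ∃ p : Polynomial (chart M A K (jK M K)), p.Monic ∧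
      Polynomial.eval₂ (iota M q CB hCB : chart M A K (jK M K) →+* CB) b p = 0 := by
  classical
  set f : chart M A K (jK M K) →+* FK (M * q) K :=
    (CB.val : CB →+* FK (M * q) K).comp
      (iota M q CB hCB : chart M A K (jK M K) →+* CB) with hf
  have hfa : ∀ a : chart M A K (jK M K), f a = WK.alphaK M q K a := fun a => rfl
  -- `O[j] ⊆ range f`
  have hrange : ∀ z ∈ Algebra.adjoin (OK A K) {jK (M * q) K}, z ∈ Set.range f := by
    intro z hz
    induction hz using Algebra.adjoin_induction with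
    | mem z hz =>
      rw [Set.mem_singleton_iff] at hz
      refine ⟨⟨jK M K, (mem_chart_iff M A K).mpr (isIntegral_algebraMap
        (x := (⟨jK M K, Algebra.subset_adjoin (Set.mem_singleton _)⟩ :
          Algebra.adjoin (OK A K) {jK M K})))⟩, ?_⟩
      rw [hfa, hz]
      exact WK.alphaK_jK M q K
    | algebraMap c =>
      refine ⟨algebraMap (OK A K) (chart M A K (jK M K)) c, ?_⟩
      rw [hfa]
      exact WK.alphaK_constK M q K (c : K)
    | add y z _ _ hy hz =>
      obtain ⟨y', rfl⟩ := hy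
      obtain ⟨z', rfl⟩ := hz
      exact ⟨y' + z', map_add f _ _⟩
    | mul y z _ _ hy hz =>
      obtain ⟨y', rfl⟩ := hy
      obtain ⟨z', rfl⟩ := hz
      exact ⟨y' * z', map_mul f _ _⟩
  have hb : IsIntegral (Algebra.adjoin (OK A K) {jK (M * q) K}) (b : FK (M * q) K) := by
    have h1 : (b : FK (M * q) K) ∈ chart (M * q) A K (jK (M * q) K) := hCB ▸ b.2
    exact (mem_chart_iff (M * q) A K).mp h1
  obtain ⟨p, hpm, hp⟩ := hb
  -- the polynomial over `F_K(M q)`, with coefficients in the range of `f`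
  have hlift : p.map (algebraMap (Algebra.adjoin (OK A K) {jK (M * q) K}) (FK (M * q) K))
      ∈ Polynomial.lifts f := by
    rw [Polynomial.lifts_iff_coeff_lifts]
    intro n
    rw [Polynomial.coeff_map]
    exact hrange _ (p.coeff n).2
  obtain ⟨p', hp'map, -, hp'm⟩ :=
    Polynomial.lifts_and_degree_eq_and_monic hlift (hpm.map _)
  refine ⟨p', hp'm, ?_⟩
  apply Subtype.ext
  have h2 : ((Polynomial.eval₂ (iota M q CB hCB : chart M A K (jK M K) →+* CB) b p' : CB) :
      FK (M * q) K) = Polynomial.eval₂ f (b : FK (M * q) K) p' := by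
    have h3 := Polynomial.hom_eval₂ p' (iota M q CB hCB : chart M A K (jK M K) →+* CB)
      (CB.val : CB →+* FK (M * q) K) b
    exact h3
  rw [h2, ← Polynomial.eval_map, hp'map, Polynomial.eval_map]
  exact hp

/-! ### (h4), (h5), (h6) : the vertical primes `P2 ⊆ CB`, `P3 ⊆ CC` -/

section Vert

variable (P2 : Ideal CB) (P3 : Ideal CC) (E : FK (M * q * q) K →+* LaurentSeries Qb)

/-- **(h4a)** `φa r ∈ P3 ↔ r ∈ P2`. -/
theorem phiA_mem_iff
    (hP2 : ∀ r : CB, r ∈ P2 ↔
      GRel A ((WK.wK M q hq hqM K (r : FK (M * q) K) : FK (M * q) K) : LaurentSeries Qb) 0)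
    (hP3 : ∀ r : CC, r ∈ P3 ↔ GRel A (E (r : FK (M * q * q) K)) 0)
    (hEα : ∀ x : FK (M * q) K, E (WQ2.alphaK2 M q K x) = (x : LaurentSeries Qb))
    (r : CB) : phiA M q hq hqM CB hCB CC hCC r ∈ P3 ↔ r ∈ P2 := by
  rw [hP3, hP2, coe_phiA, hEα]

/-- **(h4b)** `φb r ∈ P3 ↔ r ∈ P2`. -/
theorem phiB_mem_iff (hdvr : IsDiscreteValuationRing (OK A K))
    (hP2 : ∀ r : CB, r ∈ P2 ↔
      GRel A ((WK.wK M q hq hqM K (r : FK (M * q) K) : FK (M * q) K) : LaurentSeries Qb) 0)
    (hP3 : ∀ r : CC, r ∈ P3 ↔ GRel A (E (r : FK (M * q * q) K)) 0)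
    (hEβ : ∀ (x : FK (M * q) K) (y : LaurentSeries (IsLocalRing.ResidueField A)),
      GRel A ((WK.wK M q hq hqM K x : FK (M * q) K) : LaurentSeries Qb) y →
      GRel A (E (WQ2.betaK2 M q hq hqM K x)) y)
    (r : CB) : phiB M q hq hqM CB hCB CC hCC r ∈ P3 ↔ r ∈ P2 := by
  rw [hP3, hP2, coe_phiB]
  constructor
  · intro h
    have hr : (r : FK (M * q) K) ∈ chart (M * q) A K (jK (M * q) K) := hCB ▸ r.2
    obtain ⟨y, hy⟩ := exists_gRel_of_mem (M * q) hdvr (WK.wK_mem_chart_jK M q hq hqM A K hr)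
    have h3 := (GRel.gRelStatement A).unique _ _ _ (hEβ _ y hy) h
    rw [h3] at hy
    exact hy
  · exact hEβ _ 0

/-- **(h5)** residue degree one along `P2` : `CB = ι1 CA + P2`. -/
theorem exists_iota1_sub_mem (hA : A.LiesOverPrime q) (hB : BaseFacts q A K)
    (hP2 : ∀ r : CB, r ∈ P2 ↔
      GRel A ((WK.wK M q hq hqM K (r : FK (M * q) K) : FK (M * q) K) : LaurentSeries Qb) 0)
    (r : CB) : ∃ g : chart M A K (jK M K), r - iota1 M q hq hqM CB hCB g ∈ P2 := by
  have : Fact q.Prime := ⟨hq⟩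
  have hr : (r : FK (M * q) K) ∈ chart (M * q) A K (jK (M * q) K) := hCB ▸ r.2
  have hw : WK.wK M q hq hqM K (r : FK (M * q) K) ∈ R0 (M * q) q A K :=
    WK.wK_mem_chart_jK M q hq hqM A K hr
  obtain ⟨x', hx', hg⟩ := Branch.exists_level_R0 M q hqM hA hB (M * q)
    (ResDeg.hf1 M q hq hqM hA hB) _ hw
  refine ⟨⟨x', hx'⟩, ?_⟩
  rw [hP2, Subalgebra.coe_sub, coe_iota1, map_sub, WK.wK_betaK, Subfield.coe_sub,
    WK.coe_alphaK]
  exact hg

/-- **(h6)** `δ_g ∈ P3` for every `g`. -/
theorem delta_mem (hdvr : IsDiscreteValuationRing (OK A K))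
    (hP3 : ∀ r : CC, r ∈ P3 ↔ GRel A (E (r : FK (M * q * q) K)) 0)
    (hEα : ∀ x : FK (M * q) K, E (WQ2.alphaK2 M q K x) = (x : LaurentSeries Qb))
    (hEβ : ∀ (x : FK (M * q) K) (y : LaurentSeries (IsLocalRing.ResidueField A)),
      GRel A ((WK.wK M q hq hqM K x : FK (M * q) K) : LaurentSeries Qb) y →
      GRel A (E (WQ2.betaK2 M q hq hqM K x)) y)
    (g : chart M A K (jK M K)) : delta M q hq hqM CB hCB CC hCC g ∈ P3 := by
  rw [hP3, delta_def, Subalgebra.coe_sub, map_sub, coe_phiA_iota1, hEα, WK.coe_alphaK, coe_phiB,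
    coe_iota1]
  obtain ⟨y, hy⟩ := exists_gRel_of_mem M hdvr g.2
  have h1 : GRel A (E (WQ2.betaK2 M q hq hqM K (WK.betaK M q hq hqM K (g : FK M K)))) y := by
    apply hEβ
    rw [WK.wK_betaK, WK.coe_alphaK]
    exact hy
  have h2 := V12Rel.gRel_sub A h1 hy
  rwa [sub_self] at h2

end Vert

/-! ### (h10) : `δ_f ≠ 0`, and the reduction of `f` when `δ_f` reduces to `0` -/

section NonConst

include hq in
/-- If `δ_f = 0`, the `q`-expansion of `f` is constant. -/
theorem coe_eq_C_of_delta_eq_zero (f : chart M A K (jK M K))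
    (h : delta M q hq hqM CB hCB CC hCC f = 0) :
    ((f : FK M K) : LaurentSeries Qb)
      = HahnSeries.C (((f : FK M K) : LaurentSeries Qb).coeff 0) := by
  have h1 := coe_coe_delta M q hq hqM CB hCB CC hCC f
  rw [h, Subalgebra.coe_zero, Subfield.coe_zero, qExpand_qExpand] at h1
  have h2 : 2 ≤ q * q := by nlinarith [hq.two_le]
  exact eq_C_of_qExpand_eq (q * q) h2 (sub_eq_zero.mp h1.symm)

include hq in
/-- **(h10)** `δ_f ≠ 0` if the `q`-expansion of `f` is not constant. -/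
theorem delta_ne_zero (f : chart M A K (jK M K))
    (hf : ∀ c : Qb, ((f : FK M K) : LaurentSeries Qb) ≠ HahnSeries.C c) :
    delta M q hq hqM CB hCB CC hCC f ≠ 0 := fun h =>
  hf _ (coe_eq_C_of_delta_eq_zero M q hq hqM CB hCB CC hCC f h)

include hq in
/-- If the `q`-expansion of `δ_f` has Gauss reduction `0`, the Gauss reduction of `f` is
constant. -/
theorem red_eq_C_of_gRel_delta (f : chart M A K (jK M K))
    {y : LaurentSeries (IsLocalRing.ResidueField A)}
    (hy : GRel A ((f : FK M K) : LaurentSeries Qb) y)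
    (h : GRel A (((delta M q hq hqM CB hCB CC hCC f : CC) : FK (M * q * q) K) :
      LaurentSeries Qb) 0) : y = HahnSeries.C (y.coeff 0) := by
  rw [coe_coe_delta] at h
  have h1 := V12Rel.gRel_sub A (V12Rel.gRel_qExpand A q (V12Rel.gRel_qExpand A q hy)) hy
  have h2 := (GRel.gRelStatement A).unique _ _ _ h1 h
  rw [qExpand_qExpand] at h2
  have h3 : 2 ≤ q * q := by nlinarith [hq.two_le]
  exact eq_C_of_qExpand_eq (q * q) h3 (sub_eq_zero.mp h2)

include hq in
/-- The same for `w_{q²} δ_f = - δ_f`. -/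
theorem red_eq_C_of_gRel_wK2_delta (f : chart M A K (jK M K))
    {y : LaurentSeries (IsLocalRing.ResidueField A)}
    (hy : GRel A ((f : FK M K) : LaurentSeries Qb) y)
    (h : GRel A ((WQ2.wK2 M q hq hqM K
      ((delta M q hq hqM CB hCB CC hCC f : CC) : FK (M * q * q) K) : FK (M * q * q) K) :
      LaurentSeries Qb) 0) : y = HahnSeries.C (y.coeff 0) := by
  rw [wK2_delta, Subfield.coe_neg] at h
  have h1 := (GRel.gRelStatement A).neg _ _ h
  rw [neg_neg, neg_zero] at h1
  exact red_eq_C_of_gRel_delta M q hq hqM CB hCB CC hCC f hy h1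

end NonConst

/-! ### (h01) : `δ_f ∉ P0`, `δ_f ∉ P1` for `f` vanishing at the point but not along `P2` -/

section H01

variable (P2 : Ideal CB)

/-- If `ι1 f` lies in a proper ideal `nB ⊇ P2` but not in `P2`, the Gauss reduction of `f` is not
a constant. -/
theorem red_ne_C_of_mem (hB : BaseFacts q A K)
    (hP2 : ∀ r : CB, r ∈ P2 ↔
      GRel A ((WK.wK M q hq hqM K (r : FK (M * q) K) : FK (M * q) K) : LaurentSeries Qb) 0)
    (nB : Ideal CB) (hnB : nB ≠ ⊤) (hle : P2 ≤ nB) (f : chart M A K (jK M K))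
    (hfn : iota1 M q hq hqM CB hCB f ∈ nB) (hfV : iota1 M q hq hqM CB hCB f ∉ P2)
    {y : LaurentSeries (IsLocalRing.ResidueField A)}
    (hy : GRel A ((f : FK M K) : LaurentSeries Qb) y) : y ≠ HahnSeries.C (y.coeff 0) := by
  intro hyc
  have hG := GRel.gRelStatement A
  -- lift the constant to `O`
  obtain ⟨a, ha⟩ := IsLocalRing.residue_surjective (y.coeff 0)
  obtain ⟨x, hx, hax⟩ := hB.res_surj a
  have hres : resO A K (⟨x, ValuationSubring.mem_comap.mpr hx⟩ : OK A K) = y.coeff 0 := by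
    rw [← ha]
    exact hax.symm
  generalize (⟨x, ValuationSubring.mem_comap.mpr hx⟩ : OK A K) = c at hres
  have h1 : GRel A (((f : FK M K) : LaurentSeries Qb) - HahnSeries.C (incO A K c)) 0 := by
    have h2 := V12Rel.gRel_sub A hy (ModelRed.gRel_const K hG c)
    rw [hres, ← hyc, sub_self] at h2
    exact h2
  have h3 : iota1 M q hq hqM CB hCB f - algebraMap (OK A K) CB c ∈ P2 := by
    rw [hP2, Subalgebra.coe_sub, coe_iota1, map_sub, WK.wK_betaK, Subalgebra.coe_algebraMap,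
      WK.wK_algebraMap_OK, Subfield.coe_sub, WK.coe_alphaK]
    exact h1
  have h4 : algebraMap (OK A K) CB c ∈ nB := by
    have h5 := nB.sub_mem hfn (hle h3)
    rwa [sub_sub_cancel] at h5
  by_cases hc0 : y.coeff 0 = 0
  · apply hfV
    rw [hP2, coe_iota1, WK.wK_betaK, WK.coe_alphaK]
    rw [hyc, hc0, map_zero] at hy
    exact hy
  · have hu : IsUnit c := by
      by_contra hnu
      exact hc0 (hres ▸ ModelRed.resO_eq_zero_of_not_isUnit K c hnu)
    exact hnB (Ideal.eq_top_of_isUnit_mem _ h4 (hu.map (algebraMap (OK A K) CB)))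

include hq in
/-- **(h01)** for `f` with `ι1 f ∈ nB` (a proper ideal containing `P2`) and `ι1 f ∉ P2`:
`δ_f ∉ P0` and `δ_f ∉ P1`, where the elements of `P0` (resp. `P1`) have Gauss reduction `0`
(resp. after `w_{q²}`). -/
theorem delta_notMem (hB : BaseFacts q A K)
    (hP2 : ∀ r : CB, r ∈ P2 ↔
      GRel A ((WK.wK M q hq hqM K (r : FK (M * q) K) : FK (M * q) K) : LaurentSeries Qb) 0)
    (P0 P1 : Ideal CC)
    (hP0 : ∀ r : CC, r ∈ P0 → GRel A (((r : FK (M * q * q) K)) : LaurentSeries Qb) 0)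
    (hP1 : ∀ r : CC, r ∈ P1 →
      GRel A ((WQ2.wK2 M q hq hqM K (r : FK (M * q * q) K) : FK (M * q * q) K) :
        LaurentSeries Qb) 0)
    (nB : Ideal CB) (hnB : nB ≠ ⊤) (hle : P2 ≤ nB) (f : chart M A K (jK M K))
    (hfn : iota1 M q hq hqM CB hCB f ∈ nB) (hfV : iota1 M q hq hqM CB hCB f ∉ P2) :
    delta M q hq hqM CB hCB CC hCC f ∉ P0 ∧ delta M q hq hqM CB hCB CC hCC f ∉ P1 := by
  obtain ⟨y, hy⟩ := exists_gRel_of_mem M hB.dvr f.2
  have hne := red_ne_C_of_mem M q hq hqM CB hCB P2 hB hP2 nB hnB hle f hfn hfV hy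
  exact ⟨fun h => hne (red_eq_C_of_gRel_delta M q hq hqM CB hCB CC hCC f hy (hP0 _ h)),
    fun h => hne (red_eq_C_of_gRel_wK2_delta M q hq hqM CB hCB CC hCC f hy (hP1 _ h))⟩

end H01

end Maps

/-! ### Bridges: the vertical primes of an S34 chart in terms of Gauss reductions -/

section Bridge

variable {N : ℕ} [NeZero N] (hdvr : IsDiscreteValuationRing (OK A K)) {π : OK A K}
  (hπ : Irreducible π) (w : FK N K ≃+* FK N K) (R : Subalgebra (OK A K) (FK N K))
  (P : Fin 2 → Ideal R)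

include hπ in
/-- `P 0 = R ∩ π V1` is the set of elements of `R` with Gauss reduction `0`. -/
theorem mem_P0_iff_gRel (hyp : LocPlan.ChartHyp π (ChartHypInst.Vfam w hdvr) P) (r : R) :
    r ∈ P 0 ↔ GRel A ((r : FK N K) : LaurentSeries Qb) 0 := by
  rw [hyp.mem_P 0 r]
  constructor
  · rintro ⟨y, hy, h⟩
    exact PointInst.gRel_zero_of_eq_pi_mul hdvr hπ hy h
  · intro h
    obtain ⟨v, hv, hz⟩ := PointInst.exists_eq_pi_mul_of_gRel_zero hdvr hπ h
    exact ⟨v, hv, hz⟩

include hπ in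
/-- `P 1 = R ∩ π (V1 ∘ w)` is the set of elements `r` of `R` such that `w r` has Gauss
reduction `0`. -/
theorem mem_P1_iff_gRel
    (hw : ∀ c : OK A K, w (algebraMap (OK A K) (FK N K) c) = algebraMap (OK A K) (FK N K) c)
    (hyp : LocPlan.ChartHyp π (ChartHypInst.Vfam w hdvr) P) (r : R) :
    r ∈ P 1 ↔ GRel A ((w (r : FK N K) : FK N K) : LaurentSeries Qb) 0 := by
  rw [hyp.mem_P 1 r]
  constructor
  · rintro ⟨y, hy, h⟩
    have h1 : (r : FK N K) = algebraMap (OK A K) (FK N K) π * y := h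
    have h2 : w (r : FK N K) = algebraMap (OK A K) (FK N K) π * w y := by
      rw [h1, map_mul, hw]
    exact PointInst.gRel_zero_of_eq_pi_mul hdvr hπ hy h2
  · intro h
    obtain ⟨v, hv, hz⟩ := PointInst.exists_eq_pi_mul_of_gRel_zero hdvr hπ h
    refine ⟨w.symm v, ?_, ?_⟩
    · show w (w.symm v) ∈ GaussV.V1 N A K hdvr
      rw [w.apply_symm_apply]
      exact hv
    · show (r : FK N K) = algebraMap (OK A K) (FK N K) π * w.symm v
      apply w.injective
      rw [map_mul, hw, w.apply_symm_apply]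
      exact hz

end Bridge

end Fermat.Agent.S36.NakMod
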