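import Mathlib
import Fermat.Agent.S36.NakMod
import Fermat.Agent.S36.NakVert
import Fermat.Agent.S36.V3
import Fermat.Agent.S36.Model3Plan

/-!
# S36, package [B1-nak], [N9-mod] : the `C`-side bridges (level `M q²`)

`NakMod` (helper27) discharges the modular hypotheses of `NakAsm.b1_at_W3_point` in terms of an
abstract expansion `E` of `F_K(M q²)` and of the Gauss-reduction descriptions of the vertical
primes.  This file supplies those descriptions from the interface of record at level `M q²`: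
`Model3Plan.ChartHyp3 π ϖ V P` + `Model3Plan.ValHyp3 p e ϖ V` on a chart `CC`, where

* `V 0 = GaussV.V1` (the Gauss valuation ring of the `q`-expansion at `∞`),
* `V 1 = GaussV.V2 w_{q²}` (its transport by the Atkin–Lehner involution),
* `V 2 = H.W3` (the Gauss valuation ring along the middle-cusp embedding `ι`, `H : V3.Hyp3 …`),

with ARBITRARY uniformizers `ϖ i` (only `ValHyp3.unif_mem`, `unif_not`, `disc` are used).

* `exists_unit_of_disc`   : in a valuation ring, a nonzero non-unit `s` with `s = ϖ ^ k · unit`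
                            and `ϖ ∈ s V` is `ϖ · unit`;
* `gRel_zero_of_mem_P0`   : `r ∈ P 0 → GRel A ↑r 0`                       (`hP0` of `NakMod`);
* `gRel_zero_of_mem_P1`   : `r ∈ P 1 → GRel A ↑(w_{q²} r) 0`              (`hP1` of `NakMod`);
* `sE_eq_unif_mul`        : `s = j_{q²} - j = ϖ 2 · unit` in `V 2`;
* `mem_P2_iff_gRel`       : `r ∈ P 2 ↔ GRel A (ι r) 0`                    (`hP3` of `NakMod`);
* `coe_delta_j`           : `δ_j = j_{q²} - j = Wit3.sE`;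
* `delta_j_gen`           : `δ_j` generates `P 2` at `P 2`                (`hj` of `b1_at_W3_point`);
* `b1_inputs`             : the bundle `hVa`, `hVb`, `hdeg`, `hdP`, `hj`, `h01` of
                            `NakAsm.b1_at_W3_point`, VERBATIM, for the maps of `NakMod`.
-/

set_option autoImplicit false

namespace Fermat.Agent.S36.NakModC

open ModularCurve HahnSeries
open Fermat.Agent.S18 Fermat.Agent.S18.Arith Fermat.Agent.S18.ModelPlan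
open Fermat.Agent.S34 Fermat.Agent.S36.Model3Plan

/-! ### A valuation-ring lemma -/

section Gen

variable {E : Type*} [Field E]

/-- In a valuation subring `V`: if `s` is a nonzero non-unit with `s = ϖ ^ k · unit` and
`ϖ ∈ s V`, then `s = ϖ · unit`. -/
theorem exists_unit_of_disc (V : ValuationSubring E) {ϖ s : E} (hϖ : ϖ ∈ V) (hs0 : s ≠ 0)
    (hs' : s⁻¹ ∉ V) (hdisc : ∃ k : ℤ, ∃ u ∈ V, u⁻¹ ∈ V ∧ s = ϖ ^ k * u)
    (hz : ∃ z ∈ V, ϖ = s * z) : ∃ u ∈ V, u⁻¹ ∈ V ∧ s = ϖ * u := by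
  obtain ⟨k, u, hu, hu', hsk⟩ := hdisc
  obtain ⟨z, hz, hϖz⟩ := hz
  have hk : 1 ≤ k := by
    by_contra hk
    apply hs'
    obtain ⟨n, hn⟩ := Int.eq_ofNat_of_zero_le (by omega : 0 ≤ -k)
    have h1 : s⁻¹ = ϖ ^ n * u⁻¹ := by
      rw [hsk, mul_inv, ← zpow_neg, hn, zpow_natCast]
    rw [h1]
    exact V.mul_mem _ _ (V.pow_mem hϖ n) hu'
  have hϖ0 : ϖ ≠ 0 := by
    rintro rfl
    apply hs0
    rw [hsk, zero_zpow k (by omega), zero_mul]
  obtain ⟨n, hn⟩ : ∃ n : ℕ, k = n + 1 := ⟨(k - 1).toNat, by omega⟩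
  rw [hn, zpow_add_one₀ hϖ0, zpow_natCast] at hsk
  have h1 : ϖ ^ n * u * z = 1 := by
    apply mul_left_cancel₀ hϖ0
    rw [mul_one]
    calc ϖ * (ϖ ^ n * u * z) = (ϖ ^ n * ϖ * u) * z := by ring
      _ = s * z := by rw [← hsk]
      _ = ϖ := hϖz.symm
  refine ⟨ϖ ^ n * u, V.mul_mem _ _ (V.pow_mem hϖ n) hu, ?_, by rw [hsk]; ring⟩
  rw [inv_eq_of_mul_eq_one_right h1]
  exact hz

end Gen

/-! ### The vertical primes of a level-`M q²` chart in terms of Gauss reductions -/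

section Bridge

variable (M q : ℕ) [NeZero M] [NeZero q] (hq : q.Prime) (hqM : ¬ q ∣ M)
variable {A : ValuationSubring Qb} {K : IntermediateField ℚ Qb}
variable (CC : Subalgebra (OK A K) (FK (M * q * q) K))
variable {π : OK A K} {p : FK (M * q * q) K} {e : Fin 3 → ℕ} {ϖ : Fin 3 → FK (M * q * q) K}
  {V : Fin 3 → ValuationSubring (FK (M * q * q) K)} {P : Fin 3 → Ideal CC}

/-- **(hP0)** the elements of `P 0 = CC ∩ ϖ 0 (V 0)`, `V 0` the Gauss valuation ring, have Gauss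
reduction `0`. -/
theorem gRel_zero_of_mem_P0 (hdvr : IsDiscreteValuationRing (OK A K))
    (hyp : ChartHyp3 π ϖ V P) (hval : ValHyp3 p e ϖ V)
    (hV0 : V 0 = GaussV.V1 (M * q * q) A K hdvr) (r : CC) (hr : r ∈ P 0) :
    GRel A (((r : FK (M * q * q) K)) : LaurentSeries Qb) 0 := by
  obtain ⟨y, hy, hry⟩ := (hyp.mem_P 0 r).mp hr
  have hϖ : ϖ 0 ∈ GaussV.V1 (M * q * q) A K hdvr := by rw [← hV0]; exact hval.unif_mem 0
  have hϖ' : (ϖ 0)⁻¹ ∉ GaussV.V1 (M * q * q) A K hdvr := by rw [← hV0]; exact hval.unif_not 0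
  have hy' : y ∈ GaussV.V1 (M * q * q) A K hdvr := by rw [← hV0]; exact hy
  have h0 : GaussV.red1 hdvr ⟨ϖ 0, hϖ⟩ = 0 := by
    by_contra h
    exact hϖ' (GaussV.inv_mem_V1 hdvr ⟨ϖ 0, hϖ⟩ h)
  have h1 := GaussV.gRel_red1 hdvr ⟨ϖ 0, hϖ⟩
  rw [h0] at h1
  have h3 := (GRel.gRelStatement A).mul _ _ _ _ h1 (GaussV.gRel_red1 hdvr ⟨y, hy'⟩)
  rw [zero_mul] at h3
  have h4 : (r : FK (M * q * q) K) = ϖ 0 * y := hry
  rw [h4]
  exact h3

/-- **(hP1)** the elements `r` of `P 1 = CC ∩ ϖ 1 (V 1)`, `V 1 = V1 ∘ w_{q²}`, are such that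
`w_{q²} r` has Gauss reduction `0`. -/
theorem gRel_zero_of_mem_P1 (hdvr : IsDiscreteValuationRing (OK A K))
    (hyp : ChartHyp3 π ϖ V P) (hval : ValHyp3 p e ϖ V)
    (hV1 : V 1 = GaussV.V2 (WQ2.wK2 M q hq hqM K) hdvr) (r : CC) (hr : r ∈ P 1) :
    GRel A ((WQ2.wK2 M q hq hqM K (r : FK (M * q * q) K) : FK (M * q * q) K) :
      LaurentSeries Qb) 0 := by
  obtain ⟨y, hy, hry⟩ := (hyp.mem_P 1 r).mp hr
  have hϖ : WQ2.wK2 M q hq hqM K (ϖ 1) ∈ GaussV.V1 (M * q * q) A K hdvr := by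
    have h := hval.unif_mem 1
    rw [hV1] at h
    exact h
  have hϖ' : (WQ2.wK2 M q hq hqM K (ϖ 1))⁻¹ ∉ GaussV.V1 (M * q * q) A K hdvr := by
    have h := hval.unif_not 1
    rw [hV1] at h
    intro h'
    apply h
    show WQ2.wK2 M q hq hqM K (ϖ 1)⁻¹ ∈ GaussV.V1 (M * q * q) A K hdvr
    rw [map_inv₀]
    exact h'
  have hy' : WQ2.wK2 M q hq hqM K y ∈ GaussV.V1 (M * q * q) A K hdvr := by
    rw [hV1] at hy
    exact hy
  have h0 : GaussV.red1 hdvr ⟨WQ2.wK2 M q hq hqM K (ϖ 1), hϖ⟩ = 0 := by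
    by_contra h
    exact hϖ' (GaussV.inv_mem_V1 hdvr ⟨_, hϖ⟩ h)
  have h1 := GaussV.gRel_red1 hdvr ⟨WQ2.wK2 M q hq hqM K (ϖ 1), hϖ⟩
  rw [h0] at h1
  have h3 := (GRel.gRelStatement A).mul _ _ _ _ h1 (GaussV.gRel_red1 hdvr ⟨_, hy'⟩)
  rw [zero_mul] at h3
  have h4 : (r : FK (M * q * q) K) = ϖ 1 * y := hry
  rw [h4, map_mul]
  exact h3

variable {M q hq hqM}
variable {K' : IntermediateField ℚ Qb} {ξ : Qb} {hξ0 : ξ ≠ 0}
  {ι : FK (M * q * q) K →+* LaurentSeries Qb} {ϖ' : OK A K'}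

/-- The uniformizer of record `ϖ 2` of `V 2 = W3` has reduction `0` along `ι`. -/
theorem gRel_unif2 (H : V3.Hyp3 M q hq hqM A K K' ξ hξ0 ι ϖ') (hval : ValHyp3 p e ϖ V)
    (hV2 : V 2 = H.W3) : GRel A (ι (ϖ 2)) 0 := by
  have hϖ : ϖ 2 ∈ H.W3 := by rw [← hV2]; exact hval.unif_mem 2
  have hϖ' : (ϖ 2)⁻¹ ∉ H.W3 := by rw [← hV2]; exact hval.unif_not 2
  have h0 : H.red3 ⟨ϖ 2, hϖ⟩ = 0 := by
    by_contra h
    exact hϖ' (H.inv_mem ⟨ϖ 2, hϖ⟩ h)
  have h1 := H.gRel_red3 ⟨ϖ 2, hϖ⟩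
  rw [h0] at h1
  exact h1

/-- `s = j_{q²} - j` is `ϖ 2 · unit` in `V 2 = W3`, for any uniformizer of record `ϖ 2`. -/
theorem sE_eq_unif_mul (H : V3.Hyp3 M q hq hqM A K K' ξ hξ0 ι ϖ') (hval : ValHyp3 p e ϖ V)
    (hV2 : V 2 = H.W3) :
    ∃ u ∈ V 2, u⁻¹ ∈ V 2 ∧ Wit3.sE M q hq hqM K = ϖ 2 * u := by
  have hϖ : ϖ 2 ∈ H.W3 := by rw [← hV2]; exact hval.unif_mem 2
  have h0 : H.red3 ⟨ϖ 2, hϖ⟩ = 0 :=
    H.red3_eq_of_gRel ⟨ϖ 2, hϖ⟩ (gRel_unif2 H hval hV2)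
  obtain ⟨z, hz, hϖz⟩ := (H.red3_eq_zero_iff ⟨ϖ 2, hϖ⟩).mp h0
  rw [hV2]
  refine exists_unit_of_disc H.W3 hϖ H.s_ne_zero H.s_inv_not_mem ?_ ⟨z, hz, hϖz⟩
  have h := hval.disc 2 (Wit3.sE M q hq hqM K) H.s_ne_zero
  rw [hV2] at h
  exact h

/-- **(hP3)** `P 2 = CC ∩ ϖ 2 (V 2)`, `V 2 = W3`, is the set of elements of `CC` with reduction
`0` along the middle-cusp embedding `ι`. -/
theorem mem_P2_iff_gRel (H : V3.Hyp3 M q hq hqM A K K' ξ hξ0 ι ϖ')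
    (hyp : ChartHyp3 π ϖ V P) (hval : ValHyp3 p e ϖ V) (hV2 : V 2 = H.W3) (r : CC) :
    r ∈ P 2 ↔ GRel A (ι (r : FK (M * q * q) K)) 0 := by
  rw [hyp.mem_P 2 r]
  constructor
  · rintro ⟨y, hy, hry⟩
    have hy' : y ∈ H.W3 := by rw [← hV2]; exact hy
    have h3 := (GRel.gRelStatement A).mul _ _ _ _ (gRel_unif2 H hval hV2)
      (H.gRel_red3 ⟨y, hy'⟩)
    rw [zero_mul] at h3
    have h4 : (r : FK (M * q * q) K) = ϖ 2 * y := hry
    rw [h4, map_mul]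
    exact h3
  · intro h
    have hr : (r : FK (M * q * q) K) ∈ H.W3 := H.mem_W3_of_gRel h
    have h0 : H.red3 ⟨(r : FK (M * q * q) K), hr⟩ = 0 := H.red3_eq_of_gRel ⟨_, hr⟩ h
    obtain ⟨z, hz, hrz⟩ := (H.red3_eq_zero_iff ⟨_, hr⟩).mp h0
    obtain ⟨u, hu, -, hsu⟩ := sE_eq_unif_mul H hval hV2
    refine ⟨u * z, (V 2).mul_mem _ _ hu (by rw [hV2]; exact hz), ?_⟩
    show (r : FK (M * q * q) K) = ϖ 2 * (u * z)
    have h5 : (r : FK (M * q * q) K) = Wit3.sE M q hq hqM K * z := hrz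
    rw [h5, hsu]
    exact mul_assoc _ _ _

end Bridge

/-! ### `δ_j` and the bundle for `NakAsm.b1_at_W3_point` -/

section Delta

variable (M q : ℕ) [NeZero M] [NeZero q] (hq : q.Prime) (hqM : ¬ q ∣ M)
variable {A : ValuationSubring Qb} {K : IntermediateField ℚ Qb}
variable (CB : Subalgebra (OK A K) (FK (M * q) K))
  (hCB : CB = chart (M * q) A K (jK (M * q) K))
  (CC : Subalgebra (OK A K) (FK (M * q * q) K))
  (hCC : CC = chart (M * q * q) A K (jK (M * q * q) K))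
variable {π : OK A K} {p : FK (M * q * q) K} {e : Fin 3 → ℕ} {ϖ : Fin 3 → FK (M * q * q) K}
  {V : Fin 3 → ValuationSubring (FK (M * q * q) K)} {P : Fin 3 → Ideal CC}
variable {K' : IntermediateField ℚ Qb} {ξ : Qb} {hξ0 : ξ ≠ 0}
  {ι : FK (M * q * q) K →+* LaurentSeries Qb} {ϖ' : OK A K'}

/-- `δ_j = j_{q²} - j` is the element `Wit3.sE` of `F_K(M q²)`. -/
theorem coe_delta_j (j : chart M A K (jK M K)) (hj : (j : FK M K) = jK M K) :
    ((NakMod.delta M q hq hqM CB hCB CC hCC j : CC) : FK (M * q * q) K)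
      = Wit3.sE M q hq hqM K := by
  rw [NakMod.delta_def, Subalgebra.coe_sub, NakMod.coe_phiA_iota1, NakMod.coe_phiB,
    NakMod.coe_iota1, hj, WK.alphaK_jK, WQ2.alphaK2_jK]
  rfl

/-- **(hj)** `δ_j` generates `P 2` at `P 2`. -/
theorem delta_j_gen (hfrac : IsFractionRing CC (FK (M * q * q) K))
    (H : V3.Hyp3 M q hq hqM A K K' ξ hξ0 ι ϖ')
    (hyp : ChartHyp3 π ϖ V P) (hval : ValHyp3 p e ϖ V) (hV2 : V 2 = H.W3)
    (j : chart M A K (jK M K)) (hj : (j : FK M K) = jK M K) :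
    ∀ y ∈ P 2, ∃ s : CC, s ∉ P 2 ∧ ∃ c : CC, s * y = c *
      (NakMod.phiB M q hq hqM CB hCB CC hCC (NakMod.iota1 M q hq hqM CB hCB j)
        - NakMod.phiA M q hq hqM CB hCB CC hCC (NakMod.iota1 M q hq hqM CB hCB j)) := by
  have hc := coe_delta_j M q hq hqM CB hCB CC hCC j hj
  obtain ⟨u, hu, hu', hsu⟩ := sE_eq_unif_mul H hval hV2
  have hδ0 : NakMod.delta M q hq hqM CB hCB CC hCC j ≠ 0 := by
    intro h0
    apply H.s_ne_zero
    rw [← hc, h0]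
    rfl
  have hδ : algebraMap CC (FK (M * q * q) K) (NakMod.delta M q hq hqM CB hCB CC hCC j)
      = ϖ 2 * u := by
    rw [← hsu, ← hc]
    rfl
  exact (NakVert.gen_at_P_of_unif hyp 2 hδ0 hu hu' hδ).2

/-- **The `C`-side inputs of `NakAsm.b1_at_W3_point`**, VERBATIM, for the maps of `NakMod`:
`hVa`, `hVb`, `hdeg`, `hdP`, `hj`, and `h01` (for every proper ideal `nB ⊇ PV`; in the
application `nB = φa⁻¹ n`).  Inputs: the interface of record `ChartHyp3` + `ValHyp3` on the chart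
`CC` with `V = (V1, V1 ∘ w_{q²}, W3)`, and the Gauss-reduction description `hPV` of the `V`-type
vertical prime `PV` of the level-`M q` chart `CB` (`NakMod.mem_P1_iff_gRel`). -/
theorem b1_inputs (hA : A.LiesOverPrime q) (hB : BaseFacts q A K)
    (hfrac : IsFractionRing CC (FK (M * q * q) K))
    (H : V3.Hyp3 M q hq hqM A K K' ξ hξ0 ι ϖ')
    (hyp : ChartHyp3 π ϖ V P) (hval : ValHyp3 p e ϖ V)
    (hV0 : V 0 = GaussV.V1 (M * q * q) A K hB.dvr)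
    (hV1 : V 1 = GaussV.V2 (WQ2.wK2 M q hq hqM K) hB.dvr) (hV2 : V 2 = H.W3)
    (PV : Ideal CB)
    (hPV : ∀ r : CB, r ∈ PV ↔
      GRel A ((WK.wK M q hq hqM K (r : FK (M * q) K) : FK (M * q) K) : LaurentSeries Qb) 0)
    (j : chart M A K (jK M K)) (hj : (j : FK M K) = jK M K) :
    (∀ r : CB, NakMod.phiA M q hq hqM CB hCB CC hCC r ∈ P 2 ↔ r ∈ PV) ∧
    (∀ r : CB, NakMod.phiB M q hq hqM CB hCB CC hCC r ∈ P 2 ↔ r ∈ PV) ∧
    (∀ r : CB, ∃ g : chart M A K (jK M K), r - NakMod.iota1 M q hq hqM CB hCB g ∈ PV) ∧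
    (∀ g : chart M A K (jK M K),
      NakMod.phiB M q hq hqM CB hCB CC hCC (NakMod.iota1 M q hq hqM CB hCB g)
        - NakMod.phiA M q hq hqM CB hCB CC hCC (NakMod.iota1 M q hq hqM CB hCB g) ∈ P 2) ∧
    (∀ y ∈ P 2, ∃ s : CC, s ∉ P 2 ∧ ∃ c : CC, s * y = c *
      (NakMod.phiB M q hq hqM CB hCB CC hCC (NakMod.iota1 M q hq hqM CB hCB j)
        - NakMod.phiA M q hq hqM CB hCB CC hCC (NakMod.iota1 M q hq hqM CB hCB j))) ∧
    (∀ nB : Ideal CB, nB ≠ ⊤ → PV ≤ nB → ∀ f : chart M A K (jK M K),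
      NakMod.iota1 M q hq hqM CB hCB f ∈ nB → NakMod.iota1 M q hq hqM CB hCB f ∉ PV →
      NakMod.phiB M q hq hqM CB hCB CC hCC (NakMod.iota1 M q hq hqM CB hCB f)
        - NakMod.phiA M q hq hqM CB hCB CC hCC (NakMod.iota1 M q hq hqM CB hCB f) ∉ P 0 ∧
      NakMod.phiB M q hq hqM CB hCB CC hCC (NakMod.iota1 M q hq hqM CB hCB f)
        - NakMod.phiA M q hq hqM CB hCB CC hCC (NakMod.iota1 M q hq hqM CB hCB f) ∉ P 1) := by
  have hP3 := mem_P2_iff_gRel CC H hyp hval hV2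
  have hEα : ∀ x : FK (M * q) K, ι (WQ2.alphaK2 M q K x) = (x : LaurentSeries Qb) := H.mid.alpha
  have hEβ : ∀ (x : FK (M * q) K) (y : LaurentSeries (IsLocalRing.ResidueField A)),
      GRel A ((WK.wK M q hq hqM K x : FK (M * q) K) : LaurentSeries Qb) y →
      GRel A (ι (WQ2.betaK2 M q hq hqM K x)) y := fun x y h => H.gRel_beta hA h
  refine ⟨NakMod.phiA_mem_iff M q hq hqM CB hCB CC hCC PV (P 2) ι hPV hP3 hEα,
    NakMod.phiB_mem_iff M q hq hqM CB hCB CC hCC PV (P 2) ι hB.dvr hPV hP3 hEβ,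
    NakMod.exists_iota1_sub_mem M q hq hqM CB hCB PV hA hB hPV,
    NakMod.delta_mem M q hq hqM CB hCB CC hCC (P 2) ι hB.dvr hP3 hEα hEβ,
    delta_j_gen M q hq hqM CB hCB CC hCC hfrac H hyp hval hV2 j hj, ?_⟩
  intro nB hnB hle f hfn hfV
  exact NakMod.delta_notMem M q hq hqM CB hCB CC hCC PV hB hPV (P 0) (P 1)
    (gRel_zero_of_mem_P0 M q CC hB.dvr hyp hval hV0)
    (gRel_zero_of_mem_P1 M q hq hqM CC hB.dvr hyp hval hV1) nB hnB hle f hfn hfV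

end Delta

end Fermat.Agent.S36.NakModC
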