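import Mathlib

/-!
# S36, package [B1-nak], leaf [N9-gen] : local generators of a closed point of a two-branch chart

OWNER: helper124.

Abstract, Mathlib only.  `R` a noetherian ring ("the level-`M q` chart"), `n` a closed point,
`P1`, `P2` two ideals ("the two vertical primes") with `P1 ⊓ P2 = (ϖ)`, `P2 ≤ n`, and elements
`a, b ∈ n` such that `b` generates `n` modulo `P2` locally at `n` and — if `P1 ≤ n` as well —
`a` generates `n` modulo `P1` locally at `n`, the two branches are transversal at `n`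
(`n = P1 + P2` locally), and `a ∈ P2 + n²`, `b ∈ P1 + n²` locally ("Frobenius" congruences).
Then `n = (ϖ, a, b)` locally at `n`:

  `∀ x ∈ n, ∃ s ∉ n, s * x ∈ Ideal.span {ϖ, a, b}`.

This is hypothesis (h8) of `NakPlan.Z1Statement` (`nodeGen_inter` gives the exact shape
`s * x ∈ Ideal.span (n ∩ S)` for any set `S ∋ ϖ, a, b`).

Proof.  One branch (`¬ P1 ≤ n`): `P2 = (ϖ)` locally at `n`.  Node: the key inclusion
`P1 ∩ (P2 + n²) ⊆ (ϖ) + n²` (locally) gives `P2 ⊆ (ϖ, a) + n²` and `P1 ⊆ (ϖ, b) + n²`, hence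
`n ⊆ (ϖ, a, b) + n²`, and Nakayama's lemma in `Localization.AtPrime n` concludes.
-/

set_option autoImplicit false

namespace Fermat.Agent.S36.NakGenB

section LocMem

variable {R : Type*} [CommRing R]

/-- `x ∈ I R_n`, in chart language. -/
def LocMem (n I : Ideal R) (x : R) : Prop := ∃ s : R, s ∉ n ∧ s * x ∈ I

theorem LocMem.mono {n I J : Ideal R} {x : R} (h : LocMem n I x) (hIJ : I ≤ J) :
    LocMem n J x := by
  obtain ⟨s, hs, hx⟩ := h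
  exact ⟨s, hs, hIJ hx⟩

theorem locMem_of_mem {n I : Ideal R} (hn : n ≠ ⊤) {x : R} (hx : x ∈ I) : LocMem n I x :=
  ⟨1, fun h => hn ((Ideal.eq_top_iff_one _).2 h), by rwa [one_mul]⟩

theorem LocMem.add {n I : Ideal R} (hn : n.IsPrime) {x y : R} (hx : LocMem n I x)
    (hy : LocMem n I y) : LocMem n I (x + y) := by
  obtain ⟨s, hs, hsx⟩ := hx
  obtain ⟨t, ht, hty⟩ := hy
  refine ⟨s * t, fun h => (hn.mem_or_mem h).elim hs ht, ?_⟩
  have : s * t * (x + y) = t * (s * x) + s * (t * y) := by ring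
  rw [this]
  exact I.add_mem (I.mul_mem_left _ hsx) (I.mul_mem_left _ hty)

theorem LocMem.mul_left {n I : Ideal R} {x : R} (r : R) (hx : LocMem n I x) :
    LocMem n I (r * x) := by
  obtain ⟨s, hs, hsx⟩ := hx
  refine ⟨s, hs, ?_⟩
  have : s * (r * x) = r * (s * x) := by ring
  rw [this]
  exact I.mul_mem_left _ hsx

theorem LocMem.of_mul {n I : Ideal R} (hn : n.IsPrime) {s x : R} (hs : s ∉ n)
    (h : LocMem n I (s * x)) : LocMem n I x := by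
  obtain ⟨t, ht, htx⟩ := h
  refine ⟨t * s, fun h => (hn.mem_or_mem h).elim ht hs, ?_⟩
  rwa [mul_assoc]

theorem LocMem.trans {n I J : Ideal R} (hn : n.IsPrime) {x : R} (hx : LocMem n I x)
    (hIJ : ∀ y ∈ I, LocMem n J y) : LocMem n J x := by
  obtain ⟨s, hs, hsx⟩ := hx
  exact (hIJ _ hsx).of_mul hn hs

/-- **Local Nakayama**, elementwise: if `n ⊆ I + n²` locally at the prime `n` (finitely
generated), then `n ⊆ I` locally at `n`. -/
theorem locMem_of_sup_sq [IsNoetherianRing R] (n I : Ideal R) (hn : n.IsPrime)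
    (h : ∀ x ∈ n, LocMem n (I ⊔ n * n) x) : ∀ x ∈ n, LocMem n I x := by
  have := hn
  have hmax : Ideal.map (algebraMap R (Localization.AtPrime n)) n =
      IsLocalRing.maximalIdeal (Localization.AtPrime n) :=
    Localization.AtPrime.map_eq_maximalIdeal
  have h1 : Ideal.map (algebraMap R (Localization.AtPrime n)) n ≤
      Ideal.map (algebraMap R (Localization.AtPrime n)) I ⊔
        Ideal.map (algebraMap R (Localization.AtPrime n)) n •
          Ideal.map (algebraMap R (Localization.AtPrime n)) n := by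
    rw [Ideal.map_le_iff_le_comap]
    intro x hx
    obtain ⟨s, hs, hsx⟩ := h x hx
    rw [Ideal.mem_comap]
    have h2 : algebraMap R (Localization.AtPrime n) (s * x) ∈
        Ideal.map (algebraMap R (Localization.AtPrime n)) (I ⊔ n * n) :=
      Ideal.mem_map_of_mem _ hsx
    rw [Ideal.map_sup, Ideal.map_mul, map_mul] at h2
    have hu : IsUnit (algebraMap R (Localization.AtPrime n) s) :=
      (IsLocalization.AtPrime.isUnit_to_map_iff (Localization.AtPrime n) n s).2 hs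
    rw [smul_eq_mul]
    exact (Ideal.unit_mul_mem_iff_mem _ hu).1 h2
  have hfg : (Ideal.map (algebraMap R (Localization.AtPrime n)) n).FG :=
    Ideal.FG.map (IsNoetherian.noetherian n) _
  have hjac : Ideal.map (algebraMap R (Localization.AtPrime n)) n ≤
      Ideal.jacobson (⊥ : Ideal (Localization.AtPrime n)) := by
    rw [hmax, IsLocalRing.jacobson_eq_maximalIdeal ⊥ bot_ne_top]
  have h3 : Ideal.map (algebraMap R (Localization.AtPrime n)) n ≤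
      Ideal.map (algebraMap R (Localization.AtPrime n)) I :=
    Submodule.le_of_le_smul_of_le_jacobson_bot hfg hjac h1
  intro x hx
  have hx' : algebraMap R (Localization.AtPrime n) x ∈
      Ideal.map (algebraMap R (Localization.AtPrime n)) I := h3 (Ideal.mem_map_of_mem _ hx)
  rw [IsLocalization.mem_map_algebraMap_iff n.primeCompl (Localization.AtPrime n)] at hx'
  obtain ⟨⟨i, t⟩, hit⟩ := hx'
  rw [← map_mul] at hit
  obtain ⟨u, hu⟩ := (IsLocalization.eq_iff_exists n.primeCompl (Localization.AtPrime n)).1 hit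
  refine ⟨u * t, fun h => (hn.mem_or_mem h).elim u.2 t.2, ?_⟩
  have h4 : (u : R) * t * x = u * (x * t) := by ring
  rw [h4, hu]
  exact I.mul_mem_left _ i.2

end LocMem

section Node

variable {R : Type*} [CommRing R]

/-- `n² ⊆ P1² + P2² + (ϖ)` locally at `n`, if `n = P1 + P2` locally and `P1 ∩ P2 ⊆ (ϖ)`. -/
theorem locMem_of_mem_sq (n P1 P2 : Ideal R) (hn : n.IsPrime) (ϖ : R)
    (hinf : P1 ⊓ P2 ≤ Ideal.span {ϖ}) (htr : ∀ x ∈ n, LocMem n (P1 ⊔ P2) x) :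
    ∀ e ∈ n * n, LocMem n (P1 * P1 ⊔ P2 * P2 ⊔ Ideal.span {ϖ}) e := by
  intro e he
  refine Submodule.smul_induction_on
    (p := fun e => LocMem n (P1 * P1 ⊔ P2 * P2 ⊔ Ideal.span {ϖ}) e) he ?_ ?_
  · intro x hx y hy
    obtain ⟨s, hs, hsx⟩ := htr x hx
    obtain ⟨t, ht, hty⟩ := htr y hy
    obtain ⟨u, hu, v, hv, huv⟩ := Submodule.mem_sup.1 hsx
    obtain ⟨u', hu', v', hv', huv'⟩ := Submodule.mem_sup.1 hty
    refine ⟨s * t, fun h => (hn.mem_or_mem h).elim hs ht, ?_⟩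
    have h1 : s * t * (x • y) = (s * x) * (t * y) := by rw [smul_eq_mul]; ring
    rw [h1, ← huv, ← huv']
    have h2 : (u + v) * (u' + v') = u * u' + v * v' + (u * v' + v * u') := by ring
    rw [h2]
    refine Ideal.add_mem _ (Ideal.add_mem _ ?_ ?_) ?_
    · exact Ideal.mem_sup_left (Ideal.mem_sup_left (Ideal.mul_mem_mul hu hu'))
    · exact Ideal.mem_sup_left (Ideal.mem_sup_right (Ideal.mul_mem_mul hv hv'))
    · refine Ideal.mem_sup_right (hinf (Submodule.mem_inf.2 ⟨?_, ?_⟩))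
      · exact P1.add_mem (P1.mul_mem_right _ hu) (P1.mul_mem_left _ hu')
      · exact P2.add_mem (P2.mul_mem_left _ hv') (P2.mul_mem_right _ hv)
  · intro x y hx hy
    exact hx.add hn hy

/-- **Key inclusion**: `P1 ∩ (P2 + n²) ⊆ (ϖ) + n²` locally at `n`. -/
theorem locMem_of_mem_inf_sq (n P1 P2 : Ideal R) (hn : n.IsPrime) (ϖ : R)
    (hinf : P1 ⊓ P2 ≤ Ideal.span {ϖ}) (hϖ2 : ϖ ∈ P2) (h1n : P1 ≤ n)
    (htr : ∀ x ∈ n, LocMem n (P1 ⊔ P2) x) {z : R} (hz1 : z ∈ P1) (hz : z ∈ P2 ⊔ n * n) :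
    LocMem n (Ideal.span {ϖ} ⊔ n * n) z := by
  obtain ⟨p, hp, e, he, hpe⟩ := Submodule.mem_sup.1 hz
  obtain ⟨s, hs, hse⟩ := locMem_of_mem_sq n P1 P2 hn ϖ hinf htr e he
  obtain ⟨e12, he12, w, hw, hsum⟩ := Submodule.mem_sup.1 hse
  obtain ⟨e1, he1, e2, he2, h12⟩ := Submodule.mem_sup.1 he12
  refine ⟨s, hs, ?_⟩
  have hmem : s * z - e1 ∈ P1 ⊓ P2 := by
    refine Submodule.mem_inf.2 ⟨?_, ?_⟩
    · exact P1.sub_mem (P1.mul_mem_left _ hz1) (Ideal.mul_le_left he1)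
    · have h3 : s * z - e1 = s * p + e2 + w := by
        rw [← hpe, mul_add, ← hsum, ← h12]; ring
      rw [h3]
      exact P2.add_mem (P2.add_mem (P2.mul_mem_left _ hp) (Ideal.mul_le_left he2))
        ((Ideal.span_singleton_le_iff_mem P2).2 hϖ2 hw)
  have h4 : s * z = (s * z - e1) + e1 := by ring
  rw [h4]
  exact Ideal.add_mem _ (Ideal.mem_sup_left (hinf hmem))
    (Ideal.mem_sup_right (Ideal.mul_mono h1n h1n he1))

/-- `P2 ⊆ (ϖ, a) + n²` locally at `n`, if `a` generates `n` modulo `P1` and `a ∈ P2 + n²`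
(both locally at `n`). -/
theorem locMem_of_mem_branch (n P1 P2 : Ideal R) (hn : n.IsPrime) (ϖ a : R)
    (hinf : P1 ⊓ P2 ≤ Ideal.span {ϖ}) (hϖ2 : ϖ ∈ P2) (h1n : P1 ≤ n) (h2n : P2 ≤ n)
    (htr : ∀ x ∈ n, LocMem n (P1 ⊔ P2) x)
    (hga : ∀ x ∈ n, ∃ s : R, s ∉ n ∧ ∃ c : R, s * x - c * a ∈ P1)
    (hFa : ∃ s : R, s ∉ n ∧ s * a ∈ P2 ⊔ n * n) :
    ∀ p ∈ P2, LocMem n (Ideal.span {ϖ, a} ⊔ n * n) p := by
  intro p hp
  obtain ⟨s, hs, c, hc⟩ := hga p (h2n hp)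
  obtain ⟨s', hs', hs'a⟩ := hFa
  have h1 : s' * (s * p - c * a) ∈ P1 := P1.mul_mem_left _ hc
  have h2 : s' * (s * p - c * a) ∈ P2 ⊔ n * n := by
    have h : s' * (s * p - c * a) = s' * s * p - c * (s' * a) := by ring
    rw [h]
    exact Ideal.sub_mem _ (Ideal.mem_sup_left (P2.mul_mem_left _ hp))
      (Ideal.mul_mem_left _ _ hs'a)
  have h3 := locMem_of_mem_inf_sq n P1 P2 hn ϖ hinf hϖ2 h1n htr h1 h2
  have hle : Ideal.span {ϖ} ⊔ n * n ≤ Ideal.span {ϖ, a} ⊔ n * n :=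
    sup_le_sup_right (Ideal.span_mono (by intro y hy; exact Or.inl hy)) _
  have h4 : LocMem n (Ideal.span {ϖ, a} ⊔ n * n) (s' * (s * p - c * a)) := h3.mono hle
  have h5 : LocMem n (Ideal.span {ϖ, a} ⊔ n * n) (s' * c * a) :=
    locMem_of_mem hn.ne_top (Ideal.mem_sup_left (Ideal.mul_mem_left _ _
      (Ideal.subset_span (by simp))))
  have h6 := h4.add hn h5
  have h7 : s' * (s * p - c * a) + s' * c * a = (s' * s) * p := by ring
  rw [h7] at h6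
  exact h6.of_mul hn (fun h => (hn.mem_or_mem h).elim hs' hs)

/-- **[N9-gen]**, universe-polymorphic.  Local generators `(ϖ, a, b)` of a closed point `n`
of a chart with two branches `P1`, `P2` (`P1 ⊓ P2 = (ϖ)`), `P2 ≤ n`. -/
theorem nodeGen [IsNoetherianRing R] (ϖ a b : R) (n P1 P2 : Ideal R) (hn : n.IsPrime)
    (hinf : P1 ⊓ P2 ≤ Ideal.span {ϖ}) (hϖ : ϖ ∈ P1 ⊓ P2) (h2n : P2 ≤ n)
    (hgb : ∀ x ∈ n, ∃ s : R, s ∉ n ∧ ∃ c : R, s * x - c * b ∈ P2)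
    (hga : P1 ≤ n → ∀ x ∈ n, ∃ s : R, s ∉ n ∧ ∃ c : R, s * x - c * a ∈ P1)
    (htr : P1 ≤ n → ∀ x ∈ n, ∃ s : R, s ∉ n ∧ s * x ∈ P1 ⊔ P2)
    (hFa : P1 ≤ n → ∃ s : R, s ∉ n ∧ s * a ∈ P2 ⊔ n * n)
    (hFb : P1 ≤ n → ∃ s : R, s ∉ n ∧ s * b ∈ P1 ⊔ n * n) :
    ∀ x ∈ n, ∃ s : R, s ∉ n ∧ s * x ∈ Ideal.span {ϖ, a, b} := by
  have hϖ1 : ϖ ∈ P1 := (Submodule.mem_inf.1 hϖ).1
  have hϖ2 : ϖ ∈ P2 := (Submodule.mem_inf.1 hϖ).2
  by_cases h1n : P1 ≤ n
  · -- node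
    have htr' : ∀ x ∈ n, LocMem n (P1 ⊔ P2) x := htr h1n
    have htr'' : ∀ x ∈ n, LocMem n (P2 ⊔ P1) x := by
      intro x hx
      rw [sup_comm]
      exact htr' x hx
    have hinf' : P2 ⊓ P1 ≤ Ideal.span {ϖ} := by
      rw [inf_comm]
      exact hinf
    have hA : ∀ p ∈ P2, LocMem n (Ideal.span {ϖ, a, b} ⊔ n * n) p := by
      intro p hp
      refine (locMem_of_mem_branch n P1 P2 hn ϖ a hinf hϖ2 h1n h2n htr' (hga h1n) (hFa h1n)
        p hp).mono (sup_le_sup_right (Ideal.span_mono ?_) _)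
      intro y hy
      rcases hy with hy | hy
      · exact Or.inl hy
      · exact Or.inr (Or.inl hy)
    have hB : ∀ p ∈ P1, LocMem n (Ideal.span {ϖ, a, b} ⊔ n * n) p := by
      intro p hp
      refine (locMem_of_mem_branch n P2 P1 hn ϖ b hinf' hϖ1 h2n h1n htr'' hgb (hFb h1n)
        p hp).mono (sup_le_sup_right (Ideal.span_mono ?_) _)
      intro y hy
      rcases hy with hy | hy
      · exact Or.inl hy
      · exact Or.inr (Or.inr hy)
    refine locMem_of_sup_sq n _ hn ?_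
    intro x hx
    refine (htr' x hx).trans hn ?_
    intro y hy
    obtain ⟨p1, hp1, p2, hp2, rfl⟩ := Submodule.mem_sup.1 hy
    exact (hB p1 hp1).add hn (hA p2 hp2)
  · -- one branch
    obtain ⟨p, hp, hpn⟩ := SetLike.not_le_iff_exists.1 h1n
    intro x hx
    obtain ⟨s, hs, c, hc⟩ := hgb x hx
    have hmem : p * (s * x - c * b) ∈ P1 ⊓ P2 :=
      Submodule.mem_inf.2 ⟨P1.mul_mem_right _ hp, P2.mul_mem_left _ hc⟩
    obtain ⟨r, hr⟩ := Ideal.mem_span_singleton'.1 (hinf hmem)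
    refine ⟨p * s, fun h => (hn.mem_or_mem h).elim hpn hs, ?_⟩
    have h1 : p * s * x = r * ϖ + (p * c) * b := by rw [hr]; ring
    rw [h1]
    exact Ideal.add_mem _ (Ideal.mul_mem_left _ _ (Ideal.subset_span (by simp)))
      (Ideal.mul_mem_left _ _ (Ideal.subset_span (by simp)))

/-- [N9-gen] in the exact shape of hypothesis (h8) of `NakPlan.Z1Statement`: local generation of
`n` by elements of `n ∩ S`, for any set `S` containing `ϖ`, `a`, `b` (`a, b ∈ n`). -/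
theorem nodeGen_inter [IsNoetherianRing R] (ϖ a b : R) (n P1 P2 : Ideal R) (hn : n.IsPrime)
    (hinf : P1 ⊓ P2 ≤ Ideal.span {ϖ}) (hϖ : ϖ ∈ P1 ⊓ P2) (ha : a ∈ n) (hb : b ∈ n)
    (h2n : P2 ≤ n)
    (hgb : ∀ x ∈ n, ∃ s : R, s ∉ n ∧ ∃ c : R, s * x - c * b ∈ P2)
    (hga : P1 ≤ n → ∀ x ∈ n, ∃ s : R, s ∉ n ∧ ∃ c : R, s * x - c * a ∈ P1)
    (htr : P1 ≤ n → ∀ x ∈ n, ∃ s : R, s ∉ n ∧ s * x ∈ P1 ⊔ P2)
    (hFa : P1 ≤ n → ∃ s : R, s ∉ n ∧ s * a ∈ P2 ⊔ n * n)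
    (hFb : P1 ≤ n → ∃ s : R, s ∉ n ∧ s * b ∈ P1 ⊔ n * n)
    (S : Set R) (hϖS : ϖ ∈ S) (haS : a ∈ S) (hbS : b ∈ S) :
    ∀ x ∈ n, ∃ s : R, s ∉ n ∧ s * x ∈ Ideal.span ((n : Set R) ∩ S) := by
  intro x hx
  obtain ⟨s, hs, hsx⟩ := nodeGen ϖ a b n P1 P2 hn hinf hϖ h2n hgb hga htr hFa hFb x hx
  refine ⟨s, hs, Ideal.span_mono ?_ hsx⟩
  intro y hy
  rcases hy with hy | hy | hy
  · rw [hy]; exact ⟨h2n (Submodule.mem_inf.1 hϖ).2, hϖS⟩
  · rw [hy]; exact ⟨ha, haS⟩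
  · rw [Set.mem_singleton_iff] at hy
    rw [hy]; exact ⟨hb, hbS⟩

end Node

/-- **[N9-gen] NodeGen**, as a `Prop` in the style of `S36/NakPlan.lean`. -/
def NodeGenStatement : Prop :=
  ∀ (R : Type) [CommRing R] [IsNoetherianRing R] (ϖ a b : R) (n P1 P2 : Ideal R),
    n.IsMaximal → P1 ⊓ P2 ≤ Ideal.span {ϖ} → ϖ ∈ P1 ⊓ P2 → a ∈ n → b ∈ n → P2 ≤ n →
    (∀ x ∈ n, ∃ s : R, s ∉ n ∧ ∃ c : R, s * x - c * b ∈ P2) →
    (P1 ≤ n → ∀ x ∈ n, ∃ s : R, s ∉ n ∧ ∃ c : R, s * x - c * a ∈ P1) →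
    (P1 ≤ n → ∀ x ∈ n, ∃ s : R, s ∉ n ∧ s * x ∈ P1 ⊔ P2) →
    (P1 ≤ n → ∃ s : R, s ∉ n ∧ s * a ∈ P2 ⊔ n * n) →
    (P1 ≤ n → ∃ s : R, s ∉ n ∧ s * b ∈ P1 ⊔ n * n) →
    (∀ x ∈ n, ∃ s : R, s ∉ n ∧ s * x ∈ Ideal.span {ϖ, a, b}) ∧
      ∀ S : Set R, ϖ ∈ S → a ∈ S → b ∈ S →
        ∀ x ∈ n, ∃ s : R, s ∉ n ∧ s * x ∈ Ideal.span ((n : Set R) ∩ S)

theorem nodeGenStatement : NodeGenStatement := by
  intro R _ _ ϖ a b n P1 P2 hn hinf hϖ ha hb h2n hgb hga htr hFa hFb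
  exact ⟨nodeGen ϖ a b n P1 P2 hn.isPrime hinf hϖ h2n hgb hga htr hFa hFb,
    fun S hϖS haS hbS =>
      nodeGen_inter ϖ a b n P1 P2 hn.isPrime hinf hϖ ha hb h2n hgb hga htr hFa hFb S hϖS haS hbS⟩

end Fermat.Agent.S36.NakGenB
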