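/-
S36, package [B1-nak], leaf [N4]: the Nakayama equaliser `NakPlan.EqualiserStatement`.

Two `O`-algebra maps `φa φb : B → C` with the same `O`-rational pull-back `nB` of a closed point
`n` of `C`, congruent modulo a prime `𝔮 ≤ n` on a set `G` generating `nB` locally, are congruent
modulo `𝔮`.  Proof: in the noetherian local ring `D = C_n / 𝔮 C_n` the differences
`φa r - φb r` lie in every power of the maximal ideal (twisted Leibniz rule), hence vanish by
Krull's intersection theorem; `C / 𝔮 → D` is injective.
-/
import Mathlib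
import Fermat.Agent.S36.NakPlan

set_option autoImplicit false

namespace Fermat.Agent.S36.NakEq

open Fermat.Agent.S36.NakPlan

/-- abstract core: `π : C → D` into a noetherian local ring, `d r = π (φa r) - π (φb r)`. -/
theorem core {O B C D : Type*} [CommRing O] [CommRing B] [CommRing C] [CommRing D]
    [IsLocalRing D] [IsNoetherianRing D]
    [Algebra O B] [Algebra O C] (φa φb : B →ₐ[O] C) (nB : Ideal B) (G : Set B) (π : C →+* D)
    (hunit : ∀ r : B, r ∉ nB → IsUnit (π (φa r)))
    (hmax : ∀ r : B, r ∈ nB → π (φb r) ∈ IsLocalRing.maximalIdeal D)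
    (hres : ∀ r : B, ∃ c : O, r - algebraMap O B c ∈ nB)
    (hG : G ⊆ (nB : Set B)) (hGq : ∀ g ∈ G, π (φa g) = π (φb g))
    (hloc : ∀ x ∈ nB, ∃ s : B, s ∉ nB ∧ s * x ∈ Ideal.span G) (r : B) :
    π (φa r) = π (φb r) := by
  have hspanle : Ideal.span G ≤ nB := Ideal.span_le.2 hG
  have hleib : ∀ u v : B, π (φa (u * v)) - π (φb (u * v)) =
      π (φa u) * (π (φa v) - π (φb v)) + π (φb v) * (π (φa u) - π (φb u)) := by
    intro u v
    simp only [map_mul]; ring
  have key : ∀ N : ℕ, ∀ r : B, π (φa r) - π (φb r) ∈ IsLocalRing.maximalIdeal D ^ N := by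
    intro N
    induction N with
    | zero => intro r; simp
    | succ N ih =>
      have hspan : ∀ x ∈ Ideal.span G,
          π (φa x) - π (φb x) ∈ IsLocalRing.maximalIdeal D ^ (N + 1) := by
        intro x hx
        induction hx using Submodule.span_induction with
        | mem g hg => rw [hGq g hg, sub_self]; exact zero_mem _
        | zero => simp
        | add x y _ _ hx hy =>
          have : π (φa (x + y)) - π (φb (x + y)) =
              (π (φa x) - π (φb x)) + (π (φa y) - π (φb y)) := by
            simp only [map_add]; ring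
          rw [this]; exact add_mem hx hy
        | smul a x hx hx' =>
          rw [smul_eq_mul, hleib]
          refine add_mem (Ideal.mul_mem_left _ _ hx') ?_
          rw [pow_succ']
          exact Ideal.mul_mem_mul (hmax x (hspanle hx)) (ih a)
      have hnB : ∀ x ∈ nB, π (φa x) - π (φb x) ∈ IsLocalRing.maximalIdeal D ^ (N + 1) := by
        intro x hx
        obtain ⟨s, hs, hsx⟩ := hloc x hx
        have h1 := hspan _ hsx
        rw [hleib] at h1
        have h2 : π (φb x) * (π (φa s) - π (φb s)) ∈ IsLocalRing.maximalIdeal D ^ (N + 1) := by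
          rw [pow_succ']
          exact Ideal.mul_mem_mul (hmax x hx) (ih s)
        have h3 : π (φa s) * (π (φa x) - π (φb x)) ∈ IsLocalRing.maximalIdeal D ^ (N + 1) := by
          have := sub_mem h1 h2
          rwa [add_sub_cancel_right] at this
        obtain ⟨u, hu⟩ := hunit s hs
        have h4 := Ideal.mul_mem_left _ (↑u⁻¹ : D) h3
        rwa [← mul_assoc, ← hu, Units.inv_mul, one_mul] at h4
      intro r
      obtain ⟨c, hc⟩ := hres r
      have h1 := hnB _ hc
      have : π (φa r) - π (φb r) =
          π (φa (r - algebraMap O B c)) - π (φb (r - algebraMap O B c)) := by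
        simp only [map_sub, AlgHom.commutes]; ring
      rw [this]; exact h1
  have h : π (φa r) - π (φb r) ∈ ⨅ N : ℕ, IsLocalRing.maximalIdeal D ^ N :=
    Ideal.mem_iInf.2 fun N => key N r
  rw [Ideal.iInf_pow_eq_bot_of_isLocalRing _ Ideal.IsPrime.ne_top', Ideal.mem_bot] at h
  exact sub_eq_zero.1 h

/-- **[N4]** the Nakayama equaliser. -/
theorem equaliser : EqualiserStatement := by
  intro O B C _ _ _ _ _ _ φa φb nB n 𝔮 G hn h𝔮 hle ha hb hres hG hGq hloc r
  have : n.IsPrime := hn.isPrime
  have hdisj : Disjoint (n.primeCompl : Set C) (𝔮 : Set C) := by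
    rw [Set.disjoint_left]
    intro x hx hx'
    exact hx (hle hx')
  have hcomap : Ideal.comap (algebraMap C (Localization.AtPrime n))
      (𝔮.map (algebraMap C (Localization.AtPrime n))) = 𝔮 :=
    IsLocalization.under_map_of_isPrime_disjoint n.primeCompl (Localization.AtPrime n) h𝔮 hdisj
  have h𝔮L : 𝔮.map (algebraMap C (Localization.AtPrime n)) ≠ ⊤ := by
    intro h
    apply h𝔮.ne_top
    rw [← hcomap, h, Ideal.comap_top]
  have : Nontrivial (Localization.AtPrime n ⧸ 𝔮.map (algebraMap C (Localization.AtPrime n))) :=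
    Ideal.Quotient.nontrivial_iff.2 h𝔮L
  have : IsLocalRing (Localization.AtPrime n ⧸ 𝔮.map (algebraMap C (Localization.AtPrime n))) :=
    .of_surjective' _ Ideal.Quotient.mk_surjective
  let π : C →+* (Localization.AtPrime n ⧸ 𝔮.map (algebraMap C (Localization.AtPrime n))) :=
    (Ideal.Quotient.mk _).comp (algebraMap C (Localization.AtPrime n))
  have hπ0 : ∀ x : C, π x = 0 ↔ x ∈ 𝔮 := by
    intro x
    show Ideal.Quotient.mk _ (algebraMap C (Localization.AtPrime n) x) = 0 ↔ _
    rw [Ideal.Quotient.eq_zero_iff_mem, ← Ideal.mem_comap, hcomap]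
  have hπunit : ∀ x : C, x ∉ n → IsUnit (π x) := by
    intro x hx
    have : IsUnit (algebraMap C (Localization.AtPrime n) x) :=
      IsLocalization.map_units (Localization.AtPrime n) (⟨x, hx⟩ : n.primeCompl)
    exact this.map (Ideal.Quotient.mk _)
  have hπmax : ∀ x : C, x ∈ n → π x ∈ IsLocalRing.maximalIdeal
      (Localization.AtPrime n ⧸ 𝔮.map (algebraMap C (Localization.AtPrime n))) := by
    intro x hx
    rw [IsLocalRing.mem_maximalIdeal, mem_nonunits_iff]
    intro hu
    obtain ⟨z, hz⟩ := hu.exists_right_inv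
    obtain ⟨z', rfl⟩ := Ideal.Quotient.mk_surjective z
    have h1 : algebraMap C (Localization.AtPrime n) x * z' - 1 ∈
        𝔮.map (algebraMap C (Localization.AtPrime n)) := by
      rw [← Ideal.Quotient.eq_zero_iff_mem, map_sub, map_mul, map_one, sub_eq_zero]
      exact hz
    have h2 : algebraMap C (Localization.AtPrime n) x ∈
        IsLocalRing.maximalIdeal (Localization.AtPrime n) :=
      (IsLocalization.AtPrime.to_map_mem_maximal_iff (Localization.AtPrime n) n x).2 hx
    have h3 := IsLocalRing.le_maximalIdeal h𝔮L h1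
    have h4 : (1 : Localization.AtPrime n) ∈ IsLocalRing.maximalIdeal (Localization.AtPrime n) := by
      have := sub_mem (Ideal.mul_mem_right z' _ h2) h3
      rwa [sub_sub_cancel] at this
    exact (IsLocalRing.maximalIdeal (Localization.AtPrime n)).ne_top_iff_one.1
      Ideal.IsPrime.ne_top' h4
  have hfin := core φa φb nB G π (fun r hr => hπunit _ (fun h => hr ((ha r).1 h)))
    (fun r hr => hπmax _ ((hb r).2 hr)) hres hG
    (fun g hg => by
      have := (hπ0 _).2 (hGq g hg)
      rw [map_sub, sub_eq_zero] at this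
      exact this) hloc r
  have : π (φa r - φb r) = 0 := by rw [map_sub, hfin, sub_self]
  exact (hπ0 _).1 this

end Fermat.Agent.S36.NakEq
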