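import Mathlib
import Fermat.Agent.S36.NakPlan

/-!
# S36, package [B1-nak], leaf [N5] : rigidity of an unramified prime (`RigidStatement`)

OWNER: helper124.

Two ring homomorphisms `φa, φb : B → C` which agree on `ι A`, with `B` integral over `ι A`,
which are congruent modulo a prime `𝔮` of the noetherian domain `C` of residue characteristic
zero, and such that the prime `φa⁻¹ 𝔮` of `B` is unramified over `A`, are equal.

Proof.  Put `d b = φa b - φb b` and let `𝔪` be the maximal ideal of `C_𝔮`.  By induction on `N`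
the image of `d b` in `C_𝔮` lies in `𝔪 ^ N` for every `b`:

* (i) if `φa r ∈ 𝔮`, write `s * r = ∑ b_i * ι x_i` with `φa s ∉ 𝔮`, `φa (ι x_i) ∈ 𝔮`; the twisted
  Leibniz rule `d (u v) = φa u * d v + d u * φb v` and `d (ι x) = 0` give
  `φa s * d r ∈ 𝔮 * 𝔪 ^ N`;
* (ii) for arbitrary `b` take `p ∈ A[X]` of minimal degree with leading coefficient outside
  `φa ∘ ι ⁻¹ 𝔮` and `φa (p (b)) ∈ 𝔮`; then `φa (p' (b)) ∉ 𝔮`, and by the binomial expansion
  `d (p (b)) = d b * (unit at 𝔮)`; apply (i) to `r = p (b)`.

Krull's intersection theorem in the local noetherian domain `C_𝔮` finishes the proof.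
-/

set_option autoImplicit false

namespace Fermat.Agent.S36.NakRigid

open Polynomial

section Aux

variable {A B C : Type*} [CommRing A] [CommRing B] [CommRing C]

/-- Twisted Leibniz rule for the difference of two ring homomorphisms. -/
theorem sub_mul_eq (φa φb : B →+* C) (u v : B) :
    φa (u * v) - φb (u * v) = φa u * (φa v - φb v) + (φa u - φb u) * φb v := by
  rw [map_mul, map_mul]; ring

/-- The "order `≥ N` at `𝔮`" predicate: the image in `C_𝔮` lies in the `N`-th power of the
maximal ideal. -/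
def OrdGE (𝔮 : Ideal C) [𝔮.IsPrime] (N : ℕ) (x : C) : Prop :=
  algebraMap C (Localization.AtPrime 𝔮) x ∈
    IsLocalRing.maximalIdeal (Localization.AtPrime 𝔮) ^ N

variable (𝔮 : Ideal C) [𝔮.IsPrime]

theorem ordGE_zero_right (N : ℕ) : OrdGE 𝔮 N 0 := by
  unfold OrdGE; rw [map_zero]; exact Ideal.zero_mem _

theorem ordGE_zero_left (x : C) : OrdGE 𝔮 0 x := by
  unfold OrdGE; rw [pow_zero, Ideal.one_eq_top]; exact Submodule.mem_top

theorem OrdGE.add {N : ℕ} {x y : C} (hx : OrdGE 𝔮 N x) (hy : OrdGE 𝔮 N y) :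
    OrdGE 𝔮 N (x + y) := by
  unfold OrdGE at *; rw [map_add]; exact Ideal.add_mem _ hx hy

theorem OrdGE.sub {N : ℕ} {x y : C} (hx : OrdGE 𝔮 N x) (hy : OrdGE 𝔮 N y) :
    OrdGE 𝔮 N (x - y) := by
  unfold OrdGE at *; rw [map_sub]; exact Ideal.sub_mem _ hx hy

theorem OrdGE.mul_left {N : ℕ} {y : C} (x : C) (hy : OrdGE 𝔮 N y) : OrdGE 𝔮 N (x * y) := by
  unfold OrdGE at *; rw [map_mul]; exact Ideal.mul_mem_left _ _ hy

theorem OrdGE.mul_right {N : ℕ} {x : C} (hx : OrdGE 𝔮 N x) (y : C) : OrdGE 𝔮 N (x * y) := by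
  unfold OrdGE at *; rw [map_mul]; exact Ideal.mul_mem_right _ _ hx

/-- `𝔮 * I_N ⊆ I_(N+1)`. -/
theorem OrdGE.mul_mem_succ {N : ℕ} {x y : C} (hx : OrdGE 𝔮 N x) (hy : y ∈ 𝔮) :
    OrdGE 𝔮 (N + 1) (x * y) := by
  unfold OrdGE at *
  rw [map_mul, pow_succ]
  refine Ideal.mul_mem_mul hx ?_
  exact (IsLocalization.AtPrime.to_map_mem_maximal_iff (Localization.AtPrime 𝔮) 𝔮 y).2 hy

/-- Cancellation of a factor outside `𝔮`. -/
theorem OrdGE.of_mul_left {N : ℕ} {x y : C} (hx : x ∉ 𝔮) (h : OrdGE 𝔮 N (x * y)) :
    OrdGE 𝔮 N y := by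
  unfold OrdGE at *
  rw [map_mul] at h
  have hu : IsUnit (algebraMap C (Localization.AtPrime 𝔮) x) :=
    (IsLocalization.AtPrime.isUnit_to_map_iff (Localization.AtPrime 𝔮) 𝔮 x).2 hx
  exact (Ideal.unit_mul_mem_iff_mem _ hu).1 h

/-- Krull intersection: an element of order `≥ N` for all `N` in the noetherian domain `C`
vanishes. -/
theorem eq_zero_of_forall_ordGE [IsDomain C] [IsNoetherianRing C] {x : C}
    (h : ∀ N, OrdGE 𝔮 N x) : x = 0 := by
  have hinj : Function.Injective (algebraMap C (Localization.AtPrime 𝔮)) :=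
    IsLocalization.injective (Localization.AtPrime 𝔮) 𝔮.primeCompl_le_nonZeroDivisors
  have hbot : (⨅ i : ℕ, IsLocalRing.maximalIdeal (Localization.AtPrime 𝔮) ^ i) = ⊥ :=
    Ideal.iInf_pow_eq_bot_of_isLocalRing _ (IsLocalRing.maximalIdeal.isMaximal _).ne_top
  have hx : algebraMap C (Localization.AtPrime 𝔮) x ∈
      (⨅ i : ℕ, IsLocalRing.maximalIdeal (Localization.AtPrime 𝔮) ^ i) :=
    Ideal.mem_iInf.2 h
  rw [hbot, Ideal.mem_bot] at hx
  exact hinj (by rw [hx, map_zero])

end Aux

/-- Core of [N5], universe-polymorphic. -/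
theorem eq_of_unramified {A B C : Type*} [CommRing A] [CommRing B] [CommRing C] [IsDomain C]
    [IsNoetherianRing C] (ι : A →+* B) (φa φb : B →+* C) (𝔮 : Ideal C) (h𝔮 : 𝔮.IsPrime)
    (hchar : ∀ k : ℕ, k ≠ 0 → (k : C) ∉ 𝔮)
    (hι : ∀ a : A, φa (ι a) = φb (ι a))
    (hint : ∀ b : B, ∃ p : Polynomial A, p.Monic ∧ Polynomial.eval₂ ι b p = 0)
    (hcong : ∀ b : B, φa b - φb b ∈ 𝔮)
    (hunr : ∀ r : B, φa r ∈ 𝔮 → ∃ s : B, φa s ∉ 𝔮 ∧
      s * r ∈ Ideal.map ι (Ideal.comap (φa.comp ι) 𝔮))
    (b : B) : φa b = φb b := by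
  have := h𝔮
  have hθ : φb.comp ι = φa.comp ι := RingHom.ext fun a => (hι a).symm
  -- the induction
  have key : ∀ N : ℕ, ∀ b : B, OrdGE 𝔮 N (φa b - φb b) := by
    intro N
    induction N with
    | zero => intro b; exact ordGE_zero_left 𝔮 _
    | succ N ih =>
      -- elements of the extended ideal
      have hJ : ∀ z ∈ Ideal.map ι (Ideal.comap (φa.comp ι) 𝔮), φb z ∈ 𝔮 := by
        intro z hz
        have hle : Ideal.map ι (Ideal.comap (φa.comp ι) 𝔮) ≤ Ideal.comap φb 𝔮 := by
          rw [Ideal.map_le_iff_le_comap]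
          intro x hx
          rw [Ideal.mem_comap] at hx ⊢
          rw [Ideal.mem_comap, ← hι x]
          exact hx
        exact hle hz
      have hmap : ∀ z ∈ Ideal.map ι (Ideal.comap (φa.comp ι) 𝔮),
          OrdGE 𝔮 (N + 1) (φa z - φb z) := by
        intro z hz
        unfold Ideal.map at hz
        induction hz using Submodule.span_induction with
        | mem z hz =>
          obtain ⟨x, -, rfl⟩ := hz
          rw [hι x, sub_self]
          exact ordGE_zero_right 𝔮 _
        | zero =>
          rw [map_zero, map_zero, sub_self]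
          exact ordGE_zero_right 𝔮 _
        | add u v _ _ hu hv =>
          have : φa (u + v) - φb (u + v) = (φa u - φb u) + (φa v - φb v) := by
            rw [map_add, map_add]; ring
          rw [this]
          exact hu.add 𝔮 hv
        | smul c z hz hzz =>
          rw [smul_eq_mul, sub_mul_eq]
          refine OrdGE.add 𝔮 (OrdGE.mul_left 𝔮 _ hzz) ?_
          exact (ih c).mul_mem_succ 𝔮 (hJ z hz)
      -- step (i)
      have step1 : ∀ r : B, φa r ∈ 𝔮 → OrdGE 𝔮 (N + 1) (φa r - φb r) := by
        intro r hr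
        obtain ⟨s, hs, hsr⟩ := hunr r hr
        have h1 := hmap _ hsr
        rw [sub_mul_eq] at h1
        have hbr : φb r ∈ 𝔮 := by
          have : φb r = φa r - (φa r - φb r) := by ring
          rw [this]
          exact Ideal.sub_mem _ hr (hcong r)
        have h2 : OrdGE 𝔮 (N + 1) ((φa s - φb s) * φb r) := (ih s).mul_mem_succ 𝔮 hbr
        have h3 : OrdGE 𝔮 (N + 1) (φa s * (φa r - φb r)) := by
          have : φa s * (φa r - φb r) =
              (φa s * (φa r - φb r) + (φa s - φb s) * φb r) - (φa s - φb s) * φb r := by ring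
          rw [this]
          exact h1.sub 𝔮 h2
        exact OrdGE.of_mul_left 𝔮 hs h3
      -- step (ii)
      intro b
      classical
      have hex : ∃ n : ℕ, ∃ p : Polynomial A, p.natDegree = n ∧
          φa (ι p.leadingCoeff) ∉ 𝔮 ∧ φa (Polynomial.eval₂ ι b p) ∈ 𝔮 := by
        obtain ⟨p, hp, hpb⟩ := hint b
        refine ⟨_, p, rfl, ?_, ?_⟩
        · rw [hp.leadingCoeff, map_one, map_one]
          exact fun h => h𝔮.ne_top ((Ideal.eq_top_iff_one _).2 h)
        · rw [hpb, map_zero]; exact Ideal.zero_mem _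
      obtain ⟨p, hpn, hlc, hpb⟩ := Nat.find_spec hex
      have hmin : ∀ q : Polynomial A, φa (ι q.leadingCoeff) ∉ 𝔮 →
          φa (Polynomial.eval₂ ι b q) ∈ 𝔮 → Nat.find hex ≤ q.natDegree :=
        fun q h1 h2 => Nat.find_min' hex ⟨q, rfl, h1, h2⟩
      -- the degree is positive
      have hn0 : p.natDegree ≠ 0 := by
        intro h0
        have hpC : p = Polynomial.C (p.coeff 0) := Polynomial.eq_C_of_natDegree_eq_zero h0
        have hlc' : p.leadingCoeff = p.coeff 0 := by
          rw [Polynomial.leadingCoeff, h0]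
        apply hlc
        rw [hlc']
        have : Polynomial.eval₂ ι b p = ι (p.coeff 0) := by
          conv_lhs => rw [hpC]
          exact Polynomial.eval₂_C ι b
        rw [this] at hpb
        exact hpb
      -- the derivative
      have hdlt : (Polynomial.derivative p).natDegree < p.natDegree :=
        Polynomial.natDegree_derivative_lt hn0
      have hcoeff : (Polynomial.derivative p).coeff (p.natDegree - 1) =
          p.leadingCoeff * (p.natDegree : A) := by
        rw [Polynomial.coeff_derivative]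
        have h1 : p.natDegree - 1 + 1 = p.natDegree := Nat.sub_add_cancel (Nat.pos_of_ne_zero hn0)
        rw [h1, Polynomial.leadingCoeff]
        congr 1
        have : ((p.natDegree - 1 : ℕ) : A) + 1 = ((p.natDegree - 1 + 1 : ℕ) : A) := by
          push_cast; ring
        rw [this, h1]
      have himg : φa (ι (p.leadingCoeff * (p.natDegree : A))) ∉ 𝔮 := by
        rw [map_mul, map_mul, map_natCast, map_natCast]
        intro h
        rcases h𝔮.mem_or_mem h with h | h
        · exact hlc h
        · exact hchar _ hn0 h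
      have hne : (Polynomial.derivative p).coeff (p.natDegree - 1) ≠ 0 := by
        intro h
        rw [hcoeff] at h
        apply himg
        rw [h, map_zero, map_zero]
        exact Ideal.zero_mem _
      have hdeg : (Polynomial.derivative p).natDegree = p.natDegree - 1 := by
        apply le_antisymm
        · omega
        · exact Polynomial.le_natDegree_of_ne_zero hne
      have hdlc : φa (ι (Polynomial.derivative p).leadingCoeff) ∉ 𝔮 := by
        rw [Polynomial.leadingCoeff, hdeg, hcoeff]
        exact himg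
      have hder : φa (Polynomial.eval₂ ι b (Polynomial.derivative p)) ∉ 𝔮 := by
        intro h
        have := hmin _ hdlc h
        omega
      -- binomial expansion
      set P : Polynomial C := p.map (φa.comp ι) with hP
      have hPa : ∀ q : Polynomial A, φa (Polynomial.eval₂ ι b q) =
          (q.map (φa.comp ι)).eval (φa b) := by
        intro q
        rw [Polynomial.hom_eval₂, Polynomial.eval₂_eq_eval_map]
      have hPb : ∀ q : Polynomial A, φb (Polynomial.eval₂ ι b q) =
          (q.map (φa.comp ι)).eval (φb b) := by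
        intro q
        rw [Polynomial.hom_eval₂, hθ, Polynomial.eval₂_eq_eval_map]
      obtain ⟨k, hk⟩ := Polynomial.binomExpansion P (φa b) (φb b - φa b)
      have hxy : φa b + (φb b - φa b) = φb b := by ring
      rw [hxy] at hk
      have hfac : φa (Polynomial.eval₂ ι b p) - φb (Polynomial.eval₂ ι b p) =
          ((Polynomial.derivative P).eval (φa b) - k * (φa b - φb b)) * (φa b - φb b) := by
        rw [hPa, hPb, ← hP, hk]; ring
      have hunit : (Polynomial.derivative P).eval (φa b) - k * (φa b - φb b) ∉ 𝔮 := by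
        intro h
        apply hder
        rw [hPa, ← Polynomial.derivative_map, ← hP]
        have : (Polynomial.derivative P).eval (φa b) =
            ((Polynomial.derivative P).eval (φa b) - k * (φa b - φb b)) +
              k * (φa b - φb b) := by ring
        rw [this]
        exact Ideal.add_mem _ h (Ideal.mul_mem_left _ _ (hcong b))
      have h4 := step1 _ hpb
      rw [hfac] at h4
      exact OrdGE.of_mul_left 𝔮 hunit h4
  exact sub_eq_zero.1 (eq_zero_of_forall_ordGE 𝔮 fun N => key N b)

/-- **[N5] Rigid** — the plan statement, verbatim. -/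
theorem rigidStatement : Fermat.Agent.S36.NakPlan.RigidStatement := by
  intro A B C _ _ _ _ _ ι φa φb 𝔮 h𝔮 hchar hι hint hcong hunr b
  exact eq_of_unramified ι φa φb 𝔮 h𝔮 hchar hι hint hcong hunr b

end Fermat.Agent.S36.NakRigid
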