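import Mathlib
import Fermat.Agent.S36.NakPlan
import Fermat.Agent.S36.NakEq
import Fermat.Agent.S36.NakRigid

/-!
# S36, package [B1-nak] : `Z1PStatement`, the general form of [N6]

Twin of `NakPlan.Z1Statement` with
* the hypothesis "the two pull-backs of the closed point `n` to `B` coincide"
  (`∀ r, φa r ∈ n ↔ φb r ∈ n`) instead of the hypotheses on `P3`, `P2`, `ι1` (so that it also
  applies at closed points on `W1 ∩ W2`), and
* a SET `T ⊆ B` of test elements instead of the single element `ι1 f`, and a set `U` of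
  "unramified" horizontal primes of `B` (so that cuspidal primes can be excluded).

Statement: if the point of `B` below `n` is `O`-rational and generated locally by elements of
`O[ι A, T]`, `𝔮 ≤ n` is a horizontal prime of `C` whose pull-back to `B` is unramified over `A`,
and `φa ≠ φb`, then `φa τ - φb τ ∉ 𝔮` for some `τ ∈ T`.

* `z1P_of_leaves`, `z1P` : hypothesis form and closed form;
* `notMem_of_single`     : the case `T = {τ}`.
-/

set_option autoImplicit false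

namespace Fermat.Agent.S36.NakZ1P

open Fermat.Agent.S36.NakPlan

/-- **[N6′] Z1P**: see the file header. -/
def Z1PStatement : Prop :=
  ∀ (O A B C : Type) [CommRing O] [CharZero O] [CommRing A] [CommRing B] [CommRing C]
    [IsDomain C] [IsNoetherianRing C] [Algebra O A] [Algebra O B] [Algebra O C]
    (ι : A →ₐ[O] B) (φa φb : B →ₐ[O] C) (n : Ideal C) (T : Set B) (𝔮 : Ideal C),
    n.IsMaximal →
    (∀ a : A, φa (ι a) = φb (ι a)) →
    (∀ b : B, ∃ p : Polynomial A, p.Monic ∧ Polynomial.eval₂ (ι : A →+* B) b p = 0) →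
    (∀ r : B, φa r ∈ n ↔ φb r ∈ n) →
    (∀ r : B, ∃ c : O, r - algebraMap O B c ∈ Ideal.comap (φa : B →+* C) n) →
    (∀ x ∈ Ideal.comap (φa : B →+* C) n, ∃ s : B, s ∉ Ideal.comap (φa : B →+* C) n ∧
      s * x ∈ Ideal.span (((Ideal.comap (φa : B →+* C) n : Ideal B) : Set B) ∩
        ((Algebra.adjoin O (Set.range ι ∪ T) : Subalgebra O B) : Set B))) →
    (∃ b : B, φa b ≠ φb b) →
    𝔮.IsPrime → 𝔮 ≤ n → (∀ c : O, algebraMap O C c ∈ 𝔮 → c = 0) →
    (∀ r ∈ Ideal.comap (φa : B →+* C) 𝔮, ∃ s : B, s ∉ Ideal.comap (φa : B →+* C) 𝔮 ∧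
      s * r ∈ Ideal.map (ι : A →+* B)
        (Ideal.comap (ι : A →+* B) (Ideal.comap (φa : B →+* C) 𝔮))) →
    ∃ τ ∈ T, φa τ - φb τ ∉ 𝔮

/-- **[N6′]**, hypothesis form. -/
theorem z1P_of_leaves (h4 : EqualiserStatement) (h5 : RigidStatement) : Z1PStatement := by
  intro O A B C _ _ _ _ _ _ _ _ _ _ ι φa φb n T 𝔮 hn hcomm hint hsame hres hgen hne h𝔮 hle hhor
    hunr0
  by_contra hcon
  have hT : ∀ τ ∈ T, φa τ - φb τ ∈ 𝔮 := by
    intro τ hτ
    by_contra h
    exact hcon ⟨τ, hτ, h⟩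
  set nB : Ideal B := Ideal.comap (φa : B →+* C) n with hnB
  have hmemA : ∀ r : B, φa r ∈ n ↔ r ∈ nB := fun r => Iff.rfl
  have hmemB : ∀ r : B, φb r ∈ n ↔ r ∈ nB := fun r => (hsame r).symm
  -- `φa ≡ φb` modulo `𝔮` on the subalgebra `O[ι A, T]`
  have hsub : ∀ x ∈ Algebra.adjoin O (Set.range ι ∪ T), φa x - φb x ∈ 𝔮 := by
    intro x hx
    induction hx using Algebra.adjoin_induction with
    | mem x hx =>
      rcases hx with ⟨a, rfl⟩ | hx
      · rw [hcomm a, sub_self]; exact 𝔮.zero_mem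
      · exact hT x hx
    | algebraMap c =>
      rw [AlgHom.commutes, AlgHom.commutes, sub_self]; exact 𝔮.zero_mem
    | add x y _ _ hx hy =>
      have : φa (x + y) - φb (x + y) = (φa x - φb x) + (φa y - φb y) := by
        rw [map_add, map_add]; ring
      rw [this]
      exact 𝔮.add_mem hx hy
    | mul x y _ _ hx hy =>
      have : φa (x * y) - φb (x * y) = φa x * (φa y - φb y) + (φa x - φb x) * φb y := by
        rw [map_mul, map_mul]; ring
      rw [this]
      exact 𝔮.add_mem (𝔮.mul_mem_left _ hy) (𝔮.mul_mem_right _ hx)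
  -- [N4]
  have hd : ∀ r : B, φa r - φb r ∈ 𝔮 :=
    h4 O B C φa φb nB n 𝔮
      ((nB : Set B) ∩ ((Algebra.adjoin O (Set.range ι ∪ T) : Subalgebra O B) : Set B))
      hn h𝔮 hle hmemA hmemB hres Set.inter_subset_left (fun g hg => hsub g hg.2) hgen
  -- characteristic zero at `𝔮`
  have hchar : ∀ k : ℕ, k ≠ 0 → (k : C) ∉ 𝔮 := by
    intro k hk hkq
    have e : (k : C) = algebraMap O C (k : O) := by rw [map_natCast]
    rw [e] at hkq
    exact hk (Nat.cast_eq_zero.mp (hhor _ hkq))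
  have hunr : ∀ r : B, (φa : B →+* C) r ∈ 𝔮 → ∃ s : B, (φa : B →+* C) s ∉ 𝔮 ∧
      s * r ∈ Ideal.map (ι : A →+* B)
        (Ideal.comap ((φa : B →+* C).comp (ι : A →+* B)) 𝔮) := by
    intro r hr
    obtain ⟨s, hs, hsr⟩ := hunr0 r hr
    refine ⟨s, hs, ?_⟩
    rw [← Ideal.comap_comap]
    exact hsr
  -- [N5]
  have heq : ∀ b : B, (φa : B →+* C) b = (φb : B →+* C) b :=
    h5 A B C (ι : A →+* B) (φa : B →+* C) (φb : B →+* C) 𝔮 h𝔮 hchar (fun a => hcomm a) hint
      (fun b => hd b) hunr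
  obtain ⟨b, hb⟩ := hne
  exact hb (heq b)

/-- **[N6′]** closed form. -/
theorem z1P : Z1PStatement :=
  z1P_of_leaves Fermat.Agent.S36.NakEq.equaliser Fermat.Agent.S36.NakRigid.rigidStatement

/-- The case of a single test element `τ` (`Type`-valued convenience form of `z1P`). -/
theorem notMem_of_single {O A B C : Type} [CommRing O] [CharZero O] [CommRing A] [CommRing B]
    [CommRing C] [IsDomain C] [IsNoetherianRing C] [Algebra O A] [Algebra O B] [Algebra O C]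
    (ι : A →ₐ[O] B) (φa φb : B →ₐ[O] C) (n : Ideal C) (τ : B) (𝔮 : Ideal C)
    (hn : n.IsMaximal) (hcomm : ∀ a : A, φa (ι a) = φb (ι a))
    (hint : ∀ b : B, ∃ p : Polynomial A, p.Monic ∧ Polynomial.eval₂ (ι : A →+* B) b p = 0)
    (hsame : ∀ r : B, φa r ∈ n ↔ φb r ∈ n)
    (hres : ∀ r : B, ∃ c : O, r - algebraMap O B c ∈ Ideal.comap (φa : B →+* C) n)
    (hgen : ∀ x ∈ Ideal.comap (φa : B →+* C) n, ∃ s : B, s ∉ Ideal.comap (φa : B →+* C) n ∧
      s * x ∈ Ideal.span (((Ideal.comap (φa : B →+* C) n : Ideal B) : Set B) ∩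
        ((Algebra.adjoin O (Set.range ι ∪ {τ}) : Subalgebra O B) : Set B)))
    (hne : ∃ b : B, φa b ≠ φb b) (h𝔮 : 𝔮.IsPrime) (hle : 𝔮 ≤ n)
    (hhor : ∀ c : O, algebraMap O C c ∈ 𝔮 → c = 0)
    (hunr : ∀ r ∈ Ideal.comap (φa : B →+* C) 𝔮, ∃ s : B, s ∉ Ideal.comap (φa : B →+* C) 𝔮 ∧
      s * r ∈ Ideal.map (ι : A →+* B)
        (Ideal.comap (ι : A →+* B) (Ideal.comap (φa : B →+* C) 𝔮))) :
    φa τ - φb τ ∉ 𝔮 := by
  obtain ⟨τ', hτ', h⟩ := z1P O A B C ι φa φb n {τ} 𝔮 hn hcomm hint hsame hres hgen hne h𝔮 hle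
    hhor hunr
  rw [Set.mem_singleton_iff] at hτ'
  rw [← hτ']
  exact h

end Fermat.Agent.S36.NakZ1P
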