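import Mathlib
import Fermat.Agent.S36.NakVert
import Fermat.Agent.S36.NakZ1P
import Fermat.Agent.S36.NakGenB
import Fermat.Agent.S36.NakCutAtB

/-!
# S36, package [B1-nak] : the abstract master step of (B1) at ONE closed point

No modular vocabulary.  `O` a discrete valuation ring of characteristic zero with uniformizer
`π`; `A`, `B`, `C` the charts of levels `M`, `M q`, `M q²` (any `O`-algebras with the listed
properties); `ι, ι1 : A → B` the source and the target embedding; `φa, φb : B → C` the two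
embeddings with `φa ∘ ι = φb ∘ ι`; `δ_g = φb (ι1 g) - φa (ι1 g)`.  On `C`: the three component
valuations in the shape `Model3Plan.ChartHyp3` + `ValHyp3`.  On `B`: the two vertical primes
`PF`, `PV` (`PF ⊓ PV = (π)`), `PV` being the pull-back of `P 2` along `φa` and along `φb`.

* `z1_at`               : **Z1 at `n`** — for `f : A` such that `(π, ι t', ι1 f)` generate the
                          point `nB = φa⁻¹ n` of `B` in the sense of `NakGenB.nodeGen`, and with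
                          the unramifiedness `(U)` of the horizontal primes of `B` through `nB`:
                          `δ_f` lies in no horizontal prime of `C` through `n`
                          (`NakZ1P.notMem_of_single` + `NakGenB.nodeGen_inter`).
* `b1_at_W3_point`      : **(B1) at a closed point `n` of `P 2`** — there is
                          `f ∈ {t, t + t² j}` such that `δ_f` generates `P 2` at `n`, and every
                          other height-one prime through `n` is principal at `n`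
                          (`NakVert.exists_gen_delta` chooses `f`; `z1_at`; `NakVert.b1_at_W3`).
* `genAt_of_one_branch` : at a closed point on exactly one component `P i` with `e i = 1`, every
                          prime `𝔮 ≤ n` not containing `π` is principal at `n`
                          (`NakVert.genAt_pi_of_one_branch` + `NakCutAtB.cutAtP` with `δ = π`).
* `genAt_at_point`      : the deliverable of (B1) at one closed point `n` of the special fibre,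
                          from: `branch`, the incidence "two components through `n` ⟹ `P 2 ≤ n`",
                          and the output of `b1_at_W3_point` at the points of `P 2`.
-/

set_option autoImplicit false
set_option linter.unusedSectionVars false

namespace Fermat.Agent.S36.NakAsm

open Fermat.Agent.S34.LocPlan Fermat.Agent.S36.NakPlan Fermat.Agent.S36.Model3Plan
open Fermat.Agent.S36.NakVert

/-! ### Unit multiples of a branch generator -/

section UnitMul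

variable {B : Type*} [CommRing B]

theorem gb_mul_unit {nB PV : Ideal B} (hnB : nB.IsPrime) {b u : B} (hu : u ∉ nB)
    (hgb : ∀ x ∈ nB, ∃ s : B, s ∉ nB ∧ ∃ c : B, s * x - c * b ∈ PV) :
    ∀ x ∈ nB, ∃ s : B, s ∉ nB ∧ ∃ c : B, s * x - c * (b * u) ∈ PV := by
  intro x hx
  obtain ⟨s, hs, c, hc⟩ := hgb x hx
  refine ⟨u * s, fun h => (hnB.mem_or_mem h).elim hu hs, c, ?_⟩
  have h1 : u * s * x - c * (b * u) = u * (s * x - c * b) := by ring
  rw [h1]
  exact PV.mul_mem_left _ hc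

theorem Fb_mul_unit {nB PF : Ideal B} {b : B} (u : B)
    (hFb : ∃ s : B, s ∉ nB ∧ s * b ∈ PF ⊔ nB * nB) :
    ∃ s : B, s ∉ nB ∧ s * (b * u) ∈ PF ⊔ nB * nB := by
  obtain ⟨s, hs, h⟩ := hFb
  refine ⟨s, hs, ?_⟩
  have h1 : s * (b * u) = u * (s * b) := by ring
  rw [h1]
  exact Ideal.mul_mem_left _ _ h

end UnitMul

/-! ### Z1 at a closed point -/

section Z1

variable {O A B C : Type} [CommRing O] [IsDomain O] [IsDiscreteValuationRing O] [CharZero O]
  [CommRing A] [CommRing B] [IsNoetherianRing B] [CommRing C] [IsDomain C] [IsNoetherianRing C]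
  [Algebra O A] [Algebra O B] [Algebra O C]

/-- **Z1 at `n`.**  If `(π, ι t', ι1 f)` generate the point `nB = φa⁻¹ n = φb⁻¹ n` of `B` (in the
hypothesis form of `NakGenB.nodeGen`), the residue field of `nB` is that of `O`, `B` is integral
over `ι A`, `φa ∘ ι = φb ∘ ι`, the horizontal primes of `B` through `nB` are unramified over `A`,
and `δ_f ≠ 0`, then `δ_f = φb (ι1 f) - φa (ι1 f)` lies in no prime `𝔮 ≤ n` of `C` with
`π ∉ 𝔮`. -/
theorem z1_at {π : O} (hπ : Irreducible π) (ι ι1 : A →ₐ[O] B) (φa φb : B →ₐ[O] C)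
    (n : Ideal C) (hn : n.IsMaximal) (PF PV : Ideal B)
    (hcomm : ∀ a : A, φa (ι a) = φb (ι a))
    (hint : ∀ b : B, ∃ p : Polynomial A, p.Monic ∧ Polynomial.eval₂ (ι : A →+* B) b p = 0)
    (hsame : ∀ r : B, φa r ∈ n ↔ φb r ∈ n)
    (hres : ∀ r : B, ∃ c : O, r - algebraMap O B c ∈ Ideal.comap (φa : B →+* C) n)
    (hinf : PF ⊓ PV ≤ Ideal.span {algebraMap O B π})
    (hπF : algebraMap O B π ∈ PF) (hπV : algebraMap O B π ∈ PV)
    (hVn : PV ≤ Ideal.comap (φa : B →+* C) n)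
    (t' f : A) (ha : ι t' ∈ Ideal.comap (φa : B →+* C) n)
    (hb : ι1 f ∈ Ideal.comap (φa : B →+* C) n)
    (hgb : ∀ x ∈ Ideal.comap (φa : B →+* C) n, ∃ s : B, s ∉ Ideal.comap (φa : B →+* C) n ∧
      ∃ c : B, s * x - c * ι1 f ∈ PV)
    (hga : PF ≤ Ideal.comap (φa : B →+* C) n → ∀ x ∈ Ideal.comap (φa : B →+* C) n,
      ∃ s : B, s ∉ Ideal.comap (φa : B →+* C) n ∧ ∃ c : B, s * x - c * ι t' ∈ PF)
    (htr : PF ≤ Ideal.comap (φa : B →+* C) n → ∀ x ∈ Ideal.comap (φa : B →+* C) n,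
      ∃ s : B, s ∉ Ideal.comap (φa : B →+* C) n ∧ s * x ∈ PF ⊔ PV)
    (hFa : PF ≤ Ideal.comap (φa : B →+* C) n → ∃ s : B, s ∉ Ideal.comap (φa : B →+* C) n ∧
      s * ι t' ∈ PV ⊔ Ideal.comap (φa : B →+* C) n * Ideal.comap (φa : B →+* C) n)
    (hFb : PF ≤ Ideal.comap (φa : B →+* C) n → ∃ s : B, s ∉ Ideal.comap (φa : B →+* C) n ∧
      s * ι1 f ∈ PF ⊔ Ideal.comap (φa : B →+* C) n * Ideal.comap (φa : B →+* C) n)
    (hU : ∀ 𝔮B : Ideal B, 𝔮B.IsPrime → 𝔮B ≤ Ideal.comap (φa : B →+* C) n →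
      (∀ c : O, algebraMap O B c ∈ 𝔮B → c = 0) →
      ∀ r ∈ 𝔮B, ∃ s : B, s ∉ 𝔮B ∧
        s * r ∈ Ideal.map (ι : A →+* B) (Ideal.comap (ι : A →+* B) 𝔮B))
    (hne : φb (ι1 f) - φa (ι1 f) ≠ 0)
    (𝔮 : Ideal C) (h𝔮 : 𝔮.IsPrime) (hle : 𝔮 ≤ n) (hπ𝔮 : algebraMap O C π ∉ 𝔮) :
    φb (ι1 f) - φa (ι1 f) ∉ 𝔮 := by
  have hnp : n.IsPrime := hn.isPrime
  have hnB : (Ideal.comap (φa : B →+* C) n).IsPrime := Ideal.comap_isPrime (φa : B →+* C) n
  have hhor : ∀ c : O, algebraMap O C c ∈ 𝔮 → c = 0 :=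
    eq_zero_of_algebraMap_mem hπ h𝔮 hπ𝔮
  -- local generation of `nB` by elements of `O[ι A, ι1 f]`
  have hgen : ∀ x ∈ Ideal.comap (φa : B →+* C) n, ∃ s : B,
      s ∉ Ideal.comap (φa : B →+* C) n ∧
      s * x ∈ Ideal.span (((Ideal.comap (φa : B →+* C) n : Ideal B) : Set B) ∩
        ((Algebra.adjoin O (Set.range ι ∪ {ι1 f}) : Subalgebra O B) : Set B)) :=
    Fermat.Agent.S36.NakGenB.nodeGen_inter (algebraMap O B π) (ι t') (ι1 f) _ PF PV hnB hinf
      (Submodule.mem_inf.2 ⟨hπF, hπV⟩) ha hb hVn hgb hga htr hFa hFb _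
      (Subalgebra.algebraMap_mem _ π)
      (Algebra.subset_adjoin (Or.inl ⟨t', rfl⟩))
      (Algebra.subset_adjoin (Or.inr rfl))
  -- the pull-back of `𝔮` is a horizontal prime of `B` through `nB`
  have h𝔮B : (Ideal.comap (φa : B →+* C) 𝔮).IsPrime := Ideal.comap_isPrime (φa : B →+* C) 𝔮
  have hunr : ∀ r ∈ Ideal.comap (φa : B →+* C) 𝔮, ∃ s : B,
      s ∉ Ideal.comap (φa : B →+* C) 𝔮 ∧
      s * r ∈ Ideal.map (ι : A →+* B)
        (Ideal.comap (ι : A →+* B) (Ideal.comap (φa : B →+* C) 𝔮)) := by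
    refine hU _ h𝔮B (Ideal.comap_mono hle) ?_
    intro c hc
    apply hhor c
    have h1 : φa (algebraMap O B c) ∈ 𝔮 := hc
    rwa [AlgHom.commutes] at h1
  have hne' : ∃ b : B, φa b ≠ φb b := by
    refine ⟨ι1 f, fun h => hne ?_⟩
    rw [h, sub_self]
  have h := Fermat.Agent.S36.NakZ1P.notMem_of_single ι φa φb n (ι1 f) 𝔮 hn hcomm hint hsame hres
    hgen hne' h𝔮 hle hhor hunr
  intro hmem
  apply h
  have h2 : φa (ι1 f) - φb (ι1 f) = -(φb (ι1 f) - φa (ι1 f)) := by ring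
  rw [h2]
  exact 𝔮.neg_mem hmem

end Z1

/-! ### (B1) at a closed point of `P 2` -/

section W3

variable {O A B C : Type} [CommRing O] [IsDomain O] [IsDiscreteValuationRing O] [CharZero O]
  [CommRing A] [CommRing B] [IsNoetherianRing B] [CommRing C] [IsDomain C] [IsNoetherianRing C]
  [IsIntegrallyClosed C] [Algebra O A] [Algebra O B] [Algebra O C]
  {E : Type*} [Field E] [Algebra C E] [IsFractionRing C E]
  {e : Fin 3 → ℕ} {ϖ : Fin 3 → E} {V : Fin 3 → ValuationSubring E} {P : Fin 3 → Ideal C}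

/-- **(B1) at a closed point `n` of `P 2`** (non-cuspidal: the unramifiedness `(U)` holds at the
point `nB` of `B` below `n`).  Inputs, besides the valuation data on `C`:
* `PV` = the pull-back of `P 2` along `φa` and along `φb`; `B = ι1 A + PV`; `δ_g ∈ P 2`;
* the point `nB = φa⁻¹ n`: rational residue field, branch generators `ι t'` (modulo `PF`) and
  `ι1 t` (modulo `PV`), transversality and the Frobenius congruences at a crossing point;
* `δ_j` generates `P 2` at `P 2`;  `δ_f ∉ P 0, P 1` for the `f` vanishing at the point but not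
  along `PV`;  the branch `C / P 2` is regular of dimension one at `n`.
Output: for `f = t` or `f = t + t² j`, `δ_f` generates `P 2` at `n`, and every other height-one
prime through `n` is principal at `n`. -/
theorem b1_at_W3_point {π : O} (hπ : Irreducible π) (hyp : ChartHyp3 π ϖ V P)
    (hval : ValHyp3 (algebraMap C E (algebraMap O C π)) e ϖ V) (hπ0 : algebraMap O C π ≠ 0)
    (ι ι1 : A →ₐ[O] B) (φa φb : B →ₐ[O] C) (n : Ideal C) (hn : n.IsMaximal) (hPn : P 2 ≤ n)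
    (PF PV : Ideal B) (hPV : PV.IsPrime)
    (hcomm : ∀ a : A, φa (ι a) = φb (ι a))
    (hint : ∀ b : B, ∃ p : Polynomial A, p.Monic ∧ Polynomial.eval₂ (ι : A →+* B) b p = 0)
    (hVa : ∀ r : B, φa r ∈ P 2 ↔ r ∈ PV) (hVb : ∀ r : B, φb r ∈ P 2 ↔ r ∈ PV)
    (hdeg : ∀ r : B, ∃ g : A, r - ι1 g ∈ PV)
    (hdP : ∀ g : A, φb (ι1 g) - φa (ι1 g) ∈ P 2)
    (hres : ∀ r : B, ∃ c : O, r - algebraMap O B c ∈ Ideal.comap (φa : B →+* C) n)
    (hinf : PF ⊓ PV ≤ Ideal.span {algebraMap O B π})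
    (hπF : algebraMap O B π ∈ PF) (hπV : algebraMap O B π ∈ PV)
    (t' t j : A) (ha : ι t' ∈ Ideal.comap (φa : B →+* C) n)
    (hb : ι1 t ∈ Ideal.comap (φa : B →+* C) n)
    (hnePV : ∃ x ∈ Ideal.comap (φa : B →+* C) n, x ∉ PV)
    (hgb : ∀ x ∈ Ideal.comap (φa : B →+* C) n, ∃ s : B, s ∉ Ideal.comap (φa : B →+* C) n ∧
      ∃ c : B, s * x - c * ι1 t ∈ PV)
    (hga : PF ≤ Ideal.comap (φa : B →+* C) n → ∀ x ∈ Ideal.comap (φa : B →+* C) n,
      ∃ s : B, s ∉ Ideal.comap (φa : B →+* C) n ∧ ∃ c : B, s * x - c * ι t' ∈ PF)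
    (htr : PF ≤ Ideal.comap (φa : B →+* C) n → ∀ x ∈ Ideal.comap (φa : B →+* C) n,
      ∃ s : B, s ∉ Ideal.comap (φa : B →+* C) n ∧ s * x ∈ PF ⊔ PV)
    (hFa : PF ≤ Ideal.comap (φa : B →+* C) n → ∃ s : B, s ∉ Ideal.comap (φa : B →+* C) n ∧
      s * ι t' ∈ PV ⊔ Ideal.comap (φa : B →+* C) n * Ideal.comap (φa : B →+* C) n)
    (hFb : PF ≤ Ideal.comap (φa : B →+* C) n → ∃ s : B, s ∉ Ideal.comap (φa : B →+* C) n ∧
      s * ι1 t ∈ PF ⊔ Ideal.comap (φa : B →+* C) n * Ideal.comap (φa : B →+* C) n)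
    (hU : ∀ 𝔮B : Ideal B, 𝔮B.IsPrime → 𝔮B ≤ Ideal.comap (φa : B →+* C) n →
      (∀ c : O, algebraMap O B c ∈ 𝔮B → c = 0) →
      ∀ r ∈ 𝔮B, ∃ s : B, s ∉ 𝔮B ∧
        s * r ∈ Ideal.map (ι : A →+* B) (Ideal.comap (ι : A →+* B) 𝔮B))
    (hj : ∀ y ∈ P 2, ∃ s : C, s ∉ P 2 ∧ ∃ c : C, s * y = c * (φb (ι1 j) - φa (ι1 j)))
    (h01 : ∀ f : A, ι1 f ∈ Ideal.comap (φa : B →+* C) n → ι1 f ∉ PV →
      φb (ι1 f) - φa (ι1 f) ∉ P 0 ∧ φb (ι1 f) - φa (ι1 f) ∉ P 1)
    (hbr : ∃ u ∈ n, ∀ x ∈ n, ∃ s : C, s ∉ n ∧ ∃ c : C, s * x - c * u ∈ P 2) :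
    ∃ f : A, (f = t ∨ f = t + t ^ 2 * j) ∧ GenAt n (P 2) (φb (ι1 f) - φa (ι1 f)) ∧
      ∀ 𝔮 : Ideal C, 𝔮.IsPrime → 𝔮 ≤ n → PrincAt 𝔮 → 𝔮 ≠ P 2 → ∃ e' : C, GenAt n 𝔮 e' := by
  have hnp : n.IsPrime := hn.isPrime
  have hnB : (Ideal.comap (φa : B →+* C) n).IsPrime := Ideal.comap_isPrime (φa : B →+* C) n
  have hP2 : (P 2).IsPrime := P_isPrime hyp hval 2
  -- `PV ≤ nB`
  have hVn : PV ≤ Ideal.comap (φa : B →+* C) n := fun r hr => hPn ((hVa r).mpr hr)
  -- the two pull-backs of `n` coincide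
  have hsame : ∀ r : B, φa r ∈ n ↔ φb r ∈ n := by
    intro r
    obtain ⟨g, hg⟩ := hdeg r
    have h1 : φb r - φa r ∈ n := by
      have h2 : φb r - φa r = (φb (r - ι1 g) - φa (r - ι1 g)) + (φb (ι1 g) - φa (ι1 g)) := by
        rw [map_sub, map_sub]; ring
      rw [h2]
      exact n.add_mem (n.sub_mem (hPn ((hVb _).mpr hg)) (hPn ((hVa _).mpr hg))) (hPn (hdP g))
    constructor
    · intro h
      have h3 : φb r = φa r + (φb r - φa r) := by ring
      rw [h3]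
      exact n.add_mem h h1
    · intro h
      have h3 : φa r = φb r - (φb r - φa r) := by ring
      rw [h3]
      exact n.sub_mem h h1
  -- `ι1 t ∉ PV`
  have htV : ι1 t ∉ PV := by
    intro htV
    obtain ⟨x, hx, hxV⟩ := hnePV
    obtain ⟨s, hs, c, hc⟩ := hgb x hx
    have h1 : s * x ∈ PV := by
      have h2 : s * x = (s * x - c * ι1 t) + c * ι1 t := by ring
      rw [h2]
      exact PV.add_mem hc (PV.mul_mem_left _ htV)
    rcases hPV.mem_or_mem h1 with h3 | h3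
    · exact hs (hVn h3)
    · exact hxV h3
  -- the choice of `f`
  obtain ⟨f, hf, hgenf⟩ := exists_gen_delta ((φb : B →+* C).comp (ι1 : A →+* B))
    ((φa : B →+* C).comp (ι1 : A →+* B)) (P 2) hP2 (fun x => hdP x) j t
    (fun y hy => hj y hy) (fun h => htV ((hVb _).mp h))
  have hgenf' : ∀ y ∈ P 2, ∃ s : C, s ∉ P 2 ∧ ∃ c : C, s * y = c * (φb (ι1 f) - φa (ι1 f)) :=
    fun y hy => hgenf y hy
  -- the generator data of `f`
  have key : ι1 f ∈ Ideal.comap (φa : B →+* C) n ∧ ι1 f ∉ PV ∧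
      (∀ x ∈ Ideal.comap (φa : B →+* C) n, ∃ s : B, s ∉ Ideal.comap (φa : B →+* C) n ∧
        ∃ c : B, s * x - c * ι1 f ∈ PV) ∧
      (PF ≤ Ideal.comap (φa : B →+* C) n → ∃ s : B, s ∉ Ideal.comap (φa : B →+* C) n ∧
        s * ι1 f ∈ PF ⊔ Ideal.comap (φa : B →+* C) n * Ideal.comap (φa : B →+* C) n) := by
    rcases hf with rfl | rfl
    · exact ⟨hb, htV, hgb, hFb⟩
    · have hu : (1 + ι1 t * ι1 j : B) ∉ Ideal.comap (φa : B →+* C) n := by
        intro hu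
        have h1 : (1 : B) ∈ Ideal.comap (φa : B →+* C) n := by
          have h2 : (1 : B) = (1 + ι1 t * ι1 j) - ι1 t * ι1 j := by ring
          rw [h2]
          exact Ideal.sub_mem _ hu (Ideal.mul_mem_right _ _ hb)
        exact hnB.ne_top ((Ideal.eq_top_iff_one _).mpr h1)
      have heq : ι1 (t + t ^ 2 * j) = ι1 t * (1 + ι1 t * ι1 j) := by
        rw [map_add, map_mul, map_pow]; ring
      rw [heq]
      refine ⟨Ideal.mul_mem_right _ _ hb, ?_, gb_mul_unit hnB hu hgb,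
        fun hF => Fb_mul_unit _ (hFb hF)⟩
      intro hmem
      rcases hPV.mem_or_mem hmem with h3 | h3
      · exact htV h3
      · exact hu (hVn h3)
  obtain ⟨hfb, hfV, hfgb, hfFb⟩ := key
  obtain ⟨hf0, hf1⟩ := h01 f hfb hfV
  have hδ0 : φb (ι1 f) - φa (ι1 f) ≠ 0 := fun h0 => hf0 (h0 ▸ (P 0).zero_mem)
  -- Z1
  have hZ : ∀ 𝔮 : Ideal C, 𝔮.IsPrime → 𝔮 ≤ n → algebraMap O C π ∉ 𝔮 → PrincAt 𝔮 →
      φb (ι1 f) - φa (ι1 f) ∉ 𝔮 := fun 𝔮 h𝔮 hle hπ𝔮 _ =>
    z1_at hπ ι ι1 φa φb n hn PF PV hcomm hint hsame hres hinf hπF hπV hVn t' f ha hfb hfgb hga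
      htr hFa hfFb hU hδ0 𝔮 h𝔮 hle hπ𝔮
  exact ⟨f, hf, b1_at_W3 hyp hval hπ0 hn hPn hδ0 (hdP f) hgenf' hf0 hf1 hbr hZ⟩

end W3

/-! ### One-branch points and the deliverable at one closed point -/

section Point

variable {O : Type*} [CommRing O] {R : Type} [CommRing R] [IsDomain R] [IsNoetherianRing R]
  [IsIntegrallyClosed R] [Algebra O R]
  {E : Type*} [Field E] [Algebra R E] [IsFractionRing R E]
  {π : O} {e : Fin 3 → ℕ} {ϖ : Fin 3 → E} {V : Fin 3 → ValuationSubring E}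
  {P : Fin 3 → Ideal R}

/-- At a closed point `n` on exactly one component `P i` with `e i = 1` and regular branch,
every prime `𝔮 ≤ n` not containing `π` is principal at `n`. -/
theorem genAt_of_one_branch (hyp : ChartHyp3 π ϖ V P)
    (hval : ValHyp3 (algebraMap R E (algebraMap O R π)) e ϖ V) (hπ0 : algebraMap O R π ≠ 0)
    {n : Ideal R} (hn : n.IsMaximal) (i : Fin 3) (hei : e i = 1) (hPn : P i ≤ n)
    (hother : ∀ j : Fin 3, j ≠ i → ¬ P j ≤ n)
    (hbr : ∃ u ∈ n, ∀ x ∈ n, ∃ s : R, s ∉ n ∧ ∃ c : R, s * x - c * u ∈ P i)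
    (𝔮 : Ideal R) (h𝔮 : 𝔮.IsPrime) (hle : 𝔮 ≤ n) (hπ𝔮 : algebraMap O R π ∉ 𝔮) :
    ∃ e' : R, GenAt n 𝔮 e' :=
  Fermat.Agent.S36.NakCutAtB.cutAtP R n (P i) 𝔮 (algebraMap O R π) hn (P_isPrime hyp hval i)
    hPn h𝔮 hle hπ𝔮 (genAt_pi_of_one_branch hyp hval hπ0 hn.isPrime i hei hother) hbr

/-- **The deliverable of (B1) at one closed point `n` of the special fibre**: every height-one
prime `𝔮 ≤ n` not containing `π` is principal at `n`.  Inputs: the regular branches, the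
incidence rule (two components through `n` ⟹ `P 2 ≤ n`), and (B1) at the points of `P 2`. -/
theorem genAt_at_point (hyp : ChartHyp3 π ϖ V P)
    (hval : ValHyp3 (algebraMap R E (algebraMap O R π)) e ϖ V) (hπ0 : algebraMap O R π ≠ 0)
    (he0 : e 0 = 1) (he1 : e 1 = 1) {n : Ideal R} (hn : n.IsMaximal)
    (hπn : algebraMap O R π ∈ n)
    (hbr : ∀ i : Fin 3, P i ≤ n →
      ∃ u ∈ n, ∀ x ∈ n, ∃ s : R, s ∉ n ∧ ∃ c : R, s * x - c * u ∈ P i)
    (hEx : P 0 ≤ n → P 1 ≤ n → P 2 ≤ n)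
    (hW3 : P 2 ≤ n → ∀ 𝔮 : Ideal R, 𝔮.IsPrime → 𝔮 ≤ n → PrincAt 𝔮 → 𝔮 ≠ P 2 →
      ∃ e' : R, GenAt n 𝔮 e')
    (𝔮 : Ideal R) (h𝔮 : 𝔮.IsPrime) (hle : 𝔮 ≤ n) (hπ𝔮 : algebraMap O R π ∉ 𝔮)
    (hP : PrincAt 𝔮) : ∃ e' : R, GenAt n 𝔮 e' := by
  by_cases h2 : P 2 ≤ n
  · refine hW3 h2 𝔮 h𝔮 hle hP ?_
    intro h
    exact hπ𝔮 (h ▸ pi_mem_P hyp hval 2)
  by_cases h0 : P 0 ≤ n
  · have h1 : ¬ P 1 ≤ n := fun h1 => h2 (hEx h0 h1)
    refine genAt_of_one_branch hyp hval hπ0 hn 0 he0 h0 ?_ (hbr 0 h0) 𝔮 h𝔮 hle hπ𝔮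
    intro j hj
    rcases fin3_cases j with rfl | rfl | rfl
    · exact absurd rfl hj
    · exact h1
    · exact h2
  by_cases h1 : P 1 ≤ n
  · refine genAt_of_one_branch hyp hval hπ0 hn 1 he1 h1 ?_ (hbr 1 h1) 𝔮 h𝔮 hle hπ𝔮
    intro j hj
    rcases fin3_cases j with rfl | rfl | rfl
    · exact h0
    · exact absurd rfl hj
    · exact h2
  exfalso
  obtain ⟨i, hi⟩ := exists_le_of_pi_mem hyp hval hπ0 hn.isPrime hπn
  rcases fin3_cases i with rfl | rfl | rfl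
  · exact h0 hi
  · exact h1 hi
  · exact h2 hi

end Point

end Fermat.Agent.S36.NakAsm
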