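import Mathlib
import Fermat.Agent.S34.PointTop
import Fermat.Agent.S34.ChartRingInv
import Fermat.Agent.S34.ChartJ
import Fermat.Agent.S36.NakGenB

/-!
# S36, package [B1-nak], leaf [N9-gen-pt] : local generators of the closed points of the
level-`M q` charts, with the choice of the function `f`

OWNER: helper124.

Hypothesis (h8) of `NakPlan.Z1Statement` for the concrete charts of level `M q`, in three layers
mirroring `S34/PointHyp.lean` → `S34/PointInst.lean` → `S34/PointTop.lean` (same hypotheses as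
`PointHyp.branch_trans`, `PointInst.branch_trans_R0`, `PointTop.branch_trans_JK`):

at a closed point `n` of the special fibre lying on the second vertical prime `P 1 = w⁻¹ (P 0)`
there are `f, g` in the level-`M` chart such that

* `w (α f) ∈ n`, `α g ∈ n`;
* `f` is an Igusa generator of the point below `n` along `β = w ∘ α`;
* `n = (π, α g, w (α f))` locally at `n`.

(At a one-branch point `g = π`.)
-/

set_option autoImplicit false

namespace Fermat.Agent.S36.NakGenPt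

open Fermat.Agent.S34 Fermat.Agent.S36.NakGenB

/-! ### Abstract layer -/

section Abstract

variable {R S : Type*} [CommRing R] [CommRing S]

/-- The image of an Igusa generator `t` of the point below generates `n` modulo the branch `P0`,
locally at `n` (`PointHyp.exists_gen` with the generator exposed). -/
theorem gen_of_igusa (a : S →+* R) (ϖ : S) (P0 n : Ideal R) (h0 : P0 ≤ n) (hϖ : a ϖ ∈ P0)
    (hB : ∀ x : R, ∃ y : S, x - a y ∈ P0) (t : S)
    (hgen : ∀ x ∈ n.comap a, ∃ c : S, c ∉ n.comap a ∧ c * x ∈ Ideal.span {ϖ, t}) :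
    ∀ x ∈ n, ∃ s : R, s ∉ n ∧ ∃ c : R, s * x - c * a t ∈ P0 := by
  intro x hx
  obtain ⟨y, hy⟩ := hB x
  have hym : y ∈ n.comap a := by
    rw [Ideal.mem_comap]
    have : a y = x - (x - a y) := by ring
    rw [this]
    exact n.sub_mem hx (h0 hy)
  obtain ⟨c, hc, hcy⟩ := hgen y hym
  obtain ⟨u, v, huv⟩ := Ideal.mem_span_pair.mp hcy
  refine ⟨a c, fun h => hc (Ideal.mem_comap.mpr h), a v, ?_⟩
  have h1 : a c * a y = a u * a ϖ + a v * a t := by
    rw [← map_mul, ← map_mul, ← map_mul, ← map_add, huv]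
  have h2 : a c * x - a v * a t = a c * (x - a y) + a u * a ϖ := by
    linear_combination h1
  rw [h2]
  exact P0.add_mem (P0.mul_mem_left _ hy) (P0.mul_mem_left _ hϖ)

/-- A Frobenius congruence `x ≡ r ^ q` modulo `P ≤ n` (`q ≥ 2`) puts `x ∈ n` into `P + n²`. -/
theorem mem_sup_sq_of_frob (P n : Ideal R) (hn : n.IsPrime) (hPn : P ≤ n) (q : ℕ) (hq : 2 ≤ q)
    {x r : R} (hx : x ∈ n) (h : x - r ^ q ∈ P) : x ∈ P ⊔ n * n := by
  have hrq : r ^ q ∈ n := by
    have : r ^ q = x - (x - r ^ q) := by ring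
    rw [this]
    exact n.sub_mem hx (hPn h)
  have hrn : r ∈ n := hn.mem_of_pow_mem q hrq
  obtain ⟨k, rfl⟩ : ∃ k, q = 2 + k := ⟨q - 2, by omega⟩
  have : x = (x - r ^ (2 + k)) + r * r * r ^ k := by ring
  rw [this]
  exact Ideal.add_mem _ (Ideal.mem_sup_left h)
    (Ideal.mem_sup_right (Ideal.mul_mem_right _ _ (Ideal.mul_mem_mul hrn hrn)))

/-- **[N9-gen-pt], abstract form** (vocabulary of `S34/PointHyp.lean`).  `S` = level-`M` chart,
`R` = level-`M q` chart, `a = α`, `e = w_q` (an involution), `P0`, `P1 = e⁻¹ P0` the vertical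
primes with `P0 ⊓ P1 ⊆ (ϖ)`; (B1) `R = a(S) + P0`, (Ig) the Igusa shape on `S`, (Fr)
`a y ≡ r ^ q` modulo `P1`.  At a closed point `n` on the branch `P1` there are `f, g : S` with
`e (a f), a g ∈ n`, `f` an Igusa generator of the point below `n` along `e ∘ a`, and
`n = (ϖ, a g, e (a f))` locally at `n`. -/
theorem exists_gen_point [IsNoetherianRing R] (a : S →+* R) (e : R ≃+* R)
    (he : ∀ r : R, e (e r) = r) (ϖ : S) (P0 P1 n : Ideal R) (q : ℕ) (hq : 2 ≤ q)
    (hn : n.IsMaximal) (h1 : P1 ≤ n)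
    (hP1 : ∀ r : R, r ∈ P1 ↔ e r ∈ P0)
    (hinf : P0 ⊓ P1 ≤ Ideal.span {a ϖ}) (hϖ0 : a ϖ ∈ P0) (hϖe : e (a ϖ) = a ϖ)
    (hB : ∀ x : R, ∃ y : S, x - a y ∈ P0)
    (hI : ∀ m : Ideal S, m.IsMaximal → ϖ ∈ m →
      ∃ t ∈ m, ∀ x ∈ m, ∃ c : S, c ∉ m ∧ c * x ∈ Ideal.span {ϖ, t})
    (hF : ∀ y : S, ∃ r : R, a y - r ^ q ∈ P1) :
    ∃ f g : S, e (a f) ∈ n ∧ a g ∈ n ∧
      (∀ x : S, e (a x) ∈ n → ∃ c : S, e (a c) ∉ n ∧ c * x ∈ Ideal.span {ϖ, f}) ∧
      ∀ x ∈ n, ∃ s : R, s ∉ n ∧ s * x ∈ Ideal.span {a ϖ, a g, e (a f)} := by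
  have hnp : n.IsPrime := hn.isPrime
  have hone : (1 : R) ∉ n := (Ideal.ne_top_iff_one n).mp hn.ne_top
  set a1 : S →+* R := (e : R →+* R).comp a with ha1
  have ha1_apply : ∀ y, a1 y = e (a y) := fun _ => rfl
  have hϖ1 : a ϖ ∈ P1 := by rw [hP1, hϖe]; exact hϖ0
  have ha1ϖ : a1 ϖ ∈ P1 := by rw [ha1_apply, hϖe]; exact hϖ1
  have hB1 : ∀ x : R, ∃ y : S, x - a1 y ∈ P1 := by
    intro x
    obtain ⟨y, hy⟩ := hB (e x)
    refine ⟨y, ?_⟩
    rw [hP1, map_sub, ha1_apply, he]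
    exact hy
  have hm1 : (n.comap a1).IsMaximal := PointHyp.comap_isMaximal a1 P1 n hn h1 hB1
  have hϖm1 : ϖ ∈ n.comap a1 := Ideal.mem_comap.2 (h1 ha1ϖ)
  obtain ⟨f, hf, hfgen⟩ := hI _ hm1 hϖm1
  have hb : e (a f) ∈ n := Ideal.mem_comap.1 hf
  have hgb : ∀ x ∈ n, ∃ s : R, s ∉ n ∧ ∃ c : R, s * x - c * e (a f) ∈ P1 :=
    gen_of_igusa a1 ϖ P1 n h1 ha1ϖ hB1 f hfgen
  have hig : ∀ x : S, e (a x) ∈ n → ∃ c : S, e (a c) ∉ n ∧ c * x ∈ Ideal.span {ϖ, f} := by
    intro x hx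
    obtain ⟨c, hc, hcx⟩ := hfgen x (Ideal.mem_comap.2 hx)
    exact ⟨c, fun h => hc (Ideal.mem_comap.2 h), hcx⟩
  have hϖmem : a ϖ ∈ P0 ⊓ P1 := Submodule.mem_inf.2 ⟨hϖ0, hϖ1⟩
  by_cases h0 : P0 ≤ n
  · have hm0 : (n.comap a).IsMaximal := PointHyp.comap_isMaximal a P0 n hn h0 hB
    obtain ⟨g, hg, hggen⟩ := hI _ hm0 (Ideal.mem_comap.2 (h0 hϖ0))
    have hag : a g ∈ n := Ideal.mem_comap.1 hg
    have hga : ∀ x ∈ n, ∃ s : R, s ∉ n ∧ ∃ c : R, s * x - c * a g ∈ P0 :=
      gen_of_igusa a ϖ P0 n h0 hϖ0 hB g hggen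
    have htr : ∀ x ∈ n, ∃ s : R, s ∉ n ∧ s * x ∈ P0 ⊔ P1 :=
      PointHyp.trans_of a ϖ P0 P1 n q hq hn h0 h1 hϖ0 hB hI hF
    have hFa : ∃ s : R, s ∉ n ∧ s * a g ∈ P1 ⊔ n * n := by
      obtain ⟨r, hr⟩ := hF g
      refine ⟨1, hone, ?_⟩
      rw [one_mul]
      exact mem_sup_sq_of_frob P1 n hnp h1 q hq hag hr
    have hFb : ∃ s : R, s ∉ n ∧ s * e (a f) ∈ P0 ⊔ n * n := by
      obtain ⟨r, hr⟩ := hF f
      have hr' : e (a f) - (e r) ^ q ∈ P0 := by
        have h2 := (hP1 _).1 hr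
        rwa [map_sub, map_pow] at h2
      refine ⟨1, hone, ?_⟩
      rw [one_mul]
      exact mem_sup_sq_of_frob P0 n hnp h0 q hq hb hr'
    exact ⟨f, g, hb, hag, hig,
      nodeGen (a ϖ) (a g) (e (a f)) n P0 P1 hnp hinf hϖmem h1 hgb (fun _ => hga)
        (fun _ => htr) (fun _ => hFa) (fun _ => hFb)⟩
  · exact ⟨f, ϖ, hb, h1 hϖ1, hig,
      nodeGen (a ϖ) (a ϖ) (e (a f)) n P0 P1 hnp hinf hϖmem h1 hgb (fun h => absurd h h0)
        (fun h => absurd h h0) (fun h => absurd h h0) (fun h => absurd h h0)⟩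

end Abstract

/-! ### Chart layer (`S18.Arith` vocabulary, any level, any involution, any coordinate) -/

section Chart

open Fermat.Agent.S18.Arith

variable {N M : ℕ} {A : ValuationSubring Qb} {K : IntermediateField ℚ Qb}

/-- **[N9-gen-pt], generic chart form** (hypotheses of `S34.PointHyp.branch_trans`, with `w` an
involution).  `R = chart N A K t` with vertical ideals `P` (`LocPlan.ChartHyp π V P`),
`V 1 = w⁻¹ (V 0)`, `RM` a subalgebra of `F_K(M)` with the Igusa property, `al : F_K(M) → F_K(N)`.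
At a closed point `n ⊇ P 1` there are `f, g ∈ RM` with `w (al f), al g ∈ n`, `f` an Igusa
generator of the point of `RM` below `n` along `w ∘ al`, and `n = (π, al g, w (al f))` locally
at `n`. -/
theorem exists_gen_chart [IsDiscreteValuationRing (OK A K)]
    (π : OK A K) (hπ : Irreducible π) (q : ℕ) (hq : 2 ≤ q) (t : FK N K)
    (RM : Subalgebra (OK A K) (FK M K))
    (V : Fin 2 → ValuationSubring (FK N K)) (P : Fin 2 → Ideal (chart N A K t))
    (hyp : LocPlan.ChartHyp π V P)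
    (al : FK M K →+* FK N K)
    (hal : ∀ c : OK A K, al (algebraMap (OK A K) (FK M K) c) = algebraMap (OK A K) (FK N K) c)
    (hmap : ∀ y ∈ RM, al y ∈ chart N A K t)
    (w : FK N K ≃+* FK N K)
    (hwO : ∀ c : OK A K, w (algebraMap (OK A K) (FK N K) c) = algebraMap (OK A K) (FK N K) c)
    (hwR : ∀ x ∈ chart N A K t, w x ∈ chart N A K t)
    (hww : ∀ x : FK N K, w (w x) = x)
    (hV : ∀ x : FK N K, x ∈ V 1 ↔ w x ∈ V 0)
    (hB : ∀ x ∈ chart N A K t, ∃ y ∈ RM, ∃ v ∈ V 0,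
      x - al y = algebraMap (OK A K) (FK N K) π * v)
    (hI : IgusaAt M A K RM)
    (hF : ∀ y ∈ RM, ∃ r ∈ RM, ∃ v ∈ V 0,
      w (al y) - al r ^ q = algebraMap (OK A K) (FK N K) π * v)
    [IsNoetherianRing (chart N A K t)]
    (n : Ideal (chart N A K t)) (hn : n.IsMaximal) (h1 : P 1 ≤ n) :
    ∃ f g : RM,
      (⟨w (al f), hwR _ (hmap f f.2)⟩ : chart N A K t) ∈ n ∧
      (⟨al g, hmap g g.2⟩ : chart N A K t) ∈ n ∧
      (∀ x : RM, (⟨w (al x), hwR _ (hmap x x.2)⟩ : chart N A K t) ∈ n →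
        ∃ c : RM, (⟨w (al c), hwR _ (hmap c c.2)⟩ : chart N A K t) ∉ n ∧
          c * x ∈ Ideal.span {algebraMap (OK A K) RM π, f}) ∧
      ∀ x ∈ n, ∃ s : chart N A K t, s ∉ n ∧
        s * x ∈ Ideal.span {algebraMap (OK A K) (chart N A K t) π,
          (⟨al g, hmap g g.2⟩ : chart N A K t),
          (⟨w (al f), hwR _ (hmap f f.2)⟩ : chart N A K t)} := by
  classical
  have hwsymm : ∀ x : FK N K, w.symm x = w x := fun x => w.symm_apply_eq.2 (hww x).symm
  have hwR' : ∀ x ∈ chart N A K t, w.symm x ∈ chart N A K t := by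
    intro x hx
    rw [hwsymm]
    exact hwR x hx
  set a : RM →+* chart N A K t :=
    PointHyp.restrictHom N M A K RM (chart N A K t) al hmap with ha
  set e : chart N A K t ≃+* chart N A K t :=
    PointHyp.restrictEquiv N A K (chart N A K t) w hwR hwR' with he
  have ha_coe : ∀ y : RM, ((a y : chart N A K t) : FK N K) = al (y : FK M K) := fun _ => rfl
  have he_coe : ∀ x : chart N A K t, ((e x : chart N A K t) : FK N K) = w (x : FK N K) :=
    fun _ => rfl
  have hes_coe : ∀ x : chart N A K t,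
      ((e.symm x : chart N A K t) : FK N K) = w.symm (x : FK N K) := fun _ => rfl
  have hee : ∀ r : chart N A K t, e (e r) = r := fun r => Subtype.ext (hww _)
  have hmem : ∀ (i : Fin 2) (r : chart N A K t),
      r ∈ P i ↔ ∃ y ∈ V i, (r : FK N K) = algebraMap (OK A K) (FK N K) π * y :=
    fun i r => hyp.mem_P i r
  set ϖ : RM := algebraMap (OK A K) RM π with hϖdef
  have haϖ : a ϖ = algebraMap (OK A K) (chart N A K t) π := Subtype.ext (hal π)
  have hϖ0 : a ϖ ∈ P 0 := by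
    rw [haϖ, hmem]
    exact ⟨1, (V 0).one_mem, (mul_one _).symm⟩
  have hϖe : e (a ϖ) = a ϖ := by
    rw [haϖ]
    exact Subtype.ext (hwO π)
  have hP1 : ∀ r : chart N A K t, r ∈ P 1 ↔ e r ∈ P 0 := by
    intro r
    rw [hmem, hmem]
    constructor
    · rintro ⟨y, hy, hr⟩
      refine ⟨w y, (hV y).mp hy, ?_⟩
      rw [he_coe, hr, map_mul, hwO]
    · rintro ⟨y, hy, hr⟩
      refine ⟨w.symm y, (hV _).mpr (by rwa [RingEquiv.apply_symm_apply]), ?_⟩
      rw [he_coe] at hr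
      have h2 : (r : FK N K) = w.symm (algebraMap (OK A K) (FK N K) π * y) := by
        rw [← hr, RingEquiv.symm_apply_apply]
      rw [h2, map_mul]
      congr 1
      rw [RingEquiv.symm_apply_eq, hwO]
  have hinf : P 0 ⊓ P 1 ≤ Ideal.span {a ϖ} := by
    intro r hr
    obtain ⟨hr0, hr1⟩ := Submodule.mem_inf.1 hr
    have hall : ∀ i : Fin 2, r ∈ P i := by
      intro i
      fin_cases i
      · exact hr0
      · exact hr1
    obtain ⟨r', hr'⟩ := hyp.red r hall
    rw [haϖ, Ideal.mem_span_singleton']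
    exact ⟨r', by rw [hr', mul_comm]⟩
  have hB' : ∀ x : chart N A K t, ∃ y : RM, x - a y ∈ P 0 := by
    intro x
    obtain ⟨y, hy, v, hv, hxy⟩ := hB x x.2
    refine ⟨⟨y, hy⟩, ?_⟩
    rw [hmem]
    exact ⟨v, hv, hxy⟩
  have hI' : ∀ m : Ideal RM, m.IsMaximal → ϖ ∈ m →
      ∃ t' ∈ m, ∀ x ∈ m, ∃ c : RM, c ∉ m ∧ c * x ∈ Ideal.span {ϖ, t'} :=
    fun m hm hϖm => hI π hπ m hm hϖm
  have hF' : ∀ y : RM, ∃ r : chart N A K t, a y - r ^ q ∈ P 1 := by
    intro y
    obtain ⟨r, hr, v, hv, hyr⟩ := hF y y.2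
    refine ⟨e.symm (a ⟨r, hr⟩), ?_⟩
    rw [hP1, hmem]
    refine ⟨v, hv, ?_⟩
    rw [he_coe]
    push_cast
    rw [map_sub, map_pow, hes_coe, RingEquiv.apply_symm_apply, ha_coe, ha_coe]
    exact hyr
  obtain ⟨f, g, hf, hg, hig, hgen⟩ :=
    exists_gen_point a e hee ϖ (P 0) (P 1) n q hq hn h1 hP1 hinf hϖ0 hϖe hB' hI' hF'
  refine ⟨f, g, hf, hg, hig, ?_⟩
  intro x hx
  obtain ⟨s, hs, hsx⟩ := hgen x hx
  refine ⟨s, hs, ?_⟩
  rw [haϖ] at hsx
  exact hsx

end Chart

/-! ### Level `M q`: `w = w_q`, `α = alphaK`, `V = ![V1, V2]` -/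

section Inst

open ModularCurve HahnSeries Fermat.Agent.S18 Fermat.Agent.S18.Arith Fermat.Agent.S18.ModelPlan

variable (M q : ℕ) [NeZero M] [NeZero q] (hq : q.Prime) (hqM : ¬ q ∣ M)
variable {A : ValuationSubring Qb} {K : IntermediateField ℚ Qb}

/-- **[N9-gen-pt] at level `M q`** for a `w_q`-stable chart `chart (M q) A K t` (hypotheses in
the shapes of `S34.PointInst.branch_trans`). -/
theorem exists_gen_inst (hdvr : IsDiscreteValuationRing (OK A K))
    (π : OK A K) (hπ : Irreducible π) (t : FK (M * q) K)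
    (RM : Subalgebra (OK A K) (FK M K)) (hI : IgusaAt M A K RM)
    (P : Fin 2 → Ideal (chart (M * q) A K t))
    (hyp : LocPlan.ChartHyp π
      ![GaussV.V1 (M * q) A K hdvr, GaussV.V2 (WK.wK M q hq hqM K) hdvr] P)
    (hmap : ∀ y ∈ RM, WK.alphaK M q K y ∈ chart (M * q) A K t)
    (hwR : ∀ x ∈ chart (M * q) A K t, WK.wK M q hq hqM K x ∈ chart (M * q) A K t)
    (hBr : ∀ x ∈ chart (M * q) A K t, ∃ x' ∈ RM,
      GRel A (((x : FK (M * q) K) : LaurentSeries Qb) - ((x' : FK M K) : LaurentSeries Qb)) 0)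
    (hFr : ∀ x ∈ RM, ∃ r ∈ RM,
      GRel A (qExpand Qb q ((x : FK M K) : LaurentSeries Qb)
        - ((r : FK M K) : LaurentSeries Qb) ^ q) 0)
    [IsNoetherianRing (chart (M * q) A K t)]
    (n : Ideal (chart (M * q) A K t)) (hn : n.IsMaximal) (h1 : P 1 ≤ n) :
    ∃ f g : RM,
      (⟨WK.wK M q hq hqM K (WK.alphaK M q K f), hwR _ (hmap f f.2)⟩ :
        chart (M * q) A K t) ∈ n ∧
      (⟨WK.alphaK M q K g, hmap g g.2⟩ : chart (M * q) A K t) ∈ n ∧
      (∀ x : RM, (⟨WK.wK M q hq hqM K (WK.alphaK M q K x), hwR _ (hmap x x.2)⟩ :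
          chart (M * q) A K t) ∈ n →
        ∃ c : RM, (⟨WK.wK M q hq hqM K (WK.alphaK M q K c), hwR _ (hmap c c.2)⟩ :
            chart (M * q) A K t) ∉ n ∧
          c * x ∈ Ideal.span {algebraMap (OK A K) RM π, f}) ∧
      ∀ x ∈ n, ∃ s : chart (M * q) A K t, s ∉ n ∧
        s * x ∈ Ideal.span {algebraMap (OK A K) (chart (M * q) A K t) π,
          (⟨WK.alphaK M q K g, hmap g g.2⟩ : chart (M * q) A K t),
          (⟨WK.wK M q hq hqM K (WK.alphaK M q K f), hwR _ (hmap f f.2)⟩ :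
            chart (M * q) A K t)} := by
  have := hdvr
  set w := WK.wK M q hq hqM K with hw
  refine exists_gen_chart (N := M * q) (M := M) π hπ q hq.two_le t RM
    ![GaussV.V1 (M * q) A K hdvr, GaussV.V2 w hdvr] P hyp (WK.alphaK M q K)
    (fun c => WK.alphaK_constK M q K (c : K)) hmap w
    (fun c => WK.wK_algebraMap_OK M q hq hqM K A c) hwR
    (fun x => WK.wK_wK M q hq hqM K x)
    (fun _ => Iff.rfl) ?_ hI ?_ n hn h1
  · -- (B1)
    intro x hx
    obtain ⟨x', hx', hrel⟩ := hBr x hx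
    exact ⟨x', hx', PointInst.exists_eq_pi_mul_of_gRel_zero hdvr hπ
      (z := x - WK.alphaK M q K x') hrel⟩
  · -- (Fr)
    intro y hy
    obtain ⟨r, hr, hrel⟩ := hFr y hy
    refine ⟨r, hr, PointInst.exists_eq_pi_mul_of_gRel_zero hdvr hπ
      (z := w (WK.alphaK M q K y) - WK.alphaK M q K r ^ q) ?_⟩
    have hc : (((w (WK.alphaK M q K y) - WK.alphaK M q K r ^ q : FK (M * q) K)) :
        LaurentSeries Qb) = qExpand Qb q ((y : FK M K) : LaurentSeries Qb)
          - ((r : FK M K) : LaurentSeries Qb) ^ q := by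
      have h1 : ((w (WK.alphaK M q K y) : FK (M * q) K) : LaurentSeries Qb)
          = qExpand Qb q ((y : FK M K) : LaurentSeries Qb) := WK.coe_betaK M q hq hqM K y
      have h2 : ((WK.alphaK M q K r : FK (M * q) K) : LaurentSeries Qb)
          = ((r : FK M K) : LaurentSeries Qb) := WK.coe_alphaK M q K r
      push_cast
      rw [h1, h2]
    rw [hc]
    exact hrel

end Inst

/-! ### Closed forms: the charts `chart J`, `chart J⁻¹` of level `M q` (`S34/PointTop.lean`) -/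

section Top

open ModularCurve HahnSeries Fermat.Agent.S18 Fermat.Agent.S18.Arith Fermat.Agent.S18.ModelPlan

variable (M q : ℕ) [NeZero M] [NeZero q] (hq : q.Prime) (hqM : ¬ q ∣ M)
variable {A : ValuationSubring Qb} {K : IntermediateField ℚ Qb}

/-- Both charts `chart J`, `chart J⁻¹` of level `M q` are noetherian. -/
theorem isNoetherianRing_chart_JK (hdvr : IsDiscreteValuationRing (OK A K)) :
    IsNoetherianRing (chart (M * q) A K (WKInst.JK M q hq hqM K)) ∧
      IsNoetherianRing (chart (M * q) A K (WKInst.JK M q hq hqM K)⁻¹) := by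
  have h := ChartRingInv.pair_of_isAlgebraic (M * q) A K hdvr (WKInst.JK_ne_zero M q hq hqM K)
    (ChartJ.transcendental_symJ (M * q) A K (WK.isIntegral_jK M q hq hqM A K))
    (ChartJ.isAlgebraic_symJ (M * q) A K (WK.isIntegral_jK M q hq hqM A K))
  exact ⟨h.1.1, h.2.1.1⟩

/-- **[N9-gen-pt], closed form, chart `J`** (no hypothesis beyond `LocPlan.ChartHyp`): at a
closed point `n ⊇ P 1` of `chart (M q) A K J` there are `f, g` in the level-`M` chart
`R0 M q A K` with `w_q (α f), α g ∈ n`, `f` an Igusa generator of the point below `n` along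
`β = w_q ∘ α`, and `n = (π, α g, w_q (α f))` locally at `n`. -/
theorem exists_gen_JK [Fact q.Prime] (hA : A.LiesOverPrime q) (hB : BaseFacts q A K)
    (π : OK A K) (hπ : Irreducible π)
    (P : Fin 2 → Ideal (chart (M * q) A K (WKInst.JK M q hq hqM K)))
    (hyp : LocPlan.ChartHyp π
      ![GaussV.V1 (M * q) A K hB.dvr, GaussV.V2 (WK.wK M q hq hqM K) hB.dvr] P)
    (n : Ideal (chart (M * q) A K (WKInst.JK M q hq hqM K))) (hn : n.IsMaximal)
    (h1 : P 1 ≤ n) :
    ∃ f g : R0 M q A K,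
      (⟨WK.wK M q hq hqM K (WK.alphaK M q K f), WKInst.wK_mem_chart_JK M q hq hqM A K
          (WKInst.alphaK_mem_chart_JK M q hq hqM A K f.2)⟩ :
        chart (M * q) A K (WKInst.JK M q hq hqM K)) ∈ n ∧
      (⟨WK.alphaK M q K g, WKInst.alphaK_mem_chart_JK M q hq hqM A K g.2⟩ :
        chart (M * q) A K (WKInst.JK M q hq hqM K)) ∈ n ∧
      (∀ x : R0 M q A K,
        (⟨WK.wK M q hq hqM K (WK.alphaK M q K x), WKInst.wK_mem_chart_JK M q hq hqM A K
            (WKInst.alphaK_mem_chart_JK M q hq hqM A K x.2)⟩ :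
          chart (M * q) A K (WKInst.JK M q hq hqM K)) ∈ n →
        ∃ c : R0 M q A K,
          (⟨WK.wK M q hq hqM K (WK.alphaK M q K c), WKInst.wK_mem_chart_JK M q hq hqM A K
              (WKInst.alphaK_mem_chart_JK M q hq hqM A K c.2)⟩ :
            chart (M * q) A K (WKInst.JK M q hq hqM K)) ∉ n ∧
          c * x ∈ Ideal.span {algebraMap (OK A K) (R0 M q A K) π, f}) ∧
      ∀ x ∈ n, ∃ s : chart (M * q) A K (WKInst.JK M q hq hqM K), s ∉ n ∧
        s * x ∈ Ideal.span {algebraMap (OK A K) (chart (M * q) A K (WKInst.JK M q hq hqM K)) π,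
          (⟨WK.alphaK M q K g, WKInst.alphaK_mem_chart_JK M q hq hqM A K g.2⟩ :
            chart (M * q) A K (WKInst.JK M q hq hqM K)),
          (⟨WK.wK M q hq hqM K (WK.alphaK M q K f), WKInst.wK_mem_chart_JK M q hq hqM A K
              (WKInst.alphaK_mem_chart_JK M q hq hqM A K f.2)⟩ :
            chart (M * q) A K (WKInst.JK M q hq hqM K))} := by
  have := (isNoetherianRing_chart_JK M q hq hqM (A := A) (K := K) hB.dvr).1
  exact exists_gen_inst M q hq hqM hB.dvr π hπ (WKInst.JK M q hq hqM K) (R0 M q A K)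
    (IgusaStmt.igusaStatement M q hqM A hA K hB (ModelAll.modelStatement M q hqM A hA K hB)).1
    P hyp (fun _ hy => WKInst.alphaK_mem_chart_JK M q hq hqM A K hy)
    (fun _ hx => WKInst.wK_mem_chart_JK M q hq hqM A K hx)
    (PointTop.exists_level_JK M q hq hqM hA hB)
    (fun x hx => FrobTwist.exists_frob_root_R0 M q hqM hA hB x hx) n hn h1

/-- **[N9-gen-pt], closed form, chart `J⁻¹`** (level-`M` chart `Rinf M q A K`). -/
theorem exists_gen_JK_inv [Fact q.Prime] (hA : A.LiesOverPrime q) (hB : BaseFacts q A K)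
    (π : OK A K) (hπ : Irreducible π)
    (P : Fin 2 → Ideal (chart (M * q) A K (WKInst.JK M q hq hqM K)⁻¹))
    (hyp : LocPlan.ChartHyp π
      ![GaussV.V1 (M * q) A K hB.dvr, GaussV.V2 (WK.wK M q hq hqM K) hB.dvr] P)
    (n : Ideal (chart (M * q) A K (WKInst.JK M q hq hqM K)⁻¹)) (hn : n.IsMaximal)
    (h1 : P 1 ≤ n) :
    ∃ f g : Rinf M q A K,
      (⟨WK.wK M q hq hqM K (WK.alphaK M q K f), WKInst.wK_mem_chart_JK_inv M q hq hqM A K
          (WKInst.alphaK_mem_chart_JK_inv M q hq hqM A K f.2)⟩ :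
        chart (M * q) A K (WKInst.JK M q hq hqM K)⁻¹) ∈ n ∧
      (⟨WK.alphaK M q K g, WKInst.alphaK_mem_chart_JK_inv M q hq hqM A K g.2⟩ :
        chart (M * q) A K (WKInst.JK M q hq hqM K)⁻¹) ∈ n ∧
      (∀ x : Rinf M q A K,
        (⟨WK.wK M q hq hqM K (WK.alphaK M q K x), WKInst.wK_mem_chart_JK_inv M q hq hqM A K
            (WKInst.alphaK_mem_chart_JK_inv M q hq hqM A K x.2)⟩ :
          chart (M * q) A K (WKInst.JK M q hq hqM K)⁻¹) ∈ n →
        ∃ c : Rinf M q A K,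
          (⟨WK.wK M q hq hqM K (WK.alphaK M q K c), WKInst.wK_mem_chart_JK_inv M q hq hqM A K
              (WKInst.alphaK_mem_chart_JK_inv M q hq hqM A K c.2)⟩ :
            chart (M * q) A K (WKInst.JK M q hq hqM K)⁻¹) ∉ n ∧
          c * x ∈ Ideal.span {algebraMap (OK A K) (Rinf M q A K) π, f}) ∧
      ∀ x ∈ n, ∃ s : chart (M * q) A K (WKInst.JK M q hq hqM K)⁻¹, s ∉ n ∧
        s * x ∈ Ideal.span
          {algebraMap (OK A K) (chart (M * q) A K (WKInst.JK M q hq hqM K)⁻¹) π,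
          (⟨WK.alphaK M q K g, WKInst.alphaK_mem_chart_JK_inv M q hq hqM A K g.2⟩ :
            chart (M * q) A K (WKInst.JK M q hq hqM K)⁻¹),
          (⟨WK.wK M q hq hqM K (WK.alphaK M q K f), WKInst.wK_mem_chart_JK_inv M q hq hqM A K
              (WKInst.alphaK_mem_chart_JK_inv M q hq hqM A K f.2)⟩ :
            chart (M * q) A K (WKInst.JK M q hq hqM K)⁻¹)} := by
  have := (isNoetherianRing_chart_JK M q hq hqM (A := A) (K := K) hB.dvr).2
  exact exists_gen_inst M q hq hqM hB.dvr π hπ (WKInst.JK M q hq hqM K)⁻¹ (Rinf M q A K)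
    (IgusaStmt.igusaStatement M q hqM A hA K hB (ModelAll.modelStatement M q hqM A hA K hB)).2
    P hyp (fun _ hy => WKInst.alphaK_mem_chart_JK_inv M q hq hqM A K hy)
    (fun _ hx => WKInst.wK_mem_chart_JK_inv M q hq hqM A K hx)
    (PointTop.exists_level_JK_inv M q hq hqM hA hB)
    (fun x hx => FrobTwist.exists_frob_root_Rinf M q hqM hA hB x hx) n hn h1

end Top

end Fermat.Agent.S36.NakGenPt
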