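import Mathlib
import Fermat.Agent.S34.PointHyp

/-!
# S36, package [B1-nak] : the node data at a closed point of the level-`M q` chart, with explicit
generators (abstract; `Mathlib` + the abstract layer of `S34/PointHyp.lean`)

`S` ("level-`M` chart"), `R` ("level-`M q` chart"), two ring homs `a, b : S → R` (source and
target embedding `α`, `β = w_q ∘ α`), two ideals `P0`, `P1` of `R` (the vertical primes: `a` has
residue degree one along `P0`, `b` along `P1`), `ϖ : S` the uniformizer.  From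
* (B1) `R = a(S) + P0`, `R = b(S) + P1`;
* (Ig) the Igusa shape on `S`: every closed point `m ∋ ϖ` is `(ϖ, t)` locally;
* (Fr) `a t ≡ r ^ q` modulo `P1` and `b t ≡ r ^ q` modulo `P0` (Kronecker congruences), `q ≥ 2`;
we get at every closed point `n ⊇ P1` of `R` elements `t', t : S` with exactly the hypotheses
`(gb)`, `(ga)`, `(tr)`, `(Fa)`, `(Fb)` of `NakGenB.nodeGen` / `NakAsm.z1_at` /
`NakAsm.b1_at_W3_point` for the generators `a t'` and `b t`: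

* `node_data` : the statement above;
* `not_mem_of_gen` : a generator of `n` modulo the prime `P1` is not in `P1` when `n ≠ P1`.
-/

set_option autoImplicit false

namespace Fermat.Agent.S36.NakNode

open Fermat.Agent.S34

variable {R S : Type*} [CommRing R] [CommRing S]

/-- An element `x ≡ r ^ q` modulo `P ≤ n` with `x ∈ n`, `q ≥ 2`, lies in `P ⊔ n * n`. -/
theorem mem_sup_sq_of_pow {n P : Ideal R} (hn : n.IsPrime) (hP : P ≤ n) {x r : R} {q : ℕ}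
    (hq : 2 ≤ q) (hx : x ∈ n) (hr : x - r ^ q ∈ P) : x ∈ P ⊔ n * n := by
  have hrq : r ^ q ∈ n := by
    have h1 : r ^ q = x - (x - r ^ q) := by ring
    rw [h1]
    exact n.sub_mem hx (hP hr)
  have hrn : r ∈ n := hn.mem_of_pow_mem q hrq
  obtain ⟨k, rfl⟩ : ∃ k, q = 2 + k := ⟨q - 2, by omega⟩
  have h2 : x = (x - r ^ (2 + k)) + r * r * r ^ k := by ring
  rw [h2]
  exact Ideal.add_mem _ (Ideal.mem_sup_left hr)
    (Ideal.mem_sup_right (Ideal.mul_mem_right _ _ (Ideal.mul_mem_mul hrn hrn)))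

/-- **Node data with explicit generators.**  At a closed point `n ⊇ P1` of `R` there are
`t', t : S` such that `a t', b t ∈ n`, `b t` generates `n` modulo `P1` locally at `n`, and, if
also `P0 ≤ n` (crossing point): `a t'` generates `n` modulo `P0`, the branches are transversal,
`a t' ∈ P1 + n²` and `b t ∈ P0 + n²`. -/
theorem node_data (a b : S →+* R) (ϖ : S) (P0 P1 n : Ideal R) (q : ℕ) (hq : 2 ≤ q)
    (hn : n.IsMaximal) (h1 : P1 ≤ n)
    (haϖ0 : a ϖ ∈ P0) (haϖ1 : a ϖ ∈ P1) (hbϖ1 : b ϖ ∈ P1)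
    (hBa : ∀ x : R, ∃ y : S, x - a y ∈ P0) (hBb : ∀ x : R, ∃ y : S, x - b y ∈ P1)
    (hI : ∀ m : Ideal S, m.IsMaximal → ϖ ∈ m →
      ∃ t ∈ m, ∀ x ∈ m, ∃ c : S, c ∉ m ∧ c * x ∈ Ideal.span {ϖ, t})
    (hFa : ∀ t : S, ∃ r : R, a t - r ^ q ∈ P1) (hFb : ∀ t : S, ∃ r : R, b t - r ^ q ∈ P0) :
    ∃ t' t : S, a t' ∈ n ∧ b t ∈ n ∧
      (∀ x ∈ n, ∃ s : R, s ∉ n ∧ ∃ c : R, s * x - c * b t ∈ P1) ∧
      (P0 ≤ n → ∀ x ∈ n, ∃ s : R, s ∉ n ∧ ∃ c : R, s * x - c * a t' ∈ P0) ∧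
      (P0 ≤ n → ∀ x ∈ n, ∃ s : R, s ∉ n ∧ s * x ∈ P0 ⊔ P1) ∧
      (P0 ≤ n → ∃ s : R, s ∉ n ∧ s * a t' ∈ P1 ⊔ n * n) ∧
      (P0 ≤ n → ∃ s : R, s ∉ n ∧ s * b t ∈ P0 ⊔ n * n) := by
  have hnp : n.IsPrime := hn.isPrime
  have h1n : (1 : R) ∉ n := (Ideal.ne_top_iff_one n).mp hn.ne_top
  obtain ⟨t, htn, hgb⟩ := PointHyp.exists_gen b ϖ P1 n hn h1 hbϖ1 hBb hI
  have hFb' : P0 ≤ n → ∃ s : R, s ∉ n ∧ s * b t ∈ P0 ⊔ n * n := by
    intro h0
    obtain ⟨r, hr⟩ := hFb t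
    exact ⟨1, h1n, by rw [one_mul]; exact mem_sup_sq_of_pow hnp h0 hq htn hr⟩
  by_cases h0 : P0 ≤ n
  · obtain ⟨t', ht'n, hga⟩ := PointHyp.exists_gen a ϖ P0 n hn h0 haϖ0 hBa hI
    refine ⟨t', t, ht'n, htn, hgb, fun _ => hga, fun _ => ?_, fun _ => ?_, hFb'⟩
    · exact PointHyp.trans_of a ϖ P0 P1 n q hq hn h0 h1 haϖ0 hBa hI hFa
    · obtain ⟨r, hr⟩ := hFa t'
      exact ⟨1, h1n, by rw [one_mul]; exact mem_sup_sq_of_pow hnp h1 hq ht'n hr⟩
  · exact ⟨ϖ, t, h1 haϖ1, htn, hgb, fun h => absurd h h0, fun h => absurd h h0,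
      fun h => absurd h h0, hFb'⟩

/-- A generator of `n` modulo the prime `P1` does not lie in `P1` when `n ≠ P1`. -/
theorem not_mem_of_gen {P1 n : Ideal R} (hP1 : P1.IsPrime) (h1 : P1 ≤ n) {u : R}
    (hne : ∃ x ∈ n, x ∉ P1)
    (hgb : ∀ x ∈ n, ∃ s : R, s ∉ n ∧ ∃ c : R, s * x - c * u ∈ P1) : u ∉ P1 := by
  intro hu
  obtain ⟨x, hx, hxP⟩ := hne
  obtain ⟨s, hs, c, hc⟩ := hgb x hx
  have h2 : s * x ∈ P1 := by
    have h3 : s * x = (s * x - c * u) + c * u := by ring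
    rw [h3]
    exact P1.add_mem hc (P1.mul_mem_left _ hu)
  rcases hP1.mem_or_mem h2 with h4 | h4
  · exact hs (h1 h4)
  · exact hxP h4

end Fermat.Agent.S36.NakNode
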