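import Mathlib
import Fermat.Agent.S34.PointsJ
import Fermat.Agent.S36.NakNode

/-!
# S36, package [B1-nak] : the node data at the closed points of the level-`M q` chart `chart J`
(concrete instance of `NakNode.node_data`)

`B = chart (M q) A K J` with `J = j · j_q` (`WKInst.JK`), `A₀ = R0 M q A K = chart M A K j`,
`V = ![V1, V2]` (Gauss valuation and its `w_q`-twist), `P : Fin 2 → Ideal B` the two vertical
ideals (`LocPlan.ChartHyp π ![V1, V2] P`; `P 0` is the branch along which `α` has residue degree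
one, `P 1` the branch along which `β = w_q ∘ α` has residue degree one).

For ANY pair of ring homs `a b : A₀ → B` whose underlying maps are `WK.alphaK` and `WK.betaK`
(e.g. the restrictions used by `NakMod` / `NakInst`), and every closed point `n ∋ π` of `B` with
`P 1 ≤ n`:

* `n ≠ P 1` (`∃ x ∈ n, x ∉ P 1`);
* there are `t' t : A₀` with `a t' ∈ n`, `b t ∈ n` and the hypotheses `(gb)`, `(ga)`, `(tr)`,
  `(Fa)`, `(Fb)` of `NakGenB.nodeGen` / `NakAsm.z1_at` / `NakAsm.b1_at_W3_point`.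

All modular inputs are on main: (B1) `V12J.exists_level_JK` + `ResDeg.hf1`, (Ig)
`IgusaStmt.igusaStatement`, (Fr) `FrobTwist.exists_frob_root_R0`, the `w_q`-symmetry of
`chart J` (`WKInst`).  Also exported: the hypothesis-level facts `hBa`, `hBb`, `hFa`, `hFb`
themselves (`exists_sub_alpha_mem`, `exists_sub_beta_mem`, `exists_beta_sub_pow_mem`,
`exists_alpha_sub_pow_mem`).
-/

set_option autoImplicit false
set_option linter.unusedSectionVars false

noncomputable section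

namespace Fermat.Agent.S36.NakNodeJ

open ModularCurve HahnSeries Fermat.Agent.S18 Fermat.Agent.S18.Arith Fermat.Agent.S18.ModelPlan
open Fermat.Agent.S34

variable (M q : ℕ) [NeZero M] [NeZero q] (hq : q.Prime) (hqM : ¬ q ∣ M)
variable {A : ValuationSubring Qb} {K : IntermediateField ℚ Qb}

/-- `π ∈ P i` for both vertical ideals. -/
theorem pi_mem_P (hdvr : IsDiscreteValuationRing (OK A K)) (π : OK A K)
    (P : Fin 2 → Ideal (chart (M * q) A K (WKInst.JK M q hq hqM K)))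
    (hyp : LocPlan.ChartHyp π
      ![GaussV.V1 (M * q) A K hdvr, GaussV.V2 (WK.wK M q hq hqM K) hdvr] P) (i : Fin 2) :
    algebraMap (OK A K) (chart (M * q) A K (WKInst.JK M q hq hqM K)) π ∈ P i :=
  (hyp.mem_P i _).mpr ⟨1, ValuationSubring.one_mem _, (mul_one _).symm⟩

/-- (B1) for `α` along `P 0`: `chart J = α(chart j) + P 0`. -/
theorem exists_sub_alpha_mem [Fact q.Prime] (hA : A.LiesOverPrime q) (hB : BaseFacts q A K)
    (π : OK A K) (hπ : Irreducible π)
    (P : Fin 2 → Ideal (chart (M * q) A K (WKInst.JK M q hq hqM K)))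
    (hyp : LocPlan.ChartHyp π
      ![GaussV.V1 (M * q) A K hB.dvr, GaussV.V2 (WK.wK M q hq hqM K) hB.dvr] P)
    (x : chart (M * q) A K (WKInst.JK M q hq hqM K)) :
    ∃ y : R0 M q A K, ∀ ay : chart (M * q) A K (WKInst.JK M q hq hqM K),
      (ay : FK (M * q) K) = WK.alphaK M q K (y : FK M K) → x - ay ∈ P 0 := by
  obtain ⟨x', hx', hrel⟩ := V12J.exists_level_JK M q hq hqM A K hA hB
    (ResDeg.hf1 M q hq hqM hA hB) x x.2
  obtain ⟨v, hv, hval⟩ := PointInst.exists_eq_pi_mul_of_gRel_zero hB.dvr hπ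
    (z := (x : FK (M * q) K) - WK.alphaK M q K x') hrel
  refine ⟨⟨x', hx'⟩, fun ay hay => (hyp.mem_P 0 _).mpr ⟨v, hv, ?_⟩⟩
  have h1 : ((x - ay : chart (M * q) A K (WKInst.JK M q hq hqM K)) : FK (M * q) K)
      = (x : FK (M * q) K) - WK.alphaK M q K x' := by
    rw [← hay]; rfl
  exact h1.trans hval

/-- (B1) for `β` along `P 1`: `chart J = β(chart j) + P 1`. -/
theorem exists_sub_beta_mem [Fact q.Prime] (hA : A.LiesOverPrime q) (hB : BaseFacts q A K)
    (π : OK A K) (hπ : Irreducible π)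
    (P : Fin 2 → Ideal (chart (M * q) A K (WKInst.JK M q hq hqM K)))
    (hyp : LocPlan.ChartHyp π
      ![GaussV.V1 (M * q) A K hB.dvr, GaussV.V2 (WK.wK M q hq hqM K) hB.dvr] P)
    (x : chart (M * q) A K (WKInst.JK M q hq hqM K)) :
    ∃ y : R0 M q A K, ∀ by' : chart (M * q) A K (WKInst.JK M q hq hqM K),
      (by' : FK (M * q) K) = WK.betaK M q hq hqM K (y : FK M K) → x - by' ∈ P 1 := by
  obtain ⟨x', hx', hrel⟩ := V12J.exists_level_JK M q hq hqM A K hA hB
    (ResDeg.hf1 M q hq hqM hA hB) (WK.wK M q hq hqM K x)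
    (WKInst.wK_mem_chart_JK M q hq hqM A K x.2)
  obtain ⟨v, hv, hval⟩ := PointInst.exists_eq_pi_mul_of_gRel_zero hB.dvr hπ
    (z := WK.wK M q hq hqM K (x : FK (M * q) K) - WK.alphaK M q K x') hrel
  refine ⟨⟨x', hx'⟩, fun by' hby => (hyp.mem_P 1 _).mpr
    ⟨WK.wK M q hq hqM K v, ?_, ?_⟩⟩
  · show WK.wK M q hq hqM K (WK.wK M q hq hqM K v) ∈ GaussV.V1 (M * q) A K hB.dvr
    rw [WK.wK_wK]; exact hv
  · have h1 : ((x - by' : chart (M * q) A K (WKInst.JK M q hq hqM K)) : FK (M * q) K)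
        = (x : FK (M * q) K) - WK.betaK M q hq hqM K x' := by
      rw [← hby]; rfl
    have h2 := congrArg (WK.wK M q hq hqM K) hval
    rw [map_sub, map_mul, WK.wK_wK, WK.wK_alphaK, WK.wK_algebraMap_OK] at h2
    exact h1.trans h2

/-- (Fr) for `β` along `P 0`: `β t ≡ (α z) ^ q` modulo `P 0`. -/
theorem exists_beta_sub_pow_mem [Fact q.Prime] (hA : A.LiesOverPrime q) (hB : BaseFacts q A K)
    (π : OK A K) (hπ : Irreducible π)
    (P : Fin 2 → Ideal (chart (M * q) A K (WKInst.JK M q hq hqM K)))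
    (hyp : LocPlan.ChartHyp π
      ![GaussV.V1 (M * q) A K hB.dvr, GaussV.V2 (WK.wK M q hq hqM K) hB.dvr] P)
    (t : R0 M q A K) :
    ∃ z : R0 M q A K, ∀ bt az : chart (M * q) A K (WKInst.JK M q hq hqM K),
      (bt : FK (M * q) K) = WK.betaK M q hq hqM K (t : FK M K) →
      (az : FK (M * q) K) = WK.alphaK M q K (z : FK M K) → bt - az ^ q ∈ P 0 := by
  obtain ⟨z, hz, hrel⟩ := FrobTwist.exists_frob_root_R0 M q hqM hA hB t t.2
  obtain ⟨v, hv, hval⟩ := PointInst.exists_eq_pi_mul_of_gRel_zero hB.dvr hπ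
    (z := WK.betaK M q hq hqM K (t : FK M K) - WK.alphaK M q K z ^ q) (by
      have hc : (((WK.betaK M q hq hqM K (t : FK M K) - WK.alphaK M q K z ^ q :
          FK (M * q) K)) : LaurentSeries Qb) = qExpand Qb q (((t : FK M K)) : LaurentSeries Qb)
            - ((z : FK M K) : LaurentSeries Qb) ^ q := by
        have h1 : ((WK.betaK M q hq hqM K (t : FK M K) : FK (M * q) K) : LaurentSeries Qb)
            = qExpand Qb q (((t : FK M K)) : LaurentSeries Qb) := WK.coe_betaK M q hq hqM K _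
        have h2 : ((WK.alphaK M q K z : FK (M * q) K) : LaurentSeries Qb)
            = ((z : FK M K) : LaurentSeries Qb) := WK.coe_alphaK M q K z
        push_cast
        rw [h1, h2]
      rw [hc]
      exact hrel)
  refine ⟨⟨z, hz⟩, fun bt az hbt haz => (hyp.mem_P 0 _).mpr ⟨v, hv, ?_⟩⟩
  have h1 : ((bt - az ^ q : chart (M * q) A K (WKInst.JK M q hq hqM K)) : FK (M * q) K)
      = WK.betaK M q hq hqM K (t : FK M K) - WK.alphaK M q K z ^ q := by
    rw [← hbt, ← haz]; rfl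
  exact h1.trans hval

/-- (Fr) for `α` along `P 1`: `α t ≡ (β z) ^ q` modulo `P 1`. -/
theorem exists_alpha_sub_pow_mem [Fact q.Prime] (hA : A.LiesOverPrime q) (hB : BaseFacts q A K)
    (π : OK A K) (hπ : Irreducible π)
    (P : Fin 2 → Ideal (chart (M * q) A K (WKInst.JK M q hq hqM K)))
    (hyp : LocPlan.ChartHyp π
      ![GaussV.V1 (M * q) A K hB.dvr, GaussV.V2 (WK.wK M q hq hqM K) hB.dvr] P)
    (t : R0 M q A K) :
    ∃ z : R0 M q A K, ∀ at' bz : chart (M * q) A K (WKInst.JK M q hq hqM K),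
      (at' : FK (M * q) K) = WK.alphaK M q K (t : FK M K) →
      (bz : FK (M * q) K) = WK.betaK M q hq hqM K (z : FK M K) → at' - bz ^ q ∈ P 1 := by
  obtain ⟨z, hz, hrel⟩ := FrobTwist.exists_frob_root_R0 M q hqM hA hB t t.2
  obtain ⟨v, hv, hval⟩ := PointInst.exists_eq_pi_mul_of_gRel_zero hB.dvr hπ
    (z := WK.betaK M q hq hqM K (t : FK M K) - WK.alphaK M q K z ^ q) (by
      have hc : (((WK.betaK M q hq hqM K (t : FK M K) - WK.alphaK M q K z ^ q :
          FK (M * q) K)) : LaurentSeries Qb) = qExpand Qb q (((t : FK M K)) : LaurentSeries Qb)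
            - ((z : FK M K) : LaurentSeries Qb) ^ q := by
        have h1 : ((WK.betaK M q hq hqM K (t : FK M K) : FK (M * q) K) : LaurentSeries Qb)
            = qExpand Qb q (((t : FK M K)) : LaurentSeries Qb) := WK.coe_betaK M q hq hqM K _
        have h2 : ((WK.alphaK M q K z : FK (M * q) K) : LaurentSeries Qb)
            = ((z : FK M K) : LaurentSeries Qb) := WK.coe_alphaK M q K z
        push_cast
        rw [h1, h2]
      rw [hc]
      exact hrel)
  refine ⟨⟨z, hz⟩, fun at' bz hat hbz => (hyp.mem_P 1 _).mpr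
    ⟨WK.wK M q hq hqM K v, ?_, ?_⟩⟩
  · show WK.wK M q hq hqM K (WK.wK M q hq hqM K v) ∈ GaussV.V1 (M * q) A K hB.dvr
    rw [WK.wK_wK]; exact hv
  · have h1 : ((at' - bz ^ q : chart (M * q) A K (WKInst.JK M q hq hqM K)) : FK (M * q) K)
        = WK.alphaK M q K (t : FK M K) - WK.betaK M q hq hqM K z ^ q := by
      rw [← hat, ← hbz]; rfl
    have h2 := congrArg (WK.wK M q hq hqM K) hval
    rw [map_sub, map_mul, map_pow, WK.wK_betaK, WK.wK_alphaK, WK.wK_algebraMap_OK] at h2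
    exact h1.trans h2

/-- **Node data at the closed points of `chart J` (level `M q`)**, in the exact shapes of
`NakAsm.b1_at_W3_point` (`PF = P 0`, `PV = P 1`, `ι = a`, `ι1 = b`, `n = comap φa n_C`). -/
theorem node_data_JK [Fact q.Prime] (hA : A.LiesOverPrime q) (hB : BaseFacts q A K)
    (π : OK A K) (hπ : Irreducible π)
    (P : Fin 2 → Ideal (chart (M * q) A K (WKInst.JK M q hq hqM K)))
    (hyp : LocPlan.ChartHyp π
      ![GaussV.V1 (M * q) A K hB.dvr, GaussV.V2 (WK.wK M q hq hqM K) hB.dvr] P)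
    (a b : R0 M q A K →+* chart (M * q) A K (WKInst.JK M q hq hqM K))
    (ha : ∀ y : R0 M q A K,
      ((a y : chart (M * q) A K (WKInst.JK M q hq hqM K)) : FK (M * q) K)
        = WK.alphaK M q K (y : FK M K))
    (hb : ∀ y : R0 M q A K,
      ((b y : chart (M * q) A K (WKInst.JK M q hq hqM K)) : FK (M * q) K)
        = WK.betaK M q hq hqM K (y : FK M K))
    (n : Ideal (chart (M * q) A K (WKInst.JK M q hq hqM K))) (hn : n.IsMaximal)
    (hπn : algebraMap (OK A K) (chart (M * q) A K (WKInst.JK M q hq hqM K)) π ∈ n)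
    (h1 : P 1 ≤ n) :
    (∃ x ∈ n, x ∉ P 1) ∧
    ∃ t' t : R0 M q A K, a t' ∈ n ∧ b t ∈ n ∧
      (∀ x ∈ n, ∃ s : chart (M * q) A K (WKInst.JK M q hq hqM K), s ∉ n ∧
        ∃ c : chart (M * q) A K (WKInst.JK M q hq hqM K), s * x - c * b t ∈ P 1) ∧
      (P 0 ≤ n → ∀ x ∈ n, ∃ s : chart (M * q) A K (WKInst.JK M q hq hqM K), s ∉ n ∧
        ∃ c : chart (M * q) A K (WKInst.JK M q hq hqM K), s * x - c * a t' ∈ P 0) ∧
      (P 0 ≤ n → ∀ x ∈ n, ∃ s : chart (M * q) A K (WKInst.JK M q hq hqM K), s ∉ n ∧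
        s * x ∈ P 0 ⊔ P 1) ∧
      (P 0 ≤ n → ∃ s : chart (M * q) A K (WKInst.JK M q hq hqM K), s ∉ n ∧
        s * a t' ∈ P 1 ⊔ n * n) ∧
      (P 0 ≤ n → ∃ s : chart (M * q) A K (WKInst.JK M q hq hqM K), s ∉ n ∧
        s * b t ∈ P 0 ⊔ n * n) := by
  refine ⟨((PointsJ.branch_trans_JK M q hq hqM hA hB π hπ P hyp).1 n hn hπn 1 h1).1, ?_⟩
  have haϖ : a (algebraMap (OK A K) (R0 M q A K) π)
      = algebraMap (OK A K) (chart (M * q) A K (WKInst.JK M q hq hqM K)) π :=
    Subtype.ext ((ha _).trans (WK.alphaK_constK M q K (π : K)))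
  have hbϖ : b (algebraMap (OK A K) (R0 M q A K) π)
      = algebraMap (OK A K) (chart (M * q) A K (WKInst.JK M q hq hqM K)) π :=
    Subtype.ext ((hb _).trans (WK.betaK_constK M q hq hqM K (π : K)))
  have hπP := pi_mem_P M q hq hqM hB.dvr π P hyp
  refine NakNode.node_data a b (algebraMap (OK A K) (R0 M q A K) π) (P 0) (P 1) n q
    hq.two_le hn h1 (haϖ ▸ hπP 0) (haϖ ▸ hπP 1) (hbϖ ▸ hπP 1) ?_ ?_ ?_ ?_ ?_
  · intro x
    obtain ⟨y, hy⟩ := exists_sub_alpha_mem M q hq hqM hA hB π hπ P hyp x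
    exact ⟨y, hy (a y) (ha y)⟩
  · intro x
    obtain ⟨y, hy⟩ := exists_sub_beta_mem M q hq hqM hA hB π hπ P hyp x
    exact ⟨y, hy (b y) (hb y)⟩
  · intro m hm hϖm
    exact (IgusaStmt.igusaStatement M q hqM A hA K hB
      (ModelAll.modelStatement M q hqM A hA K hB)).1 π hπ m hm hϖm
  · intro t
    obtain ⟨z, hz⟩ := exists_alpha_sub_pow_mem M q hq hqM hA hB π hπ P hyp t
    exact ⟨b z, hz (a t) (b z) (ha t) (hb z)⟩
  · intro t
    obtain ⟨z, hz⟩ := exists_beta_sub_pow_mem M q hq hqM hA hB π hπ P hyp t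
    exact ⟨a z, hz (b t) (a z) (hb t) (ha z)⟩

end Fermat.Agent.S36.NakNodeJ

end
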