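import Mathlib
import Fermat.Agent.S36.NakMod
import Fermat.Agent.S36.NakNodeJ
import Fermat.Agent.S36.NakAsm
import Fermat.Agent.S36.NakGenPt
import Fermat.Agent.S34.ChartHypJ
import Fermat.Agent.S34.CoreAsm
import Fermat.Agent.S35.ResPtB

/-!
# S36, package [B1-nak] : THE TOP — (B1) at every closed point of `W3` on the finite chart

`NakAsm.b1_at_W3_point` instantiated at the three levels `M`, `M q`, `M q²`:

* `CA = chart M A K (jK M K)`;
* `CB = chart (M q) A K J` (`J = WKInst.JK = j · j_q`; `= chart (M q) A K j` by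
  `WKInst.chart_JK_eq`), with its two vertical primes `PB = ChartHypJ.P0` (closed form
  `ChartHypJ.chartHyp_JK`);
* `CC` ANY subalgebra of `F_K(M q²)` equal to `chart (M q²) A K (jK (M q²) K)` (e.g. the chart of
  the coordinate of record `J3 = j · j_q · j_{q²}`), with three vertical primes `P` in the shape
  `Model3Plan.ChartHyp3` + `ValHyp3`;
* the maps `ι, ι1, φa, φb` and `δ_g` of `S36/NakMod.lean`.

Discharged here from main: `hcomm`, `hint`, `hVa`, `hVb`, `hdeg`, `hdP`, `h01` (`NakMod`), the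
node data `ha`, `hb`, `hnePV`, `hgb`, `hga`, `htr`, `hFa`, `hFb` (`NakNodeJ.node_data_JK`),
`hres` (`S35.ResPtB.res_chart_base`), `hinf`, `hπF`, `hπV`, `hPV` (`S34.CoreAsm`), maximality of
the point `nB = φa⁻¹ n` below `n`, and the instances on `O`, `CB`.

Left as NAMED HYPOTHESES (the facts not on main when this file was written):
* the expansion `E` at the middle cusp with `hP3`, `hP0`, `hP1`, `hEα`, `hEβ` (the hypotheses of
  `NakMod`; `S36/NakModE`, `S36/NakModC`);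
* `hU`  : `(U_K)` — the horizontal primes of `CB` are unramified over `CA` ([N8]);
* `hj`  : `δ_j` generates `P 2` at the generic point of `P 2`;
* `hbr` : the branch `CC / P 2` is regular of dimension one at `n` (`ChartModel3.branch`).

Exports:
* `b1_W3`    : `∃ f, GenAt n (P 2) (δ_f) ∧ ∀ 𝔮 prime ≤ n, PrincAt 𝔮 → 𝔮 ≠ P 2 → ∃ e, GenAt n 𝔮 e`
               at EVERY closed point `n ⊇ P 2` of `CC` (triple points included);
* `princ_W3` : the `princ` conjunct of `Model3Plan.ChartModel3` (`i = 2`) there, i.e. the input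
               `hnak` of `Princ3Cases.princ_of_cases` on the finite chart;
* `res_of_eq`, `comap_isMaximal_of_res` : rationality of the closed points of a chart given up to
  equality, and maximality of the pull-back of a rational closed point.
-/

set_option autoImplicit false
set_option linter.unusedSectionVars false

noncomputable section

namespace Fermat.Agent.S36.NakTopB

open ModularCurve HahnSeries
open Fermat.Agent.S18 Fermat.Agent.S18.Arith Fermat.Agent.S18.ModelPlan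
open Fermat.Agent.S34 Fermat.Agent.S34.LocPlan
open Fermat.Agent.S36.NakPlan Fermat.Agent.S36.Model3Plan

/-! ### Rational closed points -/

/-- The closed points of the special fibre of a subalgebra EQUAL to a chart are rational over
the residue field of `O`. -/
theorem res_of_eq (N ℓ : ℕ) [Fact ℓ.Prime] {A : ValuationSubring Qb}
    {K : IntermediateField ℚ Qb} (hB : BaseFacts ℓ A K) (t : FK N K)
    (C : Subalgebra (OK A K) (FK N K)) (hC : C = chart N A K t)
    (π : OK A K) (hπ : Irreducible π) (n : Ideal C) (hn : n.IsMaximal)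
    (hπn : algebraMap (OK A K) C π ∈ n) (r : C) :
    ∃ c : OK A K, r - algebraMap (OK A K) C c ∈ n := by
  subst hC
  exact Fermat.Agent.S35.ResPtB.res_chart_base N ℓ hB t π hπ n hn hπn r

/-- The pull-back of a rational closed point along an `O`-algebra map is a (rational) closed
point. -/
theorem comap_isMaximal_of_res {O B C : Type*} [CommRing O] [IsDomain O]
    [IsDiscreteValuationRing O] [CommRing B] [CommRing C] [Algebra O B] [Algebra O C]
    {π : O} (hπ : Irreducible π) (φ : B →ₐ[O] C) (n : Ideal C) (hn : n.IsPrime)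
    (hπn : algebraMap O C π ∈ n)
    (hres : ∀ r : C, ∃ c : O, r - algebraMap O C c ∈ n) :
    (∀ r : B, ∃ c : O, r - algebraMap O B c ∈ Ideal.comap (φ : B →+* C) n) ∧
      (Ideal.comap (φ : B →+* C) n).IsMaximal ∧
      algebraMap O B π ∈ Ideal.comap (φ : B →+* C) n := by
  have hmem : ∀ x : B, x ∈ Ideal.comap (φ : B →+* C) n ↔ φ x ∈ n := fun x => Iff.rfl
  have hresB : ∀ r : B, ∃ c : O, r - algebraMap O B c ∈ Ideal.comap (φ : B →+* C) n := by
    intro r
    obtain ⟨c, hc⟩ := hres (φ r)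
    refine ⟨c, ?_⟩
    rw [hmem, map_sub, AlgHom.commutes]
    exact hc
  have hπB : algebraMap O B π ∈ Ideal.comap (φ : B →+* C) n := by
    rw [hmem, AlgHom.commutes]
    exact hπn
  have hprime : (Ideal.comap (φ : B →+* C) n).IsPrime := Ideal.comap_isPrime (φ : B →+* C) n
  refine ⟨hresB, ?_, hπB⟩
  rw [Ideal.isMaximal_iff]
  refine ⟨fun h1 => hprime.ne_top ((Ideal.eq_top_iff_one _).mpr h1), ?_⟩
  intro J x hJ hx hxJ
  obtain ⟨c, hc⟩ := hresB x
  have hcJ : algebraMap O B c ∈ J := by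
    have h1 : algebraMap O B c = x - (x - algebraMap O B c) := by ring
    rw [h1]
    exact J.sub_mem hxJ (hJ hc)
  have hcu : IsUnit c := by
    by_contra hcu
    have hcm : c ∈ IsLocalRing.maximalIdeal O := (IsLocalRing.mem_maximalIdeal c).mpr hcu
    rw [hπ.maximalIdeal_eq, Ideal.mem_span_singleton] at hcm
    obtain ⟨d, rfl⟩ := hcm
    apply hx
    have h1 : x = (x - algebraMap O B (π * d)) + algebraMap O B π * algebraMap O B d := by
      rw [map_mul]; ring
    rw [h1]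
    exact Ideal.add_mem _ hc (Ideal.mul_mem_right _ _ hπB)
  obtain ⟨u, rfl⟩ := hcu
  have h1 : (1 : B) = algebraMap O B ((u⁻¹ : Oˣ) : O) * algebraMap O B (u : O) := by
    rw [← map_mul, Units.inv_mul, map_one]
  rw [h1]
  exact J.mul_mem_left _ hcJ

/-! ### The abstract wrapper (type variables; no modular vocabulary) -/

section Wrap

variable {O A B C : Type} [CommRing O] [IsDomain O] [IsDiscreteValuationRing O] [CharZero O]
  [CommRing A] [CommRing B] [IsNoetherianRing B] [CommRing C] [IsDomain C] [IsNoetherianRing C]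
  [IsIntegrallyClosed C] [Algebra O A] [Algebra O B] [Algebra O C]
  {E : Type*} [Field E] [Algebra C E] [IsFractionRing C E]
  {e : Fin 3 → ℕ} {ϖ : Fin 3 → E} {V : Fin 3 → ValuationSubring E} {P : Fin 3 → Ideal C}

/-- `NakAsm.b1_at_W3_point` with its point-wise inputs replaced by statements about ALL closed
points `nB` of `B` (the shapes delivered by `NakNodeJ.node_data_JK`, `NakMod.delta_notMem`, the
rationality of the closed points of `C`, and `(U)` at all horizontal primes of `B`).  Everything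
relating an ideal of `B` to an ideal of `C` is done here, with `B`, `C` type variables. -/
theorem b1_wrap {π : O} (hπ : Irreducible π) (hyp : ChartHyp3 π ϖ V P)
    (hval : ValHyp3 (algebraMap C E (algebraMap O C π)) e ϖ V) (hπ0 : algebraMap O C π ≠ 0)
    (ι ι1 : A →ₐ[O] B) (φa φb : B →ₐ[O] C) (n : Ideal C) (hn : n.IsMaximal) (hPn : P 2 ≤ n)
    (PF PV : Ideal B) (hPV : PV.IsPrime)
    (hcomm : ∀ a : A, φa (ι a) = φb (ι a))
    (hint : ∀ b : B, ∃ p : Polynomial A, p.Monic ∧ Polynomial.eval₂ (ι : A →+* B) b p = 0)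
    (hVa : ∀ r : B, φa r ∈ P 2 ↔ r ∈ PV) (hVb : ∀ r : B, φb r ∈ P 2 ↔ r ∈ PV)
    (hdeg : ∀ r : B, ∃ g : A, r - ι1 g ∈ PV)
    (hdP : ∀ g : A, φb (ι1 g) - φa (ι1 g) ∈ P 2)
    (hinf : PF ⊓ PV ≤ Ideal.span {algebraMap O B π})
    (hπF : algebraMap O B π ∈ PF) (hπV : algebraMap O B π ∈ PV)
    (hresC : ∀ r : C, ∃ c : O, r - algebraMap O C c ∈ n)
    (hnode : ∀ nB : Ideal B, nB.IsMaximal → algebraMap O B π ∈ nB → PV ≤ nB →
      (∃ x ∈ nB, x ∉ PV) ∧
      ∃ t' t : A, (ι : A →+* B) t' ∈ nB ∧ (ι1 : A →+* B) t ∈ nB ∧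
        (∀ x ∈ nB, ∃ s : B, s ∉ nB ∧ ∃ c : B, s * x - c * (ι1 : A →+* B) t ∈ PV) ∧
        (PF ≤ nB → ∀ x ∈ nB, ∃ s : B, s ∉ nB ∧ ∃ c : B, s * x - c * (ι : A →+* B) t' ∈ PF) ∧
        (PF ≤ nB → ∀ x ∈ nB, ∃ s : B, s ∉ nB ∧ s * x ∈ PF ⊔ PV) ∧
        (PF ≤ nB → ∃ s : B, s ∉ nB ∧ s * (ι : A →+* B) t' ∈ PV ⊔ nB * nB) ∧
        (PF ≤ nB → ∃ s : B, s ∉ nB ∧ s * (ι1 : A →+* B) t ∈ PF ⊔ nB * nB))
    (hU : ∀ 𝔮B : Ideal B, 𝔮B.IsPrime → (∀ c : O, algebraMap O B c ∈ 𝔮B → c = 0) →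
      ∀ r ∈ 𝔮B, ∃ s : B, s ∉ 𝔮B ∧
        s * r ∈ Ideal.map (ι : A →+* B) (Ideal.comap (ι : A →+* B) 𝔮B))
    (j : A)
    (hj : ∀ y ∈ P 2, ∃ s : C, s ∉ P 2 ∧ ∃ c : C, s * y = c * (φb (ι1 j) - φa (ι1 j)))
    (h01 : ∀ nB : Ideal B, nB ≠ ⊤ → PV ≤ nB → ∀ f : A, ι1 f ∈ nB → ι1 f ∉ PV →
      φb (ι1 f) - φa (ι1 f) ∉ P 0 ∧ φb (ι1 f) - φa (ι1 f) ∉ P 1)
    (hbr : ∃ u ∈ n, ∀ x ∈ n, ∃ s : C, s ∉ n ∧ ∃ c : C, s * x - c * u ∈ P 2) :
    ∃ f : A, GenAt n (P 2) (φb (ι1 f) - φa (ι1 f)) ∧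
      ∀ 𝔮 : Ideal C, 𝔮.IsPrime → 𝔮 ≤ n → PrincAt 𝔮 → 𝔮 ≠ P 2 → ∃ e' : C, GenAt n 𝔮 e' := by
  have hπn : algebraMap O C π ∈ n := hPn (NakVert.pi_mem_P hyp hval 2)
  obtain ⟨hresB, hnBmax, hπnB⟩ := comap_isMaximal_of_res hπ φa n hn.isPrime hπn hresC
  have hP1le : PV ≤ Ideal.comap (φa : B →+* C) n :=
    fun r hr => Ideal.mem_comap.mpr (hPn ((hVa r).mpr hr))
  obtain ⟨hnePV, t', t, hat, hbt, hgb, hga, htr, hFa, hFb⟩ :=
    hnode (Ideal.comap (φa : B →+* C) n) hnBmax hπnB hP1le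
  obtain ⟨f, -, hgen, hother⟩ := NakAsm.b1_at_W3_point hπ hyp hval hπ0 ι ι1 φa φb n hn hPn
    PF PV hPV hcomm hint hVa hVb hdeg hdP hresB hinf hπF hπV t' t j hat hbt hnePV hgb hga htr
    hFa hFb (fun 𝔮B h𝔮 _ hhor => hU 𝔮B h𝔮 hhor) hj
    (fun f hfn hfV => h01 _ hnBmax.ne_top hP1le f hfn hfV) hbr
  exact ⟨f, hgen, hother⟩

end Wrap

/-! ### The top -/

section Top

variable (M q : ℕ) [NeZero M] [NeZero q] (hq : q.Prime) (hqM : ¬ q ∣ M)
variable {A : ValuationSubring Qb} {K : IntermediateField ℚ Qb}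

/-- **(B1) at every closed point of `W3` on the finite chart** (`[B1-nak]`, the closed top).
`CC = chart (M q²) A K j` (given up to equality), `P : Fin 3 → Ideal CC` its vertical primes
(`ChartHyp3` + `ValHyp3`), `n` a closed point with `P 2 ≤ n`.  Then for some `f` in the level-`M`
chart, `δ_f = φb (ι1 f) - φa (ι1 f) = f(Q^{q²}) - f(Q)` (`= NakMod.delta … f`) generates `P 2` locally at `n`, and every other height-one prime
through `n` is principal at `n`. -/
theorem b1_W3 [Fact q.Prime] (hA : A.LiesOverPrime q) (hB : BaseFacts q A K)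
    (π : OK A K) (hπ : Irreducible π)
    (CC : Subalgebra (OK A K) (FK (M * q * q) K))
    (hCC : CC = chart (M * q * q) A K (jK (M * q * q) K))
    [IsNoetherianRing CC] [IsIntegrallyClosed CC] [IsFractionRing CC (FK (M * q * q) K)]
    {e : Fin 3 → ℕ} {ϖ : Fin 3 → FK (M * q * q) K}
    {V : Fin 3 → ValuationSubring (FK (M * q * q) K)} {P : Fin 3 → Ideal CC}
    (hyp : ChartHyp3 π ϖ V P)
    (hval : ValHyp3 (algebraMap CC (FK (M * q * q) K) (algebraMap (OK A K) CC π)) e ϖ V)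
    (E : FK (M * q * q) K →+* LaurentSeries Qb)
    (hP3 : ∀ r : CC, r ∈ P 2 ↔ GRel A (E (r : FK (M * q * q) K)) 0)
    (hP0 : ∀ r : CC, r ∈ P 0 → GRel A (((r : FK (M * q * q) K)) : LaurentSeries Qb) 0)
    (hP1 : ∀ r : CC, r ∈ P 1 →
      GRel A ((WQ2.wK2 M q hq hqM K (r : FK (M * q * q) K) : FK (M * q * q) K) :
        LaurentSeries Qb) 0)
    (hEα : ∀ x : FK (M * q) K, E (WQ2.alphaK2 M q K x) = (x : LaurentSeries Qb))
    (hEβ : ∀ (x : FK (M * q) K) (y : LaurentSeries (IsLocalRing.ResidueField A)),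
      GRel A ((WK.wK M q hq hqM K x : FK (M * q) K) : LaurentSeries Qb) y →
      GRel A (E (WQ2.betaK2 M q hq hqM K x)) y)
    (hU : ∀ 𝔮B : Ideal (chart (M * q) A K (WKInst.JK M q hq hqM K)), 𝔮B.IsPrime →
      (∀ c : OK A K,
        algebraMap (OK A K) (chart (M * q) A K (WKInst.JK M q hq hqM K)) c ∈ 𝔮B → c = 0) →
      ∀ r ∈ 𝔮B, ∃ s : chart (M * q) A K (WKInst.JK M q hq hqM K), s ∉ 𝔮B ∧
        s * r ∈ Ideal.map
          (NakMod.iota M q (chart (M * q) A K (WKInst.JK M q hq hqM K))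
            (WKInst.chart_JK_eq M q hq hqM A K) :
            chart M A K (jK M K) →+* chart (M * q) A K (WKInst.JK M q hq hqM K))
          (Ideal.comap
            (NakMod.iota M q (chart (M * q) A K (WKInst.JK M q hq hqM K))
              (WKInst.chart_JK_eq M q hq hqM A K) :
              chart M A K (jK M K) →+* chart (M * q) A K (WKInst.JK M q hq hqM K)) 𝔮B))
    (j : chart M A K (jK M K))
    (hj : ∀ y ∈ P 2, ∃ s : CC, s ∉ P 2 ∧ ∃ c : CC,
      s * y = c *
        (NakMod.phiB M q hq hqM (chart (M * q) A K (WKInst.JK M q hq hqM K))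
            (WKInst.chart_JK_eq M q hq hqM A K) CC hCC
            (NakMod.iota1 M q hq hqM (chart (M * q) A K (WKInst.JK M q hq hqM K))
              (WKInst.chart_JK_eq M q hq hqM A K) j)
          - NakMod.phiA M q hq hqM (chart (M * q) A K (WKInst.JK M q hq hqM K))
            (WKInst.chart_JK_eq M q hq hqM A K) CC hCC
            (NakMod.iota1 M q hq hqM (chart (M * q) A K (WKInst.JK M q hq hqM K))
              (WKInst.chart_JK_eq M q hq hqM A K) j)))
    (n : Ideal CC) (hn : n.IsMaximal) (hPn : P 2 ≤ n)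
    (hbr : ∃ u ∈ n, ∀ x ∈ n, ∃ s : CC, s ∉ n ∧ ∃ c : CC, s * x - c * u ∈ P 2) :
    ∃ f : chart M A K (jK M K),
      GenAt n (P 2)
        (NakMod.phiB M q hq hqM (chart (M * q) A K (WKInst.JK M q hq hqM K))
            (WKInst.chart_JK_eq M q hq hqM A K) CC hCC
            (NakMod.iota1 M q hq hqM (chart (M * q) A K (WKInst.JK M q hq hqM K))
              (WKInst.chart_JK_eq M q hq hqM A K) f)
          - NakMod.phiA M q hq hqM (chart (M * q) A K (WKInst.JK M q hq hqM K))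
            (WKInst.chart_JK_eq M q hq hqM A K) CC hCC
            (NakMod.iota1 M q hq hqM (chart (M * q) A K (WKInst.JK M q hq hqM K))
              (WKInst.chart_JK_eq M q hq hqM A K) f)) ∧
      ∀ 𝔮 : Ideal CC, 𝔮.IsPrime → 𝔮 ≤ n → PrincAt 𝔮 → 𝔮 ≠ P 2 → ∃ e' : CC, GenAt n 𝔮 e' := by
  classical
  have := hB.dvr
  have : IsNoetherianRing (chart (M * q) A K (WKInst.JK M q hq hqM K)) :=
    (NakGenPt.isNoetherianRing_chart_JK M q hq hqM hB.dvr).1
  have hCB := WKInst.chart_JK_eq M q hq hqM A K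
  have hypB := ChartHypJ.chartHyp_JK M q hq hqM hA hB hπ
  -- `π ∈ n`, `π ≠ 0`
  have hπn : algebraMap (OK A K) CC π ∈ n := hPn (NakVert.pi_mem_P hyp hval 2)
  have hπ0 : algebraMap (OK A K) CC π ≠ 0 := by
    intro h0
    have h1 : constK (M * q * q) K ((π : OK A K) : K) = 0 := congrArg Subtype.val h0
    have h2 : ((π : OK A K) : K) = 0 := (map_eq_zero (constK (M * q * q) K)).mp h1
    exact hπ.ne_zero (Subtype.ext h2)
  -- the vertical prime `PV = PB 1` of `CB`
  have hP2 : ∀ r : chart (M * q) A K (WKInst.JK M q hq hqM K),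
      r ∈ ChartHypJ.P0 M q hq hqM hB.dvr π 1 ↔
        GRel A ((WK.wK M q hq hqM K (r : FK (M * q) K) : FK (M * q) K) : LaurentSeries Qb) 0 :=
    NakMod.mem_P1_iff_gRel hB.dvr hπ (WK.wK M q hq hqM K) _ _
      (WK.wK_algebraMap_OK M q hq hqM K A) hypB
  exact b1_wrap hπ hyp hval hπ0
    (NakMod.iota M q (chart (M * q) A K (WKInst.JK M q hq hqM K)) hCB)
    (NakMod.iota1 M q hq hqM (chart (M * q) A K (WKInst.JK M q hq hqM K)) hCB)
    (NakMod.phiA M q hq hqM (chart (M * q) A K (WKInst.JK M q hq hqM K)) hCB CC hCC)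
    (NakMod.phiB M q hq hqM (chart (M * q) A K (WKInst.JK M q hq hqM K)) hCB CC hCC)
    n hn hPn (ChartHypJ.P0 M q hq hqM hB.dvr π 0) (ChartHypJ.P0 M q hq hqM hB.dvr π 1)
    (CoreAsm.P_isPrime hypB 1)
    (NakMod.phi_comm M q hq hqM _ hCB CC hCC)
    (NakMod.iota_integral M q _ hCB)
    (NakMod.phiA_mem_iff M q hq hqM _ hCB CC hCC _ (P 2) E hP2 hP3 hEα)
    (NakMod.phiB_mem_iff M q hq hqM _ hCB CC hCC _ (P 2) E hB.dvr hP2 hP3 hEβ)
    (NakMod.exists_iota1_sub_mem M q hq hqM _ hCB _ hA hB hP2)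
    (NakMod.delta_mem M q hq hqM _ hCB CC hCC (P 2) E hB.dvr hP3 hEα hEβ)
    (CoreAsm.P_inf_eq hypB).le
    (NakNodeJ.pi_mem_P M q hq hqM hB.dvr π _ hypB 0)
    (NakNodeJ.pi_mem_P M q hq hqM hB.dvr π _ hypB 1)
    (res_of_eq (M * q * q) q hB (jK (M * q * q) K) CC hCC π hπ n hn hπn)
    (fun nB hnB hπnB hle =>
      NakNodeJ.node_data_JK M q hq hqM hA hB π hπ (ChartHypJ.P0 M q hq hqM hB.dvr π) hypB
        (NakMod.iota M q (chart (M * q) A K (WKInst.JK M q hq hqM K)) hCB :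
          chart M A K (jK M K) →+* chart (M * q) A K (WKInst.JK M q hq hqM K))
        (NakMod.iota1 M q hq hqM (chart (M * q) A K (WKInst.JK M q hq hqM K)) hCB :
          chart M A K (jK M K) →+* chart (M * q) A K (WKInst.JK M q hq hqM K))
        (fun y => NakMod.coe_iota M q _ hCB y) (fun y => NakMod.coe_iota1 M q hq hqM _ hCB y)
        nB hnB hπnB hle)
    hU j hj
    (NakMod.delta_notMem M q hq hqM _ hCB CC hCC _ hB hP2 (P 0) (P 1) hP0 hP1)
    hbr

/-- **The `princ` conjunct at the points of `W3`** (finite chart): the input `hnak` of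
`Princ3Cases.princ_of_cases` / the field `Model3Plan.ChartModel3.princ` with `i = 2`. -/
theorem princ_W3 [Fact q.Prime] (hA : A.LiesOverPrime q) (hB : BaseFacts q A K)
    (π : OK A K) (hπ : Irreducible π)
    (CC : Subalgebra (OK A K) (FK (M * q * q) K))
    (hCC : CC = chart (M * q * q) A K (jK (M * q * q) K))
    [IsNoetherianRing CC] [IsIntegrallyClosed CC] [IsFractionRing CC (FK (M * q * q) K)]
    {e : Fin 3 → ℕ} {ϖ : Fin 3 → FK (M * q * q) K}
    {V : Fin 3 → ValuationSubring (FK (M * q * q) K)} {P : Fin 3 → Ideal CC}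
    (hyp : ChartHyp3 π ϖ V P)
    (hval : ValHyp3 (algebraMap CC (FK (M * q * q) K) (algebraMap (OK A K) CC π)) e ϖ V)
    (E : FK (M * q * q) K →+* LaurentSeries Qb)
    (hP3 : ∀ r : CC, r ∈ P 2 ↔ GRel A (E (r : FK (M * q * q) K)) 0)
    (hP0 : ∀ r : CC, r ∈ P 0 → GRel A (((r : FK (M * q * q) K)) : LaurentSeries Qb) 0)
    (hP1 : ∀ r : CC, r ∈ P 1 →
      GRel A ((WQ2.wK2 M q hq hqM K (r : FK (M * q * q) K) : FK (M * q * q) K) :
        LaurentSeries Qb) 0)
    (hEα : ∀ x : FK (M * q) K, E (WQ2.alphaK2 M q K x) = (x : LaurentSeries Qb))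
    (hEβ : ∀ (x : FK (M * q) K) (y : LaurentSeries (IsLocalRing.ResidueField A)),
      GRel A ((WK.wK M q hq hqM K x : FK (M * q) K) : LaurentSeries Qb) y →
      GRel A (E (WQ2.betaK2 M q hq hqM K x)) y)
    (hU : ∀ 𝔮B : Ideal (chart (M * q) A K (WKInst.JK M q hq hqM K)), 𝔮B.IsPrime →
      (∀ c : OK A K,
        algebraMap (OK A K) (chart (M * q) A K (WKInst.JK M q hq hqM K)) c ∈ 𝔮B → c = 0) →
      ∀ r ∈ 𝔮B, ∃ s : chart (M * q) A K (WKInst.JK M q hq hqM K), s ∉ 𝔮B ∧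
        s * r ∈ Ideal.map
          (NakMod.iota M q (chart (M * q) A K (WKInst.JK M q hq hqM K))
            (WKInst.chart_JK_eq M q hq hqM A K) :
            chart M A K (jK M K) →+* chart (M * q) A K (WKInst.JK M q hq hqM K))
          (Ideal.comap
            (NakMod.iota M q (chart (M * q) A K (WKInst.JK M q hq hqM K))
              (WKInst.chart_JK_eq M q hq hqM A K) :
              chart M A K (jK M K) →+* chart (M * q) A K (WKInst.JK M q hq hqM K)) 𝔮B))
    (j : chart M A K (jK M K))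
    (hj : ∀ y ∈ P 2, ∃ s : CC, s ∉ P 2 ∧ ∃ c : CC,
      s * y = c *
        (NakMod.phiB M q hq hqM (chart (M * q) A K (WKInst.JK M q hq hqM K))
            (WKInst.chart_JK_eq M q hq hqM A K) CC hCC
            (NakMod.iota1 M q hq hqM (chart (M * q) A K (WKInst.JK M q hq hqM K))
              (WKInst.chart_JK_eq M q hq hqM A K) j)
          - NakMod.phiA M q hq hqM (chart (M * q) A K (WKInst.JK M q hq hqM K))
            (WKInst.chart_JK_eq M q hq hqM A K) CC hCC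
            (NakMod.iota1 M q hq hqM (chart (M * q) A K (WKInst.JK M q hq hqM K))
              (WKInst.chart_JK_eq M q hq hqM A K) j)))
    (hbr : ∀ n : Ideal CC, n.IsMaximal → algebraMap (OK A K) CC π ∈ n → P 2 ≤ n →
      ∃ u ∈ n, ∀ x ∈ n, ∃ s : CC, s ∉ n ∧ ∃ c : CC, s * x - c * u ∈ P 2) :
    ∀ n : Ideal CC, n.IsMaximal → algebraMap (OK A K) CC π ∈ n → P 2 ≤ n →
      ∃ i : Fin 3, P i ≤ n ∧ ∃ g ∈ P i, ∀ y ∈ P i, ∃ s : CC, s ∉ n ∧ ∃ c : CC, s * y = c * g := by
  intro n hn hπn hPn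
  obtain ⟨f, hgen, -⟩ := b1_W3 M q hq hqM hA hB π hπ CC hCC hyp hval E hP3 hP0 hP1 hEα hEβ hU
    j hj n hn hPn (hbr n hn hπn hPn)
  exact ⟨2, hPn, _, hgen.1, hgen.2⟩

end Top

end Fermat.Agent.S36.NakTopB

end
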