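/-
S36, package [B1-nak], leaf [N8] (U_K), generic part (helper120; dealt by helper92).

Horizontal primes of a level-`M q` chart are unramified over the level-`M` chart, away from the
elliptic values `j = 0, 1728`.

* `princAt_of_hor`  : every nonzero horizontal prime `𝔮` of a chart `R ⊆ F_K` (noetherian,
  integrally closed, fraction field `F_K`; any level) has `R_𝔮` a discrete valuation ring
  (`LocPlan.PrincAt 𝔮`).  Krull gives a prime `𝔭 ≤ 𝔮` with `PrincAt 𝔭`
  (`S34.KrullStmt.princAt_quot`); `R_𝔭` is the valuation ring of a place `v` of `F_K / K`, whose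
  residue field is algebraic over `K` ([Dict] + residues over `ℚ̄`), hence `𝔭 = 𝔮`.
* `unram_generic`   : `R` a chart of level `M q`, `RM` a subalgebra of `F_K(M)` containing `j`,
  `ι : RM → R` with underlying map `α` (the inclusion `F_K(M) ⊆ F_K(M q)`), `𝔮B` a horizontal
  prime of `R` containing neither `j` nor `j - 1728`.  Then `𝔮B R_𝔮B = ι (ι⁻¹ 𝔮B) R_𝔮B`, in the
  ring form consumed by `NakPlan.Z1Statement`.  The local generator is `P(j)`, `P` the minimal
  polynomial over `K` of the value `a` of `j` at a place of `F̄ / ℚ̄` above `𝔮B`: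
  `ord (P(j)) = ord (j - a) = 1` by `S18.RamChar0.ord_sub_le_one`.
-/
import Mathlib
import Fermat.Agent.S18.ArithPlan
import Fermat.Agent.S18.Dict
import Fermat.Agent.S18.DegFK
import Fermat.Agent.S18.RamChar0
import Fermat.Agent.S24.Residue
import Fermat.Agent.S34.LocPlan
import Fermat.Agent.S34.DvrAt
import Fermat.Agent.S34.HorInst
import Fermat.Agent.S34.KrullStmt
import Fermat.Agent.S34.WK

set_option autoImplicit false

namespace Fermat.Agent.S36.NakUnram

open ModularCurve AlgebraicCurve Polynomial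
open Fermat.Agent.S18 Fermat.Agent.S18.Arith Fermat.Agent.S34 Fermat.Agent.S34.LocPlan
open Fermat.Agent.S24

/-! ### Places: polynomials in a regular function -/

section Place

variable {k F : Type*} [Field k] [Field F] [Algebra k F]

/-- Polynomials (with constant coefficients) in an element of the valuation ring of a place stay
in the valuation ring. -/
theorem aeval_mem (P : Place k F) {Y : F} (hY : Y ∈ P.toValuationSubring) (h : k[X]) :
    aeval Y h ∈ P.toValuationSubring := by
  rw [aeval_eq_sum_range]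
  refine Subring.sum_mem _ fun i _ => ?_
  rw [Algebra.smul_def]
  exact mul_mem (P.algebraMap_mem' _) (pow_mem hY i)

/-- If `Y` takes the value `a` at the place `P` and `g(a) ≠ 0`, then `g(Y)` is a unit at `P`. -/
theorem ord_aeval_eq_zero (P : Place k F) {Y : F} {a : k} {g : k[X]} (hg : g.eval a ≠ 0)
    (hY : 0 < P.ord (Y - algebraMap k F a)) :
    aeval Y g ≠ 0 ∧ P.ord (aeval Y g) = 0 := by
  obtain ⟨h, hh⟩ : X - C a ∣ g - C (g.eval a) := X_sub_C_dvd_sub_C_eval
  have hYa0 : Y - algebraMap k F a ≠ 0 := by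
    intro h0
    rw [h0, Place.ord_zero] at hY
    exact lt_irrefl _ hY
  have hYmem : Y ∈ P.toValuationSubring := by
    have h1 : Y - algebraMap k F a ∈ P.toValuationSubring := mem_of_ord_nonneg P hY.le
    have h2 := add_mem h1 (P.algebraMap_mem' a)
    rwa [sub_add_cancel] at h2
  have e : aeval Y g = algebraMap k F (g.eval a) + (Y - algebraMap k F a) * aeval Y h := by
    have h3 := congrArg (aeval Y) hh
    rw [map_sub, map_mul, map_sub, aeval_C, aeval_C, aeval_X] at h3
    linear_combination h3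
  have hc0 : algebraMap k F (g.eval a) ≠ 0 := (_root_.map_ne_zero _).mpr hg
  have hcord : P.ord (algebraMap k F (g.eval a)) = 0 := ord_algebraMap P _
  by_cases hz : aeval Y h = 0
  · rw [e, hz, mul_zero, add_zero]
    exact ⟨hc0, hcord⟩
  · have hzord : P.ord (algebraMap k F (g.eval a))
        < P.ord ((Y - algebraMap k F a) * aeval Y h) := by
      rw [P.ord_mul hYa0 hz, hcord]
      have h4 := ord_nonneg_of_mem P (aeval_mem P hYmem h)
      omega
    have hsum := ord_add_eq_of_lt_left P hc0 hzord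
    rw [e]
    refine ⟨fun h0 => ?_, by rw [hsum, hcord]⟩
    have h5 : (Y - algebraMap k F a) * aeval Y h = -algebraMap k F (g.eval a) := by
      linear_combination h0
    rw [h5, ord_neg] at hzord
    exact lt_irrefl _ hzord

/-- If `Y` takes the value `a` at `P`, a simple root of `p = (X - a) g`, then
`ord p(Y) = ord (Y - a)`. -/
theorem ord_aeval_mul (P : Place k F) {Y : F} {a : k} {g : k[X]} (hg : g.eval a ≠ 0)
    (hY : 0 < P.ord (Y - algebraMap k F a)) :
    P.ord (aeval Y ((X - C a) * g)) = P.ord (Y - algebraMap k F a) := by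
  obtain ⟨h1, h2⟩ := ord_aeval_eq_zero P hg hY
  have hYa0 : Y - algebraMap k F a ≠ 0 := by
    intro h0
    rw [h0, Place.ord_zero] at hY
    exact lt_irrefl _ hY
  rw [map_mul, map_sub, aeval_X, aeval_C, P.ord_mul hYa0 h1, h2, add_zero]

/-- Elements of positive order are nonunits of the valuation ring. -/
theorem mem_nonunits_of_ord_pos (P : Place k F) {z : F} (hz : 0 < P.ord z) :
    z ∈ P.toValuationSubring.nonunits := by
  have hz0 : z ≠ 0 := by
    rintro rfl
    rw [Place.ord_zero] at hz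
    exact lt_irrefl _ hz
  have hmem : z ∈ P.toValuationSubring := mem_of_ord_nonneg P hz.le
  refine ValuationSubring.mem_nonunits_iff_exists_mem_maximalIdeal.mpr ⟨hmem, ?_⟩
  exact (ord_pos_iff_mem_maximalIdeal P ⟨z, hmem⟩ (fun h0 => hz0 (congrArg Subtype.val h0))).mp hz

/-- Nonzero nonunits of the valuation ring have positive order. -/
theorem ord_pos_of_mem_nonunits (P : Place k F) {z : F} (hz0 : z ≠ 0)
    (hz : z ∈ P.toValuationSubring.nonunits) : 0 < P.ord z := by
  obtain ⟨hmem, hmax⟩ := ValuationSubring.mem_nonunits_iff_exists_mem_maximalIdeal.mp hz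
  exact (ord_pos_iff_mem_maximalIdeal P ⟨z, hmem⟩
    (fun h0 => hz0 (congrArg Subtype.val h0))).mpr hmax

/-- A multiple (by an element of the valuation ring) of a nonunit is a nonunit. -/
theorem mul_mem_nonunits {W : ValuationSubring F} {x z : F} (hx : x ∈ W) (hz : z ∈ W.nonunits) :
    x * z ∈ W.nonunits := by
  rw [ValuationSubring.mem_nonunits_iff] at hz ⊢
  have h1 : W.valuation x ≤ 1 := (W.valuation_le_one_iff x).mpr hx
  rw [map_mul]
  exact mul_lt_one_of_nonneg_of_lt_one_right h1 zero_le hz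

end Place

/-! ### `F_K` versus `F̄`: the order of `P(y)` -/

section KLevel

variable (N : ℕ) [NeZero N] (K : IntermediateField ℚ Qb)

/-- Elements of `ℚ̄` are integral over `K`. -/
theorem isIntegral_K (a : Qb) : IsIntegral K a :=
  ((AlgebraicClosure.isAlgebraic ℚ).isIntegral.isIntegral a).tower_top

/-- `a ∈ ℚ̄` is a simple root of its minimal polynomial over `K`. -/
theorem exists_factor (a : Qb) :
    ∃ g : Qb[X], (minpoly K a).map (algebraMap K Qb) = (X - C a) * g ∧ g.eval a ≠ 0 := by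
  have hint : IsIntegral K a := isIntegral_K K a
  have hroot : ((minpoly K a).map (algebraMap K Qb)).IsRoot a := by
    rw [IsRoot.def, eval_map, ← aeval_def, minpoly.aeval]
  obtain ⟨g, hg⟩ := dvd_iff_isRoot.mpr hroot
  refine ⟨g, hg, fun hga => ?_⟩
  have hsep : ((minpoly K a).map (algebraMap K Qb)).Separable :=
    (minpoly.irreducible hint).separable.map
  rw [hg] at hsep
  obtain ⟨u, w, huw⟩ := hsep.isCoprime
  have h1 := congrArg (eval a) huw
  rw [eval_add, eval_mul, eval_mul, eval_sub, eval_X, eval_C, sub_self, mul_zero, hga, mul_zero,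
    add_zero, eval_one] at h1
  exact zero_ne_one h1

omit [NeZero N] in
/-- The minimal polynomial over `K` of `a`, evaluated at the constant `a` of `F̄`, vanishes. -/
theorem aeval_algebraMap_minpoly (a : Qb) :
    aeval (algebraMap Qb (modularFunctionFieldBar N) a) ((minpoly K a).map (algebraMap K Qb))
      = 0 := by
  rw [aeval_algebraMap_apply, coe_aeval_eq_eval, eval_map, ← aeval_def, minpoly.aeval, map_zero]

/-- Let `P` be a place of `F̄ / ℚ̄` above the place `v` of `F_K / K` with `e = 1` ([Dict]), and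
let `y ∈ F_K` take the value `a ∈ ℚ̄` at `P`.  Then `ord_v p(y) = ord_P (y - a)` for the minimal
polynomial `p` of `a` over `K`. -/
theorem ord_aeval_minpoly (v : Place K (FK N K)) (P : Place Qb (modularFunctionFieldBar N))
    (hP : ∀ x : FK N K, P.ord (DegFK.toBar N K x) = v.ord x)
    (y : FK N K) (a : Qb)
    (hy : 0 < P.ord (DegFK.toBar N K y - algebraMap Qb (modularFunctionFieldBar N) a)) :
    v.ord (aeval y (minpoly K a)) =
      P.ord (DegFK.toBar N K y - algebraMap Qb (modularFunctionFieldBar N) a) := by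
  obtain ⟨g, hg, hga⟩ := exists_factor K a
  rw [← hP, DegFK.toBar_aeval, hg]
  exact ord_aeval_mul P hga hy

end KLevel

/-! ### Horizontal primes of a chart -/

section Chart

variable {N : ℕ} [NeZero N] {A : ValuationSubring Qb} {K : IntermediateField ℚ Qb}

omit [NeZero N] in
/-- The place of `F_K / K` carried by a horizontal prime `𝔮` with `PrincAt 𝔮`. -/
theorem exists_place (hdvr : IsDiscreteValuationRing (OK A K))
    (R : Subalgebra (OK A K) (FK N K)) [IsNoetherianRing R] [IsFractionRing R (FK N K)]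
    (𝔮 : Ideal R) [h𝔮 : 𝔮.IsPrime]
    (hhor : ∀ c : OK A K, algebraMap (OK A K) R c ∈ 𝔮 → c = 0) (hprinc : PrincAt 𝔮) :
    ∃ v : Place K (FK N K), ∀ x : FK N K, x ∈ v.toValuationSubring ↔ RegAt 𝔮 x := by
  obtain ⟨W, hdW, hW⟩ := DvrAt.dvrAt (E := FK N K) 𝔮 hprinc
  obtain ⟨hne, t, ht, hgen⟩ := hprinc
  have := hdvr
  obtain ⟨π, hπ⟩ := IsDiscreteValuationRing.exists_irreducible (OK A K)
  have hπ𝔮 : algebraMap (OK A K) R π ∉ 𝔮 := fun h => hπ.ne_zero (hhor π h)
  have hRW : ∀ r : R, (r : FK N K) ∈ W := fun r => DvrAt.algebraMap_mem hW r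
  have hOW : ∀ c : OK A K, algebraMap (OK A K) (FK N K) c ∈ W := fun c =>
    hRW (algebraMap (OK A K) R c)
  have hπW : (algebraMap (OK A K) (FK N K) π)⁻¹ ∈ W := by
    have h := DvrAt.inv_algebraMap_mem hW hπ𝔮
    have e : algebraMap R (FK N K) (algebraMap (OK A K) R π)
        = algebraMap (OK A K) (FK N K) π := rfl
    rwa [e] at h
  have hKW : ∀ c : K, algebraMap K (FK N K) c ∈ W := HorInst.constK_mem hdvr hπ W hOW hπW
  have hirr := DvrAt.irreducible_gen hW ht hgen
  have ht0 : algebraMap R (FK N K) t ≠ 0 := fun h0 => hirr.ne_zero (Subtype.ext h0)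
  have htop : W ≠ ⊤ :=
    HorInst.ne_top_of_mem_nonunits W ht0 ((DvrAt.algebraMap_mem_nonunits_iff hW).mpr ht)
  exact ⟨HorInst.placeOf W hdW hKW htop, hW⟩

omit [NeZero N] in
/-- Clearing denominators: for `p ∈ K[X]` and `y` in a chart `R` there are `b ≠ 0` in `O` and
`p0 ∈ O[X]` with `p0 = b p`, so that `p0(y) = b p(y)` lies in `R`. -/
theorem exists_clear (R : Subalgebra (OK A K) (FK N K)) (y : R) (p : K[X]) :
    ∃ (b : OK A K) (p0 : (OK A K)[X]), b ≠ 0 ∧
      p0.map (algebraMap (OK A K) K) = b • p ∧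
      ((aeval y p0 : R) : FK N K) = algebraMap (OK A K) (FK N K) b * aeval (y : FK N K) p := by
  obtain ⟨b, hbM, hb⟩ :=
    IsLocalization.integerNormalization_spec (nonZeroDivisors (OK A K)) p
  refine ⟨b, IsLocalization.integerNormalization (nonZeroDivisors (OK A K)) p,
    nonZeroDivisors.ne_zero hbM, hb, ?_⟩
  have h1 : ((aeval y (IsLocalization.integerNormalization (nonZeroDivisors (OK A K)) p) : R) :
      FK N K) = aeval (y : FK N K)
        (IsLocalization.integerNormalization (nonZeroDivisors (OK A K)) p) :=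
    (aeval_algebraMap_apply (FK N K) y _).symm
  rw [h1, ← aeval_map_algebraMap K (y : FK N K), hb,
    ← IsScalarTower.algebraMap_smul K (b : OK A K) p, smul_eq_C_mul, map_mul, aeval_C]
  rfl

/-- **Residue fields of horizontal places are algebraic over `K`**, in ring form: a horizontal
prime `𝔮` containing a prime `𝔭` with `PrincAt 𝔭` is equal to `𝔭`. -/
theorem le_of_princAt (hdvr : IsDiscreteValuationRing (OK A K))
    (R : Subalgebra (OK A K) (FK N K)) [IsNoetherianRing R] [IsFractionRing R (FK N K)]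
    (𝔭 𝔮 : Ideal R) [h𝔭 : 𝔭.IsPrime] (hle : 𝔭 ≤ 𝔮)
    (hhor : ∀ c : OK A K, algebraMap (OK A K) R c ∈ 𝔮 → c = 0) (hprinc : PrincAt 𝔭) :
    𝔮 ≤ 𝔭 := by
  intro y hy
  by_contra hyp
  obtain ⟨v, hv⟩ := exists_place hdvr R 𝔭 (fun c hc => hhor c (hle hc)) hprinc
  obtain ⟨P, hP0⟩ := Dict.dictStatement N K v
  have hP : ∀ x : FK N K, P.ord (DegFK.toBar N K x) = v.ord x := fun x => hP0 x _
  have hmem𝔭 : ∀ r : R, (r : FK N K) ∈ v.toValuationSubring.nonunits → r ∈ 𝔭 := fun r hr =>
    (DvrAt.algebraMap_mem_nonunits_iff hv).mp hr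
  have hyW : (y : FK N K) ∈ v.toValuationSubring := DvrAt.algebraMap_mem hv y
  have hyord : 0 ≤ P.ord (DegFK.toBar N K (y : FK N K)) := by
    rw [hP]
    exact ord_nonneg_of_mem v hyW
  obtain ⟨a, ha⟩ := exists_residue (RamChar0.isFF1 N) P hyord
  -- the value of `y` is not `0`
  have ha0 : a ≠ 0 := by
    rintro rfl
    rcases ha with ha | ha
    · rw [map_zero] at ha
      have h0 : (y : FK N K) = 0 := DegFK.toBar_injective N K (by rw [ha, map_zero])
      have h1 : y = 0 := Subtype.ext h0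
      exact hyp (h1 ▸ 𝔭.zero_mem)
    · rw [map_zero, sub_zero, hP] at ha
      exact hyp (hmem𝔭 y (mem_nonunits_of_ord_pos v ha))
  -- `p(y)` is a nonunit at `v`
  have key : aeval (y : FK N K) (minpoly K a) ∈ v.toValuationSubring.nonunits := by
    rcases ha with ha | ha
    · have h0 : aeval (y : FK N K) (minpoly K a) = 0 := by
        apply DegFK.toBar_injective N K
        rw [DegFK.toBar_aeval, ha, aeval_algebraMap_minpoly, map_zero]
      rw [h0, ValuationSubring.mem_nonunits_iff, map_zero]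
      exact zero_lt_one
    · apply mem_nonunits_of_ord_pos
      rw [ord_aeval_minpoly N K v P hP _ a ha]
      exact ha
  obtain ⟨b, p0, hb0, hmap, hcoe⟩ := exists_clear R y (minpoly K a)
  have hz𝔭 : aeval y p0 ∈ 𝔭 := by
    apply hmem𝔭
    rw [hcoe]
    exact mul_mem_nonunits (DvrAt.algebraMap_mem hv (algebraMap (OK A K) R b)) key
  -- the constant term
  obtain ⟨h, hh⟩ : X ∣ p0 - C (p0.coeff 0) := X_dvd_sub_C
  have h3 := congrArg (aeval y) hh
  rw [map_sub, map_mul, aeval_C, aeval_X] at h3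
  have hc𝔮 : algebraMap (OK A K) R (p0.coeff 0) ∈ 𝔮 := by
    have h4 : algebraMap (OK A K) R (p0.coeff 0) = aeval y p0 - y * aeval y h := by
      linear_combination -h3
    rw [h4]
    exact 𝔮.sub_mem (hle hz𝔭) (𝔮.mul_mem_right _ hy)
  have hc0 : p0.coeff 0 = 0 := hhor _ hc𝔮
  have h5 := congrArg (fun r => r.coeff 0) hmap
  simp only [coeff_map, coeff_smul, hc0, map_zero] at h5
  rw [Algebra.smul_def] at h5
  rcases mul_eq_zero.mp h5.symm with h6 | h6
  · exact hb0 ((map_eq_zero_iff _ (IsFractionRing.injective (OK A K) K)).mp h6)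
  · exact minpoly.coeff_zero_ne_zero (isIntegral_K K a) ha0 h6

/-- **Every nonzero horizontal prime of a chart is `PrincAt`** (its local ring is a discrete
valuation ring). -/
theorem princAt_of_hor (N : ℕ) [NeZero N] (A : ValuationSubring Qb) (K : IntermediateField ℚ Qb)
    (hdvr : IsDiscreteValuationRing (OK A K))
    (R : Subalgebra (OK A K) (FK N K)) [IsNoetherianRing R] [IsFractionRing R (FK N K)]
    [IsIntegrallyClosed R] (𝔮 : Ideal R) (h𝔮 : 𝔮.IsPrime) (hne : 𝔮 ≠ ⊥)
    (hhor : ∀ c : OK A K, algebraMap (OK A K) R c ∈ 𝔮 → c = 0) : PrincAt 𝔮 := by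
  obtain ⟨b, hb𝔮, hb0⟩ := Submodule.exists_mem_ne_zero_of_ne_bot hne
  have hab : ∀ s : R, s ∉ 𝔮 → ¬ b ∣ s * 1 := by
    rintro s hs ⟨d, hd⟩
    rw [mul_one] at hd
    exact hs (hd ▸ 𝔮.mul_mem_right d hb𝔮)
  obtain ⟨c, hc, -, hle, hP⟩ := KrullUnitLoc.exists_prime_quot_le 𝔮 hab
  have hprinc : PrincAt (KrullUnit.quot b c) := KrullStmt.princAt_quot hb0 hc hP
  have hge : 𝔮 ≤ KrullUnit.quot b c := le_of_princAt hdvr R _ 𝔮 hle hhor hprinc
  rw [le_antisymm hge hle]
  exact hprinc

end Chart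

/-! ### [N8] (U_K), generic `j`-value -/

section Unram

variable (M q : ℕ) [NeZero M] [NeZero q] (A : ValuationSubring Qb) (K : IntermediateField ℚ Qb)

/-- **[N8] (U_K), generic part.**  `R` a chart of level `M q` (noetherian, integrally closed,
fraction field `F_K(M q)`), `RM` a subalgebra of `F_K(M)` containing `j`, `ι : RM → R` a ring hom
with underlying map `α = WK.alphaK` (the inclusion `F_K(M) ⊆ F_K(M q)`).  Every horizontal prime
`𝔮B` of `R` which contains neither `j` nor `j - 1728` is unramified over `RM`: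
`𝔮B R_𝔮B = ι (ι⁻¹ 𝔮B) R_𝔮B`. -/
theorem unram_generic (hdvr : IsDiscreteValuationRing (OK A K))
    (R : Subalgebra (OK A K) (FK (M * q) K)) [IsNoetherianRing R]
    [IsFractionRing R (FK (M * q) K)] [IsIntegrallyClosed R]
    (RM : Subalgebra (OK A K) (FK M K)) (hjM : jK M K ∈ RM)
    (ι : RM →+* R)
    (hι : ∀ y : RM, ((ι y : R) : FK (M * q) K) = WK.alphaK M q K (y : FK M K))
    (𝔮B : Ideal R) (h𝔮 : 𝔮B.IsPrime)
    (hhor : ∀ c : OK A K, algebraMap (OK A K) R c ∈ 𝔮B → c = 0)
    (hj0 : ∀ z ∈ 𝔮B, (z : FK (M * q) K) ≠ jK (M * q) K)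
    (hj1 : ∀ z ∈ 𝔮B, (z : FK (M * q) K) ≠ jK (M * q) K - 1728) :
    ∀ r ∈ 𝔮B, ∃ s : R, s ∉ 𝔮B ∧ s * r ∈ Ideal.map ι (Ideal.comap ι 𝔮B) := by
  intro r hr
  have := h𝔮
  have hone : (1 : R) ∉ 𝔮B := (Ideal.ne_top_iff_one 𝔮B).mp h𝔮.ne_top
  by_cases hr0 : r = 0
  · refine ⟨1, hone, ?_⟩
    rw [hr0, mul_zero]
    exact Ideal.zero_mem _
  have hne : 𝔮B ≠ ⊥ := fun h => hr0 (by rw [h] at hr; exact hr)
  have hprinc := princAt_of_hor (M * q) A K hdvr R 𝔮B h𝔮 hne hhor
  obtain ⟨v, hv⟩ := exists_place hdvr R 𝔮B hhor hprinc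
  obtain ⟨P, hP0⟩ := Dict.dictStatement (M * q) K v
  have hP : ∀ x : FK (M * q) K, P.ord (DegFK.toBar (M * q) K x) = v.ord x := fun x => hP0 x _
  have hmem : ∀ z : R, (z : FK (M * q) K) ∈ v.toValuationSubring.nonunits ↔ z ∈ 𝔮B := fun z =>
    DvrAt.algebraMap_mem_nonunits_iff hv
  -- `j` as an element of the two charts
  set jM : RM := ⟨jK M K, hjM⟩ with hjMdef
  have hjR : ((ι jM : R) : FK (M * q) K) = jK (M * q) K := by
    rw [hι, hjMdef, WK.alphaK_jK]
  -- the value `a` of `j` at `P`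
  have hjW : ((ι jM : R) : FK (M * q) K) ∈ v.toValuationSubring := DvrAt.algebraMap_mem hv _
  have hjord : 0 ≤ P.ord (jF (M * q)) := by
    rw [← DegFK.toBar_jK (M * q) K, hP, ← hjR]
    exact ord_nonneg_of_mem v hjW
  obtain ⟨a, ha⟩ := exists_residue (RamChar0.isFF1 (M * q)) P hjord
  have ha' : 0 < P.ord (jF (M * q) - algebraMap Qb (FN (M * q)) a) := by
    rcases ha with ha | ha
    · exact absurd (ha ▸ isAlgebraic_algebraMap a) (transcendental_jF (M * q))
    · exact ha
  have ha0 : a ≠ 0 := by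
    rintro rfl
    rw [map_zero, sub_zero, ← DegFK.toBar_jK (M * q) K, hP, ← hjR] at ha'
    exact hj0 (ι jM) ((hmem _).mp (mem_nonunits_of_ord_pos v ha')) hjR
  have ha1 : a ≠ 1728 := by
    rintro rfl
    have e : DegFK.toBar (M * q) K (jK (M * q) K - 1728)
        = jF (M * q) - algebraMap Qb (FN (M * q)) 1728 := by
      rw [map_sub, DegFK.toBar_jK, map_ofNat, map_ofNat]
    rw [← e, hP] at ha'
    have hcoe : ((ι jM - 1728 : R) : FK (M * q) K) = jK (M * q) K - 1728 := by
      rw [← hjR]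
      rfl
    exact hj1 (ι jM - 1728)
      ((hmem _).mp (by rw [hcoe]; exact mem_nonunits_of_ord_pos v ha')) hcoe
  have hord1 : P.ord (jF (M * q) - algebraMap Qb (FN (M * q)) a) = 1 := by
    exact le_antisymm (RamChar0.ord_sub_le_one (M * q) a ha0 ha1 P) (Int.add_one_le_iff.mpr ha')
  -- the generator `P(j)`
  have hvord : v.ord (aeval (jK (M * q) K) (minpoly K a)) = 1 := by
    rw [ord_aeval_minpoly (M * q) K v P hP (jK (M * q) K) a
      (by rw [DegFK.toBar_jK]; exact ha'), DegFK.toBar_jK, hord1]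
  obtain ⟨b, p0, hb0, -, hcoe⟩ := exists_clear R (ι jM) (minpoly K a)
  have hcomp : ι.comp (algebraMap (OK A K) RM) = algebraMap (OK A K) R := by
    apply RingHom.ext
    intro c
    apply Subtype.ext
    rw [RingHom.comp_apply, hι]
    exact WK.alphaK_constK M q K (c : K)
  have hιx : ι (aeval jM p0) = aeval (ι jM) p0 := by
    rw [aeval_def, hom_eval₂, hcomp, aeval_def]
  have hxcoe : ((ι (aeval jM p0) : R) : FK (M * q) K)
      = algebraMap (OK A K) (FK (M * q) K) b * aeval (jK (M * q) K) (minpoly K a) := by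
    rw [hιx, hcoe, hjR]
  have hbord : v.ord (algebraMap (OK A K) (FK (M * q) K) b) = 0 := ord_algebraMap v (b : K)
  have hb_ne : algebraMap (OK A K) (FK (M * q) K) b ≠ 0 := by
    intro h0
    have h1 : algebraMap K (FK (M * q) K) (b : K) = 0 := h0
    rw [map_eq_zero] at h1
    exact hb0 (Subtype.ext h1)
  have hp_ne : aeval (jK (M * q) K) (minpoly K a) ≠ 0 :=
    EmbDefs.ne_zero_of_ord_ne_zero v (by rw [hvord]; exact one_ne_zero)
  have hxord : v.ord ((ι (aeval jM p0) : R) : FK (M * q) K) = 1 := by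
    rw [hxcoe, v.ord_mul hb_ne hp_ne, hbord, hvord, zero_add]
  have hxF : ((ι (aeval jM p0) : R) : FK (M * q) K) ≠ 0 :=
    EmbDefs.ne_zero_of_ord_ne_zero v (by rw [hxord]; exact one_ne_zero)
  have hx𝔮 : ι (aeval jM p0) ∈ 𝔮B :=
    (hmem _).mp (mem_nonunits_of_ord_pos v (by rw [hxord]; exact one_pos))
  -- division by the generator
  have hrF : (r : FK (M * q) K) ≠ 0 := fun h => hr0 (Subtype.ext h)
  have hrord : 0 < v.ord (r : FK (M * q) K) := ord_pos_of_mem_nonunits v hrF ((hmem r).mpr hr)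
  have hquot : (r : FK (M * q) K) / ((ι (aeval jM p0) : R) : FK (M * q) K)
      ∈ v.toValuationSubring := by
    apply mem_of_ord_nonneg
    rw [ord_div v hrF hxF, hxord]
    omega
  obtain ⟨c, s, hs, hcs⟩ := (hv _).mp hquot
  refine ⟨s, hs, ?_⟩
  have hsr : s * r = c * ι (aeval jM p0) := by
    apply Subtype.ext
    have h1 : (r : FK (M * q) K) / ((ι (aeval jM p0) : R) : FK (M * q) K) * (s : FK (M * q) K)
        = (c : FK (M * q) K) := hcs
    rw [div_mul_eq_mul_div, div_eq_iff hxF] at h1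
    push_cast
    exact (mul_comm _ _).trans h1
  rw [hsr]
  exact Ideal.mul_mem_left _ c (Ideal.mem_map_of_mem ι (Ideal.mem_comap.mpr hx𝔮))

end Unram

end Fermat.Agent.S36.NakUnram
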