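/-
S36 — NoEll.lean (helper47).  Package [B1-nak], leaf [N8], `ℚ̄`-level half.

For the function field `F̄_N = FN N` of `X₀(N)` over `Kb = ℚ̄` (S24 vocabulary):

* `ord_sub_le_one`     : `ord_v (j - a) ≤ 1` for `a ≠ 0, 1728` (S24 `datum_generic`);
* `ord_eq_of_datum_free` : abstract: a ramified embedding datum `(e, g)` all of whose
                         `⟨g⟩`-orbits are free has `ord_v t = e` at every zero `v` of `t`;
* `not_fixed_of_trace` : if `4 ∣ N` or `9 ∣ N`, no element of `SL(2, ℤ)` of trace `0`, `1`, `-1`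
                         fixes a point of `SL(2, ℤ) ⧸ Γ₀(N)` (no elliptic points);
* `ord_j_eq_three`, `ord_j_sub_eq_two` : under `4 ∣ N ∨ 9 ∣ N`, every zero of `j` has order `3`
                         and every zero of `j - 1728` has order `2`;
* `ramificationIndex_alpha_eq_one`, `unram_bar` : for `4 ∣ M ∨ 9 ∣ M`, every non-cuspidal place
                         of `F̄_{M q}` is unramified over `F̄_M` (along `α`, the inclusion).
-/
import Mathlib
import Fermat.Agent.S24.ModAssembly
import Fermat.Agent.S24.AnEmb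
import Fermat.Agent.S24.AnEmbCusp
import Fermat.Agent.S24.EmbUnique
import Fermat.Agent.S37.W.Degree
import Fermat.Agent.S35.PushPic
import Fermat.Prelude.Def_AlgebraicCurve_Correspondence

set_option autoImplicit false

namespace Fermat.Agent.S36.NoEll

open AlgebraicCurve ModularCurve IntermediateField Fermat.Agent.S24
open scoped MatrixGroups

noncomputable section

/-! ### The generic fibres -/

theorem isFF1_FN (N : ℕ) [NeZero N] : IsFF1 Kb (FN N) :=
  ⟨jF N, transcendental_jF N, finiteDimensional_jF N⟩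

theorem card_QN_eq (N : ℕ) [NeZero N] :
    Nat.card (QN N) = Module.finrank Kb⟮jF N⟯ (FN N) := by
  rw [finrank_jF_of_hasCuspEmb (hasCuspEmb N)]
  exact Fermat.Agent.S20.card_Q N

theorem card_QN_sub (N : ℕ) [NeZero N] (a : Kb) :
    Nat.card (QN N) = Module.finrank Kb⟮jF N - algebraMap Kb (FN N) a⟯ (FN N) := by
  rw [finrank_adjoin_sub_algebraMap]
  exact card_QN_eq N

/-- Over `j = a`, `a ≠ 0, 1728`, the function `j - a` has at most simple zeros. -/
theorem ord_sub_le_one (N : ℕ) [NeZero N] (a : Kb) (h0 : a ≠ 0) (h1 : a ≠ 1728)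
    (v : Place Kb (FN N)) : v.ord (jF N - algebraMap Kb (FN N) a) ≤ 1 :=
  ModAssemblyGen.ord_le_one_of_datum (isFF1_FN N)
    (ModAssemblyGen.transcendental_sub_algebraMap (transcendental_jF N) a) (card_QN_sub N a)
    embC (1 : SL(2, ℤ)) (datum_generic (fun z => hasTaylorEmb N z) a h0 h1) v

/-! ### Free orbits give full ramification -/

/-- If every `⟨g⟩`-orbit of the embedding datum `(e, g)` is free, every zero of `t` has order
exactly `e`. -/
theorem ord_eq_of_datum_free {K F : Type*} [Field K] [Field F] [Algebra K F] [IsAlgClosed K]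
    [CharZero K] {C : Type*} [Field C] [CharZero C] {X : Type*} [Finite X] {G : Type*} [Group G]
    [MulAction G X] (hF : IsFF1 K F) {t : F} (ht : Transcendental K t)
    (hX : Nat.card X = Module.finrank K⟮t⟯ F) (φ : K →+* C) {e : ℕ} (he : 0 < e) (g : G)
    (h : EmbDatum φ X t e g) (hfree : ∀ x : X, ∀ k : ℕ, 0 < k → k < e → g ^ k • x ≠ x)
    (v : Place K F) (hv : 0 < v.ord t) : v.ord t = e := by
  classical
  obtain ⟨ι, hinj, hφ, T, hT, hTe, ζ, hζ, hg⟩ := h
  have hζ0 : ζ ≠ 0 := hζ.ne_zero he.ne'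
  have hord : ∀ x : X, 0 < (ι x t).order := fun x => by
    rw [hT x, hTe]
    exact_mod_cast he
  obtain ⟨x, r, hxr⟩ := exists_emb_induces (fun v b hb => exists_residue hF v hb) t
    (Module.finrank K⟮t⟯ F) (finite_ord_pos hF ht) (sum_ord_pos hF ht) hX ι hinj
    (fun x a => ⟨φ a, hφ x a⟩) (fun x y a => by rw [hφ x a, hφ y a])
    (fun x y => by rw [hT x, hT y]) hord v hv
  have ht0 : t ≠ 0 := EmbDefs.ne_zero_of_ord_ne_zero v hv.ne'
  -- all translates of `x` induce `v`
  have hall : ∀ k : ℕ, EmbInduces (ι (g ^ k • x)) v r := by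
    intro k
    induction k with
    | zero => simpa using hxr
    | succ k ih =>
      rw [pow_succ', mul_smul]
      exact ih.of_coeff_eq ζ hζ0 (fun f n => hg _ f n)
  -- the `e` translates are distinct
  have hinjk : Set.InjOn (fun k : ℕ => g ^ k • x) (Finset.range e : Set ℕ) := by
    have key : ∀ i j : ℕ, i < j → j < e → g ^ i • x ≠ g ^ j • x := by
      intro i j hij hj hEq
      have h1 : g ^ j • x = g ^ i • (g ^ (j - i) • x) := by
        rw [← mul_smul, ← pow_add, Nat.add_sub_cancel' hij.le]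
      rw [h1] at hEq
      have h2 : g ^ (j - i) • x = x := (smul_left_cancel (g ^ i) hEq).symm
      exact hfree x (j - i) (by omega) (by omega) h2
    intro i hi j hj hij
    simp only [Finset.coe_range, Set.mem_Iio] at hi hj
    rcases lt_trichotomy i j with h | h | h
    · exact absurd hij (key i j h hj)
    · exact h
    · exact absurd hij.symm (key j i h hi)
  set S : Finset X := (Finset.range e).image (fun k => g ^ k • x) with hS
  have hScard : S.card = e := by
    rw [hS, Finset.card_image_of_injOn hinjk, Finset.card_range]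
  have h1 := card_emb_le v (fun b hb => exists_residue hF v hb) t hv ι hinj
    (fun x y a => by rw [hφ x a, hφ y a]) (fun x y => by rw [hT x, hT y]) S
    (fun y hy => by
      obtain ⟨k, -, rfl⟩ := Finset.mem_image.mp hy
      exact ⟨r, hall k⟩)
  have h2 := hxr.order_eq ht0
  rw [hT x, hTe] at h2
  have hr : (0 : ℤ) < r := by exact_mod_cast hxr.pos
  rw [hScard] at h1
  nlinarith

/-! ### No elliptic points at levels divisible by `4` or `9` -/

theorem zmod4_no_root : ∀ a : ZMod 4, a * (1 - a) ≠ 1 ∧ a * (-1 - a) ≠ 1 ∧ a * (0 - a) ≠ 1 := by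
  decide

theorem zmod9_no_root : ∀ a : ZMod 9, a * (1 - a) ≠ 1 ∧ a * (-1 - a) ≠ 1 ∧ a * (0 - a) ≠ 1 := by
  decide

/-- An element of `Γ₀(N)`, `4 ∣ N` or `9 ∣ N`, has trace different from `0`, `1`, `-1`. -/
theorem trace_ne_of_mem_Gamma0 {N : ℕ} (hN : 4 ∣ N ∨ 9 ∣ N) (δ : SL(2, ℤ))
    (hδ : δ ∈ CongruenceSubgroup.Gamma0 N) (τ : ℤ) (hτ : τ = 1 ∨ τ = -1 ∨ τ = 0) :
    δ 0 0 + δ 1 1 ≠ τ := by
  intro htr
  have hdet : δ 0 0 * δ 1 1 - δ 0 1 * δ 1 0 = 1 := by
    have := δ.2
    rwa [Matrix.det_fin_two] at this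
  rw [CongruenceSubgroup.Gamma0_mem] at hδ
  have hc : (N : ℤ) ∣ δ 1 0 := (ZMod.intCast_zmod_eq_zero_iff_dvd _ _).mp hδ
  have hd : δ 1 1 = τ - δ 0 0 := by linarith
  rcases hN with h4 | h9
  · have hc4 : ((δ 1 0 : ℤ) : ZMod 4) = 0 := by
      rw [ZMod.intCast_zmod_eq_zero_iff_dvd]
      exact (Int.natCast_dvd_natCast.mpr h4).trans hc
    have h1 : ((δ 0 0 : ℤ) : ZMod 4) * (((τ : ℤ) : ZMod 4) - ((δ 0 0 : ℤ) : ZMod 4)) = 1 := by
      have := congrArg (Int.cast : ℤ → ZMod 4) hdet
      push_cast at this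
      rw [hc4, mul_zero, sub_zero, hd] at this
      push_cast at this
      exact this
    have h2 := zmod4_no_root ((δ 0 0 : ℤ) : ZMod 4)
    rcases hτ with rfl | rfl | rfl
    · exact h2.1 (by simpa using h1)
    · exact h2.2.1 (by simpa using h1)
    · exact h2.2.2 (by simpa using h1)
  · have hc9 : ((δ 1 0 : ℤ) : ZMod 9) = 0 := by
      rw [ZMod.intCast_zmod_eq_zero_iff_dvd]
      exact (Int.natCast_dvd_natCast.mpr h9).trans hc
    have h1 : ((δ 0 0 : ℤ) : ZMod 9) * (((τ : ℤ) : ZMod 9) - ((δ 0 0 : ℤ) : ZMod 9)) = 1 := by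
      have := congrArg (Int.cast : ℤ → ZMod 9) hdet
      push_cast at this
      rw [hc9, mul_zero, sub_zero, hd] at this
      push_cast at this
      exact this
    have h2 := zmod9_no_root ((δ 0 0 : ℤ) : ZMod 9)
    rcases hτ with rfl | rfl | rfl
    · exact h2.1 (by simpa using h1)
    · exact h2.2.1 (by simpa using h1)
    · exact h2.2.2 (by simpa using h1)

/-- No element of trace `0`, `1`, `-1` fixes a coset of `Γ₀(N)` when `4 ∣ N` or `9 ∣ N`. -/
theorem not_fixed_of_trace {N : ℕ} (hN : 4 ∣ N ∨ 9 ∣ N) (γ : SL(2, ℤ)) (τ : ℤ)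
    (hτ : τ = 1 ∨ τ = -1 ∨ τ = 0) (hγ : γ 0 0 + γ 1 1 = τ) (x : QN N) : γ • x ≠ x := by
  induction x using QuotientGroup.induction_on with
  | H h =>
    intro hfix
    have h1 : ((γ * h : SL(2, ℤ)) : QN N) = (h : QN N) := hfix
    rw [QuotientGroup.eq] at h1
    -- `(γ h)⁻¹ h ∈ Γ₀(N)`, hence its inverse `h⁻¹ γ h`
    have h2 : h⁻¹ * γ * h ∈ CongruenceSubgroup.Gamma0 N := by
      have := (CongruenceSubgroup.Gamma0 N).inv_mem h1
      simpa [mul_assoc] using this
    refine trace_ne_of_mem_Gamma0 hN _ h2 τ hτ ?_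
    have htr : Matrix.trace ((h⁻¹ * γ * h : SL(2, ℤ)) : Matrix (Fin 2) (Fin 2) ℤ)
        = Matrix.trace (γ : Matrix (Fin 2) (Fin 2) ℤ) := by
      rw [Matrix.SpecialLinearGroup.coe_mul, Matrix.SpecialLinearGroup.coe_mul,
        Matrix.trace_mul_comm, ← Matrix.mul_assoc, ← Matrix.SpecialLinearGroup.coe_mul,
        mul_inv_cancel, Matrix.SpecialLinearGroup.coe_one, Matrix.one_mul]
    rw [Matrix.trace_fin_two, Matrix.trace_fin_two] at htr
    rw [← hγ]
    exact htr

/-! ### Orders over `j = 0` and `j = 1728` -/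

theorem trace_ST : (ModularGroup.S * ModularGroup.T : SL(2, ℤ)) 0 0
    + (ModularGroup.S * ModularGroup.T : SL(2, ℤ)) 1 1 = 1 := by
  simp [ModularGroup.S, ModularGroup.T, Matrix.SpecialLinearGroup.coe_mul, Matrix.mul_apply,
    Fin.sum_univ_two]

theorem trace_ST_sq : ((ModularGroup.S * ModularGroup.T) ^ 2 : SL(2, ℤ)) 0 0
    + ((ModularGroup.S * ModularGroup.T) ^ 2 : SL(2, ℤ)) 1 1 = -1 := by
  simp [pow_two, ModularGroup.S, ModularGroup.T, Matrix.SpecialLinearGroup.coe_mul,
    Matrix.mul_apply, Fin.sum_univ_two]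

theorem trace_S : (ModularGroup.S : SL(2, ℤ)) 0 0 + (ModularGroup.S : SL(2, ℤ)) 1 1 = 0 := by
  simp [ModularGroup.S]

/-- If `4 ∣ N` or `9 ∣ N`, every zero of `j` on `X₀(N)` has order exactly `3`. -/
theorem ord_j_eq_three (N : ℕ) [NeZero N] (hN : 4 ∣ N ∨ 9 ∣ N) (v : Place Kb (FN N))
    (hv : 0 < v.ord (jF N)) : v.ord (jF N) = 3 := by
  have h := datum_rho (hasTaylorEmb N Fermat.Agent.LevelOne.ellRho)
  have h0 : jF N - algebraMap Kb (FN N) 0 = jF N := by rw [map_zero, sub_zero]
  rw [h0] at h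
  have key := ord_eq_of_datum_free (isFF1_FN N) (transcendental_jF N) (card_QN_eq N) embC
    (by norm_num) (ModularGroup.S * ModularGroup.T) h ?_ v hv
  · exact_mod_cast key
  · intro x k hk0 hk3
    interval_cases k
    · rw [pow_one]
      exact not_fixed_of_trace hN _ 1 (Or.inl rfl) trace_ST x
    · exact not_fixed_of_trace hN _ (-1) (Or.inr (Or.inl rfl)) trace_ST_sq x

/-- If `4 ∣ N` or `9 ∣ N`, every zero of `j - 1728` on `X₀(N)` has order exactly `2`. -/
theorem ord_j_sub_eq_two (N : ℕ) [NeZero N] (hN : 4 ∣ N ∨ 9 ∣ N) (v : Place Kb (FN N))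
    (hv : 0 < v.ord (jF N - algebraMap Kb (FN N) 1728)) :
    v.ord (jF N - algebraMap Kb (FN N) 1728) = 2 := by
  have h := datum_i (hasTaylorEmb N Fermat.Agent.LevelOne.ellI)
  have key := ord_eq_of_datum_free (isFF1_FN N)
    (ModAssemblyGen.transcendental_sub_algebraMap (transcendental_jF N) 1728)
    (card_QN_sub N 1728) embC (by norm_num) ModularGroup.S h ?_ v hv
  · exact_mod_cast key
  · intro x k hk0 hk2
    interval_cases k
    rw [pow_one]
    exact not_fixed_of_trace hN _ 0 (Or.inr (Or.inr rfl)) trace_S x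

/-! ### Non-cuspidal places of level `M q` are unramified over level `M` -/

section Unram

variable (M q : ℕ) [NeZero M] [NeZero q]

/-- The value of `j` at a non-cuspidal place. -/
theorem exists_j_value (N : ℕ) [NeZero N] (w : Place Kb (FN N)) (hw : 0 ≤ w.ord (jF N)) :
    ∃ a : Kb, 0 < w.ord (jF N - algebraMap Kb (FN N) a) := by
  obtain ⟨a, ha | ha⟩ := exists_residue (isFF1_FN N) w hw
  · exact absurd (ha ▸ isAlgebraic_algebraMap (R := Kb) (A := FN N) a) (transcendental_jF N)
  · exact ⟨a, ha⟩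

theorem jF_sub_ne_zero (N : ℕ) (a : Kb) : jF N - algebraMap Kb (FN N) a ≠ 0 := by
  intro h
  have h1 : jF N = algebraMap Kb (FN N) a := sub_eq_zero.mp h
  exact absurd (h1 ▸ isAlgebraic_algebraMap (R := Kb) (A := FN N) a) (transcendental_jF N)

/-- **(U) over `ℚ̄`.** For `4 ∣ M` or `9 ∣ M`, every non-cuspidal place of `F̄_{M q}` has
ramification index `1` over `F̄_M` (along the inclusion `α`). -/
theorem ramificationIndex_alpha_eq_one (hM : 4 ∣ M ∨ 9 ∣ M) (w : Place Kb (FN (M * q)))
    (hw : 0 ≤ w.ord (jF (M * q))) :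
    letI := algebraAlong (heckeAlphaBar Kb M q)
    Place.ramificationIndex (F := FN M) w = 1 := by
  letI := algebraAlong (heckeAlphaBar Kb M q)
  haveI : IsScalarTower Kb (FN M) (FN (M * q)) := isScalarTower_along (heckeAlphaBar Kb M q)
  haveI : Algebra.IsIntegral (FN M) (FN (M * q)) :=
    isIntegral_along (heckeAlphaBar Kb M q) (Fermat.Agent.S35.PushPic.alpha_isIntegral (M := M) (q := q))
  have hMq : 4 ∣ M * q ∨ 9 ∣ M * q := hM.imp (fun h => h.mul_right q) (fun h => h.mul_right q)
  obtain ⟨a, hpos⟩ := exists_j_value (M * q) w hw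
  have hαj : algebraMap (FN M) (FN (M * q)) (jF M) = jF (M * q) :=
    Fermat.Agent.S37.W.heckeAlphaBar_jF M q
  have hα : algebraMap (FN M) (FN (M * q)) (jF M - algebraMap Kb (FN M) a)
      = jF (M * q) - algebraMap Kb (FN (M * q)) a := by
    rw [map_sub, hαj, ← IsScalarTower.algebraMap_apply]
  have hepos : 0 < Place.ramificationIndex (F := FN M) w := w.ramificationIndex_pos (F := FN M)
  have hres := w.ord_restrict (F := FN M) (jF M - algebraMap Kb (FN M) a)
  rw [hα] at hres
  have hposM : 0 < (w.restrict (FN M)).ord (jF M - algebraMap Kb (FN M) a) := by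
    by_contra hneg
    push Not at hneg
    have : (Place.ramificationIndex (F := FN M) w : ℤ)
        * (w.restrict (FN M)).ord (jF M - algebraMap Kb (FN M) a) ≤ 0 :=
      mul_nonpos_of_nonneg_of_nonpos (by positivity) hneg
    omega
  by_cases h0 : a = 0
  · subst h0
    have e1 : jF (M * q) - algebraMap Kb (FN (M * q)) 0 = jF (M * q) := by rw [map_zero, sub_zero]
    have e2 : jF M - algebraMap Kb (FN M) 0 = jF M := by rw [map_zero, sub_zero]
    rw [e1] at hpos hres
    rw [e2] at hposM hres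
    rw [ord_j_eq_three (M * q) hMq w hpos, ord_j_eq_three M hM _ hposM] at hres
    have : (Place.ramificationIndex (F := FN M) w : ℤ) = 1 := by linarith
    exact_mod_cast this
  · by_cases h1 : a = 1728
    · subst h1
      rw [ord_j_sub_eq_two (M * q) hMq w hpos, ord_j_sub_eq_two M hM _ hposM] at hres
      have : (Place.ramificationIndex (F := FN M) w : ℤ) = 1 := by linarith
      exact_mod_cast this
    · have hle := ord_sub_le_one (M * q) a h0 h1 w
      have hle' : (Place.ramificationIndex (F := FN M) w : ℤ)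
          * (w.restrict (FN M)).ord (jF M - algebraMap Kb (FN M) a) ≤ 1 := by
        rw [← hres]; exact hle
      have h2 : (Place.ramificationIndex (F := FN M) w : ℤ) ≤ 1 := by nlinarith
      have h3 : (0 : ℤ) < Place.ramificationIndex (F := FN M) w := by exact_mod_cast hepos
      have : (Place.ramificationIndex (F := FN M) w : ℤ) = 1 := by omega
      exact_mod_cast this

/-- Orders along `α` at a non-cuspidal place are the orders at the restricted place. -/
theorem ord_alpha_eq (hM : 4 ∣ M ∨ 9 ∣ M) (w : Place Kb (FN (M * q)))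
    (hw : 0 ≤ w.ord (jF (M * q))) (f : FN M) :
    letI := algebraAlong (heckeAlphaBar Kb M q)
    haveI : IsScalarTower Kb (FN M) (FN (M * q)) := isScalarTower_along (heckeAlphaBar Kb M q)
    haveI : Algebra.IsIntegral (FN M) (FN (M * q)) :=
      isIntegral_along (heckeAlphaBar Kb M q)
        (Fermat.Agent.S35.PushPic.alpha_isIntegral (M := M) (q := q))
    w.ord (heckeAlphaBar Kb M q f) = (w.restrict (FN M)).ord f := by
  letI := algebraAlong (heckeAlphaBar Kb M q)
  haveI : IsScalarTower Kb (FN M) (FN (M * q)) := isScalarTower_along (heckeAlphaBar Kb M q)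
  haveI : Algebra.IsIntegral (FN M) (FN (M * q)) :=
    isIntegral_along (heckeAlphaBar Kb M q) (Fermat.Agent.S35.PushPic.alpha_isIntegral (M := M) (q := q))
  have h := w.ord_restrict (F := FN M) f
  rw [ramificationIndex_alpha_eq_one M q hM w hw] at h
  have e : algebraMap (FN M) (FN (M * q)) f = heckeAlphaBar Kb M q f := rfl
  rw [e] at h
  rw [h]
  simp

/-- **(U) over `ℚ̄`, uniformizer form.** -/
theorem unram_bar (hM : 4 ∣ M ∨ 9 ∣ M) (w : Place Kb (FN (M * q)))
    (hw : 0 ≤ w.ord (jF (M * q))) : ∃ u : FN M, w.ord (heckeAlphaBar Kb M q u) = 1 := by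
  letI := algebraAlong (heckeAlphaBar Kb M q)
  haveI : IsScalarTower Kb (FN M) (FN (M * q)) := isScalarTower_along (heckeAlphaBar Kb M q)
  haveI : Algebra.IsIntegral (FN M) (FN (M * q)) :=
    isIntegral_along (heckeAlphaBar Kb M q) (Fermat.Agent.S35.PushPic.alpha_isIntegral (M := M) (q := q))
  obtain ⟨f, -, hf⟩ := w.exists_ord_eq_ramificationIndex (F := FN M)
  rw [ramificationIndex_alpha_eq_one M q hM w hw] at hf
  have e : algebraMap (FN M) (FN (M * q)) f = heckeAlphaBar Kb M q f := rfl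
  rw [e] at hf
  exact ⟨f, by simpa using hf⟩

end Unram

end

end Fermat.Agent.S36.NoEll
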