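/-
S36, package [B1-nak], leaf [N8] (U_K), elliptic part and the full statement (helper120).

* `unram_of_gen`    : a function of the lower chart of order one at a horizontal prime `𝔮B`
  generates it locally (the ring form of "unramified" consumed by `NakPlan.Z1Statement`);
* `unram_of_ord_eq` : if some nonzero `y` of the level-`M` chart with `ι y ∈ 𝔮B` has the same
  order at the place of `𝔮B` and at the place of `ι⁻¹ 𝔮B`, then `𝔮B` is unramified over the
  level-`M` chart;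
* `unram`           : **[N8] (U_K) in full** for `4 ∣ M ∨ 9 ∣ M` (no elliptic points): every
  horizontal prime of a level-`M q` chart is unramified over the level-`M` chart (`j` regular).
  Values `j = 0, 1728`: `ord j = 3`, `ord (j - 1728) = 2` at both levels (`S36.NoEll`);
  other values: `NakUnram.unram_generic`.
-/
import Mathlib
import Fermat.Agent.S36.NakUnram
import Fermat.Agent.S36.NoEll

set_option autoImplicit false

namespace Fermat.Agent.S36.NakUnramEll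

open ModularCurve AlgebraicCurve Polynomial
open Fermat.Agent.S18 Fermat.Agent.S18.Arith Fermat.Agent.S34 Fermat.Agent.S34.LocPlan
open Fermat.Agent.S24 Fermat.Agent.S36.NakUnram

/-! ### Orders at the place of a prime of a chart -/

section Chart

variable {N : ℕ} {A : ValuationSubring Qb} {K : IntermediateField ℚ Qb}
variable (R : Subalgebra (OK A K) (FK N K)) [IsFractionRing R (FK N K)]
variable (𝔮 : Ideal R) [h𝔮 : 𝔮.IsPrime] (v : Place K (FK N K))

/-- Elements of the chart outside `𝔮` have order `0` at the place of `𝔮`. -/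
theorem ord_eq_zero_of_notMem (hv : ∀ x : FK N K, x ∈ v.toValuationSubring ↔ RegAt 𝔮 x) {s : R}
    (hs : s ∉ 𝔮) : v.ord (s : FK N K) = 0 := by
  have h1 : 0 ≤ v.ord (s : FK N K) := ord_nonneg_of_mem v (DvrAt.algebraMap_mem hv s)
  by_contra hne
  have h2 : 0 < v.ord (s : FK N K) := lt_of_le_of_ne h1 (Ne.symm hne)
  exact hs ((DvrAt.algebraMap_mem_nonunits_iff hv).mp (mem_nonunits_of_ord_pos v h2))

/-- Nonzero elements of `𝔮` have positive order at the place of `𝔮`. -/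
theorem ord_pos_of_mem (hv : ∀ x : FK N K, x ∈ v.toValuationSubring ↔ RegAt 𝔮 x) {y : R}
    (hy : y ∈ 𝔮) (hy0 : y ≠ 0) : 0 < v.ord (y : FK N K) :=
  ord_pos_of_mem_nonunits v (fun h => hy0 (Subtype.ext h))
    ((DvrAt.algebraMap_mem_nonunits_iff hv).mpr hy)

/-- A local generator of `𝔮` has order `1` at the place of `𝔮`. -/
theorem ord_gen_eq_one (hv : ∀ x : FK N K, x ∈ v.toValuationSubring ↔ RegAt 𝔮 x) {t : R}
    (ht : t ∈ 𝔮) (hgen : ∀ y ∈ 𝔮, ∃ s : R, s ∉ 𝔮 ∧ ∃ c : R, s * y = c * t) :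
    v.ord (t : FK N K) = 1 := by
  have hirr := DvrAt.irreducible_gen hv ht hgen
  have h := v.ord_coe_irreducible hirr
  exact h

/-- **Unramified, ring form**: if `ι t` has order `1` at the place of the prime `𝔮`, then
`𝔮 R_𝔮 = ι (ι⁻¹ 𝔮) R_𝔮`. -/
theorem unram_of_gen {S : Type*} [CommRing S] (ι : S →+* R)
    (hv : ∀ x : FK N K, x ∈ v.toValuationSubring ↔ RegAt 𝔮 x) (t : S)
    (hord : v.ord ((ι t : R) : FK N K) = 1) :
    ∀ r ∈ 𝔮, ∃ s : R, s ∉ 𝔮 ∧ s * r ∈ Ideal.map ι (Ideal.comap ι 𝔮) := by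
  intro r hr
  have hone : (1 : R) ∉ 𝔮 := (Ideal.ne_top_iff_one 𝔮).mp h𝔮.ne_top
  by_cases hr0 : r = 0
  · refine ⟨1, hone, ?_⟩
    rw [hr0, mul_zero]
    exact Ideal.zero_mem _
  have hxF : ((ι t : R) : FK N K) ≠ 0 :=
    EmbDefs.ne_zero_of_ord_ne_zero v (by rw [hord]; exact one_ne_zero)
  have hxpos : 0 < v.ord ((ι t : R) : FK N K) := by
    rw [hord]
    exact one_pos
  have hx𝔮 : ι t ∈ 𝔮 := (DvrAt.algebraMap_mem_nonunits_iff hv).mp
    (mem_nonunits_of_ord_pos v hxpos)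
  have hrF : (r : FK N K) ≠ 0 := fun h => hr0 (Subtype.ext h)
  have hrord : 0 < v.ord (r : FK N K) := ord_pos_of_mem R 𝔮 v hv hr hr0
  have hquot : (r : FK N K) / ((ι t : R) : FK N K) ∈ v.toValuationSubring := by
    apply mem_of_ord_nonneg
    rw [ord_div v hrF hxF, hord]
    omega
  obtain ⟨c, s, hs, hcs⟩ := (hv _).mp hquot
  refine ⟨s, hs, ?_⟩
  have hsr : s * r = c * ι t := by
    apply Subtype.ext
    have h1 : (r : FK N K) / ((ι t : R) : FK N K) * (s : FK N K) = (c : FK N K) := hcs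
    rw [div_mul_eq_mul_div, div_eq_iff hxF] at h1
    push_cast
    exact (mul_comm _ _).trans h1
  rw [hsr]
  exact Ideal.mul_mem_left _ c (Ideal.mem_map_of_mem ι (Ideal.mem_comap.mpr hx𝔮))

/-- Orders in a relation `y s = c t ^ k` with `s`, `c` outside `𝔮`. -/
theorem ord_eq_of_decomp (hv : ∀ x : FK N K, x ∈ v.toValuationSubring ↔ RegAt 𝔮 x)
    {y s c t : R} {k : ℕ} (hy0 : y ≠ 0) (ht0 : t ≠ 0) (hs : s ∉ 𝔮) (hc : c ∉ 𝔮)
    (hdec : y * s = c * t ^ k) : v.ord (y : FK N K) = k * v.ord (t : FK N K) := by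
  have hs0 : s ≠ 0 := fun h => hs (h ▸ Ideal.zero_mem _)
  have hc0 : c ≠ 0 := fun h => hc (h ▸ Ideal.zero_mem _)
  have hF : ∀ z : R, z ≠ 0 → (z : FK N K) ≠ 0 := fun z hz h => hz (Subtype.ext h)
  have h1 : (y : FK N K) * (s : FK N K) = (c : FK N K) * (t : FK N K) ^ k := by
    have h2 := congrArg (fun z : R => (z : FK N K)) hdec
    simpa using h2
  have h3 := congrArg v.ord h1
  rw [v.ord_mul (hF y hy0) (hF s hs0), v.ord_mul (hF c hc0) (pow_ne_zero k (hF t ht0)),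
    ord_pow, ord_eq_zero_of_notMem R 𝔮 v hv hs, ord_eq_zero_of_notMem R 𝔮 v hv hc] at h3
  linarith

end Chart

/-! ### Equal orders at the two levels -/

section Unram

variable (M q : ℕ) [NeZero M] [NeZero q] (A : ValuationSubring Qb) (K : IntermediateField ℚ Qb)

variable {M q A K} in
/-- A ring hom of charts over `α` commutes with the structure maps. -/
theorem map_algebraMap (R : Subalgebra (OK A K) (FK (M * q) K))
    (RM : Subalgebra (OK A K) (FK M K)) (ι : RM →+* R)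
    (hι : ∀ y : RM, ((ι y : R) : FK (M * q) K) = WK.alphaK M q K (y : FK M K)) (c : OK A K) :
    ι (algebraMap (OK A K) RM c) = algebraMap (OK A K) R c := by
  apply Subtype.ext
  rw [hι]
  exact WK.alphaK_constK M q K (c : K)

variable {M q A K} in
/-- A ring hom of charts over `α` is injective. -/
theorem coe_ne_zero (R : Subalgebra (OK A K) (FK (M * q) K))
    (RM : Subalgebra (OK A K) (FK M K)) (ι : RM →+* R)
    (hι : ∀ y : RM, ((ι y : R) : FK (M * q) K) = WK.alphaK M q K (y : FK M K))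
    {z : RM} (hz : z ≠ 0) : ι z ≠ 0 := by
  intro h0
  have h1 : ((ι z : R) : FK (M * q) K) = 0 := by rw [h0, ZeroMemClass.coe_zero]
  rw [hι, map_eq_zero] at h1
  exact hz (Subtype.ext h1)

/-- **Transfer**: `R` a chart of level `M q`, `RM` a chart of level `M`, `ι : RM → R` over
`α`, `𝔮B` a horizontal prime of `R`.  If some nonzero `y ∈ RM` with `ι y ∈ 𝔮B` has the same order
at the place of `𝔮B` and at the place of `ι⁻¹ 𝔮B`, then `𝔮B` is unramified over `RM`. -/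
theorem unram_of_ord_eq (hdvr : IsDiscreteValuationRing (OK A K))
    (R : Subalgebra (OK A K) (FK (M * q) K)) [IsNoetherianRing R]
    [IsFractionRing R (FK (M * q) K)] [IsIntegrallyClosed R]
    (RM : Subalgebra (OK A K) (FK M K)) [IsNoetherianRing RM]
    [IsFractionRing RM (FK M K)] [IsIntegrallyClosed RM]
    (ι : RM →+* R)
    (hι : ∀ y : RM, ((ι y : R) : FK (M * q) K) = WK.alphaK M q K (y : FK M K))
    (𝔮B : Ideal R) (h𝔮 : 𝔮B.IsPrime)
    (hhor : ∀ c : OK A K, algebraMap (OK A K) R c ∈ 𝔮B → c = 0)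
    (y : RM) (hy0 : y ≠ 0) (hy : ι y ∈ 𝔮B)
    (hord : ∀ (vM : Place K (FK M K)) (v : Place K (FK (M * q) K)),
      (∀ x : FK M K, x ∈ vM.toValuationSubring ↔ RegAt (Ideal.comap ι 𝔮B) x) →
      (∀ x : FK (M * q) K, x ∈ v.toValuationSubring ↔ RegAt 𝔮B x) →
      v.ord ((ι y : R) : FK (M * q) K) = vM.ord (y : FK M K)) :
    ∀ r ∈ 𝔮B, ∃ s : R, s ∉ 𝔮B ∧ s * r ∈ Ideal.map ι (Ideal.comap ι 𝔮B) := by
  have := h𝔮
  have h𝔮A : (Ideal.comap ι 𝔮B).IsPrime := Ideal.comap_isPrime ι 𝔮B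
  have hhorA : ∀ c : OK A K, algebraMap (OK A K) RM c ∈ Ideal.comap ι 𝔮B → c = 0 := by
    intro c hc
    apply hhor c
    rw [← map_algebraMap R RM ι hι c]
    exact Ideal.mem_comap.mp hc
  have hyA : y ∈ Ideal.comap ι 𝔮B := Ideal.mem_comap.mpr hy
  have hneA : Ideal.comap ι 𝔮B ≠ ⊥ := fun h => hy0 (by rw [h] at hyA; exact hyA)
  have hneB : 𝔮B ≠ ⊥ := by
    intro h
    rw [h] at hy
    exact coe_ne_zero R RM ι hι hy0 hy
  have hpA := princAt_of_hor M A K hdvr RM _ h𝔮A hneA hhorA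
  have hpB := princAt_of_hor (M * q) A K hdvr R 𝔮B h𝔮 hneB hhor
  obtain ⟨vM, hvM⟩ := exists_place hdvr RM _ hhorA hpA
  obtain ⟨v, hv⟩ := exists_place hdvr R 𝔮B hhor hpB
  obtain ⟨-, t, ht, hgen⟩ := hpA
  have hordt : vM.ord (t : FK M K) = 1 := ord_gen_eq_one RM _ vM hvM ht hgen
  obtain ⟨k, s, c, hs, hc, hdec⟩ := KrullStmt.exists_pow_decomp hneA ht hgen hy0
  have ht0 : t ≠ 0 := by
    rintro rfl
    rw [ZeroMemClass.coe_zero, Place.ord_zero] at hordt
    exact zero_ne_one hordt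
  have e1 : vM.ord (y : FK M K) = k := by
    rw [ord_eq_of_decomp RM _ vM hvM hy0 ht0 hs hc hdec, hordt, mul_one]
  have hdec' : ι y * ι s = ι c * ι t ^ k := by
    rw [← map_mul, hdec, map_mul, map_pow]
  have e2 : v.ord ((ι y : R) : FK (M * q) K) = k * v.ord ((ι t : R) : FK (M * q) K) :=
    ord_eq_of_decomp R 𝔮B v hv (coe_ne_zero R RM ι hι hy0) (coe_ne_zero R RM ι hι ht0)
      (s := ι s) (c := ι c) hs hc hdec'
  have e3 := hord vM v hvM hv
  have hkpos : 0 < (k : ℤ) := by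
    rw [← e1]
    exact ord_pos_of_mem RM _ vM hvM hyA hy0
  have hone : v.ord ((ι t : R) : FK (M * q) K) = 1 := by
    have h4 : (k : ℤ) * v.ord ((ι t : R) : FK (M * q) K) = (k : ℤ) * 1 := by
      rw [← e2, e3, e1, mul_one]
    exact mul_left_cancel₀ hkpos.ne' h4
  exact unram_of_gen R 𝔮B v ι hv t hone

omit [NeZero q] in
/-- `j ≠ 0` and `j ≠ 1728` in `F_K(M)`. -/
theorem jK_sub_ne_zero (c : K) : jK M K - algebraMap K (FK M K) c ≠ 0 := by
  intro h
  have h1 : jK M K = algebraMap K (FK M K) c := sub_eq_zero.mp h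
  exact DegFK.transcendental_jK M K (h1 ▸ isAlgebraic_algebraMap c)

/-- The order of `j - c` (`c ∈ K`) at a place of `F_K` is its order at a place of `F̄` above. -/
theorem ord_jK_sub (N : ℕ) [NeZero N] (v : Place K (FK N K))
    (P : Place Qb (modularFunctionFieldBar N))
    (hP : ∀ (x : FK N K) (hx : (x : LaurentSeries Qb) ∈ modularFunctionFieldBar N),
      P.ord (⟨(x : LaurentSeries Qb), hx⟩ : modularFunctionFieldBar N) = v.ord x) (c : K) :
    v.ord (jK N K - algebraMap K (FK N K) c)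
      = P.ord (jF N - algebraMap Qb (FN N) (c : Qb)) := by
  have hP' : ∀ x : FK N K, P.ord (DegFK.toBar N K x) = v.ord x := fun x => hP x _
  rw [← hP', map_sub, DegFK.toBar_jK, DegFK.algebraMap_eq_constK, DegFK.toBar_constK]

/-- **[N8] (U_K), elliptic values.**  Under `4 ∣ M ∨ 9 ∣ M`, a horizontal prime `𝔮B` of the
level-`M q` chart containing `j - c`, `c = 0` or `c = 1728`, is unramified over the level-`M`
chart: `ord (j - c)` is `3` resp. `2` at both levels. -/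
theorem unram_ell (hM : 4 ∣ M ∨ 9 ∣ M) (hdvr : IsDiscreteValuationRing (OK A K))
    (R : Subalgebra (OK A K) (FK (M * q) K)) [IsNoetherianRing R]
    [IsFractionRing R (FK (M * q) K)] [IsIntegrallyClosed R]
    (RM : Subalgebra (OK A K) (FK M K)) [IsNoetherianRing RM]
    [IsFractionRing RM (FK M K)] [IsIntegrallyClosed RM]
    (ι : RM →+* R)
    (hι : ∀ y : RM, ((ι y : R) : FK (M * q) K) = WK.alphaK M q K (y : FK M K))
    (𝔮B : Ideal R) (h𝔮 : 𝔮B.IsPrime)
    (hhor : ∀ c : OK A K, algebraMap (OK A K) R c ∈ 𝔮B → c = 0)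
    (c : K) (e : ℤ)
    (hce : ∀ (N : ℕ) [NeZero N], (4 ∣ N ∨ 9 ∣ N) → ∀ P : Place Qb (modularFunctionFieldBar N),
      0 < P.ord (jF N - algebraMap Qb (FN N) (c : Qb)) →
      P.ord (jF N - algebraMap Qb (FN N) (c : Qb)) = e)
    (y : RM) (hyc : (y : FK M K) = jK M K - algebraMap K (FK M K) c) (hy : ι y ∈ 𝔮B) :
    ∀ r ∈ 𝔮B, ∃ s : R, s ∉ 𝔮B ∧ s * r ∈ Ideal.map ι (Ideal.comap ι 𝔮B) := by
  have := h𝔮
  have hMq : 4 ∣ M * q ∨ 9 ∣ M * q := hM.imp (fun h => h.mul_right q) (fun h => h.mul_right q)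
  have hy0 : y ≠ 0 := by
    intro h0
    apply jK_sub_ne_zero M K c
    rw [← hyc, h0, ZeroMemClass.coe_zero]
  have hyR : ((ι y : R) : FK (M * q) K) = jK (M * q) K - algebraMap K (FK (M * q) K) c := by
    rw [hι, hyc, map_sub, WK.alphaK_jK, DegFK.algebraMap_eq_constK, WK.alphaK_constK,
      DegFK.algebraMap_eq_constK]
  refine unram_of_ord_eq M q A K hdvr R RM ι hι 𝔮B h𝔮 hhor y hy0 hy ?_
  intro vM v hvM hv
  obtain ⟨PM, hPM⟩ := Dict.dictStatement M K vM
  obtain ⟨P, hP⟩ := Dict.dictStatement (M * q) K v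
  have h𝔮A : (Ideal.comap ι 𝔮B).IsPrime := Ideal.comap_isPrime ι 𝔮B
  have h1 : 0 < v.ord ((ι y : R) : FK (M * q) K) :=
    ord_pos_of_mem R 𝔮B v hv hy (coe_ne_zero R RM ι hι hy0)
  have h2 : 0 < vM.ord (y : FK M K) :=
    ord_pos_of_mem RM _ vM hvM (Ideal.mem_comap.mpr hy) hy0
  rw [hyR, ord_jK_sub K (M * q) v P hP c] at h1 ⊢
  rw [hyc, ord_jK_sub K M vM PM hPM c] at h2 ⊢
  rw [hce (M * q) hMq P h1, hce M hM PM h2]

/-- **[N8] (U_K)**, in the ring form consumed by `NakPlan.Z1Statement`.  Let `4 ∣ M ∨ 9 ∣ M`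
(no elliptic points), `R` a chart of level `M q` and `RM` a chart of level `M` containing `j`
(both noetherian, integrally closed, with fraction fields `F_K(M q)`, `F_K(M)`), `ι : RM → R` a
ring hom with underlying map `α = WK.alphaK`.  Then every horizontal prime `𝔮B` of `R` is
unramified over `RM`: `𝔮B R_𝔮B = ι (ι⁻¹ 𝔮B) R_𝔮B`. -/
theorem unram (hM : 4 ∣ M ∨ 9 ∣ M) (hdvr : IsDiscreteValuationRing (OK A K))
    (R : Subalgebra (OK A K) (FK (M * q) K)) [IsNoetherianRing R]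
    [IsFractionRing R (FK (M * q) K)] [IsIntegrallyClosed R]
    (RM : Subalgebra (OK A K) (FK M K)) [IsNoetherianRing RM]
    [IsFractionRing RM (FK M K)] [IsIntegrallyClosed RM]
    (hjM : jK M K ∈ RM) (ι : RM →+* R)
    (hι : ∀ y : RM, ((ι y : R) : FK (M * q) K) = WK.alphaK M q K (y : FK M K))
    (𝔮B : Ideal R) (h𝔮 : 𝔮B.IsPrime)
    (hhor : ∀ c : OK A K, algebraMap (OK A K) R c ∈ 𝔮B → c = 0) :
    ∀ r ∈ 𝔮B, ∃ s : R, s ∉ 𝔮B ∧ s * r ∈ Ideal.map ι (Ideal.comap ι 𝔮B) := by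
  have hjR : ((ι ⟨jK M K, hjM⟩ : R) : FK (M * q) K) = jK (M * q) K := by
    rw [hι, WK.alphaK_jK]
  by_cases h0 : ι ⟨jK M K, hjM⟩ ∈ 𝔮B
  · -- `j = 0`
    refine unram_ell M q A K hM hdvr R RM ι hι 𝔮B h𝔮 hhor 0 3 ?_ ⟨jK M K, hjM⟩ ?_ h0
    · intro N _ hN P hpos
      rw [ZeroMemClass.coe_zero, map_zero, sub_zero] at hpos ⊢
      exact NoEll.ord_j_eq_three N hN P hpos
    · rw [map_zero, sub_zero]
  by_cases h1 : ι (⟨jK M K, hjM⟩ - 1728) ∈ 𝔮B
  · -- `j = 1728`
    refine unram_ell M q A K hM hdvr R RM ι hι 𝔮B h𝔮 hhor 1728 2 ?_ (⟨jK M K, hjM⟩ - 1728) ?_ h1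
    · intro N _ hN P hpos
      have e1 : ((1728 : K) : Qb) = 1728 := map_ofNat (algebraMap K Qb) 1728
      rw [e1] at hpos ⊢
      exact NoEll.ord_j_sub_eq_two N hN P hpos
    · rw [map_ofNat]
      rfl
  · refine NakUnram.unram_generic M q A K hdvr R RM hjM ι hι 𝔮B h𝔮 hhor ?_ ?_
    · intro z hz hzj
      apply h0
      have e : z = ι ⟨jK M K, hjM⟩ := Subtype.ext (hzj.trans hjR.symm)
      rw [← e]
      exact hz
    · intro z hz hzj
      apply h1
      have e : z = ι (⟨jK M K, hjM⟩ - 1728) := by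
        apply Subtype.ext
        rw [hzj, map_sub, map_ofNat, ← hjR]
        rfl
      rw [← e]
      exact hz

end Unram

end Fermat.Agent.S36.NakUnramEll
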