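import Mathlib
import Fermat.Agent.S36.NakTopB
import Fermat.Agent.S36.NakModC
import Fermat.Agent.S36.NakUnramEll
import Fermat.Agent.S36.NakGlue
import Fermat.Agent.S36.Model3Top
import Fermat.Agent.S34.ChartRing

/-!
# S36, package [B1-nak] : `hnak` for the model of record (closed instance of `NakTopB.princ_W3`)

Binder conventions of `S36/EtaB1Inst.lean` / `S36/Model3Top.lean`: `H : V3.Hyp3 …` (the
middle-cusp embedding `ι`, `W3 = H.W3`), `V = ![GaussV.V1, GaussV.V2 (wK2 …), H.W3]`,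
`ϖ = ![π, π, s]`, ABSTRACT vertical primes `P` with `ChartHyp3` (+ `ValHyp3`) on the chart
`chart (M q²) A K (Chart3B.J3 …)`.

* `princ_W3_J3`  : `NakTopB.princ_W3` with the expansion facts (`NakModC`, `V3`), `(U)`
                   (`NakUnramEll.unram`, `4 ∣ M ∨ 9 ∣ M`), `hj` (`NakModC.delta_j_gen`) and all
                   ring instances discharged; the branch regularity `hbr` (i = 2) is a hypothesis;
* `hnak0`        : the same with `hbr` from `Level3J3B.branch3_J3` (parameters `a hqa hπϖ` of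
                   `Model3Top.model3`; `s = Wit3.sE`): at EVERY closed point `n ⊇ P 2` of
                   `chart J3` the prime `P 2` is principal at `n` — no hypothesis left;
* `hnak0_cases`  : `hnak0` in the shape of the binder `hnak` of `Princ3Cases.princ_of_cases`
                   (any predicate `C`) and of the input `h0` of `NakGlue.hnak_chart_inv`;
* `hnakInf`      : `hnak` on `chart J3⁻¹` at the non-cuspidal points (`J3⁻¹ ∉ n`), via
                   `NakGlue.hnak_chart_inv`.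
-/

set_option autoImplicit false
set_option linter.unusedSectionVars false

noncomputable section

namespace Fermat.Agent.S36.NakTopInst

open ModularCurve HahnSeries
open Fermat.Agent.S18 Fermat.Agent.S18.Arith Fermat.Agent.S18.ModelPlan
open Fermat.Agent.S34 Fermat.Agent.S34.LocPlan
open Fermat.Agent.S36.NakPlan Fermat.Agent.S36.Model3Plan Fermat.Agent.S36.WQ2

variable {M q : ℕ} [NeZero M] [NeZero q] {hq : q.Prime} {hqM : ¬ q ∣ M}
variable {A : ValuationSubring Qb} {K K' : IntermediateField ℚ Qb}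
variable {ξ : Qb} {hξ0 : ξ ≠ 0} {ι : FK (M * q * q) K →+* LaurentSeries Qb} {ϖ' : OK A K'}

/-- **`princ` at the closed points of `P 2` on `chart J3`** (model of record, abstract `P`),
the branch regularity at `i = 2` being a hypothesis. -/
theorem princ_W3_J3 (H : V3.Hyp3 M q hq hqM A K K' ξ hξ0 ι ϖ')
    (hA : A.LiesOverPrime q) (hB : BaseFacts q A K) (hM : 4 ∣ M ∨ 9 ∣ M)
    {π : OK A K} (hπ : Irreducible π)
    {e : Fin 3 → ℕ} {s : FK (M * q * q) K}
    (val : ValHyp3 (algebraMap (OK A K) (FK (M * q * q) K) π) e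
      ![algebraMap (OK A K) (FK (M * q * q) K) π, algebraMap (OK A K) (FK (M * q * q) K) π, s]
      ![GaussV.V1 (M * q * q) A K hB.dvr, GaussV.V2 (wK2 M q hq hqM K) hB.dvr, H.W3])
    {P : Fin 3 → Ideal (chart (M * q * q) A K (Chart3B.J3 M q hq hqM K))}
    (hyp : ChartHyp3 π
      ![algebraMap (OK A K) (FK (M * q * q) K) π, algebraMap (OK A K) (FK (M * q * q) K) π, s]
      ![GaussV.V1 (M * q * q) A K hB.dvr, GaussV.V2 (wK2 M q hq hqM K) hB.dvr, H.W3] P)
    (hbr : ∀ n : Ideal (chart (M * q * q) A K (Chart3B.J3 M q hq hqM K)), n.IsMaximal →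
      algebraMap (OK A K) (chart (M * q * q) A K (Chart3B.J3 M q hq hqM K)) π ∈ n → P 2 ≤ n →
      ∃ u ∈ n, ∀ x ∈ n, ∃ s' : chart (M * q * q) A K (Chart3B.J3 M q hq hqM K), s' ∉ n ∧
        ∃ c : chart (M * q * q) A K (Chart3B.J3 M q hq hqM K), s' * x - c * u ∈ P 2) :
    ∀ n : Ideal (chart (M * q * q) A K (Chart3B.J3 M q hq hqM K)), n.IsMaximal →
      algebraMap (OK A K) (chart (M * q * q) A K (Chart3B.J3 M q hq hqM K)) π ∈ n → P 2 ≤ n →
      ∃ i : Fin 3, P i ≤ n ∧ ∃ g ∈ P i, ∀ y ∈ P i,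
        ∃ s' : chart (M * q * q) A K (Chart3B.J3 M q hq hqM K), s' ∉ n ∧
          ∃ c : chart (M * q * q) A K (Chart3B.J3 M q hq hqM K), s' * y = c * g := by
  have : Fact q.Prime := ⟨hq⟩
  obtain ⟨⟨hnoeth, hfrac, hintcl⟩, -, -, -⟩ := Chart3B.rings M q hq hqM A K hB.dvr
  have := hnoeth
  have := hfrac
  have := hintcl
  -- the level-`M q` and level-`M` chart instances
  obtain ⟨⟨hnB, hfB, hiB⟩, -, -, -⟩ := ChartRingInv.pair_of_isAlgebraic (M * q) A K hB.dvr
    (WKInst.JK_ne_zero M q hq hqM K)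
    (ChartJ.transcendental_symJ (M * q) A K (WK.isIntegral_jK M q hq hqM A K))
    (ChartJ.isAlgebraic_symJ (M * q) A K (WK.isIntegral_jK M q hq hqM A K))
  have := hnB
  have := hfB
  have := hiB
  have hnA : IsNoetherianRing (chart M A K (jK M K)) :=
    ChartRing.isNoetherianRing_R0 M A K q hB.dvr
  have hfA : IsFractionRing (chart M A K (jK M K)) (FK M K) := ChartRing.isFractionRing_R0 M A K q
  have hiA : IsIntegrallyClosed (chart M A K (jK M K)) := ChartRing.isIntegrallyClosed_R0 M A K q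
  have hCB := WKInst.chart_JK_eq M q hq hqM A K
  have hCC := Chart3B.chart_J3_eq M q hq hqM A K
  exact NakTopB.princ_W3 M q hq hqM hA hB π hπ _ hCC hyp val ι
    (NakModC.mem_P2_iff_gRel _ H hyp val rfl)
    (NakModC.gRel_zero_of_mem_P0 M q _ hB.dvr hyp val rfl)
    (NakModC.gRel_zero_of_mem_P1 M q hq hqM _ hB.dvr hyp val rfl)
    H.mid.alpha (fun x y h => H.gRel_beta hA h)
    (fun 𝔮B h𝔮 hhor => NakUnramEll.unram M q A K hM hB.dvr _ (chart M A K (jK M K))
      (ChartJ.self_mem_chart M A K (jK M K)) _ (fun y => NakMod.coe_iota M q _ hCB y) 𝔮B h𝔮 hhor)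
    ⟨jK M K, ChartJ.self_mem_chart M A K (jK M K)⟩
    (NakModC.delta_j_gen M q hq hqM _ hCB _ hCC hfrac H hyp val rfl _ rfl)
    hbr

/-- **`hnak`, chart `J3`, closed**: at every closed point `n ⊇ P 2` of `chart J3` (triple points
included) the vertical prime `P 2` is principal at `n`.  Parameters as in `Model3Top.model3`. -/
theorem hnak0 (H : V3.Hyp3 M q hq hqM A K K' ξ hξ0 ι ϖ')
    (hA : A.LiesOverPrime q) (hB : BaseFacts q A K) (hM : 4 ∣ M ∨ 9 ∣ M)
    {π : OK A K} (hπ : Irreducible π) (a : A) (hqa : (q : Qb) = incO A K π * (a : Qb))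
    (hπϖ : ∃ u : A, IsUnit u ∧ incO A K π = incO A K' ϖ' ^ (q - 1) * (u : Qb))
    {P : Fin 3 → Ideal (chart (M * q * q) A K (Chart3B.J3 M q hq hqM K))}
    (hyp : ChartHyp3 π
      ![algebraMap (OK A K) (FK (M * q * q) K) π, algebraMap (OK A K) (FK (M * q * q) K) π,
        Wit3.sE M q hq hqM K]
      ![GaussV.V1 (M * q * q) A K hB.dvr, GaussV.V2 (wK2 M q hq hqM K) hB.dvr, H.W3] P) :
    ∀ n : Ideal (chart (M * q * q) A K (Chart3B.J3 M q hq hqM K)), n.IsMaximal →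
      algebraMap (OK A K) (chart (M * q * q) A K (Chart3B.J3 M q hq hqM K)) π ∈ n → P 2 ≤ n →
      ∃ i : Fin 3, P i ≤ n ∧ ∃ g ∈ P i, ∀ y ∈ P i,
        ∃ s' : chart (M * q * q) A K (Chart3B.J3 M q hq hqM K), s' ∉ n ∧
          ∃ c : chart (M * q * q) A K (Chart3B.J3 M q hq hqM K), s' * y = c * g := by
  have : Fact q.Prime := ⟨hq⟩
  have hC : ChartFacts M A K (chart M A K (jK M K)) (jK M K) :=
    Red2B.chartFacts M q hq hqM A K hA hB
  have hW := Model3Top.wit H hB.dvr hA hC hπ a hqa hπϖ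
  have hf1 := ResDeg3Inst.hf1 M q hB.dvr hπ hC hW
  have hf3 := ResDeg3Inst.hf3' M q hq hB.dvr hπ hC H.mid.alpha (V3Wit.hW3 H) hW
  have hbr := Level3J3B.branch3_J3 M q hq hqM hA hB π hπ H.emb H.dvr' H.irr H.unif
    H.mid.alpha (Model3Top.gRel_s H) hf1 hf3 _ hyp
  exact princ_W3_J3 H hA hB hM hπ (V3Wit.valHyp3 H hB.dvr hA hπ a hqa hπϖ) hyp
    (fun n hn hπn hPn => (hbr n hn hπn 2 hPn).2)

/-- `hnak0` in the shape of the binder `hnak` of `Princ3Cases.princ_of_cases` (any `C`). -/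
theorem hnak0_cases (H : V3.Hyp3 M q hq hqM A K K' ξ hξ0 ι ϖ')
    (hA : A.LiesOverPrime q) (hB : BaseFacts q A K) (hM : 4 ∣ M ∨ 9 ∣ M)
    {π : OK A K} (hπ : Irreducible π) (a : A) (hqa : (q : Qb) = incO A K π * (a : Qb))
    (hπϖ : ∃ u : A, IsUnit u ∧ incO A K π = incO A K' ϖ' ^ (q - 1) * (u : Qb))
    {P : Fin 3 → Ideal (chart (M * q * q) A K (Chart3B.J3 M q hq hqM K))}
    (hyp : ChartHyp3 π
      ![algebraMap (OK A K) (FK (M * q * q) K) π, algebraMap (OK A K) (FK (M * q * q) K) π,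
        Wit3.sE M q hq hqM K]
      ![GaussV.V1 (M * q * q) A K hB.dvr, GaussV.V2 (wK2 M q hq hqM K) hB.dvr, H.W3] P)
    (C : Ideal (chart (M * q * q) A K (Chart3B.J3 M q hq hqM K)) → Prop) :
    ∀ n : Ideal (chart (M * q * q) A K (Chart3B.J3 M q hq hqM K)), n.IsMaximal →
      algebraMap (OK A K) (chart (M * q * q) A K (Chart3B.J3 M q hq hqM K)) π ∈ n → C n →
      ¬ P 0 ≤ n → ¬ P 1 ≤ n → P 2 ≤ n →
      ∃ i : Fin 3, P i ≤ n ∧ ∃ g ∈ P i, ∀ y ∈ P i,
        ∃ s' : chart (M * q * q) A K (Chart3B.J3 M q hq hqM K), s' ∉ n ∧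
          ∃ c : chart (M * q * q) A K (Chart3B.J3 M q hq hqM K), s' * y = c * g :=
  fun n hn hπn _ _ _ hPn => hnak0 H hA hB hM hπ a hqa hπϖ hyp n hn hπn hPn

/-- **`hnak`, chart `J3⁻¹`, closed**, at the non-cuspidal closed points (`J3⁻¹ ∉ n`): the binder
`hnak` of `Princ3Cases.princ_of_cases` on `chart J3⁻¹` with `C n := J3⁻¹ ∉ n`. -/
theorem hnakInf (H : V3.Hyp3 M q hq hqM A K K' ξ hξ0 ι ϖ')
    (hA : A.LiesOverPrime q) (hB : BaseFacts q A K) (hM : 4 ∣ M ∨ 9 ∣ M)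
    {π : OK A K} (hπ : Irreducible π) (a : A) (hqa : (q : Qb) = incO A K π * (a : Qb))
    (hπϖ : ∃ u : A, IsUnit u ∧ incO A K π = incO A K' ϖ' ^ (q - 1) * (u : Qb))
    {P0 : Fin 3 → Ideal (chart (M * q * q) A K (Chart3B.J3 M q hq hqM K))}
    (hyp0 : ChartHyp3 π
      ![algebraMap (OK A K) (FK (M * q * q) K) π, algebraMap (OK A K) (FK (M * q * q) K) π,
        Wit3.sE M q hq hqM K]
      ![GaussV.V1 (M * q * q) A K hB.dvr, GaussV.V2 (wK2 M q hq hqM K) hB.dvr, H.W3] P0)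
    {Pinf : Fin 3 → Ideal (chart (M * q * q) A K (Chart3B.J3 M q hq hqM K)⁻¹)}
    (hypInf : ChartHyp3 π
      ![algebraMap (OK A K) (FK (M * q * q) K) π, algebraMap (OK A K) (FK (M * q * q) K) π,
        Wit3.sE M q hq hqM K]
      ![GaussV.V1 (M * q * q) A K hB.dvr, GaussV.V2 (wK2 M q hq hqM K) hB.dvr, H.W3] Pinf) :
    ∀ n : Ideal (chart (M * q * q) A K (Chart3B.J3 M q hq hqM K)⁻¹), n.IsMaximal →
      algebraMap (OK A K) (chart (M * q * q) A K (Chart3B.J3 M q hq hqM K)⁻¹) π ∈ n →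
      (⟨(Chart3B.J3 M q hq hqM K)⁻¹,
          ChartJ.self_mem_chart (M * q * q) A K (Chart3B.J3 M q hq hqM K)⁻¹⟩ :
        chart (M * q * q) A K (Chart3B.J3 M q hq hqM K)⁻¹) ∉ n →
      ¬ Pinf 0 ≤ n → ¬ Pinf 1 ≤ n → Pinf 2 ≤ n →
      ∃ i : Fin 3, Pinf i ≤ n ∧ ∃ g ∈ Pinf i, ∀ y ∈ Pinf i,
        ∃ s' : chart (M * q * q) A K (Chart3B.J3 M q hq hqM K)⁻¹, s' ∉ n ∧
          ∃ c : chart (M * q * q) A K (Chart3B.J3 M q hq hqM K)⁻¹, s' * y = c * g := by
  have : Fact q.Prime := ⟨hq⟩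
  exact NakGlue.hnak_chart_inv q hB (Chart3B.J3_ne_zero M q hq hqM K) hπ hyp0 hypInf
    (fun i => Model3Top.le0 H hB.dvr i _ (ChartJ.self_mem_chart (M * q * q) A K _))
    (fun i => Model3Top.leInf H hB.dvr i _ (ChartJ.self_mem_chart (M * q * q) A K _))
    (fun n hn hπn _ _ hPn => hnak0 H hA hB hM hπ a hqa hπϖ hyp0 n hn hπn hPn)

end Fermat.Agent.S36.NakTopInst

end
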