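/-
S36 — AuxPull.lean (helper20).  Block [AUX], `J`-side: pull-back of divisor classes along the
inclusion of modular function fields `F̄_N ⊆ F̄_L` (`N ∣ L`), used to move the Carayol leaf to an
auxiliary level.

Generic part (`φ : F →ₐ[K] F'` integral with the fundamental identity):

* `pullPic0 φ hφ hFI : Pic0 K F →+ Pic0 K F'`        — `φ^*` on degree-zero classes;
* `pullPic0_smul`                                    — equivariance for intertwined semilinear
                                                       automorphisms;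
* `ord_pullbackAlong`                                — `m·D = div f ⇒ m·φ^*D = div (φ f)`;
* `pushforwardAlong_pullbackAlong`, `pushPic0_pullPic0`
                                                     — `φ_* φ^* = [F' : F]`.

Modular instance (`N ∣ L`, no cast of levels: the inclusion is taken for an arbitrary divisibility):

* `inclBar h : F̄_N →ₐ[ℚ̄] F̄_L`, `coe_inclBar`        — the inclusion (identity on `q`-expansions);
* `auxPull h : JZero N →+ JZero L`                   — `π^*`;
* `galois_smul_auxPull`                              — `π^*` commutes with `Gal(ℚ̄/ℚ)`;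
* `auxPull_mk_ord`                                   — `x = [D]`, `m·D = div f` ⇒
                                                       `π^* x = [D']`, `m·D' = div f` at level `L`;
* `auxPush h`, `auxDeg h`, `auxPush_auxPull`, `auxDeg_pos`, `descent`
                                                     — `π_* π^* = deg`, hence
                                                       `C • π^* x = 0 ⇒ (C·deg) • x = 0`;
* `GraphClause`, `theta_res_eq`                      — for graph-keeping `θ` (clause 4 of
                                                       `S35.KGraph.KGraphStatement`) at both levels: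
                                                       `θ_L u' = π^* (θ_N u)` as soon as every
                                                       witness of `u` is a witness of `u'`.
-/
import Mathlib
import Fermat.Prelude.Def_AlgebraicCurve_Correspondence
import Fermat.Prelude.Def_ModularCurve_HeckeModule
import Fermat.Agent.S29.GalHecke
import Fermat.Agent.S37.HeckeInputs
import Fermat.Agent.S35.PushPic
import Fermat.Agent.S35.KGraph

set_option autoImplicit false
set_option linter.style.haveILetI false

open AlgebraicCurve ModularCurve CongruenceSubgroup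

namespace Fermat.Agent.S36.AuxPull

noncomputable section

/-! ### Generic part -/

section Generic

variable {K F F' : Type*} [Field K] [Field F] [Field F'] [Algebra K F] [Algebra K F']
variable [HasPrincipalDivisors K F']
variable (φ : F →ₐ[K] F') (hφ : φ.toRingHom.IsIntegral)
variable (hFI : FundamentalIdentityAlong K φ hφ)

/-- Pull-back of degree-zero divisors along `φ`. -/
def degZeroPull : Divisor.degZero (K := K) (F := F) →+ Divisor.degZero (K := K) (F := F') :=
  ((Divisor.pullbackAlong φ hφ).domRestrict (Divisor.degZero (K := K) (F := F))).codRestrict _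
    (fun D => Divisor.pullbackAlong_mem_degZero φ hφ hFI D.2)

@[simp]
theorem coe_degZeroPull (D : Divisor.degZero (K := K) (F := F)) :
    (degZeroPull φ hφ hFI D : Divisor K F') = Divisor.pullbackAlong φ hφ (D : Divisor K F) :=
  rfl

/-- **`φ^*` on `Pic⁰`.** -/
def pullPic0 : Pic0 K F →+ Pic0 K F' :=
  QuotientAddGroup.map _ _ (degZeroPull φ hφ hFI) (by
    rintro ⟨D, hD0⟩ hD
    simp only [AddSubgroup.mem_addSubgroupOf] at hD ⊢
    exact Divisor.isPrincipal_pullbackAlong φ hφ hD)

theorem pullPic0_mk (D : Divisor.degZero (K := K) (F := F)) :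
    pullPic0 φ hφ hFI (Pic0.mk D) = Pic0.mk (degZeroPull φ hφ hFI D) :=
  rfl

/-- `φ^*` is equivariant for semilinear automorphisms intertwined along `φ`. -/
theorem pullPic0_smul {g : SemilinearAut K F} {g' : SemilinearAut K F'}
    (h : SemilinearAut.IntertwinesAlong (φ : F →+* F') g g') (x : Pic0 K F) :
    pullPic0 φ hφ hFI (g • x) = g' • pullPic0 φ hφ hFI x := by
  obtain ⟨D, rfl⟩ := Pic0.mk_surjective x
  rw [SemilinearAut.pic0_smul_mk, pullPic0_mk, pullPic0_mk, SemilinearAut.pic0_smul_mk]
  refine congrArg Pic0.mk (Subtype.ext ?_)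
  rw [coe_degZeroPull, SemilinearAut.coe_degZeroSMulHom, SemilinearAut.coe_degZeroSMulHom,
    coe_degZeroPull]
  exact Fermat.Agent.S29.GalHecke.pullbackAlong_smul φ hφ h _

omit hFI in
/-- `m·D = div f ⇒ m·φ^*D = div (φ f)`. -/
theorem ord_pullbackAlong {m : ℤ} {D : Divisor K F} {f : F}
    (hD : ∀ v : Place K F, m * D v = v.ord f) (w : Place K F') :
    m * Divisor.pullbackAlong φ hφ D w = w.ord (φ f) := by
  rw [Divisor.pullbackAlong_apply, Place.ord_restrictAlong φ hφ, ← hD]
  ring

include hFI in
/-- The fundamental identity in the form `∑ e·f = [F' : F]` over the fibre of a place of nonzero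
degree. -/
theorem sum_ramificationIndexAlong_mul_inertiaDegAlong (v : Place K F) (hv : v.deg ≠ 0) :
    ∑ W ∈ Place.fiberAlong φ hφ v,
        (W.ramificationIndexAlong φ : ℤ) * (W.inertiaDegAlong φ hφ : ℤ)
      = (finrankAlong K φ : ℤ) := by
  have key : ∑ W ∈ Place.fiberAlong φ hφ v, (W.ramificationIndexAlong φ : ℤ) * (W.deg : ℤ)
      = (finrankAlong K φ : ℤ) * (v.deg : ℤ) := by
    letI := algebraAlong φ
    haveI := isScalarTower_along φ
    haveI := isIntegral_along φ hφ
    haveI : FundamentalIdentity K F F' := hFI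
    exact FundamentalIdentity.sum_ramificationIndex_mul_deg (K := K) (F := F) (F' := F') v
  have hv' : (v.deg : ℤ) ≠ 0 := by exact_mod_cast hv
  apply mul_left_cancel₀ hv'
  rw [mul_comm (v.deg : ℤ) (finrankAlong K φ : ℤ), ← key, Finset.mul_sum]
  refine Finset.sum_congr rfl fun W hW => ?_
  have h1 := Fermat.Agent.S29.GalHecke.deg_restrictAlong_mul_inertiaDegAlong φ hφ W
  rw [Place.mem_fiberAlong.mp hW] at h1
  rw [← h1]
  push_cast
  ring

include hFI in
/-- **`φ_* φ^* = [F' : F]`** on divisors (all places of `F` of nonzero degree). -/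
theorem pushforwardAlong_pullbackAlong (hdeg : ∀ v : Place K F, v.deg ≠ 0) (D : Divisor K F) :
    Divisor.pushforwardAlong φ hφ (Divisor.pullbackAlong φ hφ D) = (finrankAlong K φ : ℤ) • D := by
  have key : (Divisor.pushforwardAlong φ hφ).comp (Divisor.pullbackAlong φ hφ)
      = (finrankAlong K φ : ℤ) • AddMonoidHom.id (Divisor K F) := by
    refine Finsupp.addHom_ext fun v n => ?_
    show Divisor.pushforwardAlong φ hφ (Divisor.pullbackAlong φ hφ (Finsupp.single v n))
      = (finrankAlong K φ : ℤ) • Finsupp.single v n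
    rw [Divisor.pullbackAlong_single, map_sum]
    have h1 : ∀ W ∈ Place.fiberAlong φ hφ v,
        Divisor.pushforwardAlong φ hφ (Finsupp.single W (n * (W.ramificationIndexAlong φ : ℤ)))
          = Finsupp.single v
              (n * ((W.ramificationIndexAlong φ : ℤ) * (W.inertiaDegAlong φ hφ : ℤ))) := by
      intro W hW
      rw [Divisor.pushforwardAlong_single, Place.mem_fiberAlong.mp hW, mul_assoc]
    rw [Finset.sum_congr rfl h1, ← Finsupp.single_finsetSum, ← Finset.mul_sum,
      sum_ramificationIndexAlong_mul_inertiaDegAlong φ hφ hFI v (hdeg v), Finsupp.smul_single,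
      smul_eq_mul, mul_comm]
  exact DFunLike.congr_fun key D

variable (hfin : FiniteAlong K φ) (hN : NormFormulaAlong K φ hfin)

/-- **`φ_* φ^* = [F' : F]`** on `Pic⁰`. -/
theorem pushPic0_pullPic0 (hdeg : ∀ v : Place K F, v.deg ≠ 0) (x : Pic0 K F) :
    Fermat.Agent.S35.PushPic.pushPic0 φ hφ hfin hN (pullPic0 φ hφ hFI x)
      = finrankAlong K φ • x := by
  obtain ⟨D, rfl⟩ := Pic0.mk_surjective x
  rw [pullPic0_mk, Fermat.Agent.S35.PushPic.pushPic0_mk]
  have h1 : finrankAlong K φ • Pic0.mk D = Pic0.mk (finrankAlong K φ • D) := rfl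
  rw [h1]
  refine congrArg Pic0.mk (Subtype.ext ?_)
  rw [Fermat.Agent.S35.PushPic.coe_degZeroPush, coe_degZeroPull,
    pushforwardAlong_pullbackAlong φ hφ hFI hdeg, AddSubgroup.coe_nsmul, natCast_zsmul]

end Generic

/-! ### The modular instance -/

section Modular

set_option synthInstance.maxHeartbeats 400000

/-- `ℚ̄`. -/
local notation "Qb" => AlgebraicClosure ℚ

/-- `Gal(ℚ̄/ℚ)`. -/
local notation "GQ" => (AlgebraicClosure ℚ ≃ₐ[ℚ] AlgebraicClosure ℚ)

open Fermat.Agent.S41 (Lpar)
open Fermat.Agent.S37.HI (isFF1_modular)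

variable {N L : ℕ} [NeZero N] [NeZero L]

/-- `F̄_N ⊆ F̄_L` for `N ∣ L` (inside `ℚ̄((q))`). -/
theorem bar_le (h : N ∣ L) : modularFunctionFieldBar N ≤ modularFunctionFieldBar L := by
  rw [modularFunctionFieldBar, laurentBaseChange, IntermediateField.adjoin_le_iff]
  rintro _ ⟨y, hy, rfl⟩
  exact coeffEmb_mem_laurentBaseChange Qb (full_degeneracy_le h hy)

/-- The inclusion `F̄_N → F̄_L`, `N ∣ L`. -/
def inclBar (h : N ∣ L) : modularFunctionFieldBar N →ₐ[Qb] modularFunctionFieldBar L :=
  IntermediateField.inclusion (bar_le h)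

@[simp]
theorem coe_inclBar (h : N ∣ L) (x : modularFunctionFieldBar N) :
    ((inclBar h x : modularFunctionFieldBar L) : LaurentSeries Qb) = (x : LaurentSeries Qb) :=
  IntermediateField.coe_inclusion _ x

/-- `F̄_L` has principal divisors. -/
theorem hasPD (L : ℕ) [NeZero L] : HasPrincipalDivisors Qb (modularFunctionFieldBar L) :=
  Fermat.Agent.S37.HI.hasPrincipalDivisors_of_isFF1 (isFF1_modular L)

attribute [local instance] hasPD

theorem inclBar_isIntegral (h : N ∣ L) : (inclBar h).toRingHom.IsIntegral :=
  Fermat.Agent.S37.HI.isIntegral_of_isFF1 (isFF1_modular N) (isFF1_modular L) _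

theorem inclBar_finiteAlong (h : N ∣ L) : FiniteAlong Qb (inclBar h) :=
  Fermat.Agent.S37.HI.finiteAlong_of_isFF1 (isFF1_modular N) (isFF1_modular L) _

theorem inclBar_normFormulaAlong (h : N ∣ L) :
    NormFormulaAlong Qb (inclBar h) (inclBar_finiteAlong h) :=
  Fermat.Agent.S37.HI.normFormulaAlong_of_isFF1 (isFF1_modular N) (isFF1_modular L) _ _

theorem inclBar_fundamentalIdentityAlong (h : N ∣ L) :
    FundamentalIdentityAlong Qb (inclBar h) (inclBar_isIntegral h) :=
  Fermat.Agent.S37.HI.fundamentalIdentityAlong_of_isFF1 (isFF1_modular N) (isFF1_modular L) _ _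

/-- **`π^* : J₀(N) → J₀(L)`**, the pull-back along the inclusion `F̄_N ⊆ F̄_L` (`N ∣ L`). -/
def auxPull (h : N ∣ L) : JZero N →+ JZero L :=
  pullPic0 (inclBar h) (inclBar_isIntegral h) (inclBar_fundamentalIdentityAlong h)

/-- **`π_* : J₀(L) → J₀(N)`**, the push-forward along the inclusion `F̄_N ⊆ F̄_L` (`N ∣ L`). -/
def auxPush (h : N ∣ L) : JZero L →+ JZero N :=
  Fermat.Agent.S35.PushPic.pushPic0 (inclBar h) (inclBar_isIntegral h) (inclBar_finiteAlong h)
    (inclBar_normFormulaAlong h)

/-- The degree `[F̄_L : F̄_N]`. -/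
def auxDeg (h : N ∣ L) : ℕ := finrankAlong Qb (inclBar h)

theorem auxDeg_pos (h : N ∣ L) : 0 < auxDeg h := by
  unfold auxDeg finrankAlong
  letI := algebraAlong (inclBar h)
  haveI : Module.Finite (modularFunctionFieldBar N) (modularFunctionFieldBar L) :=
    inclBar_finiteAlong h
  exact Module.finrank_pos

/-- The coefficientwise Galois action intertwines the inclusion `F̄_N → F̄_L`. -/
theorem intertwines_inclBar (h : N ∣ L) (σ : GQ) :
    SemilinearAut.IntertwinesAlong (inclBar h : _ →+* _)
      (arithmeticGalois (modularFunctionFieldFull N) σ)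
      (arithmeticGalois (modularFunctionFieldFull L) σ) := by
  intro x
  apply Subtype.ext
  show coeffMap (σ : Qb →+* Qb) ((inclBar h x : _) : LaurentSeries Qb)
    = ((inclBar h (arithmeticGalois (modularFunctionFieldFull N) σ • x) : _) :
        LaurentSeries Qb)
  rw [coe_inclBar, coe_inclBar, coe_arithmeticGalois_smul]

/-- `π^*` commutes with the Galois action. -/
theorem galois_smul_auxPull (h : N ∣ L) (σ : GQ) (x : JZero N) :
    auxPull h (σ • x) = σ • auxPull h x := by
  rw [galois_smul_pic0_def, galois_smul_pic0_def]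
  exact pullPic0_smul (inclBar h) (inclBar_isIntegral h) (inclBar_fundamentalIdentityAlong h)
    (intertwines_inclBar h σ) x

/-- **`π_* π^* = deg`.** -/
theorem auxPush_auxPull (h : N ∣ L) (x : JZero N) :
    auxPush h (auxPull h x) = auxDeg h • x :=
  pushPic0_pullPic0 (inclBar h) (inclBar_isIntegral h) (inclBar_fundamentalIdentityAlong h)
    (inclBar_finiteAlong h) (inclBar_normFormulaAlong h)
    (Fermat.Agent.S29.GalHecke.deg_ne_zero N) x

/-- **Descent**: a class whose pull-back to level `L` is killed by `C` is killed by `C · deg`. -/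
theorem descent (h : N ∣ L) (x : JZero N) (C : ℕ) (hx : C • auxPull h x = 0) :
    (C * auxDeg h) • x = 0 := by
  have h1 : auxPush h (C • auxPull h x) = 0 := by rw [hx, map_zero]
  rw [map_nsmul, auxPush_auxPull, ← mul_smul] at h1
  exact h1

/-- **Kummer description of `π^*`**: if `x = [D]` with `m·D = div f` at level `N`, then
`π^* x = [D']` with `m·D' = div f` at level `L` (`f` viewed in `F̄_L`). -/
theorem auxPull_mk_ord (h : N ∣ L) {m : ℤ}
    (D : Divisor.degZero (K := Qb) (F := ↥(modularFunctionFieldBar N)))
    (f : ↥(modularFunctionFieldBar N))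
    (hD : ∀ P : Place Qb ↥(modularFunctionFieldBar N),
      m * (D : Divisor Qb ↥(modularFunctionFieldBar N)) P = P.ord f) :
    ∃ D' : Divisor.degZero (K := Qb) (F := ↥(modularFunctionFieldBar L)),
      (∀ P : Place Qb ↥(modularFunctionFieldBar L),
        m * (D' : Divisor Qb ↥(modularFunctionFieldBar L)) P = P.ord (inclBar h f)) ∧
      auxPull h (Pic0.mk D) = Pic0.mk D' :=
  ⟨degZeroPull (inclBar h) (inclBar_isIntegral h) (inclBar_fundamentalIdentityAlong h) D,
    fun P => ord_pullbackAlong (inclBar h) (inclBar_isIntegral h) hD P, rfl⟩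

/-! ### Graph-keeping comparison maps at two levels -/

/-- The graph clause of `S35.KGraph.KGraphStatement N m` for a given `θ`: for EVERY witness `y` of
`u` and every `f ∈ F̄_N` with `f = y ^ m`, `θ u` is the class of a degree-zero divisor `D` with
`m·D = div f`. -/
def GraphClause (N m : ℕ) (θ : Lpar N →+ JZero N) : Prop :=
  ∀ (u : Lpar N) (y : LaurentSeries Qb),
    Fermat.Agent.S29.KPlan.Wit N m (u : Additive (Gamma0 N) →+ ℤ) y →
    ∀ f : ↥(modularFunctionFieldBar N), (f : LaurentSeries Qb) = y ^ m →
      ∃ D : Divisor.degZero (K := Qb) (F := ↥(modularFunctionFieldBar N)),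
        (∀ P : Place Qb ↥(modularFunctionFieldBar N),
          (m : ℤ) * (D : Divisor Qb ↥(modularFunctionFieldBar N)) P = P.ord f) ∧
        θ u = Pic0.mk D

/-- **`θ_L u' = π^* (θ_N u)`** for graph-keeping `θ_N`, `θ_L`, as soon as every witness of `u`
(level `N`) is a witness of `u'` (level `L`) — e.g. `u'` the restriction of `u` to `Γ₀(L)`. -/
theorem theta_res_eq (h : N ∣ L) {m : ℕ} (hm : m ≠ 0)
    {θ : Lpar N →+ JZero N} (hθ : GraphClause N m θ)
    {θ' : Lpar L →+ JZero L} (hθ' : GraphClause L m θ')
    (u : Lpar N) (u' : Lpar L)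
    (hW : ∀ y : LaurentSeries Qb,
      Fermat.Agent.S29.KPlan.Wit N m (u : Additive (Gamma0 N) →+ ℤ) y →
      Fermat.Agent.S29.KPlan.Wit L m (u' : Additive (Gamma0 L) →+ ℤ) y) :
    θ' u' = auxPull h (θ u) := by
  obtain ⟨y, f, hy, hf, -⟩ := Fermat.Agent.S35.KGraph.exists_wit N m hm u
  obtain ⟨D, hD, hθu⟩ := hθ u y hy f hf
  have hf' : ((inclBar h f : modularFunctionFieldBar L) : LaurentSeries Qb) = y ^ m := by
    rw [coe_inclBar, hf]
  obtain ⟨D', hD', hθu'⟩ := hθ' u' y (hW y hy) (inclBar h f) hf'
  obtain ⟨D₂, hD₂, hpull⟩ := auxPull_mk_ord h D f hD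
  have hm' : (m : ℤ) ≠ 0 := by exact_mod_cast hm
  have hDD : D' = D₂ := by
    apply Subtype.ext
    ext P
    apply mul_left_cancel₀ hm'
    rw [hD' P, hD₂ P]
  rw [hθu', hθu, hpull, hDD]

end Modular

end

end Fermat.Agent.S36.AuxPull
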