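/-
S36 — Fricke.lean (helper1).  Degree input of block [KTR36] (route R1) at `q ∣ N`.

* `exists_fricke N`          — the Fricke involution `W_N` of `F̄_N = ℚ̄(j(q^d) : d ∣ N)`, for EVERY
                               level `N`: a `ℚ̄`-algebra automorphism with `W ∘ W = id` and
                               `W (j(q^d)) = j(q^{N/d})`;
* `fricke_alpha`             — `W_{N ℓ} (α x) = β (W_N x)` and `W_{N ℓ} (β x) = α (W_N x)`
                               (`α = heckeAlphaBar`, `β = heckeBetaBar`), every `N`, `ℓ`;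
* `finrankAlong_beta_eq_alpha` — `[F̄_{N ℓ} : β F̄_N] = [F̄_{N ℓ} : α F̄_N]`, every `N`, `ℓ`;
* `finrankAlong_alpha_of_dvd`, `finrankAlong_beta_of_dvd`
                             — both degrees are `ℓ` for a prime `ℓ ∣ N`.

Method (as S37/W/AL): by the S24 bridge a polynomial relation between the formal `j(q^d)` is a
relation between the analytic `j(d τ)`; these are stable under `τ ↦ -1/(N τ)`, which exchanges
`j(d τ)` and `j((N/d) τ)`.
-/
import Mathlib
import Fermat.Agent.S37.W.Degree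

set_option autoImplicit false
set_option linter.style.haveILetI false

namespace Fermat.Agent.S36.Fricke

open ModularCurve AlgebraicCurve UpperHalfPlane IntermediateField
open Fermat.Agent.S24 Fermat.Agent.S23 Fermat.Agent.LevelOne Fermat.Agent.S37.W
open scoped MatrixGroups

/-! ### The swap `d ↦ N / d` -/

section Swap

variable (N : ℕ) [NeZero N]

/-- `d ↦ N / d` on the divisors of `N`. -/
def frickeDiv : ↥N.divisors → ↥N.divisors := fun d =>
  ⟨N / (d : ℕ), Nat.mem_divisors.mpr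
    ⟨Nat.div_dvd_of_dvd (Nat.dvd_of_mem_divisors d.2), NeZero.ne N⟩⟩

theorem coe_frickeDiv (d : ↥N.divisors) : ((frickeDiv N d : ↥N.divisors) : ℕ) = N / (d : ℕ) :=
  rfl

theorem frickeDiv_frickeDiv (d : ↥N.divisors) : frickeDiv N (frickeDiv N d) = d := by
  apply Subtype.ext
  show N / (N / (d : ℕ)) = (d : ℕ)
  exact Nat.div_div_self (Nat.dvd_of_mem_divisors d.2) (NeZero.ne N)

end Swap

/-! ### The analytic side -/

section Analytic

/-- The point `-1 / (N z)`. -/
noncomputable def frickePt (N : ℕ) [NeZero N] (z : ℍ) : ℍ := ModularGroup.S • mulN N z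

theorem coe_frickePt (N : ℕ) [NeZero N] (z : ℍ) :
    ((frickePt N z : ℍ) : ℂ) = (-((N : ℂ) * (z : ℂ)))⁻¹ := by
  rw [frickePt, UpperHalfPlane.modular_S_smul]
  rfl

/-- `d · (-1 / (N z)) = -1 / ((N / d) z)`. -/
theorem mulN_frickePt (N d e : ℕ) [NeZero N] [NeZero d] [NeZero e] (h : N = d * e) (z : ℍ) :
    mulN d (frickePt N z) = ModularGroup.S • mulN e z := by
  apply UpperHalfPlane.ext
  rw [coe_mulN, coe_frickePt, UpperHalfPlane.modular_S_smul]
  show (d : ℂ) * (-((N : ℂ) * (z : ℂ)))⁻¹ = (-((e : ℂ) * (z : ℂ)))⁻¹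
  have hd : (d : ℂ) ≠ 0 := Nat.cast_ne_zero.mpr (NeZero.ne d)
  have he : (e : ℂ) ≠ 0 := Nat.cast_ne_zero.mpr (NeZero.ne e)
  have hz : (z : ℂ) ≠ 0 := UpperHalfPlane.ne_zero z
  rw [h]
  push_cast
  field_simp

/-- `j (d · (-1 / (N z))) = j ((N / d) z)`. -/
theorem jAt_frickePt (N d e : ℕ) [NeZero N] [NeZero d] [NeZero e] (h : N = d * e) (z : ℍ) :
    jAt d (frickePt N z) = jAt e z := by
  rw [jAt_apply, mulN_frickePt N d e h z, jFun_smul, jAt_apply]

variable (N : ℕ) [NeZero N]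

theorem jAtFam_frickeDiv (e : ↥N.divisors) (z : ℍ) :
    jAtFam N (frickeDiv N e) z = jAtFam N e (frickePt N z) := by
  have hdvd : (e : ℕ) ∣ N := Nat.dvd_of_mem_divisors e.2
  show jAt ((frickeDiv N e : ↥N.divisors) : ℕ) z = jAt (e : ℕ) (frickePt N z)
  exact (jAt_frickePt N (e : ℕ) ((frickeDiv N e : ↥N.divisors) : ℕ)
    (Nat.mul_div_cancel' hdvd).symm z).symm

/-- Analytic relations are stable under the Fricke swap of the variables. -/
theorem aeval_jAtFam_rename_frickeDiv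
    (P : MvPolynomial ↥N.divisors (AlgebraicClosure ℚ))
    (h : MvPolynomial.aeval (jAtFam N) P = 0) :
    MvPolynomial.aeval (jAtFam N) (MvPolynomial.rename (frickeDiv N) P) = 0 := by
  funext z
  rw [MvPolynomial.aeval_rename, aeval_fun_apply]
  have h1 : (fun i => (jAtFam N ∘ frickeDiv N) i z)
      = fun i => jAtFam N i (frickePt N z) := by
    funext i
    exact jAtFam_frickeDiv N i z
  rw [h1, ← aeval_fun_apply, h]
  rfl

theorem rename_frickeDiv_rename_frickeDiv
    (P : MvPolynomial ↥N.divisors (AlgebraicClosure ℚ)) :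
    MvPolynomial.rename (frickeDiv N) (MvPolynomial.rename (frickeDiv N) P) = P := by
  rw [MvPolynomial.rename_rename]
  have : frickeDiv N ∘ frickeDiv N = id := funext fun e => frickeDiv_frickeDiv N e
  rw [this, MvPolynomial.rename_id_apply]

theorem aeval_jAtFam_rename_frickeDiv_iff
    (P : MvPolynomial ↥N.divisors (AlgebraicClosure ℚ)) :
    MvPolynomial.aeval (jAtFam N) (MvPolynomial.rename (frickeDiv N) P) = 0 ↔
      MvPolynomial.aeval (jAtFam N) P = 0 := by
  constructor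
  · intro h
    have h2 := aeval_jAtFam_rename_frickeDiv N _ h
    rwa [rename_frickeDiv_rename_frickeDiv N] at h2
  · exact aeval_jAtFam_rename_frickeDiv N P

end Analytic

/-! ### The involution -/

section Involution

variable (N : ℕ) [NeZero N]

/-- The swapped family of generators satisfies exactly the relations of the original one. -/
theorem aeval_genFam_frickeDiv_eq_zero_iff
    (P : MvPolynomial ↥N.divisors (AlgebraicClosure ℚ)) :
    MvPolynomial.aeval (fun e => genFam N (frickeDiv N e)) P = 0 ↔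
      MvPolynomial.aeval (JFam N) P = 0 := by
  have h1 : MvPolynomial.aeval (fun e => genFam N (frickeDiv N e)) P
      = MvPolynomial.aeval (genFam N) (MvPolynomial.rename (frickeDiv N) P) := by
    rw [MvPolynomial.aeval_rename]; rfl
  rw [h1, aeval_genFam_eq_zero_iff, bridge_iff, aeval_jAtFam_rename_frickeDiv_iff N,
    ← bridge_iff]

/-- **The Fricke involution `W_N` of `F̄_N`**, every level `N`. -/
theorem exists_fricke :
    ∃ w : ↥(modularFunctionFieldBar N) ≃ₐ[AlgebraicClosure ℚ] ↥(modularFunctionFieldBar N),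
      (∀ x, w (w x) = x) ∧ ∀ e, w (genFam N e) = genFam N (frickeDiv N e) := by
  obtain ⟨ι, -, hι⟩ := exists_algHom_of_eq_zero_iff (N := N)
    (MvPolynomial.aeval (fun e => genFam N (frickeDiv N e)))
    (aeval_genFam_frickeDiv_eq_zero_iff N)
  have hι' : ∀ e, ι (genFam N e) = genFam N (frickeDiv N e) := fun e => by
    rw [hι, MvPolynomial.aeval_X]
  have hinv : ι.comp ι = AlgHom.id _ _ := by
    apply algHom_ext_genFam
    intro e
    rw [AlgHom.comp_apply, hι', hι', frickeDiv_frickeDiv N, AlgHom.id_apply]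
  refine ⟨AlgEquiv.ofAlgHom ι ι hinv hinv, fun x => ?_, fun e => ?_⟩
  · show ι (ι x) = x
    have := congrArg (fun f => f x) hinv
    simpa using this
  · exact hι' e

/-- A choice of the Fricke involution. -/
noncomputable def fricke :
    ↥(modularFunctionFieldBar N) ≃ₐ[AlgebraicClosure ℚ] ↥(modularFunctionFieldBar N) :=
  (exists_fricke N).choose

theorem fricke_fricke (x : ↥(modularFunctionFieldBar N)) : fricke N (fricke N x) = x :=
  (exists_fricke N).choose_spec.1 x

theorem fricke_genFam (e : ↥N.divisors) : fricke N (genFam N e) = genFam N (frickeDiv N e) :=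
  (exists_fricke N).choose_spec.2 e

end Involution

/-! ### Fricke and the degeneracy maps -/

section Degeneracy

theorem nat_mul_div_comm (N ℓ d : ℕ) (h : d ∣ N) (hd : 0 < d) : N * ℓ / d = N / d * ℓ := by
  obtain ⟨k, rfl⟩ := h
  rw [Nat.mul_div_cancel_left k hd, mul_assoc, Nat.mul_div_cancel_left (k * ℓ) hd]

variable (N ℓ : ℕ) [NeZero N] [NeZero ℓ]

theorem frickeDiv_divLow (d : ↥N.divisors) :
    frickeDiv (N * ℓ) (divLow N ℓ d) = divHigh N ℓ (frickeDiv N d) := by
  apply Subtype.ext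
  show N * ℓ / (d : ℕ) = N / (d : ℕ) * ℓ
  exact nat_mul_div_comm N ℓ (d : ℕ) (Nat.dvd_of_mem_divisors d.2) (Nat.pos_of_mem_divisors d.2)

theorem frickeDiv_divHigh (d : ↥N.divisors) :
    frickeDiv (N * ℓ) (divHigh N ℓ d) = divLow N ℓ (frickeDiv N d) := by
  apply Subtype.ext
  show N * ℓ / ((d : ℕ) * ℓ) = N / (d : ℕ)
  exact Nat.mul_div_mul_right N (d : ℕ) (Nat.pos_of_ne_zero (NeZero.ne ℓ))

/-- `W_{N ℓ} ∘ α = β ∘ W_N`. -/
theorem fricke_alpha (x : ↥(modularFunctionFieldBar N)) :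
    fricke (N * ℓ) (heckeAlphaBar (AlgebraicClosure ℚ) N ℓ x) =
      heckeBetaBar (AlgebraicClosure ℚ) N ℓ (fricke N x) := by
  have h : ((fricke (N * ℓ) : ↥(modularFunctionFieldBar (N * ℓ)) →ₐ[AlgebraicClosure ℚ]
        ↥(modularFunctionFieldBar (N * ℓ))).comp (heckeAlphaBar (AlgebraicClosure ℚ) N ℓ))
      = (heckeBetaBar (AlgebraicClosure ℚ) N ℓ).comp
          (fricke N : ↥(modularFunctionFieldBar N) →ₐ[AlgebraicClosure ℚ]
            ↥(modularFunctionFieldBar N)) := by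
    apply algHom_ext_genFam
    intro d
    rw [AlgHom.comp_apply, AlgHom.comp_apply, heckeAlphaBar_genFam]
    show fricke (N * ℓ) (genFam (N * ℓ) (divLow N ℓ d)) =
      heckeBetaBar (AlgebraicClosure ℚ) N ℓ (fricke N (genFam N d))
    rw [fricke_genFam, fricke_genFam, heckeBetaBar_genFam]
    congr 1
    exact frickeDiv_divLow N ℓ d
  exact congrArg (fun f => f x) h

/-- `W_{N ℓ} ∘ β = α ∘ W_N`. -/
theorem fricke_beta (x : ↥(modularFunctionFieldBar N)) :
    fricke (N * ℓ) (heckeBetaBar (AlgebraicClosure ℚ) N ℓ x) =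
      heckeAlphaBar (AlgebraicClosure ℚ) N ℓ (fricke N x) := by
  have h : ((fricke (N * ℓ) : ↥(modularFunctionFieldBar (N * ℓ)) →ₐ[AlgebraicClosure ℚ]
        ↥(modularFunctionFieldBar (N * ℓ))).comp (heckeBetaBar (AlgebraicClosure ℚ) N ℓ))
      = (heckeAlphaBar (AlgebraicClosure ℚ) N ℓ).comp
          (fricke N : ↥(modularFunctionFieldBar N) →ₐ[AlgebraicClosure ℚ]
            ↥(modularFunctionFieldBar N)) := by
    apply algHom_ext_genFam
    intro d
    rw [AlgHom.comp_apply, AlgHom.comp_apply, heckeBetaBar_genFam]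
    show fricke (N * ℓ) (genFam (N * ℓ) (divHigh N ℓ d)) =
      heckeAlphaBar (AlgebraicClosure ℚ) N ℓ (fricke N (genFam N d))
    rw [fricke_genFam, fricke_genFam, heckeAlphaBar_genFam]
    congr 1
    exact frickeDiv_divHigh N ℓ d
  exact congrArg (fun f => f x) h

/-- `[F̄_{N ℓ} : β F̄_N] = [F̄_{N ℓ} : α F̄_N]`, every `N`, `ℓ`. -/
theorem finrankAlong_beta_eq_alpha :
    finrankAlong (AlgebraicClosure ℚ) (heckeBetaBar (AlgebraicClosure ℚ) N ℓ) =
      finrankAlong (AlgebraicClosure ℚ) (heckeAlphaBar (AlgebraicClosure ℚ) N ℓ) := by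
  symm
  refine @Algebra.finrank_eq_of_equiv_equiv (FN N) (FN (N * ℓ)) _ _
    (algebraAlong (heckeAlphaBar (AlgebraicClosure ℚ) N ℓ)) (FN N) (FN (N * ℓ)) _ _
    (algebraAlong (heckeBetaBar (AlgebraicClosure ℚ) N ℓ)) (fricke N).toRingEquiv
    (fricke (N * ℓ)).toRingEquiv ?_
  refine RingHom.ext fun x => ?_
  exact (fricke_alpha N ℓ x).symm

/-- `[F̄_{N ℓ} : α F̄_N] = ℓ` for a prime `ℓ ∣ N`. -/
theorem finrankAlong_alpha_of_dvd (hℓ : ℓ.Prime) (hℓN : ℓ ∣ N) :
    finrankAlong (AlgebraicClosure ℚ) (heckeAlphaBar (AlgebraicClosure ℚ) N ℓ) = ℓ := by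
  letI : Algebra (FN N) (FN (N * ℓ)) := algebraAlong (heckeAlphaBar (AlgebraicClosure ℚ) N ℓ)
  letI : Algebra Kb⟮jF N⟯ (FN (N * ℓ)) :=
    ((heckeAlphaBar (AlgebraicClosure ℚ) N ℓ).toRingHom.comp
      (algebraMap Kb⟮jF N⟯ (FN N))).toAlgebra
  haveI : IsScalarTower Kb⟮jF N⟯ (FN N) (FN (N * ℓ)) :=
    IsScalarTower.of_algebraMap_eq fun _ => rfl
  have htower : Module.finrank Kb⟮jF N⟯ (FN N) * Module.finrank (FN N) (FN (N * ℓ))
      = Module.finrank Kb⟮jF N⟯ (FN (N * ℓ)) :=
    Module.finrank_mul_finrank Kb⟮jF N⟯ (FN N) (FN (N * ℓ))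
  have hkey : Module.finrank Kb⟮jF N⟯ (FN (N * ℓ))
      = Module.finrank Kb⟮jF (N * ℓ)⟯ (FN (N * ℓ)) := by
    refine Algebra.finrank_eq_of_equiv_equiv (alphaBase N ℓ) (RingEquiv.refl (FN (N * ℓ))) ?_
    exact RingHom.ext fun x => rfl
  have hψ : dedekindPsi (N * ℓ) = ℓ * dedekindPsi N := by
    rw [mul_comm N ℓ]
    exact Fermat.Agent.S20.CosetModel.dedekindPsi_prime_mul_of_dvd ℓ N hℓ (NeZero.ne N) hℓN
  rw [hkey, finrank_jF_eq, finrank_jF_eq, hψ] at htower
  have hpos : 0 < dedekindPsi N := AnDegree.dedekindPsi_pos N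
  have h2 : Module.finrank (FN N) (FN (N * ℓ)) = ℓ := by
    have h3 : dedekindPsi N * Module.finrank (FN N) (FN (N * ℓ)) = dedekindPsi N * ℓ := by
      rw [htower]; ring
    exact Nat.eq_of_mul_eq_mul_left hpos h3
  exact h2

/-- `[F̄_{N ℓ} : β F̄_N] = ℓ` for a prime `ℓ ∣ N`. -/
theorem finrankAlong_beta_of_dvd (hℓ : ℓ.Prime) (hℓN : ℓ ∣ N) :
    finrankAlong (AlgebraicClosure ℚ) (heckeBetaBar (AlgebraicClosure ℚ) N ℓ) = ℓ := by
  rw [finrankAlong_beta_eq_alpha, finrankAlong_alpha_of_dvd N ℓ hℓ hℓN]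

end Degeneracy

/-! ### Exports in the shape of block [KTR36] (T2) -/

/-- **(T2, α)** `[F̄_{M q} : α F̄_M] = q` for a prime `q ∣ M`. -/
theorem finrank_alpha_of_dvd (M q : ℕ) [NeZero M] [NeZero q] (hq : q.Prime) (hqM : q ∣ M) :
    finrankAlong (AlgebraicClosure ℚ) (heckeAlphaBar (AlgebraicClosure ℚ) M q) = q :=
  finrankAlong_alpha_of_dvd M q hq hqM

/-- **(T2, β)** `[F̄_{M q} : β F̄_M] = q` for a prime `q ∣ M` (no further hypothesis). -/
theorem finrank_beta_of_dvd (M q : ℕ) [NeZero M] [NeZero q] (hq : q.Prime) (hqM : q ∣ M) :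
    finrankAlong (AlgebraicClosure ℚ) (heckeBetaBar (AlgebraicClosure ℚ) M q) = q :=
  finrankAlong_beta_of_dvd M q hq hqM

/-- **(T2, α)**, `Module.finrank` form under `algebraAlong α`. -/
theorem finrank_alpha_of_dvd' (M q : ℕ) [NeZero M] [NeZero q] (hq : q.Prime) (hqM : q ∣ M) :
    letI : Algebra ↥(modularFunctionFieldBar M) ↥(modularFunctionFieldBar (M * q)) :=
      algebraAlong (heckeAlphaBar (AlgebraicClosure ℚ) M q)
    Module.finrank ↥(modularFunctionFieldBar M) ↥(modularFunctionFieldBar (M * q)) = q :=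
  finrankAlong_alpha_of_dvd M q hq hqM

/-- **(T2, β)**, `Module.finrank` form under `algebraAlong β`. -/
theorem finrank_beta_of_dvd' (M q : ℕ) [NeZero M] [NeZero q] (hq : q.Prime) (hqM : q ∣ M) :
    letI : Algebra ↥(modularFunctionFieldBar M) ↥(modularFunctionFieldBar (M * q)) :=
      algebraAlong (heckeBetaBar (AlgebraicClosure ℚ) M q)
    Module.finrank ↥(modularFunctionFieldBar M) ↥(modularFunctionFieldBar (M * q)) = q :=
  finrankAlong_beta_of_dvd M q hq hqM

end Fermat.Agent.S36.Fricke
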