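/-
S36 — Aux36F.lean (helper99).  Block [AUX] of the architect's plan (board #3063, ruling (R2)):
the auxiliary level is handled ONCE, at the level of FUNCTIONS.

    (∀ M, q ∤ M → AuxHyp q M → KummerPowStatement M q c)
      ⟹ ∀ M, q ∤ M → ∃ c' ≠ 0, KummerPowStatement M q c'

(`c' = c · [F̄_{M d q q} : F̄_{M q q}]`, `d = 4` for odd `q`, `d = 9` for `q = 2`.)

* `norm_comm_of_prime`  — abstract (Mathlib only): two field extensions `F2/F1`, `G2/G1` of the
                          same PRIME degree, compatible maps `ι1 : F1 → G1`, `ι2 : F2 → G2`, and one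
                          element `y` of `F2` with `ι2 y ∉ G1`: then `N_{G2/G1} (ι2 f) = ι1 (N_{F2/F1} f)`
                          (the power basis of `y` serves both extensions);
* `alphaNm_inclBar`, `betaNm_inclBar`
                        — the two norms along the degeneracy maps commute with the inclusion
                          `F̄_{N q} ⊆ F̄_{L q}` (`N ∣ L`, `q ∣ N`, `q ∤ L/N`).  Witnesses: for `β` the
                          function `j` (its coefficient at exponent `-1` is `1`, the image of `β`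
                          has exponents divisible by `q`); for `α` the top generator of level `N q`,
                          which the Fricke involution of level `L q` (helper1, `S36/Fricke`) sends
                          to the generator of index `L/N` while it sends the image of `α` into the
                          image of `β`;
* `normCond_inclBar`    — `ModelFPlan.NormCond` is inherited by the higher level;
* `FK_mono`, `dvd_ord_inclBar`, `descent_pow`
                        — rationality, divisibility of the orders, and the descent by the norm;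
* `kummerPow_aux`       — the block.
-/
import Mathlib
import Fermat.Agent.S36.Plan
import Fermat.Agent.S36.AuxPull
import Fermat.Agent.S36.Fricke

set_option autoImplicit false
set_option linter.style.haveILetI false

open ModularCurve AlgebraicCurve HahnSeries

namespace Fermat.Agent.S36.Aux36F

/-! ### Abstract part: norms in two extensions of the same prime degree -/

section Abstract

variable {F1 F2 G1 G2 : Type*} [Field F1] [Field F2] [Field G1] [Field G2]
  [Algebra F1 F2] [Algebra G1 G2]

/-- In an extension of prime degree, an element outside the base field has a minimal polynomial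
of full degree. -/
theorem natDegree_minpoly_of_prime {K L : Type*} [Field K] [Field L] [Algebra K L]
    {q : ℕ} (hq : q.Prime) (hKL : Module.finrank K L = q) {y : L}
    (hy : y ∉ (algebraMap K L).range) : (minpoly K y).natDegree = q := by
  have : FiniteDimensional K L := Module.finite_of_finrank_pos (by rw [hKL]; exact hq.pos)
  have hdvd : (minpoly K y).natDegree ∣ q :=
    hKL ▸ minpoly.degree_dvd (Algebra.IsIntegral.isIntegral y)
  rcases (Nat.dvd_prime hq).mp hdvd with h1 | h1
  · exact absurd (minpoly.natDegree_eq_one_iff.mp h1) hy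
  · exact h1

/-- **Norm compatibility in prime degree.**  `F2/F1` and `G2/G1` of the same prime degree `q`,
`ι2 ∘ algebraMap = algebraMap ∘ ι1`, and one `y : F2` whose image is not in `G1`: the norm of
`G2/G1` restricts to the norm of `F2/F1`. -/
theorem norm_comm_of_prime (ι1 : F1 →+* G1) (ι2 : F2 →+* G2)
    (hcomm : ∀ x : F1, ι2 (algebraMap F1 F2 x) = algebraMap G1 G2 (ι1 x))
    {q : ℕ} (hq : q.Prime) (hF : Module.finrank F1 F2 = q) (hG : Module.finrank G1 G2 = q)
    (y : F2) (hy : ι2 y ∉ (algebraMap G1 G2).range) (f : F2) :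
    Algebra.norm G1 (ι2 f) = ι1 (Algebra.norm F1 f) := by
  classical
  have : FiniteDimensional F1 F2 := Module.finite_of_finrank_pos (by rw [hF]; exact hq.pos)
  have : FiniteDimensional G1 G2 := Module.finite_of_finrank_pos (by rw [hG]; exact hq.pos)
  have hy' : y ∉ (algebraMap F1 F2).range := by
    rintro ⟨x, rfl⟩
    exact hy ⟨ι1 x, (hcomm x).symm⟩
  have hdegF : (minpoly F1 y).natDegree = q := natDegree_minpoly_of_prime hq hF hy'
  have hdegG : (minpoly G1 (ι2 y)).natDegree = q := natDegree_minpoly_of_prime hq hG hy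
  have liF : LinearIndependent F1 (fun i : Fin q => y ^ (i : ℕ)) := by
    have h := linearIndependent_pow (K := F1) y
    rw [hdegF] at h
    exact h
  have liG : LinearIndependent G1 (fun i : Fin q => ι2 y ^ (i : ℕ)) := by
    have h := linearIndependent_pow (K := G1) (ι2 y)
    rw [hdegG] at h
    exact h
  have : Nonempty (Fin q) := ⟨⟨0, hq.pos⟩⟩
  let bF : Module.Basis (Fin q) F1 F2 :=
    basisOfLinearIndependentOfCardEqFinrank liF (by rw [Fintype.card_fin, hF])
  let bG : Module.Basis (Fin q) G1 G2 :=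
    basisOfLinearIndependentOfCardEqFinrank liG (by rw [Fintype.card_fin, hG])
  have hbF : ∀ i, bF i = y ^ (i : ℕ) := fun i => by
    simp [bF]
  have hbG : ∀ i, bG i = ι2 y ^ (i : ℕ) := fun i => by
    simp [bG]
  have hrepr : ∀ (z : F2) (i : Fin q), bG.repr (ι2 z) i = ι1 (bF.repr z i) := by
    intro z i
    have hz : ι2 z = ∑ j, ι1 (bF.repr z j) • bG j := by
      conv_lhs => rw [← bF.sum_repr z]
      rw [map_sum]
      refine Finset.sum_congr rfl fun j _ => ?_
      rw [Algebra.smul_def, map_mul, hcomm, hbF, map_pow, ← hbG, ← Algebra.smul_def]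
    rw [hz, bG.repr_sum_self]
  rw [Algebra.norm_eq_matrix_det bG, Algebra.norm_eq_matrix_det bF, RingHom.map_det]
  congr 1
  ext i j
  have hmul : ι2 f * bG j = ι2 (f * bF j) := by rw [map_mul, hbF, hbG, map_pow]
  rw [RingHom.mapMatrix_apply, Matrix.map_apply, Algebra.leftMulMatrix_eq_repr_mul,
    Algebra.leftMulMatrix_eq_repr_mul, hmul, hrepr]

end Abstract

/-! ### The modular instance -/

section Modular

open Fermat.Agent.S18.Arith Fermat.Agent.S35 Fermat.Agent.S36.AuxPull Fermat.Agent.S36.Fricke
open Fermat.Agent.S24 (genFam coe_genFam jF coe_jF JFam)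

variable {N L : ℕ} [NeZero N] [NeZero L] (q : ℕ) [NeZero q]

/-- The inclusion of levels commutes with `α`. -/
theorem inclBar_alpha (h1 : N ∣ L) (h2 : N * q ∣ L * q) (x : modularFunctionFieldBar N) :
    inclBar h2 (heckeAlphaBar Qb N q x) = heckeAlphaBar Qb L q (inclBar h1 x) := by
  apply Subtype.ext
  rw [coe_inclBar, coe_heckeAlphaBar, coe_heckeAlphaBar, coe_inclBar]

/-- The inclusion of levels commutes with `β`. -/
theorem inclBar_beta (h1 : N ∣ L) (h2 : N * q ∣ L * q) (x : modularFunctionFieldBar N) :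
    inclBar h2 (heckeBetaBar Qb N q x) = heckeBetaBar Qb L q (inclBar h1 x) := by
  apply Subtype.ext
  rw [coe_inclBar, coe_heckeBetaBar, coe_heckeBetaBar, coe_inclBar]

/-- `j` (of level `N q`) is not in the image of `β` at level `L q`. -/
theorem beta_ne_jF (hq : q.Prime) (h2 : N * q ∣ L * q) (g : modularFunctionFieldBar L) :
    heckeBetaBar Qb L q g ≠ inclBar h2 (jF (N * q)) := by
  intro h
  have h1 := congrArg
    (fun z : modularFunctionFieldBar (L * q) => (z : LaurentSeries Qb).coeff (-1)) h
  simp only [coe_heckeBetaBar, coe_inclBar, coe_jF, coeffEmb_coeff, coeff_jq_neg_one, map_one]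
    at h1
  rw [qExpand_coeff_of_not_dvd] at h1
  · exact zero_ne_one h1
  · intro hd
    have h3 : (q : ℤ) ∣ 1 := (dvd_neg).mp hd
    have h4 : q ∣ 1 := by exact_mod_cast h3
    exact hq.one_lt.ne' (Nat.dvd_one.mp h4)

/-- The top divisor of `N`. -/
def topDiv (N : ℕ) [NeZero N] : ↥N.divisors := ⟨N, Nat.mem_divisors_self N (NeZero.ne N)⟩

/-- The top generator `j(q^{N q})` of level `N q` is not in the image of `α` at level `L q`
(`q ∤ L / N`). -/
theorem alpha_ne_top (h2 : N * q ∣ L * q) (hcop : ¬ q ∣ L * q / (N * q))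
    (g : modularFunctionFieldBar L) :
    heckeAlphaBar Qb L q g ≠ inclBar h2 (genFam (N * q) (topDiv (N * q))) := by
  intro h
  set d0 : ↥(L * q).divisors := ⟨N * q, Nat.mem_divisors.mpr ⟨h2, NeZero.ne (L * q)⟩⟩ with hd0
  have hy : inclBar h2 (genFam (N * q) (topDiv (N * q))) = genFam (L * q) d0 := by
    apply Subtype.ext
    rw [coe_inclBar]
    rfl
  have h3 := congrArg (fricke (L * q)) h
  rw [fricke_alpha, hy, fricke_genFam] at h3
  have h4 := congrArg (fun z : modularFunctionFieldBar (L * q) =>
    (z : LaurentSeries Qb).coeff (-(((frickeDiv (L * q) d0 : ↥(L * q).divisors) : ℕ) : ℤ))) h3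
  simp only [coe_heckeBetaBar] at h4
  rw [qExpand_coeff_of_not_dvd, coe_genFam] at h4
  · have h5 : (JFam (L * q) (frickeDiv (L * q) d0)).coeff
        (-(((frickeDiv (L * q) d0 : ↥(L * q).divisors) : ℕ) : ℤ)) = 1 := by
      show (coeffEmb Qb (qExpand ℚ ((frickeDiv (L * q) d0 : ↥(L * q).divisors) : ℕ) jq)).coeff
        _ = 1
      rw [coeffEmb_coeff, show (-(((frickeDiv (L * q) d0 : ↥(L * q).divisors) : ℕ) : ℤ))
        = (((frickeDiv (L * q) d0 : ↥(L * q).divisors) : ℕ) : ℤ) * (-1) by ring,
        qExpand_coeff_mul, coeff_jq_neg_one, map_one]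
    rw [h5] at h4
    exact zero_ne_one h4
  · rw [dvd_neg, Int.natCast_dvd_natCast, coe_frickeDiv]
    exact hcop

/-- **`N_α` commutes with the inclusion of levels** (`q` prime, `q ∣ N ∣ L`, `q ∤ L / N`). -/
theorem alphaNm_inclBar (hq : q.Prime) (hqN : q ∣ N) (hqL : q ∣ L) (h1 : N ∣ L)
    (h2 : N * q ∣ L * q) (hcop : ¬ q ∣ L * q / (N * q)) (f : modularFunctionFieldBar (N * q)) :
    ModelFPlan.alphaNm L q (inclBar h2 f) = inclBar h1 (ModelFPlan.alphaNm N q f) := by
  letI : Algebra (modularFunctionFieldBar N) (modularFunctionFieldBar (N * q)) :=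
    algebraAlong (heckeAlphaBar Qb N q)
  letI : Algebra (modularFunctionFieldBar L) (modularFunctionFieldBar (L * q)) :=
    algebraAlong (heckeAlphaBar Qb L q)
  exact norm_comm_of_prime (inclBar h1 : modularFunctionFieldBar N →+* modularFunctionFieldBar L)
    (inclBar h2 : modularFunctionFieldBar (N * q) →+* modularFunctionFieldBar (L * q))
    (fun x => inclBar_alpha q h1 h2 x) hq
    (finrank_alpha_of_dvd' N q hq hqN) (finrank_alpha_of_dvd' L q hq hqL)
    (genFam (N * q) (topDiv (N * q)))
    (by rintro ⟨g, hg⟩; exact alpha_ne_top q h2 hcop g hg) f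

/-- **`N_β` commutes with the inclusion of levels** (`q` prime, `q ∣ N ∣ L`). -/
theorem betaNm_inclBar (hq : q.Prime) (hqN : q ∣ N) (hqL : q ∣ L) (h1 : N ∣ L)
    (h2 : N * q ∣ L * q) (f : modularFunctionFieldBar (N * q)) :
    ModelFPlan.betaNm L q (inclBar h2 f) = inclBar h1 (ModelFPlan.betaNm N q f) := by
  letI : Algebra (modularFunctionFieldBar N) (modularFunctionFieldBar (N * q)) :=
    algebraAlong (heckeBetaBar Qb N q)
  letI : Algebra (modularFunctionFieldBar L) (modularFunctionFieldBar (L * q)) :=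
    algebraAlong (heckeBetaBar Qb L q)
  exact norm_comm_of_prime (inclBar h1 : modularFunctionFieldBar N →+* modularFunctionFieldBar L)
    (inclBar h2 : modularFunctionFieldBar (N * q) →+* modularFunctionFieldBar (L * q))
    (fun x => inclBar_beta q h1 h2 x) hq
    (finrank_beta_of_dvd' N q hq hqN) (finrank_beta_of_dvd' L q hq hqL)
    (jF (N * q))
    (by rintro ⟨g, hg⟩; exact beta_ne_jF q hq h2 g hg) f

/-- **The norm conditions are inherited by the higher level.** -/
theorem normCond_inclBar (hq : q.Prime) (hqN : q ∣ N) (hqL : q ∣ L) (h1 : N ∣ L)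
    (h2 : N * q ∣ L * q) (hcop : ¬ q ∣ L * q / (N * q)) (m : ℕ)
    (f : modularFunctionFieldBar (N * q)) (hf : ModelFPlan.NormCond N q m f) :
    ModelFPlan.NormCond L q m (inclBar h2 f) := by
  obtain ⟨⟨h, c, hh, hc, e⟩, ⟨h', c', hh', hc', e'⟩⟩ := hf
  refine ⟨⟨inclBar h1 h, c, ?_, hc, ?_⟩, ⟨inclBar h1 h', c', ?_, hc', ?_⟩⟩
  · exact (map_ne_zero _).mpr hh
  · rw [alphaNm_inclBar q hq hqN hqL h1 h2 hcop, e, map_mul, map_pow, AlgHom.commutes]
  · exact (map_ne_zero _).mpr hh'
  · rw [betaNm_inclBar q hq hqN hqL h1 h2, e', map_mul, map_pow, AlgHom.commutes]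

omit [NeZero q] in
/-- `F_K` is monotone in the level. -/
theorem FK_mono (h : N ∣ L) (K : IntermediateField ℚ Qb) : FK N K ≤ FK L K := by
  unfold FK
  apply Subfield.closure_mono
  apply Set.union_subset_union_right
  rintro _ ⟨x, rfl⟩
  exact ⟨⟨x.1, full_degeneracy_le h x.2⟩, rfl⟩

omit [NeZero q] in
/-- Divisibility of all orders is inherited by the higher level. -/
theorem dvd_ord_inclBar (h : N ∣ L) (m : ℕ) (f : modularFunctionFieldBar N)
    (hf : ∀ P : Place Qb (modularFunctionFieldBar N), (m : ℤ) ∣ P.ord f)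
    (P : Place Qb (modularFunctionFieldBar L)) : (m : ℤ) ∣ P.ord (inclBar h f) := by
  rw [Place.ord_restrictAlong (inclBar h) (inclBar_isIntegral h)]
  exact Dvd.dvd.mul_left (hf _) _

omit [NeZero q] in
/-- **Descent by the norm**: `f ^ c = a · h ^ m` at level `L` gives
`f ^ (c · deg) = a' · h' ^ m` at level `N`. -/
theorem descent_pow (h : N ∣ L) (f : modularFunctionFieldBar N) (c m : ℕ)
    (x : modularFunctionFieldBar L) (a : Qb) (hx : x ≠ 0) (ha : a ≠ 0)
    (e : inclBar h f ^ c = algebraMap Qb (modularFunctionFieldBar L) a * x ^ m) :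
    ∃ (h' : modularFunctionFieldBar N) (a' : Qb), h' ≠ 0 ∧ a' ≠ 0 ∧
      f ^ (c * auxDeg h) = algebraMap Qb (modularFunctionFieldBar N) a' * h' ^ m := by
  letI : Algebra (modularFunctionFieldBar N) (modularFunctionFieldBar L) :=
    algebraAlong (inclBar h)
  haveI : Module.Finite (modularFunctionFieldBar N) (modularFunctionFieldBar L) :=
    inclBar_finiteAlong h
  haveI : Module.Free (modularFunctionFieldBar N) (modularFunctionFieldBar L) :=
    Module.Free.of_divisionRing _ _
  have e1 := congrArg (Algebra.norm (modularFunctionFieldBar N)) e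
  rw [map_pow, map_mul, map_pow] at e1
  have h1 : Algebra.norm (modularFunctionFieldBar N) (inclBar h f) = f ^ auxDeg h :=
    Algebra.norm_algebraMap f
  have h2 : Algebra.norm (modularFunctionFieldBar N)
      (algebraMap Qb (modularFunctionFieldBar L) a)
        = algebraMap Qb (modularFunctionFieldBar N) (a ^ auxDeg h) := by
    have h3 : algebraMap Qb (modularFunctionFieldBar L) a
        = algebraMap (modularFunctionFieldBar N) (modularFunctionFieldBar L)
            (algebraMap Qb (modularFunctionFieldBar N) a) := ((inclBar h).commutes a).symm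
    rw [h3, Algebra.norm_algebraMap, map_pow]
    rfl
  refine ⟨Algebra.norm (modularFunctionFieldBar N) x, a ^ auxDeg h, ?_, pow_ne_zero _ ha, ?_⟩
  · exact Algebra.norm_ne_zero_iff.mpr hx
  · rw [mul_comm, pow_mul, ← h1, e1, h2]

end Modular

/-! ### The block [AUX] -/

section Block

open Fermat.Agent.S18.Arith Fermat.Agent.S35 Fermat.Agent.S36.AuxPull

/-- **[AUX]** (plan #3063, (R2)): the function-field core at the auxiliary levels (`AuxHyp`)
gives the function-field core at every level prime to `q`, with the constant multiplied by the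
degree of the auxiliary covering. -/
theorem kummerPow_aux (q c : ℕ) [NeZero q] [Fact q.Prime] (hc : c ≠ 0)
    (H : ∀ (M : ℕ) [NeZero M], ¬ q ∣ M → Plan.AuxHyp q M → Plan.KummerPowStatement M q c) :
    ∀ (M : ℕ) [NeZero M], ¬ q ∣ M → ∃ c' : ℕ, c' ≠ 0 ∧ Plan.KummerPowStatement M q c' := by
  intro M _ hqM
  have hq : q.Prime := Fact.out
  obtain ⟨d, hd0, hqd, haux⟩ : ∃ d : ℕ, d ≠ 0 ∧ ¬ q ∣ d ∧ Plan.AuxHyp q (M * d) := by
    by_cases h2 : q = 2
    · refine ⟨9, by norm_num, ?_, ?_⟩
      · rw [h2]; norm_num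
      · exact ⟨fun h => absurd h2 h, fun _ => dvd_mul_left 9 M⟩
    · refine ⟨4, by norm_num, ?_, ?_⟩
      · intro h4
        have h5 : q ∣ 2 := by
          have h6 : q ∣ 2 ^ 2 := by simpa using h4
          exact hq.dvd_of_dvd_pow h6
        exact h2 ((Nat.prime_dvd_prime_iff_eq hq Nat.prime_two).mp h5)
      · exact ⟨fun _ => dvd_mul_left 4 M, fun h => absurd h h2⟩
  haveI : NeZero d := ⟨hd0⟩
  have hqMd : ¬ q ∣ M * d := fun h => (hq.dvd_mul.mp h).elim hqM hqd
  have hK := H (M * d) hqMd haux
  have h1 : M * q ∣ M * d * q := ⟨d, by ring⟩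
  have h2 : M * q * q ∣ M * d * q * q := ⟨d, by ring⟩
  have hcop : ¬ q ∣ M * d * q * q / (M * q * q) := by
    have h3 : M * d * q * q / (M * q * q) = d := by
      apply Nat.div_eq_of_eq_mul_right (Nat.pos_of_ne_zero (NeZero.ne _))
      ring
    rw [h3]
    exact hqd
  refine ⟨c * auxDeg h2, mul_ne_zero hc (auxDeg_pos h2).ne', ?_⟩
  intro m hm hqm A hA K hKb f hf hfK hord hnorm
  have hf' : inclBar h2 f ≠ 0 := (map_ne_zero _).mpr hf
  have hfK' : ((inclBar h2 f : modularFunctionFieldBar (M * d * q * q)) : LaurentSeries Qb)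
      ∈ FK (M * d * q * q) K := by
    rw [coe_inclBar]
    exact FK_mono h2 K hfK
  have hnorm' : ModelFPlan.NormCond (M * d * q) q m (inclBar h2 f) :=
    normCond_inclBar q hq (dvd_mul_left q M) (dvd_mul_left q (M * d)) h1 h2 hcop m f hnorm
  obtain ⟨h, a, hh, ha, e⟩ := hK m hm hqm A hA K hKb (inclBar h2 f) hf' hfK'
    (dvd_ord_inclBar h2 m f hord) hnorm'
  exact descent_pow h2 f c m h a hh ha e

end Block

end Fermat.Agent.S36.Aux36F
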