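/-
S36 — Deg36B.lean (helper115): package [KTR36], leaf (T2), independent B-copy.

**Degrees of the two degeneracy maps when `q ∣ M`** (level `M * q`, so `q² ∣` level):

* `finrankAlong_heckeAlphaBar_of_dvd` : `[F̄_{Mq} : α F̄_M] = q`;
* `finrankAlong_heckeBetaBar_of_dvd`  : `[F̄_{Mq} : β F̄_M] = q`

for a prime `q ∣ M`; and the uniform statements behind them, valid for EVERY `M`:

* `psi_mul_finrankAlong_alpha` : `ψ(M) · [F̄_{Mq} : α F̄_M] = ψ(M q)`   (any `q ≠ 0`);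
* `psi_mul_finrankAlong_beta`  : `ψ(M) · [F̄_{Mq} : β F̄_M] = ψ(M q)`   (`q` prime).

Route.  The generic tower identity `[F : K(x)] · [F' : φ F] = [F' : K(φ x)]` for a `K`-algebra map
`φ : F → F'` of fields, applied to

* `α` and `x = j`                      : `ψ(M) · a = [F̄_{Mq} : ℚ̄(j)] = ψ(M q)`;
* `β` and `x = j`                      : `ψ(M) · b = [F̄_{Mq} : ℚ̄(j_q)]`,  `j_q = j(Q^q)`;
* the inclusion `ι : F̄_{1·q} → F̄_{Mq}` and `x = j`   : `ψ(q) · c = ψ(M q)`;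
* the inclusion `ι` and `x = j_q`       : `[F̄_q : ℚ̄(j_q)] · c = [F̄_{Mq} : ℚ̄(j_q)]`;
* `β₁ : F̄_1 → F̄_{1·q}` and `x = j`    : `ψ(1) · (q + 1) = [F̄_q : ℚ̄(j_q)]`, where
  `[F̄_{1·q} : β₁ F̄_1] = q + 1` is the landed level-`q` Atkin–Lehner degree
  (`S37.W.finrankAlong_heckeBetaBar 1 q`).

Hence `[F̄_{Mq} : ℚ̄(j_q)] = (q + 1) · c = ψ(M q)` and `ψ(M) · b = ψ(M q)`.  No Fricke involution at
level `M q`, no coset representatives, no characteristic polynomials.
-/
import Mathlib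
import Fermat.Agent.S37.W.Degree

set_option autoImplicit false

namespace Fermat.Agent.S36.Deg36B

open ModularCurve AlgebraicCurve IntermediateField
open Fermat.Agent.S24 Fermat.Agent.S37.W

/-! ### The generic tower identity -/

/-- `[F : K(x)] · [F' : φ F] = [F' : K(φ x)]` for a `K`-algebra map `φ : F → F'` of fields. -/
theorem finrank_adjoin_mul_finrankAlong {K F F' : Type*} [Field K] [Field F] [Field F']
    [Algebra K F] [Algebra K F'] (φ : F →ₐ[K] F') (x : F) :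
    Module.finrank K⟮x⟯ F * finrankAlong K φ = Module.finrank K⟮φ x⟯ F' := by
  letI : Algebra F F' := algebraAlong φ
  letI : Algebra K⟮x⟯ F' := (φ.toRingHom.comp (algebraMap K⟮x⟯ F)).toAlgebra
  have : IsScalarTower K⟮x⟯ F F' := IsScalarTower.of_algebraMap_eq fun _ => rfl
  have htower : Module.finrank K⟮x⟯ F * Module.finrank F F' = Module.finrank K⟮x⟯ F' :=
    Module.finrank_mul_finrank K⟮x⟯ F F'
  have hmap : (K⟮x⟯).map φ = K⟮φ x⟯ := by
    rw [IntermediateField.adjoin_map, Set.image_singleton]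
  have hkey : Module.finrank K⟮x⟯ F' = Module.finrank K⟮φ x⟯ F' := by
    refine Algebra.finrank_eq_of_equiv_equiv
      (((IntermediateField.equivMap (K⟮x⟯) φ).trans
        (IntermediateField.equivOfEq hmap)).toRingEquiv) (RingEquiv.refl F') ?_
    exact RingHom.ext fun _ => rfl
  rw [← hkey, ← htower]
  rfl

/-! ### Base change is monotone; the inclusion `F̄_{1·q} → F̄_{Mq}` -/

theorem laurentBaseChange_mono {F₀ F₁ : IntermediateField ℚ (LaurentSeries ℚ)} (h : F₀ ≤ F₁) :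
    laurentBaseChange Kb F₀ ≤ laurentBaseChange Kb F₁ := by
  rw [laurentBaseChange, IntermediateField.adjoin_le_iff]
  rintro _ ⟨y, hy, rfl⟩
  exact coeffEmb_mem_laurentBaseChange Kb (h hy)

variable (M q : ℕ) [NeZero M] [NeZero q]

theorem level_le : modularFunctionFieldBar (1 * q) ≤ modularFunctionFieldBar (M * q) :=
  laurentBaseChange_mono (full_degeneracy_le (Nat.mul_dvd_mul_right (one_dvd M) q))

/-- The inclusion `ι : F̄_{1·q} → F̄_{Mq}`. -/
noncomputable def iotaQ : FN (1 * q) →ₐ[Kb] FN (M * q) :=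
  IntermediateField.inclusion (level_le M q)

theorem coe_iotaQ (x : FN (1 * q)) :
    ((iotaQ M q x : FN (M * q)) : LaurentSeries Kb) = (x : LaurentSeries Kb) :=
  IntermediateField.coe_inclusion _ x

theorem iotaQ_jF : iotaQ M q (jF (1 * q)) = jF (M * q) := by
  apply Subtype.ext
  rw [coe_iotaQ]
  rfl

theorem iotaQ_beta_jF :
    iotaQ M q (heckeBetaBar Kb 1 q (jF 1)) = heckeBetaBar Kb M q (jF M) := by
  apply Subtype.ext
  rw [coe_iotaQ, coe_heckeBetaBar, coe_heckeBetaBar]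
  rfl

/-! ### The `α`-degree -/

/-- `ψ(M) · [F̄_{Mq} : α F̄_M] = ψ(M q)`, for all `M`, `q ≠ 0`. -/
theorem psi_mul_finrankAlong_alpha :
    dedekindPsi M * finrankAlong Kb (heckeAlphaBar Kb M q) = dedekindPsi (M * q) := by
  have h := finrank_adjoin_mul_finrankAlong (heckeAlphaBar Kb M q) (jF M)
  rw [heckeAlphaBar_jF, finrank_jF_eq, finrank_jF_eq] at h
  exact h

/-! ### The `β`-degree -/

/-- `[F̄_{Mq} : ℚ̄(j_q)] = ψ(M q)` for a prime `q`, where `j_q = β j = j(Q^q)`. -/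
theorem finrank_adjoin_beta_jF (hq : q.Prime) :
    Module.finrank Kb⟮heckeBetaBar Kb M q (jF M)⟯ (FN (M * q)) = dedekindPsi (M * q) := by
  -- level `q`
  have h1 : ¬ q ∣ 1 := hq.one_lt.ne' ∘ Nat.dvd_one.mp
  have hβ1 : finrankAlong Kb (heckeBetaBar Kb 1 q) = q + 1 :=
    finrankAlong_heckeBetaBar 1 q hq h1
  have hα1 : finrankAlong Kb (heckeAlphaBar Kb 1 q) = q + 1 :=
    finrankAlong_heckeAlphaBar 1 q hq h1
  have e5 := finrank_adjoin_mul_finrankAlong (heckeBetaBar Kb 1 q) (jF 1)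
  have e5' := finrank_adjoin_mul_finrankAlong (heckeAlphaBar Kb 1 q) (jF 1)
  rw [hβ1] at e5
  rw [hα1, heckeAlphaBar_jF] at e5'
  -- `[F̄_q : ℚ̄(j_q)] = [F̄_q : ℚ̄(j)]`
  have e6 : Module.finrank Kb⟮heckeBetaBar Kb 1 q (jF 1)⟯ (FN (1 * q))
      = Module.finrank Kb⟮jF (1 * q)⟯ (FN (1 * q)) := by rw [← e5, ← e5']
  -- the two towers through `F̄_q`
  have e3 := finrank_adjoin_mul_finrankAlong (iotaQ M q) (jF (1 * q))
  have e4 := finrank_adjoin_mul_finrankAlong (iotaQ M q) (heckeBetaBar Kb 1 q (jF 1))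
  rw [iotaQ_jF] at e3
  rw [iotaQ_beta_jF, e6] at e4
  rw [← e4, e3, finrank_jF_eq]

/-- `ψ(M) · [F̄_{Mq} : β F̄_M] = ψ(M q)`, for all `M` and every prime `q`. -/
theorem psi_mul_finrankAlong_beta (hq : q.Prime) :
    dedekindPsi M * finrankAlong Kb (heckeBetaBar Kb M q) = dedekindPsi (M * q) := by
  have h := finrank_adjoin_mul_finrankAlong (heckeBetaBar Kb M q) (jF M)
  rw [finrank_jF_eq, finrank_adjoin_beta_jF M q hq] at h
  exact h

/-! ### The case `q ∣ M` -/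

omit [NeZero q] in
theorem dedekindPsi_mul_of_dvd (hq : q.Prime) (hqM : q ∣ M) :
    dedekindPsi (M * q) = dedekindPsi M * q := by
  rw [mul_comm M q, Fermat.Agent.S20.CosetModel.dedekindPsi_prime_mul_of_dvd q M hq
    (NeZero.ne M) hqM, mul_comm]

/-- **(T2, α)** `[F̄_{Mq} : α F̄_M] = q` for a prime `q ∣ M`. -/
theorem finrankAlong_heckeAlphaBar_of_dvd (hq : q.Prime) (hqM : q ∣ M) :
    finrankAlong (AlgebraicClosure ℚ) (heckeAlphaBar (AlgebraicClosure ℚ) M q) = q := by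
  have h := psi_mul_finrankAlong_alpha M q
  rw [dedekindPsi_mul_of_dvd M q hq hqM] at h
  exact Nat.eq_of_mul_eq_mul_left (AnDegree.dedekindPsi_pos M) h

/-- **(T2, β)** `[F̄_{Mq} : β F̄_M] = q` for a prime `q ∣ M`. -/
theorem finrankAlong_heckeBetaBar_of_dvd (hq : q.Prime) (hqM : q ∣ M) :
    finrankAlong (AlgebraicClosure ℚ) (heckeBetaBar (AlgebraicClosure ℚ) M q) = q := by
  have h := psi_mul_finrankAlong_beta M q hq
  rw [dedekindPsi_mul_of_dvd M q hq hqM] at h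
  exact Nat.eq_of_mul_eq_mul_left (AnDegree.dedekindPsi_pos M) h

end Fermat.Agent.S36.Deg36B
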