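/-
S36 — NormRot.lean (helper62): block [NORM36], the norm formulas of the S36 blueprint which only
involve ROTATIONS, for a prime `ℓ` DIVIDING the lower level `N` (so `ℓ² ∣ N ℓ`).

`α = heckeAlphaBar`, `β = heckeBetaBar : F̄_N → F̄_{Nℓ}`, `N_α`, `N_β` the norms of `F̄_{Nℓ}` over
`F̄_N` for the algebra structures `algebraAlong α`, `algebraAlong β`.  When `ℓ ∣ N` both extensions
have degree `ℓ` (no `∞`-coset), and all conjugates along `β` are rotations `Q ↦ ζ^i Q`: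

* `finrankAlong_heckeAlphaBar_of_dvd` : `[F̄_{Nℓ} : α F̄_N] = ℓ`  (tower over `ℚ̄(j)`, `ψ(Nℓ) = ℓ ψ(N)`);
* `qExpand_norm_beta_of_finrank`      : if `[F̄_{Nℓ} : β F̄_N] = ℓ` then
                                         `(N_β z)(Q^ℓ) = ∏_{i<ℓ} z(ζ^i Q)`;

for ANY pair of automorphisms `w₁` of `F̄_N`, `w₂` of `F̄_{Nℓ}` with `w₂ ∘ α = β ∘ w₁` (the
Atkin–Lehner pair `(w_q, w_{q²})` of `S36/WQ2.lean`: `wBar2_alpha`):

* `finrankAlong_heckeBetaBar_of_pair` : `[F̄_{Nℓ} : β F̄_N] = ℓ`;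
* `norm_alpha_of_pair`                : `w₁ (N_α z) = N_β (w₂ z)`;
* `norm_beta_of_pair`                 : `w₁ (N_β z) = N_α (w₂ z)`  (from `w₂ ∘ β = α ∘ w₁`);
* `qExpand_norm_beta_of_pair`, `qExpand_norm_alpha_of_pair` : the product formulas;

and the reductions modulo a valuation ring `A` of `ℚ̄` over `ℓ`, in the relational form `GRel`
of S18 (`φ` the coefficientwise `ℓ`-Frobenius of the residue field):

* `gRel_norm_beta_of_finrank` / `gRel_norm_beta_of_pair` : `z ↦ g` ⟹ `N_β z ↦ φ(g)`;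
* `gRel_norm_alpha_of_pair`                              : `w₂ z ↦ g` ⟹ `w₁ (N_α z) ↦ φ(g)`.
-/
import Mathlib
import Fermat.Agent.S37.W.Norm
import Fermat.Agent.S37.W.Degree
import Fermat.Agent.S35.NormRed

set_option autoImplicit false

noncomputable section

namespace Fermat.Agent.S36.NormRot

open ModularCurve AlgebraicCurve HahnSeries IntermediateField
open Fermat.Agent.S18 Fermat.Agent.S18.Arith Fermat.Agent.S18.ModelPlan Fermat.Agent.S24
open Fermat.Agent.S37.W Fermat.Agent.S34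

/-! ### Degrees -/

section Degree

variable (N ℓ : ℕ) [NeZero N] [NeZero ℓ]

/-- `[F̄_{Nℓ} : α F̄_N] = ℓ` for a prime `ℓ ∣ N`. -/
theorem finrankAlong_heckeAlphaBar_of_dvd (hℓ : ℓ.Prime) (hℓN : ℓ ∣ N) :
    finrankAlong (AlgebraicClosure ℚ) (heckeAlphaBar (AlgebraicClosure ℚ) N ℓ) = ℓ := by
  letI : Algebra (FN N) (FN (N * ℓ)) := algebraAlong (heckeAlphaBar (AlgebraicClosure ℚ) N ℓ)
  letI : Algebra Kb⟮jF N⟯ (FN (N * ℓ)) :=
    ((heckeAlphaBar (AlgebraicClosure ℚ) N ℓ).toRingHom.comp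
      (algebraMap Kb⟮jF N⟯ (FN N))).toAlgebra
  haveI : IsScalarTower Kb⟮jF N⟯ (FN N) (FN (N * ℓ)) :=
    IsScalarTower.of_algebraMap_eq fun _ => rfl
  have htower : Module.finrank Kb⟮jF N⟯ (FN N) * Module.finrank (FN N) (FN (N * ℓ))
      = Module.finrank Kb⟮jF N⟯ (FN (N * ℓ)) :=
    Module.finrank_mul_finrank Kb⟮jF N⟯ (FN N) (FN (N * ℓ))
  have hkey : Module.finrank Kb⟮jF N⟯ (FN (N * ℓ))
      = Module.finrank Kb⟮jF (N * ℓ)⟯ (FN (N * ℓ)) := by
    refine Algebra.finrank_eq_of_equiv_equiv (alphaBase N ℓ) (RingEquiv.refl (FN (N * ℓ))) ?_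
    exact RingHom.ext fun x => rfl
  have hψ : dedekindPsi (N * ℓ) = ℓ * dedekindPsi N := by
    rw [mul_comm N ℓ]
    exact Fermat.Agent.S20.CosetModel.dedekindPsi_prime_mul_of_dvd ℓ N hℓ (NeZero.ne N) hℓN
  rw [hkey, finrank_jF_eq, finrank_jF_eq, hψ] at htower
  have hpos : 0 < dedekindPsi N := AnDegree.dedekindPsi_pos N
  have h2 : Module.finrank (FN N) (FN (N * ℓ)) = ℓ := by
    have h3 : dedekindPsi N * Module.finrank (FN N) (FN (N * ℓ)) = dedekindPsi N * ℓ := by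
      rw [htower]; ring
    exact Nat.eq_of_mul_eq_mul_left hpos h3
  exact h2

end Degree

/-! ### The norm along `β`: all conjugates are rotations -/

section Beta

variable (N ℓ : ℕ) [NeZero N] [NeZero ℓ]

/-- **Norm formula along `β`, `ℓ ∣ N`.**  If `[F̄_{Nℓ} : β F̄_N] = ℓ` then, for every
`z ∈ F̄_{Nℓ}`: `(N_β z)(Q^ℓ) = ∏_{i<ℓ} z(ζ^i Q)`. -/
theorem qExpand_norm_beta_of_finrank (hℓ : ℓ.Prime)
    (hdeg : finrankAlong Qb (heckeBetaBar Qb N ℓ) = ℓ)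
    (ζ : Qb) (hζ : IsPrimitiveRoot ζ ℓ) (hz : ∀ i : ℕ, ζ ^ i ≠ 0)
    (z : ↥(modularFunctionFieldBar (N * ℓ))) :
    letI := algebraAlong (heckeBetaBar Qb N ℓ)
    qExpand Qb ℓ
        ((Algebra.norm ↥(modularFunctionFieldBar N) z : ↥(modularFunctionFieldBar N)) :
          LaurentSeries Qb)
      = ∏ i ∈ Finset.range ℓ, rotHom (ζ ^ i) (hz i) (z : LaurentSeries Qb) := by
  letI := algebraAlong (heckeBetaBar Qb N ℓ)
  have hdeg' : Module.finrank ↥(modularFunctionFieldBar N) ↥(modularFunctionFieldBar (N * ℓ))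
      = ℓ := hdeg
  haveI : FiniteDimensional ↥(modularFunctionFieldBar N) ↥(modularFunctionFieldBar (N * ℓ)) :=
    Module.finite_of_finrank_pos (by rw [hdeg']; exact hℓ.pos)
  -- the base embedding and the family
  let ι₀ : ↥(modularFunctionFieldBar N) →+* LaurentSeries Qb :=
    (qExpand Qb ℓ).comp (modularFunctionFieldBar N).val.toRingHom
  let f : Fin ℓ → (↥(modularFunctionFieldBar (N * ℓ)) →+* LaurentSeries Qb) := fun i =>
    ((rotHom (ζ ^ (i : ℕ)) (hz i)).toRingHom).comp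
      (modularFunctionFieldBar (N * ℓ)).val.toRingHom
  have hf : ∀ i x, f i (algebraMap ↥(modularFunctionFieldBar N)
      ↥(modularFunctionFieldBar (N * ℓ)) x) = ι₀ x := by
    intro i x
    have hx : algebraMap ↥(modularFunctionFieldBar N) ↥(modularFunctionFieldBar (N * ℓ)) x
        = heckeBetaBar Qb N ℓ x := rfl
    rw [hx]
    show rotHom (ζ ^ (i : ℕ)) (hz i)
      ((heckeBetaBar Qb N ℓ x : ↥(modularFunctionFieldBar (N * ℓ))) : LaurentSeries Qb)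
        = qExpand Qb ℓ (x : LaurentSeries Qb)
    rw [coe_heckeBetaBar]
    exact rotHom_qExpand ℓ _ _ (by rw [← pow_mul, mul_comm, pow_mul, hζ.pow_eq_one, one_pow]) _
  -- distinctness, tested on the `Q⁻¹`-coefficient of `j`
  have hsome : ∀ i : Fin ℓ, (f i (heckeAlphaBar Qb N ℓ (jF N))).coeff (-1 : ℤ)
      = (ζ ^ (i : ℕ)) ^ (-1 : ℤ) := by
    intro i
    show (rotHom (ζ ^ (i : ℕ)) (hz i)
      ((heckeAlphaBar Qb N ℓ (jF N) : ↥(modularFunctionFieldBar (N * ℓ))) :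
        LaurentSeries Qb)).coeff (-1 : ℤ) = _
    rw [rotHom_coeff, coe_heckeAlphaBar, coe_jF, coeff_coeffEmb_jq_neg_one, mul_one]
  have hinj : Function.Injective f := by
    intro i i' h
    have hc := congrArg (fun g : ↥(modularFunctionFieldBar (N * ℓ)) →+* LaurentSeries Qb =>
      (g (heckeAlphaBar Qb N ℓ (jF N))).coeff (-1 : ℤ)) h
    simp only [hsome] at hc
    have h2 : ζ ^ (i : ℕ) = ζ ^ (i' : ℕ) := by
      have := congrArg (fun t : Qb => t⁻¹) hc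
      simpa [zpow_neg] using this
    exact Fin.ext (hζ.pow_inj i.2 i'.2 h2)
  have hcard : Fintype.card (Fin ℓ)
      = Module.finrank ↥(modularFunctionFieldBar N) ↥(modularFunctionFieldBar (N * ℓ)) := by
    rw [hdeg', Fintype.card_fin]
  have key := norm_eq_prod_of_ringHoms ι₀ f hf hinj hcard z
  have hrange : ∏ i : Fin ℓ, f i z
      = ∏ i ∈ Finset.range ℓ, rotHom (ζ ^ i) (hz i) (z : LaurentSeries Qb) :=
    Fin.prod_univ_eq_prod_range
      (fun i => rotHom (ζ ^ i) (hz i) (z : LaurentSeries Qb)) ℓ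
  rw [hrange] at key
  exact key

end Beta

/-! ### Transport along an Atkin–Lehner pair -/

section Pair

variable (N ℓ : ℕ) [NeZero N] [NeZero ℓ]
variable (w₁ : ↥(modularFunctionFieldBar N) ≃ₐ[Qb] ↥(modularFunctionFieldBar N))
variable (w₂ : ↥(modularFunctionFieldBar (N * ℓ)) ≃ₐ[Qb] ↥(modularFunctionFieldBar (N * ℓ)))

/-- `[F̄_{Nℓ} : β F̄_N] = [F̄_{Nℓ} : α F̄_N]` when `w₂ ∘ α = β ∘ w₁`. -/
theorem finrankAlong_beta_eq_alpha_of_pair
    (hα : ∀ x, w₂ (heckeAlphaBar Qb N ℓ x) = heckeBetaBar Qb N ℓ (w₁ x)) :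
    finrankAlong Qb (heckeBetaBar Qb N ℓ) = finrankAlong Qb (heckeAlphaBar Qb N ℓ) := by
  symm
  refine @Algebra.finrank_eq_of_equiv_equiv ↥(modularFunctionFieldBar N)
    ↥(modularFunctionFieldBar (N * ℓ)) _ _
    (algebraAlong (heckeAlphaBar Qb N ℓ)) ↥(modularFunctionFieldBar N)
    ↥(modularFunctionFieldBar (N * ℓ)) _ _
    (algebraAlong (heckeBetaBar Qb N ℓ)) w₁.toRingEquiv w₂.toRingEquiv ?_
  refine RingHom.ext fun x => ?_
  exact (hα x).symm

/-- `[F̄_{Nℓ} : β F̄_N] = ℓ` for a prime `ℓ ∣ N`, given an Atkin–Lehner pair. -/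
theorem finrankAlong_heckeBetaBar_of_pair (hℓ : ℓ.Prime) (hℓN : ℓ ∣ N)
    (hα : ∀ x, w₂ (heckeAlphaBar Qb N ℓ x) = heckeBetaBar Qb N ℓ (w₁ x)) :
    finrankAlong Qb (heckeBetaBar Qb N ℓ) = ℓ := by
  rw [finrankAlong_beta_eq_alpha_of_pair N ℓ w₁ w₂ hα]
  exact finrankAlong_heckeAlphaBar_of_dvd N ℓ hℓ hℓN

/-- `w₁ (N_α z) = N_β (w₂ z)` when `w₂ ∘ α = β ∘ w₁`. -/
theorem norm_alpha_of_pair
    (hα : ∀ x, w₂ (heckeAlphaBar Qb N ℓ x) = heckeBetaBar Qb N ℓ (w₁ x))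
    (z : ↥(modularFunctionFieldBar (N * ℓ))) :
    w₁ (letI := algebraAlong (heckeAlphaBar Qb N ℓ);
      Algebra.norm (↥(modularFunctionFieldBar N)) z)
    = (letI := algebraAlong (heckeBetaBar Qb N ℓ);
      Algebra.norm (↥(modularFunctionFieldBar N)) (w₂ z)) := by
  have h := @Algebra.norm_eq_of_equiv_equiv (↥(modularFunctionFieldBar N))
    (↥(modularFunctionFieldBar (N * ℓ))) (↥(modularFunctionFieldBar N))
    (↥(modularFunctionFieldBar (N * ℓ))) _ _ _ _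
    (algebraAlong (heckeAlphaBar Qb N ℓ))
    (algebraAlong (heckeBetaBar Qb N ℓ))
    w₁.toRingEquiv w₂.toRingEquiv
    (RingHom.ext fun x => (hα x).symm) z
  rw [h]
  exact w₁.toRingEquiv.apply_symm_apply _

/-- `w₁ (N_β z) = N_α (w₂ z)` when `w₂ ∘ β = α ∘ w₁`. -/
theorem norm_beta_of_pair
    (hβ : ∀ x, w₂ (heckeBetaBar Qb N ℓ x) = heckeAlphaBar Qb N ℓ (w₁ x))
    (z : ↥(modularFunctionFieldBar (N * ℓ))) :
    w₁ (letI := algebraAlong (heckeBetaBar Qb N ℓ);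
      Algebra.norm (↥(modularFunctionFieldBar N)) z)
    = (letI := algebraAlong (heckeAlphaBar Qb N ℓ);
      Algebra.norm (↥(modularFunctionFieldBar N)) (w₂ z)) := by
  have h := @Algebra.norm_eq_of_equiv_equiv (↥(modularFunctionFieldBar N))
    (↥(modularFunctionFieldBar (N * ℓ))) (↥(modularFunctionFieldBar N))
    (↥(modularFunctionFieldBar (N * ℓ))) _ _ _ _
    (algebraAlong (heckeBetaBar Qb N ℓ))
    (algebraAlong (heckeAlphaBar Qb N ℓ))
    w₁.toRingEquiv w₂.toRingEquiv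
    (RingHom.ext fun x => (hβ x).symm) z
  rw [h]
  exact w₁.toRingEquiv.apply_symm_apply _

/-- **Norm formula along `β`** for a prime `ℓ ∣ N`, given an Atkin–Lehner pair:
`(N_β z)(Q^ℓ) = ∏_{i<ℓ} z(ζ^i Q)`. -/
theorem qExpand_norm_beta_of_pair (hℓ : ℓ.Prime) (hℓN : ℓ ∣ N)
    (hα : ∀ x, w₂ (heckeAlphaBar Qb N ℓ x) = heckeBetaBar Qb N ℓ (w₁ x))
    (ζ : Qb) (hζ : IsPrimitiveRoot ζ ℓ) (hz : ∀ i : ℕ, ζ ^ i ≠ 0)
    (z : ↥(modularFunctionFieldBar (N * ℓ))) :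
    letI := algebraAlong (heckeBetaBar Qb N ℓ)
    qExpand Qb ℓ
        ((Algebra.norm ↥(modularFunctionFieldBar N) z : ↥(modularFunctionFieldBar N)) :
          LaurentSeries Qb)
      = ∏ i ∈ Finset.range ℓ, rotHom (ζ ^ i) (hz i) (z : LaurentSeries Qb) :=
  qExpand_norm_beta_of_finrank N ℓ hℓ (finrankAlong_heckeBetaBar_of_pair N ℓ w₁ w₂ hℓ hℓN hα)
    ζ hζ hz z

/-- **Norm formula along `α`** for a prime `ℓ ∣ N`, given an Atkin–Lehner pair:
`(w₁ (N_α z))(Q^ℓ) = ∏_{i<ℓ} (w₂ z)(ζ^i Q)`. -/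
theorem qExpand_norm_alpha_of_pair (hℓ : ℓ.Prime) (hℓN : ℓ ∣ N)
    (hα : ∀ x, w₂ (heckeAlphaBar Qb N ℓ x) = heckeBetaBar Qb N ℓ (w₁ x))
    (ζ : Qb) (hζ : IsPrimitiveRoot ζ ℓ) (hz : ∀ i : ℕ, ζ ^ i ≠ 0)
    (z : ↥(modularFunctionFieldBar (N * ℓ))) :
    qExpand Qb ℓ
        ((w₁ (letI := algebraAlong (heckeAlphaBar Qb N ℓ);
            Algebra.norm ↥(modularFunctionFieldBar N) z) : ↥(modularFunctionFieldBar N)) :
          LaurentSeries Qb)
      = ∏ i ∈ Finset.range ℓ, rotHom (ζ ^ i) (hz i)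
          ((w₂ z : ↥(modularFunctionFieldBar (N * ℓ))) : LaurentSeries Qb) := by
  rw [norm_alpha_of_pair N ℓ w₁ w₂ hα z]
  exact qExpand_norm_beta_of_pair N ℓ w₁ w₂ hℓ hℓN hα ζ hζ hz (w₂ z)

end Pair

/-! ### Reduction of the norms -/

section Red

variable {A : ValuationSubring Qb}
variable (N ℓ : ℕ) [NeZero N] [NeZero ℓ]

/-- In characteristic `ℓ`: `qContract (y ^ ℓ) = φ(y)`. -/
theorem qContract_pow_char {k : Type*} [CommRing k] (q : ℕ) [Fact q.Prime] [NeZero q]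
    [CharP k q] (y : LaurentSeries k) :
    S37.KC.qContract q (y ^ q) = coeffMap (frobenius k q) y := by
  rw [S37.KC.pow_char_eq_qExpand_frobenius q y, S37.KC.qContract_qExpand]

/-- `Q^ℓ`-form along `β`: if `z` reduces to `g` then `(N_β z)(Q^ℓ)` reduces to `g ^ ℓ`. -/
theorem gRel_qExpand_norm_beta_of_finrank (hℓ : ℓ.Prime)
    (hdeg : finrankAlong Qb (heckeBetaBar Qb N ℓ) = ℓ) (hA : A.LiesOverPrime ℓ)
    (z : ↥(modularFunctionFieldBar (N * ℓ)))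
    {g : LaurentSeries (IsLocalRing.ResidueField A)}
    (h : GRel A (z : LaurentSeries Qb) g) :
    letI := algebraAlong (heckeBetaBar Qb N ℓ)
    GRel A (qExpand Qb ℓ
        ((Algebra.norm ↥(modularFunctionFieldBar N) z : ↥(modularFunctionFieldBar N)) :
          LaurentSeries Qb)) (g ^ ℓ) := by
  haveI : Fact ℓ.Prime := ⟨hℓ⟩
  obtain ⟨ζ, hζ⟩ := HasEnoughRootsOfUnity.exists_primitiveRoot Qb ℓ
  have hz : ∀ i : ℕ, ζ ^ i ≠ 0 := fun i => pow_ne_zero i (hζ.ne_zero (NeZero.ne ℓ))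
  rw [qExpand_norm_beta_of_finrank N ℓ hℓ hdeg ζ hζ hz z]
  exact Fermat.Agent.S35.NormRed.gRel_prod_rot ℓ hA hζ.pow_eq_one hz h

/-- **Reduction of the norm along `β`**, `ℓ ∣ N`: if `z` reduces to `g` then `N_β z ∈ F̄_N`
reduces to `φ(g)`, `φ` the coefficientwise `ℓ`-Frobenius. -/
theorem gRel_norm_beta_of_finrank [Fact ℓ.Prime] [CharP (IsLocalRing.ResidueField A) ℓ]
    (hdeg : finrankAlong Qb (heckeBetaBar Qb N ℓ) = ℓ) (hA : A.LiesOverPrime ℓ)
    (z : ↥(modularFunctionFieldBar (N * ℓ)))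
    {g : LaurentSeries (IsLocalRing.ResidueField A)}
    (h : GRel A (z : LaurentSeries Qb) g) :
    letI := algebraAlong (heckeBetaBar Qb N ℓ)
    GRel A ((Algebra.norm ↥(modularFunctionFieldBar N) z : ↥(modularFunctionFieldBar N)) :
        LaurentSeries Qb)
      (coeffMap (frobenius (IsLocalRing.ResidueField A) ℓ) g) := by
  have h' := ConjMod.gRel_of_qExpand ℓ
    (gRel_qExpand_norm_beta_of_finrank N ℓ (Fact.out : ℓ.Prime) hdeg hA z h)
  rwa [qContract_pow_char] at h'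

variable (w₁ : ↥(modularFunctionFieldBar N) ≃ₐ[Qb] ↥(modularFunctionFieldBar N))
variable (w₂ : ↥(modularFunctionFieldBar (N * ℓ)) ≃ₐ[Qb] ↥(modularFunctionFieldBar (N * ℓ)))

/-- **Reduction of the norm along `β`**, given an Atkin–Lehner pair. -/
theorem gRel_norm_beta_of_pair [Fact ℓ.Prime] [CharP (IsLocalRing.ResidueField A) ℓ]
    (hℓN : ℓ ∣ N)
    (hα : ∀ x, w₂ (heckeAlphaBar Qb N ℓ x) = heckeBetaBar Qb N ℓ (w₁ x))
    (hA : A.LiesOverPrime ℓ) (z : ↥(modularFunctionFieldBar (N * ℓ)))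
    {g : LaurentSeries (IsLocalRing.ResidueField A)}
    (h : GRel A (z : LaurentSeries Qb) g) :
    letI := algebraAlong (heckeBetaBar Qb N ℓ)
    GRel A ((Algebra.norm ↥(modularFunctionFieldBar N) z : ↥(modularFunctionFieldBar N)) :
        LaurentSeries Qb)
      (coeffMap (frobenius (IsLocalRing.ResidueField A) ℓ) g) :=
  gRel_norm_beta_of_finrank N ℓ
    (finrankAlong_heckeBetaBar_of_pair N ℓ w₁ w₂ (Fact.out : ℓ.Prime) hℓN hα) hA z h

/-- **Reduction of the norm along `α`**, given an Atkin–Lehner pair: if `w₂ z` reduces to `g`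
then `w₁ (N_α z)` reduces to `φ(g)`. -/
theorem gRel_norm_alpha_of_pair [Fact ℓ.Prime] [CharP (IsLocalRing.ResidueField A) ℓ]
    (hℓN : ℓ ∣ N)
    (hα : ∀ x, w₂ (heckeAlphaBar Qb N ℓ x) = heckeBetaBar Qb N ℓ (w₁ x))
    (hA : A.LiesOverPrime ℓ) (z : ↥(modularFunctionFieldBar (N * ℓ)))
    {g : LaurentSeries (IsLocalRing.ResidueField A)}
    (h : GRel A ((w₂ z : ↥(modularFunctionFieldBar (N * ℓ))) : LaurentSeries Qb) g) :
    GRel A ((w₁ (letI := algebraAlong (heckeAlphaBar Qb N ℓ);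
          Algebra.norm ↥(modularFunctionFieldBar N) z) : ↥(modularFunctionFieldBar N)) :
        LaurentSeries Qb)
      (coeffMap (frobenius (IsLocalRing.ResidueField A) ℓ) g) := by
  rw [norm_alpha_of_pair N ℓ w₁ w₂ hα z]
  exact gRel_norm_beta_of_pair N ℓ w₁ w₂ hℓN hα hA (w₂ z) h

end Red

end Fermat.Agent.S36.NormRot
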