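/-
S36 — AuxNormB.lean (helper115): block [AUX], leaf "the norms commute with the auxiliary level".

Levels: lower `N`, upper `N * q` (`q` prime, `q ∣ N`, so both degeneracy maps `α`, `β` have
degree `q`); auxiliary lower level `N * e`, upper `N * e * q`, `e` coprime to `q`.  With
`ι = AuxPull.inclBar` (the inclusion of function fields inside `ℚ̄((Q))`), for `f ∈ F̄_{N q}`:

* `betaNorm_inclBar`   : `N_β (ι f) = ι (N_β f)`      (any `N ∣ L`, no coprimality);
* `alphaNorm_inclBar`  : `N_α (ι f) = ι (N_α f)`      (`L = N * e`, `e` coprime to `q`);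
* `normCond_inclBar`   : `ModelFPlan.NormCond N q m f → ModelFPlan.NormCond (N * e) q m (ι f)`;
* `normCond_inclBar_of_eq` : the same for a lower level `L` given with an equation `L = N * e`
  (no cast of levels: `ι` is taken for a divisibility).

Route.  `β`: both norms are the rotation products `∏_{i<q} z(ζ^i Q)` (`NormRot`, degree `q` from
`Deg36B`).  `α`: conjugate by the Fricke involutions (`Fricke.fricke`, `W ∘ α = β ∘ W`), which
turn `ι` into `B_e : Q ↦ Q^e` (`fricke_inclBar_up`); `N_β (B_e g) = B_e (N_β g)` because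
`(ζ^i Q)^e = (ζ^e)^i Q^e` and `ζ^e` is again a primitive `q`-th root of unity
(`betaNorm_expBar`).
-/
import Mathlib
import Fermat.Agent.S36.NormRot
import Fermat.Agent.S36.Fricke
import Fermat.Agent.S36.Deg36B
import Fermat.Agent.S36.AuxPull
import Fermat.Agent.S35.ModelFPlan

set_option autoImplicit false

noncomputable section

namespace Fermat.Agent.S36.AuxNormB

open ModularCurve AlgebraicCurve HahnSeries
open Fermat.Agent.S24 Fermat.Agent.S37.W
open Fermat.Agent.S35

local notation "Qb" => AlgebraicClosure ℚ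

/-! ### Rotations and `Q ↦ Q^e` -/

theorem rotHom_congr {ξ ξ' : Qb} (h : ξ = ξ') (hξ : ξ ≠ 0) (hξ' : ξ' ≠ 0)
    (x : LaurentSeries Qb) : rotHom ξ hξ x = rotHom ξ' hξ' x := by
  subst h
  rfl

/-- `(x(Q^e))(ξ Q) = (x(ξ^e Q))(Q^e)`. -/
theorem rotHom_qExpand_pow (e : ℕ) [NeZero e] (ξ : Qb) (hξ : ξ ≠ 0) (x : LaurentSeries Qb) :
    rotHom ξ hξ (qExpand Qb e x) = qExpand Qb e (rotHom (ξ ^ e) (pow_ne_zero e hξ) x) := by
  ext n
  rw [rotHom_coeff]
  by_cases hn : (e : ℤ) ∣ n
  · obtain ⟨k, rfl⟩ := hn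
    rw [qExpand_coeff_mul, qExpand_coeff_mul, rotHom_coeff, zpow_mul, zpow_natCast]
  · rw [qExpand_coeff_of_not_dvd e x hn, qExpand_coeff_of_not_dvd e _ hn, mul_zero]

theorem qExpand_comm (a b : ℕ) [NeZero a] [NeZero b] (x : LaurentSeries Qb) :
    qExpand Qb a (qExpand Qb b x) = qExpand Qb b (qExpand Qb a x) := by
  rw [qExpand_qExpand, qExpand_qExpand]
  exact qExpand_congr (mul_comm a b) x

/-! ### The `β`-norm as a rotation product -/

section Beta

variable {N L q : ℕ} [NeZero N] [NeZero L] [NeZero q]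

theorem qExpand_coe_betaNorm (hq : q.Prime) (hqN : q ∣ N) (ζ : Qb) (hζ : IsPrimitiveRoot ζ q)
    (hz : ∀ i : ℕ, ζ ^ i ≠ 0) (z : ↥(modularFunctionFieldBar (N * q))) :
    qExpand Qb q ((PushPic.betaNorm N q z : ↥(modularFunctionFieldBar N)) : LaurentSeries Qb)
      = ∏ i ∈ Finset.range q, rotHom (ζ ^ i) (hz i) (z : LaurentSeries Qb) :=
  NormRot.qExpand_norm_beta_of_finrank N q hq
    (Deg36B.finrankAlong_heckeBetaBar_of_dvd N q hq hqN) ζ hζ hz z

/-- **`N_β` commutes with the inclusion of levels** (`q ∣ N ∣ L`). -/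
theorem betaNorm_inclBar (hq : q.Prime) (hqN : q ∣ N) (hNL : N ∣ L)
    (f : ↥(modularFunctionFieldBar (N * q))) :
    PushPic.betaNorm L q (AuxPull.inclBar (Nat.mul_dvd_mul_right hNL q) f)
      = AuxPull.inclBar hNL (PushPic.betaNorm N q f) := by
  obtain ⟨ζ, hζ⟩ := HasEnoughRootsOfUnity.exists_primitiveRoot Qb q
  have hz : ∀ i : ℕ, ζ ^ i ≠ 0 := fun i => pow_ne_zero i (hζ.ne_zero (NeZero.ne q))
  apply Subtype.ext
  apply qExpand_injective (R := Qb) q
  rw [qExpand_coe_betaNorm hq (hqN.trans hNL) ζ hζ hz, AuxPull.coe_inclBar, AuxPull.coe_inclBar,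
    qExpand_coe_betaNorm hq hqN ζ hζ hz]

end Beta

/-! ### `B_e : Q ↦ Q^e` between levels, and the generators -/

section Exp

variable {N L : ℕ} [NeZero N] [NeZero L]

/-- `B_e : F̄_N → F̄_L`, `x ↦ x(Q^e)`, for `N * e ∣ L`. -/
def expBar (e : ℕ) [NeZero e] (h : N * e ∣ L) :
    ↥(modularFunctionFieldBar N) →ₐ[Qb] ↥(modularFunctionFieldBar L) :=
  (AuxPull.inclBar h).comp (heckeBetaBar Qb N e)

theorem expBar_apply (e : ℕ) [NeZero e] (h : N * e ∣ L) (x : ↥(modularFunctionFieldBar N)) :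
    expBar e h x = AuxPull.inclBar h (heckeBetaBar Qb N e x) := rfl

theorem coe_expBar (e : ℕ) [NeZero e] (h : N * e ∣ L) (x : ↥(modularFunctionFieldBar N)) :
    ((expBar e h x : ↥(modularFunctionFieldBar L)) : LaurentSeries Qb)
      = qExpand Qb e (x : LaurentSeries Qb) := by
  rw [expBar_apply, AuxPull.coe_inclBar, coe_heckeBetaBar]

/-- A divisor of `N` as a divisor of `L`, `N ∣ L`. -/
def divIncl (h : N ∣ L) (d : ↥N.divisors) : ↥L.divisors :=
  ⟨(d : ℕ), Nat.mem_divisors.mpr ⟨(Nat.dvd_of_mem_divisors d.2).trans h, NeZero.ne L⟩⟩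

theorem inclBar_genFam (h : N ∣ L) (d : ↥N.divisors) :
    AuxPull.inclBar h (genFam N d) = genFam L (divIncl h d) := by
  apply Subtype.ext
  rw [AuxPull.coe_inclBar]
  rfl

end Exp

/-! ### Fricke and the inclusion of levels -/

section Main

variable (N q e : ℕ) [NeZero N] [NeZero q] [NeZero e]

omit [NeZero N] [NeZero q] [NeZero e] in
theorem dvd_incl : N * q ∣ N * e * q :=
  Nat.mul_dvd_mul_right (dvd_mul_right N e) q

omit [NeZero N] [NeZero q] [NeZero e] in
theorem dvd_exp : N * q * e ∣ N * e * q := by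
  rw [Nat.mul_right_comm]

/-- `W_{N e q} ∘ ι = B_e ∘ W_{N q}` on `F̄_{N q}`. -/
theorem fricke_inclBar_up (x : ↥(modularFunctionFieldBar (N * q))) :
    Fricke.fricke (N * e * q) (AuxPull.inclBar (dvd_incl N q e) x)
      = expBar e (dvd_exp N q e) (Fricke.fricke (N * q) x) := by
  have h : ((Fricke.fricke (N * e * q) : ↥(modularFunctionFieldBar (N * e * q)) →ₐ[Qb]
        ↥(modularFunctionFieldBar (N * e * q))).comp (AuxPull.inclBar (dvd_incl N q e)))
      = (expBar e (dvd_exp N q e)).comp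
          (Fricke.fricke (N * q) : ↥(modularFunctionFieldBar (N * q)) →ₐ[Qb]
            ↥(modularFunctionFieldBar (N * q))) := by
    apply algHom_ext_genFam
    intro d
    rw [AlgHom.comp_apply, AlgHom.comp_apply, inclBar_genFam]
    show Fricke.fricke (N * e * q) (genFam (N * e * q) (divIncl (dvd_incl N q e) d)) =
      expBar e (dvd_exp N q e) (Fricke.fricke (N * q) (genFam (N * q) d))
    rw [Fricke.fricke_genFam, Fricke.fricke_genFam, expBar_apply, heckeBetaBar_genFam,
      inclBar_genFam]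
    congr 1
    apply Subtype.ext
    show N * e * q / (d : ℕ) = N * q / (d : ℕ) * e
    rw [Nat.mul_right_comm]
    exact Fricke.nat_mul_div_comm (N * q) e (d : ℕ) (Nat.dvd_of_mem_divisors d.2)
      (Nat.pos_of_mem_divisors d.2)
  exact congrArg (fun f => f x) h

/-- `N_β (B_e g) = B_e (N_β g)` for `e` coprime to `q`. -/
theorem betaNorm_expBar (hq : q.Prime) (hqN : q ∣ N) (he : Nat.Coprime e q)
    (g : ↥(modularFunctionFieldBar (N * q))) :
    PushPic.betaNorm (N * e) q (expBar e (dvd_exp N q e) g)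
      = heckeBetaBar Qb N e (PushPic.betaNorm N q g) := by
  obtain ⟨ζ, hζ⟩ := HasEnoughRootsOfUnity.exists_primitiveRoot Qb q
  have hz : ∀ i : ℕ, ζ ^ i ≠ 0 := fun i => pow_ne_zero i (hζ.ne_zero (NeZero.ne q))
  have hζe : IsPrimitiveRoot (ζ ^ e) q := hζ.pow_of_coprime e he
  have hze : ∀ i : ℕ, (ζ ^ e) ^ i ≠ 0 := fun i => pow_ne_zero i (hz e)
  apply Subtype.ext
  apply qExpand_injective (R := Qb) q
  rw [qExpand_coe_betaNorm hq (hqN.trans (dvd_mul_right N e)) ζ hζ hz, coe_heckeBetaBar,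
    qExpand_comm, qExpand_coe_betaNorm hq hqN (ζ ^ e) hζe hze, map_prod]
  refine Finset.prod_congr rfl fun i _ => ?_
  rw [coe_expBar, rotHom_qExpand_pow]
  congr 1
  exact rotHom_congr (pow_right_comm ζ i e) _ _ _

/-- **`N_α` commutes with the inclusion of levels** `N ∣ N * e`, `e` coprime to `q`, `q ∣ N`. -/
theorem alphaNorm_inclBar (hq : q.Prime) (hqN : q ∣ N) (he : Nat.Coprime e q)
    (f : ↥(modularFunctionFieldBar (N * q))) :
    PushPic.alphaNorm (N * e) q (AuxPull.inclBar (dvd_incl N q e) f)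
      = AuxPull.inclBar (dvd_mul_right N e) (PushPic.alphaNorm N q f) := by
  apply (Fricke.fricke (N * e)).injective
  have h1 : Fricke.fricke (N * e) (PushPic.alphaNorm (N * e) q (AuxPull.inclBar (dvd_incl N q e) f))
      = PushPic.betaNorm (N * e) q
          (Fricke.fricke (N * e * q) (AuxPull.inclBar (dvd_incl N q e) f)) :=
    NormRot.norm_alpha_of_pair (N * e) q (Fricke.fricke (N * e)) (Fricke.fricke (N * e * q))
      (Fricke.fricke_alpha (N * e) q) (AuxPull.inclBar (dvd_incl N q e) f)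
  have h2 : Fricke.fricke N (PushPic.alphaNorm N q f)
      = PushPic.betaNorm N q (Fricke.fricke (N * q) f) :=
    NormRot.norm_alpha_of_pair N q (Fricke.fricke N) (Fricke.fricke (N * q))
      (Fricke.fricke_alpha N q) f
  have h3 : AuxPull.inclBar (dvd_mul_right N e) (PushPic.alphaNorm N q f)
      = heckeAlphaBar Qb N e (PushPic.alphaNorm N q f) :=
    Subtype.ext (by rw [AuxPull.coe_inclBar, coe_heckeAlphaBar])
  rw [h1, fricke_inclBar_up, betaNorm_expBar N q e hq hqN he, h3, Fricke.fricke_alpha, h2]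

/-- **The norm conditions pass to the auxiliary level.** -/
theorem normCond_inclBar (hq : q.Prime) (hqN : q ∣ N) (he : Nat.Coprime e q) {m : ℕ}
    {f : ↥(modularFunctionFieldBar (N * q))} (h : ModelFPlan.NormCond N q m f) :
    ModelFPlan.NormCond (N * e) q m (AuxPull.inclBar (dvd_incl N q e) f) := by
  obtain ⟨⟨h₁, c₁, hh₁, hc₁, e₁⟩, ⟨h₂, c₂, hh₂, hc₂, e₂⟩⟩ := h
  have e₁' : PushPic.alphaNorm N q f
      = algebraMap Qb ↥(modularFunctionFieldBar N) c₁ * h₁ ^ m := e₁
  have e₂' : PushPic.betaNorm N q f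
      = algebraMap Qb ↥(modularFunctionFieldBar N) c₂ * h₂ ^ m := e₂
  refine ⟨⟨AuxPull.inclBar (dvd_mul_right N e) h₁, c₁, ?_, hc₁, ?_⟩,
    ⟨AuxPull.inclBar (dvd_mul_right N e) h₂, c₂, ?_, hc₂, ?_⟩⟩
  · exact (map_ne_zero (AuxPull.inclBar (dvd_mul_right N e))).mpr hh₁
  · show PushPic.alphaNorm (N * e) q (AuxPull.inclBar (dvd_incl N q e) f) = _
    rw [alphaNorm_inclBar N q e hq hqN he, e₁', map_mul, map_pow, AlgHom.commutes]
  · exact (map_ne_zero (AuxPull.inclBar (dvd_mul_right N e))).mpr hh₂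
  · show PushPic.betaNorm (N * e) q (AuxPull.inclBar (dvd_incl N q e) f) = _
    rw [betaNorm_inclBar hq hqN (dvd_mul_right N e), e₂', map_mul, map_pow, AlgHom.commutes]

end Main

/-! ### The same with the auxiliary level given by an equation -/

/-- **The norm conditions pass to an auxiliary level `L = N * e`** (`q` prime, `q ∣ N`, `e` coprime
to `q`); the inclusion is taken for the divisibility `N * q ∣ L * q`, no cast of levels. -/
theorem normCond_inclBar_of_eq {N L q e : ℕ} [NeZero N] [NeZero L] [NeZero q]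
    (hq : q.Prime) (hqN : q ∣ N) (he : Nat.Coprime e q) (hL : L = N * e) (hdvd : N * q ∣ L * q)
    {m : ℕ} {f : ↥(modularFunctionFieldBar (N * q))} (h : ModelFPlan.NormCond N q m f) :
    ModelFPlan.NormCond L q m (AuxPull.inclBar hdvd f) := by
  subst hL
  have : NeZero e := ⟨fun h0 => by
    subst h0
    exact NeZero.ne (N * 0) (mul_zero N)⟩
  exact normCond_inclBar N q e hq hqN he h

/-- `N_α` and `N_β` commute with the inclusion, level given by an equation. -/
theorem norms_inclBar_of_eq {N L q e : ℕ} [NeZero N] [NeZero L] [NeZero q]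
    (hq : q.Prime) (hqN : q ∣ N) (he : Nat.Coprime e q) (hL : L = N * e) (hNL : N ∣ L)
    (f : ↥(modularFunctionFieldBar (N * q))) :
    PushPic.alphaNorm L q (AuxPull.inclBar (Nat.mul_dvd_mul_right hNL q) f)
        = AuxPull.inclBar hNL (PushPic.alphaNorm N q f) ∧
      PushPic.betaNorm L q (AuxPull.inclBar (Nat.mul_dvd_mul_right hNL q) f)
        = AuxPull.inclBar hNL (PushPic.betaNorm N q f) := by
  refine ⟨?_, betaNorm_inclBar hq hqN hNL f⟩
  subst hL
  have : NeZero e := ⟨fun h0 => by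
    subst h0
    exact NeZero.ne (N * 0) (mul_zero N)⟩
  exact alphaNorm_inclBar N q e hq hqN he f

end Fermat.Agent.S36.AuxNormB
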