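/-
S36 — AuxNormCompat.lean (helper115): block [AUX], the norm-compatibility input of
`S36/AuxTop.lean` (helper20, board #3141) in EXACTLY the typing asked there:

levels `M * q` (lower) and `M * q * q` (upper), auxiliary levels `M * d * q` and `M * d * q * q`,
`d` coprime to the prime `q`; inclusions `AuxPull.inclBar` for ARBITRARY proofs of the two
divisibilities.  Both degeneracy norms commute with the inclusions.

Closed (no hypothesis): a restatement of `AuxNormB.norms_inclBar_of_eq` at `N = M * q`,
`L = M * d * q = N * d`.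
-/
import Mathlib
import Fermat.Agent.S36.AuxNormB

set_option autoImplicit false

namespace Fermat.Agent.S36.AuxNormCompat

open ModularCurve AlgebraicCurve
open Fermat.Agent.S35

/-- **Norm compatibility with the auxiliary level** (the statement `NormCompatStatement` of
board #3141, verbatim). -/
theorem normCompat : ∀ (M q d : ℕ) [NeZero M] [NeZero q] [NeZero d], q.Prime → Nat.Coprime d q →
    ∀ (h₁ : M * q * q ∣ M * d * q * q) (h₂ : M * q ∣ M * d * q)
      (f : ↥(modularFunctionFieldBar (M * q * q))),
      PushPic.alphaNorm (M * d * q) q (AuxPull.inclBar h₁ f)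
          = AuxPull.inclBar h₂ (PushPic.alphaNorm (M * q) q f) ∧
        PushPic.betaNorm (M * d * q) q (AuxPull.inclBar h₁ f)
          = AuxPull.inclBar h₂ (PushPic.betaNorm (M * q) q f) := by
  intro M q d _ _ _ hq hd h₁ h₂ f
  exact AuxNormB.norms_inclBar_of_eq (N := M * q) (L := M * d * q) (q := q) (e := d) hq
    (dvd_mul_left q M) hd (Nat.mul_right_comm M d q) h₂ f

/-- The `α`-half alone. -/
theorem alphaNorm_compat (M q d : ℕ) [NeZero M] [NeZero q] [NeZero d] (hq : q.Prime)
    (hd : Nat.Coprime d q) (h₁ : M * q * q ∣ M * d * q * q) (h₂ : M * q ∣ M * d * q)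
    (f : ↥(modularFunctionFieldBar (M * q * q))) :
    PushPic.alphaNorm (M * d * q) q (AuxPull.inclBar h₁ f)
      = AuxPull.inclBar h₂ (PushPic.alphaNorm (M * q) q f) :=
  (normCompat M q d hq hd h₁ h₂ f).1

/-- The `β`-half alone. -/
theorem betaNorm_compat (M q d : ℕ) [NeZero M] [NeZero q] [NeZero d] (hq : q.Prime)
    (hd : Nat.Coprime d q) (h₁ : M * q * q ∣ M * d * q * q) (h₂ : M * q ∣ M * d * q)
    (f : ↥(modularFunctionFieldBar (M * q * q))) :
    PushPic.betaNorm (M * d * q) q (AuxPull.inclBar h₁ f)
      = AuxPull.inclBar h₂ (PushPic.betaNorm (M * q) q f) :=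
  (normCompat M q d hq hd h₁ h₂ f).2

/-- The norm conditions at the auxiliary level, same typing (`ModelFPlan.NormCond`). -/
theorem normCond_compat (M q d : ℕ) [NeZero M] [NeZero q] [NeZero d] (hq : q.Prime)
    (hd : Nat.Coprime d q) (h₁ : M * q * q ∣ M * d * q * q) {m : ℕ}
    {f : ↥(modularFunctionFieldBar (M * q * q))} (h : ModelFPlan.NormCond (M * q) q m f) :
    ModelFPlan.NormCond (M * d * q) q m (AuxPull.inclBar h₁ f) :=
  AuxNormB.normCond_inclBar_of_eq (N := M * q) (L := M * d * q) (q := q) (e := d) hq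
    (dvd_mul_left q M) hd (Nat.mul_right_comm M d q) h₁ h

end Fermat.Agent.S36.AuxNormCompat
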