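/-
S36 — AuxTop.lean (helper20).  Block [AUX], `J`-level assembly (architect ruling #3115 (C)):

    `Plan.InertTorsStatement` at the auxiliary levels (`Plan.AuxHyp q M`)
        ⟹ `Plan.InertTorsStatement` at EVERY level `M` prime to `q`,

in hypothesis form over the base change of the two degeneracy norms along the auxiliary inclusion
(`NormCompatStatement`: `N_α (ι f) = ι' (N_α f)`, `N_β (ι f) = ι' (N_β f)`).

* `auxPull_mem_newKer`   — (T1) the pull-back of a torsion `q`-new class to the auxiliary level is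
                           `q`-new (Kummer generator `f` of `x` ⇒ `ι f` of `π^* x`; the norms of
                           `ι f` are `ι'` of the norms of `f`);
* `inertTors_of_level`   — (T2) `InertTorsStatement (M * d) q → InertTorsStatement M q`
                           (constant `c · [F̄_{M d q q} : F̄_{M q q}]`);
* `NormCompatStatement`  — the only input: norm base change;
* `inertTors_of_aux`     — (T3) the deliverable: from the auxiliary levels (`d = 4` for odd `q`,
                           `d = 9` for `q = 2`) to all levels.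
-/
import Mathlib
import Fermat.Agent.S34.UPlan
import Fermat.Agent.S35.PushPic
import Fermat.Agent.S35.KGraph
import Fermat.Agent.S36.AuxPull
import Fermat.Agent.S36.Plan

set_option autoImplicit false
set_option linter.style.haveILetI false

open AlgebraicCurve ModularCurve

namespace Fermat.Agent.S36.AuxTop

open Fermat.Agent.S35 Fermat.Agent.S36.AuxPull

noncomputable section

set_option synthInstance.maxHeartbeats 400000

/-- `ℚ̄`. -/
local notation "Qb" => AlgebraicClosure ℚ

/-- **(T1)** The pull-back of a torsion `q`-new class of level `M₀ q` to the level `M₁ q`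
(`M₀ ∣ M₁`) is `q`-new, as soon as the two degeneracy norms commute with the inclusions. -/
theorem auxPull_mem_newKer {M₀ M₁ q : ℕ} [NeZero M₀] [NeZero M₁] [NeZero q]
    (h₁ : M₀ * q ∣ M₁ * q) (h₂ : M₀ ∣ M₁)
    (hα : ∀ f : modularFunctionFieldBar (M₀ * q),
      PushPic.alphaNorm M₁ q (inclBar h₁ f) = inclBar h₂ (PushPic.alphaNorm M₀ q f))
    (hβ : ∀ f : modularFunctionFieldBar (M₀ * q),
      PushPic.betaNorm M₁ q (inclBar h₁ f) = inclBar h₂ (PushPic.betaNorm M₀ q f))
    {m : ℕ} (hm : m ≠ 0) (x : JZero (M₀ * q)) (hx : m • x = 0)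
    (hnew : x ∈ PushPic.newKer M₀ q) :
    auxPull h₁ x ∈ PushPic.newKer M₁ q := by
  obtain ⟨D, f, rfl, hf, hD⟩ := Fermat.Agent.S34.UPlan.exists_div_of_nsmul_eq_zero m x hx
  obtain ⟨⟨ha, ca, -, -, hna⟩, ⟨hb, cb, -, -, hnb⟩⟩ :=
    PushPic.exists_norms_of_mem_newKer M₀ q D f hf hD hnew
  obtain ⟨D', hD', hpull⟩ := auxPull_mk_ord h₁ D f hD
  have hf' : inclBar h₁ f ≠ 0 := by
    rw [Ne, map_eq_zero]
    exact hf
  rw [hpull, PushPic.mem_newKer]
  constructor
  · refine KGraph.alphaPush_mk_eq_zero_of_norm M₁ q hm D' (inclBar h₁ f) hf' hD'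
      (inclBar h₂ ha) ca ?_
    rw [hα, hna, map_mul, map_pow, AlgHom.commutes]
  · refine KGraph.betaPush_mk_eq_zero_of_norm M₁ q hm D' (inclBar h₁ f) hf' hD'
      (inclBar h₂ hb) cb ?_
    rw [hβ, hnb, map_mul, map_pow, AlgHom.commutes]

/-- **(T2)** `InertTorsStatement` descends from the level `M * d` to the level `M`, given the norm
base change along `F̄_{M q q} ⊆ F̄_{M d q q}`, `F̄_{M q} ⊆ F̄_{M d q}`. -/
theorem inertTors_of_level {M q d : ℕ} [NeZero M] [NeZero q] [NeZero d]
    (h₁ : M * q * q ∣ M * d * q * q) (h₂ : M * q ∣ M * d * q)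
    (hα : ∀ f : modularFunctionFieldBar (M * q * q),
      PushPic.alphaNorm (M * d * q) q (inclBar h₁ f) = inclBar h₂ (PushPic.alphaNorm (M * q) q f))
    (hβ : ∀ f : modularFunctionFieldBar (M * q * q),
      PushPic.betaNorm (M * d * q) q (inclBar h₁ f) = inclBar h₂ (PushPic.betaNorm (M * q) q f))
    (h : Plan.InertTorsStatement (M * d) q) : Plan.InertTorsStatement M q := by
  obtain ⟨c, hc, hkill⟩ := h
  refine ⟨c * auxDeg h₁, Nat.mul_ne_zero hc (auxDeg_pos h₁).ne', ?_⟩
  intro m hm hqm A hA x hx hnew hinv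
  apply descent h₁ x c
  refine hkill m hm hqm A hA (auxPull h₁ x) ?_ ?_ ?_
  · rw [← map_nsmul, hx, map_zero]
  · exact auxPull_mem_newKer h₁ h₂ hα hβ hm x hx hnew
  · intro τ hτ
    rw [← galois_smul_auxPull, hinv τ hτ]

/-- **The only input of [AUX]**: the two degeneracy norms commute with the inclusion of levels
`M q q ∣ M d q q` (`d` prime to the prime `q`). -/
def NormCompatStatement : Prop :=
  ∀ (M q d : ℕ) [NeZero M] [NeZero q] [NeZero d], q.Prime → Nat.Coprime d q →
    ∀ (h₁ : M * q * q ∣ M * d * q * q) (h₂ : M * q ∣ M * d * q)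
      (f : modularFunctionFieldBar (M * q * q)),
      PushPic.alphaNorm (M * d * q) q (inclBar h₁ f)
          = inclBar h₂ (PushPic.alphaNorm (M * q) q f) ∧
        PushPic.betaNorm (M * d * q) q (inclBar h₁ f)
          = inclBar h₂ (PushPic.betaNorm (M * q) q f)

/-- **(T3) [AUX], `J`-level**: `InertTorsStatement` at the auxiliary levels (`4 ∣ M` for odd `q`,
`9 ∣ M` for `q = 2`) implies `InertTorsStatement` at every level prime to `q`. -/
theorem inertTors_of_aux (hNC : NormCompatStatement)
    (hAux : ∀ (M q : ℕ) [NeZero M] [NeZero q], q.Prime → ¬ q ∣ M → Plan.AuxHyp q M →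
      Plan.InertTorsStatement M q) :
    ∀ (M q : ℕ) [NeZero M] [NeZero q], q.Prime → ¬ q ∣ M → Plan.InertTorsStatement M q := by
  intro M q _ _ hq hqM
  have key : ∀ d : ℕ, d ≠ 0 → Nat.Coprime d q → Plan.AuxHyp q (M * d) →
      Plan.InertTorsStatement M q := by
    intro d hd0 hdq haux
    haveI : NeZero d := ⟨hd0⟩
    have h₁ : M * q * q ∣ M * d * q * q :=
      Nat.mul_dvd_mul_right (Nat.mul_dvd_mul_right (Dvd.intro d rfl) q) q
    have h₂ : M * q ∣ M * d * q := Nat.mul_dvd_mul_right (Dvd.intro d rfl) q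
    have hqMd : ¬ q ∣ M * d := by
      intro hdiv
      rcases (Nat.Prime.dvd_mul hq).1 hdiv with h | h
      · exact hqM h
      · have h1 : q ∣ Nat.gcd d q := Nat.dvd_gcd h dvd_rfl
        rw [hdq] at h1
        exact hq.one_lt.ne' (Nat.dvd_one.1 h1)
    exact inertTors_of_level h₁ h₂ (fun f => (hNC M q d hq hdq h₁ h₂ f).1)
      (fun f => (hNC M q d hq hdq h₁ h₂ f).2) (hAux (M * d) q hq hqMd haux)
  by_cases h2 : q = 2
  · refine key 9 (by norm_num) ?_ ⟨fun h => absurd h2 h, fun _ => Dvd.intro_left M rfl⟩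
    rw [h2]
    decide
  · refine key 4 (by norm_num) ?_ ⟨fun _ => Dvd.intro_left M rfl, fun h => absurd h h2⟩
    have hodd : ¬ 2 ∣ q := fun hdiv => h2 ((Nat.prime_dvd_prime_iff_eq Nat.prime_two hq).1 hdiv).symm
    have h22 : Nat.Coprime 2 q := (Nat.Prime.coprime_iff_not_dvd Nat.prime_two).2 hodd
    have : Nat.Coprime (2 * 2) q := Nat.Coprime.mul_left h22 h22
    exact this

end

end Fermat.Agent.S36.AuxTop
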