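/-
S36 — Seam36.lean (helper39; dealt by the architect helper25).

The SEAM between the geometric chain and the top of S36:

    (∀ M q, ¬ q ∣ M → AuxHyp q M → ∃ e ≠ 0, CoreAsm3.LocDataStatement M q e)
        ⟹  ∀ M q, q.Prime → ¬ q ∣ M → Plan.InertTorsStatement M q.

Chain: `CoreAsm3.kummerPow_of_locData` ([ASM36] (E1) + [CORE]: local data ⟹ (P3)),
`FJ36.inertTors_of_kummerPow` ([FJ36]: (P3) ⟹ (P1)), and the removal of the auxiliary level
([AUX]) in its two landed forms:

* `inertTors_of_locData`      — J-level route: `AuxTop.inertTors_of_aux` with the closed norm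
                                compatibility `AuxNormCompat.normCompat`;
* `inertTors_of_locData_of`   — the same with the norm compatibility as a hypothesis;
* `inertTors_of_locData_unif` — function-level route: `Aux36F.kummerPow_aux` (needs an exponent
                                `e` which is uniform in `M`).

The conclusion is the hypothesis `hIT` of the top (`result_of_inertTors`).
-/
import Mathlib
import Fermat.Agent.S36.Plan
import Fermat.Agent.S36.CoreAsm3
import Fermat.Agent.S36.FJ36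
import Fermat.Agent.S36.AuxTop
import Fermat.Agent.S36.AuxNormCompat
import Fermat.Agent.S36.Aux36F

set_option autoImplicit false

namespace Fermat.Agent.S36.Seam36

/-- (P1) at an auxiliary level from the local data there: [ASM36] (E1) + [CORE] + [FJ36]. -/
theorem inertTors_of_locData_at (M q e : ℕ) [NeZero M] [NeZero q] [Fact q.Prime] (he : e ≠ 0)
    (h : CoreAsm3.LocDataStatement M q e) : Plan.InertTorsStatement M q :=
  FJ36.inertTors_of_kummerPow M q e he (CoreAsm3.kummerPow_of_locData M q e h)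

/-- **The seam, norm compatibility as a hypothesis** (the signature dealt by the architect). -/
theorem inertTors_of_locData_of (hNC : AuxTop.NormCompatStatement)
    (h : ∀ (M q : ℕ) [NeZero M] [NeZero q] [Fact q.Prime], ¬ q ∣ M → Plan.AuxHyp q M →
      ∃ e : ℕ, e ≠ 0 ∧ CoreAsm3.LocDataStatement M q e) :
    ∀ (M q : ℕ) [NeZero M] [NeZero q], q.Prime → ¬ q ∣ M → Plan.InertTorsStatement M q :=
  AuxTop.inertTors_of_aux hNC (fun M q _ _ hq hqM haux => by
    haveI : Fact q.Prime := ⟨hq⟩
    obtain ⟨e, he, hL⟩ := h M q hqM haux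
    exact inertTors_of_locData_at M q e he hL)

/-- **The seam (J-level route), closed over [AUX]**: the local data at the auxiliary levels give
(P1) at every level `M * q * q`, `q` prime, `q ∤ M`. -/
theorem inertTors_of_locData
    (h : ∀ (M q : ℕ) [NeZero M] [NeZero q] [Fact q.Prime], ¬ q ∣ M → Plan.AuxHyp q M →
      ∃ e : ℕ, e ≠ 0 ∧ CoreAsm3.LocDataStatement M q e) :
    ∀ (M q : ℕ) [NeZero M] [NeZero q], q.Prime → ¬ q ∣ M → Plan.InertTorsStatement M q :=
  inertTors_of_locData_of AuxNormCompat.normCompat h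

/-- **The seam (function-level route)**: with an exponent uniform in `M`, through
`Aux36F.kummerPow_aux`. -/
theorem inertTors_of_locData_unif
    (h : ∀ (q : ℕ) [NeZero q] [Fact q.Prime], ∃ e : ℕ, e ≠ 0 ∧
      ∀ (M : ℕ) [NeZero M], ¬ q ∣ M → Plan.AuxHyp q M → CoreAsm3.LocDataStatement M q e) :
    ∀ (M q : ℕ) [NeZero M] [NeZero q], q.Prime → ¬ q ∣ M → Plan.InertTorsStatement M q := by
  intro M q _ _ hq hqM
  haveI : Fact q.Prime := ⟨hq⟩
  obtain ⟨e, he, hL⟩ := h q
  obtain ⟨c', hc', hK⟩ := Aux36F.kummerPow_aux q e he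
    (fun M' _ hqM' haux => CoreAsm3.kummerPow_of_locData M' q e (hL M' hqM' haux)) M hqM
  exact FJ36.inertTors_of_kummerPow M q c' hc' hK

/-- **The seam with a prescribed exponent** `e q` (depending on `q` only), J-level route. -/
theorem inertTors_of_locData_exp (e : ℕ → ℕ) (he : ∀ q : ℕ, q.Prime → e q ≠ 0)
    (h : ∀ (M q : ℕ) [NeZero M] [NeZero q] [Fact q.Prime], ¬ q ∣ M → Plan.AuxHyp q M →
      CoreAsm3.LocDataStatement M q (e q)) :
    ∀ (M q : ℕ) [NeZero M] [NeZero q], q.Prime → ¬ q ∣ M → Plan.InertTorsStatement M q :=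
  inertTors_of_locData (fun M q _ _ hq hqM haux => ⟨e q, he q hq.out, h M q hqM haux⟩)

theorem chainExp_ne_zero {q : ℕ} (hq : q.Prime) : ((q + 1) * (q - 1)) ^ 2 ≠ 0 := by
  have h1 : q - 1 ≠ 0 := Nat.sub_ne_zero_of_lt hq.one_lt
  exact pow_ne_zero 2 (Nat.mul_ne_zero (Nat.succ_ne_zero q) h1)

/-- **The seam in the form consumed from the last-mile instance** (`ChainInst`): the local data
with the exponent `((q + 1) * (q - 1)) ^ 2` at the auxiliary levels give (P1) everywhere. -/
theorem inertTors_of_chain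
    (h : ∀ (M q : ℕ) [NeZero M] [NeZero q] [Fact q.Prime], ¬ q ∣ M → Plan.AuxHyp q M →
      CoreAsm3.LocDataStatement M q (((q + 1) * (q - 1)) ^ 2)) :
    ∀ (M q : ℕ) [NeZero M] [NeZero q], q.Prime → ¬ q ∣ M → Plan.InertTorsStatement M q :=
  inertTors_of_locData_exp (fun q => ((q + 1) * (q - 1)) ^ 2) (fun _ hq => chainExp_ne_zero hq) h

/-- The same through the function-level removal of the auxiliary level (`Aux36F`). -/
theorem inertTors_of_chain'
    (h : ∀ (M q : ℕ) [NeZero M] [NeZero q] [Fact q.Prime], ¬ q ∣ M → Plan.AuxHyp q M →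
      CoreAsm3.LocDataStatement M q (((q + 1) * (q - 1)) ^ 2)) :
    ∀ (M q : ℕ) [NeZero M] [NeZero q], q.Prime → ¬ q ∣ M → Plan.InertTorsStatement M q :=
  inertTors_of_locData_unif (fun q _ hq =>
    ⟨((q + 1) * (q - 1)) ^ 2, chainExp_ne_zero hq.out, fun M _ hqM haux => h M q hqM haux⟩)

/-! ### The seam at the level of (P3) (`Plan.KummerPowStatement`)

The route of record when the geometric chain is run over ONE base field per place (the inertia
field): the chain gives `Plan.KummerPowStatement M q c` at the auxiliary levels directly. -/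

/-- **The seam from (P3) at the auxiliary levels, J-level route**, exponent `e q`. -/
theorem inertTors_of_kummerPow_exp (e : ℕ → ℕ) (he : ∀ q : ℕ, q.Prime → e q ≠ 0)
    (h : ∀ (M q : ℕ) [NeZero M] [NeZero q] [Fact q.Prime], ¬ q ∣ M → Plan.AuxHyp q M →
      Plan.KummerPowStatement M q (e q)) :
    ∀ (M q : ℕ) [NeZero M] [NeZero q], q.Prime → ¬ q ∣ M → Plan.InertTorsStatement M q :=
  AuxTop.inertTors_of_aux AuxNormCompat.normCompat (fun M q _ _ hq hqM haux => by
    haveI : Fact q.Prime := ⟨hq⟩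
    exact FJ36.inertTors_of_kummerPow M q (e q) (he q hq) (h M q hqM haux))

/-- **The seam from (P3) at the auxiliary levels, function-level route** (`Aux36F`), exponent
`e q`. -/
theorem inertTors_of_kummerPow_exp' (e : ℕ → ℕ) (he : ∀ q : ℕ, q.Prime → e q ≠ 0)
    (h : ∀ (M q : ℕ) [NeZero M] [NeZero q] [Fact q.Prime], ¬ q ∣ M → Plan.AuxHyp q M →
      Plan.KummerPowStatement M q (e q)) :
    ∀ (M q : ℕ) [NeZero M] [NeZero q], q.Prime → ¬ q ∣ M → Plan.InertTorsStatement M q := by
  intro M q _ _ hq hqM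
  haveI : Fact q.Prime := ⟨hq⟩
  obtain ⟨c', hc', hK⟩ := Aux36F.kummerPow_aux q (e q) (he q hq)
    (fun M' _ hqM' haux => h M' q hqM' haux) M hqM
  exact FJ36.inertTors_of_kummerPow M q c' hc' hK

/-- **The seam from (P3) with the chain exponent** `((q + 1) * (q - 1)) ^ 2` (J-level route). -/
theorem inertTors_of_kummerPow_chain
    (h : ∀ (M q : ℕ) [NeZero M] [NeZero q] [Fact q.Prime], ¬ q ∣ M → Plan.AuxHyp q M →
      Plan.KummerPowStatement M q (((q + 1) * (q - 1)) ^ 2)) :
    ∀ (M q : ℕ) [NeZero M] [NeZero q], q.Prime → ¬ q ∣ M → Plan.InertTorsStatement M q :=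
  inertTors_of_kummerPow_exp (fun q => ((q + 1) * (q - 1)) ^ 2)
    (fun _ hq => chainExp_ne_zero hq) h

/-- The same through the function-level removal of the auxiliary level (`Aux36F`). -/
theorem inertTors_of_kummerPow_chain'
    (h : ∀ (M q : ℕ) [NeZero M] [NeZero q] [Fact q.Prime], ¬ q ∣ M → Plan.AuxHyp q M →
      Plan.KummerPowStatement M q (((q + 1) * (q - 1)) ^ 2)) :
    ∀ (M q : ℕ) [NeZero M] [NeZero q], q.Prime → ¬ q ∣ M → Plan.InertTorsStatement M q :=
  inertTors_of_kummerPow_exp' (fun q => ((q + 1) * (q - 1)) ^ 2)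
    (fun _ hq => chainExp_ne_zero hq) h

end Fermat.Agent.S36.Seam36
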