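/-
S36 — Seam36L.lean (helper39).  The SEAM over the inertia field (route of record).

    (∀ M q, ¬ q ∣ M → AuxHyp q M → LocAsm3L.ChainStatementL M q)
        ⟹  ∀ M q, q.Prime → ¬ q ∣ M → Plan.InertTorsStatement M q.

Chain: `LocAsm3L.kummerPow_of_chainL` ([ASM36] (E2) + [CORE] over the inertia field: the chain
inputs over `L = ℚ̄^{I_A}` give (P3) for every unramified base), then `Seam36` ([FJ36]: (P3) ⟹
(P1), and the removal of the auxiliary level [AUX]).

* `inertTors_of_chainL`   — J-level [AUX] route (`AuxTop.inertTors_of_aux`);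
* `inertTors_of_chainL'`  — function-level [AUX] route (`Aux36F.kummerPow_aux`);
* `inertTors_of_chainK`   — from the chain over all unramified bases (`LocAsm3.ChainStatement`).

The conclusion is the hypothesis `hIT` of the top (`result_of_inertTors`).
-/
import Mathlib
import Fermat.Agent.S36.Seam36
import Fermat.Agent.S36.LocAsm3L

set_option autoImplicit false

namespace Fermat.Agent.S36.Seam36L

/-- **The seam over the inertia field** (J-level [AUX] route): the chain inputs over
`L = ℚ̄^{I_A}` at the auxiliary levels give (P1) at every level `M * q * q`, `q` prime,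
`q ∤ M`. -/
theorem inertTors_of_chainL
    (h : ∀ (M q : ℕ) [NeZero M] [NeZero q] [Fact q.Prime], ¬ q ∣ M → Plan.AuxHyp q M →
      LocAsm3L.ChainStatementL M q) :
    ∀ (M q : ℕ) [NeZero M] [NeZero q], q.Prime → ¬ q ∣ M → Plan.InertTorsStatement M q :=
  Seam36.inertTors_of_kummerPow_chain (fun M q _ _ _ hqM haux =>
    LocAsm3L.kummerPow_of_chainL M q (h M q hqM haux))

/-- The same through the function-level removal of the auxiliary level (`Aux36F`). -/
theorem inertTors_of_chainL'
    (h : ∀ (M q : ℕ) [NeZero M] [NeZero q] [Fact q.Prime], ¬ q ∣ M → Plan.AuxHyp q M →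
      LocAsm3L.ChainStatementL M q) :
    ∀ (M q : ℕ) [NeZero M] [NeZero q], q.Prime → ¬ q ∣ M → Plan.InertTorsStatement M q :=
  Seam36.inertTors_of_kummerPow_chain' (fun M q _ _ _ hqM haux =>
    LocAsm3L.kummerPow_of_chainL M q (h M q hqM haux))

/-- The seam from the chain over ALL unramified bases (`LocAsm3.ChainStatement`). -/
theorem inertTors_of_chainK
    (h : ∀ (M q : ℕ) [NeZero M] [NeZero q] [Fact q.Prime], ¬ q ∣ M → Plan.AuxHyp q M →
      LocAsm3.ChainStatement M q) :
    ∀ (M q : ℕ) [NeZero M] [NeZero q], q.Prime → ¬ q ∣ M → Plan.InertTorsStatement M q :=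
  inertTors_of_chainL (fun M q _ _ _ hqM haux =>
    LocAsm3L.chainL_of_chain M q (h M q hqM haux))

end Fermat.Agent.S36.Seam36L
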