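/-
S36 — CuspOne.lean (helper89; package [MODEL3], leaf [CUSP1]): the cuspidal closed points of the
chart `J3⁻¹` of the level-`M q²` model are ONE-BRANCH points: a prime `n` of `chart J3⁻¹`
containing `J3⁻¹` lies on at most one of the three vertical primes `P 0`, `P 1`, `P 2`.

Notation: `a = j⁻¹`, `b = j_q⁻¹`, `c = j_{q²}⁻¹` (elements of the chart), and

  `μ = j_q / j^q`, `μ₂ = j_{q²} / j_q^q`, their `w_{q²}`-twins `μ' = j_q / j_{q²}^q`,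
  `μ₂' = j / j_q^q`, `y = j_{q²} / j^(q²) = μ₂ μ^q`, `y' = j / j_{q²}^(q²) = μ₂' μ'^q`.

* `eq_of_le_of_le` (abstract core): if `y ≡ 1` mod `P 0`, `y' ≡ 1` mod `P 1`, `y ≡ a^k`,
  `y' ≡ c^k` mod `P 2` and `y y' = (a c)^k` (`k > 0`), then a prime containing `a` and `c`
  contains at most one `P i`;
* `mem_of_cusp` : `a b c ∈ n` forces `a, b, c ∈ n` (`a^q = b μ`, `b^q = c μ₂`, `c^q = b μ'`,
  `b^q = a μ₂'`);
* `one_branch_chart` : the statement for `chart J3⁻¹` against ANY `ChartHyp3 π ϖ V P`, from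
  the two chart memberships `μ, μ₂ ∈ chart J3⁻¹` ([CUSP-a]) and the congruences
  `y - 1 ∈ ϖ 0 (V 0)`, `y' - 1 ∈ ϖ 1 (V 1)`, `j_{q²} - j ∈ ϖ 2 (V 2)`;
* `one_branch` : the same for `V 0 = W1 = GaussV.V1`, `V 1 = W2 = GaussV.V2 w_{q²}`,
  `ϖ 0 = ϖ 1 = π` (the two Gauss congruences are proved here from `Wit3.gRel_frob2`), `V 2`
  arbitrary with `j_{q²} - j ∈ ϖ 2 (V 2)`.
-/
import Mathlib
import Fermat.Agent.S36.Model3Plan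
import Fermat.Agent.S36.Chart3B
import Fermat.Agent.S36.Wit3

set_option autoImplicit false

open ModularCurve AlgebraicCurve HahnSeries

namespace Fermat.Agent.S36.CuspOne

open Fermat.Agent.S18 Fermat.Agent.S18.Arith Fermat.Agent.S34 Fermat.Agent.S36

/-! ### Abstract core -/

section Abstract

variable {R : Type*} [CommRing R]

/-- **Abstract core.**  A prime `n ∋ a, c` contains at most one of `P 0`, `P 1`, `P 2`. -/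
theorem eq_of_le_of_le (P : Fin 3 → Ideal R) (k : ℕ) (hk : 0 < k) (a c y y' : R)
    (h0 : y - 1 ∈ P 0) (h1 : y' - 1 ∈ P 1)
    (h2 : y - a ^ k ∈ P 2) (h2' : y' - c ^ k ∈ P 2)
    (hyy' : y * y' = (a * c) ^ k)
    (n : Ideal R) (hn : n.IsPrime) (ha : a ∈ n) (hc : c ∈ n) :
    ∀ i j : Fin 3, P i ≤ n → P j ≤ n → i = j := by
  have h1n : (1 : R) ∉ n := fun h => hn.ne_top ((Ideal.eq_top_iff_one n).mpr h)
  have hak : a ^ k ∈ n := Ideal.pow_mem_of_mem n ha k hk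
  have hck : c ^ k ∈ n := Ideal.pow_mem_of_mem n hc k hk
  -- the three incompatibilities
  have A02 : P 0 ≤ n → P 2 ≤ n → False := by
    intro hP0 hP2
    apply h1n
    have hy : y ∈ n := by
      have := n.add_mem (hP2 h2) hak
      simpa using this
    have := n.sub_mem hy (hP0 h0)
    simpa using this
  have A12 : P 1 ≤ n → P 2 ≤ n → False := by
    intro hP1 hP2
    apply h1n
    have hy : y' ∈ n := by
      have := n.add_mem (hP2 h2') hck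
      simpa using this
    have := n.sub_mem hy (hP1 h1)
    simpa using this
  have A01 : P 0 ≤ n → P 1 ≤ n → False := by
    intro hP0 hP1
    apply h1n
    have hyy : y * y' ∈ n := by
      rw [hyy']
      exact Ideal.pow_mem_of_mem n (n.mul_mem_right _ ha) k hk
    have e : (1 : R) = y * y' - ((y - 1) * y' + (y' - 1)) := by ring
    rw [e]
    exact n.sub_mem hyy (n.add_mem (n.mul_mem_right _ (hP0 h0)) (hP1 h1))
  intro i j hi hj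
  fin_cases i <;> fin_cases j
  · rfl
  · exact (A01 hi hj).elim
  · exact (A02 hi hj).elim
  · exact (A01 hj hi).elim
  · rfl
  · exact (A12 hi hj).elim
  · exact (A02 hj hi).elim
  · exact (A12 hj hi).elim
  · rfl

/-- At a cusp all three of `a = j⁻¹`, `b = j_q⁻¹`, `c = j_{q²}⁻¹` vanish. -/
theorem mem_of_cusp (n : Ideal R) (hn : n.IsPrime) (q : ℕ) (a b c μ μ₂ μ' μ₂' : R)
    (hμ : a ^ q = b * μ) (hμ₂ : b ^ q = c * μ₂) (hμ' : c ^ q = b * μ') (hμ₂' : b ^ q = a * μ₂')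
    (h : a * b * c ∈ n) : a ∈ n ∧ b ∈ n ∧ c ∈ n := by
  have hba : b ∈ n → a ∈ n := fun hb =>
    hn.mem_of_pow_mem q (by rw [hμ]; exact n.mul_mem_right _ hb)
  have hcb : c ∈ n → b ∈ n := fun hc =>
    hn.mem_of_pow_mem q (by rw [hμ₂]; exact n.mul_mem_right _ hc)
  have hbc : b ∈ n → c ∈ n := fun hb =>
    hn.mem_of_pow_mem q (by rw [hμ']; exact n.mul_mem_right _ hb)
  have hab : a ∈ n → b ∈ n := fun ha =>
    hn.mem_of_pow_mem q (by rw [hμ₂']; exact n.mul_mem_right _ ha)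
  rcases hn.mem_or_mem h with h' | hc
  · rcases hn.mem_or_mem h' with ha | hb
    · exact ⟨ha, hab ha, hbc (hab ha)⟩
    · exact ⟨hba hb, hb, hbc hb⟩
  · exact ⟨hba (hcb hc), hcb hc, hc⟩

variable {E : Type*} [Field E]

theorem aux_y (q : ℕ) (j jq jqq : E) (hjq : jq ≠ 0) :
    jqq * jq⁻¹ ^ q * (jq * j⁻¹ ^ q) ^ q = jqq * j⁻¹ ^ (q ^ 2) := by
  have h : jq⁻¹ ^ q * jq ^ q = 1 := by rw [← mul_pow, inv_mul_cancel₀ hjq, one_pow]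
  calc jqq * jq⁻¹ ^ q * (jq * j⁻¹ ^ q) ^ q
      = jqq * (jq⁻¹ ^ q * jq ^ q) * (j⁻¹ ^ q) ^ q := by rw [mul_pow]; ring
    _ = jqq * j⁻¹ ^ (q ^ 2) := by rw [h, mul_one, ← pow_mul, sq]

theorem aux_k (Q : ℕ) (hQ : 0 < Q) (j jqq : E) (hj : j ≠ 0) :
    jqq * j⁻¹ ^ Q - j⁻¹ ^ (Q - 1) = (jqq - j) * j⁻¹ ^ Q := by
  obtain ⟨k, rfl⟩ : ∃ k, Q = k + 1 := ⟨Q - 1, by omega⟩
  rw [Nat.add_sub_cancel, pow_succ]
  field_simp

theorem aux_yy (Q : ℕ) (hQ : 0 < Q) (j jqq : E) (hj : j ≠ 0) (hjqq : jqq ≠ 0) :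
    (jqq * j⁻¹ ^ Q) * (j * jqq⁻¹ ^ Q) = (j⁻¹ * jqq⁻¹) ^ (Q - 1) := by
  obtain ⟨k, rfl⟩ : ∃ k, Q = k + 1 := ⟨Q - 1, by omega⟩
  rw [Nat.add_sub_cancel, pow_succ, pow_succ, mul_pow]
  field_simp

end Abstract

/-! ### The chart `J3⁻¹` -/

noncomputable section

set_option synthInstance.maxHeartbeats 400000

variable (M q : ℕ) [NeZero M] [NeZero q] (hq : q.Prime) (hqM : ¬ q ∣ M)
variable (A : ValuationSubring Qb) (K : IntermediateField ℚ Qb)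

/-- **[CUSP1], chart form.**  A prime `n ∋ J3⁻¹` of `chart J3⁻¹` lies on at most one of the
vertical primes, for ANY `ChartHyp3 π ϖ V P` on `chart J3⁻¹`, given the chart memberships of
`μ = j_q / j^q`, `μ₂ = j_{q²} / j_q^q` and the three congruences. -/
theorem one_branch_chart
    {π : OK A K} {ϖ : Fin 3 → FK (M * q * q) K}
    {V : Fin 3 → ValuationSubring (FK (M * q * q) K)}
    {P : Fin 3 → Ideal ↥(chart (M * q * q) A K (Chart3B.J3 M q hq hqM K)⁻¹)}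
    (hyp : Model3Plan.ChartHyp3 π ϖ V P)
    (hμ : WQ2.jqK2 M q hq hqM K * (jK (M * q * q) K)⁻¹ ^ q ∈
      chart (M * q * q) A K (Chart3B.J3 M q hq hqM K)⁻¹)
    (hμ₂ : WQ2.jqqK2 M q hq hqM K * (WQ2.jqK2 M q hq hqM K)⁻¹ ^ q ∈
      chart (M * q * q) A K (Chart3B.J3 M q hq hqM K)⁻¹)
    (h0 : ∃ v ∈ V 0,
      WQ2.jqqK2 M q hq hqM K * (jK (M * q * q) K)⁻¹ ^ (q ^ 2) - 1 = ϖ 0 * v)
    (h1 : ∃ v ∈ V 1,
      jK (M * q * q) K * (WQ2.jqqK2 M q hq hqM K)⁻¹ ^ (q ^ 2) - 1 = ϖ 1 * v)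
    (h2 : ∃ v ∈ V 2, WQ2.jqqK2 M q hq hqM K - jK (M * q * q) K = ϖ 2 * v) :
    ∀ n : Ideal ↥(chart (M * q * q) A K (Chart3B.J3 M q hq hqM K)⁻¹), n.IsPrime →
      (⟨(Chart3B.J3 M q hq hqM K)⁻¹, Chart3B.J3_inv_mem_chart M q hq hqM A K⟩ :
        ↥(chart (M * q * q) A K (Chart3B.J3 M q hq hqM K)⁻¹)) ∈ n →
      ∀ i j : Fin 3, P i ≤ n → P j ≤ n → i = j := by
  intro n hn hJ
  have hq0 : 0 < q := hq.pos
  have hQ : 0 < q ^ 2 := pow_pos hq0 2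
  have hj0 : jK (M * q * q) K ≠ 0 := ModelBasicCore.jK_ne_zero (M * q * q) K
  have hjq0 : WQ2.jqK2 M q hq hqM K ≠ 0 := Chart3B.jqK2_ne_zero M q hq hqM K
  have hjqq0 : WQ2.jqqK2 M q hq hqM K ≠ 0 := Chart3B.jqqK2_ne_zero M q hq hqM K
  -- the `w_{q²}`-twins of `μ`, `μ₂`
  have hμ' : WQ2.jqK2 M q hq hqM K * (WQ2.jqqK2 M q hq hqM K)⁻¹ ^ q ∈
      chart (M * q * q) A K (Chart3B.J3 M q hq hqM K)⁻¹ := by
    have h := Chart3B.wK2_mem_chart_J3_inv M q hq hqM A K hμ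
    rwa [map_mul, map_pow, map_inv₀, WQ2.wK2_jqK2, WQ2.wK2_jK] at h
  have hμ₂' : jK (M * q * q) K * (WQ2.jqK2 M q hq hqM K)⁻¹ ^ q ∈
      chart (M * q * q) A K (Chart3B.J3 M q hq hqM K)⁻¹ := by
    have h := Chart3B.wK2_mem_chart_J3_inv M q hq hqM A K hμ₂
    rwa [map_mul, map_pow, map_inv₀, WQ2.wK2_jqqK2, WQ2.wK2_jqK2] at h
  -- the elements of the chart
  obtain ⟨a, ha⟩ : ∃ a : ↥(chart (M * q * q) A K (Chart3B.J3 M q hq hqM K)⁻¹),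
      (a : FK (M * q * q) K) = (jK (M * q * q) K)⁻¹ :=
    ⟨⟨_, Chart3B.jK_inv_mem_chart_J3_inv M q hq hqM A K⟩, rfl⟩
  obtain ⟨b, hb⟩ : ∃ b : ↥(chart (M * q * q) A K (Chart3B.J3 M q hq hqM K)⁻¹),
      (b : FK (M * q * q) K) = (WQ2.jqK2 M q hq hqM K)⁻¹ :=
    ⟨⟨_, Chart3B.jqK2_inv_mem_chart_J3_inv M q hq hqM A K⟩, rfl⟩
  obtain ⟨c, hc⟩ : ∃ c : ↥(chart (M * q * q) A K (Chart3B.J3 M q hq hqM K)⁻¹),
      (c : FK (M * q * q) K) = (WQ2.jqqK2 M q hq hqM K)⁻¹ :=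
    ⟨⟨_, Chart3B.jqqK2_inv_mem_chart_J3_inv M q hq hqM A K⟩, rfl⟩
  obtain ⟨μ, hμe⟩ : ∃ μ : ↥(chart (M * q * q) A K (Chart3B.J3 M q hq hqM K)⁻¹),
      (μ : FK (M * q * q) K) = WQ2.jqK2 M q hq hqM K * (jK (M * q * q) K)⁻¹ ^ q :=
    ⟨⟨_, hμ⟩, rfl⟩
  obtain ⟨μ₂, hμ₂e⟩ : ∃ μ₂ : ↥(chart (M * q * q) A K (Chart3B.J3 M q hq hqM K)⁻¹),
      (μ₂ : FK (M * q * q) K) = WQ2.jqqK2 M q hq hqM K * (WQ2.jqK2 M q hq hqM K)⁻¹ ^ q :=
    ⟨⟨_, hμ₂⟩, rfl⟩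
  obtain ⟨μ', hμ'e⟩ : ∃ μ' : ↥(chart (M * q * q) A K (Chart3B.J3 M q hq hqM K)⁻¹),
      (μ' : FK (M * q * q) K) = WQ2.jqK2 M q hq hqM K * (WQ2.jqqK2 M q hq hqM K)⁻¹ ^ q :=
    ⟨⟨_, hμ'⟩, rfl⟩
  obtain ⟨μ₂', hμ₂'e⟩ : ∃ μ₂' : ↥(chart (M * q * q) A K (Chart3B.J3 M q hq hqM K)⁻¹),
      (μ₂' : FK (M * q * q) K) = jK (M * q * q) K * (WQ2.jqK2 M q hq hqM K)⁻¹ ^ q :=
    ⟨⟨_, hμ₂'⟩, rfl⟩
  -- relations
  have r1 : a ^ q = b * μ := by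
    apply Subtype.ext
    push_cast
    rw [ha, hb, hμe, ← mul_assoc, inv_mul_cancel₀ hjq0, one_mul]
  have r2 : b ^ q = c * μ₂ := by
    apply Subtype.ext
    push_cast
    rw [hb, hc, hμ₂e, ← mul_assoc, inv_mul_cancel₀ hjqq0, one_mul]
  have r3 : c ^ q = b * μ' := by
    apply Subtype.ext
    push_cast
    rw [hb, hc, hμ'e, ← mul_assoc, inv_mul_cancel₀ hjq0, one_mul]
  have r4 : b ^ q = a * μ₂' := by
    apply Subtype.ext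
    push_cast
    rw [ha, hb, hμ₂'e, ← mul_assoc, inv_mul_cancel₀ hj0, one_mul]
  have habc : a * b * c ∈ n := by
    have e : a * b * c = (⟨(Chart3B.J3 M q hq hqM K)⁻¹, Chart3B.J3_inv_mem_chart M q hq hqM A K⟩ :
        ↥(chart (M * q * q) A K (Chart3B.J3 M q hq hqM K)⁻¹)) := by
      apply Subtype.ext
      push_cast
      rw [ha, hb, hc, Chart3B.J3_eq, mul_inv, mul_inv]
    rw [e]
    exact hJ
  obtain ⟨han, -, hcn⟩ := mem_of_cusp n hn q a b c μ μ₂ μ' μ₂' r1 r2 r3 r4 habc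
  -- `y`, `y'`
  have ey : ((μ₂ * μ ^ q : ↥(chart (M * q * q) A K (Chart3B.J3 M q hq hqM K)⁻¹)) :
      FK (M * q * q) K) = WQ2.jqqK2 M q hq hqM K * (jK (M * q * q) K)⁻¹ ^ (q ^ 2) := by
    push_cast
    rw [hμe, hμ₂e]
    exact aux_y q _ _ _ hjq0
  have ey' : ((μ₂' * μ' ^ q : ↥(chart (M * q * q) A K (Chart3B.J3 M q hq hqM K)⁻¹)) :
      FK (M * q * q) K) = jK (M * q * q) K * (WQ2.jqqK2 M q hq hqM K)⁻¹ ^ (q ^ 2) := by
    push_cast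
    rw [hμ'e, hμ₂'e]
    exact aux_y q _ _ _ hjq0
  have haV2 : (jK (M * q * q) K)⁻¹ ∈ V 2 := by
    have := hyp.le 2 a
    rwa [← ha]
  have hcV2 : (WQ2.jqqK2 M q hq hqM K)⁻¹ ∈ V 2 := by
    have := hyp.le 2 c
    rwa [← hc]
  refine eq_of_le_of_le P (q ^ 2 - 1) (by have : 2 ≤ q := hq.two_le; have : 2 ^ 2 ≤ q ^ 2 := Nat.pow_le_pow_left this 2; omega) a c (μ₂ * μ ^ q) (μ₂' * μ' ^ q) ?_ ?_ ?_ ?_ ?_ n hn han hcn
  · -- `y - 1 ∈ P 0`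
    obtain ⟨v, hv, e⟩ := h0
    refine (hyp.mem_P 0 _).mpr ⟨v, hv, ?_⟩
    show ((μ₂ * μ ^ q - 1 : ↥(chart (M * q * q) A K (Chart3B.J3 M q hq hqM K)⁻¹)) :
      FK (M * q * q) K) = ϖ 0 * v
    rw [← e, ← ey]
    push_cast
    rfl
  · -- `y' - 1 ∈ P 1`
    obtain ⟨v, hv, e⟩ := h1
    refine (hyp.mem_P 1 _).mpr ⟨v, hv, ?_⟩
    show ((μ₂' * μ' ^ q - 1 : ↥(chart (M * q * q) A K (Chart3B.J3 M q hq hqM K)⁻¹)) :
      FK (M * q * q) K) = ϖ 1 * v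
    rw [← e, ← ey']
    push_cast
    rfl
  · -- `y - a ^ k ∈ P 2`
    obtain ⟨v, hv, e⟩ := h2
    refine (hyp.mem_P 2 _).mpr ⟨v * (jK (M * q * q) K)⁻¹ ^ (q ^ 2),
      mul_mem hv (pow_mem haV2 _), ?_⟩
    show ((μ₂ * μ ^ q - a ^ (q ^ 2 - 1) : ↥(chart (M * q * q) A K (Chart3B.J3 M q hq hqM K)⁻¹)) :
      FK (M * q * q) K) = ϖ 2 * (v * (jK (M * q * q) K)⁻¹ ^ (q ^ 2))
    rw [← mul_assoc, ← e, ← aux_k (q ^ 2) hQ _ _ hj0, ← ey, ← ha]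
    push_cast
    rfl
  · -- `y' - c ^ k ∈ P 2`
    obtain ⟨v, hv, e⟩ := h2
    refine (hyp.mem_P 2 _).mpr ⟨-(v * (WQ2.jqqK2 M q hq hqM K)⁻¹ ^ (q ^ 2)),
      neg_mem (mul_mem hv (pow_mem hcV2 _)), ?_⟩
    show ((μ₂' * μ' ^ q - c ^ (q ^ 2 - 1) : ↥(chart (M * q * q) A K (Chart3B.J3 M q hq hqM K)⁻¹)) :
      FK (M * q * q) K) = ϖ 2 * -(v * (WQ2.jqqK2 M q hq hqM K)⁻¹ ^ (q ^ 2))
    have e' : ϖ 2 * -(v * (WQ2.jqqK2 M q hq hqM K)⁻¹ ^ (q ^ 2)) =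
        (jK (M * q * q) K - WQ2.jqqK2 M q hq hqM K) * (WQ2.jqqK2 M q hq hqM K)⁻¹ ^ (q ^ 2) := by
      have : jK (M * q * q) K - WQ2.jqqK2 M q hq hqM K = -(ϖ 2 * v) := by rw [← e]; ring
      rw [this]; ring
    rw [e', ← aux_k (q ^ 2) hQ _ _ hjqq0, ← ey', ← hc]
    push_cast
    rfl
  · -- `y * y' = (a * c) ^ k`
    apply Subtype.ext
    have h := aux_yy (q ^ 2) hQ (jK (M * q * q) K) (WQ2.jqqK2 M q hq hqM K) hj0 hjqq0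
    rw [← ey, ← ey', ← ha, ← hc] at h
    rw [Subalgebra.coe_mul, h]
    push_cast
    rfl

/-! ### The first two branches `W1 = GaussV.V1`, `W2 = GaussV.V2 w_{q²}` -/

/-- Gauss congruence on `W1`: `j_{q²} / j^(q²) ≡ 1` modulo `π`. -/
theorem y_pi1 (hdvr : IsDiscreteValuationRing (OK A K)) (hA : A.LiesOverPrime q)
    {π : OK A K} (hπ : Irreducible π) :
    ∃ v ∈ GaussV.V1 (M * q * q) A K hdvr,
      WQ2.jqqK2 M q hq hqM K * (jK (M * q * q) K)⁻¹ ^ (q ^ 2) - 1 =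
        algebraMap (OK A K) (FK (M * q * q) K) π * v := by
  have : Fact q.Prime := ⟨hq⟩
  have hj0 : jK (M * q * q) K ≠ 0 := ModelBasicCore.jK_ne_zero (M * q * q) K
  obtain ⟨z, hz, e⟩ := Wit3.pi1_of_gRel_zero hdvr hπ
    (x := WQ2.jqqK2 M q hq hqM K - jK (M * q * q) K ^ (q ^ 2))
    (by
      rw [Subfield.coe_sub, SubmonoidClass.coe_pow, Wit3.coe_jqq, ModelQFrac.coe_jK]
      exact Wit3.gRel_frob2 A q hA)
  refine ⟨z * (jK (M * q * q) K)⁻¹ ^ (q ^ 2),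
    mul_mem hz (pow_mem (GaussV.jK_inv_mem_V1 hdvr) _), ?_⟩
  rw [← mul_assoc, ← e, sub_mul, inv_pow, mul_inv_cancel₀ (pow_ne_zero _ hj0)]

/-- Gauss congruence on `W2`: `j / j_{q²}^(q²) ≡ 1` modulo `π`. -/
theorem y'_pi2 (hdvr : IsDiscreteValuationRing (OK A K)) (hA : A.LiesOverPrime q)
    {π : OK A K} (hπ : Irreducible π) :
    ∃ v ∈ GaussV.V2 (WQ2.wK2 M q hq hqM K) hdvr,
      jK (M * q * q) K * (WQ2.jqqK2 M q hq hqM K)⁻¹ ^ (q ^ 2) - 1 =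
        algebraMap (OK A K) (FK (M * q * q) K) π * v := by
  refine Wit3.pi2_of_pi1 _ (WQ2.wK2_algebraMap_OK M q hq hqM K A) hdvr ?_
  rw [map_sub, map_mul, map_pow, map_inv₀, map_one, WQ2.wK2_jK, WQ2.wK2_jqqK2]
  exact y_pi1 M q hq hqM A K hdvr hA hπ

/-- **[CUSP1]** for `V 0 = W1`, `V 1 = W2`, `ϖ 0 = ϖ 1 = π` and any third branch `V 2` with
`j_{q²} - j ∈ ϖ 2 (V 2)`: a prime `n ∋ J3⁻¹` of `chart J3⁻¹` lies on at most one vertical prime.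
The only open inputs are the chart memberships of `j_q / j^q` and `j_{q²} / j_q^q`. -/
theorem one_branch (hdvr : IsDiscreteValuationRing (OK A K)) (hA : A.LiesOverPrime q)
    {π : OK A K} (hπ : Irreducible π) {ϖ : Fin 3 → FK (M * q * q) K}
    {V : Fin 3 → ValuationSubring (FK (M * q * q) K)}
    {P : Fin 3 → Ideal ↥(chart (M * q * q) A K (Chart3B.J3 M q hq hqM K)⁻¹)}
    (hyp : Model3Plan.ChartHyp3 π ϖ V P)
    (hV0 : V 0 = GaussV.V1 (M * q * q) A K hdvr)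
    (hV1 : V 1 = GaussV.V2 (WQ2.wK2 M q hq hqM K) hdvr)
    (hϖ0 : ϖ 0 = algebraMap (OK A K) (FK (M * q * q) K) π)
    (hϖ1 : ϖ 1 = algebraMap (OK A K) (FK (M * q * q) K) π)
    (h2 : ∃ v ∈ V 2, Wit3.sE M q hq hqM K = ϖ 2 * v)
    (hμ : WQ2.jqK2 M q hq hqM K * (jK (M * q * q) K)⁻¹ ^ q ∈
      chart (M * q * q) A K (Chart3B.J3 M q hq hqM K)⁻¹)
    (hμ₂ : WQ2.jqqK2 M q hq hqM K * (WQ2.jqK2 M q hq hqM K)⁻¹ ^ q ∈
      chart (M * q * q) A K (Chart3B.J3 M q hq hqM K)⁻¹) :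
    ∀ n : Ideal ↥(chart (M * q * q) A K (Chart3B.J3 M q hq hqM K)⁻¹), n.IsPrime →
      (⟨(Chart3B.J3 M q hq hqM K)⁻¹, Chart3B.J3_inv_mem_chart M q hq hqM A K⟩ :
        ↥(chart (M * q * q) A K (Chart3B.J3 M q hq hqM K)⁻¹)) ∈ n →
      ∀ i j : Fin 3, P i ≤ n → P j ≤ n → i = j := by
  refine one_branch_chart M q hq hqM A K hyp hμ hμ₂ ?_ ?_ h2
  · rw [hV0, hϖ0]
    exact y_pi1 M q hq hqM A K hdvr hA hπ
  · rw [hV1, hϖ1]
    exact y'_pi2 M q hq hqM A K hdvr hA hπ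

/-- **[CUSP1]**, in the shape asked by the [MODEL3] assembly (maximal ideals of the special
fibre). -/
theorem one_branch_max (hdvr : IsDiscreteValuationRing (OK A K)) (hA : A.LiesOverPrime q)
    {π : OK A K} (hπ : Irreducible π) {ϖ : Fin 3 → FK (M * q * q) K}
    {V : Fin 3 → ValuationSubring (FK (M * q * q) K)}
    {P : Fin 3 → Ideal ↥(chart (M * q * q) A K (Chart3B.J3 M q hq hqM K)⁻¹)}
    (hyp : Model3Plan.ChartHyp3 π ϖ V P)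
    (hV0 : V 0 = GaussV.V1 (M * q * q) A K hdvr)
    (hV1 : V 1 = GaussV.V2 (WQ2.wK2 M q hq hqM K) hdvr)
    (hϖ0 : ϖ 0 = algebraMap (OK A K) (FK (M * q * q) K) π)
    (hϖ1 : ϖ 1 = algebraMap (OK A K) (FK (M * q * q) K) π)
    (h2 : ∃ v ∈ V 2, Wit3.sE M q hq hqM K = ϖ 2 * v)
    (hμ : WQ2.jqK2 M q hq hqM K * (jK (M * q * q) K)⁻¹ ^ q ∈
      chart (M * q * q) A K (Chart3B.J3 M q hq hqM K)⁻¹)
    (hμ₂ : WQ2.jqqK2 M q hq hqM K * (WQ2.jqK2 M q hq hqM K)⁻¹ ^ q ∈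
      chart (M * q * q) A K (Chart3B.J3 M q hq hqM K)⁻¹) :
    ∀ n : Ideal ↥(chart (M * q * q) A K (Chart3B.J3 M q hq hqM K)⁻¹), n.IsMaximal →
      algebraMap (OK A K) ↥(chart (M * q * q) A K (Chart3B.J3 M q hq hqM K)⁻¹) π ∈ n →
      (⟨(Chart3B.J3 M q hq hqM K)⁻¹, Chart3B.J3_inv_mem_chart M q hq hqM A K⟩ :
        ↥(chart (M * q * q) A K (Chart3B.J3 M q hq hqM K)⁻¹)) ∈ n →
      ∀ i j : Fin 3, P i ≤ n → P j ≤ n → i = j :=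
  fun n hn _ hJ =>
    one_branch M q hq hqM A K hdvr hA hπ hyp hV0 hV1 hϖ0 hϖ1 h2 hμ hμ₂ n hn.isPrime hJ

end

end Fermat.Agent.S36.CuspOne
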