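/-
S36 — CuspOneInst.lean (helper89; package [MODEL3], leaf [CUSP1], CLOSED form).

`CuspOne.one_branch` with its two open inputs (the chart memberships of `j_q / j^q` and
`j_{q²} / j_q^q` in `chart J3⁻¹`, [CUSP-a]) discharged by `CuspAlg.v1_mem`, `CuspAlg.v3_mem`
(helper44).  What remains are model-side identifications only: a `ChartHyp3 π ϖ V P` on
`chart J3⁻¹` with `V 0 = W1 = GaussV.V1`, `V 1 = W2 = GaussV.V2 w_{q²}`, `ϖ 0 = ϖ 1 = π` and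
`j_{q²} - j ∈ ϖ 2 (V 2)`.

* `cusp_one_prime` : a PRIME `n ∋ J3⁻¹` of `chart J3⁻¹` lies on at most one vertical prime;
* `cusp_one`       : the same for the closed points of the special fibre
                     (= `TorOutInst.CuspOne π J3 P`, `ChartGlueInst` `hone`);
* `not_01`, `not_02`, `not_12`, `not_of_ne` : the pairwise forms (`hcusp01`, `hother` of
  `Princ3.pi_genAt`, "`n` is not on `W1`, `W2`" of [N10]);
* `cusp_one_w3`    : the case `ϖ = ![π, π, sE]`, `V = ![W1, W2, W3]` (any `W3`).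
-/
import Mathlib
import Fermat.Agent.S36.CuspOne
import Fermat.Agent.S36.CuspAlg

set_option autoImplicit false

open ModularCurve AlgebraicCurve HahnSeries

namespace Fermat.Agent.S36.CuspOneInst

open Fermat.Agent.S18 Fermat.Agent.S18.Arith Fermat.Agent.S34 Fermat.Agent.S36

noncomputable section

set_option synthInstance.maxHeartbeats 400000

variable (M q : ℕ) [NeZero M] [NeZero q] (hq : q.Prime) (hqM : ¬ q ∣ M)
variable (A : ValuationSubring Qb) (K : IntermediateField ℚ Qb)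

/-- `j_q / j^q ∈ chart J3⁻¹` ([CUSP-a], helper44 `CuspAlg.v1_mem`). -/
theorem mu_mem : WQ2.jqK2 M q hq hqM K * (jK (M * q * q) K)⁻¹ ^ q ∈
    chart (M * q * q) A K (Chart3B.J3 M q hq hqM K)⁻¹ :=
  CuspAlg.v1_mem q hq M hqM A K

/-- `j_{q²} / j_q^q ∈ chart J3⁻¹` ([CUSP-a], helper44 `CuspAlg.v3_mem`). -/
theorem mu₂_mem : WQ2.jqqK2 M q hq hqM K * (WQ2.jqK2 M q hq hqM K)⁻¹ ^ q ∈
    chart (M * q * q) A K (Chart3B.J3 M q hq hqM K)⁻¹ :=
  CuspAlg.v3_mem q hq M hqM A K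

section

variable (hdvr : IsDiscreteValuationRing (OK A K)) (hA : A.LiesOverPrime q)
  {π : OK A K} (hπ : Irreducible π) {ϖ : Fin 3 → FK (M * q * q) K}
  {V : Fin 3 → ValuationSubring (FK (M * q * q) K)}
  {P : Fin 3 → Ideal ↥(chart (M * q * q) A K (Chart3B.J3 M q hq hqM K)⁻¹)}
  (hyp : Model3Plan.ChartHyp3 π ϖ V P)
  (hV0 : V 0 = GaussV.V1 (M * q * q) A K hdvr)
  (hV1 : V 1 = GaussV.V2 (WQ2.wK2 M q hq hqM K) hdvr)
  (hϖ0 : ϖ 0 = algebraMap (OK A K) (FK (M * q * q) K) π)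
  (hϖ1 : ϖ 1 = algebraMap (OK A K) (FK (M * q * q) K) π)
  (h2 : ∃ v ∈ V 2, Wit3.sE M q hq hqM K = ϖ 2 * v)

include hA hπ hyp hV0 hV1 hϖ0 hϖ1 h2

/-- **[CUSP1], closed.**  A prime `n ∋ J3⁻¹` of `chart J3⁻¹` lies on at most one of the three
vertical primes. -/
theorem cusp_one_prime :
    ∀ n : Ideal ↥(chart (M * q * q) A K (Chart3B.J3 M q hq hqM K)⁻¹), n.IsPrime →
      (⟨(Chart3B.J3 M q hq hqM K)⁻¹, Chart3B.J3_inv_mem_chart M q hq hqM A K⟩ :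
        ↥(chart (M * q * q) A K (Chart3B.J3 M q hq hqM K)⁻¹)) ∈ n →
      ∀ i j : Fin 3, P i ≤ n → P j ≤ n → i = j :=
  CuspOne.one_branch M q hq hqM A K hdvr hA hπ hyp hV0 hV1 hϖ0 hϖ1 h2
    (mu_mem M q hq hqM A K) (mu₂_mem M q hq hqM A K)

/-- **[CUSP1], closed**, for the closed points of the special fibre (the shape of
`TorOutInst.CuspOne π J3 P` and of `hone` in `ChartGlueInst.htripleInf_of_one`). -/
theorem cusp_one :
    ∀ n : Ideal ↥(chart (M * q * q) A K (Chart3B.J3 M q hq hqM K)⁻¹), n.IsMaximal →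
      algebraMap (OK A K) ↥(chart (M * q * q) A K (Chart3B.J3 M q hq hqM K)⁻¹) π ∈ n →
      (⟨(Chart3B.J3 M q hq hqM K)⁻¹, Chart3B.J3_inv_mem_chart M q hq hqM A K⟩ :
        ↥(chart (M * q * q) A K (Chart3B.J3 M q hq hqM K)⁻¹)) ∈ n →
      ∀ i j : Fin 3, P i ≤ n → P j ≤ n → i = j :=
  fun n hn _ hJ =>
    cusp_one_prime M q hq hqM A K hdvr hA hπ hyp hV0 hV1 hϖ0 hϖ1 h2 n hn.isPrime hJ

/-- At a cusp, `P j ≤ n` fails for every `j` other than a branch `i` through `n` (the `hother`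
of `Princ3.pi_genAt`; for `i = 2`: a cusp of `W3` is neither on `W1` nor on `W2`). -/
theorem not_of_ne (n : Ideal ↥(chart (M * q * q) A K (Chart3B.J3 M q hq hqM K)⁻¹))
    (hn : n.IsPrime)
    (hJ : (⟨(Chart3B.J3 M q hq hqM K)⁻¹, Chart3B.J3_inv_mem_chart M q hq hqM A K⟩ :
      ↥(chart (M * q * q) A K (Chart3B.J3 M q hq hqM K)⁻¹)) ∈ n)
    (i : Fin 3) (hi : P i ≤ n) : ∀ j : Fin 3, j ≠ i → ¬ P j ≤ n :=
  fun j hji hj => hji
    (cusp_one_prime M q hq hqM A K hdvr hA hπ hyp hV0 hV1 hϖ0 hϖ1 h2 n hn hJ j i hj hi)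

/-- No cusp lies on both `W1` and `W2` (`hcusp01`; makes [TRIPLE] vacuous at the cusps). -/
theorem not_01 (n : Ideal ↥(chart (M * q * q) A K (Chart3B.J3 M q hq hqM K)⁻¹))
    (hn : n.IsPrime)
    (hJ : (⟨(Chart3B.J3 M q hq hqM K)⁻¹, Chart3B.J3_inv_mem_chart M q hq hqM A K⟩ :
      ↥(chart (M * q * q) A K (Chart3B.J3 M q hq hqM K)⁻¹)) ∈ n) :
    ¬ (P 0 ≤ n ∧ P 1 ≤ n) := fun h =>
  absurd (cusp_one_prime M q hq hqM A K hdvr hA hπ hyp hV0 hV1 hϖ0 hϖ1 h2 n hn hJ 0 1 h.1 h.2)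
    (by decide)

/-- No cusp lies on both `W1` and `W3`. -/
theorem not_02 (n : Ideal ↥(chart (M * q * q) A K (Chart3B.J3 M q hq hqM K)⁻¹))
    (hn : n.IsPrime)
    (hJ : (⟨(Chart3B.J3 M q hq hqM K)⁻¹, Chart3B.J3_inv_mem_chart M q hq hqM A K⟩ :
      ↥(chart (M * q * q) A K (Chart3B.J3 M q hq hqM K)⁻¹)) ∈ n) :
    ¬ (P 0 ≤ n ∧ P 2 ≤ n) := fun h =>
  absurd (cusp_one_prime M q hq hqM A K hdvr hA hπ hyp hV0 hV1 hϖ0 hϖ1 h2 n hn hJ 0 2 h.1 h.2)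
    (by decide)

/-- No cusp lies on both `W2` and `W3`. -/
theorem not_12 (n : Ideal ↥(chart (M * q * q) A K (Chart3B.J3 M q hq hqM K)⁻¹))
    (hn : n.IsPrime)
    (hJ : (⟨(Chart3B.J3 M q hq hqM K)⁻¹, Chart3B.J3_inv_mem_chart M q hq hqM A K⟩ :
      ↥(chart (M * q * q) A K (Chart3B.J3 M q hq hqM K)⁻¹)) ∈ n) :
    ¬ (P 1 ≤ n ∧ P 2 ≤ n) := fun h =>
  absurd (cusp_one_prime M q hq hqM A K hdvr hA hπ hyp hV0 hV1 hϖ0 hϖ1 h2 n hn hJ 1 2 h.1 h.2)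
    (by decide)

end

/-- **[CUSP1], closed**, for the uniformizers `![π, π, sE]` and the valuation rings
`![W1, W2, W3]`, `W3` any valuation ring carrying a `ChartHyp3` on `chart J3⁻¹`. -/
theorem cusp_one_w3 (hdvr : IsDiscreteValuationRing (OK A K)) (hA : A.LiesOverPrime q)
    {π : OK A K} (hπ : Irreducible π) (W3 : ValuationSubring (FK (M * q * q) K))
    {P : Fin 3 → Ideal ↥(chart (M * q * q) A K (Chart3B.J3 M q hq hqM K)⁻¹)}
    (hyp : Model3Plan.ChartHyp3 π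
      ![algebraMap (OK A K) (FK (M * q * q) K) π, algebraMap (OK A K) (FK (M * q * q) K) π,
        Wit3.sE M q hq hqM K]
      ![GaussV.V1 (M * q * q) A K hdvr, GaussV.V2 (WQ2.wK2 M q hq hqM K) hdvr, W3] P) :
    ∀ n : Ideal ↥(chart (M * q * q) A K (Chart3B.J3 M q hq hqM K)⁻¹), n.IsMaximal →
      algebraMap (OK A K) ↥(chart (M * q * q) A K (Chart3B.J3 M q hq hqM K)⁻¹) π ∈ n →
      (⟨(Chart3B.J3 M q hq hqM K)⁻¹, Chart3B.J3_inv_mem_chart M q hq hqM A K⟩ :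
        ↥(chart (M * q * q) A K (Chart3B.J3 M q hq hqM K)⁻¹)) ∈ n →
      ∀ i j : Fin 3, P i ≤ n → P j ≤ n → i = j :=
  cusp_one M q hq hqM A K hdvr hA hπ hyp rfl rfl rfl rfl
    ⟨1, one_mem _, (mul_one _).symm⟩

end

end Fermat.Agent.S36.CuspOneInst
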