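/-
S36 — NormOne.lean (helper72): block [NORM-one] of the S36 campaign; the hypothesis (N1) of
`S36/ToricRel.rel`.  Mathlib only.

* `norm_add_mul` : `A` integrally closed with fraction field `K`, `L / K` finite separable,
  `w ∈ L` integral over `A`, `s π ∈ A`; then
  `N_{L/K} (s + π w) = s ^ [L : K] + π t` for some `t ∈ A`
  (the norm is the product over the embeddings, and `∏ (s + π σ w) = s ^ n + π · (integral)`).
* `normHom` : the norm as a monoid-with-zero homomorphism `L →*₀ K`.
* `n1_of_unique` : the chart form = hypothesis `hN1` of `ToricRel.rel` for `Nm = normHom`: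
  `R'` the lower chart (integrally closed, fraction field `E'`), `R` the upper chart inside `E`,
  integral over `R'`, and `n` the only point above `n'` in the form
  `∀ s ∉ n, ∃ s'' ∉ n', ∃ r'', s * r'' = s''`; then `Nm (1 + π R_n) ⊆ 1 + π R'_{n'}`.
* `exists_mul_eq_of_unique` : that form of uniqueness from "`n` is the only prime of `R` with
  contraction `n'`" (Nakayama on a finite subalgebra) — the output shape of `S36/Inc3`.
* `normalize` : `Nm G = π ^ a * u * h₀ ^ m`, a unit of the `V' j`, can be rewritten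
  `Nm G = u * h ^ m` with `h` a unit of every `V' j` (then `ToricRel.exists_eta` applies).
-/
import Mathlib

set_option autoImplicit false

namespace Fermat.Agent.S36.NormOne

open Module

section Abstract

variable {A : Type*} [CommRing A] [IsIntegrallyClosed A]
  {K : Type*} [Field K] [Algebra A K] [IsFractionRing A K]
  {L : Type*} [Field L] [Algebra K L] [Algebra A L] [IsScalarTower A K L]
  [FiniteDimensional K L] [Algebra.IsSeparable K L]

omit [IsIntegrallyClosed A] in
/-- A product of factors `s + π a σ` with the `a σ` integral is `s ^ card + π · (integral)`. -/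
theorem prod_add_mul {Ω : Type*} [CommRing Ω] [Algebra A Ω] {ι : Type*} (S : Finset ι)
    (a : ι → Ω) (ha : ∀ i ∈ S, IsIntegral A (a i)) (s π : A) :
    ∃ T : Ω, IsIntegral A T ∧
      ∏ i ∈ S, (algebraMap A Ω s + algebraMap A Ω π * a i) =
        algebraMap A Ω s ^ S.card + algebraMap A Ω π * T := by
  classical
  induction S using Finset.induction_on with
  | empty => exact ⟨0, isIntegral_zero, by simp⟩
  | insert i S hi ih =>
    obtain ⟨T, hT, hprod⟩ := ih (fun j hj => ha j (Finset.mem_insert_of_mem hj))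
    have hai : IsIntegral A (a i) := ha i (Finset.mem_insert_self i S)
    have hs : IsIntegral A (algebraMap A Ω s) := isIntegral_algebraMap
    have hπ : IsIntegral A (algebraMap A Ω π) := isIntegral_algebraMap
    refine ⟨a i * algebraMap A Ω s ^ S.card + algebraMap A Ω s * T + algebraMap A Ω π * (a i * T),
      ((hai.mul (hs.pow _)).add (hs.mul hT)).add (hπ.mul (hai.mul hT)), ?_⟩
    rw [Finset.prod_insert hi, hprod, Finset.card_insert_of_notMem hi]
    ring

/-- **[NORM-one]** `N_{L/K} (s + π w) = s ^ [L : K] + π t` with `t ∈ A`, for `w` integral over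
the integrally closed domain `A`. -/
theorem norm_add_mul (s π : A) (w : L) (hw : IsIntegral A w) :
    ∃ t : A, Algebra.norm K (algebraMap A L s + algebraMap A L π * w) =
      algebraMap A K (s ^ finrank K L + π * t) := by
  classical
  set Ω := AlgebraicClosure L with hΩ
  have hinjK : Function.Injective (algebraMap K Ω) := (algebraMap K Ω).injective
  -- the product formula
  have hnorm := Algebra.norm_eq_prod_embeddings K Ω (algebraMap A L s + algebraMap A L π * w)
  have hσ : ∀ σ : L →ₐ[K] Ω, σ (algebraMap A L s + algebraMap A L π * w) =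
      algebraMap A Ω s + algebraMap A Ω π * σ w := by
    intro σ
    have h1 : ∀ x : A, σ (algebraMap A L x) = algebraMap A Ω x := by
      intro x
      rw [IsScalarTower.algebraMap_apply A K L, AlgHom.commutes,
        ← IsScalarTower.algebraMap_apply A K Ω]
    rw [map_add, map_mul, h1, h1]
  simp only [hσ] at hnorm
  obtain ⟨T, hT, hprod⟩ := prod_add_mul (A := A) (Finset.univ : Finset (L →ₐ[K] Ω))
    (fun σ => σ w) (fun σ _ => hw.map (σ.restrictScalars A)) s π
  rw [hprod, Finset.card_univ, AlgHom.card K L Ω] at hnorm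
  by_cases hπ0 : π = 0
  · refine ⟨0, ?_⟩
    apply hinjK
    rw [hnorm, hπ0, map_zero, zero_mul, add_zero, zero_mul, add_zero,
      ← IsScalarTower.algebraMap_apply A K Ω, map_pow]
  · -- `T` comes from `K`
    have hπK : algebraMap A K π ≠ 0 := by
      intro h0
      exact hπ0 ((IsFractionRing.injective A K) (by rw [h0, map_zero]))
    set τ : K := (Algebra.norm K (algebraMap A L s + algebraMap A L π * w)
      - algebraMap A K (s ^ finrank K L)) / algebraMap A K π with hτ
    have hτT : algebraMap K Ω τ = T := by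
      have hπΩ : algebraMap A Ω π ≠ 0 := by
        rw [IsScalarTower.algebraMap_apply A K Ω]
        exact (map_ne_zero _).2 hπK
      apply mul_left_cancel₀ hπΩ
      rw [hτ, map_div₀, map_sub, hnorm, ← IsScalarTower.algebraMap_apply A K Ω,
        ← IsScalarTower.algebraMap_apply A K Ω, map_pow, add_sub_cancel_left,
        mul_comm, div_mul_cancel₀ _ hπΩ]
    have hτint : IsIntegral A τ := by
      rw [← isIntegral_algebraMap_iff hinjK, hτT]
      exact hT
    obtain ⟨t, ht⟩ := IsIntegrallyClosed.algebraMap_eq_of_integral hτint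
    refine ⟨t, ?_⟩
    have e : algebraMap A K (s ^ finrank K L + π * t) =
        algebraMap A K (s ^ finrank K L) + τ * algebraMap A K π := by
      rw [map_add, map_mul, ht, mul_comm]
    rw [e, hτ, div_mul_cancel₀ _ hπK]
    ring

end Abstract

/-- The norm of a finite field extension as a monoid-with-zero homomorphism. -/
noncomputable def normHom (K L : Type*) [Field K] [Field L] [Algebra K L]
    [FiniteDimensional K L] : L →*₀ K :=
  { Algebra.norm K with
    map_zero' := Algebra.norm_zero }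

@[simp] theorem normHom_apply (K L : Type*) [Field K] [Field L] [Algebra K L]
    [FiniteDimensional K L] (x : L) : normHom K L x = Algebra.norm K x := rfl

section Chart

variable {O : Type*} [CommRing O]
  {R' : Type*} [CommRing R'] [IsIntegrallyClosed R'] [Algebra O R']
  {E' : Type*} [Field E'] [Algebra R' E'] [IsFractionRing R' E']
  {E : Type*} [Field E] [Algebra E' E] [Algebra R' E] [IsScalarTower R' E' E]
  [FiniteDimensional E' E] [Algebra.IsSeparable E' E]
  {R : Type*} [CommRing R] [Algebra O R] [Algebra R E]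

/-- **(N1)** of `ToricRel.rel`: the norm maps `1 + π R_n` into `1 + π R'_{n'}` when `R` is
integral over `R'` and `n` is the only point above `n'` (every `s ∉ n` divides, in `R`, an
element of `R'` outside `n'`). -/
theorem n1_of_unique (π : O) (n : Ideal R) (n' : Ideal R') (hn' : n'.IsPrime)
    (hπ : algebraMap R E (algebraMap O R π) = algebraMap R' E (algebraMap O R' π))
    (hint : ∀ r : R, IsIntegral R' (algebraMap R E r))
    (huniq : ∀ s : R, s ∉ n → ∃ s'' : R', s'' ∉ n' ∧ ∃ r'' : R,
      algebraMap R E (s * r'') = algebraMap R' E s'') :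
    ∀ x : E, (∃ s : R, s ∉ n ∧ ∃ r : R, algebraMap R E s * (x - 1) =
        algebraMap R E (algebraMap O R π) * algebraMap R E r) →
      ∃ s' : R', s' ∉ n' ∧ ∃ r' : R', algebraMap R' E' s' * (normHom E' E x - 1) =
        algebraMap R' E' (algebraMap O R' π) * algebraMap R' E' r' := by
  rintro x ⟨s, hs, r, hr⟩
  obtain ⟨s'', hs'', r'', hr''⟩ := huniq s hs
  -- `s'' x = s'' + π w`, `w = r r''` integral
  have hx : algebraMap R' E s'' * x =
      algebraMap R' E s'' + algebraMap R' E (algebraMap O R' π) * algebraMap R E (r * r'') := by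
    have h1 : algebraMap R' E s'' * (x - 1) =
        algebraMap R' E (algebraMap O R' π) * algebraMap R E (r * r'') := by
      rw [← hr'', map_mul, map_mul, ← hπ]
      calc algebraMap R E s * algebraMap R E r'' * (x - 1)
          = algebraMap R E r'' * (algebraMap R E s * (x - 1)) := by ring
        _ = algebraMap R E r'' * (algebraMap R E (algebraMap O R π) * algebraMap R E r) := by
            rw [hr]
        _ = algebraMap R E (algebraMap O R π) * (algebraMap R E r * algebraMap R E r'') := by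
            ring
    rw [mul_sub, mul_one, sub_eq_iff_eq_add] at h1
    rw [h1]; ring
  obtain ⟨t, ht⟩ := norm_add_mul (A := R') (K := E') (L := E) s'' (algebraMap O R' π)
    (algebraMap R E (r * r'')) (hint _)
  rw [← hx, map_mul, IsScalarTower.algebraMap_apply R' E' E, Algebra.norm_algebraMap] at ht
  refine ⟨s'' ^ Module.finrank E' E, fun hmem => hs'' (hn'.mem_of_pow_mem _ hmem), t, ?_⟩
  rw [normHom_apply, mul_sub, mul_one, map_pow, ht, map_add, map_mul, map_pow]
  ring

end Chart

section Unique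

variable {R' R : Type*} [CommRing R'] [CommRing R]

/-- If `R` is integral over `R'` (along `φ`) and the maximal ideal `n` is the only prime of `R`
with contraction `n' = φ⁻¹ n`, then every `s ∉ n` divides the image of an element of `R'`
outside `n'` (`R ⊗ R'_{n'}` is local): the hypothesis `huniq` of `n1_of_unique`. -/
theorem exists_mul_eq_of_unique (φ : R' →+* R) (hint : φ.IsIntegral) (n : Ideal R)
    [hn : n.IsMaximal]
    (hu : ∀ n₂ : Ideal R, n₂.IsPrime → n₂.comap φ = n.comap φ → n₂ = n) :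
    ∀ s : R, s ∉ n → ∃ s'' : R', s'' ∉ n.comap φ ∧ ∃ r'' : R, s * r'' = φ s'' := by
  classical
  intro s hs
  let _ : Algebra R' R := φ.toAlgebra
  have hφ : ∀ x : R', algebraMap R' R x = φ x := fun _ => rfl
  have hmax' : (n.comap φ).IsMaximal := Ideal.isMaximal_comap_of_isIntegral_of_isMaximal' φ hint n
  -- `(s) + n' R = R`
  have htop : Ideal.span {s} ⊔ (n.comap φ).map φ = ⊤ := by
    by_contra hne
    obtain ⟨P, hP, hle⟩ := Ideal.exists_le_maximal _ hne
    have h1 : n.comap φ ≤ P.comap φ := Ideal.map_le_iff_le_comap.1 (le_trans le_sup_right hle)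
    have h2 : P.comap φ = n.comap φ :=
      (hmax'.eq_of_le (Ideal.comap_ne_top φ hP.ne_top) h1).symm
    have h3 : P = n := hu P hP.isPrime h2
    apply hs
    rw [← h3]
    exact hle (Ideal.mem_sup_left (Ideal.subset_span rfl))
  obtain ⟨x₁, hx₁, y, hy, hxy⟩ := Submodule.mem_sup.1 ((Ideal.eq_top_iff_one _).1 htop)
  obtain ⟨a, rfl⟩ := Ideal.mem_span_singleton'.1 hx₁
  -- `y = ∑ f g • g`, `g = φ ν_g`, `ν_g ∈ n'`
  rw [Ideal.map, Ideal.span] at hy
  obtain ⟨f, t, ht, -, hsum⟩ := Submodule.mem_span_iff_exists_finset_subset.1 hy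
  set B : Subalgebra R' R := Algebra.adjoin R' ((t.image f : Finset R) : Set R) with hB
  have hBfg : (Subalgebra.toSubmodule B).FG :=
    fg_adjoin_of_finite (Finset.finite_toSet _) (fun x _ => hint x)
  have hfB : ∀ g ∈ t, f g ∈ B := fun g hg =>
    Algebra.subset_adjoin (Finset.mem_coe.2 (Finset.mem_image_of_mem f hg))
  -- the `R'`-submodule of multiples of `s`
  set N : Submodule R' R := (Ideal.span {s} : Ideal R).restrictScalars R' with hN
  have hle : Subalgebra.toSubmodule B ≤ N ⊔ (n.comap φ) • Subalgebra.toSubmodule B := by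
    intro x hx
    have hx' : x ∈ B := hx
    have e : x = s * (a * x) + ∑ g ∈ t, (f g * x) * g := by
      calc x = x * (a * s + y) := by rw [hxy, mul_one]
        _ = s * (a * x) + x * ∑ g ∈ t, f g • g := by rw [hsum]; ring
        _ = s * (a * x) + ∑ g ∈ t, (f g * x) * g := by
            rw [Finset.mul_sum]
            congr 1
            apply Finset.sum_congr rfl
            intro g _
            rw [smul_eq_mul]; ring
    rw [e]
    apply Submodule.add_mem_sup
    · exact Ideal.mem_span_singleton'.2 ⟨a * x, by ring⟩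
    · apply Submodule.sum_mem
      intro g hg
      obtain ⟨ν, hν, hνg⟩ := ht (Finset.mem_coe.2 hg)
      have e2 : f g * x * g = ν • (f g * x) := by
        rw [Algebra.smul_def, hφ, hνg]; ring
      rw [e2]
      exact Submodule.smul_mem_smul hν (B.mul_mem (hfB g hg) hx')
  obtain ⟨r, hr1, hr⟩ := Submodule.exists_sub_one_mem_and_smul_le_of_fg_of_le_sup
    hBfg le_rfl hle
  refine ⟨r, ?_, ?_⟩
  · intro hrn
    apply hmax'.ne_top
    rw [Ideal.eq_top_iff_one]
    have : (1 : R') = r - (r - 1) := by ring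
    rw [this]
    exact Ideal.sub_mem _ hrn hr1
  · have h1 : r • (1 : R) ∈ N :=
      hr (Submodule.smul_mem_pointwise_smul _ _ _ (show (1 : R) ∈ Subalgebra.toSubmodule B from
        B.one_mem))
    obtain ⟨b, hb⟩ := Ideal.mem_span_singleton'.1 h1
    refine ⟨b, ?_⟩
    rw [mul_comm, hb, Algebra.smul_def, mul_one, hφ]

end Unique

/-! ### Normalisation of the constant in the norm relation -/

section Normalize

variable {O : Type*} [CommRing O] {E' : Type*} [Field E'] {ι' : Type*}

/-- If `NmG = π ^ a * u * h₀ ^ m` (`u` a unit of `O`, `a : ℤ`) is a unit of every `V' j` and one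
of the `V' j₀` is discrete with uniformizer `π`, then `NmG = u * h ^ m` for some `h` which is a
unit of every `V' j` (`h = h₀ * π ^ (a / m)`).  With `exists_eta` of `S36/ToricRel` this gives
the constants `η j`. -/
theorem normalize (κ : O →+* E') (π : O) (V' : ι' → ValuationSubring E') (j₀ : ι')
    (hκV : ∀ j (c : O), κ c ∈ V' j) (hπ : (κ π)⁻¹ ∉ V' j₀)
    (hdisc : ∀ x : E', x ≠ 0 → ∃ k : ℤ, ∃ u ∈ V' j₀, u⁻¹ ∈ V' j₀ ∧ x = κ π ^ k * u)
    (m : ℕ) (hm : m ≠ 0) (a : ℤ) (u : O) (hu : IsUnit u) (NmG h₀ : E') (hh₀ : h₀ ≠ 0)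
    (hNm : NmG = κ π ^ a * κ u * h₀ ^ m)
    (hunit : ∀ j, NmG ∈ V' j ∧ NmG⁻¹ ∈ V' j) :
    ∃ h : E', NmG = κ u * h ^ m ∧ ∀ j, h ∈ V' j ∧ h⁻¹ ∈ V' j := by
  classical
  have hϖ0 : κ π ≠ 0 := by
    intro h0
    apply hπ
    rw [h0, inv_zero]
    exact (V' j₀).zero_mem
  obtain ⟨u', hu'⟩ := hu.exists_left_inv
  have hκu : κ u' * κ u = 1 := by rw [← map_mul, hu', map_one]
  have hκu0 : κ u ≠ 0 := right_ne_zero_of_mul_eq_one hκu
  have hκuinv : (κ u)⁻¹ = κ u' := (eq_inv_of_mul_eq_one_left hκu).symm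
  obtain ⟨k, u₁, hu₁, hu₁', hk⟩ := hdisc h₀ hh₀
  have hu₁0 : u₁ ≠ 0 := by
    intro h0
    apply hh₀
    rw [hk, h0, mul_zero]
  -- valuation language at `j₀`
  set v := (V' j₀).valuation with hv
  have hone : ∀ x : E', x ≠ 0 → x ∈ V' j₀ → x⁻¹ ∈ V' j₀ → v x = 1 := by
    intro x hx0 hx hx'
    have h1 := ((V' j₀).valuation_le_one_iff x).2 hx
    have h2 := ((V' j₀).valuation_le_one_iff x⁻¹).2 hx'
    rw [map_inv₀] at h2
    have hvx : v x ≠ 0 := (Valuation.ne_zero_iff _).2 hx0
    exact le_antisymm h1 ((inv_le_one₀ (zero_lt_iff.2 hvx)).1 h2)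
  have hNmG0 : NmG ≠ 0 := by
    rw [hNm]
    exact mul_ne_zero (mul_ne_zero (zpow_ne_zero _ hϖ0) hκu0) (pow_ne_zero _ hh₀)
  have hvϖ : v (κ π) < 1 := by
    by_contra hcon
    apply hπ
    rw [← (V' j₀).valuation_le_one_iff, map_inv₀]
    have hpos : 0 < v (κ π) := zero_lt_iff.2 ((Valuation.ne_zero_iff _).2 hϖ0)
    exact (inv_le_one₀ hpos).2 (not_lt.1 hcon)
  have hNmG1 : v NmG = 1 := hone _ hNmG0 (hunit j₀).1 (hunit j₀).2
  have hu1 : v (κ u) = 1 := by
    apply hone _ hκu0 (hκV j₀ u)
    rw [hκuinv]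
    exact hκV j₀ u'
  have hu₁1 : v u₁ = 1 := hone _ hu₁0 hu₁ hu₁'
  -- `NmG = ϖ ^ (a + m k) * (κ u * u₁ ^ m)`
  have hNm' : NmG = κ π ^ (a + (m : ℤ) * k) * (κ u * u₁ ^ m) := by
    have e1 : (κ π ^ k) ^ m = κ π ^ ((m : ℤ) * k) := by
      rw [← zpow_natCast, ← zpow_mul, mul_comm]
    rw [hNm, hk, mul_pow, e1, zpow_add₀ hϖ0]
    ring
  have hzero : a + (m : ℤ) * k = 0 := by
    have h1 : v (κ π) ^ (a + (m : ℤ) * k) = 1 := by
      have := congrArg v hNm'
      rw [map_mul, map_mul, map_pow, map_zpow₀, hNmG1, hu1, hu₁1, one_pow, mul_one, mul_one]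
        at this
      exact this.symm
    by_contra hne
    have hvne : v (κ π) ≠ 0 := (Valuation.ne_zero_iff _).2 hϖ0
    rcases lt_or_gt_of_ne hne with hneg | hpos
    · -- negative exponent
      have h2 : v (κ π) ^ (-(a + (m : ℤ) * k)) = 1 := by rw [zpow_neg, h1, inv_one]
      obtain ⟨N, hN⟩ : ∃ N : ℕ, -(a + (m : ℤ) * k) = (N : ℤ) := ⟨(-(a + (m : ℤ) * k)).toNat,
        (Int.toNat_of_nonneg (by omega)).symm⟩
      rw [hN, zpow_natCast] at h2
      have hN0 : N ≠ 0 := by intro h0; rw [h0] at hN; omega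
      exact absurd h2 (ne_of_lt (pow_lt_one₀ zero_le hvϖ hN0))
    · obtain ⟨N, hN⟩ : ∃ N : ℕ, a + (m : ℤ) * k = (N : ℤ) := ⟨(a + (m : ℤ) * k).toNat,
        (Int.toNat_of_nonneg (by omega)).symm⟩
      rw [hN, zpow_natCast] at h1
      have hN0 : N ≠ 0 := by intro h0; rw [h0] at hN; omega
      exact absurd h1 (ne_of_lt (pow_lt_one₀ zero_le hvϖ hN0))
  have hfin : NmG = κ u * u₁ ^ m := by
    rw [hNm', hzero, zpow_zero, one_mul]
  refine ⟨u₁, hfin, ?_⟩
  intro j
  -- `u₁ ^ m = NmG / κ u` is a unit of `V' j`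
  have hpow : u₁ ^ m = κ u' * NmG := by
    rw [hfin, ← mul_assoc, hκu, one_mul]
  have hpowinv : (u₁ ^ m)⁻¹ = κ u * NmG⁻¹ := by
    rw [hpow, mul_inv, ← hκuinv, inv_inv]
  have hmem : u₁ ^ m ∈ V' j := by
    rw [hpow]; exact (V' j).toSubring.mul_mem (hκV j u') (hunit j).1
  have hmem' : (u₁ ^ m)⁻¹ ∈ V' j := by
    rw [hpowinv]; exact (V' j).toSubring.mul_mem (hκV j u) (hunit j).2
  set w := (V' j).valuation with hw
  have hw1 : w u₁ ^ m ≤ 1 := by
    rw [← map_pow]; exact ((V' j).valuation_le_one_iff _).2 hmem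
  have hw2 : (w u₁ ^ m)⁻¹ ≤ 1 := by
    rw [← map_pow, ← map_inv₀]; exact ((V' j).valuation_le_one_iff _).2 hmem'
  have hwne : w u₁ ≠ 0 := (Valuation.ne_zero_iff _).2 hu₁0
  have hwm : w u₁ ^ m = 1 :=
    le_antisymm hw1 ((inv_le_one₀ (zero_lt_iff.2 (pow_ne_zero _ hwne))).1 hw2)
  have hw_one : w u₁ = 1 := (pow_eq_one_iff_of_nonneg zero_le hm).1 hwm
  constructor
  · exact ((V' j).valuation_le_one_iff _).1 (le_of_eq hw_one)
  · rw [← (V' j).valuation_le_one_iff, map_inv₀, hw_one, inv_one]

end Normalize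

end Fermat.Agent.S36.NormOne
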