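/-
S36 — NormBarK.lean (helper26): block [NORM3] / [TorGlob (G1)] — the bridge between the INTRINSIC
field norm `Algebra.norm (FK (M q) K)` of `F_K(M q²)` over `F_K(M q)` (along the two degeneracy
maps, under the two `Algebra` instance terms of record of the toric package) and the norms of
`F̄_{M q²}` over `F̄_{M q}` (`S35.PushPic.alphaNorm`, `betaNorm`, i.e. `ModelFPlan.alphaNm`,
`betaNm`), hence the `K`-level norm maps of record `NormKMap.nmAlpha`, `nmBeta`.

`q` prime, `q ∤ M`.  Instance terms of record for `[Algebra (FK (M q) K) (FK (M q²) K)]`: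

* `α` : `DegTower.algTower (M * q) (M * q * q) K (Dvd.intro q rfl)`;
* `β` : `(WQ2.betaK2 M q hq hqM K).toAlgebra`.

Contents:

* `iota3_toBar`, `emb3_toBar` : the middle-cusp embeddings of `S36/Iota3` at the `K`-level are the
  `ℚ̄`-level ones composed with `toBar`;
* `norm_alpha_eq`, `toBar_norm_alpha`, `toBar_normHom_alpha` : `N_α`;
* `finrank_beta`, `finiteDimensional_beta`, `isSeparable_alpha`, `isSeparable_beta`,
  `isScalarTower_OK_beta`, `isScalarTower_K_beta` : the instance facts along `β` (and `α`);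
* `norm_beta_eq`, `toBar_norm_beta`, `toBar_normHom_beta` : `N_β`.
-/
import Mathlib
import Fermat.Agent.S36.NormKMap
import Fermat.Agent.S36.NormOne
import Fermat.Agent.S35.PushPic

set_option autoImplicit false

noncomputable section

namespace Fermat.Agent.S36.NormBarK

open ModularCurve AlgebraicCurve HahnSeries
open Fermat.Agent.S18 Fermat.Agent.S18.Arith Fermat.Agent.S24
open Fermat.Agent.S34

variable (M q : ℕ) [NeZero M] [NeZero q] (hq : q.Prime) (hqM : ¬ q ∣ M)
  (K : IntermediateField ℚ Qb)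

/-! ### The middle-cusp embeddings commute with `toBar` -/

/-- `toBar ∘ incl = α ∘ toBar`. -/
theorem toBar_incl (x : FK (M * q) K) :
    Glob.toBar (M * q * q) K (DegTower.incl (M * q) (M * q * q) K (Dvd.intro q rfl) x)
      = heckeAlphaBar Qb (M * q) q (Glob.toBar (M * q) K x) := by
  apply Subtype.ext
  rw [coe_heckeAlphaBar]
  exact DegTower.coe_incl (M * q) (M * q * q) K (Dvd.intro q rfl) x

/-- The `K`-level middle-cusp embedding is the `ℚ̄`-level one composed with `toBar`. -/
theorem iota3_toBar (ξ : Qb) (hξ : ξ ^ q = 1) (hξ1 : ξ ≠ 1) (x : FK (M * q * q) K) :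
    Iota3.iota3 M q K hq hqM ξ hξ hξ1 x
      = Iota3K.iota3Bar M q hq hqM ξ hξ hξ1 (Glob.toBar (M * q * q) K x) := by
  have h := Iota3.ringHom_ext_E2 M q K hq hqM (Iota3.iota3 M q K hq hqM ξ hξ hξ1)
    ((Iota3K.iota3Bar M q hq hqM ξ hξ hξ1).comp (Glob.toBar (M * q * q) K)) (fun y => ?_) ?_
  · exact congrArg (fun g : FK (M * q * q) K →+* LaurentSeries Qb => g x) h
  · rw [Iota3.iota3_incl, RingHom.comp_apply, toBar_incl, Iota3K.iota3Bar_alpha]
    rfl
  · rw [Iota3.iota3_jq2K, RingHom.comp_apply]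
    have e : Iota3.barToTop (M * q * q) (Glob.toBar (M * q * q) K (Iota3.jq2K M q K))
        = Iota3.jq2K M q (⊤ : IntermediateField ℚ Qb) := by
      apply Subtype.ext
      rw [Iota3.coe_barToTop, Iota3.coe_jq2K]
      exact Iota3.coe_jq2K M q K
    show _ = Iota3.iota3 M q (⊤ : IntermediateField ℚ Qb) hq hqM ξ hξ hξ1
      (Iota3.barToTop (M * q * q) (Glob.toBar (M * q * q) K (Iota3.jq2K M q K)))
    rw [e, Iota3.iota3_jq2K]

variable (ζ : Qb) (hζ : IsPrimitiveRoot ζ q)

/-- The complete `K`-level family of `S36/Iota3K` is the `ℚ̄`-level family composed with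
`toBar`. -/
theorem emb3_toBar (c : Fin q) (x : FK (M * q * q) K) :
    Iota3K.emb3 M q K hq hqM ζ hζ c x
      = Iota3K.famBar M q hq hqM ζ hζ c (Glob.toBar (M * q * q) K x) := by
  by_cases h : (c : ℕ) = 0
  · rw [Iota3K.emb3_of_eq M q K hq hqM ζ hζ c h, Iota3K.famBar_of_eq M q hq hqM ζ hζ c h]
    rfl
  · rw [Iota3K.emb3_of_ne M q K hq hqM ζ hζ c h, Iota3K.famBar_of_ne M q hq hqM ζ hζ c h]
    exact iota3_toBar M q hq hqM K _ _ _ x

/-! ### The norm along `α` -/

include hqM in
/-- **The intrinsic norm along `α` is the norm map of record** `NormKMap.nmAlpha`. -/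
theorem norm_alpha_eq (x : FK (M * q * q) K) :
    letI := DegTower.algTower (M * q) (M * q * q) K (Dvd.intro q rfl)
    Algebra.norm (FK (M * q) K) x = NormKMap.nmAlpha M q hq K x := by
  letI := DegTower.algTower (M * q) (M * q * q) K (Dvd.intro q rfl)
  obtain ⟨ζ, hζ⟩ : ∃ ζ : Qb, IsPrimitiveRoot ζ q :=
    HasEnoughRootsOfUnity.exists_primitiveRoot Qb q
  apply Subtype.ext
  rw [Iota3K.coe_norm M q K hq hqM ζ hζ x, NormKMap.coe_nmAlpha_eq M q hq hqM K ζ hζ x,
    ← Finset.mul_prod_erase Finset.univ _ (Finset.mem_univ (0 : Fin q)),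
    Iota3K.emb3_of_eq M q K hq hqM ζ hζ 0 (by simp)]
  congr 1
  exact Finset.prod_congr rfl fun c _ => emb3_toBar M q hq hqM K ζ hζ c x

include hq hqM in
/-- **(G1), `α`**: `toBar (N_{F_K(Mq²)/F_K(Mq)} x) = N_α (toBar x)`. -/
theorem toBar_norm_alpha (x : FK (M * q * q) K) :
    letI := DegTower.algTower (M * q) (M * q * q) K (Dvd.intro q rfl)
    Glob.toBar (M * q) K (Algebra.norm (FK (M * q) K) x)
      = Fermat.Agent.S35.PushPic.alphaNorm (M * q) q (Glob.toBar (M * q * q) K x) := by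
  letI := DegTower.algTower (M * q) (M * q * q) K (Dvd.intro q rfl)
  rw [norm_alpha_eq M q hq hqM K x]
  exact NormKMap.toBar_nmAlpha M q hq K x

include hq hqM in
/-- **(G1), `α`**, for `NormOne.normHom` under the instance terms of record. -/
theorem toBar_normHom_alpha (x : FK (M * q * q) K) :
    letI := DegTower.algTower (M * q) (M * q * q) K (Dvd.intro q rfl)
    haveI := DegTower.finiteDimensional (M * q) (M * q * q) K (Dvd.intro q rfl)
    Glob.toBar (M * q) K (NormOne.normHom (FK (M * q) K) (FK (M * q * q) K) x)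
      = Fermat.Agent.S35.PushPic.alphaNorm (M * q) q (Glob.toBar (M * q * q) K x) :=
  toBar_norm_alpha M q hq hqM K x

/-- `F_K(M q²)` is separable over `F_K(M q)` along `α`. -/
theorem isSeparable_alpha :
    letI := DegTower.algTower (M * q) (M * q * q) K (Dvd.intro q rfl)
    Algebra.IsSeparable (FK (M * q) K) (FK (M * q * q) K) := by
  letI := DegTower.algTower (M * q) (M * q * q) K (Dvd.intro q rfl)
  haveI := DegTower.finiteDimensional (M * q) (M * q * q) K (Dvd.intro q rfl)
  haveI := ConjMod.charZero_FK K (M * q)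
  exact Algebra.IsAlgebraic.isSeparable_of_perfectField

/-! ### The instance facts along `β` -/

/-- The square `β ∘ w_q = w_{q²} ∘ α` in the shape of the `…_of_equiv_equiv` lemmas (from the
`α`-structure to the `β`-structure). -/
theorem comp_wK_eq :
    (WQ2.betaK2 M q hq hqM K).comp
        ((WK.wK M q hq hqM K : FK (M * q) K ≃+* FK (M * q) K) : FK (M * q) K →+* FK (M * q) K)
      = ((WQ2.wK2 M q hq hqM K : FK (M * q * q) K ≃+* FK (M * q * q) K) :
          FK (M * q * q) K →+* FK (M * q * q) K).comp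
        (DegTower.incl (M * q) (M * q * q) K (Dvd.intro q rfl)) := by
  ext1 x
  show WQ2.betaK2 M q hq hqM K (WK.wK M q hq hqM K x)
    = WQ2.wK2 M q hq hqM K (DegTower.incl (M * q) (M * q * q) K (Dvd.intro q rfl) x)
  have e : WQ2.alphaK2 M q K x = DegTower.incl (M * q) (M * q * q) K (Dvd.intro q rfl) x :=
    Subtype.ext (by rw [DegTower.coe_incl, WQ2.coe_alphaK2])
  rw [← WQ2.wK2_alphaK2, e]

/-- The square `α ∘ w_q = w_{q²} ∘ β` (from the `β`-structure to the `α`-structure). -/
theorem comp_wK_eq' :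
    (DegTower.incl (M * q) (M * q * q) K (Dvd.intro q rfl)).comp
        ((WK.wK M q hq hqM K : FK (M * q) K ≃+* FK (M * q) K) : FK (M * q) K →+* FK (M * q) K)
      = ((WQ2.wK2 M q hq hqM K : FK (M * q * q) K ≃+* FK (M * q * q) K) :
          FK (M * q * q) K →+* FK (M * q * q) K).comp (WQ2.betaK2 M q hq hqM K) := by
  ext1 x
  show DegTower.incl (M * q) (M * q * q) K (Dvd.intro q rfl) (WK.wK M q hq hqM K x)
    = WQ2.wK2 M q hq hqM K (WQ2.betaK2 M q hq hqM K x)
  rw [WQ2.wK2_betaK2]
  apply Subtype.ext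
  rw [DegTower.coe_incl, WQ2.coe_alphaK2]

/-- **`[F_K(M q²) : β F_K(M q)] = q`.** -/
theorem finrank_beta :
    letI := (WQ2.betaK2 M q hq hqM K).toAlgebra
    Module.finrank (FK (M * q) K) (FK (M * q * q) K) = q := by
  have h := @Algebra.finrank_eq_of_equiv_equiv (FK (M * q) K) (FK (M * q * q) K) _ _
    (DegTower.algTower (M * q) (M * q * q) K (Dvd.intro q rfl))
    (FK (M * q) K) (FK (M * q * q) K) _ _ (WQ2.betaK2 M q hq hqM K).toAlgebra
    (WK.wK M q hq hqM K) (WQ2.wK2 M q hq hqM K) (comp_wK_eq M q hq hqM K)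
  rw [← h]
  exact Iota3.finrank_E2 M q K hq

/-- `F_K(M q²)` is finite over `β F_K(M q)`. -/
theorem finiteDimensional_beta :
    letI := (WQ2.betaK2 M q hq hqM K).toAlgebra
    FiniteDimensional (FK (M * q) K) (FK (M * q * q) K) := by
  letI := (WQ2.betaK2 M q hq hqM K).toAlgebra
  exact Module.finite_of_finrank_pos (by rw [finrank_beta M q hq hqM K]; exact hq.pos)

/-- `F_K(M q²)` is separable over `β F_K(M q)`. -/
theorem isSeparable_beta :
    letI := (WQ2.betaK2 M q hq hqM K).toAlgebra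
    Algebra.IsSeparable (FK (M * q) K) (FK (M * q * q) K) := by
  letI := (WQ2.betaK2 M q hq hqM K).toAlgebra
  haveI := finiteDimensional_beta M q hq hqM K
  haveI := ConjMod.charZero_FK K (M * q)
  exact Algebra.IsAlgebraic.isSeparable_of_perfectField

/-- `K ⊆ β F_K(M q) ⊆ F_K(M q²)` is a tower. -/
theorem isScalarTower_K_beta :
    letI := (WQ2.betaK2 M q hq hqM K).toAlgebra
    IsScalarTower K (FK (M * q) K) (FK (M * q * q) K) := by
  letI := (WQ2.betaK2 M q hq hqM K).toAlgebra
  exact IsScalarTower.of_algebraMap_eq fun c => (WQ2.betaK2_constK M q hq hqM K c).symm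

/-- `O = A ∩ K ⊆ β F_K(M q) ⊆ F_K(M q²)` is a tower. -/
theorem isScalarTower_OK_beta (A : ValuationSubring Qb) :
    letI := (WQ2.betaK2 M q hq hqM K).toAlgebra
    IsScalarTower (OK A K) (FK (M * q) K) (FK (M * q * q) K) := by
  letI := (WQ2.betaK2 M q hq hqM K).toAlgebra
  exact IsScalarTower.of_algebraMap_eq fun c =>
    (WQ2.betaK2_constK M q hq hqM K (c : K)).symm

/-! ### The norm along `β` -/

/-- **The intrinsic norm along `β` is the norm map of record** `NormKMap.nmBeta`. -/
theorem norm_beta_eq (x : FK (M * q * q) K) :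
    letI := (WQ2.betaK2 M q hq hqM K).toAlgebra
    Algebra.norm (FK (M * q) K) x = NormKMap.nmBeta M q hq hqM K x := by
  have h := @Algebra.norm_eq_of_equiv_equiv (FK (M * q) K) (FK (M * q * q) K)
    (FK (M * q) K) (FK (M * q * q) K) _ _ _ _ (WQ2.betaK2 M q hq hqM K).toAlgebra
    (DegTower.algTower (M * q) (M * q * q) K (Dvd.intro q rfl))
    (WK.wK M q hq hqM K) (WQ2.wK2 M q hq hqM K) (comp_wK_eq' M q hq hqM K) x
  rw [h, norm_alpha_eq M q hq hqM K, WK.wK_symm, NormKMap.wK_nmAlpha, WQ2.wK2_wK2]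

/-- **(G1), `β`**: `toBar (N_{F_K(Mq²)/β F_K(Mq)} x) = N_β (toBar x)`. -/
theorem toBar_norm_beta (x : FK (M * q * q) K) :
    letI := (WQ2.betaK2 M q hq hqM K).toAlgebra
    Glob.toBar (M * q) K (Algebra.norm (FK (M * q) K) x)
      = Fermat.Agent.S35.PushPic.betaNorm (M * q) q (Glob.toBar (M * q * q) K x) := by
  letI := (WQ2.betaK2 M q hq hqM K).toAlgebra
  rw [norm_beta_eq M q hq hqM K x]
  exact NormKMap.toBar_nmBeta M q hq hqM K x

/-- **(G1), `β`**, for `NormOne.normHom` under the instance terms of record. -/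
theorem toBar_normHom_beta (x : FK (M * q * q) K) :
    letI := (WQ2.betaK2 M q hq hqM K).toAlgebra
    haveI := finiteDimensional_beta M q hq hqM K
    Glob.toBar (M * q) K (NormOne.normHom (FK (M * q) K) (FK (M * q * q) K) x)
      = Fermat.Agent.S35.PushPic.betaNorm (M * q) q (Glob.toBar (M * q * q) K x) :=
  toBar_norm_beta M q hq hqM K x

end Fermat.Agent.S36.NormBarK
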