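import Mathlib
import Fermat.Agent.S36.InertRot
import Fermat.Agent.S36.Iota3K

/-!
# S36 [NORM3 / MODEL3] — InertRotK.lean (helper79): `InertRot` in the `emb3` vocabulary

`emb3 ζ : Fin q → (F_K(M q²) →+* ℚ̄((Q)))` is helper2's complete family of embeddings over
`F_K(M q)` (`0 ↦` inclusion, `c ≠ 0 ↦ ι3^{ζ^c}`).  If the inertia group of `A` fixes `K` pointwise,
the Gauss relation along ONE middle-cusp embedding `ι3^{ξ₀}` (`ξ₀` any primitive `q`-th root of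
unity) gives the Gauss relation, with the same reduction, along EVERY `emb3 ζ c`, `c ≠ 0`.
-/

set_option autoImplicit false

noncomputable section

namespace Fermat.Agent.S36.InertRotK

open ModularCurve AlgebraicCurve HahnSeries
open Fermat.Agent.S18 Fermat.Agent.S18.Arith Fermat.Agent.S24

variable (M q : ℕ) [NeZero M] [NeZero q] (K : IntermediateField ℚ Qb)
variable (hq : q.Prime) (hqM : ¬ q ∣ M) (A : ValuationSubring Qb)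

include hq in
theorem isPrimitiveRoot_pow_fin {ζ : Qb} (hζ : IsPrimitiveRoot ζ q) (c : Fin q)
    (hc : (c : ℕ) ≠ 0) : IsPrimitiveRoot (ζ ^ (c : ℕ)) q :=
  hζ.pow_of_coprime c (Nat.Coprime.symm ((Nat.Prime.coprime_iff_not_dvd hq).mpr
    (Nat.not_dvd_of_pos_of_lt (Nat.pos_of_ne_zero hc) c.2)))

/-- From one middle-cusp embedding `ι3^{ξ₀}` to every member `c ≠ 0` of the family `emb3 ζ`,
with the same reduction. -/
theorem gRel_emb3_of_gRel_iota3 (hA : A.LiesOverPrime q)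
    (hK : ∀ σ ∈ A.inertiaSubgroupIn ℚ, ∀ a ∈ K, σ a = a)
    {ξ₀ : Qb} (hξ₀ : IsPrimitiveRoot ξ₀ q) (hξq : ξ₀ ^ q = 1) (hξ1 : ξ₀ ≠ 1)
    {ζ : Qb} (hζ : IsPrimitiveRoot ζ q) (c : Fin q) (hc : (c : ℕ) ≠ 0)
    (x : FK ((M * q) * q) K) {r : LaurentSeries (IsLocalRing.ResidueField A)}
    (h : GRel A (Iota3.iota3 M q K hq hqM ξ₀ hξq hξ1 x) r) :
    GRel A (Iota3K.emb3 M q K hq hqM ζ hζ c x) r := by
  rw [Iota3K.emb3_of_ne M q K hq hqM ζ hζ c hc]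
  exact InertRot.gRel_iota3_of_isPrimitiveRoot M q K hq hqM A hA hK hξ₀
    (isPrimitiveRoot_pow_fin q hq hζ c hc) hξq hξ1 _ _ x h

/-- Conversely, from one member `c ≠ 0` of the family to any middle-cusp embedding `ι3^{ξ₀}`. -/
theorem gRel_iota3_of_gRel_emb3 (hA : A.LiesOverPrime q)
    (hK : ∀ σ ∈ A.inertiaSubgroupIn ℚ, ∀ a ∈ K, σ a = a)
    {ξ₀ : Qb} (hξ₀ : IsPrimitiveRoot ξ₀ q) (hξq : ξ₀ ^ q = 1) (hξ1 : ξ₀ ≠ 1)
    {ζ : Qb} (hζ : IsPrimitiveRoot ζ q) (c : Fin q) (hc : (c : ℕ) ≠ 0)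
    (x : FK ((M * q) * q) K) {r : LaurentSeries (IsLocalRing.ResidueField A)}
    (h : GRel A (Iota3K.emb3 M q K hq hqM ζ hζ c x) r) :
    GRel A (Iota3.iota3 M q K hq hqM ξ₀ hξq hξ1 x) r := by
  rw [Iota3K.emb3_of_ne M q K hq hqM ζ hζ c hc] at h
  exact InertRot.gRel_iota3_of_isPrimitiveRoot M q K hq hqM A hA hK
    (isPrimitiveRoot_pow_fin q hq hζ c hc) hξ₀ _ _ hξq hξ1 x h

/-- Between two members `c, c' ≠ 0` of the family (possibly for different `ζ, ζ'`). -/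
theorem gRel_emb3_of_gRel_emb3 (hA : A.LiesOverPrime q)
    (hK : ∀ σ ∈ A.inertiaSubgroupIn ℚ, ∀ a ∈ K, σ a = a)
    {ζ ζ' : Qb} (hζ : IsPrimitiveRoot ζ q) (hζ' : IsPrimitiveRoot ζ' q) (c c' : Fin q)
    (hc : (c : ℕ) ≠ 0) (hc' : (c' : ℕ) ≠ 0)
    (x : FK ((M * q) * q) K) {r : LaurentSeries (IsLocalRing.ResidueField A)}
    (h : GRel A (Iota3K.emb3 M q K hq hqM ζ hζ c x) r) :
    GRel A (Iota3K.emb3 M q K hq hqM ζ' hζ' c' x) r := by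
  rw [Iota3K.emb3_of_ne M q K hq hqM ζ hζ c hc] at h
  exact gRel_emb3_of_gRel_iota3 M q K hq hqM A hA hK (isPrimitiveRoot_pow_fin q hq hζ c hc)
    _ _ hζ' c' hc' x h

/-- **The `hW3` shape** (helper62 `NormN2`): if `W3 = {x | ∃ y, GRel A (ι3^{ξ₀} x) y}` (GaussE
along ONE middle-cusp embedding), then every `emb3 ζ c`, `c ≠ 0`, maps `W3` into the Gauss ring. -/
theorem exists_gRel_emb3 (hA : A.LiesOverPrime q)
    (hK : ∀ σ ∈ A.inertiaSubgroupIn ℚ, ∀ a ∈ K, σ a = a)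
    {ξ₀ : Qb} (hξ₀ : IsPrimitiveRoot ξ₀ q) (hξq : ξ₀ ^ q = 1) (hξ1 : ξ₀ ≠ 1)
    {ζ : Qb} (hζ : IsPrimitiveRoot ζ q) (c : Fin q) (hc : c ≠ 0)
    (x : FK ((M * q) * q) K)
    (h : ∃ y, GRel A (Iota3.iota3 M q K hq hqM ξ₀ hξq hξ1 x) y) :
    ∃ y, GRel A (Iota3K.emb3 M q K hq hqM ζ hζ c x) y := by
  obtain ⟨y, hy⟩ := h
  have hc' : (c : ℕ) ≠ 0 := fun h0 => hc (Fin.ext (by rw [h0]; rfl))
  exact ⟨y, gRel_emb3_of_gRel_iota3 M q K hq hqM A hA hK hξ₀ hξq hξ1 hζ c hc' x hy⟩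

/-- The maximal-ideal version: `ι3^{ξ₀} x` in the maximal ideal of the Gauss ring (`GRel … 0`)
gives the same for every `emb3 ζ c x`, `c ≠ 0`. -/
theorem gRel_zero_emb3 (hA : A.LiesOverPrime q)
    (hK : ∀ σ ∈ A.inertiaSubgroupIn ℚ, ∀ a ∈ K, σ a = a)
    {ξ₀ : Qb} (hξ₀ : IsPrimitiveRoot ξ₀ q) (hξq : ξ₀ ^ q = 1) (hξ1 : ξ₀ ≠ 1)
    {ζ : Qb} (hζ : IsPrimitiveRoot ζ q) (c : Fin q) (hc : c ≠ 0)
    (x : FK ((M * q) * q) K)
    (h : GRel A (Iota3.iota3 M q K hq hqM ξ₀ hξq hξ1 x) 0) :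
    GRel A (Iota3K.emb3 M q K hq hqM ζ hζ c x) 0 := by
  have hc' : (c : ℕ) ≠ 0 := fun h0 => hc (Fin.ext (by rw [h0]; rfl))
  exact gRel_emb3_of_gRel_iota3 M q K hq hqM A hA hK hξ₀ hξq hξ1 hζ c hc' x h

end Fermat.Agent.S36.InertRotK
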