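import Mathlib

/-!
# S36, block [NORM-cong] : product formula + factorwise congruences ⇒ congruence of the norm

Abstract (Mathlib only) half of the four congruence rules of the norm block.

Picture.  `E` is the function field of the upper level, `E'` the one of the lower level,
`Nm : E → E'` the norm along a degeneracy map, `Ω` a big field (Laurent series) with a valuation
subring `𝒢` (Gauss ring), `emb' : E' →+* Ω` an embedding and `σ s : E →+* Ω` (`s : ι`) the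
conjugate embeddings, so that `emb' (Nm y) = ∏ s, σ s y`.

* split rule (`norm_sub_prod_mem_nonunits`, `norm_sub_mul_pow_mem_nonunits`, intrinsic forms
  `…_comap`): if `σ s g ≡ emb' (a s)` modulo the maximal ideal of `𝒢` for all `s`, then
  `Nm g ≡ ∏ s, a s`; with one distinguished embedding: `Nm g ≡ a₁ * a₃ ^ (card ι - 1)`;
* twisted rule (`norm_sub_mem_nonunits_of_pow`): if all `σ s` are congruent to one embedding
  `emb` ("rotations") and `g ^ card ι ≡ a`, then `Nm g ≡ a`;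
* the same modulo `ϖ 𝒢` for an arbitrary `ϖ` (`norm_sub_prod_eq_mul`, `…_of_const`).
-/

set_option autoImplicit false

namespace Fermat.Agent.S36.NormCong

/-! ### Product congruences -/

section Prod

variable {Ω : Type*} [CommRing Ω]

/-- Product congruence modulo an ideal-like additive subgroup `J` of a subring `G` of `Ω`. -/
theorem prod_sub_prod_mem (G : Subring Ω) (J : AddSubgroup Ω)
    (hJ : ∀ a ∈ G, ∀ y ∈ J, a * y ∈ J) (hJG : ∀ y ∈ J, y ∈ G)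
    {ι : Type*} (s : Finset ι) (x b : ι → Ω) (hb : ∀ i ∈ s, b i ∈ G)
    (h : ∀ i ∈ s, x i - b i ∈ J) :
    ∏ i ∈ s, x i - ∏ i ∈ s, b i ∈ J := by
  classical
  induction s using Finset.induction_on with
  | empty => simp
  | insert i s hi ih =>
    rw [Finset.prod_insert hi, Finset.prod_insert hi]
    have h1 : x i - b i ∈ J := h i (Finset.mem_insert_self i s)
    have h2 : ∏ j ∈ s, x j - ∏ j ∈ s, b j ∈ J :=
      ih (fun j hj => hb j (Finset.mem_insert_of_mem hj))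
        (fun j hj => h j (Finset.mem_insert_of_mem hj))
    have hbi : b i ∈ G := hb i (Finset.mem_insert_self i s)
    have hbs : ∏ j ∈ s, b j ∈ G :=
      Subring.prod_mem G (fun j hj => hb j (Finset.mem_insert_of_mem hj))
    have hxs : ∏ j ∈ s, x j ∈ G := by
      have h3 := G.add_mem (hJG _ h2) hbs
      rwa [sub_add_cancel] at h3
    have e : x i * ∏ j ∈ s, x j - b i * ∏ j ∈ s, b j =
        (∏ j ∈ s, x j) * (x i - b i) + b i * (∏ j ∈ s, x j - ∏ j ∈ s, b j) := by ring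
    rw [e]
    exact J.add_mem (hJ _ hxs _ h1) (hJ _ hbi _ h2)

/-- The additive subgroup `ϖ G` of `Ω`. -/
def mulSubgroup (G : Subring Ω) (ϖ : Ω) : AddSubgroup Ω where
  carrier := {y | ∃ z ∈ G, y = ϖ * z}
  add_mem' := by
    rintro _ _ ⟨z, hz, rfl⟩ ⟨z', hz', rfl⟩
    exact ⟨z + z', G.add_mem hz hz', by ring⟩
  zero_mem' := ⟨0, G.zero_mem, by simp⟩
  neg_mem' := by
    rintro _ ⟨z, hz, rfl⟩
    exact ⟨-z, G.neg_mem hz, by ring⟩

theorem mem_mulSubgroup {G : Subring Ω} {ϖ y : Ω} :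
    y ∈ mulSubgroup G ϖ ↔ ∃ z ∈ G, y = ϖ * z := Iff.rfl

/-- Product congruence modulo `ϖ G`, for a subring `G` of `Ω` and `ϖ ∈ G`. -/
theorem prod_sub_prod_eq_mul (G : Subring Ω) (ϖ : Ω) (hϖ : ϖ ∈ G)
    {ι : Type*} (s : Finset ι) (x b : ι → Ω) (hb : ∀ i ∈ s, b i ∈ G)
    (h : ∀ i ∈ s, ∃ z ∈ G, x i - b i = ϖ * z) :
    ∃ z ∈ G, ∏ i ∈ s, x i - ∏ i ∈ s, b i = ϖ * z := by
  refine prod_sub_prod_mem G (mulSubgroup G ϖ) ?_ ?_ s x b hb h
  · rintro a ha _ ⟨z, hz, rfl⟩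
    exact ⟨a * z, G.mul_mem ha hz, by ring⟩
  · rintro _ ⟨z, hz, rfl⟩
    exact G.mul_mem hϖ hz

end Prod

/-! ### Valuation subrings -/

section Val

variable {Ω : Type*} [Field Ω] (𝒢 : ValuationSubring Ω)

/-- The maximal ideal of a valuation subring absorbs multiplication. -/
theorem mul_mem_nonunits {a y : Ω} (ha : a ∈ 𝒢) (hy : y ∈ 𝒢.nonunits) : a * y ∈ 𝒢.nonunits := by
  rw [ValuationSubring.mem_nonunits_iff] at hy ⊢
  rw [map_mul]
  have h1 : 𝒢.valuation a ≤ 1 := (𝒢.valuation_le_one_iff a).2 ha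
  calc 𝒢.valuation a * 𝒢.valuation y ≤ 1 * 𝒢.valuation y := mul_le_mul_left h1 _
    _ = 𝒢.valuation y := one_mul _
    _ < 1 := hy

/-- Product congruence modulo the maximal ideal of a valuation subring. -/
theorem prod_sub_prod_mem_nonunits {ι : Type*} (s : Finset ι) (x b : ι → Ω)
    (hb : ∀ i ∈ s, b i ∈ 𝒢) (h : ∀ i ∈ s, x i - b i ∈ 𝒢.nonunits) :
    ∏ i ∈ s, x i - ∏ i ∈ s, b i ∈ 𝒢.nonunits := by
  have key := prod_sub_prod_mem 𝒢.toSubring 𝒢.nonunits.toAddSubgroup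
    (fun a ha y hy => mul_mem_nonunits 𝒢 ha hy)
    (fun y hy => ValuationSubring.nonunits_subset hy) s x b hb h
  exact key

/-- Roots of elements of a valuation subring lie in it. -/
theorem mem_of_pow_mem {x : Ω} {n : ℕ} (hn : n ≠ 0) (h : x ^ n ∈ 𝒢) : x ∈ 𝒢 := by
  rw [← ValuationSubring.valuation_le_one_iff] at h ⊢
  rw [map_pow] at h
  exact (pow_le_one_iff hn).1 h

/-- Nonunits of the pull-back of a valuation subring along a homomorphism of fields. -/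
theorem mem_nonunits_comap {K : Type*} [Field K] (f : K →+* Ω) (x : K) :
    x ∈ (𝒢.comap f).nonunits ↔ f x ∈ 𝒢.nonunits := by
  rw [ValuationSubring.mem_nonunits_iff_or, ValuationSubring.mem_nonunits_iff_or,
    ValuationSubring.mem_comap, map_inv₀, map_eq_zero]

/-- Divisibility by `ϖ'` in the pull-back of a valuation subring. -/
theorem exists_mem_comap_eq_mul {K : Type*} [Field K] (f : K →+* Ω) {ϖ' : K} (hϖ' : ϖ' ≠ 0)
    {y : K} (h : ∃ z ∈ 𝒢, f y = f ϖ' * z) : ∃ z ∈ 𝒢.comap f, y = ϖ' * z := by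
  obtain ⟨z, hz, hyz⟩ := h
  refine ⟨ϖ'⁻¹ * y, ?_, by field_simp⟩
  have hf : f ϖ' ≠ 0 := (map_ne_zero f).2 hϖ'
  have e : f (ϖ'⁻¹ * y) = z := by
    rw [map_mul, map_inv₀, hyz, inv_mul_cancel_left₀ hf]
  rw [ValuationSubring.mem_comap, e]
  exact hz

end Val

/-! ### The norm rules -/

section Norm

variable {E E' Ω : Type*} [Field E] [Field E'] [Field Ω] (𝒢 : ValuationSubring Ω)
  (emb' : E' →+* Ω) {ι : Type*} [Fintype ι] (σ : ι → E →+* Ω) (Nm : E → E')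

/-- **Split rule** (in `Ω`): if `emb' (Nm y) = ∏ s, σ s y` and `σ s g ≡ emb' (a s)` modulo the
maximal ideal of `𝒢` for every `s`, then `Nm g ≡ ∏ s, a s`. -/
theorem norm_sub_prod_mem_nonunits (hNm : ∀ y, emb' (Nm y) = ∏ s, σ s y) (g : E) (a : ι → E')
    (ha : ∀ s, emb' (a s) ∈ 𝒢) (hg : ∀ s, σ s g - emb' (a s) ∈ 𝒢.nonunits) :
    emb' (Nm g - ∏ s, a s) ∈ 𝒢.nonunits := by
  rw [map_sub, hNm, map_prod]
  exact prod_sub_prod_mem_nonunits 𝒢 Finset.univ _ _ (fun s _ => ha s) (fun s _ => hg s)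

/-- **Split rule with a distinguished embedding** `s₀` (in `Ω`): if `σ s₀ g ≡ emb' a₁` and
`σ s g ≡ emb' a₃` for all `s ≠ s₀`, then `Nm g ≡ a₁ * a₃ ^ (card ι - 1)`. -/
theorem norm_sub_mul_pow_mem_nonunits [DecidableEq ι] (hNm : ∀ y, emb' (Nm y) = ∏ s, σ s y)
    (s₀ : ι) (g : E) (a₁ a₃ : E') (ha₁ : emb' a₁ ∈ 𝒢) (ha₃ : emb' a₃ ∈ 𝒢)
    (hg₁ : σ s₀ g - emb' a₁ ∈ 𝒢.nonunits) (hg₃ : ∀ s, s ≠ s₀ → σ s g - emb' a₃ ∈ 𝒢.nonunits) :
    emb' (Nm g - a₁ * a₃ ^ (Fintype.card ι - 1)) ∈ 𝒢.nonunits := by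
  have hprod : ∏ s, (if s = s₀ then a₁ else a₃) = a₁ * a₃ ^ (Fintype.card ι - 1) := by
    rw [← Finset.mul_prod_erase Finset.univ _ (Finset.mem_univ s₀), if_pos rfl]
    congr 1
    rw [Finset.prod_congr rfl (fun s hs => if_neg (Finset.ne_of_mem_erase hs)),
      Finset.prod_const, Finset.card_erase_of_mem (Finset.mem_univ s₀), Finset.card_univ]
  rw [← hprod]
  refine norm_sub_prod_mem_nonunits 𝒢 emb' σ Nm hNm g _ (fun s => ?_) (fun s => ?_)
  · by_cases hs : s = s₀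
    · rw [if_pos hs]; exact ha₁
    · rw [if_neg hs]; exact ha₃
  · by_cases hs : s = s₀
    · rw [if_pos hs, hs]; exact hg₁
    · rw [if_neg hs]; exact hg₃ s hs

/-- **Twisted rule** (in `Ω`): if every conjugate embedding `σ s` is congruent to one embedding
`emb` on `𝒢`-integral elements ("all conjugates are rotations"), and `g ^ card ι ≡ a`, then
`Nm g ≡ a`. -/
theorem norm_sub_mem_nonunits_of_pow (emb : E →+* Ω)
    (hrot : ∀ s y, emb y ∈ 𝒢 → σ s y - emb y ∈ 𝒢.nonunits)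
    (hNm : ∀ y, emb' (Nm y) = ∏ s, σ s y) (g : E) (a : E') (ha : emb' a ∈ 𝒢)
    (hg : emb (g ^ Fintype.card ι) - emb' a ∈ 𝒢.nonunits) :
    emb' (Nm g - a) ∈ 𝒢.nonunits := by
  rw [map_sub, hNm]
  rcases Nat.eq_zero_or_pos (Fintype.card ι) with h0 | hpos
  · have : IsEmpty ι := Fintype.card_eq_zero_iff.1 h0
    rw [h0, pow_zero, map_one] at hg
    rw [Finset.univ_eq_empty, Finset.prod_empty]
    exact hg
  · have hpow : emb g ^ Fintype.card ι ∈ 𝒢 := by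
      have h1 : emb (g ^ Fintype.card ι) ∈ 𝒢 := by
        have h2 := add_mem (ValuationSubring.nonunits_subset hg) ha
        rwa [sub_add_cancel] at h2
      rwa [map_pow] at h1
    have hgG : emb g ∈ 𝒢 := mem_of_pow_mem 𝒢 hpos.ne' hpow
    have h3 : ∏ s, σ s g - ∏ _s : ι, emb g ∈ 𝒢.nonunits :=
      prod_sub_prod_mem_nonunits 𝒢 Finset.univ _ _ (fun _ _ => hgG) (fun s _ => hrot s g hgG)
    rw [Finset.prod_const, Finset.card_univ, ← map_pow] at h3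
    have h4 := 𝒢.nonunits.add_mem h3 hg
    rwa [sub_add_sub_cancel] at h4

/-- **Split rule modulo `ϖ 𝒢`** (in `Ω`), for an arbitrary `ϖ ∈ 𝒢`. -/
theorem norm_sub_prod_eq_mul (ϖ : Ω) (hϖ : ϖ ∈ 𝒢) (hNm : ∀ y, emb' (Nm y) = ∏ s, σ s y)
    (g : E) (a : ι → E') (ha : ∀ s, emb' (a s) ∈ 𝒢)
    (hg : ∀ s, ∃ z ∈ 𝒢, σ s g - emb' (a s) = ϖ * z) :
    ∃ z ∈ 𝒢, emb' (Nm g - ∏ s, a s) = ϖ * z := by
  rw [map_sub, hNm, map_prod]
  exact prod_sub_prod_eq_mul 𝒢.toSubring ϖ hϖ Finset.univ _ _ (fun s _ => ha s) (fun s _ => hg s)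

/-! #### Intrinsic forms (valuation subrings of `E`, `E'` pulled back from `𝒢`) -/

variable (α : E' →+* E)

/-- **Split rule, intrinsic form**: with `W s := 𝒢.comap (σ s)` (valuation subrings of `E`) and
`V' := 𝒢.comap emb'`: if `g ≡ α (a s)` modulo the maximal ideal of `W s` for all `s`, then
`Nm g ≡ ∏ s, a s` modulo the maximal ideal of `V'`. -/
theorem norm_sub_prod_mem_nonunits_comap (hσα : ∀ s x, σ s (α x) = emb' x)
    (hNm : ∀ y, emb' (Nm y) = ∏ s, σ s y) (g : E) (a : ι → E')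
    (ha : ∀ s, a s ∈ 𝒢.comap emb') (hg : ∀ s, g - α (a s) ∈ (𝒢.comap (σ s)).nonunits) :
    Nm g - ∏ s, a s ∈ (𝒢.comap emb').nonunits := by
  rw [mem_nonunits_comap]
  refine norm_sub_prod_mem_nonunits 𝒢 emb' σ Nm hNm g a ha (fun s => ?_)
  have h1 := (mem_nonunits_comap 𝒢 (σ s) _).1 (hg s)
  rwa [map_sub, hσα] at h1

/-- **Split rule with a distinguished embedding, intrinsic form**: `W₁ := 𝒢.comap (σ s₀)`,
`W₃ s := 𝒢.comap (σ s)` for `s ≠ s₀`, `V' := 𝒢.comap emb'`: if `g ≡ α a₁` modulo the maximal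
ideal of `W₁` and `g ≡ α a₃` modulo the maximal ideal of every `W₃ s`, then
`Nm g ≡ a₁ * a₃ ^ (card ι - 1)` modulo the maximal ideal of `V'`. -/
theorem norm_sub_mul_pow_mem_nonunits_comap [DecidableEq ι] (hσα : ∀ s x, σ s (α x) = emb' x)
    (hNm : ∀ y, emb' (Nm y) = ∏ s, σ s y) (s₀ : ι) (g : E) (a₁ a₃ : E')
    (ha₁ : a₁ ∈ 𝒢.comap emb') (ha₃ : a₃ ∈ 𝒢.comap emb')
    (hg₁ : g - α a₁ ∈ (𝒢.comap (σ s₀)).nonunits)
    (hg₃ : ∀ s, s ≠ s₀ → g - α a₃ ∈ (𝒢.comap (σ s)).nonunits) :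
    Nm g - a₁ * a₃ ^ (Fintype.card ι - 1) ∈ (𝒢.comap emb').nonunits := by
  rw [mem_nonunits_comap]
  refine norm_sub_mul_pow_mem_nonunits 𝒢 emb' σ Nm hNm s₀ g a₁ a₃ ha₁ ha₃ ?_ (fun s hs => ?_)
  · have h1 := (mem_nonunits_comap 𝒢 (σ s₀) _).1 hg₁
    rwa [map_sub, hσα] at h1
  · have h1 := (mem_nonunits_comap 𝒢 (σ s) _).1 (hg₃ s hs)
    rwa [map_sub, hσα] at h1

/-- **Twisted rule, intrinsic form**: `W := 𝒢.comap emb`, `V' := 𝒢.comap emb'`, `emb ∘ α = emb'`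
(in the application `emb'` is the `q`-expansion followed by `Q ↦ Q ^ q`).  If all conjugate
embeddings are congruent to `emb` on `W` and `g ^ card ι ≡ α a` modulo the maximal ideal of `W`,
then `Nm g ≡ a` modulo the maximal ideal of `V'`. -/
theorem norm_sub_mem_nonunits_of_pow_comap (emb : E →+* Ω) (hα : ∀ x, emb (α x) = emb' x)
    (hrot : ∀ s y, emb y ∈ 𝒢 → σ s y - emb y ∈ 𝒢.nonunits)
    (hNm : ∀ y, emb' (Nm y) = ∏ s, σ s y) (g : E) (a : E') (ha : a ∈ 𝒢.comap emb')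
    (hg : g ^ Fintype.card ι - α a ∈ (𝒢.comap emb).nonunits) :
    Nm g - a ∈ (𝒢.comap emb').nonunits := by
  rw [mem_nonunits_comap]
  refine norm_sub_mem_nonunits_of_pow 𝒢 emb' σ Nm emb hrot hNm g a ha ?_
  have h1 := (mem_nonunits_comap 𝒢 emb _).1 hg
  rwa [map_sub, hα] at h1

/-- **Split rule modulo `ϖ`, intrinsic form** (shape of the "constants" rule): `ϖ' ∈ E'` nonzero
with `emb' ϖ' ∈ 𝒢`; if `g ≡ α (a s)` modulo `α ϖ' · W s` for all `s`, then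
`Nm g ≡ ∏ s, a s` modulo `ϖ' · V'`. -/
theorem norm_sub_prod_eq_mul_comap (hσα : ∀ s x, σ s (α x) = emb' x)
    (hNm : ∀ y, emb' (Nm y) = ∏ s, σ s y) (ϖ' : E') (hϖ' : ϖ' ≠ 0) (hϖ : ϖ' ∈ 𝒢.comap emb')
    (g : E) (a : ι → E') (ha : ∀ s, a s ∈ 𝒢.comap emb')
    (hg : ∀ s, ∃ z ∈ 𝒢.comap (σ s), g - α (a s) = α ϖ' * z) :
    ∃ z ∈ 𝒢.comap emb', Nm g - ∏ s, a s = ϖ' * z := by
  apply exists_mem_comap_eq_mul 𝒢 emb' hϖ'
  refine norm_sub_prod_eq_mul 𝒢 emb' σ Nm (emb' ϖ') hϖ hNm g a ha (fun s => ?_)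
  obtain ⟨z, hz, hgz⟩ := hg s
  refine ⟨σ s z, hz, ?_⟩
  have h1 := congrArg (σ s) hgz
  rwa [map_sub, map_mul, hσα, hσα] at h1

/-- **Constants rule** (the shape consumed by the toric block): `c s`, `ϖ'` in `E'`; if
`g ≡ α (c (i s))`-type congruences hold branchwise, i.e. for a map `br : ι → κ` to a set of
branches with valuation subrings `W k` of `E` such that `W (br s) ≤ 𝒢.comap (σ s)`, and
`g ≡ α (c k)` modulo `α ϖ' · W k` for every branch `k`, then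
`Nm g ≡ ∏ s, c (br s)` modulo `ϖ' · V'`. -/
theorem norm_sub_prod_eq_mul_of_branches {κ : Type*} (W : κ → ValuationSubring E) (br : ι → κ)
    (hW : ∀ s, ∀ y ∈ W (br s), σ s y ∈ 𝒢) (hσα : ∀ s x, σ s (α x) = emb' x)
    (hNm : ∀ y, emb' (Nm y) = ∏ s, σ s y) (ϖ' : E') (hϖ' : ϖ' ≠ 0) (hϖ : ϖ' ∈ 𝒢.comap emb')
    (g : E) (c : κ → E') (hc : ∀ k, c k ∈ 𝒢.comap emb')
    (hg : ∀ k, ∃ z ∈ W k, g - α (c k) = α ϖ' * z) :
    ∃ z ∈ 𝒢.comap emb', Nm g - ∏ s, c (br s) = ϖ' * z := by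
  refine norm_sub_prod_eq_mul_comap 𝒢 emb' σ Nm α hσα hNm ϖ' hϖ' hϖ g (fun s => c (br s))
    (fun s => hc (br s)) (fun s => ?_)
  obtain ⟨z, hz, hgz⟩ := hg (br s)
  exact ⟨z, hW s z hz, hgz⟩

/-- Exponent bookkeeping: a product over the embeddings, constant on the fibres of `br`, is a
product of powers over the branches. -/
theorem prod_comp_eq_prod_pow {κ M : Type*} [Fintype κ] [DecidableEq κ] [CommMonoid M]
    (br : ι → κ) (c : κ → M) (d : κ → ℕ)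
    (hd : ∀ k, (Finset.univ.filter (fun s => br s = k)).card = d k) :
    ∏ s, c (br s) = ∏ k, c k ^ d k := by
  rw [← Finset.prod_fiberwise Finset.univ br (fun s => c (br s))]
  refine Finset.prod_congr rfl (fun k _ => ?_)
  rw [Finset.prod_congr rfl (fun s hs => by rw [(Finset.mem_filter.1 hs).2] :
    ∀ s ∈ Finset.univ.filter (fun s => br s = k), c (br s) = c k), Finset.prod_const, hd k]

/-- **Constants rule with exponents** (shape `x ≡ c_i mod ϖ V_i ∀ i ⇒ Nm x ≡ ∏ c_i ^ d_i mod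
ϖ V'`): as `norm_sub_prod_eq_mul_of_branches`, with `d k` = the number of conjugate embeddings
belonging to the branch `k`. -/
theorem norm_sub_prod_pow_eq_mul_of_branches {κ : Type*} [Fintype κ] [DecidableEq κ]
    (W : κ → ValuationSubring E) (br : ι → κ) (d : κ → ℕ)
    (hd : ∀ k, (Finset.univ.filter (fun s => br s = k)).card = d k)
    (hW : ∀ s, ∀ y ∈ W (br s), σ s y ∈ 𝒢) (hσα : ∀ s x, σ s (α x) = emb' x)
    (hNm : ∀ y, emb' (Nm y) = ∏ s, σ s y) (ϖ' : E') (hϖ' : ϖ' ≠ 0) (hϖ : ϖ' ∈ 𝒢.comap emb')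
    (g : E) (c : κ → E') (hc : ∀ k, c k ∈ 𝒢.comap emb')
    (hg : ∀ k, ∃ z ∈ W k, g - α (c k) = α ϖ' * z) :
    ∃ z ∈ 𝒢.comap emb', Nm g - ∏ k, c k ^ d k = ϖ' * z := by
  rw [← prod_comp_eq_prod_pow br c d hd]
  exact norm_sub_prod_eq_mul_of_branches 𝒢 emb' σ Nm α W br hW hσα hNm ϖ' hϖ' hϖ g c hc hg

end Norm

end Fermat.Agent.S36.NormCong
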