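/-
S36 — NormFam.lean (helper62): block [NORM36], second half — the norm along `α` for a prime
`ℓ ∣ N` from a COMPLETE FAMILY of embeddings of `F̄_{Nℓ}` over `α(F̄_N)` (blueprint (3):
`N_α y = ι1(y) · ∏_{c=1}^{ℓ-1} ι3^{(c)}(y)`, the `ι3^{(c)}` being the middle-cusp embeddings of
`S36/Iota3*.lean`), in hypothesis form over the family, and its reduction.

`f : Fin ℓ → (F̄_{Nℓ} →+* ℚ̄((Q)))` with `f i (α x) = x` for all `x ∈ F̄_N`, pairwise distinct
(`[F̄_{Nℓ} : α F̄_N] = ℓ` is `NormRot.finrankAlong_heckeAlphaBar_of_dvd`):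

* `coe_norm_alpha_of_family`      : `N_α z = ∏ i, f i z`  (as Laurent series);
* `coe_norm_alpha_of_family_zero` : `N_α z = z · ∏_{i ≠ 0} f i z` when `f 0` is the inclusion;
* `gRel_norm_alpha_of_family`     : `f i z ↦ g i` for all `i` ⟹ `N_α z ↦ ∏ i, g i`;
* `gRel_norm_alpha_of_family_zero`: `z ↦ g₁`, `f i z ↦ g₃` (`i ≠ 0`) ⟹ `N_α z ↦ g₁ · g₃ ^ (ℓ - 1)`
                                    (blueprint: `red_F(N_α f) = r1 · r3^{q-1}`);
* `gRel_norm_beta_of_family_zero` : the `β`-twin through an Atkin–Lehner pair `(w₁, w₂)` with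
                                    `w₂ ∘ β = α ∘ w₁`: `w₂ z ↦ g₂`, `f i (w₂ z) ↦ g₃` (`i ≠ 0`)
                                    ⟹ `w₁ (N_β z) ↦ g₂ · g₃ ^ (ℓ - 1)`.
-/
import Mathlib
import Fermat.Agent.S36.NormRot

set_option autoImplicit false

noncomputable section

namespace Fermat.Agent.S36.NormFam

open ModularCurve AlgebraicCurve HahnSeries
open Fermat.Agent.S18 Fermat.Agent.S18.Arith Fermat.Agent.S18.ModelPlan Fermat.Agent.S24
open Fermat.Agent.S37.W Fermat.Agent.S34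

variable (N ℓ : ℕ) [NeZero N] [NeZero ℓ]

/-- **Norm along `α` from a complete family of embeddings**, `ℓ ∣ N` prime. -/
theorem coe_norm_alpha_of_family (hℓ : ℓ.Prime) (hℓN : ℓ ∣ N)
    (f : Fin ℓ → (↥(modularFunctionFieldBar (N * ℓ)) →+* LaurentSeries Qb))
    (hf : ∀ (i : Fin ℓ) (x : ↥(modularFunctionFieldBar N)),
      f i (heckeAlphaBar Qb N ℓ x) = (x : LaurentSeries Qb))
    (hinj : Function.Injective f) (z : ↥(modularFunctionFieldBar (N * ℓ))) :
    letI := algebraAlong (heckeAlphaBar Qb N ℓ)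
    ((Algebra.norm ↥(modularFunctionFieldBar N) z : ↥(modularFunctionFieldBar N)) :
        LaurentSeries Qb) = ∏ i, f i z := by
  letI := algebraAlong (heckeAlphaBar Qb N ℓ)
  have hdeg : Module.finrank ↥(modularFunctionFieldBar N) ↥(modularFunctionFieldBar (N * ℓ))
      = ℓ := NormRot.finrankAlong_heckeAlphaBar_of_dvd N ℓ hℓ hℓN
  haveI : FiniteDimensional ↥(modularFunctionFieldBar N) ↥(modularFunctionFieldBar (N * ℓ)) :=
    Module.finite_of_finrank_pos (by rw [hdeg]; exact hℓ.pos)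
  let ι₀ : ↥(modularFunctionFieldBar N) →+* LaurentSeries Qb :=
    (modularFunctionFieldBar N).val.toRingHom
  have hf' : ∀ i x, f i (algebraMap ↥(modularFunctionFieldBar N)
      ↥(modularFunctionFieldBar (N * ℓ)) x) = ι₀ x := fun i x => hf i x
  have hcard : Fintype.card (Fin ℓ)
      = Module.finrank ↥(modularFunctionFieldBar N) ↥(modularFunctionFieldBar (N * ℓ)) := by
    rw [hdeg, Fintype.card_fin]
  exact norm_eq_prod_of_ringHoms ι₀ f hf' hinj hcard z

/-- The same with the inclusion split off: `N_α z = z · ∏_{i ≠ 0} f i z`. -/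
theorem coe_norm_alpha_of_family_zero (hℓ : ℓ.Prime) (hℓN : ℓ ∣ N)
    (f : Fin ℓ → (↥(modularFunctionFieldBar (N * ℓ)) →+* LaurentSeries Qb))
    (hf : ∀ (i : Fin ℓ) (x : ↥(modularFunctionFieldBar N)),
      f i (heckeAlphaBar Qb N ℓ x) = (x : LaurentSeries Qb))
    (hinj : Function.Injective f) (i₀ : Fin ℓ)
    (h0 : ∀ z : ↥(modularFunctionFieldBar (N * ℓ)), f i₀ z = (z : LaurentSeries Qb))
    (z : ↥(modularFunctionFieldBar (N * ℓ))) :
    letI := algebraAlong (heckeAlphaBar Qb N ℓ)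
    ((Algebra.norm ↥(modularFunctionFieldBar N) z : ↥(modularFunctionFieldBar N)) :
        LaurentSeries Qb)
      = (z : LaurentSeries Qb) * ∏ i ∈ Finset.univ.erase i₀, f i z := by
  rw [coe_norm_alpha_of_family N ℓ hℓ hℓN f hf hinj z,
    ← Finset.mul_prod_erase Finset.univ (fun i => f i z) (Finset.mem_univ i₀), h0]

section Red

variable {A : ValuationSubring Qb}

/-- **Reduction of the norm along `α`** from a complete family of embeddings. -/
theorem gRel_norm_alpha_of_family (hℓ : ℓ.Prime) (hℓN : ℓ ∣ N)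
    (f : Fin ℓ → (↥(modularFunctionFieldBar (N * ℓ)) →+* LaurentSeries Qb))
    (hf : ∀ (i : Fin ℓ) (x : ↥(modularFunctionFieldBar N)),
      f i (heckeAlphaBar Qb N ℓ x) = (x : LaurentSeries Qb))
    (hinj : Function.Injective f) (z : ↥(modularFunctionFieldBar (N * ℓ)))
    (g : Fin ℓ → LaurentSeries (IsLocalRing.ResidueField A))
    (h : ∀ i, GRel A (f i z) (g i)) :
    letI := algebraAlong (heckeAlphaBar Qb N ℓ)
    GRel A ((Algebra.norm ↥(modularFunctionFieldBar N) z : ↥(modularFunctionFieldBar N)) :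
        LaurentSeries Qb) (∏ i, g i) := by
  rw [coe_norm_alpha_of_family N ℓ hℓ hℓN f hf hinj z]
  exact Fermat.Agent.S35.NormRed.gRel_prod (A := A) Finset.univ (fun i => f i z) g
    (fun i _ => h i)

/-- **Blueprint (3), `red_F(N_α f) = r1 · r3^{ℓ-1}`**: if `z` reduces to `g₁` and each of the
other `ℓ - 1` conjugates `f i z` (`i ≠ i₀`) reduces to `g₃`, then `N_α z` reduces to
`g₁ · g₃ ^ (ℓ - 1)`. -/
theorem gRel_norm_alpha_of_family_zero (hℓ : ℓ.Prime) (hℓN : ℓ ∣ N)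
    (f : Fin ℓ → (↥(modularFunctionFieldBar (N * ℓ)) →+* LaurentSeries Qb))
    (hf : ∀ (i : Fin ℓ) (x : ↥(modularFunctionFieldBar N)),
      f i (heckeAlphaBar Qb N ℓ x) = (x : LaurentSeries Qb))
    (hinj : Function.Injective f) (i₀ : Fin ℓ)
    (h0 : ∀ z : ↥(modularFunctionFieldBar (N * ℓ)), f i₀ z = (z : LaurentSeries Qb))
    (z : ↥(modularFunctionFieldBar (N * ℓ)))
    {g₁ g₃ : LaurentSeries (IsLocalRing.ResidueField A)}
    (h1 : GRel A (z : LaurentSeries Qb) g₁)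
    (h3 : ∀ i, i ≠ i₀ → GRel A (f i z) g₃) :
    letI := algebraAlong (heckeAlphaBar Qb N ℓ)
    GRel A ((Algebra.norm ↥(modularFunctionFieldBar N) z : ↥(modularFunctionFieldBar N)) :
        LaurentSeries Qb) (g₁ * g₃ ^ (ℓ - 1)) := by
  rw [coe_norm_alpha_of_family_zero N ℓ hℓ hℓN f hf hinj i₀ h0 z]
  have h2 := Fermat.Agent.S35.NormRed.gRel_prod (A := A) (Finset.univ.erase i₀)
    (fun i => f i z) (fun _ => g₃) (fun i hi => h3 i (Finset.ne_of_mem_erase hi))
  rw [Finset.prod_const, Finset.card_erase_of_mem (Finset.mem_univ i₀), Finset.card_univ,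
    Fintype.card_fin] at h2
  exact (GRel.gRelStatement A).mul _ _ _ _ h1 h2

variable (w₁ : ↥(modularFunctionFieldBar N) ≃ₐ[Qb] ↥(modularFunctionFieldBar N))
variable (w₂ : ↥(modularFunctionFieldBar (N * ℓ)) ≃ₐ[Qb] ↥(modularFunctionFieldBar (N * ℓ)))

/-- **The `β`-twin** (`red_V(N_β f) = r2 · r3w^{ℓ-1}`) through an Atkin–Lehner pair with
`w₂ ∘ β = α ∘ w₁`: if `w₂ z` reduces to `g₂` and the conjugates `f i (w₂ z)` (`i ≠ i₀`) reduce
to `g₃`, then `w₁ (N_β z)` reduces to `g₂ · g₃ ^ (ℓ - 1)`. -/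
theorem gRel_norm_beta_of_family_zero (hℓ : ℓ.Prime) (hℓN : ℓ ∣ N)
    (hβ : ∀ x, w₂ (heckeBetaBar Qb N ℓ x) = heckeAlphaBar Qb N ℓ (w₁ x))
    (f : Fin ℓ → (↥(modularFunctionFieldBar (N * ℓ)) →+* LaurentSeries Qb))
    (hf : ∀ (i : Fin ℓ) (x : ↥(modularFunctionFieldBar N)),
      f i (heckeAlphaBar Qb N ℓ x) = (x : LaurentSeries Qb))
    (hinj : Function.Injective f) (i₀ : Fin ℓ)
    (h0 : ∀ z : ↥(modularFunctionFieldBar (N * ℓ)), f i₀ z = (z : LaurentSeries Qb))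
    (z : ↥(modularFunctionFieldBar (N * ℓ)))
    {g₂ g₃ : LaurentSeries (IsLocalRing.ResidueField A)}
    (h2 : GRel A ((w₂ z : ↥(modularFunctionFieldBar (N * ℓ))) : LaurentSeries Qb) g₂)
    (h3 : ∀ i, i ≠ i₀ → GRel A (f i (w₂ z)) g₃) :
    GRel A ((w₁ (letI := algebraAlong (heckeBetaBar Qb N ℓ);
          Algebra.norm ↥(modularFunctionFieldBar N) z) : ↥(modularFunctionFieldBar N)) :
        LaurentSeries Qb) (g₂ * g₃ ^ (ℓ - 1)) := by
  rw [NormRot.norm_beta_of_pair N ℓ w₁ w₂ hβ z]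
  exact gRel_norm_alpha_of_family_zero N ℓ hℓ hℓN f hf hinj i₀ h0 (w₂ z) h2 h3

end Red

end Fermat.Agent.S36.NormFam
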