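/-
S36 block [NORM3], leaf (N2) ×4 — NormCongInst.lean (helper26; dealt by the architect, board
#3102 / #3115 (B)): THE MODULAR INSTANCES OF THE "CONSTANTS RULE" of the toric block, in the shape
of the hypothesis `hN2` of `S36/ToricRel.rel`:

    x ≡ c i  mod π (V i)  for all i   ⟹   Nm x ≡ ∏ i, c i ^ d i j   mod π (V' j)   for all j.

Level `M q q` over `M q` (`q` prime, `q ∤ M`), `E = F_K(M q q)`, `E' = F_K(M q)`, `O = A ∩ K`;
`V 0 = W1` (Gauss at `∞`), `V 1 = W2 = W1 ∘ w_{q²}`, `V 2 = W3` (middle cusps);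
`V' 0 = V_F` (Gauss at `∞`, level `M q`), `V' 1 = V_V = V_F ∘ w_q`.  Exponents
`dAlpha q = [[1,0],[0,q],[q-1,0]]`, `dBeta q = [[q,0],[0,1],[0,q-1]]`.

* `n2_of_prod`            : ABSTRACT engine (a subring `G` of a domain `Ω`, NOT a valuation
                            subring: the Gauss local ring of `ℚ̄((Q))` is only a local subring):
                            product formula `emb' (Nm x) = ∏ s, σ s x` + branchwise integrality of
                            the conjugate embeddings ⟹ the constants rule;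
* `n2_alpha_zero/_one`, `n2_beta_zero/_one` : the four instances, from the product formulas on
                            main (`NormFam.coe_norm_alpha_of_family`, `NormRot.qExpand_norm_*_of_pair`,
                            `NormRot.norm_beta_of_pair`, `WQ2.wBar2_alpha/_beta`);
* `n2_alpha`, `n2_beta`   : packaged with the exponent matrices (`∀ j : Fin 2`);
* `hN2_alpha`, `hN2_beta` : VERBATIM the hypothesis `hN2` of `ToricRel.rel` for any two
                            `O`-subalgebras (charts) `R ⊆ E`, `R' ⊆ E'`.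

HYPOTHESIS FORM.  The valuation rings enter only through
  `h0V : z ∈ V 0 → ↑z ∈ G_A`, `h1V : z ∈ V 1 → ↑(w_{q²} z) ∈ G_A`,
  `h2V : z ∈ V 2 → f s z ∈ G_A (s ≠ i₀)`, `h2Vw : z ∈ V 2 → f s (w_{q²} z) ∈ G_A (s ≠ i₀)`,
  `h0V' : ↑y ∈ G_A → y ∈ V' 0`, `h1V' : ↑(w_q y) ∈ G_A → y ∈ V' 1`
(`G_A = S34.ConjMod.gaussRing A`; for `V 0 = GaussV.V1`, `V 1 = GaussV.V2 wK2`, `V' 0 = GaussV.V1`,
`V' 1 = GaussV.V2 wK` the first two and the last two are `Iff.rfl`-lemmas, see `h0V_V1` etc.),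
the middle-cusp embeddings through the family `f` of `S36/NormFam` (`hf`, `hinj`, `i₀`, `hf0`),
and the `K`-level norms through `toBar (Nm x) = PushPic.alphaNorm/betaNorm (toBar x)`.
-/
import Mathlib
import Fermat.Agent.S18.Glob
import Fermat.Agent.S18.ModelRed
import Fermat.Agent.S18.GRel
import Fermat.Agent.S34.ConjMod
import Fermat.Agent.S34.GaussV
import Fermat.Agent.S34.WK
import Fermat.Agent.S35.PushPic
import Fermat.Agent.S36.NormCong
import Fermat.Agent.S36.NormRot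
import Fermat.Agent.S36.NormFam
import Fermat.Agent.S36.WQ2

set_option autoImplicit false

noncomputable section

namespace Fermat.Agent.S36.NormCongInst

open ModularCurve AlgebraicCurve HahnSeries
open Fermat.Agent.S18 Fermat.Agent.S18.Arith Fermat.Agent.S24 Fermat.Agent.S34 Fermat.Agent.S35

/-! ### The abstract engine -/

/-- **Constants rule, abstract form.**  `G` a subring of a domain `Ω`; `σ s : E →+* Ω` the
conjugate embeddings with `emb' (Nm x) = ∏ s, σ s x`; every `σ s` belongs to a branch `b s` on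
whose ring `S (b s)` it takes values in `G`; `S'` contains every `y` with `emb' y ∈ G`.  Then
`x ≡ c i mod π (S i)` for all `i` implies `Nm x ≡ ∏ s, c (b s) mod π S'`. -/
theorem n2_of_prod {O E E' Ω : Type*} [CommRing O] [Field E] [Field E'] [CommRing Ω] [IsDomain Ω]
    [Algebra O E] [Algebra O E']
    (G : Subring Ω) (κ : O →+* Ω) (hκ : ∀ c, κ c ∈ G)
    {ι : Type*} [Fintype ι] (σ : ι → E →+* Ω) (hσc : ∀ s c, σ s (algebraMap O E c) = κ c)
    (emb' : E' →+* Ω) (hemb'c : ∀ c, emb' (algebraMap O E' c) = κ c)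
    (Nm : E → E') (hNm : ∀ x, emb' (Nm x) = ∏ s, σ s x)
    {I : Type*} (S : I → Set E) (b : ι → I) (hS : ∀ s, ∀ z ∈ S (b s), σ s z ∈ G)
    (S' : Set E') (hS' : ∀ y : E', emb' y ∈ G → y ∈ S')
    (π : O) (hπ : κ π ≠ 0)
    (x : E) (c : I → O)
    (hx : ∀ i, ∃ z ∈ S i, x - algebraMap O E (c i) = algebraMap O E π * z) :
    ∃ z' ∈ S', Nm x - algebraMap O E' (∏ s, c (b s)) = algebraMap O E' π * z' := by
  have h1 : ∀ s ∈ (Finset.univ : Finset ι), ∃ z ∈ G, σ s x - κ (c (b s)) = κ π * z := by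
    intro s _
    obtain ⟨z, hz, hxz⟩ := hx (b s)
    refine ⟨σ s z, hS s z hz, ?_⟩
    have h2 := congrArg (σ s) hxz
    rwa [map_sub, map_mul, hσc, hσc] at h2
  obtain ⟨g, hg, hprod⟩ := NormCong.prod_sub_prod_eq_mul G (κ π) (hκ π) Finset.univ
    (fun s => σ s x) (fun s => κ (c (b s))) (fun s _ => hκ _) h1
  have hπ' : algebraMap O E' π ≠ 0 := by
    intro h0
    apply hπ
    rw [← hemb'c, h0, map_zero]
  have hD : emb' (Nm x - algebraMap O E' (∏ s, c (b s))) = κ π * g := by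
    rw [map_sub, hNm, hemb'c, map_prod]
    exact hprod
  refine ⟨(algebraMap O E' π)⁻¹ * (Nm x - algebraMap O E' (∏ s, c (b s))), hS' _ ?_, ?_⟩
  · have e : κ π * emb' ((algebraMap O E' π)⁻¹ * (Nm x - algebraMap O E' (∏ s, c (b s)))) =
        κ π * g := by
      rw [← hD, ← hemb'c π, ← map_mul, mul_inv_cancel_left₀ hπ']
    rw [mul_left_cancel₀ hπ e]
    exact hg
  · rw [mul_inv_cancel_left₀ hπ']

/-- `∏ s, c (if s = s₀ then i else j) = c i * c j ^ (card - 1)`. -/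
theorem prod_ite_eq {ι M : Type*} [Fintype ι] [DecidableEq ι] [CommMonoid M] (s₀ : ι)
    (a b : M) : ∏ s : ι, (if s = s₀ then a else b) = a * b ^ (Fintype.card ι - 1) := by
  rw [← Finset.mul_prod_erase Finset.univ _ (Finset.mem_univ s₀), if_pos rfl]
  congr 1
  rw [Finset.prod_congr rfl (fun s hs => if_neg (Finset.ne_of_mem_erase hs)),
    Finset.prod_const, Finset.card_erase_of_mem (Finset.mem_univ s₀), Finset.card_univ]

/-! ### The Gauss local ring -/

section Gauss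

variable (A : ValuationSubring Qb) (K : IntermediateField ℚ Qb)

/-- Constants of `O = A ∩ K` are Gauss-integral. -/
theorem const_mem (c : OK A K) :
    (HahnSeries.C (incO A K c) : LaurentSeries Qb) ∈ ConjMod.gaussRing A :=
  ⟨_, ModelRed.gRel_const K (GRel.gRelStatement A) c⟩

variable {A}

/-- Rotations by `q`-th roots of unity preserve the Gauss ring. -/
theorem rot_mem (q : ℕ) [Fact q.Prime] (hA : A.LiesOverPrime q) {ζ : Qb} (hζ : ζ ^ q = 1)
    (hζ0 : ζ ≠ 0) {x : LaurentSeries Qb} (hx : x ∈ ConjMod.gaussRing A) :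
    rotHom ζ hζ0 x ∈ ConjMod.gaussRing A := by
  obtain ⟨y, hy⟩ := hx
  exact ⟨y, ConjMod.gRel_rot q hA hζ hζ0 hy⟩

/-- `Q ↦ Q^n` reflects the Gauss ring. -/
theorem mem_of_qExpand_mem (n : ℕ) [NeZero n] {x : LaurentSeries Qb}
    (hx : qExpand Qb n x ∈ ConjMod.gaussRing A) : x ∈ ConjMod.gaussRing A := by
  obtain ⟨y, hy⟩ := hx
  exact ⟨_, ConjMod.gRel_of_qExpand n hy⟩

end Gauss

/-! ### The four instances at level `M q q` over `M q` -/

section Inst

variable (M q : ℕ) [NeZero M] [NeZero q] (hq : q.Prime) (hqM : ¬ q ∣ M)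
variable (A : ValuationSubring Qb) (K : IntermediateField ℚ Qb)

/-- The constants of `O = A ∩ K` as constant Laurent series. -/
def kap : OK A K →+* LaurentSeries Qb :=
  (HahnSeries.C : Qb →+* LaurentSeries Qb).comp (incO A K)

theorem kap_mem (c : OK A K) : kap A K c ∈ ConjMod.gaussRing A := const_mem A K c

theorem kap_ne_zero {π : OK A K} (hπ : π ≠ 0) : kap A K π ≠ 0 :=
  ModelRed.C_incO_ne_zero π hπ

/-- the conjugate embeddings `f s` fix the constants. -/
theorem fam_const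
    (f : Fin q → (↥(modularFunctionFieldBar (M * q * q)) →+* LaurentSeries Qb))
    (hf : ∀ (i : Fin q) (x : ↥(modularFunctionFieldBar (M * q))),
      f i (heckeAlphaBar Qb (M * q) q x) = (x : LaurentSeries Qb))
    (s : Fin q) (c : OK A K) :
    f s (Glob.toBar (M * q * q) K (algebraMap (OK A K) (FK (M * q * q) K) c)) = kap A K c := by
  rw [Glob.toBar_algebraMap]
  have h := hf s (algebraMap Qb (modularFunctionFieldBar (M * q)) ((c : K) : Qb))
  rw [AlgHom.commutes] at h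
  rw [h, WK.coe_algebraMap_bar]
  rfl

include hq in
/-- `↑(Nm x) = ∏ s, f s x` for a `K`-level norm along `α`. -/
theorem coe_nm_alpha
    (f : Fin q → (↥(modularFunctionFieldBar (M * q * q)) →+* LaurentSeries Qb))
    (hf : ∀ (i : Fin q) (x : ↥(modularFunctionFieldBar (M * q))),
      f i (heckeAlphaBar Qb (M * q) q x) = (x : LaurentSeries Qb))
    (hinj : Function.Injective f)
    (Nm : FK (M * q * q) K → FK (M * q) K)
    (hNm : ∀ x, Glob.toBar (M * q) K (Nm x) =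
      PushPic.alphaNorm (M * q) q (Glob.toBar (M * q * q) K x))
    (x : FK (M * q * q) K) :
    ((Nm x : FK (M * q) K) : LaurentSeries Qb) = ∏ s, f s (Glob.toBar (M * q * q) K x) := by
  have h1 := NormFam.coe_norm_alpha_of_family (M * q) q hq (Dvd.intro_left M rfl) f hf hinj
    (Glob.toBar (M * q * q) K x)
  have h2 : ((Nm x : FK (M * q) K) : LaurentSeries Qb) =
      ((PushPic.alphaNorm (M * q) q (Glob.toBar (M * q * q) K x) :
        ↥(modularFunctionFieldBar (M * q))) : LaurentSeries Qb) := by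
    rw [← hNm x]
    rfl
  exact h2.trans h1

include hq in
/-- **(N2), `α`, branch `V_F`**: `Nm_α x ≡ c₁ · c₃ ^ (q - 1)`. -/
theorem n2_alpha_zero (π : OK A K) (hπ : π ≠ 0)
    (V : Fin 3 → ValuationSubring (FK (M * q * q) K))
    (V' : Fin 2 → ValuationSubring (FK (M * q) K))
    (h0V : ∀ z ∈ V 0, ((z : FK (M * q * q) K) : LaurentSeries Qb) ∈ ConjMod.gaussRing A)
    (h0V' : ∀ y : FK (M * q) K, (y : LaurentSeries Qb) ∈ ConjMod.gaussRing A → y ∈ V' 0)
    (f : Fin q → (↥(modularFunctionFieldBar (M * q * q)) →+* LaurentSeries Qb))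
    (hf : ∀ (i : Fin q) (x : ↥(modularFunctionFieldBar (M * q))),
      f i (heckeAlphaBar Qb (M * q) q x) = (x : LaurentSeries Qb))
    (hinj : Function.Injective f) (i₀ : Fin q)
    (hf0 : ∀ z : ↥(modularFunctionFieldBar (M * q * q)), f i₀ z = (z : LaurentSeries Qb))
    (h2V : ∀ z ∈ V 2, ∀ s, s ≠ i₀ →
      f s (Glob.toBar (M * q * q) K z) ∈ ConjMod.gaussRing A)
    (Nm : FK (M * q * q) K → FK (M * q) K)
    (hNm : ∀ x, Glob.toBar (M * q) K (Nm x) =
      PushPic.alphaNorm (M * q) q (Glob.toBar (M * q * q) K x))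
    (x : FK (M * q * q) K) (c : Fin 3 → OK A K)
    (hx : ∀ i, ∃ z ∈ V i, x - algebraMap (OK A K) (FK (M * q * q) K) (c i) =
      algebraMap (OK A K) (FK (M * q * q) K) π * z) :
    ∃ z' ∈ V' 0, Nm x - algebraMap (OK A K) (FK (M * q) K) (c 0 * c 2 ^ (q - 1)) =
      algebraMap (OK A K) (FK (M * q) K) π * z' := by
  classical
  have hS : ∀ s : Fin q, ∀ z ∈ (fun i : Fin 3 => (V i : Set (FK (M * q * q) K)))
      ((fun s : Fin q => if s = i₀ then (0 : Fin 3) else 2) s),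
      ((f s).comp (Glob.toBar (M * q * q) K)) z ∈ ConjMod.gaussRing A := by
    intro s z hz
    by_cases hs : s = i₀
    · subst hs
      simp only [if_pos] at hz
      show f s (Glob.toBar (M * q * q) K z) ∈ _
      rw [hf0]
      exact h0V z hz
    · simp only [if_neg hs] at hz
      exact h2V z hz s hs
  have key := n2_of_prod (ConjMod.gaussRing A) (kap A K) (kap_mem A K)
    (fun s : Fin q => (f s).comp (Glob.toBar (M * q * q) K))
    (fun s c => fam_const M q A K f hf s c)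
    (FK (M * q) K).subtype (fun _ => rfl)
    Nm (fun x => coe_nm_alpha M q hq K f hf hinj Nm hNm x)
    (fun i : Fin 3 => (V i : Set (FK (M * q * q) K)))
    (fun s : Fin q => if s = i₀ then (0 : Fin 3) else 2) hS
    (V' 0 : Set (FK (M * q) K)) h0V' π (kap_ne_zero A K hπ) x c hx
  have e : ∏ s : Fin q, c (if s = i₀ then (0 : Fin 3) else 2) = c 0 * c 2 ^ (q - 1) := by
    have e1 : ∀ s : Fin q, c (if s = i₀ then (0 : Fin 3) else 2) =
        if s = i₀ then c 0 else c 2 := fun s => by split_ifs <;> rfl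
    simp only [e1]
    rw [prod_ite_eq, Fintype.card_fin]
  rwa [e] at key

/-! #### `α`, branch `V_V` -/

include hq hqM in
/-- `(w_q (Nm x))(Q^q) = ∏_{i<q} (w_{q²} x)(ζ^i Q)` for a `K`-level norm along `α`. -/
theorem coe_wK_nm_alpha (ζ : Qb) (hζ : IsPrimitiveRoot ζ q) (hz : ∀ i : ℕ, ζ ^ i ≠ 0)
    (Nm : FK (M * q * q) K → FK (M * q) K)
    (hNm : ∀ x, Glob.toBar (M * q) K (Nm x) =
      PushPic.alphaNorm (M * q) q (Glob.toBar (M * q * q) K x))
    (x : FK (M * q * q) K) :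
    qExpand Qb q ((WK.wK M q hq hqM K (Nm x) : FK (M * q) K) : LaurentSeries Qb) =
      ∏ s : Fin q, rotHom (ζ ^ (s : ℕ)) (hz s)
        ((WQ2.wK2 M q hq hqM K x : FK (M * q * q) K) : LaurentSeries Qb) := by
  have h1 := NormRot.qExpand_norm_alpha_of_pair (M * q) q (WK.wBar M q hq hqM)
    (WQ2.wBar2 M q hq hqM) hq (Dvd.intro_left M rfl) (WQ2.wBar2_alpha M q hq hqM) ζ hζ hz
    (Glob.toBar (M * q * q) K x)
  rw [Fin.prod_univ_eq_prod_range (fun i => rotHom (ζ ^ i) (hz i)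
    ((WQ2.wK2 M q hq hqM K x : FK (M * q * q) K) : LaurentSeries Qb)) q]
  have h2 : ((WK.wK M q hq hqM K (Nm x) : FK (M * q) K) : LaurentSeries Qb) =
      ((WK.wBar M q hq hqM (PushPic.alphaNorm (M * q) q (Glob.toBar (M * q * q) K x)) :
        ↥(modularFunctionFieldBar (M * q))) : LaurentSeries Qb) := by
    rw [WK.coe_wK, hNm x]
  rw [h2]
  exact h1

/-- rotations fix the constant series. -/
theorem rotHom_kap (ζ : Qb) (hζ0 : ζ ≠ 0) (c : OK A K) :
    rotHom ζ hζ0 (kap A K c) = kap A K c := by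
  show rotHom ζ hζ0 (HahnSeries.C (incO A K c)) = HahnSeries.C (incO A K c)
  ext n
  rw [rotHom_coeff]
  by_cases hn : n = 0
  · subst hn
    simp
  · rw [HahnSeries.C_apply, HahnSeries.coeff_single_of_ne hn, mul_zero]

include hq in
/-- **(N2), `α`, branch `V_V`**: `Nm_α x ≡ c₂ ^ q`. -/
theorem n2_alpha_one (hA : A.LiesOverPrime q) (π : OK A K) (hπ : π ≠ 0)
    (V : Fin 3 → ValuationSubring (FK (M * q * q) K))
    (V' : Fin 2 → ValuationSubring (FK (M * q) K))
    (h1V : ∀ z ∈ V 1, ((WQ2.wK2 M q hq hqM K z : FK (M * q * q) K) : LaurentSeries Qb) ∈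
      ConjMod.gaussRing A)
    (h1V' : ∀ y : FK (M * q) K, ((WK.wK M q hq hqM K y : FK (M * q) K) : LaurentSeries Qb) ∈
      ConjMod.gaussRing A → y ∈ V' 1)
    (Nm : FK (M * q * q) K → FK (M * q) K)
    (hNm : ∀ x, Glob.toBar (M * q) K (Nm x) =
      PushPic.alphaNorm (M * q) q (Glob.toBar (M * q * q) K x))
    (x : FK (M * q * q) K) (c : Fin 3 → OK A K)
    (hx : ∀ i, ∃ z ∈ V i, x - algebraMap (OK A K) (FK (M * q * q) K) (c i) =
      algebraMap (OK A K) (FK (M * q * q) K) π * z) :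
    ∃ z' ∈ V' 1, Nm x - algebraMap (OK A K) (FK (M * q) K) (c 1 ^ q) =
      algebraMap (OK A K) (FK (M * q) K) π * z' := by
  classical
  have : Fact q.Prime := ⟨hq⟩
  obtain ⟨ζ, hζ⟩ := HasEnoughRootsOfUnity.exists_primitiveRoot Qb q
  have hz : ∀ i : ℕ, ζ ^ i ≠ 0 := fun i => pow_ne_zero i (hζ.ne_zero (NeZero.ne q))
  have hζq : ∀ i : ℕ, (ζ ^ i) ^ q = 1 := fun i => by
    rw [← pow_mul, mul_comm, pow_mul, hζ.pow_eq_one, one_pow]
  let σ : Fin q → FK (M * q * q) K →+* LaurentSeries Qb := fun s =>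
    ((rotHom (ζ ^ (s : ℕ)) (hz s) : LaurentSeries Qb →ₐ[Qb] LaurentSeries Qb) :
        LaurentSeries Qb →+* LaurentSeries Qb).comp
      ((FK (M * q * q) K).subtype.comp
        ((WQ2.wK2 M q hq hqM K : FK (M * q * q) K ≃+* FK (M * q * q) K) :
          FK (M * q * q) K →+* FK (M * q * q) K))
  let emb' : FK (M * q) K →+* LaurentSeries Qb :=
    (qExpand Qb q).comp ((FK (M * q) K).subtype.comp
      ((WK.wK M q hq hqM K : FK (M * q) K ≃+* FK (M * q) K) : FK (M * q) K →+* FK (M * q) K))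
  have hσc : ∀ (s : Fin q) (c : OK A K),
      σ s (algebraMap (OK A K) (FK (M * q * q) K) c) = kap A K c := by
    intro s c
    show rotHom (ζ ^ (s : ℕ)) (hz s)
      ((WQ2.wK2 M q hq hqM K (algebraMap (OK A K) (FK (M * q * q) K) c) : FK (M * q * q) K) :
        LaurentSeries Qb) = _
    rw [WQ2.wK2_algebraMap_OK]
    exact rotHom_kap A K (ζ ^ (s : ℕ)) (hz s) c
  have hemb : ∀ c : OK A K, emb' (algebraMap (OK A K) (FK (M * q) K) c) = kap A K c := by
    intro c
    show qExpand Qb q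
      ((WK.wK M q hq hqM K (algebraMap (OK A K) (FK (M * q) K) c) : FK (M * q) K) :
        LaurentSeries Qb) = _
    rw [WK.wK_algebraMap_OK]
    exact qExpand_C q _
  have hS : ∀ s : Fin q, ∀ z ∈ (fun i : Fin 3 => (V i : Set (FK (M * q * q) K)))
      ((fun _ : Fin q => (1 : Fin 3)) s), σ s z ∈ ConjMod.gaussRing A :=
    fun s z hz' => rot_mem q hA (hζq s) (hz s) (h1V z hz')
  have key := n2_of_prod (ConjMod.gaussRing A) (kap A K) (kap_mem A K) σ hσc emb' hemb
    Nm (fun x => coe_wK_nm_alpha M q hq hqM K ζ hζ hz Nm hNm x)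
    (fun i : Fin 3 => (V i : Set (FK (M * q * q) K))) (fun _ : Fin q => (1 : Fin 3)) hS
    (V' 1 : Set (FK (M * q) K)) (fun y hy => h1V' y (mem_of_qExpand_mem q hy))
    π (kap_ne_zero A K hπ) x c hx
  rwa [Finset.prod_const, Finset.card_univ, Fintype.card_fin] at key

/-! #### `β`, branch `V_F` -/

include hq hqM in
/-- `(Nm x)(Q^q) = ∏_{i<q} x(ζ^i Q)` for a `K`-level norm along `β`. -/
theorem coe_nm_beta (ζ : Qb) (hζ : IsPrimitiveRoot ζ q) (hz : ∀ i : ℕ, ζ ^ i ≠ 0)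
    (Nm : FK (M * q * q) K → FK (M * q) K)
    (hNm : ∀ x, Glob.toBar (M * q) K (Nm x) =
      PushPic.betaNorm (M * q) q (Glob.toBar (M * q * q) K x))
    (x : FK (M * q * q) K) :
    qExpand Qb q ((Nm x : FK (M * q) K) : LaurentSeries Qb) =
      ∏ s : Fin q, rotHom (ζ ^ (s : ℕ)) (hz s) ((x : FK (M * q * q) K) : LaurentSeries Qb) := by
  have h1 := NormRot.qExpand_norm_beta_of_pair (M * q) q (WK.wBar M q hq hqM)
    (WQ2.wBar2 M q hq hqM) hq (Dvd.intro_left M rfl) (WQ2.wBar2_alpha M q hq hqM) ζ hζ hz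
    (Glob.toBar (M * q * q) K x)
  rw [Fin.prod_univ_eq_prod_range (fun i => rotHom (ζ ^ i) (hz i)
    ((x : FK (M * q * q) K) : LaurentSeries Qb)) q]
  have h2 : ((Nm x : FK (M * q) K) : LaurentSeries Qb) =
      ((PushPic.betaNorm (M * q) q (Glob.toBar (M * q * q) K x) :
        ↥(modularFunctionFieldBar (M * q))) : LaurentSeries Qb) := by
    rw [← hNm x]
    rfl
  rw [h2]
  exact h1

include hq hqM in
/-- **(N2), `β`, branch `V_F`**: `Nm_β x ≡ c₁ ^ q`. -/
theorem n2_beta_zero (hA : A.LiesOverPrime q) (π : OK A K) (hπ : π ≠ 0)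
    (V : Fin 3 → ValuationSubring (FK (M * q * q) K))
    (V' : Fin 2 → ValuationSubring (FK (M * q) K))
    (h0V : ∀ z ∈ V 0, ((z : FK (M * q * q) K) : LaurentSeries Qb) ∈ ConjMod.gaussRing A)
    (h0V' : ∀ y : FK (M * q) K, (y : LaurentSeries Qb) ∈ ConjMod.gaussRing A → y ∈ V' 0)
    (Nm : FK (M * q * q) K → FK (M * q) K)
    (hNm : ∀ x, Glob.toBar (M * q) K (Nm x) =
      PushPic.betaNorm (M * q) q (Glob.toBar (M * q * q) K x))
    (x : FK (M * q * q) K) (c : Fin 3 → OK A K)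
    (hx : ∀ i, ∃ z ∈ V i, x - algebraMap (OK A K) (FK (M * q * q) K) (c i) =
      algebraMap (OK A K) (FK (M * q * q) K) π * z) :
    ∃ z' ∈ V' 0, Nm x - algebraMap (OK A K) (FK (M * q) K) (c 0 ^ q) =
      algebraMap (OK A K) (FK (M * q) K) π * z' := by
  classical
  have : Fact q.Prime := ⟨hq⟩
  obtain ⟨ζ, hζ⟩ := HasEnoughRootsOfUnity.exists_primitiveRoot Qb q
  have hz : ∀ i : ℕ, ζ ^ i ≠ 0 := fun i => pow_ne_zero i (hζ.ne_zero (NeZero.ne q))
  have hζq : ∀ i : ℕ, (ζ ^ i) ^ q = 1 := fun i => by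
    rw [← pow_mul, mul_comm, pow_mul, hζ.pow_eq_one, one_pow]
  let σ : Fin q → FK (M * q * q) K →+* LaurentSeries Qb := fun s =>
    ((rotHom (ζ ^ (s : ℕ)) (hz s) : LaurentSeries Qb →ₐ[Qb] LaurentSeries Qb) :
        LaurentSeries Qb →+* LaurentSeries Qb).comp (FK (M * q * q) K).subtype
  let emb' : FK (M * q) K →+* LaurentSeries Qb :=
    (qExpand Qb q).comp (FK (M * q) K).subtype
  have hσc : ∀ (s : Fin q) (c : OK A K),
      σ s (algebraMap (OK A K) (FK (M * q * q) K) c) = kap A K c :=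
    fun s c => rotHom_kap A K (ζ ^ (s : ℕ)) (hz s) c
  have hemb : ∀ c : OK A K, emb' (algebraMap (OK A K) (FK (M * q) K) c) = kap A K c :=
    fun c => qExpand_C q _
  have hS : ∀ s : Fin q, ∀ z ∈ (fun i : Fin 3 => (V i : Set (FK (M * q * q) K)))
      ((fun _ : Fin q => (0 : Fin 3)) s), σ s z ∈ ConjMod.gaussRing A :=
    fun s z hz' => rot_mem q hA (hζq s) (hz s) (h0V z hz')
  have key := n2_of_prod (ConjMod.gaussRing A) (kap A K) (kap_mem A K) σ hσc emb' hemb
    Nm (fun x => coe_nm_beta M q hq hqM K ζ hζ hz Nm hNm x)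
    (fun i : Fin 3 => (V i : Set (FK (M * q * q) K))) (fun _ : Fin q => (0 : Fin 3)) hS
    (V' 0 : Set (FK (M * q) K)) (fun y hy => h0V' y (mem_of_qExpand_mem q hy))
    π (kap_ne_zero A K hπ) x c hx
  rwa [Finset.prod_const, Finset.card_univ, Fintype.card_fin] at key

/-! #### `β`, branch `V_V` -/

include hq hqM in
/-- `w_q (Nm x) = ∏ s, f s (w_{q²} x)` for a `K`-level norm along `β`. -/
theorem coe_wK_nm_beta
    (f : Fin q → (↥(modularFunctionFieldBar (M * q * q)) →+* LaurentSeries Qb))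
    (hf : ∀ (i : Fin q) (x : ↥(modularFunctionFieldBar (M * q))),
      f i (heckeAlphaBar Qb (M * q) q x) = (x : LaurentSeries Qb))
    (hinj : Function.Injective f)
    (Nm : FK (M * q * q) K → FK (M * q) K)
    (hNm : ∀ x, Glob.toBar (M * q) K (Nm x) =
      PushPic.betaNorm (M * q) q (Glob.toBar (M * q * q) K x))
    (x : FK (M * q * q) K) :
    ((WK.wK M q hq hqM K (Nm x) : FK (M * q) K) : LaurentSeries Qb) =
      ∏ s, f s (Glob.toBar (M * q * q) K (WQ2.wK2 M q hq hqM K x)) := by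
  have h1 := NormRot.norm_beta_of_pair (M * q) q (WK.wBar M q hq hqM) (WQ2.wBar2 M q hq hqM)
    (WQ2.wBar2_beta M q hq hqM) (Glob.toBar (M * q * q) K x)
  have h3 := NormFam.coe_norm_alpha_of_family (M * q) q hq (Dvd.intro_left M rfl) f hf hinj
    (WQ2.wBar2 M q hq hqM (Glob.toBar (M * q * q) K x))
  have h2 : ((WK.wK M q hq hqM K (Nm x) : FK (M * q) K) : LaurentSeries Qb) =
      ((WK.wBar M q hq hqM (PushPic.betaNorm (M * q) q (Glob.toBar (M * q * q) K x)) :
        ↥(modularFunctionFieldBar (M * q))) : LaurentSeries Qb) := by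
    rw [WK.coe_wK, hNm x]
  rw [h2, WQ2.toBar_wK2]
  have h4 : WK.wBar M q hq hqM (PushPic.betaNorm (M * q) q (Glob.toBar (M * q * q) K x)) = _ :=
    h1
  rw [h4]
  exact h3

include hq hqM in
/-- **(N2), `β`, branch `V_V`**: `Nm_β x ≡ c₂ · c₃ ^ (q - 1)`. -/
theorem n2_beta_one (π : OK A K) (hπ : π ≠ 0)
    (V : Fin 3 → ValuationSubring (FK (M * q * q) K))
    (V' : Fin 2 → ValuationSubring (FK (M * q) K))
    (h1V : ∀ z ∈ V 1, ((WQ2.wK2 M q hq hqM K z : FK (M * q * q) K) : LaurentSeries Qb) ∈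
      ConjMod.gaussRing A)
    (h1V' : ∀ y : FK (M * q) K, ((WK.wK M q hq hqM K y : FK (M * q) K) : LaurentSeries Qb) ∈
      ConjMod.gaussRing A → y ∈ V' 1)
    (f : Fin q → (↥(modularFunctionFieldBar (M * q * q)) →+* LaurentSeries Qb))
    (hf : ∀ (i : Fin q) (x : ↥(modularFunctionFieldBar (M * q))),
      f i (heckeAlphaBar Qb (M * q) q x) = (x : LaurentSeries Qb))
    (hinj : Function.Injective f) (i₀ : Fin q)
    (hf0 : ∀ z : ↥(modularFunctionFieldBar (M * q * q)), f i₀ z = (z : LaurentSeries Qb))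
    (h2Vw : ∀ z ∈ V 2, ∀ s, s ≠ i₀ →
      f s (Glob.toBar (M * q * q) K (WQ2.wK2 M q hq hqM K z)) ∈ ConjMod.gaussRing A)
    (Nm : FK (M * q * q) K → FK (M * q) K)
    (hNm : ∀ x, Glob.toBar (M * q) K (Nm x) =
      PushPic.betaNorm (M * q) q (Glob.toBar (M * q * q) K x))
    (x : FK (M * q * q) K) (c : Fin 3 → OK A K)
    (hx : ∀ i, ∃ z ∈ V i, x - algebraMap (OK A K) (FK (M * q * q) K) (c i) =
      algebraMap (OK A K) (FK (M * q * q) K) π * z) :
    ∃ z' ∈ V' 1, Nm x - algebraMap (OK A K) (FK (M * q) K) (c 1 * c 2 ^ (q - 1)) =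
      algebraMap (OK A K) (FK (M * q) K) π * z' := by
  classical
  let σ : Fin q → FK (M * q * q) K →+* LaurentSeries Qb := fun s =>
    (f s).comp ((Glob.toBar (M * q * q) K).comp
      ((WQ2.wK2 M q hq hqM K : FK (M * q * q) K ≃+* FK (M * q * q) K) :
        FK (M * q * q) K →+* FK (M * q * q) K))
  let emb' : FK (M * q) K →+* LaurentSeries Qb :=
    (FK (M * q) K).subtype.comp
      ((WK.wK M q hq hqM K : FK (M * q) K ≃+* FK (M * q) K) : FK (M * q) K →+* FK (M * q) K)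
  have hσc : ∀ (s : Fin q) (c : OK A K),
      σ s (algebraMap (OK A K) (FK (M * q * q) K) c) = kap A K c := by
    intro s c
    show f s (Glob.toBar (M * q * q) K
      (WQ2.wK2 M q hq hqM K (algebraMap (OK A K) (FK (M * q * q) K) c))) = _
    rw [WQ2.wK2_algebraMap_OK]
    exact fam_const M q A K f hf s c
  have hemb : ∀ c : OK A K, emb' (algebraMap (OK A K) (FK (M * q) K) c) = kap A K c := by
    intro c
    show ((WK.wK M q hq hqM K (algebraMap (OK A K) (FK (M * q) K) c) : FK (M * q) K) :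
        LaurentSeries Qb) = _
    rw [WK.wK_algebraMap_OK]
    rfl
  have hS : ∀ s : Fin q, ∀ z ∈ (fun i : Fin 3 => (V i : Set (FK (M * q * q) K)))
      ((fun s : Fin q => if s = i₀ then (1 : Fin 3) else 2) s),
      σ s z ∈ ConjMod.gaussRing A := by
    intro s z hz
    by_cases hs : s = i₀
    · subst hs
      simp only [if_pos] at hz
      show f s (Glob.toBar (M * q * q) K (WQ2.wK2 M q hq hqM K z)) ∈ _
      rw [hf0]
      exact h1V z hz
    · simp only [if_neg hs] at hz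
      exact h2Vw z hz s hs
  have key := n2_of_prod (ConjMod.gaussRing A) (kap A K) (kap_mem A K) σ hσc emb' hemb
    Nm (fun x => coe_wK_nm_beta M q hq hqM K f hf hinj Nm hNm x)
    (fun i : Fin 3 => (V i : Set (FK (M * q * q) K)))
    (fun s : Fin q => if s = i₀ then (1 : Fin 3) else 2) hS
    (V' 1 : Set (FK (M * q) K)) h1V' π (kap_ne_zero A K hπ) x c hx
  have e : ∏ s : Fin q, c (if s = i₀ then (1 : Fin 3) else 2) = c 1 * c 2 ^ (q - 1) := by
    have e1 : ∀ s : Fin q, c (if s = i₀ then (1 : Fin 3) else 2) =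
        if s = i₀ then c 1 else c 2 := fun s => by split_ifs <;> rfl
    simp only [e1]
    rw [prod_ite_eq, Fintype.card_fin]
  rwa [e] at key

/-! #### Packaged forms -/

/-- The exponents `e·f` of `W1, W2, W3` over the two components of level `M q` along `α`
(same matrix as `ToricAsm.dAlpha`). -/
def dAlpha (q : ℕ) : Fin 3 → Fin 2 → ℕ := ![![1, 0], ![0, q], ![q - 1, 0]]

/-- The exponents along `β` (same matrix as `ToricAsm.dBeta`). -/
def dBeta (q : ℕ) : Fin 3 → Fin 2 → ℕ := ![![q, 0], ![0, 1], ![0, q - 1]]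

theorem dAlpha_spec (q : ℕ) : dAlpha q 0 0 = 1 ∧ dAlpha q 1 0 = 0 ∧ dAlpha q 2 0 = q - 1 ∧
    dAlpha q 0 1 = 0 ∧ dAlpha q 1 1 = q ∧ dAlpha q 2 1 = 0 := ⟨rfl, rfl, rfl, rfl, rfl, rfl⟩

theorem dBeta_spec (q : ℕ) : dBeta q 0 0 = q ∧ dBeta q 1 0 = 0 ∧ dBeta q 2 0 = 0 ∧
    dBeta q 0 1 = 0 ∧ dBeta q 1 1 = 1 ∧ dBeta q 2 1 = q - 1 := ⟨rfl, rfl, rfl, rfl, rfl, rfl⟩

include hq hqM in
/-- **(N2) for `α`**, both branches of level `M q`, for any exponent matrix `d` with the entries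
of `dAlpha q` (`ToricAsm.dAlpha q`: `⟨rfl, rfl, rfl, rfl, rfl, rfl⟩`). -/
theorem n2_alpha (hA : A.LiesOverPrime q) (π : OK A K) (hπ : π ≠ 0)
    (V : Fin 3 → ValuationSubring (FK (M * q * q) K))
    (V' : Fin 2 → ValuationSubring (FK (M * q) K))
    (h0V : ∀ z ∈ V 0, ((z : FK (M * q * q) K) : LaurentSeries Qb) ∈ ConjMod.gaussRing A)
    (h1V : ∀ z ∈ V 1, ((WQ2.wK2 M q hq hqM K z : FK (M * q * q) K) : LaurentSeries Qb) ∈
      ConjMod.gaussRing A)
    (h0V' : ∀ y : FK (M * q) K, (y : LaurentSeries Qb) ∈ ConjMod.gaussRing A → y ∈ V' 0)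
    (h1V' : ∀ y : FK (M * q) K, ((WK.wK M q hq hqM K y : FK (M * q) K) : LaurentSeries Qb) ∈
      ConjMod.gaussRing A → y ∈ V' 1)
    (f : Fin q → (↥(modularFunctionFieldBar (M * q * q)) →+* LaurentSeries Qb))
    (hf : ∀ (i : Fin q) (x : ↥(modularFunctionFieldBar (M * q))),
      f i (heckeAlphaBar Qb (M * q) q x) = (x : LaurentSeries Qb))
    (hinj : Function.Injective f) (i₀ : Fin q)
    (hf0 : ∀ z : ↥(modularFunctionFieldBar (M * q * q)), f i₀ z = (z : LaurentSeries Qb))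
    (h2V : ∀ z ∈ V 2, ∀ s, s ≠ i₀ →
      f s (Glob.toBar (M * q * q) K z) ∈ ConjMod.gaussRing A)
    (Nm : FK (M * q * q) K → FK (M * q) K)
    (hNm : ∀ x, Glob.toBar (M * q) K (Nm x) =
      PushPic.alphaNorm (M * q) q (Glob.toBar (M * q * q) K x))
    (d : Fin 3 → Fin 2 → ℕ)
    (hd : d 0 0 = 1 ∧ d 1 0 = 0 ∧ d 2 0 = q - 1 ∧ d 0 1 = 0 ∧ d 1 1 = q ∧ d 2 1 = 0)
    (x : FK (M * q * q) K) (c : Fin 3 → OK A K)
    (hx : ∀ i, ∃ z ∈ V i, x - algebraMap (OK A K) (FK (M * q * q) K) (c i) =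
      algebraMap (OK A K) (FK (M * q * q) K) π * z) (j : Fin 2) :
    ∃ z' ∈ V' j, Nm x - algebraMap (OK A K) (FK (M * q) K) (∏ i, c i ^ d i j) =
      algebraMap (OK A K) (FK (M * q) K) π * z' := by
  obtain ⟨d00, d10, d20, d01, d11, d21⟩ := hd
  fin_cases j
  · have h := n2_alpha_zero M q hq A K π hπ V V' h0V h0V' f hf hinj i₀ hf0 h2V Nm hNm x c hx
    have e : ∏ i, c i ^ d i 0 = c 0 * c 2 ^ (q - 1) := by
      rw [Fin.prod_univ_three, d00, d10, d20, pow_one, pow_zero, mul_one]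
    show ∃ z' ∈ V' 0, Nm x - algebraMap (OK A K) (FK (M * q) K) (∏ i, c i ^ d i 0) = _
    rw [e]
    exact h
  · have h := n2_alpha_one M q hq hqM A K hA π hπ V V' h1V h1V' Nm hNm x c hx
    have e : ∏ i, c i ^ d i 1 = c 1 ^ q := by
      rw [Fin.prod_univ_three, d01, d11, d21, pow_zero, pow_zero, one_mul, mul_one]
    show ∃ z' ∈ V' 1, Nm x - algebraMap (OK A K) (FK (M * q) K) (∏ i, c i ^ d i 1) = _
    rw [e]
    exact h

include hq hqM in
/-- **(N2) for `β`**, both branches of level `M q`, for any exponent matrix `d` with the entries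
of `dBeta q`. -/
theorem n2_beta (hA : A.LiesOverPrime q) (π : OK A K) (hπ : π ≠ 0)
    (V : Fin 3 → ValuationSubring (FK (M * q * q) K))
    (V' : Fin 2 → ValuationSubring (FK (M * q) K))
    (h0V : ∀ z ∈ V 0, ((z : FK (M * q * q) K) : LaurentSeries Qb) ∈ ConjMod.gaussRing A)
    (h1V : ∀ z ∈ V 1, ((WQ2.wK2 M q hq hqM K z : FK (M * q * q) K) : LaurentSeries Qb) ∈
      ConjMod.gaussRing A)
    (h0V' : ∀ y : FK (M * q) K, (y : LaurentSeries Qb) ∈ ConjMod.gaussRing A → y ∈ V' 0)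
    (h1V' : ∀ y : FK (M * q) K, ((WK.wK M q hq hqM K y : FK (M * q) K) : LaurentSeries Qb) ∈
      ConjMod.gaussRing A → y ∈ V' 1)
    (f : Fin q → (↥(modularFunctionFieldBar (M * q * q)) →+* LaurentSeries Qb))
    (hf : ∀ (i : Fin q) (x : ↥(modularFunctionFieldBar (M * q))),
      f i (heckeAlphaBar Qb (M * q) q x) = (x : LaurentSeries Qb))
    (hinj : Function.Injective f) (i₀ : Fin q)
    (hf0 : ∀ z : ↥(modularFunctionFieldBar (M * q * q)), f i₀ z = (z : LaurentSeries Qb))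
    (h2Vw : ∀ z ∈ V 2, ∀ s, s ≠ i₀ →
      f s (Glob.toBar (M * q * q) K (WQ2.wK2 M q hq hqM K z)) ∈ ConjMod.gaussRing A)
    (Nm : FK (M * q * q) K → FK (M * q) K)
    (hNm : ∀ x, Glob.toBar (M * q) K (Nm x) =
      PushPic.betaNorm (M * q) q (Glob.toBar (M * q * q) K x))
    (d : Fin 3 → Fin 2 → ℕ)
    (hd : d 0 0 = q ∧ d 1 0 = 0 ∧ d 2 0 = 0 ∧ d 0 1 = 0 ∧ d 1 1 = 1 ∧ d 2 1 = q - 1)
    (x : FK (M * q * q) K) (c : Fin 3 → OK A K)
    (hx : ∀ i, ∃ z ∈ V i, x - algebraMap (OK A K) (FK (M * q * q) K) (c i) =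
      algebraMap (OK A K) (FK (M * q * q) K) π * z) (j : Fin 2) :
    ∃ z' ∈ V' j, Nm x - algebraMap (OK A K) (FK (M * q) K) (∏ i, c i ^ d i j) =
      algebraMap (OK A K) (FK (M * q) K) π * z' := by
  obtain ⟨d00, d10, d20, d01, d11, d21⟩ := hd
  fin_cases j
  · have h := n2_beta_zero M q hq hqM A K hA π hπ V V' h0V h0V' Nm hNm x c hx
    have e : ∏ i, c i ^ d i 0 = c 0 ^ q := by
      rw [Fin.prod_univ_three, d00, d10, d20, pow_zero, pow_zero, mul_one, mul_one]
    show ∃ z' ∈ V' 0, Nm x - algebraMap (OK A K) (FK (M * q) K) (∏ i, c i ^ d i 0) = _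
    rw [e]
    exact h
  · have h := n2_beta_one M q hq hqM A K π hπ V V' h1V h1V' f hf hinj i₀ hf0 h2Vw Nm hNm x c hx
    have e : ∏ i, c i ^ d i 1 = c 1 * c 2 ^ (q - 1) := by
      rw [Fin.prod_univ_three, d01, d11, d21, pow_zero, pow_one, one_mul]
    show ∃ z' ∈ V' 1, Nm x - algebraMap (OK A K) (FK (M * q) K) (∏ i, c i ^ d i 1) = _
    rw [e]
    exact h

/-! #### The hypothesis `hN2` of `ToricRel.rel`, verbatim, for two charts -/

include hq hqM in
/-- **`hN2` of `ToricRel.rel` for `α`** (`ι = Fin 3`, `ι' = Fin 2`, `d = dAlpha q`), for any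
`O`-subalgebras `R ⊆ E`, `R' ⊆ E'` and any monoid-with-zero hom `Nm` which is the norm along `α`
on `F̄`. -/
theorem hN2_alpha (hA : A.LiesOverPrime q) (π : OK A K) (hπ : π ≠ 0)
    (V : Fin 3 → ValuationSubring (FK (M * q * q) K))
    (V' : Fin 2 → ValuationSubring (FK (M * q) K))
    (h0V : ∀ z ∈ V 0, ((z : FK (M * q * q) K) : LaurentSeries Qb) ∈ ConjMod.gaussRing A)
    (h1V : ∀ z ∈ V 1, ((WQ2.wK2 M q hq hqM K z : FK (M * q * q) K) : LaurentSeries Qb) ∈
      ConjMod.gaussRing A)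
    (h0V' : ∀ y : FK (M * q) K, (y : LaurentSeries Qb) ∈ ConjMod.gaussRing A → y ∈ V' 0)
    (h1V' : ∀ y : FK (M * q) K, ((WK.wK M q hq hqM K y : FK (M * q) K) : LaurentSeries Qb) ∈
      ConjMod.gaussRing A → y ∈ V' 1)
    (f : Fin q → (↥(modularFunctionFieldBar (M * q * q)) →+* LaurentSeries Qb))
    (hf : ∀ (i : Fin q) (x : ↥(modularFunctionFieldBar (M * q))),
      f i (heckeAlphaBar Qb (M * q) q x) = (x : LaurentSeries Qb))
    (hinj : Function.Injective f) (i₀ : Fin q)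
    (hf0 : ∀ z : ↥(modularFunctionFieldBar (M * q * q)), f i₀ z = (z : LaurentSeries Qb))
    (h2V : ∀ z ∈ V 2, ∀ s, s ≠ i₀ →
      f s (Glob.toBar (M * q * q) K z) ∈ ConjMod.gaussRing A)
    (Nm : FK (M * q * q) K →*₀ FK (M * q) K)
    (hNm : ∀ x, Glob.toBar (M * q) K (Nm x) =
      PushPic.alphaNorm (M * q) q (Glob.toBar (M * q * q) K x))
    (R : Subalgebra (OK A K) (FK (M * q * q) K)) (R' : Subalgebra (OK A K) (FK (M * q) K)) :
    ∀ (x : FK (M * q * q) K) (c : Fin 3 → OK A K),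
      (∀ i, ∃ z ∈ V i, x - algebraMap R (FK (M * q * q) K) (algebraMap (OK A K) R (c i)) =
        algebraMap R (FK (M * q * q) K) (algebraMap (OK A K) R π) * z) →
      ∀ j, ∃ z' ∈ V' j,
        Nm x - algebraMap R' (FK (M * q) K) (algebraMap (OK A K) R' (∏ i, c i ^ dAlpha q i j)) =
          algebraMap R' (FK (M * q) K) (algebraMap (OK A K) R' π) * z' :=
  fun x c hx j => n2_alpha M q hq hqM A K hA π hπ V V' h0V h1V h0V' h1V' f hf hinj i₀ hf0 h2V
    Nm hNm (dAlpha q) (dAlpha_spec q) x c hx j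

include hq hqM in
/-- **`hN2` of `ToricRel.rel` for `β`** (`d = dBeta q`). -/
theorem hN2_beta (hA : A.LiesOverPrime q) (π : OK A K) (hπ : π ≠ 0)
    (V : Fin 3 → ValuationSubring (FK (M * q * q) K))
    (V' : Fin 2 → ValuationSubring (FK (M * q) K))
    (h0V : ∀ z ∈ V 0, ((z : FK (M * q * q) K) : LaurentSeries Qb) ∈ ConjMod.gaussRing A)
    (h1V : ∀ z ∈ V 1, ((WQ2.wK2 M q hq hqM K z : FK (M * q * q) K) : LaurentSeries Qb) ∈
      ConjMod.gaussRing A)
    (h0V' : ∀ y : FK (M * q) K, (y : LaurentSeries Qb) ∈ ConjMod.gaussRing A → y ∈ V' 0)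
    (h1V' : ∀ y : FK (M * q) K, ((WK.wK M q hq hqM K y : FK (M * q) K) : LaurentSeries Qb) ∈
      ConjMod.gaussRing A → y ∈ V' 1)
    (f : Fin q → (↥(modularFunctionFieldBar (M * q * q)) →+* LaurentSeries Qb))
    (hf : ∀ (i : Fin q) (x : ↥(modularFunctionFieldBar (M * q))),
      f i (heckeAlphaBar Qb (M * q) q x) = (x : LaurentSeries Qb))
    (hinj : Function.Injective f) (i₀ : Fin q)
    (hf0 : ∀ z : ↥(modularFunctionFieldBar (M * q * q)), f i₀ z = (z : LaurentSeries Qb))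
    (h2Vw : ∀ z ∈ V 2, ∀ s, s ≠ i₀ →
      f s (Glob.toBar (M * q * q) K (WQ2.wK2 M q hq hqM K z)) ∈ ConjMod.gaussRing A)
    (Nm : FK (M * q * q) K →*₀ FK (M * q) K)
    (hNm : ∀ x, Glob.toBar (M * q) K (Nm x) =
      PushPic.betaNorm (M * q) q (Glob.toBar (M * q * q) K x))
    (R : Subalgebra (OK A K) (FK (M * q * q) K)) (R' : Subalgebra (OK A K) (FK (M * q) K)) :
    ∀ (x : FK (M * q * q) K) (c : Fin 3 → OK A K),
      (∀ i, ∃ z ∈ V i, x - algebraMap R (FK (M * q * q) K) (algebraMap (OK A K) R (c i)) =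
        algebraMap R (FK (M * q * q) K) (algebraMap (OK A K) R π) * z) →
      ∀ j, ∃ z' ∈ V' j,
        Nm x - algebraMap R' (FK (M * q) K) (algebraMap (OK A K) R' (∏ i, c i ^ dBeta q i j)) =
          algebraMap R' (FK (M * q) K) (algebraMap (OK A K) R' π) * z' :=
  fun x c hx j => n2_beta M q hq hqM A K hA π hπ V V' h0V h1V h0V' h1V' f hf hinj i₀ hf0 h2Vw
    Nm hNm (dBeta q) (dBeta_spec q) x c hx j

/-! #### The Gauss hypotheses for the concrete valuation rings -/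

variable {A K}

/-- `h0V` for `V 0 = GaussV.V1` (level `M q q`). -/
theorem h0V_V1 (hdvr : IsDiscreteValuationRing (OK A K)) :
    ∀ z ∈ GaussV.V1 (M * q * q) A K hdvr,
      ((z : FK (M * q * q) K) : LaurentSeries Qb) ∈ ConjMod.gaussRing A :=
  fun _ hz => hz

/-- `h1V` for `V 1 = GaussV.V2 wK2`. -/
theorem h1V_V2 (hdvr : IsDiscreteValuationRing (OK A K)) :
    ∀ z ∈ GaussV.V2 (WQ2.wK2 M q hq hqM K) hdvr,
      ((WQ2.wK2 M q hq hqM K z : FK (M * q * q) K) : LaurentSeries Qb) ∈ ConjMod.gaussRing A :=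
  fun _ hz => hz

/-- `h0V'` for `V' 0 = GaussV.V1` (level `M q`). -/
theorem h0V'_V1 (hdvr : IsDiscreteValuationRing (OK A K)) :
    ∀ y : FK (M * q) K, (y : LaurentSeries Qb) ∈ ConjMod.gaussRing A →
      y ∈ GaussV.V1 (M * q) A K hdvr :=
  fun _ hy => hy

/-- `h1V'` for `V' 1 = GaussV.V2 wK`. -/
theorem h1V'_V2 (hdvr : IsDiscreteValuationRing (OK A K)) :
    ∀ y : FK (M * q) K, ((WK.wK M q hq hqM K y : FK (M * q) K) : LaurentSeries Qb) ∈
      ConjMod.gaussRing A → y ∈ GaussV.V2 (WK.wK M q hq hqM K) hdvr :=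
  fun _ hy => hy

end Inst

end Fermat.Agent.S36.NormCongInst
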