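/-
S36 — NormN2.lean (helper62): block [NORM3] — the CONSTANTS RULE (N2) of the toric block for
the CONCRETE valuation rings of the level-`M q²` model, unconditionally in the middle-cusp
component:

    x ≡ c i  mod π (V i)  (i = 0, 1, 2)   ⟹   Nm x ≡ ∏ i, c i ^ d i j   mod π (V' j)  (j = 0, 1)

with `V 0 = GaussV.V1` (level `M q²`), `V 1 = GaussV.V2 w_{q²}`, `V 2 = W3` ANY valuation
subring whose membership is Gauss-integrality along ONE middle-cusp embedding `ι3^ξ`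
(`GaussE.V` along `Iota3.iota3 … ξ`), `V' 0 = GaussV.V1` (level `M q`), `V' 1 = GaussV.V2 w_q`,
`K` fixed pointwise by the inertia group of `A` (third component of `Plan.UnrBase`).

It is the plug-in of
* `S36/NormCongInst` (helper26: the four rules in hypothesis form over the family),
* `S36/InertRotK` (helper79: from `ι3^ξ` to all members of the family `emb3 ζ`),
* `S36/W3Sym` (helper80: `W3` is `w_{q²}`-stable),
* `S36/Emb3Bar` (helper101: the bridge `emb3 K c x = famBar c (toBar x)`),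
* `S36/NormKMap` (the `K`-level norm maps `nmAlpha`, `nmBeta`).

Exports:
* `h2V_W3`, `h2Vw_W3`             : the two `W3`-hypotheses of `NormCongInst`;
* `n2_alpha`, `n2_beta`           : (N2) for ANY `Nm` with `toBar (Nm x) = N (toBar x)`;
* `n2_nmAlpha`, `n2_nmBeta`       : (N2) for `NormKMap.nmAlpha`, `NormKMap.nmBeta`;
* `n2_normHom_alpha`, `n2_normHom_beta` : (N2) for the intrinsic norm `NormOne.normHom` under
                                    the instance terms of record of the toric block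
                                    (`α`: `DegTower.algTower (M * q) (M * q * q) K (Dvd.intro q rfl)`,
                                    `β`: `(WQ2.betaK2 M q hq hqM K).toAlgebra`) — VERBATIM the
                                    hypothesis `hN2` of `TorRelInst.relα_field / relβ_field`.
-/
import Mathlib
import Fermat.Agent.S36.NormCongInst
import Fermat.Agent.S36.NormKMap
import Fermat.Agent.S36.InertRotK
import Fermat.Agent.S36.W3Sym
import Fermat.Agent.S36.Emb3Bar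
import Fermat.Agent.S36.NormOne

set_option autoImplicit false

noncomputable section

namespace Fermat.Agent.S36.NormN2

open ModularCurve AlgebraicCurve HahnSeries
open Fermat.Agent.S18 Fermat.Agent.S18.Arith Fermat.Agent.S24 Fermat.Agent.S34 Fermat.Agent.S35

variable (M q : ℕ) [NeZero M] [NeZero q] (K : IntermediateField ℚ Qb)
variable (hq : q.Prime) (hqM : ¬ q ∣ M)

/-! ### The `W3`-hypotheses of `NormCongInst` -/

section W3

variable (A : ValuationSubring Qb) (hA : A.LiesOverPrime q)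
  (hK : ∀ σ ∈ A.inertiaSubgroupIn ℚ, ∀ a ∈ K, σ a = a)
  {ξ : Qb} (hξp : IsPrimitiveRoot ξ q) (hξ : ξ ^ q = 1) (hξ1 : ξ ≠ 1)
  (W3 : ValuationSubring (FK (M * q * q) K))
  (hW3 : ∀ x, x ∈ W3 ↔ ∃ r, GRel A (Iota3.iota3 M q K hq hqM ξ hξ hξ1 x) r)
  (ζ : Qb) (hζ : IsPrimitiveRoot ζ q)

include hA hK hξp hW3 in
/-- `h2V` of `NormCongInst`: every member `c ≠ 0` of the family maps `W3` into the Gauss ring. -/
theorem h2V_W3 : ∀ z ∈ W3, ∀ s : Fin q, s ≠ 0 →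
    Iota3K.famBar M q hq hqM ζ hζ s (Glob.toBar (M * q * q) K z) ∈ ConjMod.gaussRing A := by
  intro z hz s hs
  rw [← Emb3Bar.emb3_eq_famBar M q K hq hqM ζ hζ s z]
  exact InertRotK.exists_gRel_emb3 M q K hq hqM A hA hK hξp hξ hξ1 hζ s hs z ((hW3 z).mp hz)

include hA hK hξp hW3 in
/-- `h2Vw` of `NormCongInst`: the same after `w_{q²}` (`W3` is `w_{q²}`-stable). -/
theorem h2Vw_W3 : ∀ z ∈ W3, ∀ s : Fin q, s ≠ 0 →
    Iota3K.famBar M q hq hqM ζ hζ s
      (Glob.toBar (M * q * q) K (WQ2.wK2 M q hq hqM K z)) ∈ ConjMod.gaussRing A := by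
  intro z hz s hs
  exact h2V_W3 M q K hq hqM A hA hK hξp hξ hξ1 W3 hW3 ζ hζ _
    ((W3Sym.wK2_mem_iff M q K hq hqM A hA hK hξp hξ hξ1 W3 hW3 z).mpr hz) s hs

end W3

/-! ### The constants rule (N2) for the concrete valuation rings -/

section N2

variable (A : ValuationSubring Qb) (hA : A.LiesOverPrime q)
  (hK : ∀ σ ∈ A.inertiaSubgroupIn ℚ, ∀ a ∈ K, σ a = a)
  (hdvr : IsDiscreteValuationRing (OK A K))
  {ξ : Qb} (hξp : IsPrimitiveRoot ξ q) (hξ : ξ ^ q = 1) (hξ1 : ξ ≠ 1)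
  (V : Fin 3 → ValuationSubring (FK (M * q * q) K))
  (V' : Fin 2 → ValuationSubring (FK (M * q) K))
  (hV0 : V 0 = GaussV.V1 (M * q * q) A K hdvr)
  (hV1 : V 1 = GaussV.V2 (WQ2.wK2 M q hq hqM K) hdvr)
  (hV2 : ∀ x, x ∈ V 2 ↔ ∃ r, GRel A (Iota3.iota3 M q K hq hqM ξ hξ hξ1 x) r)
  (hV'0 : V' 0 = GaussV.V1 (M * q) A K hdvr)
  (hV'1 : V' 1 = GaussV.V2 (WK.wK M q hq hqM K) hdvr)
  (π : OK A K) (hπ : π ≠ 0)

include hA hK hξp hV0 hV1 hV2 hV'0 hV'1 hπ in
/-- **(N2) along `α`** for any `Nm` which is the norm along `α` on `F̄`: exponents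
`d = [[1,0],[0,q],[q-1,0]]`. -/
theorem n2_alpha (Nm : FK (M * q * q) K → FK (M * q) K)
    (hNm : ∀ x, Glob.toBar (M * q) K (Nm x) =
      PushPic.alphaNorm (M * q) q (Glob.toBar (M * q * q) K x))
    (d : Fin 3 → Fin 2 → ℕ)
    (hd : d 0 0 = 1 ∧ d 1 0 = 0 ∧ d 2 0 = q - 1 ∧ d 0 1 = 0 ∧ d 1 1 = q ∧ d 2 1 = 0)
    (x : FK (M * q * q) K) (c : Fin 3 → OK A K)
    (hx : ∀ i, ∃ z ∈ V i, x - algebraMap (OK A K) (FK (M * q * q) K) (c i) =
      algebraMap (OK A K) (FK (M * q * q) K) π * z) (j : Fin 2) :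
    ∃ z' ∈ V' j, Nm x - algebraMap (OK A K) (FK (M * q) K) (∏ i, c i ^ d i j) =
      algebraMap (OK A K) (FK (M * q) K) π * z' := by
  obtain ⟨ζ, hζ⟩ : ∃ ζ : Qb, IsPrimitiveRoot ζ q := ⟨ξ, hξp⟩
  refine NormCongInst.n2_alpha M q hq hqM A K hA π hπ V V' ?_ ?_ ?_ ?_
    (Iota3K.famBar M q hq hqM ζ hζ) (Iota3K.famBar_alpha M q hq hqM ζ hζ)
    (Iota3K.famBar_injective M q hq hqM ζ hζ) 0 (Iota3K.famBar_zero M q hq hqM ζ hζ) ?_
    Nm hNm d hd x c hx j
  · rw [hV0]; exact NormCongInst.h0V_V1 M q hdvr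
  · rw [hV1]; exact NormCongInst.h1V_V2 M q hq hqM hdvr
  · rw [hV'0]; exact NormCongInst.h0V'_V1 M q hdvr
  · rw [hV'1]; exact NormCongInst.h1V'_V2 M q hq hqM hdvr
  · exact h2V_W3 M q K hq hqM A hA hK hξp hξ hξ1 (V 2) hV2 ζ hζ

include hA hK hξp hV0 hV1 hV2 hV'0 hV'1 hπ in
/-- **(N2) along `β`** for any `Nm` which is the norm along `β` on `F̄`: exponents
`d = [[q,0],[0,1],[0,q-1]]`. -/
theorem n2_beta (Nm : FK (M * q * q) K → FK (M * q) K)
    (hNm : ∀ x, Glob.toBar (M * q) K (Nm x) =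
      PushPic.betaNorm (M * q) q (Glob.toBar (M * q * q) K x))
    (d : Fin 3 → Fin 2 → ℕ)
    (hd : d 0 0 = q ∧ d 1 0 = 0 ∧ d 2 0 = 0 ∧ d 0 1 = 0 ∧ d 1 1 = 1 ∧ d 2 1 = q - 1)
    (x : FK (M * q * q) K) (c : Fin 3 → OK A K)
    (hx : ∀ i, ∃ z ∈ V i, x - algebraMap (OK A K) (FK (M * q * q) K) (c i) =
      algebraMap (OK A K) (FK (M * q * q) K) π * z) (j : Fin 2) :
    ∃ z' ∈ V' j, Nm x - algebraMap (OK A K) (FK (M * q) K) (∏ i, c i ^ d i j) =
      algebraMap (OK A K) (FK (M * q) K) π * z' := by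
  obtain ⟨ζ, hζ⟩ : ∃ ζ : Qb, IsPrimitiveRoot ζ q := ⟨ξ, hξp⟩
  refine NormCongInst.n2_beta M q hq hqM A K hA π hπ V V' ?_ ?_ ?_ ?_
    (Iota3K.famBar M q hq hqM ζ hζ) (Iota3K.famBar_alpha M q hq hqM ζ hζ)
    (Iota3K.famBar_injective M q hq hqM ζ hζ) 0 (Iota3K.famBar_zero M q hq hqM ζ hζ) ?_
    Nm hNm d hd x c hx j
  · rw [hV0]; exact NormCongInst.h0V_V1 M q hdvr
  · rw [hV1]; exact NormCongInst.h1V_V2 M q hq hqM hdvr
  · rw [hV'0]; exact NormCongInst.h0V'_V1 M q hdvr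
  · rw [hV'1]; exact NormCongInst.h1V'_V2 M q hq hqM hdvr
  · exact h2Vw_W3 M q K hq hqM A hA hK hξp hξ hξ1 (V 2) hV2 ζ hζ

include hA hK hξp hV0 hV1 hV2 hV'0 hV'1 hπ in
/-- **(N2) for the `K`-level norm map `nmAlpha`.** -/
theorem n2_nmAlpha (d : Fin 3 → Fin 2 → ℕ)
    (hd : d 0 0 = 1 ∧ d 1 0 = 0 ∧ d 2 0 = q - 1 ∧ d 0 1 = 0 ∧ d 1 1 = q ∧ d 2 1 = 0)
    (x : FK (M * q * q) K) (c : Fin 3 → OK A K)
    (hx : ∀ i, ∃ z ∈ V i, x - algebraMap (OK A K) (FK (M * q * q) K) (c i) =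
      algebraMap (OK A K) (FK (M * q * q) K) π * z) (j : Fin 2) :
    ∃ z' ∈ V' j, NormKMap.nmAlpha M q hq K x
        - algebraMap (OK A K) (FK (M * q) K) (∏ i, c i ^ d i j) =
      algebraMap (OK A K) (FK (M * q) K) π * z' := by
  have hNm : ∀ x, Glob.toBar (M * q) K (NormKMap.nmAlpha M q hq K x) =
      PushPic.alphaNorm (M * q) q (Glob.toBar (M * q * q) K x) :=
    fun x => NormKMap.toBar_nmAlpha M q hq K x
  exact n2_alpha M q K hq hqM A hA hK hdvr hξp hξ hξ1 V V' hV0 hV1 hV2 hV'0 hV'1 π hπ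
    (fun x => NormKMap.nmAlpha M q hq K x) hNm d hd x c hx j

include hA hK hξp hV0 hV1 hV2 hV'0 hV'1 hπ in
/-- **(N2) for the `K`-level norm map `nmBeta`.** -/
theorem n2_nmBeta (d : Fin 3 → Fin 2 → ℕ)
    (hd : d 0 0 = q ∧ d 1 0 = 0 ∧ d 2 0 = 0 ∧ d 0 1 = 0 ∧ d 1 1 = 1 ∧ d 2 1 = q - 1)
    (x : FK (M * q * q) K) (c : Fin 3 → OK A K)
    (hx : ∀ i, ∃ z ∈ V i, x - algebraMap (OK A K) (FK (M * q * q) K) (c i) =
      algebraMap (OK A K) (FK (M * q * q) K) π * z) (j : Fin 2) :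
    ∃ z' ∈ V' j, NormKMap.nmBeta M q hq hqM K x
        - algebraMap (OK A K) (FK (M * q) K) (∏ i, c i ^ d i j) =
      algebraMap (OK A K) (FK (M * q) K) π * z' := by
  have hNm : ∀ x, Glob.toBar (M * q) K (NormKMap.nmBeta M q hq hqM K x) =
      PushPic.betaNorm (M * q) q (Glob.toBar (M * q * q) K x) :=
    fun x => NormKMap.toBar_nmBeta M q hq hqM K x
  exact n2_beta M q K hq hqM A hA hK hdvr hξp hξ hξ1 V V' hV0 hV1 hV2 hV'0 hV'1 π hπ
    (fun x => NormKMap.nmBeta M q hq hqM K x) hNm d hd x c hx j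

include hA hK hξp hV0 hV1 hV2 hV'0 hV'1 hπ in
/-- **(N2) for the intrinsic `K`-level norm along `α`** (`hN2` of `TorRelInst.relα_field`). -/
theorem n2_normHom_alpha (d : Fin 3 → Fin 2 → ℕ)
    (hd : d 0 0 = 1 ∧ d 1 0 = 0 ∧ d 2 0 = q - 1 ∧ d 0 1 = 0 ∧ d 1 1 = q ∧ d 2 1 = 0) :
    letI := DegTower.algTower (M * q) (M * q * q) K (Dvd.intro q rfl)
    haveI := DegTower.finiteDimensional (M * q) (M * q * q) K (Dvd.intro q rfl)
    ∀ (x : FK (M * q * q) K) (c : Fin 3 → OK A K),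
      (∀ i, ∃ z ∈ V i, x - algebraMap (OK A K) (FK (M * q * q) K) (c i) =
        algebraMap (OK A K) (FK (M * q * q) K) π * z) →
      ∀ j, ∃ z' ∈ V' j, NormOne.normHom (FK (M * q) K) (FK (M * q * q) K) x
          - algebraMap (OK A K) (FK (M * q) K) (∏ i, c i ^ d i j) =
        algebraMap (OK A K) (FK (M * q) K) π * z' := by
  letI := DegTower.algTower (M * q) (M * q * q) K (Dvd.intro q rfl)
  haveI := DegTower.finiteDimensional (M * q) (M * q * q) K (Dvd.intro q rfl)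
  have hNm : ∀ x, Glob.toBar (M * q) K
      (NormOne.normHom (FK (M * q) K) (FK (M * q * q) K) x) =
      PushPic.alphaNorm (M * q) q (Glob.toBar (M * q * q) K x) :=
    fun x => Emb3Bar.toBar_norm_eq_alphaNorm M q K hq hqM x
  intro x c hx j
  exact n2_alpha M q K hq hqM A hA hK hdvr hξp hξ hξ1 V V' hV0 hV1 hV2 hV'0 hV'1 π hπ
    (fun x => NormOne.normHom (FK (M * q) K) (FK (M * q * q) K) x) hNm d hd x c hx j

include hA hK hξp hV0 hV1 hV2 hV'0 hV'1 hπ in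
/-- **(N2) for the intrinsic `K`-level norm along `β`** (`hN2` of `TorRelInst.relβ_field`). -/
theorem n2_normHom_beta (d : Fin 3 → Fin 2 → ℕ)
    (hd : d 0 0 = q ∧ d 1 0 = 0 ∧ d 2 0 = 0 ∧ d 0 1 = 0 ∧ d 1 1 = 1 ∧ d 2 1 = q - 1) :
    letI := (WQ2.betaK2 M q hq hqM K).toAlgebra
    haveI := Emb3Bar.finiteDimensional_beta M q K hq hqM
    ∀ (x : FK (M * q * q) K) (c : Fin 3 → OK A K),
      (∀ i, ∃ z ∈ V i, x - algebraMap (OK A K) (FK (M * q * q) K) (c i) =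
        algebraMap (OK A K) (FK (M * q * q) K) π * z) →
      ∀ j, ∃ z' ∈ V' j, NormOne.normHom (FK (M * q) K) (FK (M * q * q) K) x
          - algebraMap (OK A K) (FK (M * q) K) (∏ i, c i ^ d i j) =
        algebraMap (OK A K) (FK (M * q) K) π * z' := by
  letI := (WQ2.betaK2 M q hq hqM K).toAlgebra
  haveI := Emb3Bar.finiteDimensional_beta M q K hq hqM
  have hNm : ∀ x, Glob.toBar (M * q) K
      (NormOne.normHom (FK (M * q) K) (FK (M * q * q) K) x) =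
      PushPic.betaNorm (M * q) q (Glob.toBar (M * q * q) K x) :=
    fun x => Emb3Bar.toBar_norm_beta_eq_betaNorm M q K hq hqM x
  intro x c hx j
  exact n2_beta M q K hq hqM A hA hK hdvr hξp hξ hξ1 V V' hV0 hV1 hV2 hV'0 hV'1 π hπ
    (fun x => NormOne.normHom (FK (M * q) K) (FK (M * q * q) K) x) hNm d hd x c hx j

end N2

end Fermat.Agent.S36.NormN2
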