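/-
S36 — TorEta.lean (helper63).  Block [TORIC36], step (G3) of the global input of `ToricRel.rel`
in one abstract statement (Mathlib + `S36/ToricRel` + `S36/NormOne`).

`O` the base discrete valuation ring with uniformizer `π`, `E'` the function field of the lower
level, `κ : O → E'` the constants, `V' j` the component valuation rings of the lower level.  If
the norm `NmG` of the function `G` is `π ^ a * u * h₀ ^ m` (`u` a unit of `O`) and `NmG ≡ 1`
modulo `π (V' j)` for every `j`, then `NmG = u * h ^ m` with `h ≡ η j` (CONSTANTS of `O`) modulo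
`π (V' j)`, and `η j ^ m * u ≡ 1` modulo `π`:

* `global_eta` : `normalize` + `exists_eta` + the divisibility `π ∣ η j ^ m * u - 1` (the
  hypothesis `hηα`, `hηβ` of `Toric.exists_corrector`; it implies `¬ π ∣ η j`).
-/
import Mathlib
import Fermat.Agent.S36.ToricRel
import Fermat.Agent.S36.NormOne

set_option autoImplicit false

namespace Fermat.Agent.S36.TorEta

section Aux

variable {E' : Type*} [Field E']

/-- `x ≡ y` modulo the maximal ideal, both integral: the same for the `m`-th powers. -/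
theorem val_pow_sub_pow_lt (V : ValuationSubring E') {x y : E'} (hx : V.valuation x ≤ 1)
    (hy : V.valuation y ≤ 1) (hxy : V.valuation (x - y) < 1) (m : ℕ) (hm : 0 < m) :
    V.valuation (x ^ m - y ^ m) < 1 := by
  obtain ⟨k, rfl⟩ : ∃ k, m = k + 1 := ⟨m - 1, by omega⟩
  clear hm
  induction k with
  | zero => simpa using hxy
  | succ k ih =>
    have e : x ^ (k + 1 + 1) - y ^ (k + 1 + 1) =
        x ^ (k + 1) * (x - y) + (x ^ (k + 1) - y ^ (k + 1)) * y := by ring
    rw [e]
    refine lt_of_le_of_lt (Valuation.map_add _ _ _) (max_lt ?_ ?_)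
    · rw [map_mul, map_pow]
      exact lt_of_le_of_lt (mul_le_of_le_one_left' (pow_le_one₀ zero_le hx)) hxy
    · rw [map_mul]
      exact lt_of_le_of_lt (mul_le_of_le_one_right' hy) ih

end Aux

/-- **(G3), abstract.**  See the header. -/
theorem global_eta {O : Type*} [CommRing O] [IsDomain O] [IsDiscreteValuationRing O]
    {E' : Type*} [Field E'] {ι' : Type*} (κ : O →+* E') (hκ : Function.Injective κ)
    (π : O) (hπ : Irreducible π) (V' : ι' → ValuationSubring E') (j₀ : ι')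
    (hκV : ∀ j (c : O), κ c ∈ V' j) (hπV : ∀ j, (κ π)⁻¹ ∉ V' j)
    (hdisc : ∀ x : E', x ≠ 0 → ∃ k : ℤ, ∃ u ∈ V' j₀, u⁻¹ ∈ V' j₀ ∧ x = κ π ^ k * u)
    (hunif : ∀ j (x : E'), (V' j).valuation x < 1 → ∃ z ∈ V' j, x = κ π * z)
    (m : ℕ) (hm : 0 < m) (ζ : O) (hζ : IsPrimitiveRoot ζ m)
    (hres : ∀ u : O, IsUnit u → ∃ e : O, π ∣ e ^ m * u - 1)
    (a : ℤ) (u : O) (hu : IsUnit u) (NmG h₀ : E') (hh₀ : h₀ ≠ 0)
    (hNm : NmG = κ π ^ a * κ u * h₀ ^ m)
    (hone : ∀ j, ∃ z ∈ V' j, NmG - 1 = κ π * z) :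
    ∃ (h : E') (η : ι' → O), NmG = κ u * h ^ m ∧
      (∀ j, ∃ z ∈ V' j, h - κ (η j) = κ π * z) ∧ ∀ j, π ∣ η j ^ m * u - 1 := by
  classical
  have hϖ0 : κ π ≠ 0 := by
    intro h0
    apply hπV j₀
    rw [h0, inv_zero]
    exact (V' j₀).zero_mem
  have hle : ∀ j (c : O), (V' j).valuation (κ c) ≤ 1 := fun j c =>
    ((V' j).valuation_le_one_iff _).2 (hκV j c)
  -- `π` is a nonunit of every `V' j`
  have hvϖ : ∀ j, (V' j).valuation (κ π) < 1 := by
    intro j
    by_contra hcon
    apply hπV j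
    rw [← (V' j).valuation_le_one_iff, map_inv₀]
    have hpos : 0 < (V' j).valuation (κ π) := zero_lt_iff.2 ((Valuation.ne_zero_iff _).2 hϖ0)
    exact (inv_le_one₀ hpos).2 (not_lt.1 hcon)
  -- `NmG ≡ 1`: valuation statements
  have hlt : ∀ j, (V' j).valuation (NmG - 1) < 1 := by
    intro j
    obtain ⟨z, hz, e⟩ := hone j
    rw [e, map_mul]
    exact lt_of_le_of_lt (mul_le_of_le_one_right' (((V' j).valuation_le_one_iff _).2 hz))
      (hvϖ j)
  have hv1 : ∀ j, (V' j).valuation NmG = 1 := by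
    intro j
    have : NmG = 1 + (NmG - 1) := by ring
    rw [this]
    exact (V' j).valuation.map_one_add_of_lt (hlt j)
  have hunit : ∀ j, NmG ∈ V' j ∧ NmG⁻¹ ∈ V' j := by
    intro j
    refine ⟨((V' j).valuation_le_one_iff _).1 (hv1 j).le, ?_⟩
    rw [← (V' j).valuation_le_one_iff, map_inv₀, hv1 j, inv_one]
  obtain ⟨h, hNmh, hh⟩ := NormOne.normalize κ π V' j₀ hκV (hπV j₀) hdisc m hm.ne' a u hu NmG h₀
    hh₀ hNm hunit
  obtain ⟨e, he⟩ := hres u hu
  have hhm : ∀ j, (V' j).valuation (h ^ m * κ u - 1) < 1 := by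
    intro j
    have : h ^ m * κ u - 1 = NmG - 1 := by rw [hNmh]; ring
    rw [this]
    exact hlt j
  have hex : ∀ j, ∃ η : O, ∃ z ∈ V' j, h - κ η = κ π * z := fun j =>
    ToricRel.exists_eta κ hκ (V' j) (hκV j) π (hvϖ j) (hunif j) m hm ζ hζ u e he h (hhm j)
  choose η hη using hex
  refine ⟨h, η, hNmh, hη, ?_⟩
  intro j
  by_contra hnd
  -- then `η j ^ m * u - 1` is a unit of `O`
  have hU : IsUnit (η j ^ m * u - 1) := by
    by_contra hnu
    have hmem : η j ^ m * u - 1 ∈ IsLocalRing.maximalIdeal O :=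
      (IsLocalRing.mem_maximalIdeal _).mpr hnu
    rw [hπ.maximalIdeal_eq, Ideal.mem_span_singleton] at hmem
    exact hnd hmem
  obtain ⟨w', hw'⟩ := hU.exists_left_inv
  have h1 : (V' j).valuation (κ w') * (V' j).valuation (κ (η j ^ m * u - 1)) = 1 := by
    rw [← map_mul, ← map_mul, hw', map_one, map_one]
  -- but it lies in the maximal ideal of `V' j`
  obtain ⟨z, hz, hzη⟩ := hη j
  have hvh : (V' j).valuation h ≤ 1 := ((V' j).valuation_le_one_iff _).2 (hh j).1
  have hdiff : (V' j).valuation (κ (η j) - h) < 1 := by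
    have : κ (η j) - h = -(κ π * z) := by rw [← hzη]; ring
    rw [this, Valuation.map_neg, map_mul]
    exact lt_of_le_of_lt (mul_le_of_le_one_right' (((V' j).valuation_le_one_iff _).2 hz))
      (hvϖ j)
  have hpow := val_pow_sub_pow_lt (V' j) (hle j (η j)) hvh hdiff m hm
  have h2 : (V' j).valuation (κ (η j ^ m * u - 1)) < 1 := by
    have e2 : κ (η j ^ m * u - 1) = (κ (η j) ^ m - h ^ m) * κ u + (h ^ m * κ u - 1) := by
      rw [map_sub, map_mul, map_pow, map_one]
      ring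
    rw [e2]
    refine lt_of_le_of_lt (Valuation.map_add _ _ _) (max_lt ?_ (hhm j))
    rw [map_mul]
    exact lt_of_le_of_lt (mul_le_of_le_one_right' (hle j u)) hpow
  have h3 : (V' j).valuation (κ w') * (V' j).valuation (κ (η j ^ m * u - 1)) < 1 :=
    lt_of_le_of_lt (mul_le_of_le_one_left' (hle j w')) h2
  rw [h1] at h3
  exact lt_irrefl _ h3

end Fermat.Agent.S36.TorEta
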