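/-
S36 — TorGlobB.lean (helper22): block [TOR-GLOB], B copy (cut of the [TORIC36] lead helper63):
the GLOBAL input `(u, h, η)` of `TorRelInst.relα_field` / `relβ_field` for a function `G` of
level `M q²` with the norm conditions, at the level of the base `O = A ∩ K`.

* (G1) — the bridge "`K`-level norm ↔ `F̄`-level norm" is the named hypothesis `hNm`
  (`S36/Emb3Bar`, `S36/NormKMap.toBar_nmAlpha/toBar_nmBeta`): `Nm` is ANY map
  `F_K(M q²) → F_K(M q)` with `toBar (Nm x) = alphaNorm (toBar x)` (resp. `betaNorm`);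
* (G2) — `nm_alpha_eq` / `nm_beta_eq`: the norm conditions and [NORMK] (`NormK.normCond_FK'`)
  give `Nm G = c * h₀ ^ m` with `c ∈ Kˣ`, `h₀ ∈ F_K(M q)ˣ`; `const_eq_zpow_mul_unit`:
  `c = π ^ a * u` with `u` a unit of `O`;
* (G3) — `TorEta.global_eta` (helper63), with all its inputs discharged:
  `hres_of_base` (`m`-th roots of units modulo `π`: the residue field is algebraically closed),
  `unif_of_disc`, and the Gauss facts of `S34/GaussV` for the valuation rings of record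
  `V'rec = ![V1 (M q), V2 (w_q)]`;
* `hone` (`Nm G ≡ 1` modulo `π (V' j)`) from the rule (N2) (`hN2`, the shape of
  `TorRelInst.relα_field`) applied to `G ≡ 1` with the constants `1`.

Exports (the `glob` tuple of record, `∃ u h η, IsUnit u ∧ Nm G = u * h ^ m ∧ h ≡ η j ∧
π ∣ η j ^ m * u - 1`):
* `glob_of_root`  — any level, any family `V'` with `hκV`, `hπV`, `hdisc`;
* `glob_alpha_gen`, `glob_beta_gen` — level `M q² → M q`, any `V'`;
* `glob_alpha`, `glob_beta` — the same for `V'rec`.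
-/
import Mathlib
import Fermat.Agent.S18.ResOK
import Fermat.Agent.S34.GaussV
import Fermat.Agent.S34.WK
import Fermat.Agent.S34.RatPlace
import Fermat.Agent.S35.ModelFPlan
import Fermat.Agent.S35.PushPic
import Fermat.Agent.S36.NormK
import Fermat.Agent.S36.TorEta
import Fermat.Agent.S36.Model3Plan

set_option autoImplicit false

open ModularCurve AlgebraicCurve HahnSeries

namespace Fermat.Agent.S36.TorGlobB

open Fermat.Agent.S18.Arith Fermat.Agent.S34 Fermat.Agent.S36.Model3Plan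
open Fermat.Agent.S35.ModelFPlan (alphaNm betaNm NormCond)

/-! ### Abstract lemmas -/

section Abstract

variable {E' : Type*} [Field E']

/-- In a valuation ring with the normal form `x = ϖ ^ k * unit` (`ϖ` a nonunit), the elements of
the maximal ideal are the multiples of `ϖ`. -/
theorem unif_of_disc (V : ValuationSubring E') (ϖ : E') (hϖ : ϖ ∈ V) (hϖ' : ϖ⁻¹ ∉ V)
    (hdisc : ∀ x : E', x ≠ 0 → ∃ k : ℤ, ∃ u ∈ V, u⁻¹ ∈ V ∧ x = ϖ ^ k * u) :
    ∀ x : E', V.valuation x < 1 → ∃ z ∈ V, x = ϖ * z := by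
  intro x hx
  by_cases hx0 : x = 0
  · exact ⟨0, V.zero_mem, by rw [hx0, mul_zero]⟩
  have hϖ0 : ϖ ≠ 0 := by
    intro h0
    apply hϖ'
    rw [h0, inv_zero]
    exact V.zero_mem
  obtain ⟨k, u, hu, hu', rfl⟩ := hdisc x hx0
  have hu0 : u ≠ 0 := right_ne_zero_of_mul hx0
  have hvu : V.valuation u = 1 := by
    have h1 := (V.valuation_le_one_iff u).2 hu
    have h2 := (V.valuation_le_one_iff u⁻¹).2 hu'
    rw [map_inv₀] at h2
    have hvne : V.valuation u ≠ 0 := (Valuation.ne_zero_iff _).2 hu0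
    exact le_antisymm h1 ((inv_le_one₀ (zero_lt_iff.2 hvne)).1 h2)
  have hvϖle : V.valuation ϖ ≤ 1 := (V.valuation_le_one_iff ϖ).2 hϖ
  have hvϖ0 : V.valuation ϖ ≠ 0 := (Valuation.ne_zero_iff _).2 hϖ0
  -- `k ≥ 1`
  have hk : 1 ≤ k := by
    by_contra hk
    have hk' : k ≤ 0 := by omega
    obtain ⟨n, hn⟩ : ∃ n : ℕ, -k = (n : ℤ) := ⟨(-k).toNat, (Int.toNat_of_nonneg (by omega)).symm⟩
    have e : ϖ ^ k = (ϖ ^ n)⁻¹ := by
      have : k = -(n : ℤ) := by omega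
      rw [this, zpow_neg, zpow_natCast]
    rw [map_mul, hvu, mul_one, e, map_inv₀, map_pow] at hx
    have h1 : V.valuation ϖ ^ n ≤ 1 := pow_le_one₀ zero_le hvϖle
    have h2 : (1 : ValuationSubring.ValueGroup V) ≤ (V.valuation ϖ ^ n)⁻¹ :=
      (one_le_inv₀ (zero_lt_iff.2 (pow_ne_zero _ hvϖ0))).2 h1
    exact absurd hx (not_lt.2 h2)
  obtain ⟨n, hn⟩ : ∃ n : ℕ, k = (n : ℤ) + 1 := ⟨(k - 1).toNat, by
    rw [Int.toNat_of_nonneg (by omega)]; ring⟩
  refine ⟨ϖ ^ n * u, V.mul_mem _ _ (pow_mem hϖ n) hu, ?_⟩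
  rw [hn, zpow_add_one₀ hϖ0, zpow_natCast]
  ring

end Abstract

/-! ### The base -/

section Base

variable {A : ValuationSubring Qb} {K : IntermediateField ℚ Qb}

/-- **`hres`**: modulo a uniformizer, every unit of `O = A ∩ K` is an `m`-th power up to
inversion (the residue field is algebraically closed). -/
theorem hres_of_base (ℓ : ℕ) [Fact ℓ.Prime] (hB : BaseFacts ℓ A K) {π : OK A K}
    (hπ : Irreducible π) {m : ℕ} (hm : 0 < m) :
    ∀ u : OK A K, IsUnit u → ∃ e : OK A K, π ∣ e ^ m * u - 1 := by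
  have := hB.dvr
  have := Fermat.Agent.S18.ResOK.isAlgClosed_residueField_OK ℓ A K hB
  intro u hu
  have hu0 : IsLocalRing.residue (OK A K) u ≠ 0 := by
    intro h0
    exact (IsLocalRing.residue_eq_zero_iff u).1 h0 hu
  obtain ⟨z, hz⟩ := IsAlgClosed.exists_pow_nat_eq (IsLocalRing.residue (OK A K) u)⁻¹ hm
  obtain ⟨e, rfl⟩ := IsLocalRing.residue_surjective z
  refine ⟨e, ?_⟩
  have h1 : IsLocalRing.residue (OK A K) (e ^ m * u - 1) = 0 := by
    rw [map_sub, map_mul, map_pow, hz, map_one, inv_mul_cancel₀ hu0, sub_self]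
  have h2 : e ^ m * u - 1 ∈ IsLocalRing.maximalIdeal (OK A K) :=
    (IsLocalRing.residue_eq_zero_iff _).1 h1
  rw [hπ.maximalIdeal_eq, Ideal.mem_span_singleton] at h2
  exact h2

/-- In the discrete valuation ring `O = A ∩ K` with uniformizer `π`, every nonzero constant
`c ∈ K` is `π ^ a * u` with `u` a unit of `O` (as elements of `F_K`). -/
theorem const_eq_zpow_mul_unit (N : ℕ) (hdvr : IsDiscreteValuationRing (OK A K)) {π : OK A K}
    (hπ : Irreducible π) (c : K) (hc : c ≠ 0) :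
    ∃ (a : ℤ) (u : OK A K), IsUnit u ∧
      algebraMap K (FK N K) c =
        algebraMap (OK A K) (FK N K) π ^ a * algebraMap (OK A K) (FK N K) u := by
  have := hdvr
  have key : ∀ x : OK A K, x ≠ 0 → ∃ (n : ℕ) (u : OK A K), IsUnit u ∧
      algebraMap K (FK N K) (x : K) =
        algebraMap (OK A K) (FK N K) π ^ n * algebraMap (OK A K) (FK N K) u := by
    intro x hx
    obtain ⟨n, u, e⟩ := IsDiscreteValuationRing.eq_unit_mul_pow_irreducible hx hπ
    refine ⟨n, u, u.isUnit, ?_⟩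
    have h1 : algebraMap K (FK N K) (x : K) = algebraMap (OK A K) (FK N K) x := rfl
    rw [h1, e, map_mul, map_pow, mul_comm]
  rcases (OK A K).mem_or_inv_mem c with h | h
  · have hx : (⟨c, h⟩ : OK A K) ≠ 0 := fun h0 => hc (congrArg Subtype.val h0)
    obtain ⟨n, u, hu, e⟩ := key ⟨c, h⟩ hx
    exact ⟨n, u, hu, by rw [zpow_natCast]; exact e⟩
  · have hc' : c⁻¹ ≠ 0 := inv_ne_zero hc
    have hx : (⟨c⁻¹, h⟩ : OK A K) ≠ 0 := fun h0 => hc' (congrArg Subtype.val h0)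
    obtain ⟨n, u, hu, e⟩ := key ⟨c⁻¹, h⟩ hx
    obtain ⟨u', hu'⟩ := hu.exists_right_inv
    have hu'' : IsUnit u' := IsUnit.of_mul_eq_one _ (by rw [mul_comm]; exact hu')
    refine ⟨-(n : ℤ), u', hu'', ?_⟩
    have e' : (algebraMap K (FK N K) c)⁻¹ =
        algebraMap (OK A K) (FK N K) π ^ n * algebraMap (OK A K) (FK N K) u := by
      rw [← map_inv₀]; exact e
    have h1 : algebraMap (OK A K) (FK N K) u * algebraMap (OK A K) (FK N K) u' = 1 := by
      rw [← map_mul, hu', map_one]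
    have h2 : algebraMap K (FK N K) c = ((algebraMap K (FK N K) c)⁻¹)⁻¹ := (inv_inv _).symm
    rw [h2, e', mul_inv, zpow_neg, zpow_natCast, eq_inv_of_mul_eq_one_right h1]

end Base

/-! ### (G3) at an arbitrary level -/

section Root

variable {A : ValuationSubring Qb} {K : IntermediateField ℚ Qb}

/-- **The `glob` tuple from `NmG = c * h₀ ^ m` (`c ∈ Kˣ`) and `NmG ≡ 1` modulo `π (V' j)`**, for
any family `V'` of valuation rings of `F_K(N')` containing the constants of `O`, with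
uniformizer `π`. -/
theorem glob_of_root (ℓ : ℕ) [Fact ℓ.Prime] (hB : BaseFacts ℓ A K) {N' : ℕ} [NeZero N']
    {π : OK A K} (hπ : Irreducible π) {ι' : Type*} (V' : ι' → ValuationSubring (FK N' K))
    (j₀ : ι')
    (hκV : ∀ j (c : OK A K), algebraMap (OK A K) (FK N' K) c ∈ V' j)
    (hπV : ∀ j, (algebraMap (OK A K) (FK N' K) π)⁻¹ ∉ V' j)
    (hdisc : ∀ j, ∀ x : FK N' K, x ≠ 0 → ∃ k : ℤ, ∃ u ∈ V' j, u⁻¹ ∈ V' j ∧
      x = algebraMap (OK A K) (FK N' K) π ^ k * u)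
    {m : ℕ} (hm : 0 < m) (hℓm : ¬ ℓ ∣ m) (NmG : FK N' K)
    (hroot : ∃ (h₀ : FK N' K) (c : K), h₀ ≠ 0 ∧ c ≠ 0 ∧
      NmG = algebraMap K (FK N' K) c * h₀ ^ m)
    (hone : ∀ j, ∃ z ∈ V' j, NmG - 1 = algebraMap (OK A K) (FK N' K) π * z) :
    ∃ (u : OK A K) (h : FK N' K) (η : ι' → OK A K), IsUnit u ∧
      NmG = algebraMap (OK A K) (FK N' K) u * h ^ m ∧
      (∀ j, ∃ z' ∈ V' j, h - algebraMap (OK A K) (FK N' K) (η j) =
        algebraMap (OK A K) (FK N' K) π * z') ∧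
      ∀ j, π ∣ η j ^ m * u - 1 := by
  have hdvr := hB.dvr
  obtain ⟨h₀, c, hh₀, hc, hNm⟩ := hroot
  obtain ⟨a, u, hu, hcu⟩ := const_eq_zpow_mul_unit N' hdvr hπ c hc
  -- a primitive `m`-th root of unity in `O`
  obtain ⟨ζ, hζ⟩ : ∃ ζ : OK A K, IsPrimitiveRoot ζ m := by
    have : NeZero m := ⟨hm.ne'⟩
    obtain ⟨ζ₀, hζ₀⟩ := HasEnoughRootsOfUnity.exists_primitiveRoot Qb m
    have hK : ζ₀ ∈ K := hB.roots m ζ₀ hℓm hζ₀.pow_eq_one
    have hA : ζ₀ ∈ A := by
      by_contra hA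
      have h1 : ζ₀⁻¹ ∈ A := (A.mem_or_inv_mem ζ₀).resolve_left hA
      have h2 : ζ₀⁻¹ ^ (m - 1) ∈ A := pow_mem h1 _
      apply hA
      have h3 : ζ₀ = ζ₀⁻¹ ^ (m - 1) := by
        have hz0 : ζ₀ ≠ 0 := hζ₀.ne_zero hm.ne'
        have h4 : ζ₀ * ζ₀ ^ (m - 1) = 1 := by
          rw [← pow_succ', Nat.sub_add_cancel hm, hζ₀.pow_eq_one]
        rw [inv_pow]
        exact eq_inv_of_mul_eq_one_left h4
      rw [h3]
      exact h2
    refine ⟨⟨⟨ζ₀, hK⟩, hA⟩, ?_⟩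
    have hinj : Function.Injective (incO A K) := fun a b hab => Subtype.ext (Subtype.ext hab)
    exact IsPrimitiveRoot.of_map_of_injective (f := incO A K) hζ₀ hinj
  have hκ : Function.Injective (algebraMap (OK A K) (FK N' K)) := by
    rw [injective_iff_map_eq_zero]
    intro x hx
    by_contra hx0
    exact GaussV.algebraMap_ne_zero N' A K hx0 hx
  have hunif : ∀ j (x : FK N' K), (V' j).valuation x < 1 →
      ∃ z ∈ V' j, x = algebraMap (OK A K) (FK N' K) π * z :=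
    fun j => unif_of_disc (V' j) _ (hκV j π) (hπV j) (hdisc j)
  obtain ⟨h, η, e1, e2, e3⟩ := TorEta.global_eta (algebraMap (OK A K) (FK N' K)) hκ π hπ V' j₀
    hκV hπV (hdisc j₀) hunif m hm ζ hζ (hres_of_base ℓ hB hπ hm) a u hu NmG h₀ hh₀
    (by rw [hNm, hcu]) hone
  exact ⟨u, h, η, hu, e1, e2, e3⟩

end Root

/-! ### (G2): the norm conditions at level `M q² → M q` -/

section Level

variable (M q : ℕ) [NeZero M] [NeZero q] {A : ValuationSubring Qb}
  (K : IntermediateField ℚ Qb)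

/-- **(G2), `α`**: `Nm G = c * h₀ ^ m` with `c ∈ Kˣ`, `h₀ ∈ F_K(M q)ˣ`. -/
theorem nm_alpha_eq {m : ℕ} (hm : m ≠ 0) (Nm : FK (M * q * q) K → FK (M * q) K)
    (hNm : ∀ x, Fermat.Agent.S18.Glob.toBar (M * q) K (Nm x) =
      Fermat.Agent.S35.PushPic.alphaNorm (M * q) q (Fermat.Agent.S18.Glob.toBar (M * q * q) K x))
    (G : FK (M * q * q) K)
    (hN : NormCond (M * q) q m (Fermat.Agent.S18.Glob.toBar (M * q * q) K G)) :
    ∃ (h₀ : FK (M * q) K) (c : K), h₀ ≠ 0 ∧ c ≠ 0 ∧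
      Nm G = algebraMap K (FK (M * q) K) c * h₀ ^ m := by
  obtain ⟨⟨h, c, hh, hc, e⟩, -⟩ := NormK.normCond_FK' (M * q) q K hm
    (Fermat.Agent.S18.Glob.toBar (M * q * q) K G) G.2 hN
  refine ⟨h, c, hh, hc, (Fermat.Agent.S18.Glob.toBar (M * q) K).injective ?_⟩
  rw [hNm, map_mul, map_pow, RatPlace.toBar_algebraMapK]
  exact e

/-- **(G2), `β`**. -/
theorem nm_beta_eq {m : ℕ} (hm : m ≠ 0) (Nm : FK (M * q * q) K → FK (M * q) K)
    (hNm : ∀ x, Fermat.Agent.S18.Glob.toBar (M * q) K (Nm x) =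
      Fermat.Agent.S35.PushPic.betaNorm (M * q) q (Fermat.Agent.S18.Glob.toBar (M * q * q) K x))
    (G : FK (M * q * q) K)
    (hN : NormCond (M * q) q m (Fermat.Agent.S18.Glob.toBar (M * q * q) K G)) :
    ∃ (h₀ : FK (M * q) K) (c : K), h₀ ≠ 0 ∧ c ≠ 0 ∧
      Nm G = algebraMap K (FK (M * q) K) c * h₀ ^ m := by
  obtain ⟨-, ⟨h, c, hh, hc, e⟩⟩ := NormK.normCond_FK' (M * q) q K hm
    (Fermat.Agent.S18.Glob.toBar (M * q * q) K G) G.2 hN
  refine ⟨h, c, hh, hc, (Fermat.Agent.S18.Glob.toBar (M * q) K).injective ?_⟩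
  rw [hNm, map_mul, map_pow, RatPlace.toBar_algebraMapK]
  exact e

variable {M q K}

omit [NeZero M] [NeZero q] in
/-- `Nm G ≡ 1` modulo `π (V' j)` from the rule (N2) (shape of `TorRelInst.relα_field`) applied
to `G ≡ 1` with the constants `1`. -/
theorem hone_of_hN2 {π : OK A K} (V : Fin 3 → ValuationSubring (FK (M * q * q) K))
    {ι' : Type*} (V' : ι' → ValuationSubring (FK (M * q) K)) (d : Fin 3 → ι' → ℕ)
    (Nm : FK (M * q * q) K → FK (M * q) K)
    (hN2 : ∀ (x : FK (M * q * q) K) (c : Fin 3 → OK A K),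
      (∀ i, ∃ z ∈ V i, x - algebraMap (OK A K) (FK (M * q * q) K) (c i) =
        algebraMap (OK A K) (FK (M * q * q) K) π * z) →
      ∀ j, ∃ z' ∈ V' j, Nm x - algebraMap (OK A K) (FK (M * q) K) (∏ i, c i ^ d i j) =
        algebraMap (OK A K) (FK (M * q) K) π * z')
    (G : FK (M * q * q) K)
    (hG : OneMod (algebraMap (OK A K) (FK (M * q * q) K) π) V G) :
    ∀ j, ∃ z ∈ V' j, Nm G - 1 = algebraMap (OK A K) (FK (M * q) K) π * z := by
  intro j
  obtain ⟨z', hz', e⟩ := hN2 G (fun _ => 1) (fun i => by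
    obtain ⟨y, hy, e⟩ := hG i
    exact ⟨y, hy, by rw [map_one]; exact e⟩) j
  refine ⟨z', hz', ?_⟩
  simpa only [one_pow, Finset.prod_const_one, map_one] using e

/-- **[TOR-GLOB], `α`, any family `V'`** of valuation rings of level `M q` (constants integral,
uniformizer `π`, normal form). -/
theorem glob_alpha_gen (ℓ : ℕ) [Fact ℓ.Prime] (hB : BaseFacts ℓ A K) {π : OK A K}
    (hπ : Irreducible π) (V : Fin 3 → ValuationSubring (FK (M * q * q) K))
    {ι' : Type*} (V' : ι' → ValuationSubring (FK (M * q) K)) (j₀ : ι')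
    (hκV : ∀ j (c : OK A K), algebraMap (OK A K) (FK (M * q) K) c ∈ V' j)
    (hπV : ∀ j, (algebraMap (OK A K) (FK (M * q) K) π)⁻¹ ∉ V' j)
    (hdisc : ∀ j, ∀ x : FK (M * q) K, x ≠ 0 → ∃ k : ℤ, ∃ u ∈ V' j, u⁻¹ ∈ V' j ∧
      x = algebraMap (OK A K) (FK (M * q) K) π ^ k * u)
    {m : ℕ} (hm : 0 < m) (hℓm : ¬ ℓ ∣ m) (d : Fin 3 → ι' → ℕ)
    (Nm : FK (M * q * q) K → FK (M * q) K)
    (hNm : ∀ x, Fermat.Agent.S18.Glob.toBar (M * q) K (Nm x) =
      Fermat.Agent.S35.PushPic.alphaNorm (M * q) q (Fermat.Agent.S18.Glob.toBar (M * q * q) K x))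
    (hN2 : ∀ (x : FK (M * q * q) K) (c : Fin 3 → OK A K),
      (∀ i, ∃ z ∈ V i, x - algebraMap (OK A K) (FK (M * q * q) K) (c i) =
        algebraMap (OK A K) (FK (M * q * q) K) π * z) →
      ∀ j, ∃ z' ∈ V' j, Nm x - algebraMap (OK A K) (FK (M * q) K) (∏ i, c i ^ d i j) =
        algebraMap (OK A K) (FK (M * q) K) π * z')
    (G : FK (M * q * q) K)
    (hG : OneMod (algebraMap (OK A K) (FK (M * q * q) K) π) V G)
    (hN : NormCond (M * q) q m (Fermat.Agent.S18.Glob.toBar (M * q * q) K G)) :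
    ∃ (u : OK A K) (h : FK (M * q) K) (η : ι' → OK A K), IsUnit u ∧
      Nm G = algebraMap (OK A K) (FK (M * q) K) u * h ^ m ∧
      (∀ j, ∃ z' ∈ V' j, h - algebraMap (OK A K) (FK (M * q) K) (η j) =
        algebraMap (OK A K) (FK (M * q) K) π * z') ∧
      ∀ j, π ∣ η j ^ m * u - 1 :=
  glob_of_root ℓ hB hπ V' j₀ hκV hπV hdisc hm hℓm (Nm G)
    (nm_alpha_eq M q K hm.ne' Nm hNm G hN) (hone_of_hN2 V V' d Nm hN2 G hG)

/-- **[TOR-GLOB], `β`, any family `V'`**. -/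
theorem glob_beta_gen (ℓ : ℕ) [Fact ℓ.Prime] (hB : BaseFacts ℓ A K) {π : OK A K}
    (hπ : Irreducible π) (V : Fin 3 → ValuationSubring (FK (M * q * q) K))
    {ι' : Type*} (V' : ι' → ValuationSubring (FK (M * q) K)) (j₀ : ι')
    (hκV : ∀ j (c : OK A K), algebraMap (OK A K) (FK (M * q) K) c ∈ V' j)
    (hπV : ∀ j, (algebraMap (OK A K) (FK (M * q) K) π)⁻¹ ∉ V' j)
    (hdisc : ∀ j, ∀ x : FK (M * q) K, x ≠ 0 → ∃ k : ℤ, ∃ u ∈ V' j, u⁻¹ ∈ V' j ∧
      x = algebraMap (OK A K) (FK (M * q) K) π ^ k * u)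
    {m : ℕ} (hm : 0 < m) (hℓm : ¬ ℓ ∣ m) (d : Fin 3 → ι' → ℕ)
    (Nm : FK (M * q * q) K → FK (M * q) K)
    (hNm : ∀ x, Fermat.Agent.S18.Glob.toBar (M * q) K (Nm x) =
      Fermat.Agent.S35.PushPic.betaNorm (M * q) q (Fermat.Agent.S18.Glob.toBar (M * q * q) K x))
    (hN2 : ∀ (x : FK (M * q * q) K) (c : Fin 3 → OK A K),
      (∀ i, ∃ z ∈ V i, x - algebraMap (OK A K) (FK (M * q * q) K) (c i) =
        algebraMap (OK A K) (FK (M * q * q) K) π * z) →
      ∀ j, ∃ z' ∈ V' j, Nm x - algebraMap (OK A K) (FK (M * q) K) (∏ i, c i ^ d i j) =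
        algebraMap (OK A K) (FK (M * q) K) π * z')
    (G : FK (M * q * q) K)
    (hG : OneMod (algebraMap (OK A K) (FK (M * q * q) K) π) V G)
    (hN : NormCond (M * q) q m (Fermat.Agent.S18.Glob.toBar (M * q * q) K G)) :
    ∃ (u : OK A K) (h : FK (M * q) K) (η : ι' → OK A K), IsUnit u ∧
      Nm G = algebraMap (OK A K) (FK (M * q) K) u * h ^ m ∧
      (∀ j, ∃ z' ∈ V' j, h - algebraMap (OK A K) (FK (M * q) K) (η j) =
        algebraMap (OK A K) (FK (M * q) K) π * z') ∧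
      ∀ j, π ∣ η j ^ m * u - 1 :=
  glob_of_root ℓ hB hπ V' j₀ hκV hπV hdisc hm hℓm (Nm G)
    (nm_beta_eq M q K hm.ne' Nm hNm G hN) (hone_of_hN2 V V' d Nm hN2 G hG)

end Level

/-! ### The valuation rings of record at level `M q` -/

section Record

variable (M q : ℕ) [NeZero M] [NeZero q] (hq : q.Prime) (hqM : ¬ q ∣ M)
  {A : ValuationSubring Qb} (K : IntermediateField ℚ Qb)

/-- The two Gauss valuation rings of level `M q`: `V1` and `V2 = w_q⁻¹ V1`. -/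
noncomputable def V'rec (hdvr : IsDiscreteValuationRing (OK A K)) : Fin 2 → ValuationSubring (FK (M * q) K) :=
  ![GaussV.V1 (M * q) A K hdvr, GaussV.V2 (WK.wK M q hq hqM K) hdvr]

variable {M q K}

theorem hκV_rec (hdvr : IsDiscreteValuationRing (OK A K)) :
    ∀ (j : Fin 2) (c : OK A K),
      algebraMap (OK A K) (FK (M * q) K) c ∈ V'rec M q hq hqM K hdvr j := by
  intro j c
  fin_cases j
  · exact GaussV.algebraMap_mem_V1 hdvr c
  · exact GaussV.algebraMap_mem_V2 (WK.wK M q hq hqM K)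
      (fun c => WK.wK_algebraMap_OK M q hq hqM K A c) hdvr c

theorem hπV_rec (hdvr : IsDiscreteValuationRing (OK A K)) {π : OK A K} (hπ : Irreducible π) :
    ∀ j : Fin 2, (algebraMap (OK A K) (FK (M * q) K) π)⁻¹ ∉ V'rec M q hq hqM K hdvr j := by
  have hπ0 : algebraMap (OK A K) (FK (M * q) K) π ≠ 0 :=
    GaussV.algebraMap_ne_zero (M * q) A K hπ.ne_zero
  intro j hj
  fin_cases j
  · exact GaussV.one_notV1 hdvr hπ.not_isUnit _ hj (mul_inv_cancel₀ hπ0).symm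
  · exact GaussV.one_notV2 (WK.wK M q hq hqM K)
      (fun c => WK.wK_algebraMap_OK M q hq hqM K A c) hdvr hπ.not_isUnit _ hj
      (mul_inv_cancel₀ hπ0).symm

theorem hdisc_rec (hdvr : IsDiscreteValuationRing (OK A K)) {π : OK A K} (hπ : Irreducible π) :
    ∀ j : Fin 2, ∀ x : FK (M * q) K, x ≠ 0 → ∃ k : ℤ, ∃ u ∈ V'rec M q hq hqM K hdvr j,
      u⁻¹ ∈ V'rec M q hq hqM K hdvr j ∧
      x = algebraMap (OK A K) (FK (M * q) K) π ^ k * u := by
  have hπ0 : algebraMap (OK A K) (FK (M * q) K) π ≠ 0 :=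
    GaussV.algebraMap_ne_zero (M * q) A K hπ.ne_zero
  have e : ∀ (x : FK (M * q) K) (γ : ℤ), x = algebraMap (OK A K) (FK (M * q) K) π ^ γ *
      (x * algebraMap (OK A K) (FK (M * q) K) π ^ (-γ)) := by
    intro x γ
    rw [zpow_neg, mul_comm x, ← mul_assoc, mul_inv_cancel₀ (zpow_ne_zero _ hπ0), one_mul]
  intro j x hx
  fin_cases j
  · obtain ⟨γ, h1, h2⟩ := GaussV.exists_zpow_mul_unit hdvr hπ x hx
    exact ⟨γ, _, h1, h2, e x γ⟩
  · obtain ⟨γ, h1, h2⟩ := GaussV.exists_zpow_mul_unit₂ (WK.wK M q hq hqM K)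
      (fun c => WK.wK_algebraMap_OK M q hq hqM K A c) hdvr hπ x hx
    exact ⟨γ, _, h1, h2, e x γ⟩

/-- **[TOR-GLOB], `α`, valuation rings of record.** -/
theorem glob_alpha [Fact q.Prime] (hB : BaseFacts q A K)
    (hdvr : IsDiscreteValuationRing (OK A K)) {π : OK A K}
    (hπ : Irreducible π) (V : Fin 3 → ValuationSubring (FK (M * q * q) K))
    {m : ℕ} (hm : 0 < m) (hqm : ¬ q ∣ m) (d : Fin 3 → Fin 2 → ℕ)
    (Nm : FK (M * q * q) K → FK (M * q) K)
    (hNm : ∀ x, Fermat.Agent.S18.Glob.toBar (M * q) K (Nm x) =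
      Fermat.Agent.S35.PushPic.alphaNorm (M * q) q (Fermat.Agent.S18.Glob.toBar (M * q * q) K x))
    (hN2 : ∀ (x : FK (M * q * q) K) (c : Fin 3 → OK A K),
      (∀ i, ∃ z ∈ V i, x - algebraMap (OK A K) (FK (M * q * q) K) (c i) =
        algebraMap (OK A K) (FK (M * q * q) K) π * z) →
      ∀ j, ∃ z' ∈ V'rec M q hq hqM K hdvr j,
        Nm x - algebraMap (OK A K) (FK (M * q) K) (∏ i, c i ^ d i j) =
          algebraMap (OK A K) (FK (M * q) K) π * z')
    (G : FK (M * q * q) K)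
    (hG : OneMod (algebraMap (OK A K) (FK (M * q * q) K) π) V G)
    (hN : NormCond (M * q) q m (Fermat.Agent.S18.Glob.toBar (M * q * q) K G)) :
    ∃ (u : OK A K) (h : FK (M * q) K) (η : Fin 2 → OK A K), IsUnit u ∧
      Nm G = algebraMap (OK A K) (FK (M * q) K) u * h ^ m ∧
      (∀ j, ∃ z' ∈ V'rec M q hq hqM K hdvr j, h - algebraMap (OK A K) (FK (M * q) K) (η j) =
        algebraMap (OK A K) (FK (M * q) K) π * z') ∧
      ∀ j, π ∣ η j ^ m * u - 1 :=
  glob_alpha_gen q hB hπ V (V'rec M q hq hqM K hdvr) 0 (hκV_rec hq hqM hdvr)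
    (hπV_rec hq hqM hdvr hπ) (hdisc_rec hq hqM hdvr hπ) hm hqm d Nm hNm hN2 G hG hN

/-- **[TOR-GLOB], `β`, valuation rings of record.** -/
theorem glob_beta [Fact q.Prime] (hB : BaseFacts q A K)
    (hdvr : IsDiscreteValuationRing (OK A K)) {π : OK A K}
    (hπ : Irreducible π) (V : Fin 3 → ValuationSubring (FK (M * q * q) K))
    {m : ℕ} (hm : 0 < m) (hqm : ¬ q ∣ m) (d : Fin 3 → Fin 2 → ℕ)
    (Nm : FK (M * q * q) K → FK (M * q) K)
    (hNm : ∀ x, Fermat.Agent.S18.Glob.toBar (M * q) K (Nm x) =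
      Fermat.Agent.S35.PushPic.betaNorm (M * q) q (Fermat.Agent.S18.Glob.toBar (M * q * q) K x))
    (hN2 : ∀ (x : FK (M * q * q) K) (c : Fin 3 → OK A K),
      (∀ i, ∃ z ∈ V i, x - algebraMap (OK A K) (FK (M * q * q) K) (c i) =
        algebraMap (OK A K) (FK (M * q * q) K) π * z) →
      ∀ j, ∃ z' ∈ V'rec M q hq hqM K hdvr j,
        Nm x - algebraMap (OK A K) (FK (M * q) K) (∏ i, c i ^ d i j) =
          algebraMap (OK A K) (FK (M * q) K) π * z')
    (G : FK (M * q * q) K)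
    (hG : OneMod (algebraMap (OK A K) (FK (M * q * q) K) π) V G)
    (hN : NormCond (M * q) q m (Fermat.Agent.S18.Glob.toBar (M * q * q) K G)) :
    ∃ (u : OK A K) (h : FK (M * q) K) (η : Fin 2 → OK A K), IsUnit u ∧
      Nm G = algebraMap (OK A K) (FK (M * q) K) u * h ^ m ∧
      (∀ j, ∃ z' ∈ V'rec M q hq hqM K hdvr j, h - algebraMap (OK A K) (FK (M * q) K) (η j) =
        algebraMap (OK A K) (FK (M * q) K) π * z') ∧
      ∀ j, π ∣ η j ^ m * u - 1 :=
  glob_beta_gen q hB hπ V (V'rec M q hq hqM K hdvr) 0 (hκV_rec hq hqM hdvr)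
    (hπV_rec hq hqM hdvr hπ) (hdisc_rec hq hqM hdvr hπ) hm hqm d Nm hNm hN2 G hG hN

end Record

end Fermat.Agent.S36.TorGlobB
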