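/-
S36 — TorRelInst.lean (helper13): block [TOR-REL-INST] of the S36 campaign.

The adapter between `S36/ToricRel.rel` (helper72), `S36/NormOne` (helper72) and the fields
`relα`, `relβ` of `S36/ToricAsm.ChartTor` (helper22), at the level of two charts given as
subalgebras.

Picture.  `E'` is the function field of level `q M`, `E` the one of level `q² M`, an `E'`-algebra
along one of the two degeneracy maps; `R' ⊆ E'`, `R ⊆ E` are charts (subalgebras over the base
discrete valuation ring `O`), `φ : R' →+* R` the restriction of the degeneracy map, `V i` the three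
vertical valuation rings of `E`, `V' j` the two of `E'`; the norm is `NormOne.normHom E' E`.

* `rel_point`  : the relation of `ToricRel.rel` at ONE closed point `n` of `R` which is the only
  prime over `n' = φ⁻¹ n`, for any normal form `ToricAsm.NF` of `G` at `n` on all three branches;
  `(N1)` is discharged by `NormOne.n1_of_unique` + `NormOne.exists_mul_eq_of_unique`, the
  hypothesis `hO` of `rel` by the discrete valuation ring `O`.
* `relα_field`, `relβ_field` : exactly the fields `relα`, `relβ` of `ToricAsm.ChartTor`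
  (`d := ToricAsm.dAlpha q`, resp. `ToricAsm.dBeta q`).
-/
import Mathlib
import Fermat.Agent.S36.ToricRel
import Fermat.Agent.S36.NormOne
import Fermat.Agent.S36.ToricAsm

set_option autoImplicit false

namespace Fermat.Agent.S36.TorRelInst

open Fermat.Agent.S36

section Abstract

variable {O : Type*} [CommRing O] [IsDomain O] [IsDiscreteValuationRing O]
  {E' : Type*} [Field E'] [Algebra O E']
  {E : Type*} [Field E] [Algebra O E] [Algebra E' E] [IsScalarTower O E' E]
  [FiniteDimensional E' E] [Algebra.IsSeparable E' E]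

omit [IsDomain O] [IsDiscreteValuationRing O] [FiniteDimensional E' E]
  [Algebra.IsSeparable E' E] in
/-- The restriction `φ` of the degeneracy map to the charts is compatible with the constants. -/
theorem map_const (R : Subalgebra O E) (R' : Subalgebra O E') (φ : R' →+* R)
    (hφ : ∀ x : R', ((φ x : R) : E) = algebraMap E' E (x : E')) (c : O) :
    φ (algebraMap O R' c) = algebraMap O R c := by
  apply Subtype.ext
  rw [hφ]
  exact (IsScalarTower.algebraMap_apply O E' E c).symm

/-- **[TOR-REL-INST], one point.**  The relation between the constants `γ i` of a normal form of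
`G` at a closed point `n` of the upper chart which is the only prime over its image `φ⁻¹ n`, and
the constants `η j` of an `m`-th root `h` of the norm of `G` (up to a unit constant `u`). -/
theorem rel_point (R : Subalgebra O E) (R' : Subalgebra O E') [IsIntegrallyClosed R']
    [IsFractionRing R' E'] (π : O) (hπ : Irreducible π)
    (V : Fin 3 → ValuationSubring E) (V' : Fin 2 → ValuationSubring E')
    (m : ℕ) (hm : 0 < m) (d : Fin 3 → Fin 2 → ℕ)
    (φ : R' →+* R) (hφ : ∀ x : R', ((φ x : R) : E) = algebraMap E' E (x : E'))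
    (hint : φ.IsIntegral)
    (hN2 : ∀ (x : E) (c : Fin 3 → O),
      (∀ i, ∃ z ∈ V i, x - algebraMap O E (c i) = algebraMap O E π * z) →
      ∀ j, ∃ z' ∈ V' j, NormOne.normHom E' E x - algebraMap O E' (∏ i, c i ^ d i j) =
        algebraMap O E' π * z')
    (hle' : ∀ j, ∀ x ∈ R', x ∈ V' j)
    (G : E) (u : O) (hu : IsUnit u) (h : E')
    (hNm : NormOne.normHom E' E G = algebraMap O E' u * h ^ m)
    (η : Fin 2 → O) (hη : ∀ j, ∃ z' ∈ V' j, h - algebraMap O E' (η j) = algebraMap O E' π * z')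
    (n : Ideal R) (hn : n.IsMaximal) (hπn : algebraMap O R π ∈ n)
    (huniq : ∀ n₂ : Ideal R, n₂.IsPrime → n₂.comap φ = n.comap φ → n₂ = n)
    (hcen' : ∀ j, ∀ r : R', (∃ z ∈ V' j, (r : E') = algebraMap O E' π * z) → φ r ∈ n)
    (g₀ : E) (γ : Fin 3 → O) (hNF : ToricAsm.NF R π V m G n (fun _ => True) g₀ γ) :
    ∀ j₁ j₂ : Fin 2, π ∣ η j₁ * ∏ i, γ i ^ d i j₂ - η j₂ * ∏ i, γ i ^ d i j₁ := by
  obtain ⟨hg₀, hγ, hu₀⟩ := hNF
  have hφO := map_const R R' φ hφ
  have hn' : (n.comap φ).IsPrime := Ideal.comap_isPrime φ n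
  have hπn' : algebraMap O R' π ∈ n.comap φ := by
    rw [Ideal.mem_comap, hφO]; exact hπn
  -- integrality in the shape of `n1_of_unique`
  have hint' : ∀ r : R, IsIntegral R' (algebraMap R E r) := by
    intro r
    obtain ⟨p, hp, hpr⟩ := hint r
    refine ⟨p, hp, ?_⟩
    have h1 := congrArg (R.val : R →+* E) hpr
    rw [Polynomial.hom_eval₂, map_zero] at h1
    have h2 : ((R.val : R →+* E).comp φ) = algebraMap R' E := by
      ext x
      exact hφ x
    rw [h2] at h1
    exact h1
  have hπeq : algebraMap R E (algebraMap O R π) = algebraMap R' E (algebraMap O R' π) :=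
    IsScalarTower.algebraMap_apply O E' E π
  have huniq' : ∀ s : R, s ∉ n → ∃ s'' : R', s'' ∉ n.comap φ ∧ ∃ r'' : R,
      algebraMap R E (s * r'') = algebraMap R' E s'' := by
    intro s hs
    obtain ⟨s'', hs'', r'', e⟩ := NormOne.exists_mul_eq_of_unique φ hint n huniq s hs
    exact ⟨s'', hs'', r'', by rw [e]; exact hφ s''⟩
  have hN1 := NormOne.n1_of_unique (O := O) (R' := R') (E' := E') (E := E) (R := R) π n
    (n.comap φ) hn' hπeq hint' huniq'
  -- `hO`
  have hO : ∀ c : O, algebraMap O R' c ∈ n.comap φ → π ∣ c := by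
    intro c hc
    rw [Ideal.mem_comap, hφO] at hc
    by_contra hdvd
    have hcu : IsUnit c := by
      have h1 : c ∉ IsLocalRing.maximalIdeal O := by
        rw [hπ.maximalIdeal_eq, Ideal.mem_span_singleton]; exact hdvd
      exact (IsLocalRing.notMem_maximalIdeal).mp h1
    exact hn.ne_top (Ideal.eq_top_of_isUnit_mem n hc (hcu.map (algebraMap O R)))
  have hc₀ : algebraMap O R' u ∉ n.comap φ := by
    intro hc
    rw [Ideal.mem_comap, hφO] at hc
    exact hn.ne_top (Ideal.eq_top_of_isUnit_mem n hc (hu.map (algebraMap O R)))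
  exact ToricRel.rel (O := O) (R := R) (E := E) (R' := R') (E' := E') π V V' n (n.comap φ) hn'
    hπn' m hm (NormOne.normHom E' E) d hN1 hN2 (fun j r => hle' j _ r.2)
    (fun j r hr => hcen' j r hr) hO G g₀ hg₀ γ (fun i => hγ i trivial) hu₀
    (algebraMap O R' u) hc₀ h hNm η hη

/-- **[TOR-REL-INST], the field `relα` of `ToricAsm.ChartTor`** (norm along `α`,
`d = ToricAsm.dAlpha q`): at every closed point `n` of the special fibre lying on all three
branches (`∀ l, T n l`) which is the only prime of `R` over `φ⁻¹ n` and whose image is a crossing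
point downstairs (`hcen'`). -/
theorem relα_field (R : Subalgebra O E) (R' : Subalgebra O E') [IsIntegrallyClosed R']
    [IsFractionRing R' E'] (π : O) (hπ : Irreducible π)
    (V : Fin 3 → ValuationSubring E) (V' : Fin 2 → ValuationSubring E')
    (q m : ℕ) (hm : 0 < m)
    (φ : R' →+* R) (hφ : ∀ x : R', ((φ x : R) : E) = algebraMap E' E (x : E'))
    (hint : φ.IsIntegral)
    (hN2 : ∀ (x : E) (c : Fin 3 → O),
      (∀ i, ∃ z ∈ V i, x - algebraMap O E (c i) = algebraMap O E π * z) →
      ∀ j, ∃ z' ∈ V' j, NormOne.normHom E' E x -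
        algebraMap O E' (∏ i, c i ^ ToricAsm.dAlpha q i j) = algebraMap O E' π * z')
    (hle' : ∀ j, ∀ x ∈ R', x ∈ V' j)
    (G : E) (u : O) (hu : IsUnit u) (h : E')
    (hNm : NormOne.normHom E' E G = algebraMap O E' u * h ^ m)
    (η : Fin 2 → O) (hη : ∀ j, ∃ z' ∈ V' j, h - algebraMap O E' (η j) = algebraMap O E' π * z')
    (T : Ideal R → Fin 3 → Prop)
    (huniq : ∀ n : Ideal R, n.IsMaximal → algebraMap O R π ∈ n → (∀ l, T n l) →
      ∀ n₂ : Ideal R, n₂.IsPrime → n₂.comap φ = n.comap φ → n₂ = n)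
    (hcen' : ∀ n : Ideal R, n.IsMaximal → algebraMap O R π ∈ n → (∀ l, T n l) →
      ∀ j, ∀ r : R', (∃ z ∈ V' j, (r : E') = algebraMap O E' π * z) → φ r ∈ n) :
    ∀ n : Ideal R, n.IsMaximal → algebraMap O R π ∈ n → (∀ l, T n l) →
      ∀ (g₀ : E) (γ : Fin 3 → O), ToricAsm.NF R π V m G n (T n) g₀ γ →
        π ∣ η 0 * γ 1 ^ q - η 1 * (γ 0 * γ 2 ^ (q - 1)) := by
  intro n hn hπn hT g₀ γ hNF
  exact ToricAsm.relα_of_rel π q η γ
    (rel_point R R' π hπ V V' m hm (ToricAsm.dAlpha q) φ hφ hint hN2 hle' G u hu h hNm η hη n hn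
      hπn (huniq n hn hπn hT) (hcen' n hn hπn hT) g₀ γ
      ⟨hNF.1, fun i _ => hNF.2.1 i (hT i), hNF.2.2⟩)

/-- **[TOR-REL-INST], the field `relβ` of `ToricAsm.ChartTor`** (norm along `β`,
`d = ToricAsm.dBeta q`). -/
theorem relβ_field (R : Subalgebra O E) (R' : Subalgebra O E') [IsIntegrallyClosed R']
    [IsFractionRing R' E'] (π : O) (hπ : Irreducible π)
    (V : Fin 3 → ValuationSubring E) (V' : Fin 2 → ValuationSubring E')
    (q m : ℕ) (hm : 0 < m)
    (φ : R' →+* R) (hφ : ∀ x : R', ((φ x : R) : E) = algebraMap E' E (x : E'))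
    (hint : φ.IsIntegral)
    (hN2 : ∀ (x : E) (c : Fin 3 → O),
      (∀ i, ∃ z ∈ V i, x - algebraMap O E (c i) = algebraMap O E π * z) →
      ∀ j, ∃ z' ∈ V' j, NormOne.normHom E' E x -
        algebraMap O E' (∏ i, c i ^ ToricAsm.dBeta q i j) = algebraMap O E' π * z')
    (hle' : ∀ j, ∀ x ∈ R', x ∈ V' j)
    (G : E) (u : O) (hu : IsUnit u) (h : E')
    (hNm : NormOne.normHom E' E G = algebraMap O E' u * h ^ m)
    (η : Fin 2 → O) (hη : ∀ j, ∃ z' ∈ V' j, h - algebraMap O E' (η j) = algebraMap O E' π * z')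
    (T : Ideal R → Fin 3 → Prop)
    (huniq : ∀ n : Ideal R, n.IsMaximal → algebraMap O R π ∈ n → (∀ l, T n l) →
      ∀ n₂ : Ideal R, n₂.IsPrime → n₂.comap φ = n.comap φ → n₂ = n)
    (hcen' : ∀ n : Ideal R, n.IsMaximal → algebraMap O R π ∈ n → (∀ l, T n l) →
      ∀ j, ∀ r : R', (∃ z ∈ V' j, (r : E') = algebraMap O E' π * z) → φ r ∈ n) :
    ∀ n : Ideal R, n.IsMaximal → algebraMap O R π ∈ n → (∀ l, T n l) →
      ∀ (g₀ : E) (γ : Fin 3 → O), ToricAsm.NF R π V m G n (T n) g₀ γ →
        π ∣ η 0 * (γ 1 * γ 2 ^ (q - 1)) - η 1 * γ 0 ^ q := by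
  intro n hn hπn hT g₀ γ hNF
  exact ToricAsm.relβ_of_rel π q η γ
    (rel_point R R' π hπ V V' m hm (ToricAsm.dBeta q) φ hφ hint hN2 hle' G u hu h hNm η hη n hn
      hπn (huniq n hn hπn hT) (hcen' n hn hπn hT) g₀ γ
      ⟨hNF.1, fun i _ => hNF.2.1 i (hT i), hNF.2.2⟩)

omit [IsDomain O] [IsDiscreteValuationRing O] in
/-- The unit statement consumed next to `relα`/`relβ`: a constant `η` of `h` with
`π ∣ η ^ m * u - 1` is not divisible by `π`. -/
theorem not_dvd_of_dvd_pow_mul_sub_one (π : O) (hπ : Irreducible π) {m : ℕ} (hm : 0 < m)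
    (η u : O) (h : π ∣ η ^ m * u - 1) : ¬ π ∣ η := by
  intro hd
  have h1 : π ∣ η ^ m * u := Dvd.dvd.mul_right (dvd_pow hd hm.ne') u
  have h2 : π ∣ 1 := by
    have := dvd_sub h1 h
    rwa [sub_sub_cancel] at this
  exact hπ.not_isUnit (isUnit_of_dvd_one h2)

end Abstract

end Fermat.Agent.S36.TorRelInst
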