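/-
S36 — TorInTop.lean (helper22): independent CLOSER of the toric half (γ) of (E2) for the MODEL
OF RECORD at level `M q²` (chart `J3`, valuation rings `![V1, V2 (w_{q²}), W3]`, uniformizers
`![π, π, s]`, `W3` the Gauss ring along the middle-cusp embedding `Iota3.iota3 ξ`):

* `relα_J3`, `relβ_J3` : the global constants `ηα`, `ηβ` (units at index `0`) and the two
  relations of `ChartTorInst.TorIn` at every triple point of the chart `J3`
  (`TorRelInst.relα_field / relβ_field` with: instance terms of record, `hN2` := `S36/NormN2`,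
  the tuple `(u, h, η)` := `S36/TorGlobB` with the bridge `S36/Emb3Bar`, `huniq` / `hcen'` :=
  `S36/Inc3AsmB`, integrality := `S36/Inc3Gd`);
* `relAt_J3`  : `TorInInst.RelAt Md q m G` for every `G` with `OneMod` and the norm conditions;
* `h0_J3`     : the input `h0` of `TorOutInst.torOutProp` (bundle `ChartTorInst.TorIn`);
* `torOutProp_J3` : **`LocAsm3.TorOutProp M q m A K π V J3`** for a model `Md` with the valuation
  rings of record, from `[CUSP1]` in the shape `TorOutInst.CuspOne` (`S36/CuspOneInst`).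

Open modular inputs: the residue-degree-one statements `hf1`, `hf3` (through [INC3]) only.
-/
import Mathlib
import Fermat.Agent.S34.ChartRing
import Fermat.Agent.S36.TorRelInst
import Fermat.Agent.S36.TorOutInst
import Fermat.Agent.S36.TorGlobB
import Fermat.Agent.S36.Inc3AsmB
import Fermat.Agent.S36.NormN2
import Fermat.Agent.S36.NormBarK
import Fermat.Agent.S36.CuspOneInst
import Fermat.Agent.S18.FinalCore

set_option autoImplicit false

open ModularCurve AlgebraicCurve HahnSeries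

namespace Fermat.Agent.S36.TorInTop

open Fermat.Agent.S18 Fermat.Agent.S18.Arith Fermat.Agent.S34 Fermat.Agent.S36
  Fermat.Agent.S36.Model3Plan
open Fermat.Agent.S35.ModelFPlan (NormCond)

noncomputable section

set_option synthInstance.maxHeartbeats 400000

variable {M q : ℕ} [NeZero M] [NeZero q] {hq : q.Prime} {hqM : ¬ q ∣ M}
variable {A : ValuationSubring Qb} {K : IntermediateField ℚ Qb}

/-- The level-`M q` chart `chart JK` has fraction field `F_K(M q)`. -/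
theorem isFractionRing_chart_JK :
    IsFractionRing ↥(chart (M * q) A K (WKInst.JK M q hq hqM K)) (FK (M * q) K) := by
  rw [WKInst.chart_JK_eq]
  have : Fact (Nat.Prime 2) := ⟨Nat.prime_two⟩
  exact ChartRing.isFractionRing_R0 (M * q) A K 2

/-- `chart JK ⊆ V' j` for the valuation rings of record of level `M q`. -/
theorem hle'_rec (hdvr : IsDiscreteValuationRing (OK A K)) :
    ∀ j : Fin 2, ∀ x ∈ chart (M * q) A K (WKInst.JK M q hq hqM K),
      x ∈ TorGlobB.V'rec M q hq hqM K hdvr j := by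
  intro j x hx
  have h := Inc3Low.chart_JK_le M q hq hqM A K hdvr x hx
  have h' := (V12.mem_V12K_iff M q hq hqM A K hdvr).mp h
  fin_cases j
  · exact h'.1
  · exact (GaussV.mem_V2_iff _ hdvr).mpr h'.2

section Rel

variable {ξ : Qb} {hξ : ξ ^ q = 1} {hξ1 : ξ ≠ 1}

/-- **The relation along `α`** at the triple points of the chart `J3`, with a global constant
`ηα` which is a unit at index `0`. -/
theorem relα_J3 [Fact q.Prime] (hA : A.LiesOverPrime q) (hB : BaseFacts q A K)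
    (hK : ∀ σ ∈ A.inertiaSubgroupIn ℚ, ∀ a ∈ K, σ a = a)
    (hdvr : IsDiscreteValuationRing (OK A K)) {π : OK A K} (hπ : Irreducible π)
    (hξp : IsPrimitiveRoot ξ q)
    {V : Fin 3 → ValuationSubring (FK (M * q * q) K)}
    (hV0 : V 0 = GaussV.V1 (M * q * q) A K hdvr)
    (hV1 : V 1 = GaussV.V2 (WQ2.wK2 M q hq hqM K) hdvr)
    (hV2 : ∀ x, x ∈ V 2 ↔ ∃ r, GRel A (Iota3.iota3 M q K hq hqM ξ hξ hξ1 x) r)
    {P : Fin 3 → Ideal ↥(chart (M * q * q) A K (Chart3B.J3 M q hq hqM K))}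
    (Hinc : Inc3.Hyp (Inc3Gd.alphaC M q hq hqM A K) (Inc3Gd.betaC M q hq hqM A K) P
      (Inc3Low.PK' M q hq hqM A K hdvr)
      (algebraMap (OK A K) ↥(chart (M * q) A K (WKInst.JK M q hq hqM K)) π))
    {m : ℕ} (hm : 0 < m) (hqm : ¬ q ∣ m) (G : FK (M * q * q) K)
    (hG : OneMod (algebraMap (OK A K) (FK (M * q * q) K) π) V G)
    (hN : NormCond (M * q) q m (Glob.toBar (M * q * q) K G)) :
    ∃ ηα : Fin 2 → OK A K, ¬ π ∣ ηα 0 ∧
      ∀ n : Ideal ↥(chart (M * q * q) A K (Chart3B.J3 M q hq hqM K)), n.IsMaximal →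
        algebraMap (OK A K) ↥(chart (M * q * q) A K (Chart3B.J3 M q hq hqM K)) π ∈ n →
        (∀ l, P l ≤ n) → ∀ (g₀ : FK (M * q * q) K) (γ : Fin 3 → OK A K),
          ToricAsm.NF (chart (M * q * q) A K (Chart3B.J3 M q hq hqM K)) π V m G n
            (fun i => P i ≤ n) g₀ γ →
          π ∣ ηα 0 * γ 1 ^ q - ηα 1 * (γ 0 * γ 2 ^ (q - 1)) := by
  letI := DegTower.algTower (M * q) (M * q * q) K (Dvd.intro q rfl)
  haveI := DegTower.finiteDimensional (M * q) (M * q * q) K (Dvd.intro q rfl)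
  haveI : IsScalarTower (OK A K) (FK (M * q) K) (FK (M * q * q) K) :=
    DegTower.isScalarTower_OK (M * q) (M * q * q) K A (Dvd.intro q rfl)
  haveI : Algebra.IsSeparable (FK (M * q) K) (FK (M * q * q) K) :=
    NormBarK.isSeparable_alpha M q K
  haveI := hdvr
  haveI : IsIntegrallyClosed ↥(chart (M * q) A K (WKInst.JK M q hq hqM K)) :=
    Inc3Gd.isIntegrallyClosed_chart_JK M q hq hqM A K
  haveI : IsFractionRing ↥(chart (M * q) A K (WKInst.JK M q hq hqM K)) (FK (M * q) K) :=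
    isFractionRing_chart_JK
  have hN2 := NormN2.n2_normHom_alpha M q K hq hqM A hA hK hdvr hξp hξ hξ1 V
    (TorGlobB.V'rec M q hq hqM K hdvr) hV0 hV1 hV2 rfl rfl π hπ.ne_zero (ToricAsm.dAlpha q)
    ⟨rfl, rfl, rfl, rfl, rfl, rfl⟩
  obtain ⟨u, h, η, hu, hNm, hη, hdiv⟩ := TorGlobB.glob_alpha hq hqM hB hdvr hπ V hm hqm
    (ToricAsm.dAlpha q) (fun x => NormOne.normHom (FK (M * q) K) (FK (M * q * q) K) x)
    (fun x => NormBarK.toBar_normHom_alpha M q hq hqM K x) hN2 G hG hN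
  refine ⟨η, TorRelInst.not_dvd_of_dvd_pow_mul_sub_one π hπ hm (η 0) u (hdiv 0), ?_⟩
  exact TorRelInst.relα_field (chart (M * q * q) A K (Chart3B.J3 M q hq hqM K))
    (chart (M * q) A K (WKInst.JK M q hq hqM K)) π hπ V (TorGlobB.V'rec M q hq hqM K hdvr) q m hm
    (Inc3Gd.alphaC M q hq hqM A K) (fun _ => rfl) (Inc3Gd.alphaC_isIntegral M q hq hqM A K)
    hN2 (hle'_rec hdvr) G u hu h hNm η hη (fun n l => P l ≤ n)
    (Inc3AsmB.huniq_alpha_of_hyp Hinc π) (Inc3AsmB.hcen_alpha_J3 hdvr hπ Hinc)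

/-- **The relation along `β`** at the triple points of the chart `J3`. -/
theorem relβ_J3 [Fact q.Prime] (hA : A.LiesOverPrime q) (hB : BaseFacts q A K)
    (hK : ∀ σ ∈ A.inertiaSubgroupIn ℚ, ∀ a ∈ K, σ a = a)
    (hdvr : IsDiscreteValuationRing (OK A K)) {π : OK A K} (hπ : Irreducible π)
    (hξp : IsPrimitiveRoot ξ q)
    {V : Fin 3 → ValuationSubring (FK (M * q * q) K)}
    (hV0 : V 0 = GaussV.V1 (M * q * q) A K hdvr)
    (hV1 : V 1 = GaussV.V2 (WQ2.wK2 M q hq hqM K) hdvr)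
    (hV2 : ∀ x, x ∈ V 2 ↔ ∃ r, GRel A (Iota3.iota3 M q K hq hqM ξ hξ hξ1 x) r)
    {P : Fin 3 → Ideal ↥(chart (M * q * q) A K (Chart3B.J3 M q hq hqM K))}
    (Hinc : Inc3.Hyp (Inc3Gd.alphaC M q hq hqM A K) (Inc3Gd.betaC M q hq hqM A K) P
      (Inc3Low.PK' M q hq hqM A K hdvr)
      (algebraMap (OK A K) ↥(chart (M * q) A K (WKInst.JK M q hq hqM K)) π))
    {m : ℕ} (hm : 0 < m) (hqm : ¬ q ∣ m) (G : FK (M * q * q) K)
    (hG : OneMod (algebraMap (OK A K) (FK (M * q * q) K) π) V G)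
    (hN : NormCond (M * q) q m (Glob.toBar (M * q * q) K G)) :
    ∃ ηβ : Fin 2 → OK A K, ¬ π ∣ ηβ 0 ∧
      ∀ n : Ideal ↥(chart (M * q * q) A K (Chart3B.J3 M q hq hqM K)), n.IsMaximal →
        algebraMap (OK A K) ↥(chart (M * q * q) A K (Chart3B.J3 M q hq hqM K)) π ∈ n →
        (∀ l, P l ≤ n) → ∀ (g₀ : FK (M * q * q) K) (γ : Fin 3 → OK A K),
          ToricAsm.NF (chart (M * q * q) A K (Chart3B.J3 M q hq hqM K)) π V m G n
            (fun i => P i ≤ n) g₀ γ →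
          π ∣ ηβ 0 * (γ 1 * γ 2 ^ (q - 1)) - ηβ 1 * γ 0 ^ q := by
  letI := (WQ2.betaK2 M q hq hqM K).toAlgebra
  haveI := Emb3Bar.finiteDimensional_beta M q K hq hqM
  haveI : IsScalarTower (OK A K) (FK (M * q) K) (FK (M * q * q) K) :=
    NormBarK.isScalarTower_OK_beta M q hq hqM K A
  haveI : Algebra.IsSeparable (FK (M * q) K) (FK (M * q * q) K) :=
    NormBarK.isSeparable_beta M q hq hqM K
  haveI := hdvr
  haveI : IsIntegrallyClosed ↥(chart (M * q) A K (WKInst.JK M q hq hqM K)) :=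
    Inc3Gd.isIntegrallyClosed_chart_JK M q hq hqM A K
  haveI : IsFractionRing ↥(chart (M * q) A K (WKInst.JK M q hq hqM K)) (FK (M * q) K) :=
    isFractionRing_chart_JK
  have hN2 := NormN2.n2_normHom_beta M q K hq hqM A hA hK hdvr hξp hξ hξ1 V
    (TorGlobB.V'rec M q hq hqM K hdvr) hV0 hV1 hV2 rfl rfl π hπ.ne_zero (ToricAsm.dBeta q)
    ⟨rfl, rfl, rfl, rfl, rfl, rfl⟩
  obtain ⟨u, h, η, hu, hNm, hη, hdiv⟩ := TorGlobB.glob_beta hq hqM hB hdvr hπ V hm hqm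
    (ToricAsm.dBeta q) (fun x => NormOne.normHom (FK (M * q) K) (FK (M * q * q) K) x)
    (fun x => NormBarK.toBar_normHom_beta M q hq hqM K x) hN2 G hG hN
  refine ⟨η, TorRelInst.not_dvd_of_dvd_pow_mul_sub_one π hπ hm (η 0) u (hdiv 0), ?_⟩
  exact TorRelInst.relβ_field (chart (M * q * q) A K (Chart3B.J3 M q hq hqM K))
    (chart (M * q) A K (WKInst.JK M q hq hqM K)) π hπ V (TorGlobB.V'rec M q hq hqM K hdvr) q m hm
    (Inc3Gd.betaC M q hq hqM A K) (fun _ => rfl) (Inc3Gd.betaC_isIntegral M q hq hqM A K)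
    hN2 (hle'_rec hdvr) G u hu h hNm η hη (fun n l => P l ≤ n)
    (Inc3AsmB.huniq_beta_of_hyp Hinc π) (Inc3AsmB.hcen_beta_J3 hdvr hπ Hinc)

end Rel

/-! ### The model level -/

section Model

variable {K' : IntermediateField ℚ Qb} {ξ : Qb} {hξ0 : ξ ≠ 0} {hξ : ξ ^ q = 1} {hξ1 : ξ ≠ 1}
  {ϖ' : OK A K'}

/-- **`TorInInst.RelAt`** for every `G` with `OneMod` and the norm conditions, on the chart `J3`
of a model with the valuation rings of record. -/
theorem relAt_J3 [Fact q.Prime] (hA : A.LiesOverPrime q) (hB : BaseFacts q A K)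
    (hK : ∀ σ ∈ A.inertiaSubgroupIn ℚ, ∀ a ∈ K, σ a = a)
    [hdvr : IsDiscreteValuationRing (OK A K)] {π : OK A K}
    (hξp : IsPrimitiveRoot ξ q)
    {e : Fin 3 → ℕ} {ϖ : Fin 3 → FK (M * q * q) K}
    {V : Fin 3 → ValuationSubring (FK (M * q * q) K)}
    (Md : Model3 (M * q * q) A K π e ϖ V (Chart3B.J3 M q hq hqM K))
    (hV0 : V 0 = GaussV.V1 (M * q * q) A K hdvr)
    (hV1 : V 1 = GaussV.V2 (WQ2.wK2 M q hq hqM K) hdvr)
    (hV2 : ∀ x, x ∈ V 2 ↔ ∃ r, GRel A (Iota3.iota3 M q K hq hqM ξ hξ hξ1 x) r)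
    (Hinc : Inc3.Hyp (Inc3Gd.alphaC M q hq hqM A K) (Inc3Gd.betaC M q hq hqM A K) Md.c0.P
      (Inc3Low.PK' M q hq hqM A K hdvr)
      (algebraMap (OK A K) ↥(chart (M * q) A K (WKInst.JK M q hq hqM K)) π))
    {m : ℕ} (hm : 0 < m) (hqm : ¬ q ∣ m) (G : FK (M * q * q) K)
    (hG : OneMod (algebraMap (OK A K) (FK (M * q * q) K) π) V G)
    (hN : NormCond (M * q) q m (Glob.toBar (M * q * q) K G)) :
    TorInInst.RelAt Md q m G := by
  obtain ⟨ηα, hηα, hα⟩ := relα_J3 hA hB hK hdvr Md.irr hξp hV0 hV1 hV2 Hinc hm hqm G hG hN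
  obtain ⟨ηβ, hηβ, hβ⟩ := relβ_J3 hA hB hK hdvr Md.irr hξp hV0 hV1 hV2 Hinc hm hqm G hG hN
  exact ⟨ηα, ηβ, hηα, hηβ, fun n hn hπn hT g₀ γ hNF =>
    ⟨hα n hn hπn hT g₀ γ hNF, hβ n hn hπn hT g₀ γ hNF⟩⟩

/-- **The input `h0` of `TorOutInst.torOutProp`** on the chart `J3` of a model with the
valuation rings of record: the bundle `ChartTorInst.TorIn` for every `G` with `OneMod`, the
horizontal condition and the norm conditions. -/
theorem h0_J3 [Fact q.Prime] (hA : A.LiesOverPrime q) (hB : BaseFacts q A K)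
    (hK : ∀ σ ∈ A.inertiaSubgroupIn ℚ, ∀ a ∈ K, σ a = a)
    [hdvr : IsDiscreteValuationRing (OK A K)] {π : OK A K}
    (hξp : IsPrimitiveRoot ξ q)
    {e : Fin 3 → ℕ} {ϖ : Fin 3 → FK (M * q * q) K}
    {V : Fin 3 → ValuationSubring (FK (M * q * q) K)}
    (Md : Model3 (M * q * q) A K π e ϖ V (Chart3B.J3 M q hq hqM K))
    (hV0 : V 0 = GaussV.V1 (M * q * q) A K hdvr)
    (hV1 : V 1 = GaussV.V2 (WQ2.wK2 M q hq hqM K) hdvr)
    (hV2 : ∀ x, x ∈ V 2 ↔ ∃ r, GRel A (Iota3.iota3 M q K hq hqM ξ hξ hξ1 x) r)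
    (Hinc : Inc3.Hyp (Inc3Gd.alphaC M q hq hqM A K) (Inc3Gd.betaC M q hq hqM A K) Md.c0.P
      (Inc3Low.PK' M q hq hqM A K hdvr)
      (algebraMap (OK A K) ↥(chart (M * q) A K (WKInst.JK M q hq hqM K)) π))
    {m : ℕ} (hm : 0 < m) (hqm : ¬ q ∣ m) :
    ∀ G : FK (M * q * q) K,
      OneMod (algebraMap (OK A K) (FK (M * q * q) K) π) V G →
      Hor3 π m G (chart (M * q * q) A K (Chart3B.J3 M q hq hqM K)) →
      NormCond (M * q) q m (Glob.toBar (M * q * q) K G) →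
      ∃ ηα ηβ : Fin 2 → OK A K, ¬ π ∣ ηα 0 ∧ ¬ π ∣ ηβ 0 ∧
        ChartTorInst.TorIn (chart (M * q * q) A K (Chart3B.J3 M q hq hqM K)) π V Md.c0.P q m G
          ηα ηβ := by
  intro G hG hHor hN
  obtain ⟨ζ, hζ⟩ := LocAsm3B.exists_primitiveRoot_OK A K hB hm hqm
  have hmu : IsUnit ((m : ℕ) : OK A K) := FinalCore.isUnit_natCast_OK A hA K hqm
  obtain ⟨ηα, ηβ, hηα, hηβ, hrel⟩ :=
    relAt_J3 hA hB hK hξp Md hV0 hV1 hV2 Hinc hm hqm G hG hN
  exact ⟨ηα, ηβ, hηα, hηβ, TorInInst.torIn_chart Md hm hmu hζ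
    (Inc3AsmB.triple_of_hyp Hinc π) G hG hHor ηα ηβ hrel⟩

/-- **[TORIC36] + [LOC36] at the model level for the chart `J3`: `LocAsm3.TorOutProp`**, from
the incidence hypotheses on the chart `J3` and [CUSP1] on the chart `J3⁻¹`. -/
theorem torOutProp_J3 [Fact q.Prime] (hA : A.LiesOverPrime q) (hB : BaseFacts q A K)
    (hK : ∀ σ ∈ A.inertiaSubgroupIn ℚ, ∀ a ∈ K, σ a = a)
    [hdvr : IsDiscreteValuationRing (OK A K)] {π : OK A K}
    (hξp : IsPrimitiveRoot ξ q)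
    {e : Fin 3 → ℕ} {ϖ : Fin 3 → FK (M * q * q) K}
    {V : Fin 3 → ValuationSubring (FK (M * q * q) K)}
    (Md : Model3 (M * q * q) A K π e ϖ V (Chart3B.J3 M q hq hqM K))
    (hV0 : V 0 = GaussV.V1 (M * q * q) A K hdvr)
    (hV1 : V 1 = GaussV.V2 (WQ2.wK2 M q hq hqM K) hdvr)
    (hV2 : ∀ x, x ∈ V 2 ↔ ∃ r, GRel A (Iota3.iota3 M q K hq hqM ξ hξ hξ1 x) r)
    (Hinc : Inc3.Hyp (Inc3Gd.alphaC M q hq hqM A K) (Inc3Gd.betaC M q hq hqM A K) Md.c0.P
      (Inc3Low.PK' M q hq hqM A K hdvr)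
      (algebraMap (OK A K) ↥(chart (M * q) A K (WKInst.JK M q hq hqM K)) π))
    (hcusp : TorOutInst.CuspOne π (Chart3B.J3 M q hq hqM K) Md.cInf.P)
    {m : ℕ} (hm : m ≠ 0) (hqm : ¬ q ∣ m) :
    LocAsm3.TorOutProp M q m A K π V (Chart3B.J3 M q hq hqM K) := by
  obtain ⟨ζ, hζ⟩ := LocAsm3B.exists_primitiveRoot_OK A K hB (Nat.pos_of_ne_zero hm) hqm
  have hmu : IsUnit ((m : ℕ) : OK A K) := FinalCore.isUnit_natCast_OK A hA K hqm
  exact TorOutInst.torOutProp q hB Md hm hmu hζ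
    (h0_J3 hA hB hK hξp Md hV0 hV1 hV2 Hinc (Nat.pos_of_ne_zero hm) hqm) hcusp

/-- **`LocAsm3.TorOutProp` for a model with the valuation rings and uniformizers of record**
(`V = ![V1, V2 (w_{q²}), W3]`, `ϖ = ![π, π, s]` up to the six equations, `W3 = H.W3` along
`Iota3.iota3 ξ`): [INC3] and [CUSP1] discharged; open inputs `hf1`, `hf3` only. -/
theorem torOutProp_model [Fact q.Prime] (hA : A.LiesOverPrime q) (hB : BaseFacts q A K)
    (hK : ∀ σ ∈ A.inertiaSubgroupIn ℚ, ∀ a ∈ K, σ a = a)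
    [hdvr : IsDiscreteValuationRing (OK A K)] {π : OK A K}
    (hξp : IsPrimitiveRoot ξ q)
    (H : V3.Hyp3 M q hq hqM A K K' ξ hξ0 (Iota3.iota3 M q K hq hqM ξ hξ hξ1) ϖ')
    (hf1 : ∀ (x : FK (M * q * q) K) (y : LaurentSeries (IsLocalRing.ResidueField A)),
      GRel A ((x : FK (M * q * q) K) : LaurentSeries Qb) y →
      ∃ x' : FK M K, GRel A ((x' : FK M K) : LaurentSeries Qb) y)
    (hf3 : ∀ (x : FK (M * q * q) K) (y : LaurentSeries (IsLocalRing.ResidueField A)),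
      GRel A (Iota3.iota3 M q K hq hqM ξ hξ hξ1 x) y →
      ∃ x' : FK M K, GRel A ((x' : FK M K) : LaurentSeries Qb) y)
    {e : Fin 3 → ℕ} {ϖ : Fin 3 → FK (M * q * q) K}
    {V : Fin 3 → ValuationSubring (FK (M * q * q) K)}
    (Md : Model3 (M * q * q) A K π e ϖ V (Chart3B.J3 M q hq hqM K))
    (hV0 : V 0 = GaussV.V1 (M * q * q) A K hdvr)
    (hV1 : V 1 = GaussV.V2 (WQ2.wK2 M q hq hqM K) hdvr)
    (hV2 : V 2 = H.W3)
    (hϖ0 : ϖ 0 = algebraMap (OK A K) (FK (M * q * q) K) π)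
    (hϖ1 : ϖ 1 = algebraMap (OK A K) (FK (M * q * q) K) π)
    (hϖ2 : ϖ 2 = Wit3.sE M q hq hqM K)
    {m : ℕ} (hm : m ≠ 0) (hqm : ¬ q ∣ m) :
    LocAsm3.TorOutProp M q m A K π V (Chart3B.J3 M q hq hqM K) := by
  have Hinc := Inc3AsmB.hyp_model hA hB hdvr H hf1 hf3 Md hV0 hV1 hV2 hϖ0 hϖ1 hϖ2
  have hV2' : ∀ x, x ∈ V 2 ↔ ∃ r, GRel A (Iota3.iota3 M q K hq hqM ξ hξ hξ1 x) r := by
    intro x
    rw [hV2]
    exact Iff.rfl
  have hcusp : TorOutInst.CuspOne π (Chart3B.J3 M q hq hqM K) Md.cInf.P :=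
    CuspOneInst.cusp_one M q hq hqM A K hdvr hA Md.irr Md.cInf.hyp hV0 hV1 hϖ0 hϖ1
      ⟨1, one_mem _, by rw [hϖ2, mul_one]⟩
  exact torOutProp_J3 hA hB hK hξp Md hV0 hV1 hV2' Hinc hcusp hm hqm

end Model

end

end Fermat.Agent.S36.TorInTop
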