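/-
S36 — ChainM3F.lean (helper40): THE LAST MILE, CLOSED.

The two named inputs of `S36/ChainM3C.lean` discharged from main:

* `nakRec`  : `ChainM3C.NakRec`  — `NakTopInst.hnak0` (helper78; [B1-nak] closed on `chart J3`);
* `relRec`  : `ChainM3C.RelRec`  — `TorInTop.relAt_J3` (helper22; [TOR-REL] closed) with
              `Inc3AsmB.hyp_model` and `ResDeg3Inst.hf1 / hf3'`;

hence, hypothesis-free (for `q` prime, `q ∤ M`, `Plan.AuxHyp q M`):

* `chainL`     : `LocAsm3L.ChainStatementL M q`   (base = inertia field);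
* `chain`      : `LocAsm3.ChainStatement M q`     (every unramified base);
* `inertTors`  : `∀ M q, q.Prime → ¬ q ∣ M → Plan.InertTorsStatement M q`
                 (`Seam36L.inertTors_of_chainL`), the hypothesis of the top
                 `Top36B.result_of_inertTors`.
-/
import Mathlib
import Fermat.Agent.S36.ChainM3C
import Fermat.Agent.S36.NakTopInst
import Fermat.Agent.S36.TorInTop
import Fermat.Agent.S36.Seam36L

set_option autoImplicit false

noncomputable section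

namespace Fermat.Agent.S36.ChainM3F

open ModularCurve AlgebraicCurve HahnSeries
open Fermat.Agent.S18 Fermat.Agent.S18.Arith Fermat.Agent.S18.ModelPlan
open Fermat.Agent.S34 Fermat.Agent.S36.Model3Plan
open Fermat.Agent.S36.ChainM3 (unif3 val3)

/-- `Plan.AuxHyp q M` gives the auxiliary level `4 ∣ M ∨ 9 ∣ M`. -/
theorem hM_of_aux {q M : ℕ} (haux : Plan.AuxHyp q M) : 4 ∣ M ∨ 9 ∣ M := by
  by_cases h : q = 2
  · exact Or.inr (haux.2 h)
  · exact Or.inl (haux.1 h)

section Closers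

variable {M q : ℕ} [NeZero M] [NeZero q] [Fact q.Prime] (hqM : ¬ q ∣ M)
  {A : ValuationSubring Qb} {K : IntermediateField ℚ Qb}
  {π : OK A K} (hπ : Irreducible π) (hπq : incO A K π = (q : Qb))
  {ξ : Qb} (hξ : IsPrimitiveRoot ξ q)

/-- **[B1-nak], closed at the tuple of record.** -/
theorem nakRec (haux : Plan.AuxHyp q M) (hA : A.LiesOverPrime q) (hK : Plan.UnrBase q A K) :
    ChainM3C.NakRec M q Fact.out hqM A K hK.1.dvr π hπ hπq ξ hξ :=
  fun hyp n hn hπn _ _ hPn =>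
    NakTopInst.hnak0 (V3.hyp3_iota3 Fact.out hqM A hK.1.dvr π hπ hπq hξ) hA hK.1
      (hM_of_aux haux) hπ 1 (ChainM3C.hqa hπq) (BaseXi.exists_unit Fact.out π hπ hπq hξ) hyp
      n hn hπn hPn

/-- **[TOR-REL], closed at the tuple of record.** -/
theorem relRec (hA : A.LiesOverPrime q) (hK : Plan.UnrBase q A K) {m : ℕ} (hm : m ≠ 0)
    (hqm : ¬ q ∣ m) :
    ChainM3C.RelRec M q Fact.out hqM A K hK.1.dvr π hπ hπq ξ hξ m := by
  intro Md G hG _ hN
  have hdvr : IsDiscreteValuationRing (OK A K) := hK.1.dvr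
  have hC : ChartFacts M A K (chart M A K (jK M K)) (jK M K) :=
    Red2B.chartFacts M q Fact.out hqM A K hA hK.1
  have hW := Model3Top.wit (V3.hyp3_iota3 Fact.out hqM A hK.1.dvr π hπ hπq hξ) hK.1.dvr hA hC
    hπ 1 (ChainM3C.hqa hπq) (BaseXi.exists_unit Fact.out π hπ hπq hξ)
  have hf1 := ResDeg3Inst.hf1 M q hK.1.dvr hπ hC hW
  have hf3 := ResDeg3Inst.hf3' M q Fact.out hK.1.dvr hπ hC
    (V3.hyp3_iota3 Fact.out hqM A hK.1.dvr π hπ hπq hξ).mid.alpha
    (V3Wit.hW3 (V3.hyp3_iota3 Fact.out hqM A hK.1.dvr π hπ hπq hξ)) hW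
  have Hinc := Inc3AsmB.hyp_model hA hK.1 hK.1.dvr
    (V3.hyp3_iota3 Fact.out hqM A hK.1.dvr π hπ hπq hξ) hf1 hf3 Md rfl rfl rfl rfl rfl rfl
  exact TorInTop.relAt_J3 hA hK.1 hK.2.2 hξ Md rfl rfl (fun _ => Iff.rfl) Hinc
    (Nat.pos_of_ne_zero hm) hqm G hG hN

end Closers

section Chain

variable (M q : ℕ) [NeZero M] [NeZero q] [Fact q.Prime]

/-- **The chain over the inertia field, closed.** -/
theorem chainL (hqM : ¬ q ∣ M) (haux : Plan.AuxHyp q M) : LocAsm3L.ChainStatementL M q :=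
  ChainM3C.chainL_of_nak_rel M q hqM haux (fun _ hm hqm _ hA _ _ hπ hπq _ hξ =>
    ⟨nakRec hqM hπ hπq hξ haux hA (LocAsm3L.unrBase_inertiaField hA),
      relRec hqM hπ hπq hξ hA (LocAsm3L.unrBase_inertiaField hA) hm hqm⟩)

/-- **The chain over every unramified base, closed.** -/
theorem chain (hqM : ¬ q ∣ M) (haux : Plan.AuxHyp q M) : LocAsm3.ChainStatement M q :=
  ChainM3C.chain_of_nak_rel M q hqM haux (fun _ hm hqm _ hA _ hK _ _ hπ hπq _ hξ =>
    ⟨nakRec hqM hπ hπq hξ haux hA hK, relRec hqM hπ hπq hξ hA hK hm hqm⟩)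

end Chain

/-- **(P1) for every level**: the hypothesis of the top `Top36B.result_of_inertTors`. -/
theorem inertTors :
    ∀ (M q : ℕ) [NeZero M] [NeZero q], q.Prime → ¬ q ∣ M → Plan.InertTorsStatement M q :=
  Seam36L.inertTors_of_chainL (fun M q _ _ _ hqM haux => chainL M q hqM haux)

end Fermat.Agent.S36.ChainM3F

end
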