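/-
S36 route, block [TOP36] — PseudoIB.lean (helper114; independent second copy of the pseudo-character
top, the S36 twin of `S35/PseudoQ.lean`).

The determinant `(t, d)` of `S30/LimGlue.exists_pseudo`, re-run with EXPLICIT level data, together
with the statement that `t` is NOT identically `2` on the inertia groups above a *special* prime
`q` (in the application: `q² ∥ N`, `q ≠ p`).

Extra input (one `Prop` per level and per special prime, `InertQ`): for ONE prime `P` of `ℚ̄`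
above `q`, the `I_P`-invariants of the level module `V_n` are killed by a constant `c ≠ 0` which
does not depend on `n`.

Algebra (`smul_eq_zero_of_unipotent`): let `H` act on `X` with `τ + τ⁻¹ = 2` for all `τ ∈ H`.
Then `a_τ := τ - 1` satisfy `a_τ a_σ + a_σ a_τ = 0` and `2 a_τ a_σ a_ρ = 0`; hence
`2 a_σ a_ρ y` is `H`-invariant, so `2c a_σ a_ρ y = 0`; hence `2c a_ρ y` is `H`-invariant, so
`2c² a_ρ y = 0`; hence `2c² y` is `H`-invariant and `2c³ y = 0`.  Applied to the distinguished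
vector `w_n`, whose annihilator is contained in `pⁿ 𝒪`: `pⁿ ∣ 2c³` for all `n`, so `2c³ = 0`.
-/
import Mathlib
import Fermat.Agent.S29.Defs
import Fermat.Agent.S29.Lucas
import Fermat.Agent.S30.LimLevel
import Fermat.Agent.S30.LimCore
import Fermat.Agent.S30.LimFD
import Fermat.Agent.S30.LimGlue
import Fermat.Agent.S30.Conj

set_option autoImplicit false

namespace Fermat.Agent.S36.PseudoIB

open Fermat.Agent.S29 (FDStatement)
open Fermat.Agent.S30.LimLevel (Level)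
open Fermat.Agent.S30.LimCore (IsTrace)

/-- `ℚ̄`. -/
local notation "Qb" => AlgebraicClosure ℚ

/-- `Gal(ℚ̄/ℚ)`. -/
local notation "GQ" => (AlgebraicClosure ℚ ≃ₐ[ℚ] AlgebraicClosure ℚ)

/-! ### Algebra of a group acting with `τ + τ⁻¹ = 2` -/

section Alg

variable {𝒪 : Type*} [CommRing 𝒪] {X : Type*} [AddCommGroup X] [Module 𝒪 X]
variable {G : Type*} [Group G]

/-- `g + g⁻¹ = 2` gives `(g - 1)² = 0`. -/
theorem sub_one_mul_self (g g' : Module.End 𝒪 X) (h1 : g * g' = 1)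
    (h : g + g' = (2 : 𝒪) • (1 : Module.End 𝒪 X)) :
    (g - 1) * (g - 1) = 0 := by
  have h2 : g * (g + g') = g * ((2 : 𝒪) • (1 : Module.End 𝒪 X)) := by rw [h]
  rw [mul_add, h1, mul_smul_comm, mul_one] at h2
  have h3 : (g - 1) * (g - 1) = (g * g + 1) - (2 : 𝒪) • g := by
    rw [two_smul]
    noncomm_ring
  rw [h3, h2, sub_self]

/-- The polarised identity: if `g + g⁻¹ = 2`, `h + h⁻¹ = 2` and `gh + (gh)⁻¹ = 2` then
`(g - 1)(h - 1) + (h - 1)(g - 1) = 0`. -/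
theorem anticomm_of_unipotent (g g' h h' : Module.End 𝒪 X)
    (hg : g + g' = (2 : 𝒪) • (1 : Module.End 𝒪 X))
    (hh : h + h' = (2 : 𝒪) • (1 : Module.End 𝒪 X))
    (hgh : g * h + h' * g' = (2 : 𝒪) • (1 : Module.End 𝒪 X)) :
    (g - 1) * (h - 1) + (h - 1) * (g - 1) = 0 := by
  have hg' : g' = (2 : 𝒪) • (1 : Module.End 𝒪 X) - g := eq_sub_of_add_eq' hg
  have hh' : h' = (2 : 𝒪) • (1 : Module.End 𝒪 X) - h := eq_sub_of_add_eq' hh
  rw [hg', hh'] at hgh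
  have e : (g - 1) * (h - 1) + (h - 1) * (g - 1)
      = (g * h + ((2 : 𝒪) • (1 : Module.End 𝒪 X) - h) * ((2 : 𝒪) • (1 : Module.End 𝒪 X) - g))
        - (2 : 𝒪) • (1 : Module.End 𝒪 X) := by
    simp only [two_smul]
    noncomm_ring
  rw [e, hgh, sub_self]

variable (H : Subgroup G) (π : G →* Module.End 𝒪 X)

/-- For a subgroup `H` acting with `τ + τ⁻¹ = 2`: `(τ - 1)(σ - 1) + (σ - 1)(τ - 1) = 0`. -/
theorem anticomm_of_mem (hU : ∀ τ ∈ H, π τ + π τ⁻¹ = (2 : 𝒪) • (1 : Module.End 𝒪 X))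
    {τ σ : G} (hτ : τ ∈ H) (hσ : σ ∈ H) :
    (π τ - 1) * (π σ - 1) + (π σ - 1) * (π τ - 1) = 0 := by
  refine anticomm_of_unipotent (π τ) (π τ⁻¹) (π σ) (π σ⁻¹) (hU τ hτ) (hU σ hσ) ?_
  have h := hU (τ * σ) (H.mul_mem hτ hσ)
  rw [mul_inv_rev, map_mul, map_mul] at h
  exact h

/-- For a subgroup `H` acting with `τ + τ⁻¹ = 2`: `2 (τ - 1)(σ - 1)(ρ - 1) = 0`. -/
theorem two_smul_triple_eq_zero (hU : ∀ τ ∈ H, π τ + π τ⁻¹ = (2 : 𝒪) • (1 : Module.End 𝒪 X))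
    {τ σ ρ : G} (hτ : τ ∈ H) (hσ : σ ∈ H) (hρ : ρ ∈ H) :
    (2 : 𝒪) • ((π τ - 1) * (π σ - 1) * (π ρ - 1)) = 0 := by
  have h1 := anticomm_of_mem H π hU hτ hσ
  have h2 := anticomm_of_mem H π hU hτ hρ
  have h3 := anticomm_of_mem H π hU hσ hρ
  have h4 := anticomm_of_mem H π hU (H.mul_mem hτ hσ) hρ
  rw [map_mul] at h4
  set a : Module.End 𝒪 X := π τ - 1 with ha
  set b : Module.End 𝒪 X := π σ - 1 with hb
  set c : Module.End 𝒪 X := π ρ - 1 with hc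
  have hτ' : π τ = a + 1 := by rw [ha]; abel
  have hσ' : π σ = b + 1 := by rw [hb]; abel
  rw [hτ', hσ'] at h4
  -- `ca = -ac`, `cb = -bc`
  have hca : c * a = -(a * c) := eq_neg_of_add_eq_zero_right h2
  have hcb : c * b = -(b * c) := eq_neg_of_add_eq_zero_right h3
  have e : ((a + 1) * (b + 1) - 1) * c + c * ((a + 1) * (b + 1) - 1)
      = a * b * c + (c * a) * b + (a * c + c * a) + (b * c + c * b) := by
    noncomm_ring
  rw [e, h2, h3, add_zero, add_zero, hca, neg_mul, mul_assoc a c b, hcb, mul_neg, neg_neg,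
    ← mul_assoc] at h4
  rw [two_smul]
  exact h4

/-- **The three-step algebra of [TOP36].**  Let a subgroup `H` act on `X` with `τ + τ⁻¹ = 2` for
all `τ ∈ H`, and suppose that the `H`-invariants of `X` are killed by `c`.  Then `2 c³` kills
`X`. -/
theorem smul_eq_zero_of_unipotent
    (hU : ∀ τ ∈ H, π τ + π τ⁻¹ = (2 : 𝒪) • (1 : Module.End 𝒪 X)) (c : 𝒪)
    (hinv : ∀ x : X, (∀ τ ∈ H, π τ x = x) → c • x = 0) (w : X) :
    ((2 : 𝒪) * c ^ 3) • w = 0 := by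
  -- invariance in the form `(τ - 1) x = 0`
  have hinv' : ∀ x : X, (∀ τ ∈ H, (π τ - 1) x = 0) → c • x = 0 := by
    intro x hx
    apply hinv x
    intro τ hτ
    have h := hx τ hτ
    rw [LinearMap.sub_apply, Module.End.one_apply, sub_eq_zero] at h
    exact h
  -- step 1
  have s1 : ∀ σ ∈ H, ∀ ρ ∈ H, ∀ y : X, c • (2 : 𝒪) • (π σ - 1) ((π ρ - 1) y) = 0 := by
    intro σ hσ ρ hρ y
    apply hinv'
    intro τ hτ
    have h := congrArg (fun f : Module.End 𝒪 X => f y) (two_smul_triple_eq_zero H π hU hτ hσ hρ)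
    simp only [LinearMap.smul_apply, Module.End.mul_apply, LinearMap.zero_apply] at h
    rw [map_smul]
    exact h
  -- step 2
  have s2 : ∀ ρ ∈ H, ∀ y : X, c • c • (2 : 𝒪) • (π ρ - 1) y = 0 := by
    intro ρ hρ y
    apply hinv'
    intro σ hσ
    rw [map_smul, map_smul]
    exact s1 σ hσ ρ hρ y
  -- step 3
  have s3 : c • c • c • (2 : 𝒪) • w = 0 := by
    apply hinv'
    intro ρ hρ
    rw [map_smul, map_smul, map_smul]
    exact s2 ρ hρ w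
  rw [smul_smul, smul_smul, smul_smul] at s3
  have e : c * c * c * 2 = 2 * c ^ 3 := by ring
  rw [e] at s3
  exact s3

end Alg

/-! ### The extra datum and the determinant -/

/-- **The extra datum at a special prime `q`** on a level: for ONE prime `P` of `ℚ̄` above `q`,
the invariants of the inertia group `I_P` in the level module are killed by the constant `c`. -/
def InertQ {𝒪 : Type} [CommRing 𝒪] {p n : ℕ} {good : ℕ → Prop} {a : ℕ → 𝒪} {unr : ℕ → Prop}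
    (Lv : Level 𝒪 p n good a unr) (q : ℕ) (c : 𝒪) : Prop :=
  ∃ P : ValuationSubring Qb, P.LiesOverPrime q ∧
    ∀ x : Lv.V, (∀ τ ∈ P.inertiaSubgroupIn ℚ, Lv.r τ x = x) → c • x = 0

/-- There is a valuation subring of `ℚ̄` lying over any prime. -/
theorem exists_liesOverPrime {q : ℕ} (hq : q.Prime) :
    ∃ A : ValuationSubring Qb, A.LiesOverPrime q := by
  let A₀ : Subring Qb := (Int.castRingHom Qb).range
  have hqmem : (q : Qb) ∈ A₀ := ⟨(q : ℤ), by simp⟩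
  let I : Ideal A₀ := Ideal.span {⟨(q : Qb), hqmem⟩}
  have hI : I ≠ ⊤ := by
    intro htop
    have h1 : (1 : A₀) ∈ I := by rw [htop]; trivial
    obtain ⟨c, hc⟩ := Ideal.mem_span_singleton'.mp h1
    obtain ⟨k, hk⟩ := c.2
    have h2 : ((k * q : ℤ) : Qb) = ((1 : ℤ) : Qb) := by
      have := congrArg Subtype.val hc
      push_cast at this ⊢
      rw [← this, ← hk]
      simp
    have h3 : k * (q : ℤ) = 1 := by exact_mod_cast h2
    have h4 : (q : ℤ) ∣ 1 := ⟨k, by rw [← h3]; ring⟩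
    have h5 := Int.natCast_dvd_natCast.mp (by simpa using h4 : ((q : ℕ) : ℤ) ∣ ((1 : ℕ) : ℤ))
    exact hq.one_lt.ne' (Nat.dvd_one.mp h5)
  obtain ⟨B, -, hB⟩ := Ideal.image_subset_nonunits_valuationSubring I hI
  exact ⟨B, hB ⟨⟨(q : Qb), hqmem⟩, Ideal.subset_span rfl, rfl⟩⟩

/-- The datum `InertQ` from its form for ALL primes above `q`. -/
theorem InertQ.of_forall {𝒪 : Type} [CommRing 𝒪] {p n : ℕ} {good : ℕ → Prop} {a : ℕ → 𝒪}
    {unr : ℕ → Prop} (Lv : Level 𝒪 p n good a unr) {q : ℕ} (hq : q.Prime) (c : 𝒪)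
    (h : ∀ P : ValuationSubring Qb, P.LiesOverPrime q →
      ∀ x : Lv.V, (∀ τ ∈ P.inertiaSubgroupIn ℚ, Lv.r τ x = x) → c • x = 0) :
    InertQ Lv q c := by
  obtain ⟨P, hP⟩ := exists_liesOverPrime hq
  exact ⟨P, hP, h P hP⟩

/-- The datum `InertQ` from its form on the elements `(τ - 1) x = 0`. -/
theorem InertQ.of_sub {𝒪 : Type} [CommRing 𝒪] {p n : ℕ} {good : ℕ → Prop} {a : ℕ → 𝒪}
    {unr : ℕ → Prop} (Lv : Level 𝒪 p n good a unr) {q : ℕ} (c : 𝒪)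
    (h : ∃ P : ValuationSubring Qb, P.LiesOverPrime q ∧
      ∀ x : Lv.V, (∀ τ ∈ P.inertiaSubgroupIn ℚ, Lv.r τ x - x = 0) → c • x = 0) :
    InertQ Lv q c := by
  obtain ⟨P, hP, hx⟩ := h
  exact ⟨P, hP, fun x hτ => hx x fun τ hτP => by rw [hτ τ hτP, sub_self]⟩

/-- **The concrete limit step with special primes, inertia version.**  As
`S30/LimGlue.exists_pseudo`, with the levels given together with `InertQ` at the special primes
(with constants `cst q ≠ 0` not depending on the level); the determinant `(t, d)` satisfies in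
addition: at every special prime `q`, the function `t` is NOT identically `2` on the inertia
groups of the primes of `ℚ̄` above `q`. -/
theorem exists_pseudoI {𝒪 : Type} [CommRing 𝒪] [IsDomain 𝒪] (p : ℕ) (hp : p ≠ 0)
    (h2 : (2 : 𝒪) ≠ 0)
    (hsep : ∀ a : 𝒪, (∀ n : ℕ, (p : 𝒪) ^ n ∣ a) → a = 0)
    (hcompl : ∀ f : ℕ → 𝒪, (∀ n : ℕ, (p : 𝒪) ^ n ∣ f (n + 1) - f n) →
      ∃ L : 𝒪, ∀ n : ℕ, (p : 𝒪) ^ n ∣ f n - L)
    (good : ℕ → Prop) (a : ℕ → 𝒪) (unr : ℕ → Prop) (S : Finset ℕ)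
    (hS : ∀ ℓ : ℕ, ℓ.Prime → ℓ ∉ S → good ℓ) (hFD : FDStatement)
    (d : GQ →* 𝒪ˣ)
    (hd : ∀ (g : GQ) (n k : ℕ), (∀ ζ : Qb, ζ ^ (p ^ n) = 1 → g ζ = ζ ^ k) →
      (p : 𝒪) ^ n ∣ ((d g : 𝒪ˣ) : 𝒪) - (k : 𝒪))
    (hcycL : ∀ n : ℕ, ∃ L : IntermediateField ℚ Qb, FiniteDimensional ℚ L ∧
      ∀ σ : GQ, (∀ x ∈ L, σ x = x) → ∀ ζ : Qb, ζ ^ (p ^ n) = 1 → σ ζ = ζ)
    (hcycF : ∀ ℓ : ℕ, good ℓ → ∀ A : ValuationSubring Qb, A.LiesOverPrime ℓ →
      ∀ σ : GQ, A.IsFrobeniusAt σ ℓ → ∀ (n : ℕ) (ζ : Qb), ζ ^ (p ^ n) = 1 → σ ζ = ζ ^ ℓ)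
    (hcycI : ∀ q : ℕ, unr q → ∀ P : ValuationSubring Qb, P.LiesOverPrime q →
      ∀ τ ∈ P.inertiaSubgroupIn ℚ, ∀ (n : ℕ) (ζ : Qb), ζ ^ (p ^ n) = 1 → τ ζ = ζ)
    (spec : ℕ → Prop)
    (cst : ℕ → 𝒪) (hcst : ∀ q : ℕ, spec q → cst q ≠ 0)
    (hcycIQ : ∀ q : ℕ, spec q → ∀ P : ValuationSubring Qb, P.LiesOverPrime q →
      ∀ τ ∈ P.inertiaSubgroupIn ℚ, ∀ (n : ℕ) (ζ : Qb), ζ ^ (p ^ n) = 1 → τ ζ = ζ)
    (lev : ∀ n : ℕ, ∃ Lv : Level 𝒪 p n good a unr, ∀ q : ℕ, spec q → InertQ Lv q (cst q)) :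
    ∃ t : GQ → 𝒪,
      t 1 = 2 ∧ (∀ g h : GQ, t (g * h) = t (h * g)) ∧
      (∀ g h : GQ, t (g * h) + ((d h : 𝒪ˣ) : 𝒪) * t (g * h⁻¹) = t g * t h) ∧
      (∀ n : ℕ, ∃ L : IntermediateField ℚ Qb, FiniteDimensional ℚ L ∧
        ∀ σ : GQ, (∀ x ∈ L, σ x = x) → ∀ g : GQ, (p : 𝒪) ^ n ∣ t (σ * g) - t g) ∧
      (∀ ℓ : ℕ, good ℓ → ∀ A : ValuationSubring Qb, A.LiesOverPrime ℓ →
        ∀ σ : GQ, A.IsFrobeniusAt σ ℓ → t σ = a ℓ ∧ ((d σ : 𝒪ˣ) : 𝒪) = (ℓ : 𝒪)) ∧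
      (∀ q : ℕ, unr q → ∀ P : ValuationSubring Qb, P.LiesOverPrime q →
        ∀ τ ∈ P.inertiaSubgroupIn ℚ, ∀ g : GQ, t (τ * g) = t g) ∧
      (∃ c : GQ, c * c = 1 ∧ t c = 0 ∧ d c = -1) ∧
      (∀ q : ℕ, spec q → ¬ (∀ P : ValuationSubring Qb, P.LiesOverPrime q →
        ∀ τ ∈ P.inertiaSubgroupIn ℚ, t τ = 2)) := by
  classical
  -- the level data
  let Lv : ∀ n : ℕ, Level 𝒪 p n good a unr := fun n => (lev n).choose
  have hLvI : ∀ (n : ℕ) (q : ℕ), spec q → InertQ (Lv n) q (cst q) := fun n => (lev n).choose_spec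
  let X : ℕ → Type := fun n => (Lv n).V
  let π : ∀ n : ℕ, GQ →* Module.End 𝒪 (X n) := fun n => (Lv n).r
  let w : ∀ n : ℕ, X n := fun n => (Lv n).w
  have htors : ∀ (n : ℕ) (x : X n), (p : 𝒪) ^ n • x = 0 := fun n => (Lv n).tors
  have hann : ∀ (n : ℕ) (c : 𝒪), c • w n = 0 → (p : 𝒪) ^ n ∣ c := fun n => (Lv n).ann
  have hlevel : ∀ n : ℕ, ∃ L : IntermediateField ℚ Qb, FiniteDimensional ℚ L ∧
      ∀ σ : GQ, (∀ x ∈ L, σ x = x) → π n σ = 1 := fun n => (Lv n).level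
  -- the cyclotomic character at Frobenius and inertia
  have hdFrob : ∀ ℓ : ℕ, good ℓ → ∀ A : ValuationSubring Qb, A.LiesOverPrime ℓ →
      ∀ σ : GQ, A.IsFrobeniusAt σ ℓ → ((d σ : 𝒪ˣ) : 𝒪) = (ℓ : 𝒪) :=
    fun ℓ hℓ A hA σ hσ =>
      Fermat.Agent.S30.LimGlue.d_eq_natCast hsep d hd σ ℓ (hcycF ℓ hℓ A hA σ hσ)
  have hdIn : ∀ q : ℕ, unr q → ∀ P : ValuationSubring Qb, P.LiesOverPrime q →
      ∀ τ ∈ P.inertiaSubgroupIn ℚ, d τ = 1 :=
    fun q hq P hP τ hτ =>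
      Fermat.Agent.S30.LimGlue.d_eq_one hsep d hd τ (hcycI q hq P hP τ hτ)
  have hdcont : ∀ m : ℕ, ∃ C : IntermediateField ℚ Qb, FiniteDimensional ℚ C ∧
      ∀ σ : GQ, (∀ x ∈ C, σ x = x) → (p : 𝒪) ^ m ∣ ((d σ : 𝒪ˣ) : 𝒪) - 1 := by
    intro m
    obtain ⟨C, hC, h⟩ := hcycL m
    exact ⟨C, hC, fun σ hσ => Fermat.Agent.S30.LimGlue.d_sub_one_dvd d hd m σ (h σ hσ)⟩
  -- the relation on two consecutive levels (FD + Lucas)
  have hrel : ∀ (g : GQ) (n : ℕ), ∃ t' : 𝒪,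
      (π n g + ((d g : 𝒪ˣ) : 𝒪) • π n g⁻¹ = t' • (1 : Module.End 𝒪 (X n))) ∧
      (π (n + 1) g + ((d g : 𝒪ˣ) : 𝒪) • π (n + 1) g⁻¹
        = t' • (1 : Module.End 𝒪 (X (n + 1)))) :=
    Fermat.Agent.S30.LimFD.hrel_of_levels hFD (p : 𝒪) S a d
      (fun ℓ hℓ hℓS A hA σ hσ => hdFrob ℓ (hS ℓ hℓ hℓS) A hA σ hσ) hdcont π htors hlevel
      (fun n ℓ hℓ hℓS A hA σ hσ => (Lv n).frob ℓ (hS ℓ hℓ hℓS) A hA σ hσ)
  -- the limit
  obtain ⟨t, ht, ht1, htcomm, htmul, -⟩ :=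
    Fermat.Agent.S30.LimCore.exists_trace (ϖ := (p : 𝒪)) (d := d) (X := X) (π := π) (w := w)
      hsep hcompl htors hann hrel
  have hT : IsTrace d X π t := ht
  refine ⟨t, ht1, htcomm, htmul, ?_, ?_, ?_, ?_, ?_⟩
  · -- (P2)
    intro n
    obtain ⟨L₁, hL₁, h₁⟩ := hlevel n
    obtain ⟨L₂, hL₂, h₂⟩ := hdcont n
    refine ⟨L₁ ⊔ L₂, inferInstance, fun σ hσ g => ?_⟩
    exact hT.dvd_sub_of_eq htors hann n σ g
      (h₁ σ fun x hx => hσ x ((le_sup_left : L₁ ≤ L₁ ⊔ L₂) hx))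
      (h₂ σ fun x hx => hσ x ((le_sup_right : L₂ ≤ L₁ ⊔ L₂) hx))
  · -- (P3), Frobenius
    intro ℓ hℓ A hA σ hσ
    have hdσ := hdFrob ℓ hℓ A hA σ hσ
    refine ⟨?_, hdσ⟩
    apply hT.eq_of_forall_rel hsep hann σ (a ℓ)
    intro n
    have hq := (Lv n).frob ℓ hℓ A hA σ hσ
    have h1 := Fermat.Agent.S29.Lucas.add_smul_inv_of_quadratic (π n) σ (a ℓ) (ℓ : 𝒪) hq
    have h2 := congrArg (fun f : Module.End 𝒪 (X n) => f (w n)) h1
    simp only [LinearMap.add_apply, LinearMap.smul_apply, Module.End.one_apply] at h2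
    rw [hdσ]
    exact h2
  · -- (P3), inertia
    intro q hq P hP τ hτ g
    exact hT.apply_mul_of_forall_eq_one hsep htors hann τ
      (fun n => (Lv n).inert q hq P hP τ hτ) (hdIn q hq P hP τ hτ) g
  · -- (P4)
    obtain ⟨c, hc, hcζ⟩ := Fermat.Agent.S30.Conj.exists_conj
    have hdc : d c = -1 := Fermat.Agent.S30.LimGlue.d_eq_neg_one hsep d hd hp c
      (fun n ζ hζ => hcζ ζ (p ^ n) (pow_ne_zero n hp) hζ)
    exact ⟨c, hc, hT.eq_zero_of_involution hsep hann c hc hdc, hdc⟩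
  · -- the special primes
    intro q hq hall
    have hzero : (2 : 𝒪) * cst q ^ 3 = 0 := by
      apply hsep
      intro n
      apply hann n
      obtain ⟨P, hP, hinv⟩ := hLvI n q hq
      have hU : ∀ τ ∈ P.inertiaSubgroupIn ℚ,
          π n τ + π n τ⁻¹ = (2 : 𝒪) • (1 : Module.End 𝒪 (X n)) := by
        intro τ hτ
        have hTn := hT n τ
        have hdτ : d τ = 1 :=
          Fermat.Agent.S30.LimGlue.d_eq_one hsep d hd τ (hcycIQ q hq P hP τ hτ)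
        rw [hdτ, Units.val_one, one_smul, hall P hP τ hτ] at hTn
        exact hTn
      exact smul_eq_zero_of_unipotent (P.inertiaSubgroupIn ℚ) (π n) hU (cst q) hinv (w n)
    rcases mul_eq_zero.mp hzero with h | h
    · exact h2 h
    · exact hcst q hq ((pow_eq_zero_iff (three_ne_zero)).mp h)

end Fermat.Agent.S36.PseudoIB
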