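/-
S36, block [C1] at `q ∣ M` (owner: helper97).

The transfers `tr₁`, `tr₂` of S41 preserve parabolic homomorphisms for ARBITRARY `N` and prime
`q` (no hypothesis `¬ q ∣ N`: generic coset data of S41/Transfer + `ParMem`), and the [C1]
statement of S35/NewPer without `¬ q ∣ M`: both transfers to level `M` of the period class of a
normalized eigenform of level `M * q` whose good eigensystem does not occur at level `M` vanish
(in particular for a newform of level `M' * q ^ 2` and `M = M' * q`).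
-/
import Mathlib
import Fermat.Agent.S41.CohMem
import Fermat.Agent.S35.NewPer

set_option autoImplicit false

noncomputable section

open CongruenceSubgroup Matrix.SpecialLinearGroup ModularCurve ModularCurve.Period
open scoped MatrixGroups

namespace Fermat.Agent.S36.TrPar

open Fermat.Agent.S41

variable {A : Type*} [AddCommGroup A]

/-- `tr₁` preserves parabolic homomorphisms, any `N`, `q`. -/
theorem isParabolicHom_tr₁_gen (N q : ℕ) {ψ : Additive (Gamma0 (N * q)) →+ A}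
    (h : IsParabolicHom (Gamma0 (N * q)) ψ) : IsParabolicHom (Gamma0 N) (tr₁ N q ψ) := by
  intro γ hγ
  unfold tr₁ transferAlong
  split_ifs with hc
  · rw [transferAux_apply]
    let _ : Fintype (RCosets (incl₁ N q)) := @Fintype.ofFinite _ hc.2
    refine ParMem.sum_eq_zero_of_parabolic ψ h
      (fun x => mapGL ℝ ((rcRep (incl₁ N q) x : Gamma0 N) : SL(2, ℤ))) (γ : SL(2, ℤ)) hγ
      (rcPerm (incl₁ N q) γ) (rcPart (incl₁ N q) γ) (fun x => ?_)
    have hs : rcRep (incl₁ N q) x * γ =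
        incl₁ N q (rcPart (incl₁ N q) γ x) * rcRep (incl₁ N q) (rcPerm (incl₁ N q) γ x) := by
      rw [rcPart_spec, rcPerm_apply, inv_mul_cancel_right]
    have hs' := congrArg (fun g : Gamma0 N => mapGL ℝ (g : SL(2, ℤ))) hs
    simp only [Subgroup.coe_mul, map_mul, incl₁_coe] at hs'
    exact hs'
  · rfl

/-- `tr₂` preserves parabolic homomorphisms, any `N`, prime `q`. -/
theorem isParabolicHom_tr₂_gen (N q : ℕ) [Fact q.Prime] {ψ : Additive (Gamma0 (N * q)) →+ A}
    (h : IsParabolicHom (Gamma0 (N * q)) ψ) : IsParabolicHom (Gamma0 N) (tr₂ N q ψ) := by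
  intro γ hγ
  unfold tr₂ transferAlong
  split_ifs with hc
  · rw [transferAux_apply]
    let _ : Fintype (RCosets (incl₂ N q)) := @Fintype.ofFinite _ hc.2
    refine ParMem.sum_eq_zero_of_parabolic ψ h
      (fun x => (deltaGL q)⁻¹ * mapGL ℝ ((rcRep (incl₂ N q) x : Gamma0 N) : SL(2, ℤ)))
      (γ : SL(2, ℤ)) hγ (rcPerm (incl₂ N q) γ) (rcPart (incl₂ N q) γ) (fun x => ?_)
    have hs : rcRep (incl₂ N q) x * γ =
        incl₂ N q (rcPart (incl₂ N q) γ x) * rcRep (incl₂ N q) (rcPerm (incl₂ N q) γ x) := by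
      rw [rcPart_spec, rcPerm_apply, inv_mul_cancel_right]
    have hs' := congrArg (fun g : Gamma0 N => mapGL ℝ (g : SL(2, ℤ))) hs
    simp only [Subgroup.coe_mul, map_mul] at hs'
    have hd := deltaGL_mul N q (rcPart (incl₂ N q) γ x)
    calc (deltaGL q)⁻¹ * mapGL ℝ ((rcRep (incl₂ N q) x : Gamma0 N) : SL(2, ℤ)) *
          mapGL ℝ (γ : SL(2, ℤ))
        = (deltaGL q)⁻¹ * (mapGL ℝ ((rcRep (incl₂ N q) x : Gamma0 N) : SL(2, ℤ)) *
            mapGL ℝ (γ : SL(2, ℤ))) := by rw [mul_assoc]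
      _ = (deltaGL q)⁻¹ *
            (mapGL ℝ ((incl₂ N q (rcPart (incl₂ N q) γ x) : Gamma0 N) : SL(2, ℤ)) *
            mapGL ℝ ((rcRep (incl₂ N q) (rcPerm (incl₂ N q) γ x) : Gamma0 N) : SL(2, ℤ))) := by
          rw [hs']
      _ = (deltaGL q)⁻¹ *
            (mapGL ℝ ((incl₂ N q (rcPart (incl₂ N q) γ x) : Gamma0 N) : SL(2, ℤ)) *
            deltaGL q) * ((deltaGL q)⁻¹ *
            mapGL ℝ ((rcRep (incl₂ N q) (rcPerm (incl₂ N q) γ x) : Gamma0 N) : SL(2, ℤ))) := by
          group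
      _ = mapGL ℝ ((rcPart (incl₂ N q) γ x : Gamma0 (N * q)) : SL(2, ℤ)) *
            ((deltaGL q)⁻¹ *
            mapGL ℝ ((rcRep (incl₂ N q) (rcPerm (incl₂ N q) γ x) : Gamma0 N) : SL(2, ℤ))) := by
          rw [← hd, inv_mul_cancel_left]
  · rfl


open Fermat.Agent.S16 (heckeTHom heckeUHom) in
open Fermat.Agent.S35.NewPer in
/-- **[C1] without `¬ q ∣ M`.**  Both transfers to level `M` of the period class of a normalized
eigenform of level `M * q` whose good eigensystem does not occur at level `M` vanish. -/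
theorem tr_periodHomPair_eq_zero_gen (M q : ℕ) [NeZero M] [Fact q.Prime]
    [NeZero (M * q)] (g : CuspForm (Gamma0 (M * q)) 2) (hg : g.IsNormalizedEigenform)
    (hnew : ¬ g.GoodEigensystemOccursAt M) :
    tr₁ M q (periodHomPair (M * q) (g, 0)) = 0 ∧ tr₂ M q (periodHomPair (M * q) (g, 0)) = 0 := by
  have hΦ : IsParabolicHom (Gamma0 (M * q)) (periodHomPair (M * q) (g, 0)) :=
    mem_parabolicHoms_iff.mp (Fermat.Agent.S41.CohLat.periodHomPair_mem (M * q) g 0)
  have heigΦ : ∀ (ℓ : ℕ) [Fact ℓ.Prime] (hℓ' : ¬ ℓ ∣ M * q),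
      heckeTHom (M * q) ℓ hℓ' (periodHomPair (M * q) (g, 0)) =
        ModularFormClass.qCoeff g ℓ • periodHomPair (M * q) (g, 0) := by
    intro ℓ _ hℓ'
    have hℓ : ℓ.Prime := Fact.out
    rw [← Fermat.Agent.S16.HeckePairB.periodHomPair_heckeTLin hℓ hℓ' g 0,
      Fermat.Agent.S41.FSEigen.heckeTLin_eq_smul g hg hℓ hℓ', map_zero, ← map_smul]
    congr 1
    rw [Prod.smul_mk, smul_zero]
  constructor
  · apply eq_zero_of_eigenclass M q g hnew _
      (mem_parabolicHoms_iff.mpr (isParabolicHom_tr₁_gen M q hΦ))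
    intro ℓ _ hℓ hℓ'
    rw [← Fermat.Agent.S41.tr₁_heckeT M q hℓ hℓ', heigΦ ℓ hℓ', tr₁_smul]
  · apply eq_zero_of_eigenclass M q g hnew _
      (mem_parabolicHoms_iff.mpr (isParabolicHom_tr₂_gen M q hΦ))
    intro ℓ _ hℓ hℓ'
    rw [← Fermat.Agent.S41.tr₂_heckeT M q hℓ hℓ', heigΦ ℓ hℓ', tr₂_smul]

end Fermat.Agent.S36.TrPar
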