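/-
S36, block [C2] for ALL prime factorisations `N = M * q` (owner: helper97).

No hypothesis `¬ q ∣ M`: ONE primitive eigen-coordinate vector of a newform `g` of level `N`
whose tensor lies in the `𝒪`-span of the classes `c ∈ Lpar N` with `tr₁ c = tr₂ c = 0` for
EVERY factorisation `N = M * q`, `q` prime (in particular for `q ^ 2 ∣ N`).  This is
`S35.NewPlan.NewVecStatement` with `IsNewAt` replaced by `IsNewAtAll`; hypothesis-free.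
-/
import Mathlib
import Fermat.Agent.S36.TrPar
import Fermat.Agent.S35.NewVecTop

set_option autoImplicit false

open CongruenceSubgroup ModularCurve ModularCurve.Period
open scoped MatrixGroups TensorProduct

namespace Fermat.Agent.S36.NewVecAll

open Fermat.Agent.S41 (Lpar tr₁ tr₂)
open Fermat.Agent.S29 (heckeLpar)
open Fermat.Agent.S35.NewVecB
open Fermat.Agent.S35.NewPlan (castLevel)
open Fermat.Agent.S35.NewVecTop (coe_castLevel)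
open Fermat.Agent.S36.TrPar

/-- `c ∈ Lpar N` is NEW at every prime: for every factorisation `N = M * q` with `q` prime
(`q ∣ M` allowed), both transfers of `c` to level `M` vanish. -/
def IsNewAtAll (N : ℕ) (c : Lpar N) : Prop :=
  ∀ (M q : ℕ) (h : N = M * q), q.Prime →
    tr₁ M q ((castLevel h c : Lpar (M * q)) : Additive (Gamma0 (M * q)) →+ ℤ) = 0 ∧
    tr₂ M q ((castLevel h c : Lpar (M * q)) : Additive (Gamma0 (M * q)) →+ ℤ) = 0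

theorem IsNewAtAll.tr {M q : ℕ} {c : Lpar (M * q)} (hc : IsNewAtAll (M * q) c) (hq : q.Prime) :
    tr₁ M q (c : Additive (Gamma0 (M * q)) →+ ℤ) = 0 ∧
    tr₂ M q (c : Additive (Gamma0 (M * q)) →+ ℤ) = 0 :=
  hc M q rfl hq

variable (N : ℕ) [NeZero N] (S : Set ℕ)

/-- Coordinates: ONE primitive eigen-coordinate vector for all prime factorisations. -/
theorem exists_newCoord_allPrime (g : CuspForm (Gamma0 N) 2) (hg : g.IsNewform)
    (chig : CuspForm.heckeAlgebra N 2 S →+* ℂ)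
    (hchig : ∀ (ℓ : ℕ) (hℓ : ℓ.Prime) (hℓN : ¬ ℓ ∣ N) (hℓS : ℓ ∉ S),
      chig (CuspForm.heckeAlgebra.T hℓ hℓN hℓS) = ModularFormClass.qCoeff g ℓ)
    {𝒪 : Type*} [CommRing 𝒪] [IsDomain 𝒪] [ValuationRing 𝒪]
    (iota : chig.range →+* 𝒪) {r : ℕ} (b : Module.Basis (Fin r) ℤ (Lpar N)) :
    ∃ x : Fin r → 𝒪, (∃ i, x i = 1) ∧
      (∀ (ℓ : ℕ) (hℓ : ℓ.Prime) (hℓN : ¬ ℓ ∣ N) (hℓS : ℓ ∉ S) (m : Fin r),
        ∑ n, ((b.repr (heckeLpar N ℓ hℓ hℓN (b n)) m : ℤ) : 𝒪) * x n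
          = (iota.comp chig.rangeRestrict) (CuspForm.heckeAlgebra.T hℓ hℓN hℓS) * x m) ∧
      ∀ (M' q : ℕ) (h : N = M' * q), q.Prime →
        (∀ γ : Gamma0 M',
          ∑ n, x n * ((tr₁ M' q (castHom h (b n).1) (Additive.ofMul γ) : ℤ) : 𝒪) = 0) ∧
        ∀ γ : Gamma0 M',
          ∑ n, x n * ((tr₂ M' q (castHom h (b n).1) (Additive.ofMul γ) : ℤ) : 𝒪) = 0 := by
  classical
  let J : Type := Σ p : {p : ℕ × ℕ // N = p.1 * p.2 ∧ p.2.Prime},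
    (Gamma0 p.1.1 ⊕ Gamma0 p.1.1)
  let lam : J → (Additive (Gamma0 N) →+ ℤ) →+ ℤ := fun κ =>
    (trLam κ.1.1.1 κ.1.1.2 κ.2).comp (castHom κ.1.2.1)
  let lamC : J → (Additive (Gamma0 N) →+ ℂ) →ₗ[ℂ] ℂ := fun κ =>
    (trLamC κ.1.1.1 κ.1.1.2 κ.2).comp (castHomC κ.1.2.1)
  have hlam : ∀ κ (u : Additive (Gamma0 N) →+ ℤ),
      lamC κ ((Int.castAddHom ℂ).comp u) = ((lam κ u : ℤ) : ℂ) := by
    intro κ u
    simp only [lam, lamC, LinearMap.comp_apply, AddMonoidHom.comp_apply]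
    rw [castHomC_intCast, trLamC_intCast]
  have hper : ∀ κ, lamC κ (periodHomPair N (g, 0)) = 0 := by
    rintro ⟨⟨⟨M', q⟩, h, hq⟩, κ⟩
    simp only [lamC, LinearMap.comp_apply]
    simp only at h hq κ ⊢
    subst h
    have hM' : M' ≠ 0 := fun h0 => NeZero.ne (M' * q) (by rw [h0, zero_mul])
    have : NeZero M' := ⟨hM'⟩
    have : Fact q.Prime := ⟨hq⟩
    have hne : M' ≠ M' * q := by
      intro h1
      have h2 : M' * 1 = M' * q := by rw [mul_one]; exact h1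
      exact hq.one_lt.ne (Nat.eq_of_mul_eq_mul_left (Nat.pos_of_ne_zero hM') h2)
    have hnew : ¬ g.GoodEigensystemOccursAt M' := hg.2 M' (Dvd.intro q rfl) hne
    rw [castHomC_rfl]
    exact trLamC_eq_zero M' q (tr_periodHomPair_eq_zero_gen M' q g hg.1 hnew) κ
  obtain ⟨x, hx1, hx, hxR⟩ :=
    exists_newCoord N S g hg.1 chig hchig iota lam lamC hlam hper b
  refine ⟨x, hx1, hx, ?_⟩
  intro M' q h hq
  exact ⟨fun γ => hxR ⟨⟨(M', q), h, hq⟩, Sum.inl γ⟩,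
    fun γ => hxR ⟨⟨(M', q), h, hq⟩, Sum.inr γ⟩⟩

/-- **[C] for all prime factorisations, hypothesis-free.** -/
theorem newVecStatementAll :
    ∀ (N : ℕ) [NeZero N] (g : CuspForm (Gamma0 N) 2), g.IsNewform → ∀ (S : Set ℕ)
    (chig : CuspForm.heckeAlgebra N 2 S →+* ℂ),
    (∀ (ℓ : ℕ) (hℓ : ℓ.Prime) (hℓN : ¬ ℓ ∣ N) (hℓS : ℓ ∉ S),
      chig (CuspForm.heckeAlgebra.T hℓ hℓN hℓS) = ModularFormClass.qCoeff g ℓ) →
    ∀ (𝒪 : Type) [CommRing 𝒪] [IsDomain 𝒪] [ValuationRing 𝒪] [CharZero 𝒪]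
      (iota : chig.range →+* 𝒪) {r : ℕ} (b : Module.Basis (Fin r) ℤ (Lpar N)),
    ∃ x : Fin r → 𝒪, (∃ i, x i = 1) ∧
      (∀ (ℓ : ℕ) (hℓ : ℓ.Prime) (hℓN : ¬ ℓ ∣ N) (hℓS : ℓ ∉ S) (m : Fin r),
        ∑ n, ((b.repr (heckeLpar N ℓ hℓ hℓN (b n)) m : ℤ) : 𝒪) * x n
          = (iota.comp chig.rangeRestrict) (CuspForm.heckeAlgebra.T hℓ hℓN hℓS) * x m) ∧
      (∑ n, x n ⊗ₜ[ℤ] b n : 𝒪 ⊗[ℤ] (Lpar N)) ∈
        Submodule.span 𝒪 {z : 𝒪 ⊗[ℤ] (Lpar N) | ∃ c : Lpar N, IsNewAtAll N c ∧ z = 1 ⊗ₜ[ℤ] c} := by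
  intro N _ g hg S chig hchig 𝒪 _ _ _ _ iota r b
  classical
  have hfin : Module.Finite ℤ (Lpar N) := Fermat.Agent.S41.LparFree.lpar_finite N
  have hfree : Module.Free ℤ (Lpar N) := Fermat.Agent.S41.LparFree.lpar_free N
  obtain ⟨x, hx1, hx, hxR⟩ := exists_newCoord_allPrime N S g hg chig hchig iota b
  refine ⟨x, hx1, hx, ?_⟩
  let J : Type := Σ p : {p : ℕ × ℕ // N = p.1 * p.2 ∧ p.2.Prime},
    (Gamma0 p.1.1 ⊕ Gamma0 p.1.1)
  let lamL : J → (Lpar N →+ ℤ) := fun κ =>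
    (trLam κ.1.1.1 κ.1.1.2 κ.2).comp ((castHom κ.1.2.1).comp (Lpar N).subtype.toAddMonoidHom)
  have hxL : ∀ κ : J, ∑ n, x n * ((lamL κ (b n) : ℤ) : 𝒪) = 0 := by
    rintro ⟨⟨⟨M', q⟩, h, hq⟩, (γ | γ)⟩
    · exact (hxR M' q h hq).1 γ
    · exact (hxR M' q h hq).2 γ
  have h1 := sum_tmul_mem_span (fun n => b n) lamL x hxL
  refine Submodule.span_mono ?_ h1
  rintro _ ⟨c, hc, rfl⟩
  refine ⟨c, ?_, rfl⟩
  intro M q h hq
  rw [coe_castLevel]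
  exact (trLam_eq_zero_iff M q (castHom h c.1)).mp
    (fun κ => hc ⟨⟨(M, q), h, hq⟩, κ⟩)

end Fermat.Agent.S36.NewVecAll
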