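import Mathlib

/-!
# Flat base change of invariants (S36, TOP package)

`smul_eq_zero_of_invariant`: let a group `G` act on an abelian group `K`, let `H ≤ G` be a
subgroup and `K' ≤ K` an `H`-stable subgroup of bounded exponent on which every `H`-orbit is
finite.  If an integer `c` kills the `H`-invariants of `K'`, then `c` kills the `H`-invariants
of the `𝒪`-span of `1 ⊗ K'` inside `𝒪 ⊗[ℤ] K`, for every flat `ℤ`-algebra `𝒪`.

The proof reduces to a finitely generated `H`-stable subgroup `K₀ ≤ K'` (finite, since torsion),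
on which `H` acts through finitely many endomorphisms `e_j`; the invariants are the kernel of
`K₀ → ∏_j K₀`, `k ↦ (e_j k - k)_j`, and flatness commutes with that kernel.
-/

namespace Fermat.Agent.S36.TensorInv

open scoped TensorProduct

/-- The component of `piRightHom` after `lTensor` of a map into a product. -/
theorem piRightHom_lTensor_pi {𝒪 K₀ J : Type*} [CommRing 𝒪] [AddCommGroup K₀]
    (f : J → (K₀ →ₗ[ℤ] K₀)) (z : 𝒪 ⊗[ℤ] K₀) (j : J) :
    TensorProduct.piRightHom ℤ ℤ 𝒪 (fun _ : J => K₀)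
        ((LinearMap.pi f).lTensor 𝒪 z) j = (f j).lTensor 𝒪 z := by
  induction z using TensorProduct.induction_on with
  | zero => simp
  | tmul a k => simp
  | add x y hx hy => simp only [map_add, Pi.add_apply, hx, hy]

/-- **Finite family version.**  If `c` kills the common fixed points of finitely many
endomorphisms `e j` of `K₀`, then `c` kills the common fixed points of the `𝟙 ⊗ e j` on
`𝒪 ⊗ K₀` for flat `𝒪`. -/
theorem smul_eq_zero_of_fixed {𝒪 K₀ J : Type*} [CommRing 𝒪] [Module.Flat ℤ 𝒪]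
    [AddCommGroup K₀] [Finite J] (e : J → (K₀ →ₗ[ℤ] K₀)) (c : ℤ)
    (hc : ∀ k : K₀, (∀ j, e j k = k) → c • k = 0)
    (z : 𝒪 ⊗[ℤ] K₀) (hz : ∀ j, (e j).lTensor 𝒪 z = z) : (c : 𝒪) • z = 0 := by
  classical
  have : Fintype J := Fintype.ofFinite J
  set F : K₀ →ₗ[ℤ] (J → K₀) := LinearMap.pi (fun j => e j - LinearMap.id) with hF
  have hFz : F.lTensor 𝒪 z = 0 := by
    apply (TensorProduct.piRight ℤ ℤ 𝒪 (fun _ : J => K₀)).injective
    rw [map_zero, TensorProduct.piRight_apply]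
    funext j
    rw [hF, piRightHom_lTensor_pi, LinearMap.lTensor_sub, LinearMap.sub_apply, hz j]
    simp
  have hex : Function.Exact ((LinearMap.ker F).subtype.lTensor 𝒪) (F.lTensor 𝒪) :=
    Module.Flat.lTensor_exact 𝒪 (LinearMap.exact_subtype_ker_map F)
  have hw : ∀ w : 𝒪 ⊗[ℤ] (LinearMap.ker F), c • w = 0 := by
    intro w
    induction w using TensorProduct.induction_on with
    | zero => simp
    | tmul a h =>
      have hh : c • h = 0 := by
        apply Subtype.ext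
        rw [Submodule.coe_smul, Submodule.coe_zero]
        apply hc
        intro j
        have := congrFun (LinearMap.mem_ker.1 h.2) j
        simpa [hF, sub_eq_zero] using this
      rw [← TensorProduct.tmul_smul, hh, TensorProduct.tmul_zero]
    | add x y hx hy => rw [smul_add, hx, hy, add_zero]
  obtain ⟨w, rfl⟩ := (hex z).1 hFz
  rw [Int.cast_smul_eq_zsmul, ← map_zsmul, hw, map_zero]

/-- Monotonicity of the image of `𝒪 ⊗ K₁ → 𝒪 ⊗ K` in the subgroup `K₁`. -/
theorem range_baseChange_subtype_mono {K 𝒪 : Type*} [AddCommGroup K] [CommRing 𝒪]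
    {K₁ K₂ : Submodule ℤ K} (h : K₁ ≤ K₂) :
    LinearMap.range (K₁.subtype.baseChange 𝒪) ≤ LinearMap.range (K₂.subtype.baseChange 𝒪) := by
  have hcomp : K₁.subtype = K₂.subtype ∘ₗ Submodule.inclusion h := rfl
  rw [hcomp, LinearMap.baseChange_comp]
  exact LinearMap.range_comp_le_range _ _

/-- Every element of the `𝒪`-span of `1 ⊗ K'` comes from `𝒪 ⊗ K₀` for a finitely generated
`H`-stable subgroup `K₀ ≤ K'`, provided `H`-orbits on `K'` are finite. -/
theorem exists_fg_stable {G K 𝒪 : Type*} [Group G] [AddCommGroup K] [CommRing 𝒪]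
    (act : G →* AddMonoid.End K) (H : Subgroup G) (K' : AddSubgroup K)
    (hstab : ∀ τ ∈ H, ∀ k ∈ K', act τ k ∈ K')
    (hfin : ∀ k ∈ K', (Set.range fun τ : H => act (τ : G) k).Finite)
    (z : 𝒪 ⊗[ℤ] K) (hz : z ∈ Submodule.span 𝒪 {y | ∃ k ∈ K', y = (1 : 𝒪) ⊗ₜ[ℤ] k}) :
    ∃ K₀ : Submodule ℤ K, K₀.FG ∧ (∀ k ∈ K₀, k ∈ K') ∧ (∀ τ ∈ H, ∀ k ∈ K₀, act τ k ∈ K₀) ∧
      z ∈ LinearMap.range (K₀.subtype.baseChange 𝒪) := by
  induction hz using Submodule.span_induction with
  | mem y hy =>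
    obtain ⟨k, hk, rfl⟩ := hy
    refine ⟨Submodule.span ℤ (Set.range fun τ : H => act (τ : G) k),
      Submodule.fg_span (hfin k hk), ?_, ?_, ?_⟩
    · intro x hx
      have hle : Submodule.span ℤ (Set.range fun τ : H => act (τ : G) k) ≤
          AddSubgroup.toIntSubmodule K' := by
        rw [Submodule.span_le]
        rintro _ ⟨τ, rfl⟩
        exact hstab τ τ.2 k hk
      exact hle hx
    · intro τ hτ x hx
      induction hx using Submodule.span_induction with
      | mem x hx =>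
        obtain ⟨τ', rfl⟩ := hx
        apply Submodule.subset_span
        exact ⟨⟨τ * τ', H.mul_mem hτ τ'.2⟩, by simp [map_mul]⟩
      | zero => simp
      | add x y _ _ hx hy => rw [map_add]; exact add_mem hx hy
      | smul a x _ hx => rw [map_zsmul]; exact Submodule.smul_mem _ _ hx
    · exact ⟨(1 : 𝒪) ⊗ₜ ⟨k, Submodule.subset_span ⟨1, by simp⟩⟩, by simp⟩
  | zero => exact ⟨⊥, Submodule.fg_bot, by simp [zero_mem], by simp, zero_mem _⟩
  | add x y _ _ hx hy =>
    obtain ⟨K₁, h1, h2, h3, h4⟩ := hx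
    obtain ⟨K₂, g1, g2, g3, g4⟩ := hy
    refine ⟨K₁ ⊔ K₂, h1.sup g1, ?_, ?_, ?_⟩
    · intro k hk
      have hle : K₁ ⊔ K₂ ≤ AddSubgroup.toIntSubmodule K' := sup_le h2 g2
      exact hle hk
    · intro τ hτ k hk
      obtain ⟨k₁, hk₁, k₂, hk₂, rfl⟩ := Submodule.mem_sup.1 hk
      rw [map_add]
      exact Submodule.mem_sup.2 ⟨_, h3 τ hτ k₁ hk₁, _, g3 τ hτ k₂ hk₂, rfl⟩
    · exact add_mem (range_baseChange_subtype_mono le_sup_left h4)
        (range_baseChange_subtype_mono le_sup_right g4)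
  | smul a x _ hx =>
    obtain ⟨K₁, h1, h2, h3, w, rfl⟩ := hx
    exact ⟨K₁, h1, h2, h3, a • w, by simp⟩

/-- **Flat base change of invariants.**  `G` acts on the abelian group `K`; `H ≤ G`;
`K' ≤ K` is `H`-stable, killed by `m ≠ 0`, with finite `H`-orbits.  If the integer `c` kills
every `H`-invariant element of `K'`, then `c` kills every `H`-invariant element of the
`𝒪`-span of `1 ⊗ K'` in `𝒪 ⊗[ℤ] K`, for `𝒪` flat over `ℤ`. -/
theorem smul_eq_zero_of_invariant {G K 𝒪 : Type*} [Group G] [AddCommGroup K] [CommRing 𝒪]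
    [Module.Flat ℤ 𝒪]
    (act : G →* AddMonoid.End K) (H : Subgroup G) (K' : AddSubgroup K)
    (hstab : ∀ τ ∈ H, ∀ k ∈ K', act τ k ∈ K') (m : ℕ) (hm : m ≠ 0)
    (htors : ∀ k ∈ K', m • k = 0)
    (hfin : ∀ k ∈ K', (Set.range fun τ : H => act (τ : G) k).Finite)
    (c : ℤ) (hc : ∀ k ∈ K', (∀ τ ∈ H, act τ k = k) → c • k = 0)
    (z : 𝒪 ⊗[ℤ] K) (hz : z ∈ Submodule.span 𝒪 {y | ∃ k ∈ K', y = (1 : 𝒪) ⊗ₜ[ℤ] k})
    (hinv : ∀ τ ∈ H, LinearMap.baseChange 𝒪 (act τ).toIntLinearMap z = z) :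
    (c : 𝒪) • z = 0 := by
  obtain ⟨K₀, hfg, hle, hst, w, rfl⟩ := exists_fg_stable act H K' hstab hfin z hz
  have hFin : Module.Finite ℤ K₀ := Module.Finite.iff_fg.2 hfg
  have htor : Module.IsTorsion ℤ K₀ := by
    intro x
    refine ⟨⟨(m : ℤ), mem_nonZeroDivisors_of_ne_zero (by exact_mod_cast hm)⟩, ?_⟩
    apply Subtype.ext
    have := htors x.1 (hle x.1 x.2)
    simpa [Submonoid.smul_def] using this
  have hK₀ : Finite K₀ := Module.finite_of_fg_torsion K₀ htor
  have hEnd : Finite (K₀ →ₗ[ℤ] K₀) :=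
    Finite.of_injective (fun e : K₀ →ₗ[ℤ] K₀ => (e : K₀ → K₀)) DFunLike.coe_injective
  let a : H → (K₀ →ₗ[ℤ] K₀) := fun τ =>
    ((act (τ : G)).toIntLinearMap).restrict (hst τ τ.2)
  have hw : (c : 𝒪) • w = 0 := by
    refine smul_eq_zero_of_fixed (J := Set.range a)
      (fun j => (j : K₀ →ₗ[ℤ] K₀)) c ?_ w ?_
    · intro k hk
      apply Subtype.ext
      rw [Submodule.coe_smul, Submodule.coe_zero]
      refine hc k.1 (hle _ k.2) (fun τ hτ => ?_)
      have := hk ⟨a ⟨τ, hτ⟩, ⟨_, rfl⟩⟩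
      exact congrArg Subtype.val this
    · rintro ⟨_, τ, rfl⟩
      apply Module.Flat.lTensor_preserves_injective_linearMap (M := 𝒪) K₀.subtype
        K₀.injective_subtype
      have hcomp : K₀.subtype ∘ₗ a τ = (act (τ : G)).toIntLinearMap ∘ₗ K₀.subtype := rfl
      rw [← LinearMap.lTensor_comp_apply, hcomp, LinearMap.lTensor_comp_apply]
      exact hinv τ τ.2
  rw [← map_smul, hw, map_zero]

/-- `ℕ`-coefficient form of `smul_eq_zero_of_invariant`. -/
theorem smul_eq_zero_of_invariant_nat {G K 𝒪 : Type*} [Group G] [AddCommGroup K] [CommRing 𝒪]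
    [Module.Flat ℤ 𝒪]
    (act : G →* AddMonoid.End K) (H : Subgroup G) (K' : AddSubgroup K)
    (hstab : ∀ τ ∈ H, ∀ k ∈ K', act τ k ∈ K') (m : ℕ) (hm : m ≠ 0)
    (htors : ∀ k ∈ K', m • k = 0)
    (hfin : ∀ k ∈ K', (Set.range fun τ : H => act (τ : G) k).Finite)
    (c : ℕ) (hc : ∀ k ∈ K', (∀ τ ∈ H, act τ k = k) → c • k = 0)
    (z : 𝒪 ⊗[ℤ] K) (hz : z ∈ Submodule.span 𝒪 {y | ∃ k ∈ K', y = (1 : 𝒪) ⊗ₜ[ℤ] k})
    (hinv : ∀ τ ∈ H, LinearMap.baseChange 𝒪 (act τ).toIntLinearMap z = z) :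
    (c : 𝒪) • z = 0 := by
  have h := smul_eq_zero_of_invariant act H K' hstab m hm htors hfin (c : ℤ)
    (fun k hk hinv' => by rw [natCast_zsmul]; exact hc k hk hinv') z hz hinv
  simpa using h

/-- A torsion-free `ℤ`-algebra that is a domain of characteristic zero is flat over `ℤ`;
recorded for call sites that have `[IsDomain 𝒪] [CharZero 𝒪]`. -/
theorem flat_int_of_charZero_domain (𝒪 : Type*) [CommRing 𝒪] [IsDomain 𝒪] [CharZero 𝒪] :
    Module.Flat ℤ 𝒪 := by
  infer_instance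

end Fermat.Agent.S36.TensorInv
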