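/-
S36 route, package [TOP36] — Top36B.lean (helper114).  Independent second copy of the remaining
top of S36, in one file:

* `finite_orbit_of_level`      — finite-level elements have finite Galois orbits;
* `nonempty_levelI_of_vector`  — the `S30` level datum attached to an eigenvector
  `v ∈ 𝒪 ⊗ J₀(N)[pⁿ]` (orbit module of `S30/ModOrbitR`), together with `PseudoIB.InertQ` at every
  special prime `q`, provided that `v` lies in the `𝒪`-span of the pure tensors `1 ⊗ k`, `k` in a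
  Galois-stable subgroup `K` of `J₀(N)` whose `pⁿ`-torsion inertia invariants (for one prime `P`
  of `ℚ̄` above `q`) are killed by an integer constant (flat base change of invariants:
  `S36/TensorInv`);
* `exists_vectorI`             — the vector `v = ∑ x_i ⊗ θ (b_i)` for the new primitive
  eigen-coordinates of `S36/NewVecAll.newVecStatementAll` and a Kummer map `θ`;
* `exists_inertData`           — at a prime `q` with `q² ∥ N`, `q ≠ p`: the subgroup
  `K = ker α_* ∩ ker β_*` (`PushPic.newKer`), Galois-stable, containing `θ c` for every new class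
  `c` and every graph-keeping `θ` ([K-tr] at `q ∣ M`: `S36/KTr36N`), with its inertia invariants
  of `p`-power order killed by the constant of `Plan.InertTorsStatement`;
* `levelIStatement_of_inertTors` — `DetIB.LevelIStatement` for a newform;
* `result_of_inertTors`        — **the frozen statement of S36** from the geometric input
  `∀ M q, q prime, q ∤ M → Plan.InertTorsStatement M q` (architect's (P1)).
-/
import Mathlib
import Fermat.Agent.S29.Defs
import Fermat.Agent.S29.ESGH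
import Fermat.Agent.S29.SpecCoreS37
import Fermat.Agent.S29.FD
import Fermat.Agent.S30.LimLevel
import Fermat.Agent.S30.ModOrbitR
import Fermat.Agent.S30.Defs
import Fermat.Agent.S30.EigLevel
import Fermat.Agent.S30.LevelGlue
import Fermat.Agent.S30.OddRepB
import Fermat.Agent.S35.NewPlan
import Fermat.Agent.S35.KGraph
import Fermat.Agent.S35.PushPic
import Fermat.Agent.S35.PushZero
import Fermat.Agent.S36.TensorInv
import Fermat.Agent.S36.NewVecAll
import Fermat.Agent.S36.KTr36N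
import Fermat.Agent.S36.Plan
import Fermat.Agent.S36.PseudoIB
import Fermat.Agent.S36.DetIB

set_option autoImplicit false

noncomputable section

open ModularCurve AlgebraicCurve CongruenceSubgroup
open scoped TensorProduct

namespace Fermat.Agent.S36.Top36B

open Fermat.Agent.S29 (Qb GQ Jp galJp heckeJp mem_Jp_iff heckeLpar)
open Fermat.Agent.S30
open Fermat.Agent.S41 (Lpar tr₁ tr₂)
open Fermat.Agent.S35

/-! ### Finite orbits -/

/-- An element of finite level has a finite orbit under every subgroup of `G_ℚ`. -/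
theorem finite_orbit_of_level {M : Type} [AddCommGroup M] (act : GQ →* AddMonoid.End M) (m : M)
    (hFL : ∃ L : IntermediateField ℚ (AlgebraicClosure ℚ), FiniteDimensional ℚ L ∧
      ∀ σ : GQ, (∀ z ∈ L, σ z = z) → act σ m = m)
    (H : Subgroup GQ) : (Set.range fun τ : H => act (τ : GQ) m).Finite := by
  classical
  obtain ⟨L, hL, h⟩ := hFL
  let res : GQ → (L →ₐ[ℚ] AlgebraicClosure ℚ) := fun σ => (σ : AlgebraicClosure ℚ →ₐ[ℚ]
    AlgebraicClosure ℚ).comp L.val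
  have hfac : ∀ σ τ : GQ, res σ = res τ → act σ m = act τ m := by
    intro σ τ hστ
    have hfix : ∀ z ∈ L, (τ⁻¹ * σ) z = z := by
      intro z hz
      have h1 : σ z = τ z := DFunLike.congr_fun hστ ⟨z, hz⟩
      rw [AlgEquiv.mul_apply, h1]
      exact τ.symm_apply_apply z
    have h2 := h (τ⁻¹ * σ) hfix
    have h3 : act σ m = act τ (act (τ⁻¹ * σ) m) := by
      have e : act σ = act τ * act (τ⁻¹ * σ) := by rw [← map_mul, mul_inv_cancel_left]
      rw [e]
      rfl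
    rw [h3, h2]
  have hsub : (Set.range fun τ : H => act (τ : GQ) m) ⊆
      Set.range fun q : Set.range res => act (Classical.choose q.2) m := by
    rintro _ ⟨σ, rfl⟩
    refine ⟨⟨res σ, (σ : GQ), rfl⟩, ?_⟩
    exact hfac _ _ (Classical.choose_spec (⟨(σ : GQ), rfl⟩ : ∃ τ, res τ = res σ))
  exact (Set.finite_range _).subset hsub

/-! ### The level with `InertQ` from a vector -/

/-- **[B36]**: the level-`n` datum from an eigenvector `v ∈ 𝒪 ⊗ J₀(N)[pⁿ]`, with `InertQ`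
(constant `cst q`) at every prime `q` such that `v` is an `𝒪`-combination of pure tensors
`1 ⊗ k`, `k` in a Galois-stable subgroup `K` of `J₀(N)` whose `pⁿ`-torsion invariants under the
inertia group of ONE prime `P` of `ℚ̄` above `q` are killed by `cst q`. -/
theorem nonempty_levelI_of_vector (N p : ℕ) [NeZero N] (hp : p.Prime) (S : Set ℕ) (hpS : p ∈ S)
    {𝒪 : Type} [CommRing 𝒪] [Module.Flat ℤ 𝒪] (χ : CuspForm.heckeAlgebra N 2 S →+* 𝒪) (n : ℕ)
    (v : 𝒪 ⊗[ℤ] (Jp N (p ^ n)))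
    (hann : ∀ a : 𝒪, a • v = 0 → (p : 𝒪) ^ n ∣ a)
    (hv : ∀ (ℓ : ℕ) (hℓ : ℓ.Prime) (hℓN : ¬ ℓ ∣ N) (hℓS : ℓ ∉ S),
      (heckeJp N (p ^ n) ⟨ℓ, hℓ⟩).baseChange 𝒪 v = χ (CuspForm.heckeAlgebra.T hℓ hℓN hℓS) • v)
    (spec : ℕ → Prop) (cst : ℕ → ℕ)
    (hspec : ∀ q : ℕ, spec q → ∃ P : ValuationSubring Qb, P.LiesOverPrime q ∧
      ∃ K : AddSubgroup (JZero N), (∀ (σ : GQ) (k : JZero N), k ∈ K → σ • k ∈ K) ∧
        v ∈ Submodule.span 𝒪 {z : 𝒪 ⊗[ℤ] (Jp N (p ^ n)) | ∃ k : Jp N (p ^ n),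
          (k : JZero N) ∈ K ∧ z = (1 : 𝒪) ⊗ₜ[ℤ] k} ∧
        ∀ k : JZero N, k ∈ K → p ^ n • k = 0 →
          (∀ τ ∈ P.inertiaSubgroupIn ℚ, τ • k = k) → cst q • k = 0) :
    ∃ Lv : LimLevel.Level 𝒪 p n (LimLevel.goodPrime N S) (LimLevel.heckeEig N S χ)
      (LimLevel.unrPrime N p), ∀ q : ℕ, spec q →
        Fermat.Agent.S36.PseudoIB.InertQ Lv q ((cst q : ℕ) : 𝒪) := by
  classical
  have hIn := Fermat.Agent.S29.inertiaStatement_of_specCore N (p ^ n)
    (Fermat.Agent.S29.specCoreStatement N (p ^ n))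
  have hES := Fermat.Agent.S29.esStatement_of_specCore N (p ^ n)
    (Fermat.Agent.S29.specCoreStatement N (p ^ n))
  have hGH := Fermat.Agent.S29.ghStatement N (p ^ n)
  have hpn : p ^ n ≠ 0 := pow_ne_zero n hp.ne_zero
  have hFL := Fermat.Agent.S29.flStatement N (p ^ n) hpn
  -- the action by additive maps
  let act : GQ →* AddMonoid.End (Jp N (p ^ n)) :=
    { toFun := fun σ => (galJp N (p ^ n) σ).toAddMonoidHom
      map_one' := by rw [map_one]; rfl
      map_mul' := fun σ τ => by rw [map_mul]; rfl }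
  have hact : ∀ (σ : GQ) (m : Jp N (p ^ n)),
      ((act σ m : Jp N (p ^ n)) : JZero N) = σ • (m : JZero N) := fun _ _ => rfl
  have hm : ∀ m : Jp N (p ^ n), p ^ n • (m : JZero N) = 0 :=
    fun m => (mem_Jp_iff N (p ^ n) _).mp m.2
  have hFL' : ∀ m : Jp N (p ^ n), ∃ L : IntermediateField ℚ (AlgebraicClosure ℚ),
      FiniteDimensional ℚ L ∧ ∀ σ : GQ, (∀ z ∈ L, σ z = z) → act σ m = m := by
    intro m
    obtain ⟨L, hL, hfix⟩ := hFL (m : JZero N) (hm m)
    exact ⟨L, hL, fun σ hσ => Subtype.ext (hfix σ hσ)⟩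
  -- index set: the good primes
  let I : Type := {ℓ : ℕ // LimLevel.goodPrime N S ℓ}
  have hIp : ∀ i : I, i.1 ≠ p := fun i h => i.2.2.2 (h ▸ hpS)
  have hIdvd : ∀ i : I, ¬ i.1 ∣ N * p ^ n := fun i =>
    LevelGlue.not_dvd_mul_pow hp i.2.1 i.2.2.1 (hIp i) n
  let TM : I → (Jp N (p ^ n) →+ Jp N (p ^ n)) :=
    fun i => (heckeJp N (p ^ n) ⟨i.1, i.2.1⟩).toAddMonoidHom
  have hTM : ∀ (i : I) (m : Jp N (p ^ n)),
      ((TM i m : Jp N (p ^ n)) : JZero N) = heckeOperatorBar N ⟨i.1, i.2.1⟩ (m : JZero N) :=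
    fun _ _ => rfl
  obtain ⟨V, i1, i2, -, r, w, ι, hι, hιw, hιr, hspan, hfin, htriv, hquad⟩ :=
    ModOrbitR.exists_orbit_module act hFL' TM
      (fun i : I => χ (CuspForm.heckeAlgebra.T i.2.1 i.2.2.1 i.2.2.2))
      (fun i σ m => Subtype.ext (by
        rw [hact, hTM, hTM, hact]
        exact (hGH i.1 i.2.1 (hIdvd i) σ (m : JZero N) (hm m)).symm))
      v
      (fun i => by
        have e : (TM i).toIntLinearMap = heckeJp N (p ^ n) ⟨i.1, i.2.1⟩ :=
          LinearMap.ext fun _ => rfl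
        rw [e]
        exact hv i.1 i.2.1 i.2.2.1 i.2.2.2)
  have hkill : ∀ m : Jp N (p ^ n), ((p : ℤ) ^ n) • m = 0 := fun m => Subtype.ext (by
    have h1 := hm m
    rw [Submodule.coe_smul, ZeroMemClass.coe_zero]
    rw [← h1]
    norm_cast)
  have htors : ∀ x : V, (p : 𝒪) ^ n • x = 0 := by
    intro x
    apply hι
    rw [map_smul, map_zero]
    have h := ModOrbitR.intCast_smul_eq_zero 𝒪 ((p : ℤ) ^ n) hkill (ι x)
    rw [← h]
    norm_cast
  have hannw : ∀ c : 𝒪, c • w = 0 → (p : 𝒪) ^ n ∣ c := by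
    intro c hc
    apply hann c
    rw [← hιw, ← map_smul, hc, map_zero]
  have hfrob : ∀ ℓ : ℕ, LimLevel.goodPrime N S ℓ → ∀ A : ValuationSubring Qb,
      A.LiesOverPrime ℓ → ∀ σ : GQ, A.IsFrobeniusAt σ ℓ →
      r σ * r σ - LimLevel.heckeEig N S χ ℓ • r σ + (ℓ : 𝒪) • (1 : Module.End 𝒪 V) = 0 := by
    intro ℓ hℓg A hA σ hσ
    let i : I := ⟨ℓ, hℓg⟩
    have h := hquad σ i (ℓ : ℤ) (fun m => Subtype.ext (by
      have h1 := hES ℓ hℓg.1 (hIdvd i) A hA σ hσ (m : JZero N) (hm m)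
      rw [Submodule.coe_add, Submodule.coe_sub, Submodule.coe_smul, hact, hact, hTM, hact,
        natCast_zsmul]
      exact h1))
    rw [Int.cast_natCast] at h
    rw [LimLevel.heckeEig_eq N S χ hℓg.1 hℓg.2.1 hℓg.2.2]
    exact h
  have hinert : ∀ q : ℕ, LimLevel.unrPrime N p q → ∀ P : ValuationSubring Qb,
      P.LiesOverPrime q → ∀ τ ∈ P.inertiaSubgroupIn ℚ, r τ = 1 := by
    intro q hq P hP τ hτ
    refine htriv τ (fun m => Subtype.ext ?_)
    rw [hact]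
    exact hIn q hq.1 (LevelGlue.not_dvd_mul_pow hp hq.1 hq.2.1 hq.2.2 n) P hP τ hτ
      (m : JZero N) (hm m)
  -- the invariants
  have hinvQ : ∀ q : ℕ, spec q → ∃ P : ValuationSubring Qb, P.LiesOverPrime q ∧
      ∀ x : V, (∀ τ ∈ P.inertiaSubgroupIn ℚ, r τ x = x) → ((cst q : ℕ) : 𝒪) • x = 0 := by
    -- `InertQ`
    intro q hq
    obtain ⟨P, hP, K, hKstab, hvK, hKinv⟩ := hspec q hq
    refine ⟨P, hP, fun x hx => hι ?_⟩
    rw [map_smul, map_zero]
    -- the subgroup `K' = K ∩ J[pⁿ]` of `J[pⁿ]`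
    let K' : AddSubgroup (Jp N (p ^ n)) :=
      K.comap (Jp N (p ^ n)).subtype.toAddMonoidHom
    have hK' : ∀ k : Jp N (p ^ n), k ∈ K' ↔ (k : JZero N) ∈ K := fun k => Iff.rfl
    have hstab : ∀ σ : GQ, ∀ k ∈ K', act σ k ∈ K' := by
      intro σ k hk
      rw [hK', hact]
      exact hKstab σ _ ((hK' k).mp hk)
    -- the span of `1 ⊗ K'`, stable under the action
    set W : Submodule 𝒪 (𝒪 ⊗[ℤ] (Jp N (p ^ n))) :=
      Submodule.span 𝒪 {y : 𝒪 ⊗[ℤ] (Jp N (p ^ n)) | ∃ k ∈ K', y = (1 : 𝒪) ⊗ₜ[ℤ] k} with hW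
    have hvW : v ∈ W := by
      refine Submodule.span_mono ?_ hvK
      rintro _ ⟨k, hk, rfl⟩
      exact ⟨k, (hK' k).mpr hk, rfl⟩
    have hWstab : ∀ σ : GQ, ∀ y ∈ W,
        LinearMap.baseChange 𝒪 (act σ).toIntLinearMap y ∈ W := by
      intro σ y hy
      induction hy using Submodule.span_induction with
      | mem y hy =>
        obtain ⟨k, hk, rfl⟩ := hy
        rw [LinearMap.baseChange_tmul]
        exact Submodule.subset_span ⟨act σ k, hstab σ k hk, rfl⟩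
      | zero => rw [map_zero]; exact W.zero_mem
      | add y z _ _ hy hz => rw [map_add]; exact W.add_mem hy hz
      | smul a y _ hy => rw [map_smul]; exact W.smul_mem a hy
    have hιW : ∀ x : V, ι x ∈ W := by
      intro x
      have hx : x ∈ Submodule.span 𝒪 (Set.range fun σ : GQ => r σ w) := by
        rw [hspan]; trivial
      induction hx using Submodule.span_induction with
      | mem y hy =>
        obtain ⟨σ, rfl⟩ := hy
        rw [hιr, hιw]
        exact hWstab σ v hvW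
      | zero => rw [map_zero]; exact W.zero_mem
      | add y z _ _ hy hz => rw [map_add]; exact W.add_mem hy hz
      | smul a y _ hy => rw [map_smul]; exact W.smul_mem a hy
    refine Fermat.Agent.S36.TensorInv.smul_eq_zero_of_invariant_nat act
      (P.inertiaSubgroupIn ℚ) K' (fun τ _ k hk => hstab τ k hk) (p ^ n) hpn ?_ ?_ (cst q) ?_
      (ι x) (hιW x) ?_
    · intro k _
      apply Subtype.ext
      rw [AddSubmonoidClass.coe_nsmul, ZeroMemClass.coe_zero]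
      exact hm k
    · intro k _
      exact finite_orbit_of_level act k (hFL' k) (P.inertiaSubgroupIn ℚ)
    · intro k hk hkinv
      apply Subtype.ext
      rw [AddSubmonoidClass.coe_nsmul, ZeroMemClass.coe_zero]
      refine hKinv (k : JZero N) ((hK' k).mp hk) (hm k) ?_
      intro τ hτ
      rw [← hact, hkinv τ hτ]
    · intro τ hτ
      rw [← hιr, hx τ hτ]
  exact ⟨{ V := V, r := r, w := w, tors := htors, ann := hannw, level := hfin, frob := hfrob,
            inert := hinert }, hinvQ⟩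

/-! ### The new eigenvector at level `pⁿ` -/

/-- **The new eigenvector at level `pⁿ`**: `v = ∑ x_i ⊗ θ (b_i)` for the new primitive
eigen-coordinates `x` of `NewVecAll.newVecStatementAll`; it lies in the `𝒪`-span of the pure
tensors `1 ⊗ θ c` with `c` new at every prime. -/
theorem exists_vectorI (N p : ℕ) [NeZero N]
    {g : CuspForm (Gamma0 N) 2} (hg : g.IsNewform) (S : Set ℕ) (hpS : p ∈ S)
    (chig : CuspForm.heckeAlgebra N 2 S →+* ℂ)
    (hchig : ∀ (ℓ : ℕ) (hℓ : ℓ.Prime) (hℓN : ¬ ℓ ∣ N) (hℓS : ℓ ∉ S),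
      chig (CuspForm.heckeAlgebra.T hℓ hℓN hℓS) = ModularFormClass.qCoeff g ℓ)
    (𝒪 : Type) [CommRing 𝒪] [IsDomain 𝒪] [ValuationRing 𝒪] [CharZero 𝒪]
    (iota : chig.range →+* 𝒪) (n : ℕ)
    (θ : Lpar N →+ JZero N) (hθ1 : ∀ u : Lpar N, p ^ n • θ u = 0)
    (hθ2 : ∀ u : Lpar N, θ u = 0 → ∃ z : Lpar N, u = ((p ^ n : ℕ) : ℤ) • z)
    (hθ3 : ∀ (ℓ : ℕ) (hℓ : ℓ.Prime) (hℓN : ¬ ℓ ∣ N), ℓ ≠ p → ∀ u : Lpar N,
      θ (heckeLpar N ℓ hℓ hℓN u) = heckeOperatorBar N ⟨ℓ, hℓ⟩ (θ u)) :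
    ∃ v : 𝒪 ⊗[ℤ] (Jp N (p ^ n)), (∀ a : 𝒪, a • v = 0 → (p : 𝒪) ^ n ∣ a) ∧
      (∀ (ℓ : ℕ) (hℓ : ℓ.Prime) (hℓN : ¬ ℓ ∣ N) (hℓS : ℓ ∉ S),
        (heckeJp N (p ^ n) ⟨ℓ, hℓ⟩).baseChange 𝒪 v
          = (iota.comp chig.rangeRestrict) (CuspForm.heckeAlgebra.T hℓ hℓN hℓS) • v) ∧
      v ∈ Submodule.span 𝒪 {z : 𝒪 ⊗[ℤ] (Jp N (p ^ n)) | ∃ (c : Lpar N) (k : Jp N (p ^ n)),
        Fermat.Agent.S36.NewVecAll.IsNewAtAll N c ∧ (k : JZero N) = θ c ∧
          z = (1 : 𝒪) ⊗ₜ[ℤ] k} := by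
  classical
  have hfin : Module.Finite ℤ (Lpar N) := Fermat.Agent.S41.LparFree.lpar_finite N
  have hfree : Module.Free ℤ (Lpar N) := Fermat.Agent.S41.LparFree.lpar_free N
  set b := Module.finBasis ℤ (Lpar N) with hb
  obtain ⟨x, hx1, hx, hxnew⟩ :=
    Fermat.Agent.S36.NewVecAll.newVecStatementAll N g hg S chig hchig 𝒪 iota b
  -- corestriction of `θ` to the `pⁿ`-torsion
  let θ' : Lpar N →+ Jp N (p ^ n) :=
    { toFun := fun u => ⟨θ u, (mem_Jp_iff N (p ^ n) (θ u)).mpr (hθ1 u)⟩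
      map_zero' := Subtype.ext (map_zero θ)
      map_add' := fun u v => Subtype.ext (map_add θ u v) }
  have hker : ∀ u, θ'.toIntLinearMap u = 0 → ∃ z, u = ((p ^ n : ℕ) : ℤ) • z := by
    intro u hu
    apply hθ2 u
    have h : ((θ' u : Jp N (p ^ n)) : JZero N) = 0 := congrArg Subtype.val hu
    exact h
  have hheck : ∀ (ℓ : ℕ) (hℓ : ℓ.Prime) (hℓN : ¬ ℓ ∣ N), ℓ ≠ p → ∀ u,
      heckeJp N (p ^ n) ⟨ℓ, hℓ⟩ (θ' u) = θ' (heckeLpar N ℓ hℓ hℓN u) := by
    intro ℓ hℓ hℓN hℓp u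
    apply Subtype.ext
    change heckeOperatorBar N ⟨ℓ, hℓ⟩ (θ u) = θ (heckeLpar N ℓ hℓ hℓN u)
    exact (hθ3 ℓ hℓ hℓN hℓp u).symm
  refine ⟨∑ i, x i ⊗ₜ[ℤ] θ' (b i), ?_, ?_, ?_⟩
  · intro a ha
    have h := EigLevel.dvd_of_smul_sum_tmul_eq_zero b θ'.toIntLinearMap (p ^ n) hker x hx1 a ha
    rwa [Nat.cast_pow] at h
  · intro ℓ hℓ hℓN hℓS
    have hℓp : ℓ ≠ p := fun h => hℓS (h ▸ hpS)
    rw [map_sum]
    simp_rw [LinearMap.baseChange_tmul, hheck ℓ hℓ hℓN hℓp]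
    exact EigLevel.sum_tmul_map_eq_smul b (heckeLpar N ℓ hℓ hℓN)
      θ'.toIntLinearMap x _ (fun k => hx ℓ hℓ hℓN hℓS k)
  · have hmap : (∑ i, x i ⊗ₜ[ℤ] θ' (b i) : 𝒪 ⊗[ℤ] (Jp N (p ^ n)))
        = LinearMap.baseChange 𝒪 θ'.toIntLinearMap (∑ i, x i ⊗ₜ[ℤ] b i) := by
      rw [map_sum]
      refine Finset.sum_congr rfl fun i _ => ?_
      rw [LinearMap.baseChange_tmul]
      rfl
    rw [hmap]
    have h1 := Submodule.mem_map_of_mem (f := LinearMap.baseChange 𝒪 θ'.toIntLinearMap) hxnew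
    rw [Submodule.map_span] at h1
    refine Submodule.span_mono ?_ h1
    rintro _ ⟨_, ⟨c, hc, rfl⟩, rfl⟩
    refine ⟨c, θ' c, hc, rfl, ?_⟩
    rw [LinearMap.baseChange_tmul]
    rfl

/-! ### The data at a prime `q` with `q² ∥ N` -/

/-- A level with `N.factorization q = 2` is `M * q * q` with `q ∤ M`. -/
theorem exists_eq_mul_of_factorization {N q : ℕ} (hN : N ≠ 0) (hq : q.Prime)
    (h2 : N.factorization q = 2) : ∃ M : ℕ, N = M * q * q ∧ ¬ q ∣ M := by
  have hdvd : q ^ 2 ∣ N := (hq.pow_dvd_iff_le_factorization hN).mpr (le_of_eq h2.symm)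
  obtain ⟨M, hM⟩ := hdvd
  refine ⟨M, by rw [hM]; ring, ?_⟩
  rintro ⟨d, hd⟩
  have h3 : q ^ 3 ∣ N := ⟨d, by rw [hM, hd]; ring⟩
  have := (hq.pow_dvd_iff_le_factorization hN).mp h3
  omega

/-- **The data at a doubly special prime.**  For `q` prime, `q ≠ p`, `q² ∥ N`: a constant
`c ≠ 0` (not depending on the torsion order) and a Galois-stable subgroup `K` of `J₀(N)`
containing `θ c'` for every class `c'` new at all primes and every graph-keeping comparison `θ`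
of `p`-power torsion order, such that every `p`-power torsion element of `K` fixed by the inertia
group of a prime of `ℚ̄` above `q` is killed by `c`. -/
theorem exists_inertData
    (hI : ∀ (M q : ℕ) [NeZero M] [NeZero q], q.Prime → ¬ q ∣ M →
      Fermat.Agent.S36.Plan.InertTorsStatement M q)
    (N : ℕ) [NeZero N] (p q : ℕ) (hp : p.Prime)
    (hq : Fermat.Agent.S36.DetIB.spec2Prime N p q) :
    ∃ c : ℕ, c ≠ 0 ∧ ∃ K : AddSubgroup (JZero N),
      (∀ (σ : GQ) (k : JZero N), k ∈ K → σ • k ∈ K) ∧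
      (∀ (n : ℕ) (θ : Lpar N →+ JZero N),
        (∀ (u : Lpar N) (y : LaurentSeries Qb),
          Fermat.Agent.S29.KPlan.Wit N (p ^ n) (u : Additive (Gamma0 N) →+ ℤ) y →
          ∀ f : ↥(modularFunctionFieldBar N), (f : LaurentSeries Qb) = y ^ (p ^ n) →
            ∃ D : Divisor.degZero (K := Qb) (F := ↥(modularFunctionFieldBar N)),
              (∀ P : Place Qb ↥(modularFunctionFieldBar N),
                ((p ^ n : ℕ) : ℤ) * (D : Divisor Qb ↥(modularFunctionFieldBar N)) P = P.ord f) ∧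
              θ u = Pic0.mk D) →
        ∀ c' : Lpar N, Fermat.Agent.S36.NewVecAll.IsNewAtAll N c' → θ c' ∈ K) ∧
      (∀ (n : ℕ) (P : ValuationSubring Qb), P.LiesOverPrime q → ∀ k : JZero N, k ∈ K →
        p ^ n • k = 0 → (∀ τ ∈ P.inertiaSubgroupIn ℚ, τ • k = k) → c • k = 0) := by
  obtain ⟨hqp, hqne, hq2⟩ := hq
  obtain ⟨M, hM, hqM⟩ := exists_eq_mul_of_factorization (NeZero.ne N) hqp hq2
  subst hM
  have hM0 : M ≠ 0 := fun h0 => NeZero.ne (M * q * q) (by rw [h0, zero_mul, zero_mul])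
  have : NeZero M := ⟨hM0⟩
  have : NeZero q := ⟨hqp.ne_zero⟩
  have : NeZero (M * q) := ⟨mul_ne_zero hM0 hqp.ne_zero⟩
  obtain ⟨c, hc0, hc⟩ := hI M q hqp hqM
  refine ⟨c, hc0, PushPic.newKer (M * q) q,
    fun σ k hk => PushPic.galois_smul_mem_newKer (M * q) q σ hk, ?_, ?_⟩
  · intro n θ hθ4 c' hc'
    have hpn : p ^ n ≠ 0 := pow_ne_zero n hp.ne_zero
    have hK : NewPlan.KTrStatement (M * q) q (p ^ n) :=
      Fermat.Agent.S36.KTr36N.kTr36N (M * q) q (p ^ n) hqp (dvd_mul_left q M) hpn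
    obtain ⟨h1, h2⟩ := hc'.tr hqp
    obtain ⟨y, f, hy, hf, hf0⟩ := KGraph.exists_wit (M * q * q) (p ^ n) hpn c'
    obtain ⟨D, hD, hθ⟩ := hθ4 c' y hy f hf
    obtain ⟨ha, hb⟩ := hK c' y hy f hf
    rw [hθ]
    exact PushZero.mem_newKer_of_norms (M * q) q hpn D f hf0 hD (ha h1) (hb h2)
  · intro n P hP k hk hkt hkinv
    refine hc (p ^ n) (pow_ne_zero n hp.ne_zero) ?_ P hP k hkt hk hkinv
    intro hdvd
    exact hqne ((Nat.prime_dvd_prime_iff_eq hqp hp).mp (hqp.dvd_of_dvd_pow hdvd))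

/-! ### The final glue -/

/-- **`DetIB.LevelIStatement` for a newform**, from the geometric input
`Plan.InertTorsStatement` at every level `M * q * q`, `q ∤ M`. -/
theorem levelIStatement_of_inertTors
    (hI : ∀ (M q : ℕ) [NeZero M] [NeZero q], q.Prime → ¬ q ∣ M →
      Fermat.Agent.S36.Plan.InertTorsStatement M q)
    {N : ℕ} [NeZero N] {g : CuspForm (Gamma0 N) 2} (hg : g.IsNewform)
    (p : ℕ) (hp : p.Prime) (S : Finset ℕ) (hpS : p ∈ S)
    (𝒪 : Type) [CommRing 𝒪] [IsDomain 𝒪] [ValuationRing 𝒪] [CharZero 𝒪]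
    (chig : CuspForm.heckeAlgebra N 2 (↑S : Set ℕ) →+* ℂ)
    (hchig : ∀ (ℓ : ℕ) (hℓ : ℓ.Prime) (hℓN : ¬ ℓ ∣ N) (hℓS : ℓ ∉ (↑S : Set ℕ)),
      chig (CuspForm.heckeAlgebra.T hℓ hℓN hℓS) = ModularFormClass.qCoeff g ℓ)
    (iota : chig.range →+* 𝒪) :
    Fermat.Agent.S36.DetIB.LevelIStatement p N S 𝒪 (iota.comp chig.rangeRestrict) := by
  classical
  have : Module.Flat ℤ 𝒪 := Fermat.Agent.S36.TensorInv.flat_int_of_charZero_domain 𝒪
  choose c hc0 K hKstab hKθ hKinv using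
    fun (q : ℕ) (hq : Fermat.Agent.S36.DetIB.spec2Prime N p q) => exists_inertData hI N p q hp hq
  -- the constants
  let cstN : ℕ → ℕ := fun q =>
    if h : Fermat.Agent.S36.DetIB.spec2Prime N p q then c q h else 1
  have hcstN : ∀ (q : ℕ) (h : Fermat.Agent.S36.DetIB.spec2Prime N p q), cstN q = c q h :=
    fun q h => dif_pos h
  refine ⟨fun q => ((cstN q : ℕ) : 𝒪), fun q hq => ?_, fun n => ?_⟩
  · show ((cstN q : ℕ) : 𝒪) ≠ 0
    rw [hcstN q hq]
    exact Nat.cast_ne_zero.mpr (hc0 q hq)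
  have hpn : p ^ n ≠ 0 := pow_ne_zero n hp.ne_zero
  obtain ⟨θ, h1, h2, h3, h4⟩ := KGraph.kGraphStatement N (p ^ n) hpn
  have h3' : ∀ (ℓ : ℕ) (hℓ : ℓ.Prime) (hℓN : ¬ ℓ ∣ N), ℓ ≠ p → ∀ u : Lpar N,
      θ (heckeLpar N ℓ hℓ hℓN u) = heckeOperatorBar N ⟨ℓ, hℓ⟩ (θ u) := by
    intro ℓ hℓ hℓN hℓp u
    refine h3 ℓ hℓ hℓN ?_ u
    intro h
    rcases Nat.lt_trichotomy n 1 with hn | hn | hn
    · have hn0 : n = 0 := by omega
      rw [hn0, pow_zero] at h
      exact hℓ.one_lt.ne' h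
    · rw [hn, pow_one] at h
      exact hℓp h
    · rw [h] at hℓ
      exact Nat.Prime.not_prime_pow (by omega) hℓ
  obtain ⟨v, hann, hv, hspan⟩ := exists_vectorI N p hg (↑S : Set ℕ)
    (Finset.mem_coe.mpr hpS) chig hchig 𝒪 iota n θ h1 h2 h3'
  refine nonempty_levelI_of_vector N p hp (↑S : Set ℕ) (Finset.mem_coe.mpr hpS)
    (iota.comp chig.rangeRestrict) n v hann hv (Fermat.Agent.S36.DetIB.spec2Prime N p) cstN ?_
  intro q hq
  obtain ⟨P, hP⟩ := Fermat.Agent.S36.PseudoIB.exists_liesOverPrime hq.1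
  refine ⟨P, hP, K q hq, hKstab q hq, ?_, ?_⟩
  · refine Submodule.span_mono ?_ hspan
    rintro _ ⟨c', k, hc', hk, rfl⟩
    refine ⟨k, ?_, rfl⟩
    rw [hk]
    exact hKθ q hq n θ h4 c' hc'
  · intro k hk hkt hkinv
    rw [hcstN q hq]
    exact hKinv q hq n P hP k hk hkt hkinv

open Polynomial in
/-- **The frozen statement of S36** from the geometric input (P1) of the architect's plan:
`Plan.InertTorsStatement M q` for every prime `q` and every `M` prime to `q` (level `M * q * q`).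
The hypotheses `hlam2`, `hres` of the frozen statement are not needed. -/
theorem result_of_inertTors
    (hI : ∀ (M q : ℕ) [NeZero M] [NeZero q], q.Prime → ¬ q ∣ M →
      Fermat.Agent.S36.Plan.InertTorsStatement M q)
    {M : ℕ} [NeZero M] {g : CuspForm (CongruenceSubgroup.Gamma0 M) 2} (hg : g.IsNewform)
    (lam : ℕ) [Fact lam.Prime]
    (S : Finset ℕ)
    (O' : Type) [CommRing O'] [IsDomain O'] [IsDiscreteValuationRing O']
    [IsAdicComplete (IsLocalRing.maximalIdeal O') O'] [Finite (IsLocalRing.ResidueField O')]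
    [CharZero O'] (hlamO' : (lam : O') ∈ IsLocalRing.maximalIdeal O')
    (chig : CuspForm.heckeAlgebra M 2 (↑S : Set ℕ) →+* ℂ)
    (hchig : ∀ (ℓ : ℕ) (hℓ : ℓ.Prime) (hℓM : ¬ ℓ ∣ M) (hℓS : ℓ ∉ (↑S : Set ℕ)),
      chig (CuspForm.heckeAlgebra.T hℓ hℓM hℓS) = ModularFormClass.qCoeff g ℓ)
    (iota : chig.range →+* O')
    (hlamS : lam ∈ S) (hMS : ∀ q : ℕ, q.Prime → q ∣ M → q ∈ S) :
    ∃ (O'' : Type) (_ : CommRing O'') (_ : IsDomain O'') (_ : IsDiscreteValuationRing O'')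
      (_ : IsAdicComplete (IsLocalRing.maximalIdeal O'') O'')
      (_ : Finite (IsLocalRing.ResidueField O''))
      (_ : CharZero O'') (_ : Algebra O' O'') (_ : Module.Finite O' O'')
      (_ : IsLocalHom (algebraMap O' O'')),
      Function.Injective (algebraMap O' O'') ∧
      ∃ ρ : GaloisRepAdic O'',
        (∀ (ℓ : ℕ) (hℓ : ℓ.Prime) (hℓM : ¬ ℓ ∣ M) (hℓS : ℓ ∉ (↑S : Set ℕ)),
          ∀ A : ValuationSubring (AlgebraicClosure ℚ), A.LiesOverPrime ℓ →
            ∀ σ : AlgebraicClosure ℚ ≃ₐ[ℚ] AlgebraicClosure ℚ, A.IsFrobeniusAt σ ℓ →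
              LinearMap.charpoly (ρ.ρ σ) =
                X ^ 2 - C (algebraMap O' O'' ((iota.comp chig.rangeRestrict)
                  (CuspForm.heckeAlgebra.T hℓ hℓM hℓS))) * X + C ((ℓ : O''))) ∧
        (∀ q : ℕ, q.Prime → q ≠ lam → M.factorization q = 2 →
          ¬ ρ.IsUnipotentOnInertiaAt q) :=
  Fermat.Agent.S36.DetIB.result_of_levelI Fermat.Agent.S30.OddRepB.oddRepStatement
    Fermat.Agent.S29.FD.fdStatement lam S O' hlamO' (iota.comp chig.rangeRestrict) hlamS hMS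
    (levelIStatement_of_inertTors hI hg lam Fact.out S hlamS O' chig hchig iota)

end Fermat.Agent.S36.Top36B
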