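/-
S36 — [AL2] dictionary (input of [B1-eta] E8, helper17 #3028) — ALQx2.lean (helper23).

The `q²`-twin of `S35/ALQx.lean` for helper79's Atkin–Lehner involution `WQ2.wBar2` of
`F̄_{M q q}` (`q` prime, `q ∤ M`): with `γ₀ = !![a, b; M, q²] ∈ SL(2, ℤ)` and the analytic transform
`AW γ₀ (q²) w A = z ↦ (A ∣[w] γ₀) (q² z)` of `S35/ALQx`,

* `jAt_point2`, `jAtFam_swap2` : `j (swap2 (e) · z) = j (e · γ₀ (q² z))` for every `e ∣ M q q`,
                                  for the GIVEN matrix `γ₀`;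
* `AW2_mem_niceSub`            : `A ∈ MFchi (M q q) w χ`, `χ` trivial on the elements of trace `2`
                                  ⇒ `AW γ₀ (q²) w A` is `1`-periodic, holomorphic, bounded at `i∞`;
* `wBar2_aeval`                : `wBar2` on polynomials in the generators;
* `alqx2`                      : **the dictionary** — if `g ∈ F̄_{M q q}` and
                                  `coeffMap embC g · qx B = qx A`, then
                                  `coeffMap embC (wBar2 g) · qx (AW B) = qx (AW A)`;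
* `alqx2_of_mem`               : the same for `A ∈ MFchi`, `B ∈ MF` (niceness discharged);
* `alqx2_fun`                  : weight-`0` form: `coeffMap embC g = qx h` ⇒
                                  `coeffMap embC (wBar2 g) = qx (z ↦ h (γ₀ (q² z)))`;
* `alqx2_pow`                  : witness form (`y · qx B = qx A`, `coeffMap embC f = y ^ m`).
-/
import Mathlib
import Fermat.Agent.S35.ALQx
import Fermat.Agent.S35.TrQx
import Fermat.Agent.S36.WQ2

set_option autoImplicit false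

noncomputable section

namespace Fermat.Agent.S36.ALQx2

open UpperHalfPlane ModularCurve CongruenceSubgroup
open Fermat.Agent.S24 Fermat.Agent.S23 Fermat.Agent.S29 Fermat.Agent.S35
open Fermat.Agent.S35.ALQx
open scoped MatrixGroups ModularForm Manifold

local notation "Qb" => AlgebraicClosure ℚ

set_option synthInstance.maxHeartbeats 400000

/-! ### The point map `z ↦ γ₀ (q² z)` -/

section Point

variable (M q : ℕ) [NeZero M] [NeZero q]

/-- For `d ∣ M` and `γ₀ = !![a, b; M, q²]`: `j (d · γ₀ (q² z)) = j (d q² z)`,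
`j (d q² · γ₀ (q² z)) = j (d z)` and `j (d q · γ₀ (q² z)) = j (d q z)`. -/
theorem jAt_point2 (γ₀ : SL(2, ℤ)) (a b : ℤ)
    (h₀ : (γ₀ : Matrix (Fin 2) (Fin 2) ℤ) = !![a, b; (M : ℤ), ((q ^ 2 : ℕ) : ℤ)])
    (d : ℕ) [NeZero d] [NeZero (d * q)] [NeZero (d * q ^ 2)] (hd : d ∣ M) (z : ℍ) :
    jAt d (γ₀ • mulN (q ^ 2) z) = jAt (d * q ^ 2) z ∧
      jAt (d * q ^ 2) (γ₀ • mulN (q ^ 2) z) = jAt d z ∧
      jAt (d * q) (γ₀ • mulN (q ^ 2) z) = jAt (d * q) z := by
  have h12 := ALQx.jAt_point M (q ^ 2) γ₀ a b h₀ d hd z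
  refine ⟨h12.1, h12.2, ?_⟩
  obtain ⟨c, hc⟩ := hd
  have hdet : a * ((q ^ 2 : ℕ) : ℤ) - b * (M : ℤ) = 1 := by
    have h := γ₀.2
    rw [h₀, Matrix.det_fin_two_of] at h
    exact h
  have hdet2 : Matrix.det !![a * (q : ℤ), (d : ℤ) * b; (c : ℤ), (q : ℤ)] = 1 := by
    rw [Matrix.det_fin_two_of]
    rw [hc] at hdet
    push_cast at hdet
    linarith
  let γ₂ : SL(2, ℤ) := ⟨!![a * (q : ℤ), (d : ℤ) * b; (c : ℤ), (q : ℤ)], hdet2⟩
  have hMc : (M : ℤ) = (d : ℤ) * (c : ℤ) := by rw [hc]; push_cast; ring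
  rw [jAt_apply, WQ2.mulN_dq_smul M q d γ₀ γ₂ a b c h₀ rfl hMc z, LevelOne.jFun_smul, ← jAt_apply]

/-- The swap `swap2` of the analytic generators of level `M q q` is realised by
`z ↦ γ₀ (q² z)`, for every matrix `γ₀ = !![a, b; M, q²]`. -/
theorem jAtFam_swap2 (hq : q.Prime) (hqM : ¬ q ∣ M) (γ₀ : SL(2, ℤ)) (a b : ℤ)
    (h₀ : (γ₀ : Matrix (Fin 2) (Fin 2) ℤ) = !![a, b; (M : ℤ), ((q ^ 2 : ℕ) : ℤ)])
    (e : ↥(M * q * q).divisors) (z : ℍ) :
    jAtFam (M * q * q) (WQ2.swap2 M q hq e) z =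
      jAtFam (M * q * q) e (γ₀ • mulN (q ^ 2) z) := by
  have hsq : ∀ d : ↥M.divisors, (d : ℕ) * q * q = (d : ℕ) * q ^ 2 := fun d => by ring
  rcases WQ2.exists_div012 M q hq e with ⟨d, rfl⟩ | ⟨d, rfl⟩ | ⟨d, rfl⟩
  · rw [WQ2.swap2_div0 M q hq hqM]
    show jAt ((d : ℕ) * q * q) z = jAt (d : ℕ) (γ₀ • mulN (q ^ 2) z)
    rw [S37.W.jAt_congr (hsq d)]
    exact ((jAt_point2 M q γ₀ a b h₀ (d : ℕ) (Nat.dvd_of_mem_divisors d.2) z).1).symm
  · rw [WQ2.swap2_div1 M q hq hqM]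
    show jAt ((d : ℕ) * q) z = jAt ((d : ℕ) * q) (γ₀ • mulN (q ^ 2) z)
    exact ((jAt_point2 M q γ₀ a b h₀ (d : ℕ) (Nat.dvd_of_mem_divisors d.2) z).2.2).symm
  · rw [WQ2.swap2_div2]
    show jAt (d : ℕ) z = jAt ((d : ℕ) * q * q) (γ₀ • mulN (q ^ 2) z)
    rw [S37.W.jAt_congr (hsq d)]
    exact ((jAt_point2 M q γ₀ a b h₀ (d : ℕ) (Nat.dvd_of_mem_divisors d.2) z).2.1).symm

end Point

/-! ### Niceness of the transform -/

section Nice

variable (M q : ℕ) [NeZero M] [NeZero q]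

omit [NeZero M] in
/-- **Niceness.** For a form `A` of level `M q q` whose multiplier kills the elements of trace
`2`, and `γ₀` with lower left entry `M`, `AW γ₀ (q²) w A` is `1`-periodic, holomorphic and bounded
at `i∞`. -/
theorem AW2_mem_niceSub (γ₀ : SL(2, ℤ)) (h10 : γ₀ 1 0 = (M : ℤ))
    {w : ℤ} {χ : ↥(Gamma0 (M * q * q)) →* ℂˣ}
    (hχ : ∀ γ : ↥(Gamma0 (M * q * q)),
      ((γ : SL(2, ℤ)) : Matrix (Fin 2) (Fin 2) ℤ).trace = 2 → χ γ = 1)
    {A : ℍ → ℂ} (hA : A ∈ K.MFchi (M * q * q) w χ) : AW γ₀ (q ^ 2) w A ∈ S23.niceSub := by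
  have h := TrQx.aw_mem_niceSub_of_mem_MFchi (q ^ 2) hA hχ γ₀ (by
    rw [h10]
    exact ⟨(M : ℤ), by push_cast; ring⟩)
  exact h

omit [NeZero M] in
/-- Niceness of the transform of a form with trivial multiplier. -/
theorem AW2_mem_niceSub_of_mem_MF [NeZero (M * q * q)] (γ₀ : SL(2, ℤ)) (h10 : γ₀ 1 0 = (M : ℤ))
    {w : ℤ} {B : ℍ → ℂ} (hB : B ∈ S20.MF (M * q * q) w) : AW γ₀ (q ^ 2) w B ∈ S23.niceSub :=
  AW2_mem_niceSub M q γ₀ h10 (χ := 1) (fun _ _ => rfl) (K.mem_MFchi_one_iff.mpr hB)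

end Nice

/-! ### Formal side: `wBar2` on polynomials in the generators -/

section Formal

variable (M q : ℕ) [NeZero M] [NeZero q] (hq : q.Prime) (hqM : ¬ q ∣ M)

/-- `wBar2` on a polynomial in the generators. -/
theorem wBar2_aeval (P : MvPolynomial ↥(M * q * q).divisors Qb) :
    WQ2.wBar2 M q hq hqM (MvPolynomial.aeval (genFam (M * q * q)) P) =
      MvPolynomial.aeval (genFam (M * q * q)) (MvPolynomial.rename (WQ2.swap2 M q hq) P) := by
  rw [MvPolynomial.aeval_rename]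
  have h := MvPolynomial.comp_aeval (R := Qb) (f := genFam (M * q * q))
    (φ := (WQ2.wBar2 M q hq hqM :
      modularFunctionFieldBar (M * q * q) →ₐ[Qb] modularFunctionFieldBar (M * q * q)))
  have h2 := congrArg (fun g => g P) h
  simp only [AlgHom.comp_apply] at h2
  refine Eq.trans h2 ?_
  congr 2
  funext e
  exact WQ2.wBar2_genFam M q hq hqM e

end Formal

/-! ### The dictionary -/

section Dictionary

variable (M q : ℕ) [NeZero M] [NeZero q] (hq : q.Prime) (hqM : ¬ q ∣ M)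

/-- **[AL2], the dictionary.**  Let `γ₀ = !![a, b; M, q²]`.  If `g ∈ F̄_{M q q}` and
`coeffMap embC g · qx B = qx A` for nice functions `A`, `B` whose transforms are nice, then
`coeffMap embC (wBar2 g) · qx (AW B) = qx (AW A)`: the analytic substitution `z ↦ γ₀ (q² z)`
(with the automorphy factor of weight `w`) corresponds to the formal involution `w_{q²}`. -/
theorem alqx2 (γ₀ : SL(2, ℤ)) (a b : ℤ)
    (h₀ : (γ₀ : Matrix (Fin 2) (Fin 2) ℤ) = !![a, b; (M : ℤ), ((q ^ 2 : ℕ) : ℤ)]) (w : ℤ)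
    {A B : ℍ → ℂ} (hA : A ∈ S23.niceSub) (hB : B ∈ S23.niceSub)
    (hAW : AW γ₀ (q ^ 2) w A ∈ S23.niceSub) (hBW : AW γ₀ (q ^ 2) w B ∈ S23.niceSub)
    (g : modularFunctionFieldBar (M * q * q))
    (h : coeffMap embC (g : LaurentSeries Qb) * K.qx B = K.qx A) :
    coeffMap embC ((WQ2.wBar2 M q hq hqM g : modularFunctionFieldBar (M * q * q)) :
      LaurentSeries Qb) * K.qx (AW γ₀ (q ^ 2) w B) = K.qx (AW γ₀ (q ^ 2) w A) := by
  obtain ⟨r, s, hs, hg⟩ := IsFractionRing.div_surjective (A := ↥(RN (M * q * q))) g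
  obtain ⟨P, rfl⟩ := polyToRN_surjective (M * q * q) r
  obtain ⟨R, rfl⟩ := polyToRN_surjective (M * q * q) s
  have hg' : g = MvPolynomial.aeval (genFam (M * q * q)) P /
      MvPolynomial.aeval (genFam (M * q * q)) R := hg.symm
  have hR0 : MvPolynomial.aeval (genFam (M * q * q)) R ≠ 0 := by
    intro h0
    have h1 : polyToRN (M * q * q) R = 0 := Subtype.ext h0
    rw [h1] at hs
    exact zero_notMem_nonZeroDivisors hs
  have hinj : ∀ x : modularFunctionFieldBar (M * q * q), x ≠ 0 →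
      coeffMap embC (x : LaurentSeries Qb) ≠ 0 := by
    intro x hx h0
    apply hx
    apply Subtype.ext
    exact AnBridge.coeffMap_embC_injective (by
      rw [h0]
      exact (map_zero (coeffMap embC)).symm)
  have hxR : MvPolynomial.aeval (AnBridge.GN (M * q * q)) (MvPolynomial.map embC R) ≠ 0 := by
    rw [← coeffMap_coe_aeval]
    exact hinj _ hR0
  have hgC : coeffMap embC (g : LaurentSeries Qb) =
      MvPolynomial.aeval (AnBridge.GN (M * q * q)) (MvPolynomial.map embC P) /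
        MvPolynomial.aeval (AnBridge.GN (M * q * q)) (MvPolynomial.map embC R) := by
    rw [hg', IntermediateField.coe_div, map_div₀, coeffMap_coe_aeval, coeffMap_coe_aeval]
  have h1 : MvPolynomial.aeval (AnBridge.GN (M * q * q)) (MvPolynomial.map embC P) * K.qx B =
      MvPolynomial.aeval (AnBridge.GN (M * q * q)) (MvPolynomial.map embC R) * K.qx A := by
    rw [hgC, div_mul_eq_mul_div, div_eq_iff hxR] at h
    rw [h]
    ring
  have hpt := pointwise_of_series (M * q * q) _ _ hA hB h1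
  -- the substitution
  have e : ∀ (Q : MvPolynomial ↥(M * q * q).divisors Qb) (z : ℍ),
      (MvPolynomial.aeval (jAtFam (M * q * q))
        (MvPolynomial.map embC (MvPolynomial.rename (WQ2.swap2 M q hq) Q))) z =
      (MvPolynomial.aeval (jAtFam (M * q * q)) (MvPolynomial.map embC Q))
        (γ₀ • mulN (q ^ 2) z) := by
    intro Q z
    have hfam : ((fun i : ↥(M * q * q).divisors => jAtFam (M * q * q) i z) ∘
        WQ2.swap2 M q hq) =
        fun i : ↥(M * q * q).divisors => jAtFam (M * q * q) i (γ₀ • mulN (q ^ 2) z) := by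
      funext e
      exact jAtFam_swap2 M q hq hqM γ₀ a b h₀ e z
    rw [MvPolynomial.map_rename, aeval_fun_applyC, MvPolynomial.aeval_rename, aeval_fun_applyC,
      hfam]
  have hpt' : ∀ z : ℍ,
      (MvPolynomial.aeval (jAtFam (M * q * q))
        (MvPolynomial.map embC (MvPolynomial.rename (WQ2.swap2 M q hq) P))) z *
          AW γ₀ (q ^ 2) w B z =
      (MvPolynomial.aeval (jAtFam (M * q * q))
        (MvPolynomial.map embC (MvPolynomial.rename (WQ2.swap2 M q hq) R))) z *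
          AW γ₀ (q ^ 2) w A z := by
    intro z
    rw [e P z, e R z, AW_apply, AW_apply]
    linear_combination (denom γ₀ (mulN (q ^ 2) z) ^ (-w)) * hpt (γ₀ • mulN (q ^ 2) z)
  have h2 := series_of_pointwise (M * q * q) _ _ hAW hBW hpt'
  have hwg : WQ2.wBar2 M q hq hqM g =
      MvPolynomial.aeval (genFam (M * q * q)) (MvPolynomial.rename (WQ2.swap2 M q hq) P) /
        MvPolynomial.aeval (genFam (M * q * q)) (MvPolynomial.rename (WQ2.swap2 M q hq) R) := by
    rw [hg', map_div₀, wBar2_aeval, wBar2_aeval]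
  have hR0' : MvPolynomial.aeval (genFam (M * q * q))
      (MvPolynomial.rename (WQ2.swap2 M q hq) R) ≠ 0 := by
    rw [← wBar2_aeval M q hq hqM]
    exact (map_ne_zero _).mpr hR0
  have hxR' : MvPolynomial.aeval (AnBridge.GN (M * q * q))
      (MvPolynomial.map embC (MvPolynomial.rename (WQ2.swap2 M q hq) R)) ≠ 0 := by
    rw [← coeffMap_coe_aeval]
    exact hinj _ hR0'
  rw [hwg, IntermediateField.coe_div, map_div₀, coeffMap_coe_aeval, coeffMap_coe_aeval,
    div_mul_eq_mul_div, div_eq_iff hxR', h2]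
  ring

/-- **[AL2] for forms**: `A` of level `M q q`, weight `w`, with a multiplier trivial on the
elements of trace `2`, `B` with trivial multiplier — all niceness hypotheses are discharged. -/
theorem alqx2_of_mem [NeZero (M * q * q)] (γ₀ : SL(2, ℤ)) (a b : ℤ)
    (h₀ : (γ₀ : Matrix (Fin 2) (Fin 2) ℤ) = !![a, b; (M : ℤ), ((q ^ 2 : ℕ) : ℤ)])
    {w : ℤ} {χ : ↥(Gamma0 (M * q * q)) →* ℂˣ}
    (hχ : ∀ γ : ↥(Gamma0 (M * q * q)),
      ((γ : SL(2, ℤ)) : Matrix (Fin 2) (Fin 2) ℤ).trace = 2 → χ γ = 1)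
    {A B : ℍ → ℂ} (hA : A ∈ K.MFchi (M * q * q) w χ) (hB : B ∈ S20.MF (M * q * q) w)
    (g : modularFunctionFieldBar (M * q * q))
    (h : coeffMap embC (g : LaurentSeries Qb) * K.qx B = K.qx A) :
    AW γ₀ (q ^ 2) w A ∈ S23.niceSub ∧ AW γ₀ (q ^ 2) w B ∈ S23.niceSub ∧
    coeffMap embC ((WQ2.wBar2 M q hq hqM g : modularFunctionFieldBar (M * q * q)) :
      LaurentSeries Qb) * K.qx (AW γ₀ (q ^ 2) w B) = K.qx (AW γ₀ (q ^ 2) w A) := by
  have h10 : γ₀ 1 0 = (M : ℤ) := by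
    have := congrFun (congrFun h₀ 1) 0
    simpa using this
  have hT : χ (K.TG (M * q * q)) = 1 :=
    hχ _ (by simp [K.TG, ModularGroup.T, Matrix.trace_fin_two])
  have hAn : A ∈ S23.niceSub := K.mem_niceSub_of_mem_MFchi hT hA
  have hBn : B ∈ S23.niceSub := K.mem_niceSub_of_mem_MF hB
  have hAWn : AW γ₀ (q ^ 2) w A ∈ S23.niceSub := AW2_mem_niceSub M q γ₀ h10 hχ hA
  have hBWn : AW γ₀ (q ^ 2) w B ∈ S23.niceSub := AW2_mem_niceSub_of_mem_MF M q γ₀ h10 hB
  exact ⟨hAWn, hBWn, alqx2 M q hq hqM γ₀ a b h₀ w hAn hBn hAWn hBWn g h⟩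

/-- **[AL2], weight `0` form**: if `h` is a nice function with `coeffMap embC g = qx h` and
`z ↦ h (γ₀ (q² z))` is nice, then `coeffMap embC (wBar2 g) = qx (z ↦ h (γ₀ (q² z)))`. -/
theorem alqx2_fun (γ₀ : SL(2, ℤ)) (a b : ℤ)
    (h₀ : (γ₀ : Matrix (Fin 2) (Fin 2) ℤ) = !![a, b; (M : ℤ), ((q ^ 2 : ℕ) : ℤ)])
    {h : ℍ → ℂ} (hh : h ∈ S23.niceSub)
    (hh' : (fun z : ℍ => h (γ₀ • mulN (q ^ 2) z)) ∈ S23.niceSub)
    (g : modularFunctionFieldBar (M * q * q))
    (hg : coeffMap embC (g : LaurentSeries Qb) = K.qx h) :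
    coeffMap embC ((WQ2.wBar2 M q hq hqM g : modularFunctionFieldBar (M * q * q)) :
      LaurentSeries Qb) = K.qx (fun z : ℍ => h (γ₀ • mulN (q ^ 2) z)) := by
  have e1 : AW γ₀ (q ^ 2) 0 (1 : ℍ → ℂ) = 1 := by
    funext z
    rw [AW_apply]
    simp
  have e2 : AW γ₀ (q ^ 2) 0 h = fun z : ℍ => h (γ₀ • mulN (q ^ 2) z) := by
    funext z
    rw [AW_apply]
    simp
  have h1 : (1 : ℍ → ℂ) ∈ S23.niceSub := S23.niceSub.one_mem
  have key := alqx2 M q hq hqM γ₀ a b h₀ 0 hh h1 (by rw [e2]; exact hh') (by rw [e1]; exact h1) g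
    (by rw [K.qx_one, mul_one]; exact hg)
  rw [e1, e2, K.qx_one, mul_one] at key
  exact key

/-- **[AL2], witness form.**  `A` a form of level `M q q`, weight `w`, with a multiplier trivial
on the elements of trace `2`, `B` a form with trivial multiplier, `y · qx B = qx A`, and
`f ∈ F̄_{M q q}` with `coeffMap embC f = y ^ m`.  Then
`coeffMap embC (wBar2 f) · qx (AW B) ^ m = qx (AW A) ^ m`. -/
theorem alqx2_pow [NeZero (M * q * q)] (γ₀ : SL(2, ℤ)) (a b : ℤ)
    (h₀ : (γ₀ : Matrix (Fin 2) (Fin 2) ℤ) = !![a, b; (M : ℤ), ((q ^ 2 : ℕ) : ℤ)])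
    {w : ℤ} {χ : ↥(Gamma0 (M * q * q)) →* ℂˣ}
    (hχ : ∀ γ : ↥(Gamma0 (M * q * q)),
      ((γ : SL(2, ℤ)) : Matrix (Fin 2) (Fin 2) ℤ).trace = 2 → χ γ = 1)
    {A B : ℍ → ℂ} (hA : A ∈ K.MFchi (M * q * q) w χ) (hB : B ∈ S20.MF (M * q * q) w)
    (m : ℕ) (y : LaurentSeries ℂ) (hy : y * K.qx B = K.qx A)
    (f : modularFunctionFieldBar (M * q * q))
    (hf : coeffMap embC (f : LaurentSeries Qb) = y ^ m) :
    coeffMap embC ((WQ2.wBar2 M q hq hqM f : modularFunctionFieldBar (M * q * q)) :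
      LaurentSeries Qb) * K.qx (AW γ₀ (q ^ 2) w B) ^ m = K.qx (AW γ₀ (q ^ 2) w A) ^ m := by
  have h10 : γ₀ 1 0 = (M : ℤ) := by
    have := congrFun (congrFun h₀ 1) 0
    simpa using this
  have hT : χ (K.TG (M * q * q)) = 1 :=
    hχ _ (by simp [K.TG, ModularGroup.T, Matrix.trace_fin_two])
  have hAn : A ∈ S23.niceSub := K.mem_niceSub_of_mem_MFchi hT hA
  have hBn : B ∈ S23.niceSub := K.mem_niceSub_of_mem_MF hB
  have hAWn : AW γ₀ (q ^ 2) w A ∈ S23.niceSub := AW2_mem_niceSub M q γ₀ h10 hχ hA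
  have hBWn : AW γ₀ (q ^ 2) w B ∈ S23.niceSub := AW2_mem_niceSub_of_mem_MF M q γ₀ h10 hB
  have h1 : coeffMap embC (f : LaurentSeries Qb) * K.qx (B ^ m) = K.qx (A ^ m) := by
    rw [hf, K.qx_pow hBn, K.qx_pow hAn, ← mul_pow, hy]
  have h2 := alqx2 M q hq hqM γ₀ a b h₀ (w * m) (S23.niceSub.pow_mem hAn m)
    (S23.niceSub.pow_mem hBn m)
    (by rw [AW_pow]; exact S23.niceSub.pow_mem hAWn m)
    (by rw [AW_pow]; exact S23.niceSub.pow_mem hBWn m) f h1
  rw [AW_pow, AW_pow, K.qx_pow hBWn, K.qx_pow hAWn] at h2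
  exact h2

end Dictionary

end Fermat.Agent.S36.ALQx2
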