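import Mathlib
import Fermat.Agent.S36.Model3Plan
import Fermat.Agent.S36.ApproxN
import Fermat.Agent.S36.CorrAbs

/-!
# S36, package [MODEL3], abstract target [Approx3] (core)

Weak approximation + Hensel for a separating family of rank-one valuation subrings `V i` of a
field `E` (helper43's `ApproxN.Sep`): if `m` is invertible in every `V i` and `x` is an `m`-th
power modulo `1 + ϖ i (V i)` for every `i` (`ϖ i` a nonunit of `V i`), then for any nonzero common
nonunit `p` there is ONE `h ≠ 0` with `x * h ^ m ≡ 1` modulo `p (V i)` for every `i`.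

NOTE.  `Model3Plan.ApproxStatement` is false as typed when `p = 0` (`ValHyp3.ram` is satisfied
by `u = 0`); the corrected statement `ApproxStatement'` below carries the hypothesis `p ≠ 0`.
It is proved in `approxStatement'_of_sep` from a separating family for the three valuation rings.
-/

set_option autoImplicit false

namespace Fermat.Agent.S36.Approx3

open Fermat.Agent.S36 Fermat.Agent.S36.Model3Plan

variable {E : Type*} [Field E]

/-- the sum of two nonunits is a nonunit -/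
theorem nonunit_add (V : ValuationSubring E) {a b : E} (ha : a ∈ V.nonunits)
    (hb : b ∈ V.nonunits) : a + b ∈ V.nonunits := by
  rw [V.mem_nonunits_iff] at ha hb ⊢
  exact Valuation.map_add_lt _ ha hb

/-- an element of `V` whose inverse is not in `V` is a nonunit -/
theorem nonunit_of_inv_notMem (V : ValuationSubring E) {a : E} (ha : a ∈ V) (ha' : a⁻¹ ∉ V) :
    a ∈ V.nonunits := by
  rw [V.mem_nonunits_iff]
  have h1 : V.valuation a ≤ 1 := (V.valuation_le_one_iff a).2 ha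
  rcases lt_or_eq_of_le h1 with h | h
  · exact h
  · exfalso
    apply ha'
    rw [← V.valuation_le_one_iff, map_inv₀, h, inv_one]

/-- `1 ∉ nonunits` -/
theorem one_notMem_nonunits (V : ValuationSubring E) : (1 : E) ∉ V.nonunits := by
  rw [V.mem_nonunits_iff, map_one]
  exact lt_irrefl _

/-- **Core of [Approx3]** for an arbitrary finite separating family. -/
theorem approx_of_sep {ι : Type*} [Fintype ι] [DecidableEq ι] [Nonempty ι]
    {V : ι → ValuationSubring E} {s : ι → E} (hS : ApproxN.Sep V s)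
    (p : E) (hp : p ≠ 0) (hpV : ∀ i, p ∈ (V i).nonunits)
    (ϖ : ι → E) (hϖ : ∀ i, ϖ i ∈ (V i).nonunits)
    (m : ℕ) (hm : ∀ i, ∃ u ∈ V i, (m : E) * u = 1) (x : E)
    (hx : ∀ i, ∃ h : E, h ≠ 0 ∧ ∃ y ∈ V i, x * h ^ m - 1 = ϖ i * y) :
    ∃ h : E, h ≠ 0 ∧ ∀ i, ∃ y ∈ V i, x * h ^ m - 1 = p * y := by
  classical
  choose h hh0 y hyV hxy using hx
  -- `m` is invertible in every `V i`
  have hm' : ∀ i, (m : E) ≠ 0 ∧ ((m : E))⁻¹ ∈ V i := by
    intro i
    obtain ⟨u, hu, hmu⟩ := hm i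
    have hm0 : (m : E) ≠ 0 := by
      intro h0
      rw [h0, zero_mul] at hmu
      exact zero_ne_one hmu
    refine ⟨hm0, ?_⟩
    rw [inv_eq_of_mul_eq_one_right hmu]
    exact hu
  have hm0 : m ≠ 0 := by
    rintro rfl
    exact (hm' (Classical.arbitrary ι)).1 Nat.cast_zero
  -- exponents `N j` with `s j ^ N j * (h j)⁻¹ ∈ V j`
  have hex : ∀ j, ∃ N : ℕ, s j ^ N * (h j)⁻¹ ∈ V j := fun j =>
    hS.arch j (s j) (hS.nonunit j) (hS.ne_zero j) (h j)⁻¹
  choose Nf hNf using hex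
  -- the precision `ϖ' = ∏ s j ^ (N j + 1)`
  set ϖ' : E := ∏ j, s j ^ (Nf j + 1) with hϖ'
  have hϖ'0 : ϖ' ≠ 0 := Finset.prod_ne_zero_iff.2 fun j _ => pow_ne_zero _ (hS.ne_zero j)
  -- `ϖ' / h i` is a nonunit of `V i`
  have hdiv : ∀ i, ϖ' * (h i)⁻¹ ∈ (V i).nonunits := by
    intro i
    have h1 : ϖ' = s i ^ (Nf i + 1) * ∏ j ∈ Finset.univ.erase i, s j ^ (Nf j + 1) := by
      rw [hϖ', Finset.mul_prod_erase Finset.univ (fun j => s j ^ (Nf j + 1)) (Finset.mem_univ i)]
    have h2 : (∏ j ∈ Finset.univ.erase i, s j ^ (Nf j + 1)) ∈ V i :=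
      (V i).toSubring.prod_mem fun j _ => pow_mem (hS.mem j i) _
    have h3 : ϖ' * (h i)⁻¹ = s i * ((s i ^ Nf i * (h i)⁻¹) *
        ∏ j ∈ Finset.univ.erase i, s j ^ (Nf j + 1)) := by
      rw [h1, pow_succ]
      ring
    rw [h3]
    exact ApproxN.nonunit_mul_mem (V i) (hS.nonunit i) (mul_mem (hNf i) h2)
  -- weak approximation: `H₀ ≡ h i` to precision `ϖ'`
  obtain ⟨H₀, hH₀⟩ := ApproxN.exists_approx hS ϖ' hϖ'0 h
  choose z hzV hz using hH₀
  -- `H₀ = h i * (1 + t i)` with `t i` a nonunit of `V i`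
  set t : ι → E := fun i => ϖ' * (h i)⁻¹ * z i with ht
  have htV : ∀ i, t i ∈ (V i).nonunits := fun i =>
    ApproxN.nonunit_mul_mem (V i) (hdiv i) (hzV i)
  have hH₀eq : ∀ i, H₀ = h i * (1 + t i) := by
    intro i
    have h1 : H₀ = h i + ϖ' * z i := by linear_combination hz i
    rw [h1, ht]
    field_simp [hh0 i]
  have hunit : ∀ i, (1 : E) + t i ≠ 0 ∧ 1 + t i ∈ V i ∧ (1 + t i)⁻¹ ∈ V i := fun i =>
    ApproxN.unit_add_nonunit (V i) one_ne_zero (one_mem _) (by rw [inv_one]; exact one_mem _)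
      (htV i)
  have hH₀0 : H₀ ≠ 0 := by
    rw [hH₀eq (Classical.arbitrary ι)]
    exact mul_ne_zero (hh0 _) (hunit _).1
  -- `G = x * H₀ ^ m ≡ 1` modulo the nonunits of every `V i`
  set G : E := x * H₀ ^ m with hG
  have hG1 : ∀ i, G * 1 ^ m - 1 ∈ (V i).nonunits := by
    intro i
    obtain ⟨c, hc, hpow⟩ := CorrAbs.pow_sub_pow_mem (V i) (hunit i).2.1 (one_mem (V i)) m
    have ha : ϖ i * y i ∈ (V i).nonunits := ApproxN.nonunit_mul_mem (V i) (hϖ i) (hyV i)
    have htc : t i * c ∈ (V i).nonunits := ApproxN.nonunit_mul_mem (V i) (htV i) hc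
    have h1 : G * 1 ^ m - 1 = ϖ i * y i + (t i * c + ϖ i * y i * (t i * c)) := by
      have e1 : x * h i ^ m = 1 + ϖ i * y i := by linear_combination hxy i
      have e2 : (1 + t i) ^ m = 1 + t i * c := by
        have : (1 + t i) ^ m - 1 ^ m = (1 + t i - 1) * c := hpow
        rw [one_pow] at this
        linear_combination this
      rw [hG, hH₀eq i, mul_pow, ← mul_assoc, e1, e2, one_pow]
      ring
    rw [h1]
    exact nonunit_add (V i) ha (nonunit_add (V i) htc
      (ApproxN.nonunit_mul_mem (V i) ha (ValuationSubring.nonunits_subset htc)))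
  -- the corrector
  obtain ⟨H', hH'u, hH'⟩ := CorrAbs.exists_corrector hS p hp hpV m hm' G
    (fun i => ⟨1, one_mem _, by rw [inv_one]; exact one_mem _, hG1 i⟩)
  have hH'0 : H' ≠ 0 := by
    rintro rfl
    obtain ⟨w, hw, hw'⟩ := hH' (Classical.arbitrary ι)
    rw [zero_pow hm0, mul_zero, zero_sub] at hw'
    have h1 : (1 : E) ∈ (V (Classical.arbitrary ι)).nonunits := by
      have h2 : (1 : E) = p * (-w) := by linear_combination -hw'
      rw [h2]
      exact ApproxN.nonunit_mul_mem _ (hpV _) (neg_mem hw)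
    exact one_notMem_nonunits _ h1
  refine ⟨H₀ * H', mul_ne_zero hH₀0 hH'0, fun i => ?_⟩
  obtain ⟨w, hw, hw'⟩ := hH' i
  refine ⟨w, hw, ?_⟩
  rw [← hw', hG]
  ring

/-- The corrected form of `Model3Plan.ApproxStatement` (with the hypothesis `p ≠ 0`, without
which the statement of the plan is false). -/
def ApproxStatement' : Prop :=
  ∀ (E : Type) [Field E] (p : E) (e : Fin 3 → ℕ) (ϖ : Fin 3 → E)
    (V : Fin 3 → ValuationSubring E) (m : ℕ) (x : E), p ≠ 0 →
    ValHyp3 p e ϖ V → (∀ i : Fin 3, ∃ u ∈ V i, ((m : ℕ) : E) * u = 1) →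
    PowMod ϖ V m x → ∃ h : E, h ≠ 0 ∧ OneMod p V (x * h ^ m)

/-- `ϖ i` is a nonunit of `V i`. -/
theorem unif_nonunit {p : E} {e : Fin 3 → ℕ} {ϖ : Fin 3 → E} {V : Fin 3 → ValuationSubring E}
    (hV : ValHyp3 p e ϖ V) (i : Fin 3) : ϖ i ∈ (V i).nonunits :=
  nonunit_of_inv_notMem (V i) (hV.unif_mem i) (hV.unif_not i)

/-- `p` is a nonunit of every `V i`. -/
theorem p_nonunit {p : E} {e : Fin 3 → ℕ} {ϖ : Fin 3 → E} {V : Fin 3 → ValuationSubring E}
    (hV : ValHyp3 p e ϖ V) (i : Fin 3) : p ∈ (V i).nonunits := by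
  obtain ⟨u, hu, -, hpu⟩ := hV.ram i
  rw [hpu]
  exact ApproxN.nonunit_mul_mem (V i)
    (ApproxN.nonunit_pow (V i) (unif_nonunit hV i) (hV.e_pos i).ne') hu

/-- **[Approx3]** (corrected statement) for three valuation rings with a separating family
(`ApproxN.Sep`; it exists for every `ValHyp3`, see `S36/Sep3.lean`). -/
theorem approx3_of_sep {p : E} {e : Fin 3 → ℕ} {ϖ : Fin 3 → E} {V : Fin 3 → ValuationSubring E}
    {s : Fin 3 → E} (hS : ApproxN.Sep V s) (hp : p ≠ 0) (hV : ValHyp3 p e ϖ V) (m : ℕ) (x : E)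
    (hm : ∀ i : Fin 3, ∃ u ∈ V i, ((m : ℕ) : E) * u = 1) (hx : PowMod ϖ V m x) :
    ∃ h : E, h ≠ 0 ∧ OneMod p V (x * h ^ m) :=
  approx_of_sep hS p hp (p_nonunit hV) ϖ (unif_nonunit hV) m hm x hx

end Fermat.Agent.S36.Approx3
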