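import Mathlib
import Fermat.Agent.S36.Model3Plan
import Fermat.Agent.S36.Approx3
import Fermat.Agent.S36.Sep3

/-!
# S36 [MODEL3 abstract]: the corrected approximation statement, top of the A-copy

`Approx3.ApproxStatement'` (= `Model3Plan.ApproxStatement` with the extra hypothesis `p ≠ 0`)
from the separating family of `S36/Sep3.lean` and the core `Approx3.approx3_of_sep`.
(An independent copy of the same statement is `Approx3B.approx3Statement`.)
-/

set_option autoImplicit false

namespace Fermat.Agent.S36.Approx3Top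

open Fermat.Agent.S36

/-- **[Approx3]** for a `ValHyp3` family, with `p ≠ 0`. -/
theorem approx3 {E : Type*} [Field E] {p : E} (hp : p ≠ 0) {e : Fin 3 → ℕ} {ϖ : Fin 3 → E}
    {V : Fin 3 → ValuationSubring E} (m : ℕ) (x : E) (hV : Model3Plan.ValHyp3 p e ϖ V)
    (hm : ∀ i : Fin 3, ∃ u ∈ V i, ((m : ℕ) : E) * u = 1) (hx : Model3Plan.PowMod ϖ V m x) :
    ∃ h : E, h ≠ 0 ∧ Model3Plan.OneMod p V (x * h ^ m) := by
  obtain ⟨s, hS⟩ := Sep3.sep_of_valHyp3 hV
  exact Approx3.approx3_of_sep hS hp hV m x hm hx

/-- The corrected Prop of the plan. -/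
theorem approxStatement' : Approx3.ApproxStatement' := by
  intro E _ p e ϖ V m x hp hV hm hx
  exact approx3 hp m x hV hm hx

end Fermat.Agent.S36.Approx3Top
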