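/-
S36 — ApproxPt.lean (helper89).  Block [Approx-pt], abstract, Mathlib only.

Approximation at finitely many valuation rings `V k ⊇ R` (the vertical components of a chart `R`
which do NOT pass through a closed point `n`) by an element of the fraction field which is
REGULAR AT `n`:

  `exists_regAt_approx` : for arbitrary targets `c k : E` and arbitrary precisions `b k ≠ 0` there
  is `y = a / s` with `a s : R`, `s ∉ n`, and `y - c k ∈ b k • V k` for every `k`.

Hypotheses: `n` maximal; the centre `P k = R ∩ nonunits (V k)` of `V k` is not contained in `n`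
(`hn'`), the centres are pairwise incomparable (`hinc`), `V k` is the localisation of `R` at
`P k` (`hfrac`), and `V k` has rank one (`harch`).

Proof: explicit partition of unity.  `z₀ ∈ ⋂ P k`, `z₀ ∉ n`; `q l ∈ n ∩ ⋂_{k ≠ l} P k`,
`q l ∉ P l`; after clearing the poles of the targets with a power of `z₀`, write
`c k = a k / s k` (`s k ∉ P k`), put `x l = s l * q l`, `D = z₀ ^ M + Σ x l ^ M` (a unit at `n`
and at every `V k`) and `y = (Σ a l * s l ^ (M-1) * q l ^ M) / D`.
-/
import Mathlib

set_option autoImplicit false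

namespace Fermat.Agent.S36.ApproxPt

section Aux

variable {E : Type*} [Field E] (A : ValuationSubring E)

theorem nu_mem {x : E} (hx : x ∈ A.nonunits) : x ∈ A := by
  rw [ValuationSubring.mem_nonunits_iff] at hx
  exact (A.valuation_le_one_iff x).mp hx.le

theorem nu_add {x y : E} (hx : x ∈ A.nonunits) (hy : y ∈ A.nonunits) : x + y ∈ A.nonunits := by
  rw [ValuationSubring.mem_nonunits_iff] at *
  exact Valuation.map_add_lt _ hx hy

theorem nu_neg {x : E} (hx : x ∈ A.nonunits) : -x ∈ A.nonunits := by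
  rw [ValuationSubring.mem_nonunits_iff] at *
  rwa [Valuation.map_neg]

theorem nu_mul {x y : E} (hx : x ∈ A) (hy : y ∈ A.nonunits) : x * y ∈ A.nonunits := by
  rw [ValuationSubring.mem_nonunits_iff] at *
  rw [map_mul]
  have h1 : A.valuation x ≤ 1 := (A.valuation_le_one_iff x).mpr hx
  calc A.valuation x * A.valuation y ≤ 1 * A.valuation y := mul_le_mul_left h1 _
    _ = A.valuation y := one_mul _
    _ < 1 := hy

theorem nu_mul' {x y : E} (hx : x ∈ A.nonunits) (hy : y ∈ A) : x * y ∈ A.nonunits := by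
  rw [mul_comm]; exact nu_mul A hy hx

theorem one_not_nu : (1 : E) ∉ A.nonunits := by
  rw [ValuationSubring.mem_nonunits_iff, map_one]
  exact lt_irrefl _

theorem zero_nu : (0 : E) ∈ A.nonunits := by
  rw [ValuationSubring.mem_nonunits_iff, map_zero]
  exact zero_lt_one

theorem val_eq_one {x : E} (hx : x ∈ A) (hx' : x ∉ A.nonunits) : A.valuation x = 1 := by
  rw [ValuationSubring.mem_nonunits_iff] at hx'
  exact le_antisymm ((A.valuation_le_one_iff x).mpr hx) (not_lt.mp hx')

theorem inv_mem_of_not_nu {x : E} (hx : x ∈ A) (hx' : x ∉ A.nonunits) : x⁻¹ ∈ A := by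
  rw [← A.valuation_le_one_iff, map_inv₀, val_eq_one A hx hx', inv_one]

theorem ne_zero_of_not_nu {x : E} (hx' : x ∉ A.nonunits) : x ≠ 0 := by
  rintro rfl
  exact hx' (zero_nu A)

theorem mul_not_nu {x y : E} (hx : x ∈ A) (hx' : x ∉ A.nonunits) (hy : y ∈ A)
    (hy' : y ∉ A.nonunits) : x * y ∉ A.nonunits := by
  rw [ValuationSubring.mem_nonunits_iff, map_mul, val_eq_one A hx hx', val_eq_one A hy hy',
    one_mul]
  exact lt_irrefl _

theorem pow_not_nu {x : E} (hx : x ∈ A) (hx' : x ∉ A.nonunits) (M : ℕ) :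
    x ^ M ∉ A.nonunits := by
  rw [ValuationSubring.mem_nonunits_iff, map_pow, val_eq_one A hx hx', one_pow]
  exact lt_irrefl _

theorem nu_pow {x : E} (hx : x ∈ A.nonunits) {M : ℕ} (hM : 1 ≤ M) : x ^ M ∈ A.nonunits := by
  obtain ⟨M', rfl⟩ : ∃ M', M = M' + 1 := ⟨M - 1, by omega⟩
  rw [pow_succ]
  exact nu_mul A (pow_mem (nu_mem A hx) M') hx

theorem prod_mem {ι : Type*} (s : Finset ι) (f : ι → E) (h : ∀ i ∈ s, f i ∈ A) :
    ∏ i ∈ s, f i ∈ A := by
  classical
  induction s using Finset.induction_on with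
  | empty => simp [A.one_mem]
  | insert a s ha ih =>
    rw [Finset.prod_insert ha]
    exact mul_mem (h a (Finset.mem_insert_self a s))
      (ih (fun i hi => h i (Finset.mem_insert_of_mem hi)))

theorem prod_not_nu {ι : Type*} (s : Finset ι) (f : ι → E) (h : ∀ i ∈ s, f i ∈ A)
    (h' : ∀ i ∈ s, f i ∉ A.nonunits) : ∏ i ∈ s, f i ∉ A.nonunits := by
  classical
  induction s using Finset.induction_on with
  | empty => simpa using one_not_nu A
  | insert a s ha ih =>
    rw [Finset.prod_insert ha]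
    exact mul_not_nu A (h a (Finset.mem_insert_self a s)) (h' a (Finset.mem_insert_self a s))
      (prod_mem A s f (fun i hi => h i (Finset.mem_insert_of_mem hi)))
      (ih (fun i hi => h i (Finset.mem_insert_of_mem hi))
        (fun i hi => h' i (Finset.mem_insert_of_mem hi)))

theorem sum_nu {ι : Type*} (s : Finset ι) (f : ι → E) (h : ∀ i ∈ s, f i ∈ A.nonunits) :
    ∑ i ∈ s, f i ∈ A.nonunits := by
  classical
  induction s using Finset.induction_on with
  | empty => simp [zero_nu A]
  | insert a s ha ih =>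
    rw [Finset.sum_insert ha]
    exact nu_add A (h a (Finset.mem_insert_self a s))
      (ih (fun i hi => h i (Finset.mem_insert_of_mem hi)))

/-- A sum of elements of `b • A` lies in `b • A`. -/
theorem sum_smul_mem {ι : Type*} (s : Finset ι) (b : E) (f : ι → E)
    (h : ∀ i ∈ s, ∃ z ∈ A, f i = b * z) : ∃ z ∈ A, ∑ i ∈ s, f i = b * z := by
  classical
  induction s using Finset.induction_on with
  | empty => exact ⟨0, A.zero_mem, by simp⟩
  | insert a s ha ih =>
    obtain ⟨z1, hz1, e1⟩ := h a (Finset.mem_insert_self a s)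
    obtain ⟨z2, hz2, e2⟩ := ih (fun i hi => h i (Finset.mem_insert_of_mem hi))
    exact ⟨z1 + z2, add_mem hz1 hz2, by rw [Finset.sum_insert ha, e1, e2]; ring⟩

/-- Rank one: high powers of a nonunit lie in `b • A`. -/
theorem exists_pow_smul (harch : ∀ a ∈ A.nonunits, a ≠ 0 → ∀ x : E, ∃ N : ℕ, a ^ N * x ∈ A)
    {a : E} (ha : a ∈ A.nonunits) {b : E} (hb : b ≠ 0) :
    ∃ N : ℕ, ∀ M, N ≤ M → ∃ z ∈ A, a ^ M = b * z := by
  by_cases h0 : a = 0
  · refine ⟨1, fun M hM => ⟨0, A.zero_mem, ?_⟩⟩
    rw [h0, zero_pow (by omega), mul_zero]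
  · obtain ⟨N, hN⟩ := harch a ha h0 b⁻¹
    refine ⟨N, fun M hM => ⟨a ^ (M - N) * (a ^ N * b⁻¹), mul_mem (pow_mem (nu_mem A ha) _) hN, ?_⟩⟩
    have : a ^ M = a ^ (M - N) * a ^ N := by rw [← pow_add]; congr 1; omega
    rw [this]
    field_simp

end Aux

/-- **[Approx-pt]** approximation at the valuation rings `V k` by an element regular at `n`. -/
theorem exists_regAt_approx
    {R : Type*} [CommRing R] {E : Type*} [Field E] [Algebra R E]
    (hinj : Function.Injective (algebraMap R E))
    {κ : Type*} [Finite κ] (V : κ → ValuationSubring E)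
    (hle : ∀ (k : κ) (r : R), algebraMap R E r ∈ V k)
    (n : Ideal R) (hn : n.IsMaximal)
    (hn' : ∀ k, ∃ z : R, z ∉ n ∧ algebraMap R E z ∈ (V k).nonunits)
    (hinc : ∀ k l, k ≠ l → ∃ z : R, algebraMap R E z ∈ (V k).nonunits ∧
      algebraMap R E z ∉ (V l).nonunits)
    (hfrac : ∀ k, ∀ x ∈ V k, ∃ a s : R, algebraMap R E s ∉ (V k).nonunits ∧
      x * algebraMap R E s = algebraMap R E a)
    (harch : ∀ k, ∀ a ∈ (V k).nonunits, a ≠ 0 → ∀ x : E, ∃ N : ℕ, a ^ N * x ∈ V k)
    (c : κ → E) (b : κ → E) (hb : ∀ k, b k ≠ 0) :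
    ∃ y : E, (∃ a s : R, s ∉ n ∧ y * algebraMap R E s = algebraMap R E a) ∧
      ∀ k, ∃ z ∈ V k, y - c k = b k * z := by
  classical
  cases nonempty_fintype κ
  have hnp : n.IsPrime := hn.isPrime
  -- `z₀ ∈ ⋂ P k`, `z₀ ∉ n`
  choose zk hzkn hzk using hn'
  set z₀ : R := ∏ k, zk k with hz₀
  have hz₀n : z₀ ∉ n := by
    rw [hz₀, hnp.prod_mem_iff]
    rintro ⟨k, -, hk⟩
    exact hzkn k hk
  have hz₀k : ∀ k, algebraMap R E z₀ ∈ (V k).nonunits := by
    intro k
    rw [hz₀, ← Finset.mul_prod_erase Finset.univ zk (Finset.mem_univ k), map_mul]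
    exact nu_mul' (V k) (hzk k) (hle k _)
  have hz₀0 : algebraMap R E z₀ ≠ 0 := by
    intro h
    apply hz₀n
    have : z₀ = 0 := hinj (by rw [h, map_zero])
    rw [this]; exact n.zero_mem
  -- `ik k ∈ n`, `ik k ∉ P k`
  have hik : ∀ k, ∃ i : R, i ∈ n ∧ algebraMap R E i ∉ (V k).nonunits := by
    intro k
    obtain ⟨y, i, hi, e⟩ := hn.exists_inv (hzkn k)
    refine ⟨i, hi, fun hnu => ?_⟩
    apply one_not_nu (V k)
    have e' : (1 : E) = algebraMap R E y * algebraMap R E (zk k) + algebraMap R E i := by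
      rw [← map_mul, ← map_add, e, map_one]
    rw [e']
    exact nu_add (V k) (nu_mul (V k) (hle k y) (hzk k)) hnu
  choose ik hikn hikk using hik
  -- `p k l ∈ P k`, `∉ P l`
  choose p hp hp' using hinc
  let pp : κ → κ → R := fun j l => if h : j = l then 1 else p j l h
  have hpp : ∀ j l, j ≠ l → algebraMap R E (pp j l) ∈ (V j).nonunits := by
    intro j l h
    simp only [pp, dif_neg h]
    exact hp j l h
  have hpp' : ∀ j l, j ≠ l → algebraMap R E (pp j l) ∉ (V l).nonunits := by
    intro j l h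
    simp only [pp, dif_neg h]
    exact hp' j l h
  -- `q l ∈ n ∩ ⋂_{k ≠ l} P k`, `q l ∉ P l`
  let q : κ → R := fun l => ik l * ∏ j ∈ Finset.univ.erase l, pp j l
  have hqn : ∀ l, q l ∈ n := fun l => n.mul_mem_right _ (hikn l)
  have hql : ∀ l, algebraMap R E (q l) ∉ (V l).nonunits := by
    intro l
    simp only [q, map_mul, map_prod]
    refine mul_not_nu (V l) (hle l _) (hikk l) (prod_mem (V l) _ _ (fun j _ => hle l _))
      (prod_not_nu (V l) _ _ (fun j _ => hle l _) ?_)
    intro j hj
    exact hpp' j l (Finset.ne_of_mem_erase hj)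
  have hqk : ∀ k l, k ≠ l → algebraMap R E (q l) ∈ (V k).nonunits := by
    intro k l hkl
    have hk : k ∈ Finset.univ.erase l := Finset.mem_erase.mpr ⟨hkl, Finset.mem_univ k⟩
    simp only [q]
    rw [← Finset.mul_prod_erase _ _ hk, map_mul, map_mul]
    rw [show algebraMap R E (ik l) * (algebraMap R E (pp k l) *
        algebraMap R E (∏ x ∈ (Finset.univ.erase l).erase k, pp x l)) =
      algebraMap R E (pp k l) * (algebraMap R E (ik l) *
        algebraMap R E (∏ x ∈ (Finset.univ.erase l).erase k, pp x l)) by ring]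
    exact nu_mul' (V k) (hpp k l hkl) (mul_mem (hle k _) (hle k _))
  -- clear the poles of the targets
  have hN0 : ∀ k, ∃ N : ℕ, algebraMap R E z₀ ^ N * c k ∈ V k :=
    fun k => harch k _ (hz₀k k) hz₀0 (c k)
  choose N0k hN0k using hN0
  set N0 : ℕ := ∑ k, N0k k with hN0def
  have hc' : ∀ k, algebraMap R E z₀ ^ N0 * c k ∈ V k := by
    intro k
    have hle' : N0k k ≤ N0 := Finset.single_le_sum (fun _ _ => Nat.zero_le _) (Finset.mem_univ k)
    have : algebraMap R E z₀ ^ N0 * c k =
        algebraMap R E z₀ ^ (N0 - N0k k) * (algebraMap R E z₀ ^ N0k k * c k) := by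
      rw [← mul_assoc, ← pow_add]; congr 2; omega
    rw [this]
    exact mul_mem (pow_mem (hle k _) _) (hN0k k)
  set c' : κ → E := fun k => algebraMap R E z₀ ^ N0 * c k with hc'def
  set b' : κ → E := fun k => b k * algebraMap R E z₀ ^ N0 with hb'def
  have hb' : ∀ k, b' k ≠ 0 := fun k => mul_ne_zero (hb k) (pow_ne_zero _ hz₀0)
  choose a s hs has using fun k => hfrac k (c' k) (hc' k)
  -- the exponent
  have hNz : ∀ k, ∃ N : ℕ, ∀ M, N ≤ M → ∃ z ∈ V k, algebraMap R E z₀ ^ M = b' k * z :=
    fun k => exists_pow_smul (V k) (harch k) (hz₀k k) (hb' k)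
  choose Nz hNz using hNz
  have hNq : ∀ k l, ∃ N : ℕ, ∀ M, N ≤ M → k ≠ l →
      ∃ z ∈ V k, algebraMap R E (q l) ^ M = b' k * z := by
    intro k l
    by_cases hkl : k = l
    · exact ⟨0, fun M _ h => absurd hkl h⟩
    · obtain ⟨N, hN⟩ := exists_pow_smul (V k) (harch k) (hqk k l hkl) (hb' k)
      exact ⟨N, fun M hM _ => hN M hM⟩
  choose Nq hNq using hNq
  set M : ℕ := 1 + ∑ k, Nz k + ∑ k, ∑ l, Nq k l with hMdef
  have hM1 : 1 ≤ M := by omega
  have hMz : ∀ k, Nz k ≤ M := by
    intro k
    have : Nz k ≤ ∑ k, Nz k := Finset.single_le_sum (fun _ _ => Nat.zero_le _) (Finset.mem_univ k)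
    omega
  have hMq : ∀ k l, Nq k l ≤ M := by
    intro k l
    have h1 : Nq k l ≤ ∑ l, Nq k l :=
      Finset.single_le_sum (fun _ _ => Nat.zero_le _) (Finset.mem_univ l)
    have h2 : ∑ l, Nq k l ≤ ∑ k, ∑ l, Nq k l :=
      Finset.single_le_sum (f := fun k => ∑ l, Nq k l) (fun _ _ => Nat.zero_le _)
        (Finset.mem_univ k)
    omega
  -- the denominator and the numerator
  let x : κ → R := fun l => s l * q l
  set D : R := z₀ ^ M + ∑ l, x l ^ M with hD
  set Anum : R := ∑ l, a l * s l ^ (M - 1) * q l ^ M with hA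
  have hDn : D ∉ n := by
    intro h
    have h1 : ∑ l, x l ^ M ∈ n :=
      n.sum_mem (fun l _ => n.pow_mem_of_mem (n.mul_mem_left _ (hqn l)) M (by omega))
    have h2 : z₀ ^ M ∈ n := by
      have : z₀ ^ M = D - ∑ l, x l ^ M := by rw [hD]; ring
      rw [this]; exact n.sub_mem h h1
    exact hz₀n (hnp.mem_of_pow_mem M h2)
  have hxk : ∀ k, algebraMap R E (x k) ∉ (V k).nonunits := by
    intro k
    simp only [x, map_mul]
    exact mul_not_nu (V k) (hle k _) (hs k) (hle k _) (hql k)
  have hxl : ∀ k l, k ≠ l → algebraMap R E (x l) ∈ (V k).nonunits := by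
    intro k l hkl
    simp only [x, map_mul]
    exact nu_mul (V k) (hle k _) (hqk k l hkl)
  have hDk : ∀ k, (algebraMap R E D)⁻¹ ∈ V k := by
    intro k
    refine inv_mem_of_not_nu (V k) (hle k D) (fun hnu => ?_)
    apply pow_not_nu (V k) (hle k (x k)) (hxk k) M
    have e : algebraMap R E (x k) ^ M = algebraMap R E D +
        -(algebraMap R E z₀ ^ M + ∑ l ∈ Finset.univ.erase k, algebraMap R E (x l) ^ M) := by
      rw [hD, map_add, map_sum, map_pow,
        ← Finset.add_sum_erase Finset.univ (fun l => algebraMap R E (x l ^ M)) (Finset.mem_univ k)]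
      simp only [map_pow]
      ring
    rw [e]
    refine nu_add (V k) hnu (nu_neg (V k) (nu_add (V k) (nu_pow (V k) (hz₀k k) hM1)
      (sum_nu (V k) _ _ (fun l hl => nu_pow (V k) (hxl k l (Finset.ne_of_mem_erase hl).symm) hM1))))
  have hD0 : algebraMap R E D ≠ 0 := by
    intro h
    apply hDn
    have : D = 0 := hinj (by rw [h, map_zero])
    rw [this]; exact n.zero_mem
  -- the approximant
  refine ⟨algebraMap R E Anum / algebraMap R E (D * z₀ ^ N0), ⟨Anum, D * z₀ ^ N0, ?_, ?_⟩, ?_⟩
  · intro h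
    rcases hnp.mem_or_mem h with h | h
    · exact hDn h
    · exact hz₀n (hnp.mem_of_pow_mem _ h)
  · have h0 : algebraMap R E (D * z₀ ^ N0) ≠ 0 := by
      rw [map_mul, map_pow]; exact mul_ne_zero hD0 (pow_ne_zero _ hz₀0)
    field_simp
  · intro k
    -- key identity: `D * (y' - c' k) = - c' k * z₀ ^ M + Σ_{l ≠ k} q l ^ M * u l`
    have hkey : algebraMap R E Anum - c' k * algebraMap R E D =
        -(c' k * algebraMap R E z₀ ^ M) + ∑ l ∈ Finset.univ.erase k,
          algebraMap R E (q l) ^ M *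
            (algebraMap R E (a l * s l ^ (M - 1)) - c' k * algebraMap R E (s l) ^ M) := by
      have hkk : algebraMap R E (a k * s k ^ (M - 1) * q k ^ M) =
          c' k * algebraMap R E (x k) ^ M := by
        simp only [x, map_mul, map_pow]
        rw [← has k]
        have : algebraMap R E (s k) ^ M = algebraMap R E (s k) ^ (M - 1) * algebraMap R E (s k) := by
          rw [← pow_succ]; congr 1; omega
        rw [mul_pow, this]; ring
      rw [hA, hD, map_sum, map_add, map_sum,
        ← Finset.add_sum_erase Finset.univ (fun l => algebraMap R E (a l * s l ^ (M - 1) * q l ^ M))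
          (Finset.mem_univ k),
        ← Finset.add_sum_erase Finset.univ (fun l => algebraMap R E (x l ^ M)) (Finset.mem_univ k),
        hkk]
      simp only [map_pow, map_mul, x]
      have hS : ∑ l ∈ Finset.univ.erase k,
          algebraMap R E (a l) * algebraMap R E (s l) ^ (M - 1) * algebraMap R E (q l) ^ M =
          ∑ l ∈ Finset.univ.erase k, algebraMap R E (q l) ^ M *
            (algebraMap R E (a l) * algebraMap R E (s l) ^ (M - 1) -
              c' k * algebraMap R E (s l) ^ M) +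
          c' k * ∑ l ∈ Finset.univ.erase k,
            (algebraMap R E (s l) * algebraMap R E (q l)) ^ M := by
        rw [Finset.mul_sum, ← Finset.sum_add_distrib]
        refine Finset.sum_congr rfl (fun l _ => ?_)
        ring
      rw [hS]
      ring
    have hmem : ∃ z ∈ V k, algebraMap R E Anum - c' k * algebraMap R E D = b' k * z := by
      rw [hkey]
      obtain ⟨z1, hz1, e1⟩ := hNz k M (hMz k)
      obtain ⟨z2, hz2, e2⟩ := sum_smul_mem (V k) (Finset.univ.erase k) (b' k)
        (fun l => algebraMap R E (q l) ^ M *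
            (algebraMap R E (a l * s l ^ (M - 1)) - c' k * algebraMap R E (s l) ^ M))
        (fun l hl => by
          obtain ⟨z, hz, e⟩ := hNq k l M (hMq k l) (Finset.ne_of_mem_erase hl).symm
          refine ⟨z * (algebraMap R E (a l * s l ^ (M - 1)) - c' k * algebraMap R E (s l) ^ M),
            mul_mem hz (sub_mem (hle k _)
              (mul_mem (hc' k) (pow_mem (hle k _) _))), ?_⟩
          rw [e]; ring)
      refine ⟨-(c' k * z1) + z2, add_mem (neg_mem (mul_mem (hc' k) hz1)) hz2, ?_⟩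
      rw [e2, e1]; ring
    obtain ⟨z, hz, e⟩ := hmem
    refine ⟨z * (algebraMap R E D)⁻¹, mul_mem hz (hDk k), ?_⟩
    have e3 : algebraMap R E Anum = c' k * algebraMap R E D + b' k * z := by
      rw [← e]; ring
    rw [map_mul, map_pow, e3]
    simp only [hc'def, hb'def]
    field_simp
    ring

end Fermat.Agent.S36.ApproxPt
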