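/-
S36 — FJ36.lean (helper57).  Block [FJ36] of the architect's plan (board 'S36' #3063,
`S36/Plan.lean`): the J-side of the function-field core,

    (P3) `Plan.KummerPowStatement M q c`  ⟹  (P1) `Plan.InertTorsStatement M q`     (`c ≠ 0`).

Proof.  Let `x ∈ J₀(M q q)` be an `m`-torsion class (`q ∤ m`) of `ker α_* ∩ ker β_*` fixed by the
inertia group `I` of a valuation ring `A` of `ℚ̄` over `q`.
* [H90] (`S36/H90.lean`): `x = [D]`, `m • D = div f` with `f` fixed by `I`; hence all the
  `q`-expansion coefficients of `f` lie in the inertia field `L = ℚ̄^I`;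
* coefficient descent (`mem_FK_of_coeff_mem`, via `S29/RatDescent`): a function of `F̄_N` with
  coefficients in `L` lies in `F_L = FK N L`;
* [UNR] (`S36/UnrBaseL.lean`): `L` is an unramified base, `Plan.UnrBase q A L`;
* `PushPic.exists_norms_of_mem_newKer`: the two norms of `f` are constants times `m`-th powers;
* (P3): `f ^ c = a · h ^ m`, so `m • (c • D) = m • div h`, `c • D = div h`, `c • x = 0`.

Exports:
* `coeffMap_mem_FK`         — the image of `laurentBaseChange L F₀` in `ℚ̄((q))` lies in `F_L`;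
* `mem_FK_of_coeff_mem`     — coefficient descent `F̄_N ∩ L((q)) ⊆ F_L`;
* `mem_FK_of_fixed`         — an `I`-fixed function of `F̄_N` lies in `F_{ℚ̄^I}`;
* `nsmul_eq_zero_of_pow_eq` — `m • D = div f`, `f ^ c = a · h ^ m` ⟹ `c • [D] = 0`;
* `inertTors_at`            — the per-class form of the block (one `A`, one `m`, one `x`);
* `inertTors_of_kummerPow`  — **[FJ36]**.
-/
import Mathlib
import Fermat.Agent.S29.RatDescent
import Fermat.Agent.S36.Plan
import Fermat.Agent.S36.H90
import Fermat.Agent.S36.UnrBaseL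

set_option autoImplicit false

open ModularCurve AlgebraicCurve HahnSeries

namespace Fermat.Agent.S36.FJ36

open Fermat.Agent.S18.Arith Fermat.Agent.S34 Fermat.Agent.S35

noncomputable section

set_option synthInstance.maxHeartbeats 400000

/-! ### Coefficient descent -/

/-- The image in `ℚ̄((q))` of the function field over a subfield `L` of `ℚ̄` lies in `F_L`. -/
theorem coeffMap_mem_FK (N : ℕ) [NeZero N] (L : IntermediateField ℚ Qb) (y : LaurentSeries L)
    (hy : y ∈ laurentBaseChange L (modularFunctionFieldFull N)) :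
    coeffMap (algebraMap L Qb) y ∈ FK N L := by
  induction hy using IntermediateField.adjoin_induction with
  | mem x hx =>
    obtain ⟨z, hz, rfl⟩ := hx
    have h : coeffMap (algebraMap L Qb) (coeffEmb L z) = coeffEmb Qb z := by
      rw [coeffEmb, coeffMap_coeffMap]
      exact coeffMap_congr
        (RingHom.ext fun c => (IsScalarTower.algebraMap_apply ℚ L Qb c).symm) _
    rw [h]
    exact Subfield.subset_closure (Or.inr ⟨⟨z, hz⟩, rfl⟩)
  | algebraMap c =>
    have h : coeffMap (algebraMap L Qb) (algebraMap L (LaurentSeries L) c) =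
        (HahnSeries.C (c : Qb) : LaurentSeries Qb) := by
      rw [algebraMap_laurentSeries_eq_single, coeffMap_single]
      rfl
    rw [h]
    exact Subfield.subset_closure (Or.inl ⟨c, rfl⟩)
  | add x y _ _ hx hy =>
    rw [map_add]
    exact add_mem hx hy
  | inv x _ hx =>
    rw [map_inv₀]
    exact inv_mem hx
  | mul x y _ _ hx hy =>
    rw [map_mul]
    exact mul_mem hx hy

/-- **Coefficient descent**: a function of `F̄_N` all of whose `q`-expansion coefficients lie in
the subfield `L` of `ℚ̄` lies in `F_L = FK N L`. -/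
theorem mem_FK_of_coeff_mem (N : ℕ) [NeZero N] (L : IntermediateField ℚ Qb)
    (f : LaurentSeries Qb) (hf : f ∈ modularFunctionFieldBar N)
    (hc : ∀ k : ℤ, f.coeff k ∈ L) : f ∈ FK N L := by
  have hsupp : (Function.support fun k : ℤ => (⟨f.coeff k, hc k⟩ : L)).IsPWO := by
    refine f.isPWO_support.mono fun k hk => ?_
    rw [Function.mem_support] at hk
    rw [HahnSeries.mem_support]
    intro h0
    exact hk (Subtype.ext h0)
  have hx : coeffMap (algebraMap L Qb)
      (⟨fun k : ℤ => (⟨f.coeff k, hc k⟩ : L), hsupp⟩ : LaurentSeries L) = f := by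
    ext k
    rw [coeffMap_coeff]
    rfl
  rw [← hx]
  apply coeffMap_mem_FK
  apply Fermat.Agent.S29.RatDescent.mem_laurentBaseChange_of_coeffMap_mem (algebraMap L Qb)
  rw [hx]
  exact hf

/-- A function of `F̄_N` fixed by a subgroup `I` of `Gal(ℚ̄/ℚ)` lies in `F_L`, `L = ℚ̄^I`. -/
theorem mem_FK_of_fixed (N : ℕ) [NeZero N] (I : Subgroup (Qb ≃ₐ[ℚ] Qb))
    (f : modularFunctionFieldBar N) (hf : ∀ τ ∈ I, UPlan.gal N τ • f = f) :
    (f : LaurentSeries Qb) ∈ FK N (IntermediateField.fixedField I) :=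
  mem_FK_of_coeff_mem N _ _ f.2 fun k => Fermat.Agent.S36.H90.coeff_mem_fixedField I f hf k

/-! ### The J-side -/

/-- If `m • D = div f` and `f ^ c = a · h ^ m` then `c • D = div h`, so `c • [D] = 0`. -/
theorem nsmul_eq_zero_of_pow_eq (N : ℕ) {m : ℕ} (hm : m ≠ 0) (c : ℕ)
    (D : Divisor.degZero (K := Qb) (F := modularFunctionFieldBar N))
    (f : modularFunctionFieldBar N)
    (hD : ∀ P : Place Qb (modularFunctionFieldBar N),
      (m : ℤ) * (D : Divisor Qb (modularFunctionFieldBar N)) P = P.ord f)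
    (h : modularFunctionFieldBar N) (a : Qb) (hh : h ≠ 0) (ha : a ≠ 0)
    (hfc : f ^ c = algebraMap Qb (modularFunctionFieldBar N) a * h ^ m) :
    c • (Pic0.mk D : JZero N) = 0 := by
  have ha' : algebraMap Qb (modularFunctionFieldBar N) a ≠ 0 := by
    rw [Ne, map_eq_zero]
    exact ha
  have hprin : Divisor.IsPrincipal (c • (D : Divisor Qb (modularFunctionFieldBar N))) := by
    refine ⟨h, hh, fun P => ?_⟩
    have h1 := congrArg P.ord hfc
    rw [P.ord_mul ha' (pow_ne_zero m hh), Fermat.Agent.S24.ord_pow, Fermat.Agent.S24.ord_pow,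
      Fermat.Agent.S24.ord_algebraMap P a, zero_add, ← hD P] at h1
    have h2 : (m : ℤ) * ((c • (D : Divisor Qb (modularFunctionFieldBar N))) P) =
        (m : ℤ) * P.ord h := by
      simp only [Finsupp.smul_apply, nsmul_eq_mul]
      linarith
    exact mul_left_cancel₀ (Nat.cast_ne_zero.mpr hm) h2
  have hzero : (Pic0.mk (c • D) : JZero N) = 0 := by
    refine (QuotientAddGroup.eq_zero_iff _).2 ?_
    show ((c • D : Divisor.degZero (K := Qb) (F := modularFunctionFieldBar N)) :
      Divisor Qb (modularFunctionFieldBar N)) ∈ Divisor.principal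
    exact hprin
  have hmk : (Pic0.mk (c • D) : JZero N) = c • Pic0.mk D :=
    map_nsmul (QuotientAddGroup.mk' _) c D
  rw [← hmk, hzero]

/-- **[FJ36], per class**: (P3) at `c` kills with `c` every `m`-torsion class (`q ∤ m`) of
`ker α_* ∩ ker β_*` fixed by the inertia group of `A`. -/
theorem inertTors_at (M q c : ℕ) [NeZero M] [NeZero q] [Fact q.Prime]
    (hK : Plan.KummerPowStatement M q c) {m : ℕ} (hm : m ≠ 0) (hqm : ¬ q ∣ m)
    (A : ValuationSubring Qb) (hA : A.LiesOverPrime q) (x : JZero (M * q * q))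
    (hmx : m • x = 0) (hnew : x ∈ PushPic.newKer (M * q) q)
    (hfix : ∀ τ ∈ A.inertiaSubgroupIn ℚ, τ • x = x) : c • x = 0 := by
  obtain ⟨f, D, hf, hD, rfl, hfI, -⟩ :=
    Fermat.Agent.S36.H90.exists_invariant_kummer (M * q * q) (A.inertiaSubgroupIn ℚ) hm x hmx
      hfix
  have hfK : (f : LaurentSeries Qb) ∈ FK (M * q * q) (UnrBaseL.inertiaField A) :=
    mem_FK_of_fixed (M * q * q) (A.inertiaSubgroupIn ℚ) f hfI
  have hU : Plan.UnrBase q A (UnrBaseL.inertiaField A) :=
    UnrBaseL.unrBase_inertiaField A (Fact.out : q.Prime) hA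
  have hdvd : ∀ P : Place Qb (modularFunctionFieldBar (M * q * q)), (m : ℤ) ∣ P.ord f :=
    fun P => ⟨(D : Divisor Qb (modularFunctionFieldBar (M * q * q))) P, (hD P).symm⟩
  have hnorm : ModelFPlan.NormCond (M * q) q m f :=
    PushPic.exists_norms_of_mem_newKer (M * q) q D f hf hD hnew
  obtain ⟨h, a, hh0, ha0, hfc⟩ := hK m hm hqm A hA _ hU f hf hfK hdvd hnorm
  exact nsmul_eq_zero_of_pow_eq (M * q * q) hm c D f hD h a hh0 ha0 hfc

/-- **[FJ36]**: (P3) ⟹ (P1). -/
theorem inertTors_of_kummerPow (M q c : ℕ) [NeZero M] [NeZero q] [Fact q.Prime] (hc : c ≠ 0)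
    (hK : Plan.KummerPowStatement M q c) : Plan.InertTorsStatement M q :=
  ⟨c, hc, fun _ hm hqm A hA x hmx hnew hfix =>
    inertTors_at M q c hK hm hqm A hA x hmx hnew hfix⟩

end

end Fermat.Agent.S36.FJ36
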