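/-
S36 route, package [TOP36] — TopPlan.lean (helper5).  BINDING interface TOP ↔ GEOMETRY.

`InvKill M q p` : at level `M * q` (in the application `q ∣ M`, i.e. `q² ∣ M * q`), the `q`-new
classes (`PushPic.newKer M q` = the kernel of BOTH push-forwards `α_*`, `β_*` to level `M`) of
`p`-power order have NO inertia invariants at `q`, up to a constant `c ≠ 0` which does not depend
on the torsion order `p ^ n`:  for every `n` there is a place `P` of `ℚ̄` over `q` such that every
`x ∈ newKer M q` with `p ^ n • x = 0` fixed by the inertia group of `P` satisfies `c • x = 0`.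

`InvKillStatement` : `InvKill (M' * q) q p` for all primes `q ≠ p`, `p ≠ 2`, `q ∤ M'`
(the level is `M' * q * q`, `q² ∥` level).  This is the single input of the top of S36 besides
[K-tr] at `q ∣ M` (see `S36/DetI.lean`, `S36/PseudoI.lean` for the consumer).

The place `P` is existential (and may depend on `n`): a proof for ALL places over `q` gives
`InvKill` through any place over `q` (`invKill_of_forall`).
-/
import Mathlib
import Fermat.Agent.S35.PushPic

set_option autoImplicit false

open ModularCurve AlgebraicCurve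

namespace Fermat.Agent.S36.TopPlan

/-- `ℚ̄`. -/
local notation "Qb" => AlgebraicClosure ℚ

/-- **TOP ↔ GEOMETRY.**  The `q`-new `p`-power torsion of `J₀(M q)` has no inertia invariants at
`q` up to the constant `c`. -/
def InvKill (M q p : ℕ) [NeZero M] [NeZero q] : Prop :=
  ∃ c : ℕ, c ≠ 0 ∧ ∀ n : ℕ, ∃ P : ValuationSubring Qb, P.LiesOverPrime q ∧
    ∀ x : JZero (M * q), p ^ n • x = 0 → x ∈ Fermat.Agent.S35.PushPic.newKer M q →
      (∀ τ ∈ P.inertiaSubgroupIn ℚ, τ • x = x) → c • x = 0

/-- The form with all places over `q` implies `InvKill`, given one place over `q`. -/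
theorem invKill_of_forall {M q p : ℕ} [NeZero M] [NeZero q]
    (hP : ∃ P : ValuationSubring Qb, P.LiesOverPrime q)
    (h : ∃ c : ℕ, c ≠ 0 ∧ ∀ (n : ℕ) (P : ValuationSubring Qb), P.LiesOverPrime q →
      ∀ x : JZero (M * q), p ^ n • x = 0 → x ∈ Fermat.Agent.S35.PushPic.newKer M q →
        (∀ τ ∈ P.inertiaSubgroupIn ℚ, τ • x = x) → c • x = 0) :
    InvKill M q p := by
  obtain ⟨P, hP⟩ := hP
  obtain ⟨c, hc, h⟩ := h
  exact ⟨c, hc, fun n => ⟨P, hP, h n P hP⟩⟩

/-- **The geometric target of S36**: `InvKill` at every level `M' * q * q` with `q ∤ M'`, for all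
primes `q ≠ p`, `p` odd. -/
def InvKillStatement : Prop :=
  ∀ (M' q p : ℕ) [NeZero (M' * q)] [NeZero q], q.Prime → p.Prime → q ≠ p → p ≠ 2 → ¬ q ∣ M' →
    InvKill (M' * q) q p

end Fermat.Agent.S36.TopPlan
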