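/-
S36 — FJ36Top.lean (helper57).  Adapter between the architect's chain (`S36/Plan.lean`, board
'S36' #3063) and the binding interface TOP ↔ GEOMETRY of [TOP36] (`S36/TopPlan.lean`):

    (P1) `Plan.InertTorsStatement M q` for all `q ∤ M`   ⟹   `TopPlan.InvKillStatement`,
    (P3) `∃ c ≠ 0, Plan.KummerPowStatement M q c` for all `q ∤ M`   ⟹   `TopPlan.InvKillStatement`.

(P1) is the statement for ALL torsion orders `m` prime to `q` and ALL valuation rings `A` of `ℚ̄`
over `q`; `TopPlan.InvKill (M * q) q p` asks for the orders `m = p ^ n` (`p ≠ q` prime) and ONE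
valuation ring over `q` (which exists: `exists_liesOver`).

Exports:
* `exists_liesOver`               — a valuation subring of `ℚ̄` over any prime;
* `invKill_of_inertTors`          — (P1) at `(M, q)` ⟹ `TopPlan.InvKill (M * q) q p`;
* `invKillStatement_of_inertTors` — (P1) for all `q ∤ M` ⟹ `TopPlan.InvKillStatement`;
* `invKillStatement_of_kummerPow` — (P3) for all `q ∤ M` ⟹ `TopPlan.InvKillStatement`
                                    (through `FJ36.inertTors_of_kummerPow`).
-/
import Mathlib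
import Fermat.Agent.S36.TopPlan
import Fermat.Agent.S36.FJ36

set_option autoImplicit false

open ModularCurve AlgebraicCurve

namespace Fermat.Agent.S36.FJ36Top

open Fermat.Agent.S18.Arith (Qb)

/-- There is a valuation subring of `ℚ̄` lying over any prime. -/
theorem exists_liesOver {q : ℕ} (hq : q.Prime) :
    ∃ A : ValuationSubring Qb, A.LiesOverPrime q := by
  let A₀ : Subring Qb := (Int.castRingHom Qb).range
  have hqmem : (q : Qb) ∈ A₀ := ⟨(q : ℤ), by simp⟩
  let I : Ideal A₀ := Ideal.span {⟨(q : Qb), hqmem⟩}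
  have hI : I ≠ ⊤ := by
    intro htop
    have h1 : (1 : A₀) ∈ I := by rw [htop]; trivial
    obtain ⟨c, hc⟩ := Ideal.mem_span_singleton'.mp h1
    obtain ⟨k, hk⟩ := c.2
    have h2 : ((k * q : ℤ) : Qb) = ((1 : ℤ) : Qb) := by
      have := congrArg Subtype.val hc
      push_cast at this ⊢
      rw [← this, ← hk]
      simp
    have h3 : k * (q : ℤ) = 1 := by exact_mod_cast h2
    have h4 : (q : ℤ) ∣ 1 := ⟨k, by rw [← h3]; ring⟩
    have h5 := Int.natCast_dvd_natCast.mp (by simpa using h4 : ((q : ℕ) : ℤ) ∣ ((1 : ℕ) : ℤ))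
    exact hq.one_lt.ne' (Nat.dvd_one.mp h5)
  obtain ⟨B, -, hB⟩ := Ideal.image_subset_nonunits_valuationSubring I hI
  exact ⟨B, hB ⟨⟨(q : Qb), hqmem⟩, Ideal.subset_span rfl, rfl⟩⟩

/-- (P1) at `(M, q)` gives the TOP interface `InvKill` at level `M * q * q`, for every prime
`p ≠ q`. -/
theorem invKill_of_inertTors (M q p : ℕ) [NeZero M] [NeZero q] (hq : q.Prime) (hp : p.Prime)
    (hqp : q ≠ p) (h : Plan.InertTorsStatement M q) : TopPlan.InvKill (M * q) q p := by
  obtain ⟨c, hc, hK⟩ := h
  refine TopPlan.invKill_of_forall (exists_liesOver hq) ⟨c, hc, fun n P hP x hx hnew hfix => ?_⟩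
  exact hK (p ^ n) (pow_ne_zero n hp.ne_zero)
    (fun hd => hqp ((Nat.prime_dvd_prime_iff_eq hq hp).mp (hq.dvd_of_dvd_pow hd)))
    P hP x hx hnew hfix

/-- (P1) for all primes `q ∤ M` ⟹ the geometric target of [TOP36]. -/
theorem invKillStatement_of_inertTors
    (h : ∀ (M q : ℕ) [NeZero M] [NeZero q], q.Prime → ¬ q ∣ M → Plan.InertTorsStatement M q) :
    TopPlan.InvKillStatement := by
  intro M' q p _ _ hq hp hqp _ hqM
  have : NeZero M' := ⟨fun h0 => NeZero.ne (M' * q) (by rw [h0, zero_mul])⟩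
  exact invKill_of_inertTors M' q p hq hp hqp (h M' q hq hqM)

/-- (P3) for all primes `q ∤ M` (with constants `c ≠ 0` depending on `M`, `q`) ⟹ the geometric
target of [TOP36]. -/
theorem invKillStatement_of_kummerPow
    (h : ∀ (M q : ℕ) [NeZero M] [NeZero q] [Fact q.Prime], ¬ q ∣ M →
      ∃ c : ℕ, c ≠ 0 ∧ Plan.KummerPowStatement M q c) :
    TopPlan.InvKillStatement :=
  invKillStatement_of_inertTors fun M q _ _ hq hqM => by
    have : Fact q.Prime := ⟨hq⟩
    obtain ⟨c, hc, hK⟩ := h M q hqM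
    exact FJ36.inertTors_of_kummerPow M q c hc hK

end Fermat.Agent.S36.FJ36Top
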