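/-
S36 — AuxAll.lean (helper20).  Block [AUX], `J`-level, CLOSED FORM, and the one-call adapters from
the geometric core at the AUXILIARY levels (`Plan.AuxHyp q M`) to the input of the top of S36.

`AuxTop.inertTors_of_aux` (helper20) + `AuxNormCompat.normCompat` (helper115: the two degeneracy
norms commute with the inclusion of the auxiliary level) give, with NO further hypothesis:

* `inertTors_all`                      — (P1) at the auxiliary levels ⟹ (P1) at every level `M`
                                         prime to `q`;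
* `inertTors_all_of_kummerPow`         — (P3) at the auxiliary levels (some constant `c ≠ 0` for
                                         each `M`, `q`) ⟹ (P1) at every level   ([FJ36] + [AUX]);
* `inertTors_all_of_coreData`          — (P5) at the auxiliary levels (some `e ≠ 0`) ⟹ (P1) at
                                         every level   ([CORE] + [FJ36] + [AUX]);
* `invKillStatement_of_aux_inertTors`, `invKillStatement_of_aux_kummerPow`,
  `invKillStatement_of_aux_coreData`   — the same three, concluding the geometric target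
                                         `TopPlan.InvKillStatement` of [TOP36].
-/
import Mathlib
import Fermat.Agent.S36.Plan
import Fermat.Agent.S36.AuxTop
import Fermat.Agent.S36.AuxNormCompat
import Fermat.Agent.S36.FJ36
import Fermat.Agent.S36.FJ36Top

set_option autoImplicit false

namespace Fermat.Agent.S36.AuxAll

/-- **[AUX], `J`-level, closed**: `InertTorsStatement` at the auxiliary levels (`4 ∣ M` for odd
`q`, `9 ∣ M` for `q = 2`) implies `InertTorsStatement` at every level prime to `q`. -/
theorem inertTors_all
    (hAux : ∀ (M q : ℕ) [NeZero M] [NeZero q], q.Prime → ¬ q ∣ M → Plan.AuxHyp q M →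
      Plan.InertTorsStatement M q) :
    ∀ (M q : ℕ) [NeZero M] [NeZero q], q.Prime → ¬ q ∣ M → Plan.InertTorsStatement M q :=
  AuxTop.inertTors_of_aux AuxNormCompat.normCompat hAux

/-- **[FJ36] + [AUX]**: `KummerPowStatement` at the auxiliary levels (with a constant `c ≠ 0`
depending on `M`, `q`) implies `InertTorsStatement` at every level prime to `q`. -/
theorem inertTors_all_of_kummerPow
    (hK : ∀ (M q : ℕ) [NeZero M] [NeZero q] [Fact q.Prime], ¬ q ∣ M → Plan.AuxHyp q M →
      ∃ c : ℕ, c ≠ 0 ∧ Plan.KummerPowStatement M q c) :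
    ∀ (M q : ℕ) [NeZero M] [NeZero q], q.Prime → ¬ q ∣ M → Plan.InertTorsStatement M q :=
  inertTors_all fun M q _ _ hq hqM haux => by
    have : Fact q.Prime := ⟨hq⟩
    obtain ⟨c, hc, hKc⟩ := hK M q hqM haux
    exact FJ36.inertTors_of_kummerPow M q c hc hKc

/-- **[CORE] + [FJ36] + [AUX]**: `CoreDataStatement` at the auxiliary levels (with an exponent
`e ≠ 0` depending on `M`, `q`) implies `InertTorsStatement` at every level prime to `q`. -/
theorem inertTors_all_of_coreData
    (hC : ∀ (M q : ℕ) [NeZero M] [NeZero q] [Fact q.Prime], ¬ q ∣ M → Plan.AuxHyp q M →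
      ∃ e : ℕ, e ≠ 0 ∧ Plan.CoreDataStatement M q e) :
    ∀ (M q : ℕ) [NeZero M] [NeZero q], q.Prime → ¬ q ∣ M → Plan.InertTorsStatement M q :=
  inertTors_all_of_kummerPow fun M q _ _ _ hqM haux => by
    obtain ⟨e, he, hCe⟩ := hC M q hqM haux
    exact ⟨e, he, Plan.kummerPow_of_coreData M q e hCe⟩

/-- (P1) at the auxiliary levels ⟹ the geometric target of [TOP36]. -/
theorem invKillStatement_of_aux_inertTors
    (hAux : ∀ (M q : ℕ) [NeZero M] [NeZero q], q.Prime → ¬ q ∣ M → Plan.AuxHyp q M →
      Plan.InertTorsStatement M q) :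
    TopPlan.InvKillStatement :=
  FJ36Top.invKillStatement_of_inertTors (inertTors_all hAux)

/-- (P3) at the auxiliary levels ⟹ the geometric target of [TOP36]. -/
theorem invKillStatement_of_aux_kummerPow
    (hK : ∀ (M q : ℕ) [NeZero M] [NeZero q] [Fact q.Prime], ¬ q ∣ M → Plan.AuxHyp q M →
      ∃ c : ℕ, c ≠ 0 ∧ Plan.KummerPowStatement M q c) :
    TopPlan.InvKillStatement :=
  FJ36Top.invKillStatement_of_inertTors (inertTors_all_of_kummerPow hK)

/-- (P5) at the auxiliary levels ⟹ the geometric target of [TOP36]. -/
theorem invKillStatement_of_aux_coreData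
    (hC : ∀ (M q : ℕ) [NeZero M] [NeZero q] [Fact q.Prime], ¬ q ∣ M → Plan.AuxHyp q M →
      ∃ e : ℕ, e ≠ 0 ∧ Plan.CoreDataStatement M q e) :
    TopPlan.InvKillStatement :=
  FJ36Top.invKillStatement_of_inertTors (inertTors_all_of_coreData hC)

end Fermat.Agent.S36.AuxAll
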