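/-
S36 — block [AUX] (helper84), function side: descent from an auxiliary level.

Generic (`φ : F →ₐ[K] F'` finite):
* `finrankAlong_ne_zero`;
* `exists_pow_eq_of_along` : `φ f ^ k = c · h' ^ m` in `F'` ⇒ `f ^ (k d) = c₀ · h₀ ^ m` in `F`,
  `d = [F' : φ F]` (norm);
* `nsmul_mk_eq_zero_of_pow_eq` : `m D = div f`, `f ^ n = c₀ · h₀ ^ m` ⇒ `n • [D] = 0`.

Modular instance (`N ∣ L`; inclusion `AuxPull.inclBar h : F̄_N →ₐ[ℚ̄] F̄_L`, degree
`AuxPull.auxDeg h = [F̄_L : F̄_N]`, both from helper20's `S36/AuxPull.lean`):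
* `dvd_ord_inclBar` : `m ∣ ord_P f` for all places of `F̄_N` ⇒ the same for all places of `F̄_L`;
* `exists_pow_eq_of_aux`, `nsmul_mk_eq_zero_of_aux` : a Kummer generator `f ∈ F̄_N` which becomes,
  after raising to the power `k`, a constant times an `m`-th power in `F̄_L`, satisfies
  `f ^ (k · auxDeg h) = c₀ · h₀ ^ m` in `F̄_N`, and its class is killed by `k · auxDeg h` in `J₀(N)`.
-/
import Mathlib
import Fermat.Agent.S35.PushPic
import Fermat.Agent.S36.AuxPull

set_option autoImplicit false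
set_option linter.style.haveILetI false

open AlgebraicCurve ModularCurve

namespace Fermat.Agent.S36.AuxDesc

noncomputable section

/-! ### Generic part -/

section Generic

variable {K F F' : Type*} [Field K] [Field F] [Field F'] [Algebra K F] [Algebra K F']

theorem finrankAlong_ne_zero (φ : F →ₐ[K] F') (hfin : FiniteAlong K φ) :
    finrankAlong K φ ≠ 0 := by
  letI := algebraAlong φ
  haveI : Module.Finite F F' := hfin
  exact (Module.finrank_pos (R := F) (M := F')).ne'

/-- **Descent of a power relation along a finite extension** (by the norm): if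
`φ f ^ k = c · h' ^ m` in `F'` then `f ^ (k d) = c ^ d · (Nm h') ^ m` in `F`, `d = [F' : φ F]`. -/
theorem exists_pow_eq_of_along (φ : F →ₐ[K] F') (hfin : FiniteAlong K φ) {k m : ℕ} (f : F)
    (h' : F') (c : K) (hc : c ≠ 0) (hh : h' ≠ 0)
    (hrel : φ f ^ k = algebraMap K F' c * h' ^ m) :
    ∃ (h₀ : F) (c₀ : K), c₀ ≠ 0 ∧ h₀ ≠ 0 ∧
      f ^ (k * finrankAlong K φ) = algebraMap K F c₀ * h₀ ^ m := by
  letI := algebraAlong φ
  haveI := isScalarTower_along φ
  haveI : Module.Finite F F' := hfin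
  refine ⟨Algebra.norm F h', c ^ Module.finrank F F', pow_ne_zero _ hc,
    Algebra.norm_ne_zero_iff.mpr hh, ?_⟩
  have h1 := congrArg (Algebra.norm F) hrel
  rw [map_pow, map_mul, map_pow] at h1
  have e1 : Algebra.norm F (φ f) = f ^ Module.finrank F F' :=
    Algebra.norm_algebraMap (S := F') f
  have e2 : Algebra.norm F (algebraMap K F' c) = algebraMap K F c ^ Module.finrank F F' := by
    rw [IsScalarTower.algebraMap_apply K F F' c]
    exact Algebra.norm_algebraMap (S := F') (algebraMap K F c)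
  rw [e1, e2, ← pow_mul, ← map_pow] at h1
  rw [mul_comm k]
  exact h1

/-- If `m D = div f` and `f ^ n` is a constant times an `m`-th power, then `n • [D] = 0`. -/
theorem nsmul_mk_eq_zero_of_pow_eq {D : Divisor.degZero (K := K) (F := F)} {f h₀ : F} {c₀ : K}
    {m n : ℕ} (hm : m ≠ 0) (hh : h₀ ≠ 0) (hc : c₀ ≠ 0)
    (hD : ∀ P : Place K F, (m : ℤ) * (D : Divisor K F) P = P.ord f)
    (hrel : f ^ n = algebraMap K F c₀ * h₀ ^ m) : n • Pic0.mk D = 0 := by
  have hc' : algebraMap K F c₀ ≠ 0 := fun h => hc ((map_eq_zero (algebraMap K F)).mp h)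
  have e : n • Pic0.mk D = Pic0.mk (n • D) := rfl
  rw [e]
  refine Fermat.Agent.S29.KTheta.mk_eq_zero_of_ord hh fun P => ?_
  have h1 := congrArg P.ord hrel
  rw [← zpow_natCast f n, P.ord_zpow, P.ord_mul hc' (pow_ne_zero m hh),
    Fermat.Agent.S24.principal_ord_algebraMap, zero_add, ← zpow_natCast h₀ m, P.ord_zpow,
    ← hD P] at h1
  have hm0 : (m : ℤ) ≠ 0 := by exact_mod_cast hm
  have h2 : ((n • D : Divisor.degZero (K := K) (F := F)) : Divisor K F) P =
      (n : ℤ) * (D : Divisor K F) P := by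
    simp
  rw [h2]
  apply mul_left_cancel₀ hm0
  rw [← h1]
  ring

end Generic

/-! ### The modular instance -/

section Modular

set_option synthInstance.maxHeartbeats 400000

/-- `ℚ̄`. -/
local notation "Qb" => AlgebraicClosure ℚ

open Fermat.Agent.S36.AuxPull (inclBar auxDeg inclBar_finiteAlong inclBar_isIntegral)

variable {N L : ℕ} [NeZero N] [NeZero L]

/-- orders at the auxiliary level: divisibility by `m` at all places of `F̄_N` passes to all places
of `F̄_L`. -/
theorem dvd_ord_inclBar (h : N ∣ L) {m : ℤ} {f : modularFunctionFieldBar N}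
    (hf : ∀ P : Place Qb (modularFunctionFieldBar N), m ∣ P.ord f)
    (P : Place Qb (modularFunctionFieldBar L)) : m ∣ P.ord (inclBar h f) := by
  rw [Place.ord_restrictAlong (inclBar h) (inclBar_isIntegral h) P f]
  exact Dvd.dvd.mul_left (hf _) _

/-- **Descent from the auxiliary level, function form.**  If `f ∈ F̄_N` satisfies
`f ^ k = c · h' ^ m` in `F̄_L` (`N ∣ L`), then `f ^ (k d) = c₀ · h₀ ^ m` in `F̄_N`,
`d = [F̄_L : F̄_N]`. -/
theorem exists_pow_eq_of_aux (h : N ∣ L) {k m : ℕ}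
    (f : modularFunctionFieldBar N) (h' : modularFunctionFieldBar L) (c : Qb) (hc : c ≠ 0)
    (hh : h' ≠ 0)
    (hrel : inclBar h f ^ k = algebraMap Qb (modularFunctionFieldBar L) c * h' ^ m) :
    ∃ (h₀ : modularFunctionFieldBar N) (c₀ : Qb), c₀ ≠ 0 ∧ h₀ ≠ 0 ∧
      f ^ (k * auxDeg h) = algebraMap Qb (modularFunctionFieldBar N) c₀ * h₀ ^ m :=
  exists_pow_eq_of_along (inclBar h) (inclBar_finiteAlong h) f h' c hc hh hrel

/-- The same in the shape of the conclusion of `Plan.KummerPowStatement`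
(`∃ h a, h ≠ 0 ∧ a ≠ 0 ∧ f ^ c = a · h ^ m`), both as hypothesis and as conclusion. -/
theorem exists_pow_eq_of_aux' (h : N ∣ L) {k m : ℕ} (f : modularFunctionFieldBar N)
    (hrel : ∃ (h' : modularFunctionFieldBar L) (a : Qb), h' ≠ 0 ∧ a ≠ 0 ∧
      inclBar h f ^ k = algebraMap Qb (modularFunctionFieldBar L) a * h' ^ m) :
    ∃ (h₀ : modularFunctionFieldBar N) (a₀ : Qb), h₀ ≠ 0 ∧ a₀ ≠ 0 ∧
      f ^ (k * auxDeg h) = algebraMap Qb (modularFunctionFieldBar N) a₀ * h₀ ^ m := by
  obtain ⟨h', a, hh, ha, hrel⟩ := hrel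
  obtain ⟨h₀, c₀, hc₀, hh₀, hrel₀⟩ := exists_pow_eq_of_aux h f h' a ha hh hrel
  exact ⟨h₀, c₀, hh₀, hc₀, hrel₀⟩

/-- **Descent from the auxiliary level, class form.**  If `m D = div f` at level `N` and
`f ^ k = c · h' ^ m` at the auxiliary level `L` (`N ∣ L`), then `(k d) • [D] = 0` in `J₀(N)`,
`d = [F̄_L : F̄_N]`. -/
theorem nsmul_mk_eq_zero_of_aux (h : N ∣ L) {k m : ℕ}
    (hm : m ≠ 0) (D : Divisor.degZero (K := Qb) (F := modularFunctionFieldBar N))
    (f : modularFunctionFieldBar N)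
    (hD : ∀ P : Place Qb (modularFunctionFieldBar N),
      (m : ℤ) * (D : Divisor Qb (modularFunctionFieldBar N)) P = P.ord f)
    (h' : modularFunctionFieldBar L) (c : Qb) (hc : c ≠ 0) (hh : h' ≠ 0)
    (hrel : inclBar h f ^ k = algebraMap Qb (modularFunctionFieldBar L) c * h' ^ m) :
    (k * auxDeg h) • (Pic0.mk D : JZero N) = 0 := by
  obtain ⟨h₀, c₀, hc₀, hh₀, hrel₀⟩ := exists_pow_eq_of_aux h f h' c hc hh hrel
  exact nsmul_mk_eq_zero_of_pow_eq hm hh₀ hc₀ hD hrel₀

end Modular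

end

end Fermat.Agent.S36.AuxDesc
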