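/-
S36 — AuxGen.lean (helper20).  Block [AUX], `J`-level, for an ARBITRARY auxiliary-level predicate
`P q M` (insurance: if the geometric blocks need a stronger auxiliary hypothesis than
`Plan.AuxHyp q M` — e.g. `36 ∣ M`, or an extra prime factor — nothing else has to change).

If every level `M` prime to `q` has a multiple `M * d`, `d` prime to `q`, satisfying `P q (M * d)`,
then (P1) / (P3) / (P5) at the levels satisfying `P` imply (P1) at every level prime to `q`, and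
hence the geometric target `TopPlan.InvKillStatement` of [TOP36].

* `inertTors_of_pred`, `inertTors_of_pred_kummerPow`, `inertTors_of_pred_coreData`;
* `invKillStatement_of_pred_inertTors`, `invKillStatement_of_pred_kummerPow`,
  `invKillStatement_of_pred_coreData`;
* `exists_aux_mul`: the multiplier for `P q M := N₀ ∣ M` (`N₀` prime to `q`).
-/
import Mathlib
import Fermat.Agent.S36.Plan
import Fermat.Agent.S36.AuxTop
import Fermat.Agent.S36.AuxNormCompat
import Fermat.Agent.S36.FJ36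
import Fermat.Agent.S36.FJ36Top

set_option autoImplicit false

namespace Fermat.Agent.S36.AuxGen

/-- **[AUX], `J`-level, arbitrary auxiliary predicate**: if every level `M` prime to `q` has a
multiple `M * d` (`d ≠ 0` prime to `q`) with `P q (M * d)`, then `InertTorsStatement` at the levels
satisfying `P` implies `InertTorsStatement` at every level prime to `q`. -/
theorem inertTors_of_pred (P : ℕ → ℕ → Prop)
    (hP : ∀ M q : ℕ, M ≠ 0 → q.Prime → ¬ q ∣ M →
      ∃ d : ℕ, d ≠ 0 ∧ Nat.Coprime d q ∧ P q (M * d))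
    (hAux : ∀ (M q : ℕ) [NeZero M] [NeZero q], q.Prime → ¬ q ∣ M → P q M →
      Plan.InertTorsStatement M q) :
    ∀ (M q : ℕ) [NeZero M] [NeZero q], q.Prime → ¬ q ∣ M → Plan.InertTorsStatement M q := by
  intro M q _ _ hq hqM
  obtain ⟨d, hd0, hdq, hPd⟩ := hP M q (NeZero.ne M) hq hqM
  have : NeZero d := ⟨hd0⟩
  have h₁ : M * q * q ∣ M * d * q * q :=
    Nat.mul_dvd_mul_right (Nat.mul_dvd_mul_right (Dvd.intro d rfl) q) q
  have h₂ : M * q ∣ M * d * q := Nat.mul_dvd_mul_right (Dvd.intro d rfl) q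
  have hqMd : ¬ q ∣ M * d := by
    intro hdiv
    rcases (Nat.Prime.dvd_mul hq).1 hdiv with h | h
    · exact hqM h
    · have h1 : q ∣ Nat.gcd d q := Nat.dvd_gcd h dvd_rfl
      rw [hdq] at h1
      exact hq.one_lt.ne' (Nat.dvd_one.1 h1)
  exact AuxTop.inertTors_of_level h₁ h₂
    (fun f => (AuxNormCompat.normCompat M q d hq hdq h₁ h₂ f).1)
    (fun f => (AuxNormCompat.normCompat M q d hq hdq h₁ h₂ f).2) (hAux (M * d) q hq hqMd hPd)

/-- (P3) at the levels satisfying `P` ⟹ (P1) at every level prime to `q`. -/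
theorem inertTors_of_pred_kummerPow (P : ℕ → ℕ → Prop)
    (hP : ∀ M q : ℕ, M ≠ 0 → q.Prime → ¬ q ∣ M →
      ∃ d : ℕ, d ≠ 0 ∧ Nat.Coprime d q ∧ P q (M * d))
    (hK : ∀ (M q : ℕ) [NeZero M] [NeZero q] [Fact q.Prime], ¬ q ∣ M → P q M →
      ∃ c : ℕ, c ≠ 0 ∧ Plan.KummerPowStatement M q c) :
    ∀ (M q : ℕ) [NeZero M] [NeZero q], q.Prime → ¬ q ∣ M → Plan.InertTorsStatement M q :=
  inertTors_of_pred P hP fun M q _ _ hq hqM hPM => by
    have : Fact q.Prime := ⟨hq⟩
    obtain ⟨c, hc, hKc⟩ := hK M q hqM hPM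
    exact FJ36.inertTors_of_kummerPow M q c hc hKc

/-- (P5) at the levels satisfying `P` ⟹ (P1) at every level prime to `q`. -/
theorem inertTors_of_pred_coreData (P : ℕ → ℕ → Prop)
    (hP : ∀ M q : ℕ, M ≠ 0 → q.Prime → ¬ q ∣ M →
      ∃ d : ℕ, d ≠ 0 ∧ Nat.Coprime d q ∧ P q (M * d))
    (hC : ∀ (M q : ℕ) [NeZero M] [NeZero q] [Fact q.Prime], ¬ q ∣ M → P q M →
      ∃ e : ℕ, e ≠ 0 ∧ Plan.CoreDataStatement M q e) :
    ∀ (M q : ℕ) [NeZero M] [NeZero q], q.Prime → ¬ q ∣ M → Plan.InertTorsStatement M q :=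
  inertTors_of_pred_kummerPow P hP fun M q _ _ _ hqM hPM => by
    obtain ⟨e, he, hCe⟩ := hC M q hqM hPM
    exact ⟨e, he, Plan.kummerPow_of_coreData M q e hCe⟩

/-- (P1) at the levels satisfying `P` ⟹ the geometric target of [TOP36]. -/
theorem invKillStatement_of_pred_inertTors (P : ℕ → ℕ → Prop)
    (hP : ∀ M q : ℕ, M ≠ 0 → q.Prime → ¬ q ∣ M →
      ∃ d : ℕ, d ≠ 0 ∧ Nat.Coprime d q ∧ P q (M * d))
    (hAux : ∀ (M q : ℕ) [NeZero M] [NeZero q], q.Prime → ¬ q ∣ M → P q M →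
      Plan.InertTorsStatement M q) :
    TopPlan.InvKillStatement :=
  FJ36Top.invKillStatement_of_inertTors (inertTors_of_pred P hP hAux)

/-- (P3) at the levels satisfying `P` ⟹ the geometric target of [TOP36]. -/
theorem invKillStatement_of_pred_kummerPow (P : ℕ → ℕ → Prop)
    (hP : ∀ M q : ℕ, M ≠ 0 → q.Prime → ¬ q ∣ M →
      ∃ d : ℕ, d ≠ 0 ∧ Nat.Coprime d q ∧ P q (M * d))
    (hK : ∀ (M q : ℕ) [NeZero M] [NeZero q] [Fact q.Prime], ¬ q ∣ M → P q M →
      ∃ c : ℕ, c ≠ 0 ∧ Plan.KummerPowStatement M q c) :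
    TopPlan.InvKillStatement :=
  FJ36Top.invKillStatement_of_inertTors (inertTors_of_pred_kummerPow P hP hK)

/-- (P5) at the levels satisfying `P` ⟹ the geometric target of [TOP36]. -/
theorem invKillStatement_of_pred_coreData (P : ℕ → ℕ → Prop)
    (hP : ∀ M q : ℕ, M ≠ 0 → q.Prime → ¬ q ∣ M →
      ∃ d : ℕ, d ≠ 0 ∧ Nat.Coprime d q ∧ P q (M * d))
    (hC : ∀ (M q : ℕ) [NeZero M] [NeZero q] [Fact q.Prime], ¬ q ∣ M → P q M →
      ∃ e : ℕ, e ≠ 0 ∧ Plan.CoreDataStatement M q e) :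
    TopPlan.InvKillStatement :=
  FJ36Top.invKillStatement_of_inertTors (inertTors_of_pred_coreData P hP hC)

/-- The multiplier for a divisibility predicate: if `N₀ ≠ 0` is prime to `q`, then `d := N₀` is a
nonzero multiplier prime to `q` with `N₀ ∣ M * d`. -/
theorem exists_aux_mul (N₀ M q : ℕ) (hN₀ : N₀ ≠ 0) (hq : Nat.Coprime N₀ q) :
    ∃ d : ℕ, d ≠ 0 ∧ Nat.Coprime d q ∧ N₀ ∣ M * d :=
  ⟨N₀, hN₀, hq, Dvd.intro_left M rfl⟩

end Fermat.Agent.S36.AuxGen
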