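/-
S36 — block [AUX] (helper84), lattice side: passage to an auxiliary level.

For `N ∣ L`:
* `inclLe h : Γ₀(L) →* Γ₀(N)`, `resLe h u` (restriction of a homomorphism), `resLpar h`
  (restriction of integral parabolic classes);
* `wit_resLe` : a witness `y` of `u` at level `N` is a witness of `resLe h u` at level `L`;
* `tr₁_resLe`, `tr₂_resLe` : for `q` prime, `q ∣ M`, `r` prime to `q`, the transfers from level
  `M q` to level `M` commute with restriction to the levels `(M r) q`, `M r`.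
-/
import Mathlib
import Fermat.Agent.S29.KPlanDefs
import Fermat.Agent.S29.K1Gen
import Fermat.Agent.S41.Defs

set_option autoImplicit false

open CongruenceSubgroup ModularCurve UpperHalfPlane
open scoped MatrixGroups ModularForm

namespace Fermat.Agent.S36.AuxRes

open Fermat.Agent.S41 (Lpar incl₁ incl₂ tr₁ tr₂ transferAlong)
open Fermat.Agent.S29 (Qb)
open Fermat.Agent.S29.K (MFchi Mchi qx)
open Fermat.Agent.S29.KPlan (Wit chiU)
open Fermat.Agent.S24 (embC)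

noncomputable section

variable {A : Type*} [AddCommGroup A]

/-! ### Restriction -/

/-- `Γ₀(L) ≤ Γ₀(N)` for `N ∣ L`. -/
theorem gamma0_le {N L : ℕ} (h : N ∣ L) : Gamma0 L ≤ Gamma0 N :=
  Fermat.Agent.S29.K.K1Gen.Gamma0_le_of_dvd h

/-- the inclusion `Γ₀(L) → Γ₀(N)`, `N ∣ L`. -/
def inclLe {N L : ℕ} (h : N ∣ L) : Gamma0 L →* Gamma0 N := Subgroup.inclusion (gamma0_le h)

theorem inclLe_coe {N L : ℕ} (h : N ∣ L) (γ : Gamma0 L) :
    ((inclLe h γ : Gamma0 N) : SL(2, ℤ)) = γ := rfl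

/-- restriction of a homomorphism on `Γ₀(N)` to `Γ₀(L)`, `N ∣ L`. -/
def resLe {N L : ℕ} (h : N ∣ L) (u : Additive (Gamma0 N) →+ A) : Additive (Gamma0 L) →+ A :=
  u.comp (MonoidHom.toAdditive (inclLe h))

theorem resLe_apply {N L : ℕ} (h : N ∣ L) (u : Additive (Gamma0 N) →+ A) (γ : Gamma0 L) :
    resLe h u (Additive.ofMul γ) = u (Additive.ofMul (inclLe h γ)) := rfl

theorem resLe_add {N L : ℕ} (h : N ∣ L) (u v : Additive (Gamma0 N) →+ A) :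
    resLe h (u + v) = resLe h u + resLe h v := rfl

theorem resLe_zero {N L : ℕ} (h : N ∣ L) : resLe h (0 : Additive (Gamma0 N) →+ A) = 0 := rfl

theorem resLe_mem_Lpar {N L : ℕ} (h : N ∣ L) {u : Additive (Gamma0 N) →+ ℤ} (hu : u ∈ Lpar N) :
    resLe h u ∈ Lpar L := fun γ hγ => hu (inclLe h γ) hγ

/-- restriction of integral parabolic classes. -/
def resLpar {N L : ℕ} (h : N ∣ L) : Lpar N →ₗ[ℤ] Lpar L where
  toFun u := ⟨resLe h (u : Additive (Gamma0 N) →+ ℤ), resLe_mem_Lpar h u.2⟩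
  map_add' _ _ := rfl
  map_smul' _ _ := rfl

@[simp]
theorem coe_resLpar {N L : ℕ} (h : N ∣ L) (u : Lpar N) :
    ((resLpar h u : Lpar L) : Additive (Gamma0 L) →+ ℤ) =
      resLe h (u : Additive (Gamma0 N) →+ ℤ) := rfl

/-! ### Witnesses -/

theorem chiU_resLe {N L : ℕ} (h : N ∣ L) (p : ℕ) (u : Additive (Gamma0 N) →+ ℤ) :
    chiU p (resLe h u) = (chiU p u).comp (inclLe h) := rfl

/-- forms with multiplier at level `N` are forms with the restricted multiplier at level `L`. -/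
theorem MFchi_le {N L : ℕ} (h : N ∣ L) (w : ℤ) (χ : ↥(Gamma0 N) →* ℂˣ) {F : ℍ → ℂ}
    (hF : F ∈ MFchi N w χ) : F ∈ MFchi L w (χ.comp (inclLe h)) :=
  ⟨hF.1, fun γ => hF.2.1 (inclLe h γ), hF.2.2⟩

/-- the witness class at level `N` is contained in the witness class at level `L`. -/
theorem Mchi_le {N L : ℕ} [NeZero N] [NeZero L] (h : N ∣ L) (χ : ↥(Gamma0 N) →* ℂˣ)
    {x : LaurentSeries ℂ} (hx : x ∈ Mchi N χ) : x ∈ Mchi L (χ.comp (inclLe h)) := by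
  obtain ⟨w, F, B, hF, hB, hB0, hx⟩ := hx
  exact ⟨w, F, B, MFchi_le h w χ hF, Fermat.Agent.S29.K.K1Gen.MF_le_of_dvd h w hB, hB0, hx⟩

/-- **a witness at level `N` is a witness at level `L`** (`N ∣ L`) for the restricted class. -/
theorem wit_resLe {N L : ℕ} [NeZero N] [NeZero L] (h : N ∣ L) {m : ℕ}
    {u : Additive (Gamma0 N) →+ ℤ} {y : LaurentSeries Qb} (hy : Wit N m u y) :
    Wit L m (resLe h u) y := by
  refine ⟨hy.1, ?_⟩
  rw [chiU_resLe]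
  exact Mchi_le h _ hy.2

/-! ### Transfer and restriction: the abstract square -/

/-- Transfer commutes with restriction along a commutative square of injective homomorphisms
as soon as a system of representatives upstairs maps to a system of representatives downstairs. -/
theorem transferAlong_res {G H G' H' : Type*} [Group G] [Group H] [Group G'] [Group H']
    (f : H →* G) (hf : Function.Injective f) (f' : H' →* G') (hf' : Function.Injective f')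
    (a : G' →* G) (b : H' →* H) (hsq : ∀ x, f (b x) = a (f' x))
    {ι : Type*} [Fintype ι] (r : ι → G')
    (hcov' : ∀ g : G', ∃ i, ∃ h : H', g = f' h * r i)
    (hinj' : ∀ i j, (∃ h : H', r i = f' h * r j) → i = j)
    (hcov : ∀ g : G, ∃ i, ∃ h : H, g = f h * a (r i))
    (hinj : ∀ i j, (∃ h : H, a (r i) = f h * a (r j)) → i = j)
    (ψ : Additive H →+ A) (γ : G') :
    transferAlong f ψ (Additive.ofMul (a γ)) =
      transferAlong f' (ψ.comp (MonoidHom.toAdditive b)) (Additive.ofMul γ) := by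
  have h1 : ∀ i, ∃ j, ∃ h : H', r i * γ = f' h * r j := fun i => hcov' (r i * γ)
  choose σ part hspec using h1
  rw [Fermat.Agent.S41.transferAlong_apply_of_reps f' hf' r hcov' hinj' γ σ part hspec,
    Fermat.Agent.S41.transferAlong_apply_of_reps f hf (fun i => a (r i)) hcov hinj (a γ) σ
      (fun i => b (part i)) (fun i => by rw [← map_mul, hspec i, map_mul, hsq])]
  rfl

/-! ### Two explicit systems of representatives (`q` prime, `q ∣ M`) -/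

theorem mulE (X Y : SL(2, ℤ)) (i j : Fin 2) : (X * Y) i j = X i 0 * Y 0 j + X i 1 * Y 1 j := by
  rw [Matrix.SpecialLinearGroup.coe_mul, Matrix.mul_apply, Fin.sum_univ_two]

/-- `[[1, 0],[k, 1]]`. -/
def lowMat (k : ℤ) : SL(2, ℤ) := ⟨!![1, 0; k, 1], by rw [Matrix.det_fin_two_of]; ring⟩

/-- `[[1, k],[0, 1]]`. -/
def upMat (k : ℤ) : SL(2, ℤ) := ⟨!![1, k; 0, 1], by rw [Matrix.det_fin_two_of]; ring⟩

theorem lowMat_mem {M : ℕ} {k : ℤ} (h : (M : ℤ) ∣ k) : lowMat k ∈ Gamma0 M := by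
  rw [Fermat.Agent.S16.mem_Gamma0_iff_dvd]
  exact h

theorem upMat_mem (M : ℕ) (k : ℤ) : upMat k ∈ Gamma0 M := by
  rw [Fermat.Agent.S16.mem_Gamma0_iff_dvd]
  exact dvd_zero _

/-- `g * [[1, 0],[-k, 1]]`. -/
def covLow (g : SL(2, ℤ)) (k : ℤ) : SL(2, ℤ) :=
  ⟨!![g 0 0 - g 0 1 * k, g 0 1; g 1 0 - g 1 1 * k, g 1 1], by
    have h := g.det_coe
    rw [Matrix.det_fin_two] at h
    rw [Matrix.det_fin_two_of]
    linear_combination h⟩

theorem covLow_mul (g : SL(2, ℤ)) (k : ℤ) : covLow g k * lowMat k = g := by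
  apply Subtype.ext
  ext i j
  have h := mulE (covLow g k) (lowMat k) i j
  fin_cases i <;> fin_cases j
  · refine h.trans ?_
    show (g 0 0 - g 0 1 * k) * 1 + g 0 1 * k = g 0 0
    ring
  · refine h.trans ?_
    show (g 0 0 - g 0 1 * k) * 0 + g 0 1 * 1 = g 0 1
    ring
  · refine h.trans ?_
    show (g 1 0 - g 1 1 * k) * 1 + g 1 1 * k = g 1 0
    ring
  · refine h.trans ?_
    show (g 1 0 - g 1 1 * k) * 0 + g 1 1 * 1 = g 1 1
    ring

section Reps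

variable (M q : ℕ)

/-- the representatives `[[1,0],[M s t,1]]`, `t : ZMod q`, of `Γ₀(M q) \ Γ₀(M)`. -/
def repLow (s : ℕ) (t : ZMod q) : Gamma0 M :=
  ⟨lowMat ((M : ℤ) * s * (t.val : ℤ)), lowMat_mem ⟨s * (t.val : ℤ), by ring⟩⟩

theorem repLow_cov (hq : q.Prime) (hqM : q ∣ M) (s : ℕ) (hs : ¬ q ∣ s) (g : Gamma0 M) :
    ∃ t : ZMod q, ∃ h : Gamma0 (M * q), g = incl₁ M q h * repLow M q s t := by
  have : Fact q.Prime := ⟨hq⟩
  have : NeZero q := ⟨hq.ne_zero⟩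
  obtain ⟨c', hc'⟩ : (M : ℤ) ∣ (g : SL(2, ℤ)) 1 0 := Fermat.Agent.S16.mem_Gamma0_iff_dvd.mp g.2
  have hdet := (g : SL(2, ℤ)).det_coe
  rw [Matrix.det_fin_two] at hdet
  obtain ⟨a, ha⟩ : ∃ a : ℤ, a = (g : SL(2, ℤ)) 0 0 := ⟨_, rfl⟩
  obtain ⟨b, hb⟩ : ∃ b : ℤ, b = (g : SL(2, ℤ)) 0 1 := ⟨_, rfl⟩
  obtain ⟨c, hc⟩ : ∃ c : ℤ, c = (g : SL(2, ℤ)) 1 0 := ⟨_, rfl⟩
  obtain ⟨d, hd⟩ : ∃ d : ℤ, d = (g : SL(2, ℤ)) 1 1 := ⟨_, rfl⟩
  have hdet' : a * d - b * c = 1 := by rw [ha, hb, hc, hd]; exact hdet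
  have hcc : c = (M : ℤ) * c' := by rw [hc]; exact hc'
  have hqc : ((c : ℤ) : ZMod q) = 0 := by
    rw [ZMod.intCast_zmod_eq_zero_iff_dvd]
    exact (Int.natCast_dvd_natCast.mpr hqM).trans ⟨c', hcc⟩
  have had : ((a : ℤ) : ZMod q) * ((d : ℤ) : ZMod q) = 1 := by
    have h := congrArg (fun x : ℤ => (x : ZMod q)) hdet'
    simp only [Int.cast_sub, Int.cast_mul, Int.cast_one] at h
    rw [hqc, mul_zero, sub_zero] at h
    exact h
  have hs0 : ((s : ℕ) : ZMod q) ≠ 0 := fun h => hs ((ZMod.natCast_eq_zero_iff s q).mp h)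
  obtain ⟨t, ht⟩ : ∃ t : ZMod q, t = (c' : ZMod q) * ((a : ℤ) : ZMod q) * ((s : ZMod q))⁻¹ :=
    ⟨_, rfl⟩
  have hkey : (q : ℤ) ∣ c' - d * (s * (t.val : ℤ)) := by
    rw [← ZMod.intCast_zmod_eq_zero_iff_dvd]
    push_cast
    rw [ZMod.natCast_zmod_val, ht]
    have e : ((d : ℤ) : ZMod q) * ((s : ZMod q) * ((c' : ZMod q) * ((a : ℤ) : ZMod q) *
        (s : ZMod q)⁻¹)) = (c' : ZMod q) * (((a : ℤ) : ZMod q) * ((d : ℤ) : ZMod q)) *
          ((s : ZMod q) * (s : ZMod q)⁻¹) := by ring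
    rw [e, had, mul_inv_cancel₀ hs0]
    ring
  refine ⟨t, ⟨covLow (g : SL(2, ℤ)) ((M : ℤ) * s * (t.val : ℤ)), ?_⟩, ?_⟩
  · rw [Fermat.Agent.S16.mem_Gamma0_iff_dvd]
    show ((M * q : ℕ) : ℤ) ∣
      (g : SL(2, ℤ)) 1 0 - (g : SL(2, ℤ)) 1 1 * ((M : ℤ) * s * (t.val : ℤ))
    obtain ⟨e, he⟩ := hkey
    refine ⟨e, ?_⟩
    rw [← hc, ← hd, hcc]
    push_cast
    linear_combination (M : ℤ) * he
  · apply Subtype.ext
    exact (covLow_mul (g : SL(2, ℤ)) _).symm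

theorem repLow_inj [NeZero M] (hq : q.Prime) (s : ℕ) (hs : ¬ q ∣ s) (i j : ZMod q)
    (h : ∃ h : Gamma0 (M * q), repLow M q s i = incl₁ M q h * repLow M q s j) : i = j := by
  have : Fact q.Prime := ⟨hq⟩
  have : NeZero q := ⟨hq.ne_zero⟩
  obtain ⟨h, hh⟩ := h
  have hmat : lowMat ((M : ℤ) * s * (i.val : ℤ)) =
      (h : SL(2, ℤ)) * lowMat ((M : ℤ) * s * (j.val : ℤ)) := congrArg Subtype.val hh
  have e11 : (1 : ℤ) = (h : SL(2, ℤ)) 1 0 * 0 + (h : SL(2, ℤ)) 1 1 * 1 :=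
    (congrArg (fun X : SL(2, ℤ) => X 1 1) hmat).trans (mulE _ _ 1 1)
  have e10 : (M : ℤ) * s * (i.val : ℤ) =
      (h : SL(2, ℤ)) 1 0 * 1 + (h : SL(2, ℤ)) 1 1 * ((M : ℤ) * s * (j.val : ℤ)) :=
    (congrArg (fun X : SL(2, ℤ) => X 1 0) hmat).trans (mulE _ _ 1 0)
  have h11 : (h : SL(2, ℤ)) 1 1 = 1 := by linarith
  have h10 : (h : SL(2, ℤ)) 1 0 = (M : ℤ) * s * ((i.val : ℤ) - (j.val : ℤ)) := by
    rw [h11] at e10
    linarith
  obtain ⟨e, he⟩ : ((M * q : ℕ) : ℤ) ∣ (h : SL(2, ℤ)) 1 0 :=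
    Fermat.Agent.S16.mem_Gamma0_iff_dvd.mp h.2
  have hM0 : (M : ℤ) ≠ 0 := by exact_mod_cast NeZero.ne M
  have h1 : (s : ℤ) * ((i.val : ℤ) - (j.val : ℤ)) = (q : ℤ) * e := by
    apply mul_left_cancel₀ hM0
    rw [← mul_assoc, ← h10, he]
    push_cast
    ring
  have h2 := congrArg (fun x : ℤ => (x : ZMod q)) h1
  simp only [Int.cast_mul, Int.cast_sub, Int.cast_natCast, ZMod.natCast_zmod_val,
    ZMod.natCast_self, zero_mul] at h2
  have hs0 : ((s : ℕ) : ZMod q) ≠ 0 := fun h => hs ((ZMod.natCast_eq_zero_iff s q).mp h)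
  exact sub_eq_zero.mp ((mul_eq_zero.mp h2).resolve_left hs0)

/-- the representatives `[[1,t],[0,1]]`, `t : ZMod q`, of `incl₂(Γ₀(M q)) \ Γ₀(M)` (`q ∣ M`). -/
def repUp (t : ZMod q) : Gamma0 M := ⟨upMat (t.val : ℤ), upMat_mem M _⟩

theorem repUp_cov (hq : q.Prime) (hqM : q ∣ M) (g : Gamma0 M) :
    ∃ t : ZMod q, ∃ h : Gamma0 (M * q), g = incl₂ M q h * repUp M q t := by
  have : Fact q.Prime := ⟨hq⟩
  have : NeZero q := ⟨hq.ne_zero⟩
  have hq0 : (q : ℤ) ≠ 0 := by exact_mod_cast hq.ne_zero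
  obtain ⟨c', hc'⟩ : (M : ℤ) ∣ (g : SL(2, ℤ)) 1 0 := Fermat.Agent.S16.mem_Gamma0_iff_dvd.mp g.2
  have hdet := (g : SL(2, ℤ)).det_coe
  rw [Matrix.det_fin_two] at hdet
  obtain ⟨a, ha⟩ : ∃ a : ℤ, a = (g : SL(2, ℤ)) 0 0 := ⟨_, rfl⟩
  obtain ⟨b, hb⟩ : ∃ b : ℤ, b = (g : SL(2, ℤ)) 0 1 := ⟨_, rfl⟩
  obtain ⟨c, hc⟩ : ∃ c : ℤ, c = (g : SL(2, ℤ)) 1 0 := ⟨_, rfl⟩
  obtain ⟨d, hd⟩ : ∃ d : ℤ, d = (g : SL(2, ℤ)) 1 1 := ⟨_, rfl⟩
  have hdet' : a * d - b * c = 1 := by rw [ha, hb, hc, hd]; exact hdet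
  have hcc : c = (M : ℤ) * c' := by rw [hc]; exact hc'
  have hqc : ((c : ℤ) : ZMod q) = 0 := by
    rw [ZMod.intCast_zmod_eq_zero_iff_dvd]
    exact (Int.natCast_dvd_natCast.mpr hqM).trans ⟨c', hcc⟩
  have had : ((a : ℤ) : ZMod q) * ((d : ℤ) : ZMod q) = 1 := by
    have h := congrArg (fun x : ℤ => (x : ZMod q)) hdet'
    simp only [Int.cast_sub, Int.cast_mul, Int.cast_one] at h
    rw [hqc, mul_zero, sub_zero] at h
    exact h
  obtain ⟨t, ht⟩ : ∃ t : ZMod q, t = ((b : ℤ) : ZMod q) * ((d : ℤ) : ZMod q) := ⟨_, rfl⟩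
  have hkey : (q : ℤ) ∣ b - a * (t.val : ℤ) := by
    rw [← ZMod.intCast_zmod_eq_zero_iff_dvd]
    push_cast
    rw [ZMod.natCast_zmod_val, ht]
    have e : ((a : ℤ) : ZMod q) * (((b : ℤ) : ZMod q) * ((d : ℤ) : ZMod q)) =
        ((b : ℤ) : ZMod q) * (((a : ℤ) : ZMod q) * ((d : ℤ) : ZMod q)) := by ring
    rw [e, had]
    ring
  obtain ⟨k, hk⟩ := hkey
  -- the element of `Γ₀(M q)`
  obtain ⟨hm, hhm⟩ : ∃ hm : SL(2, ℤ), hm = ⟨!![a, k; (q : ℤ) * c, d - c * (t.val : ℤ)], by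
      rw [Matrix.det_fin_two_of]
      linear_combination hdet' + c * hk⟩ := ⟨_, rfl⟩
  have hm00 : hm 0 0 = a := by rw [hhm]; rfl
  have hm01 : hm 0 1 = k := by rw [hhm]; rfl
  have hm10 : hm 1 0 = (q : ℤ) * c := by rw [hhm]; rfl
  have hm11 : hm 1 1 = d - c * (t.val : ℤ) := by rw [hhm]; rfl
  have hmem : hm ∈ Gamma0 (M * q) := by
    rw [Fermat.Agent.S16.mem_Gamma0_iff_dvd, hm10, hcc]
    exact ⟨c', by push_cast; ring⟩
  refine ⟨t, ⟨hm, hmem⟩, ?_⟩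
  obtain ⟨e00, e01, e10, e11⟩ := Fermat.Agent.S41.incl₂_entries M q (⟨hm, hmem⟩ : Gamma0 (M * q))
  have e10' : ((incl₂ M q ⟨hm, hmem⟩ : Gamma0 M) : SL(2, ℤ)) 1 0 = c := by
    apply mul_left_cancel₀ hq0
    rw [e10]
    exact hm10
  apply Subtype.ext
  apply Subtype.ext
  ext i j
  have h := mulE ((incl₂ M q ⟨hm, hmem⟩ : Gamma0 M) : SL(2, ℤ)) (upMat (t.val : ℤ)) i j
  fin_cases i <;> fin_cases j
  · refine Eq.trans ?_ h.symm
    show (g : SL(2, ℤ)) 0 0 = ((incl₂ M q ⟨hm, hmem⟩ : Gamma0 M) : SL(2, ℤ)) 0 0 * 1 +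
      ((incl₂ M q ⟨hm, hmem⟩ : Gamma0 M) : SL(2, ℤ)) 0 1 * 0
    rw [e00]
    show (g : SL(2, ℤ)) 0 0 = hm 0 0 * 1 + _ * 0
    rw [hm00, ← ha]
    ring
  · refine Eq.trans ?_ h.symm
    show (g : SL(2, ℤ)) 0 1 = ((incl₂ M q ⟨hm, hmem⟩ : Gamma0 M) : SL(2, ℤ)) 0 0 * (t.val : ℤ) +
      ((incl₂ M q ⟨hm, hmem⟩ : Gamma0 M) : SL(2, ℤ)) 0 1 * 1
    rw [e00, e01]
    show (g : SL(2, ℤ)) 0 1 = hm 0 0 * (t.val : ℤ) + (q : ℤ) * hm 0 1 * 1
    rw [hm00, hm01, ← hb]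
    linear_combination hk
  · refine Eq.trans ?_ h.symm
    show (g : SL(2, ℤ)) 1 0 = ((incl₂ M q ⟨hm, hmem⟩ : Gamma0 M) : SL(2, ℤ)) 1 0 * 1 +
      ((incl₂ M q ⟨hm, hmem⟩ : Gamma0 M) : SL(2, ℤ)) 1 1 * 0
    rw [e10', ← hc]
    ring
  · refine Eq.trans ?_ h.symm
    show (g : SL(2, ℤ)) 1 1 = ((incl₂ M q ⟨hm, hmem⟩ : Gamma0 M) : SL(2, ℤ)) 1 0 * (t.val : ℤ) +
      ((incl₂ M q ⟨hm, hmem⟩ : Gamma0 M) : SL(2, ℤ)) 1 1 * 1
    rw [e10', e11]
    show (g : SL(2, ℤ)) 1 1 = c * (t.val : ℤ) + hm 1 1 * 1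
    rw [hm11, ← hd]
    ring

theorem repUp_inj (hq : q.Prime) (i j : ZMod q)
    (h : ∃ h : Gamma0 (M * q), repUp M q i = incl₂ M q h * repUp M q j) : i = j := by
  have : Fact q.Prime := ⟨hq⟩
  have : NeZero q := ⟨hq.ne_zero⟩
  obtain ⟨h, hh⟩ := h
  obtain ⟨e00, e01, -, -⟩ := Fermat.Agent.S41.incl₂_entries M q h
  have hmat : upMat (i.val : ℤ) =
      ((incl₂ M q h : Gamma0 M) : SL(2, ℤ)) * upMat (j.val : ℤ) := congrArg Subtype.val hh
  have h00 : (1 : ℤ) = ((incl₂ M q h : Gamma0 M) : SL(2, ℤ)) 0 0 * 1 +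
      ((incl₂ M q h : Gamma0 M) : SL(2, ℤ)) 0 1 * 0 :=
    (congrArg (fun X : SL(2, ℤ) => X 0 0) hmat).trans (mulE _ _ 0 0)
  have h01 : (i.val : ℤ) = ((incl₂ M q h : Gamma0 M) : SL(2, ℤ)) 0 0 * (j.val : ℤ) +
      ((incl₂ M q h : Gamma0 M) : SL(2, ℤ)) 0 1 * 1 :=
    (congrArg (fun X : SL(2, ℤ) => X 0 1) hmat).trans (mulE _ _ 0 1)
  rw [e01] at h01
  have h1 : ((incl₂ M q h : Gamma0 M) : SL(2, ℤ)) 0 0 = 1 := by linarith
  rw [h1] at h01
  have h2 := congrArg (fun x : ℤ => (x : ZMod q)) h01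
  simp only [Int.cast_add, Int.cast_mul, Int.cast_natCast, ZMod.natCast_zmod_val,
    ZMod.natCast_self, zero_mul, one_mul, mul_one, add_zero] at h2
  exact h2

end Reps

/-! ### The transfers commute with restriction to the auxiliary level -/

/-- **`tr₁` commutes with restriction**: for `q` prime, `q ∣ M`, `q ∤ r`, the transfer from level
`M q` to level `M` along the inclusion, restricted to `Γ₀(M r)`, is the transfer from level
`(M r) q` to level `M r` of the restricted class. -/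
theorem tr₁_resLe {M q r : ℕ} [NeZero M] (hq : q.Prime) (hqM : q ∣ M) (hr : ¬ q ∣ r)
    (h₁ : M * q ∣ M * r * q) (h₂ : M ∣ M * r) (u : Additive (Gamma0 (M * q)) →+ A) :
    tr₁ (M * r) q (resLe h₁ u) = resLe h₂ (tr₁ M q u) := by
  have hq0 : NeZero q := ⟨hq.ne_zero⟩
  have hr0 : r ≠ 0 := fun h => hr (h ▸ dvd_zero q)
  have hMr : NeZero (M * r) := ⟨mul_ne_zero (NeZero.ne M) hr0⟩
  have h1 : ¬ q ∣ 1 := fun h => hq.one_lt.ne' (Nat.dvd_one.mp h)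
  have hrep : ∀ t : ZMod q, inclLe h₂ (repLow (M * r) q 1 t) = repLow M q r t := by
    intro t
    apply Subtype.ext
    show lowMat (((M * r : ℕ) : ℤ) * ((1 : ℕ) : ℤ) * (t.val : ℤ)) =
      lowMat ((M : ℤ) * (r : ℤ) * (t.val : ℤ))
    congr 1
    push_cast
    ring
  refine AddMonoidHom.ext fun γ => ?_
  obtain ⟨γ, rfl⟩ := Additive.ofMul.surjective γ
  rw [resLe_apply]
  symm
  exact transferAlong_res (incl₁ M q) (Fermat.Agent.S41.incl₁_injective M q) (incl₁ (M * r) q)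
    (Fermat.Agent.S41.incl₁_injective (M * r) q) (inclLe h₂) (inclLe h₁) (fun _ => rfl)
    (repLow (M * r) q 1)
    (repLow_cov (M * r) q hq (hqM.trans (dvd_mul_right M r)) 1 h1)
    (repLow_inj (M * r) q hq 1 h1)
    (fun g => by
      obtain ⟨t, h, hg⟩ := repLow_cov M q hq hqM r hr g
      exact ⟨t, h, by rw [hrep]; exact hg⟩)
    (fun i j h => by
      apply repLow_inj M q hq r hr i j
      obtain ⟨h, hh⟩ := h
      rw [hrep, hrep] at hh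
      exact ⟨h, hh⟩)
    u γ

/-- **`tr₂` commutes with restriction** (same hypotheses; `r` need not be prime to `q` here). -/
theorem tr₂_resLe {M q r : ℕ} (hq : q.Prime) (hqM : q ∣ M)
    (h₁ : M * q ∣ M * r * q) (h₂ : M ∣ M * r) (u : Additive (Gamma0 (M * q)) →+ A) :
    tr₂ (M * r) q (resLe h₁ u) = resLe h₂ (tr₂ M q u) := by
  have hq0 : NeZero q := ⟨hq.ne_zero⟩
  have hrep : ∀ t : ZMod q, inclLe h₂ (repUp (M * r) q t) = repUp M q t := fun t => rfl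
  refine AddMonoidHom.ext fun γ => ?_
  obtain ⟨γ, rfl⟩ := Additive.ofMul.surjective γ
  rw [resLe_apply]
  symm
  exact transferAlong_res (incl₂ M q) (Fermat.Agent.S41.incl₂_injective M q hq.ne_zero)
    (incl₂ (M * r) q) (Fermat.Agent.S41.incl₂_injective (M * r) q hq.ne_zero)
    (inclLe h₂) (inclLe h₁) (fun _ => rfl)
    (repUp (M * r) q)
    (repUp_cov (M * r) q hq (hqM.trans (dvd_mul_right M r)))
    (repUp_inj (M * r) q hq)
    (fun g => by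
      obtain ⟨t, h, hg⟩ := repUp_cov M q hq hqM g
      exact ⟨t, h, by rw [hrep]; exact hg⟩)
    (fun i j h => by
      apply repUp_inj M q hq i j
      obtain ⟨h, hh⟩ := h
      rw [hrep, hrep] at hh
      exact ⟨h, hh⟩)
    u γ

/-- **newness passes to the auxiliary level**: a class of level `M q` killed by both transfers to
level `M` restricts to a class of level `(M r) q` killed by both transfers to level `M r`. -/
theorem tr_resLe_eq_zero {M q r : ℕ} [NeZero M] (hq : q.Prime) (hqM : q ∣ M) (hr : ¬ q ∣ r)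
    (h₁ : M * q ∣ M * r * q) (u : Additive (Gamma0 (M * q)) →+ A)
    (hu₁ : tr₁ M q u = 0) (hu₂ : tr₂ M q u = 0) :
    tr₁ (M * r) q (resLe h₁ u) = 0 ∧ tr₂ (M * r) q (resLe h₁ u) = 0 := by
  have h₂ : M ∣ M * r := dvd_mul_right M r
  rw [tr₁_resLe hq hqM hr h₁ h₂, tr₂_resLe hq hqM h₁ h₂, hu₁, hu₂]
  exact ⟨resLe_zero h₂, resLe_zero h₂⟩

end

end Fermat.Agent.S36.AuxRes
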