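/-
S36 block [AUX] — AuxNormC.lean (helper37): BASE CHANGE OF THE TWO DEGENERACY NORMS along the
auxiliary level, by the analytic norm (route R1 of [K-tr]).

For a prime `q ∣ M` and `s` prime to `q`, the SAME matrices `[[1,0],[M s t,1]]` (`t : ZMod q`) are
representatives of `Γ₀(M q) \ Γ₀(M)` and of `Γ₀(M s q) \ Γ₀(M s)`, and the same matrices
`[[1,t],[0,1]]` serve both levels along `ι₂`.  Hence a quotient of forms of level `M q` has the
same analytic norm at both levels, and analytic norms are the algebraic norms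
(`KTrGen.inst_along`):

* `rel_norm_of_family`   : generic — an analytic norm along a family `ρ` IS the norm along `φ`;
* `rel_alphaNorm_of_reps`, `rel_betaNorm_of_reps` : the two instances for representatives;
* `alphaNorm_inclBar`    : `N_α (incl f) = incl (N_α f)` (levels `M q ⊂ M s q` over `M ⊂ M s`);
* `betaNorm_inclBar`     : the same along `β`;
* `alphaNorm_inclBar'`, `betaNorm_inclBar'`, `alphaNm_inclBar`, `betaNm_inclBar` : the same with a
  free upper level `L = M * s`, in the `PushPic` and in the `ModelFPlan` vocabulary;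
* `normCond_inclBar`     : `ModelFPlan.NormCond M q m f → ModelFPlan.NormCond L q m (incl f)`.
-/
import Mathlib
import Fermat.Agent.S29.KDefs
import Fermat.Agent.S29.KBasic
import Fermat.Agent.S29.K1Gen
import Fermat.Agent.S24.AnBridge
import Fermat.Agent.S35.RepPair
import Fermat.Agent.S35.PushPic
import Fermat.Agent.S35.ModelFPlan
import Fermat.Agent.S35.SymForms
import Fermat.Agent.S35.TrProdMem
import Fermat.Agent.S35.TrProdMem2
import Fermat.Agent.S35.WitNorm
import Fermat.Agent.S36.KTrGen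
import Fermat.Agent.S36.AuxRes
import Fermat.Agent.S36.AuxPull
import Fermat.Agent.S36.Fricke

set_option autoImplicit false
set_option linter.style.haveILetI false

noncomputable section

namespace Fermat.Agent.S36.AuxNormC

open CongruenceSubgroup UpperHalfPlane ModularForm ModularCurve AlgebraicCurve HahnSeries
open Matrix.SpecialLinearGroup
open scoped MatrixGroups ModularForm Manifold
open Fermat.Agent.S29 Fermat.Agent.S41 Fermat.Agent.S35
open Fermat.Agent.S24 (embC)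

local notation "Qb" => AlgebraicClosure ℚ

/-! ### Analytic norms are norms -/

section Generic

variable (M q : ℕ) [NeZero M] [NeZero q]
variable {ι : Type} [Fintype ι] (ρ : ι → GL (Fin 2) ℝ)
variable (φ : ↥(modularFunctionFieldBar M) →ₐ[Qb] ↥(modularFunctionFieldBar (M * q)))

/-- **An analytic norm along the family `ρ` is the norm along `φ`.** -/
theorem rel_norm_of_family
    (hdet : ∀ x, 0 < (ρ x).det.val)
    (hmem : ∀ (w : ℤ) (A : ℍ → ℂ), A ∈ S20.MF (M * q) w →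
      (∏ x, A ∣[w] ρ x) ∈ S20.MF M (w * (Fintype.card ι : ℤ)))
    (hne : ∀ (w : ℤ) (B : ℍ → ℂ), B ∈ S20.MF (M * q) w → B ≠ 0 → (∏ x, B ∣[w] ρ x) ≠ 0)
    (x₀ : ι) (d : ℕ) [NeZero d] (κ : ℂ) (hκ : κ ≠ 0)
    (hx₀ : ∀ (w : ℤ) (A : ℍ → ℂ) (z : ℍ), (A ∣[w] ρ x₀) (S23.mulN d z) = κ * A z)
    (hfin : FiniteAlong Qb φ) (e' : ↥(K.FC M) →+* LaurentSeries ℂ)
    (he' : (qExpand ℂ d).comp (algebraMap ↥(K.FC M) (LaurentSeries ℂ)) = e')
    (hj : ∀ x : ↥(modularFunctionFieldBar M),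
      IndepLD.jBar M q (φ x) = e' (WitNorm.j0B M x))
    (hind : letI : Algebra ↥(modularFunctionFieldBar M) ↥(modularFunctionFieldBar (M * q)) :=
        algebraAlong φ
      ∀ v : Fin (Module.finrank ↥(modularFunctionFieldBar M)
          ↥(modularFunctionFieldBar (M * q))) → ↥(modularFunctionFieldBar (M * q)),
        LinearIndependent ↥(modularFunctionFieldBar M) v →
        ∀ c : Fin (Module.finrank ↥(modularFunctionFieldBar M)
            ↥(modularFunctionFieldBar (M * q))) → ↥(K.FC M),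
          ∑ i, e' (c i) * IndepLD.jBar M q (v i) = 0 → ∀ i, c i = 0)
    (hdeg : letI : Algebra ↥(modularFunctionFieldBar M) ↥(modularFunctionFieldBar (M * q)) :=
        algebraAlong φ
      Module.finrank ↥(modularFunctionFieldBar M) ↥(modularFunctionFieldBar (M * q)) =
        Fintype.card ι)
    {f : ↥(modularFunctionFieldBar (M * q))} (hf0 : f ≠ 0) {c : LaurentSeries ℂ}
    (hc : RepPair.Rel (M * q) ρ (coeffMap embC (f : LaurentSeries Qb)) c) :
    c = coeffMap embC ((PushPic.normAlong φ f : ↥(modularFunctionFieldBar M)) :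
      LaurentSeries Qb) := by
  have hcmem : c ∈ K.FC M := RepPair.rel_mem_FC hmem hne hc
  have hex : ∀ f : ↥(modularFunctionFieldBar (M * q)), f ≠ 0 → ∃ c : ↥(K.FC M),
      RepPair.Rel (M * q) ρ (coeffMap embC (f : LaurentSeries Qb)) (c : LaurentSeries ℂ) := by
    intro f _
    obtain ⟨c, hc⟩ := RepPair.rel_exists (Nlow := M) hmem hne f
    exact ⟨⟨c, RepPair.rel_mem_FC hmem hne hc⟩, hc⟩
  have hmul : ∀ (f f' : ↥(modularFunctionFieldBar (M * q))) (c c' : ↥(K.FC M)),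
      RepPair.Rel (M * q) ρ (coeffMap embC (f : LaurentSeries Qb)) (c : LaurentSeries ℂ) →
      RepPair.Rel (M * q) ρ (coeffMap embC (f' : LaurentSeries Qb)) (c' : LaurentSeries ℂ) →
      RepPair.Rel (M * q) ρ
        (coeffMap embC ((f * f' : ↥(modularFunctionFieldBar (M * q))) : LaurentSeries Qb))
        ((c * c' : ↥(K.FC M)) : LaurentSeries ℂ) := by
    intro f f' c c' h h'
    have h2 := RepPair.rel_mul (Nlow := M) hdet hmem hne h h'
    rw [← map_mul] at h2
    exact h2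
  have hpoly : ∀ (f : ↥(modularFunctionFieldBar (M * q))) (c : ↥(K.FC M)),
      RepPair.Rel (M * q) ρ (coeffMap embC (f : LaurentSeries Qb)) (c : LaurentSeries ℂ) →
      ∃ P : Polynomial ↥(K.FC M), P.Monic ∧ P.natDegree = Fintype.card ι ∧
        P.eval₂ e' (coeffMap embC (f : LaurentSeries Qb)) = 0 ∧
        P.coeff 0 = (-1) ^ (Fintype.card ι) * c := by
    rintro f c ⟨w', A', B', hA', hB', hB0', hfAB, hcAB⟩
    obtain ⟨P, hP1, hP2, hP3, hP4⟩ := SymForms.exists_poly (Nup := M * q) (Nlow := M) (ρ := ρ)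
      hdet hmem hne x₀ d κ hκ (hx₀ w') hA' hB' hB0' hfAB
    rw [he'] at hP3
    refine ⟨P, hP1, hP2, hP3, ?_⟩
    have hqB' : K.qx (∏ x, B' ∣[w'] ρ x) ≠ 0 :=
      K.qx_ne_zero (K.mem_niceSub_of_mem_MF (hmem w' B' hB')) (hne w' B' hB' hB0')
    apply Subtype.ext
    apply mul_right_cancel₀ hqB'
    rw [hP4]
    push_cast
    rw [mul_assoc, hcAB]
  exact KTrGen.inst_along M q φ hfin e' hj hind (Fintype.card ι) hdeg
    (fun f c => RepPair.Rel (M * q) ρ
      (coeffMap embC (f : LaurentSeries Qb)) (c : LaurentSeries ℂ))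
    hex hmul hpoly hf0 (c := ⟨c, hcmem⟩) hc

end Generic

section Reps

variable (M q : ℕ) [NeZero M] [NeZero q]
variable {ι : Type} [Fintype ι] (r : ι → Gamma0 M)

/-- An analytic norm along representatives of `Γ₀(M q) \ Γ₀(M)` is the norm along `α`. -/
theorem rel_alphaNorm_of_reps
    (hcov : ∀ g : Gamma0 M, ∃ i, ∃ h : Gamma0 (M * q), g = incl₁ M q h * r i)
    (hinj : ∀ i j, (∃ h : Gamma0 (M * q), r i = incl₁ M q h * r j) → i = j)
    (i₀ : ι) (hr0 : r i₀ = 1)
    (hdeg : finrankAlong Qb (heckeAlphaBar Qb M q) = Fintype.card ι)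
    {f : ↥(modularFunctionFieldBar (M * q))} (hf0 : f ≠ 0) {c : LaurentSeries ℂ}
    (hc : RepPair.Rel (M * q) (KTrGen.famA M r) (coeffMap embC (f : LaurentSeries Qb)) c) :
    c = coeffMap embC ((PushPic.alphaNorm M q f : ↥(modularFunctionFieldBar M)) :
      LaurentSeries Qb) :=
  rel_norm_of_family M q (KTrGen.famA M r) (heckeAlphaBar Qb M q)
    (fun x => KTrGen.det_famA_pos M r x)
    (fun _ _ hA => TrProdMem.prod_slash_reps_mem_MF r hcov hinj hA)
    (KTrGen.famA_ne M q r) i₀ 1 1 one_ne_zero (KTrGen.famA_base M r i₀ hr0)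
    (PushPic.alpha_finiteAlong M q) (IndepLD.eAlpha M) (KTrGen.eAlpha_eq M) (KTrGen.hj_alpha M q)
    (KTrGen.hind_alpha M q) hdeg hf0 hc

/-- An analytic norm along representatives of `ι₂(Γ₀(M q)) \ Γ₀(M)` is the norm along `β`. -/
theorem rel_betaNorm_of_reps (hq : q.Prime)
    (hcov : ∀ g : Gamma0 M, ∃ i, ∃ h : Gamma0 (M * q), g = incl₂ M q h * r i)
    (hinj : ∀ i j, (∃ h : Gamma0 (M * q), r i = incl₂ M q h * r j) → i = j)
    (i₀ : ι) (hr0 : r i₀ = 1)
    (hdeg : finrankAlong Qb (heckeBetaBar Qb M q) = Fintype.card ι)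
    {f : ↥(modularFunctionFieldBar (M * q))} (hf0 : f ≠ 0) {c : LaurentSeries ℂ}
    (hc : RepPair.Rel (M * q) (KTrGen.famB M q r) (coeffMap embC (f : LaurentSeries Qb)) c) :
    c = coeffMap embC ((PushPic.betaNorm M q f : ↥(modularFunctionFieldBar M)) :
      LaurentSeries Qb) := by
  haveI : Fact q.Prime := ⟨hq⟩
  have hκ : ((q : ℂ))⁻¹ ≠ 0 := inv_ne_zero (Nat.cast_ne_zero.mpr (NeZero.ne q))
  have hslash : ∀ (w : ℤ) (A : ℍ → ℂ), (∏ x, A ∣[w] KTrGen.famB M q r x) =
      ∏ i, (A ∣[w] heckeMatrix q 0) ∣[w] ((r i : Gamma0 M) : SL(2, ℤ)) :=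
    fun w A => Finset.prod_congr rfl (fun i _ => KTrGen.famB_slash M q r w A i)
  refine rel_norm_of_family M q (KTrGen.famB M q r) (heckeBetaBar Qb M q)
    (fun x => KTrGen.det_famB_pos M q r x)
    (fun w A hA => ?_)
    (KTrGen.famB_ne M q r) i₀ q ((q : ℂ))⁻¹ hκ (KTrGen.famB_base M q r i₀ hr0)
    (PushPic.beta_finiteAlong M q) (IndepLD.eBeta M q) (WitNorm.eBeta_eq M q).symm
    (WitNorm.hj_beta M q) (WitNorm.hind_beta M q) hdeg hf0 hc
  rw [hslash]
  exact TrProdMem2.prod_slash_reps₂_mem_MF r hcov hinj hA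

end Reps

/-! ### The representatives serving both levels -/

section Mats

theorem lowMat_zero : AuxRes.lowMat 0 = 1 := by
  ext i j
  fin_cases i <;> fin_cases j <;> simp [AuxRes.lowMat]

theorem upMat_zero : AuxRes.upMat 0 = 1 := by
  ext i j
  fin_cases i <;> fin_cases j <;> simp [AuxRes.upMat]

theorem repLow_zero (M q s : ℕ) [NeZero q] : AuxRes.repLow M q s 0 = 1 := by
  apply Subtype.ext
  show AuxRes.lowMat ((M : ℤ) * s * (((0 : ZMod q).val : ℕ) : ℤ)) = 1
  rw [ZMod.val_zero]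
  simp [lowMat_zero]

theorem repUp_zero (M q : ℕ) [NeZero q] : AuxRes.repUp M q 0 = 1 := by
  apply Subtype.ext
  show AuxRes.upMat ((((0 : ZMod q).val : ℕ) : ℤ)) = 1
  rw [ZMod.val_zero]
  simp [upMat_zero]

/-- The two systems of `α`-representatives have the same matrices. -/
theorem repLow_coe_eq (M q s : ℕ) (t : ZMod q) :
    ((AuxRes.repLow (M * s) q 1 t : Gamma0 (M * s)) : SL(2, ℤ)) =
      ((AuxRes.repLow M q s t : Gamma0 M) : SL(2, ℤ)) := by
  show AuxRes.lowMat (((M * s : ℕ) : ℤ) * ((1 : ℕ) : ℤ) * (t.val : ℤ)) =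
    AuxRes.lowMat ((M : ℤ) * s * (t.val : ℤ))
  congr 1
  push_cast
  ring

theorem famA_eq (M q s : ℕ) :
    KTrGen.famA (M * s) (AuxRes.repLow (M * s) q 1) = KTrGen.famA M (AuxRes.repLow M q s) := by
  funext t
  unfold KTrGen.famA
  rw [repLow_coe_eq]

theorem famB_eq (M q s : ℕ) :
    KTrGen.famB (M * s) q (AuxRes.repUp (M * s) q) = KTrGen.famB M q (AuxRes.repUp M q) := rfl

end Mats

/-! ### Base change of the norms -/

/-- The norm along `φ` of `0` is `0`. -/
theorem normAlong_zero {K F F' : Type*} [Field K] [Field F] [Field F'] [Algebra K F]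
    [Algebra K F'] (φ : F →ₐ[K] F') (hfin : FiniteAlong K φ) : PushPic.normAlong φ 0 = 0 := by
  letI := algebraAlong φ
  haveI : Module.Finite F F' := hfin
  exact Algebra.norm_zero

section BaseChange

variable (M q s : ℕ) [NeZero M] [NeZero q] [NeZero s]

/-- `N_α 0 = 0`. -/
theorem alphaNorm_zero : PushPic.alphaNorm M q 0 = 0 :=
  normAlong_zero (heckeAlphaBar Qb M q) (PushPic.alpha_finiteAlong M q)

/-- `N_β 0 = 0`. -/
theorem betaNorm_zero : PushPic.betaNorm M q 0 = 0 :=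
  normAlong_zero (heckeBetaBar Qb M q) (PushPic.beta_finiteAlong M q)

/-- **Base change of the norm along `α`** (`q ∣ M` prime, `q ∤ s`): for `f ∈ F̄_{M q}`,
`N_α (f viewed in F̄_{M s q}) = (N_α f viewed in F̄_{M s})`. -/
theorem alphaNorm_inclBar (hq : q.Prime) (hqM : q ∣ M) (hs : ¬ q ∣ s)
    (h₁ : M * q ∣ M * s * q) (h₂ : M ∣ M * s) (f : ↥(modularFunctionFieldBar (M * q))) :
    PushPic.alphaNorm (M * s) q (AuxPull.inclBar h₁ f) =
      AuxPull.inclBar h₂ (PushPic.alphaNorm M q f) := by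
  by_cases hf0 : f = 0
  · rw [hf0, map_zero, alphaNorm_zero, alphaNorm_zero, map_zero]
  have hqMs : q ∣ M * s := Dvd.dvd.mul_right hqM s
  have hcard : Fintype.card (ZMod q) = q := ZMod.card q
  have hcov₀ := AuxRes.repLow_cov M q hq hqM s hs
  have hinj₀ := AuxRes.repLow_inj M q hq s hs
  have hcov₁ := AuxRes.repLow_cov (M * s) q hq hqMs 1 hq.not_dvd_one
  have hinj₁ := AuxRes.repLow_inj (M * s) q hq 1 hq.not_dvd_one
  -- an analytic norm at the lower pair of levels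
  obtain ⟨c, hc⟩ := RepPair.rel_exists (Nup := M * q) (Nlow := M)
    (ρ := KTrGen.famA M (AuxRes.repLow M q s))
    (fun _ _ hA => TrProdMem.prod_slash_reps_mem_MF (AuxRes.repLow M q s) hcov₀ hinj₀ hA)
    (KTrGen.famA_ne M q (AuxRes.repLow M q s)) f
  have e₀ := rel_alphaNorm_of_reps M q (AuxRes.repLow M q s) hcov₀ hinj₀ 0 (repLow_zero M q s)
    ((Fricke.finrank_alpha_of_dvd M q hq hqM).trans hcard.symm) hf0 hc
  -- the same relation at the upper pair of levels
  have hc' : RepPair.Rel (M * s * q) (KTrGen.famA (M * s) (AuxRes.repLow (M * s) q 1))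
      (coeffMap embC ((AuxPull.inclBar h₁ f : ↥(modularFunctionFieldBar (M * s * q))) :
        LaurentSeries Qb)) c := by
    obtain ⟨w, A, B, hA, hB, hB0, hfAB, hcAB⟩ := hc
    refine ⟨w, A, B, K.K1Gen.MF_le_of_dvd h₁ w hA, K.K1Gen.MF_le_of_dvd h₁ w hB, hB0, ?_, ?_⟩
    · rw [AuxPull.coe_inclBar]
      exact hfAB
    · rw [famA_eq]
      exact hcAB
  have hf1 : AuxPull.inclBar h₁ f ≠ 0 := fun h => hf0 ((map_eq_zero (AuxPull.inclBar h₁)).mp h)
  have e₁ := rel_alphaNorm_of_reps (M * s) q (AuxRes.repLow (M * s) q 1) hcov₁ hinj₁ 0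
    (repLow_zero (M * s) q 1)
    ((Fricke.finrank_alpha_of_dvd (M * s) q hq hqMs).trans hcard.symm) hf1 hc'
  apply Subtype.ext
  rw [AuxPull.coe_inclBar]
  exact S24.AnBridge.coeffMap_embC_injective (e₁.symm.trans e₀)

/-- **Base change of the norm along `β`** (`q ∣ M` prime). -/
theorem betaNorm_inclBar (hq : q.Prime) (hqM : q ∣ M)
    (h₁ : M * q ∣ M * s * q) (h₂ : M ∣ M * s) (f : ↥(modularFunctionFieldBar (M * q))) :
    PushPic.betaNorm (M * s) q (AuxPull.inclBar h₁ f) =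
      AuxPull.inclBar h₂ (PushPic.betaNorm M q f) := by
  haveI : Fact q.Prime := ⟨hq⟩
  by_cases hf0 : f = 0
  · rw [hf0, map_zero, betaNorm_zero, betaNorm_zero, map_zero]
  have hqMs : q ∣ M * s := Dvd.dvd.mul_right hqM s
  have hcard : Fintype.card (ZMod q) = q := ZMod.card q
  have hcov₀ := AuxRes.repUp_cov M q hq hqM
  have hinj₀ := AuxRes.repUp_inj M q hq
  have hcov₁ := AuxRes.repUp_cov (M * s) q hq hqMs
  have hinj₁ := AuxRes.repUp_inj (M * s) q hq
  have hslash : ∀ (w : ℤ) (A : ℍ → ℂ), (∏ x, A ∣[w] KTrGen.famB M q (AuxRes.repUp M q) x) =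
      ∏ i, (A ∣[w] heckeMatrix q 0) ∣[w] ((AuxRes.repUp M q i : Gamma0 M) : SL(2, ℤ)) :=
    fun w A => Finset.prod_congr rfl (fun i _ => KTrGen.famB_slash M q (AuxRes.repUp M q) w A i)
  obtain ⟨c, hc⟩ := RepPair.rel_exists (Nup := M * q) (Nlow := M)
    (ρ := KTrGen.famB M q (AuxRes.repUp M q))
    (fun w A hA => by
      rw [hslash]
      exact TrProdMem2.prod_slash_reps₂_mem_MF (AuxRes.repUp M q) hcov₀ hinj₀ hA)
    (KTrGen.famB_ne M q (AuxRes.repUp M q)) f
  have e₀ := rel_betaNorm_of_reps M q (AuxRes.repUp M q) hq hcov₀ hinj₀ 0 (repUp_zero M q)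
    ((Fricke.finrank_beta_of_dvd M q hq hqM).trans hcard.symm) hf0 hc
  have hc' : RepPair.Rel (M * s * q) (KTrGen.famB (M * s) q (AuxRes.repUp (M * s) q))
      (coeffMap embC ((AuxPull.inclBar h₁ f : ↥(modularFunctionFieldBar (M * s * q))) :
        LaurentSeries Qb)) c := by
    obtain ⟨w, A, B, hA, hB, hB0, hfAB, hcAB⟩ := hc
    refine ⟨w, A, B, K.K1Gen.MF_le_of_dvd h₁ w hA, K.K1Gen.MF_le_of_dvd h₁ w hB, hB0, ?_, ?_⟩
    · rw [AuxPull.coe_inclBar]
      exact hfAB
    · rw [famB_eq]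
      exact hcAB
  have hf1 : AuxPull.inclBar h₁ f ≠ 0 := fun h => hf0 ((map_eq_zero (AuxPull.inclBar h₁)).mp h)
  have e₁ := rel_betaNorm_of_reps (M * s) q (AuxRes.repUp (M * s) q) hq hcov₁ hinj₁ 0
    (repUp_zero (M * s) q)
    ((Fricke.finrank_beta_of_dvd (M * s) q hq hqMs).trans hcard.symm) hf1 hc'
  apply Subtype.ext
  rw [AuxPull.coe_inclBar]
  exact S24.AnBridge.coeffMap_embC_injective (e₁.symm.trans e₀)

end BaseChange

/-! ### Free upper level, `ModelFPlan` vocabulary, transfer of the norm conditions -/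

section Free

variable (M q : ℕ) [NeZero M] [NeZero q]

/-- **Base change of the norm along `α`**, upper level `L = M * s` as a free variable. -/
theorem alphaNorm_inclBar' (hq : q.Prime) (hqM : q ∣ M) (L : ℕ) [NeZero L] (s : ℕ)
    (hL : L = M * s) (hs : ¬ q ∣ s) (h₁ : M * q ∣ L * q) (h₂ : M ∣ L)
    (f : ↥(modularFunctionFieldBar (M * q))) :
    PushPic.alphaNorm L q (AuxPull.inclBar h₁ f) =
      AuxPull.inclBar h₂ (PushPic.alphaNorm M q f) := by
  subst hL
  haveI : NeZero s := ⟨fun h0 => NeZero.ne (M * s) (by rw [h0, Nat.mul_zero])⟩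
  exact alphaNorm_inclBar M q s hq hqM hs h₁ h₂ f

/-- **Base change of the norm along `β`**, upper level `L = M * s` as a free variable. -/
theorem betaNorm_inclBar' (hq : q.Prime) (hqM : q ∣ M) (L : ℕ) [NeZero L] (s : ℕ)
    (hL : L = M * s) (h₁ : M * q ∣ L * q) (h₂ : M ∣ L)
    (f : ↥(modularFunctionFieldBar (M * q))) :
    PushPic.betaNorm L q (AuxPull.inclBar h₁ f) =
      AuxPull.inclBar h₂ (PushPic.betaNorm M q f) := by
  subst hL
  haveI : NeZero s := ⟨fun h0 => NeZero.ne (M * s) (by rw [h0, Nat.mul_zero])⟩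
  exact betaNorm_inclBar M q s hq hqM h₁ h₂ f

/-- `ModelFPlan` form of `alphaNorm_inclBar'`. -/
theorem alphaNm_inclBar (hq : q.Prime) (hqM : q ∣ M) (L : ℕ) [NeZero L] (s : ℕ)
    (hL : L = M * s) (hs : ¬ q ∣ s) (h₁ : M * q ∣ L * q) (h₂ : M ∣ L)
    (f : ↥(modularFunctionFieldBar (M * q))) :
    ModelFPlan.alphaNm L q (AuxPull.inclBar h₁ f) =
      AuxPull.inclBar h₂ (ModelFPlan.alphaNm M q f) :=
  alphaNorm_inclBar' M q hq hqM L s hL hs h₁ h₂ f

/-- `ModelFPlan` form of `betaNorm_inclBar'`. -/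
theorem betaNm_inclBar (hq : q.Prime) (hqM : q ∣ M) (L : ℕ) [NeZero L] (s : ℕ)
    (hL : L = M * s) (h₁ : M * q ∣ L * q) (h₂ : M ∣ L)
    (f : ↥(modularFunctionFieldBar (M * q))) :
    ModelFPlan.betaNm L q (AuxPull.inclBar h₁ f) =
      AuxPull.inclBar h₂ (ModelFPlan.betaNm M q f) :=
  betaNorm_inclBar' M q hq hqM L s hL h₁ h₂ f

/-- **The norm conditions pass to the auxiliary level**: if both norms of `f ∈ F̄_{M q}` (`q ∣ M`)
are constants times `m`-th powers, so are both norms of `f` viewed in `F̄_{L q}`, `L = M s`,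
`q ∤ s`. -/
theorem normCond_inclBar (hq : q.Prime) (hqM : q ∣ M) (L : ℕ) [NeZero L] (s : ℕ)
    (hL : L = M * s) (hs : ¬ q ∣ s) (h₁ : M * q ∣ L * q) (h₂ : M ∣ L) {m : ℕ}
    {f : ↥(modularFunctionFieldBar (M * q))} (hN : ModelFPlan.NormCond M q m f) :
    ModelFPlan.NormCond L q m (AuxPull.inclBar h₁ f) := by
  obtain ⟨⟨h, c, hh, hc, e⟩, ⟨h', c', hh', hc', e'⟩⟩ := hN
  refine ⟨⟨AuxPull.inclBar h₂ h, c, fun h0 => hh ((map_eq_zero (AuxPull.inclBar h₂)).mp h0), hc,
    ?_⟩, ⟨AuxPull.inclBar h₂ h', c', fun h0 => hh' ((map_eq_zero (AuxPull.inclBar h₂)).mp h0),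
    hc', ?_⟩⟩
  · rw [alphaNm_inclBar M q hq hqM L s hL hs h₁ h₂ f, e, map_mul, map_pow, AlgHom.commutes]
  · rw [betaNm_inclBar M q hq hqM L s hL h₁ h₂ f, e', map_mul, map_pow, AlgHom.commutes]

end Free

end Fermat.Agent.S36.AuxNormC
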