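/-
S36 — BaseXi.lean (helper127), [MODEL3] leaf [BaseXi].

The totally ramified base `K' = K(ξ)`, `ξ` a primitive `q`-th root of unity, over a base `K ⊂ ℚ̄`
whose ring `O_K = A ∩ K` is a discrete valuation ring with uniformiser `q` (or any uniformiser
`π` with `v(π) = v(q)`):

* `Kxi K ξ`                  — the field `K(ξ)` as an intermediate field of `ℚ̄/ℚ`;
* `exists_valuation_eq_zpow` — the value group of `K(ξ)` is generated by `v(1 - ξ)`;
* `isDVR`                    — `O_{K'} = A ∩ K(ξ)` is a discrete valuation ring;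
* `varpi`, `irreducible_varpi` — its uniformiser `1 - ξ`;
* `exists_unit`              — `π = (1 - ξ) ^ (q - 1) · u` with `u` a unit of `A`
                               (the hypothesis `hπ` of `GaussE.exists_pi_eq`, `e = q - 1`).

Proof: `q = Φ_q(1) = ∏ (1 - μ)` over the primitive `q`-th roots of unity `μ`, and all the
`1 - μ` have the same valuation, so `v(q) = v(1 - ξ) ^ (q - 1)`; every `x ∈ K(ξ)` is
`∑_{i < q - 1} c_i (ξ - 1) ^ i` with `c_i ∈ K`, and the valuations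
`v(c_i (ξ - 1) ^ i) = v(1 - ξ) ^ ((q - 1) n_i + i)` of the nonzero terms are pairwise distinct,
so `v(x)` is one of them (ultrametric inequality).
-/
import Mathlib
import Fermat.Agent.S18.ArithPlan
import Fermat.Agent.S18.Base
import Fermat.Agent.S18.BaseUnr

set_option autoImplicit false

noncomputable section

namespace Fermat.Agent.S36.BaseXi

open Fermat.Agent.S18.Arith Polynomial

/-! ### Valuation generalities -/

section Val

variable {L : Type*} [Field L] (A : ValuationSubring L)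

/-- Ultrametric inequality, equality case: a finite nonempty sum whose terms have pairwise
distinct valuations has the valuation of one of its terms. -/
theorem exists_valuation_sum_eq {ι : Type*} [DecidableEq ι] (s : Finset ι) (hs : s.Nonempty)
    (f : ι → L)
    (hinj : ∀ i ∈ s, ∀ j ∈ s, A.valuation (f i) = A.valuation (f j) → i = j) :
    ∃ i ∈ s, A.valuation (∑ j ∈ s, f j) = A.valuation (f i) := by
  induction s using Finset.induction_on with
  | empty => exact absurd hs Finset.not_nonempty_empty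
  | insert a s ha ih =>
    by_cases hs' : s.Nonempty
    · obtain ⟨i, hi, hval⟩ := ih hs' (fun i hi j hj =>
        hinj i (Finset.mem_insert_of_mem hi) j (Finset.mem_insert_of_mem hj))
      rw [Finset.sum_insert ha]
      have hne : A.valuation (f a) ≠ A.valuation (∑ j ∈ s, f j) := by
        rw [hval]
        intro h
        have h2 := hinj a (Finset.mem_insert_self a s) i (Finset.mem_insert_of_mem hi) h
        exact ha (h2 ▸ hi)
      rw [Valuation.map_add_of_distinct_val _ hne]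
      rcases max_choice (A.valuation (f a)) (A.valuation (∑ j ∈ s, f j)) with h | h
      · exact ⟨a, Finset.mem_insert_self a s, h⟩
      · exact ⟨i, Finset.mem_insert_of_mem hi, h.trans hval⟩
    · rw [Finset.not_nonempty_iff_eq_empty] at hs'
      subst hs'
      exact ⟨a, Finset.mem_insert_self a _, by simp⟩

/-- `v(1 - a ^ n) ≤ v(1 - a)` for `a ∈ A`. -/
theorem valuation_one_sub_pow_le {a : L} (ha : a ∈ A) (n : ℕ) :
    A.valuation (1 - a ^ n) ≤ A.valuation (1 - a) := by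
  have h : (1 - a) * ∑ i ∈ Finset.range n, a ^ i = 1 - a ^ n := mul_neg_geom_sum a n
  rw [← h, map_mul]
  have h1 : A.valuation (∑ i ∈ Finset.range n, a ^ i) ≤ 1 :=
    (A.valuation_le_one_iff _).mpr (sum_mem (fun i _ => A.pow_mem ha i))
  exact mul_le_of_le_one_right' h1

variable {ξ : L} {q : ℕ}

/-- A primitive root of unity lies in every valuation subring. -/
theorem xi_mem_A (hξ : IsPrimitiveRoot ξ q) (hq : 0 < q) : ξ ∈ A :=
  Fermat.Agent.S18.BaseUnr.mem_of_isIntegral A (hξ.isIntegral hq)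

/-- All `1 - μ`, `μ` a primitive `q`-th root of unity, have the same valuation. -/
theorem valuation_one_sub_primitive (hξ : IsPrimitiveRoot ξ q) (hq : 0 < q) {μ : L}
    (hμ : IsPrimitiveRoot μ q) : A.valuation (1 - μ) = A.valuation (1 - ξ) := by
  have : NeZero q := ⟨hq.ne'⟩
  obtain ⟨i, -, rfl⟩ := hξ.eq_pow_of_pow_eq_one hμ.pow_eq_one
  obtain ⟨j, -, hj⟩ := hμ.eq_pow_of_pow_eq_one hξ.pow_eq_one
  refine le_antisymm (valuation_one_sub_pow_le A (xi_mem_A A hξ hq) i) ?_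
  calc A.valuation (1 - ξ) = A.valuation (1 - (ξ ^ i) ^ j) := by rw [hj]
    _ ≤ A.valuation (1 - ξ ^ i) := valuation_one_sub_pow_le A (A.pow_mem (xi_mem_A A hξ hq) i) j

/-- `q = Φ_q(1) = ∏ (1 - μ)` over the primitive `q`-th roots of unity. -/
theorem prod_one_sub_primitiveRoots (hq : q.Prime) (hξ : IsPrimitiveRoot ξ q) :
    ∏ μ ∈ primitiveRoots q L, (1 - μ) = (q : L) := by
  have : Fact q.Prime := ⟨hq⟩
  have h := congrArg (Polynomial.eval 1) (Polynomial.cyclotomic_eq_prod_X_sub_primitiveRoots hξ)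
  rw [Polynomial.eval_one_cyclotomic_prime, Polynomial.eval_prod] at h
  simp only [eval_sub, eval_X, eval_C] at h
  exact h.symm

/-- `v(q) = v(1 - ξ) ^ (q - 1)`. -/
theorem valuation_prime_eq (hq : q.Prime) (hξ : IsPrimitiveRoot ξ q) :
    A.valuation (q : L) = A.valuation (1 - ξ) ^ (q - 1) := by
  rw [← prod_one_sub_primitiveRoots hq hξ, map_prod,
    Finset.prod_congr rfl (fun μ hμ =>
      valuation_one_sub_primitive A hξ hq.pos ((mem_primitiveRoots hq.pos).mp hμ)),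
    Finset.prod_const, hξ.card_primitiveRoots, Nat.totient_prime hq]

end Val

/-! ### The field `K(ξ)` -/

/-- `K(ξ)` as an intermediate field of `ℚ̄/ℚ`. -/
def Kxi (K : IntermediateField ℚ Qb) (ξ : Qb) : IntermediateField ℚ Qb :=
  (IntermediateField.adjoin K {ξ}).restrictScalars ℚ

theorem mem_Kxi {K : IntermediateField ℚ Qb} {ξ x : Qb} :
    x ∈ Kxi K ξ ↔ x ∈ IntermediateField.adjoin K {ξ} :=
  IntermediateField.mem_restrictScalars ℚ

theorem le_Kxi (K : IntermediateField ℚ Qb) (ξ : Qb) : K ≤ Kxi K ξ := fun x hx =>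
  mem_Kxi.mpr ((IntermediateField.adjoin K {ξ}).algebraMap_mem ⟨x, hx⟩)

theorem xi_mem (K : IntermediateField ℚ Qb) (ξ : Qb) : ξ ∈ Kxi K ξ :=
  mem_Kxi.mpr (IntermediateField.mem_adjoin_simple_self K ξ)

/-- Every element of `K(ξ)` is a `K`-combination of `(ξ - 1) ^ i`, `i < q - 1`. -/
theorem exists_expansion {K : IntermediateField ℚ Qb} {ξ : Qb} {q : ℕ} (hq : q.Prime)
    (hξ : IsPrimitiveRoot ξ q) (x : Qb) (hx : x ∈ Kxi K ξ) :
    ∃ c : ℕ → K, x = ∑ i ∈ Finset.range (q - 1), (c i : Qb) * (ξ - 1) ^ i := by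
  have hint : IsIntegral K ξ := (hξ.isIntegral hq.pos).tower_top
  have hx' : x ∈ (IntermediateField.adjoin K {ξ}).toSubalgebra := mem_Kxi.mp hx
  rw [IntermediateField.adjoin_simple_toSubalgebra_of_isAlgebraic hint.isAlgebraic,
    Algebra.adjoin_singleton_eq_range_aeval] at hx'
  obtain ⟨p, rfl⟩ := hx'
  have hΦm : (cyclotomic q K).Monic := cyclotomic.monic q K
  have hΦdeg : (cyclotomic q K).natDegree = q - 1 := by
    rw [natDegree_cyclotomic, Nat.totient_prime hq]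
  have hΦ1 : cyclotomic q K ≠ 1 := by
    intro h
    have h2 := hΦdeg
    rw [h, natDegree_one] at h2
    have := hq.two_le
    omega
  have hΦroot : aeval ξ (cyclotomic q K) = 0 := by
    rw [aeval_def, eval₂_eq_eval_map, map_cyclotomic]
    exact hξ.isRoot_cyclotomic hq.pos
  have hp₁ : aeval ξ (p %ₘ cyclotomic q K) = aeval ξ p :=
    aeval_modByMonic_eq_self_of_root hΦroot
  have hdeg₁ : (p %ₘ cyclotomic q K).natDegree < q - 1 := by
    rw [← hΦdeg]
    exact natDegree_modByMonic_lt p hΦm hΦ1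
  have hRdeg : ((p %ₘ cyclotomic q K).comp (X + C 1)).natDegree < q - 1 := by
    refine lt_of_le_of_lt natDegree_comp_le ?_
    rw [natDegree_X_add_C, mul_one]
    exact hdeg₁
  have hR : aeval (ξ - 1) ((p %ₘ cyclotomic q K).comp (X + C 1)) =
      aeval ξ (p %ₘ cyclotomic q K) := by
    rw [aeval_comp]
    simp
  refine ⟨fun i => ((p %ₘ cyclotomic q K).comp (X + C 1)).coeff i, ?_⟩
  show aeval ξ p = _
  rw [← hp₁, ← hR, aeval_eq_sum_range' hRdeg]
  refine Finset.sum_congr rfl (fun i _ => ?_)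
  rw [Algebra.smul_def]
  rfl

/-! ### The value group -/

section Main

variable (A : ValuationSubring Qb) (K : IntermediateField ℚ Qb)

/-- Units of `O_K` have valuation `1`. -/
theorem valuation_unit (u : (OK A K)ˣ) : A.valuation (incO A K (u : OK A K)) = 1 := by
  have h1 : incO A K (u : OK A K) * incO A K ((u⁻¹ : (OK A K)ˣ) : OK A K) = 1 := by
    rw [← map_mul, Units.mul_inv, map_one]
  have h0 : incO A K (u : OK A K) ≠ 0 := left_ne_zero_of_mul_eq_one h1
  rw [Fermat.Agent.S18.BaseUnr.valuation_eq_one_iff A h0]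
  refine ⟨(u : OK A K).2, ?_⟩
  rw [← eq_inv_of_mul_eq_one_right h1]
  exact ((u⁻¹ : (OK A K)ˣ) : OK A K).2

/-- Non-units of `O_K` have valuation `< 1`. -/
theorem valuation_lt_one_of_not_isUnit (c : OK A K) (hc : ¬ IsUnit c) :
    A.valuation (incO A K c) < 1 := by
  by_contra h
  have h1 : A.valuation (incO A K c) = 1 :=
    le_antisymm ((A.valuation_le_one_iff _).mpr c.2) (not_lt.mp h)
  have hc0 : incO A K c ≠ 0 := by
    intro h0
    rw [h0, map_zero] at h1
    exact zero_ne_one h1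
  obtain ⟨-, h2⟩ := (Fermat.Agent.S18.BaseUnr.valuation_eq_one_iff A hc0).mp h1
  have hcK : (c : K) ≠ 0 := by
    intro h0
    apply hc0
    show algebraMap K Qb (c : K) = 0
    rw [h0, map_zero]
  apply hc
  have hmem : (c : K)⁻¹ ∈ OK A K := by
    show algebraMap K Qb ((c : K)⁻¹) ∈ A
    rw [map_inv₀]
    exact h2
  exact isUnit_iff_exists_inv.mpr ⟨⟨(c : K)⁻¹, hmem⟩, Subtype.ext (mul_inv_cancel₀ hcK)⟩

variable {A K}

/-- The value group of `K` is generated by `v(π)`. -/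
theorem valuation_K (hdvr : IsDiscreteValuationRing (OK A K)) {π : OK A K} (hπ : Irreducible π)
    (c : K) (hc : c ≠ 0) :
    ∃ n : ℤ, A.valuation (c : Qb) = A.valuation (incO A K π) ^ n := by
  have key : ∀ d : OK A K, d ≠ 0 →
      ∃ n : ℕ, A.valuation (incO A K d) = A.valuation (incO A K π) ^ n := by
    intro d hd
    obtain ⟨n, u, hu⟩ := IsDiscreteValuationRing.associated_pow_irreducible hd hπ
    refine ⟨n, ?_⟩
    have h1 := congrArg (fun z => A.valuation (incO A K z)) hu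
    simp only [map_mul, map_pow] at h1
    rw [valuation_unit A K u, mul_one] at h1
    exact h1
  rcases (OK A K).mem_or_inv_mem c with h | h
  · obtain ⟨n, hn⟩ := key ⟨c, h⟩ (fun h0 => hc (congrArg Subtype.val h0))
    exact ⟨n, by rw [zpow_natCast]; exact hn⟩
  · obtain ⟨n, hn⟩ := key ⟨c⁻¹, h⟩ (fun h0 => inv_ne_zero hc (congrArg Subtype.val h0))
    refine ⟨-(n : ℤ), ?_⟩
    have h1 : A.valuation (((c⁻¹ : K)) : Qb) = (A.valuation (c : Qb))⁻¹ := by
      show A.valuation (algebraMap K Qb (c⁻¹)) = _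
      rw [map_inv₀, map_inv₀]
      rfl
    have h2 : (A.valuation (c : Qb))⁻¹ = A.valuation (incO A K π) ^ n := h1 ▸ hn
    rw [zpow_neg, zpow_natCast, ← h2, inv_inv]

variable {ξ : Qb} {q : ℕ}

/-- `v(1 - ξ) < 1` and `≠ 0`. -/
theorem valuation_one_sub_xi (hq : q.Prime) {π : OK A K} (hπ : Irreducible π)
    (hv : A.valuation (incO A K π) = A.valuation (q : Qb)) (hξ : IsPrimitiveRoot ξ q) :
    A.valuation (1 - ξ) ≠ 0 ∧ A.valuation (1 - ξ) < 1 := by
  refine ⟨(Valuation.ne_zero_iff _).mpr (sub_ne_zero.mpr (hξ.ne_one hq.one_lt).symm), ?_⟩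
  by_contra h
  have h1 : (1 : A.ValueGroup) ≤ A.valuation (1 - ξ) ^ (q - 1) := one_le_pow₀ (not_lt.mp h)
  rw [← valuation_prime_eq A hq hξ, ← hv] at h1
  exact absurd (valuation_lt_one_of_not_isUnit A K π hπ.not_isUnit) (not_lt.mpr h1)

/-- **The value group of `K(ξ)` is generated by `v(1 - ξ)`.** -/
theorem exists_valuation_eq_zpow_of_valuation (hq : q.Prime) (hdvr : IsDiscreteValuationRing (OK A K))
    {π : OK A K} (hπ : Irreducible π) (hv : A.valuation (incO A K π) = A.valuation (q : Qb))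
    (hξ : IsPrimitiveRoot ξ q) (x : Qb) (hx : x ∈ Kxi K ξ) (hx0 : x ≠ 0) :
    ∃ m : ℤ, A.valuation x = A.valuation (1 - ξ) ^ m := by
  obtain ⟨c, rfl⟩ := exists_expansion hq hξ x hx
  obtain ⟨hγ0, hγ1⟩ := valuation_one_sub_xi hq hπ hv hξ
  have hγpos : 0 < A.valuation (1 - ξ) := zero_lt_iff.mpr hγ0
  have hγ' : A.valuation (ξ - 1) = A.valuation (1 - ξ) := Valuation.map_sub_swap _ _ _
  have hγq : A.valuation (incO A K π) = A.valuation (1 - ξ) ^ (q - 1) := by
    rw [hv, valuation_prime_eq A hq hξ]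
  -- the valuation of the nonzero terms
  have hterm : ∀ i : ℕ, c i ≠ 0 → ∃ n : ℤ,
      A.valuation ((c i : Qb) * (ξ - 1) ^ i) =
        A.valuation (1 - ξ) ^ (((q - 1 : ℕ) : ℤ) * n + (i : ℤ)) := by
    intro i hi
    obtain ⟨n, hn⟩ := valuation_K hdvr hπ (c i) hi
    refine ⟨n, ?_⟩
    rw [map_mul, map_pow, hγ', hn, hγq, zpow_add₀ hγ0, zpow_mul, zpow_natCast, zpow_natCast]
  choose! n hn using hterm
  classical
  have hsum : ∑ i ∈ Finset.range (q - 1), (c i : Qb) * (ξ - 1) ^ i =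
      ∑ i ∈ (Finset.range (q - 1)).filter (fun i => c i ≠ 0), (c i : Qb) * (ξ - 1) ^ i := by
    rw [Finset.sum_filter_of_ne]
    intro i _ hi h0
    apply hi
    rw [h0]
    show (algebraMap K Qb 0) * _ = 0
    rw [map_zero, zero_mul]
  have hs : ((Finset.range (q - 1)).filter (fun i => c i ≠ 0)).Nonempty := by
    by_contra hne
    rw [Finset.not_nonempty_iff_eq_empty] at hne
    rw [hsum, hne, Finset.sum_empty] at hx0
    exact hx0 rfl
  obtain ⟨i, hi, hval⟩ := exists_valuation_sum_eq A _ hs (fun i => (c i : Qb) * (ξ - 1) ^ i) (by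
    intro i hi j hj hij
    rw [Finset.mem_filter, Finset.mem_range] at hi hj
    rw [hn i hi.2, hn j hj.2] at hij
    have h1 : ((q - 1 : ℕ) : ℤ) * n i + (i : ℤ) = ((q - 1 : ℕ) : ℤ) * n j + (j : ℤ) :=
      zpow_right_injective₀ hγpos hγ1.ne hij
    have h2 : ((i : ℤ) + ((q - 1 : ℕ) : ℤ) * n i) % ((q - 1 : ℕ) : ℤ) =
        ((j : ℤ) + ((q - 1 : ℕ) : ℤ) * n j) % ((q - 1 : ℕ) : ℤ) := by
      rw [add_comm, h1, add_comm]
    rw [Int.add_mul_emod_self_left, Int.add_mul_emod_self_left,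
      Int.emod_eq_of_lt (by positivity) (by exact_mod_cast hi.1),
      Int.emod_eq_of_lt (by positivity) (by exact_mod_cast hj.1)] at h2
    exact_mod_cast h2)
  rw [hsum, hval, hn i (Finset.mem_filter.mp hi).2]
  exact ⟨_, rfl⟩

/-! ### `O_{K(ξ)}` is a discrete valuation ring with uniformiser `1 - ξ` -/

/-- `1 - ξ` as an element of `K(ξ)`. -/
def lam (K : IntermediateField ℚ Qb) (ξ : Qb) : Kxi K ξ :=
  ⟨1 - ξ, sub_mem (one_mem _) (xi_mem K ξ)⟩

theorem exists_zpow_mul_unit (hq : q.Prime) (hdvr : IsDiscreteValuationRing (OK A K))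
    {π : OK A K} (hπ : Irreducible π) (hv : A.valuation (incO A K π) = A.valuation (q : Qb))
    (hξ : IsPrimitiveRoot ξ q) (x : Kxi K ξ) (hx : x ≠ 0) :
    ∃ k : ℤ, ((x * lam K ξ ^ k : Kxi K ξ) : Qb) ∈ A ∧
      (((x * lam K ξ ^ k : Kxi K ξ) : Qb))⁻¹ ∈ A := by
  obtain ⟨hγ0, hγ1⟩ := valuation_one_sub_xi hq hπ hv hξ
  have hx0 : (x : Qb) ≠ 0 := fun h => hx (Subtype.ext h)
  obtain ⟨m, hm⟩ := exists_valuation_eq_zpow_of_valuation hq hdvr hπ hv hξ (x : Qb) x.2 hx0
  have hc : ((x * lam K ξ ^ (-m) : Kxi K ξ) : Qb) = (x : Qb) * (1 - ξ) ^ (-m) := by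
    show algebraMap (Kxi K ξ) Qb (x * lam K ξ ^ (-m)) = (x : Qb) * (1 - ξ) ^ (-m)
    rw [map_mul, map_zpow₀]
    rfl
  have hlam0 : (1 : Qb) - ξ ≠ 0 := (Valuation.ne_zero_iff _).mp hγ0
  have hy0 : (x : Qb) * (1 - ξ) ^ (-m) ≠ 0 := mul_ne_zero hx0 (zpow_ne_zero _ hlam0)
  have hv1 : A.valuation ((x : Qb) * (1 - ξ) ^ (-m)) = 1 := by
    rw [map_mul, map_zpow₀, hm, ← zpow_add₀ hγ0, add_neg_cancel, zpow_zero]
  obtain ⟨h1, h2⟩ := (Fermat.Agent.S18.BaseUnr.valuation_eq_one_iff A hy0).mp hv1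
  exact ⟨-m, by rw [hc]; exact h1, by rw [hc]; exact h2⟩

theorem lam_ne_zero (hq : q.Prime) (hξ : IsPrimitiveRoot ξ q) : lam K ξ ≠ 0 := fun h =>
  sub_ne_zero.mpr (hξ.ne_one hq.one_lt).symm (congrArg Subtype.val h)

theorem lam_mem_nonunits (hq : q.Prime) {π : OK A K} (hπ : Irreducible π)
    (hv : A.valuation (incO A K π) = A.valuation (q : Qb)) (hξ : IsPrimitiveRoot ξ q) :
    ((lam K ξ : Kxi K ξ) : Qb) ∈ A.nonunits :=
  (Fermat.Agent.S18.BaseUnr.mem_nonunits_iff_valuation_lt_one A).mpr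
    (valuation_one_sub_xi hq hπ hv hξ).2

/-- **`O_{K(ξ)} = A ∩ K(ξ)` is a discrete valuation ring** (valuation form of the hypothesis). -/
theorem isDVR_of_valuation (hq : q.Prime) (hdvr : IsDiscreteValuationRing (OK A K))
    {π : OK A K} (hπ : Irreducible π) (hv : A.valuation (incO A K π) = A.valuation (q : Qb))
    (hξ : IsPrimitiveRoot ξ q) : IsDiscreteValuationRing (OK A (Kxi K ξ)) :=
  Fermat.Agent.S18.Base.isDiscreteValuationRing_OK A (Kxi K ξ) (lam K ξ) (lam_ne_zero hq hξ)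
    (lam_mem_nonunits hq hπ hv hξ) (exists_zpow_mul_unit hq hdvr hπ hv hξ)

/-- The uniformiser `1 - ξ` of `O_{K(ξ)}`. -/
def varpi (A : ValuationSubring Qb) (K : IntermediateField ℚ Qb) (hq : q.Prime)
    (hξ : IsPrimitiveRoot ξ q) : OK A (Kxi K ξ) :=
  ⟨lam K ξ, A.sub_mem A.one_mem (xi_mem_A A hξ hq.pos)⟩

@[simp] theorem incO_varpi (A : ValuationSubring Qb) (K : IntermediateField ℚ Qb) (hq : q.Prime)
    (hξ : IsPrimitiveRoot ξ q) : incO A (Kxi K ξ) (varpi A K hq hξ) = 1 - ξ := rfl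

/-- `1 - ξ` is irreducible in `O_{K(ξ)}` (valuation form of the hypothesis). -/
theorem irreducible_varpi_of_valuation (hq : q.Prime) (hdvr : IsDiscreteValuationRing (OK A K))
    {π : OK A K} (hπ : Irreducible π) (hv : A.valuation (incO A K π) = A.valuation (q : Qb))
    (hξ : IsPrimitiveRoot ξ q) : Irreducible (varpi A K hq hξ) := by
  obtain ⟨p, hp, hirr, -⟩ := Fermat.Agent.S18.Base.exists_irreducible_and_forall_associated A
    (Kxi K ξ) (lam K ξ) (lam_ne_zero hq hξ) (lam_mem_nonunits hq hπ hv hξ)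
    (exists_zpow_mul_unit hq hdvr hπ hv hξ)
  have : p = varpi A K hq hξ := Subtype.ext hp
  rw [← this]
  exact hirr

/-- `π = (1 - ξ) ^ (q - 1) · u`, `u` a unit of `A` (valuation form of the hypothesis). -/
theorem exists_unit_of_valuation (hq : q.Prime) {π : OK A K} (hπ : Irreducible π)
    (hv : A.valuation (incO A K π) = A.valuation (q : Qb)) (hξ : IsPrimitiveRoot ξ q) :
    ∃ u : A, IsUnit u ∧
      incO A K π = incO A (Kxi K ξ) (varpi A K hq hξ) ^ (q - 1) * (u : Qb) := by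
  obtain ⟨hγ0, hγ1⟩ := valuation_one_sub_xi hq hπ hv hξ
  have hlam0 : (1 : Qb) - ξ ≠ 0 := (Valuation.ne_zero_iff _).mp hγ0
  have hpow0 : ((1 : Qb) - ξ) ^ (q - 1) ≠ 0 := pow_ne_zero _ hlam0
  have hπ0 : incO A K π ≠ 0 := by
    intro h0
    have h1 : A.valuation (incO A K π) = A.valuation (1 - ξ) ^ (q - 1) := by
      rw [hv, valuation_prime_eq A hq hξ]
    rw [h0, map_zero] at h1
    exact pow_ne_zero _ hγ0 h1.symm
  have hu0 : incO A K π * (((1 : Qb) - ξ) ^ (q - 1))⁻¹ ≠ 0 := mul_ne_zero hπ0 (inv_ne_zero hpow0)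
  have hv1 : A.valuation (incO A K π * (((1 : Qb) - ξ) ^ (q - 1))⁻¹) = 1 := by
    rw [map_mul, map_inv₀, map_pow, hv, valuation_prime_eq A hq hξ]
    exact mul_inv_cancel₀ (pow_ne_zero _ hγ0)
  obtain ⟨h1, h2⟩ := (Fermat.Agent.S18.BaseUnr.valuation_eq_one_iff A hu0).mp hv1
  refine ⟨⟨_, h1⟩, isUnit_iff_exists_inv.mpr ⟨⟨_, h2⟩, Subtype.ext (mul_inv_cancel₀ hu0)⟩, ?_⟩
  rw [incO_varpi]
  show incO A K π = (1 - ξ) ^ (q - 1) * (incO A K π * (((1 : Qb) - ξ) ^ (q - 1))⁻¹)
  field_simp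

/-! ### The forms with `π = q` -/

/-- The value group of `K(ξ)` is generated by `v(1 - ξ)`. -/
theorem exists_valuation_eq_zpow (hq : q.Prime) (π : OK A K) (hπ : Irreducible π)
    (hπq : incO A K π = (q : Qb)) (hdvr : IsDiscreteValuationRing (OK A K))
    (hξ : IsPrimitiveRoot ξ q) : ∀ x ∈ Kxi K ξ, x ≠ 0 →
      ∃ m : ℤ, A.valuation x = A.valuation (1 - ξ) ^ m := fun x hx hx0 =>
  exists_valuation_eq_zpow_of_valuation hq hdvr hπ (by rw [hπq]) hξ x hx hx0

/-- **`O_{K(ξ)} = A ∩ K(ξ)` is a discrete valuation ring.** -/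
theorem isDVR (hq : q.Prime) (π : OK A K) (hπ : Irreducible π) (hπq : incO A K π = (q : Qb))
    (hdvr : IsDiscreteValuationRing (OK A K)) (hξ : IsPrimitiveRoot ξ q) :
    IsDiscreteValuationRing (OK A (Kxi K ξ)) :=
  isDVR_of_valuation hq hdvr hπ (by rw [hπq]) hξ

/-- **`1 - ξ` is a uniformiser of `O_{K(ξ)}`.** -/
theorem irreducible_varpi (hq : q.Prime) (π : OK A K) (hπ : Irreducible π)
    (hπq : incO A K π = (q : Qb)) (hdvr : IsDiscreteValuationRing (OK A K))
    (hξ : IsPrimitiveRoot ξ q) : Irreducible (varpi A K hq hξ) :=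
  irreducible_varpi_of_valuation hq hdvr hπ (by rw [hπq]) hξ

/-- **`q = (1 - ξ) ^ (q - 1) · u`, `u` a unit of `A`.** -/
theorem exists_unit (hq : q.Prime) (π : OK A K) (hπ : Irreducible π)
    (hπq : incO A K π = (q : Qb)) (hξ : IsPrimitiveRoot ξ q) :
    ∃ u : A, IsUnit u ∧
      incO A K π = incO A (Kxi K ξ) (varpi A K hq hξ) ^ (q - 1) * (u : Qb) :=
  exists_unit_of_valuation hq hπ (by rw [hπq]) hξ

/-- **[BaseXi], packaged.** -/
theorem baseXi (hq : q.Prime) (π : OK A K) (hπ : Irreducible π) (hπq : incO A K π = (q : Qb))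
    (hdvr : IsDiscreteValuationRing (OK A K)) (hξ : IsPrimitiveRoot ξ q) :
    IsDiscreteValuationRing (OK A (Kxi K ξ)) ∧
      ∃ ϖ : OK A (Kxi K ξ), Irreducible ϖ ∧ incO A (Kxi K ξ) ϖ = 1 - ξ ∧
        ∃ u : A, IsUnit u ∧ incO A K π = incO A (Kxi K ξ) ϖ ^ (q - 1) * (u : Qb) :=
  ⟨isDVR hq π hπ hπq hdvr hξ, varpi A K hq hξ, irreducible_varpi hq π hπ hπq hdvr hξ, rfl,
    exists_unit hq π hπ hπq hξ⟩

end Main

end Fermat.Agent.S36.BaseXi
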