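/-
S36 — Branch3.lean (helper9; package [MODEL3], leaf [M3.7], chart layer).

The field `branch` of `Model3Plan.ChartModel3` for a chart `R = chart N A K t` of the level-`N`
model (`N = M q²`), in hypothesis form: the three-component port of `S34/PointHyp.branch_trans`.

Inputs (`V = ![W1, W2, W3]`, uniformizers `ϖ`, vertical primes `P i = R ∩ ϖ i (V i)`):
* `RM` a subalgebra of `F_K(M)` with the Igusa property (the level-`M` chart), `al : F_K(M) →
  F_K(N)` an `O`-linear ring hom with `al(RM) ⊆ R` (the inclusion `α²`);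
* `w` a ring automorphism of `F_K(N)` fixing `O`, stabilising `R`, with `V 1 = w⁻¹ (V 0)` and
  `w (ϖ 1) = ϖ 0` (the Atkin–Lehner involution `w_{q²}`);
* (B0) `R = al(RM) + ϖ 0 (V 0)`, (B2) `R = al(RM) + ϖ 2 (V 2)` (residue degree one along `W1`
  and along `W3`);
* (ne) `t - c ∉ ϖ i (V i)` for all constants `c : O`.

Output: at every closed point `n` of the special fibre and every `i` with `P i ≤ n`: `P i ≠ n`
and `n / P i` is principal locally at `n` (`R_n / P i` is a discrete valuation ring).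
-/
import Mathlib
import Fermat.Agent.S18.ArithPlan
import Fermat.Agent.S18.IgusaPtsChart
import Fermat.Agent.S34.PointHyp
import Fermat.Agent.S36.Model3Plan

set_option autoImplicit false

namespace Fermat.Agent.S36.Branch3

open Fermat.Agent.S18.Arith Fermat.Agent.S34

/-! ### Abstract layer -/

section Abstract

variable {R S : Type*} [CommRing R] [CommRing S]

/-- Transport of the branch property along an automorphism `e` of `R`, for every closed point:
if the branch `P0` is regular of dimension one at each of its closed points, so is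
`P1 = e⁻¹ (P0)`. -/
theorem branch_transport (e : R ≃+* R) (P0 P1 : Ideal R)
    (hP1 : ∀ r : R, r ∈ P1 ↔ e r ∈ P0)
    (h : ∀ n' : Ideal R, n'.IsMaximal → P0 ≤ n' →
      ∃ u ∈ n', ∀ x ∈ n', ∃ s : R, s ∉ n' ∧ ∃ c : R, s * x - c * u ∈ P0)
    (n : Ideal R) (hn : n.IsMaximal) (h1 : P1 ≤ n) :
    ∃ u ∈ n, ∀ x ∈ n, ∃ s : R, s ∉ n ∧ ∃ c : R, s * x - c * u ∈ P1 :=
  PointHyp.branch_comap e P0 P1 n hn hP1 h1 h

end Abstract

/-! ### Chart layer -/

section Chart

variable {N M : ℕ} {A : ValuationSubring Qb} {K : IntermediateField ℚ Qb}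

/-- **[Branch3]** the field `Model3Plan.ChartModel3.branch` for the chart `chart N A K t`, in
hypothesis form. -/
theorem branch3 [IsDiscreteValuationRing (OK A K)]
    [IsAlgClosed (IsLocalRing.ResidueField (OK A K))]
    (π : OK A K) (hπ : Irreducible π) (t : FK N K)
    (RM : Subalgebra (OK A K) (FK M K))
    (ϖ : Fin 3 → FK N K) (V : Fin 3 → ValuationSubring (FK N K))
    (P : Fin 3 → Ideal (chart N A K t))
    (hyp : Model3Plan.ChartHyp3 π ϖ V P)
    (hπP : ∀ i : Fin 3, algebraMap (OK A K) (chart N A K t) π ∈ P i)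
    (al : FK M K →+* FK N K)
    (hal : ∀ c : OK A K, al (algebraMap (OK A K) (FK M K) c) = algebraMap (OK A K) (FK N K) c)
    (hmap : ∀ y ∈ RM, al y ∈ chart N A K t)
    (w : FK N K ≃+* FK N K)
    (hwR : ∀ x ∈ chart N A K t, w x ∈ chart N A K t)
    (hwR' : ∀ x ∈ chart N A K t, w.symm x ∈ chart N A K t)
    (hV : ∀ x : FK N K, x ∈ V 1 ↔ w x ∈ V 0)
    (hϖ : w (ϖ 1) = ϖ 0)
    (hB0 : ∀ x ∈ chart N A K t, ∃ y ∈ RM, ∃ v ∈ V 0, x - al y = ϖ 0 * v)
    (hB2 : ∀ x ∈ chart N A K t, ∃ y ∈ RM, ∃ v ∈ V 2, x - al y = ϖ 2 * v)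
    (hI : IgusaAt M A K RM)
    (hne : ∀ (c : OK A K) (i : Fin 3), ¬ ∃ v ∈ V i,
      t - algebraMap (OK A K) (FK N K) c = ϖ i * v) :
    ∀ n : Ideal (chart N A K t), n.IsMaximal →
      algebraMap (OK A K) (chart N A K t) π ∈ n → ∀ i : Fin 3, P i ≤ n →
      (∃ x ∈ n, x ∉ P i) ∧
        ∃ u ∈ n, ∀ x ∈ n, ∃ s : chart N A K t, s ∉ n ∧
          ∃ c : chart N A K t, s * x - c * u ∈ P i := by
  classical
  -- the restricted maps
  set a : RM →+* chart N A K t :=
    PointHyp.restrictHom N M A K RM (chart N A K t) al hmap with ha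
  set e : chart N A K t ≃+* chart N A K t :=
    PointHyp.restrictEquiv N A K (chart N A K t) w hwR hwR' with he
  have ha_coe : ∀ y : RM, ((a y : chart N A K t) : FK N K) = al (y : FK M K) := fun _ => rfl
  have he_coe : ∀ x : chart N A K t, ((e x : chart N A K t) : FK N K) = w (x : FK N K) :=
    fun _ => rfl
  -- membership in `P i`
  have hmem : ∀ (i : Fin 3) (r : chart N A K t),
      r ∈ P i ↔ ∃ y ∈ V i, (r : FK N K) = ϖ i * y :=
    fun i r => hyp.mem_P i r
  set ϖS : RM := algebraMap (OK A K) RM π with hϖdef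
  have haϖ : a ϖS = algebraMap (OK A K) (chart N A K t) π := Subtype.ext (hal π)
  have hϖP : ∀ i : Fin 3, a ϖS ∈ P i := fun i => by rw [haϖ]; exact hπP i
  have hP1 : ∀ r : chart N A K t, r ∈ P 1 ↔ e r ∈ P 0 := by
    intro r
    rw [hmem, hmem]
    constructor
    · rintro ⟨y, hy, hr⟩
      refine ⟨w y, (hV y).mp hy, ?_⟩
      rw [he_coe, hr, map_mul, hϖ]
    · rintro ⟨y, hy, hr⟩
      refine ⟨w.symm y, (hV _).mpr (by rwa [RingEquiv.apply_symm_apply]), ?_⟩
      rw [he_coe] at hr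
      have h2 : (r : FK N K) = w.symm (ϖ 0 * y) := by
        rw [← hr, RingEquiv.symm_apply_apply]
      rw [h2, map_mul]
      congr 1
      rw [RingEquiv.symm_apply_eq, hϖ]
  have hB0' : ∀ x : chart N A K t, ∃ y : RM, x - a y ∈ P 0 := by
    intro x
    obtain ⟨y, hy, v, hv, hxy⟩ := hB0 x x.2
    refine ⟨⟨y, hy⟩, ?_⟩
    rw [hmem]
    exact ⟨v, hv, hxy⟩
  have hB2' : ∀ x : chart N A K t, ∃ y : RM, x - a y ∈ P 2 := by
    intro x
    obtain ⟨y, hy, v, hv, hxy⟩ := hB2 x x.2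
    refine ⟨⟨y, hy⟩, ?_⟩
    rw [hmem]
    exact ⟨v, hv, hxy⟩
  have hI' : ∀ m : Ideal RM, m.IsMaximal → ϖS ∈ m →
      ∃ t' ∈ m, ∀ x ∈ m, ∃ c : RM, c ∉ m ∧ c * x ∈ Ideal.span {ϖS, t'} :=
    fun m hm hϖm => hI π hπ m hm hϖm
  have hpt : ∀ n : Ideal (chart N A K t), n.IsMaximal →
      algebraMap (OK A K) (chart N A K t) π ∈ n → ∀ i : Fin 3, ∃ x ∈ n, x ∉ P i := by
    intro n hn hπn i
    obtain ⟨c, hc⟩ := Fermat.Agent.S18.IgusaPtsChart.exists_coord_sub_mem N A K t π hπ n hn hπn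
    refine ⟨_, hc, fun hmemP => hne c i ?_⟩
    obtain ⟨v, hv, hval⟩ := (hmem i _).mp hmemP
    exact ⟨v, hv, hval⟩
  have hb0 : ∀ n' : Ideal (chart N A K t), n'.IsMaximal → P 0 ≤ n' →
      ∃ u ∈ n', ∀ x ∈ n', ∃ s : chart N A K t, s ∉ n' ∧
        ∃ c : chart N A K t, s * x - c * u ∈ P 0 :=
    fun n' hn' h0 => PointHyp.branch_zero a ϖS (P 0) n' hn' h0 (hϖP 0) hB0' hI'
  intro n hn hπn i hi
  refine ⟨hpt n hn hπn i, ?_⟩
  fin_cases i
  · exact hb0 n hn hi
  · exact branch_transport e (P 0) (P 1) hP1 hb0 n hn hi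
  · exact PointHyp.branch_zero a ϖS (P 2) n hn hi (hϖP 2) hB2' hI'

end Chart

end Fermat.Agent.S36.Branch3
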