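import Mathlib

/-!
# S36: multi-branch root lifting (abstract, Mathlib only) — helper75

Block (5) of the S36 blueprint (board #2891): *multi-branch unit lifting without the fibre-product
description of `R_n/π` and without regularity*.

`A` is a local ring (in the application `A = R_n/π`), `C` an `A`-algebra containing an `m`-th root
`t` of a unit `u` of `A` (in the application `C = ∏ᵢ Vᵢ/π`), and `ρ i : C →+* K i` are finitely many
"branch maps" which see `C` up to nilpotents (`hnil`).  If on every branch `t` is the image of an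
element `a i` of `A`, if the `a i` have the same residue at the closed point, and if `m` is
invertible in the residue field, then `t` itself comes from `A`.

Proof.  `S := A[t]` is a finite `A`-algebra.  Every maximal ideal `M` of `S` contains the kernel of
some branch map (primality of `M` and `hnil`), hence `t - a i`, hence `t - a₀` (`hagree`).  So
`τ := t - a₀` lies in the Jacobson radical of `S/𝔪S`.  There `τ * g = t ^ m - a₀ ^ m = 0` with
`g = ∑ t ^ j * a₀ ^ (m - 1 - j) ≡ m * a₀ ^ (m - 1)` modulo `τ`, a unit; so `g` is a unit and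
`τ = 0` in `S/𝔪S`.  Hence `S = A + 𝔪S` and `S = A` by Nakayama.

Contents: `geom_sum_sub_dvd`, `mem_range_of_branch_roots` (the lemma),
`mem_range_of_branch_roots'` (variant with existential branch witnesses),
`surjective_of_branch_roots` (`C = A[t]` form).
-/

set_option autoImplicit false

namespace Fermat.Agent.S36.BranchRoot

open IsLocalRing

/-- `x - y` divides `∑_{j<m} x^j y^(m-1-j) - m y^(m-1)`. -/
theorem geom_sum_sub_dvd {R : Type*} [CommRing R] (x y : R) (m : ℕ) :
    x - y ∣ (∑ j ∈ Finset.range m, x ^ j * y ^ (m - 1 - j)) - (m : R) * y ^ (m - 1) := by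
  have h1 : (m : R) * y ^ (m - 1) = ∑ j ∈ Finset.range m, y ^ j * y ^ (m - 1 - j) := by
    have : ∀ j ∈ Finset.range m, y ^ j * y ^ (m - 1 - j) = y ^ (m - 1) := by
      intro j hj
      rw [← pow_add]
      congr 1
      have := Finset.mem_range.1 hj
      omega
    rw [Finset.sum_congr rfl this, Finset.sum_const, Finset.card_range, nsmul_eq_mul]
  rw [h1, ← Finset.sum_sub_distrib]
  refine Finset.dvd_sum fun j _ => ?_
  rw [← sub_mul]
  exact Dvd.dvd.mul_right (sub_dvd_pow_sub_pow x y j) _

/-- **Multi-branch root lifting.**  See the module docstring. -/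
theorem mem_range_of_branch_roots
    {A C : Type*} [CommRing A] [IsLocalRing A] [CommRing C] [Algebra A C]
    {ι : Type*} [Finite ι] [Nonempty ι] (K : ι → Type*) [∀ i, CommRing (K i)]
    [∀ i, Nontrivial (K i)]
    (ρ : ∀ i, C →+* K i)
    (hnil : ∀ x : C, (∀ i, ρ i x = 0) → IsNilpotent x)
    (m : ℕ) (hm : (m : ResidueField A) ≠ 0)
    (u : Aˣ) (t : C) (ht : t ^ m = algebraMap A C u)
    (a : ι → A) (ha : ∀ i, ρ i t = ρ i (algebraMap A C (a i)))
    (hagree : ∀ i j, a i - a j ∈ maximalIdeal A) :
    t ∈ (algebraMap A C).range := by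
  classical
  cases nonempty_fintype ι
  obtain ⟨i₀⟩ := ‹Nonempty ι›
  -- elementary facts in `A`
  have hm0 : m ≠ 0 := by
    rintro rfl
    exact hm (by simp)
  have hmA : IsUnit (m : A) := by
    by_contra h
    have h1 : (m : A) ∈ maximalIdeal A := (mem_maximalIdeal _).2 h
    have h2 : residue A (m : A) = 0 := (residue_eq_zero_iff _).2 h1
    exact hm (by simpa using h2)
  have hpow : ∀ i, a i ^ m - (u : A) ∈ maximalIdeal A := by
    intro i
    by_contra h
    have hu : IsUnit (a i ^ m - (u : A)) := by
      by_contra h'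
      exact h ((mem_maximalIdeal _).2 h')
    have h0 : ρ i (algebraMap A C (a i ^ m - (u : A))) = 0 := by
      rw [map_sub, map_pow, map_sub, map_pow, ← ha i, ← map_pow, ht, sub_self]
    have h1 : IsUnit (ρ i (algebraMap A C (a i ^ m - (u : A)))) := (hu.map _).map _
    rw [h0] at h1
    exact not_isUnit_zero h1
  have ha₀u : IsUnit (a i₀) := by
    have h1 : IsUnit (a i₀ ^ m) := by
      by_contra h
      have h2 : a i₀ ^ m ∈ maximalIdeal A := (mem_maximalIdeal _).2 h
      have h3 : (u : A) ∈ maximalIdeal A := by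
        have h := (maximalIdeal A).sub_mem h2 (hpow i₀)
        rwa [sub_sub_cancel] at h
      exact (mem_maximalIdeal _).1 h3 u.isUnit
    exact (isUnit_pow_iff hm0).1 h1
  have hc : IsUnit ((m : A) * a i₀ ^ (m - 1)) := hmA.mul (ha₀u.pow _)
  -- the finite `A`-algebra `S = A[t]`
  have hint : IsIntegral A t := by
    refine ⟨Polynomial.X ^ m - Polynomial.C (u : A), Polynomial.monic_X_pow_sub_C _ hm0, ?_⟩
    simp [ht]
  let S : Subalgebra A C := Algebra.adjoin A {t}
  have htS : t ∈ S := Algebra.subset_adjoin (Set.mem_singleton t)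
  let t' : S := ⟨t, htS⟩
  have : Module.Finite A S := Algebra.finite_adjoin_simple_of_isIntegral hint
  let J : Ideal S := (maximalIdeal A).map (algebraMap A S)
  -- key claim: `t ≡ a₀` modulo `𝔪 S`
  have key : t' - algebraMap A S (a i₀) ∈ J := by
    rw [← Ideal.Quotient.eq_zero_iff_mem]
    set q := Ideal.Quotient.mk J with hq
    set x := q t' with hx
    set y := q (algebraMap A S (a i₀)) with hy
    rw [map_sub, ← hx, ← hy]
    -- `x - y` lies in the Jacobson radical
    have hjac : x - y ∈ Ideal.jacobson (⊥ : Ideal (S ⧸ J)) := by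
      rw [Ideal.jacobson, Ideal.mem_sInf]
      rintro Mb ⟨-, hMb⟩
      have hM : (Mb.comap q).IsMaximal :=
        Ideal.comap_isMaximal_of_surjective q Ideal.Quotient.mk_surjective
      have hJM : J ≤ Mb.comap q := by
        intro z hz
        rw [Ideal.mem_comap, hq, Ideal.Quotient.eq_zero_iff_mem.2 hz]
        exact Mb.zero_mem
      -- the branch kernels
      let I : ι → Ideal S := fun i => RingHom.ker ((ρ i).comp S.val.toRingHom)
      have hinf : (Finset.univ.inf I) ≤ Mb.comap q := by
        intro z hz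
        have hz' : ∀ i, ρ i (z : C) = 0 := by
          intro i
          have := (Finset.inf_le (Finset.mem_univ i) : Finset.univ.inf I ≤ I i) hz
          simpa [I, RingHom.mem_ker] using this
        obtain ⟨n, hn⟩ := hnil (z : C) hz'
        have hzn : z ^ n = 0 := Subtype.ext (by simpa using hn)
        exact hM.isPrime.mem_of_pow_mem n (by rw [hzn]; exact Ideal.zero_mem _)
      obtain ⟨i, -, hi⟩ := (Ideal.IsPrime.inf_le' hM.isPrime).1 hinf
      have h1 : t' - algebraMap A S (a i) ∈ I i := by
        simp only [I, RingHom.mem_ker, RingHom.comp_apply, map_sub]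
        rw [sub_eq_zero]
        exact ha i
      have h2 : algebraMap A S (a i - a i₀) ∈ J := Ideal.mem_map_of_mem _ (hagree i i₀)
      have h3 : t' - algebraMap A S (a i₀) ∈ Mb.comap q := by
        have := (Mb.comap q).add_mem (hi h1) (hJM h2)
        rw [map_sub] at this
        convert this using 1
        ring
      have h4 : q (t' - algebraMap A S (a i₀)) ∈ Mb := h3
      rwa [map_sub] at h4
    -- the geometric sum
    set g := ∑ j ∈ Finset.range m, x ^ j * y ^ (m - 1 - j) with hg
    have hprod : (x - y) * g = 0 := by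
      have h1 : g * (x - y) = x ^ m - y ^ m := geom_sum₂_mul x y m
      have h2 : t' ^ m = algebraMap A S (u : A) := Subtype.ext (by simpa [t'] using ht)
      have h3 : x ^ m - y ^ m = q (algebraMap A S ((u : A) - a i₀ ^ m)) := by
        rw [hx, hy, ← map_pow, ← map_pow, h2, ← map_pow, ← map_sub, ← map_sub]
      have h4 : algebraMap A S ((u : A) - a i₀ ^ m) ∈ J := by
        refine Ideal.mem_map_of_mem _ ?_
        have := (maximalIdeal A).neg_mem (hpow i₀)
        simpa using this
      rw [mul_comm, h1, h3]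
      exact Ideal.Quotient.eq_zero_iff_mem.2 h4
    have hgu : IsUnit g := by
      obtain ⟨h, hh⟩ := geom_sum_sub_dvd x y m
      have hcu : IsUnit ((m : S ⧸ J) * y ^ (m - 1)) := by
        have := (hc.map (algebraMap A S)).map q
        simpa [hy] using this
      obtain ⟨c, hc'⟩ := hcu
      have h1 : g = c * ((x - y) * (h * (c⁻¹ : (S ⧸ J)ˣ)) + 1) := by
        have : g = (m : S ⧸ J) * y ^ (m - 1) + (x - y) * h := by
          rw [← hh]; ring
        rw [this, ← hc']
        have hcc : (c : S ⧸ J) * (c⁻¹ : (S ⧸ J)ˣ) = 1 := by simp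
        linear_combination (-(x - y) * h) * hcc
      rw [h1]
      exact c.isUnit.mul (Ideal.mem_jacobson_bot.1 hjac _)
    exact (hgu.mul_left_eq_zero).1 hprod
  -- every element of `S` is congruent to an element of `A` modulo `𝔪 S`
  have hall : ∀ (z : C) (hz : z ∈ S), ∃ b : A, (⟨z, hz⟩ : S) - algebraMap A S b ∈ J := by
    intro z hz
    induction hz using Algebra.adjoin_induction with
    | mem z hz =>
      refine ⟨a i₀, ?_⟩
      have hzt : z = t := hz
      subst hzt
      exact key
    | algebraMap r =>
      refine ⟨r, ?_⟩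
      have : (⟨algebraMap A C r, Subalgebra.algebraMap_mem _ r⟩ : S) = algebraMap A S r := rfl
      rw [this, sub_self]
      exact J.zero_mem
    | add z w hz hw ihz ihw =>
      obtain ⟨b, hb⟩ := ihz
      obtain ⟨c, hc⟩ := ihw
      refine ⟨b + c, ?_⟩
      have := J.add_mem hb hc
      convert this using 1
      rw [map_add]
      ext
      simp only [Subalgebra.coe_sub, Subalgebra.coe_add]
      ring
    | mul z w hz hw ihz ihw =>
      obtain ⟨b, hb⟩ := ihz
      obtain ⟨c, hc⟩ := ihw
      refine ⟨b * c, ?_⟩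
      have := J.add_mem (J.mul_mem_left (⟨z, hz⟩ : S) hc) (J.mul_mem_left (algebraMap A S c) hb)
      convert this using 1
      rw [map_mul]
      ext
      simp only [Subalgebra.coe_sub, Subalgebra.coe_add, Subalgebra.coe_mul]
      ring
  -- Nakayama
  have htop : (⊤ : Submodule A S) ≤ LinearMap.range (Algebra.linearMap A S) := by
    refine Submodule.le_of_le_smul_of_le_jacobson_bot (I := maximalIdeal A)
      (Module.Finite.fg_top) (maximalIdeal_le_jacobson _) ?_
    rintro ⟨z, hz⟩ -
    obtain ⟨b, hb⟩ := hall z hz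
    refine Submodule.mem_sup.2 ⟨algebraMap A S b, ⟨b, rfl⟩, (⟨z, hz⟩ : S) - algebraMap A S b, ?_, ?_⟩
    · rw [Ideal.smul_top_eq_map]
      exact hb
    · abel
  obtain ⟨b, hb⟩ := htop (Submodule.mem_top : t' ∈ (⊤ : Submodule A S))
  refine ⟨b, ?_⟩
  have := congrArg (Subtype.val : S → C) hb
  simpa [t'] using this

/-- Variant of `mem_range_of_branch_roots` with existential branch witnesses: on every branch `t`
is the image of *some* element of `A`, and any two such witnesses (on any two branches) have the
same residue. -/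
theorem mem_range_of_branch_roots'
    {A C : Type*} [CommRing A] [IsLocalRing A] [CommRing C] [Algebra A C]
    {ι : Type*} [Finite ι] [Nonempty ι] (K : ι → Type*) [∀ i, CommRing (K i)]
    [∀ i, Nontrivial (K i)]
    (ρ : ∀ i, C →+* K i)
    (hnil : ∀ x : C, (∀ i, ρ i x = 0) → IsNilpotent x)
    (m : ℕ) (hm : (m : ResidueField A) ≠ 0)
    (u : Aˣ) (t : C) (ht : t ^ m = algebraMap A C u)
    (hex : ∀ i, ∃ b : A, ρ i t = ρ i (algebraMap A C b))
    (hagree : ∀ i j (b c : A), ρ i t = ρ i (algebraMap A C b) → ρ j t = ρ j (algebraMap A C c) →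
      b - c ∈ maximalIdeal A) :
    t ∈ (algebraMap A C).range := by
  choose a ha using hex
  exact mem_range_of_branch_roots K ρ hnil m hm u t ht a ha
    (fun i j => hagree i j (a i) (a j) (ha i) (ha j))

/-- `C = A[t]` form: if `C` is generated over `A` by the root `t`, then `A → C` is surjective. -/
theorem surjective_of_branch_roots
    {A C : Type*} [CommRing A] [IsLocalRing A] [CommRing C] [Algebra A C]
    {ι : Type*} [Finite ι] [Nonempty ι] (K : ι → Type*) [∀ i, CommRing (K i)]
    [∀ i, Nontrivial (K i)]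
    (ρ : ∀ i, C →+* K i)
    (hnil : ∀ x : C, (∀ i, ρ i x = 0) → IsNilpotent x)
    (m : ℕ) (hm : (m : ResidueField A) ≠ 0)
    (u : Aˣ) (t : C) (ht : t ^ m = algebraMap A C u)
    (a : ι → A) (ha : ∀ i, ρ i t = ρ i (algebraMap A C (a i)))
    (hagree : ∀ i j, a i - a j ∈ maximalIdeal A)
    (hgen : Algebra.adjoin A {t} = ⊤) :
    Function.Surjective (algebraMap A C) := by
  obtain ⟨b, hb⟩ := mem_range_of_branch_roots K ρ hnil m hm u t ht a ha hagree
  intro z
  have hz : z ∈ Algebra.adjoin A {t} := hgen ▸ Algebra.mem_top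
  induction hz using Algebra.adjoin_induction with
  | mem z hz =>
    have hzt : z = t := hz
    exact ⟨b, by rw [hzt, hb]⟩
  | algebraMap r => exact ⟨r, rfl⟩
  | add z w _ _ ihz ihw =>
    obtain ⟨c, rfl⟩ := ihz
    obtain ⟨d, rfl⟩ := ihw
    exact ⟨c + d, map_add _ _ _⟩
  | mul z w _ _ ihz ihw =>
    obtain ⟨c, rfl⟩ := ihz
    obtain ⟨d, rfl⟩ := ihw
    exact ⟨c * d, map_mul _ _ _⟩

end Fermat.Agent.S36.BranchRoot
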