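/-
S36 — BranchRootB.lean (helper117).  Independent second copy of the abstract block (5) of the
S36 blueprint: MULTI-BRANCH ROOT LIFTING (interface of `S36/BranchRoot.lean`, helper75).

`A` a local ring, `C` an `A`-algebra, finitely many "branch maps" `ρ i : C →+* K i` into nontrivial
rings which together detect `C` up to nilpotents.  If `t ∈ C` is an `m`-th root of a unit `u` of
`A`, with `m` invertible in the residue field of `A`, and on every branch `t` has the same image as
some `a i ∈ A`, the `a i` being congruent to each other modulo the maximal ideal, then `t` lies in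
the image of `A`.

Mathlib only.  Proof: `S = A[t]` is a finite `A`-algebra; modulo `𝔪 S` the element `t - a₀` is
nilpotent (the product of the `t - a i` dies on every branch) and `t ^ m = a₀ ^ m`, hence
`t = a₀` modulo `𝔪 S` (`eq_of_pow_eq_of_isNilpotent_sub`: uniqueness of `m`-th roots up to
nilpotents); so `A → S / 𝔪 S` is onto and Nakayama gives `S = A`.
-/
import Mathlib

set_option autoImplicit false

namespace Fermat.Agent.S36.BranchRootB

open Polynomial

/-- In a commutative ring, two `m`-th roots of the same element which differ by a nilpotent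
coincide, if `m` and one of the roots are units. -/
theorem eq_of_pow_eq_of_isNilpotent_sub {Q : Type*} [CommRing Q] {x y : Q} {m : ℕ}
    (hm : IsUnit (m : Q)) (hy : IsUnit y) (hν : IsNilpotent (x - y)) (h : x ^ m = y ^ m) :
    x = y := by
  set g : Q := ∑ j ∈ Finset.range m, x ^ j * y ^ (m - 1 - j) with hg
  have hmul : g * (x - y) = 0 := by
    rw [hg, geom_sum₂_mul, h, sub_self]
  -- `g` is a unit: it is `m * y ^ (m - 1)` up to a nilpotent
  have hmem : g - (m : Q) * y ^ (m - 1) ∈ nilradical Q := by
    have hsum : (m : Q) * y ^ (m - 1) = ∑ j ∈ Finset.range m, y ^ j * y ^ (m - 1 - j) := by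
      have : ∀ j ∈ Finset.range m, y ^ j * y ^ (m - 1 - j) = y ^ (m - 1) := by
        intro j hj
        rw [← pow_add]
        congr 1
        have := Finset.mem_range.mp hj
        omega
      rw [Finset.sum_congr rfl this, Finset.sum_const, Finset.card_range, nsmul_eq_mul]
    rw [hsum, hg, ← Finset.sum_sub_distrib]
    refine Ideal.sum_mem _ fun j _ => ?_
    rw [← sub_mul]
    refine Ideal.mul_mem_right _ _ ?_
    exact Ideal.mem_of_dvd _ (sub_dvd_pow_sub_pow x y j) (mem_nilradical.mpr hν)
  have hunit : IsUnit g := by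
    have hc : IsUnit ((m : Q) * y ^ (m - 1)) := hm.mul (hy.pow _)
    have hn : IsNilpotent (g - (m : Q) * y ^ (m - 1)) := mem_nilradical.mp hmem
    have e : g = (m : Q) * y ^ (m - 1) + (g - (m : Q) * y ^ (m - 1)) := by ring
    rw [e]
    exact hn.isUnit_add_left_of_commute hc (Commute.all _ _)
  have h0 : x - y = 0 := (hunit.mul_right_eq_zero).mp hmul
  exact sub_eq_zero.mp h0

/-- **Multi-branch root lifting** (block (5) of the S36 blueprint; interface of
`S36/BranchRoot.lean`). -/
theorem mem_range_of_branch_roots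
    {A C : Type*} [CommRing A] [IsLocalRing A] [CommRing C] [Algebra A C]
    {ι : Type*} [Finite ι] [Nonempty ι] (K : ι → Type*) [∀ i, CommRing (K i)]
    [∀ i, Nontrivial (K i)]
    (ρ : ∀ i, C →+* K i)
    (hnil : ∀ x : C, (∀ i, ρ i x = 0) → IsNilpotent x)
    (m : ℕ) (hm : (m : IsLocalRing.ResidueField A) ≠ 0)
    (u : Aˣ) (t : C) (ht : t ^ m = algebraMap A C u)
    (a : ι → A) (ha : ∀ i, ρ i t = ρ i (algebraMap A C (a i)))
    (hagree : ∀ i j, a i - a j ∈ IsLocalRing.maximalIdeal A) :
    t ∈ (algebraMap A C).range := by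
  classical
  cases nonempty_fintype ι
  obtain ⟨i₀⟩ := ‹Nonempty ι›
  have hm0 : m ≠ 0 := by
    rintro rfl
    exact hm Nat.cast_zero
  -- `m` is a unit of `A`
  have hmA : IsUnit (m : A) := by
    apply IsLocalRing.notMem_maximalIdeal.mp
    intro hmem
    apply hm
    have := (IsLocalRing.residue_eq_zero_iff (m : A)).mpr hmem
    rwa [map_natCast] at this
  -- `u - a₀ ^ m` lies in the maximal ideal
  have hua : (u : A) - a i₀ ^ m ∈ IsLocalRing.maximalIdeal A := by
    by_contra hcon
    have hu1 : IsUnit ((u : A) - a i₀ ^ m) := IsLocalRing.notMem_maximalIdeal.mp hcon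
    have hu2 : IsUnit (ρ i₀ (algebraMap A C ((u : A) - a i₀ ^ m))) :=
      (hu1.map (algebraMap A C)).map (ρ i₀)
    have hz : ρ i₀ (algebraMap A C ((u : A) - a i₀ ^ m)) = 0 := by
      rw [map_sub, map_sub, map_pow, map_pow, ← ht, map_pow, ha i₀, sub_self]
    rw [hz] at hu2
    exact not_isUnit_zero hu2
  -- `a₀` is a unit of `A`
  have haA : IsUnit (a i₀) := by
    apply IsLocalRing.notMem_maximalIdeal.mp
    intro hmem
    have h1 : a i₀ ^ m ∈ IsLocalRing.maximalIdeal A := Ideal.pow_mem_of_mem _ hmem m
      (Nat.pos_of_ne_zero hm0)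
    have h2 : (u : A) ∈ IsLocalRing.maximalIdeal A := by
      have := Ideal.add_mem _ hua h1
      rwa [sub_add_cancel] at this
    exact IsLocalRing.notMem_maximalIdeal.mpr u.isUnit h2
  -- the finite algebra `S = A[t]`
  have hint : IsIntegral A t := by
    refine ⟨X ^ m - Polynomial.C (u : A), monic_X_pow_sub_C _ hm0, ?_⟩
    rw [eval₂_sub, eval₂_pow, eval₂_X, eval₂_C, ht, sub_self]
  set S : Subalgebra A C := Algebra.adjoin A {t} with hS
  have hfin : Module.Finite A S :=
    Module.Finite.iff_fg.mpr hint.fg_adjoin_singleton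
  have htS : t ∈ S := Algebra.subset_adjoin rfl
  set tS : S := ⟨t, htS⟩ with htSdef
  set J : Ideal S := (IsLocalRing.maximalIdeal A).map (algebraMap A S) with hJ
  -- notation in the quotient `S ⧸ J`
  set x : S ⧸ J := Ideal.Quotient.mk J tS with hx
  set y : S ⧸ J := Ideal.Quotient.mk J (algebraMap A S (a i₀)) with hy
  -- images of elements of the maximal ideal vanish in the quotient
  have hJ0 : ∀ c : A, c ∈ IsLocalRing.maximalIdeal A →
      Ideal.Quotient.mk J (algebraMap A S c) = 0 := fun c hc =>
    Ideal.Quotient.eq_zero_iff_mem.mpr (Ideal.mem_map_of_mem _ hc)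
  have hyi : ∀ i, Ideal.Quotient.mk J (algebraMap A S (a i)) = y := by
    intro i
    rw [hy, ← sub_eq_zero, ← map_sub, ← map_sub]
    exact hJ0 _ (hagree i i₀)
  -- `x - y` is nilpotent
  have hν : IsNilpotent (x - y) := by
    set P : S := ∏ i, (tS - algebraMap A S (a i)) with hP
    have hPnil : IsNilpotent P := by
      have hinj : Function.Injective (S.val : S →ₐ[A] C) := Subtype.val_injective
      refine (IsNilpotent.map_iff hinj).mp ?_
      apply hnil
      intro j
      rw [hP, map_prod, map_prod]
      refine Finset.prod_eq_zero (Finset.mem_univ j) ?_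
      rw [map_sub, map_sub]
      change ρ j t - ρ j ((algebraMap A S (a j) : S) : C) = 0
      rw [Subalgebra.coe_algebraMap, ha j, sub_self]
    obtain ⟨n, hn⟩ := hPnil
    have hmk : Ideal.Quotient.mk J P = (x - y) ^ Fintype.card ι := by
      rw [hP, map_prod]
      have : ∀ i ∈ (Finset.univ : Finset ι),
          Ideal.Quotient.mk J (tS - algebraMap A S (a i)) = x - y := by
        intro i _
        rw [map_sub, hyi i]
      rw [Finset.prod_congr rfl this, Finset.prod_const, Finset.card_univ]
    refine ⟨Fintype.card ι * n, ?_⟩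
    rw [pow_mul, ← hmk, ← map_pow, hn, map_zero]
  -- `x ^ m = y ^ m`
  have hxy : x ^ m = y ^ m := by
    have htm : tS ^ m = algebraMap A S (u : A) := by
      apply Subtype.ext
      rw [Subalgebra.coe_pow, Subalgebra.coe_algebraMap]
      exact ht
    rw [hx, hy, ← map_pow, ← map_pow, htm, ← map_pow, ← sub_eq_zero, ← map_sub, ← map_sub]
    exact hJ0 _ hua
  -- units
  have hmQ : IsUnit ((m : ℕ) : S ⧸ J) := by
    have := (hmA.map (algebraMap A S)).map (Ideal.Quotient.mk J)
    rwa [map_natCast, map_natCast] at this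
  have hyQ : IsUnit y := (haA.map (algebraMap A S)).map (Ideal.Quotient.mk J)
  have hxeq : x = y := eq_of_pow_eq_of_isNilpotent_sub hmQ hyQ hν hxy
  -- `A → S ⧸ J` is onto
  have hsurj : ∀ s : S, ∃ b : A, Ideal.Quotient.mk J s = Ideal.Quotient.mk J (algebraMap A S b) := by
    intro s
    have hs : (s : C) ∈ Algebra.adjoin A {t} := s.2
    rw [Algebra.adjoin_singleton_eq_range_aeval] at hs
    obtain ⟨p, hp⟩ := hs
    have hsp : s = aeval tS p := by
      apply Subtype.ext
      rw [aeval_subalgebra_coe]
      exact hp.symm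
    refine ⟨p.eval (a i₀), ?_⟩
    have h1 : Ideal.Quotient.mk J (aeval tS p) = aeval x p :=
      (aeval_algHom_apply (Ideal.Quotient.mkₐ A J) tS p).symm
    have h2 : aeval y p = Ideal.Quotient.mk J (algebraMap A S (p.eval (a i₀))) := by
      have := aeval_algebraMap_apply_eq_algebraMap_eval (A := S ⧸ J) (a i₀) p
      exact this
    rw [hsp, h1, hxeq, h2]
  -- Nakayama
  have htop : (⊤ : Submodule A S) ≤ LinearMap.range (Algebra.linearMap A S) := by
    refine Submodule.le_of_le_smul_of_le_jacobson_bot (I := IsLocalRing.maximalIdeal A)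
      Module.Finite.fg_top
      (le_of_eq (IsLocalRing.jacobson_eq_maximalIdeal ⊥ bot_ne_top).symm) ?_
    intro s _
    obtain ⟨b, hb⟩ := hsurj s
    have hmem : s - algebraMap A S b ∈ J := by
      rw [← Ideal.Quotient.eq_zero_iff_mem, map_sub, hb, sub_self]
    have hmem' : s - algebraMap A S b ∈ IsLocalRing.maximalIdeal A • (⊤ : Submodule A S) := by
      rw [Ideal.smul_top_eq_map]
      exact hmem
    have e : s = algebraMap A S b + (s - algebraMap A S b) := by ring
    rw [e]
    exact Submodule.add_mem_sup ⟨b, rfl⟩ hmem'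
  obtain ⟨b, hb⟩ := htop (Submodule.mem_top : tS ∈ (⊤ : Submodule A S))
  refine ⟨b, ?_⟩
  have := congrArg (fun z : S => (z : C)) hb
  simpa using this

end Fermat.Agent.S36.BranchRootB
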