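/-
S36 — CuspOff3Closed.lean (helper9; packages [MODEL3] / [B1] / [TORIC36], leaf [CUSP1]).

**[CUSP1] closed**: the cuspidal closed points of the chart at infinity
`chart (M q²) A K J3⁻¹` are one-branch points — `CuspOff3Inst` with the chart membership
`jq / j ^ q ∈ chart J3⁻¹` supplied by `CuspMem.v1_mem` (helper14, [CUSP-a]) and, for the model of
record `V = ![W1, W2, H.W3]`, `ϖ = ![π, π, sE]`, the `W3` witnesses by `V3Wit`.

* `hcusp01`        : `hcusp01` of `Princ3Cases.princ_of_cases` (any `V 2`, `ϖ 2`);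
* `one`            : the field `one` of `ChartTorInst.TorInCusp` (`V 2` abstract with `x1, x2 ∈ π V 2`);
* `hcusp01_model`, `one_model` : the same for the literal families of `Model3Top.model3`.
-/
import Mathlib
import Fermat.Agent.S36.CuspOff3Inst
import Fermat.Agent.S36.CuspMem
import Fermat.Agent.S36.V3Wit

set_option autoImplicit false

open ModularCurve AlgebraicCurve HahnSeries

namespace Fermat.Agent.S36.CuspOff3Closed

open Fermat.Agent.S18 Fermat.Agent.S18.Arith Fermat.Agent.S34 Fermat.Agent.S36.Model3Plan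

noncomputable section

variable {M q : ℕ} [NeZero M] [NeZero q] {hq : q.Prime} {hqM : ¬ q ∣ M}
variable {A : ValuationSubring Qb} {K K' : IntermediateField ℚ Qb}

/-- **`hcusp01` of `Princ3Cases.princ_of_cases`, closed**, for the chart at infinity with
`V 0 = W1`, `V 1 = W2`, `ϖ 0 = ϖ 1 = π` (`V 2`, `ϖ 2` arbitrary), `C n := ⟨J3⁻¹, _⟩ ∉ n`. -/
theorem hcusp01 (hdvr : IsDiscreteValuationRing (OK A K)) (hA : A.LiesOverPrime q)
    {π : OK A K} (hπ : Irreducible π)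
    {ϖ₃ : Fin 3 → FK (M * q * q) K} {V : Fin 3 → ValuationSubring (FK (M * q * q) K)}
    {P : Fin 3 → Ideal (chart (M * q * q) A K (Chart3B.J3 M q hq hqM K)⁻¹)}
    (hyp : ChartHyp3 π ϖ₃ V P)
    (hV0 : V 0 = GaussV.V1 (M * q * q) A K hdvr)
    (hV1 : V 1 = GaussV.V2 (WQ2.wK2 M q hq hqM K) hdvr)
    (hϖ0 : ϖ₃ 0 = algebraMap (OK A K) (FK (M * q * q) K) π)
    (hϖ1 : ϖ₃ 1 = algebraMap (OK A K) (FK (M * q * q) K) π) :
    ∀ n : Ideal (chart (M * q * q) A K (Chart3B.J3 M q hq hqM K)⁻¹), n.IsMaximal →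
      algebraMap (OK A K) (chart (M * q * q) A K (Chart3B.J3 M q hq hqM K)⁻¹) π ∈ n →
      ¬ ((⟨(Chart3B.J3 M q hq hqM K)⁻¹, Chart3B.J3_inv_mem_chart M q hq hqM A K⟩ :
        chart (M * q * q) A K (Chart3B.J3 M q hq hqM K)⁻¹) ∉ n) →
      ¬ P 2 ≤ n → ¬ (P 0 ≤ n ∧ P 1 ≤ n) :=
  CuspOff3Inst.hcusp01' M q hq hqM A K hdvr hA hπ hyp hV0 hV1 hϖ0 hϖ1
    (CuspMem.v1_mem M q hq hqM A K)

/-- **The field `one` of `ChartTorInst.TorInCusp`, closed up to the two `W3` witnesses**, for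
the chart at infinity, `D n := ⟨J3⁻¹, _⟩ ∈ n`. -/
theorem one (hdvr : IsDiscreteValuationRing (OK A K)) (hA : A.LiesOverPrime q)
    {π : OK A K} (hπ : Irreducible π) {e : Fin 3 → ℕ}
    {ϖ₃ : Fin 3 → FK (M * q * q) K} {V : Fin 3 → ValuationSubring (FK (M * q * q) K)}
    {P : Fin 3 → Ideal (chart (M * q * q) A K (Chart3B.J3 M q hq hqM K)⁻¹)}
    (val : ValHyp3 (algebraMap (OK A K) (FK (M * q * q) K) π) e ϖ₃ V)
    (hyp : ChartHyp3 π ϖ₃ V P)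
    (hV0 : V 0 = GaussV.V1 (M * q * q) A K hdvr)
    (hV1 : V 1 = GaussV.V2 (WQ2.wK2 M q hq hqM K) hdvr)
    (hϖ0 : ϖ₃ 0 = algebraMap (OK A K) (FK (M * q * q) K) π)
    (hϖ1 : ϖ₃ 1 = algebraMap (OK A K) (FK (M * q * q) K) π)
    (hϖ2 : ϖ₃ 2 = Wit3.sE M q hq hqM K)
    (hx1 : ∃ z ∈ V 2, Wit3.x1 M q hq hqM K = algebraMap (OK A K) (FK (M * q * q) K) π * z)
    (hx2 : ∃ z ∈ V 2, Wit3.x2 M q hq hqM K = algebraMap (OK A K) (FK (M * q * q) K) π * z) :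
    ∀ n : Ideal (chart (M * q * q) A K (Chart3B.J3 M q hq hqM K)⁻¹), n.IsMaximal →
      algebraMap (OK A K) (chart (M * q * q) A K (Chart3B.J3 M q hq hqM K)⁻¹) π ∈ n →
      (⟨(Chart3B.J3 M q hq hqM K)⁻¹, Chart3B.J3_inv_mem_chart M q hq hqM A K⟩ :
        chart (M * q * q) A K (Chart3B.J3 M q hq hqM K)⁻¹) ∈ n →
      ∀ i i' : Fin 3, P i ≤ n → P i' ≤ n → i = i' :=
  CuspOff3Inst.one' M q hq hqM A K hdvr hA hπ val hyp hV0 hV1 hϖ0 hϖ1 hϖ2 hx1 hx2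
    (CuspMem.v1_mem M q hq hqM A K)

variable {ξ : Qb} {hξ0 : ξ ≠ 0} {ι : FK (M * q * q) K →+* LaurentSeries Qb} {ϖ : OK A K'}

/-- `hcusp01` for the literal families of `Model3Top.model3`. -/
theorem hcusp01_model (H : V3.Hyp3 M q hq hqM A K K' ξ hξ0 ι ϖ)
    (hdvr : IsDiscreteValuationRing (OK A K)) (hA : A.LiesOverPrime q)
    {π : OK A K} (hπ : Irreducible π)
    {P : Fin 3 → Ideal (chart (M * q * q) A K (Chart3B.J3 M q hq hqM K)⁻¹)}
    (hyp : ChartHyp3 π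
      ![algebraMap (OK A K) (FK (M * q * q) K) π, algebraMap (OK A K) (FK (M * q * q) K) π,
        Wit3.sE M q hq hqM K]
      ![GaussV.V1 (M * q * q) A K hdvr, GaussV.V2 (WQ2.wK2 M q hq hqM K) hdvr, H.W3] P) :
    ∀ n : Ideal (chart (M * q * q) A K (Chart3B.J3 M q hq hqM K)⁻¹), n.IsMaximal →
      algebraMap (OK A K) (chart (M * q * q) A K (Chart3B.J3 M q hq hqM K)⁻¹) π ∈ n →
      ¬ ((⟨(Chart3B.J3 M q hq hqM K)⁻¹, Chart3B.J3_inv_mem_chart M q hq hqM A K⟩ :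
        chart (M * q * q) A K (Chart3B.J3 M q hq hqM K)⁻¹) ∉ n) →
      ¬ P 2 ≤ n → ¬ (P 0 ≤ n ∧ P 1 ≤ n) :=
  hcusp01 hdvr hA hπ hyp rfl rfl rfl rfl

/-- `TorInCusp.one` for the literal families of `Model3Top.model3`: **hypothesis-free** beyond
the standing data of the model. -/
theorem one_model (H : V3.Hyp3 M q hq hqM A K K' ξ hξ0 ι ϖ)
    (hdvr : IsDiscreteValuationRing (OK A K)) (hA : A.LiesOverPrime q)
    {π : OK A K} (hπ : Irreducible π) (a : A) (hqa : (q : Qb) = incO A K π * (a : Qb))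
    (hπϖ : ∃ u : A, IsUnit u ∧ incO A K π = incO A K' ϖ ^ (q - 1) * (u : Qb))
    {P : Fin 3 → Ideal (chart (M * q * q) A K (Chart3B.J3 M q hq hqM K)⁻¹)}
    (hyp : ChartHyp3 π
      ![algebraMap (OK A K) (FK (M * q * q) K) π, algebraMap (OK A K) (FK (M * q * q) K) π,
        Wit3.sE M q hq hqM K]
      ![GaussV.V1 (M * q * q) A K hdvr, GaussV.V2 (WQ2.wK2 M q hq hqM K) hdvr, H.W3] P) :
    ∀ n : Ideal (chart (M * q * q) A K (Chart3B.J3 M q hq hqM K)⁻¹), n.IsMaximal →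
      algebraMap (OK A K) (chart (M * q * q) A K (Chart3B.J3 M q hq hqM K)⁻¹) π ∈ n →
      (⟨(Chart3B.J3 M q hq hqM K)⁻¹, Chart3B.J3_inv_mem_chart M q hq hqM A K⟩ :
        chart (M * q * q) A K (Chart3B.J3 M q hq hqM K)⁻¹) ∈ n →
      ∀ i i' : Fin 3, P i ≤ n → P i' ≤ n → i = i' :=
  one hdvr hA hπ (V3Wit.valHyp3 H hdvr hA hπ a hqa hπϖ) hyp rfl rfl rfl rfl rfl
    (V3Wit.x1_pi3 H hdvr hA hπ a hqa) (V3Wit.x2_pi3 H hdvr hA hπ)

end

end Fermat.Agent.S36.CuspOff3Closed
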