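/-
S36 — CuspGen.lean (helper112; block [N10]/[CUSP3], abstract core; Mathlib + `Model3Plan` +
`Princ3`).

The vertical prime `P 2` (the component `W3` of multiplicity `e 2`) is principal at a ONE-BRANCH
closed point `n` of `W3` as soon as there is a "unit congruence"

    `(a / s) ^ (e 2) / π ≡ a' / s'`  modulo the maximal ideal of `V 2`,   `s, s', a' ∉ n`,

written without division as `a ^ (e 2) * s' = π * s ^ (e 2) * (a' + ϖ 2 * y)`, `y ∈ V 2`: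
then `a` generates `P 2` locally at `n` (`genAt_of_unitCong`).  This is the input `hB1` of
`Princ3.princ_of_triple` with `i = 2`.

Application (`cusp_genAt`): the CUSPIDAL closed points of `W3`.  With `X = j⁻¹`, `Z = jq⁻¹`,
`Y = jqq⁻¹` (elements of the chart at infinity), the level-`q²` monomials
`m₁ = jqq / j^(q²)`, `m₂ = j / jqq^(q²)`, `μ₀ = jq / j^q`, `μ₁ = jq / (j^(q-1) jqq)` and
`A, B ∈ O[X]` with unit constant terms such that
`(jqq / j - 1)^(q-1) / π ≡ A / B` modulo the maximal ideal of `V 2`: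

* `cusp_mem`      : a prime `n ⊇ P 2` containing `X * Y * Z` contains `X`;
* `cusp_not_le`   : such an `n` contains neither `P 0` nor `P 1` (it is a one-branch point);
* `cusp_genAt`    : `μ₀ - μ₁` generates `P 2` locally at `n`;
* `cusp_hB1`      : the shape `hB1` of `Princ3.princ_of_triple` at such an `n`.
-/
import Mathlib
import Fermat.Agent.S36.Model3Plan
import Fermat.Agent.S36.Princ3

set_option autoImplicit false

namespace Fermat.Agent.S36.CuspGen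

open Fermat.Agent.S36.Model3Plan

variable {O : Type*} [CommRing O] {R : Type*} [CommRing R] [Algebra O R]
  {E : Type*} [Field E] [Algebra R E]
  {π : O} {e : Fin 3 → ℕ} {ϖ : Fin 3 → E} {V : Fin 3 → ValuationSubring E}
  {P : Fin 3 → Ideal R}

/-- Localised `desc` at a one-branch point of `P 2`: an element of `R ∩ π (V 2)` lies in
`π R_n`. -/
theorem exists_pi_mul_of_oneBranch (val : ValHyp3 (algebraMap R E (algebraMap O R π)) e ϖ V)
    (hyp : ChartHyp3 π ϖ V P) (hp0 : algebraMap R E (algebraMap O R π) ≠ 0)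
    (n : Ideal R) (hn : n.IsPrime) (hP0 : ¬ P 0 ≤ n) (hP1 : ¬ P 1 ≤ n) (x : R)
    (hx : ∃ v ∈ V 2, algebraMap R E x = algebraMap R E (algebraMap O R π) * v) :
    ∃ σ : R, σ ∉ n ∧ ∃ r : R, σ * x = algebraMap O R π * r := by
  refine Princ3.exists_pi_mul val hyp hp0 n hn x ?_
  intro i hi
  fin_cases i
  · exact absurd hi hP0
  · exact absurd hi hP1
  · exact hx

/-- **Unit congruence ⟹ generator.**  At a prime `n ⊇ P 2` containing neither `P 0` nor `P 1`,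
if `a ^ (e 2) * s' = π * s ^ (e 2) * (a' + ϖ 2 * y)` with `s, s', a' ∉ n` and `y ∈ V 2`, then `a`
generates `P 2` locally at `n`. -/
theorem genAt_of_unitCong (val : ValHyp3 (algebraMap R E (algebraMap O R π)) e ϖ V)
    (hyp : ChartHyp3 π ϖ V P) (hp0 : algebraMap R E (algebraMap O R π) ≠ 0)
    (hinj : Function.Injective (algebraMap R E))
    (n : Ideal R) (hn : n.IsPrime) (hP2 : P 2 ≤ n) (hP0 : ¬ P 0 ≤ n) (hP1 : ¬ P 1 ≤ n)
    (a s s' a' : R) (hs : s ∉ n) (hs' : s' ∉ n) (ha' : a' ∉ n) (y : E) (hy : y ∈ V 2)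
    (h : algebraMap R E a ^ e 2 * algebraMap R E s' =
      algebraMap R E (algebraMap O R π) * algebraMap R E s ^ e 2 *
        (algebraMap R E a' + ϖ 2 * y)) :
    a ∈ P 2 ∧ ∀ z ∈ P 2, ∃ t : R, t ∉ n ∧ ∃ c : R, t * z = c * a := by
  set p : E := algebraMap R E (algebraMap O R π) with hp
  have he2 : 0 < e 2 := val.e_pos 2
  obtain ⟨k, hk⟩ : ∃ k : ℕ, e 2 = k + 1 := ⟨e 2 - 1, by omega⟩
  have hϖ0 : ϖ 2 ≠ 0 := by
    intro h0
    apply val.unif_not 2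
    rw [h0, inv_zero]
    exact zero_mem _
  obtain ⟨u₂, hu₂, hu₂', hpu⟩ := val.ram 2
  have hu₂0 : u₂ ≠ 0 := by
    rintro rfl
    exact hp0 (by rw [hpu, mul_zero])
  -- the element `w = s ^ e (a' + ϖ y)` of `V 2`
  set w : E := algebraMap R E s ^ e 2 * (algebraMap R E a' + ϖ 2 * y) with hw
  have hwV : w ∈ V 2 :=
    mul_mem (pow_mem (hyp.le 2 s) _) (add_mem (hyp.le 2 a') (mul_mem (val.unif_mem 2) hy))
  have h' : algebraMap R E a ^ e 2 * algebraMap R E s' = p * w := by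
    rw [h, hw]; ring
  -- `a ≠ 0`
  have ha0 : algebraMap R E a ≠ 0 := by
    intro h0
    rw [h0, zero_pow he2.ne', zero_mul] at h'
    have hw0 : w = 0 := by
      rcases mul_eq_zero.mp h'.symm with h1 | h1
      · exact absurd h1 hp0
      · exact h1
    have hs0 : algebraMap R E s ≠ 0 := by
      intro h1
      apply hs
      have : s = 0 := hinj (by rw [h1, map_zero])
      rw [this]; exact zero_mem _
    rw [hw] at hw0
    have h2 : algebraMap R E a' + ϖ 2 * y = 0 := by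
      rcases mul_eq_zero.mp hw0 with h1 | h1
      · exact absurd (pow_eq_zero_iff he2.ne' |>.mp h1) hs0
      · exact h1
    apply ha'
    apply hP2
    rw [hyp.mem_P 2]
    exact ⟨-y, neg_mem hy, by linear_combination h2⟩
  -- Step B: `a ∈ P 2`
  have haP : ∃ va ∈ V 2, algebraMap R E a = ϖ 2 * va := by
    obtain ⟨j, u, hu, hu', hau⟩ := val.disc 2 (algebraMap R E a) ha0
    have hu0 : u ≠ 0 := by
      rintro rfl
      exact ha0 (by rw [hau, mul_zero])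
    rcases le_or_gt 1 j with hj | hj
    · obtain ⟨i, rfl⟩ : ∃ i : ℕ, j = (i : ℤ) + 1 := ⟨(j - 1).toNat, by omega⟩
      refine ⟨ϖ 2 ^ i * u, mul_mem (pow_mem (val.unif_mem 2) _) hu, ?_⟩
      rw [hau, zpow_add_one₀ hϖ0, zpow_natCast]
      ring
    · exfalso
      obtain ⟨i, rfl⟩ : ∃ i : ℕ, j = -(i : ℤ) := ⟨(-j).toNat, by omega⟩
      -- `(a)⁻¹ = ϖ ^ i * u⁻¹ ∈ V 2`
      have hainv : (algebraMap R E a)⁻¹ ∈ V 2 := by
        have : (algebraMap R E a)⁻¹ = ϖ 2 ^ i * u⁻¹ := by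
          rw [hau, zpow_neg, zpow_natCast]
          field_simp
        rw [this]
        exact mul_mem (pow_mem (val.unif_mem 2) _) hu'
      apply hs'
      apply hP2
      rw [hyp.mem_P 2]
      refine ⟨ϖ 2 ^ k * u₂ * w * ((algebraMap R E a)⁻¹) ^ e 2,
        mul_mem (mul_mem (mul_mem (pow_mem (val.unif_mem 2) _) hu₂) hwV) (pow_mem hainv _), ?_⟩
      have h3 : algebraMap R E s' = p * w * ((algebraMap R E a)⁻¹) ^ e 2 := by
        rw [← h', inv_pow]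
        field_simp
      rw [h3, hpu, hk]
      ring
  obtain ⟨va, hva, hava⟩ := haP
  refine ⟨(hyp.mem_P 2 a).mpr ⟨va, hva, hava⟩, ?_⟩
  -- Step A: `σ₁ * (a ^ e * s') = π * r₁` with `r₁ ∉ n`
  obtain ⟨σ₁, hσ₁, r₁, hr₁⟩ := exists_pi_mul_of_oneBranch val hyp hp0 n hn hP0 hP1
    (a ^ e 2 * s') ⟨w, hwV, by rw [map_mul, map_pow, h']⟩
  have hA : algebraMap R E σ₁ * (algebraMap R E a ^ e 2 * algebraMap R E s') =
      p * algebraMap R E r₁ := by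
    have := congrArg (algebraMap R E) hr₁
    simpa only [map_mul, map_pow] using this
  have hr₁n : r₁ ∉ n := by
    intro hr
    have h4 : algebraMap R E r₁ = algebraMap R E σ₁ * w := by
      apply mul_left_cancel₀ hp0
      rw [← hA, h']
      ring
    have h5 : r₁ - σ₁ * s ^ e 2 * a' ∈ P 2 := by
      rw [hyp.mem_P 2]
      refine ⟨algebraMap R E σ₁ * algebraMap R E s ^ e 2 * y,
        mul_mem (mul_mem (hyp.le 2 σ₁) (pow_mem (hyp.le 2 s) _)) hy, ?_⟩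
      rw [map_sub, map_mul, map_mul, map_pow, h4, hw]
      ring
    have h6 : σ₁ * s ^ e 2 * a' ∈ n := by
      have := n.sub_mem hr (hP2 h5)
      rwa [sub_sub_cancel] at this
    rcases hn.mem_or_mem h6 with h7 | h7
    · rcases hn.mem_or_mem h7 with h8 | h8
      · exact hσ₁ h8
      · exact hs (hn.mem_of_pow_mem _ h8)
    · exact ha' h7
  -- Step C
  intro z hz
  obtain ⟨vz, hvz, hzv⟩ := (hyp.mem_P 2 z).mp hz
  have hx₂ : ∃ v ∈ V 2, algebraMap R E (z * a ^ k) = p * v := by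
    refine ⟨u₂⁻¹ * vz * va ^ k, mul_mem (mul_mem hu₂' hvz) (pow_mem hva _), ?_⟩
    rw [map_mul, map_pow, hzv, hava, hpu, hk]
    field_simp
    ring
  obtain ⟨σ₂, hσ₂, r₂, hr₂⟩ := exists_pi_mul_of_oneBranch val hyp hp0 n hn hP0 hP1
    (z * a ^ k) hx₂
  have hC : algebraMap R E σ₂ * (algebraMap R E z * algebraMap R E a ^ k) =
      p * algebraMap R E r₂ := by
    have := congrArg (algebraMap R E) hr₂
    simpa only [map_mul, map_pow] using this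
  refine ⟨σ₂ * r₁, fun hmem => (hn.mem_or_mem hmem).elim hσ₂ hr₁n, σ₁ * s' * r₂, ?_⟩
  apply hinj
  simp only [map_mul]
  have hne : p * algebraMap R E a ^ k ≠ 0 := mul_ne_zero hp0 (pow_ne_zero _ ha0)
  apply mul_left_cancel₀ hne
  have hek : algebraMap R E a ^ e 2 = algebraMap R E a ^ k * algebraMap R E a := by
    rw [hk, pow_succ]
  linear_combination (algebraMap R E r₁ * p) * hC - (algebraMap R E r₂ * p) * hA +
    (algebraMap R E r₂ * p * algebraMap R E σ₁ * algebraMap R E s') * hek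

/-- Field form of `genAt_of_unitCong`: `δ = a / s` regular at `n` (`δ * s = a`, `s ∉ n`) with
`δ ^ (e 2) * s' = π * (a' + ϖ 2 * y)`, `s', a' ∉ n`, `y ∈ V 2` ("`δ ^ (e 2) / π` is congruent
modulo the maximal ideal of `V 2` to a unit at `n`"): then the numerator `a` generates `P 2`
locally at `n`. -/
theorem genAt_of_unitCong_field (val : ValHyp3 (algebraMap R E (algebraMap O R π)) e ϖ V)
    (hyp : ChartHyp3 π ϖ V P) (hp0 : algebraMap R E (algebraMap O R π) ≠ 0)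
    (hinj : Function.Injective (algebraMap R E))
    (n : Ideal R) (hn : n.IsPrime) (hP2 : P 2 ≤ n) (hP0 : ¬ P 0 ≤ n) (hP1 : ¬ P 1 ≤ n)
    (δ : E) (a s s' a' : R) (hs : s ∉ n) (hs' : s' ∉ n) (ha' : a' ∉ n)
    (hδ : δ * algebraMap R E s = algebraMap R E a) (y : E) (hy : y ∈ V 2)
    (h : δ ^ e 2 * algebraMap R E s' =
      algebraMap R E (algebraMap O R π) * (algebraMap R E a' + ϖ 2 * y)) :
    a ∈ P 2 ∧ ∀ z ∈ P 2, ∃ t : R, t ∉ n ∧ ∃ c : R, t * z = c * a := by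
  refine genAt_of_unitCong val hyp hp0 hinj n hn hP2 hP0 hP1 a s s' a' hs hs' ha' y hy ?_
  rw [← hδ, mul_pow]
  linear_combination algebraMap R E s ^ e 2 * h

/-- The shape `hB1` of `Princ3.princ_of_triple` (`i = 2`) from the field form. -/
theorem hB1_of_unitCong_field (val : ValHyp3 (algebraMap R E (algebraMap O R π)) e ϖ V)
    (hyp : ChartHyp3 π ϖ V P) (hp0 : algebraMap R E (algebraMap O R π) ≠ 0)
    (hinj : Function.Injective (algebraMap R E))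
    (n : Ideal R) (hn : n.IsPrime) (hP2 : P 2 ≤ n) (hP0 : ¬ P 0 ≤ n) (hP1 : ¬ P 1 ≤ n)
    (δ : E) (a s s' a' : R) (hs : s ∉ n) (hs' : s' ∉ n) (ha' : a' ∉ n)
    (hδ : δ * algebraMap R E s = algebraMap R E a) (y : E) (hy : y ∈ V 2)
    (h : δ ^ e 2 * algebraMap R E s' =
      algebraMap R E (algebraMap O R π) * (algebraMap R E a' + ϖ 2 * y)) :
    ∃ i : Fin 3, P i ≤ n ∧ ∃ g ∈ P i, ∀ z ∈ P i, ∃ t : R, t ∉ n ∧ ∃ c : R, t * z = c * g := by
  obtain ⟨hg, hgen⟩ := genAt_of_unitCong_field val hyp hp0 hinj n hn hP2 hP0 hP1 δ a s s' a'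
    hs hs' ha' hδ y hy h
  exact ⟨2, hP2, a, hg, hgen⟩

/-! ### The cuspidal points of `W3` -/

/-- (C1) A prime `n ⊇ P 2` containing `X * Y * Z` contains `X`, if `X - Y ∈ P 2` and
`Z - X ^ d ∈ P 2`. -/
theorem cusp_mem (n : Ideal R) (hn : n.IsPrime) (hP2 : P 2 ≤ n) (X Y Z : R) (d : ℕ)
    (hXY : X - Y ∈ P 2) (hZX : Z - X ^ d ∈ P 2) (hmem : X * Y * Z ∈ n) : X ∈ n := by
  rcases hn.mem_or_mem hmem with h1 | h1
  · rcases hn.mem_or_mem h1 with h2 | h2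
    · exact h2
    · have := n.add_mem (hP2 hXY) h2
      rwa [sub_add_cancel] at this
  · have h3 : X ^ d ∈ n := by
      have := n.sub_mem h1 (hP2 hZX)
      rwa [sub_sub_cancel] at this
    exact hn.mem_of_pow_mem _ h3

/-- (C2) A prime `n ⊇ P 2` containing `X` contains neither `P 0` nor `P 1`, given
`m₁, m₂ ∈ R` with `1 - m₁ ∈ P 0`, `1 - m₂ ∈ P 1` and `m₁ ≡ X ^ k₁`, `m₂ ≡ X ^ k₂` modulo `P 2`
(`k₁, k₂ ≠ 0`). -/
theorem cusp_not_le (n : Ideal R) (hn : n.IsPrime) (hP2 : P 2 ≤ n) (X m₁ m₂ : R) (k₁ k₂ : ℕ)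
    (hk₁ : k₁ ≠ 0) (hk₂ : k₂ ≠ 0) (hm₁ : 1 - m₁ ∈ P 0) (hm₁' : m₁ - X ^ k₁ ∈ P 2)
    (hm₂ : 1 - m₂ ∈ P 1) (hm₂' : m₂ - X ^ k₂ ∈ P 2) (hX : X ∈ n) :
    ¬ P 0 ≤ n ∧ ¬ P 1 ≤ n := by
  have h1n : (1 : R) ∉ n := fun h => hn.ne_top ((Ideal.eq_top_iff_one n).mpr h)
  have key : ∀ (m : R) (k : ℕ), k ≠ 0 → m - X ^ k ∈ P 2 → 1 - m ∉ n := by
    intro m k hk hm hmem
    have hXk : X ^ k ∈ n := n.pow_mem_of_mem hX k (Nat.pos_of_ne_zero hk)
    have hmn : m ∈ n := by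
      have := n.add_mem (hP2 hm) hXk
      rwa [sub_add_cancel] at this
    apply h1n
    have := n.add_mem hmem hmn
    rwa [sub_add_cancel] at this
  exact ⟨fun h => key m₁ k₁ hk₁ hm₁' (h hm₁), fun h => key m₂ k₂ hk₂ hm₂' (h hm₂)⟩

/-- (C3) **The generator of `P 2` at a cuspidal point of `W3`.**  `μ₀, μ₁ ∈ R` congruent to `1`
modulo `P 2`, `A = a₀ + X A'`, `B = b₀ + X B'` with `a₀, b₀` units of `O`, and the unit
congruence `(μ₀ - μ₁) ^ (e 2) * B = π * μ₁ ^ (e 2) * (A + ϖ 2 * y)`: then `μ₀ - μ₁` generates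
`P 2` locally at every prime `n ⊇ P 2` containing `X` and neither `P 0` nor `P 1`. -/
theorem cusp_genAt_of_mem (val : ValHyp3 (algebraMap R E (algebraMap O R π)) e ϖ V)
    (hyp : ChartHyp3 π ϖ V P) (hp0 : algebraMap R E (algebraMap O R π) ≠ 0)
    (hinj : Function.Injective (algebraMap R E))
    (X μ₀ μ₁ A B A' B' : R) (a₀ b₀ : O) (ha₀ : IsUnit a₀) (hb₀ : IsUnit b₀)
    (hμ₁ : μ₁ - 1 ∈ P 2)
    (hA : A = algebraMap O R a₀ + X * A') (hB : B = algebraMap O R b₀ + X * B')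
    (y : E) (hy : y ∈ V 2)
    (hcong : algebraMap R E (μ₀ - μ₁) ^ e 2 * algebraMap R E B =
      algebraMap R E (algebraMap O R π) * algebraMap R E μ₁ ^ e 2 *
        (algebraMap R E A + ϖ 2 * y))
    (n : Ideal R) (hn : n.IsPrime) (hP2 : P 2 ≤ n) (hP0 : ¬ P 0 ≤ n) (hP1 : ¬ P 1 ≤ n)
    (hX : X ∈ n) :
    μ₀ - μ₁ ∈ P 2 ∧ ∀ z ∈ P 2, ∃ t : R, t ∉ n ∧ ∃ c : R, t * z = c * (μ₀ - μ₁) := by
  have h1n : (1 : R) ∉ n := fun h => hn.ne_top ((Ideal.eq_top_iff_one n).mpr h)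
  have hunit : ∀ (c : O) (C C' : R), IsUnit c → C = algebraMap O R c + X * C' → C ∉ n := by
    intro c C C' hc hC hmem
    have h1 : algebraMap O R c ∈ n := by
      have := n.sub_mem hmem (n.mul_mem_right C' hX)
      rwa [hC, add_sub_cancel_right] at this
    exact hn.ne_top (Ideal.eq_top_of_isUnit_mem _ h1 (hc.map _))
  have hμ₁n : μ₁ ∉ n := by
    intro hmem
    apply h1n
    have := n.sub_mem hmem (hP2 hμ₁)
    rwa [sub_sub_cancel] at this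
  exact genAt_of_unitCong val hyp hp0 hinj n hn hP2 hP0 hP1 (μ₀ - μ₁) μ₁ B A hμ₁n
    (hunit b₀ B B' hb₀ hB) (hunit a₀ A A' ha₀ hA) y hy hcong

/-- **[CUSP3]** All cuspidal points of `W3` at once: from the global data
`X, Y, Z, m₁, m₂, μ₀, μ₁, A, B` (see the file header), every prime `n ⊇ P 2` containing
`X * Y * Z` is a one-branch point, and `μ₀ - μ₁` generates `P 2` locally at `n`. -/
theorem cusp_genAt (val : ValHyp3 (algebraMap R E (algebraMap O R π)) e ϖ V)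
    (hyp : ChartHyp3 π ϖ V P) (hp0 : algebraMap R E (algebraMap O R π) ≠ 0)
    (hinj : Function.Injective (algebraMap R E))
    (X Y Z m₁ m₂ μ₀ μ₁ A B A' B' : R) (a₀ b₀ : O) (d k₁ k₂ : ℕ)
    (hk₁ : k₁ ≠ 0) (hk₂ : k₂ ≠ 0) (ha₀ : IsUnit a₀) (hb₀ : IsUnit b₀)
    (hXY : X - Y ∈ P 2) (hZX : Z - X ^ d ∈ P 2)
    (hm₁ : 1 - m₁ ∈ P 0) (hm₁' : m₁ - X ^ k₁ ∈ P 2)
    (hm₂ : 1 - m₂ ∈ P 1) (hm₂' : m₂ - X ^ k₂ ∈ P 2)
    (hμ₁ : μ₁ - 1 ∈ P 2)
    (hA : A = algebraMap O R a₀ + X * A') (hB : B = algebraMap O R b₀ + X * B')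
    (y : E) (hy : y ∈ V 2)
    (hcong : algebraMap R E (μ₀ - μ₁) ^ e 2 * algebraMap R E B =
      algebraMap R E (algebraMap O R π) * algebraMap R E μ₁ ^ e 2 *
        (algebraMap R E A + ϖ 2 * y))
    (n : Ideal R) (hn : n.IsPrime) (hP2 : P 2 ≤ n) (hmem : X * Y * Z ∈ n) :
    (¬ P 0 ≤ n ∧ ¬ P 1 ≤ n) ∧
      μ₀ - μ₁ ∈ P 2 ∧ ∀ z ∈ P 2, ∃ t : R, t ∉ n ∧ ∃ c : R, t * z = c * (μ₀ - μ₁) := by
  have hX : X ∈ n := cusp_mem n hn hP2 X Y Z d hXY hZX hmem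
  have hnot := cusp_not_le n hn hP2 X m₁ m₂ k₁ k₂ hk₁ hk₂ hm₁ hm₁' hm₂ hm₂' hX
  exact ⟨hnot, cusp_genAt_of_mem val hyp hp0 hinj X μ₀ μ₁ A B A' B' a₀ b₀ ha₀ hb₀ hμ₁ hA hB y hy
    hcong n hn hP2 hnot.1 hnot.2 hX⟩

/-- The shape `hB1` of `Princ3.princ_of_triple` at a cuspidal point of `W3` (`i = 2`). -/
theorem cusp_hB1 (val : ValHyp3 (algebraMap R E (algebraMap O R π)) e ϖ V)
    (hyp : ChartHyp3 π ϖ V P) (hp0 : algebraMap R E (algebraMap O R π) ≠ 0)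
    (hinj : Function.Injective (algebraMap R E))
    (X Y Z m₁ m₂ μ₀ μ₁ A B A' B' : R) (a₀ b₀ : O) (d k₁ k₂ : ℕ)
    (hk₁ : k₁ ≠ 0) (hk₂ : k₂ ≠ 0) (ha₀ : IsUnit a₀) (hb₀ : IsUnit b₀)
    (hXY : X - Y ∈ P 2) (hZX : Z - X ^ d ∈ P 2)
    (hm₁ : 1 - m₁ ∈ P 0) (hm₁' : m₁ - X ^ k₁ ∈ P 2)
    (hm₂ : 1 - m₂ ∈ P 1) (hm₂' : m₂ - X ^ k₂ ∈ P 2)
    (hμ₁ : μ₁ - 1 ∈ P 2)
    (hA : A = algebraMap O R a₀ + X * A') (hB : B = algebraMap O R b₀ + X * B')
    (y : E) (hy : y ∈ V 2)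
    (hcong : algebraMap R E (μ₀ - μ₁) ^ e 2 * algebraMap R E B =
      algebraMap R E (algebraMap O R π) * algebraMap R E μ₁ ^ e 2 *
        (algebraMap R E A + ϖ 2 * y))
    (n : Ideal R) (hn : n.IsPrime) (hP2 : P 2 ≤ n) (hmem : X * Y * Z ∈ n) :
    ∃ i : Fin 3, P i ≤ n ∧ ∃ g ∈ P i, ∀ z ∈ P i, ∃ s : R, s ∉ n ∧ ∃ c : R, s * z = c * g := by
  obtain ⟨-, hg, hgen⟩ := cusp_genAt val hyp hp0 hinj X Y Z m₁ m₂ μ₀ μ₁ A B A' B' a₀ b₀ d k₁ k₂
    hk₁ hk₂ ha₀ hb₀ hXY hZX hm₁ hm₁' hm₂ hm₂' hμ₁ hA hB y hy hcong n hn hP2 hmem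
  exact ⟨2, hP2, μ₀ - μ₁, hg, hgen⟩

/-- The case `e 2 = 1` (`q = 2`): at a cuspidal point of `W3`, `π` generates `P 2` locally;
only (C1), (C2) are needed. -/
theorem cusp_hB1_of_e_eq_one (val : ValHyp3 (algebraMap R E (algebraMap O R π)) e ϖ V)
    (hyp : ChartHyp3 π ϖ V P) (hp0 : algebraMap R E (algebraMap O R π) ≠ 0)
    (he : e 2 = 1)
    (X Y Z m₁ m₂ : R) (d k₁ k₂ : ℕ) (hk₁ : k₁ ≠ 0) (hk₂ : k₂ ≠ 0)
    (hXY : X - Y ∈ P 2) (hZX : Z - X ^ d ∈ P 2)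
    (hm₁ : 1 - m₁ ∈ P 0) (hm₁' : m₁ - X ^ k₁ ∈ P 2)
    (hm₂ : 1 - m₂ ∈ P 1) (hm₂' : m₂ - X ^ k₂ ∈ P 2)
    (n : Ideal R) (hn : n.IsPrime) (hP2 : P 2 ≤ n) (hmem : X * Y * Z ∈ n) :
    ∃ i : Fin 3, P i ≤ n ∧ ∃ g ∈ P i, ∀ z ∈ P i, ∃ s : R, s ∉ n ∧ ∃ c : R, s * z = c * g := by
  have hX : X ∈ n := cusp_mem n hn hP2 X Y Z d hXY hZX hmem
  have hnot := cusp_not_le n hn hP2 X m₁ m₂ k₁ k₂ hk₁ hk₂ hm₁ hm₁' hm₂ hm₂' hX
  refine ⟨2, hP2, Princ3.pi_genAt val hyp hp0 n hn 2 he ?_⟩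
  intro j hj
  fin_cases j
  · exact hnot.1
  · exact hnot.2
  · exact absurd rfl hj

end Fermat.Agent.S36.CuspGen
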