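/-
S36 — CuspCore.lean (block [CUSP3], abstract core of the cuspidal points of `W3`).

At a prime `n ⊇ P 2` of the chart containing `X` (and neither `P 0` nor `P 1`), with
`X ≡ Y` modulo `P 2`, `Y` a unit of `V 2`, and `S1, S2 ∉ n` satisfying
`X ^ q * S2 = Y ^ q * S1` and the two "modular equations at the cusp"
`S ^ (q + 1) + γ S ^ q + X G(X, S) = 0`, the element `D = S2 * (X - Y) / Y` lies in `R`
and generates `P 2` locally at `n`.
-/
import Mathlib
import Fermat.Agent.S28.Defs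
import Fermat.Agent.S36.Model3Plan
import Fermat.Agent.S36.Princ3
import Fermat.Agent.S36.CuspGen

set_option autoImplicit false

namespace Fermat.Agent.S36.CuspCore

open Fermat.Agent.S36.Model3Plan

/-- Bivariate difference lemma: `G(a, s) - G(b, t)` lies in the ideal `(a - b, s - t)`. -/
theorem PhiAt_eval_sub_mem {R : Type*} [CommRing R] (G : Polynomial (Polynomial ℤ))
    (a b s t : R) :
    (S28.PhiAt G a).eval s - (S28.PhiAt G b).eval t ∈ Ideal.span ({a - b, s - t} : Set R) := by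
  have ha : Ideal.Quotient.mk (Ideal.span ({a - b, s - t} : Set R)) a =
      Ideal.Quotient.mk (Ideal.span ({a - b, s - t} : Set R)) b :=
    Ideal.Quotient.eq.mpr (Ideal.subset_span (by simp))
  have hs : Ideal.Quotient.mk (Ideal.span ({a - b, s - t} : Set R)) s =
      Ideal.Quotient.mk (Ideal.span ({a - b, s - t} : Set R)) t :=
    Ideal.Quotient.eq.mpr (Ideal.subset_span (by simp))
  rw [← Ideal.Quotient.eq, S28.map_eval_PhiAt, S28.map_eval_PhiAt, ha, hs]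

variable {O : Type*} [CommRing O] {R : Type*} [CommRing R] [IsDomain R] [Algebra O R]
  {E : Type*} [Field E] [Algebra R E] [IsFractionRing R E] [IsIntegrallyClosed R]
  {π : O} {e : Fin 3 → ℕ} {ϖ : Fin 3 → E} {V : Fin 3 → ValuationSubring E} {P : Fin 3 → Ideal R}

/-- **The generator of `P 2` at a cuspidal point of `W3`** (abstract core). -/
theorem cusp_genAt (val : ValHyp3 (algebraMap R E (algebraMap O R π)) e ϖ V)
    (hyp : ChartHyp3 π ϖ V P) (hp0 : algebraMap R E (algebraMap O R π) ≠ 0)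
    (q : ℕ) (hq : q.Prime) (he2 : e 2 = q - 1)
    (ε : O) (hε : IsUnit ε) (hqπ : (q : O) = π * ε)
    (n : Ideal R) (hn : n.IsPrime) (hP2 : P 2 ≤ n) (hP0 : ¬ P 0 ≤ n) (hP1 : ¬ P 1 ≤ n)
    (X Y S1 S2 : R) (hXn : X ∈ n) (hXY : X - Y ∈ P 2) (hne : X ≠ Y) (hY0 : Y ≠ 0)
    (hYu : (algebraMap R E Y)⁻¹ ∈ V 2)
    (hS1 : S1 ∉ n) (hS2 : S2 ∉ n) (hpow : X ^ q * S2 = Y ^ q * S1)
    (γ : ℤ) (G : Polynomial (Polynomial ℤ))
    (h1 : S1 ^ (q + 1) + (γ : R) * S1 ^ q + X * (S28.PhiAt G X).eval S1 = 0)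
    (h2 : S2 ^ (q + 1) + (γ : R) * S2 ^ q + Y * (S28.PhiAt G Y).eval S2 = 0) :
    ∃ g ∈ P 2, ∀ z ∈ P 2, ∃ t : R, t ∉ n ∧ ∃ c : R, t * z = c * g := by
  classical
  have hinj : Function.Injective (algebraMap R E) := IsFractionRing.injective R E
  have h1n : (1 : R) ∉ n := fun h => hn.ne_top ((Ideal.eq_top_iff_one n).mpr h)
  have hmul : ∀ a b : R, a ∉ n → b ∉ n → a * b ∉ n :=
    fun a b ha hb h => (hn.mem_or_mem h).elim ha hb
  have hq2 : 2 ≤ q := hq.two_le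
  have hq0 : q ≠ 0 := hq.ne_zero
  -- (0)
  have hYn : Y ∈ n := by
    have := n.sub_mem hXn (hP2 hXY)
    rwa [sub_sub_cancel] at this
  have hS2z : S2 ≠ 0 := fun h => hS2 (h ▸ n.zero_mem)
  -- (1)
  obtain ⟨α, β, hαβ⟩ := Ideal.mem_span_pair.mp (PhiAt_eval_sub_mem G X Y S1 S2)
  generalize (S28.PhiAt G X).eval S1 = g1 at h1 hαβ
  generalize (S28.PhiAt G Y).eval S2 = g2 at h2 hαβ
  obtain ⟨κ, hκ⟩ := sub_dvd_pow_sub_pow S2 S1 q
  -- (2)
  obtain ⟨T, hT⟩ : ∃ T : R, T = (S1 * S2) ^ q + Y * (β * S2 ^ q - g2 * κ) := ⟨_, rfl⟩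
  obtain ⟨c, hc⟩ : ∃ c : R, c = -(g1 * S2 ^ q + Y * α * S2 ^ q) := ⟨_, rfl⟩
  have hTc : (S1 - S2) * T = (X - Y) * c := by
    rw [hT, hc]
    linear_combination S2 ^ q * h1 - S1 ^ q * h2 + Y * S2 ^ q * hαβ - Y * g2 * hκ
  have hTn : T ∉ n := by
    intro hmem
    have h3 : (S1 * S2) ^ q ∈ n := by
      have := n.sub_mem hmem (n.mul_mem_right (β * S2 ^ q - g2 * κ) hYn)
      rwa [hT, add_sub_cancel_right] at this
    exact hmul _ _ hS1 hS2 (hn.mem_of_pow_mem _ h3)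
  -- (3)
  have hS2q : S2 ^ (q - 1) * S2 = S2 ^ q := pow_sub_one_mul hq0 S2
  have hιY : algebraMap R E Y ≠ 0 := fun h => hY0 (hinj (by rw [h, map_zero]))
  have hkey : (S2 * X) ^ q = S2 ^ (q - 1) * S1 * Y ^ q := by
    linear_combination S2 ^ (q - 1) * hpow - X ^ q * hS2q
  obtain ⟨r0, hr0⟩ : ∃ r0 : R, r0 * Y = S2 * X := by
    have hint : IsIntegral R (algebraMap R E (S2 * X) / algebraMap R E Y) := by
      apply IsIntegral.of_pow hq.pos
      have hpw : (algebraMap R E (S2 * X) / algebraMap R E Y) ^ q =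
          algebraMap R E (S2 ^ (q - 1) * S1) := by
        rw [div_pow, div_eq_iff (pow_ne_zero _ hιY), ← map_pow, ← map_pow, ← map_mul, hkey]
      rw [hpw]
      exact isIntegral_algebraMap
    obtain ⟨r0, hr0⟩ := IsIntegrallyClosed.isIntegral_iff.mp hint
    refine ⟨r0, hinj ?_⟩
    rw [map_mul, hr0, div_mul_cancel₀ _ hιY]
  obtain ⟨D, hD⟩ : ∃ D : R, D = r0 - S2 := ⟨_, rfl⟩
  have hDY : D * Y = S2 * (X - Y) := by
    rw [hD]
    linear_combination hr0
  have hD0 : D ≠ 0 := by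
    intro h
    rw [h, zero_mul] at hDY
    rcases mul_eq_zero.mp hDY.symm with h' | h'
    · exact hS2z h'
    · exact hne (sub_eq_zero.mp h')
  have hDE : ∃ v ∈ V 2, algebraMap R E D = ϖ 2 * v := by
    obtain ⟨y₁, hy₁, hy₁'⟩ := (hyp.mem_P 2 (X - Y)).mp hXY
    refine ⟨algebraMap R E S2 * y₁ * (algebraMap R E Y)⁻¹,
      mul_mem (mul_mem (hyp.le 2 S2) hy₁) hYu, ?_⟩
    have h := congrArg (algebraMap R E) hDY
    rw [map_mul, map_mul, hy₁'] at h
    calc algebraMap R E D = (algebraMap R E D * algebraMap R E Y) * (algebraMap R E Y)⁻¹ := by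
          field_simp
      _ = ϖ 2 * (algebraMap R E S2 * y₁ * (algebraMap R E Y)⁻¹) := by
          rw [h]; ring
  have hDP : D ∈ P 2 := (hyp.mem_P 2 D).mpr hDE
  have hDn : D ∈ n := hP2 hDP
  -- (4)
  have hDq : D ^ (q - 1) * D = D ^ q := pow_sub_one_mul hq0 D
  have hYq : Y ^ q ≠ 0 := pow_ne_zero _ hY0
  have hr0q : r0 ^ q = S2 ^ (q - 1) * S1 := by
    apply mul_right_cancel₀ hYq
    rw [← mul_pow, hr0, hkey]
  -- (5)
  obtain ⟨Sg, hSg⟩ : ∃ Sg : R, Sg = ∑ k ∈ Finset.Ioo 0 q,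
      S2 ^ (k - 1) * D ^ (q - k - 1) * ((q.choose k / q : ℕ) : R) := ⟨_, rfl⟩
  have hbin : r0 ^ q = S2 ^ q + D ^ q + q * S2 * D * Sg := by
    have hr : r0 = S2 + D := by rw [hD]; ring
    rw [hr, hSg]
    exact add_pow_prime_eq hq S2 D
  have h5 : D * (D ^ (q - 1) + q * S2 * Sg) = S2 ^ (q - 1) * (S1 - S2) := by
    linear_combination hDq + hS2q - hbin + hr0q
  have hq1mem : q - 1 ∈ Finset.Ioo 0 q := Finset.mem_Ioo.mpr ⟨by omega, by omega⟩
  have hch : q.choose (q - 1) / q = 1 := by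
    obtain ⟨m, rfl⟩ : ∃ m, q = m + 1 := ⟨q - 1, by omega⟩
    rw [Nat.add_sub_cancel, Nat.choose_succ_self_right, Nat.div_self (Nat.succ_pos m)]
  have hSgmem : Sg - S2 ^ (q - 2) ∈ n := by
    have hsplit := Finset.add_sum_erase (Finset.Ioo 0 q)
      (fun k => S2 ^ (k - 1) * D ^ (q - k - 1) * ((q.choose k / q : ℕ) : R)) hq1mem
    have hterm : S2 ^ (q - 1 - 1) * D ^ (q - (q - 1) - 1) * ((q.choose (q - 1) / q : ℕ) : R) =
        S2 ^ (q - 2) := by
      rw [hch, show q - (q - 1) - 1 = 0 by omega, show q - 1 - 1 = q - 2 by omega]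
      simp
    have hrest : ∑ k ∈ (Finset.Ioo 0 q).erase (q - 1),
        S2 ^ (k - 1) * D ^ (q - k - 1) * ((q.choose k / q : ℕ) : R) ∈ n := by
      refine Ideal.sum_mem _ (fun k hk => ?_)
      obtain ⟨hk1, hk2⟩ := Finset.mem_erase.mp hk
      obtain ⟨hk3, hk4⟩ := Finset.mem_Ioo.mp hk2
      have hpowmem : D ^ (q - k - 1) ∈ n := n.pow_mem_of_mem hDn _ (by omega)
      exact n.mul_mem_right _ (n.mul_mem_left _ hpowmem)
    have heq : Sg - S2 ^ (q - 2) = ∑ k ∈ (Finset.Ioo 0 q).erase (q - 1),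
        S2 ^ (k - 1) * D ^ (q - k - 1) * ((q.choose k / q : ℕ) : R) := by
      rw [hSg, ← hsplit]
      rw [hterm]
      ring
    rw [heq]
    exact hrest
  have hSgn : Sg ∉ n := by
    intro hmem
    have h3 : S2 ^ (q - 2) ∈ n := by
      have := n.sub_mem hmem hSgmem
      rwa [sub_sub_cancel] at this
    exact hS2 (hn.mem_of_pow_mem _ h3)
  -- (6)
  obtain ⟨c', hc'⟩ : ∃ c' : R, c' = S2 ^ (q - 1) * c := ⟨_, rfl⟩
  have h6 : (D ^ (q - 1) + q * S2 * Sg) * T * S2 = Y * c' := by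
    apply mul_left_cancel₀ hD0
    rw [hc']
    linear_combination (T * S2) * h5 + S2 ^ (q - 1) * S2 * hTc - S2 ^ (q - 1) * c * hDY
  -- (7)
  obtain ⟨y2, hy2, hy2'⟩ : ∃ y ∈ V 2,
      algebraMap R E D ^ (q - 1) = algebraMap R E (algebraMap O R π) * y := by
    have := Princ3.pow_mem_pi val hp0 2 hDE
    rwa [he2] at this
  have hqR : (q : R) = algebraMap O R π * algebraMap O R ε := by
    rw [← map_mul, ← hqπ, map_natCast]
  have hc'E : ∃ v ∈ V 2, algebraMap R E c' = algebraMap R E (algebraMap O R π) * v := by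
    refine ⟨(y2 + algebraMap R E (algebraMap O R ε) * algebraMap R E S2 * algebraMap R E Sg) *
      algebraMap R E T * algebraMap R E S2 * (algebraMap R E Y)⁻¹,
      mul_mem (mul_mem (mul_mem (add_mem hy2 (mul_mem (mul_mem (hyp.le 2 _) (hyp.le 2 _))
        (hyp.le 2 _))) (hyp.le 2 _)) (hyp.le 2 _)) hYu, ?_⟩
    have h6' : (D ^ (q - 1) + algebraMap O R π * algebraMap O R ε * S2 * Sg) * T * S2 =
        Y * c' := by rw [← hqR]; exact h6
    have h := congrArg (algebraMap R E) h6'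
    simp only [map_mul, map_add, map_pow] at h
    rw [hy2'] at h
    calc algebraMap R E c' = (algebraMap R E Y * algebraMap R E c') * (algebraMap R E Y)⁻¹ := by
          field_simp
      _ = _ := by rw [← h]; ring
  -- (8)
  obtain ⟨s₀, hs₀, r', hr'⟩ :=
    CuspGen.exists_pi_mul_of_oneBranch val hyp hp0 n hn hP0 hP1 c' hc'E
  -- (9)
  obtain ⟨w, hw⟩ : ∃ w : R, w = Y * r' - algebraMap O R ε * (s₀ * T * S2 * S2 * Sg) :=
    ⟨_, rfl⟩
  have h9 : s₀ * T * S2 * D ^ (q - 1) = algebraMap O R π * w := by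
    rw [hw]
    linear_combination s₀ * h6 + Y * hr' - (s₀ * T * S2 * S2 * Sg) * hqR
  have hεn : algebraMap O R ε ∉ n :=
    fun h => hn.ne_top (Ideal.eq_top_of_isUnit_mem _ h (hε.map _))
  have hwn : w ∉ n := by
    intro hmem
    have h3 : algebraMap O R ε * (s₀ * T * S2 * S2 * Sg) ∈ n := by
      have := n.sub_mem (n.mul_mem_right r' hYn) hmem
      rwa [hw, sub_sub_cancel] at this
    exact hmul _ _ hεn (hmul _ _ (hmul _ _ (hmul _ _ (hmul _ _ hs₀ hTn) hS2) hS2) hSgn) h3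
  have hs'n : s₀ * T * S2 ∉ n := hmul _ _ (hmul _ _ hs₀ hTn) hS2
  -- (10)
  refine ⟨D, hDP, (CuspGen.genAt_of_unitCong val hyp hp0 hinj n hn hP2 hP0 hP1 D 1
    (s₀ * T * S2) w h1n hs'n hwn 0 (zero_mem _) ?_).2⟩
  rw [he2, map_one, one_pow, mul_zero, add_zero, mul_one, ← map_pow, ← map_mul, ← map_mul]
  congr 1
  linear_combination h9

end Fermat.Agent.S36.CuspCore
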