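/-
S36 — CuspTop.lean (helper44; block [N10]): (B1) AT THE CUSPIDAL CLOSED POINTS OF `W3`,
instance of `CuspCore.cusp_genAt` at the chart `J3⁻¹` of level `N = M * q * q`.

`R = chart N A K J3⁻¹`, `X = j⁻¹`, `Y = jqq⁻¹`, `S1 = v1 = jq / j^q`, `S2 = v2 = jq / jqq^q`
(`CuspAlg`: both lie in `R` and satisfy the same relation `S^(q+1) + γ S^q + a G(a, S) = 0`).

* `cusp_genAt_chart` : for ANY `ValHyp3` / `ChartHyp3` on `R` with `e 2 = q - 1`, given the four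
  facts on `V 2` (`j, jqq ∈ V 2`, `jqq - j ∈ ϖ 2 · V 2`, `jq - j^q ∈ ϖ 2 · V 2`), `q = π · unit`,
  and a prime `n ⊇ P 2` containing `J3⁻¹` and neither `P 0` nor `P 1`: `P 2` is principal at `n`;
* `hcusp2_w3`        : the shape `hcusp2` of `Princ3Cases.princ_of_cases` for the uniformizers
  `![π, π, sE]` and the valuation rings `![W1, W2, W3]` (`W3` ANY valuation ring carrying the
  `ValHyp3` / `ChartHyp3`, containing `j`, `jqq`, with `jq - j^q ∈ π · W3`), `[CUSP1]` being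
  supplied by `CuspOneInst.not_of_ne` (helper89).

No `q`-expansion of the unit, no residue-degree input, no Kronecker congruence of `Φ_q`.
-/
import Mathlib
import Fermat.Agent.S36.CuspAlg
import Fermat.Agent.S36.CuspCore
import Fermat.Agent.S36.CuspOneInst
import Fermat.Agent.S36.Wit3

set_option autoImplicit false

open ModularCurve AlgebraicCurve HahnSeries

namespace Fermat.Agent.S36.CuspTop

open Fermat.Agent.S18 Fermat.Agent.S18.Arith Fermat.Agent.S34 Fermat.Agent.S36.Model3Plan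

noncomputable section

variable (M q : ℕ) [NeZero M] [NeZero q] (hq : q.Prime) (hqM : ¬ q ∣ M)
variable (A : ValuationSubring Qb) (K : IntermediateField ℚ Qb)

/-- `j ≠ jqq`. -/
theorem jK_ne_jqqK2 : jK (M * q * q) K ≠ WQ2.jqqK2 M q hq hqM K := by
  intro h
  have h1 : ((jK (M * q * q) K : FK (M * q * q) K) : LaurentSeries Qb)
      = ((WQ2.jqqK2 M q hq hqM K : FK (M * q * q) K) : LaurentSeries Qb) := by rw [h]
  rw [ModelBasicCore.coe_jK, WQ2.coe_jqqK2, S28.jd_one] at h1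
  have : NeZero (q * q) := ⟨mul_ne_zero hq.ne_zero hq.ne_zero⟩
  rw [S28.jd_eq] at h1
  have h2 : (jqModC Qb).coeff (-1) = (qExpand Qb (q * q) (jqModC Qb)).coeff (-1) :=
    congrArg (fun f : LaurentSeries Qb => f.coeff (-1)) h1
  rw [coeff_jqModC_neg_one] at h2
  have hnd : ¬ (((q * q : ℕ) : ℤ)) ∣ (-1 : ℤ) := by
    intro hd
    have h3 : ((q * q : ℕ) : ℤ) ∣ 1 := (dvd_neg).mp hd
    have h4 : (q * q : ℕ) ∣ 1 := by exact_mod_cast h3
    have h5 : q * q = 1 := Nat.dvd_one.mp h4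
    have h6 : 2 ≤ q := hq.two_le
    nlinarith
  rw [qExpand_coeff_of_not_dvd _ _ hnd] at h2
  exact one_ne_zero h2

variable {π : OK A K} {e : Fin 3 → ℕ} {ϖ : Fin 3 → FK (M * q * q) K}
  {V : Fin 3 → ValuationSubring (FK (M * q * q) K)}
  {P : Fin 3 → Ideal ↥(chart (M * q * q) A K (Chart3B.J3 M q hq hqM K)⁻¹)}

/-- **(B1) at the cuspidal points of `W3`**, chart form. -/
theorem cusp_genAt_chart
    (hint : IsIntegrallyClosed ↥(chart (M * q * q) A K (Chart3B.J3 M q hq hqM K)⁻¹))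
    (hfrac : IsFractionRing ↥(chart (M * q * q) A K (Chart3B.J3 M q hq hqM K)⁻¹)
      (FK (M * q * q) K))
    (val : ValHyp3 (algebraMap (OK A K) (FK (M * q * q) K) π) e ϖ V)
    (hyp : ChartHyp3 π ϖ V P)
    (hp0 : algebraMap (OK A K) (FK (M * q * q) K) π ≠ 0) (he2 : e 2 = q - 1)
    (ε : OK A K) (hε : IsUnit ε) (hqπ : (q : OK A K) = π * ε)
    (hj2 : jK (M * q * q) K ∈ V 2) (hjqq2 : WQ2.jqqK2 M q hq hqM K ∈ V 2)
    (hs : ∃ y ∈ V 2, Wit3.sE M q hq hqM K = ϖ 2 * y)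
    (hx2 : ∃ y ∈ V 2, Wit3.x2 M q hq hqM K = ϖ 2 * y)
    (n : Ideal ↥(chart (M * q * q) A K (Chart3B.J3 M q hq hqM K)⁻¹)) (hn : n.IsPrime)
    (hP2 : P 2 ≤ n) (hP0 : ¬ P 0 ≤ n) (hP1 : ¬ P 1 ≤ n)
    (hcusp : (⟨(Chart3B.J3 M q hq hqM K)⁻¹, Chart3B.J3_inv_mem_chart M q hq hqM A K⟩ :
      ↥(chart (M * q * q) A K (Chart3B.J3 M q hq hqM K)⁻¹)) ∈ n) :
    ∃ g ∈ P 2, ∀ z ∈ P 2,
      ∃ t : ↥(chart (M * q * q) A K (Chart3B.J3 M q hq hqM K)⁻¹), t ∉ n ∧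
        ∃ c : ↥(chart (M * q * q) A K (Chart3B.J3 M q hq hqM K)⁻¹), t * z = c * g := by
  have := hint
  have := hfrac
  have hj0 : jK (M * q * q) K ≠ 0 := ModelBasicCore.jK_ne_zero (M * q * q) K
  have hjq0 : WQ2.jqK2 M q hq hqM K ≠ 0 := Chart3B.jqK2_ne_zero M q hq hqM K
  have hjqq0 : WQ2.jqqK2 M q hq hqM K ≠ 0 := Chart3B.jqqK2_ne_zero M q hq hqM K
  -- the chart elements
  set X : ↥(chart (M * q * q) A K (Chart3B.J3 M q hq hqM K)⁻¹) :=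
    ⟨(jK (M * q * q) K)⁻¹, Chart3B.jK_inv_mem_chart_J3_inv M q hq hqM A K⟩ with hXdef
  set Zq : ↥(chart (M * q * q) A K (Chart3B.J3 M q hq hqM K)⁻¹) :=
    ⟨(WQ2.jqK2 M q hq hqM K)⁻¹, Chart3B.jqK2_inv_mem_chart_J3_inv M q hq hqM A K⟩ with hZdef
  set Y : ↥(chart (M * q * q) A K (Chart3B.J3 M q hq hqM K)⁻¹) :=
    ⟨(WQ2.jqqK2 M q hq hqM K)⁻¹, Chart3B.jqqK2_inv_mem_chart_J3_inv M q hq hqM A K⟩ with hYdef
  set S1 : ↥(chart (M * q * q) A K (Chart3B.J3 M q hq hqM K)⁻¹) :=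
    ⟨CuspAlg.v1 q hq M hqM K, CuspAlg.v1_mem q hq M hqM A K⟩ with hS1def
  set S2 : ↥(chart (M * q * q) A K (Chart3B.J3 M q hq hqM K)⁻¹) :=
    ⟨CuspAlg.v2 q hq M hqM K, CuspAlg.v2_mem q hq M hqM A K⟩ with hS2def
  obtain ⟨y, hy, hsy⟩ := hs
  obtain ⟨y', hy', hxy'⟩ := hx2
  rw [Wit3.sE] at hsy
  rw [Wit3.x2] at hxy'
  have hXV : (jK (M * q * q) K)⁻¹ ∈ V 2 := hyp.le 2 X
  have hYV : (WQ2.jqqK2 M q hq hqM K)⁻¹ ∈ V 2 := hyp.le 2 Y
  have h1n : (1 : ↥(chart (M * q * q) A K (Chart3B.J3 M q hq hqM K)⁻¹)) ∉ n :=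
    fun h => hn.ne_top ((Ideal.eq_top_iff_one n).mpr h)
  -- `X - Y ∈ P 2`
  have hXY : X - Y ∈ P 2 := by
    rw [hyp.mem_P 2]
    refine ⟨y * (jK (M * q * q) K)⁻¹ * (WQ2.jqqK2 M q hq hqM K)⁻¹,
      mul_mem (mul_mem hy hXV) hYV, ?_⟩
    have h0 : algebraMap ↥(chart (M * q * q) A K (Chart3B.J3 M q hq hqM K)⁻¹)
        (FK (M * q * q) K) (X - Y)
        = (jK (M * q * q) K)⁻¹ - (WQ2.jqqK2 M q hq hqM K)⁻¹ := rfl
    rw [h0, ← mul_assoc, ← mul_assoc, ← hsy]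
    field_simp
  -- `S1 - 1 ∈ P 2`
  have hS1P : S1 - 1 ∈ P 2 := by
    rw [hyp.mem_P 2]
    refine ⟨y' * (jK (M * q * q) K)⁻¹ ^ q, mul_mem hy' (pow_mem hXV q), ?_⟩
    have h0 : algebraMap ↥(chart (M * q * q) A K (Chart3B.J3 M q hq hqM K)⁻¹)
        (FK (M * q * q) K) (S1 - 1)
        = WQ2.jqK2 M q hq hqM K * (jK (M * q * q) K)⁻¹ ^ q - 1 := rfl
    rw [h0, ← mul_assoc, ← hxy', sub_mul, inv_pow, mul_inv_cancel₀ (pow_ne_zero q hj0)]
  -- `S2 - 1 ∈ P 2`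
  have hS2P : S2 - 1 ∈ P 2 := by
    rw [hyp.mem_P 2]
    set κ : FK (M * q * q) K := ∑ i ∈ Finset.range q,
      WQ2.jqqK2 M q hq hqM K ^ i * jK (M * q * q) K ^ (q - 1 - i) with hκ
    have hκV : κ ∈ V 2 :=
      sum_mem (fun i _ => mul_mem (pow_mem hjqq2 i) (pow_mem hj2 (q - 1 - i)))
    have hgeom : κ * (WQ2.jqqK2 M q hq hqM K - jK (M * q * q) K)
        = WQ2.jqqK2 M q hq hqM K ^ q - jK (M * q * q) K ^ q := by
      rw [hκ]
      exact (Commute.all _ _).geom_sum₂_mul q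
    refine ⟨(y' - y * κ) * (WQ2.jqqK2 M q hq hqM K)⁻¹ ^ q,
      mul_mem (sub_mem hy' (mul_mem hy hκV)) (pow_mem hYV q), ?_⟩
    have h0 : algebraMap ↥(chart (M * q * q) A K (Chart3B.J3 M q hq hqM K)⁻¹)
        (FK (M * q * q) K) (S2 - 1)
        = WQ2.jqK2 M q hq hqM K * (WQ2.jqqK2 M q hq hqM K)⁻¹ ^ q - 1 := rfl
    have h3 : WQ2.jqK2 M q hq hqM K - WQ2.jqqK2 M q hq hqM K ^ q = ϖ 2 * (y' - y * κ) := by
      have h4 : ϖ 2 * (y' - y * κ) = ϖ 2 * y' - κ * (ϖ 2 * y) := by ring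
      rw [h4, ← hxy', ← hsy, hgeom]
      ring
    rw [h0, ← mul_assoc, ← h3, sub_mul, inv_pow, mul_inv_cancel₀ (pow_ne_zero q hjqq0)]
  have hS1 : S1 ∉ n := by
    intro h
    apply h1n
    have := n.sub_mem h (hP2 hS1P)
    rwa [sub_sub_cancel] at this
  have hS2 : S2 ∉ n := by
    intro h
    apply h1n
    have := n.sub_mem h (hP2 hS2P)
    rwa [sub_sub_cancel] at this
  -- `X ∈ n`
  have hXn : X ∈ n := by
    have hJ : (⟨(Chart3B.J3 M q hq hqM K)⁻¹, Chart3B.J3_inv_mem_chart M q hq hqM A K⟩ :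
        ↥(chart (M * q * q) A K (Chart3B.J3 M q hq hqM K)⁻¹)) = X * Zq * Y := by
      apply Subtype.ext
      show (Chart3B.J3 M q hq hqM K)⁻¹
        = (jK (M * q * q) K)⁻¹ * (WQ2.jqK2 M q hq hqM K)⁻¹ * (WQ2.jqqK2 M q hq hqM K)⁻¹
      rw [Chart3B.J3_eq, mul_inv, mul_inv]
    rw [hJ] at hcusp
    rcases hn.mem_or_mem hcusp with h | h
    · rcases hn.mem_or_mem h with h' | h'
      · exact h'
      · -- `X ^ q = S1 * Zq`
        have hXq : X ^ q = S1 * Zq := by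
          apply Subtype.ext
          show (jK (M * q * q) K)⁻¹ ^ q
            = WQ2.jqK2 M q hq hqM K * (jK (M * q * q) K)⁻¹ ^ q * (WQ2.jqK2 M q hq hqM K)⁻¹
          field_simp
        exact hn.mem_of_pow_mem q (by rw [hXq]; exact n.mul_mem_left _ h')
    · have := n.add_mem (hP2 hXY) h
      rwa [sub_add_cancel] at this
  have hne : X ≠ Y := by
    intro h
    have h1 : (jK (M * q * q) K)⁻¹ = (WQ2.jqqK2 M q hq hqM K)⁻¹ := congrArg Subtype.val h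
    exact jK_ne_jqqK2 M q hq hqM K (inv_injective h1)
  have hY0 : Y ≠ 0 := by
    intro h
    have h1 : (WQ2.jqqK2 M q hq hqM K)⁻¹ = 0 := congrArg Subtype.val h
    exact hjqq0 (inv_eq_zero.mp h1)
  have hYu : (algebraMap ↥(chart (M * q * q) A K (Chart3B.J3 M q hq hqM K)⁻¹)
      (FK (M * q * q) K) Y)⁻¹ ∈ V 2 := by
    show ((WQ2.jqqK2 M q hq hqM K)⁻¹)⁻¹ ∈ V 2
    rw [inv_inv]
    exact hjqq2
  have hpow : X ^ q * S2 = Y ^ q * S1 := Subtype.ext (CuspAlg.pow_mul_v2 q hq M hqM K)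
  have h1 : S1 ^ (q + 1) + ((CuspAlg.gam q hq : ℤ) :
      ↥(chart (M * q * q) A K (Chart3B.J3 M q hq hqM K)⁻¹)) * S1 ^ q
      + X * (S28.PhiAt (CuspAlg.G q hq) X).eval S1 = 0 := by
    apply IsFractionRing.injective ↥(chart (M * q * q) A K (Chart3B.J3 M q hq hqM K)⁻¹)
      (FK (M * q * q) K)
    rw [map_add, map_add, map_mul, map_mul, map_pow, map_pow, map_intCast,
      S28.map_eval_PhiAt, map_zero]
    exact CuspAlg.rel_v1 q hq M hqM K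
  have h2 : S2 ^ (q + 1) + ((CuspAlg.gam q hq : ℤ) :
      ↥(chart (M * q * q) A K (Chart3B.J3 M q hq hqM K)⁻¹)) * S2 ^ q
      + Y * (S28.PhiAt (CuspAlg.G q hq) Y).eval S2 = 0 := by
    apply IsFractionRing.injective ↥(chart (M * q * q) A K (Chart3B.J3 M q hq hqM K)⁻¹)
      (FK (M * q * q) K)
    rw [map_add, map_add, map_mul, map_mul, map_pow, map_pow, map_intCast,
      S28.map_eval_PhiAt, map_zero]
    exact CuspAlg.rel_v2 q hq M hqM K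
  have val' : ValHyp3 (algebraMap ↥(chart (M * q * q) A K (Chart3B.J3 M q hq hqM K)⁻¹)
      (FK (M * q * q) K) (algebraMap (OK A K)
        ↥(chart (M * q * q) A K (Chart3B.J3 M q hq hqM K)⁻¹) π)) e ϖ V := val
  exact CuspCore.cusp_genAt (O := OK A K)
    (R := ↥(chart (M * q * q) A K (Chart3B.J3 M q hq hqM K)⁻¹)) (E := FK (M * q * q) K)
    val' hyp hp0 q hq he2 ε hε hqπ n hn hP2 hP0 hP1
    X Y S1 S2 hXn hXY hne hY0 hYu hS1 hS2 hpow (CuspAlg.gam q hq) (CuspAlg.G q hq) h1 h2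

/-- **`hcusp2`**: (B1) at the cuspidal closed points of `W3` on the chart `J3⁻¹`, for the
uniformizers `![π, π, sE]` and the valuation rings `![W1, W2, W3]`. -/
theorem hcusp2_w3 (hdvr : IsDiscreteValuationRing (OK A K)) (hA : A.LiesOverPrime q)
    (hπ : Irreducible π) (W3 : ValuationSubring (FK (M * q * q) K))
    (hint : IsIntegrallyClosed ↥(chart (M * q * q) A K (Chart3B.J3 M q hq hqM K)⁻¹))
    (hfrac : IsFractionRing ↥(chart (M * q * q) A K (Chart3B.J3 M q hq hqM K)⁻¹)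
      (FK (M * q * q) K))
    (val : ValHyp3 (algebraMap (OK A K) (FK (M * q * q) K) π) (Model3Plan.ram q)
      ![algebraMap (OK A K) (FK (M * q * q) K) π, algebraMap (OK A K) (FK (M * q * q) K) π,
        Wit3.sE M q hq hqM K]
      ![GaussV.V1 (M * q * q) A K hdvr, GaussV.V2 (WQ2.wK2 M q hq hqM K) hdvr, W3])
    (hyp : ChartHyp3 π
      ![algebraMap (OK A K) (FK (M * q * q) K) π, algebraMap (OK A K) (FK (M * q * q) K) π,
        Wit3.sE M q hq hqM K]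
      ![GaussV.V1 (M * q * q) A K hdvr, GaussV.V2 (WQ2.wK2 M q hq hqM K) hdvr, W3] P)
    (ε : OK A K) (hε : IsUnit ε) (hqπ : (q : OK A K) = π * ε)
    (hj3 : jK (M * q * q) K ∈ W3) (hjqq3 : WQ2.jqqK2 M q hq hqM K ∈ W3)
    (hx2 : ∃ z ∈ W3, Wit3.x2 M q hq hqM K = algebraMap (OK A K) (FK (M * q * q) K) π * z) :
    ∀ n : Ideal ↥(chart (M * q * q) A K (Chart3B.J3 M q hq hqM K)⁻¹), n.IsMaximal →
      algebraMap (OK A K) ↥(chart (M * q * q) A K (Chart3B.J3 M q hq hqM K)⁻¹) π ∈ n →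
      (⟨(Chart3B.J3 M q hq hqM K)⁻¹, Chart3B.J3_inv_mem_chart M q hq hqM A K⟩ :
        ↥(chart (M * q * q) A K (Chart3B.J3 M q hq hqM K)⁻¹)) ∈ n →
      P 2 ≤ n →
      ∃ i : Fin 3, P i ≤ n ∧ ∃ g ∈ P i, ∀ y ∈ P i,
        ∃ s : ↥(chart (M * q * q) A K (Chart3B.J3 M q hq hqM K)⁻¹), s ∉ n ∧
          ∃ c : ↥(chart (M * q * q) A K (Chart3B.J3 M q hq hqM K)⁻¹), s * y = c * g := by
  intro n hn _ hJ hP2
  have hp0 : algebraMap (OK A K) (FK (M * q * q) K) π ≠ 0 :=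
    GaussV.algebraMap_ne_zero (M * q * q) A K hπ.ne_zero
  have hother := CuspOneInst.not_of_ne M q hq hqM A K hdvr hA hπ hyp rfl rfl rfl rfl
    ⟨1, one_mem _, (mul_one _).symm⟩ n hn.isPrime hJ 2 hP2
  have he2 : Model3Plan.ram q 2 = q - 1 := rfl
  -- `x2 ∈ sE · W3`
  have hx2' : ∃ y ∈ W3, Wit3.x2 M q hq hqM K = Wit3.sE M q hq hqM K * y := by
    obtain ⟨z, hz, hxz⟩ := hx2
    obtain ⟨u, hu, -, hpu⟩ := val.ram 2
    have hsV : Wit3.sE M q hq hqM K ∈ W3 := val.unif_mem 2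
    have hu' : u ∈ W3 := hu
    have hpu' : algebraMap (OK A K) (FK (M * q * q) K) π
        = Wit3.sE M q hq hqM K ^ (q - 1) * u := hpu
    obtain ⟨k, hk⟩ : ∃ k : ℕ, q - 1 = k + 1 := ⟨q - 2, by have := hq.two_le; omega⟩
    refine ⟨Wit3.sE M q hq hqM K ^ k * u * z, mul_mem (mul_mem (pow_mem hsV k) hu') hz, ?_⟩
    rw [hxz, hpu', hk, pow_succ]
    ring
  exact ⟨2, hP2, cusp_genAt_chart M q hq hqM A K hint hfrac val hyp hp0 he2 ε hε hqπ
    hj3 hjqq3 ⟨1, one_mem _, (mul_one _).symm⟩ hx2' n hn.isPrime hP2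
    (hother 0 (by decide)) (hother 1 (by decide)) hJ⟩

end

end Fermat.Agent.S36.CuspTop
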