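import Mathlib
import Fermat.Prelude.Thm_ModularCurve_coeffMap_qExpand
import Fermat.Agent.S36.Plan
import Fermat.Agent.S36.EtaALqInst
import Fermat.Agent.S36.EtaChartInt
import Fermat.Agent.S36.EtaB1Inst

/-!
# S36 block [B1-eta]: the existence of the eta unit, in the shape `EtaB1Inst.EtaHyp`

`etaHyp` : for `q` prime, `q ∤ M`, under the auxiliary level hypothesis `Plan.AuxHyp q M`
(`4 ∣ M` for odd `q`, `9 ∣ M` for `q = 2`), `O = A ∩ K` a discrete valuation ring with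
uniformiser `π` whose image in `ℚ̄` is `q`: the eta unit `h = G(qz)/G(z) ∈ F_K(M q)` of
`EtaALqInst.exists_unit_aux` satisfies all the `h`-side hypotheses of
`EtaB1.princ_eta_chart(_inv)`, i.e. `EtaB1Inst.EtaHyp M q hq hqM A K π` holds:

* `w_q h = c · h⁻¹` with `c = ε q⁻¹`, `ε = ±1`, so `c · π = ε` is a unit of `A`;
* `h` is Gauss-integral with nonzero reduction;
* `α h`, `(α h)⁻¹`, `β h`, `(β h)⁻¹` lie in `chart J3 = chart j` up to a power of `π`
  (their expansions over `ℂ` are the q-expansions of `h1^{±1}`, `h2^{±1}`, integral over `ℂ[j]`).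

`etaHyp_of_mul_unit` : the same when `q = π · (unit of A)` only.
-/

set_option autoImplicit false

open ModularCurve AlgebraicCurve HahnSeries

namespace Fermat.Agent.S36.EtaB1HypB

open Fermat.Agent Fermat.Agent.S18.Arith Fermat.Agent.S36.WQ2
open Fermat.Agent.S24 (embC)

/-- The expansion over `ℂ` of `α x` is that of `x`. -/
theorem cm_alphaK2 (M q : ℕ) [NeZero M] [NeZero q] (K : IntermediateField ℚ Qb)
    (x : FK (M * q) K) :
    coeffMap embC ((alphaK2 M q K x : FK (M * q * q) K) : LaurentSeries Qb)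
      = coeffMap embC ((x : FK (M * q) K) : LaurentSeries Qb) := by
  rw [coe_alphaK2]

/-- The expansion over `ℂ` of `β x` is that of `x` in the variable `t^q`. -/
theorem cm_betaK2 (M q : ℕ) [NeZero M] [NeZero q] (hq : q.Prime) (hqM : ¬ q ∣ M)
    (K : IntermediateField ℚ Qb) (x : FK (M * q) K) :
    coeffMap embC ((betaK2 M q hq hqM K x : FK (M * q * q) K) : LaurentSeries Qb)
      = qExpand ℂ q (coeffMap embC ((x : FK (M * q) K) : LaurentSeries Qb)) := by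
  rw [coe_betaK2, ModularCurve.coeffMap_qExpand]

/-- **The eta unit satisfies `EtaHyp`**, general form: `c · π` is a unit of `A` as soon as
`q = π · u₀` with `u₀` a unit of `A`. -/
theorem etaHyp_of_mul_unit (M q : ℕ) [NeZero M] [NeZero q] (hq : q.Prime) (hqM : ¬ q ∣ M)
    (haux : Plan.AuxHyp q M) (A : ValuationSubring Qb) (K : IntermediateField ℚ Qb)
    (hdvr : IsDiscreteValuationRing (OK A K)) {π : OK A K} (hπ : Irreducible π)
    (u₀ : A) (hu₀ : IsUnit u₀) (hπq : (q : Qb) = incO A K π * (u₀ : Qb)) :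
    EtaB1Inst.EtaHyp M q hq hqM A K π := by
  obtain ⟨ε, x, hε, -, hA, hw, hI1, hI2, hI3, hI4⟩ :=
    EtaALqInst.exists_unit_aux M q hq hqM haux K
  obtain ⟨⟨y, hy0, hG⟩, -⟩ := hA A
  have hq0 : (q : Qb) ≠ 0 := Nat.cast_ne_zero.mpr hq.ne_zero
  obtain ⟨v, hv⟩ := hu₀
  -- the unit `u = ε · u₀⁻¹`
  have hvv : ((v : A) : Qb) * (((v⁻¹ : Aˣ) : A) : Qb) = 1 := by
    have h1 : ((v : A) * ((v⁻¹ : Aˣ) : A) : A) = 1 := by
      rw [← Units.val_mul, mul_inv_cancel, Units.val_one]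
    have h2 : (((v : A) * ((v⁻¹ : Aˣ) : A) : A) : Qb) = ((1 : A) : Qb) := by rw [h1]
    exact h2
  have hv0 : ((v : A) : Qb) ≠ 0 := left_ne_zero_of_mul_eq_one hvv
  have hπ0 : incO A K π ≠ 0 := by
    intro h0
    rw [h0, zero_mul] at hπq
    exact hq0 hπq
  have hcπ : (((ε : K) * (q : K)⁻¹ : K) : Qb) * incO A K π
      = ((((ε : ℤ) : A) * ((v⁻¹ : Aˣ) : A) : A) : Qb) := by
    have e1 : (((ε : K) * (q : K)⁻¹ : K) : Qb) = (ε : Qb) * (q : Qb)⁻¹ := by
      push_cast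
      rfl
    have e2 : ((((ε : ℤ) : A) * ((v⁻¹ : Aˣ) : A) : A) : Qb)
        = (ε : Qb) * (((v⁻¹ : Aˣ) : A) : Qb) := by
      push_cast
      rfl
    have e3 : (((v⁻¹ : Aˣ) : A) : Qb) = ((v : A) : Qb)⁻¹ := eq_inv_of_mul_eq_one_right hvv
    rw [e1, e2, e3, hπq, ← hv]
    field_simp
  have hu : IsUnit (((ε : ℤ) : A) * ((v⁻¹ : Aˣ) : A)) := by
    refine IsUnit.mul ?_ (Units.isUnit _)
    rcases hε with rfl | rfl
    · simp
    · simp
  -- chart memberships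
  obtain ⟨k1, h1, h1'⟩ := EtaChartInt.exists_pow_mul_mem_chart_unit (M * q * q) A K hdvr hπ
    (alphaK2 M q K x) (by rw [cm_alphaK2]; exact hI1) (by rw [cm_alphaK2]; exact hI2)
  obtain ⟨k2, h2, h2'⟩ := EtaChartInt.exists_pow_mul_mem_chart_unit (M * q * q) A K hdvr hπ
    (betaK2 M q hq hqM K x) (by rw [cm_betaK2]; exact hI3) (by rw [cm_betaK2]; exact hI4)
  refine ⟨x, (ε : K) * (q : K)⁻¹, ((ε : ℤ) : A) * ((v⁻¹ : Aˣ) : A), y,
    EtaVal.alRel_of_algebraMap hw, hu, hcπ, hG, hy0, ?_, ?_, ?_, ?_⟩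
  · rw [Chart3B.chart_J3_eq]
    exact ⟨k1, h1⟩
  · rw [Chart3B.chart_J3_eq]
    exact ⟨k1, h1'⟩
  · rw [Chart3B.chart_J3_eq]
    exact ⟨k2, h2⟩
  · rw [Chart3B.chart_J3_eq]
    exact ⟨k2, h2'⟩

/-- **The eta unit satisfies `EtaHyp`** (`π = q` in `ℚ̄`). -/
theorem etaHyp (M q : ℕ) [NeZero M] [NeZero q] (hq : q.Prime) (hqM : ¬ q ∣ M)
    (haux : Plan.AuxHyp q M) (A : ValuationSubring Qb) (K : IntermediateField ℚ Qb)
    (hdvr : IsDiscreteValuationRing (OK A K)) {π : OK A K} (hπ : Irreducible π)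
    (hπq : incO A K π = (q : Qb)) :
    EtaB1Inst.EtaHyp M q hq hqM A K π :=
  etaHyp_of_mul_unit M q hq hqM haux A K hdvr hπ 1 isUnit_one (by rw [hπq]; simp)

end Fermat.Agent.S36.EtaB1HypB
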