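import Mathlib
import Fermat.Agent.S36.Model3PrincB
import Fermat.Agent.S36.EtaB1HypB
import Fermat.Agent.S36.CuspTop
import Fermat.Agent.S36.CuspOff3Closed

/-!
# S36 block [MODEL3], leaf [M3.10], route (I): the model of record, closed plug

`Model3PrincB.model3` with its four (B1) inputs plugged:

* (eta)    `hex     := EtaB1HypB.etaHyp` (under `Plan.AuxHyp q M`, `π = q`);
* (cusp2)  `hcusp2  := CuspTop.hcusp2_w3` ([N10], algebraic route);
* (cusp01) `hcusp01 := CuspOff3Closed.hcusp01_model` ([CUSP1]);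
* (nak)    `hnak0 : NakHyp H hB π` : the ONLY input left as a named hypothesis — (B1) at the
  closed points of `chart J3` lying on `P 2` ONLY (`hnak` of `Princ3Cases.princ_of_cases`).

Exports:

* `natCast_eq`          : `(q : O) = π * 1` from `incO π = q`;
* `NakHyp H hB π`       : the Nakayama input (a `def`, unfolds to the literal binder `hnak0` of
                          `Model3PrincB.model3`);
* `model3_of_nak`       : `Model3 (M q²) A K π (ram q) ![π, π, sE] ![W1, W2, H.W3] J3` for any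
                          `H : V3.Hyp3 …`;
* `model3_iota3_of_nak` : the same for `H := V3.hyp3_iota3 …` (`K' = K(ξ)`, `ϖ' = 1 - ξ`), where
                          `hπϖ` is `BaseXi.exists_unit`.
-/

set_option autoImplicit false
set_option linter.unusedSectionVars false

noncomputable section

namespace Fermat.Agent.S36.Model3Full

open ModularCurve AlgebraicCurve HahnSeries
open Fermat.Agent.S18 Fermat.Agent.S18.Arith Fermat.Agent.S18.ModelPlan
open Fermat.Agent.S34 Fermat.Agent.S36.Model3Plan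

variable {M q : ℕ} [NeZero M] [NeZero q] {hq : q.Prime} {hqM : ¬ q ∣ M}
variable {A : ValuationSubring Qb} {K K' : IntermediateField ℚ Qb}

/-- `incO π = q` ⟹ `(q : O) = π * 1`. -/
theorem natCast_eq {π : OK A K} (hπq : incO A K π = (q : Qb)) : (q : OK A K) = π * 1 := by
  rw [mul_one]
  apply Fermat.Agent.S18.ModelFin.incO_injective A K
  rw [hπq, map_natCast]

section General

variable {ξ : Qb} {hξ0 : ξ ≠ 0} {ι : FK (M * q * q) K →+* LaurentSeries Qb} {ϖ : OK A K'}
variable (H : V3.Hyp3 M q hq hqM A K K' ξ hξ0 ι ϖ)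

/-- **The Nakayama input** = the binder `hnak0` of `Model3PrincB.model3` (`hnak` of
`Princ3Cases.princ_of_cases` on `chart J3`): (B1) at the closed points of `chart J3` lying on
`P 2` ONLY.  (A `def` for brevity: it unfolds by `exact`/`fun hyp n hn hπn h0 h1 h2 => …`.) -/
def NakHyp (hB : BaseFacts q A K) (π : OK A K) : Prop :=
  ChartHyp3 π
      ![algebraMap (OK A K) (FK (M * q * q) K) π, algebraMap (OK A K) (FK (M * q * q) K) π,
        Wit3.sE M q hq hqM K]
      ![GaussV.V1 (M * q * q) A K hB.dvr, GaussV.V2 (WQ2.wK2 M q hq hqM K) hB.dvr, H.W3]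
      (Model3Asm.Pc (chart (M * q * q) A K (Chart3B.J3 M q hq hqM K))
        ![algebraMap (OK A K) (FK (M * q * q) K) π,
          algebraMap (OK A K) (FK (M * q * q) K) π, Wit3.sE M q hq hqM K]
        ![GaussV.V1 (M * q * q) A K hB.dvr, GaussV.V2 (WQ2.wK2 M q hq hqM K) hB.dvr, H.W3]
        (Model3Top.le0 H hB.dvr)) →
    ∀ n : Ideal (chart (M * q * q) A K (Chart3B.J3 M q hq hqM K)), n.IsMaximal →
      algebraMap (OK A K) (chart (M * q * q) A K (Chart3B.J3 M q hq hqM K)) π ∈ n →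
      ¬ Model3Asm.Pc (chart (M * q * q) A K (Chart3B.J3 M q hq hqM K))
          ![algebraMap (OK A K) (FK (M * q * q) K) π,
            algebraMap (OK A K) (FK (M * q * q) K) π, Wit3.sE M q hq hqM K]
          ![GaussV.V1 (M * q * q) A K hB.dvr, GaussV.V2 (WQ2.wK2 M q hq hqM K) hB.dvr, H.W3]
          (Model3Top.le0 H hB.dvr) 0 ≤ n →
      ¬ Model3Asm.Pc (chart (M * q * q) A K (Chart3B.J3 M q hq hqM K))
          ![algebraMap (OK A K) (FK (M * q * q) K) π,
            algebraMap (OK A K) (FK (M * q * q) K) π, Wit3.sE M q hq hqM K]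
          ![GaussV.V1 (M * q * q) A K hB.dvr, GaussV.V2 (WQ2.wK2 M q hq hqM K) hB.dvr, H.W3]
          (Model3Top.le0 H hB.dvr) 1 ≤ n →
      Model3Asm.Pc (chart (M * q * q) A K (Chart3B.J3 M q hq hqM K))
          ![algebraMap (OK A K) (FK (M * q * q) K) π,
            algebraMap (OK A K) (FK (M * q * q) K) π, Wit3.sE M q hq hqM K]
          ![GaussV.V1 (M * q * q) A K hB.dvr, GaussV.V2 (WQ2.wK2 M q hq hqM K) hB.dvr, H.W3]
          (Model3Top.le0 H hB.dvr) 2 ≤ n →
      ∃ i : Fin 3,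
        Model3Asm.Pc (chart (M * q * q) A K (Chart3B.J3 M q hq hqM K))
          ![algebraMap (OK A K) (FK (M * q * q) K) π,
            algebraMap (OK A K) (FK (M * q * q) K) π, Wit3.sE M q hq hqM K]
          ![GaussV.V1 (M * q * q) A K hB.dvr, GaussV.V2 (WQ2.wK2 M q hq hqM K) hB.dvr, H.W3]
          (Model3Top.le0 H hB.dvr) i ≤ n ∧
        ∃ g ∈ Model3Asm.Pc (chart (M * q * q) A K (Chart3B.J3 M q hq hqM K))
          ![algebraMap (OK A K) (FK (M * q * q) K) π,
            algebraMap (OK A K) (FK (M * q * q) K) π, Wit3.sE M q hq hqM K]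
          ![GaussV.V1 (M * q * q) A K hB.dvr, GaussV.V2 (WQ2.wK2 M q hq hqM K) hB.dvr, H.W3]
          (Model3Top.le0 H hB.dvr) i,
          ∀ y ∈ Model3Asm.Pc (chart (M * q * q) A K (Chart3B.J3 M q hq hqM K))
            ![algebraMap (OK A K) (FK (M * q * q) K) π,
              algebraMap (OK A K) (FK (M * q * q) K) π, Wit3.sE M q hq hqM K]
            ![GaussV.V1 (M * q * q) A K hB.dvr, GaussV.V2 (WQ2.wK2 M q hq hqM K) hB.dvr,
              H.W3]
            (Model3Top.le0 H hB.dvr) i,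
            ∃ s : chart (M * q * q) A K (Chart3B.J3 M q hq hqM K), s ∉ n ∧
              ∃ c : chart (M * q * q) A K (Chart3B.J3 M q hq hqM K), s * y = c * g

/-- **[MODEL3], route (I), closed up to the Nakayama input**: the model of record for any
`H : V3.Hyp3 …`, `π = q`, under `Plan.AuxHyp q M`. -/
def model3_of_nak (hA : A.LiesOverPrime q) (hB : BaseFacts q A K)
    {π : OK A K} (hπ : Irreducible π) (hπq : incO A K π = (q : Qb)) (haux : Plan.AuxHyp q M)
    (hπϖ : ∃ u : A, IsUnit u ∧ incO A K π = incO A K' ϖ ^ (q - 1) * (u : Qb))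
    (hnak0 : NakHyp H hB π) :
    Model3 (M * q * q) A K π (Model3Plan.ram q)
      ![algebraMap (OK A K) (FK (M * q * q) K) π, algebraMap (OK A K) (FK (M * q * q) K) π,
        Wit3.sE M q hq hqM K]
      ![GaussV.V1 (M * q * q) A K hB.dvr, GaussV.V2 (WQ2.wK2 M q hq hqM K) hB.dvr, H.W3]
      (Chart3B.J3 M q hq hqM K) :=
  have hqa : (q : Qb) = incO A K π * (((1 : A) : A) : Qb) := by
    rw [hπq, OneMemClass.coe_one, mul_one]
  Model3PrincB.model3 H hB hA hπ 1 hqa hπϖ
    (EtaB1HypB.etaHyp M q hq hqM haux A K hB.dvr hπ hπq) hnak0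
    (fun hyp =>
      CuspTop.hcusp2_w3 M q hq hqM A K hB.dvr hA hπ H.W3
        (Chart3B.rings M q hq hqM A K hB.dvr).2.1.2.2 (Chart3B.rings M q hq hqM A K hB.dvr).2.1.2.1
        (V3Wit.valHyp3 H hB.dvr hA hπ 1 hqa hπϖ) hyp 1 isUnit_one (natCast_eq hπq)
        (V3Wit.j_unit3 H).1 (V3Wit.jqq_unit3 H).1 (V3Wit.x2_pi3 H hB.dvr hA hπ))
    (fun hyp n hn hπn hJ h2 =>
      CuspOff3Closed.hcusp01_model H hB.dvr hA hπ hyp n hn hπn (not_not.mpr hJ) h2)

end General

section Iota3

variable {ξ : Qb}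

/-- **[MODEL3], route (I), closed up to the Nakayama input, for the embedding of record**
`H := V3.hyp3_iota3 …` (`K' = K(ξ)`, `ϖ' = 1 - ξ`, `ι = Iota3.iota3`): `hπϖ` is
`BaseXi.exists_unit`. -/
def model3_iota3_of_nak (hA : A.LiesOverPrime q) (hB : BaseFacts q A K)
    (π : OK A K) (hπ : Irreducible π) (hπq : incO A K π = (q : Qb)) (haux : Plan.AuxHyp q M)
    (hξ : IsPrimitiveRoot ξ q)
    (hnak0 : NakHyp (V3.hyp3_iota3 hq hqM A hB.dvr π hπ hπq hξ) hB π) :
    Model3 (M * q * q) A K π (Model3Plan.ram q)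
      ![algebraMap (OK A K) (FK (M * q * q) K) π, algebraMap (OK A K) (FK (M * q * q) K) π,
        Wit3.sE M q hq hqM K]
      ![GaussV.V1 (M * q * q) A K hB.dvr, GaussV.V2 (WQ2.wK2 M q hq hqM K) hB.dvr,
        (V3.hyp3_iota3 hq hqM A hB.dvr π hπ hπq hξ).W3]
      (Chart3B.J3 M q hq hqM K) :=
  model3_of_nak (V3.hyp3_iota3 hq hqM A hB.dvr π hπ hπq hξ) hA hB hπ hπq haux
    (BaseXi.exists_unit hq π hπ hπq hξ) hnak0

end Iota3

end Fermat.Agent.S36.Model3Full

end
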