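import Mathlib
import Fermat.Agent.S36.Model3Full
import Fermat.Agent.S36.NakTopInst

/-!
# S36 block [MODEL3], leaf [M3.11]: the model of record, CLOSED

`Model3Full.model3_of_nak` with its last open input `NakHyp` discharged by
`NakTopInst.hnak0` (the closed top of [B1-nak]).  No (B1) hypothesis is left: the only
parameters are the standing data of the model.

* `nakHyp`            : `Model3Full.NakHyp H hB π` (any `H : V3.Hyp3 …`);
* `model3_closed`     : `Model3 (M q²) A K π (ram q) ![π, π, sE] ![W1, W2, H.W3] J3` for any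
                        `H : V3.Hyp3 …`, `π = q`, under `Plan.AuxHyp q M`;
* `model3_iota3`      : the same for `H := V3.hyp3_iota3 …` (`hπϖ := BaseXi.exists_unit`);
* `nonempty_model3`   : `Nonempty` of the latter.
-/

set_option autoImplicit false
set_option linter.unusedSectionVars false

noncomputable section

namespace Fermat.Agent.S36.Model3FullC

open ModularCurve AlgebraicCurve HahnSeries
open Fermat.Agent.S18 Fermat.Agent.S18.Arith Fermat.Agent.S18.ModelPlan
open Fermat.Agent.S34 Fermat.Agent.S36.Model3Plan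

variable {M q : ℕ} [NeZero M] [NeZero q] {hq : q.Prime} {hqM : ¬ q ∣ M}
variable {A : ValuationSubring Qb} {K K' : IntermediateField ℚ Qb}

section General

variable {ξ : Qb} {hξ0 : ξ ≠ 0} {ι : FK (M * q * q) K →+* LaurentSeries Qb} {ϖ : OK A K'}
variable (H : V3.Hyp3 M q hq hqM A K K' ξ hξ0 ι ϖ)

/-- **The Nakayama input of `Model3Full.model3_of_nak`, closed.** -/
theorem nakHyp (hA : A.LiesOverPrime q) (hB : BaseFacts q A K)
    {π : OK A K} (hπ : Irreducible π) (hπq : incO A K π = (q : Qb)) (haux : Plan.AuxHyp q M)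
    (hπϖ : ∃ u : A, IsUnit u ∧ incO A K π = incO A K' ϖ ^ (q - 1) * (u : Qb)) :
    Model3Full.NakHyp H hB π := by
  have hqa : (q : Qb) = incO A K π * (((1 : A) : A) : Qb) := by
    rw [hπq, OneMemClass.coe_one, mul_one]
  have hM : 4 ∣ M ∨ 9 ∣ M := by
    by_cases h : q = 2
    · exact Or.inr (haux.2 h)
    · exact Or.inl (haux.1 h)
  intro hyp n hn hπn _ _ h2
  exact NakTopInst.hnak0 H hA hB hM hπ 1 hqa hπϖ hyp n hn hπn h2

/-- **[MODEL3] CLOSED**: the model of record for any `H : V3.Hyp3 …`, `π = q`, under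
`Plan.AuxHyp q M`. -/
def model3_closed (hA : A.LiesOverPrime q) (hB : BaseFacts q A K)
    {π : OK A K} (hπ : Irreducible π) (hπq : incO A K π = (q : Qb)) (haux : Plan.AuxHyp q M)
    (hπϖ : ∃ u : A, IsUnit u ∧ incO A K π = incO A K' ϖ ^ (q - 1) * (u : Qb)) :
    Model3 (M * q * q) A K π (Model3Plan.ram q)
      ![algebraMap (OK A K) (FK (M * q * q) K) π, algebraMap (OK A K) (FK (M * q * q) K) π,
        Wit3.sE M q hq hqM K]
      ![GaussV.V1 (M * q * q) A K hB.dvr, GaussV.V2 (WQ2.wK2 M q hq hqM K) hB.dvr, H.W3]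
      (Chart3B.J3 M q hq hqM K) :=
  Model3Full.model3_of_nak H hA hB hπ hπq haux hπϖ (nakHyp H hA hB hπ hπq haux hπϖ)

end General

section Iota3

variable {ξ : Qb}

/-- **[MODEL3] CLOSED, for the embedding of record** `H := V3.hyp3_iota3 …`. -/
def model3_iota3 (hA : A.LiesOverPrime q) (hB : BaseFacts q A K)
    (π : OK A K) (hπ : Irreducible π) (hπq : incO A K π = (q : Qb)) (haux : Plan.AuxHyp q M)
    (hξ : IsPrimitiveRoot ξ q) :
    Model3 (M * q * q) A K π (Model3Plan.ram q)
      ![algebraMap (OK A K) (FK (M * q * q) K) π, algebraMap (OK A K) (FK (M * q * q) K) π,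
        Wit3.sE M q hq hqM K]
      ![GaussV.V1 (M * q * q) A K hB.dvr, GaussV.V2 (WQ2.wK2 M q hq hqM K) hB.dvr,
        (V3.hyp3_iota3 hq hqM A hB.dvr π hπ hπq hξ).W3]
      (Chart3B.J3 M q hq hqM K) :=
  model3_closed (V3.hyp3_iota3 hq hqM A hB.dvr π hπ hπq hξ) hA hB hπ hπq haux
    (BaseXi.exists_unit hq π hπ hπq hξ)

/-- `Nonempty` form (the `Model3` conjunct of `LocAsm3L.ChainStatementL` for the tuple of
record). -/
theorem nonempty_model3 (hA : A.LiesOverPrime q) (hB : BaseFacts q A K)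
    (π : OK A K) (hπ : Irreducible π) (hπq : incO A K π = (q : Qb)) (haux : Plan.AuxHyp q M)
    (hξ : IsPrimitiveRoot ξ q) :
    Nonempty (Model3 (M * q * q) A K π (Model3Plan.ram q)
      ![algebraMap (OK A K) (FK (M * q * q) K) π, algebraMap (OK A K) (FK (M * q * q) K) π,
        Wit3.sE M q hq hqM K]
      ![GaussV.V1 (M * q * q) A K hB.dvr, GaussV.V2 (WQ2.wK2 M q hq hqM K) hB.dvr,
        (V3.hyp3_iota3 hq hqM A hB.dvr π hπ hπq hξ).W3]
      (Chart3B.J3 M q hq hqM K)) :=
  ⟨model3_iota3 hA hB π hπ hπq haux hξ⟩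

end Iota3

end Fermat.Agent.S36.Model3FullC

end
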