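import Mathlib
import Fermat.Agent.S34.LocPlan
import Fermat.Agent.S36.Model3Plan
import Fermat.Agent.S36.HorGen
import Fermat.Agent.S36.SmoothFixN

/-!
# S36 [LOC36]: the chart facts behind the local normal form, from `Model3Plan`

OWNER: helper132 (dealt by helper19, owner of `S36/Loc36.lean`).

Setting: `O` a base ring with an element `π`, `R` a chart (a domain, an `O`-algebra) with fraction
field `E`, three valuation rings `V i` of `E` with uniformizers `ϖ i`, three ideals `P i` of `R`.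
Write `p` for the image of `π` in `E` and `v i` for the valuation of `V i`.  From

* `hV : Model3Plan.ValHyp3 p e ϖ V`,
* `hC : Model3Plan.ChartHyp3 π ϖ V P`,
* `hp0 : p ≠ 0` (where needed; `ValHyp3.ram` alone does not exclude `p = 0`)

we derive every chart hypothesis consumed by `HorGen.exists_pow_mul_unit_chart`,
`HorGen.exists_eq_of_desc`, the multi-branch normal form and `SmoothFixN.smoothFixN`:

* `mem_P_iff`            `r ∈ P i ↔ v i r < 1`;
* `isPrime_P`            `P i` is prime;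
* `pi_mem_P`             `π ∈ P i`;
* `cen`, `non`           `P i` is the centre of `V i` on `R`;
* `nil_mem`, `nil_val`, `val_p_lt_one`   `e i`-th powers of nonunits of `V i` lie in `p (V i)`;
* `vert`                 the height-one primes containing `π` are the `P i` (`R` noetherian);
* `exists_le`            every prime containing `π` contains some `P i`;
* `res`                  `V i = R_{P i}` in valuation form;
* `branch`               the branch datum in valuation form;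
* `desc_at`              descent of `p`-divisibility at a prime `n`, using only the branches
                         through `n`;
* `far`, `near`          the far / near hypotheses of `SmoothFixN`;
* `horGen`, `smoothFix`  fit checks: the two landed consumers fed with these facts.
-/

set_option autoImplicit false
set_option linter.unusedSectionVars false

namespace Fermat.Agent.S36.Chart3Facts

open Fermat.Agent.S34 Fermat.Agent.S36

/-! ### One valuation ring with a uniformizer -/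

section Val

variable {E : Type*} [Field E]

/-- A nonzero element of valuation `< 1` is not invertible in `V`. -/
theorem inv_not_mem_of_lt_one (V : ValuationSubring E) {x : E} (hx0 : x ≠ 0)
    (hx : V.valuation x < 1) : x⁻¹ ∉ V := by
  intro h
  have h1 : V.valuation x⁻¹ ≤ 1 := (V.valuation_le_one_iff _).2 h
  have hpos : 0 < V.valuation x := zero_lt_iff.2 ((Valuation.ne_zero_iff _).2 hx0)
  rw [map_inv₀, inv_le_one₀ hpos] at h1
  exact absurd hx (not_lt.2 h1)

/-- An element of valuation `1` is invertible in `V`. -/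
theorem inv_mem_of_eq_one (V : ValuationSubring E) {x : E} (hx : V.valuation x = 1) :
    x⁻¹ ∈ V := by
  refine (V.valuation_le_one_iff _).1 ?_
  rw [map_inv₀, hx, inv_one]

/-- A unit of `V` has valuation `1`. -/
theorem eq_one_of_unit (V : ValuationSubring E) {u : E} (hu : u ∈ V) (hu' : u⁻¹ ∈ V)
    (hu0 : u ≠ 0) : V.valuation u = 1 := by
  refine le_antisymm ((V.valuation_le_one_iff _).2 hu) ?_
  have h1 : V.valuation u⁻¹ ≤ 1 := (V.valuation_le_one_iff _).2 hu'
  have hpos : 0 < V.valuation u := zero_lt_iff.2 ((Valuation.ne_zero_iff _).2 hu0)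
  rwa [map_inv₀, inv_le_one₀ hpos] at h1

/-- A uniformizer (an element of `V` whose inverse is not in `V`) has valuation `< 1`. -/
theorem unif_lt_one (V : ValuationSubring E) {t : E} (ht : t ∈ V) (ht' : t⁻¹ ∉ V) :
    V.valuation t < 1 := by
  refine lt_of_le_of_ne ((V.valuation_le_one_iff _).2 ht) ?_
  intro h
  exact ht' (inv_mem_of_eq_one V h)

/-- Multiples of an element of valuation `< 1` have valuation `< 1`. -/
theorem mul_lt_one (V : ValuationSubring E) {t y : E} (ht : V.valuation t < 1) (hy : y ∈ V) :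
    V.valuation (t * y) < 1 := by
  have hy' : V.valuation y ≤ 1 := (V.valuation_le_one_iff _).2 hy
  rw [map_mul]
  exact lt_of_le_of_lt (mul_le_of_le_one_right' hy') ht

/-- Multiples of `x` by elements of `V` have valuation `≤ v x`. -/
theorem mul_le (V : ValuationSubring E) (x : E) {y : E} (hy : y ∈ V) :
    V.valuation (x * y) ≤ V.valuation x := by
  have hy' : V.valuation y ≤ 1 := (V.valuation_le_one_iff _).2 hy
  rw [map_mul]
  exact mul_le_of_le_one_right' hy'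

/-- In a discrete valuation ring with uniformizer `t`: `v x < 1 ↔ x ∈ t V`. -/
theorem lt_one_iff_exists (V : ValuationSubring E) {t : E} (ht : t ∈ V) (ht' : t⁻¹ ∉ V)
    (hdisc : ∀ x : E, x ≠ 0 → ∃ k : ℤ, ∃ u ∈ V, u⁻¹ ∈ V ∧ x = t ^ k * u) (x : E) :
    V.valuation x < 1 ↔ ∃ y ∈ V, x = t * y := by
  constructor
  · intro hx
    by_cases hx0 : x = 0
    · exact ⟨0, V.zero_mem, by rw [hx0, mul_zero]⟩
    obtain ⟨k, u, hu, hu', hxu⟩ := hdisc x hx0
    rcases le_or_gt k 0 with hk | hk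
    · exfalso
      obtain ⟨l, hl⟩ : ∃ l : ℕ, -k = l := ⟨(-k).toNat, by omega⟩
      apply inv_not_mem_of_lt_one V hx0 hx
      have : x⁻¹ = t ^ l * u⁻¹ := by
        rw [hxu, mul_inv, ← zpow_neg, hl, zpow_natCast]
      rw [this]
      exact V.mul_mem _ _ (pow_mem ht l) hu'
    · obtain ⟨l, hl⟩ : ∃ l : ℕ, k = (l : ℤ) + 1 := ⟨(k - 1).toNat, by omega⟩
      refine ⟨t ^ l * u, V.mul_mem _ _ (pow_mem ht l) hu, ?_⟩
      have e2 : t ^ ((l : ℤ) + 1) = t ^ (l + 1) := by
        rw [← Nat.cast_succ, zpow_natCast]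
      rw [hxu, hl, e2, pow_succ]
      ring
  · rintro ⟨y, hy, rfl⟩
    exact mul_lt_one V (unif_lt_one V ht ht') hy

end Val

/-! ### The three valuation rings -/

section Val3

variable {E : Type*} [Field E] {p : E} {e : Fin 3 → ℕ} {ϖ : Fin 3 → E}
  {V : Fin 3 → ValuationSubring E}

/-- `v i x < 1 ↔ x ∈ ϖ i (V i)`. -/
theorem val_lt_one_iff (hV : Model3Plan.ValHyp3 p e ϖ V) (i : Fin 3) (x : E) :
    (V i).valuation x < 1 ↔ ∃ y ∈ V i, x = ϖ i * y :=
  lt_one_iff_exists (V i) (hV.unif_mem i) (hV.unif_not i) (hV.disc i) x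

/-- `x ∈ ϖ i (V i)` ⟹ `x ^ e i ∈ p (V i)` (for `p ≠ 0`). -/
theorem pow_e_eq (hV : Model3Plan.ValHyp3 p e ϖ V) (hp0 : p ≠ 0) (i : Fin 3) {x : E}
    (hx : ∃ y ∈ V i, x = ϖ i * y) : ∃ z ∈ V i, x ^ e i = p * z := by
  obtain ⟨y, hy, rfl⟩ := hx
  obtain ⟨u, hu, hu', hpu⟩ := hV.ram i
  have hu0 : u ≠ 0 := by
    rintro rfl
    rw [mul_zero] at hpu
    exact hp0 hpu
  refine ⟨u⁻¹ * y ^ e i, (V i).mul_mem _ _ hu' (pow_mem hy _), ?_⟩
  rw [hpu, mul_pow]
  field_simp

/-- `v i p < 1`. -/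
theorem val_p_lt_one' (hV : Model3Plan.ValHyp3 p e ϖ V) (i : Fin 3) :
    (V i).valuation p < 1 := by
  obtain ⟨u, hu, -, hpu⟩ := hV.ram i
  obtain ⟨l, hl⟩ : ∃ l : ℕ, e i = l + 1 := ⟨e i - 1, by have := hV.e_pos i; omega⟩
  rw [val_lt_one_iff hV]
  refine ⟨ϖ i ^ l * u, (V i).mul_mem _ _ (pow_mem (hV.unif_mem i) l) hu, ?_⟩
  rw [hpu, hl, pow_succ]
  ring

/-- `v i x < 1` ⟹ `v i (x ^ e i) ≤ v i p` (for `p ≠ 0`). -/
theorem val_pow_e_le (hV : Model3Plan.ValHyp3 p e ϖ V) (hp0 : p ≠ 0) (i : Fin 3) {x : E}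
    (hx : (V i).valuation x < 1) : (V i).valuation (x ^ e i) ≤ (V i).valuation p := by
  obtain ⟨z, hz, hxz⟩ := pow_e_eq hV hp0 i ((val_lt_one_iff hV i x).1 hx)
  rw [hxz]
  exact mul_le (V i) p hz

end Val3

/-! ### The chart -/

section Chart

variable {O : Type*} [CommRing O] {R : Type*} [CommRing R] [IsDomain R] [Algebra O R]
  {E : Type*} [Field E] [Algebra R E] [IsFractionRing R E] {π : O} {e : Fin 3 → ℕ}
  {ϖ : Fin 3 → E} {V : Fin 3 → ValuationSubring E} {P : Fin 3 → Ideal R}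

/-- **F1**: `r ∈ P i ↔ v i r < 1`. -/
theorem mem_P_iff (hV : Model3Plan.ValHyp3 (algebraMap R E (algebraMap O R π)) e ϖ V)
    (hC : Model3Plan.ChartHyp3 π ϖ V P) (i : Fin 3) (r : R) :
    r ∈ P i ↔ (V i).valuation (algebraMap R E r) < 1 := by
  rw [hC.mem_P i r, val_lt_one_iff hV]

/-- `r ∉ P i ↔ v i r = 1`. -/
theorem not_mem_P_iff (hV : Model3Plan.ValHyp3 (algebraMap R E (algebraMap O R π)) e ϖ V)
    (hC : Model3Plan.ChartHyp3 π ϖ V P) (i : Fin 3) (r : R) :
    r ∉ P i ↔ (V i).valuation (algebraMap R E r) = 1 := by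
  rw [mem_P_iff hV hC i r]
  have hle : (V i).valuation (algebraMap R E r) ≤ 1 := ((V i).valuation_le_one_iff _).2 (hC.le i r)
  constructor
  · intro h
    exact le_antisymm hle (not_lt.1 h)
  · intro h
    rw [h]
    exact lt_irrefl _

/-- **F2**: `P i` is a prime ideal. -/
theorem isPrime_P (hV : Model3Plan.ValHyp3 (algebraMap R E (algebraMap O R π)) e ϖ V)
    (hC : Model3Plan.ChartHyp3 π ϖ V P) (i : Fin 3) : (P i).IsPrime := by
  refine ⟨?_, ?_⟩
  · rw [Ne, Ideal.eq_top_iff_one]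
    rw [not_mem_P_iff hV hC, map_one, map_one]
  · intro a b hab
    by_contra hcon
    push Not at hcon
    obtain ⟨ha, hb⟩ := hcon
    rw [not_mem_P_iff hV hC] at ha hb
    rw [mem_P_iff hV hC, map_mul, map_mul, ha, hb, one_mul] at hab
    exact lt_irrefl _ hab

/-- **F6c**: `v i p < 1`. -/
theorem val_p_lt_one (hV : Model3Plan.ValHyp3 (algebraMap R E (algebraMap O R π)) e ϖ V)
    (i : Fin 3) : (V i).valuation (algebraMap R E (algebraMap O R π)) < 1 :=
  val_p_lt_one' hV i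

/-- **F3**: `π ∈ P i`. -/
theorem pi_mem_P (hV : Model3Plan.ValHyp3 (algebraMap R E (algebraMap O R π)) e ϖ V)
    (hC : Model3Plan.ChartHyp3 π ϖ V P) (i : Fin 3) : algebraMap O R π ∈ P i := by
  rw [mem_P_iff hV hC]
  exact val_p_lt_one hV i

/-- **F4** (`hcen` of `HorGen`): elements outside `P i` are units of `V i`. -/
theorem cen (hV : Model3Plan.ValHyp3 (algebraMap R E (algebraMap O R π)) e ϖ V)
    (hC : Model3Plan.ChartHyp3 π ϖ V P) (i : Fin 3) (r : R) (hr : r ∉ P i) :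
    (algebraMap R E r)⁻¹ ∈ V i :=
  inv_mem_of_eq_one (V i) ((not_mem_P_iff hV hC i r).1 hr)

/-- **F5** (`hnon` of `HorGen`): nonzero elements of `P i` are nonunits of `V i`. -/
theorem non (hV : Model3Plan.ValHyp3 (algebraMap R E (algebraMap O R π)) e ϖ V)
    (hC : Model3Plan.ChartHyp3 π ϖ V P) (i : Fin 3) (r : R) (hr : r ∈ P i) (hr0 : r ≠ 0) :
    (algebraMap R E r)⁻¹ ∉ V i := by
  have hinj : Function.Injective (algebraMap R E) := IsFractionRing.injective R E
  have h0 : algebraMap R E r ≠ 0 := fun h => hr0 (hinj (h.trans (map_zero _).symm))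
  exact inv_not_mem_of_lt_one (V i) h0 ((mem_P_iff hV hC i r).1 hr)

/-- `r ∈ P i` ⟹ `r ^ e i ∈ p (V i)`. -/
theorem pow_e_mem (hV : Model3Plan.ValHyp3 (algebraMap R E (algebraMap O R π)) e ϖ V)
    (hC : Model3Plan.ChartHyp3 π ϖ V P) (hp0 : algebraMap R E (algebraMap O R π) ≠ 0)
    (i : Fin 3) (r : R) (hr : r ∈ P i) :
    ∃ z ∈ V i, algebraMap R E (r ^ e i) = algebraMap R E (algebraMap O R π) * z := by
  rw [map_pow]
  exact pow_e_eq hV hp0 i ((hC.mem_P i r).1 hr)

/-- **F6a** (`hnil` of `HorGen.exists_eq_of_desc`). -/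
theorem nil_mem (hV : Model3Plan.ValHyp3 (algebraMap R E (algebraMap O R π)) e ϖ V)
    (hC : Model3Plan.ChartHyp3 π ϖ V P) (hp0 : algebraMap R E (algebraMap O R π) ≠ 0)
    (i : Fin 3) (r : R) (hr : r ∈ P i) :
    ∃ N : ℕ, ∃ z ∈ V i, algebraMap R E (r ^ N) = algebraMap R E (algebraMap O R π) * z :=
  ⟨e i, pow_e_mem hV hC hp0 i r hr⟩

/-- **F6b** (`hnil` of the normal form): a uniform exponent. -/
theorem nil_val (hV : Model3Plan.ValHyp3 (algebraMap R E (algebraMap O R π)) e ϖ V)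
    (hp0 : algebraMap R E (algebraMap O R π) ≠ 0) (i : Fin 3) :
    ∃ N : ℕ, ∀ x : E, (V i).valuation x < 1 →
      (V i).valuation (x ^ N) ≤ (V i).valuation (algebraMap R E (algebraMap O R π)) :=
  ⟨e i, fun _ hx => val_pow_e_le hV hp0 i hx⟩

/-- `π ≠ 0` in `R`. -/
theorem pi_ne_zero (hp0 : algebraMap R E (algebraMap O R π) ≠ 0) : algebraMap O R π ≠ 0 := by
  intro h
  rw [h, map_zero] at hp0
  exact hp0 rfl

/-- `desc` in divisibility form. -/
theorem dvd_of_desc (hC : Model3Plan.ChartHyp3 π ϖ V P) (r : R)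
    (h : ∀ i, ∃ z ∈ V i, algebraMap R E r = algebraMap R E (algebraMap O R π) * z) :
    algebraMap O R π ∣ r := by
  obtain ⟨r', hr'⟩ := hC.desc r h
  exact ⟨r', hr'⟩

/-- **F7** (`hvert` of `HorGen`): the height-one primes containing `π` are the `P i`. -/
theorem vert [IsNoetherianRing R]
    (hV : Model3Plan.ValHyp3 (algebraMap R E (algebraMap O R π)) e ϖ V)
    (hC : Model3Plan.ChartHyp3 π ϖ V P) (hp0 : algebraMap R E (algebraMap O R π) ≠ 0) :
    ∀ 𝔮 : Ideal R, 𝔮.IsPrime → algebraMap O R π ∈ 𝔮 → LocPlan.PrincAt 𝔮 → ∃ i, 𝔮 = P i := by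
  intro 𝔮 h𝔮 hπ𝔮 hP
  have := h𝔮
  exact HorGen.exists_eq_of_desc V P (algebraMap O R π) (pi_ne_zero hp0) (pi_mem_P hV hC)
    (isPrime_P hV hC) hC.le (nil_mem hV hC hp0) (dvd_of_desc hC) 𝔮 hπ𝔮 hP

/-- A product of `e j`-th powers of elements `t j`, where `t i ∈ P i`, lies in `p (V i)`. -/
theorem prod_pow_mem (hV : Model3Plan.ValHyp3 (algebraMap R E (algebraMap O R π)) e ϖ V)
    (hC : Model3Plan.ChartHyp3 π ϖ V P) (hp0 : algebraMap R E (algebraMap O R π) ≠ 0)
    (t : Fin 3 → R) (i : Fin 3) (hi : t i ∈ P i) :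
    ∃ z ∈ V i, algebraMap R E (∏ j, t j ^ e j) = algebraMap R E (algebraMap O R π) * z := by
  obtain ⟨z, hz, hzt⟩ := pow_e_mem hV hC hp0 i (t i) hi
  refine ⟨z * algebraMap R E (∏ j ∈ Finset.univ.erase i, t j ^ e j),
    (V i).mul_mem _ _ hz (hC.le i _), ?_⟩
  rw [← Finset.mul_prod_erase Finset.univ _ (Finset.mem_univ i), map_mul, hzt]
  ring

/-- A product of powers of elements outside a prime lies outside the prime. -/
theorem prod_pow_not_mem {n : Ideal R} (hn : n.IsPrime) (t : Fin 3 → R) (k : Fin 3 → ℕ)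
    (ht : ∀ j, t j ∉ n) : ∏ j, t j ^ k j ∉ n := by
  rw [hn.prod_mem_iff]
  rintro ⟨j, -, hj⟩
  exact ht j (hn.mem_of_pow_mem _ hj)

/-- **F8**: every prime containing `π` contains one of the `P i`. -/
theorem exists_le (hV : Model3Plan.ValHyp3 (algebraMap R E (algebraMap O R π)) e ϖ V)
    (hC : Model3Plan.ChartHyp3 π ϖ V P) (hp0 : algebraMap R E (algebraMap O R π) ≠ 0)
    (n : Ideal R) (hn : n.IsPrime) (hπn : algebraMap O R π ∈ n) : ∃ i, P i ≤ n := by
  by_contra hcon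
  push Not at hcon
  have hnot : ∀ i, ∃ r ∈ P i, r ∉ n := fun i => SetLike.not_le_iff_exists.1 (hcon i)
  choose t htP htn using hnot
  obtain ⟨c, hc⟩ := dvd_of_desc hC (∏ j, t j ^ e j)
    (fun i => prod_pow_mem hV hC hp0 t i (htP i))
  apply prod_pow_not_mem hn t e htn
  rw [hc]
  exact n.mul_mem_right _ hπn

/-- **F9** (`hres` of the normal form): `V i = R_{P i}`, in valuation form. -/
theorem res (hV : Model3Plan.ValHyp3 (algebraMap R E (algebraMap O R π)) e ϖ V)
    (hC : Model3Plan.ChartHyp3 π ϖ V P) (i : Fin 3) :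
    ∀ x : E, (V i).valuation x ≤ 1 → ∃ a s : R, (V i).valuation (algebraMap R E s) = 1 ∧
      (V i).valuation (x * algebraMap R E s - algebraMap R E a) < 1 := by
  intro x hx
  obtain ⟨a, s, hs, hxs⟩ := hC.loc i x (((V i).valuation_le_one_iff _).1 hx)
  refine ⟨a, s, (not_mem_P_iff hV hC i s).1 hs, ?_⟩
  rw [hxs, sub_self, map_zero]
  exact zero_lt_one

/-- **F10** (`hbranch` of the normal form): the branch datum, in valuation form. -/
theorem branch (hV : Model3Plan.ValHyp3 (algebraMap R E (algebraMap O R π)) e ϖ V)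
    (hC : Model3Plan.ChartHyp3 π ϖ V P) (n : Ideal R) (i : Fin 3)
    (hb : (∃ x ∈ n, x ∉ P i) ∧
      ∃ u ∈ n, ∀ x ∈ n, ∃ s : R, s ∉ n ∧ ∃ c : R, s * x - c * u ∈ P i) :
    (∃ x ∈ n, (V i).valuation (algebraMap R E x) = 1) ∧
      ∃ t ∈ n, ∀ x ∈ n, ∃ s : R, s ∉ n ∧ ∃ c : R,
        (V i).valuation (algebraMap R E (s * x - c * t)) < 1 := by
  obtain ⟨⟨x, hxn, hxP⟩, u, hun, hu⟩ := hb
  refine ⟨⟨x, hxn, (not_mem_P_iff hV hC i x).1 hxP⟩, u, hun, fun y hy => ?_⟩
  obtain ⟨s, hs, c, hc⟩ := hu y hy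
  exact ⟨s, hs, c, (mem_P_iff hV hC i _).1 hc⟩

/-- **F11** (`hdesc` of the normal form): descent of `p`-divisibility at a prime `n`, using only
the branches through `n`. -/
theorem desc_at (hV : Model3Plan.ValHyp3 (algebraMap R E (algebraMap O R π)) e ϖ V)
    (hC : Model3Plan.ChartHyp3 π ϖ V P) (hp0 : algebraMap R E (algebraMap O R π) ≠ 0)
    (n : Ideal R) (hn : n.IsPrime) :
    ∀ x : E, LocPlan.RegAt n x →
      (∀ i, P i ≤ n → ∃ z ∈ V i, x = algebraMap R E (algebraMap O R π) * z) →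
      ∃ s : R, s ∉ n ∧ ∃ r : R,
        algebraMap R E s * x = algebraMap R E (algebraMap O R π) * algebraMap R E r := by
  intro x hx hcong
  obtain ⟨a, s, hs, hxs⟩ := hx
  have ht : ∀ j, ∃ t : R, t ∉ n ∧ (¬ P j ≤ n → t ∈ P j) := by
    intro j
    by_cases hj : P j ≤ n
    · exact ⟨1, hn.one_notMem, fun h => absurd hj h⟩
    · obtain ⟨t, htP, htn⟩ := SetLike.not_le_iff_exists.1 hj
      exact ⟨t, htn, fun _ => htP⟩
  choose t htn htP using ht
  have hTn : ∏ j, t j ^ e j ∉ n := prod_pow_not_mem hn t e htn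
  obtain ⟨r, hr⟩ := hC.desc (a * ∏ j, t j ^ e j) (by
    intro i
    by_cases hi : P i ≤ n
    · obtain ⟨z, hz, hxz⟩ := hcong i hi
      refine ⟨z * algebraMap R E s * algebraMap R E (∏ j, t j ^ e j),
        (V i).mul_mem _ _ ((V i).mul_mem _ _ hz (hC.le i _)) (hC.le i _), ?_⟩
      rw [map_mul, ← hxs, hxz]
      ring
    · obtain ⟨z, hz, hzt⟩ := prod_pow_mem hV hC hp0 t i (htP i hi)
      refine ⟨z * algebraMap R E a, (V i).mul_mem _ _ hz (hC.le i _), ?_⟩
      rw [map_mul, hzt]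
      ring)
  refine ⟨s * ∏ j, t j ^ e j, fun h => (hn.mem_or_mem h).elim hs hTn, r, ?_⟩
  have h1 := congrArg (algebraMap R E) hr
  rw [map_mul, map_mul] at h1
  rw [map_mul, ← h1, ← hxs]
  ring

/-- **F12** (`hfar` of `SmoothFixN`): a component not through `n` is far from `n`. -/
theorem far (hV : Model3Plan.ValHyp3 (algebraMap R E (algebraMap O R π)) e ϖ V)
    (hC : Model3Plan.ChartHyp3 π ϖ V P) (n : Ideal R) (i : Fin 3) (hi : ¬ P i ≤ n) :
    ∃ s : R, s ∉ n ∧ ∀ x : E, ∃ k₀ : ℕ, ∀ k : ℕ, k₀ ≤ k → algebraMap R E s ^ k * x ∈ V i := by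
  obtain ⟨s, hsP, hsn⟩ := SetLike.not_le_iff_exists.1 hi
  have hs0 : s ≠ 0 := by
    rintro rfl
    exact hsn n.zero_mem
  exact ⟨s, hsn, SmoothFixN.arch_of_disc (V i) (ϖ i) (hV.unif_mem i) (hV.disc i)
    (algebraMap R E s) (non hV hC i s hsP hs0)⟩

/-- **F13** (`hnear` of `SmoothFixN`): a component through `n` is near `n` (`R_n ⊆ V i`). -/
theorem near (hV : Model3Plan.ValHyp3 (algebraMap R E (algebraMap O R π)) e ϖ V)
    (hC : Model3Plan.ChartHyp3 π ϖ V P) (n : Ideal R) (i : Fin 3) (hi : P i ≤ n) :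
    ∀ y : E, (∃ s : R, s ∉ n ∧ ∃ r : R, algebraMap R E s * y = algebraMap R E r) → y ∈ V i := by
  rintro y ⟨s, hs, r, hr⟩
  have hinj : Function.Injective (algebraMap R E) := IsFractionRing.injective R E
  have hs0 : algebraMap R E s ≠ 0 := by
    intro h
    apply hs
    rw [hinj (h.trans (map_zero _).symm)]
    exact n.zero_mem
  have hsV : (algebraMap R E s)⁻¹ ∈ V i := cen hV hC i s (fun h => hs (hi h))
  have : y = (algebraMap R E s)⁻¹ * algebraMap R E r := by
    rw [← hr]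
    field_simp
  rw [this]
  exact (V i).mul_mem _ _ hsV (hC.le i r)

/-! ### Fit checks: the two landed consumers, fed with the facts above -/

/-- `HorGen.exists_pow_mul_unit_chart` for a chart satisfying `ValHyp3` + `ChartHyp3`. -/
theorem horGen [IsNoetherianRing R] [IsIntegrallyClosed R]
    (hV : Model3Plan.ValHyp3 (algebraMap R E (algebraMap O R π)) e ϖ V)
    (hC : Model3Plan.ChartHyp3 π ϖ V P) (hp0 : algebraMap R E (algebraMap O R π) ≠ 0)
    (n : Ideal R) (hn : n.IsPrime) (m : ℕ) (G : E) (hm : 0 < m)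
    (hcong : ∀ i : Fin 3, P i ≤ n →
      ∃ z ∈ V i, G - 1 = algebraMap R E (algebraMap O R π) * z)
    (hG : G ≠ 0)
    (hhor : ∀ 𝔮 : Ideal R, 𝔮.IsPrime → 𝔮 ≤ n → algebraMap O R π ∉ 𝔮 → LocPlan.PrincAt 𝔮 →
      LocPlan.UnitAt 𝔮 G ∨ ((∃ x : E, x ≠ 0 ∧ LocPlan.UnitAt 𝔮 (G * x ^ m)) ∧
        ∃ e : R, NakPlan.GenAt n 𝔮 e)) :
    ∃ g u : E, g ≠ 0 ∧ G = g ^ m * u ∧ LocPlan.UnitAt n u ∧
      ∀ i : Fin 3, P i ≤ n → g ∈ V i ∧ g⁻¹ ∈ V i := by
  have := hn
  exact HorGen.exists_pow_mul_unit_chart V P (algebraMap O R π) n m G hm hC.le (cen hV hC)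
    (non hV hC) (pi_ne_zero hp0) (pi_mem_P hV hC)
    (fun 𝔮 h𝔮 _ hπ𝔮 hP => vert hV hC hp0 𝔮 h𝔮 hπ𝔮 hP) hcong hG hhor

/-- `SmoothFixN.smoothFixN` for a chart satisfying `ValHyp3` + `ChartHyp3`, the far components
being those not through `n`. -/
theorem smoothFix (hV : Model3Plan.ValHyp3 (algebraMap R E (algebraMap O R π)) e ϖ V)
    (hC : Model3Plan.ChartHyp3 π ϖ V P) (hp0 : algebraMap R E (algebraMap O R π) ≠ 0)
    (n : Ideal R) (hn : n.IsPrime) (hπn : algebraMap O R π ∈ n) (w a₀ : E) (m : ℕ)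
    (ha₀ : ∀ i, P i ≤ n → ∃ v ∈ V i, a₀ - 1 = algebraMap R E (algebraMap O R π) * v)
    (hloc : ∃ s : R, s ∉ n ∧ ∃ r : R, algebraMap R E s * (w * a₀ ^ m - 1) =
      algebraMap R E (algebraMap O R π) * algebraMap R E r) :
    ∃ a : E, (∀ l, ∃ v ∈ V l, a - 1 = algebraMap R E (algebraMap O R π) * v) ∧
      ∃ s : R, s ∉ n ∧ ∃ r : R, algebraMap R E s * (w * a ^ m - 1) =
        algebraMap R E (algebraMap O R π) * algebraMap R E r :=
  SmoothFixN.smoothFixN V (algebraMap O R π) (pi_ne_zero hp0) n hn hπn (fun i => ¬ P i ≤ n)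
    (fun j _ => hC.le j) (fun j hj => far hV hC n j hj)
    (fun i hi => near hV hC n i (not_not.1 hi)) w a₀ m
    (fun i hi => ha₀ i (not_not.1 hi)) hloc

end Chart

end Fermat.Agent.S36.Chart3Facts
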