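/-
S36 — Inc3Inst.lean (helper95; block [INC3] of the S36 campaign, package [TORIC36]).

The ASSEMBLER between the abstract incidence `S36/Inc3.lean` and its consumers:

* producers (field level / chart level): the six lying-over facts of the three vertical valuation
  rings `V 0, V 1, V 2` (`W1, W2, W3`) of level `M q²` over the two `V' 0, V' 1` of level `M q`
  along the two degeneracy maps, integrality of the chart maps, the residue-degree-one /
  purely-inseparable statements (`S36/TorM.lean`), two separating elements downstairs;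
* consumers: `htriple` of `S36/TorInInst.lean` / `S36/TorOutInst.lean` and `htriple0` of
  `S36/Model3Leaves.lean`; `huniq`, `hcen'` of `S36/TorRelInst.lean` (`relα_field`, `relβ_field`).

Contents.
* `val_lt_one_iff_mem`, `val_lt_one_of_lying` : valuation rings;
* `mem_P_iff`, `mem_P'_iff`, `comap_eq_of_lying` : a lying-over fact `a⁻¹ (V i) = V' j` at the
  field level gives the contraction `(P i).comap φ = P' j` of the vertical primes;
* `min_of_hyp`, `goingDown_of_chart` : the fields `min`, `gd` of `Inc3.Hyp`;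
* `hyp_of_comap`, `hyp_of_lying` : **`Inc3.Hyp`** for a pair of abstract charts;
* `htriple`, `htriple0`, `huniq_alpha`, `huniq_beta`, `hcen_alpha`, `hcen_beta` : the consumer
  shapes, from `Inc3.Hyp`;
* `chartHom_injective`, `hyp_chart`, `hcen_alpha_chart`, `hcen_beta_chart` : the same for the
  charts `chart N' A K tY → chart N A K t` of the modular function fields.
-/
import Mathlib
import Fermat.Agent.S34.LocPlan
import Fermat.Agent.S34.LocAB
import Fermat.Agent.S34.BranchInst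
import Fermat.Agent.S36.Model3Plan
import Fermat.Agent.S36.Chart3Facts
import Fermat.Agent.S36.Princ3
import Fermat.Agent.S36.Inc3

set_option autoImplicit false

open ModularCurve AlgebraicCurve HahnSeries

namespace Fermat.Agent.S36.Inc3Inst

open Fermat.Agent.S18.Arith Fermat.Agent.S34 Fermat.Agent.S36 Fermat.Agent.S36.Model3Plan

/-! ### 1. Valuation rings -/

section Val

variable {E : Type*} [Field E] {E' : Type*} [Field E']

/-- `v x < 1` iff `x` is a nonunit of `V`. -/
theorem val_lt_one_iff_mem (V : ValuationSubring E) (x : E) :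
    V.valuation x < 1 ↔ x ∈ V ∧ (x = 0 ∨ x⁻¹ ∉ V) := by
  constructor
  · intro h
    refine ⟨(V.valuation_le_one_iff x).1 h.le, ?_⟩
    by_cases hx : x = 0
    · exact Or.inl hx
    · exact Or.inr (Chart3Facts.inv_not_mem_of_lt_one V hx h)
  · rintro ⟨hx, h | h⟩
    · rw [h, map_zero]
      exact zero_lt_one
    · exact Chart3Facts.unif_lt_one V hx h

/-- If `V` lies over `V'` along the field embedding `a` (`a⁻¹ V = V'`), then the maximal ideal
of `V` lies over the maximal ideal of `V'`. -/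
theorem val_lt_one_of_lying (V : ValuationSubring E) (V' : ValuationSubring E') (a : E' →+* E)
    (hlie : ∀ y : E', a y ∈ V ↔ y ∈ V') (y : E') :
    V.valuation (a y) < 1 ↔ V'.valuation y < 1 := by
  rw [val_lt_one_iff_mem, val_lt_one_iff_mem, hlie, ← map_inv₀, hlie, map_eq_zero]

end Val

/-! ### 2. A pair of abstract charts -/

section Abs

variable {O : Type*} [CommRing O]
  {S : Type*} [CommRing S] [Algebra O S] {E' : Type*} [Field E'] [Algebra S E']
  {R : Type*} [CommRing R] [Algebra O R] {E : Type*} [Field E] [Algebra R E]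
  {π : O} {e : Fin 3 → ℕ} {ϖ : Fin 3 → E} {V : Fin 3 → ValuationSubring E}
  {P : Fin 3 → Ideal R} {V' : Fin 2 → ValuationSubring E'} {P' : Fin 2 → Ideal S}

/-- `y ∈ P' j ↔ v'_j y < 1` (level `M q`, two components, uniformizer `π`). -/
theorem mem_P'_iff (hyp' : LocPlan.ChartHyp π V' P') (j : Fin 2) (y : S) :
    y ∈ P' j ↔ (V' j).valuation (algebraMap S E' y) < 1 := by
  rw [hyp'.mem_P j y]
  exact (Chart3Facts.lt_one_iff_exists (V' j) (hyp'.le j _) (hyp'.pi_not j) (hyp'.disc j) _).symm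

/-- `r ∈ P i ↔ v_i r < 1` (level `M q²`, three components, uniformizers `ϖ i`). -/
theorem mem_P_iff (val : ValHyp3 (algebraMap R E (algebraMap O R π)) e ϖ V)
    (hyp : ChartHyp3 π ϖ V P) (i : Fin 3) (r : R) :
    r ∈ P i ↔ (V i).valuation (algebraMap R E r) < 1 := by
  rw [hyp.mem_P i r, Chart3Facts.val_lt_one_iff val]

/-- **Lying over ⟹ contraction.**  If `φ : S → R` is the restriction of the field embedding
`a : E' → E` and `V i` lies over `V' j` along `a`, then `P i` contracts to `P' j`. -/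
theorem comap_eq_of_lying (val : ValHyp3 (algebraMap R E (algebraMap O R π)) e ϖ V)
    (hyp : ChartHyp3 π ϖ V P) (hyp' : LocPlan.ChartHyp π V' P')
    (φ : S →+* R) (a : E' →+* E)
    (hφ : ∀ y : S, algebraMap R E (φ y) = a (algebraMap S E' y)) (i : Fin 3) (j : Fin 2)
    (hlie : ∀ y : E', a y ∈ V i ↔ y ∈ V' j) : (P i).comap φ = P' j := by
  ext y
  rw [Ideal.mem_comap, mem_P_iff val hyp, mem_P'_iff hyp', hφ]
  exact val_lt_one_of_lying (V i) (V' j) a hlie _

/-- The field `min` of `Inc3.Hyp`: a prime of `R` containing (the image of) `π` contains one of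
the three vertical primes. -/
theorem min_of_hyp (val : ValHyp3 (algebraMap R E (algebraMap O R π)) e ϖ V)
    (hyp : ChartHyp3 π ϖ V P) (hp0 : algebraMap R E (algebraMap O R π) ≠ 0)
    (φ : S →+* R) (hφπ : φ (algebraMap O S π) = algebraMap O R π) :
    ∀ Q : Ideal R, Q.IsPrime → φ (algebraMap O S π) ∈ Q → ∃ i, P i ≤ Q := by
  intro Q hQ h
  rw [hφπ] at h
  exact Princ3.exists_le val hyp hp0 Q hQ h

/-- The restriction of a field embedding to charts is injective. -/
theorem injective_of_field (hinjS : Function.Injective (algebraMap S E'))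
    (φ : S →+* R) (a : E' →+* E)
    (hφ : ∀ y : S, algebraMap R E (φ y) = a (algebraMap S E' y)) : Function.Injective φ := by
  intro x y hxy
  apply hinjS
  apply a.injective
  rw [← hφ, ← hφ, hxy]

/-- **`Inc3.Hyp` for a pair of abstract charts, from the six contractions** (ideal form). -/
theorem hyp_of_comap [IsDomain R] [IsIntegrallyClosed S]
    (val : ValHyp3 (algebraMap R E (algebraMap O R π)) e ϖ V) (hyp : ChartHyp3 π ϖ V P)
    (hp0 : algebraMap R E (algebraMap O R π) ≠ 0) (hyp' : LocPlan.ChartHyp π V' P')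
    (α β : S →+* R)
    (hαπ : α (algebraMap O S π) = algebraMap O R π)
    (hβπ : β (algebraMap O S π) = algebraMap O R π)
    (hαinj : Function.Injective α) (hβinj : Function.Injective β)
    (hαint : α.IsIntegral) (hβint : β.IsIntegral)
    (α0 : (P 0).comap α = P' 0) (α1 : (P 1).comap α = P' 1) (α2 : (P 2).comap α = P' 0)
    (β0 : (P 0).comap β = P' 0) (β1 : (P 1).comap β = P' 1) (β2 : (P 2).comap β = P' 1)
    (hne01 : ¬ P' 0 ≤ P' 1) (hne10 : ¬ P' 1 ≤ P' 0)
    (degα0 : ∀ x : R, ∃ y : S, x - α y ∈ P 0) (degα2 : ∀ x : R, ∃ y : S, x - α y ∈ P 2)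
    (degβ1 : ∀ x : R, ∃ y : S, x - β y ∈ P 1)
    (radα1 : ∀ x : R, ∃ (y : S) (k : ℕ), k ≠ 0 ∧ x ^ k - α y ∈ P 1)
    (radβ0 : ∀ x : R, ∃ (y : S) (k : ℕ), k ≠ 0 ∧ x ^ k - β y ∈ P 0) :
    Inc3.Hyp α β P P' (algebraMap O S π) where
  α0 := α0
  α1 := α1
  α2 := α2
  β0 := β0
  β1 := β1
  β2 := β2
  not01 := hne01
  not10 := hne10
  prime' := LocAB.P_isPrime hyp'
  mem' := LocAB.pi_mem_P hyp'
  minα := min_of_hyp val hyp hp0 α hαπ
  minβ := min_of_hyp val hyp hp0 β hβπ
  gdα := Inc3.goingDown_of_isIntegral α hαinj hαint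
  gdβ := Inc3.goingDown_of_isIntegral β hβinj hβint
  degα0 := degα0
  degα2 := degα2
  degβ1 := degβ1
  radα1 := radα1
  radβ0 := radβ0

/-- **`Inc3.Hyp` for a pair of abstract charts, from the six lying-over facts** of the vertical
valuation rings at the field level (`a`, `b` the two field embeddings, `α`, `β` their
restrictions to the charts). -/
theorem hyp_of_lying [IsDomain R] [IsIntegrallyClosed S]
    (val : ValHyp3 (algebraMap R E (algebraMap O R π)) e ϖ V) (hyp : ChartHyp3 π ϖ V P)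
    (hp0 : algebraMap R E (algebraMap O R π) ≠ 0) (hyp' : LocPlan.ChartHyp π V' P')
    (hinjS : Function.Injective (algebraMap S E'))
    (α β : S →+* R) (a b : E' →+* E)
    (hα : ∀ y : S, algebraMap R E (α y) = a (algebraMap S E' y))
    (hβ : ∀ y : S, algebraMap R E (β y) = b (algebraMap S E' y))
    (hαπ : α (algebraMap O S π) = algebraMap O R π)
    (hβπ : β (algebraMap O S π) = algebraMap O R π)
    (hαint : α.IsIntegral) (hβint : β.IsIntegral)
    (ha0 : ∀ y : E', a y ∈ V 0 ↔ y ∈ V' 0) (ha1 : ∀ y : E', a y ∈ V 1 ↔ y ∈ V' 1)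
    (ha2 : ∀ y : E', a y ∈ V 2 ↔ y ∈ V' 0)
    (hb0 : ∀ y : E', b y ∈ V 0 ↔ y ∈ V' 0) (hb1 : ∀ y : E', b y ∈ V 1 ↔ y ∈ V' 1)
    (hb2 : ∀ y : E', b y ∈ V 2 ↔ y ∈ V' 1)
    (hne01 : ¬ P' 0 ≤ P' 1) (hne10 : ¬ P' 1 ≤ P' 0)
    (degα0 : ∀ x : R, ∃ y : S, x - α y ∈ P 0) (degα2 : ∀ x : R, ∃ y : S, x - α y ∈ P 2)
    (degβ1 : ∀ x : R, ∃ y : S, x - β y ∈ P 1)
    (radα1 : ∀ x : R, ∃ (y : S) (k : ℕ), k ≠ 0 ∧ x ^ k - α y ∈ P 1)
    (radβ0 : ∀ x : R, ∃ (y : S) (k : ℕ), k ≠ 0 ∧ x ^ k - β y ∈ P 0) :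
    Inc3.Hyp α β P P' (algebraMap O S π) :=
  hyp_of_comap val hyp hp0 hyp' α β hαπ hβπ (injective_of_field hinjS α a hα)
    (injective_of_field hinjS β b hβ) hαint hβint
    (comap_eq_of_lying val hyp hyp' α a hα 0 0 ha0)
    (comap_eq_of_lying val hyp hyp' α a hα 1 1 ha1)
    (comap_eq_of_lying val hyp hyp' α a hα 2 0 ha2)
    (comap_eq_of_lying val hyp hyp' β b hβ 0 0 hb0)
    (comap_eq_of_lying val hyp hyp' β b hβ 1 1 hb1)
    (comap_eq_of_lying val hyp hyp' β b hβ 2 1 hb2)
    hne01 hne10 degα0 degα2 degβ1 radα1 radβ0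

/-! ### 3. The consumer shapes -/

variable {α β : S →+* R} {ϖS : S}

/-- **[TRIPLE]** in the shape of `TorInInst.torIn_chart` / `TorOutInst.torOutProp_of_relAt`
(`htriple`): two branches through a closed point of the special fibre force all three. -/
theorem htriple (H : Inc3.Hyp α β P P' ϖS) (p : R) :
    ∀ n : Ideal R, n.IsMaximal → p ∈ n →
      ∀ i j, i ≠ j → P i ≤ n → P j ≤ n → ∀ l, P l ≤ n :=
  fun n hn _ i j hij hi hj => H.triple n hn.isPrime i j hij hi hj

/-- **[TRIPLE]** in the shape of `Model3Leaves.model3_of_leaves` / `Princ3.princ_of_triple`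
(`htriple0`). -/
theorem htriple0 (H : Inc3.Hyp α β P P' ϖS) (p : R) :
    ∀ n : Ideal R, n.IsMaximal → p ∈ n → P 0 ≤ n → P 1 ≤ n → P 2 ≤ n :=
  fun n hn _ h0 h1 => H.triple n hn.isPrime 0 1 (by decide) h0 h1 2

/-- `huniq` of `TorRelInst.relα_field` (with `T n l := P l ≤ n`): a triple point is the only
prime over its image under `α`. -/
theorem huniq_alpha (H : Inc3.Hyp α β P P' ϖS) (p : R) :
    ∀ n : Ideal R, n.IsMaximal → p ∈ n → (∀ l, P l ≤ n) →
      ∀ n₂ : Ideal R, n₂.IsPrime → n₂.comap α = n.comap α → n₂ = n :=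
  fun n hn _ hT n₂ hn₂ h => H.unique_over_alpha n n₂ hn.isPrime hn₂ (hT 1) h

/-- `huniq` of `TorRelInst.relβ_field` (with `T n l := P l ≤ n`): a triple point is the only
prime over its image under `β`. -/
theorem huniq_beta (H : Inc3.Hyp α β P P' ϖS) (p : R) :
    ∀ n : Ideal R, n.IsMaximal → p ∈ n → (∀ l, P l ≤ n) →
      ∀ n₂ : Ideal R, n₂.IsPrime → n₂.comap β = n.comap β → n₂ = n :=
  fun n hn _ hT n₂ hn₂ h => H.unique_over_beta n n₂ hn.isPrime hn₂ (hT 0) h

omit [Algebra O R] in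
/-- `hcen'` of `TorRelInst.relα_field` (with `T n l := P l ≤ n`): the image under `α` of a
triple point is a crossing point downstairs. -/
theorem hcen_alpha (H : Inc3.Hyp α β P P' ϖS) (hyp' : LocPlan.ChartHyp π V' P') (p : R) :
    ∀ n : Ideal R, n.IsMaximal → p ∈ n → (∀ l, P l ≤ n) →
      ∀ j, ∀ r : S,
        (∃ z ∈ V' j, algebraMap S E' r = algebraMap S E' (algebraMap O S π) * z) → α r ∈ n :=
  fun n _ _ hT j r hr => H.node_below_alpha n (hT 0) (hT 1) j ((hyp'.mem_P j r).2 hr)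

omit [Algebra O R] in
/-- `hcen'` of `TorRelInst.relβ_field` (with `T n l := P l ≤ n`): the image under `β` of a
triple point is a crossing point downstairs. -/
theorem hcen_beta (H : Inc3.Hyp α β P P' ϖS) (hyp' : LocPlan.ChartHyp π V' P') (p : R) :
    ∀ n : Ideal R, n.IsMaximal → p ∈ n → (∀ l, P l ≤ n) →
      ∀ j, ∀ r : S,
        (∃ z ∈ V' j, algebraMap S E' r = algebraMap S E' (algebraMap O S π) * z) → β r ∈ n :=
  fun n _ _ hT j r hr => H.node_below_beta n (hT 0) (hT 1) j ((hyp'.mem_P j r).2 hr)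

end Abs

/-! ### 4. The charts of the modular function fields -/

section Chart

variable {N' N : ℕ} [NeZero N'] [NeZero N] {A : ValuationSubring Qb}
  {K : IntermediateField ℚ Qb} {π : OK A K} {e : Fin 3 → ℕ} {ϖ : Fin 3 → FK N K}
  {V : Fin 3 → ValuationSubring (FK N K)} {V' : Fin 2 → ValuationSubring (FK N' K)}

omit [NeZero N'] [NeZero N] in
/-- The chart map is injective. -/
theorem chartHom_injective (tY : FK N' K) (t : FK N K) (a : FK N' K →+* FK N K)
    (hat : ∀ y ∈ chart N' A K tY, a y ∈ chart N A K t) :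
    Function.Injective (BranchInst.chartHom (A := A) tY t a hat) := by
  intro x y hxy
  apply Subtype.ext
  apply a.injective
  have h := congrArg (fun z : ↥(chart N A K t) => (z : FK N K)) hxy
  simpa only [BranchInst.chartHom_coe] using h

omit [NeZero N'] [NeZero N] in
/-- **`Inc3.Hyp` for the charts `chart N' A K tY → chart N A K t`** along two field embeddings
`a`, `b` (`α`, `β`), from the six lying-over facts of the vertical valuation rings, integrality
of the two chart maps, two separating conditions downstairs and the residue-degree-one /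
purely-inseparable statements (`S36/TorM.lean`). -/
theorem hyp_chart (tY : FK N' K) (t : FK N K) (a b : FK N' K →+* FK N K)
    (hat : ∀ y ∈ chart N' A K tY, a y ∈ chart N A K t)
    (hbt : ∀ y ∈ chart N' A K tY, b y ∈ chart N A K t)
    [IsIntegrallyClosed ↥(chart N' A K tY)]
    {P : Fin 3 → Ideal ↥(chart N A K t)} {P' : Fin 2 → Ideal ↥(chart N' A K tY)}
    (val : ValHyp3 (algebraMap (OK A K) (FK N K) π) e ϖ V) (hyp : ChartHyp3 π ϖ V P)
    (hp0 : algebraMap (OK A K) (FK N K) π ≠ 0) (hyp' : LocPlan.ChartHyp π V' P')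
    (haπ : a (algebraMap (OK A K) (FK N' K) π) = algebraMap (OK A K) (FK N K) π)
    (hbπ : b (algebraMap (OK A K) (FK N' K) π) = algebraMap (OK A K) (FK N K) π)
    (hαint : (BranchInst.chartHom (A := A) tY t a hat).IsIntegral)
    (hβint : (BranchInst.chartHom (A := A) tY t b hbt).IsIntegral)
    (ha0 : ∀ y : FK N' K, a y ∈ V 0 ↔ y ∈ V' 0) (ha1 : ∀ y : FK N' K, a y ∈ V 1 ↔ y ∈ V' 1)
    (ha2 : ∀ y : FK N' K, a y ∈ V 2 ↔ y ∈ V' 0)
    (hb0 : ∀ y : FK N' K, b y ∈ V 0 ↔ y ∈ V' 0) (hb1 : ∀ y : FK N' K, b y ∈ V 1 ↔ y ∈ V' 1)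
    (hb2 : ∀ y : FK N' K, b y ∈ V 2 ↔ y ∈ V' 1)
    (hne01 : ¬ P' 0 ≤ P' 1) (hne10 : ¬ P' 1 ≤ P' 0)
    (degα0 : ∀ x : ↥(chart N A K t), ∃ y : ↥(chart N' A K tY),
      x - BranchInst.chartHom tY t a hat y ∈ P 0)
    (degα2 : ∀ x : ↥(chart N A K t), ∃ y : ↥(chart N' A K tY),
      x - BranchInst.chartHom tY t a hat y ∈ P 2)
    (degβ1 : ∀ x : ↥(chart N A K t), ∃ y : ↥(chart N' A K tY),
      x - BranchInst.chartHom tY t b hbt y ∈ P 1)
    (radα1 : ∀ x : ↥(chart N A K t), ∃ (y : ↥(chart N' A K tY)) (k : ℕ),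
      k ≠ 0 ∧ x ^ k - BranchInst.chartHom tY t a hat y ∈ P 1)
    (radβ0 : ∀ x : ↥(chart N A K t), ∃ (y : ↥(chart N' A K tY)) (k : ℕ),
      k ≠ 0 ∧ x ^ k - BranchInst.chartHom tY t b hbt y ∈ P 0) :
    Inc3.Hyp (BranchInst.chartHom (A := A) tY t a hat) (BranchInst.chartHom (A := A) tY t b hbt)
      P P' (algebraMap (OK A K) ↥(chart N' A K tY) π) :=
  hyp_of_lying val hyp hp0 hyp' Subtype.val_injective
    (BranchInst.chartHom tY t a hat) (BranchInst.chartHom tY t b hbt) a b
    (fun _ => rfl) (fun _ => rfl) (Subtype.ext haπ) (Subtype.ext hbπ) hαint hβint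
    ha0 ha1 ha2 hb0 hb1 hb2 hne01 hne10 degα0 degα2 degβ1 radα1 radβ0

omit [NeZero N'] [NeZero N] in
/-- `hcen'` of `TorRelInst.relα_field` / `relβ_field` VERBATIM for the charts (`φ` is either of
the two chart maps; `T n l := P l ≤ n`), from the two contractions `(P 0).comap φ = P' 0` and
`(P 1).comap φ = P' 1`. -/
theorem hcen_chart (tY : FK N' K) (t : FK N K)
    {P : Fin 3 → Ideal ↥(chart N A K t)} {P' : Fin 2 → Ideal ↥(chart N' A K tY)}
    (hyp' : LocPlan.ChartHyp π V' P') (φ : ↥(chart N' A K tY) →+* ↥(chart N A K t))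
    (h0 : (P 0).comap φ = P' 0) (h1 : (P 1).comap φ = P' 1) :
    ∀ n : Ideal ↥(chart N A K t), n.IsMaximal →
      algebraMap (OK A K) ↥(chart N A K t) π ∈ n → (∀ l, P l ≤ n) →
      ∀ j, ∀ r : ↥(chart N' A K tY),
        (∃ z ∈ V' j, (r : FK N' K) = algebraMap (OK A K) (FK N' K) π * z) → φ r ∈ n := by
  intro n _ _ hT j r hr
  have hr' : r ∈ P' j := (hyp'.mem_P j r).2 hr
  fin_cases j
  · have h : r ∈ (P 0).comap φ := by rw [h0]; exact hr'
    exact hT 0 h
  · have h : r ∈ (P 1).comap φ := by rw [h1]; exact hr'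
    exact hT 1 h

end Chart

end Fermat.Agent.S36.Inc3Inst
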