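/-
S36 — TorGlob.lean (helper72): block [TOR-GLOB] (G1) of the package [TORIC36] (lead helper63) —
THE NORMS OF RECORD at the `F_K` level and THE BRIDGE to the `ℚ̄`-level norms.

Levels: `E := FK (M * q * q) K` over `E' := FK (M * q) K` along the two degeneracy maps
`α = WQ2.alphaK2` (the inclusion) and `β = WQ2.betaK2` (`x(Q) ↦ x(Q^q)`), `q` prime, `q ∤ M`.

* `algA`, `algB`          : the two algebra structures of `E` over `E'` (use with `letI`); they
                            are the instance terms of record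
                            `DegTower.algTower (M * q) (M * q * q) K (Dvd.intro q rfl)` and
                            `(WQ2.betaK2 M q hq hqM K).toAlgebra`;
* `finite_algA/B`, `finrank_algA/B` (`= q`), `isScalarTower_algA/B` (over `OK A K`);
* `nmAlpha`, `nmBeta`     : `E →*₀ E'`, the norms along `α`, `β`
                            (`= NormOne.normHom E' E` for the two instance terms, by `rfl`:
                            `nmAlpha_eq_normHom`, `nmBeta_eq_normHom`);
* `toBar_nmAlpha`, `toBar_nmBeta` : `toBar (nmAlpha y) = ModelFPlan.alphaNm (M*q) q (toBar y)`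
                            and the same for `β` (the bridge);
* `coe_nmAlpha`           : the product formula `↑(nmAlpha y) = ∏ c, Iota3K.emb3 c y`;
* `emb3_nat`, `iota3_nat` : naturality of the conjugates in the base field `K`
                            (`emb3 K c y = famBar c (toBar y)`);
* `wK_nmBeta`, `wK_nmAlpha` : `w_q (nmBeta y) = nmAlpha (w_{q²} y)` and conversely;
* `nmAlpha_alphaK2`, `nmBeta_betaK2` : `Nm (φ x) = x ^ q`; `nmAlpha_constK`, `nmBeta_constK`.

The steps (G2)/(G3) (the global constants `u, h, η` of `ToricRel.rel`) are in `S36/TorGlob2.lean`.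
-/
import Mathlib
import Fermat.Agent.S36.NormOne
import Fermat.Agent.S36.Iota3K
import Fermat.Agent.S36.WQ2
import Fermat.Agent.S36.NormRot
import Fermat.Agent.S35.ModelFPlan

set_option autoImplicit false

noncomputable section

namespace Fermat.Agent.S36.TorGlob

open ModularCurve AlgebraicCurve HahnSeries
open Fermat.Agent.S18 Fermat.Agent.S18.Arith Fermat.Agent.S34 Fermat.Agent.S36
open Fermat.Agent.S35.ModelFPlan

/-! ### (G1) The norms of record -/

section Alg

variable (M q : ℕ) [NeZero M] [NeZero q] (K : IntermediateField ℚ Qb)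

/-- `α` is the inclusion of `DegTower`. -/
theorem alphaK2_eq_incl :
    WQ2.alphaK2 M q K = DegTower.incl (M * q) (M * q * q) K (Dvd.intro q rfl) := rfl

/-- The algebra structure of `F_K(M q²)` over `F_K(M q)` along `α` (use with `letI`): it is the
instance `DegTower.algTower (M * q) ((M * q) * q) K (Dvd.intro q rfl)` of `Iota3K.coe_norm`. -/
@[reducible] def algA : Algebra (FK (M * q) K) (FK (M * q * q) K) :=
  DegTower.algTower (M * q) (M * q * q) K (Dvd.intro q rfl)

theorem algebraMap_algA (x : FK (M * q) K) :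
    @algebraMap (FK (M * q) K) (FK (M * q * q) K) _ _ (algA M q K) x = WQ2.alphaK2 M q K x := rfl

theorem finite_algA :
    @Module.Finite (FK (M * q) K) (FK (M * q * q) K) _ _ (algA M q K).toModule :=
  DegTower.finiteDimensional (M * q) (M * q * q) K (Dvd.intro q rfl)

theorem finrank_algA (hq : q.Prime) :
    @Module.finrank (FK (M * q) K) (FK (M * q * q) K) _ _ (algA M q K).toModule = q :=
  Iota3.finrank_E2 M q K hq

theorem isScalarTower_algA (A : ValuationSubring Qb) :
    @IsScalarTower (OK A K) (FK (M * q) K) (FK (M * q * q) K) _ (algA M q K).toSMul _ :=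
  DegTower.isScalarTower_OK (M * q) (M * q * q) K A (Dvd.intro q rfl)

/-- **The norm along `α`**, `F_K(M q²) → F_K(M q)`. -/
def nmAlpha : FK (M * q * q) K →*₀ FK (M * q) K :=
  letI := algA M q K
  haveI := finite_algA M q K
  NormOne.normHom (FK (M * q) K) (FK (M * q * q) K)

theorem nmAlpha_apply (y : FK (M * q * q) K) :
    nmAlpha M q K y
      = @Algebra.norm (FK (M * q) K) (FK (M * q * q) K) _ _ (algA M q K) y := rfl

/-- `nmAlpha` IS `NormOne.normHom` for the instance `DegTower.algTower …`. -/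
theorem nmAlpha_eq_normHom :
    letI := DegTower.algTower (M * q) (M * q * q) K (Dvd.intro q rfl)
    haveI := DegTower.finiteDimensional (M * q) (M * q * q) K (Dvd.intro q rfl)
    nmAlpha M q K = NormOne.normHom (FK (M * q) K) (FK (M * q * q) K) := rfl

variable (hq : q.Prime) (hqM : ¬ q ∣ M)

/-- The algebra structure of `F_K(M q²)` over `F_K(M q)` along `β` (use with `letI`): it is
`(WQ2.betaK2 M q hq hqM K).toAlgebra`. -/
@[reducible] def algB : Algebra (FK (M * q) K) (FK (M * q * q) K) :=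
  (WQ2.betaK2 M q hq hqM K).toAlgebra

theorem algebraMap_algB (x : FK (M * q) K) :
    @algebraMap (FK (M * q) K) (FK (M * q * q) K) _ _ (algB M q K hq hqM) x
      = WQ2.betaK2 M q hq hqM K x := rfl

/-- `α ∘ w_q = w_{q²} ∘ β` as ring homs: the two algebra structures are conjugate. -/
theorem algebraMap_comp_wK :
    (@algebraMap (FK (M * q) K) (FK (M * q * q) K) _ _ (algA M q K)).comp
        ((WK.wK M q hq hqM K : FK (M * q) K ≃+* FK (M * q) K) : FK (M * q) K →+* FK (M * q) K)
      = ((WQ2.wK2 M q hq hqM K : FK (M * q * q) K ≃+* FK (M * q * q) K) :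
          FK (M * q * q) K →+* FK (M * q * q) K).comp
        (@algebraMap (FK (M * q) K) (FK (M * q * q) K) _ _ (algB M q K hq hqM)) :=
  RingHom.ext fun x => (WQ2.wK2_betaK2 M q hq hqM K x).symm

theorem finite_algB :
    @Module.Finite (FK (M * q) K) (FK (M * q * q) K) _ _ (algB M q K hq hqM).toModule :=
  @Module.Finite.of_equiv_equiv (FK (M * q) K) (FK (M * q * q) K) (FK (M * q) K)
    (FK (M * q * q) K) _ _ _ _ (algA M q K) (algB M q K hq hqM)
    (WK.wK M q hq hqM K) (WQ2.wK2 M q hq hqM K)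
    (RingHom.ext fun x => by
      show WQ2.betaK2 M q hq hqM K (WK.wK M q hq hqM K x)
        = WQ2.wK2 M q hq hqM K (WQ2.alphaK2 M q K x)
      rw [WQ2.wK2_alphaK2])
    (finite_algA M q K)

theorem isScalarTower_algB (A : ValuationSubring Qb) :
    @IsScalarTower (OK A K) (FK (M * q) K) (FK (M * q * q) K) _ (algB M q K hq hqM).toSMul _ := by
  letI := algB M q K hq hqM
  exact IsScalarTower.of_algebraMap_eq fun c =>
    (WQ2.betaK2_constK M q hq hqM K (c : K)).symm

/-- **The norm along `β`**, `F_K(M q²) → F_K(M q)`. -/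
def nmBeta : FK (M * q * q) K →*₀ FK (M * q) K :=
  letI := algB M q K hq hqM
  haveI := finite_algB M q K hq hqM
  NormOne.normHom (FK (M * q) K) (FK (M * q * q) K)

theorem nmBeta_apply (y : FK (M * q * q) K) :
    nmBeta M q K hq hqM y
      = @Algebra.norm (FK (M * q) K) (FK (M * q * q) K) _ _ (algB M q K hq hqM) y := rfl

/-- `nmBeta` IS `NormOne.normHom` for the instance `(WQ2.betaK2 M q hq hqM K).toAlgebra`. -/
theorem nmBeta_eq_normHom :
    letI := (WQ2.betaK2 M q hq hqM K).toAlgebra
    haveI := finite_algB M q K hq hqM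
    nmBeta M q K hq hqM = NormOne.normHom (FK (M * q) K) (FK (M * q * q) K) := rfl

/-- `w_q (N_β y) = N_α (w_{q²} y)`. -/
theorem wK_nmBeta (y : FK (M * q * q) K) :
    WK.wK M q hq hqM K (nmBeta M q K hq hqM y)
      = nmAlpha M q K (WQ2.wK2 M q hq hqM K y) := by
  have h := @Algebra.norm_eq_of_equiv_equiv (FK (M * q) K) (FK (M * q * q) K) (FK (M * q) K)
    (FK (M * q * q) K) _ _ _ _ (algB M q K hq hqM) (algA M q K)
    (WK.wK M q hq hqM K) (WQ2.wK2 M q hq hqM K)
    (algebraMap_comp_wK M q K hq hqM) y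
  rw [nmBeta_apply, nmAlpha_apply, h]
  exact (WK.wK M q hq hqM K).apply_symm_apply _

/-- `w_q (N_α y) = N_β (w_{q²} y)`. -/
theorem wK_nmAlpha (y : FK (M * q * q) K) :
    WK.wK M q hq hqM K (nmAlpha M q K y)
      = nmBeta M q K hq hqM (WQ2.wK2 M q hq hqM K y) := by
  have h := wK_nmBeta M q K hq hqM (WQ2.wK2 M q hq hqM K y)
  rw [WQ2.wK2_wK2] at h
  rw [← h, WK.wK_wK]

theorem finrank_algB :
    @Module.finrank (FK (M * q) K) (FK (M * q * q) K) _ _ (algB M q K hq hqM).toModule = q := by
  have h := @Algebra.finrank_eq_of_equiv_equiv (FK (M * q) K) (FK (M * q * q) K) _ _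
    (algB M q K hq hqM) (FK (M * q) K) (FK (M * q * q) K) _ _ (algA M q K)
    (WK.wK M q hq hqM K) (WQ2.wK2 M q hq hqM K)
    (algebraMap_comp_wK M q K hq hqM)
  rw [h]
  exact finrank_algA M q K hq

include hq in
/-- `N_α (α x) = x ^ q`. -/
theorem nmAlpha_alphaK2 (x : FK (M * q) K) :
    nmAlpha M q K (WQ2.alphaK2 M q K x) = x ^ q := by
  rw [nmAlpha_apply, ← algebraMap_algA]
  letI := algA M q K
  rw [Algebra.norm_algebraMap, finrank_algA M q K hq]

/-- `N_β (β x) = x ^ q`. -/
theorem nmBeta_betaK2 (x : FK (M * q) K) :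
    nmBeta M q K hq hqM (WQ2.betaK2 M q hq hqM K x) = x ^ q := by
  rw [nmBeta_apply, ← algebraMap_algB]
  letI := algB M q K hq hqM
  rw [Algebra.norm_algebraMap, finrank_algB M q K hq hqM]

include hq in
/-- `N_α` of a constant is its `q`-th power. -/
theorem nmAlpha_constK (c : K) :
    nmAlpha M q K (constK (M * q * q) K c) = constK (M * q) K c ^ q := by
  rw [← WQ2.alphaK2_constK, nmAlpha_alphaK2 M q K hq]

/-- `N_β` of a constant is its `q`-th power. -/
theorem nmBeta_constK (c : K) :
    nmBeta M q K hq hqM (constK (M * q * q) K c) = constK (M * q) K c ^ q := by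
  rw [← WQ2.betaK2_constK M q hq hqM, nmBeta_betaK2 M q K hq hqM]

/-! ### The bridge to the `ℚ̄`-level norms -/

/-- Naturality of the middle-cusp embedding in the base field `K`. -/
theorem iota3_nat (ξ : Qb) (hξ : ξ ^ q = 1) (hξ1 : ξ ≠ 1) (y : FK (M * q * q) K) :
    Iota3.iota3 M q K hq hqM ξ hξ hξ1 y
      = Iota3.iota3 M q (⊤ : IntermediateField ℚ Qb) hq hqM ξ hξ hξ1
        (Iota3.barToTop (M * q * q) (Glob.toBar (M * q * q) K y)) := by
  have h := Iota3.ringHom_ext_E2 M q K hq hqM (Iota3.iota3 M q K hq hqM ξ hξ hξ1)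
    ((Iota3.iota3 M q (⊤ : IntermediateField ℚ Qb) hq hqM ξ hξ hξ1).comp
      ((Iota3.barToTop (M * q * q)).comp (Glob.toBar (M * q * q) K))) ?_ ?_
  · exact congrArg (fun g : FK (M * q * q) K →+* LaurentSeries Qb => g y) h
  · intro x
    rw [Iota3.iota3_incl]
    have e : Iota3.barToTop (M * q * q) (Glob.toBar (M * q * q) K
        (DegTower.incl (M * q) (M * q * q) K (Dvd.intro q rfl) x))
        = DegTower.incl (M * q) (M * q * q) (⊤ : IntermediateField ℚ Qb) (Dvd.intro q rfl)
          (Iota3.barToTop (M * q) (Glob.toBar (M * q) K x)) := Subtype.ext rfl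
    show (x : LaurentSeries Qb) = Iota3.iota3 M q (⊤ : IntermediateField ℚ Qb) hq hqM ξ hξ hξ1
      (Iota3.barToTop (M * q * q) (Glob.toBar (M * q * q) K
        (DegTower.incl (M * q) (M * q * q) K (Dvd.intro q rfl) x)))
    rw [e, Iota3.iota3_incl]
    rfl
  · rw [Iota3.iota3_jq2K]
    have e : Iota3.barToTop (M * q * q) (Glob.toBar (M * q * q) K (Iota3.jq2K M q K))
        = Iota3.jq2K M q (⊤ : IntermediateField ℚ Qb) := by
      apply Subtype.ext
      rw [Iota3.coe_jq2K]
      show ((Iota3.jq2K M q K : FK (M * q * q) K) : LaurentSeries Qb) = _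
      rw [Iota3.coe_jq2K]
    show _ = Iota3.iota3 M q (⊤ : IntermediateField ℚ Qb) hq hqM ξ hξ hξ1
      (Iota3.barToTop (M * q * q) (Glob.toBar (M * q * q) K (Iota3.jq2K M q K)))
    rw [e, Iota3.iota3_jq2K]

/-- Naturality of the family of conjugates in the base field `K`. -/
theorem emb3_nat (ζ : Qb) (hζ : IsPrimitiveRoot ζ q) (c : Fin q) (y : FK (M * q * q) K) :
    Iota3K.emb3 M q K hq hqM ζ hζ c y
      = Iota3K.famBar M q hq hqM ζ hζ c (Glob.toBar (M * q * q) K y) := by
  rw [Iota3K.famBar_eq_emb3]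
  by_cases h : (c : ℕ) = 0
  · rw [Iota3K.emb3_of_eq M q K hq hqM ζ hζ c h, Iota3K.emb3_of_eq M q _ hq hqM ζ hζ c h,
      Iota3.coe_barToTop, Glob.coe_toBar]
  · rw [Iota3K.emb3_of_ne M q K hq hqM ζ hζ c h, Iota3K.emb3_of_ne M q _ hq hqM ζ hζ c h]
    exact iota3_nat M q K hq hqM _ _ _ y

/-- **Product formula** for the norm of record along `α`. -/
theorem coe_nmAlpha (ζ : Qb) (hζ : IsPrimitiveRoot ζ q) (y : FK (M * q * q) K) :
    ((nmAlpha M q K y : FK (M * q) K) : LaurentSeries Qb)
      = ∏ c : Fin q, Iota3K.emb3 M q K hq hqM ζ hζ c y :=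
  Iota3K.coe_norm M q K hq hqM ζ hζ y

include hq hqM in
/-- **(G1), `α`**: the norm of record along `α` is the `ℚ̄`-level norm `ModelFPlan.alphaNm`. -/
theorem toBar_nmAlpha (y : FK (M * q * q) K) :
    Glob.toBar (M * q) K (nmAlpha M q K y)
      = alphaNm (M * q) q (Glob.toBar (M * q * q) K y) := by
  classical
  obtain ⟨ζ, hζ⟩ := HasEnoughRootsOfUnity.exists_primitiveRoot Qb q
  apply Subtype.ext
  rw [Glob.coe_toBar, coe_nmAlpha M q K hq hqM ζ hζ]
  have h := Iota3K.coe_norm_alpha M q hq hqM ζ hζ (Glob.toBar (M * q * q) K y)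
  have h0 : ((Glob.toBar (M * q * q) K y : modularFunctionFieldBar (M * q * q)) :
      LaurentSeries Qb) = Iota3K.famBar M q hq hqM ζ hζ 0 (Glob.toBar (M * q * q) K y) :=
    (Iota3K.famBar_zero M q hq hqM ζ hζ _).symm
  rw [h0, Finset.mul_prod_erase Finset.univ
    (fun c => Iota3K.famBar M q hq hqM ζ hζ c (Glob.toBar (M * q * q) K y))
    (Finset.mem_univ (0 : Fin q))] at h
  show _ = ((alphaNm (M * q) q (Glob.toBar (M * q * q) K y) : modularFunctionFieldBar (M * q)) :
    LaurentSeries Qb)
  unfold alphaNm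
  rw [h]
  exact Finset.prod_congr rfl fun c _ => emb3_nat M q K hq hqM ζ hζ c y

/-- **(G1), `β`**: the norm of record along `β` is the `ℚ̄`-level norm `ModelFPlan.betaNm`. -/
theorem toBar_nmBeta (y : FK (M * q * q) K) :
    Glob.toBar (M * q) K (nmBeta M q K hq hqM y)
      = betaNm (M * q) q (Glob.toBar (M * q * q) K y) := by
  apply (WK.wBar M q hq hqM).injective
  rw [← WK.toBar_wK, wK_nmBeta, toBar_nmAlpha M q K hq hqM, WQ2.toBar_wK2]
  exact (NormRot.norm_beta_of_pair (M * q) q (WK.wBar M q hq hqM) (WQ2.wBar2 M q hq hqM)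
    (WQ2.wBar2_beta M q hq hqM) (Glob.toBar (M * q * q) K y)).symm

end Alg

end Fermat.Agent.S36.TorGlob
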