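/-
S36 — TorGlob2.lean (helper72): block [TOR-GLOB] (G2)+(G3), CLOSED form (package [TORIC36], lead
helper63): the GLOBAL input `(u, h, η)` of `TorRelInst.relα_field` / `relβ_field` for the NORMS
OF RECORD, with the bridge (G1) discharged.

`S36/TorGlobB.lean` (helper22) proves the tuple for ANY map `Nm` satisfying the bridge
`toBar (Nm x) = alphaNorm (toBar x)`; `S36/TorGlob.lean` proves the bridge for
`nmAlpha`, `nmBeta` (`= NormOne.normHom E' E` under the instance terms of record).  Here: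

* `glob_alpha`, `glob_beta` : the tuple for `TorGlob.nmAlpha M q K`, `TorGlob.nmBeta M q K hq hqM`;
* `glob_alpha_normHom`, `glob_beta_normHom` : the same statements written with
  `NormOne.normHom (FK (M * q) K) (FK (M * q * q) K)` under
  `letI := DegTower.algTower (M * q) (M * q * q) K (Dvd.intro q rfl)`, resp.
  `letI := (WQ2.betaK2 M q hq hqM K).toAlgebra` (the shapes of `TorRelInst`).

Remaining inputs: `hN2` (the rule (N2), `S36/NormCongInst`, `S36/NormN2`), `OneMod G` and the norm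
conditions of `G`.
-/
import Mathlib
import Fermat.Agent.S36.TorGlob
import Fermat.Agent.S36.TorGlobB

set_option autoImplicit false

open ModularCurve AlgebraicCurve HahnSeries

namespace Fermat.Agent.S36.TorGlob2

open Fermat.Agent.S18 Fermat.Agent.S18.Arith Fermat.Agent.S34 Fermat.Agent.S36
  Fermat.Agent.S36.Model3Plan
open Fermat.Agent.S35.ModelFPlan (NormCond)

variable {M q : ℕ} [NeZero M] [NeZero q] (hq : q.Prime) (hqM : ¬ q ∣ M)
  {A : ValuationSubring Qb} {K : IntermediateField ℚ Qb}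

/-- **[TOR-GLOB], `α`, closed**: the global constants for the norm of record along `α`. -/
theorem glob_alpha [Fact q.Prime] (hB : BaseFacts q A K)
    (hdvr : IsDiscreteValuationRing (OK A K)) {π : OK A K}
    (hπ : Irreducible π) (V : Fin 3 → ValuationSubring (FK (M * q * q) K))
    {m : ℕ} (hm : 0 < m) (hqm : ¬ q ∣ m) (d : Fin 3 → Fin 2 → ℕ)
    (hN2 : ∀ (x : FK (M * q * q) K) (c : Fin 3 → OK A K),
      (∀ i, ∃ z ∈ V i, x - algebraMap (OK A K) (FK (M * q * q) K) (c i) =
        algebraMap (OK A K) (FK (M * q * q) K) π * z) →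
      ∀ j, ∃ z' ∈ TorGlobB.V'rec M q hq hqM K hdvr j,
        TorGlob.nmAlpha M q K x - algebraMap (OK A K) (FK (M * q) K) (∏ i, c i ^ d i j) =
          algebraMap (OK A K) (FK (M * q) K) π * z')
    (G : FK (M * q * q) K)
    (hG : OneMod (algebraMap (OK A K) (FK (M * q * q) K) π) V G)
    (hN : NormCond (M * q) q m (Glob.toBar (M * q * q) K G)) :
    ∃ (u : OK A K) (h : FK (M * q) K) (η : Fin 2 → OK A K), IsUnit u ∧
      TorGlob.nmAlpha M q K G = algebraMap (OK A K) (FK (M * q) K) u * h ^ m ∧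
      (∀ j, ∃ z' ∈ TorGlobB.V'rec M q hq hqM K hdvr j,
        h - algebraMap (OK A K) (FK (M * q) K) (η j) =
          algebraMap (OK A K) (FK (M * q) K) π * z') ∧
      ∀ j, π ∣ η j ^ m * u - 1 :=
  TorGlobB.glob_alpha hq hqM hB hdvr hπ V hm hqm d (fun x => TorGlob.nmAlpha M q K x)
    (fun x => TorGlob.toBar_nmAlpha M q K hq hqM x) hN2 G hG hN

/-- **[TOR-GLOB], `β`, closed**: the global constants for the norm of record along `β`. -/
theorem glob_beta [Fact q.Prime] (hB : BaseFacts q A K)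
    (hdvr : IsDiscreteValuationRing (OK A K)) {π : OK A K}
    (hπ : Irreducible π) (V : Fin 3 → ValuationSubring (FK (M * q * q) K))
    {m : ℕ} (hm : 0 < m) (hqm : ¬ q ∣ m) (d : Fin 3 → Fin 2 → ℕ)
    (hN2 : ∀ (x : FK (M * q * q) K) (c : Fin 3 → OK A K),
      (∀ i, ∃ z ∈ V i, x - algebraMap (OK A K) (FK (M * q * q) K) (c i) =
        algebraMap (OK A K) (FK (M * q * q) K) π * z) →
      ∀ j, ∃ z' ∈ TorGlobB.V'rec M q hq hqM K hdvr j,
        TorGlob.nmBeta M q K hq hqM x - algebraMap (OK A K) (FK (M * q) K) (∏ i, c i ^ d i j) =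
          algebraMap (OK A K) (FK (M * q) K) π * z')
    (G : FK (M * q * q) K)
    (hG : OneMod (algebraMap (OK A K) (FK (M * q * q) K) π) V G)
    (hN : NormCond (M * q) q m (Glob.toBar (M * q * q) K G)) :
    ∃ (u : OK A K) (h : FK (M * q) K) (η : Fin 2 → OK A K), IsUnit u ∧
      TorGlob.nmBeta M q K hq hqM G = algebraMap (OK A K) (FK (M * q) K) u * h ^ m ∧
      (∀ j, ∃ z' ∈ TorGlobB.V'rec M q hq hqM K hdvr j,
        h - algebraMap (OK A K) (FK (M * q) K) (η j) =
          algebraMap (OK A K) (FK (M * q) K) π * z') ∧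
      ∀ j, π ∣ η j ^ m * u - 1 :=
  TorGlobB.glob_beta hq hqM hB hdvr hπ V hm hqm d (fun x => TorGlob.nmBeta M q K hq hqM x)
    (fun x => TorGlob.toBar_nmBeta M q K hq hqM x) hN2 G hG hN

/-- `glob_alpha` in the shape of `TorRelInst.relα_field`: `NormOne.normHom` under the instance
term of record `DegTower.algTower (M * q) (M * q * q) K (Dvd.intro q rfl)`. -/
theorem glob_alpha_normHom [Fact q.Prime] (hB : BaseFacts q A K)
    (hdvr : IsDiscreteValuationRing (OK A K)) {π : OK A K}
    (hπ : Irreducible π) (V : Fin 3 → ValuationSubring (FK (M * q * q) K))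
    {m : ℕ} (hm : 0 < m) (hqm : ¬ q ∣ m) (d : Fin 3 → Fin 2 → ℕ) :
    letI := DegTower.algTower (M * q) (M * q * q) K (Dvd.intro q rfl)
    haveI := DegTower.finiteDimensional (M * q) (M * q * q) K (Dvd.intro q rfl)
    (∀ (x : FK (M * q * q) K) (c : Fin 3 → OK A K),
      (∀ i, ∃ z ∈ V i, x - algebraMap (OK A K) (FK (M * q * q) K) (c i) =
        algebraMap (OK A K) (FK (M * q * q) K) π * z) →
      ∀ j, ∃ z' ∈ TorGlobB.V'rec M q hq hqM K hdvr j,
        NormOne.normHom (FK (M * q) K) (FK (M * q * q) K) x -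
          algebraMap (OK A K) (FK (M * q) K) (∏ i, c i ^ d i j) =
          algebraMap (OK A K) (FK (M * q) K) π * z') →
    ∀ G : FK (M * q * q) K,
      OneMod (algebraMap (OK A K) (FK (M * q * q) K) π) V G →
      NormCond (M * q) q m (Glob.toBar (M * q * q) K G) →
    ∃ (u : OK A K) (h : FK (M * q) K) (η : Fin 2 → OK A K), IsUnit u ∧
      NormOne.normHom (FK (M * q) K) (FK (M * q * q) K) G =
        algebraMap (OK A K) (FK (M * q) K) u * h ^ m ∧
      (∀ j, ∃ z' ∈ TorGlobB.V'rec M q hq hqM K hdvr j,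
        h - algebraMap (OK A K) (FK (M * q) K) (η j) =
          algebraMap (OK A K) (FK (M * q) K) π * z') ∧
      ∀ j, π ∣ η j ^ m * u - 1 :=
  fun hN2 G hG hN => glob_alpha hq hqM hB hdvr hπ V hm hqm d hN2 G hG hN

/-- `glob_beta` in the shape of `TorRelInst.relβ_field`: `NormOne.normHom` under the instance
term of record `(WQ2.betaK2 M q hq hqM K).toAlgebra`. -/
theorem glob_beta_normHom [Fact q.Prime] (hB : BaseFacts q A K)
    (hdvr : IsDiscreteValuationRing (OK A K)) {π : OK A K}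
    (hπ : Irreducible π) (V : Fin 3 → ValuationSubring (FK (M * q * q) K))
    {m : ℕ} (hm : 0 < m) (hqm : ¬ q ∣ m) (d : Fin 3 → Fin 2 → ℕ) :
    letI := (WQ2.betaK2 M q hq hqM K).toAlgebra
    haveI := TorGlob.finite_algB M q K hq hqM
    (∀ (x : FK (M * q * q) K) (c : Fin 3 → OK A K),
      (∀ i, ∃ z ∈ V i, x - algebraMap (OK A K) (FK (M * q * q) K) (c i) =
        algebraMap (OK A K) (FK (M * q * q) K) π * z) →
      ∀ j, ∃ z' ∈ TorGlobB.V'rec M q hq hqM K hdvr j,
        NormOne.normHom (FK (M * q) K) (FK (M * q * q) K) x -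
          algebraMap (OK A K) (FK (M * q) K) (∏ i, c i ^ d i j) =
          algebraMap (OK A K) (FK (M * q) K) π * z') →
    ∀ G : FK (M * q * q) K,
      OneMod (algebraMap (OK A K) (FK (M * q * q) K) π) V G →
      NormCond (M * q) q m (Glob.toBar (M * q * q) K G) →
    ∃ (u : OK A K) (h : FK (M * q) K) (η : Fin 2 → OK A K), IsUnit u ∧
      NormOne.normHom (FK (M * q) K) (FK (M * q * q) K) G =
        algebraMap (OK A K) (FK (M * q) K) u * h ^ m ∧
      (∀ j, ∃ z' ∈ TorGlobB.V'rec M q hq hqM K hdvr j,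
        h - algebraMap (OK A K) (FK (M * q) K) (η j) =
          algebraMap (OK A K) (FK (M * q) K) π * z') ∧
      ∀ j, π ∣ η j ^ m * u - 1 :=
  fun hN2 G hG hN => glob_beta hq hqM hB hdvr hπ V hm hqm d hN2 G hG hN

end Fermat.Agent.S36.TorGlob2
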