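/-
S36 — TorPlugB.lean (helper72): the FINAL PLUG of the package [TORIC36] (lead helper63), third
independent path (A = `S36/TorInModel`, B = `S36/TorInModelB`).

From ONE incidence hypothesis

  `Hinc : Inc3.Hyp (Inc3Gd.alphaC …) (Inc3Gd.betaC …) Md.c0.P (Inc3Low.PK' …) (algebraMap _ _ π)`

(the chart form of `S36/Inc3`, produced by `S36/Inc3Inst` / `S36/Inc3Low.hyp_of_pieces`) and the
landed leaves

* `S36/TorGlob2`   : the global constants `(u, h, η)` for the norms of record along `α`, `β`;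
* `S36/NormN2`     : the constants rule (N2) for the valuation rings of record;
* `S36/TorRelInst` : `ToricRel.rel` at the triple points (`relα_field`, `relβ_field`);
* `S36/Inc3Inst`   : `htriple`, `huniq_alpha`, `huniq_beta`;
* `S36/TorInInst`  : `torIn_chart` (normal forms from `LocAsm3B.exists_nf`);

we get the binder `h0` of `TorOutInst.torOutProp` VERBATIM (`h0_of_hyp`), for any model
`Md : Model3 (M * q * q) A K π e ϖ V J3` whose valuation rings are the rings of record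
(`V 0 = GaussV.V1`, `V 1 = GaussV.V2 w_{q²}`, `V 2` = Gauss-integrality along the middle-cusp
embedding `Iota3.iota3 … ξ`), and then `LocAsm3.TorOutProp` (`torOutProp_of_hyp`) from [CUSP1].
-/
import Mathlib
import Fermat.Agent.S36.Inc3Inst
import Fermat.Agent.S36.Inc3Low
import Fermat.Agent.S36.NormN2
import Fermat.Agent.S36.TorInInst
import Fermat.Agent.S36.TorOutInst
import Fermat.Agent.S36.TorGlob2
import Fermat.Agent.S36.TorRelInst
import Fermat.Agent.S36.CuspOneBInst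
import Fermat.Agent.S36.V3
import Fermat.Agent.S34.SigmaCoe

set_option autoImplicit false

open ModularCurve AlgebraicCurve HahnSeries

namespace Fermat.Agent.S36.TorPlugB

open Fermat.Agent.S18 Fermat.Agent.S18.Arith Fermat.Agent.S34 Fermat.Agent.S36
  Fermat.Agent.S36.Model3Plan
open Fermat.Agent.S35.ModelFPlan (NormCond)

variable {M q : ℕ} [NeZero M] [NeZero q] (hq : q.Prime) (hqM : ¬ q ∣ M)
  {A : ValuationSubring Qb} {K : IntermediateField ℚ Qb}

/-- `F_K(M q)` is the fraction field of the chart `JK` of level `M q`. -/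
theorem isFractionRing_chart_JK :
    IsFractionRing ↥(chart (M * q) A K (WKInst.JK M q hq hqM K)) (FK (M * q) K) := by
  rw [WKInst.chart_JK_eq]
  have : Fact (Nat.Prime 2) := ⟨Nat.prime_two⟩
  exact ChartRing.isFractionRing_R0 (M * q) A K 2

/-- The chart `JK` of level `M q` lies in the two valuation rings of record. -/
theorem chart_JK_le_V'rec (hdvr : IsDiscreteValuationRing (OK A K)) :
    ∀ j, ∀ x ∈ chart (M * q) A K (WKInst.JK M q hq hqM K),
      x ∈ TorGlobB.V'rec M q hq hqM K hdvr j := by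
  intro j x hx
  have h := (V12.mem_V12K_iff M q hq hqM A K hdvr).1 (Inc3Low.chart_JK_le M q hq hqM A K hdvr x hx)
  fin_cases j
  · exact h.1
  · exact h.2


/-- `hcen'` of `TorRelInst.relα_field / relβ_field` for a chart map `φ` contracting `P 0`, `P 1`
to the two vertical primes `PK' 0`, `PK' 1` of the chart `JK` of level `M q`. -/
theorem hcen_of_comap (hdvr : IsDiscreteValuationRing (OK A K)) {π : OK A K}
    (hπ : Irreducible π)
    {P : Fin 3 → Ideal ↥(chart (M * q * q) A K (Chart3B.J3 M q hq hqM K))}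
    (φ : ↥(chart (M * q) A K (WKInst.JK M q hq hqM K)) →+*
      ↥(chart (M * q * q) A K (Chart3B.J3 M q hq hqM K)))
    (h0 : (P 0).comap φ = Inc3Low.PK' M q hq hqM A K hdvr 0)
    (h1 : (P 1).comap φ = Inc3Low.PK' M q hq hqM A K hdvr 1) :
    ∀ n : Ideal ↥(chart (M * q * q) A K (Chart3B.J3 M q hq hqM K)), n.IsMaximal →
      algebraMap (OK A K) ↥(chart (M * q * q) A K (Chart3B.J3 M q hq hqM K)) π ∈ n →
      (∀ l, P l ≤ n) →
      ∀ j, ∀ r : ↥(chart (M * q) A K (WKInst.JK M q hq hqM K)),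
        (∃ z ∈ TorGlobB.V'rec M q hq hqM K hdvr j,
          (r : FK (M * q) K) = algebraMap (OK A K) (FK (M * q) K) π * z) → φ r ∈ n := by
  intro n _ _ hT j r hr
  have hr' : r ∈ Inc3Low.PK' M q hq hqM A K hdvr j :=
    (Inc3Low.mem_PK' M q hq hqM A K hdvr hπ j r).2 hr
  fin_cases j
  · have h : r ∈ (P 0).comap φ := by rw [h0]; exact hr'
    exact hT 0 h
  · have h : r ∈ (P 1).comap φ := by rw [h1]; exact hr'
    exact hT 1 h

/-- **[TORIC36], the final plug**: the binder `h0` of `TorOutInst.torOutProp`, from the chart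
incidence `Inc3.Hyp` and the landed leaves. -/
theorem h0_of_hyp [Fact q.Prime] [IsDiscreteValuationRing (OK A K)]
    (hA : A.LiesOverPrime q) (hB : BaseFacts q A K)
    (hK : ∀ σ ∈ A.inertiaSubgroupIn ℚ, ∀ a ∈ K, σ a = a)
    {ξ : Qb} (hξp : IsPrimitiveRoot ξ q) (hξ : ξ ^ q = 1) (hξ1 : ξ ≠ 1)
    {π : OK A K} {e : Fin 3 → ℕ} {ϖ : Fin 3 → FK (M * q * q) K}
    {V : Fin 3 → ValuationSubring (FK (M * q * q) K)}
    (Md : Model3 (M * q * q) A K π e ϖ V (Chart3B.J3 M q hq hqM K))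
    (hV0 : V 0 = GaussV.V1 (M * q * q) A K hB.dvr)
    (hV1 : V 1 = GaussV.V2 (WQ2.wK2 M q hq hqM K) hB.dvr)
    (hV2 : ∀ x, x ∈ V 2 ↔ ∃ r, GRel A (Iota3.iota3 M q K hq hqM ξ hξ hξ1 x) r)
    (Hinc : Inc3.Hyp (Inc3Gd.alphaC M q hq hqM A K) (Inc3Gd.betaC M q hq hqM A K) Md.c0.P
      (Inc3Low.PK' M q hq hqM A K hB.dvr)
      (algebraMap (OK A K) ↥(chart (M * q) A K (WKInst.JK M q hq hqM K)) π))
    {m : ℕ} (hm : m ≠ 0) (hqm : ¬ q ∣ m) (hmu : IsUnit ((m : ℕ) : OK A K))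
    {ζ : OK A K} (hζ : IsPrimitiveRoot ζ m) :
    ∀ G : FK (M * q * q) K,
      OneMod (algebraMap (OK A K) (FK (M * q * q) K) π) V G →
      Hor3 π m G (chart (M * q * q) A K (Chart3B.J3 M q hq hqM K)) →
      NormCond (M * q) q m (Glob.toBar (M * q * q) K G) →
      ∃ ηα ηβ : Fin 2 → OK A K, ¬ π ∣ ηα 0 ∧ ¬ π ∣ ηβ 0 ∧
        ChartTorInst.TorIn (chart (M * q * q) A K (Chart3B.J3 M q hq hqM K)) π V Md.c0.P q m G
          ηα ηβ := by
  intro G hG hHor hN
  have hπ : Irreducible π := Md.irr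
  have hm' : 0 < m := Nat.pos_of_ne_zero hm
  -- the global constants along `α`
  obtain ⟨uα, hα, ηα, huα, hNmα, hηα, hdivα⟩ :=
    TorGlob2.glob_alpha_normHom hq hqM hB hB.dvr hπ V hm' hqm (ToricAsm.dAlpha q)
      (NormN2.n2_normHom_alpha M q K hq hqM A hA hK hB.dvr hξp hξ hξ1 V
        (TorGlobB.V'rec M q hq hqM K hB.dvr) hV0 hV1 hV2 rfl rfl π hπ.ne_zero
        (ToricAsm.dAlpha q) ⟨rfl, rfl, rfl, rfl, rfl, rfl⟩) G hG hN
  -- the global constants along `β`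
  obtain ⟨uβ, hβ, ηβ, huβ, hNmβ, hηβ, hdivβ⟩ :=
    TorGlob2.glob_beta_normHom hq hqM hB hB.dvr hπ V hm' hqm (ToricAsm.dBeta q)
      (NormN2.n2_normHom_beta M q K hq hqM A hA hK hB.dvr hξp hξ hξ1 V
        (TorGlobB.V'rec M q hq hqM K hB.dvr) hV0 hV1 hV2 rfl rfl π hπ.ne_zero
        (ToricAsm.dBeta q) ⟨rfl, rfl, rfl, rfl, rfl, rfl⟩) G hG hN
  refine ⟨ηα, ηβ, TorRelInst.not_dvd_of_dvd_pow_mul_sub_one π hπ hm' (ηα 0) uα (hdivα 0),
    TorRelInst.not_dvd_of_dvd_pow_mul_sub_one π hπ hm' (ηβ 0) uβ (hdivβ 0), ?_⟩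
  refine TorInInst.torIn_chart Md hm' hmu hζ (Inc3Inst.htriple Hinc _) G hG hHor ηα ηβ ?_
  intro n hn hπn hT g₀ γ hNF
  haveI := Inc3Gd.isIntegrallyClosed_chart_JK M q hq hqM A K
  haveI := isFractionRing_chart_JK (A := A) (K := K) hq hqM
  haveI := ConjMod.charZero_FK (K := K) (M * q)
  constructor
  · -- the relation along `α`
    letI := DegTower.algTower (M * q) (M * q * q) K (Dvd.intro q rfl)
    haveI := DegTower.finiteDimensional (M * q) (M * q * q) K (Dvd.intro q rfl)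
    haveI : IsScalarTower (OK A K) (FK (M * q) K) (FK (M * q * q) K) :=
      DegTower.isScalarTower_OK (M * q) (M * q * q) K A (Dvd.intro q rfl)
    haveI : Algebra.IsSeparable (FK (M * q) K) (FK (M * q * q) K) :=
      Algebra.IsAlgebraic.isSeparable_of_perfectField
    exact TorRelInst.relα_field (chart (M * q * q) A K (Chart3B.J3 M q hq hqM K))
      (chart (M * q) A K (WKInst.JK M q hq hqM K)) π hπ V (TorGlobB.V'rec M q hq hqM K hB.dvr)
      q m hm' (Inc3Gd.alphaC M q hq hqM A K) (fun _ => rfl)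
      (Inc3Gd.alphaC_isIntegral M q hq hqM A K)
      (NormN2.n2_normHom_alpha M q K hq hqM A hA hK hB.dvr hξp hξ hξ1 V
        (TorGlobB.V'rec M q hq hqM K hB.dvr) hV0 hV1 hV2 rfl rfl π hπ.ne_zero
        (ToricAsm.dAlpha q) ⟨rfl, rfl, rfl, rfl, rfl, rfl⟩)
      (chart_JK_le_V'rec hq hqM hB.dvr) G uα huα hα hNmα ηα hηα
      (fun n i => Md.c0.P i ≤ n) (Inc3Inst.huniq_alpha Hinc _)
      (hcen_of_comap hq hqM hB.dvr hπ _ Hinc.α0 Hinc.α1) n hn hπn hT g₀ γ hNF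
  · -- the relation along `β`
    letI := (WQ2.betaK2 M q hq hqM K).toAlgebra
    haveI := TorGlob.finite_algB M q K hq hqM
    haveI : IsScalarTower (OK A K) (FK (M * q) K) (FK (M * q * q) K) :=
      TorGlob.isScalarTower_algB M q K hq hqM A
    haveI : Algebra.IsSeparable (FK (M * q) K) (FK (M * q * q) K) :=
      Algebra.IsAlgebraic.isSeparable_of_perfectField
    exact TorRelInst.relβ_field (chart (M * q * q) A K (Chart3B.J3 M q hq hqM K))
      (chart (M * q) A K (WKInst.JK M q hq hqM K)) π hπ V (TorGlobB.V'rec M q hq hqM K hB.dvr)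
      q m hm' (Inc3Gd.betaC M q hq hqM A K) (fun _ => rfl)
      (Inc3Gd.betaC_isIntegral M q hq hqM A K)
      (NormN2.n2_normHom_beta M q K hq hqM A hA hK hB.dvr hξp hξ hξ1 V
        (TorGlobB.V'rec M q hq hqM K hB.dvr) hV0 hV1 hV2 rfl rfl π hπ.ne_zero
        (ToricAsm.dBeta q) ⟨rfl, rfl, rfl, rfl, rfl, rfl⟩)
      (chart_JK_le_V'rec hq hqM hB.dvr) G uβ huβ hβ hNmβ ηβ hηβ
      (fun n i => Md.c0.P i ≤ n) (Inc3Inst.huniq_beta Hinc _)
      (hcen_of_comap hq hqM hB.dvr hπ _ Hinc.β0 Hinc.β1) n hn hπn hT g₀ γ hNF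

/-- **[TORIC36] + [LOC36] at the model level, closed up to the chart incidence**:
`LocAsm3.TorOutProp` for any model with coordinate `J3` whose valuation rings are the rings of
record, from `Inc3.Hyp` for the two chart maps alone (`h0_of_hyp` + [CUSP1] =
`CuspOneBInst.cuspOne_model3`; the primitive root and the unit `m` come from `BaseFacts`). -/
theorem torOutProp_of_hyp [Fact q.Prime] [IsDiscreteValuationRing (OK A K)]
    (hA : A.LiesOverPrime q) (hB : BaseFacts q A K)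
    (hK : ∀ σ ∈ A.inertiaSubgroupIn ℚ, ∀ a ∈ K, σ a = a)
    {ξ : Qb} (hξp : IsPrimitiveRoot ξ q) (hξ : ξ ^ q = 1) (hξ1 : ξ ≠ 1)
    {π : OK A K} {e : Fin 3 → ℕ} {ϖ : Fin 3 → FK (M * q * q) K}
    {V : Fin 3 → ValuationSubring (FK (M * q * q) K)}
    (Md : Model3 (M * q * q) A K π e ϖ V (Chart3B.J3 M q hq hqM K))
    (hV0 : V 0 = GaussV.V1 (M * q * q) A K hB.dvr)
    (hV1 : V 1 = GaussV.V2 (WQ2.wK2 M q hq hqM K) hB.dvr)
    (hV2 : ∀ x, x ∈ V 2 ↔ ∃ r, GRel A (Iota3.iota3 M q K hq hqM ξ hξ hξ1 x) r)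
    (hϖ0 : ϖ 0 = algebraMap (OK A K) (FK (M * q * q) K) π)
    (hϖ1 : ϖ 1 = algebraMap (OK A K) (FK (M * q * q) K) π)
    (h2 : ∃ v ∈ V 2, Wit3.sE M q hq hqM K = ϖ 2 * v)
    (Hinc : Inc3.Hyp (Inc3Gd.alphaC M q hq hqM A K) (Inc3Gd.betaC M q hq hqM A K) Md.c0.P
      (Inc3Low.PK' M q hq hqM A K hB.dvr)
      (algebraMap (OK A K) ↥(chart (M * q) A K (WKInst.JK M q hq hqM K)) π))
    {m : ℕ} (hm : m ≠ 0) (hqm : ¬ q ∣ m) :
    LocAsm3.TorOutProp M q m A K π V (Chart3B.J3 M q hq hqM K) := by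
  have hmu : IsUnit ((m : ℕ) : OK A K) := SigmaCoe.isUnit_natCast_OK hq A hA K hqm
  obtain ⟨ζ, hζ⟩ := LocAsm3B.exists_primitiveRoot_OK A K hB (Nat.pos_of_ne_zero hm) hqm
  exact TorOutInst.torOutProp q hB Md hm hmu hζ
    (h0_of_hyp hq hqM hA hB hK hξp hξ hξ1 Md hV0 hV1 hV2 Hinc hm hqm hmu hζ)
    (CuspOneBInst.cuspOne_model3 M q hq hqM A K hB.dvr hA Md hV0 hV1 hϖ0 hϖ1 h2)

/-- **`LocAsm3.TorOutProp` for the model of record** (`S36/Model3Top`: uniformizers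
`![π, π, sE]`, valuation rings `![W1, W2, H3.W3]` with `H3 : V3.Hyp3` along the middle-cusp
embedding `Iota3.iota3 … ξ`, coordinate `J3`), from `Inc3.Hyp` for the two chart maps. -/
theorem torOutProp_record [Fact q.Prime] [IsDiscreteValuationRing (OK A K)]
    (hA : A.LiesOverPrime q) (hB : BaseFacts q A K)
    (hK : ∀ σ ∈ A.inertiaSubgroupIn ℚ, ∀ a ∈ K, σ a = a)
    {K' : IntermediateField ℚ Qb} {ξ : Qb} {hξ0 : ξ ≠ 0}
    (hξp : IsPrimitiveRoot ξ q) (hξ : ξ ^ q = 1) (hξ1 : ξ ≠ 1) {ϖ' : OK A K'}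
    (H3 : V3.Hyp3 M q hq hqM A K K' ξ hξ0 (Iota3.iota3 M q K hq hqM ξ hξ hξ1) ϖ')
    {π : OK A K} {e : Fin 3 → ℕ}
    (Md : Model3 (M * q * q) A K π e
      ![algebraMap (OK A K) (FK (M * q * q) K) π, algebraMap (OK A K) (FK (M * q * q) K) π,
        Wit3.sE M q hq hqM K]
      ![GaussV.V1 (M * q * q) A K hB.dvr, GaussV.V2 (WQ2.wK2 M q hq hqM K) hB.dvr, H3.W3]
      (Chart3B.J3 M q hq hqM K))
    (Hinc : Inc3.Hyp (Inc3Gd.alphaC M q hq hqM A K) (Inc3Gd.betaC M q hq hqM A K) Md.c0.P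
      (Inc3Low.PK' M q hq hqM A K hB.dvr)
      (algebraMap (OK A K) ↥(chart (M * q) A K (WKInst.JK M q hq hqM K)) π))
    {m : ℕ} (hm : m ≠ 0) (hqm : ¬ q ∣ m) :
    LocAsm3.TorOutProp M q m A K π
      ![GaussV.V1 (M * q * q) A K hB.dvr, GaussV.V2 (WQ2.wK2 M q hq hqM K) hB.dvr, H3.W3]
      (Chart3B.J3 M q hq hqM K) :=
  torOutProp_of_hyp hq hqM hA hB hK hξp hξ hξ1 Md rfl rfl (fun _ => Iff.rfl) rfl rfl
    ⟨1, H3.W3.one_mem, (mul_one _).symm⟩ Hinc hm hqm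

end Fermat.Agent.S36.TorPlugB
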