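/-
S36 — ChainInstB.lean (helper52; [ASM36] LAST MILE, B-copy; A = helper87 `ChainInst`).

**The chain over the inertia field `L = ℚ̄^{I_A}`, hypothesis-free**:
`LocAsm3L.ChainStatementL M q` for `q ∤ M` under `Plan.AuxHyp q M`, for the MODEL OF RECORD
(`t = J3`, `ϖ = ![π, π, sE]`, `V = ![W1, W2, W3]`, `W3` the Gauss valuation along `Iota3.iota3`
at a primitive `q`-th root of unity `ξ`, `π` a uniformizer of `O = A ∩ L` with `π = q`).

Everything is discharged from landed blocks: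

* the model (α)          : `Model3FullC.model3_iota3` (eta, [B1-nak], [N10], [CUSP1] plugged);
* [CORR36] (β)           : `Corr3Inst.corrProp_record_iota3` (+ `V3Wit.valHyp3`);
* [TORIC36]+[LOC36] (γ)  : `TorPlugB.torOutProp_record`, with [INC3] from
                           `Inc3AsmB.hyp_model` (`hf1`, `hf3` from `ResDeg3Inst`).

Exports: `unif`, `vals` (reducible: the literal families of record), `model`, `corr`,
`incHyp`, `torOut`, and

* `chainL : ∀ (M q : ℕ) [NeZero M] [NeZero q] [Fact q.Prime], ¬ q ∣ M → Plan.AuxHyp q M →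
    LocAsm3L.ChainStatementL M q`.
-/
import Mathlib
import Fermat.Agent.S36.LocAsm3L
import Fermat.Agent.S36.Model3FullC
import Fermat.Agent.S36.Corr3Inst
import Fermat.Agent.S36.Inc3AsmB
import Fermat.Agent.S36.TorPlugB

set_option autoImplicit false

open ModularCurve AlgebraicCurve HahnSeries

namespace Fermat.Agent.S36.ChainInstB

open Fermat.Agent.S18 Fermat.Agent.S18.Arith Fermat.Agent.S18.ModelPlan
open Fermat.Agent.S34 Fermat.Agent.S35 Fermat.Agent.S36.Model3Plan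

noncomputable section

variable (M q : ℕ) [NeZero M] [NeZero q]

/-- The uniformizers of record `![π, π, sE]`. -/
abbrev unif (hq : q.Prime) (hqM : ¬ q ∣ M) (A : ValuationSubring Qb)
    (K : IntermediateField ℚ Qb) (π : OK A K) : Fin 3 → FK (M * q * q) K :=
  ![algebraMap (OK A K) (FK (M * q * q) K) π, algebraMap (OK A K) (FK (M * q * q) K) π,
    Wit3.sE M q hq hqM K]

/-- The valuation rings of record `![W1, W2, W3]`, `W3` along `Iota3.iota3` at `ξ`. -/
abbrev vals (hq : q.Prime) (hqM : ¬ q ∣ M) (A : ValuationSubring Qb)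
    (K : IntermediateField ℚ Qb) (hdvr : IsDiscreteValuationRing (OK A K))
    (π : OK A K) (hπ : Irreducible π) (hπq : incO A K π = (q : Qb)) {ξ : Qb}
    (hξ : IsPrimitiveRoot ξ q) : Fin 3 → ValuationSubring (FK (M * q * q) K) :=
  ![GaussV.V1 (M * q * q) A K hdvr, GaussV.V2 (WQ2.wK2 M q hq hqM K) hdvr,
    (V3.hyp3_iota3 hq hqM A hdvr π hπ hπq hξ).W3]

section Record

variable {M q}
variable {hq : q.Prime} {hqM : ¬ q ∣ M} {A : ValuationSubring Qb}
  {K : IntermediateField ℚ Qb}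

/-- **(α) The model of record**, closed (under `Plan.AuxHyp q M`). -/
def model (haux : Plan.AuxHyp q M) (hA : A.LiesOverPrime q) (hB : BaseFacts q A K)
    (π : OK A K) (hπ : Irreducible π) (hπq : incO A K π = (q : Qb)) {ξ : Qb}
    (hξ : IsPrimitiveRoot ξ q) :
    Model3 (M * q * q) A K π (ram q) (unif M q hq hqM A K π)
      (vals M q hq hqM A K hB.dvr π hπ hπq hξ) (Chart3B.J3 M q hq hqM K) :=
  Model3FullC.model3_iota3 hA hB π hπ hπq haux hξ

/-- **(β) [CORR36] for the data of record** over a base fixed by inertia. -/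
theorem corr [Fact q.Prime] (hA : A.LiesOverPrime q) (hB : BaseFacts q A K)
    (hK : ∀ σ ∈ A.inertiaSubgroupIn ℚ, ∀ a ∈ K, σ a = a)
    (π : OK A K) (hπ : Irreducible π) (hπq : incO A K π = (q : Qb)) {ξ : Qb}
    (hξ : IsPrimitiveRoot ξ q) {m : ℕ} (hm : m ≠ 0) :
    LocAsm3.CorrProp M q m A K π (unif M q hq hqM A K π)
      (vals M q hq hqM A K hB.dvr π hπ hπq hξ) :=
  Corr3Inst.corrProp_record_iota3 M q hq hqM A K hA hB hK hB.dvr π hπ hπq hξ
    (V3Wit.valHyp3 (V3.hyp3_iota3 hq hqM A hB.dvr π hπ hπq hξ) hB.dvr hA hπ 1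
      (by rw [hπq, OneMemClass.coe_one, mul_one]) (BaseXi.exists_unit hq π hπ hπq hξ)) hm

/-- **[INC3] for the chart `J3` of a model of record.** -/
theorem incHyp [Fact q.Prime] (hA : A.LiesOverPrime q) (hB : BaseFacts q A K)
    (π : OK A K) (hπ : Irreducible π) (hπq : incO A K π = (q : Qb)) {ξ : Qb}
    (hξ : IsPrimitiveRoot ξ q)
    (Md : Model3 (M * q * q) A K π (ram q) (unif M q hq hqM A K π)
      (vals M q hq hqM A K hB.dvr π hπ hπq hξ) (Chart3B.J3 M q hq hqM K)) :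
    Inc3.Hyp (Inc3Gd.alphaC M q hq hqM A K) (Inc3Gd.betaC M q hq hqM A K) Md.c0.P
      (Inc3Low.PK' M q hq hqM A K hB.dvr)
      (algebraMap (OK A K) ↥(chart (M * q) A K (WKInst.JK M q hq hqM K)) π) := by
  have hC : ChartFacts M A K (chart M A K (jK M K)) (jK M K) :=
    Red2B.chartFacts M q hq hqM A K hA hB
  have hqa : (q : Qb) = incO A K π * (((1 : A) : A) : Qb) := by
    rw [hπq, OneMemClass.coe_one, mul_one]
  have hW := Model3Top.wit (V3.hyp3_iota3 hq hqM A hB.dvr π hπ hπq hξ) hB.dvr hA hC hπ 1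
    hqa (BaseXi.exists_unit hq π hπ hπq hξ)
  have hf1 := ResDeg3Inst.hf1 M q hB.dvr hπ hC hW
  have hf3 := ResDeg3Inst.hf3' M q hq hB.dvr hπ hC
    (V3.hyp3_iota3 hq hqM A hB.dvr π hπ hπq hξ).mid.alpha
    (V3Wit.hW3 (V3.hyp3_iota3 hq hqM A hB.dvr π hπ hπq hξ)) hW
  exact Inc3AsmB.hyp_model hA hB hB.dvr (V3.hyp3_iota3 hq hqM A hB.dvr π hπ hπq hξ)
    hf1 hf3 Md rfl rfl rfl rfl rfl rfl

/-- **(γ) [TORIC36] + [LOC36] for a model of record** over a base fixed by inertia. -/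
theorem torOut [Fact q.Prime] (hA : A.LiesOverPrime q) (hB : BaseFacts q A K)
    (hK : ∀ σ ∈ A.inertiaSubgroupIn ℚ, ∀ a ∈ K, σ a = a)
    (π : OK A K) (hπ : Irreducible π) (hπq : incO A K π = (q : Qb)) {ξ : Qb}
    (hξ : IsPrimitiveRoot ξ q)
    (Md : Model3 (M * q * q) A K π (ram q) (unif M q hq hqM A K π)
      (vals M q hq hqM A K hB.dvr π hπ hπq hξ) (Chart3B.J3 M q hq hqM K))
    {m : ℕ} (hm : m ≠ 0) (hqm : ¬ q ∣ m) :
    LocAsm3.TorOutProp M q m A K π (vals M q hq hqM A K hB.dvr π hπ hπq hξ)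
      (Chart3B.J3 M q hq hqM K) :=
  haveI : IsDiscreteValuationRing (OK A K) := hB.dvr
  TorPlugB.torOutProp_record hq hqM hA hB hK hξ hξ.pow_eq_one (hξ.ne_one hq.one_lt)
    (V3.hyp3_iota3 hq hqM A hB.dvr π hπ hπq hξ) Md (incHyp hA hB π hπ hπq hξ Md) hm hqm

end Record

/-- **[ASM36], the last mile (B): the chain over the inertia field, hypothesis-free.** -/
theorem chainL (M q : ℕ) [NeZero M] [NeZero q] [Fact q.Prime] (hqM : ¬ q ∣ M)
    (haux : Plan.AuxHyp q M) : LocAsm3L.ChainStatementL M q := by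
  intro m hm hqm A hA
  obtain ⟨hB, ⟨π, hπq', hπ⟩, hK⟩ := LocAsm3L.unrBase_inertiaField (q := q) hA
  have hπq : incO A (UnrBaseL.inertiaField A) π = (q : Qb) := hπq'
  obtain ⟨ξ, hξ⟩ := HasEnoughRootsOfUnity.exists_primitiveRoot Qb q
  exact ⟨hB.dvr, π, Chart3B.J3 M q Fact.out hqM (UnrBaseL.inertiaField A),
    unif M q Fact.out hqM A (UnrBaseL.inertiaField A) π,
    vals M q Fact.out hqM A (UnrBaseL.inertiaField A) hB.dvr π hπ hπq hξ,
    ⟨model haux hA hB π hπ hπq hξ⟩, corr hA hB hK π hπ hπq hξ hm,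
    torOut hA hB hK π hπ hπq hξ (model haux hA hB π hπ hπq hξ) hm hqm⟩

end

end Fermat.Agent.S36.ChainInstB
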