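import Mathlib
import Fermat.Agent.S36.EtaChartInt

/-!
# S36: clearing denominators into a chart (generic coordinate)

Let `O = OK A K` be a discrete valuation ring with uniformiser `π` and `t, y ∈ F_K = FK N K`.

* `exists_pow_mul_mem_chart_of_isIntegral` : if `y` is integral over `K[t]`, then `π ^ k * y`
  lies in `chart N A K t` (the integral closure of `O[t]`) for some `k`;
* `exists_pow_mul_inv_pow_mul_mem_chart_of_isIntegral` : if moreover `t ≠ 0`, then
  `π ^ k * t⁻¹ ^ a * y` lies in `chart N A K t⁻¹` for some `k`, `a`;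
* `isIntegral_of_mem_chart` : conversely the elements of `chart N A K t` are integral over
  `K[t]`;
* `exists_pow_mul_mem_chart_of_rel` : the same from an explicit monic relation with
  coefficients in `K[t]`.

These are one-call wrappers of the general lemmas of `S36/EtaChartInt.lean`.
-/

set_option autoImplicit false

namespace Fermat.Agent.S36.ChartClear

open Fermat.Agent Fermat.Agent.S18.Arith Fermat.Agent.S36.EtaChartInt

variable (N : ℕ) (A : ValuationSubring Qb) (K : IntermediateField ℚ Qb)

/-- From an explicit monic relation over `K[t]` to the chart `t`. -/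
theorem exists_pow_mul_mem_chart_of_rel (hdvr : IsDiscreteValuationRing (OK A K)) {π : OK A K}
    (hπ : Irreducible π) (t y : FK N K) (n : ℕ) (c : ℕ → FK N K)
    (hc : ∀ i, c i ∈ Algebra.adjoin K ({t} : Set (FK N K)))
    (hrel : y ^ n = ∑ i ∈ Finset.range n, c i * y ^ i) :
    ∃ k : ℕ, algebraMap (OK A K) (FK N K) π ^ k * y ∈ chart N A K t := by
  obtain ⟨k, c', hc', hrel'⟩ := exists_scaled_rel
    (Algebra.adjoin (OK A K) ({t} : Set (FK N K))) (algebraMap (OK A K) (FK N K) π) y n c
    (fun i => exists_pow_mul_mem_adjoin π (exists_pow_mul_eq_of_irreducible A K hdvr hπ) t (hc i))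
    hrel
  exact ⟨k, (mem_chart_iff N A K).mpr (isIntegral_of_rel _ n c' hc' hrel')⟩

/-- **Clearing denominators.** An element of `F_K` which is integral over `K[t]` lies in the
chart `t` after multiplication by a power of the uniformiser. -/
theorem exists_pow_mul_mem_chart_of_isIntegral (hdvr : IsDiscreteValuationRing (OK A K))
    {π : OK A K} (hπ : Irreducible π) (t y : FK N K)
    (hy : IsIntegral (Algebra.adjoin K ({t} : Set (FK N K))) y) :
    ∃ k : ℕ, algebraMap (OK A K) (FK N K) π ^ k * y ∈ chart N A K t := by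
  obtain ⟨n, c, hc, hrel⟩ := exists_rel_of_isIntegral _ hy
  exact exists_pow_mul_mem_chart_of_rel N A K hdvr hπ t y n c hc hrel

/-- **Clearing denominators, inverse coordinate.** An element of `F_K` which is integral over
`K[t]` (`t ≠ 0`) lies in the chart `t⁻¹` after multiplication by a power of the uniformiser and
a power of `t⁻¹`. -/
theorem exists_pow_mul_inv_pow_mul_mem_chart_of_isIntegral
    (hdvr : IsDiscreteValuationRing (OK A K)) {π : OK A K} (hπ : Irreducible π) {t : FK N K}
    (ht : t ≠ 0) (y : FK N K) (hy : IsIntegral (Algebra.adjoin K ({t} : Set (FK N K))) y) :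
    ∃ k a : ℕ, algebraMap (OK A K) (FK N K) π ^ k * t⁻¹ ^ a * y ∈ chart N A K t⁻¹ := by
  obtain ⟨n, c, hc, hrel⟩ := exists_rel_of_isIntegral _ hy
  obtain ⟨a, c', hc', hrel'⟩ := exists_scaled_rel
    (Algebra.adjoin K ({t⁻¹} : Set (FK N K))) t⁻¹ y n c
    (fun i => exists_inv_pow_mul_mem_adjoin ht (hc i)) hrel
  obtain ⟨k, hk⟩ := exists_pow_mul_mem_chart_of_rel N A K hdvr hπ t⁻¹ (t⁻¹ ^ a * y) n c' hc' hrel'
  exact ⟨k, a, by rw [mul_assoc]; exact hk⟩

/-- `O[t] ⊆ K[t]` inside `F_K`. -/
theorem adjoin_le_adjoin (t : FK N K) {x : FK N K}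
    (hx : x ∈ Algebra.adjoin (OK A K) ({t} : Set (FK N K))) :
    x ∈ Algebra.adjoin K ({t} : Set (FK N K)) := by
  induction hx using Algebra.adjoin_induction with
  | mem x hx => exact Algebra.subset_adjoin hx
  | algebraMap r =>
      have e : algebraMap (OK A K) (FK N K) r = algebraMap K (FK N K) (r : K) := rfl
      rw [e]
      exact Subalgebra.algebraMap_mem _ _
  | add x y _ _ hx hy => exact add_mem hx hy
  | mul x y _ _ hx hy => exact mul_mem hx hy

/-- The elements of the chart `t` are integral over `K[t]`. -/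
theorem isIntegral_of_mem_chart (t : FK N K) {y : FK N K} (hy : y ∈ chart N A K t) :
    IsIntegral (Algebra.adjoin K ({t} : Set (FK N K))) y := by
  obtain ⟨n, c, hc, hrel⟩ := exists_rel_of_isIntegral _ ((mem_chart_iff N A K).mp hy)
  exact isIntegral_of_rel _ n c (fun i => adjoin_le_adjoin N A K t (hc i)) hrel

/-- Integrality over `K[t]` is stable under multiplication by nonzero constants of `O`
(in particular by powers of `π`): the converse of clearing. -/
theorem isIntegral_of_pow_mul_mem_chart {π : OK A K} (hπ0 : π ≠ 0) (t y : FK N K) (k : ℕ)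
    (hy : algebraMap (OK A K) (FK N K) π ^ k * y ∈ chart N A K t) :
    IsIntegral (Algebra.adjoin K ({t} : Set (FK N K))) y := by
  have h1 := isIntegral_of_mem_chart N A K t hy
  have hπK : ((π : K)) ≠ 0 := fun h => hπ0 (Subtype.ext h)
  have e : y = algebraMap K (FK N K) ((π : K)⁻¹ ^ k)
      * (algebraMap (OK A K) (FK N K) π ^ k * y) := by
    have e1 : algebraMap (OK A K) (FK N K) π = algebraMap K (FK N K) (π : K) := rfl
    rw [e1, ← map_pow, ← mul_assoc, ← map_mul, ← mul_pow, inv_mul_cancel₀ hπK, one_pow, map_one,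
      one_mul]
  rw [e]
  exact IsIntegral.mul (isIntegral_algebraMap (x := (⟨algebraMap K (FK N K) ((π : K)⁻¹ ^ k),
    Subalgebra.algebraMap_mem _ _⟩ : Algebra.adjoin K ({t} : Set (FK N K))))) h1

end Fermat.Agent.S36.ChartClear
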