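/-
S36 — ChartGlueInst.lean (helper117): the chart-level INSTANCES of `S36/ChartGlue.lean`
(transport between `chart t` and `chart t⁻¹` at the closed points `n ∌ t⁻¹` of `chart t⁻¹`),
in the exact shapes of the consumers.

* `glue_chart`          : `ChartGlue.Glue (chart N A K t) (chart N A K t⁻¹) t` for `t ≠ 0`;
* `CuspPt t n`          : the closed point `n` of `chart t⁻¹` is a cusp (`t⁻¹ ∈ n`);
* `hglue_chart`         : the hypothesis `hglue` of `TorInInst.locData_local` / `torOut` and of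
                          `ChartTorInst.exists_corrector_of_model3_glue`, with `D := CuspPt t`;
* `corr_Pc`, `le_Pc_iff`: the vertical ideals `Model3Asm.Pc` of the two charts correspond;
* `htripleInf_of_glue`, `htripleInf_of_one`, `hB1Inf_of_glue` :
                          the hypotheses `htripleInf` / `hB1_Inf` of
                          `Model3Leaves.model3_of_leaves` from `htriple0` / `hB1_0` (chart `t`)
                          and the same statements at the cusp points only;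
* `corr_model3`, `le_model3_iff`, `hone_iff_model3` : the same correspondence for the vertical
                          primes `Md.c0.P`, `Md.cInf.P` of a `Model3Plan.Model3`.
-/
import Mathlib
import Fermat.Agent.S34.ChartJ
import Fermat.Agent.S35.ResPt
import Fermat.Agent.S36.ChartGlue
import Fermat.Agent.S36.Model3Asm

set_option autoImplicit false

open ModularCurve AlgebraicCurve HahnSeries

namespace Fermat.Agent.S36.ChartGlueInst

open Fermat.Agent.S18.Arith Fermat.Agent.S34 Fermat.Agent.S36 Fermat.Agent.S36.Model3Plan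
  Fermat.Agent.S36.Model3Asm

variable {N : ℕ} [NeZero N] {A : ValuationSubring Qb} {K : IntermediateField ℚ Qb}

/-- The two charts `chart t`, `chart t⁻¹` glue along `t`. -/
theorem glue_chart {t : FK N K} (ht : t ≠ 0) :
    ChartGlue.Glue (chart N A K t) (chart N A K t⁻¹) t where
  t_mem := ChartJ.self_mem_chart N A K t
  tinv_mem := ChartJ.self_mem_chart N A K t⁻¹
  glue0 := fun _ hx => ChartJ.glue N A K ht hx
  glueInf := fun _ hx => ChartJ.glue' N A K ht hx

/-- The closed point `n` of `chart t⁻¹` is a cusp: `t⁻¹ ∈ n`. -/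
abbrev CuspPt (t : FK N K) (n : Ideal (chart N A K t⁻¹)) : Prop :=
  (⟨t⁻¹, ChartJ.self_mem_chart N A K t⁻¹⟩ : chart N A K t⁻¹) ∈ n

theorem cuspPt_iff (t : FK N K) (n : Ideal (chart N A K t⁻¹)) :
    CuspPt t n ↔ (⟨t⁻¹, ChartJ.self_mem_chart N A K t⁻¹⟩ : chart N A K t⁻¹) ∈ n := Iff.rfl

theorem not_in_of_not_cuspPt {t : FK N K} (ht : t ≠ 0) {n : Ideal (chart N A K t⁻¹)}
    (hD : ¬ CuspPt t n) : ¬ ChartGlue.In (chart N A K t⁻¹) n t⁻¹ :=
  (ChartGlue.not_in_iff (glue_chart ht) n).2 hD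

section Rat

variable [IsDiscreteValuationRing (OK A K)] [IsAlgClosed (IsLocalRing.ResidueField (OK A K))]

/-- **`hglue`** (the hypothesis of `TorInInst.locData_local`, `TorInInst.torOut` and
`ChartTorInst.exists_corrector_of_model3_glue`, with `D := CuspPt t`): a closed point of the
special fibre of `chart t⁻¹` which is not a cusp inherits `LocForm` from a closed point of the
special fibre of `chart t`. -/
theorem hglue_chart {t : FK N K} (ht : t ≠ 0) (π : OK A K) (hπ : Irreducible π) {ι : Type*}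
    (V : ι → ValuationSubring (FK N K)) (m : ℕ) :
    ∀ n : Ideal (chart N A K t⁻¹), n.IsMaximal →
      algebraMap (OK A K) (chart N A K t⁻¹) π ∈ n → ¬ CuspPt t n →
      ∃ n0 : Ideal (chart N A K t), n0.IsMaximal ∧ algebraMap (OK A K) (chart N A K t) π ∈ n0 ∧
        ∀ w : FK N K, AbsTopN.LocForm (chart N A K t) π V w m n0 →
          AbsTopN.LocForm (chart N A K t⁻¹) π V w m n := by
  intro n hn hπn hD
  obtain ⟨n0, h1, h2, _, h4⟩ :=
    ChartGlue.exists_contr_locForm (glue_chart ht) π V m n hn hπn hD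
      (fun x => Fermat.Agent.S35.ResPt.res_chart N A K t⁻¹ π hπ n hn hπn x)
  exact ⟨n0, h1, h2, h4⟩

/-- The glue-contraction of a non-cuspidal closed point of the special fibre of `chart t⁻¹`
is a closed point of the special fibre of `chart t`. -/
theorem contr_chart {t : FK N K} (ht : t ≠ 0) (π : OK A K) (hπ : Irreducible π)
    (n : Ideal (chart N A K t⁻¹)) (hn : n.IsMaximal)
    (hπn : algebraMap (OK A K) (chart N A K t⁻¹) π ∈ n) (hD : ¬ CuspPt t n) :
    (ChartGlue.contr (glue_chart ht) n).IsMaximal ∧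
      algebraMap (OK A K) (chart N A K t) π ∈ ChartGlue.contr (glue_chart ht) n := by
  have htn := not_in_of_not_cuspPt ht hD
  have := hn.isPrime
  exact ⟨ChartGlue.contr_isMaximal (glue_chart ht) n hn htn
      (fun x => Fermat.Agent.S35.ResPt.res_chart N A K t⁻¹ π hπ n hn hπn x),
    (ChartGlue.algebraMap_mem_contr_iff (glue_chart ht) n htn π).2 hπn⟩

end Rat

section Pc

variable {t : FK N K} (ϖ : Fin 3 → FK N K) (V : Fin 3 → ValuationSubring (FK N K))
  (hle0 : ∀ i : Fin 3, ∀ x ∈ chart N A K t, x ∈ V i)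
  (hleInf : ∀ i : Fin 3, ∀ x ∈ chart N A K t⁻¹, x ∈ V i)

/-- The vertical ideals `Pc` of the two charts correspond. -/
theorem corr_Pc (i : Fin 3) :
    ChartGlue.Corr t (Pc (chart N A K t) ϖ V hle0 i) (Pc (chart N A K t⁻¹) ϖ V hleInf i) :=
  ChartGlue.corr_of_val (V i) (ϖ i) (hle0 i t (ChartJ.self_mem_chart N A K t))
    (hleInf i t⁻¹ (ChartJ.self_mem_chart N A K t⁻¹)) _ _ (fun _ => Iff.rfl) (fun _ => Iff.rfl)

/-- The same branches pass through a non-cuspidal point `n` and through its contraction. -/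
theorem le_Pc_iff (ht : t ≠ 0) (n : Ideal (chart N A K t⁻¹)) [n.IsPrime] (hD : ¬ CuspPt t n)
    (i : Fin 3) :
    Pc (chart N A K t) ϖ V hle0 i ≤ ChartGlue.contr (glue_chart ht) n ↔
      Pc (chart N A K t⁻¹) ϖ V hleInf i ≤ n :=
  ChartGlue.le_contr_iff (glue_chart ht) n (not_in_of_not_cuspPt ht hD)
    (corr_Pc ϖ V hle0 hleInf i)

variable [IsDiscreteValuationRing (OK A K)] [IsAlgClosed (IsLocalRing.ResidueField (OK A K))]

/-- **`htripleInf`** of `Model3Leaves.model3_of_leaves` from `htriple0` (chart `t`) and the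
same statement at the cusp points of `chart t⁻¹`. -/
theorem htripleInf_of_glue (ht : t ≠ 0) (π : OK A K) (hπ : Irreducible π)
    (htriple0 : ∀ n : Ideal (chart N A K t), n.IsMaximal →
      algebraMap (OK A K) (chart N A K t) π ∈ n →
      Pc (chart N A K t) ϖ V hle0 0 ≤ n → Pc (chart N A K t) ϖ V hle0 1 ≤ n →
      Pc (chart N A K t) ϖ V hle0 2 ≤ n)
    (hcusp : ∀ n : Ideal (chart N A K t⁻¹), n.IsMaximal →
      algebraMap (OK A K) (chart N A K t⁻¹) π ∈ n → CuspPt t n →
      Pc (chart N A K t⁻¹) ϖ V hleInf 0 ≤ n → Pc (chart N A K t⁻¹) ϖ V hleInf 1 ≤ n →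
      Pc (chart N A K t⁻¹) ϖ V hleInf 2 ≤ n) :
    ∀ n : Ideal (chart N A K t⁻¹), n.IsMaximal →
      algebraMap (OK A K) (chart N A K t⁻¹) π ∈ n →
      Pc (chart N A K t⁻¹) ϖ V hleInf 0 ≤ n → Pc (chart N A K t⁻¹) ϖ V hleInf 1 ≤ n →
      Pc (chart N A K t⁻¹) ϖ V hleInf 2 ≤ n := by
  intro n hn hπn h0 h1
  by_cases hD : CuspPt t n
  · exact hcusp n hn hπn hD h0 h1
  · have := hn.isPrime
    obtain ⟨hmax, hπ0⟩ := contr_chart ht π hπ n hn hπn hD
    exact (le_Pc_iff ϖ V hle0 hleInf ht n hD 2).1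
      (htriple0 _ hmax hπ0 ((le_Pc_iff ϖ V hle0 hleInf ht n hD 0).2 h0)
        ((le_Pc_iff ϖ V hle0 hleInf ht n hD 1).2 h1))

/-- **`htripleInf`** of `Model3Leaves.model3_of_leaves` from `htriple0` (chart `t`) and the
one-branch property of the cusp points of `chart t⁻¹` ([CUSP1], the field `one` of
`ChartTorInst.TorInCusp` with `D := CuspPt t`). -/
theorem htripleInf_of_one (ht : t ≠ 0) (π : OK A K) (hπ : Irreducible π)
    (htriple0 : ∀ n : Ideal (chart N A K t), n.IsMaximal →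
      algebraMap (OK A K) (chart N A K t) π ∈ n →
      Pc (chart N A K t) ϖ V hle0 0 ≤ n → Pc (chart N A K t) ϖ V hle0 1 ≤ n →
      Pc (chart N A K t) ϖ V hle0 2 ≤ n)
    (hone : ∀ n : Ideal (chart N A K t⁻¹), n.IsMaximal →
      algebraMap (OK A K) (chart N A K t⁻¹) π ∈ n → CuspPt t n →
      ∀ i j, Pc (chart N A K t⁻¹) ϖ V hleInf i ≤ n → Pc (chart N A K t⁻¹) ϖ V hleInf j ≤ n →
        i = j) :
    ∀ n : Ideal (chart N A K t⁻¹), n.IsMaximal →
      algebraMap (OK A K) (chart N A K t⁻¹) π ∈ n →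
      Pc (chart N A K t⁻¹) ϖ V hleInf 0 ≤ n → Pc (chart N A K t⁻¹) ϖ V hleInf 1 ≤ n →
      Pc (chart N A K t⁻¹) ϖ V hleInf 2 ≤ n :=
  htripleInf_of_glue ϖ V hle0 hleInf ht π hπ htriple0 (fun n hn hπn hD h0 h1 =>
    absurd (hone n hn hπn hD 0 1 h0 h1) (by decide))

/-- **`hB1_Inf`** of `Model3Leaves.model3_of_leaves` from `hB1_0` (chart `t`) and the same
statement at the cusp points of `chart t⁻¹` ([N10]). -/
theorem hB1Inf_of_glue (ht : t ≠ 0) (π : OK A K) (hπ : Irreducible π)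
    (hB1_0 : ∀ n : Ideal (chart N A K t), n.IsMaximal →
      algebraMap (OK A K) (chart N A K t) π ∈ n → Pc (chart N A K t) ϖ V hle0 2 ≤ n →
      ∃ i : Fin 3, Pc (chart N A K t) ϖ V hle0 i ≤ n ∧
        ∃ g ∈ Pc (chart N A K t) ϖ V hle0 i, ∀ y ∈ Pc (chart N A K t) ϖ V hle0 i,
          ∃ s : chart N A K t, s ∉ n ∧ ∃ c : chart N A K t, s * y = c * g)
    (hcusp : ∀ n : Ideal (chart N A K t⁻¹), n.IsMaximal →
      algebraMap (OK A K) (chart N A K t⁻¹) π ∈ n → CuspPt t n →
      Pc (chart N A K t⁻¹) ϖ V hleInf 2 ≤ n →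
      ∃ i : Fin 3, Pc (chart N A K t⁻¹) ϖ V hleInf i ≤ n ∧
        ∃ g ∈ Pc (chart N A K t⁻¹) ϖ V hleInf i, ∀ y ∈ Pc (chart N A K t⁻¹) ϖ V hleInf i,
          ∃ s : chart N A K t⁻¹, s ∉ n ∧ ∃ c : chart N A K t⁻¹, s * y = c * g) :
    ∀ n : Ideal (chart N A K t⁻¹), n.IsMaximal →
      algebraMap (OK A K) (chart N A K t⁻¹) π ∈ n → Pc (chart N A K t⁻¹) ϖ V hleInf 2 ≤ n →
      ∃ i : Fin 3, Pc (chart N A K t⁻¹) ϖ V hleInf i ≤ n ∧
        ∃ g ∈ Pc (chart N A K t⁻¹) ϖ V hleInf i, ∀ y ∈ Pc (chart N A K t⁻¹) ϖ V hleInf i,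
          ∃ s : chart N A K t⁻¹, s ∉ n ∧ ∃ c : chart N A K t⁻¹, s * y = c * g := by
  intro n hn hπn h2
  by_cases hD : CuspPt t n
  · exact hcusp n hn hπn hD h2
  · have := hn.isPrime
    obtain ⟨hmax, hπ0⟩ := contr_chart ht π hπ n hn hπn hD
    obtain ⟨i, hi, hgen⟩ := hB1_0 _ hmax hπ0 ((le_Pc_iff ϖ V hle0 hleInf ht n hD 2).2 h2)
    exact ⟨i, (le_Pc_iff ϖ V hle0 hleInf ht n hD i).1 hi,
      ChartGlue.genAt_glue (glue_chart ht) n (not_in_of_not_cuspPt ht hD)
        (corr_Pc ϖ V hle0 hleInf i) hgen⟩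

end Pc

section Model

variable {π : OK A K} {e : Fin 3 → ℕ} {ϖ : Fin 3 → FK N K}
  {V : Fin 3 → ValuationSubring (FK N K)} {t : FK N K}

/-- The vertical primes of the two charts of a model correspond. -/
theorem corr_model3 (Md : Model3 N A K π e ϖ V t) (i : Fin 3) :
    ChartGlue.Corr t (Md.c0.P i) (Md.cInf.P i) :=
  ChartGlue.corr_of_val (V i) (ϖ i)
    (Md.c0.hyp.le i ⟨t, ChartJ.self_mem_chart N A K t⟩)
    (Md.cInf.hyp.le i ⟨t⁻¹, ChartJ.self_mem_chart N A K t⁻¹⟩) _ _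
    (fun r => Md.c0.hyp.mem_P i r) (fun r => Md.cInf.hyp.mem_P i r)

/-- The same branches of a model pass through a non-cuspidal point `n` of `chart t⁻¹` and
through its contraction to `chart t`. -/
theorem le_model3_iff (Md : Model3 N A K π e ϖ V t) (n : Ideal (chart N A K t⁻¹)) [n.IsPrime]
    (hD : ¬ CuspPt t n) (i : Fin 3) :
    Md.c0.P i ≤ ChartGlue.contr (glue_chart Md.t_ne) n ↔ Md.cInf.P i ≤ n :=
  ChartGlue.le_contr_iff (glue_chart Md.t_ne) n (not_in_of_not_cuspPt Md.t_ne hD)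
    (corr_model3 Md i)

/-- **`hglue` for a model** (`D := CuspPt t`), as consumed by `TorInInst.locData_local`. -/
theorem hglue_model3 [IsDiscreteValuationRing (OK A K)]
    [IsAlgClosed (IsLocalRing.ResidueField (OK A K))] (Md : Model3 N A K π e ϖ V t) (m : ℕ) :
    ∀ n : Ideal (chart N A K t⁻¹), n.IsMaximal →
      algebraMap (OK A K) (chart N A K t⁻¹) π ∈ n → ¬ CuspPt t n →
      ∃ n0 : Ideal (chart N A K t), n0.IsMaximal ∧ algebraMap (OK A K) (chart N A K t) π ∈ n0 ∧
        ∀ w : FK N K, AbsTopN.LocForm (chart N A K t) π V w m n0 →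
          AbsTopN.LocForm (chart N A K t⁻¹) π V w m n :=
  hglue_chart Md.t_ne π Md.irr V m

/-- The `triple` property of a model at the non-cuspidal closed points of `chart t⁻¹`, from
the same property on `chart t` (for completeness: the toric step only uses `chart t`). -/
theorem triple_model3 [IsDiscreteValuationRing (OK A K)]
    [IsAlgClosed (IsLocalRing.ResidueField (OK A K))] (Md : Model3 N A K π e ϖ V t)
    (htriple : ∀ n : Ideal (chart N A K t), n.IsMaximal →
      algebraMap (OK A K) (chart N A K t) π ∈ n →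
      ∀ i j, i ≠ j → Md.c0.P i ≤ n → Md.c0.P j ≤ n → ∀ l, Md.c0.P l ≤ n) :
    ∀ n : Ideal (chart N A K t⁻¹), n.IsMaximal →
      algebraMap (OK A K) (chart N A K t⁻¹) π ∈ n → ¬ CuspPt t n →
      ∀ i j, i ≠ j → Md.cInf.P i ≤ n → Md.cInf.P j ≤ n → ∀ l, Md.cInf.P l ≤ n := by
  intro n hn hπn hD i j hij hi hj l
  have := hn.isPrime
  obtain ⟨hmax, hπ0⟩ := contr_chart Md.t_ne π Md.irr n hn hπn hD
  exact (le_model3_iff Md n hD l).1
    (htriple _ hmax hπ0 i j hij ((le_model3_iff Md n hD i).2 hi)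
      ((le_model3_iff Md n hD j).2 hj) l)

end Model

end Fermat.Agent.S36.ChartGlueInst
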