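/-
S36 (Carayol), block [TORIC36] / [TOR-M], abstract piece "the reduction of `h` is a constant".
Owner: helper125.  Mathlib only.

For ANY field `k` (any characteristic), `k` is algebraically closed in `k((X))`:

* `PowerSeries` form: a power series algebraic over `k` is the constant `C (constantCoeff f)`;
* `LaurentSeries` form (stated with `HahnSeries.C`, independent of the choice of an `Algebra`
  instance): a Laurent series killed by a nonzero polynomial with constant coefficients is a
  constant `HahnSeries.C a`, and `a` is a root of the polynomial;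
* consequences: `x ^ m = C c`, `m ≠ 0` ⇒ `x = C a` with `a ^ m = c`
  (no hypothesis "`m` prime to the characteristic"), multiplicative and range forms,
  `IsAlgebraic` forms.

Proof: `constantCoeff : k⟦X⟧ → k` is a `k`-algebra homomorphism, so an algebraic power series
with zero constant term is a root of its minimal polynomial, whose constant term would be both
zero and nonzero; a nonzero algebraic Laurent series has order `0` (apply this to `x` or `x⁻¹`).
-/
import Mathlib

set_option autoImplicit false

noncomputable section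

namespace Fermat.Agent.S36.ConstRoot

open HahnSeries

variable {k : Type*} [Field k]

/-! ### Power series -/

/-- A power series with zero constant term which is integral over the field of constants is
zero. -/
theorem powerSeries_eq_zero_of_isIntegral (z : PowerSeries k) (hz : IsIntegral k z)
    (h0 : PowerSeries.constantCoeff z = 0) : z = 0 := by
  by_contra hne
  have hc : (minpoly k z).coeff 0 ≠ 0 := minpoly.coeff_zero_ne_zero hz hne
  have ha : Polynomial.aeval z (minpoly k z) = 0 := minpoly.aeval k z
  rw [Polynomial.aeval_def] at ha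
  have h1 := congrArg (PowerSeries.constantCoeff (R := k)) ha
  rw [Polynomial.hom_eval₂, map_zero, h0] at h1
  have hcomp : (PowerSeries.constantCoeff (R := k)).comp (algebraMap k (PowerSeries k)) =
      RingHom.id k := by
    ext a
    show PowerSeries.constantCoeff (PowerSeries.C a) = a
    exact PowerSeries.constantCoeff_C a
  rw [hcomp, Polynomial.eval₂_id, ← Polynomial.coeff_zero_eq_eval_zero] at h1
  exact hc h1

/-- **A power series algebraic over the field of constants is constant.** -/
theorem powerSeries_eq_C_of_isAlgebraic (f : PowerSeries k) (hf : IsAlgebraic k f) :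
    f = PowerSeries.C (PowerSeries.constantCoeff f) := by
  have hz : IsIntegral k (f - algebraMap k (PowerSeries k) (PowerSeries.constantCoeff f)) :=
    hf.isIntegral.sub isIntegral_algebraMap
  have h0 : PowerSeries.constantCoeff
      (f - algebraMap k (PowerSeries k) (PowerSeries.constantCoeff f)) = 0 := by
    rw [map_sub]
    show PowerSeries.constantCoeff f -
      PowerSeries.constantCoeff (PowerSeries.C (PowerSeries.constantCoeff f)) = 0
    rw [PowerSeries.constantCoeff_C, sub_self]
  have := powerSeries_eq_zero_of_isIntegral _ hz h0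
  exact sub_eq_zero.mp this

/-- Root form for power series. -/
theorem powerSeries_eq_C_of_root (p : Polynomial k) (hp : p ≠ 0) (f : PowerSeries k)
    (h : p.eval₂ (PowerSeries.C : k →+* PowerSeries k) f = 0) :
    f = PowerSeries.C (PowerSeries.constantCoeff f) := by
  apply powerSeries_eq_C_of_isAlgebraic
  refine ⟨p, hp, ?_⟩
  rw [Polynomial.aeval_def]
  exact h

/-! ### Laurent series -/

theorem ofPowerSeries_comp_C :
    (ofPowerSeries ℤ k).comp (PowerSeries.C : k →+* PowerSeries k) =
      (C : k →+* LaurentSeries k) := by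
  ext a : 1
  exact ofPowerSeries_C a

/-- evaluation of a constant-coefficient polynomial commutes with `ofPowerSeries` -/
theorem eval₂_ofPowerSeries (p : Polynomial k) (g : PowerSeries k) :
    p.eval₂ (C : k →+* LaurentSeries k) (ofPowerSeries ℤ k g) =
      ofPowerSeries ℤ k (p.eval₂ (PowerSeries.C : k →+* PowerSeries k) g) := by
  rw [Polynomial.hom_eval₂, ofPowerSeries_comp_C]

/-- A Laurent series of positive order is not a root of a nonzero polynomial with constant
coefficients. -/
theorem eval₂_ne_zero_of_order_pos (p : Polynomial k) (hp : p ≠ 0) (y : LaurentSeries k)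
    (hpos : 0 < y.order) : p.eval₂ (C : k →+* LaurentSeries k) y ≠ 0 := by
  intro hy
  have hy0 : y ≠ 0 := by
    rintro rfl
    simp at hpos
  obtain ⟨r, hr⟩ : ∃ r : ℕ, y.order = (r : ℤ) :=
    ⟨y.order.toNat, (Int.toNat_of_nonneg hpos.le).symm⟩
  have hr0 : r ≠ 0 := by
    rintro rfl
    rw [hr] at hpos
    simp at hpos
  have hy' : y = ofPowerSeries ℤ k (PowerSeries.X ^ r * y.powerSeriesPart) := by
    rw [map_mul, ofPowerSeries_X_pow, ← hr]
    exact (LaurentSeries.single_order_mul_powerSeriesPart y).symm
  rw [hy', eval₂_ofPowerSeries] at hy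
  have hg : p.eval₂ (PowerSeries.C : k →+* PowerSeries k)
      (PowerSeries.X ^ r * y.powerSeriesPart) = 0 :=
    ofPowerSeries_injective (Γ := ℤ) (hy.trans (map_zero _).symm)
  have h0 : PowerSeries.constantCoeff (PowerSeries.X ^ r * y.powerSeriesPart) = 0 := by
    rw [map_mul, map_pow, PowerSeries.constantCoeff_X, zero_pow hr0, zero_mul]
  have hz := powerSeries_eq_C_of_root p hp _ hg
  rw [h0, map_zero] at hz
  rw [hz, map_zero] at hy'
  exact hy0 hy'

/-- A Laurent series killed by a nonzero polynomial with constant coefficients has order `0`. -/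
theorem order_eq_zero_of_root (p : Polynomial k) (hp : p ≠ 0) (x : LaurentSeries k)
    (h : p.eval₂ (C : k →+* LaurentSeries k) x = 0) : x.order = 0 := by
  by_cases hx0 : x = 0
  · rw [hx0, order_zero]
  · rcases lt_trichotomy x.order 0 with hlt | heq | hgt
    · exfalso
      have hinv0 : x⁻¹ ≠ 0 := inv_ne_zero hx0
      have hord : (x⁻¹ * x).order = x⁻¹.order + x.order := order_mul hinv0 hx0
      rw [inv_mul_cancel₀ hx0, order_one] at hord
      let _ : Invertible x := invertibleOfNonzero hx0
      have hrev : p.reverse.eval₂ (C : k →+* LaurentSeries k) (⅟x) = 0 :=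
        (Polynomial.eval₂_reverse_eq_zero_iff _ x p).mpr h
      rw [invOf_eq_inv] at hrev
      exact eval₂_ne_zero_of_order_pos p.reverse (fun h0 => hp (Polynomial.reverse_eq_zero.mp h0))
        x⁻¹ (by omega) hrev
    · exact heq
    · exact absurd h (eval₂_ne_zero_of_order_pos p hp x hgt)

/-- **Root form: `k` is algebraically closed in `k((X))`.**  A Laurent series killed by a nonzero
polynomial with constant coefficients is a constant `C a`, and `a` is a root of the polynomial. -/
theorem exists_eq_C_of_root (p : Polynomial k) (hp : p ≠ 0) (x : LaurentSeries k)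
    (h : p.eval₂ (C : k →+* LaurentSeries k) x = 0) : ∃ a : k, x = C a ∧ p.eval a = 0 := by
  have hord := order_eq_zero_of_root p hp x h
  have hx' : x = ofPowerSeries ℤ k x.powerSeriesPart := by
    have h' := LaurentSeries.single_order_mul_powerSeriesPart x
    rw [hord] at h'
    have h1 : (single (0 : ℤ) (1 : k)) = 1 := rfl
    rw [h1, one_mul] at h'
    exact h'.symm
  have hg : p.eval₂ (PowerSeries.C : k →+* PowerSeries k) x.powerSeriesPart = 0 := by
    apply ofPowerSeries_injective (Γ := ℤ)
    rw [← eval₂_ofPowerSeries, ← hx', h, map_zero]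
  have hc := powerSeries_eq_C_of_root p hp _ hg
  have hxa : x = C (PowerSeries.constantCoeff x.powerSeriesPart) := by
    rw [← ofPowerSeries_C, ← hc]
    exact hx'
  refine ⟨PowerSeries.constantCoeff x.powerSeriesPart, hxa, ?_⟩
  have h2 : p.eval₂ (C : k →+* LaurentSeries k) (C (PowerSeries.constantCoeff x.powerSeriesPart)) =
      C (p.eval (PowerSeries.constantCoeff x.powerSeriesPart)) := by
    rw [Polynomial.eval, Polynomial.hom_eval₂, RingHom.comp_id]
  rw [hxa, h2] at h
  exact C_injective (h.trans (map_zero _).symm)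

/-- **`x ^ m` constant, `m ≠ 0` ⇒ `x` constant** (no condition relating `m` and the
characteristic of `k`). -/
theorem exists_eq_C_of_pow_eq_C {m : ℕ} (hm : m ≠ 0) (x : LaurentSeries k) (c : k)
    (hx : x ^ m = C c) : ∃ a : k, x = C a ∧ a ^ m = c := by
  have hp : (Polynomial.X ^ m - Polynomial.C c : Polynomial k) ≠ 0 :=
    Polynomial.X_pow_sub_C_ne_zero (Nat.pos_of_ne_zero hm) c
  have h : (Polynomial.X ^ m - Polynomial.C c : Polynomial k).eval₂
      (C : k →+* LaurentSeries k) x = 0 := by
    rw [Polynomial.eval₂_sub, Polynomial.eval₂_pow, Polynomial.eval₂_X, Polynomial.eval₂_C, hx,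
      sub_self]
  obtain ⟨a, ha, hroot⟩ := exists_eq_C_of_root _ hp x h
  refine ⟨a, ha, ?_⟩
  rw [Polynomial.eval_sub, Polynomial.eval_pow, Polynomial.eval_X, Polynomial.eval_C] at hroot
  exact sub_eq_zero.mp hroot

/-- Range form of `exists_eq_C_of_pow_eq_C`. -/
theorem mem_range_C_of_pow_mem_range_C {m : ℕ} (hm : m ≠ 0) (x : LaurentSeries k)
    (hx : x ^ m ∈ Set.range (C : k → LaurentSeries k)) :
    x ∈ Set.range (C : k → LaurentSeries k) := by
  obtain ⟨c, hc⟩ := hx
  obtain ⟨a, ha, -⟩ := exists_eq_C_of_pow_eq_C hm x c hc.symm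
  exact ⟨a, ha.symm⟩

/-- Multiplicative variant: `x ^ m = C c * y ^ m` with `y ≠ 0` ⇒ `x = C a * y`, `a ^ m = c`
("an `m`-th root of a constant multiple of an `m`-th power is a constant multiple of the root"). -/
theorem exists_eq_C_mul_of_pow_eq {m : ℕ} (hm : m ≠ 0) (x y : LaurentSeries k) (hy : y ≠ 0)
    (c : k) (hx : x ^ m = C c * y ^ m) : ∃ a : k, x = C a * y ∧ a ^ m = c := by
  have h : (x / y) ^ m = C c := by
    rw [div_pow, hx, mul_div_assoc, div_self (pow_ne_zero m hy), mul_one]
  obtain ⟨a, ha, ham⟩ := exists_eq_C_of_pow_eq_C hm (x / y) c h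
  refine ⟨a, ?_, ham⟩
  rw [← ha, div_mul_cancel₀ x hy]

/-- Integer-exponent variant. -/
theorem exists_eq_C_of_zpow_eq_C {m : ℤ} (hm : m ≠ 0) (x : LaurentSeries k) (c : k)
    (hx : x ^ m = C c) : ∃ a : k, x = C a ∧ a ^ m = c := by
  by_cases hx0 : x = 0
  · refine ⟨0, by rw [hx0, map_zero], ?_⟩
    rw [hx0, zero_zpow m hm] at hx
    rw [zero_zpow m hm]
    exact C_injective ((map_zero _).trans hx)
  · obtain ⟨n, rfl | rfl⟩ := Int.eq_nat_or_neg m
    · have hn : n ≠ 0 := by
        rintro rfl
        exact hm rfl
      rw [zpow_natCast] at hx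
      obtain ⟨a, ha, ham⟩ := exists_eq_C_of_pow_eq_C hn x c hx
      exact ⟨a, ha, by rw [zpow_natCast]; exact ham⟩
    · have hn : n ≠ 0 := by
        rintro rfl
        exact hm (by simp)
      rw [zpow_neg, zpow_natCast] at hx
      have hc0 : c ≠ 0 := by
        rintro rfl
        rw [map_zero] at hx
        exact pow_ne_zero n hx0 (inv_eq_zero.mp hx)
      have hx' : x ^ n = C c⁻¹ := by
        rw [map_inv₀, ← hx, inv_inv]
      obtain ⟨a, ha, ham⟩ := exists_eq_C_of_pow_eq_C hn x c⁻¹ hx'
      refine ⟨a, ha, ?_⟩
      rw [zpow_neg, zpow_natCast, ham, inv_inv]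

/-- Power series form of `exists_eq_C_of_pow_eq_C`. -/
theorem powerSeries_exists_eq_C_of_pow_eq_C {m : ℕ} (hm : m ≠ 0) (f : PowerSeries k) (c : k)
    (hf : f ^ m = PowerSeries.C c) : ∃ a : k, f = PowerSeries.C a ∧ a ^ m = c := by
  have h : (ofPowerSeries ℤ k f) ^ m = C c := by
    rw [← map_pow, hf, ofPowerSeries_C]
  obtain ⟨a, ha, ham⟩ := exists_eq_C_of_pow_eq_C hm _ c h
  refine ⟨a, ?_, ham⟩
  apply ofPowerSeries_injective (Γ := ℤ)
  rw [ha, ofPowerSeries_C]

/-! ### `IsAlgebraic` forms -/

/-- `IsAlgebraic` form for ANY algebra structure of `k((X))` over `k` whose structure map is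
`HahnSeries.C` (Mathlib carries two propositionally equal instances). -/
theorem exists_eq_C_of_isAlgebraic' [Algebra k (LaurentSeries k)]
    (halg : ∀ a : k, algebraMap k (LaurentSeries k) a = C a) (x : LaurentSeries k)
    (hx : IsAlgebraic k x) : ∃ a : k, x = C a := by
  obtain ⟨p, hp, hpx⟩ := hx
  rw [Polynomial.aeval_def] at hpx
  have hC : algebraMap k (LaurentSeries k) = (C : k →+* LaurentSeries k) := RingHom.ext halg
  rw [hC] at hpx
  obtain ⟨a, ha, -⟩ := exists_eq_C_of_root p hp x hpx
  exact ⟨a, ha⟩

/-- **A Laurent series algebraic over the field of constants is constant** (default `Algebra`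
instance). -/
theorem exists_eq_C_of_isAlgebraic (x : LaurentSeries k) (hx : IsAlgebraic k x) :
    ∃ a : k, x = C a :=
  exists_eq_C_of_isAlgebraic' (fun a => ofPowerSeries_C a) x hx

end Fermat.Agent.S36.ConstRoot

end
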