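/-
S36 — Corr3LiftB.lean (helper3): the LIFTING hypotheses `hL1`, `hL2`, `hCΦ` of
`Corr3.exists_corr` for the instance of record, WITHOUT a Frobenius element of `Gal(ℚ̄/ℚ)` and
WITHOUT any stability of the base field `K` (architect ruling (D) of #3185: `Plan.UnrBase` gives
only `BaseFacts q A K`, not a `σ` with `Stable K σ`).  B-copy of helper12's `S36/Corr3Lift.lean`
(same conclusions verbatim; the inputs `hσ : A.IsFrobeniusAt σ q`, `hK : Stable K σ` are replaced
by `hA : A.LiesOverPrime q`, `hB : BaseFacts q A K`).  `hL3` and `hroot` of `Corr3Lift` need no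
`σ` and are not repeated.

Method (the one of `S34/FrobTwist`): `k` = residue field of `A` (algebraically closed, so perfect),
`Φ = coeffMap (frobenius k q)` the coefficientwise Frobenius of `k((Q))`.

* `mem_fullC_of_gRel`  : every Gauss residue of an element of `F_K(M)` lies in `F_k(M)`
                         (`Branch.exists_frac_R0` + `ChartFacts.red`);
* `exists_frob_lift`   : every Gauss residue `y` of an element of `F_K(M)` is `Φ z` for a Gauss
                         residue `z` of an element of `F_K(M)` (`F_k(M)` is stable under the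
                         coefficientwise inverse Frobenius; `FrobTwist.exists_gRel_of_mem_fullC`);
* `exists_frob_lift_top` : the same starting from level `M q` (residue degree one:
                         `ResDeg.hf1`);
* `hCΦ`, `hL1`, `hL2`  : the three hypotheses, in the vocabulary of `S36/Corr3Red`.
-/
import Mathlib
import Fermat.Agent.S18.BaseRes
import Fermat.Agent.S34.FrobTwist
import Fermat.Agent.S34.ResDeg
import Fermat.Agent.S36.WQ2
import Fermat.Agent.S36.Corr3Red

set_option autoImplicit false

noncomputable section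

namespace Fermat.Agent.S36.Corr3LiftB

open ModularCurve HahnSeries AlgebraicCurve Fermat.Agent.S18 Fermat.Agent.S18.Arith
open Fermat.Agent.S18.ModelPlan Fermat.Agent.S34 Fermat.Agent.S34.Branch
open Fermat.Agent.S36.Corr3Red

/-! ### The coefficientwise inverse Frobenius -/

section Frob

variable (A : ValuationSubring Qb)

/-- The residue field of `A` is perfect. -/
theorem perfectRing_residueField (q : ℕ) [Fact q.Prime]
    [CharP (IsLocalRing.ResidueField A) q] : PerfectRing (IsLocalRing.ResidueField A) q := by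
  have : IsAlgClosed (IsLocalRing.ResidueField A) := BaseRes.isAlgClosed_residueField_Qb A
  exact PerfectField.toPerfectRing q

/-- The inverse Frobenius of the residue field, as a ring endomorphism. -/
def invFrob (q : ℕ) [Fact q.Prime] [CharP (IsLocalRing.ResidueField A) q] :
    IsLocalRing.ResidueField A →+* IsLocalRing.ResidueField A :=
  haveI := perfectRing_residueField A q
  ((frobeniusEquiv (IsLocalRing.ResidueField A) q).symm :
    IsLocalRing.ResidueField A →+* IsLocalRing.ResidueField A)

theorem frobenius_invFrob (q : ℕ) [Fact q.Prime] [CharP (IsLocalRing.ResidueField A) q]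
    (c : IsLocalRing.ResidueField A) :
    frobenius (IsLocalRing.ResidueField A) q (invFrob A q c) = c := by
  haveI := perfectRing_residueField A q
  exact frobenius_apply_frobeniusEquiv_symm (IsLocalRing.ResidueField A) q c

theorem coeffMap_frobenius_invFrob (q : ℕ) [Fact q.Prime]
    [CharP (IsLocalRing.ResidueField A) q] (y : LaurentSeries (IsLocalRing.ResidueField A)) :
    coeffMap (frobenius (IsLocalRing.ResidueField A) q) (coeffMap (invFrob A q) y) = y := by
  ext n
  rw [coeffMap_coeff, coeffMap_coeff]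
  exact frobenius_invFrob A q _

/-- **`hCΦ`**: constants have `q`-th roots among the constants (no Frobenius element needed). -/
theorem hCΦ {q : ℕ} [Fact q.Prime] [CharP (IsLocalRing.ResidueField A) q] :
    ∀ y : LaurentSeries (IsLocalRing.ResidueField A), Cst A y →
      ∃ z : LaurentSeries (IsLocalRing.ResidueField A), Cst A z ∧
        coeffMap (frobenius (IsLocalRing.ResidueField A) q) z = y := by
  rintro y ⟨c, rfl⟩
  refine ⟨C (invFrob A q c), cst_C _, ?_⟩
  have h : coeffMap (frobenius (IsLocalRing.ResidueField A) q)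
      (C (invFrob A q c) : LaurentSeries (IsLocalRing.ResidueField A))
      = C (frobenius (IsLocalRing.ResidueField A) q (invFrob A q c)) :=
    coeffMap_single _ _ _
  rw [h, frobenius_invFrob]

end Frob

/-! ### Residues at level `M` -/

section LevelM

variable (M : ℕ) [NeZero M] (q : ℕ) [Fact q.Prime] {A : ValuationSubring Qb}
  {K : IntermediateField ℚ Qb}

/-- Every Gauss residue of an element of `F_K(M)` lies in `F_k(M)`. -/
theorem mem_fullC_of_gRel (hqM : ¬ q ∣ M) (hA : A.LiesOverPrime q) (hB : BaseFacts q A K)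
    {y : LaurentSeries (IsLocalRing.ResidueField A)}
    (hy : ∃ x' : FK M K, GRel A ((x' : FK M K) : LaurentSeries Qb) y) :
    y ∈ modularFunctionFieldFullC (IsLocalRing.ResidueField A) M := by
  have hG := GRel.gRelStatement A
  have hM := ModelAll.modelStatement M q hqM A hA K hB
  obtain ⟨a, ha, d, hd, yd, hyd0, hdy, hay⟩ := exists_frac_R0 M q hqM hA hB hy
  obtain ⟨ρ, hρ, -, hFk⟩ := hM.c0.red
  have h1 : ρ ⟨a, ha⟩ = y * yd := hG.unique _ _ _ (hρ ⟨a, ha⟩) hay
  have h2 : ρ ⟨d, hd⟩ = yd := hG.unique _ _ _ (hρ ⟨d, hd⟩) hdy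
  have h3 : y * yd ∈ modularFunctionFieldFullC (IsLocalRing.ResidueField A) M := by
    rw [← h1]; exact hFk _
  have h4 : yd ∈ modularFunctionFieldFullC (IsLocalRing.ResidueField A) M := by
    rw [← h2]; exact hFk _
  have h5 : y = y * yd * yd⁻¹ := by
    rw [mul_assoc, mul_inv_cancel₀ hyd0, mul_one]
  rw [h5]
  exact mul_mem h3 (inv_mem h4)

/-- Every Gauss residue `y` of an element of `F_K(M)` is the coefficientwise Frobenius of a Gauss
residue of an element of `F_K(M)`. -/
theorem exists_frob_lift [CharP (IsLocalRing.ResidueField A) q] (hqM : ¬ q ∣ M)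
    (hA : A.LiesOverPrime q) (hB : BaseFacts q A K)
    {y : LaurentSeries (IsLocalRing.ResidueField A)}
    (hy : ∃ x' : FK M K, GRel A ((x' : FK M K) : LaurentSeries Qb) y) :
    ∃ (x₁ : FK M K) (z : LaurentSeries (IsLocalRing.ResidueField A)),
      coeffMap (frobenius (IsLocalRing.ResidueField A) q) z = y ∧
      GRel A ((x₁ : FK M K) : LaurentSeries Qb) z := by
  have h1 := mem_fullC_of_gRel M q hqM hA hB hy
  have h2 : coeffMap (invFrob A q) y ∈ modularFunctionFieldFullC (IsLocalRing.ResidueField A) M :=
    QExpFrac.coeffMap_mem_fullC (invFrob A q) M h1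
  obtain ⟨x₁, hx₁⟩ := FrobTwist.exists_gRel_of_mem_fullC (K := K) M hB.res_surj h2
  exact ⟨x₁, _, coeffMap_frobenius_invFrob A q y, hx₁⟩

end LevelM

/-! ### The lifts -/

section Lift

variable (M q : ℕ) [NeZero M] [NeZero q] (hq : q.Prime) (hqM : ¬ q ∣ M)
variable {A : ValuationSubring Qb} {K : IntermediateField ℚ Qb}

include hq hqM in
/-- Every Gauss residue `y` of an element of `F_K(M q)` is the coefficientwise Frobenius of a
Gauss residue of an element of `F_K(M)` (residue degree one + `exists_frob_lift`). -/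
theorem exists_frob_lift_top [Fact q.Prime] [CharP (IsLocalRing.ResidueField A) q]
    (hA : A.LiesOverPrime q) (hB : BaseFacts q A K) (x' : FK (M * q) K)
    (y : LaurentSeries (IsLocalRing.ResidueField A))
    (h : GRel A ((x' : FK (M * q) K) : LaurentSeries Qb) y) :
    ∃ (x₁ : FK M K) (z : LaurentSeries (IsLocalRing.ResidueField A)),
      coeffMap (frobenius (IsLocalRing.ResidueField A) q) z = y ∧
      GRel A ((x₁ : FK M K) : LaurentSeries Qb) z :=
  exists_frob_lift M q hqM hA hB (ResDeg.hf1 M q hq hqM hA hB x' y h)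

include hq hqM in
/-- **`hL1`**: a level-`M q` residue at `∞` is the Frobenius of the common residue, at `∞` and
along `E₃`, of a level-`M q²` function (`x = α α x₁`, `x₁` of level `M`). -/
theorem hL1 [Fact q.Prime] [CharP (IsLocalRing.ResidueField A) q]
    (hA : A.LiesOverPrime q) (hB : BaseFacts q A K)
    (E₃ : FK (M * q * q) K →+* LaurentSeries Qb)
    (hE₃α : ∀ u : FK (M * q) K, E₃ (WQ2.alphaK2 M q K u) = (u : LaurentSeries Qb)) :
    ∀ (x' : FK (M * q) K) (y : LaurentSeries (IsLocalRing.ResidueField A)),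
      (redOf A (FK (M * q) K).subtype).rel x' y → y ≠ 0 →
      ∃ (x : FK (M * q * q) K) (z : LaurentSeries (IsLocalRing.ResidueField A)),
        coeffMap (frobenius (IsLocalRing.ResidueField A) q) z = y ∧
        (redOf A (FK (M * q * q) K).subtype).rel x z ∧ (redOf A E₃).rel x z := by
  intro x' y h _
  obtain ⟨x₁, z, hz, hx₁⟩ := exists_frob_lift_top M q hq hqM hA hB x' y h
  refine ⟨WQ2.alphaK2 M q K (WK.alphaK M q K x₁), z, hz, ?_, ?_⟩
  · show GRel A ((WQ2.alphaK2 M q K (WK.alphaK M q K x₁) : FK (M * q * q) K) :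
      LaurentSeries Qb) z
    rw [WQ2.coe_alphaK2, WK.coe_alphaK]
    exact hx₁
  · show GRel A (E₃ (WQ2.alphaK2 M q K (WK.alphaK M q K x₁))) z
    rw [hE₃α, WK.coe_alphaK]
    exact hx₁

/-- **`hL2`**: a level-`M q` residue along `w_q` is the Frobenius of the residue along `w_{q²}`
of a level-`M q²` function (`x = w_{q²}⁻¹ (α α x₁)`, `x₁` of level `M`). -/
theorem hL2 [Fact q.Prime] [CharP (IsLocalRing.ResidueField A) q]
    (hA : A.LiesOverPrime q) (hB : BaseFacts q A K) :
    ∀ (x' : FK (M * q) K) (y : LaurentSeries (IsLocalRing.ResidueField A)),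
      (redOf A ((FK (M * q) K).subtype.comp
        (WK.wK M q hq hqM K : FK (M * q) K →+* FK (M * q) K))).rel x' y → y ≠ 0 →
      ∃ (x : FK (M * q * q) K) (z : LaurentSeries (IsLocalRing.ResidueField A)),
        coeffMap (frobenius (IsLocalRing.ResidueField A) q) z = y ∧
        (redOf A ((FK (M * q * q) K).subtype.comp
          (WQ2.wK2 M q hq hqM K : FK (M * q * q) K →+* FK (M * q * q) K))).rel x z := by
  intro x' y h _
  have h0 : GRel A ((WK.wK M q hq hqM K x' : FK (M * q) K) : LaurentSeries Qb) y := h
  obtain ⟨x₁, z, hz, hx₁⟩ := exists_frob_lift_top M q hq hqM hA hB _ y h0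
  refine ⟨(WQ2.wK2 M q hq hqM K).symm (WQ2.alphaK2 M q K (WK.alphaK M q K x₁)), z, hz, ?_⟩
  show GRel A ((WQ2.wK2 M q hq hqM K
    ((WQ2.wK2 M q hq hqM K).symm (WQ2.alphaK2 M q K (WK.alphaK M q K x₁))) :
      FK (M * q * q) K) : LaurentSeries Qb) z
  rw [RingEquiv.apply_symm_apply, WQ2.coe_alphaK2, WK.coe_alphaK]
  exact hx₁

end Lift

end Fermat.Agent.S36.Corr3LiftB

end
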