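/-
S36 — Corr3NF3.lean (helper127; [CORR36-inst], dealt by helper31, shapes fixed by helper43):
the `W3` side of the normal-form binders of `Corr3.exists_corr`, for the reduction relation
`r₃ = Corr3Red.redOf A ι` along a middle-cusp embedding `ι` (`H : V3.Hyp3 …`):

* `hs₃`  : `r₃.rel s 0`                                   (`s = Wit3.sE = j_{q²} - j`);
* `nf₃`  : `∀ x ≠ 0, ∃ a : ℤ, r₃.IsU (s ^ (-a) * x)`       (`W3` is discrete with uniformiser `s`);
* `hram` : `r₃.IsU (s ^ (q - 1) * π⁻¹)`                    (`π = s ^ (q - 1) · unit`);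
* `hπ₃`  : `r₃.rel π 0`, `hs0 : s ≠ 0`, `hπ0 : π ≠ 0`;

and the instance `ι = Iota3.iota3 M q K hq hqM ξ _ _` over `K(ξ)` (`V3.hyp3_iota3`, `BaseXi`),
for a uniformiser `p` of `O_K = A ∩ K` with `incO p = q` (`UnrBase`), and more generally for any
irreducible `p` of `O_K` (`hram_iota3_of_irreducible`).
-/
import Mathlib
import Fermat.Agent.S36.V3
import Fermat.Agent.S36.Corr3Red
import Fermat.Agent.S36.Corr3NF

set_option autoImplicit false

noncomputable section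

namespace Fermat.Agent.S36.Corr3NF3

open ModularCurve HahnSeries Fermat.Agent.S18.Arith Fermat.Agent.S18.ModelPlan
open Fermat.Agent.S36.Corr3Red

/-! ### Abstract form: any `H : V3.Hyp3` -/

section Abs

variable {M q : ℕ} [NeZero M] [NeZero q] {hq : q.Prime} {hqM : ¬ q ∣ M}
variable {A : ValuationSubring Qb} {K K' : IntermediateField ℚ Qb}
variable {ξ : Qb} {hξ0 : ξ ≠ 0} {ι : FK (M * q * q) K →+* LaurentSeries Qb} {ϖ : OK A K'}

/-- `hs₃`: `s = j_{q²} - j` has reduction `0` along `ι`. -/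
theorem hs₃ (H : V3.Hyp3 M q hq hqM A K K' ξ hξ0 ι ϖ) :
    (redOf A ι).rel (Wit3.sE M q hq hqM K) 0 :=
  GaussE.gRel_unif H.irr H.unif

/-- `hs0`: `s ≠ 0`. -/
theorem hs0 (H : V3.Hyp3 M q hq hqM A K K' ξ hξ0 ι ϖ) : Wit3.sE M q hq hqM K ≠ 0 :=
  H.s_ne_zero

/-- **`nf₃`**: every nonzero `x` is `s ^ a · unit` along `ι`. -/
theorem nf₃ (H : V3.Hyp3 M q hq hqM A K K' ξ hξ0 ι ϖ) :
    ∀ x : FK (M * q * q) K, x ≠ 0 →
      ∃ a : ℤ, (redOf A ι).IsU (Wit3.sE M q hq hqM K ^ (-a) * x) := by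
  intro x hx
  obtain ⟨γ, h1, h2⟩ := GaussE.exists_zpow_mul_unit H.emb H.dvr' H.irr H.unif x hx
  refine ⟨γ, ?_⟩
  rw [mul_comm (Wit3.sE M q hq hqM K ^ (-γ)) x]
  exact Corr3NF.isU_of_mem ι _ (mul_ne_zero hx (zpow_ne_zero _ H.s_ne_zero)) h1 h2

/-- **`hram`**: `s ^ (q - 1) / π` is a unit along `ι`, as soon as `π = ϖ ^ (q - 1) · unit` in
`A` (`BaseXi.exists_unit`). -/
theorem hram (H : V3.Hyp3 M q hq hqM A K K' ξ hξ0 ι ϖ) (p : OK A K)
    (hpϖ : ∃ u : A, IsUnit u ∧ incO A K p = incO A K' ϖ ^ (q - 1) * (u : Qb)) :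
    (redOf A ι).IsU (Wit3.sE M q hq hqM K ^ (q - 1) *
      (algebraMap (OK A K) (FK (M * q * q) K) p)⁻¹) := by
  obtain ⟨u, hu, hu', hpu⟩ := H.ram p hpϖ
  have hs0 := H.s_ne_zero
  have hp0 : algebraMap (OK A K) (FK (M * q * q) K) p ≠ 0 := by
    intro h0
    have h1 : ι (algebraMap (OK A K) (FK (M * q * q) K) p) = 0 := by rw [h0, map_zero]
    obtain ⟨v, hv, hpv⟩ := hpϖ
    have h2 : incO A K p = 0 := by
      have h3 := H.emb.const p
      rw [h1] at h3
      apply HahnSeries.C_injective (Γ := ℤ)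
      rw [← h3, map_zero]
    rw [h2, H.coe_unif] at hpv
    rcases mul_eq_zero.mp hpv.symm with h4 | h4
    · exact H.xi_ne (sub_eq_zero.mp
        ((pow_eq_zero_iff (Nat.sub_ne_zero_of_lt hq.one_lt)).mp h4)).symm
    · exact hv.ne_zero (Subtype.ext h4)
  have hu0 : u ≠ 0 := by
    rintro rfl
    rw [mul_zero] at hpu
    exact hp0 hpu
  have hkey : Wit3.sE M q hq hqM K ^ (q - 1) *
      (algebraMap (OK A K) (FK (M * q * q) K) p)⁻¹ = u⁻¹ := by
    rw [hpu]
    field_simp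
  rw [hkey]
  refine Corr3NF.isU_of_mem ι _ (inv_ne_zero hu0) hu' ?_
  rw [inv_inv]
  exact hu

/-- `hπ₃`: a non-unit constant has reduction `0` along `ι`. -/
theorem hπ₃ (H : V3.Hyp3 M q hq hqM A K K' ξ hξ0 ι ϖ) (p : OK A K) (hp : ¬ IsUnit p) :
    (redOf A ι).rel (algebraMap (OK A K) (FK (M * q * q) K) p) 0 := by
  show GRel A (ι (algebraMap (OK A K) (FK (M * q * q) K) p)) 0
  rw [H.emb.const p]
  exact Fermat.Agent.S18.ModelRed.gRel_pi (gFacts A) p hp

/-- `r₃.rel c (C (res c))` for the constants of `O_K`. -/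
theorem rel_const (H : V3.Hyp3 M q hq hqM A K K' ξ hξ0 ι ϖ) (c : OK A K) :
    (redOf A ι).rel (algebraMap (OK A K) (FK (M * q * q) K) c) (C (resO A K c)) := by
  show GRel A (ι (algebraMap (OK A K) (FK (M * q * q) K) c)) _
  rw [H.emb.const c]
  exact Fermat.Agent.S18.ModelRed.gRel_const K (gFacts A) c

end Abs

/-! ### The instance `ι = Iota3.iota3` over `K(ξ)` -/

section Inst

variable {M q : ℕ} [NeZero M] [NeZero q] (hq : q.Prime) (hqM : ¬ q ∣ M)
variable (A : ValuationSubring Qb) {K : IntermediateField ℚ Qb}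
variable (hdvr : IsDiscreteValuationRing (OK A K))
variable (p : OK A K) (hp : Irreducible p) (hpq : incO A K p = (q : Qb))
variable {ξ : Qb} (hξ : IsPrimitiveRoot ξ q)

include hdvr hp hpq in
/-- `hs₃` for `Iota3.iota3`. -/
theorem hs₃_iota3 :
    (redOf A (Iota3.iota3 M q K hq hqM ξ hξ.pow_eq_one (hξ.ne_one hq.one_lt))).rel
      (Wit3.sE M q hq hqM K) 0 :=
  hs₃ (V3.hyp3_iota3 hq hqM A hdvr p hp hpq hξ)

include hdvr hp hpq in
/-- **`nf₃` for `Iota3.iota3`.** -/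
theorem nf₃_iota3 :
    ∀ x : FK (M * q * q) K, x ≠ 0 → ∃ a : ℤ,
      (redOf A (Iota3.iota3 M q K hq hqM ξ hξ.pow_eq_one (hξ.ne_one hq.one_lt))).IsU
        (Wit3.sE M q hq hqM K ^ (-a) * x) :=
  nf₃ (V3.hyp3_iota3 hq hqM A hdvr p hp hpq hξ)

include hdvr hp hpq in
/-- **`hram` for `Iota3.iota3`**, `π = p` with `incO p = q`. -/
theorem hram_iota3 :
    (redOf A (Iota3.iota3 M q K hq hqM ξ hξ.pow_eq_one (hξ.ne_one hq.one_lt))).IsU
      (Wit3.sE M q hq hqM K ^ (q - 1) * (algebraMap (OK A K) (FK (M * q * q) K) p)⁻¹) :=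
  hram (V3.hyp3_iota3 hq hqM A hdvr p hp hpq hξ) p (BaseXi.exists_unit hq p hp hpq hξ)

include hdvr hp hpq in
/-- **`hram` for `Iota3.iota3`** and ANY irreducible `p'` of `O_K` (`p` with `incO p = q` is
only used to build the ramified base). -/
theorem hram_iota3_of_irreducible (p' : OK A K) (hp' : Irreducible p') :
    (redOf A (Iota3.iota3 M q K hq hqM ξ hξ.pow_eq_one (hξ.ne_one hq.one_lt))).IsU
      (Wit3.sE M q hq hqM K ^ (q - 1) * (algebraMap (OK A K) (FK (M * q * q) K) p')⁻¹) := by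
  refine hram (V3.hyp3_iota3 hq hqM A hdvr p hp hpq hξ) p'
    (BaseXi.exists_unit_of_valuation hq hp' ?_ hξ)
  -- `v(p') = v(p) = v(q)`: two irreducible elements of a discrete valuation ring are associated
  have := hdvr
  obtain ⟨u, hu⟩ := (IsDiscreteValuationRing.associated_of_irreducible (OK A K) hp' hp)
  rw [← hpq, ← hu, map_mul, map_mul, BaseXi.valuation_unit A K u, mul_one]

include hdvr hp hpq in
/-- `hπ₃` for `Iota3.iota3`. -/
theorem hπ₃_iota3 (p' : OK A K) (hp' : ¬ IsUnit p') :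
    (redOf A (Iota3.iota3 M q K hq hqM ξ hξ.pow_eq_one (hξ.ne_one hq.one_lt))).rel
      (algebraMap (OK A K) (FK (M * q * q) K) p') 0 :=
  hπ₃ (V3.hyp3_iota3 hq hqM A hdvr p hp hpq hξ) p' hp'

end Inst

end Fermat.Agent.S36.Corr3NF3
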