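/-
S36 — Corr3WA.lean (helper126).  [CORR36-inst], slice `hVal` + `hWA` (dealt by helper31 /
helper43): the two WEAK-APPROXIMATION hypotheses of `Corr3.exists_corr` /
`Corr3NVal.exists_corr_nv` for the instance of record at level `N = M * q * q`
(`q` prime, `q ∤ M`), in the vocabulary of `S36/Corr3Red` (`redOf A E`, `rel x y := GRel A (E x) y`).

The three reductions of record on `F_K = FK (M * q * q) K`:

  `r₁ = redOf A (subtype)`            (`q`-expansion at `∞`;        valuation ring `GaussV.V1`)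
  `r₂ = redOf A (subtype ∘ wK2)`      (its twist by `w_{q²}`;        valuation ring `GaussV.V2 wK2`)
  `r₃ = redOf A ι`                    (middle-cusp expansion `ι`;    valuation ring `H.W3`,
                                         `H : V3.Hyp3 …`),

with uniformisers `π` (the image of an irreducible `p ∈ O = A ∩ K`), `π`, and `s = Wit3.sE`
(`= j_{q²} - j`).  Inputs: `H : V3.Hyp3 …`, the ramification hypothesis of `V3.Hyp3.ram`
(`p = ϖ ^ (q - 1) · unit` in `A`), and the field `Model3.val` of the model of record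
(`Model3Plan.ValHyp3 π (ram q) ![π, π, s] ![V1, V2, W3]`, = the conclusion of `Val3.valHyp3`),
which supplies a separating family (`Approx3B.exists_sep`).

* `Ex`, `mem_iff`            : the three expansions as a `Fin 3`-family, and
                               `x ∈ ![V1, V2, W3] i ↔ ∃ y, GRel A (Ex i x) y`;
* `gRel_pi_all`              : `π ↦ 0` along the three expansions;
* `gRel_s3`                  : `s ↦ 0` along `ι`;
* `gRel_small12`, `gRel_small3` : `π ^ n · (π ^ b)⁻¹ ↦ 0` for `b < n` (along any expansion with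
                               `π ↦ 0`), and `π ^ n · (s ^ b)⁻¹ ↦ 0` along `ι` for `b < n`;
* `hWA`                      : the binder `hWA` of `Corr3NVal.exists_corr_nv`, verbatim
                               (prescribed residues);
* `hVal`                     : the binder `hVal` of `Corr3NVal.exists_corr_nv`, verbatim
                               (prescribed valuations), with residue `1` in fact (`hVal_one`).

Engine: `Corr3NF.exists_rel`, `Corr3NF.exists_rel_one` (helper43) over `ApproxN.exists_approx`.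
-/
import Mathlib
import Fermat.Agent.S34.GaussV
import Fermat.Agent.S36.WQ2
import Fermat.Agent.S36.Wit3
import Fermat.Agent.S36.V3
import Fermat.Agent.S36.Model3Plan
import Fermat.Agent.S36.Approx3B
import Fermat.Agent.S36.Corr3Red
import Fermat.Agent.S36.Corr3NF

set_option autoImplicit false

noncomputable section

namespace Fermat.Agent.S36.Corr3WA

open ModularCurve HahnSeries AlgebraicCurve
open Fermat.Agent.S18 Fermat.Agent.S18.Arith Fermat.Agent.S18.ModelPlan Fermat.Agent.S18.ModelRed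
open Fermat.Agent.S34 Fermat.Agent.S36 Fermat.Agent.S36.Corr3Red

/-! ### Generic: small elements along one expansion -/

section Generic

variable {A : ValuationSubring Qb} {F : Type*} [Field F]

/-- A positive power of an element of reduction `0` has reduction `0`. -/
theorem gRel_pow_zero (E : F →+* LaurentSeries Qb) {x : F} (hx : GRel A (E x) 0) {n : ℕ}
    (hn : n ≠ 0) : GRel A (E (x ^ n)) 0 :=
  (redOf A E).rel_pow_zero hx hn

/-- `π ^ n · (π ^ b)⁻¹ ↦ 0` as soon as `b < n` and `π ↦ 0`. -/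
theorem gRel_small12 (E : F →+* LaurentSeries Qb) {π : F} (hπ0 : π ≠ 0) (hπ : GRel A (E π) 0)
    (n : ℕ) (b : ℤ) (hb : b < n) : GRel A (E (π ^ n * (π ^ b)⁻¹)) 0 := by
  obtain ⟨k, hk⟩ := Int.eq_ofNat_of_zero_le (show (0 : ℤ) ≤ (n : ℤ) - b by omega)
  have hk0 : k ≠ 0 := by
    rintro rfl
    rw [Nat.cast_zero] at hk
    omega
  have e : π ^ n * (π ^ b)⁻¹ = π ^ k := by
    rw [← zpow_natCast π n, ← zpow_neg, ← zpow_add₀ hπ0, ← sub_eq_add_neg, hk, zpow_natCast]
  rw [e]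
  exact gRel_pow_zero E hπ hk0

/-- `π ^ n · (s ^ b)⁻¹ ↦ 0` as soon as `b < n`, `s ↦ 0` and `π = s ^ e · u` with `1 ≤ e` and `u`
integral along `E`. -/
theorem gRel_small3 (E : F →+* LaurentSeries Qb) {π s u : F} (hs0 : s ≠ 0)
    (hs : GRel A (E s) 0) {e : ℕ} (he : 1 ≤ e)
    (hu : ∃ y, GRel A (E u) y) (hπu : π = s ^ e * u)
    (n : ℕ) (b : ℤ) (hb : b < n) : GRel A (E (π ^ n * (s ^ b)⁻¹)) 0 := by
  have hen : (n : ℤ) ≤ ((e * n : ℕ) : ℤ) := by
    have : n ≤ e * n := Nat.le_mul_of_pos_left n he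
    exact_mod_cast this
  obtain ⟨k, hk⟩ := Int.eq_ofNat_of_zero_le (show (0 : ℤ) ≤ ((e * n : ℕ) : ℤ) - b by omega)
  have hk0 : k ≠ 0 := by
    rintro rfl
    rw [Nat.cast_zero] at hk
    omega
  have e1 : π ^ n * (s ^ b)⁻¹ = s ^ k * u ^ n := by
    have h1 : (s ^ e) ^ n * (s ^ b)⁻¹ = s ^ k := by
      rw [← pow_mul, ← zpow_natCast s (e * n), ← zpow_neg, ← zpow_add₀ hs0, ← sub_eq_add_neg,
        hk, zpow_natCast]
    rw [hπu, mul_pow, mul_right_comm, h1]
  obtain ⟨y, hy⟩ := hu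
  rw [e1, map_mul]
  have h2 := (gFacts A).mul _ _ _ _ (gRel_pow_zero E hs hk0) ((redOf A E).pow hy n)
  rwa [zero_mul] at h2

end Generic

/-! ### The instance at level `M * q * q` -/

section Level

variable (M q : ℕ) [NeZero M] [NeZero q] (hq : q.Prime) (hqM : ¬ q ∣ M)
variable {A : ValuationSubring Qb} {K K' : IntermediateField ℚ Qb}
variable {ξ : Qb} {hξ0 : ξ ≠ 0} {ι : FK (M * q * q) K →+* LaurentSeries Qb} {ϖ : OK A K'}

/-- The three expansions of record: at `∞`, its `w_{q²}`-twist, the middle cusp. -/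
def Ex (ι : FK (M * q * q) K →+* LaurentSeries Qb) :
    Fin 3 → (FK (M * q * q) K →+* LaurentSeries Qb) :=
  ![(FK (M * q * q) K).subtype,
    (FK (M * q * q) K).subtype.comp
      (WQ2.wK2 M q hq hqM K : FK (M * q * q) K →+* FK (M * q * q) K),
    ι]

variable {M q hq hqM}

/-- The three valuation rings of record are the Gauss rings of the three expansions. -/
theorem mem_iff (H : V3.Hyp3 M q hq hqM A K K' ξ hξ0 ι ϖ)
    (hdvr : IsDiscreteValuationRing (OK A K)) (i : Fin 3) (x : FK (M * q * q) K) :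
    x ∈ (![GaussV.V1 (M * q * q) A K hdvr, GaussV.V2 (WQ2.wK2 M q hq hqM K) hdvr, H.W3] :
        Fin 3 → ValuationSubring (FK (M * q * q) K)) i
      ↔ ∃ y, GRel A (Ex M q hq hqM ι i x) y := by
  fin_cases i
  · exact Iff.rfl
  · exact Iff.rfl
  · exact Iff.rfl

/-- `π ↦ 0` along the three expansions. -/
theorem gRel_pi_all (H : V3.Hyp3 M q hq hqM A K K' ξ hξ0 ι ϖ) (p : OK A K)
    (hp : Irreducible p) (i : Fin 3) :
    GRel A (Ex M q hq hqM ι i (algebraMap (OK A K) (FK (M * q * q) K) p)) 0 := by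
  have h0 : GRel A (C (incO A K p) : LaurentSeries Qb) 0 := gRel_pi (gFacts A) p hp.not_isUnit
  fin_cases i
  · exact h0
  · show GRel A ((WQ2.wK2 M q hq hqM K (algebraMap (OK A K) (FK (M * q * q) K) p) :
      FK (M * q * q) K) : LaurentSeries Qb) 0
    rw [WQ2.wK2_algebraMap_OK]
    exact h0
  · show GRel A (ι (algebraMap (OK A K) (FK (M * q * q) K) p)) 0
    rw [H.emb.const p]
    exact h0

/-- `s = j_{q²} - j ↦ 0` along the middle-cusp expansion. -/
theorem gRel_s3 (H : V3.Hyp3 M q hq hqM A K K' ξ hξ0 ι ϖ) :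
    GRel A (ι (Wit3.sE M q hq hqM K)) 0 := by
  have h := H.gRel_red3 ⟨Wit3.sE M q hq hqM K, H.s_mem⟩
  rwa [H.red3_s] at h

/-- **`hWA`** (the binder of `Corr3NVal.exists_corr_nv`, verbatim): prescribed residues along the
three reductions of record. -/
theorem hWA (H : V3.Hyp3 M q hq hqM A K K' ξ hξ0 ι ϖ)
    (hdvr : IsDiscreteValuationRing (OK A K)) (p : OK A K) (hp : Irreducible p)
    (hval : Model3Plan.ValHyp3 (algebraMap (OK A K) (FK (M * q * q) K) p) (Model3Plan.ram q)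
      ![algebraMap (OK A K) (FK (M * q * q) K) p, algebraMap (OK A K) (FK (M * q * q) K) p,
        Wit3.sE M q hq hqM K]
      ![GaussV.V1 (M * q * q) A K hdvr, GaussV.V2 (WQ2.wK2 M q hq hqM K) hdvr, H.W3]) :
    ∀ (Y₁ Y₂ Y₃ : FK (M * q * q) K) (y₁ y₂ y₃ : LaurentSeries (IsLocalRing.ResidueField A)),
      (redOf A (FK (M * q * q) K).subtype).rel Y₁ y₁ →
      (redOf A ((FK (M * q * q) K).subtype.comp
        (WQ2.wK2 M q hq hqM K : FK (M * q * q) K →+* FK (M * q * q) K))).rel Y₂ y₂ →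
      (redOf A ι).rel Y₃ y₃ →
      ∃ Hh : FK (M * q * q) K, (redOf A (FK (M * q * q) K).subtype).rel Hh y₁ ∧
        (redOf A ((FK (M * q * q) K).subtype.comp
          (WQ2.wK2 M q hq hqM K : FK (M * q * q) K →+* FK (M * q * q) K))).rel Hh y₂ ∧
        (redOf A ι).rel Hh y₃ := by
  intro Y₁ Y₂ Y₃ y₁ y₂ y₃ h1 h2 h3
  obtain ⟨s, hS⟩ := Approx3B.exists_sep hval
  have hπ0 : algebraMap (OK A K) (FK (M * q * q) K) p ≠ 0 :=
    GaussV.algebraMap_ne_zero (M * q * q) A K hp.ne_zero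
  have hY : ∀ i : Fin 3, GRel A (Ex M q hq hqM ι i ((![Y₁, Y₂, Y₃] : Fin 3 → FK (M * q * q) K) i))
      ((![y₁, y₂, y₃] : Fin 3 → LaurentSeries (IsLocalRing.ResidueField A)) i) := by
    intro i
    fin_cases i
    · exact h1
    · exact h2
    · exact h3
  obtain ⟨Hh, hH⟩ := Corr3NF.exists_rel (mem_iff H hdvr) hS
    (algebraMap (OK A K) (FK (M * q * q) K) p) hπ0 (gRel_pi_all H p hp) ![Y₁, Y₂, Y₃]
    ![y₁, y₂, y₃] hY
  exact ⟨Hh, hH 0, hH 1, hH 2⟩

/-- **`hVal`, sharp form**: for prescribed exponents `b₁ b₂ b₃` there is `Hh ≠ 0` with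
`π ^ (-b₁) Hh ↦ 1`, `π ^ (-b₂) Hh ↦ 1` (along `w_{q²}`), `s ^ (-b₃) Hh ↦ 1` (along `ι`). -/
theorem hVal_one (H : V3.Hyp3 M q hq hqM A K K' ξ hξ0 ι ϖ)
    (hdvr : IsDiscreteValuationRing (OK A K)) (p : OK A K) (hp : Irreducible p)
    (hpϖ : ∃ u : A, IsUnit u ∧ incO A K p = incO A K' ϖ ^ (q - 1) * (u : Qb))
    (hval : Model3Plan.ValHyp3 (algebraMap (OK A K) (FK (M * q * q) K) p) (Model3Plan.ram q)
      ![algebraMap (OK A K) (FK (M * q * q) K) p, algebraMap (OK A K) (FK (M * q * q) K) p,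
        Wit3.sE M q hq hqM K]
      ![GaussV.V1 (M * q * q) A K hdvr, GaussV.V2 (WQ2.wK2 M q hq hqM K) hdvr, H.W3])
    (b₁ b₂ b₃ : ℤ) :
    ∃ Hh : FK (M * q * q) K, Hh ≠ 0 ∧
      (redOf A (FK (M * q * q) K).subtype).rel
        (algebraMap (OK A K) (FK (M * q * q) K) p ^ (-b₁) * Hh) 1 ∧
      (redOf A ((FK (M * q * q) K).subtype.comp
        (WQ2.wK2 M q hq hqM K : FK (M * q * q) K →+* FK (M * q * q) K))).rel
        (algebraMap (OK A K) (FK (M * q * q) K) p ^ (-b₂) * Hh) 1 ∧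
      (redOf A ι).rel (Wit3.sE M q hq hqM K ^ (-b₃) * Hh) 1 := by
  obtain ⟨s, hS⟩ := Approx3B.exists_sep hval
  set π : FK (M * q * q) K := algebraMap (OK A K) (FK (M * q * q) K) p with hπdef
  have hπ0 : π ≠ 0 := GaussV.algebraMap_ne_zero (M * q * q) A K hp.ne_zero
  have hs0 : Wit3.sE M q hq hqM K ≠ 0 := H.s_ne_zero
  -- the precision
  obtain ⟨n, hn1, hn2, hn3⟩ : ∃ n : ℕ, b₁ < n ∧ b₂ < n ∧ b₃ < n := by
    refine ⟨(max b₁ (max b₂ b₃)).toNat + 1, ?_, ?_, ?_⟩ <;>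
    · have h := Int.self_le_toNat (max b₁ (max b₂ b₃))
      have h1 := le_max_left b₁ (max b₂ b₃)
      have h2 := le_max_right b₁ (max b₂ b₃)
      have h3 := le_max_left b₂ b₃
      have h4 := le_max_right b₂ b₃
      push_cast
      omega
  have hπn0 : π ^ n ≠ 0 := pow_ne_zero n hπ0
  have hpne : ∀ i : Fin 3,
      (![π ^ b₁, π ^ b₂, Wit3.sE M q hq hqM K ^ b₃] : Fin 3 → FK (M * q * q) K) i ≠ 0 := by
    intro i
    fin_cases i
    · exact zpow_ne_zero b₁ hπ0
    · exact zpow_ne_zero b₂ hπ0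
    · exact zpow_ne_zero b₃ hs0
  obtain ⟨u, hu, -, hπu⟩ := H.ram p hpϖ
  have hq1 : 1 ≤ q - 1 := by have := hq.two_le; omega
  have hsmall : ∀ i : Fin 3, GRel A (Ex M q hq hqM ι i (π ^ n *
      ((![π ^ b₁, π ^ b₂, Wit3.sE M q hq hqM K ^ b₃] : Fin 3 → FK (M * q * q) K) i)⁻¹)) 0 := by
    intro i
    fin_cases i
    · exact gRel_small12 _ hπ0 (gRel_pi_all H p hp 0) n b₁ hn1
    · exact gRel_small12 _ hπ0 (gRel_pi_all H p hp 1) n b₂ hn2
    · exact gRel_small3 (Ex M q hq hqM ι 2) hs0 (gRel_s3 H) hq1 (H.mem_W3_iff.1 hu) hπu n b₃ hn3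
  obtain ⟨Hh, hH⟩ := Corr3NF.exists_rel_one (mem_iff H hdvr) hS (π ^ n) hπn0
    ![π ^ b₁, π ^ b₂, Wit3.sE M q hq hqM K ^ b₃] hpne hsmall
  have e1 := hH 0
  have e2 := hH 1
  have e3 := hH 2
  have hH0 : Hh ≠ 0 := by
    rintro rfl
    have h0 : GRel A (Ex M q hq hqM ι 0 (((![π ^ b₁, π ^ b₂, Wit3.sE M q hq hqM K ^ b₃] :
        Fin 3 → FK (M * q * q) K) 0)⁻¹ * 0)) 0 := by
      rw [mul_zero, map_zero]
      exact gRel_zero (gFacts A)
    exact one_ne_zero ((gFacts A).unique _ _ _ e1 h0)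
  refine ⟨Hh, hH0, ?_, ?_, ?_⟩
  · rw [zpow_neg]; exact e1
  · rw [zpow_neg]; exact e2
  · rw [zpow_neg]; exact e3

/-- **`hVal`** (the binder of `Corr3NVal.exists_corr_nv`, verbatim): prescribed valuations along
the three reductions of record. -/
theorem hVal (H : V3.Hyp3 M q hq hqM A K K' ξ hξ0 ι ϖ)
    (hdvr : IsDiscreteValuationRing (OK A K)) (p : OK A K) (hp : Irreducible p)
    (hpϖ : ∃ u : A, IsUnit u ∧ incO A K p = incO A K' ϖ ^ (q - 1) * (u : Qb))
    (hval : Model3Plan.ValHyp3 (algebraMap (OK A K) (FK (M * q * q) K) p) (Model3Plan.ram q)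
      ![algebraMap (OK A K) (FK (M * q * q) K) p, algebraMap (OK A K) (FK (M * q * q) K) p,
        Wit3.sE M q hq hqM K]
      ![GaussV.V1 (M * q * q) A K hdvr, GaussV.V2 (WQ2.wK2 M q hq hqM K) hdvr, H.W3]) :
    ∀ b₁ b₂ b₃ : ℤ, ∃ Hh : FK (M * q * q) K, Hh ≠ 0 ∧
      (redOf A (FK (M * q * q) K).subtype).IsU
        (algebraMap (OK A K) (FK (M * q * q) K) p ^ (-b₁) * Hh) ∧
      (redOf A ((FK (M * q * q) K).subtype.comp
        (WQ2.wK2 M q hq hqM K : FK (M * q * q) K →+* FK (M * q * q) K))).IsU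
        (algebraMap (OK A K) (FK (M * q * q) K) p ^ (-b₂) * Hh) ∧
      (redOf A ι).IsU (Wit3.sE M q hq hqM K ^ (-b₃) * Hh) := by
  intro b₁ b₂ b₃
  obtain ⟨Hh, hH0, h1, h2, h3⟩ := hVal_one H hdvr p hp hpϖ hval b₁ b₂ b₃
  exact ⟨Hh, hH0, ⟨1, one_ne_zero, h1⟩, ⟨1, one_ne_zero, h2⟩, ⟨1, one_ne_zero, h3⟩⟩

end Level

end Fermat.Agent.S36.Corr3WA
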