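/-
S36 — Corr3InstC.lean (helper126; GO of the captain helper85).  [CORR36], an INDEPENDENT CLOSED
ASSEMBLY of `LocAsm3.CorrProp` at the objects of record (C-copy; A = helper43 `S36/Corr3Inst`,
B = helper109 `S36/Corr3InstB`), which is at the same time the kernel-checked FIT-TEST of every
landed slice of the instance of `Corr3.exists_corr`.

Level `N = M * q * q`, `q` prime, `q ∤ M`; `A` a valuation subring of `ℚ̄` over `q`; `K` a base
with `BaseFacts q A K` fixed pointwise by the inertia group of `A`; `p ∈ O = A ∩ K` irreducible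
with `incO p = q`; `ξ` a primitive `q`-th root of unity;
`H : V3.Hyp3 … (Iota3.iota3 M q K hq hqM ξ _ _) ϖ'` (instance: `V3.hyp3_iota3`), and the field
`val` of the model of record,

  `ValHyp3 π (ram q) ![π, π, s] ![GaussV.V1, GaussV.V2 wK2, H.W3]`,  `π = algebraMap p`,
  `s = Wit3.sE = j_{q²} - j`.

Then (`corrProp`)

  `LocAsm3.CorrProp M q m A K p ![π, π, s] ![GaussV.V1, GaussV.V2 wK2, H.W3]`     for `m ≠ 0`:

for every `fK ≠ 0` of `F_K(M q²)` whose norms along `α` and `β` are constants times `m`-th powers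
(`ModelFPlan.NormCond` of its image in `F̄`) there are `k : ℤ`, `H₁ ≠ 0` with
`fK ^ ((q+1)(q-1)) · π ^ k · H₁ ^ m` an `m`-th power modulo `1 + ϖ i (V i)` for every `i`
(in fact `≡ 1` modulo the maximal ideal of every `V i`: `corr_rel`).

Slices consumed (all on main): `Corr3NVal.exists_corr_nv` (helper122, over helper12's
`Corr3.exists_corr`), `Corr3NVInst` (helper31: norm–residue rules, `s`-facts at the norm maps of
record `NormKMap.nmAlpha/nmBeta` of helper62), `Corr3Lift` / `Corr3LiftB` (helper12 / helper3: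
Frobenius lifts, roots of constants), `Corr3NF` (helper43: units, constants, non-units),
`Corr3NF3` (helper127: `W3` normal form and ramification), `Corr3WA` (weak approximation),
`NormK.normCond_FK'` (helper54: `K`-rational roots of the norm conditions).

* `nf_V1`, `nf_V2`       : the normal forms `nf₁`, `nf₂`, `nf₁'`, `nf₂'` (any level);
* `pi_rel_V1`, `pi_rel_V2` : `π ↦ 0` along the expansion at `∞` and along a twist fixing the
                           constants;
* `rel_const`            : `hcα` / `hcβ` for a constant of `K`;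
* `norm_data`            : the `K`-level norm data `Nα fK = cα · hα ^ m`, `Nβ fK = cβ · hβ ^ m`;
* `corr_rel`             : the conclusion of `exists_corr_nv` for the instance of record;
* `powMod_of_rel`        : residue `1` along the three reductions ⟹ `Model3Plan.PowMod`;
* `corrProp`, `corrProp_iota3`, `corrProp_of_model3` : `LocAsm3.CorrProp`.
-/
import Mathlib
import Fermat.Agent.S18.BaseRes
import Fermat.Agent.S35.BaseF
import Fermat.Agent.S36.LocAsm3
import Fermat.Agent.S36.Corr3NVal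
import Fermat.Agent.S36.Corr3NVInst
import Fermat.Agent.S36.Corr3Lift
import Fermat.Agent.S36.Corr3LiftB
import Fermat.Agent.S36.Corr3NF
import Fermat.Agent.S36.Corr3NF3
import Fermat.Agent.S36.Corr3WA
import Fermat.Agent.S36.NormK
import Fermat.Agent.S36.NormKMap

set_option autoImplicit false

noncomputable section

namespace Fermat.Agent.S36.Corr3InstC

open ModularCurve HahnSeries AlgebraicCurve
open Fermat.Agent.S18 Fermat.Agent.S18.Arith Fermat.Agent.S18.ModelPlan Fermat.Agent.S18.ModelRed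
open Fermat.Agent.S34 Fermat.Agent.S36 Fermat.Agent.S36.Corr3Red
open Fermat.Agent.S35.ModelFPlan (alphaNm betaNm NormCond)

/-! ### Normal forms and the uniformiser along `V1`, `V2` (any level) -/

section NF

variable {N : ℕ} [NeZero N] {A : ValuationSubring Qb} {K : IntermediateField ℚ Qb}

/-- **`nf₁` / `nf₁'`**: every nonzero `x` is `π ^ a · unit` along the expansion at `∞`. -/
theorem nf_V1 (hdvr : IsDiscreteValuationRing (OK A K)) (p : OK A K) (hp : Irreducible p) :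
    ∀ x : FK N K, x ≠ 0 → ∃ a : ℤ,
      (redOf A (FK N K).subtype).IsU (algebraMap (OK A K) (FK N K) p ^ (-a) * x) := by
  intro x hx
  obtain ⟨γ, h1, h2⟩ := GaussV.exists_zpow_mul_unit hdvr hp x hx
  have hp0 : algebraMap (OK A K) (FK N K) p ≠ 0 := GaussV.algebraMap_ne_zero N A K hp.ne_zero
  refine ⟨γ, ?_⟩
  rw [mul_comm]
  exact Corr3NF.isU_of_mem (FK N K).subtype _ (mul_ne_zero hx (zpow_ne_zero _ hp0)) h1 h2

/-- **`nf₂` / `nf₂'`**: every nonzero `x` is `π ^ a · unit` along the twist of the expansion at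
`∞` by an automorphism fixing the constants. -/
theorem nf_V2 (w : FK N K ≃+* FK N K)
    (hw : ∀ c : OK A K, w (algebraMap (OK A K) (FK N K) c) = algebraMap (OK A K) (FK N K) c)
    (hdvr : IsDiscreteValuationRing (OK A K)) (p : OK A K) (hp : Irreducible p) :
    ∀ x : FK N K, x ≠ 0 → ∃ a : ℤ,
      (redOf A ((FK N K).subtype.comp (w : FK N K →+* FK N K))).IsU
        (algebraMap (OK A K) (FK N K) p ^ (-a) * x) := by
  intro x hx
  obtain ⟨γ, h1, h2⟩ := GaussV.exists_zpow_mul_unit₂ w hw hdvr hp x hx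
  have hp0 : algebraMap (OK A K) (FK N K) p ≠ 0 := GaussV.algebraMap_ne_zero N A K hp.ne_zero
  refine ⟨γ, ?_⟩
  rw [mul_comm]
  exact Corr3NF.isU_of_mem ((FK N K).subtype.comp (w : FK N K →+* FK N K)) _
    (mul_ne_zero hx (zpow_ne_zero _ hp0)) h1 h2

omit [NeZero N] in
/-- `π ↦ 0` along the expansion at `∞`. -/
theorem pi_rel_V1 (p : OK A K) (hp : ¬ IsUnit p) :
    (redOf A (FK N K).subtype).rel (algebraMap (OK A K) (FK N K) p) 0 :=
  gRel_pi (gFacts A) p hp

omit [NeZero N] in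
/-- `π ↦ 0` along a twist fixing the constants. -/
theorem pi_rel_V2 (w : FK N K ≃+* FK N K)
    (hw : ∀ c : OK A K, w (algebraMap (OK A K) (FK N K) c) = algebraMap (OK A K) (FK N K) c)
    (p : OK A K) (hp : ¬ IsUnit p) :
    (redOf A ((FK N K).subtype.comp (w : FK N K →+* FK N K))).rel
      (algebraMap (OK A K) (FK N K) p) 0 := by
  show GRel A ((w (algebraMap (OK A K) (FK N K) p) : FK N K) : LaurentSeries Qb) 0
  rw [hw]
  exact gRel_pi (gFacts A) p hp

omit [NeZero N] in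
/-- **`hcα` / `hcβ`, one constant**: a nonzero constant `c ∈ K` is `π ^ a · unit` along the
expansion at `∞` and along a twist fixing the constants, with the SAME exponent and constant
nonzero residues. -/
theorem rel_const (w : FK N K ≃+* FK N K) (hw : ∀ c : K, w (constK N K c) = constK N K c)
    (hdvr : IsDiscreteValuationRing (OK A K)) (p : OK A K) (hp : Irreducible p)
    (c : K) (hc : c ≠ 0) :
    ∃ (a : ℤ) (y₁ y₂ : LaurentSeries (IsLocalRing.ResidueField A)), y₁ ≠ 0 ∧ y₂ ≠ 0 ∧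
      Cst A y₁ ∧ Cst A y₂ ∧
      (redOf A (FK N K).subtype).rel
        (algebraMap (OK A K) (FK N K) p ^ (-a) * constK N K c) y₁ ∧
      (redOf A ((FK N K).subtype.comp (w : FK N K →+* FK N K))).rel
        (algebraMap (OK A K) (FK N K) p ^ (-a) * constK N K c) y₂ := by
  obtain ⟨a, u, e⟩ := Corr3NF.exists_zpow_mul_unit_of_dvr hdvr p hp c hc
  have hp0 : ((p : OK A K) : K) ≠ 0 := fun h0 => hp.ne_zero (Subtype.ext h0)
  have h1 := Corr3NF.rel_const_of_eq (A := A) (FK N K).subtype (constK N K)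
    (fun _ => rfl) p hp0 c a u e
  have h2 := Corr3NF.rel_const_of_eq (A := A)
    ((FK N K).subtype.comp (w : FK N K →+* FK N K)) (constK N K)
    (fun c' => by
      show ((w (constK N K c') : FK N K) : LaurentSeries Qb) = _
      rw [hw]
      rfl) p hp0 c a u e
  exact ⟨a, _, _, Corr3NF.resO_unit_ne_zero u, Corr3NF.resO_unit_ne_zero u, cst_C _, cst_C _,
    h1, h2⟩

end NF

/-! ### The norm data over `K` -/

section Norm

variable (M q : ℕ) [NeZero M] [NeZero q] (hq : q.Prime) (hqM : ¬ q ∣ M)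
variable (K : IntermediateField ℚ Qb)

/-- The `K`-level norm data of a `K`-rational function satisfying the norm conditions:
`Nα fK = cα · hα ^ m`, `Nβ fK = cβ · hβ ^ m` with `hα, hβ ∈ F_K(M q)` and `cα, cβ ∈ K`
nonzero. -/
theorem norm_data {m : ℕ} (hm : m ≠ 0) (fK : FK (M * q * q) K)
    (hN : NormCond (M * q) q m (Glob.toBar (M * q * q) K fK)) :
    (∃ (h : FK (M * q) K) (c : K), h ≠ 0 ∧ c ≠ 0 ∧
      NormKMap.nmAlpha M q hq K fK = constK (M * q) K c * h ^ m) ∧
    (∃ (h : FK (M * q) K) (c : K), h ≠ 0 ∧ c ≠ 0 ∧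
      NormKMap.nmBeta M q hq hqM K fK = constK (M * q) K c * h ^ m) := by
  obtain ⟨⟨h, c, hh, hc, e⟩, ⟨h', c', hh', hc', e'⟩⟩ :=
    NormK.normCond_FK' (M * q) q K hm (Glob.toBar (M * q * q) K fK) fK.2 hN
  refine ⟨⟨h, c, hh, hc, ?_⟩, ⟨h', c', hh', hc', ?_⟩⟩
  · apply (Glob.toBar (M * q) K).injective
    rw [NormKMap.toBar_nmAlpha, Fermat.Agent.S35.BaseF.toBar_const_mul_pow]
    exact e
  · apply (Glob.toBar (M * q) K).injective
    rw [NormKMap.toBar_nmBeta, Fermat.Agent.S35.BaseF.toBar_const_mul_pow]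
    exact e'

end Norm

/-! ### The corrector for the instance of record -/

section Inst

variable {M q : ℕ} [NeZero M] [NeZero q] {hq : q.Prime} {hqM : ¬ q ∣ M}
variable {A : ValuationSubring Qb} {K K' : IntermediateField ℚ Qb}
variable {ξ : Qb} {hξ0 : ξ ≠ 0} {hξq : ξ ^ q = 1} {hξ1 : ξ ≠ 1} {ϖ' : OK A K'}

/-- **The conclusion of `Corr3.exists_corr` for the instance of record**: for `fK ≠ 0` satisfying
the norm conditions there are `t : ℤ` and `H₁ ≠ 0` with
`fK ^ ((q+1)(q-1)) · π ^ (-t) · H₁ ^ m` of residue `1` at `∞`, along `w_{q²}` and along the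
middle-cusp expansion. -/
theorem corr_rel [Fact q.Prime] (hA : A.LiesOverPrime q) (hB : BaseFacts q A K)
    (hK : ∀ σ ∈ A.inertiaSubgroupIn ℚ, ∀ a ∈ K, σ a = a)
    (p : OK A K) (hp : Irreducible p) (hpq : incO A K p = (q : Qb))
    (hξ : IsPrimitiveRoot ξ q)
    (H : V3.Hyp3 M q hq hqM A K K' ξ hξ0 (Iota3.iota3 M q K hq hqM ξ hξq hξ1) ϖ')
    (hpϖ : ∃ u : A, IsUnit u ∧ incO A K p = incO A K' ϖ' ^ (q - 1) * (u : Qb))
    (hdvr : IsDiscreteValuationRing (OK A K))
    (hval : Model3Plan.ValHyp3 (algebraMap (OK A K) (FK (M * q * q) K) p) (Model3Plan.ram q)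
      ![algebraMap (OK A K) (FK (M * q * q) K) p, algebraMap (OK A K) (FK (M * q * q) K) p,
        Wit3.sE M q hq hqM K]
      ![GaussV.V1 (M * q * q) A K hdvr, GaussV.V2 (WQ2.wK2 M q hq hqM K) hdvr, H.W3])
    {m : ℕ} (hm : m ≠ 0) (fK : FK (M * q * q) K) (hfK : fK ≠ 0)
    (hN : NormCond (M * q) q m (Glob.toBar (M * q * q) K fK)) :
    ∃ (t : ℤ) (H₁ : FK (M * q * q) K), H₁ ≠ 0 ∧
      (redOf A (FK (M * q * q) K).subtype).rel
        (fK ^ ((q + 1) * (q - 1)) * algebraMap (OK A K) (FK (M * q * q) K) p ^ (-t) * H₁ ^ m) 1 ∧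
      (redOf A ((FK (M * q * q) K).subtype.comp
        (WQ2.wK2 M q hq hqM K : FK (M * q * q) K →+* FK (M * q * q) K))).rel
        (fK ^ ((q + 1) * (q - 1)) * algebraMap (OK A K) (FK (M * q * q) K) p ^ (-t) * H₁ ^ m) 1 ∧
      (redOf A (Iota3.iota3 M q K hq hqM ξ hξq hξ1)).rel
        (fK ^ ((q + 1) * (q - 1)) * algebraMap (OK A K) (FK (M * q * q) K) p ^ (-t) * H₁ ^ m)
        1 := by
  have hcp : CharP (IsLocalRing.ResidueField A) q := BaseRes.charP_residueField q A hA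
  have hw2 := WQ2.wK2_algebraMap_OK M q hq hqM K A
  have hw1 := WK.wK_algebraMap_OK M q hq hqM K A
  -- the norm data
  obtain ⟨⟨hα, cα, hhα, hcα0, eα⟩, ⟨hβ, cβ, hhβ, hcβ0, eβ⟩⟩ := norm_data M q hq hqM K hm fK hN
  -- `q = p · 1`
  have hpu : (q : Qb) = incO A K p * ((1 : A) : Qb) := by
    rw [hpq]
    simp
  exact Corr3NVal.exists_corr_nv
    (redOf A (FK (M * q * q) K).subtype)
    (redOf A ((FK (M * q * q) K).subtype.comp
      (WQ2.wK2 M q hq hqM K : FK (M * q * q) K →+* FK (M * q * q) K)))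
    (redOf A (Iota3.iota3 M q K hq hqM ξ hξq hξ1))
    (redOf A (FK (M * q) K).subtype)
    (redOf A ((FK (M * q) K).subtype.comp
      (WK.wK M q hq hqM K : FK (M * q) K →+* FK (M * q) K)))
    (algebraMap (OK A K) (FK (M * q * q) K) p) (Wit3.sE M q hq hqM K)
    (algebraMap (OK A K) (FK (M * q) K) p)
    (coeffMap (frobenius (IsLocalRing.ResidueField A) q)) (Cst A)
    (NormKMap.nmAlpha M q hq K) (NormKMap.nmBeta M q hq hqM K) q m hq.one_lt.le hm
    (GaussV.algebraMap_ne_zero (M * q * q) A K hp.ne_zero) (Corr3NF3.hs0 H)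
    (GaussV.algebraMap_ne_zero (M * q) A K hp.ne_zero)
    -- non-units
    (pi_rel_V1 p hp.not_isUnit) (pi_rel_V2 _ hw2 p hp.not_isUnit) (Corr3NF3.hs₃ H)
    (pi_rel_V1 p hp.not_isUnit) (pi_rel_V2 _ hw1 p hp.not_isUnit)
    -- normal forms
    (nf_V1 hdvr p hp) (nf_V2 _ hw2 hdvr p hp) (Corr3NF3.nf₃ H)
    (nf_V1 hdvr p hp) (nf_V2 _ hw1 hdvr p hp)
    -- ramification of `W3`
    (Corr3NF3.hram H p hpϖ)
    -- norms of the uniformiser
    (Corr3NVInst.hNαπ M q K hq A p) (Corr3NVInst.hNβπ M q K hq hqM A p)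
    -- norm–residue rules
    (Corr3NVInst.hRα1 M q K hq hqM A hA hK hξ hξq hξ1)
    (Corr3NVInst.hRα2 M q K hq hqM A hA)
    (Corr3NVInst.hRβ1 M q K hq hqM A hA)
    (Corr3NVInst.hRβ2 M q K hq hqM A hA hK hξ hξq hξ1)
    -- the uniformiser `s`
    (Corr3NVInst.hs₁ M q K hq hqM A) (Corr3NVInst.hs₂ M q K hq hqM A)
    (Corr3NVInst.hNαs M q K hq hqM A hA hξ p 1 isUnit_one hpu)
    (Corr3NVInst.hNβs M q K hq hqM A hA hξ p 1 isUnit_one hpu)
    -- residue constants
    cst_one cst_mul cst_inv (Corr3LiftB.hCΦ A)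
    (Corr3Lift.hroot M q hq hqM hB _ H.emb.const hm)
    -- Frobenius lifts
    (Corr3LiftB.hL1 M q hq hqM hA hB _ H.mid.alpha)
    (Corr3LiftB.hL2 M q hq hqM hA hB)
    (Corr3Lift.hL3 M q _ H.mid.alpha)
    -- weak approximation
    (Corr3WA.hVal H hdvr p hp hpϖ hval) (Corr3WA.hWA H hdvr p hp hval)
    -- the data
    fK hfK (constK (M * q) K cα) hα (constK (M * q) K cβ) hβ hhα hhβ eα eβ
    (rel_const _ (WK.wK_constK M q hq hqM K) hdvr p hp cα hcα0)
    (rel_const _ (WK.wK_constK M q hq hqM K) hdvr p hp cβ hcβ0)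

/-- Residue `1` along the three reductions of record ⟹ `Model3Plan.PowMod` (with `h i = 1`). -/
theorem powMod_of_rel {ι : FK (M * q * q) K →+* LaurentSeries Qb}
    (H : V3.Hyp3 M q hq hqM A K K' ξ hξ0 ι ϖ')
    (hdvr : IsDiscreteValuationRing (OK A K))
    {pp : FK (M * q * q) K} {e : Fin 3 → ℕ} {ϖ : Fin 3 → FK (M * q * q) K}
    (hval : Model3Plan.ValHyp3 pp e ϖ
      ![GaussV.V1 (M * q * q) A K hdvr, GaussV.V2 (WQ2.wK2 M q hq hqM K) hdvr, H.W3])
    (m : ℕ) (x : FK (M * q * q) K)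
    (h1 : (redOf A (FK (M * q * q) K).subtype).rel x 1)
    (h2 : (redOf A ((FK (M * q * q) K).subtype.comp
      (WQ2.wK2 M q hq hqM K : FK (M * q * q) K →+* FK (M * q * q) K))).rel x 1)
    (h3 : (redOf A ι).rel x 1) :
    Model3Plan.PowMod ϖ
      ![GaussV.V1 (M * q * q) A K hdvr, GaussV.V2 (WQ2.wK2 M q hq hqM K) hdvr, H.W3] m x := by
  have hall : ∀ i : Fin 3, GRel A (Corr3WA.Ex M q hq hqM ι i x) 1 := by
    intro i
    fin_cases i
    · exact h1
    · exact h2
    · exact h3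
  intro i
  refine ⟨1, one_ne_zero, ?_⟩
  have h0 : GRel A (Corr3WA.Ex M q hq hqM ι i (x * 1 ^ m - 1)) 0 := by
    rw [one_pow, mul_one, map_sub, map_one]
    have h := (gFacts A).add _ _ _ _ (hall i) ((gFacts A).neg _ _ (gRel_one (gFacts A)))
    rwa [add_neg_cancel, ← sub_eq_add_neg] at h
  have hnu := (Corr3NF.mem_nonunits_iff (Corr3WA.mem_iff H hdvr i) _).2 h0
  exact Corr3NF.exists_eq_unif_mul _ (ϖ i) (hval.unif_mem i) (hval.disc i) hnu

/-- **[CORR36], closed**: `LocAsm3.CorrProp` for the valuation rings and uniformisers of record,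
for any `H : V3.Hyp3` along `Iota3.iota3`. -/
theorem corrProp [Fact q.Prime] (hA : A.LiesOverPrime q) (hB : BaseFacts q A K)
    (hK : ∀ σ ∈ A.inertiaSubgroupIn ℚ, ∀ a ∈ K, σ a = a)
    (p : OK A K) (hp : Irreducible p) (hpq : incO A K p = (q : Qb))
    (hξ : IsPrimitiveRoot ξ q)
    (H : V3.Hyp3 M q hq hqM A K K' ξ hξ0 (Iota3.iota3 M q K hq hqM ξ hξq hξ1) ϖ')
    (hpϖ : ∃ u : A, IsUnit u ∧ incO A K p = incO A K' ϖ' ^ (q - 1) * (u : Qb))
    (hdvr : IsDiscreteValuationRing (OK A K))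
    (hval : Model3Plan.ValHyp3 (algebraMap (OK A K) (FK (M * q * q) K) p) (Model3Plan.ram q)
      ![algebraMap (OK A K) (FK (M * q * q) K) p, algebraMap (OK A K) (FK (M * q * q) K) p,
        Wit3.sE M q hq hqM K]
      ![GaussV.V1 (M * q * q) A K hdvr, GaussV.V2 (WQ2.wK2 M q hq hqM K) hdvr, H.W3])
    {m : ℕ} (hm : m ≠ 0) :
    LocAsm3.CorrProp M q m A K p
      ![algebraMap (OK A K) (FK (M * q * q) K) p, algebraMap (OK A K) (FK (M * q * q) K) p,
        Wit3.sE M q hq hqM K]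
      ![GaussV.V1 (M * q * q) A K hdvr, GaussV.V2 (WQ2.wK2 M q hq hqM K) hdvr, H.W3] := by
  intro fK hfK hN
  obtain ⟨t, H₁, hH₁, h1, h2, h3⟩ :=
    corr_rel hA hB hK p hp hpq hξ H hpϖ hdvr hval hm fK hfK hN
  exact ⟨-t, H₁, hH₁, powMod_of_rel H hdvr hval m _ h1 h2 h3⟩

/-- **[CORR36], closed, from a model**: the same with `val` read off a `Model3Plan.Model3` for
the valuation rings and uniformisers of record (any coordinate `t`). -/
theorem corrProp_of_model3 [Fact q.Prime] (hA : A.LiesOverPrime q) (hB : BaseFacts q A K)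
    (hK : ∀ σ ∈ A.inertiaSubgroupIn ℚ, ∀ a ∈ K, σ a = a)
    (p : OK A K) (hp : Irreducible p) (hpq : incO A K p = (q : Qb))
    (hξ : IsPrimitiveRoot ξ q)
    (H : V3.Hyp3 M q hq hqM A K K' ξ hξ0 (Iota3.iota3 M q K hq hqM ξ hξq hξ1) ϖ')
    (hpϖ : ∃ u : A, IsUnit u ∧ incO A K p = incO A K' ϖ' ^ (q - 1) * (u : Qb))
    (hdvr : IsDiscreteValuationRing (OK A K)) {t : FK (M * q * q) K}
    (Md : Model3Plan.Model3 (M * q * q) A K p (Model3Plan.ram q)
      ![algebraMap (OK A K) (FK (M * q * q) K) p, algebraMap (OK A K) (FK (M * q * q) K) p,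
        Wit3.sE M q hq hqM K]
      ![GaussV.V1 (M * q * q) A K hdvr, GaussV.V2 (WQ2.wK2 M q hq hqM K) hdvr, H.W3] t)
    {m : ℕ} (hm : m ≠ 0) :
    LocAsm3.CorrProp M q m A K p
      ![algebraMap (OK A K) (FK (M * q * q) K) p, algebraMap (OK A K) (FK (M * q * q) K) p,
        Wit3.sE M q hq hqM K]
      ![GaussV.V1 (M * q * q) A K hdvr, GaussV.V2 (WQ2.wK2 M q hq hqM K) hdvr, H.W3] :=
  corrProp hA hB hK p hp hpq hξ H hpϖ hdvr Md.val hm

end Inst

/-! ### The instance `V3.hyp3_iota3` -/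

section Iota3

variable {M q : ℕ} [NeZero M] [NeZero q] (hq : q.Prime) (hqM : ¬ q ∣ M)
variable {A : ValuationSubring Qb} {K : IntermediateField ℚ Qb}

/-- **[CORR36], closed, for `H = V3.hyp3_iota3`** (the `W3` of `Model3Top.model3`): the only
remaining input is the field `val` of the model. -/
theorem corrProp_iota3 [Fact q.Prime] (hA : A.LiesOverPrime q) (hB : BaseFacts q A K)
    (hK : ∀ σ ∈ A.inertiaSubgroupIn ℚ, ∀ a ∈ K, σ a = a)
    (p : OK A K) (hp : Irreducible p) (hpq : incO A K p = (q : Qb))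
    {ξ : Qb} (hξ : IsPrimitiveRoot ξ q)
    (hdvr : IsDiscreteValuationRing (OK A K))
    (hval : Model3Plan.ValHyp3 (algebraMap (OK A K) (FK (M * q * q) K) p) (Model3Plan.ram q)
      ![algebraMap (OK A K) (FK (M * q * q) K) p, algebraMap (OK A K) (FK (M * q * q) K) p,
        Wit3.sE M q hq hqM K]
      ![GaussV.V1 (M * q * q) A K hdvr, GaussV.V2 (WQ2.wK2 M q hq hqM K) hdvr,
        (V3.hyp3_iota3 hq hqM A hdvr p hp hpq hξ).W3])
    {m : ℕ} (hm : m ≠ 0) :
    LocAsm3.CorrProp M q m A K p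
      ![algebraMap (OK A K) (FK (M * q * q) K) p, algebraMap (OK A K) (FK (M * q * q) K) p,
        Wit3.sE M q hq hqM K]
      ![GaussV.V1 (M * q * q) A K hdvr, GaussV.V2 (WQ2.wK2 M q hq hqM K) hdvr,
        (V3.hyp3_iota3 hq hqM A hdvr p hp hpq hξ).W3] :=
  corrProp hA hB hK p hp hpq hξ (V3.hyp3_iota3 hq hqM A hdvr p hp hpq hξ)
    (BaseXi.exists_unit hq p hp hpq hξ) hdvr hval hm

end Iota3

end Fermat.Agent.S36.Corr3InstC
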