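/-
S36 — Corr3NFI.lean (helper125).  [CORR36-inst], slice "Gauss-side normal forms" (dealt by
helper31 / helper43): the concrete binders

  `nf₁  nf₂  nf₁'  nf₂'`      (normal forms `π ^ (-a) * x` is a unit)
  `hπ₁  hπ₂  hπ₁'  hπ₂'`      (the uniformiser has reduction `0`)
  `hπ0  hπ'0`                 (the uniformiser is nonzero)

of `Corr3.exists_corr` / `Corr3NVal.exists_corr_nv` for the instance of record, in the vocabulary
of `S36/Corr3Red` (`redOf A E`, `rel x y := GRel A (E x) y`, `IsU x := ∃ y ≠ 0, rel x y`).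

Level `M * q * q` over `M * q` (`q` prime, `q ∤ M`), `A` a valuation subring of `ℚ̄`, `K` an
intermediate field with `O = A ∩ K` a discrete valuation ring, `p` a uniformiser of `O`,
`π = algebraMap O (F_K) p` at either level.  The four Gauss-side reductions of record:

  `r₁  = redOf A (subtype)`            (`q`-expansion at `∞`, level `M q²`)
  `r₂  = redOf A (subtype ∘ wK2)`      (its twist by `w_{q²}`)
  `r₁' = redOf A (subtype)`            (level `M q`)
  `r₂' = redOf A (subtype ∘ wK)`       (twist by `w_q`).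

Everything is one call of `S34.GaussV.exists_nf_FK` (the Gauss normal form of a nonzero element
of `F_K`, any level) through `Corr3NF.isU_of_nf`, applied to `x` resp. `w x`; the twists fix the
constants (`WQ2.wK2_algebraMap_OK`, `S34.WK.wK_algebraMap_OK`).

* `nf_subtype`, `nf_twist`, `rel_pi_subtype`, `rel_pi_twist`, `pi_ne_zero` : any level `N`, any
  ring endomorphism `w` of `F_K` fixing `π`;
* `nf₁ nf₂ nf₁' nf₂' hπ₁ hπ₂ hπ₁' hπ₂' hπ0 hπ'0` : the binders, verbatim;
* `*_gRel` : the same in plain `GRel` shape.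
-/
import Mathlib
import Fermat.Agent.S34.GaussV
import Fermat.Agent.S34.WK
import Fermat.Agent.S36.WQ2
import Fermat.Agent.S36.Corr3Red
import Fermat.Agent.S36.Corr3NF

set_option autoImplicit false

noncomputable section

namespace Fermat.Agent.S36.Corr3NFI

open ModularCurve HahnSeries AlgebraicCurve Fermat.Agent.S18.Arith Fermat.Agent.S18.ModelPlan
open Fermat.Agent.S34 Fermat.Agent.S36.Corr3Red

/-! ### Any level, any twist fixing the uniformiser -/

section Generic

variable (N : ℕ) [NeZero N] (A : ValuationSubring Qb) (K : IntermediateField ℚ Qb)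

/-- **Normal form at `∞`**, any level: every nonzero `x ∈ F_K` is `π ^ a · unit` for the Gauss
reduction along the `q`-expansion. -/
theorem nf_subtype (hdvr : IsDiscreteValuationRing (OK A K)) (p : OK A K) (hp : Irreducible p) :
    ∀ x : FK N K, x ≠ 0 → ∃ a : ℤ,
      (redOf A (FK N K).subtype).IsU (algebraMap (OK A K) (FK N K) p ^ (-a) * x) := by
  intro x hx
  obtain ⟨γ, y, hy, h⟩ := GaussV.exists_nf_FK N A K hdvr p hp x hx
  exact ⟨γ, Corr3NF.isU_of_nf (FK N K).subtype (algebraMap (OK A K) (FK N K) p) x γ y hy h⟩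

/-- **Normal form along a twist**, any level: the same for the Gauss reduction transported along
a ring endomorphism `w` of `F_K` which fixes the uniformiser. -/
theorem nf_twist (hdvr : IsDiscreteValuationRing (OK A K)) (p : OK A K) (hp : Irreducible p)
    (w : FK N K →+* FK N K)
    (hw : w (algebraMap (OK A K) (FK N K) p) = algebraMap (OK A K) (FK N K) p) :
    ∀ x : FK N K, x ≠ 0 → ∃ a : ℤ,
      (redOf A ((FK N K).subtype.comp w)).IsU (algebraMap (OK A K) (FK N K) p ^ (-a) * x) := by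
  intro x hx
  have hwx : w x ≠ 0 := (map_ne_zero w).mpr hx
  obtain ⟨γ, y, hy, h⟩ := GaussV.exists_nf_FK N A K hdvr p hp (w x) hwx
  refine ⟨γ, Corr3NF.isU_of_nf ((FK N K).subtype.comp w) (algebraMap (OK A K) (FK N K) p) x γ y
    hy ?_⟩
  show GRel A (((w x : FK N K) : LaurentSeries Qb) *
    ((w (algebraMap (OK A K) (FK N K) p) : FK N K) : LaurentSeries Qb) ^ (-γ)) y
  rw [hw]
  exact h

omit [NeZero N] in
/-- The uniformiser has reduction `0` at `∞`. -/
theorem rel_pi_subtype (p : OK A K) (hp : ¬ IsUnit p) :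
    (redOf A (FK N K).subtype).rel (algebraMap (OK A K) (FK N K) p) 0 :=
  Fermat.Agent.S18.ModelRed.gRel_pi (gFacts A) p hp

omit [NeZero N] in
/-- The uniformiser has reduction `0` along a twist fixing it. -/
theorem rel_pi_twist (p : OK A K) (hp : ¬ IsUnit p) (w : FK N K →+* FK N K)
    (hw : w (algebraMap (OK A K) (FK N K) p) = algebraMap (OK A K) (FK N K) p) :
    (redOf A ((FK N K).subtype.comp w)).rel (algebraMap (OK A K) (FK N K) p) 0 := by
  show GRel A ((w (algebraMap (OK A K) (FK N K) p) : FK N K) : LaurentSeries Qb) 0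
  rw [hw]
  exact Fermat.Agent.S18.ModelRed.gRel_pi (gFacts A) p hp

omit [NeZero N] in
/-- The uniformiser is nonzero in `F_K`. -/
theorem pi_ne_zero (p : OK A K) (hp : Irreducible p) : algebraMap (OK A K) (FK N K) p ≠ 0 :=
  GaussV.algebraMap_ne_zero N A K hp.ne_zero

end Generic

/-! ### The binders of `Corr3.exists_corr` for the instance of record -/

section Inst

variable (M q : ℕ) [NeZero M] [NeZero q] (hq : q.Prime) (hqM : ¬ q ∣ M)
variable (A : ValuationSubring Qb) (K : IntermediateField ℚ Qb)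

/-- **`nf₁`**: normal forms for `r₁` (level `M q²`, `q`-expansion at `∞`). -/
theorem nf₁ (hdvr : IsDiscreteValuationRing (OK A K)) (p : OK A K) (hp : Irreducible p) :
    ∀ x : FK (M * q * q) K, x ≠ 0 → ∃ a : ℤ,
      (redOf A (FK (M * q * q) K).subtype).IsU
        (algebraMap (OK A K) (FK (M * q * q) K) p ^ (-a) * x) :=
  nf_subtype (M * q * q) A K hdvr p hp

/-- **`nf₂`**: normal forms for `r₂` (level `M q²`, twist by `w_{q²}`). -/
theorem nf₂ (hdvr : IsDiscreteValuationRing (OK A K)) (p : OK A K) (hp : Irreducible p) :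
    ∀ x : FK (M * q * q) K, x ≠ 0 → ∃ a : ℤ,
      (redOf A ((FK (M * q * q) K).subtype.comp
        (WQ2.wK2 M q hq hqM K : FK (M * q * q) K →+* FK (M * q * q) K))).IsU
        (algebraMap (OK A K) (FK (M * q * q) K) p ^ (-a) * x) :=
  nf_twist (M * q * q) A K hdvr p hp _ (WQ2.wK2_algebraMap_OK M q hq hqM K A p)

/-- **`nf₁'`**: normal forms for `r₁'` (level `M q`, `q`-expansion at `∞`). -/
theorem nf₁' (hdvr : IsDiscreteValuationRing (OK A K)) (p : OK A K) (hp : Irreducible p) :
    ∀ x : FK (M * q) K, x ≠ 0 → ∃ a : ℤ,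
      (redOf A (FK (M * q) K).subtype).IsU
        (algebraMap (OK A K) (FK (M * q) K) p ^ (-a) * x) :=
  nf_subtype (M * q) A K hdvr p hp

/-- **`nf₂'`**: normal forms for `r₂'` (level `M q`, twist by `w_q`). -/
theorem nf₂' (hdvr : IsDiscreteValuationRing (OK A K)) (p : OK A K) (hp : Irreducible p) :
    ∀ x : FK (M * q) K, x ≠ 0 → ∃ a : ℤ,
      (redOf A ((FK (M * q) K).subtype.comp
        (WK.wK M q hq hqM K : FK (M * q) K →+* FK (M * q) K))).IsU
        (algebraMap (OK A K) (FK (M * q) K) p ^ (-a) * x) :=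
  nf_twist (M * q) A K hdvr p hp _ (WK.wK_algebraMap_OK M q hq hqM K A p)

omit [NeZero M] [NeZero q] in
/-- **`hπ₁`**: `π` has reduction `0` for `r₁`. -/
theorem hπ₁ (p : OK A K) (hp : Irreducible p) :
    (redOf A (FK (M * q * q) K).subtype).rel (algebraMap (OK A K) (FK (M * q * q) K) p) 0 :=
  rel_pi_subtype (M * q * q) A K p hp.not_isUnit

/-- **`hπ₂`**: `π` has reduction `0` for `r₂`. -/
theorem hπ₂ (p : OK A K) (hp : Irreducible p) :
    (redOf A ((FK (M * q * q) K).subtype.comp
      (WQ2.wK2 M q hq hqM K : FK (M * q * q) K →+* FK (M * q * q) K))).rel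
      (algebraMap (OK A K) (FK (M * q * q) K) p) 0 :=
  rel_pi_twist (M * q * q) A K p hp.not_isUnit _ (WQ2.wK2_algebraMap_OK M q hq hqM K A p)

omit [NeZero M] [NeZero q] in
/-- **`hπ₁'`**: `π'` has reduction `0` for `r₁'`. -/
theorem hπ₁' (p : OK A K) (hp : Irreducible p) :
    (redOf A (FK (M * q) K).subtype).rel (algebraMap (OK A K) (FK (M * q) K) p) 0 :=
  rel_pi_subtype (M * q) A K p hp.not_isUnit

/-- **`hπ₂'`**: `π'` has reduction `0` for `r₂'`. -/
theorem hπ₂' (p : OK A K) (hp : Irreducible p) :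
    (redOf A ((FK (M * q) K).subtype.comp
      (WK.wK M q hq hqM K : FK (M * q) K →+* FK (M * q) K))).rel
      (algebraMap (OK A K) (FK (M * q) K) p) 0 :=
  rel_pi_twist (M * q) A K p hp.not_isUnit _ (WK.wK_algebraMap_OK M q hq hqM K A p)

omit [NeZero M] [NeZero q] in
/-- **`hπ0`**: `π ≠ 0` at level `M q²`. -/
theorem hπ0 (p : OK A K) (hp : Irreducible p) :
    algebraMap (OK A K) (FK (M * q * q) K) p ≠ 0 :=
  pi_ne_zero (M * q * q) A K p hp

omit [NeZero M] [NeZero q] in
/-- **`hπ'0`**: `π' ≠ 0` at level `M q`. -/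
theorem hπ'0 (p : OK A K) (hp : Irreducible p) :
    algebraMap (OK A K) (FK (M * q) K) p ≠ 0 :=
  pi_ne_zero (M * q) A K p hp

/-! ### The same in plain `GRel` shape -/

/-- `nf₁` in plain `GRel` shape. -/
theorem nf₁_gRel (hdvr : IsDiscreteValuationRing (OK A K)) (p : OK A K) (hp : Irreducible p)
    (x : FK (M * q * q) K) (hx : x ≠ 0) :
    ∃ (a : ℤ) (y : LaurentSeries (IsLocalRing.ResidueField A)), y ≠ 0 ∧
      GRel A (((algebraMap (OK A K) (FK (M * q * q) K) p ^ (-a) * x : FK (M * q * q) K)) :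
        LaurentSeries Qb) y :=
  nf₁ M q A K hdvr p hp x hx

/-- `nf₂` in plain `GRel` shape. -/
theorem nf₂_gRel (hdvr : IsDiscreteValuationRing (OK A K)) (p : OK A K) (hp : Irreducible p)
    (x : FK (M * q * q) K) (hx : x ≠ 0) :
    ∃ (a : ℤ) (y : LaurentSeries (IsLocalRing.ResidueField A)), y ≠ 0 ∧
      GRel A ((WQ2.wK2 M q hq hqM K
        (algebraMap (OK A K) (FK (M * q * q) K) p ^ (-a) * x) : FK (M * q * q) K) :
        LaurentSeries Qb) y :=
  nf₂ M q hq hqM A K hdvr p hp x hx

/-- `nf₁'` in plain `GRel` shape. -/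
theorem nf₁'_gRel (hdvr : IsDiscreteValuationRing (OK A K)) (p : OK A K) (hp : Irreducible p)
    (x : FK (M * q) K) (hx : x ≠ 0) :
    ∃ (a : ℤ) (y : LaurentSeries (IsLocalRing.ResidueField A)), y ≠ 0 ∧
      GRel A (((algebraMap (OK A K) (FK (M * q) K) p ^ (-a) * x : FK (M * q) K)) :
        LaurentSeries Qb) y :=
  nf₁' M q A K hdvr p hp x hx

/-- `nf₂'` in plain `GRel` shape. -/
theorem nf₂'_gRel (hdvr : IsDiscreteValuationRing (OK A K)) (p : OK A K) (hp : Irreducible p)
    (x : FK (M * q) K) (hx : x ≠ 0) :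
    ∃ (a : ℤ) (y : LaurentSeries (IsLocalRing.ResidueField A)), y ≠ 0 ∧
      GRel A ((WK.wK M q hq hqM K
        (algebraMap (OK A K) (FK (M * q) K) p ^ (-a) * x) : FK (M * q) K) :
        LaurentSeries Qb) y :=
  nf₂' M q hq hqM A K hdvr p hp x hx

end Inst

end Fermat.Agent.S36.Corr3NFI
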