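import Mathlib
import Fermat.Agent.S34.LocPlan

/-!
# S36, block [TOR-A] : the toric relation at a triple point (abstract)

Setting.  `RY ⊆ EY` the chart of the lower level with its fraction field, `s` a closed point
(a node) of `RY`, `VA`, `VB` the valuation rings of the two branches through `s`;
`RZ ⊆ EZ` the chart of the upper level, `n` a closed point above `s` (a triple point),
`Wa`, `Wb`, `Wc` the valuation rings of the three branches through `n`; `α : EY → EZ` the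
degeneracy embedding and `Nm : EZ → EY` its norm.  `Wa` and `Wc` lie over `VA`, `Wb` lies over
`VB`, and the norm obeys the two congruence rules

* (A) `g ≡ α a` on `Wa`, `g ≡ α c` on `Wc`  ⟹  `Nm g ≡ a * c ^ e` on `VA`;
* (B) `g ^ f ≡ α b` on `Wb`  ⟹  `Nm g ≡ b` on `VB`

(`e = q - 1`, `f = q` in the application; for `β` the roles of the branches are permuted).

If `Nm G = c * h ^ m` with `c` a unit at `s` and `h ≡ ηA` on `VA`, `h ≡ ηB` on `VB`, then for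
every `g` with `G * g ^ m` a unit at `n`, with branch values `x_a`, `x_b`, `x_c`:

  `ηA * x_a * x_c ^ e ≡ ηB * x_b ^ f`  at the point.

Proof: `y := h * Nm g` has `y ^ m = c⁻¹ * Nm (G * g ^ m)`, a unit at `s`, so `y` is a unit at `s`
(normality of `RY`); reading `y` on the two branches of `s` gives the two sides.

* `rel_core`    : branch values given as elements of `EY` (units at `s`);
* `rel_const`   : branch values in `RY` (e.g. constants);
* `rel_branch`  : branch values `ρ / σ` in `RZ_n`, with the branch-transfer hypotheses;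
* `unitAt_norm` : the hypothesis "`Nm` maps units at `n` to units at `s`" when `n` is the only
                  prime above `s`;
* `combine_b`, `combine_c` : the α- and β-relations together.
-/

set_option autoImplicit false

namespace Fermat.Agent.S36.TorA

open Fermat.Agent.S34.LocPlan

/-! ### valuation subrings -/

section Val

variable {E : Type*} [Field E]

theorem nu_add (V : ValuationSubring E) {x y : E} (hx : x ∈ V.nonunits) (hy : y ∈ V.nonunits) :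
    x + y ∈ V.nonunits := by
  rw [ValuationSubring.mem_nonunits_iff] at *
  exact Valuation.map_add_lt _ hx hy

theorem nu_neg (V : ValuationSubring E) {x : E} (hx : x ∈ V.nonunits) : -x ∈ V.nonunits := by
  rw [ValuationSubring.mem_nonunits_iff] at *
  rwa [Valuation.map_neg]

theorem nu_sub (V : ValuationSubring E) {x y : E} (hx : x ∈ V.nonunits) (hy : y ∈ V.nonunits) :
    x - y ∈ V.nonunits := by
  rw [sub_eq_add_neg]
  exact nu_add V hx (nu_neg V hy)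

theorem nu_mem (V : ValuationSubring E) {x : E} (hx : x ∈ V.nonunits) : x ∈ V := by
  rw [ValuationSubring.mem_nonunits_iff] at hx
  exact (V.valuation_le_one_iff x).1 hx.le

theorem nu_mul_left (V : ValuationSubring E) {z x : E} (hz : z ∈ V) (hx : x ∈ V.nonunits) :
    z * x ∈ V.nonunits := by
  rw [ValuationSubring.mem_nonunits_iff] at *
  have hz' : V.valuation z ≤ 1 := (V.valuation_le_one_iff z).2 hz
  rw [map_mul]
  exact Right.mul_lt_one_of_le_of_lt hz' hx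

theorem nu_mul_right (V : ValuationSubring E) {z x : E} (hx : x ∈ V.nonunits) (hz : z ∈ V) :
    x * z ∈ V.nonunits := by
  rw [mul_comm]
  exact nu_mul_left V hz hx

/-- cancel a unit of `V` -/
theorem nu_of_mul (V : ValuationSubring E) {u x : E} (hu : V.valuation u = 1)
    (h : u * x ∈ V.nonunits) : x ∈ V.nonunits := by
  rw [ValuationSubring.mem_nonunits_iff] at *
  rwa [map_mul, hu, one_mul] at h

theorem val_one_mem (V : ValuationSubring E) {u : E} (hu : V.valuation u = 1) : u ∈ V :=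
  (V.valuation_le_one_iff u).1 hu.le

theorem val_one_inv (V : ValuationSubring E) {u : E} (hu : V.valuation u = 1) :
    V.valuation u⁻¹ = 1 := by
  rw [map_inv₀, hu, inv_one]

/-- `x ^ k ≡ y ^ k` if `x ≡ y`, for `y ∈ V`. -/
theorem nu_pow_sub_pow (V : ValuationSubring E) {x y : E} (hy : y ∈ V)
    (h : x - y ∈ V.nonunits) (k : ℕ) : x ^ k - y ^ k ∈ V.nonunits := by
  have hx : x ∈ V := by
    have : x = (x - y) + y := by ring
    rw [this]
    exact V.add_mem _ _ (nu_mem V h) hy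
  induction k with
  | zero =>
    simp only [pow_zero, sub_self]
    rw [ValuationSubring.mem_nonunits_iff, map_zero]
    exact zero_lt_one
  | succ k ih =>
    have h1 : x ^ (k + 1) - y ^ (k + 1) = x ^ k * (x - y) + y * (x ^ k - y ^ k) := by ring
    rw [h1]
    exact nu_add V (nu_mul_left V (V.pow_mem hx k) h) (nu_mul_left V hy ih)

end Val

/-! ### local vocabulary -/

section Loc

variable {R : Type*} [CommRing R] {E : Type*} [Field E] [Algebra R E]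

/-- `x ∈ 𝔮 R_𝔮`. -/
def MaxAt (𝔮 : Ideal R) (x : E) : Prop :=
  ∃ a t : R, a ∈ 𝔮 ∧ t ∉ 𝔮 ∧ x * algebraMap R E t = algebraMap R E a

theorem regAt_algebraMap (𝔮 : Ideal R) [h𝔮 : 𝔮.IsPrime] (r : R) : RegAt 𝔮 (algebraMap R E r) :=
  ⟨r, 1, fun h => h𝔮.ne_top ((Ideal.eq_top_iff_one _).2 h), by simp⟩

theorem regAt_of_unitAt {𝔮 : Ideal R} {x : E} (h : UnitAt 𝔮 x) : RegAt 𝔮 x := by
  obtain ⟨a, t, _, ht, hx⟩ := h
  exact ⟨a, t, ht, hx⟩

theorem regAt_add {𝔮 : Ideal R} [h𝔮 : 𝔮.IsPrime] {x y : E} (hx : RegAt 𝔮 x) (hy : RegAt 𝔮 y) :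
    RegAt 𝔮 (x + y) := by
  obtain ⟨a, t, ht, hx⟩ := hx
  obtain ⟨b, u, hu, hy⟩ := hy
  refine ⟨a * u + b * t, t * u, fun h => (h𝔮.mem_or_mem h).elim ht hu, ?_⟩
  rw [map_mul, map_add, map_mul, map_mul, ← hx, ← hy]
  ring

theorem regAt_neg {𝔮 : Ideal R} {x : E} (hx : RegAt 𝔮 x) : RegAt 𝔮 (-x) := by
  obtain ⟨a, t, ht, hx⟩ := hx
  refine ⟨-a, t, ht, ?_⟩
  rw [map_neg, ← hx]
  ring

theorem regAt_sub {𝔮 : Ideal R} [𝔮.IsPrime] {x y : E} (hx : RegAt 𝔮 x) (hy : RegAt 𝔮 y) :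
    RegAt 𝔮 (x - y) := by
  rw [sub_eq_add_neg]
  exact regAt_add hx (regAt_neg hy)

theorem regAt_mul {𝔮 : Ideal R} [h𝔮 : 𝔮.IsPrime] {x y : E} (hx : RegAt 𝔮 x) (hy : RegAt 𝔮 y) :
    RegAt 𝔮 (x * y) := by
  obtain ⟨a, t, ht, hx⟩ := hx
  obtain ⟨b, u, hu, hy⟩ := hy
  refine ⟨a * b, t * u, fun h => (h𝔮.mem_or_mem h).elim ht hu, ?_⟩
  rw [map_mul, map_mul, ← hx, ← hy]
  ring

theorem regAt_pow {𝔮 : Ideal R} [h𝔮 : 𝔮.IsPrime] {x : E} (hx : RegAt 𝔮 x) (k : ℕ) :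
    RegAt 𝔮 (x ^ k) := by
  induction k with
  | zero =>
    rw [pow_zero]
    have := regAt_algebraMap (E := E) 𝔮 (1 : R)
    rwa [map_one] at this
  | succ k ih =>
    rw [pow_succ]
    exact regAt_mul ih hx

theorem unitAt_mul {𝔮 : Ideal R} [h𝔮 : 𝔮.IsPrime] {x y : E} (hx : UnitAt 𝔮 x)
    (hy : UnitAt 𝔮 y) : UnitAt 𝔮 (x * y) := by
  obtain ⟨a, t, ha, ht, hx⟩ := hx
  obtain ⟨b, u, hb, hu, hy⟩ := hy
  refine ⟨a * b, t * u, fun h => (h𝔮.mem_or_mem h).elim ha hb,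
    fun h => (h𝔮.mem_or_mem h).elim ht hu, ?_⟩
  rw [map_mul, map_mul, ← hx, ← hy]
  ring

theorem unitAt_algebraMap {𝔮 : Ideal R} [h𝔮 : 𝔮.IsPrime] {r : R} (hr : r ∉ 𝔮) :
    UnitAt 𝔮 (algebraMap R E r) :=
  ⟨r, 1, hr, fun h => h𝔮.ne_top ((Ideal.eq_top_iff_one _).2 h), by simp⟩

theorem maxAt_sub {𝔮 : Ideal R} [h𝔮 : 𝔮.IsPrime] {x y : E} (hx : MaxAt 𝔮 x) (hy : MaxAt 𝔮 y) :
    MaxAt 𝔮 (x - y) := by
  obtain ⟨a, t, ha, ht, hx⟩ := hx
  obtain ⟨b, u, hb, hu, hy⟩ := hy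
  refine ⟨a * u - b * t, t * u, ?_, fun h => (h𝔮.mem_or_mem h).elim ht hu, ?_⟩
  · exact Ideal.sub_mem _ (Ideal.mul_mem_right _ _ ha) (Ideal.mul_mem_right _ _ hb)
  · rw [map_mul, map_sub, map_mul, map_mul, ← hx, ← hy]
    ring

variable [IsDomain R] [IsFractionRing R E]

omit [IsDomain R] in
theorem algebraMap_ne_zero {𝔮 : Ideal R} {r : R} (hr : r ∉ 𝔮) : algebraMap R E r ≠ 0 := by
  intro h
  have h0 : r = 0 := (IsFractionRing.injective R E) (by rw [h, map_zero])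
  exact hr (h0 ▸ 𝔮.zero_mem)

omit [IsDomain R] in
theorem unitAt_ne_zero {𝔮 : Ideal R} {x : E} (h : UnitAt 𝔮 x) : x ≠ 0 := by
  obtain ⟨a, t, ha, _, hx⟩ := h
  intro h0
  rw [h0, zero_mul] at hx
  exact algebraMap_ne_zero (E := E) ha hx.symm

omit [IsDomain R] in
theorem unitAt_inv {𝔮 : Ideal R} {x : E} (h : UnitAt 𝔮 x) : UnitAt 𝔮 x⁻¹ := by
  have hx0 := unitAt_ne_zero h
  obtain ⟨a, t, ha, ht, hx⟩ := h
  refine ⟨t, a, ht, ha, ?_⟩
  rw [← hx]
  field_simp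

omit [IsDomain R] in
theorem unitAt_div_algebraMap {𝔮 : Ideal R} {a b : R} (ha : a ∉ 𝔮) (hb : b ∉ 𝔮) :
    UnitAt 𝔮 (algebraMap R E a / algebraMap R E b) := by
  refine ⟨a, b, ha, hb, ?_⟩
  have := algebraMap_ne_zero (E := E) hb
  field_simp

omit [IsDomain R] in
/-- Normality: an element whose `m`-th power is a unit at `𝔮` is a unit at `𝔮`. -/
theorem unitAt_of_pow [IsIntegrallyClosed R] {𝔮 : Ideal R} [h𝔮 : 𝔮.IsPrime] {y : E} {m : ℕ}
    (hm : 0 < m) (h : UnitAt 𝔮 (y ^ m)) : UnitAt 𝔮 y := by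
  obtain ⟨a, t, ha, ht, hy⟩ := h
  have h1 : (y * algebraMap R E t) ^ m = algebraMap R E (t ^ (m - 1) * a) := by
    obtain ⟨k, rfl⟩ : ∃ k, m = k + 1 := ⟨m - 1, by omega⟩
    rw [mul_pow, pow_succ (algebraMap R E t), ← mul_assoc, mul_comm (y ^ (k + 1)), mul_assoc,
      hy, map_mul, map_pow]
    simp
  have hint : IsIntegral R (y * algebraMap R E t) := by
    refine ⟨Polynomial.X ^ m - Polynomial.C (t ^ (m - 1) * a),
      Polynomial.monic_X_pow_sub_C _ (by omega), ?_⟩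
    rw [Polynomial.eval₂_sub, Polynomial.eval₂_pow, Polynomial.eval₂_X, Polynomial.eval₂_C, h1,
      sub_self]
  obtain ⟨b, hb⟩ := IsIntegrallyClosed.isIntegral_iff.1 hint
  refine ⟨b, t, ?_, ht, hb.symm⟩
  intro hbq
  have h2 : algebraMap R E (b ^ m) = algebraMap R E (t ^ (m - 1) * a) := by
    rw [map_pow, hb, h1]
  have h3 : b ^ m = t ^ (m - 1) * a := (IsFractionRing.injective R E) h2
  have h4 : t ^ (m - 1) * a ∈ 𝔮 := by
    rw [← h3]
    exact Ideal.pow_mem_of_mem _ hbq _ hm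
  rcases h𝔮.mem_or_mem h4 with h5 | h5
  · exact ht (h𝔮.mem_of_pow_mem _ h5)
  · exact ha h5

end Loc

/-! ### a chart inside a valuation ring whose centre lies in the point -/

section Centre

variable {R : Type*} [CommRing R] {E : Type*} [Field E] [Algebra R E]

theorem val_eq_one (V : ValuationSubring E) (𝔮 : Ideal R)
    (hle : ∀ r : R, algebraMap R E r ∈ V)
    (hcen : ∀ r : R, algebraMap R E r ∈ V.nonunits → r ∈ 𝔮) {r : R} (hr : r ∉ 𝔮) :
    V.valuation (algebraMap R E r) = 1 := by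
  have h1 : V.valuation (algebraMap R E r) ≤ 1 := (V.valuation_le_one_iff _).2 (hle r)
  rcases lt_or_eq_of_le h1 with h2 | h2
  · exact absurd (hcen r (by rw [ValuationSubring.mem_nonunits_iff]; exact h2)) hr
  · exact h2

theorem val_unitAt (V : ValuationSubring E) (𝔮 : Ideal R)
    (hle : ∀ r : R, algebraMap R E r ∈ V)
    (hcen : ∀ r : R, algebraMap R E r ∈ V.nonunits → r ∈ 𝔮) {x : E} (hx : UnitAt 𝔮 x) :
    V.valuation x = 1 := by
  obtain ⟨a, t, ha, ht, hx⟩ := hx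
  have h1 := congrArg V.valuation hx
  rwa [map_mul, val_eq_one V 𝔮 hle hcen ha, val_eq_one V 𝔮 hle hcen ht, mul_one] at h1

theorem mem_of_regAt (V : ValuationSubring E) (𝔮 : Ideal R)
    (hle : ∀ r : R, algebraMap R E r ∈ V)
    (hcen : ∀ r : R, algebraMap R E r ∈ V.nonunits → r ∈ 𝔮) {x : E} (hx : RegAt 𝔮 x) :
    x ∈ V := by
  obtain ⟨a, t, ht, hx⟩ := hx
  have h1 := congrArg V.valuation hx
  rw [map_mul, val_eq_one V 𝔮 hle hcen ht, mul_one] at h1
  rw [← V.valuation_le_one_iff, h1]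
  exact (V.valuation_le_one_iff _).2 (hle a)

/-- `R_𝔮 ∩ 𝔪(V) ⊆ 𝔮 R_𝔮`. -/
theorem maxAt_of_nonunits (V : ValuationSubring E) (𝔮 : Ideal R)
    (hle : ∀ r : R, algebraMap R E r ∈ V)
    (hcen : ∀ r : R, algebraMap R E r ∈ V.nonunits → r ∈ 𝔮) {x : E} (hx : RegAt 𝔮 x)
    (hxV : x ∈ V.nonunits) : MaxAt 𝔮 x := by
  obtain ⟨a, t, ht, hx⟩ := hx
  refine ⟨a, t, hcen a ?_, ht, hx⟩
  rw [← hx]
  exact nu_mul_right V hxV (hle t)

end Centre

/-! ### the relation -/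

section Core

variable {RY EY RZ EZ : Type*} [CommRing RY] [IsDomain RY] [IsIntegrallyClosed RY] [Field EY]
  [Algebra RY EY] [IsFractionRing RY EY] [CommRing RZ] [Field EZ] [Algebra RZ EZ]

omit [IsDomain RY] in
/-- **[TOR-A], core form.**  Branch values of `g` given by elements `a`, `b`, `c'` of `EY`,
units at `s`: `g ≡ α a` on `Wa`, `g ^ f ≡ α b` on `Wb`, `g ≡ α c'` on `Wc`.  Then
`ηA * a * c' ^ e - ηB * b ∈ s RY_s`. -/
theorem rel_core (s : Ideal RY) [hs : s.IsPrime] (n : Ideal RZ)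
    (VA VB : ValuationSubring EY) (Wa Wb Wc : ValuationSubring EZ)
    (α : EY →+* EZ) (Nm : EZ →* EY) (e f m : ℕ) (hm : 0 < m)
    (hleA : ∀ r : RY, algebraMap RY EY r ∈ VA)
    (hcenA : ∀ r : RY, algebraMap RY EY r ∈ VA.nonunits → r ∈ s)
    (hleB : ∀ r : RY, algebraMap RY EY r ∈ VB)
    (hcenB : ∀ r : RY, algebraMap RY EY r ∈ VB.nonunits → r ∈ s)
    (hNmU : ∀ u : EZ, UnitAt n u → UnitAt s (Nm u))
    (hruleA : ∀ (g : EZ) (a c : EY), a ≠ 0 → c ≠ 0 → a ∈ VA → a⁻¹ ∈ VA → c ∈ VA → c⁻¹ ∈ VA →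
      g - α a ∈ Wa.nonunits → g - α c ∈ Wc.nonunits → Nm g - a * c ^ e ∈ VA.nonunits)
    (hruleB : ∀ (g : EZ) (b : EY), b ≠ 0 → b ∈ VB → b⁻¹ ∈ VB →
      g ^ f - α b ∈ Wb.nonunits → Nm g - b ∈ VB.nonunits)
    (G : EZ) (c h ηA ηB : EY) (hc : UnitAt s c) (hNG : Nm G = c * h ^ m)
    (hηA : RegAt s ηA) (hηB : RegAt s ηB)
    (hhA : h - ηA ∈ VA.nonunits) (hhB : h - ηB ∈ VB.nonunits)
    (g : EZ) (hg : UnitAt n (G * g ^ m))
    (a b c' : EY) (ha : UnitAt s a) (hb : UnitAt s b) (hc' : UnitAt s c')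
    (h1 : g - α a ∈ Wa.nonunits) (h2 : g ^ f - α b ∈ Wb.nonunits)
    (h3 : g - α c' ∈ Wc.nonunits) :
    MaxAt s (ηA * a * c' ^ e - ηB * b) := by
  -- `y := h * Nm g` is a unit at `s`
  have hc0 : c ≠ 0 := unitAt_ne_zero hc
  have hy : UnitAt s (h * Nm g) := by
    apply unitAt_of_pow hm
    have h4 : (h * Nm g) ^ m = c⁻¹ * Nm (G * g ^ m) := by
      rw [map_mul, map_pow, hNG, mul_pow]
      field_simp
    rw [h4]
    exact unitAt_mul (unitAt_inv hc) (hNmU _ hg)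
  have hyreg := regAt_of_unitAt hy
  -- the branch `VA`
  have hA : MaxAt s (h * Nm g - ηA * a * c' ^ e) := by
    have hr := hruleA g a c' (unitAt_ne_zero ha) (unitAt_ne_zero hc')
      (mem_of_regAt VA s hleA hcenA (regAt_of_unitAt ha))
      (mem_of_regAt VA s hleA hcenA (regAt_of_unitAt (unitAt_inv ha)))
      (mem_of_regAt VA s hleA hcenA (regAt_of_unitAt hc'))
      (mem_of_regAt VA s hleA hcenA (regAt_of_unitAt (unitAt_inv hc'))) h1 h3
    have hac : a * c' ^ e ∈ VA :=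
      VA.mul_mem _ _ (mem_of_regAt VA s hleA hcenA (regAt_of_unitAt ha))
        (VA.pow_mem (mem_of_regAt VA s hleA hcenA (regAt_of_unitAt hc')) e)
    have hNm : Nm g ∈ VA := by
      have : Nm g = (Nm g - a * c' ^ e) + a * c' ^ e := by ring
      rw [this]
      exact VA.add_mem _ _ (nu_mem VA hr) hac
    have hη : ηA ∈ VA := mem_of_regAt VA s hleA hcenA hηA
    refine maxAt_of_nonunits VA s hleA hcenA ?_ ?_
    · exact regAt_sub hyreg (regAt_mul (regAt_mul hηA (regAt_of_unitAt ha))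
        (regAt_pow (regAt_of_unitAt hc') e))
    · have h5 : h * Nm g - ηA * a * c' ^ e = (h - ηA) * Nm g + ηA * (Nm g - a * c' ^ e) := by
        ring
      rw [h5]
      exact nu_add VA (nu_mul_right VA hhA hNm) (nu_mul_left VA hη hr)
  -- the branch `VB`
  have hB : MaxAt s (h * Nm g - ηB * b) := by
    have hr := hruleB g b (unitAt_ne_zero hb)
      (mem_of_regAt VB s hleB hcenB (regAt_of_unitAt hb))
      (mem_of_regAt VB s hleB hcenB (regAt_of_unitAt (unitAt_inv hb))) h2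
    have hbV : b ∈ VB := mem_of_regAt VB s hleB hcenB (regAt_of_unitAt hb)
    have hNm : Nm g ∈ VB := by
      have : Nm g = (Nm g - b) + b := by ring
      rw [this]
      exact VB.add_mem _ _ (nu_mem VB hr) hbV
    have hη : ηB ∈ VB := mem_of_regAt VB s hleB hcenB hηB
    refine maxAt_of_nonunits VB s hleB hcenB ?_ ?_
    · exact regAt_sub hyreg (regAt_mul hηB (regAt_of_unitAt hb))
    · have h5 : h * Nm g - ηB * b = (h - ηB) * Nm g + ηB * (Nm g - b) := by ring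
      rw [h5]
      exact nu_add VB (nu_mul_right VB hhB hNm) (nu_mul_left VB hη hr)
  have h6 : ηA * a * c' ^ e - ηB * b = (h * Nm g - ηB * b) - (h * Nm g - ηA * a * c' ^ e) := by
    ring
  rw [h6]
  exact maxAt_sub hB hA

end Core

/-! ### constant branch values -/

section Const

variable {RY EY RZ EZ : Type*} [CommRing RY] [IsDomain RY] [IsIntegrallyClosed RY] [Field EY]
  [Algebra RY EY] [IsFractionRing RY EY] [CommRing RZ] [Field EZ] [Algebra RZ EZ]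

omit [IsDomain RY] [IsIntegrallyClosed RY] in
theorem mem_of_maxAt_algebraMap {s : Ideal RY} [hs : s.IsPrime] {X : RY}
    (h : MaxAt s (algebraMap RY EY X)) : X ∈ s := by
  obtain ⟨a, t, ha, ht, hx⟩ := h
  have h1 : X * t = a := (IsFractionRing.injective RY EY) (by rw [map_mul, hx])
  have h2 : X * t ∈ s := by rw [h1]; exact ha
  exact (hs.mem_or_mem h2).resolve_right ht

/-- **[TOR-A], constant form.**  Branch values `γa`, `γb`, `γc ∈ RY ∖ s` (e.g. constants):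
`g ≡ α γa`, `α γb`, `α γc` on `Wa`, `Wb`, `Wc`.  Then `ηA * γa * γc ^ e - ηB * γb ^ f ∈ s`.
No branch-transfer hypothesis. -/
theorem rel_const (s : Ideal RY) [hs : s.IsPrime] (n : Ideal RZ)
    (VA VB : ValuationSubring EY) (Wa Wb Wc : ValuationSubring EZ)
    (α : EY →+* EZ) (Nm : EZ →* EY) (e f m : ℕ) (hm : 0 < m)
    (hleA : ∀ r : RY, algebraMap RY EY r ∈ VA)
    (hcenA : ∀ r : RY, algebraMap RY EY r ∈ VA.nonunits → r ∈ s)
    (hleB : ∀ r : RY, algebraMap RY EY r ∈ VB)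
    (hcenB : ∀ r : RY, algebraMap RY EY r ∈ VB.nonunits → r ∈ s)
    (hαb : ∀ r : RY, α (algebraMap RY EY r) ∈ Wb)
    (hNmU : ∀ u : EZ, UnitAt n u → UnitAt s (Nm u))
    (hruleA : ∀ (g : EZ) (a c : EY), a ≠ 0 → c ≠ 0 → a ∈ VA → a⁻¹ ∈ VA → c ∈ VA → c⁻¹ ∈ VA →
      g - α a ∈ Wa.nonunits → g - α c ∈ Wc.nonunits → Nm g - a * c ^ e ∈ VA.nonunits)
    (hruleB : ∀ (g : EZ) (b : EY), b ≠ 0 → b ∈ VB → b⁻¹ ∈ VB →
      g ^ f - α b ∈ Wb.nonunits → Nm g - b ∈ VB.nonunits)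
    (G : EZ) (c h : EY) (ηA ηB : RY) (hc : UnitAt s c) (hNG : Nm G = c * h ^ m)
    (hhA : h - algebraMap RY EY ηA ∈ VA.nonunits) (hhB : h - algebraMap RY EY ηB ∈ VB.nonunits)
    (g : EZ) (hg : UnitAt n (G * g ^ m))
    (γa γb γc : RY) (hγa : γa ∉ s) (hγb : γb ∉ s) (hγc : γc ∉ s)
    (h1 : g - α (algebraMap RY EY γa) ∈ Wa.nonunits)
    (h2 : g - α (algebraMap RY EY γb) ∈ Wb.nonunits)
    (h3 : g - α (algebraMap RY EY γc) ∈ Wc.nonunits) :
    ηA * γa * γc ^ e - ηB * γb ^ f ∈ s := by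
  have hγbf : γb ^ f ∉ s := fun h => hγb (hs.mem_of_pow_mem _ h)
  have h2' : g ^ f - α (algebraMap RY EY (γb ^ f)) ∈ Wb.nonunits := by
    rw [map_pow, map_pow]
    exact nu_pow_sub_pow Wb (hαb γb) h2 f
  have key := rel_core s n VA VB Wa Wb Wc α Nm e f m hm hleA hcenA hleB hcenB hNmU hruleA hruleB
    G c h (algebraMap RY EY ηA) (algebraMap RY EY ηB) hc hNG (regAt_algebraMap s ηA)
    (regAt_algebraMap s ηB) hhA hhB g hg (algebraMap RY EY γa) (algebraMap RY EY (γb ^ f))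
    (algebraMap RY EY γc) (unitAt_algebraMap hγa) (unitAt_algebraMap hγbf)
    (unitAt_algebraMap hγc) h1 h2' h3
  apply mem_of_maxAt_algebraMap (EY := EY)
  have h4 : algebraMap RY EY (ηA * γa * γc ^ e - ηB * γb ^ f) =
      algebraMap RY EY ηA * algebraMap RY EY γa * algebraMap RY EY γc ^ e -
        algebraMap RY EY ηB * algebraMap RY EY (γb ^ f) := by
    simp only [map_sub, map_mul, map_pow]
  rw [h4]
  exact key

end Const

/-! ### general branch values, with branch transfer -/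

section Branch

variable {RY EY RZ EZ : Type*} [CommRing RY] [IsDomain RY] [IsIntegrallyClosed RY] [Field EY]
  [Algebra RY EY] [IsFractionRing RY EY] [CommRing RZ] [Field EZ] [Algebra RZ EZ]

omit [IsDomain RY] [IsIntegrallyClosed RY] [IsFractionRing RY EY] in
/-- From a branch value `ρ / σ` of `g` on `W` and a transferred value `a / b` of `ρ / σ`:
`g ≡ α (a / b)` on `W`. -/
theorem sub_alpha_mem (n : Ideal RZ) (W : ValuationSubring EZ) (α : EY →+* EZ) (αR : RY →+* RZ)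
    (hα : ∀ r : RY, α (algebraMap RY EY r) = algebraMap RZ EZ (αR r))
    (hleW : ∀ r : RZ, algebraMap RZ EZ r ∈ W)
    (hcenW : ∀ r : RZ, algebraMap RZ EZ r ∈ W.nonunits → r ∈ n)
    {g : EZ} {ρ σ : RZ} {a b : RY} (hσ : σ ∉ n) (hb : αR b ∉ n)
    (hg : algebraMap RZ EZ σ * g - algebraMap RZ EZ ρ ∈ W.nonunits)
    (htr : algebraMap RZ EZ (αR b * ρ - αR a * σ) ∈ W.nonunits) :
    g - α (algebraMap RY EY a / algebraMap RY EY b) ∈ W.nonunits := by
  have hvσ := val_eq_one W n hleW hcenW hσ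
  have hvb := val_eq_one W n hleW hcenW hb
  have hb0 : algebraMap RZ EZ (αR b) ≠ 0 := by
    intro h0
    rw [h0, map_zero] at hvb
    exact zero_ne_one hvb
  have h1 : algebraMap RZ EZ σ * (algebraMap RZ EZ (αR b) * g - algebraMap RZ EZ (αR a)) ∈
      W.nonunits := by
    have h2 : algebraMap RZ EZ σ * (algebraMap RZ EZ (αR b) * g - algebraMap RZ EZ (αR a)) =
        algebraMap RZ EZ (αR b) * (algebraMap RZ EZ σ * g - algebraMap RZ EZ ρ) +
          algebraMap RZ EZ (αR b * ρ - αR a * σ) := by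
      simp only [map_sub, map_mul]
      ring
    rw [h2]
    exact nu_add W (nu_mul_left W (hleW _) hg) htr
  have h3 := nu_of_mul W hvσ h1
  have h4 : algebraMap RZ EZ (αR b) * (g - α (algebraMap RY EY a / algebraMap RY EY b)) =
      algebraMap RZ EZ (αR b) * g - algebraMap RZ EZ (αR a) := by
    rw [map_div₀, hα, hα]
    field_simp
  rw [← h4] at h3
  exact nu_of_mul W hvb h3

omit [IsDomain RY] [IsIntegrallyClosed RY] [IsFractionRing RY EY] in
/-- The same for `f`-th powers. -/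
theorem pow_sub_alpha_mem (n : Ideal RZ) [hn : n.IsPrime] (W : ValuationSubring EZ)
    (α : EY →+* EZ) (αR : RY →+* RZ)
    (hα : ∀ r : RY, α (algebraMap RY EY r) = algebraMap RZ EZ (αR r))
    (hleW : ∀ r : RZ, algebraMap RZ EZ r ∈ W)
    (hcenW : ∀ r : RZ, algebraMap RZ EZ r ∈ W.nonunits → r ∈ n)
    {g : EZ} {ρ σ : RZ} {a b : RY} (f : ℕ) (hσ : σ ∉ n) (hb : αR b ∉ n)
    (hg : algebraMap RZ EZ σ * g - algebraMap RZ EZ ρ ∈ W.nonunits)
    (htr : algebraMap RZ EZ (αR b * ρ ^ f - αR a * σ ^ f) ∈ W.nonunits) :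
    g ^ f - α (algebraMap RY EY a / algebraMap RY EY b) ∈ W.nonunits := by
  have hσf : σ ^ f ∉ n := fun h => hσ (hn.mem_of_pow_mem _ h)
  have hg' : algebraMap RZ EZ (σ ^ f) * g ^ f - algebraMap RZ EZ (ρ ^ f) ∈ W.nonunits := by
    rw [map_pow, map_pow, ← mul_pow]
    exact nu_pow_sub_pow W (hleW ρ) hg f
  exact sub_alpha_mem n W α αR hα hleW hcenW hσf hb hg' htr

/-- **[TOR-A], branch form.**  Branch values `ρ• / σ•` of `g` at the point `n` on the three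
branches; every unit of `RZ_n` is, on `Wa` and on `Wc`, congruent to `α` of a unit of `RY_s`,
and its `f`-th power is so on `Wb`.  Then
`ηA * x_a * x_c ^ e ≡ ηB * x_b ^ f` modulo `n` (denominators cleared). -/
theorem rel_branch (s : Ideal RY) [hs : s.IsPrime] (n : Ideal RZ) [hn : n.IsPrime]
    (VA VB : ValuationSubring EY) (Wa Wb Wc : ValuationSubring EZ)
    (α : EY →+* EZ) (αR : RY →+* RZ) (Nm : EZ →* EY) (e f m : ℕ) (hm : 0 < m)
    (hα : ∀ r : RY, α (algebraMap RY EY r) = algebraMap RZ EZ (αR r))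
    (hsn : ∀ r : RY, αR r ∈ n ↔ r ∈ s)
    (hleA : ∀ r : RY, algebraMap RY EY r ∈ VA)
    (hcenA : ∀ r : RY, algebraMap RY EY r ∈ VA.nonunits → r ∈ s)
    (hleB : ∀ r : RY, algebraMap RY EY r ∈ VB)
    (hcenB : ∀ r : RY, algebraMap RY EY r ∈ VB.nonunits → r ∈ s)
    (hleWa : ∀ r : RZ, algebraMap RZ EZ r ∈ Wa)
    (hcenWa : ∀ r : RZ, algebraMap RZ EZ r ∈ Wa.nonunits → r ∈ n)
    (hleWb : ∀ r : RZ, algebraMap RZ EZ r ∈ Wb)
    (hcenWb : ∀ r : RZ, algebraMap RZ EZ r ∈ Wb.nonunits → r ∈ n)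
    (hleWc : ∀ r : RZ, algebraMap RZ EZ r ∈ Wc)
    (hcenWc : ∀ r : RZ, algebraMap RZ EZ r ∈ Wc.nonunits → r ∈ n)
    (hNmU : ∀ u : EZ, UnitAt n u → UnitAt s (Nm u))
    (hruleA : ∀ (g : EZ) (a c : EY), a ≠ 0 → c ≠ 0 → a ∈ VA → a⁻¹ ∈ VA → c ∈ VA → c⁻¹ ∈ VA →
      g - α a ∈ Wa.nonunits → g - α c ∈ Wc.nonunits → Nm g - a * c ^ e ∈ VA.nonunits)
    (hruleB : ∀ (g : EZ) (b : EY), b ≠ 0 → b ∈ VB → b⁻¹ ∈ VB →
      g ^ f - α b ∈ Wb.nonunits → Nm g - b ∈ VB.nonunits)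
    (htrA : ∀ ρ σ : RZ, ρ ∉ n → σ ∉ n → ∃ a b : RY, a ∉ s ∧ b ∉ s ∧
      algebraMap RZ EZ (αR b * ρ - αR a * σ) ∈ Wa.nonunits)
    (htrB : ∀ ρ σ : RZ, ρ ∉ n → σ ∉ n → ∃ a b : RY, a ∉ s ∧ b ∉ s ∧
      algebraMap RZ EZ (αR b * ρ ^ f - αR a * σ ^ f) ∈ Wb.nonunits)
    (htrC : ∀ ρ σ : RZ, ρ ∉ n → σ ∉ n → ∃ a b : RY, a ∉ s ∧ b ∉ s ∧
      algebraMap RZ EZ (αR b * ρ - αR a * σ) ∈ Wc.nonunits)
    (G : EZ) (c h : EY) (ηA ηB : RY) (hc : UnitAt s c) (hNG : Nm G = c * h ^ m)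
    (hhA : h - algebraMap RY EY ηA ∈ VA.nonunits) (hhB : h - algebraMap RY EY ηB ∈ VB.nonunits)
    (g : EZ) (hg : UnitAt n (G * g ^ m))
    (ρa σa ρb σb ρc σc : RZ)
    (hσa : σa ∉ n) (hρa : ρa ∉ n)
    (hga : algebraMap RZ EZ σa * g - algebraMap RZ EZ ρa ∈ Wa.nonunits)
    (hσb : σb ∉ n) (hρb : ρb ∉ n)
    (hgb : algebraMap RZ EZ σb * g - algebraMap RZ EZ ρb ∈ Wb.nonunits)
    (hσc : σc ∉ n) (hρc : ρc ∉ n)
    (hgc : algebraMap RZ EZ σc * g - algebraMap RZ EZ ρc ∈ Wc.nonunits) :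
    αR ηA * ρa * ρc ^ e * σb ^ f - αR ηB * ρb ^ f * σa * σc ^ e ∈ n := by
  obtain ⟨a1, b1, ha1, hb1, htr1⟩ := htrA ρa σa hρa hσa
  obtain ⟨a2, b2, ha2, hb2, htr2⟩ := htrB ρb σb hρb hσb
  obtain ⟨a3, b3, ha3, hb3, htr3⟩ := htrC ρc σc hρc hσc
  have hB1 : αR b1 ∉ n := fun h => hb1 ((hsn b1).1 h)
  have hB2 : αR b2 ∉ n := fun h => hb2 ((hsn b2).1 h)
  have hB3 : αR b3 ∉ n := fun h => hb3 ((hsn b3).1 h)
  have h1 := sub_alpha_mem n Wa α αR hα hleWa hcenWa hσa hB1 hga htr1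
  have h2 := pow_sub_alpha_mem n Wb α αR hα hleWb hcenWb f hσb hB2 hgb htr2
  have h3 := sub_alpha_mem n Wc α αR hα hleWc hcenWc hσc hB3 hgc htr3
  have key := rel_core s n VA VB Wa Wb Wc α Nm e f m hm hleA hcenA hleB hcenB hNmU hruleA hruleB
    G c h (algebraMap RY EY ηA) (algebraMap RY EY ηB) hc hNG (regAt_algebraMap s ηA)
    (regAt_algebraMap s ηB) hhA hhB g hg (algebraMap RY EY a1 / algebraMap RY EY b1)
    (algebraMap RY EY a2 / algebraMap RY EY b2) (algebraMap RY EY a3 / algebraMap RY EY b3)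
    (unitAt_div_algebraMap ha1 hb1) (unitAt_div_algebraMap ha2 hb2)
    (unitAt_div_algebraMap ha3 hb3) h1 h2 h3
  -- clear the denominators downstairs
  have hX : ηA * a1 * a3 ^ e * b2 - ηB * a2 * b1 * b3 ^ e ∈ s := by
    obtain ⟨r, t, hr, ht, hx⟩ := key
    have hb10 := algebraMap_ne_zero (E := EY) hb1
    have hb20 := algebraMap_ne_zero (E := EY) hb2
    have hb30 := algebraMap_ne_zero (E := EY) hb3
    have hx' : (algebraMap RY EY ηA * (algebraMap RY EY a1 / algebraMap RY EY b1) *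
        (algebraMap RY EY a3 / algebraMap RY EY b3) ^ e -
        algebraMap RY EY ηB * (algebraMap RY EY a2 / algebraMap RY EY b2)) *
        (algebraMap RY EY b1 * algebraMap RY EY b3 ^ e * algebraMap RY EY b2) =
        algebraMap RY EY ηA * algebraMap RY EY a1 * algebraMap RY EY a3 ^ e *
          algebraMap RY EY b2 -
          algebraMap RY EY ηB * algebraMap RY EY a2 * algebraMap RY EY b1 *
            algebraMap RY EY b3 ^ e := by
      rw [div_pow]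
      field_simp
    have h4 : algebraMap RY EY ((ηA * a1 * a3 ^ e * b2 - ηB * a2 * b1 * b3 ^ e) * t) =
        algebraMap RY EY (r * (b1 * b3 ^ e * b2)) := by
      simp only [map_sub, map_mul, map_pow]
      linear_combination (-(algebraMap RY EY t)) * hx' +
        (algebraMap RY EY b1 * algebraMap RY EY b3 ^ e * algebraMap RY EY b2) * hx
    have h5 := (IsFractionRing.injective RY EY) h4
    have h6 : (ηA * a1 * a3 ^ e * b2 - ηB * a2 * b1 * b3 ^ e) * t ∈ s := by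
      rw [h5]
      exact Ideal.mul_mem_right _ _ hr
    exact (hs.mem_or_mem h6).resolve_right ht
  have hX' : αR ηA * αR a1 * αR a3 ^ e * αR b2 - αR ηB * αR a2 * αR b1 * αR b3 ^ e ∈ n := by
    have := (hsn _).2 hX
    simpa only [map_sub, map_mul, map_pow] using this
  -- the transferred values agree with the branch values at the point
  have e1 : αR b1 * ρa - αR a1 * σa ∈ n := hcenWa _ htr1
  have e2 : αR b2 * ρb ^ f - αR a2 * σb ^ f ∈ n := hcenWb _ htr2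
  have e3 : αR b3 * ρc - αR a3 * σc ∈ n := hcenWc _ htr3
  have e3' : (αR b3 * ρc) ^ e - (αR a3 * σc) ^ e ∈ n :=
    Ideal.mem_of_dvd _ (sub_dvd_pow_sub_pow _ _ e) e3
  have hmain : αR b1 * αR b3 ^ e * αR b2 *
      (αR ηA * ρa * ρc ^ e * σb ^ f - αR ηB * ρb ^ f * σa * σc ^ e) ∈ n := by
    have h7 : αR b1 * αR b3 ^ e * αR b2 *
        (αR ηA * ρa * ρc ^ e * σb ^ f - αR ηB * ρb ^ f * σa * σc ^ e) =
        αR ηA * αR b2 * σb ^ f * (αR b3 * ρc) ^ e * (αR b1 * ρa - αR a1 * σa) +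
          αR ηA * αR b2 * σb ^ f * (αR a1 * σa) * ((αR b3 * ρc) ^ e - (αR a3 * σc) ^ e) -
          αR ηB * αR b1 * αR b3 ^ e * σa * σc ^ e * (αR b2 * ρb ^ f - αR a2 * σb ^ f) +
          σa * σc ^ e * σb ^ f *
            (αR ηA * αR a1 * αR a3 ^ e * αR b2 - αR ηB * αR a2 * αR b1 * αR b3 ^ e) := by
      ring
    rw [h7]
    exact Ideal.add_mem _ (Ideal.sub_mem _ (Ideal.add_mem _ (Ideal.mul_mem_left _ _ e1)
      (Ideal.mul_mem_left _ _ e3')) (Ideal.mul_mem_left _ _ e2)) (Ideal.mul_mem_left _ _ hX')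
  have hB : αR b1 * αR b3 ^ e * αR b2 ∉ n := by
    intro h
    rcases hn.mem_or_mem h with h | h
    · rcases hn.mem_or_mem h with h | h
      · exact hB1 h
      · exact hB3 (hn.mem_of_pow_mem _ h)
    · exact hB2 h
  exact (hn.mem_or_mem hmain).resolve_left hB

end Branch

/-! ### the norm of a unit at the only point above `s` -/

section NormUnit

variable {RY EY RZ EZ : Type*} [CommRing RY] [IsDomain RY] [Field EY]
  [Algebra RY EY] [IsFractionRing RY EY] [CommRing RZ] [Field EZ] [Algebra RZ EZ]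

omit [IsDomain RY] [IsFractionRing RY EY] in
/-- If `n` is the only prime of `RZ` above `s` and `RZ` is integral over `RY`, every element of
`RZ` outside `n` divides the image of an element of `RY` outside `s`. -/
theorem exists_mul_eq_of_only (s : Ideal RY) [hs : s.IsPrime] (n : Ideal RZ) (αR : RY →+* RZ)
    (hint : ∀ z : RZ, ∃ p : Polynomial RY, p.Monic ∧ Polynomial.eval₂ αR z p = 0)
    (honly : ∀ n' : Ideal RZ, n'.IsPrime → n'.comap αR = s → n' = n) {σ : RZ} (hσ : σ ∉ n) :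
    ∃ z : RZ, ∃ t : RY, t ∉ s ∧ σ * z = αR t := by
  by_contra hcon
  let _ : Algebra RY RZ := αR.toAlgebra
  have : Algebra.IsIntegral RY RZ := ⟨fun z => hint z⟩
  have hcomap : Ideal.comap (algebraMap RY RZ) (Ideal.span {σ}) ≤ s := by
    intro t ht
    rw [Ideal.mem_comap, Ideal.mem_span_singleton'] at ht
    obtain ⟨z, hz⟩ := ht
    by_contra hts
    exact hcon ⟨z, t, hts, by rw [mul_comm]; exact hz⟩
  obtain ⟨Q, hQ, hQp, hQs⟩ := Ideal.exists_ideal_over_prime_of_isIntegral s (Ideal.span {σ}) hcomap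
  have hQn : Q = n := honly Q hQp hQs
  exact hσ (hQn ▸ hQ (Ideal.subset_span rfl))

omit [IsDomain RY] in
/-- **(L)**: the norm maps units at `n` to units at `s`, when `n` is the only prime above `s`,
`RZ` is integral over `RY`, `Nm ∘ α = (·) ^ d` and `Nm` maps `RZ` into `RY`. -/
theorem unitAt_norm [IsDomain RZ] [IsFractionRing RZ EZ] (s : Ideal RY) [hs : s.IsPrime]
    (n : Ideal RZ) (αR : RY →+* RZ) (Nm : EZ →* EY) (d : ℕ)
    (hint : ∀ z : RZ, ∃ p : Polynomial RY, p.Monic ∧ Polynomial.eval₂ αR z p = 0)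
    (honly : ∀ n' : Ideal RZ, n'.IsPrime → n'.comap αR = s → n' = n)
    (hNmα : ∀ r : RY, Nm (algebraMap RZ EZ (αR r)) = algebraMap RY EY r ^ d)
    (hNmR : ∀ z : RZ, ∃ r : RY, Nm (algebraMap RZ EZ z) = algebraMap RY EY r)
    (u : EZ) (hu : UnitAt n u) : UnitAt s (Nm u) := by
  obtain ⟨ρ, σ, hρ, hσ, huσ⟩ := hu
  obtain ⟨z, t, ht, hz⟩ := exists_mul_eq_of_only s n αR hint honly hσ
  obtain ⟨z', t', ht', hz'⟩ := exists_mul_eq_of_only s n αR hint honly hρ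
  obtain ⟨r, hr⟩ := hNmR (ρ * z)
  obtain ⟨r', hr'⟩ := hNmR (σ * z')
  have h1 : Nm u * algebraMap RY EY (t ^ d) = algebraMap RY EY r := by
    have e1 : u * algebraMap RZ EZ (σ * z) = algebraMap RZ EZ (ρ * z) := by
      rw [map_mul, ← mul_assoc, huσ, map_mul]
    rw [map_pow, ← hNmα, ← hz, ← map_mul, e1, hr]
  have h2 : Nm u * algebraMap RY EY r' = algebraMap RY EY (t' ^ d) := by
    have e2 : u * algebraMap RZ EZ (σ * z') = algebraMap RZ EZ (ρ * z') := by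
      rw [map_mul, ← mul_assoc, huσ, map_mul]
    rw [← hr', ← map_mul, e2, hz', hNmα, map_pow]
  have h3 : r * r' = t' ^ d * t ^ d := by
    apply IsFractionRing.injective RY EY
    rw [map_mul, map_mul, ← h1, ← h2]
    ring
  have htd : t ^ d ∉ s := fun h => ht (hs.mem_of_pow_mem _ h)
  have htd' : t' ^ d ∉ s := fun h => ht' (hs.mem_of_pow_mem _ h)
  refine ⟨r, t ^ d, ?_, htd, h1⟩
  intro hrs
  have h4 : t' ^ d * t ^ d ∈ s := by
    rw [← h3]
    exact Ideal.mul_mem_right _ _ hrs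
  exact (hs.mem_or_mem h4).elim htd' htd

end NormUnit

/-! ### combining the relations of the two degeneracy maps -/

section Combine

variable {R : Type*} [CommRing R]

/-- `α`-relation `ηA x_a x_c^e ≡ ηB x_b^f` and `β`-relation `ηA' x_b x_c^e ≡ ηB' x_a^f`
(the roles of the branches `a`, `b` exchanged) give `ηB ηA' x_b^(f+1) ≡ ηA ηB' x_a^(f+1)`. -/
theorem combine_b (n : Ideal R) (e f : ℕ) (xa xb xc ηA ηB ηA' ηB' : R)
    (hα : ηA * xa * xc ^ e - ηB * xb ^ f ∈ n)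
    (hβ : ηA' * xb * xc ^ e - ηB' * xa ^ f ∈ n) :
    ηB * ηA' * xb ^ (f + 1) - ηA * ηB' * xa ^ (f + 1) ∈ n := by
  have h : ηB * ηA' * xb ^ (f + 1) - ηA * ηB' * xa ^ (f + 1) =
      ηA * xa * (ηA' * xb * xc ^ e - ηB' * xa ^ f) -
        ηA' * xb * (ηA * xa * xc ^ e - ηB * xb ^ f) := by
    ring
  rw [h]
  exact Ideal.sub_mem _ (Ideal.mul_mem_left _ _ hβ) (Ideal.mul_mem_left _ _ hα)

/-- The relation for the third branch:
`(ηA' ηB)^f (ηA x_a x_c^e)^(f+1) ≡ ηB^(f+1) (ηA ηB' x_a^(f+1))^f`. -/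
theorem combine_c (n : Ideal R) (e f : ℕ) (xa xb xc ηA ηB ηA' ηB' : R)
    (hα : ηA * xa * xc ^ e - ηB * xb ^ f ∈ n)
    (hβ : ηA' * xb * xc ^ e - ηB' * xa ^ f ∈ n) :
    (ηA' * ηB) ^ f * (ηA * xa * xc ^ e) ^ (f + 1) -
      ηB ^ (f + 1) * (ηA * ηB' * xa ^ (f + 1)) ^ f ∈ n := by
  have hb := combine_b n e f xa xb xc ηA ηB ηA' ηB' hα hβ
  have h1 : (ηA * xa * xc ^ e) ^ (f + 1) - (ηB * xb ^ f) ^ (f + 1) ∈ n :=
    Ideal.mem_of_dvd _ (sub_dvd_pow_sub_pow _ _ (f + 1)) hα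
  have h2 : (ηB * ηA' * xb ^ (f + 1)) ^ f - (ηA * ηB' * xa ^ (f + 1)) ^ f ∈ n :=
    Ideal.mem_of_dvd _ (sub_dvd_pow_sub_pow _ _ f) hb
  have h : (ηA' * ηB) ^ f * (ηA * xa * xc ^ e) ^ (f + 1) -
      ηB ^ (f + 1) * (ηA * ηB' * xa ^ (f + 1)) ^ f =
      (ηA' * ηB) ^ f * ((ηA * xa * xc ^ e) ^ (f + 1) - (ηB * xb ^ f) ^ (f + 1)) +
        ηB ^ (f + 1) * ((ηB * ηA' * xb ^ (f + 1)) ^ f - (ηA * ηB' * xa ^ (f + 1)) ^ f) := by
    ring
  rw [h]
  exact Ideal.add_mem _ (Ideal.mul_mem_left _ _ h1) (Ideal.mul_mem_left _ _ h2)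

end Combine

end Fermat.Agent.S36.TorA
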