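import Mathlib
import Fermat.Agent.S34.LocPlan
import Fermat.Agent.S36.Model3Plan
import Fermat.Agent.S36.Chart3Facts
import Fermat.Agent.S36.TorA

/-!
# S36, [N10] (B-package): `princ` (B1) at the cuspidal closed points of `W3` — abstract core

OWNER: helper56.  Independent B-copy of the cusp step (captain's ruling); the A-copy is
`S36/CuspGen.lean`.

Setting: a chart `R` (a normal domain, `Frac R = E`) with the three valuation rings `V i`,
uniformizers `ϖ i`, vertical primes `P i` (`Model3Plan.ValHyp3`, `Model3Plan.ChartHyp3`), and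
elements `X, Xq, Y ∈ R` (in the application `X = j⁻¹`, `Xq = j_q⁻¹`, `Y = j_{q²}⁻¹` on the chart
`J3⁻¹`), `μ0, μ2 ∈ R` (`μ0 = j_q / j ^ q`, `μ2 = j_q / j_{q²} ^ q`) with

* `μ0 * Xq = X ^ q`, `μ2 * Xq = Y ^ q`, `μ0 ≡ μ2 ≡ 1` modulo `P 2` (Kronecker on `W3`);
* `X - Y = ϖ 2 · unit` in `V 2` (`j_{q²} - j` is a uniformizer of `W3`; `j`, `j_{q²}` units);
* `X ^ k0 ≡ Y` modulo `P 0`, `Y ^ k1 ≡ X` modulo `P 1` (Kronecker twice on `W1`, `W2`;
  `k0 = k1 = q²`), `X ∉ P 0`, `Y ∉ P 1`, `Y ∉ P 2`;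
* `u = (X / Y - 1) ^ e 2 / π` (`e 2 = q - 1`).

Let `n` be a prime of `R` with `P 2 ≤ n` and `X * Xq * Y ∈ n` (a cuspidal point of `W3`).  Then

* `X, Y ∈ n`; `y := X / Y` is a unit at `n` (`y ^ q = μ0 / μ2`, normality);
* `P 0 ≰ n` and `P 1 ≰ n` (one-branch point);
* `u ∈ R_n`;
* if moreover `u` is a unit at `n`, then `g := a - s` (any presentation `y = a / s` at `n`)
  generates `P 2` at `n`, and `s' * g ^ e 2 = π * t` with `s', t ∉ n`.

`u` is a unit at `n` as soon as `u * b ≡ a` modulo the maximal ideal of `V 2` for some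
`a, b ∈ R ∖ n` (`unitAt_of_approx`; in the application `a`, `b` are polynomials in `X` with unit
constant coefficients: the `W3`-reduction of `u` is `- (θ j / j) ^ (q - 1)`, a unit power series
which is a rational function of `j`).

No Krull-type argument and no noetherian hypothesis are used: only `ChartHyp3.desc` (through
`Chart3Facts.desc_at`) and normality (through `TorA.unitAt_of_pow`).
-/

set_option autoImplicit false

namespace Fermat.Agent.S36.Cusp3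

open Fermat.Agent.S34 Fermat.Agent.S34.LocPlan Fermat.Agent.S36 Fermat.Agent.S36.Model3Plan

variable {O : Type*} [CommRing O] {R : Type*} [CommRing R] [IsDomain R] [Algebra O R]
  {E : Type*} [Field E] [Algebra R E] [IsFractionRing R E] {π : O} {e : Fin 3 → ℕ}
  {ϖ : Fin 3 → E} {V : Fin 3 → ValuationSubring E} {P : Fin 3 → Ideal R}

omit [IsDomain R] [Algebra O R] [IsFractionRing R E] in
/-- At a prime `n ⊇ P` containing `X * Xq * Y`, with `μ0 * Xq = X ^ q` and `X ≡ Y` modulo `P`: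
`X ∈ n` and `Y ∈ n`. -/
theorem mem_of_cusp {P2 : Ideal R} {q : ℕ} {X Xq Y μ0 : R} (hμ0 : μ0 * Xq = X ^ q)
    (hd : X - Y ∈ P2) {n : Ideal R} (hn : n.IsPrime) (hPn : P2 ≤ n) (hXn : X * Xq * Y ∈ n) :
    X ∈ n ∧ Y ∈ n := by
  have hdn : X - Y ∈ n := hPn hd
  have hXY : X ∈ n → Y ∈ n := fun h => by
    have := n.sub_mem h hdn
    simpa using this
  have hYX : Y ∈ n → X ∈ n := fun h => by
    have := n.add_mem h hdn
    simpa using this
  rcases hn.mem_or_mem hXn with h | h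
  · rcases hn.mem_or_mem h with h | h
    · exact ⟨h, hXY h⟩
    · have h1 : X ^ q ∈ n := hμ0 ▸ n.mul_mem_left μ0 h
      have h2 : X ∈ n := hn.mem_of_pow_mem q h1
      exact ⟨h2, hXY h2⟩
  · exact ⟨hYX h, h⟩

omit [IsDomain R] [Algebra O R] in
/-- `y = X / Y` is a unit at `n` when `y ^ q = μ0 / μ2` with `μ0, μ2 ∉ n` (normality). -/
theorem unitAt_quot [IsIntegrallyClosed R] {q : ℕ} (hq : 0 < q) {X Xq Y μ0 μ2 : R}
    (hμ0 : μ0 * Xq = X ^ q) (hμ2 : μ2 * Xq = Y ^ q) (hXq : Xq ≠ 0)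
    {n : Ideal R} (hn : n.IsPrime) (h0 : μ0 ∉ n) (h2 : μ2 ∉ n) :
    UnitAt n (algebraMap R E X / algebraMap R E Y) := by
  have := hn
  have hinj : Function.Injective (algebraMap R E) := IsFractionRing.injective R E
  have hXqE : algebraMap R E Xq ≠ 0 := fun h => hXq (hinj (by rw [h, map_zero]))
  apply TorA.unitAt_of_pow hq
  have h : (algebraMap R E X / algebraMap R E Y) ^ q = algebraMap R E μ0 / algebraMap R E μ2 := by
    rw [div_pow, ← map_pow, ← map_pow, ← hμ0, ← hμ2, map_mul, map_mul,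
      mul_div_mul_right _ _ hXqE]
  rw [h]
  exact TorA.unitAt_div_algebraMap h0 h2

/-- An element `u ∈ R_n` with `u * b ≡ a` modulo the maximal ideal of `V 2`, `a, b ∉ n`,
`P 2 ≤ n`, is a unit at `n`. -/
theorem unitAt_of_approx (hV : ValHyp3 (algebraMap R E (algebraMap O R π)) e ϖ V)
    (hC : ChartHyp3 π ϖ V P) {n : Ideal R} (hn : n.IsPrime) (hPn : P 2 ≤ n) {u : E}
    (hu : RegAt n u) {a b : R} (ha : a ∉ n)
    (hab : (V 2).valuation (u * algebraMap R E b - algebraMap R E a) < 1) : UnitAt n u := by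
  have := hn
  have hinj : Function.Injective (algebraMap R E) := IsFractionRing.injective R E
  have hcen : ∀ r : R, algebraMap R E r ∈ (V 2).nonunits → r ∈ n := fun r hr =>
    hPn ((Chart3Facts.mem_P_iff hV hC 2 r).2 ((ValuationSubring.mem_nonunits_iff (A := V 2)).1 hr))
  have hw : RegAt n (u * algebraMap R E b - algebraMap R E a) :=
    TorA.regAt_sub (TorA.regAt_mul hu (TorA.regAt_algebraMap n b)) (TorA.regAt_algebraMap n a)
  obtain ⟨a₃, t₃, ha₃, ht₃, hw3⟩ := TorA.maxAt_of_nonunits (V 2) n (hC.le 2) hcen hw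
    ((ValuationSubring.mem_nonunits_iff (A := V 2)).2 hab)
  obtain ⟨r₂, s₂, hs₂, hus⟩ := hu
  refine ⟨r₂, s₂, ?_, hs₂, hus⟩
  intro hr₂
  have hrel : r₂ * b * t₃ = s₂ * (a * t₃ + a₃) := by
    apply hinj
    simp only [map_mul, map_add]
    rw [← hus, ← hw3]
    ring
  have h1 : s₂ * (a * t₃ + a₃) ∈ n := by
    rw [← hrel]
    exact n.mul_mem_right _ (n.mul_mem_right _ hr₂)
  have h2 : a * t₃ + a₃ ∈ n := (hn.mem_or_mem h1).resolve_left hs₂
  have h3 : a * t₃ ∈ n := by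
    have := n.sub_mem h2 ha₃
    simpa using this
  exact (hn.mem_or_mem h3).elim ha ht₃

/-- **The cusp step, abstract core.** -/
theorem cusp_core [IsIntegrallyClosed R]
    (hV : ValHyp3 (algebraMap R E (algebraMap O R π)) e ϖ V) (hC : ChartHyp3 π ϖ V P)
    (hp0 : algebraMap R E (algebraMap O R π) ≠ 0)
    {q k0 k1 : ℕ} (hq : 0 < q) (hk0 : 1 < k0) (hk1 : 1 < k1)
    {X Xq Y μ0 μ2 : R}
    (hμ0 : μ0 * Xq = X ^ q) (hμ2 : μ2 * Xq = Y ^ q)
    (hμ0P : μ0 - 1 ∈ P 2) (hμ2P : μ2 - 1 ∈ P 2)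
    (hX0 : X ∉ P 0) (hK0 : X ^ k0 - Y ∈ P 0)
    (hY1 : Y ∉ P 1) (hK1 : Y ^ k1 - X ∈ P 1)
    (hY2 : Y ∉ P 2)
    (hδ : ∃ c ∈ V 2, c⁻¹ ∈ V 2 ∧ algebraMap R E (X - Y) = ϖ 2 * c)
    {u : E} (hu : u * algebraMap R E (algebraMap O R π) =
      (algebraMap R E X / algebraMap R E Y - 1) ^ e 2)
    {n : Ideal R} (hn : n.IsPrime) (hXn : X * Xq * Y ∈ n) (hPn : P 2 ≤ n) :
    X ∈ n ∧ Y ∈ n ∧ ¬ P 0 ≤ n ∧ ¬ P 1 ≤ n ∧
      UnitAt n (algebraMap R E X / algebraMap R E Y) ∧ RegAt n u ∧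
      (UnitAt n u → ∃ g ∈ P 2, (∀ y ∈ P 2, ∃ s : R, s ∉ n ∧ ∃ c : R, s * y = c * g) ∧
        ∃ s t : R, s ∉ n ∧ t ∉ n ∧ s * g ^ e 2 = algebraMap O R π * t) := by
  classical
  have := hn
  have hinj : Function.Injective (algebraMap R E) := IsFractionRing.injective R E
  have hP0 : (P 0).IsPrime := Chart3Facts.isPrime_P hV hC 0
  have hP1 : (P 1).IsPrime := Chart3Facts.isPrime_P hV hC 1
  obtain ⟨c, hc, hc', hdc⟩ := hδ
  have hd : X - Y ∈ P 2 := (hC.mem_P 2 _).2 ⟨c, hc, hdc⟩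
  have h1n : (1 : R) ∉ n := hn.one_notMem
  have hμ0n : μ0 ∉ n := fun h => h1n (by
    have := n.sub_mem h (hPn hμ0P)
    simpa using this)
  have hμ2n : μ2 ∉ n := fun h => h1n (by
    have := n.sub_mem h (hPn hμ2P)
    simpa using this)
  obtain ⟨hX, hY⟩ := mem_of_cusp hμ0 hd hn hPn hXn
  have hY0 : Y ≠ 0 := fun h => hY2 (h ▸ (P 2).zero_mem)
  have hXq0 : Xq ≠ 0 := by
    intro h
    rw [h, mul_zero] at hμ0
    have hX00 : X = 0 := (pow_eq_zero_iff hq.ne').1 hμ0.symm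
    exact hX0 (hX00 ▸ (P 0).zero_mem)
  have hιY : algebraMap R E Y ≠ 0 := fun h => hY0 (hinj (by rw [h, map_zero]))
  have hy : UnitAt n (algebraMap R E X / algebraMap R E Y) :=
    unitAt_quot hq hμ0 hμ2 hXq0 hn hμ0n hμ2n
  obtain ⟨a₁, s₁, ha₁, hs₁, hys⟩ := hy
  have hrel : X * s₁ = a₁ * Y := by
    apply hinj
    rw [map_mul, map_mul, ← hys]
    field_simp
  -- one-branch
  have hnP0 : ¬ P 0 ≤ n := by
    intro hle
    obtain ⟨k, rfl⟩ : ∃ k, k0 = k + 2 := ⟨k0 - 2, by omega⟩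
    have h1 : X * (a₁ * X ^ (k + 1) - s₁) ∈ P 0 := by
      have h : X * (a₁ * X ^ (k + 1) - s₁) = a₁ * (X ^ (k + 2) - Y) := by
        linear_combination (-1 : R) * hrel
      rw [h]
      exact (P 0).mul_mem_left _ hK0
    have h2 : a₁ * X ^ (k + 1) - s₁ ∈ P 0 := (hP0.mem_or_mem h1).resolve_left hX0
    have h3 : a₁ * X ^ (k + 1) ∈ n := n.mul_mem_left _ (n.pow_mem_of_mem hX (k + 1) (by omega))
    have h4 : s₁ ∈ n := by
      have := n.sub_mem h3 (hle h2)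
      simpa using this
    exact hs₁ h4
  have hnP1 : ¬ P 1 ≤ n := by
    intro hle
    obtain ⟨k, rfl⟩ : ∃ k, k1 = k + 2 := ⟨k1 - 2, by omega⟩
    have h1 : Y * (s₁ * Y ^ (k + 1) - a₁) ∈ P 1 := by
      have h : Y * (s₁ * Y ^ (k + 1) - a₁) = s₁ * (Y ^ (k + 2) - X) := by
        linear_combination hrel
      rw [h]
      exact (P 1).mul_mem_left _ hK1
    have h2 : s₁ * Y ^ (k + 1) - a₁ ∈ P 1 := (hP1.mem_or_mem h1).resolve_left hY1
    have h3 : s₁ * Y ^ (k + 1) ∈ n := n.mul_mem_left _ (n.pow_mem_of_mem hY (k + 1) (by omega))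
    have h4 : a₁ ∈ n := by
      have := n.sub_mem h3 (hle h2)
      simpa using this
    exact ha₁ h4
  have honly : ∀ i : Fin 3, P i ≤ n → i = 2 := by
    intro i hi
    fin_cases i
    · exact absurd hi hnP0
    · exact absurd hi hnP1
    · rfl
  -- the function `g = y - 1`
  have hyreg : RegAt n (algebraMap R E X / algebraMap R E Y) := ⟨a₁, s₁, hs₁, hys⟩
  have hgreg : RegAt n (algebraMap R E X / algebraMap R E Y - 1) := by
    have h1 := TorA.regAt_algebraMap (E := E) n (1 : R)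
    rw [map_one] at h1
    exact TorA.regAt_sub hyreg h1
  have hvY : (algebraMap R E Y)⁻¹ ∈ V 2 := Chart3Facts.cen hV hC 2 Y hY2
  have hc₂V : c * (algebraMap R E Y)⁻¹ ∈ V 2 := (V 2).mul_mem _ _ hc hvY
  have hgc : algebraMap R E X / algebraMap R E Y - 1 = ϖ 2 * (c * (algebraMap R E Y)⁻¹) := by
    rw [← mul_assoc, ← hdc, map_sub]
    field_simp
  obtain ⟨w, hw, hw', hpw⟩ := hV.ram 2
  have hw0 : w ≠ 0 := by
    rintro rfl
    exact hp0 (by rw [hpw, mul_zero])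
  have he2 : 0 < e 2 := hV.e_pos 2
  have hdesc := Chart3Facts.desc_at hV hC hp0 n hn
  obtain ⟨s₂, hs₂, r₂, hsr₂⟩ := hdesc ((algebraMap R E X / algebraMap R E Y - 1) ^ e 2)
    (TorA.regAt_pow hgreg _) (by
      intro i hi
      obtain rfl := honly i hi
      refine ⟨w⁻¹ * (c * (algebraMap R E Y)⁻¹) ^ e 2,
        (V 2).mul_mem _ _ hw' ((V 2).pow_mem hc₂V _), ?_⟩
      rw [hgc, mul_pow, hpw]
      field_simp)
  have hureg : RegAt n u := by
    refine ⟨r₂, s₂, hs₂, ?_⟩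
    have h : algebraMap R E s₂ * (u * algebraMap R E (algebraMap O R π)) =
        algebraMap R E (algebraMap O R π) * algebraMap R E r₂ := by
      rw [hu]
      exact hsr₂
    apply mul_left_cancel₀ hp0
    linear_combination h
  refine ⟨hX, hY, hnP0, hnP1, ⟨a₁, s₁, ha₁, hs₁, hys⟩, hureg, ?_⟩
  rintro ⟨r₂', s₂', hr₂', hs₂', hus⟩
  have hg₀ : algebraMap R E (a₁ - s₁) =
      (algebraMap R E X / algebraMap R E Y - 1) * algebraMap R E s₁ := by
    rw [map_sub, ← hys]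
    ring
  refine ⟨a₁ - s₁, (hC.mem_P 2 _).2 ⟨c * (algebraMap R E Y)⁻¹ * algebraMap R E s₁,
    (V 2).mul_mem _ _ hc₂V (hC.le 2 _), by rw [hg₀, hgc]; ring⟩, ?_, ?_⟩
  · intro r hr
    obtain ⟨yr, hyr, hryr⟩ := (hC.mem_P 2 r).1 hr
    obtain ⟨k, hk⟩ : ∃ k, e 2 = k + 1 := ⟨e 2 - 1, by omega⟩
    obtain ⟨s₃, hs₃, r₃, hsr₃⟩ := hdesc
      (algebraMap R E r * (algebraMap R E X / algebraMap R E Y - 1) ^ k)
      (TorA.regAt_mul (TorA.regAt_algebraMap n r) (TorA.regAt_pow hgreg _)) (by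
        intro i hi
        obtain rfl := honly i hi
        refine ⟨w⁻¹ * (yr * (c * (algebraMap R E Y)⁻¹) ^ k),
          (V 2).mul_mem _ _ hw' ((V 2).mul_mem _ _ hyr ((V 2).pow_mem hc₂V _)), ?_⟩
        rw [hryr, hgc, mul_pow, hpw, hk, pow_succ]
        field_simp)
    rw [hk] at hu
    refine ⟨s₃ * r₂' * s₁, ?_, r₃ * s₂', ?_⟩
    · intro h
      rcases hn.mem_or_mem h with h | h
      · rcases hn.mem_or_mem h with h | h
        · exact hs₃ h
        · exact hr₂' h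
      · exact hs₁ h
    · apply hinj
      simp only [map_mul]
      rw [hg₀]
      apply mul_left_cancel₀ hp0
      linear_combination
        (algebraMap R E s₂' * algebraMap R E s₁ *
          (algebraMap R E X / algebraMap R E Y - 1)) * hsr₃ +
        (algebraMap R E s₂' * algebraMap R E s₁ * algebraMap R E s₃ * algebraMap R E r) * hu -
        (algebraMap R E (algebraMap O R π) * algebraMap R E s₃ * algebraMap R E s₁ *
          algebraMap R E r) * hus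
  · refine ⟨s₂', r₂' * s₁ ^ e 2, hs₂', ?_, ?_⟩
    · intro h
      rcases hn.mem_or_mem h with h | h
      · exact hr₂' h
      · exact hs₁ (hn.mem_of_pow_mem _ h)
    · apply hinj
      simp only [map_mul, map_pow]
      rw [hg₀, mul_pow, ← hu, ← hus]
      ring

/-- **The cusp step** with the unit datum in approximation form: `u * b ≡ a` modulo the maximal
ideal of `V 2` with `a, b ∉ n`. -/
theorem cusp_princ [IsIntegrallyClosed R]
    (hV : ValHyp3 (algebraMap R E (algebraMap O R π)) e ϖ V) (hC : ChartHyp3 π ϖ V P)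
    (hp0 : algebraMap R E (algebraMap O R π) ≠ 0)
    {q k0 k1 : ℕ} (hq : 0 < q) (hk0 : 1 < k0) (hk1 : 1 < k1)
    {X Xq Y μ0 μ2 : R}
    (hμ0 : μ0 * Xq = X ^ q) (hμ2 : μ2 * Xq = Y ^ q)
    (hμ0P : μ0 - 1 ∈ P 2) (hμ2P : μ2 - 1 ∈ P 2)
    (hX0 : X ∉ P 0) (hK0 : X ^ k0 - Y ∈ P 0)
    (hY1 : Y ∉ P 1) (hK1 : Y ^ k1 - X ∈ P 1)
    (hY2 : Y ∉ P 2)
    (hδ : ∃ c ∈ V 2, c⁻¹ ∈ V 2 ∧ algebraMap R E (X - Y) = ϖ 2 * c)
    {u : E} (hu : u * algebraMap R E (algebraMap O R π) =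
      (algebraMap R E X / algebraMap R E Y - 1) ^ e 2)
    {n : Ideal R} (hn : n.IsPrime) (hXn : X * Xq * Y ∈ n) (hPn : P 2 ≤ n)
    {a b : R} (ha : a ∉ n)
    (hab : (V 2).valuation (u * algebraMap R E b - algebraMap R E a) < 1) :
    ¬ P 0 ≤ n ∧ ¬ P 1 ≤ n ∧
      ∃ g ∈ P 2, (∀ y ∈ P 2, ∃ s : R, s ∉ n ∧ ∃ c : R, s * y = c * g) ∧
        ∃ s t : R, s ∉ n ∧ t ∉ n ∧ s * g ^ e 2 = algebraMap O R π * t := by
  obtain ⟨-, -, h0, h1, -, hureg, hgen⟩ := cusp_core hV hC hp0 hq hk0 hk1 hμ0 hμ2 hμ0P hμ2P hX0 hK0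
    hY1 hK1 hY2 hδ hu hn hXn hPn
  exact ⟨h0, h1, hgen (unitAt_of_approx hV hC hn hPn hureg ha hab)⟩

omit [IsDomain R] in
/-- A polynomial in `X ∈ n` with unit constant coefficient lies outside the proper ideal `n`. -/
theorem aeval_notMem {n : Ideal R} (hn : n ≠ ⊤) {X : R} (hX : X ∈ n) (a : Polynomial O)
    (ha : IsUnit (a.coeff 0)) : Polynomial.aeval X a ∉ n := by
  intro h
  obtain ⟨b, hb⟩ := Polynomial.X_dvd_sub_C (p := a)
  have h1 : Polynomial.aeval X a = algebraMap O R (a.coeff 0) + X * Polynomial.aeval X b := by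
    have h2 := congrArg (Polynomial.aeval X) hb
    rw [map_sub, map_mul, Polynomial.aeval_X, Polynomial.aeval_C] at h2
    rw [← h2]
    ring
  have h3 : algebraMap O R (a.coeff 0) ∈ n := by
    have := n.sub_mem h (n.mul_mem_right (Polynomial.aeval X b) hX)
    rw [h1] at this
    simpa using this
  exact hn (Ideal.eq_top_of_isUnit_mem _ h3 (ha.map (algebraMap O R)))

/-- **The cusp step at every cuspidal point of `W3`**, the unit datum given globally by two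
polynomials in `X` with unit constant coefficients.  Output: the point is a one-branch point,
and `P 2` is principal at `n` with a generator `g` such that `g ^ e 2` and `π` generate the same
ideal at `n`. -/
theorem cusp_princ_all [IsIntegrallyClosed R]
    (hV : ValHyp3 (algebraMap R E (algebraMap O R π)) e ϖ V) (hC : ChartHyp3 π ϖ V P)
    (hp0 : algebraMap R E (algebraMap O R π) ≠ 0)
    {q k0 k1 : ℕ} (hq : 0 < q) (hk0 : 1 < k0) (hk1 : 1 < k1)
    {X Xq Y μ0 μ2 : R}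
    (hμ0 : μ0 * Xq = X ^ q) (hμ2 : μ2 * Xq = Y ^ q)
    (hμ0P : μ0 - 1 ∈ P 2) (hμ2P : μ2 - 1 ∈ P 2)
    (hX0 : X ∉ P 0) (hK0 : X ^ k0 - Y ∈ P 0)
    (hY1 : Y ∉ P 1) (hK1 : Y ^ k1 - X ∈ P 1)
    (hY2 : Y ∉ P 2)
    (hδ : ∃ c ∈ V 2, c⁻¹ ∈ V 2 ∧ algebraMap R E (X - Y) = ϖ 2 * c)
    {u : E} (hu : u * algebraMap R E (algebraMap O R π) =
      (algebraMap R E X / algebraMap R E Y - 1) ^ e 2)
    (a b : Polynomial O) (ha : IsUnit (a.coeff 0))
    (hab : (V 2).valuation (u * algebraMap R E (Polynomial.aeval X b) -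
      algebraMap R E (Polynomial.aeval X a)) < 1) :
    ∀ n : Ideal R, n.IsPrime → X * Xq * Y ∈ n → P 2 ≤ n →
      ¬ P 0 ≤ n ∧ ¬ P 1 ≤ n ∧
        ∃ g ∈ P 2, (∀ y ∈ P 2, ∃ s : R, s ∉ n ∧ ∃ c : R, s * y = c * g) ∧
          ∃ s t : R, s ∉ n ∧ t ∉ n ∧ s * g ^ e 2 = algebraMap O R π * t := by
  intro n hn hXn hPn
  obtain ⟨hX, -, h0, h1, -, hureg, hgen⟩ := cusp_core hV hC hp0 hq hk0 hk1 hμ0 hμ2 hμ0P hμ2P hX0
    hK0 hY1 hK1 hY2 hδ hu hn hXn hPn
  exact ⟨h0, h1, hgen (unitAt_of_approx hV hC hn hPn hureg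
    (aeval_notMem hn.ne_top hX a ha) hab)⟩

end Fermat.Agent.S36.Cusp3
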