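import Mathlib
import Fermat.Agent.S36.Cusp3
import Fermat.Agent.S36.Chart3B
import Fermat.Agent.S36.CuspMono
import Fermat.Agent.S36.Fact3
import Fermat.Agent.S36.NakPlan
import Fermat.Agent.S36.CuspKS

/-!
# S36, [N10] (B-package): `princ` (B1) at the cuspidal closed points of `W3` — the instance

OWNER: helper56.  `Cusp3.cusp_princ_all` instantiated on the chart at infinity
`R∞ = chart (M q²) A K J3⁻¹` of the level-`M q²` model, with `X = j⁻¹`, `Xq = j_q⁻¹`,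
`Y = j_{q²}⁻¹`, `μ0 = j_q / j ^ q`, `μ2 = j_q / j_{q²} ^ q`, the congruences of
`S36/CuspMono.lean`, `V 0 = W1`, `V 1 = W2`, `V 2 = W3 = H.W3`, `ϖ 2 = Wit3.sE`.

Inputs left as hypotheses (exactly two, each with an owner on the board):

* `hμ0`, `hμ2` : `j_q / j ^ q` and `j_q / j_{q²} ^ q` lie in `R∞`   ([CUSP-a] / (I1));
* `hKS`        : the unit datum `u · b(j⁻¹) − a(j⁻¹) ∈ s · W3` with `a(0)` a unit, for
                 `u = (j_{q²} / j − 1) ^ (q − 1) / π`                 ([CUSP-c], `CuspKS`).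

Outputs (`R∞`, any `ValHyp3`/`ChartHyp3` data `e ϖ V P` whose `V` is `(W1, W2, W3)` and whose
`ϖ 2` is `Wit3.sE`, `e 2 = q − 1`):

* `cusp_inst`  : at every prime `n ∋ J3⁻¹` with `P 2 ≤ n`: `P 0 ≰ n`, `P 1 ≰ n`, and `P 2` is
                 principal at `n` with a generator `g` such that `s · g ^ e 2 = π · t`,
                 `s, t ∉ n`;
* `hcusp2`     : the field `hcusp2` of `Princ3Cases.princ_of_cases` verbatim;
* `genAt_all`  : with the branch datum of `ChartModel3.branch` at `(n, 2)`: every height-one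
                 prime through such an `n` is principal at `n` (`NakPlan.GenAt`).
-/

set_option autoImplicit false

open ModularCurve AlgebraicCurve HahnSeries

namespace Fermat.Agent.S36.Cusp3Inst

open Fermat.Agent.S18 Fermat.Agent.S18.Arith Fermat.Agent.S34 Fermat.Agent.S36
  Fermat.Agent.S36.Model3Plan

noncomputable section

variable (M q : ℕ) [NeZero M] [NeZero q] (hq : q.Prime) (hqM : ¬ q ∣ M)
variable (A : ValuationSubring Qb) (K : IntermediateField ℚ Qb)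

/-- The chart at infinity `chart (M q²) A K J3⁻¹`. -/
abbrev Rinf : Subalgebra (OK A K) (FK (M * q * q) K) :=
  chart (M * q * q) A K (Chart3B.J3 M q hq hqM K)⁻¹

/-- `X = j⁻¹` on the chart at infinity. -/
def Xc : Rinf M q hq hqM A K :=
  ⟨(jK (M * q * q) K)⁻¹, Chart3B.jK_inv_mem_chart_J3_inv M q hq hqM A K⟩

/-- `Xq = j_q⁻¹` on the chart at infinity. -/
def Zc : Rinf M q hq hqM A K :=
  ⟨(WQ2.jqK2 M q hq hqM K)⁻¹, Chart3B.jqK2_inv_mem_chart_J3_inv M q hq hqM A K⟩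

/-- `Y = j_{q²}⁻¹` on the chart at infinity. -/
def Yc : Rinf M q hq hqM A K :=
  ⟨(WQ2.jqqK2 M q hq hqM K)⁻¹, Chart3B.jqqK2_inv_mem_chart_J3_inv M q hq hqM A K⟩

/-- `J3⁻¹` on the chart at infinity. -/
def Jc : Rinf M q hq hqM A K :=
  ⟨(Chart3B.J3 M q hq hqM K)⁻¹, Chart3B.J3_inv_mem_chart M q hq hqM A K⟩

theorem Xc_mul_Zc_mul_Yc :
    Xc M q hq hqM A K * Zc M q hq hqM A K * Yc M q hq hqM A K = Jc M q hq hqM A K := by
  apply Subtype.ext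
  show (jK (M * q * q) K)⁻¹ * (WQ2.jqK2 M q hq hqM K)⁻¹ * (WQ2.jqqK2 M q hq hqM K)⁻¹
    = (Chart3B.J3 M q hq hqM K)⁻¹
  rw [Chart3B.J3, mul_inv, mul_inv]

variable {M q hq hqM A K}

/-- **[N10], B-package, the instance**: the cusp step at every prime `n ∋ J3⁻¹` of the chart at
infinity with `P 2 ≤ n`. -/
theorem cusp_inst (hdvr : IsDiscreteValuationRing (OK A K))
    {K' : IntermediateField ℚ Qb} {ξ : Qb} {hξ0 : ξ ≠ 0}
    {ι : FK (M * q * q) K →+* LaurentSeries Qb} {ϖ' : OK A K'}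
    (H : V3.Hyp3 M q hq hqM A K K' ξ hξ0 ι ϖ') (hA : A.LiesOverPrime q)
    {π : OK A K} (hπ : Irreducible π)
    (hp0 : algebraMap (OK A K) (FK (M * q * q) K) π ≠ 0)
    {e : Fin 3 → ℕ} {ϖ : Fin 3 → FK (M * q * q) K}
    {V : Fin 3 → ValuationSubring (FK (M * q * q) K)}
    (hV0 : V 0 = GaussV.V1 (M * q * q) A K hdvr)
    (hV1 : V 1 = GaussV.V2 (WQ2.wK2 M q hq hqM K) hdvr)
    (hV2 : V 2 = H.W3) (hϖ2 : ϖ 2 = Wit3.sE M q hq hqM K) (he2 : e 2 = q - 1)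
    (hV : ValHyp3 (algebraMap (OK A K) (FK (M * q * q) K) π) e ϖ V)
    {P : Fin 3 → Ideal (Rinf M q hq hqM A K)} (hC : ChartHyp3 π ϖ V P)
    (hμ0 : WQ2.jqK2 M q hq hqM K / jK (M * q * q) K ^ q ∈ Rinf M q hq hqM A K)
    (hμ2 : WQ2.jqK2 M q hq hqM K / WQ2.jqqK2 M q hq hqM K ^ q ∈ Rinf M q hq hqM A K)
    {u : FK (M * q * q) K}
    (hu : u * algebraMap (OK A K) (FK (M * q * q) K) π =
      (WQ2.jqqK2 M q hq hqM K / jK (M * q * q) K - 1) ^ (q - 1))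
    (hKS : ∃ a b : Polynomial (OK A K), IsUnit (a.coeff 0) ∧ IsUnit (b.coeff 0) ∧
      ∃ z ∈ H.W3, u * Polynomial.aeval (jK (M * q * q) K)⁻¹ b
        - Polynomial.aeval (jK (M * q * q) K)⁻¹ a = Wit3.sE M q hq hqM K * z) :
    ∀ n : Ideal (Rinf M q hq hqM A K), n.IsPrime → Jc M q hq hqM A K ∈ n → P 2 ≤ n →
      ¬ P 0 ≤ n ∧ ¬ P 1 ≤ n ∧
        ∃ g ∈ P 2, (∀ y ∈ P 2, ∃ s : Rinf M q hq hqM A K, s ∉ n ∧
            ∃ c : Rinf M q hq hqM A K, s * y = c * g) ∧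
          ∃ s t : Rinf M q hq hqM A K, s ∉ n ∧ t ∉ n ∧
            s * g ^ e 2 = algebraMap (OK A K) (Rinf M q hq hqM A K) π * t := by
  obtain ⟨-, ⟨-, hfrac, hintcl⟩, -, -⟩ := Chart3B.rings M q hq hqM A K hdvr
  have := hfrac
  have := hintcl
  have hj0 : jK (M * q * q) K ≠ 0 := CuspMono.jK_ne_zero M q K
  have hjq0 : WQ2.jqK2 M q hq hqM K ≠ 0 := CuspMono.jqK2_ne_zero M q hq hqM K
  have hjqq0 : WQ2.jqqK2 M q hq hqM K ≠ 0 := CuspMono.jqqK2_ne_zero M q hq hqM K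
  have hV' : ValHyp3 (algebraMap (Rinf M q hq hqM A K) (FK (M * q * q) K)
      (algebraMap (OK A K) (Rinf M q hq hqM A K) π)) e ϖ V := hV
  have hp0' : algebraMap (Rinf M q hq hqM A K) (FK (M * q * q) K)
      (algebraMap (OK A K) (Rinf M q hq hqM A K) π) ≠ 0 := hp0
  obtain ⟨a, b, ha, -, z, hz, hab⟩ := hKS
  -- the relations
  have hμ0rel : (⟨_, hμ0⟩ : Rinf M q hq hqM A K) * Zc M q hq hqM A K
      = Xc M q hq hqM A K ^ q := by
    apply Subtype.ext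
    show WQ2.jqK2 M q hq hqM K / jK (M * q * q) K ^ q * (WQ2.jqK2 M q hq hqM K)⁻¹
      = ((jK (M * q * q) K)⁻¹) ^ q
    rw [inv_pow, div_mul_eq_mul_div, mul_inv_cancel₀ hjq0, one_div]
  have hμ2rel : (⟨_, hμ2⟩ : Rinf M q hq hqM A K) * Zc M q hq hqM A K
      = Yc M q hq hqM A K ^ q := by
    apply Subtype.ext
    show WQ2.jqK2 M q hq hqM K / WQ2.jqqK2 M q hq hqM K ^ q * (WQ2.jqK2 M q hq hqM K)⁻¹
      = ((WQ2.jqqK2 M q hq hqM K)⁻¹) ^ q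
    rw [inv_pow, div_mul_eq_mul_div, mul_inv_cancel₀ hjq0, one_div]
  -- Kronecker on `W3`
  have hμ0P : (⟨_, hμ0⟩ : Rinf M q hq hqM A K) - 1 ∈ P 2 := by
    obtain ⟨z, hz, hzz⟩ := CuspMono.mu0_sub_one_s3 H hA
    refine (hC.mem_P 2 _).2 ⟨z, hV2 ▸ hz, ?_⟩
    rw [hϖ2]
    exact hzz
  have hμ2P : (⟨_, hμ2⟩ : Rinf M q hq hqM A K) - 1 ∈ P 2 := by
    obtain ⟨z, hz, hzz⟩ := CuspMono.v2_sub_one_s3 H hA
    refine (hC.mem_P 2 _).2 ⟨z, hV2 ▸ hz, ?_⟩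
    rw [hϖ2]
    exact hzz
  -- units
  have hX0 : Xc M q hq hqM A K ∉ P 0 := by
    rw [Chart3Facts.not_mem_P_iff hV' hC, hV0]
    refine Chart3Facts.eq_one_of_unit _ ?_ ?_ (inv_ne_zero hj0)
    · show (jK (M * q * q) K)⁻¹ ∈ _
      rw [CuspMono.inv_jK_eq]
      exact CuspMono.mono_mem_V1 M q hq hqM A K hdvr _ _ _
    · show ((jK (M * q * q) K)⁻¹)⁻¹ ∈ _
      rw [CuspMono.inv_jK_eq]
      exact CuspMono.mono_inv_mem_V1 M q hq hqM A K hdvr _ _ _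
  have hY1 : Yc M q hq hqM A K ∉ P 1 := by
    rw [Chart3Facts.not_mem_P_iff hV' hC, hV1]
    refine Chart3Facts.eq_one_of_unit _ ?_ ?_ (inv_ne_zero hjqq0)
    · show (WQ2.jqqK2 M q hq hqM K)⁻¹ ∈ _
      rw [CuspMono.inv_jqqK2_eq]
      exact CuspMono.mono_mem_V2 M q hq hqM A K hdvr _ _ _
    · show ((WQ2.jqqK2 M q hq hqM K)⁻¹)⁻¹ ∈ _
      rw [CuspMono.inv_jqqK2_eq]
      exact CuspMono.mono_inv_mem_V2 M q hq hqM A K hdvr _ _ _
  have hY2 : Yc M q hq hqM A K ∉ P 2 := by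
    rw [Chart3Facts.not_mem_P_iff hV' hC, hV2]
    refine Chart3Facts.eq_one_of_unit _ ?_ ?_ (inv_ne_zero hjqq0)
    · show (WQ2.jqqK2 M q hq hqM K)⁻¹ ∈ _
      exact H.jqqK2_unit.2
    · show ((WQ2.jqqK2 M q hq hqM K)⁻¹)⁻¹ ∈ _
      rw [inv_inv]
      exact H.jqqK2_unit.1
  -- Kronecker twice on `W1`, `W2`
  have hK0 : Xc M q hq hqM A K ^ (q * q) - Yc M q hq hqM A K ∈ P 0 := by
    rw [Chart3Facts.mem_P_iff hV' hC]
    obtain ⟨z, hz, hzz⟩ := CuspMono.Y_sub_X_pow_pi1 M q hq hqM A K hdvr hA hπ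
    have h : algebraMap (Rinf M q hq hqM A K) (FK (M * q * q) K)
        (Xc M q hq hqM A K ^ (q * q) - Yc M q hq hqM A K)
        = algebraMap (Rinf M q hq hqM A K) (FK (M * q * q) K)
            (algebraMap (OK A K) (Rinf M q hq hqM A K) π) * (-z) := by
      show ((jK (M * q * q) K)⁻¹) ^ (q * q) - (WQ2.jqqK2 M q hq hqM K)⁻¹
        = algebraMap (OK A K) (FK (M * q * q) K) π * (-z)
      rw [mul_neg, ← hzz]
      ring
    rw [h]
    exact Chart3Facts.mul_lt_one (V 0) (Chart3Facts.val_p_lt_one hV' 0)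
      ((V 0).neg_mem _ (hV0 ▸ hz))
  have hK1 : Yc M q hq hqM A K ^ (q * q) - Xc M q hq hqM A K ∈ P 1 := by
    rw [Chart3Facts.mem_P_iff hV' hC]
    obtain ⟨z, hz, hzz⟩ := CuspMono.X_sub_Y_pow_pi2 M q hq hqM A K hdvr hA hπ
    have h : algebraMap (Rinf M q hq hqM A K) (FK (M * q * q) K)
        (Yc M q hq hqM A K ^ (q * q) - Xc M q hq hqM A K)
        = algebraMap (Rinf M q hq hqM A K) (FK (M * q * q) K)
            (algebraMap (OK A K) (Rinf M q hq hqM A K) π) * (-z) := by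
      show ((WQ2.jqqK2 M q hq hqM K)⁻¹) ^ (q * q) - (jK (M * q * q) K)⁻¹
        = algebraMap (OK A K) (FK (M * q * q) K) π * (-z)
      rw [mul_neg, ← hzz]
      ring
    rw [h]
    exact Chart3Facts.mul_lt_one (V 1) (Chart3Facts.val_p_lt_one hV' 1)
      ((V 1).neg_mem _ (hV1 ▸ hz))
  -- the uniformizer
  have hδ : ∃ c ∈ V 2, c⁻¹ ∈ V 2 ∧ algebraMap (Rinf M q hq hqM A K) (FK (M * q * q) K)
      (Xc M q hq hqM A K - Yc M q hq hqM A K) = ϖ 2 * c := by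
    refine ⟨(jK (M * q * q) K)⁻¹ * (WQ2.jqqK2 M q hq hqM K)⁻¹, ?_, ?_, ?_⟩
    · rw [hV2]
      exact H.W3.mul_mem _ _ H.jK_unit.2 H.jqqK2_unit.2
    · rw [hV2, mul_inv, inv_inv, inv_inv]
      exact H.W3.mul_mem _ _ H.jK_unit.1 H.jqqK2_unit.1
    · show (jK (M * q * q) K)⁻¹ - (WQ2.jqqK2 M q hq hqM K)⁻¹ = ϖ 2 * _
      rw [hϖ2, Wit3.sE]
      field_simp
  -- the unit datum
  have hu' : u * algebraMap (Rinf M q hq hqM A K) (FK (M * q * q) K)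
      (algebraMap (OK A K) (Rinf M q hq hqM A K) π) =
      (algebraMap (Rinf M q hq hqM A K) (FK (M * q * q) K) (Xc M q hq hqM A K) /
        algebraMap (Rinf M q hq hqM A K) (FK (M * q * q) K) (Yc M q hq hqM A K) - 1) ^ e 2 := by
    show u * algebraMap (OK A K) (FK (M * q * q) K) π =
      ((jK (M * q * q) K)⁻¹ / (WQ2.jqqK2 M q hq hqM K)⁻¹ - 1) ^ e 2
    rw [he2, hu]
    congr 2
    field_simp
  have hab' : (V 2).valuation (u * algebraMap (Rinf M q hq hqM A K) (FK (M * q * q) K)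
      (Polynomial.aeval (Xc M q hq hqM A K) b) -
      algebraMap (Rinf M q hq hqM A K) (FK (M * q * q) K)
        (Polynomial.aeval (Xc M q hq hqM A K) a)) < 1 := by
    rw [Chart3Facts.val_lt_one_iff hV' 2]
    refine ⟨z, hV2 ▸ hz, ?_⟩
    rw [hϖ2, ← hab]
    have h1 : ∀ p : Polynomial (OK A K),
        algebraMap (Rinf M q hq hqM A K) (FK (M * q * q) K)
          (Polynomial.aeval (Xc M q hq hqM A K) p)
        = Polynomial.aeval (jK (M * q * q) K)⁻¹ p := fun p =>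
      Polynomial.aeval_subalgebra_coe p (Rinf M q hq hqM A K) (Xc M q hq hqM A K)
    rw [h1, h1]
  have hqq : 1 < q * q := by
    have := hq.two_le
    nlinarith
  intro n hn hJn hPn
  rw [← Xc_mul_Zc_mul_Yc] at hJn
  exact Cusp3.cusp_princ_all hV' hC hp0' hq.pos hqq hqq
    hμ0rel hμ2rel hμ0P hμ2P hX0 hK0 hY1 hK1 hY2 hδ hu' a b ha hab' n hn hJn hPn

/-- **The field `hcusp2` of `Princ3Cases.princ_of_cases`** on the chart at infinity, with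
`C n := J3⁻¹ ∉ n` ("`n` is non-cuspidal"): at the cuspidal closed points of `W3` the vertical
prime `P 2` is principal. -/
theorem hcusp2 (hdvr : IsDiscreteValuationRing (OK A K))
    {K' : IntermediateField ℚ Qb} {ξ : Qb} {hξ0 : ξ ≠ 0}
    {ι : FK (M * q * q) K →+* LaurentSeries Qb} {ϖ' : OK A K'}
    (H : V3.Hyp3 M q hq hqM A K K' ξ hξ0 ι ϖ') (hA : A.LiesOverPrime q)
    {π : OK A K} (hπ : Irreducible π)
    (hp0 : algebraMap (OK A K) (FK (M * q * q) K) π ≠ 0)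
    {e : Fin 3 → ℕ} {ϖ : Fin 3 → FK (M * q * q) K}
    {V : Fin 3 → ValuationSubring (FK (M * q * q) K)}
    (hV0 : V 0 = GaussV.V1 (M * q * q) A K hdvr)
    (hV1 : V 1 = GaussV.V2 (WQ2.wK2 M q hq hqM K) hdvr)
    (hV2 : V 2 = H.W3) (hϖ2 : ϖ 2 = Wit3.sE M q hq hqM K) (he2 : e 2 = q - 1)
    (hV : ValHyp3 (algebraMap (OK A K) (FK (M * q * q) K) π) e ϖ V)
    {P : Fin 3 → Ideal (Rinf M q hq hqM A K)} (hC : ChartHyp3 π ϖ V P)
    (hμ0 : WQ2.jqK2 M q hq hqM K / jK (M * q * q) K ^ q ∈ Rinf M q hq hqM A K)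
    (hμ2 : WQ2.jqK2 M q hq hqM K / WQ2.jqqK2 M q hq hqM K ^ q ∈ Rinf M q hq hqM A K)
    {u : FK (M * q * q) K}
    (hu : u * algebraMap (OK A K) (FK (M * q * q) K) π =
      (WQ2.jqqK2 M q hq hqM K / jK (M * q * q) K - 1) ^ (q - 1))
    (hKS : ∃ a b : Polynomial (OK A K), IsUnit (a.coeff 0) ∧ IsUnit (b.coeff 0) ∧
      ∃ z ∈ H.W3, u * Polynomial.aeval (jK (M * q * q) K)⁻¹ b
        - Polynomial.aeval (jK (M * q * q) K)⁻¹ a = Wit3.sE M q hq hqM K * z) :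
    ∀ n : Ideal (Rinf M q hq hqM A K), n.IsMaximal →
      algebraMap (OK A K) (Rinf M q hq hqM A K) π ∈ n → ¬ (Jc M q hq hqM A K ∉ n) → P 2 ≤ n →
      ∃ i : Fin 3, P i ≤ n ∧ ∃ g ∈ P i, ∀ y ∈ P i, ∃ s : Rinf M q hq hqM A K, s ∉ n ∧
        ∃ c : Rinf M q hq hqM A K, s * y = c * g := by
  intro n hn _ hJ hPn
  obtain ⟨-, -, g, hg, hgen, -⟩ := cusp_inst hdvr H hA hπ hp0 hV0 hV1 hV2 hϖ2 he2 hV hC hμ0 hμ2
    hu hKS n hn.isPrime (not_not.1 hJ) hPn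
  exact ⟨2, hPn, g, hg, hgen⟩

/-- **Every height-one prime through a cuspidal closed point of `W3` is principal there**
(`NakPlan.GenAt`), given the branch datum of `ChartModel3.branch` at `(n, 2)`: from `cusp_inst`
and `Fact3.factStatement`. -/
theorem genAt_all (hdvr : IsDiscreteValuationRing (OK A K))
    {K' : IntermediateField ℚ Qb} {ξ : Qb} {hξ0 : ξ ≠ 0}
    {ι : FK (M * q * q) K →+* LaurentSeries Qb} {ϖ' : OK A K'}
    (H : V3.Hyp3 M q hq hqM A K K' ξ hξ0 ι ϖ') (hA : A.LiesOverPrime q)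
    {π : OK A K} (hπ : Irreducible π)
    (hp0 : algebraMap (OK A K) (FK (M * q * q) K) π ≠ 0)
    {e : Fin 3 → ℕ} {ϖ : Fin 3 → FK (M * q * q) K}
    {V : Fin 3 → ValuationSubring (FK (M * q * q) K)}
    (hV0 : V 0 = GaussV.V1 (M * q * q) A K hdvr)
    (hV1 : V 1 = GaussV.V2 (WQ2.wK2 M q hq hqM K) hdvr)
    (hV2 : V 2 = H.W3) (hϖ2 : ϖ 2 = Wit3.sE M q hq hqM K) (he2 : e 2 = q - 1)
    (hV : ValHyp3 (algebraMap (OK A K) (FK (M * q * q) K) π) e ϖ V)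
    {P : Fin 3 → Ideal (Rinf M q hq hqM A K)} (hC : ChartHyp3 π ϖ V P)
    (hμ0 : WQ2.jqK2 M q hq hqM K / jK (M * q * q) K ^ q ∈ Rinf M q hq hqM A K)
    (hμ2 : WQ2.jqK2 M q hq hqM K / WQ2.jqqK2 M q hq hqM K ^ q ∈ Rinf M q hq hqM A K)
    {u : FK (M * q * q) K}
    (hu : u * algebraMap (OK A K) (FK (M * q * q) K) π =
      (WQ2.jqqK2 M q hq hqM K / jK (M * q * q) K - 1) ^ (q - 1))
    (hKS : ∃ a b : Polynomial (OK A K), IsUnit (a.coeff 0) ∧ IsUnit (b.coeff 0) ∧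
      ∃ z ∈ H.W3, u * Polynomial.aeval (jK (M * q * q) K)⁻¹ b
        - Polynomial.aeval (jK (M * q * q) K)⁻¹ a = Wit3.sE M q hq hqM K * z)
    (n : Ideal (Rinf M q hq hqM A K)) (hn : n.IsMaximal) (hJ : Jc M q hq hqM A K ∈ n)
    (hPn : P 2 ≤ n)
    (hbranch : (∃ x ∈ n, x ∉ P 2) ∧
      ∃ t ∈ n, ∀ x ∈ n, ∃ s : Rinf M q hq hqM A K, s ∉ n ∧
        ∃ c : Rinf M q hq hqM A K, s * x - c * t ∈ P 2) :
    ∀ 𝔮 : Ideal (Rinf M q hq hqM A K), 𝔮.IsPrime → 𝔮 ≤ n → LocPlan.PrincAt 𝔮 →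
      ∃ g : Rinf M q hq hqM A K, NakPlan.GenAt n 𝔮 g := by
  obtain ⟨-, ⟨hnoeth, hfrac, -⟩, -, -⟩ := Chart3B.rings M q hq hqM A K hdvr
  have := hnoeth
  have := hfrac
  have hV' : ValHyp3 (algebraMap (Rinf M q hq hqM A K) (FK (M * q * q) K)
      (algebraMap (OK A K) (Rinf M q hq hqM A K) π)) e ϖ V := hV
  obtain ⟨-, -, g, hg, hgen, -⟩ := cusp_inst hdvr H hA hπ hp0 hV0 hV1 hV2 hϖ2 he2 hV hC hμ0 hμ2
    hu hKS n hn.isPrime hJ hPn
  intro 𝔮 h𝔮 h𝔮n hP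
  obtain ⟨g', hg', hgen'⟩ := Fact3.factStatement (Rinf M q hq hqM A K) n (P 2) 𝔮 hn
    (Chart3Facts.isPrime_P hV' hC 2) h𝔮 hPn h𝔮n ⟨g, hg, hgen⟩ hbranch.1 hbranch.2 hP
  exact ⟨g', hg', hgen'⟩

/-- `cusp_inst` with the unit datum discharged by `CuspKS.exists_polys` ([CUSP-c]): the only
inputs left are the two chart memberships (I1) and the residue degree one of `W3` over level
ONE (`hf3`, at level `1 · q²`). -/
theorem cusp_inst_of_hf3 (hdvr : IsDiscreteValuationRing (OK A K))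
    {K' : IntermediateField ℚ Qb} {ξ : Qb} {hξ0 : ξ ≠ 0}
    {ι : FK (M * q * q) K →+* LaurentSeries Qb} {ϖ' : OK A K'}
    (H : V3.Hyp3 M q hq hqM A K K' ξ hξ0 ι ϖ') (hA : A.LiesOverPrime q)
    {π : OK A K} (hπ : Irreducible π)
    (hp0 : algebraMap (OK A K) (FK (M * q * q) K) π ≠ 0)
    (hπram : ∃ u : A, IsUnit u ∧ incO A K π = incO A K' ϖ' ^ (q - 1) * (u : Qb))
    {e : Fin 3 → ℕ} {ϖ : Fin 3 → FK (M * q * q) K}
    {V : Fin 3 → ValuationSubring (FK (M * q * q) K)}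
    (hV0 : V 0 = GaussV.V1 (M * q * q) A K hdvr)
    (hV1 : V 1 = GaussV.V2 (WQ2.wK2 M q hq hqM K) hdvr)
    (hV2 : V 2 = H.W3) (hϖ2 : ϖ 2 = Wit3.sE M q hq hqM K) (he2 : e 2 = q - 1)
    (hV : ValHyp3 (algebraMap (OK A K) (FK (M * q * q) K) π) e ϖ V)
    {P : Fin 3 → Ideal (Rinf M q hq hqM A K)} (hC : ChartHyp3 π ϖ V P)
    (hμ0 : WQ2.jqK2 M q hq hqM K / jK (M * q * q) K ^ q ∈ Rinf M q hq hqM A K)
    (hμ2 : WQ2.jqK2 M q hq hqM K / WQ2.jqqK2 M q hq hqM K ^ q ∈ Rinf M q hq hqM A K)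
    (hq1 : ¬ q ∣ 1) (em₁ : FK (1 * q * q) K →+* LaurentSeries Qb)
    (h₁ : V3.MidEmb 1 q hq hq1 K ξ hξ0 em₁)
    (hf3 : ∀ (x : FK (1 * q * q) K) (y : LaurentSeries (IsLocalRing.ResidueField A)),
      GRel A (em₁ x) y → ∃ x' : FK 1 K, GRel A ((x' : FK 1 K) : LaurentSeries Qb) y) :
    ∀ n : Ideal (Rinf M q hq hqM A K), n.IsPrime → Jc M q hq hqM A K ∈ n → P 2 ≤ n →
      ¬ P 0 ≤ n ∧ ¬ P 1 ≤ n ∧
        ∃ g ∈ P 2, (∀ y ∈ P 2, ∃ s : Rinf M q hq hqM A K, s ∉ n ∧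
            ∃ c : Rinf M q hq hqM A K, s * y = c * g) ∧
          ∃ s t : Rinf M q hq hqM A K, s ∉ n ∧ t ∉ n ∧
            s * g ^ e 2 = algebraMap (OK A K) (Rinf M q hq hqM A K) π * t := by
  have : Fact q.Prime := ⟨hq⟩
  obtain ⟨-, -, hKS⟩ := CuspKS.exists_polys H hA hdvr π hπram hq1 em₁ h₁ hf3
  refine cusp_inst hdvr H hA hπ hp0 hV0 hV1 hV2 hϖ2 he2 hV hC hμ0 hμ2
    (u := CuspKS.uK M q hq hqM K A π) ?_ hKS
  rw [CuspKS.uK, inv_mul_cancel_right₀ hp0, div_eq_mul_inv]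

end

end Fermat.Agent.S36.Cusp3Inst
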