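import Mathlib
import Fermat.Agent.S34.RamTwo
import Fermat.Agent.S34.TwoVal

/-!
# S36, block [RAM-N]: `n` valuation subrings with ramification over a DVR

`V₀` is a discrete valuation ring with fraction field `E₀` and uniformizer `ϖ`; `E / E₀` is a
finite field extension; `V a` (`a : κ`, `κ` finite) are valuation subrings of `E` containing
(the image of) `V₀` in which `ϖ` is a non-unit.  We are given lower bounds for the ramification
indices and residue degrees: `δ a ∈ 𝔪_a` with `ϖ ∈ δ a ^ e a • V a`, and `f a` elements `b a i`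
whose residues at `V a` are independent over the residue field of `V₀`; moreover separating
elements `u a` (integral at all `V a'`, a unit at `V a`, divisible by `ϖ` at the others).  If
`[E : E₀] ≤ ∑ a, e a * f a`, then

* `exists_repr`: `⋂ a, V a` is a free `V₀`-module on `fam = (u a * δ a ^ k * b a i)`;
* `dvd_of_repr`: this family is independent modulo `ϖ • ⋂ a, V a`;
* `isIntegral_iff`: `⋂ a, V a` is the integral closure of `V₀` in `E`;
* `exists_approx`: the Chinese remainder theorem modulo `ϖ`;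
* `exists_expand`, `exists_residue`, `exists_eq_delta_mul`: the bounds are exact, i.e.
  `V a / ϖ` has basis `δ a ^ k * b a i`, the residue field of `V a` is spanned by the `b a i`
  and `𝔪_a = δ a • V a`.

This generalises `S34/RamTwo` (two valuations, `e = (1, 1)`, `f = (1, q)`).  Only linear algebra
over `E₀` and valuations are used (no Dedekind domains).
-/

set_option autoImplicit false
set_option linter.unusedSectionVars false

namespace Fermat.Agent.S36.RamN

open Fermat.Agent.S34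

section Local

variable {V₀ : Type*} [CommRing V₀]
variable {E : Type*} [Field E] [Algebra V₀ E]

/-- Divisibility by a nonzero element inside a valuation subring, in terms of the valuation. -/
theorem le_iff_exists_mul (A : ValuationSubring E) {p z : E} (hp : p ≠ 0) :
    A.valuation z ≤ A.valuation p ↔ ∃ t ∈ A, z = p * t := by
  constructor
  · intro h
    refine ⟨z / p, ?_, by field_simp⟩
    rw [← ValuationSubring.valuation_le_one_iff, map_div₀]
    exact div_le_one_of_le₀ h zero_le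
  · rintro ⟨t, ht, rfl⟩
    rw [map_mul]
    exact mul_le_of_le_one_right' ((ValuationSubring.valuation_le_one_iff A t).mpr ht)

/-- The local independence statement, indexed by `ℕ`. -/
theorem local_aux (A : ValuationSubring E) {d p : E} (hd0 : d ≠ 0) (hd : A.valuation d < 1)
    {f : ℕ} (b : Fin f → E) (hb : ∀ i, b i ∈ A) {ϖ : V₀}
    (hle : ∀ c : V₀, algebraMap V₀ E c ∈ A)
    (hϖ : ∀ c : V₀, ϖ ∣ c → A.valuation (algebraMap V₀ E c) ≤ A.valuation p)
    (hind : ∀ c : Fin f → V₀, A.valuation (∑ i, algebraMap V₀ E (c i) * b i) < 1 →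
      ∀ i, ϖ ∣ c i) {e : ℕ} (hpe : A.valuation p ≤ A.valuation d ^ e) :
    ∀ m : ℕ, m ≤ e → ∀ c : ℕ → Fin f → V₀,
      A.valuation (∑ k ∈ Finset.range m, d ^ k * ∑ i, algebraMap V₀ E (c k i) * b i)
        ≤ A.valuation d ^ m → ∀ k < m, ∀ i, ϖ ∣ c k i := by
  have hd1 : A.valuation d ≤ 1 := hd.le
  have hT : ∀ (c : Fin f → V₀), A.valuation (∑ i, algebraMap V₀ E (c i) * b i) ≤ 1 := by
    intro c
    refine Valuation.map_sum_le _ (fun i _ => ?_)
    rw [map_mul]
    exact mul_le_one' ((ValuationSubring.valuation_le_one_iff A _).mpr (hle _))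
      ((ValuationSubring.valuation_le_one_iff A _).mpr (hb i))
  intro m
  induction m with
  | zero => intro _ c _ k hk; exact absurd hk (Nat.not_lt_zero k)
  | succ m ih =>
    intro hm c hc
    set T : ℕ → E := fun k => ∑ i, algebraMap V₀ E (c k i) * b i with hTdef
    set S' : E := ∑ k ∈ Finset.range m, d ^ k * T (k + 1) with hS'
    have hsplit : ∑ k ∈ Finset.range (m + 1), d ^ k * T k = d * S' + T 0 := by
      rw [Finset.sum_range_succ', hS']
      have h1 : ∑ k ∈ Finset.range m, d ^ (k + 1) * T (k + 1) =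
          d * ∑ k ∈ Finset.range m, d ^ k * T (k + 1) := by
        rw [Finset.mul_sum]
        apply Finset.sum_congr rfl
        intro k _
        ring
      rw [h1, pow_zero, one_mul]
    have hS'le : A.valuation S' ≤ 1 := by
      refine Valuation.map_sum_le _ (fun k _ => ?_)
      rw [map_mul, map_pow]
      exact mul_le_one' (pow_le_one' hd1 k) (hT _)
    have hc' : A.valuation (d * S' + T 0) ≤ A.valuation d ^ (m + 1) := by
      rw [← hsplit]; exact hc
    have hpow_le : A.valuation d ^ (m + 1) ≤ A.valuation d :=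
      pow_le_of_le_one zero_le hd1 (Nat.succ_ne_zero m)
    -- `T 0` is in the maximal ideal
    have hT0 : A.valuation (T 0) < 1 := by
      have h1 : T 0 = (d * S' + T 0) - d * S' := by ring
      rw [h1]
      refine Valuation.map_sub_lt _ (lt_of_le_of_lt (hc'.trans hpow_le) hd) ?_
      rw [map_mul]
      exact lt_of_le_of_lt (mul_le_of_le_one_right' hS'le) hd
    have hdiv0 : ∀ i, ϖ ∣ c 0 i := hind (c 0) hT0
    have hT0' : A.valuation (T 0) ≤ A.valuation d ^ (m + 1) := by
      have h2 : A.valuation (T 0) ≤ A.valuation p := by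
        refine Valuation.map_sum_le _ (fun i _ => ?_)
        rw [map_mul]
        exact (mul_le_of_le_one_right' ((ValuationSubring.valuation_le_one_iff A _).mpr (hb i))).trans
          (hϖ _ (hdiv0 i))
      exact h2.trans (hpe.trans (pow_le_pow_right_of_le_one' hd1 hm))
    have hS'' : A.valuation S' ≤ A.valuation d ^ m := by
      have h1 : d * S' = (d * S' + T 0) - T 0 := by ring
      have h2 : A.valuation (d * S') ≤ A.valuation d ^ (m + 1) := by
        rw [h1]
        exact Valuation.map_sub_le _ hc' hT0'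
      rw [map_mul, pow_succ'] at h2
      have hdne : A.valuation d ≠ 0 := (Valuation.ne_zero_iff _).mpr hd0
      exact (mul_le_mul_iff_right₀ (zero_lt_iff.mpr hdne)).mp h2
    have ih' := ih (Nat.le_of_succ_le hm) (fun k => c (k + 1)) hS''
    intro k hk i
    rcases Nat.eq_zero_or_pos k with h0 | hpos
    · subst h0; exact hdiv0 i
    · obtain ⟨k', rfl⟩ := Nat.exists_eq_succ_of_ne_zero hpos.ne'
      exact ih' k' (Nat.lt_of_succ_lt_succ hk) i

/-- The local independence statement, indexed by `Fin e × Fin f`. -/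
theorem local_ind (A : ValuationSubring E) {d p : E} (hd0 : d ≠ 0) (hd : A.valuation d < 1)
    {f : ℕ} (b : Fin f → E) (hb : ∀ i, b i ∈ A) {ϖ : V₀}
    (hle : ∀ c : V₀, algebraMap V₀ E c ∈ A)
    (hϖ : ∀ c : V₀, ϖ ∣ c → A.valuation (algebraMap V₀ E c) ≤ A.valuation p)
    (hind : ∀ c : Fin f → V₀, A.valuation (∑ i, algebraMap V₀ E (c i) * b i) < 1 →
      ∀ i, ϖ ∣ c i) {e : ℕ} (hpe : A.valuation p ≤ A.valuation d ^ e)
    (c : Fin e × Fin f → V₀)
    (hc : A.valuation (∑ r, algebraMap V₀ E (c r) * (d ^ (r.1 : ℕ) * b r.2)) ≤ A.valuation p) :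
    ∀ r, ϖ ∣ c r := by
  classical
  set c' : ℕ → Fin f → V₀ := fun k i => if h : k < e then c (⟨k, h⟩, i) else 0 with hc'
  have hcc : ∀ (k : Fin e) (i : Fin f), c' (k : ℕ) i = c (k, i) := by
    intro k i
    simp only [hc', k.2, dif_pos, Fin.eta]
  have hsum : ∑ r, algebraMap V₀ E (c r) * (d ^ (r.1 : ℕ) * b r.2) =
      ∑ k ∈ Finset.range e, d ^ k * ∑ i, algebraMap V₀ E (c' k i) * b i := by
    rw [Fintype.sum_prod_type, Finset.sum_range]
    apply Finset.sum_congr rfl
    intro k _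
    rw [Finset.mul_sum]
    apply Finset.sum_congr rfl
    intro i _
    rw [hcc k i]
    ring
  have h := local_aux A hd0 hd b hb hle hϖ hind hpe e le_rfl c'
    (by rw [← hsum]; exact hc.trans hpe)
  rintro ⟨k, i⟩
  have h1 := h k k.2 i
  rwa [hcc k i] at h1

end Local

section Global

variable {V₀ : Type*} [CommRing V₀] [IsDomain V₀] [IsDiscreteValuationRing V₀]
variable {E : Type*} [Field E] [Algebra V₀ E]
variable {κ : Type*} [Fintype κ]

/-- **The hypotheses of [RAM-N].** -/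
structure Hyp (E₀ : Type*) [Field E₀] [Algebra V₀ E₀] [IsFractionRing V₀ E₀] [Algebra E₀ E]
    [IsScalarTower V₀ E₀ E] (V : κ → ValuationSubring E) (ϖ : V₀) (e f : κ → ℕ) (u δ : κ → E)
    (b : ∀ a, Fin (f a) → E) : Prop where
  fin : FiniteDimensional E₀ E
  deg : Module.finrank E₀ E ≤ ∑ a, e a * f a
  irr : Irreducible ϖ
  epos : ∀ a, 0 < e a
  le : ∀ a (c : V₀), algebraMap V₀ E c ∈ V a
  pi : ∀ a, algebraMap V₀ E ϖ ∈ (V a).nonunits
  hu : ∀ a a', u a ∈ V a'
  hu_unit : ∀ a, u a ∉ (V a).nonunits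
  hu_pi : ∀ a a', a ≠ a' → ∃ z ∈ V a', u a = algebraMap V₀ E ϖ * z
  hδ : ∀ a a', δ a ∈ V a'
  hδ_non : ∀ a, δ a ∈ (V a).nonunits
  hδ_pi : ∀ a, ∃ z ∈ V a, algebraMap V₀ E ϖ = δ a ^ e a * z
  hb : ∀ a i a', b a i ∈ V a'
  ind : ∀ a (c : Fin (f a) → V₀),
    ∑ i, algebraMap V₀ E (c i) * b a i ∈ (V a).nonunits → ∀ i, ϖ ∣ c i

/-- The family `u a * δ a ^ k * b a i` (`k < e a`, `i < f a`). -/
def fam {e f : κ → ℕ} (u δ : κ → E) (b : ∀ a, Fin (f a) → E) :
    (Σ a, Fin (e a) × Fin (f a)) → E :=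
  fun j => u j.1 * δ j.1 ^ (j.2.1 : ℕ) * b j.1 j.2.2

namespace Hyp

variable {E₀ : Type*} [Field E₀] [Algebra V₀ E₀] [IsFractionRing V₀ E₀] [Algebra E₀ E]
  [IsScalarTower V₀ E₀ E] {V : κ → ValuationSubring E} {ϖ : V₀} {e f : κ → ℕ} {u δ : κ → E}
  {b : ∀ a, Fin (f a) → E}

theorem inj (_H : Hyp E₀ V ϖ e f u δ b) : Function.Injective (algebraMap V₀ E) := by
  rw [IsScalarTower.algebraMap_eq V₀ E₀ E]
  exact (algebraMap E₀ E).injective.comp (IsFractionRing.injective V₀ E₀)

theorem pi_ne (H : Hyp E₀ V ϖ e f u δ b) : algebraMap V₀ E ϖ ≠ 0 := by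
  intro h
  exact H.irr.ne_zero (H.inj (by rw [h, map_zero]))

theorem val_le (H : Hyp E₀ V ϖ e f u δ b) (a : κ) (c : V₀) :
    (V a).valuation (algebraMap V₀ E c) ≤ 1 :=
  (ValuationSubring.valuation_le_one_iff _ _).mpr (H.le a c)

theorem val_pi_lt (H : Hyp E₀ V ϖ e f u δ b) (a : κ) :
    (V a).valuation (algebraMap V₀ E ϖ) < 1 :=
  (ValuationSubring.mem_nonunits_iff _).mp (H.pi a)

theorem val_dvd (H : Hyp E₀ V ϖ e f u δ b) (a : κ) {c : V₀} (hc : ϖ ∣ c) :
    (V a).valuation (algebraMap V₀ E c) ≤ (V a).valuation (algebraMap V₀ E ϖ) := by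
  obtain ⟨d, rfl⟩ := hc
  rw [map_mul, map_mul]
  exact mul_le_of_le_one_right' (H.val_le a d)

theorem val_u (H : Hyp E₀ V ϖ e f u δ b) (a : κ) : (V a).valuation (u a) = 1 := by
  have h1 : (V a).valuation (u a) ≤ 1 := (ValuationSubring.valuation_le_one_iff _ _).mpr (H.hu a a)
  have h2 : ¬ (V a).valuation (u a) < 1 := fun h =>
    H.hu_unit a ((ValuationSubring.mem_nonunits_iff _).mpr h)
  exact le_antisymm h1 (not_lt.mp h2)

theorem val_u_le (H : Hyp E₀ V ϖ e f u δ b) (a a' : κ) : (V a').valuation (u a) ≤ 1 :=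
  (ValuationSubring.valuation_le_one_iff _ _).mpr (H.hu a a')

theorem val_u_pi (H : Hyp E₀ V ϖ e f u δ b) {a a' : κ} (h : a ≠ a') :
    (V a').valuation (u a) ≤ (V a').valuation (algebraMap V₀ E ϖ) :=
  (le_iff_exists_mul (V a') H.pi_ne).mpr (H.hu_pi a a' h)

theorem val_δ_le (H : Hyp E₀ V ϖ e f u δ b) (a a' : κ) : (V a').valuation (δ a) ≤ 1 :=
  (ValuationSubring.valuation_le_one_iff _ _).mpr (H.hδ a a')

theorem val_δ_lt (H : Hyp E₀ V ϖ e f u δ b) (a : κ) : (V a).valuation (δ a) < 1 :=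
  (ValuationSubring.mem_nonunits_iff _).mp (H.hδ_non a)

theorem val_b_le (H : Hyp E₀ V ϖ e f u δ b) (a : κ) (i : Fin (f a)) (a' : κ) :
    (V a').valuation (b a i) ≤ 1 :=
  (ValuationSubring.valuation_le_one_iff _ _).mpr (H.hb a i a')

theorem val_pi_le_pow (H : Hyp E₀ V ϖ e f u δ b) (a : κ) :
    (V a).valuation (algebraMap V₀ E ϖ) ≤ (V a).valuation (δ a) ^ e a := by
  obtain ⟨z, hz, h⟩ := H.hδ_pi a
  rw [h, map_mul, map_pow]
  exact mul_le_of_le_one_right' ((ValuationSubring.valuation_le_one_iff _ _).mpr hz)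

theorem δ_ne (H : Hyp E₀ V ϖ e f u δ b) (a : κ) : δ a ≠ 0 := by
  intro h
  obtain ⟨z, -, hz⟩ := H.hδ_pi a
  rw [h, zero_pow (H.epos a).ne', zero_mul] at hz
  exact H.pi_ne hz

theorem val_pi_le_δ (H : Hyp E₀ V ϖ e f u δ b) (a : κ) :
    (V a).valuation (algebraMap V₀ E ϖ) ≤ (V a).valuation (δ a) :=
  (H.val_pi_le_pow a).trans (pow_le_of_le_one zero_le (H.val_δ_le a a) (H.epos a).ne')

theorem val_fam_le (H : Hyp E₀ V ϖ e f u δ b) (j : Σ a, Fin (e a) × Fin (f a)) (a' : κ) :
    (V a').valuation (fam u δ b j) ≤ 1 := by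
  unfold fam
  rw [map_mul, map_mul, map_pow]
  exact mul_le_one' (mul_le_one' (H.val_u_le _ _) (pow_le_one' (H.val_δ_le _ _) _))
    (H.val_b_le _ _ _)

theorem val_fam_pi (H : Hyp E₀ V ϖ e f u δ b) (j : Σ a, Fin (e a) × Fin (f a)) {a' : κ}
    (h : j.1 ≠ a') :
    (V a').valuation (fam u δ b j) ≤ (V a').valuation (algebraMap V₀ E ϖ) := by
  unfold fam
  rw [map_mul, map_mul, map_pow, mul_assoc]
  exact (mul_le_of_le_one_right' (mul_le_one' (pow_le_one' (H.val_δ_le _ _) _)
    (H.val_b_le _ _ _))).trans (H.val_u_pi h)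

/-- Independence at one valuation. -/
theorem local_dvd (H : Hyp E₀ V ϖ e f u δ b) (a : κ) (c : Fin (e a) × Fin (f a) → V₀)
    (hc : (V a).valuation (∑ r, algebraMap V₀ E (c r) * (δ a ^ (r.1 : ℕ) * b a r.2))
      ≤ (V a).valuation (algebraMap V₀ E ϖ)) : ∀ r, ϖ ∣ c r :=
  local_ind (V a) (H.δ_ne a) (H.val_δ_lt a) (b a) (fun i => H.hb a i a) (H.le a)
    (fun _ hc => H.val_dvd a hc)
    (fun c hc => H.ind a c ((ValuationSubring.mem_nonunits_iff _).mpr hc)) (H.val_pi_le_pow a) c hc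

/-- The `a`-part of a combination of the family. -/
theorem sum_fam_eq (c : (Σ a, Fin (e a) × Fin (f a)) → V₀) :
    ∑ j, algebraMap V₀ E (c j) * fam u δ b j =
      ∑ a, u a * ∑ r : Fin (e a) × Fin (f a),
        algebraMap V₀ E (c ⟨a, r⟩) * (δ a ^ (r.1 : ℕ) * b a r.2) := by
  rw [Fintype.sum_sigma]
  apply Finset.sum_congr rfl
  intro a _
  rw [Finset.mul_sum]
  apply Finset.sum_congr rfl
  intro r _
  unfold fam
  ring

theorem val_part_pi (H : Hyp E₀ V ϖ e f u δ b) (c : (Σ a, Fin (e a) × Fin (f a)) → V₀)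
    {a a' : κ} (h : a ≠ a') :
    (V a').valuation (u a * ∑ r : Fin (e a) × Fin (f a),
        algebraMap V₀ E (c ⟨a, r⟩) * (δ a ^ (r.1 : ℕ) * b a r.2))
      ≤ (V a').valuation (algebraMap V₀ E ϖ) := by
  rw [map_mul]
  refine (mul_le_of_le_one_right' ?_).trans (H.val_u_pi h)
  refine Valuation.map_sum_le _ (fun r _ => ?_)
  rw [map_mul, map_mul, map_pow]
  exact mul_le_one' (H.val_le _ _) (mul_le_one' (pow_le_one' (H.val_δ_le _ _) _)
    (H.val_b_le _ _ _))

/-- **Independence modulo `ϖ • ⋂ V a`.** -/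
theorem dvd_of_val (H : Hyp E₀ V ϖ e f u δ b) (c : (Σ a, Fin (e a) × Fin (f a)) → V₀)
    (hc : ∀ a, (V a).valuation (∑ j, algebraMap V₀ E (c j) * fam u δ b j)
      ≤ (V a).valuation (algebraMap V₀ E ϖ)) : ∀ j, ϖ ∣ c j := by
  classical
  rintro ⟨a, r⟩
  have h1 := hc a
  rw [sum_fam_eq, ← Finset.add_sum_erase Finset.univ _ (Finset.mem_univ a)] at h1
  set P := u a * ∑ r : Fin (e a) × Fin (f a),
    algebraMap V₀ E (c ⟨a, r⟩) * (δ a ^ (r.1 : ℕ) * b a r.2) with hP
  set Q := ∑ x ∈ Finset.univ.erase a, u x * ∑ r : Fin (e x) × Fin (f x),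
    algebraMap V₀ E (c ⟨x, r⟩) * (δ x ^ (r.1 : ℕ) * b x r.2) with hQ
  have h2 : (V a).valuation Q ≤ (V a).valuation (algebraMap V₀ E ϖ) := by
    refine Valuation.map_sum_le _ (fun x hx => ?_)
    exact H.val_part_pi c (Finset.ne_of_mem_erase hx)
  have h3 : (V a).valuation P ≤ (V a).valuation (algebraMap V₀ E ϖ) := by
    have : P = (P + Q) - Q := by ring
    rw [this]
    exact Valuation.map_sub_le _ h1 h2
  rw [hP, map_mul, H.val_u a, one_mul] at h3
  exact H.local_dvd a (fun r => c ⟨a, r⟩) h3 r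

/-- The family is linearly independent over `E₀`. -/
theorem linearIndependent (H : Hyp E₀ V ϖ e f u δ b) :
    LinearIndependent E₀ (fam (e := e) u δ b) := by
  classical
  rw [Fintype.linearIndependent_iff]
  intro g hg
  by_contra hne
  rw [not_forall] at hne
  obtain ⟨i₀, c, hi₀, hc1, hc⟩ := RamTwo.exists_scale (V₀ := V₀) g hne
  have h1 : ∑ j, algebraMap V₀ E (c j) * fam u δ b j = 0 := by
    have h2 : (algebraMap E₀ E (g i₀)) * ∑ j, algebraMap V₀ E (c j) * fam u δ b j = 0 := by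
      rw [Finset.mul_sum, ← hg]
      apply Finset.sum_congr rfl
      intro j _
      rw [hc j, Algebra.smul_def, map_mul, ← IsScalarTower.algebraMap_apply V₀ E₀ E]
      ring
    rcases mul_eq_zero.mp h2 with h | h
    · exact absurd ((map_eq_zero _).mp h) hi₀
    · exact h
  have h3 := H.dvd_of_val c (fun a => by rw [h1, map_zero]; exact zero_le) i₀
  rw [hc1] at h3
  exact H.irr.not_isUnit (isUnit_of_dvd_one h3)

theorem card_index (e f : κ → ℕ) :
    Fintype.card (Σ a, Fin (e a) × Fin (f a)) = ∑ a, e a * f a := by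
  simp [Fintype.card_sigma]

/-- The family spans `E` over `E₀`. -/
theorem span_eq_top (H : Hyp E₀ V ϖ e f u δ b) :
    Submodule.span E₀ (Set.range (fam (e := e) u δ b)) = ⊤ := by
  have := H.fin
  apply H.linearIndependent.span_eq_top_of_card_eq_finrank'
  apply le_antisymm
  · exact H.linearIndependent.fintype_card_le_finrank
  · rw [card_index]; exact H.deg

/-- The degree is exactly `∑ a, e a * f a`. -/
theorem finrank_eq (H : Hyp E₀ V ϖ e f u δ b) : Module.finrank E₀ E = ∑ a, e a * f a := by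
  have := H.fin
  apply le_antisymm H.deg
  rw [← card_index]
  exact H.linearIndependent.fintype_card_le_finrank

/-- Every element of `E` has a primitive representation with a denominator in `V₀`. -/
theorem exists_scaled (H : Hyp E₀ V ϖ e f u δ b) (z : E) :
    ∃ (d : V₀) (c : (Σ a, Fin (e a) × Fin (f a)) → V₀), d ≠ 0 ∧
      algebraMap V₀ E d * z = ∑ j, algebraMap V₀ E (c j) * fam u δ b j ∧
      (ϖ ∣ d → ∃ j, ¬ ϖ ∣ c j) := by
  classical
  have hz : z ∈ Submodule.span E₀ (Set.range (fam (e := e) u δ b)) := by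
    rw [H.span_eq_top]; trivial
  obtain ⟨g, hg⟩ := (Submodule.mem_span_range_iff_exists_fun E₀).mp hz
  let g' : Option (Σ a, Fin (e a) × Fin (f a)) → E₀ := fun o => o.elim 1 g
  obtain ⟨i₀, c, hi₀, hc1, hc⟩ := RamTwo.exists_scale (V₀ := V₀) g' ⟨none, one_ne_zero⟩
  have hnone : (1 : E₀) = g' i₀ * algebraMap V₀ E₀ (c none) := hc none
  have hsome : ∀ j, g j = g' i₀ * algebraMap V₀ E₀ (c (some j)) := fun j => hc (some j)
  have hd : c none ≠ 0 := by
    intro h
    rw [h, map_zero, mul_zero] at hnone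
    exact one_ne_zero hnone
  refine ⟨c none, fun j => c (some j), hd, ?_, ?_⟩
  · have h1 : algebraMap V₀ E (c none) * algebraMap E₀ E (g' i₀) = 1 := by
      rw [IsScalarTower.algebraMap_apply V₀ E₀ E, ← map_mul, mul_comm, ← hnone, map_one]
    rw [← hg, Finset.mul_sum]
    apply Finset.sum_congr rfl
    intro j _
    rw [Algebra.smul_def, hsome j, map_mul, ← IsScalarTower.algebraMap_apply V₀ E₀ E]
    calc algebraMap V₀ E (c none) *
          (algebraMap E₀ E (g' i₀) * algebraMap V₀ E (c (some j)) * fam u δ b j)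
        = (algebraMap V₀ E (c none) * algebraMap E₀ E (g' i₀)) *
          (algebraMap V₀ E (c (some j)) * fam u δ b j) := by ring
      _ = algebraMap V₀ E (c (some j)) * fam u δ b j := by rw [h1, one_mul]
  · intro hdvd
    cases i₀ with
    | none =>
      rw [hc1] at hdvd
      exact absurd (isUnit_of_dvd_one hdvd) H.irr.not_isUnit
    | some j₀ =>
      exact ⟨j₀, fun h => H.irr.not_isUnit (isUnit_of_dvd_one (hc1 ▸ h))⟩

/-- **[RAM-N] (1)** `⋂ a, V a` is spanned over `V₀` by the family. -/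
theorem exists_repr (H : Hyp E₀ V ϖ e f u δ b) {z : E} (hz : ∀ a, z ∈ V a) :
    ∃ c : (Σ a, Fin (e a) × Fin (f a)) → V₀, z = ∑ j, algebraMap V₀ E (c j) * fam u δ b j := by
  obtain ⟨d, c, hd, hrepr, hprim⟩ := H.exists_scaled z
  by_cases hdvd : ϖ ∣ d
  · exfalso
    obtain ⟨j, hj⟩ := hprim hdvd
    refine hj (H.dvd_of_val c (fun a => ?_) j)
    rw [← hrepr, map_mul]
    exact (mul_le_of_le_one_right'
      ((ValuationSubring.valuation_le_one_iff _ _).mpr (hz a))).trans (H.val_dvd a hdvd)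
  · have hunit : IsUnit d := RamTwo.isUnit_of_not_dvd H.irr hdvd
    obtain ⟨d', hd'⟩ := hunit.exists_left_inv
    refine ⟨fun j => d' * c j, ?_⟩
    have h1 : z = algebraMap V₀ E d' * (algebraMap V₀ E d * z) := by
      rw [← mul_assoc, ← map_mul, hd', map_one, one_mul]
    rw [h1, hrepr, Finset.mul_sum]
    apply Finset.sum_congr rfl
    intro j _
    rw [map_mul]
    ring

/-- Every element of `E` is multiplied into `⋂ a, V a` by a power of `ϖ`. -/
theorem exists_pow_mul_mem (H : Hyp E₀ V ϖ e f u δ b) (z : E) :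
    ∃ N : ℕ, ∀ a, (V a).valuation (algebraMap V₀ E ϖ ^ N * z) ≤ 1 := by
  obtain ⟨d, c, hd, hrepr, -⟩ := H.exists_scaled z
  obtain ⟨N, w, hw⟩ := IsDiscreteValuationRing.eq_unit_mul_pow_irreducible hd H.irr
  refine ⟨N, fun a => ?_⟩
  have h1 : algebraMap V₀ E ϖ ^ N * z =
      algebraMap V₀ E ((w⁻¹ : V₀ˣ) : V₀) * ∑ j, algebraMap V₀ E (c j) * fam u δ b j := by
    rw [← hrepr, hw, map_mul, map_pow, ← mul_assoc, ← mul_assoc, ← map_mul, Units.inv_mul,
      map_one, one_mul]
  rw [h1, map_mul]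
  refine mul_le_one' (H.val_le a _) (Valuation.map_sum_le _ (fun j _ => ?_))
  rw [map_mul]
  exact mul_le_one' (H.val_le a _) (H.val_fam_le j a)

/-- Orthogonal idempotents modulo `ϖ`. -/
theorem exists_idem (H : Hyp E₀ V ϖ e f u δ b) :
    ∃ ε : κ → E, (∀ a a', (V a').valuation (ε a) ≤ 1) ∧
      (∀ a a', a ≠ a' → (V a').valuation (ε a) ≤ (V a').valuation (algebraMap V₀ E ϖ)) ∧
      ∀ a, (V a).valuation (ε a - 1) ≤ (V a).valuation (algebraMap V₀ E ϖ) := by
  classical
  obtain ⟨c, hc⟩ := H.exists_repr (z := 1) (fun a => (V a).one_mem)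
  rw [sum_fam_eq] at hc
  set ε : κ → E := fun a => u a * ∑ r : Fin (e a) × Fin (f a),
    algebraMap V₀ E (c ⟨a, r⟩) * (δ a ^ (r.1 : ℕ) * b a r.2) with hε
  have hpi : ∀ a a', a ≠ a' →
      (V a').valuation (ε a) ≤ (V a').valuation (algebraMap V₀ E ϖ) :=
    fun a a' h => H.val_part_pi c h
  have hone : ∀ a, (V a).valuation (ε a - 1) ≤ (V a).valuation (algebraMap V₀ E ϖ) := by
    intro a
    have h1 : ε a - 1 = - ∑ x ∈ Finset.univ.erase a, ε x := by
      rw [hc, ← Finset.add_sum_erase Finset.univ _ (Finset.mem_univ a)]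
      ring
    rw [h1, Valuation.map_neg]
    exact Valuation.map_sum_le _ (fun x hx => hpi x a (Finset.ne_of_mem_erase hx))
  refine ⟨ε, fun a a' => ?_, hpi, hone⟩
  by_cases h : a = a'
  · subst h
    have h1 : ε a = (ε a - 1) + 1 := by ring
    rw [h1]
    exact Valuation.map_add_le _ ((hone a).trans (H.val_pi_lt a).le) (by rw [map_one])
  · exact (hpi a a' h).trans (H.val_pi_lt a').le

/-- **[RAM-N] (CRT)** the Chinese remainder theorem modulo `ϖ`, in valuation form. -/
theorem exists_approx_val (H : Hyp E₀ V ϖ e f u δ b) (z : κ → E)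
    (hz : ∀ a, (V a).valuation (z a) ≤ 1) :
    ∃ y : E, ∀ a, (V a).valuation (y - z a) ≤ (V a).valuation (algebraMap V₀ E ϖ) := by
  classical
  obtain ⟨ε, hε1, hεpi, hεone⟩ := H.exists_idem
  choose N hN using fun a => H.exists_pow_mul_mem (z a)
  set M := 1 + ∑ a, N a with hM
  refine ⟨∑ a, ε a ^ M * z a, fun a' => ?_⟩
  rw [← Finset.add_sum_erase Finset.univ _ (Finset.mem_univ a')]
  have h1 : (V a').valuation (ε a' ^ M * z a' - z a')
      ≤ (V a').valuation (algebraMap V₀ E ϖ) := by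
    have h : ε a' ^ M * z a' - z a' =
        (ε a' - 1) * ((∑ i ∈ Finset.range M, ε a' ^ i) * z a') := by
      rw [← mul_assoc, mul_comm (ε a' - 1), geom_sum_mul]
      ring
    rw [h, map_mul]
    refine (mul_le_of_le_one_right' ?_).trans (hεone a')
    rw [map_mul]
    refine mul_le_one' (Valuation.map_sum_le _ (fun i _ => ?_)) (hz a')
    rw [map_pow]
    exact pow_le_one' (hε1 a' a') i
  have h2 : (V a').valuation (∑ x ∈ Finset.univ.erase a', ε x ^ M * z x)
      ≤ (V a').valuation (algebraMap V₀ E ϖ) := by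
    refine Valuation.map_sum_le _ (fun x hx => ?_)
    have hxa : x ≠ a' := Finset.ne_of_mem_erase hx
    obtain ⟨t, ht, hxt⟩ := (le_iff_exists_mul (V a') H.pi_ne).mp (hεpi x a' hxa)
    have hNle : N x + 1 ≤ M := by
      have h3 := Finset.single_le_sum (f := N) (fun i _ => Nat.zero_le _) (Finset.mem_univ x)
      omega
    obtain ⟨k, hk⟩ := Nat.exists_eq_add_of_le hNle
    have h4 : ε x ^ M * z x = algebraMap V₀ E ϖ *
        (t ^ M * algebraMap V₀ E ϖ ^ k * (algebraMap V₀ E ϖ ^ N x * z x)) := by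
      rw [hxt, hk, mul_pow]
      ring
    rw [h4, map_mul]
    refine mul_le_of_le_one_right' ?_
    rw [map_mul, map_mul, map_pow, map_pow]
    exact mul_le_one' (mul_le_one'
      (pow_le_one' ((ValuationSubring.valuation_le_one_iff _ _).mpr ht) _)
      (pow_le_one' (H.val_pi_lt a').le _)) (hN x a')
  have h5 : ε a' ^ M * z a' + ∑ x ∈ Finset.univ.erase a', ε x ^ M * z x - z a' =
      (ε a' ^ M * z a' - z a') + ∑ x ∈ Finset.univ.erase a', ε x ^ M * z x := by ring
  rw [h5]
  exact Valuation.map_add_le _ h1 h2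

/-- **[RAM-N] (expansion)** `V a / ϖ` is spanned over `V₀` by `δ a ^ k * b a i`. -/
theorem exists_expand_val (H : Hyp E₀ V ϖ e f u δ b) (a : κ) {z : E}
    (hz : (V a).valuation z ≤ 1) :
    ∃ c : Fin (e a) × Fin (f a) → V₀,
      (V a).valuation (z - ∑ r, algebraMap V₀ E (c r) * (δ a ^ (r.1 : ℕ) * b a r.2))
        ≤ (V a).valuation (algebraMap V₀ E ϖ) := by
  classical
  set zz : κ → E := fun a' => if a' = a then u a * z else 0 with hzz
  have hzz1 : ∀ a', (V a').valuation (zz a') ≤ 1 := by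
    intro a'
    by_cases h : a' = a
    · subst h
      simp only [hzz, if_true, map_mul, H.val_u, one_mul]
      exact hz
    · simp only [hzz, if_neg h, map_zero]
      exact zero_le
  obtain ⟨y, hy⟩ := H.exists_approx_val zz hzz1
  have hyV : ∀ a', y ∈ V a' := by
    intro a'
    rw [← ValuationSubring.valuation_le_one_iff]
    have h1 : y = (y - zz a') + zz a' := by ring
    rw [h1]
    exact Valuation.map_add_le _ ((hy a').trans (H.val_pi_lt a').le) (hzz1 a')
  obtain ⟨c, hc⟩ := H.exists_repr hyV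
  refine ⟨fun r => c ⟨a, r⟩, ?_⟩
  have h1 := hy a
  simp only [hzz, if_true] at h1
  rw [hc, sum_fam_eq, ← Finset.add_sum_erase Finset.univ _ (Finset.mem_univ a)] at h1
  set S := ∑ r : Fin (e a) × Fin (f a),
    algebraMap V₀ E (c ⟨a, r⟩) * (δ a ^ (r.1 : ℕ) * b a r.2) with hS
  set Q := ∑ x ∈ Finset.univ.erase a, u x * ∑ r : Fin (e x) × Fin (f x),
    algebraMap V₀ E (c ⟨x, r⟩) * (δ x ^ (r.1 : ℕ) * b x r.2) with hQ
  have h2 : (V a).valuation Q ≤ (V a).valuation (algebraMap V₀ E ϖ) :=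
    Valuation.map_sum_le _ (fun x hx => H.val_part_pi c (Finset.ne_of_mem_erase hx))
  have h3 : (V a).valuation (u a * (z - S)) ≤ (V a).valuation (algebraMap V₀ E ϖ) := by
    have h4 : u a * (z - S) = Q - (u a * S + Q - u a * z) := by ring
    rw [h4]
    exact Valuation.map_sub_le _ h2 h1
  rwa [map_mul, H.val_u, one_mul] at h3

/-- Splitting an expansion into its `k = 0` part and the rest. -/
theorem expand_split (H : Hyp E₀ V ϖ e f u δ b) (a : κ) (c : Fin (e a) × Fin (f a) → V₀) :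
    ∃ R : E, (V a).valuation R ≤ (V a).valuation (δ a) ∧
      ∑ r, algebraMap V₀ E (c r) * (δ a ^ (r.1 : ℕ) * b a r.2) =
        ∑ i, algebraMap V₀ E (c (⟨0, H.epos a⟩, i)) * b a i + R := by
  classical
  set k0 : Fin (e a) := ⟨0, H.epos a⟩ with hk0
  refine ⟨∑ k ∈ Finset.univ.erase k0, ∑ i, algebraMap V₀ E (c (k, i)) *
    (δ a ^ (k : ℕ) * b a i), ?_, ?_⟩
  · refine Valuation.map_sum_le _ (fun k hk => Valuation.map_sum_le _ (fun i _ => ?_))
    have hkne : (k : ℕ) ≠ 0 := fun h => Finset.ne_of_mem_erase hk (Fin.ext h)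
    rw [map_mul, map_mul, map_pow]
    calc (V a).valuation (algebraMap V₀ E (c (k, i))) *
          ((V a).valuation (δ a) ^ (k : ℕ) * (V a).valuation (b a i))
        ≤ (V a).valuation (δ a) ^ (k : ℕ) * (V a).valuation (b a i) :=
          mul_le_of_le_one_left' (H.val_le a _)
      _ ≤ (V a).valuation (δ a) ^ (k : ℕ) := mul_le_of_le_one_right' (H.val_b_le a i a)
      _ ≤ (V a).valuation (δ a) := pow_le_of_le_one zero_le (H.val_δ_le a a) hkne
  · rw [Fintype.sum_prod_type, ← Finset.add_sum_erase Finset.univ _ (Finset.mem_univ k0)]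
    congr 1
    apply Finset.sum_congr rfl
    intro i _
    simp [hk0]

/-- **[RAM-N] (`f` exact)** the residue field of `V a` is spanned by the residues of `b a i`. -/
theorem exists_residue (H : Hyp E₀ V ϖ e f u δ b) (a : κ) {z : E} (hz : z ∈ V a) :
    ∃ c : Fin (f a) → V₀, z - ∑ i, algebraMap V₀ E (c i) * b a i ∈ (V a).nonunits := by
  obtain ⟨c, hc⟩ := H.exists_expand_val a ((ValuationSubring.valuation_le_one_iff _ _).mpr hz)
  obtain ⟨R, hR, hsplit⟩ := H.expand_split a c
  refine ⟨fun i => c (⟨0, H.epos a⟩, i), (ValuationSubring.mem_nonunits_iff _).mpr ?_⟩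
  have h1 : z - ∑ i, algebraMap V₀ E (c (⟨0, H.epos a⟩, i)) * b a i =
      (z - ∑ r, algebraMap V₀ E (c r) * (δ a ^ (r.1 : ℕ) * b a r.2)) + R := by
    rw [hsplit]
    ring
  rw [h1]
  exact Valuation.map_add_lt _ (lt_of_le_of_lt hc (H.val_pi_lt a))
    (lt_of_le_of_lt hR (H.val_δ_lt a))

/-- **[RAM-N] (`e` exact, uniformizer)** the maximal ideal of `V a` is generated by `δ a`. -/
theorem exists_eq_delta_mul (H : Hyp E₀ V ϖ e f u δ b) (a : κ) {z : E}
    (hz : z ∈ (V a).nonunits) : ∃ y ∈ V a, z = δ a * y := by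
  have hz' : (V a).valuation z < 1 := (ValuationSubring.mem_nonunits_iff _).mp hz
  obtain ⟨c, hc⟩ := H.exists_expand_val a hz'.le
  obtain ⟨R, hR, hsplit⟩ := H.expand_split a c
  set T := ∑ i, algebraMap V₀ E (c (⟨0, H.epos a⟩, i)) * b a i with hT
  set S := ∑ r, algebraMap V₀ E (c r) * (δ a ^ (r.1 : ℕ) * b a r.2) with hS
  have h0 : (V a).valuation T < 1 := by
    have h1 : T = (z - (z - S)) - R := by rw [hsplit]; ring
    rw [h1]
    refine Valuation.map_sub_lt _ (Valuation.map_sub_lt _ hz' ?_) (lt_of_le_of_lt hR (H.val_δ_lt a))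
    exact lt_of_le_of_lt hc (H.val_pi_lt a)
  have hdiv := H.ind a (fun i => c (⟨0, H.epos a⟩, i)) ((ValuationSubring.mem_nonunits_iff _).mpr h0)
  have hT' : (V a).valuation T ≤ (V a).valuation (δ a) := by
    refine Valuation.map_sum_le _ (fun i _ => ?_)
    rw [map_mul]
    exact ((mul_le_of_le_one_right' (H.val_b_le a i a)).trans
      (H.val_dvd a (hdiv i))).trans (H.val_pi_le_δ a)
  have hzδ : (V a).valuation z ≤ (V a).valuation (δ a) := by
    have h1 : z = (z - S) + (T + R) := by rw [hsplit]; ring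
    rw [h1]
    exact Valuation.map_add_le _ (hc.trans (H.val_pi_le_δ a)) (Valuation.map_add_le _ hT' hR)
  exact (le_iff_exists_mul (V a) (H.δ_ne a)).mp hzδ

/-- **[RAM-N] (integral closure)** `⋂ a, V a` is the integral closure of `V₀` in `E`. -/
theorem isIntegral_iff (H : Hyp E₀ V ϖ e f u δ b) {z : E} :
    IsIntegral V₀ z ↔ ∀ a, z ∈ V a := by
  constructor
  · intro hz a
    rw [← ValuationSubring.valuation_le_one_iff]
    exact TwoVal.val_le_one_of_isIntegral _ (H.val_le a) hz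
  · intro hz
    let S : Subalgebra V₀ E :=
      { carrier := {z | ∀ a, z ∈ V a}
        mul_mem' := fun hx hy a => (V a).mul_mem _ _ (hx a) (hy a)
        one_mem' := fun a => (V a).one_mem
        add_mem' := fun hx hy a => (V a).add_mem _ _ (hx a) (hy a)
        zero_mem' := fun a => (V a).zero_mem
        algebraMap_mem' := fun c a => H.le a c }
    have hfg : S.toSubmodule.FG := by
      have h1 : S.toSubmodule = Submodule.span V₀ (Set.range (fam (e := e) u δ b)) := by
        apply le_antisymm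
        · intro x hx
          obtain ⟨c, hc⟩ := H.exists_repr (z := x) hx
          rw [hc]
          refine Submodule.sum_mem _ (fun j _ => ?_)
          rw [← Algebra.smul_def]
          exact Submodule.smul_mem _ _ (Submodule.subset_span ⟨j, rfl⟩)
        · rw [Submodule.span_le]
          rintro _ ⟨j, rfl⟩ a
          exact (ValuationSubring.valuation_le_one_iff _ _).mp (H.val_fam_le j a)
      rw [h1]
      exact Submodule.fg_span (Set.finite_range _)
    exact IsIntegral.of_mem_of_fg S hfg z hz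

/-! ### Membership forms -/

/-- **[RAM-N] (independence modulo `ϖ`)** -/
theorem dvd_of_repr (H : Hyp E₀ V ϖ e f u δ b) (c : (Σ a, Fin (e a) × Fin (f a)) → V₀)
    (hc : ∀ a, ∃ t ∈ V a, ∑ j, algebraMap V₀ E (c j) * fam u δ b j = algebraMap V₀ E ϖ * t) :
    ∀ j, ϖ ∣ c j :=
  H.dvd_of_val c (fun a => (le_iff_exists_mul (V a) H.pi_ne).mpr (hc a))

/-- **[RAM-N] (CRT modulo `ϖ`)** -/
theorem exists_approx (H : Hyp E₀ V ϖ e f u δ b) (z : κ → E) (hz : ∀ a, z a ∈ V a) :
    ∃ y : E, (∀ a, y ∈ V a) ∧ ∀ a, ∃ t ∈ V a, y - z a = algebraMap V₀ E ϖ * t := by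
  obtain ⟨y, hy⟩ := H.exists_approx_val z
    (fun a => (ValuationSubring.valuation_le_one_iff _ _).mpr (hz a))
  refine ⟨y, fun a => ?_, fun a => (le_iff_exists_mul (V a) H.pi_ne).mp (hy a)⟩
  rw [← ValuationSubring.valuation_le_one_iff]
  have h1 : y = (y - z a) + z a := by ring
  rw [h1]
  exact Valuation.map_add_le _ ((hy a).trans (H.val_pi_lt a).le)
    ((ValuationSubring.valuation_le_one_iff _ _).mpr (hz a))

/-- **[RAM-N] (expansion modulo `ϖ`)** -/
theorem exists_expand (H : Hyp E₀ V ϖ e f u δ b) (a : κ) {z : E} (hz : z ∈ V a) :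
    ∃ c : Fin (e a) × Fin (f a) → V₀, ∃ t ∈ V a,
      z = ∑ r, algebraMap V₀ E (c r) * (δ a ^ (r.1 : ℕ) * b a r.2) + algebraMap V₀ E ϖ * t := by
  obtain ⟨c, hc⟩ := H.exists_expand_val a ((ValuationSubring.valuation_le_one_iff _ _).mpr hz)
  obtain ⟨t, ht, h⟩ := (le_iff_exists_mul (V a) H.pi_ne).mp hc
  exact ⟨c, t, ht, by rw [← h]; ring⟩

/-- The trivial half of `⋂ ϖ V a = ϖ ⋂ V a`. -/
theorem exists_eq_pi_mul (H : Hyp E₀ V ϖ e f u δ b) {z : E}
    (hz : ∀ a, ∃ t ∈ V a, z = algebraMap V₀ E ϖ * t) :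
    ∃ t, (∀ a, t ∈ V a) ∧ z = algebraMap V₀ E ϖ * t := by
  refine ⟨z / algebraMap V₀ E ϖ, fun a => ?_, by field_simp [H.pi_ne]⟩
  obtain ⟨t, ht, h⟩ := hz a
  rw [h, mul_div_cancel_left₀ _ H.pi_ne]
  exact ht

end Hyp

end Global

end Fermat.Agent.S36.RamN
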