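/-
S36 — Set3.lean (helper30), package [MODEL3], leaf [M3.4b] "ResDeg3".

**The modular instance of the `n`-valuation setting with ramification** (`S36.RamN.Hyp`, helper48)
at level `N = M * q * q` (`q` prime, `q ∤ M`), over the level-`M` Gauss valuation ring:

* `V₀ = V1(M)` (a discrete valuation ring, uniformizer `π`), `E₀ = F_K(M) ⊂ E = F_K(M q²)` of
  degree `q² + q`;
* `V = ![W1, W2, W3]`, `W1 = S34.GaussV.V1`, `W2 = W1.comap w_{q²}` (`S36.WQ2`), and `W3` an
  ABSTRACT valuation ring of `E` (in the application: the Gauss ring along the middle-cusp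
  embedding `ι3`) satisfying the five facts `W3Facts` below;
* `e = (1, 1, q - 1)` (`Model3Plan.ram q`), `f = (1, q * q, 1)`;
* `u = (x1, x2, x3)`, `δ = (π, π, s)`, `b = (1, (jqq ^ i)_{i < q * q}, 1)` — the explicit
  witnesses of `S36.Wit3` (helper128).

Consequences (`H := hyp3 …`):
* `isIntegralElem_of_mem` (INT3): `W1 ⊓ W2 ⊓ W3` is integral over `V1(M)`;
* `desc0`, `descInf`, `desc_J`, `desc_J_inv` : reducedness of the charts `chart j`, `chart j⁻¹`,
  `chart J`, `chart J⁻¹` (`J = j * jqq`) along `W1 ⊓ W2 ⊓ W3` (via `S36.Red3`), in the shape of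
  the `desc0` / `descInf` fields of `S36.AbsTopN.HypN`; `chartHyp3_desc` : the shape of the
  `desc` field of `S36.Model3Plan.ChartHyp3`;
* `hf1`, `hf2`, `hf3` : residue degrees (`1` on `W1` and `W3`: every element is congruent to a
  level-`M` element modulo the maximal ideal; `q * q` on `W2`);
* `exists_approx3` : the Chinese remainder theorem modulo `π` for the three rings.
-/
import Mathlib
import Fermat.Agent.S34.ResDeg
import Fermat.Agent.S36.RamN
import Fermat.Agent.S36.Wit3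
import Fermat.Agent.S36.Wit3Set
import Fermat.Agent.S34.Red2B
import Fermat.Agent.S36.Red3
import Fermat.Agent.S36.Model3Plan

set_option autoImplicit false
set_option linter.unusedSectionVars false
set_option linter.style.haveILetI false

noncomputable section

namespace Fermat.Agent.S36.Set3

open ModularCurve HahnSeries Fermat.Agent.S18 Fermat.Agent.S18.Arith Fermat.Agent.S18.ModelPlan
open Fermat.Agent.S34

variable (M q : ℕ) [NeZero M] [NeZero q] (hq : q.Prime) (hqM : ¬ q ∣ M)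
variable {A : ValuationSubring Qb} {K : IntermediateField ℚ Qb}
variable (hdvr : IsDiscreteValuationRing (OK A K))

/-! ### Generic facts on valuation subrings -/

section Generic

variable {E : Type*} [Field E]

theorem not_mem_nonunits_of_inv_mem (W : ValuationSubring E) {x : E} (hx0 : x ≠ 0)
    (hx' : x⁻¹ ∈ W) : x ∉ W.nonunits := by
  intro h
  rw [ValuationSubring.mem_nonunits_iff] at h
  have h1 : W.valuation x⁻¹ ≤ 1 := (W.valuation_le_one_iff _).mpr hx'
  rw [map_inv₀] at h1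
  have h2 : W.valuation x ≠ 0 := (Valuation.ne_zero_iff _).mpr hx0
  have h3 : 1 < (W.valuation x)⁻¹ := (one_lt_inv₀ (zero_lt_iff.mpr h2)).mpr h
  exact absurd h1 (not_le.mpr h3)

theorem inv_mem_of_not_mem_nonunits (W : ValuationSubring E) {x : E} (hx : x ∉ W.nonunits) :
    x⁻¹ ∈ W := by
  rw [ValuationSubring.mem_nonunits_iff, not_lt] at hx
  rw [← W.valuation_le_one_iff, map_inv₀]
  exact inv_le_one_of_one_le₀ hx

theorem mul_mem_nonunits_left (W : ValuationSubring E) {x y : E} (hx : x ∈ W.nonunits)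
    (hy : y ∈ W) : x * y ∈ W.nonunits := by
  rw [ValuationSubring.mem_nonunits_iff] at hx ⊢
  rw [map_mul]
  exact mul_lt_of_lt_of_le_one hx ((W.valuation_le_one_iff _).mpr hy)

theorem mem_of_mem_nonunits (W : ValuationSubring E) {x : E} (hx : x ∈ W.nonunits) : x ∈ W :=
  (W.valuation_le_one_iff _).mp ((ValuationSubring.mem_nonunits_iff _).mp hx).le

theorem pow_mem_nonunits (W : ValuationSubring E) {x : E} (hx : x ∈ W.nonunits) {n : ℕ}
    (hn : 0 < n) : x ^ n ∈ W.nonunits := by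
  obtain ⟨k, rfl⟩ : ∃ k, n = k + 1 := ⟨n - 1, by omega⟩
  rw [pow_succ']
  exact mul_mem_nonunits_left W hx (W.pow_mem (mem_of_mem_nonunits W hx) k)

theorem mem_nonunits_of_inv_not_mem (W : ValuationSubring E) {x : E} (hx : x ∈ W)
    (hx' : x⁻¹ ∉ W) : x ∈ W.nonunits := by
  rw [ValuationSubring.mem_nonunits_iff]
  have h1 : W.valuation x ≤ 1 := (W.valuation_le_one_iff _).mpr hx
  rcases lt_or_eq_of_le h1 with h | h
  · exact h
  · exfalso
    apply hx'
    rw [← W.valuation_le_one_iff, map_inv₀, h, inv_one]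

theorem not_mem_nonunits_of_mul_eq_one (W : ValuationSubring E) {x y : E} (hy : y ∈ W)
    (hxy : x * y = 1) : x ∉ W.nonunits := by
  intro h
  have h1 := mul_mem_nonunits_left W h hy
  rw [hxy, ValuationSubring.mem_nonunits_iff, map_one] at h1
  exact lt_irrefl _ h1

theorem forall_fin3 {P : Fin 3 → Prop} (h0 : P 0) (h1 : P 1) (h2 : P 2) : ∀ a, P a := by
  intro a
  fin_cases a
  · exact h0
  · exact h1
  · exact h2

end Generic

/-! ### The tower `V1(M) ⊆ F_K(M) ⊆ F_K(M q²)` -/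

/-- `M ∣ M * q * q`. -/
theorem dvd_level : M ∣ M * q * q := ⟨q * q, by ring⟩

/-- The algebra structure of `F_K(M q²)` over `F_K(M)` (`DegTower.algTower`; use with `letI`). -/
@[reducible] def algE : Algebra ↥(FK M K) ↥(FK (M * q * q) K) :=
  DegTower.algTower M (M * q * q) K (dvd_level M q)

/-- The algebra structure of `F_K(M q²)` over the level-`M` Gauss valuation ring, i.e.
`(Red3.intHom M (M * q * q) _ hdvr).toAlgebra` (use with `letI`). -/
@[reducible] def algV : Algebra ↥(GaussV.V1 M A K hdvr) ↥(FK (M * q * q) K) :=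
  (Red3.intHom M (M * q * q) (dvd_level M q) hdvr).toAlgebra

theorem algebraMap_V_apply (c : GaussV.V1 M A K hdvr) :
    letI := algV M q hdvr
    algebraMap ↥(GaussV.V1 M A K hdvr) ↥(FK (M * q * q) K) c
      = DegTower.incl M (M * q * q) K (dvd_level M q) (c : FK M K) := rfl

theorem coe_algebraMap_V (c : GaussV.V1 M A K hdvr) :
    letI := algV M q hdvr
    ((algebraMap ↥(GaussV.V1 M A K hdvr) ↥(FK (M * q * q) K) c : FK (M * q * q) K) :
        LaurentSeries Qb) = (((c : FK M K) : FK M K) : LaurentSeries Qb) :=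
  DegTower.coe_incl M (M * q * q) K (dvd_level M q) (c : FK M K)

theorem isScalarTower_V :
    letI := algE M q (K := K)
    letI := algV M q hdvr
    IsScalarTower ↥(GaussV.V1 M A K hdvr) ↥(FK M K) ↥(FK (M * q * q) K) := by
  letI := algE M q (K := K)
  letI := algV M q hdvr
  exact IsScalarTower.of_algebraMap_eq fun _ => rfl

/-- The inclusion of `DegTower` is `α ∘ α`. -/
theorem incl_eq (x : FK M K) :
    DegTower.incl M (M * q * q) K (dvd_level M q) x = WQ2.alphaK2 M q K (WK.alphaK M q K x) := by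
  apply Subtype.ext
  rw [DegTower.coe_incl, WQ2.coe_alphaK2, WK.coe_alphaK]

/-- The image of the uniformizer of `V1(M)` is `π`. -/
theorem algebraMap_piV1 (π : OK A K) :
    letI := algV M q hdvr
    algebraMap ↥(GaussV.V1 M A K hdvr) ↥(FK (M * q * q) K) (GaussV.piV1 hdvr π)
      = algebraMap (OK A K) (FK (M * q * q) K) π :=
  Red3.incl_algebraMap M (M * q * q) (dvd_level M q) π

/-- `w_{q²}` of a level-`M` element is its `β ∘ β`. -/
theorem wK2_algebraMap_V (c : GaussV.V1 M A K hdvr) :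
    letI := algV M q hdvr
    WQ2.wK2 M q hq hqM K (algebraMap ↥(GaussV.V1 M A K hdvr) ↥(FK (M * q * q) K) c)
      = WQ2.betaK2 M q hq hqM K (WK.betaK M q hq hqM K (c : FK M K)) := by
  letI := algV M q hdvr
  rw [algebraMap_V_apply, incl_eq, WQ2.wK2_alphaK2, WK.wK_alphaK]

/-! ### Level-`M` elements in `W1` and `W2` -/

/-- `V1(M) ⊆ W1`. -/
theorem algebraMap_mem_V1 (c : GaussV.V1 M A K hdvr) :
    letI := algV M q hdvr
    algebraMap ↥(GaussV.V1 M A K hdvr) ↥(FK (M * q * q) K) c ∈ GaussV.V1 (M * q * q) A K hdvr := by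
  letI := algV M q hdvr
  obtain ⟨y, hy⟩ := (GaussV.mem_V1_iff hdvr).mp c.2
  refine (GaussV.mem_V1_iff hdvr).mpr ⟨y, ?_⟩
  rw [coe_algebraMap_V]
  exact hy

/-- The Gauss relation of a level-`M` element at level `M q²`. -/
theorem gRel_algebraMap_V (c : GaussV.V1 M A K hdvr) :
    letI := algV M q hdvr
    GRel A ((algebraMap ↥(GaussV.V1 M A K hdvr) ↥(FK (M * q * q) K) c : FK (M * q * q) K) :
      LaurentSeries Qb) (GaussV.red1 hdvr c) := by
  letI := algV M q hdvr
  rw [coe_algebraMap_V]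
  exact GaussV.gRel_red1 hdvr c

/-- The Gauss relation for `w_{q²}` of a level-`M` element: `β β c = c(Q^{q²})`. -/
theorem gRel_wK2_algebraMap_V (c : GaussV.V1 M A K hdvr) :
    letI := algV M q hdvr
    GRel A ((WQ2.wK2 M q hq hqM K (algebraMap ↥(GaussV.V1 M A K hdvr) ↥(FK (M * q * q) K) c) :
      FK (M * q * q) K) : LaurentSeries Qb)
      (qExpand (IsLocalRing.ResidueField A) q
        (qExpand (IsLocalRing.ResidueField A) q (GaussV.red1 hdvr c))) := by
  letI := algV M q hdvr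
  rw [wK2_algebraMap_V, WQ2.coe_betaK2, WK.coe_betaK]
  exact V12Rel.gRel_qExpand A q (V12Rel.gRel_qExpand A q (GaussV.gRel_red1 hdvr c))

/-- `V1(M) ⊆ W2`. -/
theorem algebraMap_mem_V2 (c : GaussV.V1 M A K hdvr) :
    letI := algV M q hdvr
    algebraMap ↥(GaussV.V1 M A K hdvr) ↥(FK (M * q * q) K) c
      ∈ GaussV.V2 (WQ2.wK2 M q hq hqM K) hdvr := by
  letI := algV M q hdvr
  exact (GaussV.mem_V2_iff _ hdvr).mpr
    ((GaussV.mem_V1_iff hdvr).mpr ⟨_, gRel_wK2_algebraMap_V M q hq hqM hdvr c⟩)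

/-! ### The degree `[F_K(M q²) : F_K(M)] = q² + q` -/

include hq hqM in
theorem finrank_eq :
    letI := algE M q (K := K)
    Module.finrank ↥(FK M K) ↥(FK (M * q * q) K) = q * q + q := by
  letI := algE M q (K := K)
  have h1 := DegTower.psi_mul_finrank M (M * q * q) K (dvd_level M q)
  have hMq : M * q ≠ 0 := Nat.mul_ne_zero (NeZero.ne M) (NeZero.ne q)
  have hψ1 : dedekindPsi (M * q * q) = q * dedekindPsi (M * q) := by
    rw [mul_comm (M * q) q]
    exact Fermat.Agent.S20.CosetModel.dedekindPsi_prime_mul_of_dvd q (M * q) hq hMq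
      (dvd_mul_left q M)
  have hψ2 : dedekindPsi (M * q) = (q + 1) * dedekindPsi M := by
    rw [mul_comm M q]
    exact Fermat.Agent.S20.CosetModel.dedekindPsi_prime_mul_of_not_dvd q M hq (NeZero.ne M) hqM
  have hpos : 0 < dedekindPsi M := Fermat.Agent.S24.AnDegree.dedekindPsi_pos M
  have h3 : dedekindPsi M * Module.finrank ↥(FK M K) ↥(FK (M * q * q) K)
      = dedekindPsi M * (q * q + q) := by
    rw [h1, hψ1, hψ2]; ring
  exact Nat.eq_of_mul_eq_mul_left hpos h3

/-! ### Independence modulo the maximal ideals of `W1`, `W2` -/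

theorem dvd_of_red1_eq_zero {π : OK A K} (hπ : Irreducible π) (c : GaussV.V1 M A K hdvr)
    (h : GaussV.red1 hdvr c = 0) : GaussV.piV1 hdvr π ∣ c := by
  have h2 : c ∈ RingHom.ker (GaussV.red1 (N := M) hdvr) := h
  rw [GaussV.ker_red1 hdvr hπ, Ideal.mem_span_singleton] at h2
  exact h2

/-- Residue degree `≥ 1` along `W1`. -/
theorem ind_V1 {π : OK A K} (hπ : Irreducible π) (c : GaussV.V1 M A K hdvr)
    (h : letI := algV M q hdvr
      algebraMap ↥(GaussV.V1 M A K hdvr) ↥(FK (M * q * q) K) c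
        ∈ (GaussV.V1 (M * q * q) A K hdvr).nonunits) :
    GaussV.piV1 hdvr π ∣ c := by
  letI := algV M q hdvr
  rw [ValuationSubring.mem_nonunits_iff] at h
  have h0 := Red2B.gRel_zero_of_val1_lt hdvr h
  rw [coe_algebraMap_V] at h0
  exact dvd_of_red1_eq_zero M hdvr hπ c
    ((GRel.gRelStatement A).unique _ _ _ (GaussV.gRel_red1 hdvr c) h0)

/-- The Gauss relation for `w_{q²}` of a level-`M` element, reduction `c̄(Q^(q*q))`. -/
theorem gRel_wK2_algebraMap_V' (c : GaussV.V1 M A K hdvr) :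
    letI := algV M q hdvr
    haveI : Fact q.Prime := ⟨hq⟩
    GRel A ((WQ2.wK2 M q hq hqM K (algebraMap ↥(GaussV.V1 M A K hdvr) ↥(FK (M * q * q) K) c) :
      FK (M * q * q) K) : LaurentSeries Qb)
      (qExpand (IsLocalRing.ResidueField A) (q * q) (GaussV.red1 hdvr c)) := by
  letI := algV M q hdvr
  haveI : Fact q.Prime := ⟨hq⟩
  have h := gRel_wK2_algebraMap_V M q hq hqM hdvr c
  rwa [← Wit3.qExpand_qq] at h

/-- Residue degree `≥ q²` along `W2`: `1, jqq, …, jqq^(q*q-1)` are independent modulo `𝔪(W2)`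
over `V1(M)` modulo `π`. -/
theorem ind_V2 {π : OK A K} (hπ : Irreducible π) (c : Fin (q * q) → GaussV.V1 M A K hdvr)
    (h : letI := algV M q hdvr
      ∑ i : Fin (q * q), algebraMap ↥(GaussV.V1 M A K hdvr) ↥(FK (M * q * q) K) (c i) *
        WQ2.jqqK2 M q hq hqM K ^ (i : ℕ) ∈ (GaussV.V2 (WQ2.wK2 M q hq hqM K) hdvr).nonunits) :
    ∀ i, GaussV.piV1 hdvr π ∣ c i := by
  letI := algV M q hdvr
  haveI : Fact q.Prime := ⟨hq⟩
  have hG := GRel.gRelStatement A
  rw [ValuationSubring.mem_nonunits_iff] at h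
  have hc' := (Red2B.val_comap_lt_one_iff (GaussV.V1 (M * q * q) A K hdvr)
    (WQ2.wK2 M q hq hqM K) _).mp h
  have hg0 := Red2B.gRel_zero_of_val1_lt hdvr hc'
  have hcoe : ((WQ2.wK2 M q hq hqM K (∑ i : Fin (q * q),
      algebraMap ↥(GaussV.V1 M A K hdvr) ↥(FK (M * q * q) K) (c i) *
        WQ2.jqqK2 M q hq hqM K ^ (i : ℕ)) : FK (M * q * q) K) : LaurentSeries Qb)
      = ∑ i : Fin (q * q), ((WQ2.wK2 M q hq hqM K
          (algebraMap ↥(GaussV.V1 M A K hdvr) ↥(FK (M * q * q) K) (c i)) : FK (M * q * q) K) :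
            LaurentSeries Qb) * jqModC Qb ^ (i : ℕ) := by
    rw [map_sum, AddSubmonoidClass.coe_finsetSum]
    refine Finset.sum_congr rfl fun i _ => ?_
    rw [map_mul, map_pow, WQ2.wK2_jqqK2, Subfield.coe_mul, SubmonoidClass.coe_pow,
      ModelQFrac.coe_jK]
  rw [hcoe] at hg0
  have hg1 : GRel A (∑ i : Fin (q * q), ((WQ2.wK2 M q hq hqM K
          (algebraMap ↥(GaussV.V1 M A K hdvr) ↥(FK (M * q * q) K) (c i)) : FK (M * q * q) K) :
            LaurentSeries Qb) * jqModC Qb ^ (i : ℕ))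
      (∑ i : Fin (q * q), qExpand (IsLocalRing.ResidueField A) (q * q)
        (GaussV.red1 hdvr (c i)) * jqModC (IsLocalRing.ResidueField A) ^ (i : ℕ)) :=
    Red2B.gRel_sum _ _ _ fun i _ => hG.mul _ _ _ _
      (gRel_wK2_algebraMap_V' M q hq hqM hdvr (c i)) (V12Rel.gRel_pow A (V12Rel.gRel_j A) i)
  have hsum := hG.unique _ _ _ hg1 hg0
  have hzero := Red2Alg.eq_zero_of_sum_mul_pow_eq_zero (q * q)
    (jqModC (IsLocalRing.ResidueField A)) (SepDeg.order_jqModC _)
    (fun i => qExpand (IsLocalRing.ResidueField A) (q * q) (GaussV.red1 hdvr (c i)))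
    (fun i n hn => by
      by_contra hdiv
      exact hn (qExpand_coeff_of_not_dvd (q * q) _ hdiv)) hsum
  intro i
  exact dvd_of_red1_eq_zero M hdvr hπ (c i)
    (qExpand_injective (q * q) (by rw [hzero i, map_zero]))

/-- Residue degree `≥ 1` along any valuation ring `W ⊇ V1(M)`. -/
theorem ind_W {π : OK A K} (hπ : Irreducible π) (W : ValuationSubring ↥(FK (M * q * q) K))
    (hle : ∀ x ∈ GaussV.V1 M A K hdvr, DegTower.incl M (M * q * q) K (dvd_level M q) x ∈ W)
    (c : GaussV.V1 M A K hdvr)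
    (h : letI := algV M q hdvr
      algebraMap ↥(GaussV.V1 M A K hdvr) ↥(FK (M * q * q) K) c ∈ W.nonunits) :
    GaussV.piV1 hdvr π ∣ c := by
  letI := algV M q hdvr
  haveI := GaussV.isDiscreteValuationRing_V1 (N := M) hdvr
  by_contra hnd
  have hunit : IsUnit c := by
    by_contra hnu
    have hm : c ∈ IsLocalRing.maximalIdeal ↥(GaussV.V1 M A K hdvr) :=
      (IsLocalRing.mem_maximalIdeal _).mpr hnu
    rw [GaussV.maximalIdeal_V1 hdvr hπ, Ideal.mem_span_singleton] at hm
    exact hnd hm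
  obtain ⟨d, hd⟩ := hunit.exists_right_inv
  refine not_mem_nonunits_of_mul_eq_one W (hle d d.2) ?_ h
  have h1 := congrArg (algebraMap ↥(GaussV.V1 M A K hdvr) ↥(FK (M * q * q) K)) hd
  rw [map_mul, map_one] at h1
  exact h1

/-! ### The three rings, the invariants and the witnesses -/

/-- The three valuation rings `W1`, `W2`, `W3` (`W3` abstract). -/
def Vfam (W3 : ValuationSubring ↥(FK (M * q * q) K)) :
    Fin 3 → ValuationSubring ↥(FK (M * q * q) K) :=
  ![GaussV.V1 (M * q * q) A K hdvr, GaussV.V2 (WQ2.wK2 M q hq hqM K) hdvr, W3]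

/-- Residue degrees `f = (1, q * q, 1)`. -/
def f3 (q : ℕ) : Fin 3 → ℕ := ![1, q * q, 1]

/-- `u = (x1, x2, x3)`. -/
def uFam (K : IntermediateField ℚ Qb) : Fin 3 → ↥(FK (M * q * q) K) :=
  ![Wit3.x1 M q hq hqM K, Wit3.x2 M q hq hqM K, Wit3.x3 M q hq hqM K]

/-- `δ = (π, π, s)`. -/
def dFam (π : OK A K) : Fin 3 → ↥(FK (M * q * q) K) :=
  ![algebraMap (OK A K) (FK (M * q * q) K) π, algebraMap (OK A K) (FK (M * q * q) K) π,
    Wit3.sE M q hq hqM K]

/-- `b = (1, (jqq ^ i)_{i < q * q}, 1)`. -/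
def bFam (K : IntermediateField ℚ Qb) : ∀ a : Fin 3, Fin (f3 q a) → ↥(FK (M * q * q) K) :=
  fun a i => if a = 1 then WQ2.jqqK2 M q hq hqM K ^ (i : ℕ) else 1

theorem bFam_zero (i : Fin (f3 q 0)) : bFam M q hq hqM K 0 i = 1 := if_neg (by decide)

theorem bFam_one (i : Fin (f3 q 1)) :
    bFam M q hq hqM K 1 i = WQ2.jqqK2 M q hq hqM K ^ (i : ℕ) := if_pos rfl

theorem bFam_two (i : Fin (f3 q 2)) : bFam M q hq hqM K 2 i = 1 := if_neg (by decide)

/-- **The facts on the third ring `W3`** consumed by the instance (in the application `W3` is the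
Gauss ring along the middle-cusp embedding; `V3` / `Wit3W3`). -/
structure W3Facts (π : OK A K) (W3 : ValuationSubring ↥(FK (M * q * q) K)) : Prop where
  /-- `V1(M) ⊆ W3` -/
  le : ∀ x ∈ GaussV.V1 M A K hdvr, DegTower.incl M (M * q * q) K (dvd_level M q) x ∈ W3
  /-- `x1 ∈ π W3` -/
  x1 : ∃ z ∈ W3, Wit3.x1 M q hq hqM K = algebraMap (OK A K) (FK (M * q * q) K) π * z
  /-- `x2 ∈ π W3` -/
  x2 : ∃ z ∈ W3, Wit3.x2 M q hq hqM K = algebraMap (OK A K) (FK (M * q * q) K) π * z
  /-- `x3` is a unit of `W3` -/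
  x3 : Wit3.x3 M q hq hqM K ∈ W3
  x3_ne : Wit3.x3 M q hq hqM K ≠ 0
  x3_inv : (Wit3.x3 M q hq hqM K)⁻¹ ∈ W3
  /-- `s` is in the maximal ideal of `W3` -/
  s : Wit3.sE M q hq hqM K ∈ W3
  s_inv : (Wit3.sE M q hq hqM K)⁻¹ ∉ W3
  /-- `π ∈ s ^ (q - 1) W3` -/
  s_pow : ∃ z ∈ W3,
    algebraMap (OK A K) (FK (M * q * q) K) π = Wit3.sE M q hq hqM K ^ (q - 1) * z
  /-- `jqq ∈ W3` -/
  jqq : WQ2.jqqK2 M q hq hqM K ∈ W3

/-- **The modular instance of `RamN.Hyp` at level `M q²`.** -/
theorem hyp3 (hA : A.LiesOverPrime q) {π : OK A K} (hπ : Irreducible π)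
    (W3 : ValuationSubring ↥(FK (M * q * q) K)) (h3 : W3Facts M q hq hqM hdvr π W3) :
    letI := algE M q (K := K)
    letI := algV M q hdvr
    haveI := GaussV.isDiscreteValuationRing_V1 (N := M) hdvr
    haveI := isScalarTower_V M q hdvr
    RamN.Hyp (V₀ := ↥(GaussV.V1 M A K hdvr)) ↥(FK M K) (Vfam M q hq hqM hdvr W3)
      (GaussV.piV1 hdvr π) (Model3Plan.ram q) (f3 q) (uFam M q hq hqM K) (dFam M q hq hqM π)
      (bFam M q hq hqM K) := by
  letI := algE M q (K := K)
  letI := algV M q hdvr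
  haveI := GaussV.isDiscreteValuationRing_V1 (N := M) hdvr
  haveI := isScalarTower_V M q hdvr
  haveI : Fact q.Prime := ⟨hq⟩
  have hq2 := hq.two_le
  have hpi : algebraMap ↥(GaussV.V1 M A K hdvr) ↥(FK (M * q * q) K) (GaussV.piV1 hdvr π)
      = algebraMap (OK A K) (FK (M * q * q) K) π := algebraMap_piV1 M q hdvr π
  -- `s ∈ 𝔪(W3)`, `π ∈ 𝔪(W i)`
  have hs3 : Wit3.sE M q hq hqM K ∈ W3.nonunits := mem_nonunits_of_inv_not_mem W3 h3.s h3.s_inv
  have hπ1 : algebraMap (OK A K) (FK (M * q * q) K) π ∈ (GaussV.V1 (M * q * q) A K hdvr).nonunits :=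
    Wit3Set.pi_nonunit1 M q A K hdvr hπ
  have hπ2 : algebraMap (OK A K) (FK (M * q * q) K) π
      ∈ (GaussV.V2 (WQ2.wK2 M q hq hqM K) hdvr).nonunits :=
    Wit3Set.pi_nonunit2 M q hq hqM A K hdvr hπ
  have hπ3 : algebraMap (OK A K) (FK (M * q * q) K) π ∈ W3.nonunits := by
    obtain ⟨z, hz, hπz⟩ := h3.s_pow
    rw [hπz]
    exact mul_mem_nonunits_left W3 (pow_mem_nonunits W3 hs3 (by omega)) hz
  have hπnon : ∀ a, algebraMap (OK A K) (FK (M * q * q) K) π
      ∈ (Vfam M q hq hqM hdvr W3 a).nonunits := forall_fin3 hπ1 hπ2 hπ3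
  have hπmem : ∀ a, algebraMap (OK A K) (FK (M * q * q) K) π ∈ Vfam M q hq hqM hdvr W3 a :=
    fun a => mem_of_mem_nonunits _ (hπnon a)
  -- the nine memberships `u a ∈ V a'` and the six divisibilities
  have hupi : ∀ a a', a ≠ a' → ∃ z ∈ Vfam M q hq hqM hdvr W3 a',
      uFam M q hq hqM K a = algebraMap (OK A K) (FK (M * q * q) K) π * z := by
    refine forall_fin3 (forall_fin3 ?_ ?_ ?_) (forall_fin3 ?_ ?_ ?_) (forall_fin3 ?_ ?_ ?_)
    · intro h; exact absurd rfl h
    · intro _; exact Wit3.x1_pi2 M q hq hqM A K hdvr hA hπ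
    · intro _; exact h3.x1
    · intro _; exact Wit3.x2_pi1 M q hq hqM A K hdvr hA hπ
    · intro h; exact absurd rfl h
    · intro _; exact h3.x2
    · intro _; exact Wit3.x3_pi1 M q hq hqM A K hdvr hA hπ
    · intro _; exact Wit3.x3_pi2 M q hq hqM A K hdvr hA hπ
    · intro h; exact absurd rfl h
  have huself : ∀ a, uFam M q hq hqM K a ∈ Vfam M q hq hqM hdvr W3 a :=
    forall_fin3 (Wit3.x1_unit1 M q hq hqM A K hdvr hA).1
      (Wit3.x2_unit2 M q hq hqM A K hdvr hA).1 h3.x3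
  have hu : ∀ a a', uFam M q hq hqM K a ∈ Vfam M q hq hqM hdvr W3 a' := by
    intro a a'
    by_cases haa : a = a'
    · subst haa; exact huself a
    · obtain ⟨z, hz, hz'⟩ := hupi a a' haa
      rw [hz']
      exact (Vfam M q hq hqM hdvr W3 a').mul_mem _ _ (hπmem a') hz
  -- `x1 ≠ 0`, `x2 ≠ 0`
  have hx1 : Wit3.x1 M q hq hqM K ≠ 0 := by
    intro h0
    have h1 : GRel A ((Wit3.x1 M q hq hqM K : FK (M * q * q) K) : LaurentSeries Qb)
        (Wit3.redX1 A q) := by rw [Wit3.coe_x1]; exact Wit3.gRel_x1 A q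
    exact Red2B.ne_zero_of_gRel h1 (Wit3.redX1_ne_zero A q hA) h0
  have hx2 : Wit3.x2 M q hq hqM K ≠ 0 := by
    rw [← Wit3.wK2_x1]
    exact (map_ne_zero _).mpr hx1
  refine
    { fin := DegTower.finiteDimensional M (M * q * q) K (dvd_level M q)
      deg := ?_
      irr := GaussV.irreducible_piV1 hdvr hπ
      epos := forall_fin3 Nat.one_pos Nat.one_pos (by show 0 < q - 1; omega)
      le := forall_fin3 (algebraMap_mem_V1 M q hdvr) (algebraMap_mem_V2 M q hq hqM hdvr)
        (fun c => h3.le c c.2)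
      pi := ?_
      hu := hu
      hu_unit := forall_fin3
        (not_mem_nonunits_of_inv_mem _ hx1 (Wit3.x1_unit1 M q hq hqM A K hdvr hA).2)
        (not_mem_nonunits_of_inv_mem _ hx2 (Wit3.x2_unit2 M q hq hqM A K hdvr hA).2)
        (not_mem_nonunits_of_inv_mem _ h3.x3_ne h3.x3_inv)
      hu_pi := ?_
      hδ := forall_fin3 hπmem hπmem
        (forall_fin3 (Wit3.s_unit1 M q hq hqM A K hdvr).1 (Wit3.s_unit2 M q hq hqM A K hdvr).1
          h3.s)
      hδ_non := forall_fin3 hπ1 hπ2 hs3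
      hδ_pi := ?_
      hb := ?_
      ind := ?_ }
  · -- deg
    rw [finrank_eq M q hq hqM, Fin.sum_univ_three]
    show q * q + q ≤ 1 * 1 + 1 * (q * q) + (q - 1) * 1
    generalize q * q = t
    omega
  · -- pi
    intro a
    rw [hpi]
    exact hπnon a
  · -- hu_pi
    intro a a' haa
    rw [hpi]
    exact hupi a a' haa
  · -- hδ_pi
    rw [hpi]
    refine forall_fin3 ⟨1, ValuationSubring.one_mem _, ?_⟩ ⟨1, ValuationSubring.one_mem _, ?_⟩
      h3.s_pow
    · show algebraMap (OK A K) (FK (M * q * q) K) π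
        = algebraMap (OK A K) (FK (M * q * q) K) π ^ 1 * 1
      rw [pow_one, mul_one]
    · show algebraMap (OK A K) (FK (M * q * q) K) π
        = algebraMap (OK A K) (FK (M * q * q) K) π ^ 1 * 1
      rw [pow_one, mul_one]
  · -- hb
    refine forall_fin3 ?_ ?_ ?_
    · intro i a'
      rw [bFam_zero]
      exact ValuationSubring.one_mem _
    · intro i
      rw [bFam_one]
      exact forall_fin3 (Wit3.b_mem1 M q hq hqM A K hdvr i) (Wit3.b_mem2 M q hq hqM A K hdvr i)
        (pow_mem h3.jqq i)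
    · intro i a'
      rw [bFam_two]
      exact ValuationSubring.one_mem _
  · -- ind
    have key1 : ∀ (W : ValuationSubring ↥(FK (M * q * q) K))
        (_ : ∀ c : GaussV.V1 M A K hdvr,
          algebraMap ↥(GaussV.V1 M A K hdvr) ↥(FK (M * q * q) K) c ∈ W.nonunits →
            GaussV.piV1 hdvr π ∣ c)
        (c' : Fin 1 → GaussV.V1 M A K hdvr),
        (∑ j : Fin 1, algebraMap ↥(GaussV.V1 M A K hdvr) ↥(FK (M * q * q) K) (c' j) * 1)
          ∈ W.nonunits → ∀ i, GaussV.piV1 hdvr π ∣ c' i := by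
      intro W hW c' h' i'
      rw [Fin.sum_univ_one, mul_one] at h'
      have hi : i' = 0 := Subsingleton.elim _ _
      rw [hi]
      exact hW _ h'
    refine forall_fin3 ?_ ?_ ?_
    · intro c h
      simp only [bFam_zero] at h
      exact key1 _ (fun c hc => ind_V1 M q hdvr hπ c hc) c h
    · intro c h
      simp only [bFam_one] at h
      exact ind_V2 M q hq hqM hdvr hπ c h
    · intro c h
      simp only [bFam_two] at h
      exact key1 _ (fun c hc => ind_W M q hdvr hπ W3 h3.le c hc) c h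

end Fermat.Agent.S36.Set3
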