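/-
S36 — Wit3W3Inst.lean (helper6; package [MODEL3], packaging leaf dealt by helper128).

The `W3`-side hypothesis structures of the two routes of the witness block at level
`N = M * q * q`, for the CONCRETE valuation ring `W3 := H.W3` of `S36/V3`
(`H : V3.Hyp3 …`, the Gauss ring along a middle-cusp embedding):

* `hyp3W`         : `Wit3Inst.Hyp3W M q hq hqM A K π H.W3`   (chart route, helper128);
* `w3Facts`       : `Set3.W3Facts M q hq hqM hdvr π H.W3`    (DVR route, helper30);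
* `hyp3W_iota3`, `w3Facts_iota3` : the closed forms for `H := V3.hyp3_iota3 …`
  (`Iota3.iota3` over `BaseXi.Kxi K ξ`, `π = q`).

Every field is one of the facts of helper119's `S36/V3Wit` (which discharges the abstract
`S36/Wit3W3` on `H.W3`).
-/
import Mathlib
import Fermat.Agent.S36.V3Wit
import Fermat.Agent.S36.Wit3Inst
import Fermat.Agent.S36.Set3

set_option autoImplicit false

noncomputable section

namespace Fermat.Agent.S36.Wit3W3Inst

open ModularCurve HahnSeries Fermat.Agent.S18.Arith Fermat.Agent.S18.ModelPlan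
open Fermat.Agent.S34 Fermat.Agent.S36

variable {M q : ℕ} [NeZero M] [NeZero q] {hq : q.Prime} {hqM : ¬ q ∣ M}
variable {A : ValuationSubring Qb} {K K' : IntermediateField ℚ Qb}
variable {ξ : Qb} {hξ0 : ξ ≠ 0} {ι : FK (M * q * q) K →+* LaurentSeries Qb} {ϖ : OK A K'}

/-- **`Wit3Inst.Hyp3W` on `H.W3`** (chart route). -/
theorem hyp3W (H : V3.Hyp3 M q hq hqM A K K' ξ hξ0 ι ϖ)
    (hdvr : IsDiscreteValuationRing (OK A K)) (hA : A.LiesOverPrime q)
    (hC : ChartFacts M A K (chart M A K (jK M K)) (jK M K))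
    {π : OK A K} (hπ : Irreducible π) (a : A) (hqa : (q : Qb) = incO A K π * (a : Qb))
    (hπϖ : ∃ u : A, IsUnit u ∧ incO A K π = incO A K' ϖ ^ (q - 1) * (u : Qb)) :
    Wit3Inst.Hyp3W M q hq hqM A K π H.W3 where
  le3 := V3Wit.le3 H hC
  ind3 := V3Wit.ind3 H hdvr hπ hC
  x1_pi3 := V3Wit.x1_pi3 H hdvr hA hπ a hqa
  x2_pi3 := V3Wit.x2_pi3 H hdvr hA hπ
  x3_unit3 := V3Wit.x3_unit3 H hA
  s_nonunit3 := V3Wit.s_nonunit3 H
  ram3 := V3Wit.ram3 H π hπϖ
  jqq_mem3 := (V3Wit.jqq_unit3 H).1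

/-- **`Set3.W3Facts` on `H.W3`** (DVR route). -/
theorem w3Facts (H : V3.Hyp3 M q hq hqM A K K' ξ hξ0 ι ϖ)
    (hdvr : IsDiscreteValuationRing (OK A K)) (hA : A.LiesOverPrime q)
    {π : OK A K} (hπ : Irreducible π) (a : A) (hqa : (q : Qb) = incO A K π * (a : Qb))
    (hπϖ : ∃ u : A, IsUnit u ∧ incO A K π = incO A K' ϖ ^ (q - 1) * (u : Qb)) :
    Set3.W3Facts M q hq hqM hdvr π H.W3 where
  le := fun x hx =>
    Wit3W3.le3 M q A K ι H.W3 (Set3.dvd_level M q) (V3Wit.hEinc H _) (V3Wit.hW3 H) x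
      ((GaussV.mem_V1_iff hdvr).mp hx)
  x1 := V3Wit.x1_pi3 H hdvr hA hπ a hqa
  x2 := V3Wit.x2_pi3 H hdvr hA hπ
  x3 := (V3Wit.x3_unit3 H hA).1
  x3_ne := V3Wit.x3_ne_zero H hA
  x3_inv := (V3Wit.x3_unit3 H hA).2
  s := (H.W3.valuation_le_one_iff _).mp
    (le_of_lt (H.W3.mem_nonunits_iff.mp (V3Wit.s_nonunit3 H)))
  s_inv := fun hinv => by
    have hs := V3Wit.s_nonunit3 H
    have hs0 : Wit3.sE M q hq hqM K ≠ 0 := by
      intro h0
      obtain ⟨z, -, -, hπz⟩ := V3Wit.ram3 H π hπϖ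
      have hq1 : q - 1 ≠ 0 := Nat.sub_ne_zero_of_lt hq.one_lt
      rw [h0, zero_pow hq1, zero_mul] at hπz
      exact GaussV.algebraMap_ne_zero (M * q * q) A K hπ.ne_zero hπz
    have h1 : H.W3.valuation (Wit3.sE M q hq hqM K) < 1 := H.W3.mem_nonunits_iff.mp hs
    have h2 : H.W3.valuation (Wit3.sE M q hq hqM K)⁻¹ ≤ 1 :=
      (H.W3.valuation_le_one_iff _).mpr hinv
    have h3 : H.W3.valuation (Wit3.sE M q hq hqM K) * H.W3.valuation (Wit3.sE M q hq hqM K)⁻¹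
        = 1 := by
      rw [← map_mul, mul_inv_cancel₀ hs0, map_one]
    have h4 : H.W3.valuation (Wit3.sE M q hq hqM K) * H.W3.valuation (Wit3.sE M q hq hqM K)⁻¹
        < 1 := lt_of_le_of_lt (mul_le_of_le_one_right' h2) h1
    exact absurd h3 (ne_of_lt h4)
  s_pow := by
    obtain ⟨z, hz, -, hπz⟩ := V3Wit.ram3 H π hπϖ
    exact ⟨z, hz, hπz⟩
  jqq := (V3Wit.jqq_unit3 H).1

/-! ### Closed forms for `Iota3.iota3` over `BaseXi.Kxi K ξ`, `π = q` -/

/-- **`Wit3Inst.Hyp3W`** for the middle-cusp embedding of record. -/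
theorem hyp3W_iota3 (M q : ℕ) [NeZero M] [NeZero q] (hq : q.Prime) (hqM : ¬ q ∣ M)
    (A : ValuationSubring Qb) (K : IntermediateField ℚ Qb)
    (hdvr : IsDiscreteValuationRing (OK A K)) (hA : A.LiesOverPrime q)
    (hC : ChartFacts M A K (chart M A K (jK M K)) (jK M K))
    (π : OK A K) (hπ : Irreducible π) (hπq : incO A K π = (q : Qb)) {ξ : Qb}
    (hξ : IsPrimitiveRoot ξ q) :
    Wit3Inst.Hyp3W M q hq hqM A K π (V3.hyp3_iota3 hq hqM A hdvr π hπ hπq hξ).W3 :=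
  hyp3W (V3.hyp3_iota3 hq hqM A hdvr π hπ hπq hξ) hdvr hA hC hπ 1
    (by rw [hπq, OneMemClass.coe_one, mul_one]) (BaseXi.exists_unit hq π hπ hπq hξ)

/-- **`Set3.W3Facts`** for the middle-cusp embedding of record. -/
theorem w3Facts_iota3 (M q : ℕ) [NeZero M] [NeZero q] (hq : q.Prime) (hqM : ¬ q ∣ M)
    (A : ValuationSubring Qb) (K : IntermediateField ℚ Qb)
    (hdvr : IsDiscreteValuationRing (OK A K)) (hA : A.LiesOverPrime q)
    (π : OK A K) (hπ : Irreducible π) (hπq : incO A K π = (q : Qb)) {ξ : Qb}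
    (hξ : IsPrimitiveRoot ξ q) :
    Set3.W3Facts M q hq hqM hdvr π (V3.hyp3_iota3 hq hqM A hdvr π hπ hπq hξ).W3 :=
  w3Facts (V3.hyp3_iota3 hq hqM A hdvr π hπ hπq hξ) hdvr hA hπ 1
    (by rw [hπq, OneMemClass.coe_one, mul_one]) (BaseXi.exists_unit hq π hπ hπq hξ)

end Fermat.Agent.S36.Wit3W3Inst

end
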