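import Mathlib
import Fermat.Agent.S18.FinalCore
import Fermat.Agent.S34.Red2B
import Fermat.Agent.S36.Cusp3Inst
import Fermat.Agent.S36.CuspMem
import Fermat.Agent.S36.ResDeg3Inst
import Fermat.Agent.S36.Wit3Inst
import Fermat.Agent.S36.Wit3W3Inst

/-!
# S36, [N10] (B-package): `princ` (B1) at the cuspidal closed points of `W3` — CLOSED form

OWNER: helper56.  `Cusp3Inst.cusp_inst` / `hcusp2` / `genAt_all` with both open inputs
discharged:

* (I1) `j_q / j ^ q`, `j_q / j_{q²} ^ q ∈ chart J3⁻¹`     : `CuspMem.v1_mem`, `CuspMem.v2_mem`;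
* the unit datum                                        : `CuspKS.exists_polys`, fed with
  `hf3_one` = residue degree one of `W3` over level ONE at level `1 · q²`
  (`ResDeg3Inst.hf3'` + `Wit3Inst.wit` + `Wit3W3Inst.hyp3W` at `M = 1`, for the middle-cusp
  embedding `Iota3.iota3 1 q K` with the SAME `ξ` as the given `H`).

What remains are the data of the model only: `H : V3.Hyp3 …` (any middle-cusp embedding at
level `M q²`), the base facts `hdvr`, `hA`, the level-one chart facts `hC₁`, the uniformizer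
`π` with `q = π · a` and `π = ϖ' ^ (q - 1) · unit`, and `ValHyp3` / `ChartHyp3` for data
`e ϖ V P` whose `V` is `(W1, W2, H.W3)`, `ϖ 2 = Wit3.sE`, `e 2 = q - 1`.

* `hf3_one`       : residue degree one of `W3` over level one (level `1 · q²`);
* `cusp_closed`   : one-branch + generator of `P 2` + `s · g ^ e 2 = π · t` at every prime
                    `n ∋ J3⁻¹` with `P 2 ≤ n` of the chart at infinity;
* `hcusp2_closed` : the field `hcusp2` of `Princ3Cases.princ_of_cases`, verbatim;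
* `genAt_closed`  : every height-one prime through such a closed point is principal there;
* `hcusp2_iota3`, `cusp_iota3` : the same for the embedding of record `V3.hyp3_iota3` and the
                    base `BaseFacts q A K`, `incO π = q`.
-/

set_option autoImplicit false

open ModularCurve AlgebraicCurve HahnSeries

namespace Fermat.Agent.S36.Cusp3Closed

open Fermat.Agent.S18 Fermat.Agent.S18.Arith Fermat.Agent.S34 Fermat.Agent.S36
  Fermat.Agent.S36.Model3Plan Fermat.Agent.S36.Cusp3Inst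

variable {M q : ℕ} [NeZero M] [NeZero q] {hq : q.Prime} {hqM : ¬ q ∣ M}
variable {A : ValuationSubring Qb} {K K' : IntermediateField ℚ Qb}
variable {ξ : Qb} {hξ0 : ξ ≠ 0} {ι : FK (M * q * q) K →+* LaurentSeries Qb} {ϖ' : OK A K'}

/-- **Residue degree one of `W3` over level ONE**, at level `1 · q²`, for the middle-cusp
embedding with the `ξ` of the given `H`. -/
theorem hf3_one (H : V3.Hyp3 M q hq hqM A K K' ξ hξ0 ι ϖ')
    (hdvr : IsDiscreteValuationRing (OK A K)) (hA : A.LiesOverPrime q)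
    (hC₁ : ChartFacts 1 A K (chart 1 A K (jK 1 K)) (jK 1 K))
    {π : OK A K} (hπ : Irreducible π) (a : A) (hqa : (q : Qb) = incO A K π * (a : Qb))
    (hπϖ : ∃ u : A, IsUnit u ∧ incO A K π = incO A K' ϖ' ^ (q - 1) * (u : Qb))
    (hq1 : ¬ q ∣ 1) :
    ∀ (x : FK (1 * q * q) K) (y : LaurentSeries (IsLocalRing.ResidueField A)),
      GRel A (Iota3.iota3 1 q K hq hq1 ξ H.xi_pow H.xi_ne x) y →
      ∃ x' : FK 1 K, GRel A ((x' : FK 1 K) : LaurentSeries Qb) y := by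
  have H₁ : V3.Hyp3 1 q hq hq1 A K K' ξ hξ0
      (Iota3.iota3 1 q K hq hq1 ξ H.xi_pow H.xi_ne) ϖ' :=
    ⟨V3.midEmb_iota3 1 q hq hq1 K ξ H.xi_pow H.xi_ne, H.le, H.xi_mem, H.xi_pow, H.xi_ne,
      H.dvr', H.irr, H.coe_unif⟩
  have hW := Wit3W3Inst.hyp3W H₁ hdvr hA hC₁ hπ a hqa hπϖ
  have W := Wit3Inst.wit 1 q hq hq1 A K hdvr hA hC₁ hπ H₁.W3 hW
  exact ResDeg3Inst.hf3' 1 q hq hdvr hπ hC₁ H₁.mid.alpha (fun _ => Iff.rfl) W

omit [NeZero M] [NeZero q] in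
/-- `π ≠ 0` in `F_K`. -/
theorem pi_ne_zero {π : OK A K} (hπ : Irreducible π) :
    algebraMap (OK A K) (FK (M * q * q) K) π ≠ 0 := fun h =>
  hπ.ne_zero (FinalCore.algebraMap_injective_OK (M * q * q) A K (by rw [h, map_zero]))

/-- The unit datum of `Cusp3Inst.cusp_inst`, closed. -/
theorem unit_datum (H : V3.Hyp3 M q hq hqM A K K' ξ hξ0 ι ϖ')
    (hdvr : IsDiscreteValuationRing (OK A K)) (hA : A.LiesOverPrime q)
    (hC₁ : ChartFacts 1 A K (chart 1 A K (jK 1 K)) (jK 1 K))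
    {π : OK A K} (hπ : Irreducible π) (a : A) (hqa : (q : Qb) = incO A K π * (a : Qb))
    (hπϖ : ∃ u : A, IsUnit u ∧ incO A K π = incO A K' ϖ' ^ (q - 1) * (u : Qb)) :
    CuspKS.uK M q hq hqM K A π * algebraMap (OK A K) (FK (M * q * q) K) π =
        (WQ2.jqqK2 M q hq hqM K / jK (M * q * q) K - 1) ^ (q - 1) ∧
      ∃ a b : Polynomial (OK A K), IsUnit (a.coeff 0) ∧ IsUnit (b.coeff 0) ∧
        ∃ z ∈ H.W3, CuspKS.uK M q hq hqM K A π * Polynomial.aeval (jK (M * q * q) K)⁻¹ b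
          - Polynomial.aeval (jK (M * q * q) K)⁻¹ a = Wit3.sE M q hq hqM K * z := by
  have : Fact q.Prime := ⟨hq⟩
  have hq1 : ¬ q ∣ 1 := hq.not_dvd_one
  obtain ⟨-, -, hKS⟩ := CuspKS.exists_polys H hA hdvr π hπϖ hq1
    (Iota3.iota3 1 q K hq hq1 ξ H.xi_pow H.xi_ne)
    (V3.midEmb_iota3 1 q hq hq1 K ξ H.xi_pow H.xi_ne)
    (hf3_one H hdvr hA hC₁ hπ a hqa hπϖ hq1)
  refine ⟨?_, hKS⟩
  rw [CuspKS.uK, inv_mul_cancel_right₀ (pi_ne_zero hπ), div_eq_mul_inv]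

section Closed

variable (hdvr : IsDiscreteValuationRing (OK A K))
  (H : V3.Hyp3 M q hq hqM A K K' ξ hξ0 ι ϖ') (hA : A.LiesOverPrime q)
  (hC₁ : ChartFacts 1 A K (chart 1 A K (jK 1 K)) (jK 1 K))
  {π : OK A K} (hπ : Irreducible π) (a : A) (hqa : (q : Qb) = incO A K π * (a : Qb))
  (hπϖ : ∃ u : A, IsUnit u ∧ incO A K π = incO A K' ϖ' ^ (q - 1) * (u : Qb))
  {e : Fin 3 → ℕ} {ϖ : Fin 3 → FK (M * q * q) K}
  {V : Fin 3 → ValuationSubring (FK (M * q * q) K)}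
  (hV0 : V 0 = GaussV.V1 (M * q * q) A K hdvr)
  (hV1 : V 1 = GaussV.V2 (WQ2.wK2 M q hq hqM K) hdvr)
  (hV2 : V 2 = H.W3) (hϖ2 : ϖ 2 = Wit3.sE M q hq hqM K) (he2 : e 2 = q - 1)
  (hV : ValHyp3 (algebraMap (OK A K) (FK (M * q * q) K) π) e ϖ V)
  {P : Fin 3 → Ideal (Rinf M q hq hqM A K)} (hC : ChartHyp3 π ϖ V P)

include hdvr H hA hC₁ hπ a hqa hπϖ hV0 hV1 hV2 hϖ2 he2 hV hC

/-- **[N10] closed (B-package).**  At every prime `n ∋ J3⁻¹` of the chart at infinity with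
`P 2 ≤ n`: `P 0 ≰ n`, `P 1 ≰ n`, `P 2` is principal at `n` with a generator `g`, and
`s · g ^ e 2 = π · t` with `s, t ∉ n`. -/
theorem cusp_closed :
    ∀ n : Ideal (Rinf M q hq hqM A K), n.IsPrime → Jc M q hq hqM A K ∈ n → P 2 ≤ n →
      ¬ P 0 ≤ n ∧ ¬ P 1 ≤ n ∧
        ∃ g ∈ P 2, (∀ y ∈ P 2, ∃ s : Rinf M q hq hqM A K, s ∉ n ∧
            ∃ c : Rinf M q hq hqM A K, s * y = c * g) ∧
          ∃ s t : Rinf M q hq hqM A K, s ∉ n ∧ t ∉ n ∧
            s * g ^ e 2 = algebraMap (OK A K) (Rinf M q hq hqM A K) π * t := by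
  obtain ⟨hu, hKS⟩ := unit_datum H hdvr hA hC₁ hπ a hqa hπϖ
  exact cusp_inst hdvr H hA hπ (pi_ne_zero hπ) hV0 hV1 hV2 hϖ2 he2 hV hC
    (CuspMem.v1_mem M q hq hqM A K) (CuspMem.v2_mem M q hq hqM A K) hu hKS

/-- **The field `hcusp2` of `Princ3Cases.princ_of_cases`, closed** (`C n := J3⁻¹ ∉ n`). -/
theorem hcusp2_closed :
    ∀ n : Ideal (Rinf M q hq hqM A K), n.IsMaximal →
      algebraMap (OK A K) (Rinf M q hq hqM A K) π ∈ n → ¬ (Jc M q hq hqM A K ∉ n) → P 2 ≤ n →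
      ∃ i : Fin 3, P i ≤ n ∧ ∃ g ∈ P i, ∀ y ∈ P i, ∃ s : Rinf M q hq hqM A K, s ∉ n ∧
        ∃ c : Rinf M q hq hqM A K, s * y = c * g := by
  obtain ⟨hu, hKS⟩ := unit_datum H hdvr hA hC₁ hπ a hqa hπϖ
  exact hcusp2 hdvr H hA hπ (pi_ne_zero hπ) hV0 hV1 hV2 hϖ2 he2 hV hC
    (CuspMem.v1_mem M q hq hqM A K) (CuspMem.v2_mem M q hq hqM A K) hu hKS

/-- **Every height-one prime through a cuspidal closed point of `W3` is principal there**, given
the branch datum of `ChartModel3.branch` at `(n, 2)`. -/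
theorem genAt_closed (n : Ideal (Rinf M q hq hqM A K)) (hn : n.IsMaximal)
    (hJ : Jc M q hq hqM A K ∈ n) (hPn : P 2 ≤ n)
    (hbranch : (∃ x ∈ n, x ∉ P 2) ∧
      ∃ t ∈ n, ∀ x ∈ n, ∃ s : Rinf M q hq hqM A K, s ∉ n ∧
        ∃ c : Rinf M q hq hqM A K, s * x - c * t ∈ P 2) :
    ∀ 𝔮 : Ideal (Rinf M q hq hqM A K), 𝔮.IsPrime → 𝔮 ≤ n → LocPlan.PrincAt 𝔮 →
      ∃ g : Rinf M q hq hqM A K, NakPlan.GenAt n 𝔮 g := by
  obtain ⟨hu, hKS⟩ := unit_datum H hdvr hA hC₁ hπ a hqa hπϖ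
  exact genAt_all hdvr H hA hπ (pi_ne_zero hπ) hV0 hV1 hV2 hϖ2 he2 hV hC
    (CuspMem.v1_mem M q hq hqM A K) (CuspMem.v2_mem M q hq hqM A K) hu hKS n hn hJ hPn hbranch

end Closed

section Iota3

variable (M q : ℕ) [NeZero M] [NeZero q] (hq : q.Prime) (hqM : ¬ q ∣ M)
  (A : ValuationSubring Qb) (K : IntermediateField ℚ Qb)
  (hdvr : IsDiscreteValuationRing (OK A K)) (hA : A.LiesOverPrime q) (hB : BaseFacts q A K)
  (π : OK A K) (hπ : Irreducible π) (hπq : incO A K π = (q : Qb))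
  {ξ : Qb} (hξ : IsPrimitiveRoot ξ q)
  {e : Fin 3 → ℕ} {ϖ : Fin 3 → FK (M * q * q) K}
  {V : Fin 3 → ValuationSubring (FK (M * q * q) K)}
  (hV0 : V 0 = GaussV.V1 (M * q * q) A K hdvr)
  (hV1 : V 1 = GaussV.V2 (WQ2.wK2 M q hq hqM K) hdvr)
  (hV2 : V 2 = (V3.hyp3_iota3 hq hqM A hdvr π hπ hπq hξ).W3)
  (hϖ2 : ϖ 2 = Wit3.sE M q hq hqM K) (he2 : e 2 = q - 1)
  (hV : ValHyp3 (algebraMap (OK A K) (FK (M * q * q) K) π) e ϖ V)
  {P : Fin 3 → Ideal (Rinf M q hq hqM A K)} (hC : ChartHyp3 π ϖ V P)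

include hB hA hV0 hV1 hV2 hϖ2 he2 hV hC

/-- `cusp_closed` for the middle-cusp embedding of record `V3.hyp3_iota3` (base: `BaseFacts`,
`incO π = q`). -/
theorem cusp_iota3 :
    ∀ n : Ideal (Rinf M q hq hqM A K), n.IsPrime → Jc M q hq hqM A K ∈ n → P 2 ≤ n →
      ¬ P 0 ≤ n ∧ ¬ P 1 ≤ n ∧
        ∃ g ∈ P 2, (∀ y ∈ P 2, ∃ s : Rinf M q hq hqM A K, s ∉ n ∧
            ∃ c : Rinf M q hq hqM A K, s * y = c * g) ∧
          ∃ s t : Rinf M q hq hqM A K, s ∉ n ∧ t ∉ n ∧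
            s * g ^ e 2 = algebraMap (OK A K) (Rinf M q hq hqM A K) π * t :=
  cusp_closed hdvr (V3.hyp3_iota3 hq hqM A hdvr π hπ hπq hξ) hA
    (Red2B.chartFacts 1 q hq hq.not_dvd_one A K hA hB) hπ 1
    (by rw [hπq, OneMemClass.coe_one, mul_one]) (BaseXi.exists_unit hq π hπ hπq hξ)
    hV0 hV1 hV2 hϖ2 he2 hV hC

/-- `hcusp2_closed` for the middle-cusp embedding of record `V3.hyp3_iota3`. -/
theorem hcusp2_iota3 :
    ∀ n : Ideal (Rinf M q hq hqM A K), n.IsMaximal →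
      algebraMap (OK A K) (Rinf M q hq hqM A K) π ∈ n → ¬ (Jc M q hq hqM A K ∉ n) → P 2 ≤ n →
      ∃ i : Fin 3, P i ≤ n ∧ ∃ g ∈ P i, ∀ y ∈ P i, ∃ s : Rinf M q hq hqM A K, s ∉ n ∧
        ∃ c : Rinf M q hq hqM A K, s * y = c * g :=
  hcusp2_closed hdvr (V3.hyp3_iota3 hq hqM A hdvr π hπ hπq hξ) hA
    (Red2B.chartFacts 1 q hq hq.not_dvd_one A K hA hB) hπ 1
    (by rw [hπq, OneMemClass.coe_one, mul_one]) (BaseXi.exists_unit hq π hπ hπq hξ)
    hV0 hV1 hV2 hϖ2 he2 hV hC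

end Iota3

end Fermat.Agent.S36.Cusp3Closed
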