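/-
S36 — CuspRev.lean (helper110): abstract core of [CUSP-c] ((B1) at the cuspidal closed points of
the middle component `W3`; helper112 #3197 (C3), helper56 #3207 (4)).  Mathlib only.

* `addVal_aeval`, `natDegree_eq_of_aeval_eq` : in `k((Q))`, for `j̄` of order `-1`, the order of
  `p(j̄)` is `- deg p`; hence if a series `y` of order `0` is `ā(j̄) / b̄(j̄)`, then
  `deg ā = deg b̄`.
* `exists_rev` : let `V` be a valuation ring of a field `E` over a local ring `O`, `j` a unit of
  `V`, `u ∈ V` with `u b(j) ≡ a(j)` modulo `𝔪_V` for `a, b ∈ O[X]` whose reductions have the same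
  degree `d`.  Then `u B(j⁻¹) ≡ A(j⁻¹)` modulo `𝔪_V` for polynomials `A, B ∈ O[X]` with UNIT
  constant terms (truncate at degree `d`, then reverse).
* `aeval_notMem`, `aeval_mem_and_notMem_nonunits` : `A(x) ∉ n` for `x ∈ n`, `n` a proper ideal,
  `A(0)` a unit; `notMem_nonunits_of_rev` : then `u` as above is not in `𝔪_V`.
-/
import Mathlib

set_option autoImplicit false

namespace Fermat.Agent.S36.CuspRev

open Polynomial HahnSeries

/-! ### Orders of polynomials in a series of order `-1` -/

section Series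

variable {k : Type*} [Field k]

theorem addVal_algebraMap_mul (c : k) (hc : c ≠ 0) (x : LaurentSeries k) :
    addVal ℤ k (algebraMap k (LaurentSeries k) c * x) = addVal ℤ k x := by
  have hC : (HahnSeries.C c : LaurentSeries k) ≠ 0 := by
    intro h0
    exact hc (HahnSeries.C_injective (by rw [h0, map_zero]))
  have e1 : algebraMap k (LaurentSeries k) c = HahnSeries.C c := by
    have h1 : algebraMap k (PowerSeries k) c = PowerSeries.C c := by simp
    rw [HahnSeries.algebraMap_apply', h1, HahnSeries.ofPowerSeries_C]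
  rw [e1, AddValuation.map_mul, addVal_apply_of_ne hC, HahnSeries.order_C]
  simp

/-- The order of `p(j̄)` is `- deg p` when `j̄` has order `-1`. -/
theorem addVal_aeval (jb : LaurentSeries k) (hj : jb.order = -1) (p : k[X]) (hp : p ≠ 0) :
    addVal ℤ k (aeval jb p) = ((-(p.natDegree : ℤ) : ℤ) : WithTop ℤ) := by
  have hj0 : jb ≠ 0 := by
    rintro rfl
    rw [HahnSeries.order_zero] at hj
    exact absurd hj (by norm_num)
  have hvj : addVal ℤ k jb = ((-1 : ℤ) : WithTop ℤ) := by rw [addVal_apply_of_ne hj0, hj]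
  have hpow : ∀ i : ℕ, addVal ℤ k (jb ^ i) = ((-(i : ℤ) : ℤ) : WithTop ℤ) := by
    intro i
    rw [AddValuation.map_pow, hvj, ← WithTop.coe_nsmul]
    congr 1
    simp
  have hsum : aeval jb p = ∑ i ∈ Finset.range (p.natDegree + 1),
      algebraMap k (LaurentSeries k) (p.coeff i) * jb ^ i := by
    rw [aeval_eq_sum_range]
    exact Finset.sum_congr rfl fun i _ => Algebra.smul_def _ _
  rw [hsum, Finset.sum_range_succ]
  have hlead : p.coeff p.natDegree ≠ 0 := by
    rw [coeff_natDegree]
    exact leadingCoeff_ne_zero.mpr hp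
  have htop : addVal ℤ k (algebraMap k (LaurentSeries k) (p.coeff p.natDegree) * jb ^ p.natDegree)
      = ((-(p.natDegree : ℤ) : ℤ) : WithTop ℤ) := by
    rw [addVal_algebraMap_mul _ hlead, hpow]
  have hlow : ((-(p.natDegree : ℤ) : ℤ) : WithTop ℤ)
      < addVal ℤ k (∑ i ∈ Finset.range p.natDegree,
          algebraMap k (LaurentSeries k) (p.coeff i) * jb ^ i) := by
    refine AddValuation.map_lt_sum _ WithTop.coe_ne_top fun i hi => ?_
    by_cases hci : p.coeff i = 0
    · rw [hci, map_zero, zero_mul, AddValuation.map_zero]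
      exact WithTop.coe_lt_top _
    · rw [addVal_algebraMap_mul _ hci, hpow, WithTop.coe_lt_coe]
      have := Finset.mem_range.mp hi
      omega
  rw [(addVal ℤ k).map_add_eq_of_lt_right (by rw [htop]; exact hlow), htop]

theorem aeval_ne_zero (jb : LaurentSeries k) (hj : jb.order = -1) (p : k[X]) (hp : p ≠ 0) :
    aeval jb p ≠ 0 := by
  intro h0
  have := addVal_aeval jb hj p hp
  rw [h0, AddValuation.map_zero] at this
  exact WithTop.coe_ne_top this.symm

/-- If `y` has order `0` and `ā(j̄) = y · b̄(j̄)` with `j̄` of order `-1`, then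
`deg ā = deg b̄`. -/
theorem natDegree_eq_of_aeval_eq (jb y : LaurentSeries k) (hj : jb.order = -1) (hy0 : y ≠ 0)
    (hy : y.order = 0) (a b : k[X]) (hb : b ≠ 0) (h : aeval jb a = y * aeval jb b) :
    a ≠ 0 ∧ a.natDegree = b.natDegree := by
  have hb' := aeval_ne_zero jb hj b hb
  have ha : a ≠ 0 := by
    rintro rfl
    rw [map_zero] at h
    exact mul_ne_zero hy0 hb' h.symm
  refine ⟨ha, ?_⟩
  have h1 := congrArg (addVal ℤ k) h
  rw [AddValuation.map_mul, addVal_aeval jb hj a ha, addVal_aeval jb hj b hb,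
    addVal_apply_of_ne hy0, hy] at h1
  have h2 : ((-(a.natDegree : ℤ) : ℤ) : WithTop ℤ) = (((0 : ℤ) + -(b.natDegree : ℤ) : ℤ) :
      WithTop ℤ) := by
    rw [h1, WithTop.coe_add]
  have h3 := WithTop.coe_injective h2
  omega

end Series

/-! ### Truncation and reversal -/

section Rev

variable (O : Type*) [CommRing O] {E : Type*} [Field E] [Algebra O E]

open IsLocalRing

theorem nonunits_add (V : ValuationSubring E) {x y : E} (hx : x ∈ V.nonunits)
    (hy : y ∈ V.nonunits) : x + y ∈ V.nonunits := by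
  rw [ValuationSubring.mem_nonunits_iff] at hx hy ⊢
  exact lt_of_le_of_lt (V.valuation.map_add x y) (max_lt hx hy)

theorem nonunits_neg (V : ValuationSubring E) {x : E} (hx : x ∈ V.nonunits) :
    -x ∈ V.nonunits := by
  rw [ValuationSubring.mem_nonunits_iff] at hx ⊢
  rwa [Valuation.map_neg]

theorem mul_nonunits (V : ValuationSubring E) {x y : E} (hx : x ∈ V) (hy : y ∈ V.nonunits) :
    x * y ∈ V.nonunits := by
  rw [ValuationSubring.mem_nonunits_iff] at hy ⊢
  rw [map_mul]
  exact mul_lt_of_le_one_of_lt ((V.valuation_le_one_iff x).mpr hx) hy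

theorem sum_nonunits (V : ValuationSubring E) {ι : Type*} (s : Finset ι) (f : ι → E)
    (hf : ∀ i ∈ s, f i ∈ V.nonunits) : ∑ i ∈ s, f i ∈ V.nonunits := by
  rw [ValuationSubring.mem_nonunits_iff]
  refine V.valuation.map_sum_lt one_ne_zero fun i hi => ?_
  exact (ValuationSubring.mem_nonunits_iff V).mp (hf i hi)

/-- The truncated reversal `∑_{i ≤ d} a_i X^{d - i}`. -/
noncomputable def rev (d : ℕ) (a : O[X]) : O[X] :=
  ∑ i ∈ Finset.range (d + 1), C (a.coeff i) * X ^ (d - i)

theorem coeff_zero_rev (d : ℕ) (a : O[X]) : (rev O d a).coeff 0 = a.coeff d := by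
  unfold rev
  rw [finsetSum_coeff, Finset.sum_eq_single d]
  · simp
  · intro i hi hid
    have := Finset.mem_range.mp hi
    rw [coeff_C_mul, coeff_X_pow, if_neg (by omega), mul_zero]
  · intro hd
    exact absurd (Finset.mem_range.mpr (Nat.lt_succ_self d)) hd

variable {O}

/-- `rev d a (j⁻¹) = j⁻ᵈ (a(j) − ∑_{i > d} a_i jⁱ)`. -/
theorem aeval_rev (d : ℕ) (a : O[X]) (j : E) (hj0 : j ≠ 0) :
    aeval j⁻¹ (rev O d a) = j⁻¹ ^ d * (aeval j a -
      ∑ i ∈ Finset.Ico (d + 1) (a.natDegree + 1 + (d + 1)), algebraMap O E (a.coeff i) * j ^ i) := by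
  have hsplit : aeval j a = ∑ i ∈ Finset.range (a.natDegree + 1 + (d + 1)),
      algebraMap O E (a.coeff i) * j ^ i := by
    rw [aeval_eq_sum_range' (n := a.natDegree + 1 + (d + 1)) (by omega)]
    exact Finset.sum_congr rfl fun i _ => Algebra.smul_def _ _
  have hd : d + 1 ≤ a.natDegree + 1 + (d + 1) := by omega
  rw [hsplit, ← Finset.sum_range_add_sum_Ico _ hd, add_sub_cancel_right, Finset.mul_sum]
  unfold rev
  rw [map_sum]
  refine Finset.sum_congr rfl fun i hi => ?_
  have hi' : i ≤ d := Nat.lt_succ_iff.mp (Finset.mem_range.mp hi)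
  rw [map_mul, aeval_C, map_pow, aeval_X]
  have e1 : j⁻¹ ^ d * (algebraMap O E (a.coeff i) * j ^ i)
      = algebraMap O E (a.coeff i) * (j⁻¹ ^ (d - i) * (j⁻¹ ^ i * j ^ i)) := by
    rw [← mul_assoc (j⁻¹ ^ (d - i)), ← _root_.pow_add, Nat.sub_add_cancel hi']
    ring
  rw [e1, ← mul_pow, inv_mul_cancel₀ hj0, one_pow, mul_one]

/-- **Truncation + reversal.** -/
theorem exists_rev [IsLocalRing O] (V : ValuationSubring E)
    (hmax : ∀ c ∈ maximalIdeal O, algebraMap O E c ∈ V.nonunits) (j u : E) (hj0 : j ≠ 0)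
    (hj : j ∈ V) (hj' : j⁻¹ ∈ V) (hu : u ∈ V) (a b : O[X])
    (hab : u * aeval j b - aeval j a ∈ V.nonunits) (d : ℕ)
    (hda : (a.map (residue O)).natDegree = d) (ha0 : a.map (residue O) ≠ 0)
    (hdb : (b.map (residue O)).natDegree = d) (hb0 : b.map (residue O) ≠ 0) :
    ∃ A B : O[X], IsUnit (A.coeff 0) ∧ IsUnit (B.coeff 0) ∧
      u * aeval j⁻¹ B - aeval j⁻¹ A ∈ V.nonunits := by
  have hunit : ∀ p : O[X], (p.map (residue O)).natDegree = d → p.map (residue O) ≠ 0 →
      IsUnit (p.coeff d) := by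
    intro p hpd hp0
    have h1 : (p.map (residue O)).coeff d ≠ 0 := by
      rw [← hpd, coeff_natDegree]
      exact leadingCoeff_ne_zero.mpr hp0
    rw [coeff_map] at h1
    by_contra hnu
    exact h1 ((residue_eq_zero_iff _).mpr ((mem_maximalIdeal _).mpr hnu))
  have htail : ∀ p : O[X], (p.map (residue O)).natDegree = d →
      ∑ i ∈ Finset.Ico (d + 1) (p.natDegree + 1 + (d + 1)), algebraMap O E (p.coeff i) * j ^ i
        ∈ V.nonunits := by
    intro p hpd
    refine sum_nonunits V _ _ fun i hi => ?_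
    have hi' : d < i := by
      have := (Finset.mem_Ico.mp hi).1
      omega
    have hci : (p.map (residue O)).coeff i = 0 :=
      coeff_eq_zero_of_natDegree_lt (by rw [hpd]; exact hi')
    rw [coeff_map] at hci
    rw [mul_comm]
    exact mul_nonunits V (pow_mem hj i) (hmax _ ((residue_eq_zero_iff _).mp hci))
  refine ⟨rev O d a, rev O d b, ?_, ?_, ?_⟩
  · rw [coeff_zero_rev]; exact hunit a hda ha0
  · rw [coeff_zero_rev]; exact hunit b hdb hb0
  · rw [aeval_rev d a j hj0, aeval_rev d b j hj0]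
    have e1 : u * (j⁻¹ ^ d * (aeval j b -
          ∑ i ∈ Finset.Ico (d + 1) (b.natDegree + 1 + (d + 1)), algebraMap O E (b.coeff i) * j ^ i))
        - j⁻¹ ^ d * (aeval j a -
          ∑ i ∈ Finset.Ico (d + 1) (a.natDegree + 1 + (d + 1)), algebraMap O E (a.coeff i) * j ^ i)
        = j⁻¹ ^ d * ((u * aeval j b - aeval j a)
          + (-(u * ∑ i ∈ Finset.Ico (d + 1) (b.natDegree + 1 + (d + 1)),
              algebraMap O E (b.coeff i) * j ^ i)
            + ∑ i ∈ Finset.Ico (d + 1) (a.natDegree + 1 + (d + 1)),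
              algebraMap O E (a.coeff i) * j ^ i)) := by ring
    rw [e1]
    exact mul_nonunits V (pow_mem hj' d) (nonunits_add V hab
      (nonunits_add V (nonunits_neg V (mul_nonunits V hu (htail b hdb))) (htail a hda)))

end Rev

/-! ### Values of a polynomial with unit constant term at a point of a proper ideal -/

section NotMem

variable {O R : Type*} [CommRing O] [CommRing R] [Algebra O R]

/-- `A(x) ∉ n` when `x ∈ n`, `n` is a proper ideal and `A(0)` is a unit. -/
theorem aeval_notMem (n : Ideal R) (hn : n ≠ ⊤) {x : R} (hx : x ∈ n) (A : O[X])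
    (hA : IsUnit (A.coeff 0)) : aeval x A ∉ n := by
  intro hmem
  have e : aeval x A = aeval x A.divX * x + algebraMap O R (A.coeff 0) := by
    conv_lhs => rw [← divX_mul_X_add A]
    rw [map_add, map_mul, aeval_X, aeval_C]
  have h1 : algebraMap O R (A.coeff 0) ∈ n := by
    have h2 : aeval x A - aeval x A.divX * x ∈ n := n.sub_mem hmem (n.mul_mem_left _ hx)
    rwa [e, add_sub_cancel_left] at h2
  exact hn (n.eq_top_of_isUnit_mem h1 (hA.map (algebraMap O R)))

/-- Variant for the nonunits of a valuation subring. -/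
theorem aeval_mem_and_notMem_nonunits {E : Type*} [Field E] [Algebra O E] (V : ValuationSubring E)
    (hO : ∀ c : O, algebraMap O E c ∈ V) {x : E} (hx : x ∈ V.nonunits) (A : O[X])
    (hA : IsUnit (A.coeff 0)) : aeval x A ∈ V ∧ aeval x A ∉ V.nonunits := by
  have hxV : x ∈ V := V.nonunits_subset hx
  have hmemV : ∀ p : O[X], aeval x p ∈ V := by
    intro p
    rw [aeval_eq_sum_range]
    refine sum_mem fun i _ => ?_
    rw [Algebra.smul_def]
    exact mul_mem (hO _) (pow_mem hxV i)
  refine ⟨hmemV A, fun hmem => ?_⟩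
  have e : aeval x A = aeval x A.divX * x + algebraMap O E (A.coeff 0) := by
    conv_lhs => rw [← divX_mul_X_add A]
    rw [map_add, map_mul, aeval_X, aeval_C]
  have h1 : algebraMap O E (A.coeff 0) ∈ V.nonunits := by
    have h2 : aeval x A + -(aeval x A.divX * x) ∈ V.nonunits :=
      nonunits_add V hmem (nonunits_neg V (mul_nonunits V (hmemV _) hx))
    rwa [e, add_neg_cancel_comm] at h2
  obtain ⟨c, hc⟩ := hA.exists_right_inv
  have h3 : algebraMap O E c * algebraMap O E (A.coeff 0) ∈ V.nonunits :=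
    mul_nonunits V (hO c) h1
  rw [← map_mul, mul_comm, hc, map_one] at h3
  rw [ValuationSubring.mem_nonunits_iff, map_one] at h3
  exact lt_irrefl _ h3

/-- If `u B(x) ≡ A(x)` modulo `𝔪_V` with `x ∈ 𝔪_V` and `A(0)` a unit, then `u ∉ 𝔪_V`. -/
theorem notMem_nonunits_of_rev {E : Type*} [Field E] [Algebra O E] (V : ValuationSubring E)
    (hO : ∀ c : O, algebraMap O E c ∈ V) {x u : E} (hx : x ∈ V.nonunits) (A B : O[X])
    (hA : IsUnit (A.coeff 0)) (hB : IsUnit (B.coeff 0))
    (h : u * aeval x B - aeval x A ∈ V.nonunits) : u ∉ V.nonunits := by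
  intro hu
  have hBV := (aeval_mem_and_notMem_nonunits V hO hx B hB).1
  have h1 : aeval x B * u + -(u * aeval x B - aeval x A) ∈ V.nonunits :=
    nonunits_add V (mul_nonunits V hBV hu) (nonunits_neg V h)
  have e : aeval x B * u + -(u * aeval x B - aeval x A) = aeval x A := by ring
  rw [e] at h1
  exact (aeval_mem_and_notMem_nonunits V hO hx A hA).2 h1

end NotMem

end Fermat.Agent.S36.CuspRev
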