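/-
S36 — V3Theta.lean (helper119; [N10]/[CUSP3], leaf [CUSP-c1] of helper112's route / need (iii) of
helper56's route at the middle-cusp points of `W3`).

For `H : V3.Hyp3 …` (the Gauss ring `W3 = H.W3` of `F_K(M q²)` along the middle-cusp embedding
`ι`, `ι j = j(Q)`, `ι j_{q²} = j(ξ Q)`), `A` over `q`, and a uniformiser `π` of `O = A ∩ K` with
`π = q`:

* `gRel_s_pow`     : `ι (s ^ (q - 1) / π)` has Gauss reduction `-(θ j̄) ^ (q - 1)`  (`s = j_{q²} - j`);
* `gRel_delta_pow` : `ι ((j_{q²} / j - 1) ^ (q - 1) / π)` has Gauss reduction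
                     `yTheta k q = -(θ j̄) ^ (q - 1) * (j̄⁻¹) ^ (q - 1)`;
* `delta_pow_unit`, `red3_delta_pow` : hence `u = (j_{q²} / j - 1) ^ (q - 1) / π` is a UNIT of
                     `W3` with `red3 u = yTheta k q`;
* `order_yTheta`, `yTheta_ne_zero` : `yTheta k q` is a series of order `0`
                     (`θ j̄ = -Q⁻¹ + ⋯`, `j̄ = Q⁻¹ + ⋯`);
* the same for `π = q / v`, `v` a unit of `O` (`…_of_mul`).

The SAME series `yTheta k q` at every level `M` (in particular `M = 1`), so no transport between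
levels is needed to compare with level one.
Input: `S36/RotThetaG` (G3) `(x(ξ Q) - x(Q)) ^ (q - 1) = q · z`, `red z = -(θ x̄) ^ (q - 1)`.
-/
import Mathlib
import Fermat.Agent.S36.V3
import Fermat.Agent.S36.V3Wit
import Fermat.Agent.S36.RotThetaG
import Fermat.Agent.S34.V12Rel

set_option autoImplicit false

noncomputable section

namespace Fermat.Agent.S36.V3Theta

open ModularCurve HahnSeries Fermat.Agent.S18.Arith Fermat.Agent.S18.ModelPlan
open Fermat.Agent.S24 Fermat.Agent.S28 Fermat.Agent.S34 Fermat.Agent.S36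
open Fermat.Agent.S36.RotTheta

/-! ### The series `-(θ j̄ / j̄) ^ (q - 1)` -/

section Series

variable (k : Type*) [Field k]

/-- `θ j̄ = -Q⁻¹ + ⋯` has order `-1`. -/
theorem order_theta_jqModC : (theta (jqModC k)).order = -1 := by
  have hne : theta (jqModC k) ≠ 0 := RotThetaG.theta_jqModC_ne_zero k
  apply le_antisymm
  · refine HahnSeries.order_le_of_coeff_ne_zero ?_
    rw [theta_coeff, coeff_jqModC_neg_one]
    simp
  · by_contra hlt
    rw [not_le] at hlt
    apply hne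
    apply HahnSeries.coeff_order_eq_zero.mp
    rw [theta_coeff, coeff_jqModC_of_lt k hlt, mul_zero]

theorem order_jqModC : (jqModC k).order = -1 := by
  have hne : jqModC k ≠ 0 := jqModC_ne_zero_of_nontrivial k
  apply le_antisymm
  · refine HahnSeries.order_le_of_coeff_ne_zero ?_
    rw [coeff_jqModC_neg_one]
    exact one_ne_zero
  · by_contra hlt
    rw [not_le] at hlt
    exact hne (HahnSeries.coeff_order_eq_zero.mp (coeff_jqModC_of_lt k hlt))

theorem order_inv_jqModC : ((jqModC k)⁻¹).order = 1 := by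
  have hne : jqModC k ≠ 0 := jqModC_ne_zero_of_nontrivial k
  have h1 : (jqModC k * (jqModC k)⁻¹).order = 0 := by
    rw [mul_inv_cancel₀ hne, HahnSeries.order_one]
  rw [HahnSeries.order_mul hne (inv_ne_zero hne), order_jqModC] at h1
  omega

/-- The series `-(θ j̄) ^ (q - 1) * (j̄⁻¹) ^ (q - 1) = -(θ j̄ / j̄) ^ (q - 1)`: the `W3`-reduction
of `(j_{q²} / j - 1) ^ (q - 1) / q`. -/
def yTheta (q : ℕ) : LaurentSeries k := -(theta (jqModC k)) ^ (q - 1) * ((jqModC k)⁻¹) ^ (q - 1)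

theorem yTheta_ne_zero (q : ℕ) : yTheta k q ≠ 0 := by
  unfold yTheta
  exact mul_ne_zero (neg_ne_zero.mpr (pow_ne_zero _ (RotThetaG.theta_jqModC_ne_zero k)))
    (pow_ne_zero _ (inv_ne_zero (jqModC_ne_zero_of_nontrivial k)))

theorem order_yTheta (q : ℕ) : (yTheta k q).order = 0 := by
  unfold yTheta
  rw [HahnSeries.order_mul (neg_ne_zero.mpr (pow_ne_zero _ (RotThetaG.theta_jqModC_ne_zero k)))
    (pow_ne_zero _ (inv_ne_zero (jqModC_ne_zero_of_nontrivial k))), HahnSeries.order_neg,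
    HahnSeries.order_pow, HahnSeries.order_pow, order_theta_jqModC, order_inv_jqModC]
  simp

theorem yTheta_eq (q : ℕ) :
    yTheta k q = -(theta (jqModC k) * (jqModC k)⁻¹) ^ (q - 1) := by
  unfold yTheta
  rw [mul_pow, neg_mul]

end Series

/-! ### The reduction of `(j_{q²} / j - 1) ^ (q - 1) / π` along `ι` -/

section W3

variable {M q : ℕ} [NeZero M] [NeZero q] {hq : q.Prime} {hqM : ¬ q ∣ M}
variable {A : ValuationSubring Qb} {K K' : IntermediateField ℚ Qb}
variable {ξ : Qb} {hξ0 : ξ ≠ 0} {ι : FK (M * q * q) K →+* LaurentSeries Qb} {ϖ : OK A K'}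
variable (H : V3.Hyp3 M q hq hqM A K K' ξ hξ0 ι ϖ)

local notation "kA" => IsLocalRing.ResidueField A

include H

include hq in
/-- `ι (s ^ (q - 1)) = q · z` with `z` Gauss-integral, `red z = -(θ j̄) ^ (q - 1)`. -/
theorem exists_iota_s_pow (hA : A.LiesOverPrime q) :
    ∃ z : LaurentSeries Qb,
      ι (Wit3.sE M q hq hqM K ^ (q - 1)) = (C (q : Qb) : LaurentSeries Qb) * z ∧
        GRel A z (-(theta (jqModC kA)) ^ (q - 1)) := by
  have : Fact q.Prime := ⟨hq⟩
  obtain ⟨z, hz, hzr⟩ := RotThetaG.exists_gRel_pow_rot_sub A hA (V3Wit.isPrimitiveRoot H) hξ0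
    (V12Rel.gRel_j A)
  refine ⟨z, ?_, hzr⟩
  have e : ι (Wit3.sE M q hq hqM K) = rotHom ξ hξ0 (jqModC Qb) - jqModC Qb := by
    have h := H.mid.apply_s
    rwa [jd_one] at h
  rw [map_pow, e, hz]

omit H in
theorem natCast_ne_zero_Qb (q : ℕ) [NeZero q] : ((q : Qb) : Qb) ≠ 0 :=
  Nat.cast_ne_zero.mpr (NeZero.ne q)

omit H in
theorem C_natCast_ne_zero (q : ℕ) [NeZero q] : (C (q : Qb) : LaurentSeries Qb) ≠ 0 := fun h =>
  natCast_ne_zero_Qb q (HahnSeries.C_injective (by rw [h, map_zero]))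

include hq in
/-- **`s ^ (q - 1) / π` along `ι`** (`π = q`): Gauss reduction `-(θ j̄) ^ (q - 1)`. -/
theorem gRel_s_pow (hA : A.LiesOverPrime q) (π : OK A K) (hπq : incO A K π = (q : Qb)) :
    GRel A (ι (Wit3.sE M q hq hqM K ^ (q - 1) / algebraMap (OK A K) (FK (M * q * q) K) π))
      (-(theta (jqModC kA)) ^ (q - 1)) := by
  obtain ⟨z, hz, hzr⟩ := exists_iota_s_pow H hA
  have e : ι (Wit3.sE M q hq hqM K ^ (q - 1) / algebraMap (OK A K) (FK (M * q * q) K) π) = z := by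
    rw [map_div₀, hz, H.emb.const, hπq, mul_comm, mul_div_assoc, div_self (C_natCast_ne_zero q),
      mul_one]
  rw [e]
  exact hzr

omit H in
/-- `j_{q²} / j - 1 = s / j`. -/
theorem delta_eq (M q : ℕ) [NeZero M] [NeZero q] (hq : q.Prime) (hqM : ¬ q ∣ M)
    (K : IntermediateField ℚ Qb) (hj : jK (M * q * q) K ≠ 0) :
    WQ2.jqqK2 M q hq hqM K / jK (M * q * q) K - 1
      = Wit3.sE M q hq hqM K * (jK (M * q * q) K)⁻¹ := by
  have e : Wit3.sE M q hq hqM K = WQ2.jqqK2 M q hq hqM K - jK (M * q * q) K := rfl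
  rw [e]
  field_simp

theorem jK_ne_zero : jK (M * q * q) K ≠ 0 := by
  intro h0
  have h1 := V3Wit.hEj H
  rw [h0, map_zero] at h1
  exact jqModC_ne_zero_of_nontrivial Qb h1.symm

/-- `ι (j⁻¹)` has Gauss reduction `j̄⁻¹`. -/
theorem gRel_jK_inv : GRel A (ι (jK (M * q * q) K)⁻¹) (jqModC kA)⁻¹ := by
  have G := Fermat.Agent.S18.GRel.gRelStatement A
  rw [map_inv₀, V3Wit.hEj H]
  exact G.inv _ _ (V12Rel.gRel_j A) (jqModC_ne_zero_of_nontrivial _)

include hq in
/-- **`u = (j_{q²} / j - 1) ^ (q - 1) / π` along `ι`** (`π = q`): Gauss reduction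
`yTheta k q = -(θ j̄ / j̄) ^ (q - 1)`. -/
theorem gRel_delta_pow (hA : A.LiesOverPrime q) (π : OK A K) (hπq : incO A K π = (q : Qb)) :
    GRel A (ι ((WQ2.jqqK2 M q hq hqM K / jK (M * q * q) K - 1) ^ (q - 1)
        / algebraMap (OK A K) (FK (M * q * q) K) π)) (yTheta kA q) := by
  have e : (WQ2.jqqK2 M q hq hqM K / jK (M * q * q) K - 1) ^ (q - 1)
        / algebraMap (OK A K) (FK (M * q * q) K) π
      = Wit3.sE M q hq hqM K ^ (q - 1) / algebraMap (OK A K) (FK (M * q * q) K) π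
        * ((jK (M * q * q) K)⁻¹) ^ (q - 1) := by
    rw [delta_eq M q hq hqM K (jK_ne_zero H), mul_pow]
    ring
  rw [e, map_mul, map_pow]
  exact Fermat.Agent.S18.GRel.gRel_mul A _ _ _ _ (gRel_s_pow H hA π hπq)
    (RotThetaG.gRel_npow A (gRel_jK_inv H) (q - 1))

include hq in
/-- `u = (j_{q²} / j - 1) ^ (q - 1) / π` is a unit of `W3`. -/
theorem delta_pow_unit (hA : A.LiesOverPrime q) (π : OK A K) (hπq : incO A K π = (q : Qb)) :
    (WQ2.jqqK2 M q hq hqM K / jK (M * q * q) K - 1) ^ (q - 1)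
        / algebraMap (OK A K) (FK (M * q * q) K) π ∈ H.W3 ∧
      ((WQ2.jqqK2 M q hq hqM K / jK (M * q * q) K - 1) ^ (q - 1)
        / algebraMap (OK A K) (FK (M * q * q) K) π)⁻¹ ∈ H.W3 :=
  Wit3W3.unit3_of_gRel (V3Wit.hW3 H) (gRel_delta_pow H hA π hπq) (yTheta_ne_zero _ q)

include hq in
/-- `red3 u = yTheta k q`. -/
theorem red3_delta_pow (hA : A.LiesOverPrime q) (π : OK A K) (hπq : incO A K π = (q : Qb)) :
    H.red3 ⟨(WQ2.jqqK2 M q hq hqM K / jK (M * q * q) K - 1) ^ (q - 1)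
        / algebraMap (OK A K) (FK (M * q * q) K) π, (delta_pow_unit H hA π hπq).1⟩
      = yTheta kA q :=
  H.red3_eq_of_gRel _ (gRel_delta_pow H hA π hπq)

include hq in
/-- The same for a uniformiser `π` with `q = π · v`, `v ∈ O`: the reduction is
`C (res v) * yTheta k q`. -/
theorem gRel_delta_pow_of_mul (hA : A.LiesOverPrime q) (π v : OK A K)
    (hqv : (q : Qb) = incO A K π * incO A K v) :
    GRel A (ι ((WQ2.jqqK2 M q hq hqM K / jK (M * q * q) K - 1) ^ (q - 1)
        / algebraMap (OK A K) (FK (M * q * q) K) π))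
      (C (resO A K v) * yTheta kA q) := by
  have hπ0 : incO A K π ≠ 0 := by
    intro h0
    rw [h0, zero_mul] at hqv
    exact natCast_ne_zero_Qb q hqv
  have hCπ : (C (incO A K π) : LaurentSeries Qb) ≠ 0 := fun h =>
    hπ0 (HahnSeries.C_injective (by rw [h, map_zero]))
  obtain ⟨z, hz, hzr⟩ := exists_iota_s_pow H hA
  have e : (WQ2.jqqK2 M q hq hqM K / jK (M * q * q) K - 1) ^ (q - 1)
        / algebraMap (OK A K) (FK (M * q * q) K) π
      = Wit3.sE M q hq hqM K ^ (q - 1) / algebraMap (OK A K) (FK (M * q * q) K) π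
        * ((jK (M * q * q) K)⁻¹) ^ (q - 1) := by
    rw [delta_eq M q hq hqM K (jK_ne_zero H), mul_pow]
    ring
  have e2 : ι (Wit3.sE M q hq hqM K ^ (q - 1) / algebraMap (OK A K) (FK (M * q * q) K) π)
      = ι (algebraMap (OK A K) (FK (M * q * q) K) v) * z := by
    rw [map_div₀, hz, H.emb.const, H.emb.const, hqv, map_mul]
    field_simp
  rw [e, map_mul, map_pow, e2]
  have h1 : GRel A (ι (algebraMap (OK A K) (FK (M * q * q) K) v)) (C (resO A K v)) := by
    have h := H.gRel_red3 ⟨_, H.algebraMap_mem v⟩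
    rwa [H.red3_algebraMap] at h
  have h2 := Fermat.Agent.S18.GRel.gRel_mul A _ _ _ _
    (Fermat.Agent.S18.GRel.gRel_mul A _ _ _ _ h1 hzr)
    (RotThetaG.gRel_npow A (gRel_jK_inv H) (q - 1))
  have e3 : C (resO A K v) * -(theta (jqModC kA)) ^ (q - 1) * ((jqModC kA)⁻¹) ^ (q - 1)
      = C (resO A K v) * yTheta kA q := by
    unfold yTheta
    ring
  rwa [e3] at h2

end W3

end Fermat.Agent.S36.V3Theta
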