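/-
S36 — CuspAB.lean (helper119; [N10]/[CUSP3], leaf [CUSP-c] of helper112's route (C3) / need (iii)
of helper56's route at the middle-cusp points of `W3`).

`W3 = H.W3` (`H : V3.Hyp3 …`, level `N = M q²`), `u = (j_{q²} / j - 1) ^ (q - 1) / π`, `π = q`.
By `S36/V3Theta`, `u` is a unit of `W3` with reduction `yTheta k q = -(θ j̄ / j̄) ^ (q - 1)`, a
series of order `0` which does not depend on `M`.

* `mem_adjoin_jK`, `exists_ratfun` : `F_K(1) = K(j)`;
* `exists_scale`                  : a nonzero polynomial over `K` is `c ·` (a polynomial over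
                                    `O = A ∩ K` with a coefficient `1`);
* `gRel_aeval`                    : the Gauss reduction of `S(t)`, `S ∈ O[X]`, is `S̄(t̄)`;
* `exists_poly_of_level_one`      : **level-one Gauss reductions are rational in `j̄`**:
                                    `x' ∈ F_K(1)` with reduction `y` ⇒ `y · S̄(j̄) = P̄(j̄)`,
                                    `P, S ∈ O[X]`, `S̄ ≠ 0`;
* `exists_AB_core`                : `u` with `W3`-reduction `y` of order `0`, `y · S̄(j̄) = P̄(j̄)`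
                                    ⇒ `∃ A B ∈ O[X]`, `A(0), B(0) ∈ Oˣ`,
                                    `u · B(j⁻¹) - A(j⁻¹) ∈ 𝔪(W3)`
                                    (degree comparison + reversal: helper110's `S36/CuspRev`);
* `exists_AB_of_rat`, `exists_AB_of_rat_mul`, `exists_AB` : **[CUSP-c]** for
                                    `u = (j_{q²} / j - 1) ^ (q - 1) / π`, from the level-one
                                    rationality of `yTheta k q` (`hrat`), resp. from residue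
                                    degree one of `W3` at level `1 · q²` (`hf3₁`, the `hf3` shape
                                    of `S36/ResDeg3G.hf_of_setting` at `M = 1`);
* `exists_eq_s_mul_of_mem_nonunits` : `𝔪(W3) = s W3`.
-/
import Mathlib
import Fermat.Agent.S36.V3Theta
import Fermat.Agent.S36.CuspRev
import Fermat.Agent.S18.ResOKEquiv
import Fermat.Agent.S18.ModelBasicCore
import Fermat.Agent.S34.Red2B

set_option autoImplicit false

noncomputable section

namespace Fermat.Agent.S36.CuspAB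

open ModularCurve Polynomial Fermat.Agent.S18.Arith Fermat.Agent.S18.ModelPlan
open Fermat.Agent.S24 Fermat.Agent.S28 Fermat.Agent.S34 Fermat.Agent.S36
open Fermat.Agent.S18

/-! ### Level one: `F_K(1) = K(j)` -/

section Level1

variable (K : IntermediateField ℚ Qb)

/-- `F_K(1)` is generated by `j` over `K`. -/
theorem mem_adjoin_jK (x : FK 1 K) : x ∈ IntermediateField.adjoin K {jK 1 K} := by
  refine V3.gen_top (IntermediateField.adjoin K {jK 1 K}).toSubfield (fun c => ?_)
    (fun d _ hd => ?_) x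
  · exact (IntermediateField.adjoin K {jK 1 K}).algebraMap_mem c
  · have hd1 : d = 1 := Nat.dvd_one.mp hd
    subst hd1
    have e : V3.genK 1 K 1 hd = jK 1 K :=
      Subtype.ext (by rw [V3.coe_genK, ModelBasicCore.coe_jK])
    rw [e]
    exact IntermediateField.mem_adjoin_simple_self K (jK 1 K)

/-- Every element of `F_K(1)` is a quotient of two polynomials in `j` over `K`. -/
theorem exists_ratfun (x : FK 1 K) :
    ∃ r s : K[X], aeval (jK 1 K) s ≠ 0 ∧ x * aeval (jK 1 K) s = aeval (jK 1 K) r := by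
  obtain ⟨r, s, hx⟩ := (IntermediateField.mem_adjoin_simple_iff K x).mp (mem_adjoin_jK K x)
  by_cases hs : aeval (jK 1 K) s = 0
  · refine ⟨0, 1, ?_, ?_⟩
    · rw [map_one]; exact one_ne_zero
    · rw [hx, hs, div_zero, zero_mul, map_zero]
  · exact ⟨r, s, hs, by rw [hx, div_mul_cancel₀ _ hs]⟩

end Level1

/-! ### Scaling a polynomial over `K` into `O[X]` with a coefficient `1` -/

section Scale

variable (A : ValuationSubring Qb) (K : IntermediateField ℚ Qb)

theorem exists_scale (s : K[X]) (hs : s ≠ 0) :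
    ∃ (c : K) (S : (OK A K)[X]), c ≠ 0 ∧ s = C c * S.map (algebraMap (OK A K) K) ∧
      ∃ i, S.coeff i = 1 := by
  have hne : s.support.Nonempty := by
    rw [Polynomial.support_nonempty]; exact hs
  obtain ⟨i₀, hi₀, hmax⟩ := Finset.exists_max_image s.support
    (fun i => (OK A K).valuation (s.coeff i)) hne
  have hc0 : s.coeff i₀ ≠ 0 := Polynomial.mem_support_iff.mp hi₀
  set c : K := s.coeff i₀ with hc
  have hmem : ∀ n, (C c⁻¹ * s).coeff n ∈ OK A K := by
    intro n
    rw [Polynomial.coeff_C_mul]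
    by_cases hn : n ∈ s.support
    · rw [← (OK A K).valuation_le_one_iff, map_mul, map_inv₀]
      have h1 := hmax n hn
      have hv0 : (OK A K).valuation c ≠ 0 := (Valuation.ne_zero_iff _).mpr hc0
      rw [inv_mul_le_iff₀ (lt_of_le_of_ne zero_le hv0.symm), mul_one]
      exact h1
    · rw [Polynomial.notMem_support_iff.mp hn, mul_zero]
      exact zero_mem _
  have hl : C c⁻¹ * s ∈ Polynomial.lifts (algebraMap (OK A K) K) :=
    (Polynomial.lifts_iff_coeff_lifts _).mpr fun n =>
      ⟨(⟨(C c⁻¹ * s).coeff n, hmem n⟩ : OK A K), rfl⟩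
  obtain ⟨S, hS⟩ := (Polynomial.mem_lifts _).mp hl
  refine ⟨c, S, hc0, ?_, i₀, ?_⟩
  · rw [hS, ← mul_assoc, ← C_mul, mul_inv_cancel₀ hc0, C_1, one_mul]
  · have h1 := congrArg (fun p : K[X] => p.coeff i₀) hS
    simp only [Polynomial.coeff_map, Polynomial.coeff_C_mul] at h1
    rw [← hc, inv_mul_cancel₀ hc0] at h1
    exact Subtype.ext h1

end Scale

/-! ### Gauss reductions of polynomials in a Gauss-integral element -/

section Gauss

variable {A : ValuationSubring Qb} {K : IntermediateField ℚ Qb}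

local notation "kA" => IsLocalRing.ResidueField A

theorem algebraMap_eq_C (k : Type*) [Field k] (c : k) :
    algebraMap k (LaurentSeries k) c = HahnSeries.C c := by
  have h1 : algebraMap k (PowerSeries k) c = PowerSeries.C c := by simp
  rw [HahnSeries.algebraMap_apply', h1, HahnSeries.ofPowerSeries_C]

theorem gRel_const (c : OK A K) :
    GRel A (HahnSeries.C (incO A K c) : LaurentSeries Qb) (HahnSeries.C (resO A K c)) :=
  RotThetaG.gRel_C A (ResOKEquiv.incA A K c)

/-- The Gauss reduction of `S(t)`, `S ∈ O[X]`, along an embedding `E` which is the identity on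
constants: `S̄(τ)`, `τ` the reduction of `E t`. -/
theorem gRel_aeval {F : Type*} [Field F] [Algebra (OK A K) F] (E : F →+* LaurentSeries Qb)
    (hEc : ∀ c : OK A K,
      E (algebraMap (OK A K) F c) = (HahnSeries.C (incO A K c) : LaurentSeries Qb))
    {t : F} {τ : LaurentSeries kA} (ht : GRel A (E t) τ) (S : (OK A K)[X]) :
    GRel A (E (aeval t S)) (aeval τ (S.map (resO A K))) := by
  have e1 : E (aeval t S) = ∑ i ∈ Finset.range (S.natDegree + 1),
      (HahnSeries.C (incO A K (S.coeff i)) : LaurentSeries Qb) * E t ^ i := by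
    rw [aeval_eq_sum_range, map_sum]
    refine Finset.sum_congr rfl fun i _ => ?_
    rw [Algebra.smul_def, map_mul, map_pow, hEc]
  have e2 : aeval τ (S.map (resO A K)) = ∑ i ∈ Finset.range (S.natDegree + 1),
      (HahnSeries.C (resO A K (S.coeff i)) : LaurentSeries kA) * τ ^ i := by
    rw [aeval_def, eval₂_map, eval₂_eq_sum_range]
    refine Finset.sum_congr rfl fun i _ => ?_
    rw [RingHom.comp_apply, algebraMap_eq_C]
  rw [e1, e2]
  exact Red2B.gRel_sum _ _ _ fun i _ =>
    GRel.gRel_mul A _ _ _ _ (gRel_const _) (RotThetaG.gRel_npow A ht i)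

theorem map_resO_ne_zero {S : (OK A K)[X]} {i : ℕ} (hi : S.coeff i = 1) :
    S.map (resO A K) ≠ 0 := by
  intro h0
  have h1 := congrArg (fun p : kA[X] => p.coeff i) h0
  simp only [coeff_map, hi, map_one, coeff_zero] at h1
  exact one_ne_zero h1

/-- **Level-one Gauss reductions are rational in `j̄`**: if `x' ∈ F_K(1) = K(j)` is Gauss-integral
with reduction `y`, then `y · S̄(j̄) = P̄(j̄)` for polynomials `P, S ∈ O[X]`, `S̄ ≠ 0`. -/
theorem exists_poly_of_level_one (x' : FK 1 K) (y : LaurentSeries kA)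
    (h : GRel A ((x' : FK 1 K) : LaurentSeries Qb) y) :
    ∃ P S : (OK A K)[X], S.map (resO A K) ≠ 0 ∧
      y * aeval (jqModC kA) (S.map (resO A K)) = aeval (jqModC kA) (P.map (resO A K)) := by
  have G := GRel.gRelStatement A
  obtain ⟨r, s, hs, hx⟩ := exists_ratfun K x'
  have hs0 : s ≠ 0 := by
    rintro rfl
    exact hs (map_zero _)
  obtain ⟨c, S, hc, hsS, i, hi⟩ := exists_scale A K s hs0
  have hSne : S.map (resO A K) ≠ 0 := map_resO_ne_zero hi
  let E : FK 1 K →+* LaurentSeries Qb := (FK 1 K).subtype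
  have hEc : ∀ c : OK A K, E (algebraMap (OK A K) (FK 1 K) c)
      = (HahnSeries.C (incO A K c) : LaurentSeries Qb) := fun c => rfl
  have hEK : ∀ c : K, E (algebraMap K (FK 1 K) c)
      = (HahnSeries.C (algebraMap K Qb c) : LaurentSeries Qb) := fun c => rfl
  have hEj : GRel A (E (jK 1 K)) (jqModC kA) := by
    show GRel A ((jK 1 K : FK 1 K) : LaurentSeries Qb) _
    rw [ModelBasicCore.coe_jK, jd_one]
    exact V12Rel.gRel_j A
  have hσ := gRel_aeval E hEc hEj S
  have hsS' : aeval (jK 1 K) s = algebraMap K (FK 1 K) c * aeval (jK 1 K) S := by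
    rw [hsS, map_mul, aeval_C, aeval_map_algebraMap]
  by_cases hr : r = 0
  · subst hr
    rw [map_zero] at hx
    have hx0 : x' = 0 := (mul_eq_zero.mp hx).resolve_right hs
    rw [hx0] at h
    have hy : y = 0 := G.unique _ _ _ h (ModelRed.gRel_zero G)
    exact ⟨0, S, hSne, by rw [hy, zero_mul, Polynomial.map_zero, map_zero]⟩
  · obtain ⟨c₂, R, hc₂, hrR, i₂, hi₂⟩ := exists_scale A K r hr
    have hRne : R.map (resO A K) ≠ 0 := map_resO_ne_zero hi₂
    have hρ := gRel_aeval E hEc hEj R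
    have hρ0 : aeval (jqModC kA) (R.map (resO A K)) ≠ 0 :=
      CuspRev.aeval_ne_zero _ (V3Theta.order_jqModC kA) _ hRne
    have hrR' : aeval (jK 1 K) r = algebraMap K (FK 1 K) c₂ * aeval (jK 1 K) R := by
      rw [hrR, map_mul, aeval_C, aeval_map_algebraMap]
    set e : K := c₂ / c with he
    have he0 : e ≠ 0 := div_ne_zero hc₂ hc
    have key : x' * aeval (jK 1 K) S = algebraMap K (FK 1 K) e * aeval (jK 1 K) R := by
      have hc' : algebraMap K (FK 1 K) c ≠ 0 := (_root_.map_ne_zero _).mpr hc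
      rw [hsS', hrR'] at hx
      rw [he, map_div₀, div_mul_eq_mul_div, eq_div_iff hc', ← hx]
      ring
    have keyE : E x' * E (aeval (jK 1 K) S)
        = (HahnSeries.C (algebraMap K Qb e) : LaurentSeries Qb) * E (aeval (jK 1 K) R) := by
      rw [← map_mul, key, map_mul, hEK]
    have h' : GRel A (E x') y := h
    have hL := G.mul _ _ _ _ h' hσ
    by_cases hmem : algebraMap K Qb e ∈ A
    · let e' : OK A K := ⟨e, hmem⟩
      refine ⟨C e' * R, S, hSne, ?_⟩
      have h1 := G.mul _ _ _ _ (gRel_const e') hρ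
      have e3 : (HahnSeries.C (incO A K e') : LaurentSeries Qb)
          = HahnSeries.C (algebraMap K Qb e) := rfl
      rw [e3, ← keyE] at h1
      have h2 := G.unique _ _ _ hL h1
      rw [Polynomial.map_mul, Polynomial.map_C, map_mul, aeval_C, algebraMap_eq_C]
      exact h2
    · exfalso
      have hinv : (algebraMap K Qb e)⁻¹ ∈ A := (A.mem_or_inv_mem _).resolve_left hmem
      have heQ : algebraMap K Qb e ≠ 0 := (_root_.map_ne_zero _).mpr he0
      have hnu : ¬ IsUnit (⟨(algebraMap K Qb e)⁻¹, hinv⟩ : A) := by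
        intro hu
        obtain ⟨w, hw⟩ := isUnit_iff_exists_inv.mp hu
        apply hmem
        have h3 : (algebraMap K Qb e)⁻¹ * (w : Qb) = 1 := congrArg (fun z : A => (z : Qb)) hw
        have h4 : algebraMap K Qb e = (w : Qb) := by
          have := congrArg (fun z => algebraMap K Qb e * z) h3
          simp only [mul_one] at this
          rw [← mul_assoc, mul_inv_cancel₀ heQ, one_mul] at this
          exact this.symm
        rw [h4]
        exact w.2
      have hres : IsLocalRing.residue A (⟨(algebraMap K Qb e)⁻¹, hinv⟩ : A) = 0 :=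
        (IsLocalRing.residue_eq_zero_iff _).mpr hnu
      have h1 := G.mul _ _ _ _ (RotThetaG.gRel_C A ⟨(algebraMap K Qb e)⁻¹, hinv⟩) hL
      rw [hres, map_zero, zero_mul] at h1
      have e4 : (HahnSeries.C (((⟨(algebraMap K Qb e)⁻¹, hinv⟩ : A) : Qb)) : LaurentSeries Qb)
          * (E x' * E (aeval (jK 1 K) S)) = E (aeval (jK 1 K) R) := by
        rw [keyE, ← mul_assoc, ← map_mul, inv_mul_cancel₀ heQ, map_one, one_mul]
      rw [e4] at h1
      exact hρ0 (G.unique _ _ _ hρ h1)

end Gauss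

/-! ### The polynomials `A`, `B` at the middle cusps of `W3` -/

section Final

variable {M q : ℕ} [NeZero M] [NeZero q] {hq : q.Prime} {hqM : ¬ q ∣ M}
variable {A : ValuationSubring Qb} {K K' : IntermediateField ℚ Qb}
variable {ξ : Qb} {hξ0 : ξ ≠ 0} {ι : FK (M * q * q) K →+* LaurentSeries Qb} {ϖ : OK A K'}

local notation "kA" => IsLocalRing.ResidueField A

theorem coeff_map_residue_eq_zero_iff (p : (OK A K)[X]) (n : ℕ) :
    (p.map (IsLocalRing.residue (OK A K))).coeff n = 0 ↔ (p.map (resO A K)).coeff n = 0 := by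
  rw [coeff_map, coeff_map, IsLocalRing.residue_eq_zero_iff, ResOKEquiv.resO_eq_zero_iff]

theorem natDegree_map_residue (p : (OK A K)[X]) :
    (p.map (IsLocalRing.residue (OK A K))).natDegree = (p.map (resO A K)).natDegree := by
  apply le_antisymm
  · rw [natDegree_le_iff_coeff_eq_zero]
    intro N hN
    rw [coeff_map_residue_eq_zero_iff]
    exact coeff_eq_zero_of_natDegree_lt hN
  · rw [natDegree_le_iff_coeff_eq_zero]
    intro N hN
    rw [← coeff_map_residue_eq_zero_iff]
    exact coeff_eq_zero_of_natDegree_lt hN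

theorem map_residue_ne_zero {p : (OK A K)[X]} (h : p.map (resO A K) ≠ 0) :
    p.map (IsLocalRing.residue (OK A K)) ≠ 0 := by
  intro h0
  apply h
  ext n
  rw [coeff_zero, ← coeff_map_residue_eq_zero_iff, h0, coeff_zero]

variable (H : V3.Hyp3 M q hq hqM A K K' ξ hξ0 ι ϖ)

include H

/-- `ι j` has Gauss reduction `j̄`. -/
theorem gRel_iota_jK : GRel A (ι (jK (M * q * q) K)) (jqModC kA) := by
  rw [V3Wit.hEj H]
  exact V12Rel.gRel_j A

/-- The maximal ideal of `O` lands in the maximal ideal of `W3`. -/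
theorem algebraMap_mem_nonunits (c : OK A K) (hc : c ∈ IsLocalRing.maximalIdeal (OK A K)) :
    algebraMap (OK A K) (FK (M * q * q) K) c ∈ H.W3.nonunits := by
  refine Wit3W3.nonunit3_of_gRel_zero (V3Wit.hW3 H) ?_
  have h := gRel_const (A := A) (K := K) c
  rw [(ResOKEquiv.resO_eq_zero_iff A K c).mpr hc, map_zero, ← V3Wit.hEc H] at h
  exact h

/-- The maximal ideal of `W3` is `s W3`. -/
theorem exists_eq_s_mul_of_mem_nonunits {x : FK (M * q * q) K} (hx : x ∈ H.W3.nonunits) :
    ∃ z ∈ H.W3, x = Wit3.sE M q hq hqM K * z := by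
  have hxW : x ∈ H.W3 := H.W3.nonunits_subset hx
  have h0 : H.red3 ⟨x, hxW⟩ = 0 :=
    Wit3W3.gRel_zero_of_nonunit (V3Wit.hW3 H) (H.gRel_red3 ⟨x, hxW⟩) hx
  exact (H.red3_eq_zero_iff ⟨x, hxW⟩).mp h0

/-- **Core**: if `u ∈ F_K(M q²)` has `W3`-reduction `y` of order `0` with `y · S̄(j̄) = P̄(j̄)`
(`P, S ∈ O[X]`, `S̄ ≠ 0`), then `u · B(j⁻¹) - A(j⁻¹) ∈ 𝔪(W3)` for polynomials `A, B ∈ O[X]` with
`A(0), B(0) ∈ Oˣ`. -/
theorem exists_AB_core (u : FK (M * q * q) K) (y : LaurentSeries kA) (hu : GRel A (ι u) y)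
    (hy0 : y ≠ 0) (hy : y.order = 0) (P S : (OK A K)[X]) (hS : S.map (resO A K) ≠ 0)
    (hPS : y * aeval (jqModC kA) (S.map (resO A K)) = aeval (jqModC kA) (P.map (resO A K))) :
    ∃ A' B' : (OK A K)[X], IsUnit (A'.coeff 0) ∧ IsUnit (B'.coeff 0) ∧
      u * aeval (jK (M * q * q) K)⁻¹ B' - aeval (jK (M * q * q) K)⁻¹ A' ∈ H.W3.nonunits := by
  have G := GRel.gRelStatement A
  obtain ⟨hP0, hdeg⟩ := CuspRev.natDegree_eq_of_aeval_eq (jqModC kA) y
    (V3Theta.order_jqModC kA) hy0 hy (P.map (resO A K)) (S.map (resO A K)) hS hPS.symm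
  have hj := H.jK_unit
  have hab : u * aeval (jK (M * q * q) K) S - aeval (jK (M * q * q) K) P ∈ H.W3.nonunits := by
    refine Wit3W3.nonunit3_of_gRel_zero (V3Wit.hW3 H) ?_
    have h1 := G.add _ _ _ _
      (G.mul _ _ _ _ hu (gRel_aeval ι (V3Wit.hEc H) (gRel_iota_jK H) S))
      (G.neg _ _ (gRel_aeval ι (V3Wit.hEc H) (gRel_iota_jK H) P))
    rw [hPS, add_neg_cancel] at h1
    rwa [map_sub, map_mul, sub_eq_add_neg]
  exact CuspRev.exists_rev H.W3 (algebraMap_mem_nonunits H) (jK (M * q * q) K) u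
    (V3Theta.jK_ne_zero H) hj.1 hj.2 (H.mem_W3_of_gRel hu) P S hab
    ((S.map (IsLocalRing.residue (OK A K))).natDegree)
    (by rw [natDegree_map_residue, natDegree_map_residue, hdeg]) (map_residue_ne_zero hP0) rfl
    (map_residue_ne_zero hS)

include hq in
/-- **[CUSP-c]** (`π = q`).  If `yTheta k q = -(θ j̄ / j̄) ^ (q - 1)` is the Gauss reduction of a
level-one function (`hrat`), then for `u = (j_{q²} / j - 1) ^ (q - 1) / π` there are
`A, B ∈ O[X]` with `A(0), B(0) ∈ Oˣ` and `u · B(j⁻¹) - A(j⁻¹) ∈ 𝔪(W3)`. -/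
theorem exists_AB_of_rat (hA : A.LiesOverPrime q) (π : OK A K) (hπq : incO A K π = (q : Qb))
    (hrat : ∃ x' : FK 1 K, GRel A ((x' : FK 1 K) : LaurentSeries Qb) (V3Theta.yTheta kA q)) :
    ∃ A' B' : (OK A K)[X], IsUnit (A'.coeff 0) ∧ IsUnit (B'.coeff 0) ∧
      (WQ2.jqqK2 M q hq hqM K / jK (M * q * q) K - 1) ^ (q - 1)
          / algebraMap (OK A K) (FK (M * q * q) K) π * aeval (jK (M * q * q) K)⁻¹ B'
        - aeval (jK (M * q * q) K)⁻¹ A' ∈ H.W3.nonunits := by
  obtain ⟨x', hx'⟩ := hrat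
  obtain ⟨P, S, hS, hPS⟩ := exists_poly_of_level_one x' _ hx'
  exact exists_AB_core H _ _ (V3Theta.gRel_delta_pow H hA π hπq) (V3Theta.yTheta_ne_zero _ q)
    (V3Theta.order_yTheta _ q) P S hS hPS

include hq in
/-- The same for any uniformiser `π` with `q = π · v`, `v ∈ Oˣ`. -/
theorem exists_AB_of_rat_mul (hA : A.LiesOverPrime q) (π v : OK A K)
    (hqv : (q : Qb) = incO A K π * incO A K v) (hv : IsUnit v)
    (hrat : ∃ x' : FK 1 K, GRel A ((x' : FK 1 K) : LaurentSeries Qb) (V3Theta.yTheta kA q)) :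
    ∃ A' B' : (OK A K)[X], IsUnit (A'.coeff 0) ∧ IsUnit (B'.coeff 0) ∧
      (WQ2.jqqK2 M q hq hqM K / jK (M * q * q) K - 1) ^ (q - 1)
          / algebraMap (OK A K) (FK (M * q * q) K) π * aeval (jK (M * q * q) K)⁻¹ B'
        - aeval (jK (M * q * q) K)⁻¹ A' ∈ H.W3.nonunits := by
  have G := GRel.gRelStatement A
  obtain ⟨x', hx'⟩ := hrat
  have hres : resO A K v ≠ 0 := (ResOKEquiv.resO_ne_zero_iff A K v).mpr hv
  have hC : (HahnSeries.C (resO A K v) : LaurentSeries kA) ≠ 0 := fun h =>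
    hres (HahnSeries.C_injective (by rw [h, map_zero]))
  have hx'' : GRel A (((algebraMap (OK A K) (FK 1 K) v * x' : FK 1 K)) : LaurentSeries Qb)
      (HahnSeries.C (resO A K v) * V3Theta.yTheta kA q) :=
    G.mul _ _ _ _ (gRel_const v) hx'
  obtain ⟨P, S, hS, hPS⟩ := exists_poly_of_level_one _ _ hx''
  refine exists_AB_core H _ _ (V3Theta.gRel_delta_pow_of_mul H hA π v hqv)
    (mul_ne_zero hC (V3Theta.yTheta_ne_zero _ q)) ?_ P S hS hPS
  rw [HahnSeries.order_mul hC (V3Theta.yTheta_ne_zero _ q), HahnSeries.order_C,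
    V3Theta.order_yTheta, add_zero]

include hq in
/-- **[CUSP-c], with residue degree one at level one** (`hf3₁` = the `hf3` shape of
`S36/ResDeg3G.hf_of_setting` AT `M = 1`, along any middle-cusp embedding `ι₁` of `F_K(q²)`):
the SAME series `yTheta k q` is the `W3`-reduction of `u` at level `1 · q²`, so it is the Gauss
reduction of a level-one function, and `exists_AB_of_rat` applies. -/
theorem exists_AB (hA : A.LiesOverPrime q) (π : OK A K) (hπq : incO A K π = (q : Qb))
    {hqM₁ : ¬ q ∣ 1} {K₁' : IntermediateField ℚ Qb} {ξ₁ : Qb} {hξ₁0 : ξ₁ ≠ 0}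
    {ι₁ : FK (1 * q * q) K →+* LaurentSeries Qb} {ϖ₁ : OK A K₁'}
    (H₁ : V3.Hyp3 1 q hq hqM₁ A K K₁' ξ₁ hξ₁0 ι₁ ϖ₁)
    (hf3₁ : ∀ (x : FK (1 * q * q) K) (y : LaurentSeries kA), GRel A (ι₁ x) y →
      ∃ x' : FK 1 K, GRel A ((x' : FK 1 K) : LaurentSeries Qb) y) :
    ∃ A' B' : (OK A K)[X], IsUnit (A'.coeff 0) ∧ IsUnit (B'.coeff 0) ∧
      (WQ2.jqqK2 M q hq hqM K / jK (M * q * q) K - 1) ^ (q - 1)
          / algebraMap (OK A K) (FK (M * q * q) K) π * aeval (jK (M * q * q) K)⁻¹ B'
        - aeval (jK (M * q * q) K)⁻¹ A' ∈ H.W3.nonunits :=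
  exists_AB_of_rat H hA π hπq (hf3₁ _ _ (V3Theta.gRel_delta_pow H₁ hA π hπq))

end Final

end Fermat.Agent.S36.CuspAB
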