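/-
S36 — Wit3W3InstB.lean (helper110; package [MODEL3], B-copy of helper6's `Wit3W3Inst`).

PACKAGING of the `W3` facts of `S36/V3Wit` (helper119) for the Gauss ring `H.W3` along the
middle-cusp embedding (`H : V3.Hyp3 …`) into the two hypothesis structures consumed by the
level-`M q²` instances:

* `hyp3W`   : `Wit3Inst.Hyp3W M q hq hqM A K π H.W3`   (chart route, `NValChart.Wit`);
* `w3Facts` : `Set3.W3Facts M q hq hqM hdvr π H.W3`     (DVR route, `RamN.Hyp`);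
* `wit`, `hyp3` : the two instances themselves for `H.W3`;
* `hyp3W_iota3`, `w3Facts_iota3`, `wit_iota3`, `hyp3_iota3` : closed forms for `Iota3.iota3`
  over `BaseXi.Kxi K ξ`, `π = q`.
-/
import Mathlib
import Fermat.Agent.S36.V3Wit
import Fermat.Agent.S36.Wit3Inst
import Fermat.Agent.S36.Set3

set_option autoImplicit false

noncomputable section

namespace Fermat.Agent.S36.Wit3W3InstB

open ModularCurve ModularCurve.IgusaScheme AlgebraicCurve HahnSeries Fermat.Agent.S18.Arith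
open Fermat.Agent.S18.ModelPlan Fermat.Agent.S24 Fermat.Agent.S28 Fermat.Agent.S34
open Fermat.Agent.S36

variable {M q : ℕ} [NeZero M] [NeZero q] {hq : q.Prime} {hqM : ¬ q ∣ M}
variable {A : ValuationSubring Qb} {K K' : IntermediateField ℚ Qb}
variable {ξ : Qb} {hξ0 : ξ ≠ 0} {ι : FK (M * q * q) K →+* LaurentSeries Qb} {ϖ : OK A K'}
variable (H : V3.Hyp3 M q hq hqM A K K' ξ hξ0 ι ϖ)

include H

/-- `V1(M) ⊆ W3` along the level inclusion. -/
theorem incl_mem (hdvr : IsDiscreteValuationRing (OK A K)) (h : M ∣ M * q * q)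
    (x : FK M K) (hx : x ∈ GaussV.V1 M A K hdvr) :
    DegTower.incl M (M * q * q) K h x ∈ H.W3 := by
  obtain ⟨y, hy⟩ := (GaussV.mem_V1_iff hdvr).mp hx
  refine H.mem_W3_iff.mpr ⟨y, ?_⟩
  rw [V3Wit.hEinc H h x]
  exact hy

include hq in
/-- **`Hyp3W` for `H.W3`.** -/
theorem hyp3W (hdvr : IsDiscreteValuationRing (OK A K)) (hA : A.LiesOverPrime q)
    {π : OK A K} (hπ : Irreducible π)
    (hC : ChartFacts M A K (chart M A K (jK M K)) (jK M K))
    (a : A) (hqa : (q : Qb) = incO A K π * (a : Qb))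
    (hπϖ : ∃ u : A, IsUnit u ∧ incO A K π = incO A K' ϖ ^ (q - 1) * (u : Qb)) :
    Wit3Inst.Hyp3W M q hq hqM A K π H.W3 where
  le3 := V3Wit.le3 H hC
  ind3 := V3Wit.ind3 H hdvr hπ hC
  x1_pi3 := V3Wit.x1_pi3 H hdvr hA hπ a hqa
  x2_pi3 := V3Wit.x2_pi3 H hdvr hA hπ
  x3_unit3 := V3Wit.x3_unit3 H hA
  s_nonunit3 := V3Wit.s_nonunit3 H
  ram3 := V3Wit.ram3 H π hπϖ
  jqq_mem3 := (V3Wit.jqq_unit3 H).1

include hq in
/-- **`Set3.W3Facts` for `H.W3`.** -/
theorem w3Facts (hdvr : IsDiscreteValuationRing (OK A K)) (hA : A.LiesOverPrime q)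
    {π : OK A K} (hπ : Irreducible π)
    (a : A) (hqa : (q : Qb) = incO A K π * (a : Qb))
    (hπϖ : ∃ u : A, IsUnit u ∧ incO A K π = incO A K' ϖ ^ (q - 1) * (u : Qb)) :
    Set3.W3Facts M q hq hqM hdvr π H.W3 where
  le := fun x hx => incl_mem H hdvr _ x hx
  x1 := V3Wit.x1_pi3 H hdvr hA hπ a hqa
  x2 := V3Wit.x2_pi3 H hdvr hA hπ
  x3 := (V3Wit.x3_unit3 H hA).1
  x3_ne := V3Wit.x3_ne_zero H hA
  x3_inv := (V3Wit.x3_unit3 H hA).2
  s := H.s_mem
  s_inv := H.s_inv_not_mem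
  s_pow := by
    obtain ⟨z, hz, -, hπz⟩ := V3Wit.ram3 H π hπϖ
    exact ⟨z, hz, hπz⟩
  jqq := (V3Wit.jqq_unit3 H).1

include hq in
/-- **The `NValChart.Wit` instance** at level `M * q * q` for `V = ![V1, V2, H.W3]`. -/
theorem wit (hdvr : IsDiscreteValuationRing (OK A K)) (hA : A.LiesOverPrime q)
    {π : OK A K} (hπ : Irreducible π)
    (hC : ChartFacts M A K (chart M A K (jK M K)) (jK M K))
    (a : A) (hqa : (q : Qb) = incO A K π * (a : Qb))
    (hπϖ : ∃ u : A, IsUnit u ∧ incO A K π = incO A K' ϖ ^ (q - 1) * (u : Qb)) :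
    NValChart.Wit M (M * q * q) (Wit3Set.dvd_level M q) A (jK M K) π
      ![GaussV.V1 (M * q * q) A K hdvr, GaussV.V2 (WQ2.wK2 M q hq hqM K) hdvr, H.W3]
      (Model3Plan.ram q) ![1, q * q, 1]
      ![Wit3.x1 M q hq hqM K, Wit3.x2 M q hq hqM K, Wit3.x3 M q hq hqM K]
      ![algebraMap (OK A K) (FK (M * q * q) K) π, algebraMap (OK A K) (FK (M * q * q) K) π,
        Wit3.sE M q hq hqM K]
      (Wit3Inst.bfam M q hq hqM K) :=
  Wit3Inst.wit M q hq hqM A K hdvr hA hC hπ H.W3 (hyp3W H hdvr hA hπ hC a hqa hπϖ)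

include hq in
/-- **The `RamN.Hyp` instance** at level `M * q * q` for `V = ![V1, V2, H.W3]`. -/
theorem hyp3 (hdvr : IsDiscreteValuationRing (OK A K)) (hA : A.LiesOverPrime q)
    {π : OK A K} (hπ : Irreducible π)
    (a : A) (hqa : (q : Qb) = incO A K π * (a : Qb))
    (hπϖ : ∃ u : A, IsUnit u ∧ incO A K π = incO A K' ϖ ^ (q - 1) * (u : Qb)) :
    letI := Set3.algE M q (K := K)
    letI := Set3.algV M q hdvr
    haveI := GaussV.isDiscreteValuationRing_V1 (N := M) hdvr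
    haveI := Set3.isScalarTower_V M q hdvr
    RamN.Hyp (V₀ := ↥(GaussV.V1 M A K hdvr)) ↥(FK M K) (Set3.Vfam M q hq hqM hdvr H.W3)
      (GaussV.piV1 hdvr π) (Model3Plan.ram q) (Set3.f3 q) (Set3.uFam M q hq hqM K)
      (Set3.dFam M q hq hqM π) (Set3.bFam M q hq hqM K) :=
  Set3.hyp3 M q hq hqM hdvr hA hπ H.W3 (w3Facts H hdvr hA hπ a hqa hπϖ)

omit H

/-! ### Closed forms for `Iota3.iota3` (unramified base, `π = q`) -/

section Iota3

variable (M q : ℕ) [NeZero M] [NeZero q] (hq : q.Prime) (hqM : ¬ q ∣ M)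
variable (A : ValuationSubring Qb) (K : IntermediateField ℚ Qb)
variable (hdvr : IsDiscreteValuationRing (OK A K)) (hA : A.LiesOverPrime q)
variable (π : OK A K) (hπ : Irreducible π) (hπq : incO A K π = (q : Qb)) {ξ : Qb}
variable (hξ : IsPrimitiveRoot ξ q)

include hA

theorem hyp3W_iota3 (hC : ChartFacts M A K (chart M A K (jK M K)) (jK M K)) :
    Wit3Inst.Hyp3W M q hq hqM A K π (V3.hyp3_iota3 hq hqM A hdvr π hπ hπq hξ).W3 :=
  hyp3W (V3.hyp3_iota3 hq hqM A hdvr π hπ hπq hξ) hdvr hA hπ hC 1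
    (by rw [hπq, OneMemClass.coe_one, mul_one]) (BaseXi.exists_unit hq π hπ hπq hξ)

theorem w3Facts_iota3 :
    Set3.W3Facts M q hq hqM hdvr π (V3.hyp3_iota3 hq hqM A hdvr π hπ hπq hξ).W3 :=
  w3Facts (V3.hyp3_iota3 hq hqM A hdvr π hπ hπq hξ) hdvr hA hπ 1
    (by rw [hπq, OneMemClass.coe_one, mul_one]) (BaseXi.exists_unit hq π hπ hπq hξ)

theorem wit_iota3 (hC : ChartFacts M A K (chart M A K (jK M K)) (jK M K)) :
    NValChart.Wit M (M * q * q) (Wit3Set.dvd_level M q) A (jK M K) π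
      ![GaussV.V1 (M * q * q) A K hdvr, GaussV.V2 (WQ2.wK2 M q hq hqM K) hdvr,
        (V3.hyp3_iota3 hq hqM A hdvr π hπ hπq hξ).W3]
      (Model3Plan.ram q) ![1, q * q, 1]
      ![Wit3.x1 M q hq hqM K, Wit3.x2 M q hq hqM K, Wit3.x3 M q hq hqM K]
      ![algebraMap (OK A K) (FK (M * q * q) K) π, algebraMap (OK A K) (FK (M * q * q) K) π,
        Wit3.sE M q hq hqM K]
      (Wit3Inst.bfam M q hq hqM K) :=
  Wit3Inst.wit M q hq hqM A K hdvr hA hC hπ _ (hyp3W_iota3 M q hq hqM A K hdvr hA π hπ hπq hξ hC)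

theorem hyp3_iota3 :
    letI := Set3.algE M q (K := K)
    letI := Set3.algV M q hdvr
    haveI := GaussV.isDiscreteValuationRing_V1 (N := M) hdvr
    haveI := Set3.isScalarTower_V M q hdvr
    RamN.Hyp (V₀ := ↥(GaussV.V1 M A K hdvr)) ↥(FK M K)
      (Set3.Vfam M q hq hqM hdvr (V3.hyp3_iota3 hq hqM A hdvr π hπ hπq hξ).W3)
      (GaussV.piV1 hdvr π) (Model3Plan.ram q) (Set3.f3 q) (Set3.uFam M q hq hqM K)
      (Set3.dFam M q hq hqM π) (Set3.bFam M q hq hqM K) :=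
  Set3.hyp3 M q hq hqM hdvr hA hπ _ (w3Facts_iota3 M q hq hqM A K hdvr hA π hπ hπq hξ)

end Iota3

end Fermat.Agent.S36.Wit3W3InstB

end
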