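/-
S36 — CuspABInst.lean (helper119; [N10]/[CUSP3], leaf [CUSP-c], second route, CLOSED).

* `hf3_one`        : residue degree one of `W3` at level `1 · q²` over level one, for the algebraic
                     middle-cusp embedding `Iota3.iota3 1 q K …` (`ResDeg3Inst.hf3` applied to the
                     chart witness `Wit3W3InstB.wit_iota3` at `M := 1`; the level-one chart facts
                     are `S34.Red2B.chartFacts` at `M := 1`);
* `exists_rat`     : `yTheta k q = -(θ j̄ / j̄) ^ (q - 1)` is the Gauss reduction of a level-one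
                     function;
* `exists_AB`      : **[CUSP-c], hypothesis-free**: for `H : V3.Hyp3 …` (level `M q²`),
                     `u = (j_{q²} / j - 1) ^ (q - 1) / π`, `π = q`: there are `A, B ∈ O[X]` with
                     `A(0), B(0) ∈ Oˣ` and `u · B(j⁻¹) - A(j⁻¹) ∈ 𝔪(W3)`;
* `exists_KS`      : the same in the shape `u * π = (j_{q²} / j - 1) ^ (q - 1)`,
                     `u · b(j⁻¹) - a(j⁻¹) = s · z`, `z ∈ W3` (the `hKS` binder of the cusp
                     assemblies);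
* `exists_AB_iota3`: the instance `H := V3.hyp3_iota3 …`.
-/
import Mathlib
import Fermat.Agent.S36.CuspAB
import Fermat.Agent.S36.ResDeg3Inst
import Fermat.Agent.S36.Wit3W3InstB
import Fermat.Agent.S34.Red2B

set_option autoImplicit false

noncomputable section

namespace Fermat.Agent.S36.CuspABInst

open ModularCurve Polynomial Fermat.Agent.S18.Arith Fermat.Agent.S18.ModelPlan
open Fermat.Agent.S24 Fermat.Agent.S28 Fermat.Agent.S34 Fermat.Agent.S36
open Fermat.Agent.S18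

variable {q : ℕ} [NeZero q] {A : ValuationSubring Qb} {K : IntermediateField ℚ Qb}

local notation "kA" => IsLocalRing.ResidueField A

omit [NeZero q] in
theorem not_dvd_one (hq : q.Prime) : ¬ q ∣ 1 := fun h => hq.one_lt.ne' (Nat.dvd_one.mp h)

/-- **Residue degree one of `W3` over level ONE** (level `1 · q²`), for `Iota3.iota3`. -/
theorem hf3_one (hq : q.Prime) (hA : A.LiesOverPrime q) (hB : BaseFacts q A K)
    (π : OK A K) (hπ : Irreducible π) (hπq : incO A K π = (q : Qb)) {ξ : Qb}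
    (hξ : IsPrimitiveRoot ξ q) :
    ∀ (x : FK (1 * q * q) K) (y : LaurentSeries kA),
      GRel A (Iota3.iota3 1 q K hq (not_dvd_one hq) ξ hξ.pow_eq_one (hξ.ne_one hq.one_lt) x) y →
      ∃ x' : FK 1 K, GRel A ((x' : FK 1 K) : LaurentSeries Qb) y := by
  have H₁ := V3.hyp3_iota3 (M := 1) hq (not_dvd_one hq) A hB.dvr π hπ hπq hξ
  have hC : ChartFacts 1 A K (chart 1 A K (jK 1 K)) (jK 1 K) :=
    Red2B.chartFacts 1 q hq (not_dvd_one hq) A K hA hB
  exact ResDeg3Inst.hf3 1 q hq hB.dvr hπ hC H₁.emb H₁.dvr' H₁.mid.alpha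
    (Wit3W3InstB.wit_iota3 1 q hq (not_dvd_one hq) A K hB.dvr hA π hπ hπq hξ hC)

/-- `yTheta k q = -(θ j̄ / j̄) ^ (q - 1)` is the Gauss reduction of a level-one function. -/
theorem exists_rat (hq : q.Prime) (hA : A.LiesOverPrime q) (hB : BaseFacts q A K)
    (π : OK A K) (hπ : Irreducible π) (hπq : incO A K π = (q : Qb)) {ξ : Qb}
    (hξ : IsPrimitiveRoot ξ q) :
    ∃ x' : FK 1 K, GRel A ((x' : FK 1 K) : LaurentSeries Qb) (V3Theta.yTheta kA q) :=
  hf3_one hq hA hB π hπ hπq hξ _ _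
    (V3Theta.gRel_delta_pow (V3.hyp3_iota3 (M := 1) hq (not_dvd_one hq) A hB.dvr π hπ hπq hξ)
      hA π hπq)

section LevelN

variable {M : ℕ} [NeZero M] {hq : q.Prime} {hqM : ¬ q ∣ M} {K' : IntermediateField ℚ Qb}
variable {ξ : Qb} {hξ0 : ξ ≠ 0} {ι : FK (M * q * q) K →+* LaurentSeries Qb} {ϖ : OK A K'}
variable (H : V3.Hyp3 M q hq hqM A K K' ξ hξ0 ι ϖ)

include H

/-- **[CUSP-c], hypothesis-free.**  `u = (j_{q²} / j - 1) ^ (q - 1) / π` (`π = q`) satisfies
`u · B(j⁻¹) - A(j⁻¹) ∈ 𝔪(W3)` for polynomials `A, B ∈ O[X]` with `A(0), B(0) ∈ Oˣ`. -/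
theorem exists_AB (hA : A.LiesOverPrime q) (hB : BaseFacts q A K) (π : OK A K)
    (hπ : Irreducible π) (hπq : incO A K π = (q : Qb)) :
    ∃ A' B' : (OK A K)[X], IsUnit (A'.coeff 0) ∧ IsUnit (B'.coeff 0) ∧
      (WQ2.jqqK2 M q hq hqM K / jK (M * q * q) K - 1) ^ (q - 1)
          / algebraMap (OK A K) (FK (M * q * q) K) π * aeval (jK (M * q * q) K)⁻¹ B'
        - aeval (jK (M * q * q) K)⁻¹ A' ∈ H.W3.nonunits :=
  CuspAB.exists_AB_of_rat H hA π hπq (exists_rat hq hA hB π hπ hπq (V3Wit.isPrimitiveRoot H))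

/-- The same in the shape of the `hKS` binder of the cusp assemblies: `u` ANY element with
`u * π = (j_{q²} / j - 1) ^ (q - 1)`, and `u · b(j⁻¹) - a(j⁻¹) = s · z` with `z ∈ W3`. -/
theorem exists_KS (hA : A.LiesOverPrime q) (hB : BaseFacts q A K) (π : OK A K)
    (hπ : Irreducible π) (hπq : incO A K π = (q : Qb)) {u : FK (M * q * q) K}
    (hu : u * algebraMap (OK A K) (FK (M * q * q) K) π
      = (WQ2.jqqK2 M q hq hqM K / jK (M * q * q) K - 1) ^ (q - 1)) :
    ∃ a b : (OK A K)[X], IsUnit (a.coeff 0) ∧ IsUnit (b.coeff 0) ∧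
      ∃ z ∈ H.W3, u * aeval (jK (M * q * q) K)⁻¹ b - aeval (jK (M * q * q) K)⁻¹ a
        = Wit3.sE M q hq hqM K * z := by
  have hπ0 : algebraMap (OK A K) (FK (M * q * q) K) π ≠ 0 := by
    intro h0
    have h1 := V3Wit.hEc H π
    rw [h0, map_zero, hπq] at h1
    exact V3Theta.C_natCast_ne_zero q h1.symm
  have hu' : u = (WQ2.jqqK2 M q hq hqM K / jK (M * q * q) K - 1) ^ (q - 1)
      / algebraMap (OK A K) (FK (M * q * q) K) π := by
    rw [← hu, mul_div_assoc, div_self hπ0, mul_one]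
  obtain ⟨A', B', hA', hB', hmem⟩ := exists_AB H hA hB π hπ hπq
  obtain ⟨z, hz, hzeq⟩ := CuspAB.exists_eq_s_mul_of_mem_nonunits H hmem
  exact ⟨A', B', hA', hB', z, hz, by rw [hu']; exact hzeq⟩

end LevelN

/-- The instance for the algebraic middle-cusp embedding `Iota3.iota3` at level `M q²`. -/
theorem exists_AB_iota3 (M : ℕ) [NeZero M] (hq : q.Prime) (hqM : ¬ q ∣ M)
    (hA : A.LiesOverPrime q) (hB : BaseFacts q A K) (π : OK A K)
    (hπ : Irreducible π) (hπq : incO A K π = (q : Qb)) {ξ : Qb} (hξ : IsPrimitiveRoot ξ q) :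
    ∃ A' B' : (OK A K)[X], IsUnit (A'.coeff 0) ∧ IsUnit (B'.coeff 0) ∧
      (WQ2.jqqK2 M q hq hqM K / jK (M * q * q) K - 1) ^ (q - 1)
          / algebraMap (OK A K) (FK (M * q * q) K) π * aeval (jK (M * q * q) K)⁻¹ B'
        - aeval (jK (M * q * q) K)⁻¹ A'
        ∈ (V3.hyp3_iota3 hq hqM A hB.dvr π hπ hπq hξ).W3.nonunits :=
  exists_AB (V3.hyp3_iota3 hq hqM A hB.dvr π hπ hπq hξ) hA hB π hπ hπq

end Fermat.Agent.S36.CuspABInst
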