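/-
S36 — CuspAsm.lean (helper112; block [N10]/[CUSP3], ASSEMBLY of the A-package in hypothesis
form; Mathlib + `CuspGen`).

`R` a chart (integrally closed, `E = Frac R`), `j, jq, jqq ∈ Eˣ`, and chart elements
`X = j⁻¹`, `Z = jq⁻¹`, `Y = jqq⁻¹`, `v1 = jq / j ^ d`, `v2 = jq / jqq ^ d` (`d = q`) with
`v2 ≡ 1` modulo `P 2`.  At a prime `n ⊇ P 2` containing `X * Y * Z` ("a cuspidal point of `W3`")
which lies neither on `P 0` nor on `P 1` ([CUSP1]):

* `X ∈ n`                               (`X ^ d = Z * v1`, `Y ^ d = v2 * Z`);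
* `jqq / j` is regular at `n`           (`(v2 * (jqq / j)) ^ d = v1 * v2 ^ (d - 1) ∈ R`,
                                          `R` integrally closed, `v2 ∉ n`);
* given `A, B ∈ O[X]` with unit constant coefficients and the unit congruence ([CUSP-c])
  `(jqq / j - 1) ^ (e 2) * B(j⁻¹) = π * (A(j⁻¹) + ϖ 2 * z)`, `z ∈ V 2`,
  the element `a = v2 * (jqq / j) - v2` generates `P 2` locally at `n`
  (`CuspGen.hB1_of_unitCong_field`).

The conclusion is the shape `hB1` of `Princ3.princ_of_triple` with `i = 2`.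
-/
import Mathlib
import Fermat.Agent.S36.CuspGen

set_option autoImplicit false

namespace Fermat.Agent.S36.CuspAsm

open Fermat.Agent.S36.Model3Plan Polynomial

variable {O : Type*} [CommRing O] {R : Type*} [CommRing R] [Algebra O R]
  {E : Type*} [Field E] [Algebra R E]
  {π : O} {e : Fin 3 → ℕ} {ϖ : Fin 3 → E} {V : Fin 3 → ValuationSubring E}
  {P : Fin 3 → Ideal R}

/-- `B(X) ∉ n` for `X ∈ n` and `B ∈ O[X]` with unit constant coefficient. -/
theorem aeval_notMem (n : Ideal R) (hn : n ≠ ⊤) (X : R) (hX : X ∈ n) (B : O[X])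
    (hB : IsUnit (B.coeff 0)) : aeval X B ∉ n := by
  intro hmem
  have h1 : aeval X B = aeval X B.divX * X + algebraMap O R (B.coeff 0) := by
    conv_lhs => rw [← Polynomial.divX_mul_X_add B]
    simp only [map_add, map_mul, aeval_X, aeval_C]
  have h2 : algebraMap O R (B.coeff 0) ∈ n := by
    have := n.sub_mem hmem (n.mul_mem_left (aeval X B.divX) hX)
    rwa [h1, add_sub_cancel_left] at this
  exact hn (Ideal.eq_top_of_isUnit_mem _ h2 (hB.map _))

/-- `X ∈ n` at a cuspidal point: from `X * Y * Z ∈ n`, `X ^ d = Z * v1`, `Y ^ d = v2 * Z`,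
`v2 ∉ n`. -/
theorem mem_of_prod_mem (n : Ideal R) (hn : n.IsPrime) (X Y Z v1 v2 : R) (d : ℕ) (hd : d ≠ 0)
    (h1 : X ^ d = Z * v1) (h2 : Y ^ d = v2 * Z) (hv2 : v2 ∉ n) (hmem : X * Y * Z ∈ n) :
    X ∈ n := by
  have hZ : Z ∈ n → X ∈ n := by
    intro hZ
    have : X ^ d ∈ n := by rw [h1]; exact n.mul_mem_right _ hZ
    exact hn.mem_of_pow_mem _ this
  rcases hn.mem_or_mem hmem with h3 | h3
  · rcases hn.mem_or_mem h3 with h4 | h4
    · exact h4
    · have h5 : v2 * Z ∈ n := by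
        rw [← h2]
        exact n.pow_mem_of_mem h4 d (Nat.pos_of_ne_zero hd)
      exact hZ ((hn.mem_or_mem h5).resolve_left hv2)
  · exact hZ h3

/-- **[N10], assembly.**  See the file header. -/
theorem cusp_hB1_asm [Algebra O E] [IsScalarTower O R E] [IsIntegrallyClosed R]
    [IsFractionRing R E]
    (val : ValHyp3 (algebraMap R E (algebraMap O R π)) e ϖ V)
    (hyp : ChartHyp3 π ϖ V P) (hp0 : algebraMap R E (algebraMap O R π) ≠ 0)
    (j jq jqq : E) (hj : j ≠ 0) (hjq : jq ≠ 0) (hjqq : jqq ≠ 0) (d : ℕ) (hd : d ≠ 0)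
    (X Y Z v1 v2 : R) (hX : algebraMap R E X = j⁻¹) (hY : algebraMap R E Y = jqq⁻¹)
    (hZ : algebraMap R E Z = jq⁻¹) (hv1 : algebraMap R E v1 = jq / j ^ d)
    (hv2 : algebraMap R E v2 = jq / jqq ^ d) (hv2' : v2 - 1 ∈ P 2)
    (A B : O[X]) (hA : IsUnit (A.coeff 0)) (hB : IsUnit (B.coeff 0))
    (z : E) (hz : z ∈ V 2)
    (hks : (jqq / j - 1) ^ e 2 * aeval j⁻¹ B =
      algebraMap R E (algebraMap O R π) * (aeval j⁻¹ A + ϖ 2 * z))
    (n : Ideal R) (hn : n.IsPrime) (hP2 : P 2 ≤ n) (hP0 : ¬ P 0 ≤ n) (hP1 : ¬ P 1 ≤ n)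
    (hmem : X * Y * Z ∈ n) :
    ∃ i : Fin 3, P i ≤ n ∧ ∃ g ∈ P i, ∀ y ∈ P i, ∃ t : R, t ∉ n ∧ ∃ c : R, t * y = c * g := by
  have hinj : Function.Injective (algebraMap R E) := IsFractionRing.injective R E
  have h1n : (1 : R) ∉ n := fun h => hn.ne_top ((Ideal.eq_top_iff_one n).mpr h)
  obtain ⟨k, rfl⟩ : ∃ k : ℕ, d = k + 1 := ⟨d - 1, by omega⟩
  -- `v2 ∉ n`
  have hv2n : v2 ∉ n := by
    intro hmem2
    apply h1n
    have := n.sub_mem hmem2 (hP2 hv2')
    rwa [sub_sub_cancel] at this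
  -- `X ∈ n`
  have hXn : X ∈ n := by
    refine mem_of_prod_mem n hn X Y Z v1 v2 (k + 1) hd ?_ ?_ hv2n hmem
    · apply hinj
      rw [map_pow, map_mul, hX, hZ, hv1, inv_pow]
      have hb : j ^ (k + 1) ≠ 0 := pow_ne_zero _ hj
      field_simp
    · apply hinj
      rw [map_pow, map_mul, hY, hZ, hv2, inv_pow]
      have hb : jqq ^ (k + 1) ≠ 0 := pow_ne_zero _ hjqq
      field_simp
  -- `v2 * (jqq / j) ∈ R`
  obtain ⟨r, hr⟩ : ∃ r : R, algebraMap R E r = algebraMap R E v2 * (jqq / j) := by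
    have hint : IsIntegral R (algebraMap R E v2 * (jqq / j)) := by
      refine IsIntegral.of_pow (Nat.succ_pos k) ?_
      have : (algebraMap R E v2 * (jqq / j)) ^ (k + 1) = algebraMap R E (v1 * v2 ^ k) := by
        rw [map_mul, map_pow, hv1, hv2, mul_pow, div_pow jqq j]
        have ha : jqq ^ (k + 1) ≠ 0 := pow_ne_zero _ hjqq
        have hb : j ^ (k + 1) ≠ 0 := pow_ne_zero _ hj
        generalize jqq ^ (k + 1) = a at ha ⊢
        generalize j ^ (k + 1) = b at hb ⊢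
        rw [pow_succ (jq / a) k]
        field_simp
      rw [this]
      exact isIntegral_algebraMap
    exact IsIntegrallyClosed.isIntegral_iff.mp hint
  -- the data of `hB1_of_unitCong_field`
  have hδ : (jqq / j - 1) * algebraMap R E v2 = algebraMap R E (r - v2) := by
    rw [map_sub, hr]
    ring
  have hsB : algebraMap R E (aeval X B) = aeval j⁻¹ B := by
    rw [← hX, Polynomial.aeval_algebraMap_apply]
  have hsA : algebraMap R E (aeval X A) = aeval j⁻¹ A := by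
    rw [← hX, Polynomial.aeval_algebraMap_apply]
  exact CuspGen.hB1_of_unitCong_field val hyp hp0 hinj n hn hP2 hP0 hP1 (jqq / j - 1) (r - v2) v2
    (aeval X B) (aeval X A) hv2n (aeval_notMem n hn.ne_top X hXn B hB)
    (aeval_notMem n hn.ne_top X hXn A hA) hδ z hz (by rw [hsB, hsA]; exact hks)

/-- The same with the unit congruence in quotient form: `u = (jqq / j - 1) ^ (e 2) / π`
(`u * π = (jqq / j - 1) ^ (e 2)`) and `u * B(j⁻¹) - A(j⁻¹) = ϖ 2 * z`, `z ∈ V 2`. -/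
theorem cusp_hB1_asm' [Algebra O E] [IsScalarTower O R E] [IsIntegrallyClosed R]
    [IsFractionRing R E]
    (val : ValHyp3 (algebraMap R E (algebraMap O R π)) e ϖ V)
    (hyp : ChartHyp3 π ϖ V P) (hp0 : algebraMap R E (algebraMap O R π) ≠ 0)
    (j jq jqq : E) (hj : j ≠ 0) (hjq : jq ≠ 0) (hjqq : jqq ≠ 0) (d : ℕ) (hd : d ≠ 0)
    (X Y Z v1 v2 : R) (hX : algebraMap R E X = j⁻¹) (hY : algebraMap R E Y = jqq⁻¹)
    (hZ : algebraMap R E Z = jq⁻¹) (hv1 : algebraMap R E v1 = jq / j ^ d)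
    (hv2 : algebraMap R E v2 = jq / jqq ^ d) (hv2' : v2 - 1 ∈ P 2)
    (A B : O[X]) (hA : IsUnit (A.coeff 0)) (hB : IsUnit (B.coeff 0))
    (u z : E) (hz : z ∈ V 2)
    (hu : u * algebraMap R E (algebraMap O R π) = (jqq / j - 1) ^ e 2)
    (hks : u * aeval j⁻¹ B - aeval j⁻¹ A = ϖ 2 * z)
    (n : Ideal R) (hn : n.IsPrime) (hP2 : P 2 ≤ n) (hP0 : ¬ P 0 ≤ n) (hP1 : ¬ P 1 ≤ n)
    (hmem : X * Y * Z ∈ n) :
    ∃ i : Fin 3, P i ≤ n ∧ ∃ g ∈ P i, ∀ y ∈ P i, ∃ t : R, t ∉ n ∧ ∃ c : R, t * y = c * g := by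
  refine cusp_hB1_asm val hyp hp0 j jq jqq hj hjq hjqq d hd X Y Z v1 v2 hX hY hZ hv1 hv2 hv2'
    A B hA hB z hz ?_ n hn hP2 hP0 hP1 hmem
  rw [← hu]
  linear_combination algebraMap R E (algebraMap O R π) * hks

end Fermat.Agent.S36.CuspAsm
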