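/-
S36 — CuspAsmInst.lean (helper130; block [N10]/[CUSP3], ALGEBRAIC route, CLOSED INSTANCE at the
objects of record; dealt by helper112).

`hB1` of `Princ3.princ_of_triple` / `hcusp2` of `Princ3Cases.princ_of_cases` at the cuspidal
closed points of the middle component `W3`, on the chart at infinity
`R = chart (M q²) A K J3⁻¹`, for

  `V = ![V1, V2, H.W3]`,  `ϖ = ![π, π, s]` (`s = Wit3.sE = jqq - j`),  `e = Model3Plan.ram q`

(the families of `Val3.valHyp3` / `V3Wit.valHyp3`), `H : V3.Hyp3` any middle-cusp datum.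

Route: `CuspAsmLoc.cusp_hB1_loc` (modular equation `Φ_q(jq, j) = 0 = Φ_q(jq, jqq)` + Kronecker
modulo `π` on `W3`; no (KS), no residue degree one, no polynomials `A, B`; `q = 2` included).

Open inputs, as NAMED hypotheses in helper89's shapes (`CuspOne.one_branch`):
  (hμ)  `jq * j⁻¹ ^ q ∈ chart J3⁻¹`,   (hμ₂) `jqq * jq⁻¹ ^ q ∈ chart J3⁻¹`   ([CUSP-a]).

* `root_j`, `root_jqq`  : the two roots of the modular equation in `F_K(M q²)`;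
* `cusp2_of_oneBranch`  : the conclusion at a prime `n` with [CUSP1] as a hypothesis (needs (hμ));
* `cusp2`               : closed modulo (hμ), (hμ₂) ([CUSP1] from `CuspOne.one_branch`);
* `hcusp2`              : the same in the shape of `Princ3Cases.princ_of_cases`
                          (`C n := ⟨J3⁻¹, _⟩ ∉ n`);
* `natCast_eq_of_incO`  : `q = π * 1` from the unramified-base shape `incO A K π = q`.
-/
import Mathlib
import Fermat.Agent.S36.CuspAsmLoc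
import Fermat.Agent.S36.CuspMono
import Fermat.Agent.S36.CuspOne
import Fermat.Agent.S36.Chart3B
import Fermat.Agent.S36.V3Wit

set_option autoImplicit false

namespace Fermat.Agent.S36.CuspAsmInst

open ModularCurve ModularCurve.IgusaScheme AlgebraicCurve HahnSeries Fermat.Agent.S18.Arith
open Fermat.Agent.S18 Fermat.Agent.S24 Fermat.Agent.S28 Fermat.Agent.S34
open Fermat.Agent.S36

variable (M q : ℕ) [NeZero M] [NeZero q] (hq : q.Prime) (hqM : ¬ q ∣ M)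
variable (A : ValuationSubring Qb) (K : IntermediateField ℚ Qb)

/-- `Φ_q(X = jq, Y = j) = 0` in `F_K(M q²)`. -/
theorem root_j (Hd : HeckeData q) :
    (PhiAt Hd.Φ (jK (M * q * q) K)).eval (WQ2.jqK2 M q hq hqM K) = 0 := by
  apply PhiShape.eval_phiAt_of_injective (FK (M * q * q) K).subtype Subtype.val_injective
  show (PhiAt Hd.Φ ((jK (M * q * q) K : FK (M * q * q) K) : LaurentSeries Qb)).eval
    ((WQ2.jqK2 M q hq hqM K : FK (M * q * q) K) : LaurentSeries Qb) = 0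
  rw [ModelQFrac.coe_jK, WQ2.coe_jqK2, ← S28.jd_one]
  exact PhiShape.root_ring Hd Qb

/-- `Φ_q(X = jq, Y = jqq) = 0` in `F_K(M q²)`. -/
theorem root_jqq (Hd : HeckeData q) :
    (PhiAt Hd.Φ (WQ2.jqqK2 M q hq hqM K)).eval (WQ2.jqK2 M q hq hqM K) = 0 := by
  apply PhiShape.eval_phiAt_of_injective (FK (M * q * q) K).subtype Subtype.val_injective
  show (PhiAt Hd.Φ ((WQ2.jqqK2 M q hq hqM K : FK (M * q * q) K) : LaurentSeries Qb)).eval
    ((WQ2.jqK2 M q hq hqM K : FK (M * q * q) K) : LaurentSeries Qb) = 0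
  rw [WQ2.coe_jqqK2, WQ2.coe_jqK2]
  exact PhiShape.root'_jd Qb Hd q

omit [NeZero q] in
variable {A K} in
/-- `q = π * 1` in `O_K` from the unramified-base shape `incO A K π = q`. -/
theorem natCast_eq_of_incO {π : OK A K} (hπq : incO A K π = (q : Qb)) :
    ((q : ℕ) : OK A K) = π * 1 := by
  rw [mul_one]
  have hinj : Function.Injective (incO A K) := fun a b h =>
    Subtype.ext ((algebraMap K Qb).injective h)
  apply hinj
  rw [map_natCast, hπq]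

variable {M q hq hqM A K}
variable {K' : IntermediateField ℚ Qb} {ξ : Qb} {hξ0 : ξ ≠ 0}
  {ι : FK (M * q * q) K →+* LaurentSeries Qb} {ϖ' : OK A K'}

/-- **[N10], closed instance with [CUSP1] as a hypothesis.** -/
theorem cusp2_of_oneBranch (H : V3.Hyp3 M q hq hqM A K K' ξ hξ0 ι ϖ')
    (hdvr : IsDiscreteValuationRing (OK A K)) (hA : A.LiesOverPrime q)
    {π : OK A K} (hπ : Irreducible π) (ε : OK A K) (hε : IsUnit ε)
    (hqε : ((q : ℕ) : OK A K) = π * ε)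
    {P : Fin 3 → Ideal ↥(chart (M * q * q) A K (Chart3B.J3 M q hq hqM K)⁻¹)}
    (val : Model3Plan.ValHyp3 (algebraMap (OK A K) (FK (M * q * q) K) π) (Model3Plan.ram q)
      ![algebraMap (OK A K) (FK (M * q * q) K) π, algebraMap (OK A K) (FK (M * q * q) K) π,
        Wit3.sE M q hq hqM K]
      ![GaussV.V1 (M * q * q) A K hdvr, GaussV.V2 (WQ2.wK2 M q hq hqM K) hdvr, H.W3])
    (hyp : Model3Plan.ChartHyp3 π
      ![algebraMap (OK A K) (FK (M * q * q) K) π, algebraMap (OK A K) (FK (M * q * q) K) π,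
        Wit3.sE M q hq hqM K]
      ![GaussV.V1 (M * q * q) A K hdvr, GaussV.V2 (WQ2.wK2 M q hq hqM K) hdvr, H.W3] P)
    (hμ : WQ2.jqK2 M q hq hqM K * (jK (M * q * q) K)⁻¹ ^ q ∈
      chart (M * q * q) A K (Chart3B.J3 M q hq hqM K)⁻¹)
    (n : Ideal ↥(chart (M * q * q) A K (Chart3B.J3 M q hq hqM K)⁻¹)) (hn : n.IsPrime)
    (hπn : algebraMap (OK A K) ↥(chart (M * q * q) A K (Chart3B.J3 M q hq hqM K)⁻¹) π ∈ n)
    (hJ : (⟨(Chart3B.J3 M q hq hqM K)⁻¹, Chart3B.J3_inv_mem_chart M q hq hqM A K⟩ :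
      ↥(chart (M * q * q) A K (Chart3B.J3 M q hq hqM K)⁻¹)) ∈ n)
    (hP2 : P 2 ≤ n) (hP0 : ¬ P 0 ≤ n) (hP1 : ¬ P 1 ≤ n) :
    ∃ i : Fin 3, P i ≤ n ∧ ∃ g ∈ P i, ∀ y ∈ P i,
      ∃ s : ↥(chart (M * q * q) A K (Chart3B.J3 M q hq hqM K)⁻¹), s ∉ n ∧
        ∃ c : ↥(chart (M * q * q) A K (Chart3B.J3 M q hq hqM K)⁻¹), s * y = c * g := by
  obtain ⟨Hd⟩ := exists_heckeData q hq
  obtain ⟨-, ⟨-, hfrac, hintcl⟩, -, -⟩ := Chart3B.rings M q hq hqM A K hdvr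
  have hj0 : jK (M * q * q) K ≠ 0 := CuspMono.jK_ne_zero M q K
  have hjq0 : WQ2.jqK2 M q hq hqM K ≠ 0 := CuspMono.jqK2_ne_zero M q hq hqM K
  have hjqq0 : WQ2.jqqK2 M q hq hqM K ≠ 0 := CuspMono.jqqK2_ne_zero M q hq hqM K
  have hne : WQ2.jqqK2 M q hq hqM K ≠ jK (M * q * q) K := by
    intro h
    apply H.s_ne_zero
    rw [Wit3.sE, h, sub_self]
  have hp0 : algebraMap (OK A K) (FK (M * q * q) K) π ≠ 0 :=
    GaussV.algebraMap_ne_zero (M * q * q) A K hπ.ne_zero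
  -- the chart elements
  set R := ↥(chart (M * q * q) A K (Chart3B.J3 M q hq hqM K)⁻¹) with hR
  let X : R := ⟨(jK (M * q * q) K)⁻¹, Chart3B.jK_inv_mem_chart_J3_inv M q hq hqM A K⟩
  let Y : R := ⟨(WQ2.jqqK2 M q hq hqM K)⁻¹, Chart3B.jqqK2_inv_mem_chart_J3_inv M q hq hqM A K⟩
  let Z : R := ⟨(WQ2.jqK2 M q hq hqM K)⁻¹, Chart3B.jqK2_inv_mem_chart_J3_inv M q hq hqM A K⟩
  let v1 : R := ⟨WQ2.jqK2 M q hq hqM K * (jK (M * q * q) K)⁻¹ ^ q, hμ⟩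
  let v2 : R := ⟨WQ2.wK2 M q hq hqM K (WQ2.jqK2 M q hq hqM K * (jK (M * q * q) K)⁻¹ ^ q),
    Chart3B.wK2_mem_chart_J3_inv M q hq hqM A K hμ⟩
  have hv1 : algebraMap R (FK (M * q * q) K) v1 =
      WQ2.jqK2 M q hq hqM K / jK (M * q * q) K ^ q := by
    show WQ2.jqK2 M q hq hqM K * (jK (M * q * q) K)⁻¹ ^ q = _
    rw [inv_pow, div_eq_mul_inv]
  have hv2 : algebraMap R (FK (M * q * q) K) v2 =
      WQ2.jqK2 M q hq hqM K / WQ2.jqqK2 M q hq hqM K ^ q := by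
    show WQ2.wK2 M q hq hqM K (WQ2.jqK2 M q hq hqM K * (jK (M * q * q) K)⁻¹ ^ q) = _
    rw [map_mul, map_pow, map_inv₀, WQ2.wK2_jqK2, WQ2.wK2_jK, inv_pow, div_eq_mul_inv]
  -- `v2 - 1 ∈ P 2`
  have hv2' : v2 - 1 ∈ P 2 := by
    obtain ⟨z, hz, e⟩ := CuspMono.v2_sub_one_s3 H hA
    refine (hyp.mem_P 2 _).mpr ⟨z, hz, ?_⟩
    rw [map_sub, map_one, hv2]
    exact e
  have hv2n : v2 ∉ n := by
    intro hmem2
    have h1 := n.sub_mem hmem2 (hP2 hv2')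
    rw [sub_sub_cancel] at h1
    exact hn.ne_top ((Ideal.eq_top_iff_one n).mpr h1)
  -- `X ∈ n`
  have hXn : X ∈ n := by
    refine CuspAsm.mem_of_prod_mem n hn X Y Z v1 v2 q hq.ne_zero ?_ ?_ hv2n ?_
    · apply Subtype.ext
      show ((jK (M * q * q) K)⁻¹) ^ q =
        (WQ2.jqK2 M q hq hqM K)⁻¹ * (WQ2.jqK2 M q hq hqM K * (jK (M * q * q) K)⁻¹ ^ q)
      rw [← mul_assoc, inv_mul_cancel₀ hjq0, one_mul]
    · apply Subtype.ext
      show ((WQ2.jqqK2 M q hq hqM K)⁻¹) ^ q =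
        algebraMap R (FK (M * q * q) K) v2 * (WQ2.jqK2 M q hq hqM K)⁻¹
      rw [hv2, inv_pow]
      field_simp
    · have e : X * Y * Z = (⟨(Chart3B.J3 M q hq hqM K)⁻¹,
          Chart3B.J3_inv_mem_chart M q hq hqM A K⟩ : R) := by
        apply Subtype.ext
        show (jK (M * q * q) K)⁻¹ * (WQ2.jqqK2 M q hq hqM K)⁻¹ * (WQ2.jqK2 M q hq hqM K)⁻¹ =
          (Chart3B.J3 M q hq hqM K)⁻¹
        rw [Chart3B.J3, mul_inv, mul_inv]
        ring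
      rw [e]
      exact hJ
  -- Kronecker modulo `π` on `W3`
  have hkr : ∃ y ∈ H.W3, WQ2.jqK2 M q hq hqM K / jK (M * q * q) K ^ q - 1 =
      algebraMap (OK A K) (FK (M * q * q) K) π * y := by
    obtain ⟨z, hz, e⟩ := V3Wit.x2_pi3 H hdvr hA hπ
    refine ⟨z * (jK (M * q * q) K)⁻¹ ^ q, mul_mem hz (pow_mem (V3Wit.j_unit3 H).2 _), ?_⟩
    rw [← mul_assoc, ← e, Wit3.x2, sub_mul, inv_pow, mul_inv_cancel₀ (pow_ne_zero _ hj0),
      div_eq_mul_inv]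
  exact CuspAsmLoc.cusp_hB1_loc (O := OK A K) (R := R) (E := FK (M * q * q) K) (π := π)
    (e := Model3Plan.ram q) val hyp hp0 q hq rfl Hd ε hε hqε
    (jK (M * q * q) K) (WQ2.jqK2 M q hq hqM K) (WQ2.jqqK2 M q hq hqM K) hj0 hjqq0 hne
    (root_j M q hq hqM K Hd) (root_jqq M q hq hqM K Hd) X v1 v2 rfl hv1 hv2 hv2' hkr
    (CuspMono.y_sub_one_s3 H hA) n hn hπn hP2 hP0 hP1 hXn

/-- **[N10], closed modulo [CUSP-a]**: `hB1` of `Princ3.princ_of_triple` (`i = 2`) at every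
closed point `n ∋ π, J3⁻¹` of `chart J3⁻¹` on `P 2`.  ([CUSP1] by `CuspOne.one_branch`.) -/
theorem cusp2 (H : V3.Hyp3 M q hq hqM A K K' ξ hξ0 ι ϖ')
    (hdvr : IsDiscreteValuationRing (OK A K)) (hA : A.LiesOverPrime q)
    {π : OK A K} (hπ : Irreducible π) (ε : OK A K) (hε : IsUnit ε)
    (hqε : ((q : ℕ) : OK A K) = π * ε)
    {P : Fin 3 → Ideal ↥(chart (M * q * q) A K (Chart3B.J3 M q hq hqM K)⁻¹)}
    (val : Model3Plan.ValHyp3 (algebraMap (OK A K) (FK (M * q * q) K) π) (Model3Plan.ram q)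
      ![algebraMap (OK A K) (FK (M * q * q) K) π, algebraMap (OK A K) (FK (M * q * q) K) π,
        Wit3.sE M q hq hqM K]
      ![GaussV.V1 (M * q * q) A K hdvr, GaussV.V2 (WQ2.wK2 M q hq hqM K) hdvr, H.W3])
    (hyp : Model3Plan.ChartHyp3 π
      ![algebraMap (OK A K) (FK (M * q * q) K) π, algebraMap (OK A K) (FK (M * q * q) K) π,
        Wit3.sE M q hq hqM K]
      ![GaussV.V1 (M * q * q) A K hdvr, GaussV.V2 (WQ2.wK2 M q hq hqM K) hdvr, H.W3] P)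
    (hμ : WQ2.jqK2 M q hq hqM K * (jK (M * q * q) K)⁻¹ ^ q ∈
      chart (M * q * q) A K (Chart3B.J3 M q hq hqM K)⁻¹)
    (hμ₂ : WQ2.jqqK2 M q hq hqM K * (WQ2.jqK2 M q hq hqM K)⁻¹ ^ q ∈
      chart (M * q * q) A K (Chart3B.J3 M q hq hqM K)⁻¹) :
    ∀ n : Ideal ↥(chart (M * q * q) A K (Chart3B.J3 M q hq hqM K)⁻¹), n.IsMaximal →
      algebraMap (OK A K) ↥(chart (M * q * q) A K (Chart3B.J3 M q hq hqM K)⁻¹) π ∈ n →
      (⟨(Chart3B.J3 M q hq hqM K)⁻¹, Chart3B.J3_inv_mem_chart M q hq hqM A K⟩ :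
        ↥(chart (M * q * q) A K (Chart3B.J3 M q hq hqM K)⁻¹)) ∈ n →
      P 2 ≤ n →
      ∃ i : Fin 3, P i ≤ n ∧ ∃ g ∈ P i, ∀ y ∈ P i,
        ∃ s : ↥(chart (M * q * q) A K (Chart3B.J3 M q hq hqM K)⁻¹), s ∉ n ∧
          ∃ c : ↥(chart (M * q * q) A K (Chart3B.J3 M q hq hqM K)⁻¹), s * y = c * g := by
  intro n hn hπn hJ hP2
  have hone := CuspOne.one_branch M q hq hqM A K hdvr hA hπ hyp rfl rfl rfl rfl
    ⟨1, H.W3.one_mem, (mul_one _).symm⟩ hμ hμ₂ n hn.isPrime hJ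
  exact cusp2_of_oneBranch H hdvr hA hπ ε hε hqε val hyp hμ n hn.isPrime hπn hJ hP2
    (fun h0 => absurd (hone 0 2 h0 hP2) (by decide))
    (fun h1 => absurd (hone 1 2 h1 hP2) (by decide))

/-- **`hcusp2` of `Princ3Cases.princ_of_cases`** on `chart J3⁻¹`, with
`C n := ⟨J3⁻¹, _⟩ ∉ n` ("`n` is non-cuspidal"). -/
theorem hcusp2 (H : V3.Hyp3 M q hq hqM A K K' ξ hξ0 ι ϖ')
    (hdvr : IsDiscreteValuationRing (OK A K)) (hA : A.LiesOverPrime q)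
    {π : OK A K} (hπ : Irreducible π) (ε : OK A K) (hε : IsUnit ε)
    (hqε : ((q : ℕ) : OK A K) = π * ε)
    {P : Fin 3 → Ideal ↥(chart (M * q * q) A K (Chart3B.J3 M q hq hqM K)⁻¹)}
    (val : Model3Plan.ValHyp3 (algebraMap (OK A K) (FK (M * q * q) K) π) (Model3Plan.ram q)
      ![algebraMap (OK A K) (FK (M * q * q) K) π, algebraMap (OK A K) (FK (M * q * q) K) π,
        Wit3.sE M q hq hqM K]
      ![GaussV.V1 (M * q * q) A K hdvr, GaussV.V2 (WQ2.wK2 M q hq hqM K) hdvr, H.W3])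
    (hyp : Model3Plan.ChartHyp3 π
      ![algebraMap (OK A K) (FK (M * q * q) K) π, algebraMap (OK A K) (FK (M * q * q) K) π,
        Wit3.sE M q hq hqM K]
      ![GaussV.V1 (M * q * q) A K hdvr, GaussV.V2 (WQ2.wK2 M q hq hqM K) hdvr, H.W3] P)
    (hμ : WQ2.jqK2 M q hq hqM K * (jK (M * q * q) K)⁻¹ ^ q ∈
      chart (M * q * q) A K (Chart3B.J3 M q hq hqM K)⁻¹)
    (hμ₂ : WQ2.jqqK2 M q hq hqM K * (WQ2.jqK2 M q hq hqM K)⁻¹ ^ q ∈
      chart (M * q * q) A K (Chart3B.J3 M q hq hqM K)⁻¹) :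
    ∀ n : Ideal ↥(chart (M * q * q) A K (Chart3B.J3 M q hq hqM K)⁻¹), n.IsMaximal →
      algebraMap (OK A K) ↥(chart (M * q * q) A K (Chart3B.J3 M q hq hqM K)⁻¹) π ∈ n →
      ¬ ((⟨(Chart3B.J3 M q hq hqM K)⁻¹, Chart3B.J3_inv_mem_chart M q hq hqM A K⟩ :
        ↥(chart (M * q * q) A K (Chart3B.J3 M q hq hqM K)⁻¹)) ∉ n) →
      P 2 ≤ n →
      ∃ i : Fin 3, P i ≤ n ∧ ∃ g ∈ P i, ∀ y ∈ P i,
        ∃ s : ↥(chart (M * q * q) A K (Chart3B.J3 M q hq hqM K)⁻¹), s ∉ n ∧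
          ∃ c : ↥(chart (M * q * q) A K (Chart3B.J3 M q hq hqM K)⁻¹), s * y = c * g :=
  fun n hn hπn hC hP2 =>
    cusp2 H hdvr hA hπ ε hε hqε val hyp hμ hμ₂ n hn hπn (not_not.mp hC) hP2

/-- **`hcusp01` of `Princ3Cases.princ_of_cases`** on `chart J3⁻¹` (from `CuspOne.one_branch`):
a cuspidal point does not lie on both `P 0` and `P 1`. -/
theorem hcusp01 (W3 : ValuationSubring (FK (M * q * q) K))
    (hdvr : IsDiscreteValuationRing (OK A K)) (hA : A.LiesOverPrime q)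
    {π : OK A K} (hπ : Irreducible π)
    {P : Fin 3 → Ideal ↥(chart (M * q * q) A K (Chart3B.J3 M q hq hqM K)⁻¹)}
    (hyp : Model3Plan.ChartHyp3 π
      ![algebraMap (OK A K) (FK (M * q * q) K) π, algebraMap (OK A K) (FK (M * q * q) K) π,
        Wit3.sE M q hq hqM K]
      ![GaussV.V1 (M * q * q) A K hdvr, GaussV.V2 (WQ2.wK2 M q hq hqM K) hdvr, W3] P)
    (hμ : WQ2.jqK2 M q hq hqM K * (jK (M * q * q) K)⁻¹ ^ q ∈
      chart (M * q * q) A K (Chart3B.J3 M q hq hqM K)⁻¹)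
    (hμ₂ : WQ2.jqqK2 M q hq hqM K * (WQ2.jqK2 M q hq hqM K)⁻¹ ^ q ∈
      chart (M * q * q) A K (Chart3B.J3 M q hq hqM K)⁻¹) :
    ∀ n : Ideal ↥(chart (M * q * q) A K (Chart3B.J3 M q hq hqM K)⁻¹), n.IsMaximal →
      algebraMap (OK A K) ↥(chart (M * q * q) A K (Chart3B.J3 M q hq hqM K)⁻¹) π ∈ n →
      ¬ ((⟨(Chart3B.J3 M q hq hqM K)⁻¹, Chart3B.J3_inv_mem_chart M q hq hqM A K⟩ :
        ↥(chart (M * q * q) A K (Chart3B.J3 M q hq hqM K)⁻¹)) ∉ n) →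
      ¬ P 2 ≤ n → ¬ (P 0 ≤ n ∧ P 1 ≤ n) := by
  intro n hn _ hC _ h01
  have hone := CuspOne.one_branch M q hq hqM A K hdvr hA hπ hyp rfl rfl rfl rfl
    ⟨1, W3.one_mem, (mul_one _).symm⟩ hμ hμ₂ n hn.isPrime (not_not.mp hC)
  exact absurd (hone 0 1 h01.1 h01.2) (by decide)

/-- `hcusp2` for the unramified base `incO A K π = q` (`ε = 1`), with `ValHyp3` supplied by
`V3Wit.valHyp3`. -/
theorem hcusp2_unr (H : V3.Hyp3 M q hq hqM A K K' ξ hξ0 ι ϖ')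
    (hdvr : IsDiscreteValuationRing (OK A K)) (hA : A.LiesOverPrime q)
    {π : OK A K} (hπ : Irreducible π) (hπq : incO A K π = (q : Qb))
    (hπϖ : ∃ u : A, IsUnit u ∧ incO A K π = incO A K' ϖ' ^ (q - 1) * (u : Qb))
    {P : Fin 3 → Ideal ↥(chart (M * q * q) A K (Chart3B.J3 M q hq hqM K)⁻¹)}
    (hyp : Model3Plan.ChartHyp3 π
      ![algebraMap (OK A K) (FK (M * q * q) K) π, algebraMap (OK A K) (FK (M * q * q) K) π,
        Wit3.sE M q hq hqM K]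
      ![GaussV.V1 (M * q * q) A K hdvr, GaussV.V2 (WQ2.wK2 M q hq hqM K) hdvr, H.W3] P)
    (hμ : WQ2.jqK2 M q hq hqM K * (jK (M * q * q) K)⁻¹ ^ q ∈
      chart (M * q * q) A K (Chart3B.J3 M q hq hqM K)⁻¹)
    (hμ₂ : WQ2.jqqK2 M q hq hqM K * (WQ2.jqK2 M q hq hqM K)⁻¹ ^ q ∈
      chart (M * q * q) A K (Chart3B.J3 M q hq hqM K)⁻¹) :
    ∀ n : Ideal ↥(chart (M * q * q) A K (Chart3B.J3 M q hq hqM K)⁻¹), n.IsMaximal →
      algebraMap (OK A K) ↥(chart (M * q * q) A K (Chart3B.J3 M q hq hqM K)⁻¹) π ∈ n →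
      ¬ ((⟨(Chart3B.J3 M q hq hqM K)⁻¹, Chart3B.J3_inv_mem_chart M q hq hqM A K⟩ :
        ↥(chart (M * q * q) A K (Chart3B.J3 M q hq hqM K)⁻¹)) ∉ n) →
      P 2 ≤ n →
      ∃ i : Fin 3, P i ≤ n ∧ ∃ g ∈ P i, ∀ y ∈ P i,
        ∃ s : ↥(chart (M * q * q) A K (Chart3B.J3 M q hq hqM K)⁻¹), s ∉ n ∧
          ∃ c : ↥(chart (M * q * q) A K (Chart3B.J3 M q hq hqM K)⁻¹), s * y = c * g :=
  hcusp2 H hdvr hA hπ 1 isUnit_one (natCast_eq_of_incO q hπq)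
    (V3Wit.valHyp3 H hdvr hA hπ 1 (by rw [hπq, OneMemClass.coe_one, mul_one]) hπϖ) hyp hμ hμ₂

end Fermat.Agent.S36.CuspAsmInst
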