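/-
S36 — CuspAsmU.lean (helper112; block [N10]/[CUSP3], assembly of the A-package, variant with
the unit datum given directly by chart elements; Mathlib + `CuspGen` + `CuspAsm`).

Same situation as `CuspAsm`: `R` a chart (integrally closed, `E = Frac R`), `j, jq, jqq ∈ Eˣ`,
chart elements `X = j⁻¹`, `Z = jq⁻¹`, `Y = jqq⁻¹`, `v1 = jq / j ^ d`, `v2 = jq / jqq ^ d` with
`v2 ≡ 1` modulo `P 2`, and a prime `n ⊇ P 2` containing `X * Y * Z`, not on `P 0`, `P 1`.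

* `exists_ratio`      : `jqq / j` is regular wherever `v2` is a unit: `∃ r, r = v2 * (jqq / j)`;
* `ratio_sub_mem`     : `r - v2 ∈ P 2` when `jqq / j - 1 ∈ ϖ 2 * V 2`;
* `cusp_mem_all`      : `X, Y, Z ∈ n` at a cuspidal point (`v1, v2 ∉ n`);
* `cusp_hB1_asm_unit` : the conclusion `hB1` of `Princ3.princ_of_triple` (`i = 2`) from a unit
  datum `(jqq / j - 1) ^ (e 2) * s' = π * (a' + ϖ 2 * y)` with `s', a' ∈ R ∖ n`, `y ∈ V 2`
  (no polynomials `A`, `B`: this is the shape produced by the purely algebraic treatments of the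
  modular equation, where `(jqq / j - 1) ^ (q - 1) * U = q * V'` with `U, V'` units at `n`).
-/
import Mathlib
import Fermat.Agent.S36.CuspAsm

set_option autoImplicit false

namespace Fermat.Agent.S36.CuspAsmU

open Fermat.Agent.S36.Model3Plan

variable {O : Type*} [CommRing O] {R : Type*} [CommRing R] [Algebra O R]
  {E : Type*} [Field E] [Algebra R E]
  {π : O} {e : Fin 3 → ℕ} {ϖ : Fin 3 → E} {V : Fin 3 → ValuationSubring E}
  {P : Fin 3 → Ideal R}

/-- `jqq / j` is regular wherever `v2 = jq / jqq ^ d` is a unit: `v2 * (jqq / j) ∈ R`, because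
its `d`-th power is `v1 * v2 ^ (d - 1)` and `R` is integrally closed. -/
theorem exists_ratio [IsIntegrallyClosed R] [IsFractionRing R E]
    (j jq jqq : E) (hj : j ≠ 0) (hjqq : jqq ≠ 0) (d : ℕ) (hd : d ≠ 0)
    (v1 v2 : R) (hv1 : algebraMap R E v1 = jq / j ^ d)
    (hv2 : algebraMap R E v2 = jq / jqq ^ d) :
    ∃ r : R, algebraMap R E r = algebraMap R E v2 * (jqq / j) := by
  obtain ⟨k, rfl⟩ : ∃ k : ℕ, d = k + 1 := ⟨d - 1, by omega⟩
  have hint : IsIntegral R (algebraMap R E v2 * (jqq / j)) := by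
    refine IsIntegral.of_pow (Nat.succ_pos k) ?_
    have : (algebraMap R E v2 * (jqq / j)) ^ (k + 1) = algebraMap R E (v1 * v2 ^ k) := by
      rw [map_mul, map_pow, hv1, hv2, mul_pow, div_pow jqq j]
      have ha : jqq ^ (k + 1) ≠ 0 := pow_ne_zero _ hjqq
      have hb : j ^ (k + 1) ≠ 0 := pow_ne_zero _ hj
      generalize jqq ^ (k + 1) = a at ha ⊢
      generalize j ^ (k + 1) = b at hb ⊢
      rw [pow_succ (jq / a) k]
      field_simp
    rw [this]
    exact isIntegral_algebraMap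
  exact IsIntegrallyClosed.isIntegral_iff.mp hint

/-- `r - v2 ∈ P 2` for `r = v2 * (jqq / j)`, when `jqq / j - 1 ∈ ϖ 2 * V 2`. -/
theorem ratio_sub_mem (hyp : ChartHyp3 π ϖ V P) (j jqq : E) (v2 r : R)
    (hr : algebraMap R E r = algebraMap R E v2 * (jqq / j))
    (z : E) (hz : z ∈ V 2) (hjz : jqq / j - 1 = ϖ 2 * z) : r - v2 ∈ P 2 := by
  refine (hyp.mem_P 2 (r - v2)).mpr ⟨algebraMap R E v2 * z, (V 2).mul_mem _ _ (hyp.le 2 v2) hz, ?_⟩
  rw [map_sub, hr]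
  linear_combination algebraMap R E v2 * hjz

/-- All of `X, Y, Z` lie in a prime `n ∋ X * Y * Z` when `X ^ d = Z * v1`, `Y ^ d = v2 * Z`
and `v1, v2 ∉ n`. -/
theorem cusp_mem_all (n : Ideal R) (hn : n.IsPrime) (X Y Z v1 v2 : R) (d : ℕ) (hd : d ≠ 0)
    (h1 : X ^ d = Z * v1) (h2 : Y ^ d = v2 * Z) (hv1 : v1 ∉ n) (hv2 : v2 ∉ n)
    (hmem : X * Y * Z ∈ n) : X ∈ n ∧ Y ∈ n ∧ Z ∈ n := by
  have hX : X ∈ n := CuspAsm.mem_of_prod_mem n hn X Y Z v1 v2 d hd h1 h2 hv2 hmem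
  have hZ : Z ∈ n := by
    have : Z * v1 ∈ n := by
      rw [← h1]
      exact n.pow_mem_of_mem hX d (Nat.pos_of_ne_zero hd)
    exact (hn.mem_or_mem this).resolve_right hv1
  have hY : Y ∈ n := by
    have : Y ^ d ∈ n := by
      rw [h2]
      exact n.mul_mem_left _ hZ
    exact hn.mem_of_pow_mem _ this
  exact ⟨hX, hY, hZ⟩

/-- **[N10], assembly with a direct unit datum.**  See the file header. -/
theorem cusp_hB1_asm_unit [IsIntegrallyClosed R] [IsFractionRing R E]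
    (val : ValHyp3 (algebraMap R E (algebraMap O R π)) e ϖ V)
    (hyp : ChartHyp3 π ϖ V P) (hp0 : algebraMap R E (algebraMap O R π) ≠ 0)
    (j jq jqq : E) (hj : j ≠ 0) (hjqq : jqq ≠ 0) (d : ℕ) (hd : d ≠ 0)
    (v1 v2 : R) (hv1 : algebraMap R E v1 = jq / j ^ d)
    (hv2 : algebraMap R E v2 = jq / jqq ^ d) (hv2' : v2 - 1 ∈ P 2)
    (n : Ideal R) (hn : n.IsPrime) (hP2 : P 2 ≤ n) (hP0 : ¬ P 0 ≤ n) (hP1 : ¬ P 1 ≤ n)
    (s' a' : R) (hs' : s' ∉ n) (ha' : a' ∉ n) (y : E) (hy : y ∈ V 2)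
    (h : (jqq / j - 1) ^ e 2 * algebraMap R E s' =
      algebraMap R E (algebraMap O R π) * (algebraMap R E a' + ϖ 2 * y)) :
    ∃ i : Fin 3, P i ≤ n ∧ ∃ g ∈ P i, ∀ x ∈ P i, ∃ t : R, t ∉ n ∧ ∃ c : R, t * x = c * g := by
  have hinj : Function.Injective (algebraMap R E) := IsFractionRing.injective R E
  have h1n : (1 : R) ∉ n := fun h => hn.ne_top ((Ideal.eq_top_iff_one n).mpr h)
  have hv2n : v2 ∉ n := by
    intro hmem2
    apply h1n
    have := n.sub_mem hmem2 (hP2 hv2')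
    rwa [sub_sub_cancel] at this
  obtain ⟨r, hr⟩ := exists_ratio j jq jqq hj hjqq d hd v1 v2 hv1 hv2
  have hδ : (jqq / j - 1) * algebraMap R E v2 = algebraMap R E (r - v2) := by
    rw [map_sub, hr]
    ring
  exact CuspGen.hB1_of_unitCong_field val hyp hp0 hinj n hn hP2 hP0 hP1 (jqq / j - 1) (r - v2) v2
    s' a' hv2n hs' ha' hδ y hy h

/-- The same with the unit datum as a field identity between fractions: `U = s' / t`,
`W = a' / t'` with `s', a', t, t' ∈ R ∖ n` and `(jqq / j - 1) ^ (e 2) * U = π * W`. -/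
theorem cusp_hB1_asm_unit' [IsIntegrallyClosed R] [IsFractionRing R E]
    (val : ValHyp3 (algebraMap R E (algebraMap O R π)) e ϖ V)
    (hyp : ChartHyp3 π ϖ V P) (hp0 : algebraMap R E (algebraMap O R π) ≠ 0)
    (j jq jqq : E) (hj : j ≠ 0) (hjqq : jqq ≠ 0) (d : ℕ) (hd : d ≠ 0)
    (v1 v2 : R) (hv1 : algebraMap R E v1 = jq / j ^ d)
    (hv2 : algebraMap R E v2 = jq / jqq ^ d) (hv2' : v2 - 1 ∈ P 2)
    (n : Ideal R) (hn : n.IsPrime) (hP2 : P 2 ≤ n) (hP0 : ¬ P 0 ≤ n) (hP1 : ¬ P 1 ≤ n)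
    (s' a' t t' : R) (hs' : s' ∉ n) (ha' : a' ∉ n) (ht : t ∉ n) (ht' : t' ∉ n) (U W : E)
    (hU : U * algebraMap R E t = algebraMap R E s') (hW : W * algebraMap R E t' = algebraMap R E a')
    (h : (jqq / j - 1) ^ e 2 * U = algebraMap R E (algebraMap O R π) * W) :
    ∃ i : Fin 3, P i ≤ n ∧ ∃ g ∈ P i, ∀ x ∈ P i, ∃ t : R, t ∉ n ∧ ∃ c : R, t * x = c * g := by
  refine cusp_hB1_asm_unit val hyp hp0 j jq jqq hj hjqq d hd v1 v2 hv1 hv2 hv2' n hn hP2 hP0 hP1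
    (s' * t') (a' * t) (fun hm => (hn.mem_or_mem hm).elim hs' ht')
    (fun hm => (hn.mem_or_mem hm).elim ha' ht) 0 (V 2).zero_mem ?_
  rw [map_mul, map_mul, ← hU, ← hW, mul_zero, add_zero]
  linear_combination algebraMap R E t * algebraMap R E t' * h

end Fermat.Agent.S36.CuspAsmU
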