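/-
S36 — CuspUnitAlg.lean (helper48; package [N10], sub-block [CUSP-u-alg] of helper16, board #3246).

The UNIT STEP at the cuspidal closed points of the middle component `W3`, purely algebraically
(Mathlib only).  In the application `S = R_n` is the local ring of the level-`q²` chart at a
cuspidal closed point `n` of `W3`, `𝔪 = n R_n`, `z = j⁻¹`, `e = jq · z^q`, `w = jqq · z`,
`e = 1 + q κ` (Kronecker on `W3`), and

  `F(t) = z^(q²+q) · Φ_q(t · j, jq) = (t^q - e)(t z^(q²-1) - e^q) + q · ∑_a g_a t^a`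

is the `z`-homogenised modular polynomial (`Φ_q = (X^q - Y)(X - Y^q) + q Θ`, every monomial
`X^a Y^b` of weight `a + q b ≤ q² + q`, so that `g_a ∈ S`, and `g_a ∈ z S` unless `q ∣ a`), with
the two roots `F(1) = 0 = F(w)`.  Subtracting the two relations and dividing by `w - 1` gives the
exact identity

  `(w - 1)^(q-1) · U = q · V`,   `U ≡ -1`, `V ≡ 1` modulo `𝔪`,

i.e. `(jqq / j - 1)^(q-1) = q · (unit of R_n)`.

* `exists_geom_eq` : in `ℤ[X]`, `∑_{i<q} X^i = (X - 1)^(q-1) + q · B` with `B(1) = 1`;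
* `unit_identity`  : the identity above (statement of record: helper16's glue
                     `S36/CuspUnitInst.lean` ends with `exact CuspUnitAlg.unit_identity …`).
-/
import Mathlib

set_option autoImplicit false

namespace Fermat.Agent.S36.CuspUnitAlg

open Polynomial Finset

/-- In `ℤ[X]`: `∑_{i<q} X^i = (X - 1)^(q-1) + q · B` with `B(1) = 1` (`q` prime). -/
theorem exists_geom_eq (q : ℕ) (hq : q.Prime) :
    ∃ B : ℤ[X], (∑ i ∈ range q, (X : ℤ[X]) ^ i) = (X - 1) ^ (q - 1) + (q : ℤ[X]) * B ∧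
      B.eval 1 = 1 := by
  obtain ⟨r, hr⟩ := exists_add_pow_prime_eq hq (X - 1 : ℤ[X]) 1
  have hq1 : q - 1 + 1 = q := Nat.sub_add_cancel hq.one_le
  have hX : (X - 1 : ℤ[X]) ≠ 0 := by simpa using X_sub_C_ne_zero (1 : ℤ)
  have hXq : (X : ℤ[X]) ^ q = (X - 1) ^ q + 1 ^ q + (q : ℤ[X]) * (X - 1) * 1 * r := by
    rw [← hr, sub_add_cancel]
  have h1 : (X - 1 : ℤ[X]) * ∑ i ∈ range q, (X : ℤ[X]) ^ i
      = (X - 1) * ((X - 1) ^ (q - 1) + (q : ℤ[X]) * r) := by
    rw [mul_geom_sum, hXq, mul_add, ← pow_succ', hq1]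
    ring
  have h2 := mul_left_cancel₀ hX h1
  refine ⟨r, h2, ?_⟩
  have h3 := congrArg (Polynomial.eval 1) h2
  have hq2 : q - 1 ≠ 0 := by have := hq.two_le; omega
  simp only [eval_finsetSum, eval_pow, eval_X, one_pow, sum_const, card_range, eval_add,
    eval_sub, eval_one, sub_self, eval_mul, eval_natCast, zero_pow hq2, zero_add,
    nsmul_eq_mul, mul_one] at h3
  have hq0 : (q : ℤ) ≠ 0 := by exact_mod_cast hq.ne_zero
  have h4 : (q : ℤ) * 1 = q * r.eval 1 := by rw [mul_one]; exact h3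
  exact (mul_left_cancel₀ hq0 h4).symm

/-- **The unit identity at the cusps of `W3`** (abstract form; see the file header). -/
theorem unit_identity {S : Type*} [CommRing S] [IsDomain S] (q : ℕ) (hq : q.Prime) (𝔪 : Ideal S)
    (z e κ w : S) (g : ℕ → S)
    (hz : z ∈ 𝔪) (hq𝔪 : (q : S) ∈ 𝔪) (he : e = 1 + (q : S) * κ) (hw : w - 1 ∈ 𝔪) (hw1 : w ≠ 1)
    (hg : ∀ a, ¬ q ∣ a → g a ∈ 𝔪)
    (hF1 : (1 ^ q - e) * (1 * z ^ (q * q - 1) - e ^ q)
        + (q : S) * ∑ a ∈ Finset.range (q + 2), g a * 1 ^ a = 0)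
    (hFw : (w ^ q - e) * (w * z ^ (q * q - 1) - e ^ q)
        + (q : S) * ∑ a ∈ Finset.range (q + 2), g a * w ^ a = 0) :
    ∃ U V : S, U + 1 ∈ 𝔪 ∧ V - 1 ∈ 𝔪 ∧ (w - 1) ^ (q - 1) * U = (q : S) * V := by
  classical
  have hq2 := hq.two_le
  set z' : S := z ^ (q * q - 1) with hz'
  have hz'm : z' ∈ 𝔪 := by
    have h0 : q * q - 1 ≠ 0 := by
      have : 4 ≤ q * q := by nlinarith
      omega
    exact 𝔪.pow_mem_of_mem hz _ (Nat.pos_of_ne_zero h0)
  -- geometric sums `C_a(w)`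
  set Cs : ℕ → S := fun a => ∑ i ∈ range a, w ^ i with hCs
  have hC : ∀ a, (w - 1) * Cs a = w ^ a - 1 := fun a => mul_geom_sum w a
  -- `C_q(w) = (w - 1)^(q-1) + q B`, `B ≡ 1`
  obtain ⟨B0, hB0, hB01⟩ := exists_geom_eq q hq
  set B : S := (B0.map (Int.castRingHom S)).eval w with hB
  have hBq : Cs q = (w - 1) ^ (q - 1) + (q : S) * B := by
    have h := congrArg (fun p : ℤ[X] => (p.map (Int.castRingHom S)).eval w) hB0
    simp only [Polynomial.map_sum, Polynomial.map_pow, map_X, eval_finsetSum, eval_pow, eval_X,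
      Polynomial.map_add, Polynomial.map_sub, Polynomial.map_one, Polynomial.map_mul,
      Polynomial.map_natCast, eval_add, eval_sub, eval_one, eval_mul, eval_natCast] at h
    exact h
  have hB1 : B - 1 ∈ 𝔪 := by
    have h1 : (B0.map (Int.castRingHom S)).eval 1 = 1 := by
      rw [eval_map, eval₂_at_one, hB01, map_one]
    have h2 := sub_dvd_eval_sub w 1 (B0.map (Int.castRingHom S))
    rw [h1] at h2
    obtain ⟨c, hc⟩ := h2
    rw [hB, hc]
    exact 𝔪.mul_mem_right _ hw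
  -- subtract the two relations
  have hsum : (w - 1) * ∑ a ∈ range (q + 2), g a * Cs a
      = ∑ a ∈ range (q + 2), g a * w ^ a - ∑ a ∈ range (q + 2), g a * 1 ^ a := by
    rw [mul_sum, ← sum_sub_distrib]
    refine sum_congr rfl fun a _ => ?_
    rw [one_pow, mul_left_comm, hC]
    ring
  have hq' : (w - 1) * Cs q = w ^ q - 1 := hC q
  have hsub : (w - 1) * (Cs q * (w * z' - e ^ q) + (1 - e) * z'
      + (q : S) * ∑ a ∈ range (q + 2), g a * Cs a) = 0 := by
    linear_combination (w * z' - e ^ q) * hq' + (q : S) * hsum + hFw - hF1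
  have hmain := (mul_eq_zero.mp hsub).resolve_left (sub_ne_zero.mpr hw1)
  -- the two cofactors
  have he1 : e - 1 ∈ 𝔪 := by
    have : e - 1 = (q : S) * κ := by rw [he]; ring
    rw [this]
    exact 𝔪.mul_mem_right κ hq𝔪
  have heq : e ^ q - 1 ∈ 𝔪 := by
    rw [← mul_geom_sum]
    exact 𝔪.mul_mem_right _ he1
  have hU : (w * z' - e ^ q) + 1 ∈ 𝔪 := by
    have : (w * z' - e ^ q) + 1 = w * z' - (e ^ q - 1) := by ring
    rw [this]
    exact 𝔪.sub_mem (𝔪.mul_mem_left w hz'm) heq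
  have hCq : Cs q ∈ 𝔪 := by
    rw [hBq]
    refine 𝔪.add_mem (𝔪.pow_mem_of_mem hw _ (by omega)) (𝔪.mul_mem_right B hq𝔪)
  have hS : ∑ a ∈ range (q + 2), g a * Cs a ∈ 𝔪 := by
    refine 𝔪.sum_mem fun a ha => ?_
    by_cases hqa : q ∣ a
    · obtain ⟨k, rfl⟩ := hqa
      have hk : k = 0 ∨ k = 1 := by
        have h1 : q * k < q + 2 := Finset.mem_range.mp ha
        by_contra hcon
        have hk2 : 2 ≤ k := by omega
        nlinarith
      rcases hk with rfl | rfl
      · simp [hCs]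
      · rw [mul_one]
        exact 𝔪.mul_mem_left _ hCq
    · exact 𝔪.mul_mem_right _ (hg a hqa)
  refine ⟨w * z' - e ^ q, κ * z' - ∑ a ∈ range (q + 2), g a * Cs a - B * (w * z' - e ^ q),
    hU, ?_, ?_⟩
  · have : κ * z' - ∑ a ∈ range (q + 2), g a * Cs a - B * (w * z' - e ^ q) - 1
        = κ * z' - ∑ a ∈ range (q + 2), g a * Cs a - (B - 1) * (w * z' - e ^ q)
          - ((w * z' - e ^ q) + 1) := by ring
    rw [this]
    exact 𝔪.sub_mem (𝔪.sub_mem (𝔪.sub_mem (𝔪.mul_mem_left κ hz'm) hS)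
      (𝔪.mul_mem_right _ hB1)) hU
  · linear_combination hmain - (w * z' - e ^ q) * hBq + z' * he

end Fermat.Agent.S36.CuspUnitAlg
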