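/-
S36 — PhiKron.lean (helper16): the KRONECKER CONGRUENCE for the modular polynomial, as an identity
of polynomials:  `Φ_q(X, Y) = (X^q − Y)(X − Y^q) + q · Θ(X, Y)` with `Θ ∈ ℤ[Y][X]`.

Input: the landed `S28.HeckeData q` (`Φ ∈ ℤ[Y][X]` monic of degree `q + 1` in the outer variable
`X`, with `Φ(j(Q^q), j(Q)) = 0 = Φ(j(Q), j(Q^q))`).  Modulo `q` the series `j̄(Q)` is
transcendental over `𝔽_q` and `j̄(Q^q) = j̄(Q)^q`, so both `X − Y^q` and `X^q − Y` divide `Φ̄`.

Used by `S36/CuspUnitInst.lean` (the unit step of (B1) at the cuspidal points of `W3`).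
-/
import Mathlib
import Fermat.Agent.S28.Roots
import Fermat.Agent.S28.ClaimA
import Fermat.Agent.S37.KC

set_option autoImplicit false

noncomputable section

namespace Fermat.Agent.S36.PhiKron

open Polynomial ModularCurve Fermat.Agent.S28

/-- `j(Q)` is transcendental over the coefficient field. -/
theorem transcendental_jqModC (F : Type*) [Field F] : Transcendental F (jqModC F) := by
  rintro ⟨P, hP0, hP⟩
  have h := ClaimA.coeff_aeval_jqModC F P
  rw [hP, HahnSeries.coeff_zero] at h
  exact hP0 (Polynomial.leadingCoeff_eq_zero.mp h.symm)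

/-- Bivariate evaluation through `PhiAt`: substituting the inner variable by `s` and the outer
variable by `r` (polynomials over `F`) and then evaluating at `t`. -/
theorem aeval_eval_map_comp {F L : Type*} [Field F] [CommRing L] [Algebra F L]
    (Φ : Polynomial (Polynomial ℤ)) (t : L) (s r : F[X]) :
    aeval t (((Φ.map (mapRingHom (Int.castRingHom F))).map (compRingHom s)).eval r) =
      (PhiAt Φ (aeval t s)).eval (aeval t r) := by
  unfold PhiAt
  rw [Polynomial.map_map, Polynomial.eval_map, Polynomial.eval_map]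
  have h := Polynomial.hom_eval₂ Φ ((compRingHom s).comp (mapRingHom (Int.castRingHom F)))
    ((aeval t : F[X] →ₐ[F] L) : F[X] →+* L) r
  rw [RingHom.coe_coe] at h
  rw [h]
  congr 1
  refine Polynomial.ringHom_ext (fun a => ?_) ?_
  · simp
  · simp

variable (q : ℕ) [Fact q.Prime]

/-- **Kronecker congruence**, polynomial form over `𝔽_q`. -/
theorem map_eq_kron (hd : HeckeData q) :
    hd.Φ.map (mapRingHom (Int.castRingHom (ZMod q))) =
      (X ^ q - C (X : (ZMod q)[X])) * (X - C ((X : (ZMod q)[X]) ^ q)) := by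
  have hq : q.Prime := Fact.out
  set P : Polynomial (Polynomial (ZMod q)) := hd.Φ.map (mapRingHom (Int.castRingHom (ZMod q)))
    with hP
  set t : LaurentSeries (ZMod q) := jqModC (ZMod q) with ht
  have htr : ∀ p : (ZMod q)[X], aeval t p = 0 → p = 0 :=
    (transcendental_iff).mp (transcendental_jqModC (ZMod q))
  have htq : jd (ZMod q) q = t ^ q := by
    have : NeZero q := ⟨hq.ne_zero⟩
    rw [jd_eq, S37.KC.pow_char_eq_qExpand_frobenius q t, ht, coeffMap_jqModC]
  have h1 : (PhiAt hd.Φ t).eval (t ^ q) = 0 := by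
    have h := roots_root_coeff hd (ZMod q)
    rwa [jd_one, htq] at h
  have h2 : (PhiAt hd.Φ (t ^ q)).eval t = 0 := by
    have h := roots_root'_coeff hd (ZMod q)
    rwa [jd_one, htq] at h
  -- Step 1: `X − Y^q` divides `P`
  have hroot1 : P.eval ((X : (ZMod q)[X]) ^ q) = 0 := by
    apply htr
    have h := aeval_eval_map_comp (F := ZMod q) hd.Φ t (X : (ZMod q)[X]) ((X : (ZMod q)[X]) ^ q)
    rw [aeval_X, map_pow, aeval_X, h1] at h
    have hid : (compRingHom (X : (ZMod q)[X])) = RingHom.id _ := by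
      refine Polynomial.ringHom_ext (fun a => ?_) ?_ <;> simp
    rwa [hid, Polynomial.map_id] at h
  -- Step 2: `X^q − Y` divides `P` (swap the variables)
  have hswap : (Polynomial.Bivariate.swap P).eval ((X : (ZMod q)[X]) ^ q) =
      (P.map (compRingHom ((X : (ZMod q)[X]) ^ q))).eval X := by
    have hh : (evalRingHom ((X : (ZMod q)[X]) ^ q)).comp
        ((Polynomial.Bivariate.swap (R := ZMod q) : _ ≃ₐ[ZMod q] _) : _ →+* _) =
        (evalRingHom (X : (ZMod q)[X])).comp
          (mapRingHom (compRingHom ((X : (ZMod q)[X]) ^ q))) := by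
      refine Polynomial.ringHom_ext (fun a => ?_) ?_
      · refine Polynomial.induction_on' a (fun p r hp hr => ?_) (fun n c => ?_)
        · simp only [map_add] at hp hr ⊢
          rw [hp, hr]
        · simp [Polynomial.Bivariate.swap_apply, ← Polynomial.C_mul_X_pow_eq_monomial]
      · simp [Polynomial.Bivariate.swap_apply]
    exact congrArg (fun f => f P) hh
  have hroot2 : (Polynomial.Bivariate.swap P).eval ((X : (ZMod q)[X]) ^ q) = 0 := by
    rw [hswap]
    apply htr
    have h := aeval_eval_map_comp (F := ZMod q) hd.Φ t ((X : (ZMod q)[X]) ^ q) (X : (ZMod q)[X])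
    rwa [aeval_X, map_pow, aeval_X, h2] at h
  have hdvd2 : (X ^ q - C (X : (ZMod q)[X])) ∣ P := by
    have hd1 : (X - C ((X : (ZMod q)[X]) ^ q)) ∣ Polynomial.Bivariate.swap P :=
      Polynomial.dvd_iff_isRoot.mpr hroot2
    have hd2 := map_dvd (Polynomial.Bivariate.swap (R := ZMod q)) hd1
    rw [Polynomial.Bivariate.swap_swap_apply] at hd2
    have he : Polynomial.Bivariate.swap (R := ZMod q) (X - C ((X : (ZMod q)[X]) ^ q)) =
        -(X ^ q - C (X : (ZMod q)[X])) := by
      rw [map_sub, Polynomial.Bivariate.swap_Y, Polynomial.Bivariate.swap_C]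
      simp
    rw [he] at hd2
    exact (neg_dvd).mp hd2
  -- Step 3: identify the cofactor
  obtain ⟨Q, hQ⟩ := hdvd2
  have hPm : P.Monic := hd.monic.map _
  have hPd : P.natDegree = q + 1 := by rw [hP, hd.monic.natDegree_map, hd.natDegree_eq]
  have hDm : (X ^ q - C (X : (ZMod q)[X])).Monic := monic_X_pow_sub_C _ hq.ne_zero
  have hDd : (X ^ q - C (X : (ZMod q)[X])).natDegree = q := natDegree_X_pow_sub_C
  have hQm : Q.Monic := hDm.of_mul_monic_left (hQ ▸ hPm)
  have hQd : Q.natDegree = 1 := by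
    have h := hDm.natDegree_mul hQm
    rw [← hQ, hPd, hDd] at h
    omega
  have hQe : Q = X + C (Q.coeff 0) := hQm.eq_X_add_C hQd
  have hne : ((X : (ZMod q)[X]) ^ q) ^ q - X ≠ 0 := by
    intro h0
    have hc := congrArg (fun p => Polynomial.coeff p 1) h0
    have hq1 : q * q ≠ 1 := by
      have := hq.two_le
      nlinarith
    simp only [← pow_mul, coeff_sub, coeff_X_pow, coeff_X_one, coeff_zero] at hc
    rw [if_neg (Ne.symm hq1)] at hc
    simp at hc
  have hev : (((X : (ZMod q)[X]) ^ q) ^ q - X) * ((X : (ZMod q)[X]) ^ q + Q.coeff 0) = 0 := by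
    have h := hroot1
    rw [hQ, eval_mul, hQe] at h
    simpa using h
  have hc0 : Q.coeff 0 = -((X : (ZMod q)[X]) ^ q) := by
    rcases mul_eq_zero.mp hev with h | h
    · exact absurd h hne
    · exact eq_neg_of_add_eq_zero_right h
  rw [hQ, hQe, hc0, map_neg, ← sub_eq_add_neg]

/-- **Kronecker congruence**, integral form: `Φ_q = (X^q − Y)(X − Y^q) + q · Θ`. -/
theorem exists_theta (hd : HeckeData q) :
    ∃ Θ : Polynomial (Polynomial ℤ),
      hd.Φ = (X ^ q - C (X : ℤ[X])) * (X - C ((X : ℤ[X]) ^ q)) + C (C (q : ℤ)) * Θ := by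
  set Δ : Polynomial (Polynomial ℤ) :=
    hd.Φ - (X ^ q - C (X : ℤ[X])) * (X - C ((X : ℤ[X]) ^ q)) with hΔ
  have hmap : Δ.map (mapRingHom (Int.castRingHom (ZMod q))) = 0 := by
    rw [hΔ, Polynomial.map_sub, map_eq_kron q hd]
    simp
  have hdvd : C (C (q : ℤ)) ∣ Δ := by
    rw [Polynomial.C_dvd_iff_dvd_coeff]
    intro i
    rw [Polynomial.C_dvd_iff_dvd_coeff]
    intro k
    have h := congrArg (fun p => (Polynomial.coeff p i).coeff k) hmap
    simp only [Polynomial.coeff_map, coe_mapRingHom, coeff_zero] at h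
    exact (ZMod.intCast_zmod_eq_zero_iff_dvd _ q).mp h
  obtain ⟨Θ, hΘ⟩ := hdvd
  exact ⟨Θ, by rw [← hΘ, hΔ]; ring⟩

end Fermat.Agent.S36.PhiKron
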