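/-
S36 — PhiShape.lean (helper7): block [N10] / leaf [CUSP-a], the SHAPE of the modular polynomial.

Model-free, Laurent-series level.  For a prime `q` and the modular polynomial
`Φ = Φ_q ∈ ℤ[Y][X]` of `S28.HeckeData q` (monic of degree `q + 1` in `X`,
`Φ(j(Q^q), j(Q)) = 0 = Φ(j(Q), j(Q^q))`):

* `natDegree_coeff_le` : `deg_Y (coeff of X^k in Φ) ≤ q (q + 1 - k)`.
  Proof: over `ℚ̄((Q))`, `Φ(X, j(Q^q)) = (X - j(Q^{q²})) ∏_{i<q} (X - j(ζ^i Q))`, all roots have a
  pole of order `≤ q²`, so the coefficient of `X^k` has a pole of order `≤ q² (q + 1 - k)`, while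
  `c(j(Q^q))` has a pole of order exactly `q · deg c`.
* `exists_monic_of_root` : hence, in ANY field, `Φ(x, y) = 0`, `y ≠ 0` ⟹ `x / y^q` is a root of a
  MONIC polynomial with coefficients in `ℤ[1/y]` (divide by `y^{q(q+1)}`).
* `exists_monic_s`, `exists_monic_t` : `j(Q^{dq}) / j(Q^d)^q` is integral over `ℤ[1 / j(Q^d)]` and
  `j(Q^d) / j(Q^{dq})^q` is integral over `ℤ[1 / j(Q^{dq})]` (Laurent series over any field).
* `isIntegral_adjoin_of_phiAt` : the consumer form `IsIntegral (Algebra.adjoin O {z}) s`.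

Application ([CUSP-a]): with `1/j, 1/j_q, 1/j_qq ∈ chart J3⁻¹`, the monomials `j_q / j^q`,
`j / j_q^q`, `j_qq / j_q^q`, `j_q / j_qq^q` lie in `chart J3⁻¹` (see `S36/PhiChart.lean`).
-/
import Mathlib
import Fermat.Agent.S28.HeckeMain
import Fermat.Agent.S24.Rot

set_option autoImplicit false

noncomputable section

namespace Fermat.Agent.S36.PhiShape

open ModularCurve Polynomial
open Fermat.Agent.S28 Fermat.Agent.S24

/-! ### The pole-order filtration on Laurent series -/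

section Pol

variable {k : Type*} [CommRing k]

/-- Laurent series with a pole of order at most `b` at `Q = 0`. -/
def Pol (b : ℤ) : AddSubgroup (LaurentSeries k) where
  carrier := {f | ∀ n : ℤ, n < -b → f.coeff n = 0}
  zero_mem' := fun _ _ => rfl
  add_mem' := fun {f g} hf hg n hn => by
    rw [HahnSeries.coeff_add, hf n hn, hg n hn, add_zero]
  neg_mem' := fun {f} hf n hn => by
    rw [HahnSeries.coeff_neg, hf n hn, neg_zero]

theorem mem_Pol {b : ℤ} {f : LaurentSeries k} :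
    f ∈ Pol b ↔ ∀ n : ℤ, n < -b → f.coeff n = 0 := Iff.rfl

theorem Pol_mono {a b : ℤ} (h : a ≤ b) : (Pol a : AddSubgroup (LaurentSeries k)) ≤ Pol b :=
  fun _ hf n hn => hf n (by omega)

theorem mul_mem_Pol {a b : ℤ} {f g : LaurentSeries k} (hf : f ∈ Pol a) (hg : g ∈ Pol b) :
    f * g ∈ Pol (a + b) := by
  intro n hn
  rw [HahnSeries.coeff_mul]
  apply Finset.sum_eq_zero
  intro ij hij
  rw [Finset.mem_antidiagonal] at hij
  obtain ⟨-, -, hsum⟩ := hij
  by_cases h1 : ij.1 < -a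
  · rw [hf _ h1, zero_mul]
  · rw [hg _ (by omega), mul_zero]

theorem one_mem_Pol : (1 : LaurentSeries k) ∈ Pol 0 := by
  intro n hn
  rw [HahnSeries.coeff_one]
  exact if_neg (by omega)

/-- Crude Vieta: if all `r i` have a pole of order at most `B`, the coefficient of `X^n` in
`∏_{i ∈ s} (X - r i)` has a pole of order at most `B (|s| - n)`. -/
theorem coeff_prod_mem_Pol {ι : Type*} [DecidableEq ι] (B : ℤ) (r : ι → LaurentSeries k)
    (hr : ∀ i, r i ∈ Pol B) (s : Finset ι) (n : ℕ) :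
    (∏ i ∈ s, (X - C (r i))).coeff n ∈ Pol (B * ((s.card : ℤ) - n)) := by
  induction s using Finset.induction_on generalizing n with
  | empty =>
    rw [Finset.prod_empty, Finset.card_empty]
    by_cases hn : n = 0
    · subst hn
      simpa using (one_mem_Pol (k := k))
    · rw [Polynomial.coeff_one, if_neg hn]
      exact zero_mem _
  | insert a s ha ih =>
    rw [Finset.prod_insert ha, Finset.card_insert_of_notMem ha, sub_mul, Polynomial.coeff_sub]
    refine sub_mem ?_ ?_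
    · cases n with
      | zero =>
        rw [Polynomial.coeff_X_mul_zero]
        exact zero_mem _
      | succ m =>
        rw [Polynomial.coeff_X_mul]
        have h := ih m
        have e : B * (((s.card + 1 : ℕ) : ℤ) - ((m + 1 : ℕ) : ℤ)) = B * ((s.card : ℤ) - m) := by
          push_cast; ring
        rw [e]
        exact h
    · rw [Polynomial.coeff_C_mul]
      have h := mul_mem_Pol (hr a) (ih n)
      have e : B * (((s.card + 1 : ℕ) : ℤ) - (n : ℤ)) = B + B * ((s.card : ℤ) - n) := by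
        push_cast; ring
      rw [e]
      exact h

end Pol

/-! ### A monic polynomial with enough distinct roots -/

theorem eq_prod_of_roots {F : Type*} [Field F] {ι : Type*} [Fintype ι] [DecidableEq ι]
    (Ψ : F[X]) (hΨ : Ψ.Monic) (r : ι → F) (hinj : Function.Injective r)
    (hroot : ∀ i, Ψ.eval (r i) = 0) (hcard : Ψ.natDegree = Fintype.card ι) :
    Ψ = ∏ i, (X - C (r i)) := by
  have hP : (∏ i, (X - C (r i))).Monic :=
    monic_prod_of_monic _ _ (fun i _ => monic_X_sub_C (r i))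
  have hdvd : (∏ i, (X - C (r i))) ∣ Ψ := by
    refine Finset.prod_dvd_of_coprime ?_ ?_
    · intro i _ j _ hij
      exact Polynomial.isCoprime_X_sub_C_of_isUnit_sub (sub_ne_zero.mpr (hinj.ne hij)).isUnit
    · intro i _
      exact Polynomial.dvd_iff_isRoot.mpr (hroot i)
  have hdeg : (∏ i, (X - C (r i))).natDegree = Fintype.card ι := by
    rw [Polynomial.natDegree_prod_of_monic _ _ (fun i _ => monic_X_sub_C (r i))]
    simp
  exact Polynomial.eq_of_monic_of_dvd_of_natDegree_le hP hΨ hdvd (by rw [hdeg, hcard])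

/-! ### Pole orders of `c(j(Q^n))` -/

section Lead

variable (R : Type*) [CommRing R]

/-- The coefficient of `Q^(-(n D))` in `c(j(Q^n))`, `D = deg c`, is the leading coefficient
of `c`. -/
theorem coeff_eval₂_jd (n : ℕ) [NeZero n] (c : Polynomial ℤ) :
    (c.eval₂ (Int.castRingHom (LaurentSeries R)) (jd R n)).coeff (-((n : ℤ) * c.natDegree))
      = ((c.leadingCoeff : ℤ) : R) := by
  have hterm : ∀ d : ℕ, (Int.castRingHom (LaurentSeries R) (c.coeff d) * jd R n ^ d).coeff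
      (-((n : ℤ) * c.natDegree)) = ((c.coeff d : ℤ) : R) * ((jqModC R) ^ d).coeff (-(c.natDegree : ℤ)) := by
    intro d
    have h1 : Int.castRingHom (LaurentSeries R) (c.coeff d)
        = HahnSeries.C (((c.coeff d : ℤ) : R)) := by
      rw [eq_intCast, ← map_intCast (HahnSeries.C : R →+* LaurentSeries R)]
    rw [h1, HahnSeries.C_mul_eq_smul, HahnSeries.coeff_smul, jd_eq, ← map_pow, smul_eq_mul,
      show -((n : ℤ) * (c.natDegree : ℤ)) = (n : ℤ) * (-(c.natDegree : ℤ)) by ring,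
      qExpand_coeff_mul]
  rw [Polynomial.eval₂_eq_sum_range, HahnSeries.coeff_sum, Finset.sum_congr rfl (fun d _ => hterm d),
    Finset.sum_eq_single c.natDegree]
  · rw [coeff_jqModC_pow_self, mul_one, Polynomial.coeff_natDegree]
  · intro d hd hne
    have hlt : d < c.natDegree := lt_of_le_of_ne (Nat.lt_succ_iff.mp (Finset.mem_range.mp hd)) hne
    rw [coeff_jqModC_pow_of_lt R (by exact_mod_cast (neg_lt_neg (by exact_mod_cast hlt))), mul_zero]
  · intro h
    exact absurd (Finset.mem_range.mpr (Nat.lt_succ_self _)) h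

end Lead

/-! ### The roots of `Φ(X, j(Q^q))` over `ℚ̄((Q))` -/

section Roots

/-- `ℚ̄`. -/
local notation "Qb" => AlgebraicClosure ℚ

/-- A rotation by a `q`-th root of unity fixes series in `Q^q`. -/
theorem rotHom_jd {q : ℕ} [NeZero q] (ξ : Qb) (hξ : ξ ≠ 0) (h1 : ξ ^ q = 1) :
    rotHom ξ hξ (jd Qb q) = jd Qb q := by
  ext n
  rw [rotHom_coeff, jd_eq]
  by_cases hn : (q : ℤ) ∣ n
  · obtain ⟨m, rfl⟩ := hn
    rw [zpow_mul, zpow_natCast, h1, one_zpow, one_mul]
  · rw [qExpand_coeff_of_not_dvd _ _ hn, mul_zero]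

/-- The roots: `none ↦ j(Q^{q²})`, `some i ↦ j(ζ^i Q)`. -/
def root (q : ℕ) (ζ : Qb) (hz : ∀ i : ℕ, ζ ^ i ≠ 0) : Option (Fin q) → LaurentSeries Qb
  | none => jd Qb (q * q)
  | some i => rotHom (ζ ^ (i : ℕ)) (hz i) (jd Qb 1)

theorem root_mem_Pol {q : ℕ} (hq : q.Prime) (ζ : Qb) (hz : ∀ i : ℕ, ζ ^ i ≠ 0)
    (o : Option (Fin q)) : root q ζ hz o ∈ Pol (((q * q : ℕ) : ℤ)) := by
  have : NeZero q := ⟨hq.ne_zero⟩
  have : NeZero (q * q) := ⟨Nat.mul_ne_zero hq.ne_zero hq.ne_zero⟩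
  have hqq : (0 : ℤ) < ((q * q : ℕ) : ℤ) := by
    exact_mod_cast Nat.mul_pos hq.pos hq.pos
  cases o with
  | none =>
    intro n hn
    show (jd Qb (q * q)).coeff n = 0
    rw [jd_eq]
    by_cases hd : ((q * q : ℕ) : ℤ) ∣ n
    · obtain ⟨m, rfl⟩ := hd
      rw [qExpand_coeff_mul]
      apply coeff_jqModC_of_lt
      by_contra hm
      have hm' : (-1 : ℤ) ≤ m := not_lt.mp hm
      have : ((q * q : ℕ) : ℤ) * (-1) ≤ ((q * q : ℕ) : ℤ) * m :=
        mul_le_mul_of_nonneg_left hm' hqq.le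
      omega
    · exact qExpand_coeff_of_not_dvd _ _ hd
  | some i =>
    refine Pol_mono (a := 1) (by omega) ?_
    intro n hn
    show (rotHom (ζ ^ (i : ℕ)) (hz i) (jd Qb 1)).coeff n = 0
    rw [rotHom_coeff, jd_one, coeff_jqModC_of_lt Qb hn, mul_zero]

theorem root_coeff_neg_one_none {q : ℕ} (hq : q.Prime) (ζ : Qb) (hz : ∀ i : ℕ, ζ ^ i ≠ 0) :
    (root q ζ hz none).coeff (-1) = 0 := by
  have : NeZero (q * q) := ⟨Nat.mul_ne_zero hq.ne_zero hq.ne_zero⟩
  show (jd Qb (q * q)).coeff (-1) = 0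
  rw [jd_eq]
  apply qExpand_coeff_of_not_dvd
  intro h
  have h1 : ((q * q : ℕ) : ℤ) ∣ 1 := (dvd_neg).mp h
  have h2 : q * q ∣ 1 := Int.natCast_dvd_natCast.mp (by simpa using h1)
  have h3 : q * q = 1 := Nat.dvd_one.mp h2
  have h4 : 2 ≤ q := hq.two_le
  nlinarith

theorem root_coeff_neg_one_some {q : ℕ} (ζ : Qb) (hz : ∀ i : ℕ, ζ ^ i ≠ 0) (i : Fin q) :
    (root q ζ hz (some i)).coeff (-1) = (ζ ^ (i : ℕ))⁻¹ := by
  show (rotHom (ζ ^ (i : ℕ)) (hz i) (jd Qb 1)).coeff (-1) = _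
  rw [rotHom_coeff, jd_one, coeff_jqModC_neg_one, mul_one, zpow_neg_one]

theorem root_injective {q : ℕ} (hq : q.Prime) (ζ : Qb) (hζ : IsPrimitiveRoot ζ q)
    (hz : ∀ i : ℕ, ζ ^ i ≠ 0) : Function.Injective (root q ζ hz) := by
  intro a b hab
  have hc : (root q ζ hz a).coeff (-1) = (root q ζ hz b).coeff (-1) := by rw [hab]
  cases a with
  | none =>
    cases b with
    | none => rfl
    | some j =>
      rw [root_coeff_neg_one_none hq, root_coeff_neg_one_some] at hc
      exact absurd hc.symm (inv_ne_zero (hz j))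
  | some i =>
    cases b with
    | none =>
      rw [root_coeff_neg_one_none hq, root_coeff_neg_one_some] at hc
      exact absurd hc (inv_ne_zero (hz i))
    | some j =>
      rw [root_coeff_neg_one_some, root_coeff_neg_one_some] at hc
      have h := hζ.pow_inj i.2 j.2 (inv_injective hc)
      exact congrArg some (Fin.ext h)

/-- `Φ(j(Q^q), j(Q)) = 0` over any ring. -/
theorem root_ring {q : ℕ} (H : HeckeData q) (R : Type*) [CommRing R] :
    (PhiAt H.Φ (jd R 1)).eval (jd R q) = 0 := by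
  have h := congrArg (coeffMap (Int.castRingHom R)) H.root
  rwa [map_eval_PhiAt, coeffMap_jd, coeffMap_jd, map_zero] at h

/-- `Φ(j(Q), j(Q^q)) = 0` over any ring. -/
theorem root'_ring {q : ℕ} (H : HeckeData q) (R : Type*) [CommRing R] :
    (PhiAt H.Φ (jd R q)).eval (jd R 1) = 0 := by
  have h := congrArg (coeffMap (Int.castRingHom R)) H.root'
  rwa [map_eval_PhiAt, coeffMap_jd, coeffMap_jd, map_zero] at h

theorem eval_root {q : ℕ} (hq : q.Prime) (H : HeckeData q) (ζ : Qb) (h1 : ζ ^ q = 1)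
    (hz : ∀ i : ℕ, ζ ^ i ≠ 0) (o : Option (Fin q)) :
    (PhiAt H.Φ (jd Qb q)).eval (root q ζ hz o) = 0 := by
  have : NeZero q := ⟨hq.ne_zero⟩
  cases o with
  | none =>
    have h := congrArg (qExpand Qb q) (root_ring H Qb)
    rw [map_eval_PhiAt, qExpand_jd, qExpand_jd, map_zero, mul_one] at h
    exact h
  | some i =>
    have h := congrArg ((rotHom (ζ ^ (i : ℕ)) (hz i)).toRingHom) (root'_ring H Qb)
    rw [map_eval_PhiAt, map_zero] at h
    have h2 : (rotHom (ζ ^ (i : ℕ)) (hz i)).toRingHom (jd Qb q) = jd Qb q :=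
      rotHom_jd _ (hz i) (by rw [← pow_mul, mul_comm, pow_mul, h1, one_pow])
    rw [h2] at h
    exact h

/-- **The shape of `Φ_q`**: the coefficient of `X^k` has degree at most `q (q + 1 - k)` in `Y`. -/
theorem natDegree_coeff_le {q : ℕ} (hq : q.Prime) (H : HeckeData q) (k : ℕ) :
    (H.Φ.coeff k).natDegree ≤ q * (q + 1 - k) := by
  have : NeZero q := ⟨hq.ne_zero⟩
  obtain ⟨ζ, hζ⟩ := HasEnoughRootsOfUnity.exists_primitiveRoot Qb q
  have hz : ∀ i : ℕ, ζ ^ i ≠ 0 := fun i => pow_ne_zero i (hζ.ne_zero hq.ne_zero)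
  set Ψ : Polynomial (LaurentSeries Qb) := PhiAt H.Φ (jd Qb q) with hΨ
  have hmonic : Ψ.Monic := PhiAt_monic H.monic _
  have hdeg : Ψ.natDegree = Fintype.card (Option (Fin q)) := by
    rw [hΨ, PhiAt_natDegree H.monic, H.natDegree_eq, Fintype.card_option, Fintype.card_fin]
  have hprod : Ψ = ∏ o, (X - C (root q ζ hz o)) :=
    eq_prod_of_roots Ψ hmonic (root q ζ hz) (root_injective hq ζ hζ hz)
      (eval_root hq H ζ hζ.pow_eq_one hz) hdeg
  have hmem : Ψ.coeff k ∈ Pol (((q * q : ℕ) : ℤ) * (((q + 1 : ℕ) : ℤ) - k)) := by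
    have h := coeff_prod_mem_Pol (((q * q : ℕ) : ℤ)) (root q ζ hz) (root_mem_Pol hq ζ hz)
      Finset.univ k
    rw [← hprod, Finset.card_univ, Fintype.card_option, Fintype.card_fin] at h
    exact h
  have hcoeff : Ψ.coeff k = (H.Φ.coeff k).eval₂ (Int.castRingHom (LaurentSeries Qb)) (jd Qb q) := by
    rw [hΨ, PhiAt, Polynomial.coeff_map]
    rfl
  by_contra hle
  have hlt : q * (q + 1 - k) < (H.Φ.coeff k).natDegree := not_le.mp hle
  set c := H.Φ.coeff k with hc
  have hlead := coeff_eval₂_jd Qb q c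
  have hzero : (c.eval₂ (Int.castRingHom (LaurentSeries Qb)) (jd Qb q)).coeff
      (-((q : ℤ) * c.natDegree)) = 0 := by
    rw [← hcoeff]
    apply hmem
    have h1 : q * (q * (q + 1 - k)) < q * c.natDegree := Nat.mul_lt_mul_of_pos_left hlt hq.pos
    have h2 : ((q + 1 : ℕ) : ℤ) - (k : ℤ) ≤ ((q + 1 - k : ℕ) : ℤ) := by omega
    have h3 : ((q * q : ℕ) : ℤ) * (((q + 1 : ℕ) : ℤ) - (k : ℤ))
        ≤ ((q * q : ℕ) : ℤ) * ((q + 1 - k : ℕ) : ℤ) :=
      mul_le_mul_of_nonneg_left h2 (by positivity)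
    have h4 : ((q * q : ℕ) : ℤ) * ((q + 1 - k : ℕ) : ℤ) < (q : ℤ) * (c.natDegree : ℤ) := by
      have : ((q * (q * (q + 1 - k)) : ℕ) : ℤ) < ((q * c.natDegree : ℕ) : ℤ) := by
        exact_mod_cast h1
      push_cast at this ⊢
      linarith [this]
    linarith
  rw [hzero] at hlead
  have hl0 : c.leadingCoeff = 0 := by
    have : ((c.leadingCoeff : ℤ) : Qb) = ((0 : ℤ) : Qb) := by rw [← hlead, Int.cast_zero]
    exact Int.cast_injective this
  have hc0 : c = 0 := Polynomial.leadingCoeff_eq_zero.mp hl0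
  rw [hc0, Polynomial.natDegree_zero] at hlt
  exact absurd hlt (Nat.not_lt_zero _)

end Roots

/-! ### Integrality of `x / y^q` over `ℤ[1/y]` -/

section Integral

variable {F : Type*} [Field F]

theorem eval₂_reflect_inv (y : F) (hy : y ≠ 0) (N : ℕ) (c : Polynomial ℤ) (hc : c.natDegree ≤ N) :
    (c.reflect N).eval₂ (Int.castRingHom F) y⁻¹ * y ^ N = c.eval₂ (Int.castRingHom F) y := by
  let _inst : Invertible y := invertibleOfNonzero hy
  have h := Polynomial.eval₂_reflect_mul_pow (Int.castRingHom F) y N c hc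
  rwa [invOf_eq_inv] at h

/-- If `Φ ∈ ℤ[Y][X]` is monic of degree `q + 1` in `X` with `deg_Y (coeff_k Φ) ≤ q (q + 1 - k)`
and `Φ(x, y) = 0`, `y ≠ 0`, then `x / y^q` is a root of a monic polynomial with coefficients
in `ℤ[1/y]`. -/
theorem exists_monic_of_root {q : ℕ} (Φ : Polynomial (Polynomial ℤ)) (hΦ : Φ.Monic)
    (hdegΦ : Φ.natDegree = q + 1) (hdeg : ∀ k, (Φ.coeff k).natDegree ≤ q * (q + 1 - k))
    {x y : F} (hy : y ≠ 0) (h : (PhiAt Φ y).eval x = 0) :
    ∃ p : Polynomial (Polynomial ℤ), p.Monic ∧ (PhiAt p y⁻¹).eval (x * (y ^ q)⁻¹) = 0 := by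
  set a : ℕ → Polynomial ℤ := fun k => (Φ.coeff k).reflect (q * (q + 1 - k)) with ha
  set gy : Polynomial ℤ →+* F := Polynomial.eval₂RingHom (Int.castRingHom F) y with hgy
  set g : Polynomial ℤ →+* F := Polynomial.eval₂RingHom (Int.castRingHom F) y⁻¹ with hg
  have hsum : x ^ (q + 1) + ∑ i ∈ Finset.range (q + 1), gy (Φ.coeff i) * x ^ i = 0 := by
    have h1 : (PhiAt Φ y).eval x = Φ.eval₂ gy x := by
      rw [PhiAt, Polynomial.eval_map]
    rw [h1] at h
    conv_lhs at h => rw [hΦ.as_sum, hdegΦ]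
    simpa [Polynomial.eval₂_add, Polynomial.eval₂_pow, Polynomial.eval₂_finsetSum,
      Polynomial.eval₂_mul] using h
  refine ⟨X ^ (q + 1) + ∑ i ∈ Finset.range (q + 1), C (a i) * X ^ i, ?_, ?_⟩
  · apply Polynomial.monic_X_pow_add
    rw [Finset.sum_range]
    exact Polynomial.degree_sum_fin_lt _
  · have h1 : (PhiAt (X ^ (q + 1) + ∑ i ∈ Finset.range (q + 1), C (a i) * X ^ i) y⁻¹).eval
          (x * (y ^ q)⁻¹)
        = (x * (y ^ q)⁻¹) ^ (q + 1)
          + ∑ i ∈ Finset.range (q + 1), g (a i) * (x * (y ^ q)⁻¹) ^ i := by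
      rw [PhiAt, Polynomial.eval_map]
      simp [Polynomial.eval₂_add, Polynomial.eval₂_pow, Polynomial.eval₂_finsetSum,
        Polynomial.eval₂_mul, hg]
    rw [h1]
    have hyq : y ^ (q * (q + 1)) ≠ 0 := pow_ne_zero _ hy
    have hyq' : y ^ q ≠ 0 := pow_ne_zero _ hy
    refine (mul_eq_zero.mp ?_).resolve_right hyq
    rw [add_mul, Finset.sum_mul]
    have e1 : (x * (y ^ q)⁻¹) ^ (q + 1) * y ^ (q * (q + 1)) = x ^ (q + 1) := by
      rw [pow_mul, ← mul_pow, mul_assoc, inv_mul_cancel₀ hyq', mul_one]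
    have e2 : ∀ i ∈ Finset.range (q + 1),
        g (a i) * (x * (y ^ q)⁻¹) ^ i * y ^ (q * (q + 1)) = gy (Φ.coeff i) * x ^ i := by
      intro i hi
      have hi' : i ≤ q := Nat.lt_succ_iff.mp (Finset.mem_range.mp hi)
      have hsplit : q * (q + 1) = q * (q + 1 - i) + q * i := by
        rw [← Nat.mul_add]
        congr 1
        omega
      have hrefl : g (a i) * y ^ (q * (q + 1 - i)) = gy (Φ.coeff i) :=
        eval₂_reflect_inv y hy _ _ (hdeg i)
      have hpow : (x * (y ^ q)⁻¹) ^ i * y ^ (q * i) = x ^ i := by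
        rw [pow_mul, ← mul_pow, mul_assoc, inv_mul_cancel₀ hyq', mul_one]
      rw [hsplit, pow_add, ← hrefl, ← hpow]
      ring
    rw [e1, Finset.sum_congr rfl e2]
    exact hsum

variable (F)

/-- `Φ_q(j(Q^{dq}), j(Q^d)) = 0`. -/
theorem root_jd {q : ℕ} [NeZero q] (H : HeckeData q) (d : ℕ) [NeZero d] :
    (PhiAt H.Φ (jd F d)).eval (jd F (d * q)) = 0 := by
  have h := congrArg (qExpand F d) (root_ring H F)
  rwa [map_eval_PhiAt, qExpand_jd, qExpand_jd, map_zero, mul_one] at h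

/-- `Φ_q(j(Q^d), j(Q^{dq})) = 0`. -/
theorem root'_jd {q : ℕ} [NeZero q] (H : HeckeData q) (d : ℕ) [NeZero d] :
    (PhiAt H.Φ (jd F (d * q))).eval (jd F d) = 0 := by
  have h := congrArg (qExpand F d) (root'_ring H F)
  rwa [map_eval_PhiAt, qExpand_jd, qExpand_jd, map_zero, mul_one] at h

theorem jd_ne_zero (d : ℕ) [NeZero d] : jd F d ≠ 0 := by
  rw [jd_eq]
  intro h
  exact jqModC_ne_zero_of_nontrivial (R := F)
    (qExpand_injective (R := F) d (by rw [h, map_zero]))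

/-- **`s = j(Q^{dq}) / j(Q^d)^q` is integral over `ℤ[1 / j(Q^d)]`** (Laurent series over any
field `F`; `d = 1`: `j_q / j^q` over `ℤ[1/j]`; `d = q`: `j_qq / j_q^q` over `ℤ[1/j_q]`). -/
theorem exists_monic_s {q : ℕ} (hq : q.Prime) (d : ℕ) [NeZero d] :
    ∃ p : Polynomial (Polynomial ℤ), p.Monic ∧
      (PhiAt p (jd F d)⁻¹).eval (jd F (d * q) * (jd F d ^ q)⁻¹) = 0 := by
  have : NeZero q := ⟨hq.ne_zero⟩
  obtain ⟨H⟩ := exists_heckeData q hq
  exact exists_monic_of_root H.Φ H.monic H.natDegree_eq (natDegree_coeff_le hq H)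
    (jd_ne_zero F d) (root_jd F H d)

/-- **`t = j(Q^d) / j(Q^{dq})^q` is integral over `ℤ[1 / j(Q^{dq})]`** (`d = 1`: `j / j_q^q`
over `ℤ[1/j_q]`; `d = q`: `j_q / j_qq^q` over `ℤ[1/j_qq]`). -/
theorem exists_monic_t {q : ℕ} (hq : q.Prime) (d : ℕ) [NeZero d] :
    ∃ p : Polynomial (Polynomial ℤ), p.Monic ∧
      (PhiAt p (jd F (d * q))⁻¹).eval (jd F d * (jd F (d * q) ^ q)⁻¹) = 0 := by
  have : NeZero q := ⟨hq.ne_zero⟩
  have : NeZero (d * q) := ⟨Nat.mul_ne_zero (NeZero.ne d) hq.ne_zero⟩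
  obtain ⟨H⟩ := exists_heckeData q hq
  exact exists_monic_of_root H.Φ H.monic H.natDegree_eq (natDegree_coeff_le hq H)
    (jd_ne_zero F (d * q)) (root'_jd F H d)

end Integral

/-! ### Consumer forms -/

section Consumer

/-- A root of `PhiAt p z`, `p` monic, is integral over `O[z]`. -/
theorem isIntegral_adjoin_of_phiAt {O E : Type*} [CommRing O] [CommRing E] [Algebra O E]
    (z s : E) (p : Polynomial (Polynomial ℤ)) (hp : p.Monic) (h : (PhiAt p z).eval s = 0) :
    IsIntegral (Algebra.adjoin O {z}) s := by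
  set z' : Algebra.adjoin O {z} := ⟨z, Algebra.subset_adjoin (Set.mem_singleton z)⟩ with hz'
  refine ⟨PhiAt p z', PhiAt_monic hp z', ?_⟩
  rw [← Polynomial.eval_map, PhiAt_map]
  exact h

/-- Transport of a `PhiAt`-root along an injective ring hom (e.g. a subfield inclusion). -/
theorem eval_phiAt_of_injective {E₁ E₂ : Type*} [CommRing E₁] [CommRing E₂] (f : E₁ →+* E₂)
    (hf : Function.Injective f) (p : Polynomial (Polynomial ℤ)) (z s : E₁)
    (h : (PhiAt p (f z)).eval (f s) = 0) : (PhiAt p z).eval s = 0 := by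
  apply hf
  rw [map_eval_PhiAt, h, map_zero]

end Consumer

end Fermat.Agent.S36.PhiShape
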