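/-
S36 — CuspAsmLoc.lean (helper130; block [N10]/[CUSP3], ALGEBRAIC route, abstract half of the
closed instance `CuspAsmInst`; dealt by helper112).  Self-contained on top of landed files:
Mathlib + `S28` (`HeckeData`) + `PhiKron` (helper16: `Φ_q = (X^q - Y)(X - Y^q) + q Θ`) +
`PhiShape` (helper7: `deg_Y coeff_{X^k} Φ_q ≤ q (q + 1 - k)`) + `CuspUnitAlg` (helper48:
`exists_geom_eq`) + `CuspAsmU` (helper112).

(B1) at the cuspidal closed points `n` of the middle component `W3` (`P 2 ≤ n`, `j⁻¹ ∈ n`),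
WITHOUT (KS) / residue degree one / polynomials `A, B`:

1. `unit_identity_range` : helper48's `CuspUnitAlg.unit_identity` for an arbitrary range of
   exponents (needed because the orientation below has `t`-degree up to `q² + q`).
2. `hom_identity`, `exists_unit_of_roots` : THE GLUE.  Orientation: `Φ(X = jq, Y = t j)`, the
   two roots being `t = 1` (`Φ(jq, j) = 0`, `HeckeData.root`) and `t = jqq / j`
   (`Φ(jq, jqq) = 0`, `root'` at `Q ↦ Q^q`).  With `z = j⁻¹`, `e = jq / j^q`: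
   `z^(q²+q) Φ(jq, t j) = (t^q - e)(t z^(q²-1) - e^q) + q ∑_a g_a t^a`, `g_a ∈ z S` unless `q ∣ a`.
   Output: `∃ U V ∈ S, U ≡ -1, V ≡ 1 (𝔪), (jqq / j - 1)^(q-1) U = q V`.
3. `locSub`, `locMax` : the local ring `R_n ⊆ E` and its maximal ideal, as a `Subring` and an
   `Ideal` (no localisation API).
4. `cusp_hB1_loc` : the conclusion `hB1` of `Princ3.princ_of_triple` (`i = 2`) at such an `n`,
   from chart elements `X = j⁻¹`, `v1 = jq / j^q`, `v2 = jq / jqq^q`, the congruences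
   `v1 ≡ 1 (π V 2)`, `jqq / j ≡ 1 (ϖ 2 V 2)`, `v2 - 1 ∈ P 2`, the one-branch property and
   `q = π ε` (unramified base).
-/
import Mathlib
import Fermat.Agent.S36.PhiKron
import Fermat.Agent.S36.PhiShape
import Fermat.Agent.S36.CuspUnitAlg
import Fermat.Agent.S36.CuspAsmU

set_option autoImplicit false

namespace Fermat.Agent.S36.CuspAsmLoc

open Polynomial Finset
open Fermat.Agent.S28

/-! ### 1. The unit identity, arbitrary range of exponents -/

theorem unit_identity_range {S : Type*} [CommRing S] [IsDomain S] (q : ℕ) (hq : q.Prime)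
    (𝔪 : Ideal S) (z e κ w : S) (N : ℕ) (g : ℕ → S)
    (hz : z ∈ 𝔪) (hq𝔪 : (q : S) ∈ 𝔪) (he : e = 1 + (q : S) * κ) (hw : w - 1 ∈ 𝔪) (hw1 : w ≠ 1)
    (hg : ∀ a, ¬ q ∣ a → g a ∈ 𝔪)
    (hF1 : (1 ^ q - e) * (1 * z ^ (q * q - 1) - e ^ q)
        + (q : S) * ∑ a ∈ Finset.range N, g a * 1 ^ a = 0)
    (hFw : (w ^ q - e) * (w * z ^ (q * q - 1) - e ^ q)
        + (q : S) * ∑ a ∈ Finset.range N, g a * w ^ a = 0) :
    ∃ U V : S, U + 1 ∈ 𝔪 ∧ V - 1 ∈ 𝔪 ∧ (w - 1) ^ (q - 1) * U = (q : S) * V := by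
  classical
  have hq2 := hq.two_le
  set z' : S := z ^ (q * q - 1) with hz'
  have hz'm : z' ∈ 𝔪 := by
    have h0 : q * q - 1 ≠ 0 := by
      have : 4 ≤ q * q := by nlinarith
      omega
    exact 𝔪.pow_mem_of_mem hz _ (Nat.pos_of_ne_zero h0)
  set Cs : ℕ → S := fun a => ∑ i ∈ range a, w ^ i with hCs
  have hC : ∀ a, (w - 1) * Cs a = w ^ a - 1 := fun a => mul_geom_sum w a
  obtain ⟨B0, hB0, hB01⟩ := CuspUnitAlg.exists_geom_eq q hq
  set B : S := (B0.map (Int.castRingHom S)).eval w with hB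
  have hBq : Cs q = (w - 1) ^ (q - 1) + (q : S) * B := by
    have h := congrArg (fun p : ℤ[X] => (p.map (Int.castRingHom S)).eval w) hB0
    simp only [Polynomial.map_sum, Polynomial.map_pow, map_X, eval_finsetSum, eval_pow, eval_X,
      Polynomial.map_add, Polynomial.map_sub, Polynomial.map_one, Polynomial.map_mul,
      Polynomial.map_natCast, eval_add, eval_sub, eval_one, eval_mul, eval_natCast] at h
    exact h
  have hB1 : B - 1 ∈ 𝔪 := by
    have h1 : (B0.map (Int.castRingHom S)).eval 1 = 1 := by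
      rw [eval_map, eval₂_at_one, hB01, map_one]
    have h2 := sub_dvd_eval_sub w 1 (B0.map (Int.castRingHom S))
    rw [h1] at h2
    obtain ⟨c, hc⟩ := h2
    rw [hB, hc]
    exact 𝔪.mul_mem_right _ hw
  have hsum : (w - 1) * ∑ a ∈ range N, g a * Cs a
      = ∑ a ∈ range N, g a * w ^ a - ∑ a ∈ range N, g a * 1 ^ a := by
    rw [mul_sum, ← sum_sub_distrib]
    refine sum_congr rfl fun a _ => ?_
    rw [one_pow, mul_left_comm, hC]
    ring
  have hq' : (w - 1) * Cs q = w ^ q - 1 := hC q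
  have hsub : (w - 1) * (Cs q * (w * z' - e ^ q) + (1 - e) * z'
      + (q : S) * ∑ a ∈ range N, g a * Cs a) = 0 := by
    linear_combination (w * z' - e ^ q) * hq' + (q : S) * hsum + hFw - hF1
  have hmain := (mul_eq_zero.mp hsub).resolve_left (sub_ne_zero.mpr hw1)
  have he1 : e - 1 ∈ 𝔪 := by
    have : e - 1 = (q : S) * κ := by rw [he]; ring
    rw [this]
    exact 𝔪.mul_mem_right κ hq𝔪
  have heq : e ^ q - 1 ∈ 𝔪 := by
    rw [← mul_geom_sum]
    exact 𝔪.mul_mem_right _ he1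
  have hU : (w * z' - e ^ q) + 1 ∈ 𝔪 := by
    have : (w * z' - e ^ q) + 1 = w * z' - (e ^ q - 1) := by ring
    rw [this]
    exact 𝔪.sub_mem (𝔪.mul_mem_left w hz'm) heq
  -- `C_a(w) ≡ a` modulo `𝔪`
  have hCa : ∀ a : ℕ, Cs a - (a : S) ∈ 𝔪 := by
    intro a
    have h1 : Cs a - (a : S) = ∑ i ∈ range a, (w ^ i - 1) := by
      rw [sum_sub_distrib, hCs]
      simp
    rw [h1]
    refine 𝔪.sum_mem fun i _ => ?_
    rw [← mul_geom_sum]
    exact 𝔪.mul_mem_right _ hw
  have hS : ∑ a ∈ range N, g a * Cs a ∈ 𝔪 := by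
    refine 𝔪.sum_mem fun a _ => ?_
    by_cases hqa : q ∣ a
    · obtain ⟨k, rfl⟩ := hqa
      have h2 : ((q * k : ℕ) : S) ∈ 𝔪 := by
        rw [Nat.cast_mul]
        exact 𝔪.mul_mem_right _ hq𝔪
      have h3 : Cs (q * k) ∈ 𝔪 := by
        have := 𝔪.add_mem (hCa (q * k)) h2
        rwa [sub_add_cancel] at this
      exact 𝔪.mul_mem_left _ h3
    · exact 𝔪.mul_mem_right _ (hg a hqa)
  refine ⟨w * z' - e ^ q, κ * z' - ∑ a ∈ range N, g a * Cs a - B * (w * z' - e ^ q),
    hU, ?_, ?_⟩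
  · have : κ * z' - ∑ a ∈ range N, g a * Cs a - B * (w * z' - e ^ q) - 1
        = κ * z' - ∑ a ∈ range N, g a * Cs a - (B - 1) * (w * z' - e ^ q)
          - ((w * z' - e ^ q) + 1) := by ring
    rw [this]
    exact 𝔪.sub_mem (𝔪.sub_mem (𝔪.sub_mem (𝔪.mul_mem_left κ hz'm) hS)
      (𝔪.mul_mem_right _ hB1)) hU
  · linear_combination hmain - (w * z' - e ^ q) * hBq + z' * he

/-! ### 2. The homogenised modular equation -/

/-- The coefficient of `t ^ a` in `z ^ (q² + q) · Θ(X = e z^{-q}, Y = t z^{-1})`. -/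
noncomputable def gco {A : Type*} [CommRing A] (Θ : ℤ[X][X]) (q : ℕ) (z e : A) (a : ℕ) : A :=
  ∑ k ∈ range (q + 2), (((Θ.coeff k).coeff a : ℤ) : A) * e ^ k * z ^ (q * q + q - q * k - a)

theorem map_gco {A B : Type*} [CommRing A] [CommRing B] (f : A →+* B) (Θ : ℤ[X][X]) (q : ℕ)
    (z e : A) (a : ℕ) : f (gco Θ q z e a) = gco Θ q (f z) (f e) a := by
  simp [gco, map_sum]

theorem gco_mem {A : Type*} [CommRing A] (𝔪 : Ideal A) (Θ : ℤ[X][X]) (q : ℕ)
    (hdeg : ∀ k, (Θ.coeff k).natDegree ≤ q * (q + 1 - k)) (z e : A) (hz : z ∈ 𝔪) (a : ℕ)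
    (hqa : ¬ q ∣ a) : gco Θ q z e a ∈ 𝔪 := by
  refine 𝔪.sum_mem fun k hk => ?_
  by_cases h0 : (Θ.coeff k).coeff a = 0
  · simp [h0]
  · have ha : a ≤ q * (q + 1 - k) := le_trans (le_natDegree_of_ne_zero h0) (hdeg k)
    have hk' : k < q + 2 := mem_range.mp hk
    obtain ⟨d, hd⟩ : ∃ d, q + 1 = k + d := ⟨q + 1 - k, by omega⟩
    have hd' : q + 1 - k = d := by omega
    rw [hd'] at ha
    have hW : q * q + q = q * k + q * d := by
      have h1 : q * q + q = q * (q + 1) := by ring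
      rw [h1, hd]; ring
    have hpos : q * q + q - q * k - a ≠ 0 := by
      intro h
      have h2 : a = q * d := by omega
      exact hqa ⟨d, h2⟩
    exact 𝔪.mul_mem_left _ (𝔪.pow_mem_of_mem hz _ (Nat.pos_of_ne_zero hpos))

/-- Degree bounds for the Kronecker part `(X^q - Y)(X - Y^q)`. -/
theorem kron_coeff_natDegree_le (q : ℕ) (hq : 1 ≤ q) (k : ℕ) :
    (((X ^ q - C (X : ℤ[X])) * (X - C ((X : ℤ[X]) ^ q)) : ℤ[X][X]).coeff k).natDegree
      ≤ q * (q + 1 - k) := by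
  have hK : ((X ^ q - C (X : ℤ[X])) * (X - C ((X : ℤ[X]) ^ q)) : ℤ[X][X]) =
      X ^ (q + 1) - C ((X : ℤ[X]) ^ q) * X ^ q - C (X : ℤ[X]) * X + C ((X : ℤ[X]) ^ (q + 1)) := by
    simp only [map_pow]
    ring
  rw [hK, coeff_add, coeff_sub, coeff_sub, coeff_X_pow, coeff_C_mul_X_pow, coeff_C_mul_X,
    coeff_C]
  have h1 : (if k = q + 1 then (1 : ℤ[X]) else 0).natDegree ≤ q * (q + 1 - k) := by
    split_ifs <;> simp
  have h2 : (if k = q then (X : ℤ[X]) ^ q else 0).natDegree ≤ q * (q + 1 - k) := by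
    split_ifs with h
    · subst h
      simp
    · simp
  have h3 : (if k = 1 then (X : ℤ[X]) else 0).natDegree ≤ q * (q + 1 - k) := by
    split_ifs with h
    · subst h
      simp only [natDegree_X, Nat.add_sub_cancel]
      nlinarith
    · simp
  have h4 : (if k = 0 then (X : ℤ[X]) ^ (q + 1) else 0).natDegree ≤ q * (q + 1 - k) := by
    split_ifs with h
    · subst h
      simp only [natDegree_X_pow, Nat.sub_zero]
      nlinarith
    · simp
  refine (natDegree_add_le _ _).trans (max_le ?_ h4)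
  refine (natDegree_sub_le _ _).trans (max_le ?_ h3)
  exact (natDegree_sub_le _ _).trans (max_le h1 h2)

/-- Degree bounds for `Θ = (Φ_q - (X^q - Y)(X - Y^q)) / q`. -/
theorem theta_bounds (q : ℕ) (hq : q.Prime) (H : HeckeData q) (Θ : ℤ[X][X])
    (hΘ : H.Φ = (X ^ q - C (X : ℤ[X])) * (X - C ((X : ℤ[X]) ^ q)) + C (C (q : ℤ)) * Θ) :
    (∀ k, (Θ.coeff k).natDegree ≤ q * (q + 1 - k)) ∧ Θ.natDegree ≤ q + 1 := by
  have hq0 : (q : ℤ) ≠ 0 := by exact_mod_cast hq.ne_zero
  have hCq : (C (q : ℤ) : ℤ[X]) ≠ 0 := by simpa using hq0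
  have hd : C (C (q : ℤ)) * Θ =
      H.Φ - (X ^ q - C (X : ℤ[X])) * (X - C ((X : ℤ[X]) ^ q)) := by
    rw [hΘ]; ring
  constructor
  · intro k
    have h1 : (C (q : ℤ) * Θ.coeff k).natDegree = (Θ.coeff k).natDegree :=
      natDegree_C_mul hq0
    rw [← h1, ← coeff_C_mul, hd, coeff_sub]
    exact (natDegree_sub_le _ _).trans
      (max_le (PhiShape.natDegree_coeff_le hq H k) (kron_coeff_natDegree_le q hq.one_le k))
  · have h1 : (C (C (q : ℤ)) * Θ).natDegree = Θ.natDegree := natDegree_C_mul hCq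
    rw [← h1, hd]
    refine (natDegree_sub_le _ _).trans (max_le (le_of_eq H.natDegree_eq) ?_)
    refine natDegree_mul_le.trans ?_
    have e1 : ((X : ℤ[X][X]) ^ q - C (X : ℤ[X])).natDegree ≤ q :=
      (natDegree_X_pow_sub_C (R := ℤ[X]) (n := q) (r := X)).le
    have e2 : ((X : ℤ[X][X]) - C ((X : ℤ[X]) ^ q)).natDegree ≤ 1 :=
      (natDegree_X_sub_C _).le
    omega

/-- **The homogenised modular equation** in a field: with `j z = 1`, `x = e j^q`, `y = t j`,
`z^(q²+q) Φ(X = x, Y = y) = (t^q - e)(t z^(q²-1) - e^q) + q ∑_a g_a t^a`. -/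
theorem hom_identity {E : Type*} [Field E] (q : ℕ) (Φ Θ : ℤ[X][X])
    (hΦ : Φ = (X ^ q - C (X : ℤ[X])) * (X - C ((X : ℤ[X]) ^ q)) + C (C (q : ℤ)) * Θ)
    (hdeg : ∀ k, (Θ.coeff k).natDegree ≤ q * (q + 1 - k)) (hΘ : Θ.natDegree ≤ q + 1)
    (j z e t : E) (hjz : j * z = 1) (hqq : 1 ≤ q * q) :
    z ^ (q * q + q) * (PhiAt Φ (t * j)).eval (e * j ^ q) =
      (t ^ q - e) * (t * z ^ (q * q - 1) - e ^ q) +
        (q : E) * ∑ a ∈ range (q * q + q + 1), gco Θ q z e a * t ^ a := by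
  set x := e * j ^ q with hx
  set y := t * j with hy
  have hK : (PhiAt Φ y).eval x = (x ^ q - y) * (x - y ^ q) + (q : E) * (PhiAt Θ y).eval x := by
    rw [hΦ]
    simp [PhiAt]
  have hKr : z ^ (q * q + q) * ((x ^ q - y) * (x - y ^ q)) =
      (t ^ q - e) * (t * z ^ (q * q - 1) - e ^ q) := by
    have h1 : x ^ q * z ^ (q * q) = e ^ q := by
      rw [hx, mul_pow, ← pow_mul, mul_assoc, ← mul_pow, hjz, one_pow, mul_one]
    have h2 : y * z ^ (q * q) = t * z ^ (q * q - 1) := by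
      obtain ⟨m, hm⟩ : ∃ m, q * q = m + 1 := ⟨q * q - 1, by omega⟩
      rw [hm, Nat.add_sub_cancel, pow_succ, hy]
      linear_combination (t * z ^ m) * hjz
    have h3 : x * z ^ q = e := by rw [hx, mul_assoc, ← mul_pow, hjz, one_pow, mul_one]
    have h4 : y ^ q * z ^ q = t ^ q := by
      rw [hy, mul_pow, mul_assoc, ← mul_pow, hjz, one_pow, mul_one]
    have h5 : z ^ (q * q + q) * ((x ^ q - y) * (x - y ^ q)) =
        (x ^ q * z ^ (q * q) - y * z ^ (q * q)) * (x * z ^ q - y ^ q * z ^ q) := by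
      rw [pow_add]; ring
    rw [h5, h1, h2, h3, h4]; ring
  have hT : z ^ (q * q + q) * (PhiAt Θ y).eval x =
      ∑ a ∈ range (q * q + q + 1), gco Θ q z e a * t ^ a := by
    have hnd : (PhiAt Θ y).natDegree < q + 2 := by
      have h := Polynomial.natDegree_map_le (f := eval₂RingHom (Int.castRingHom E) y) (p := Θ)
      unfold PhiAt
      omega
    have hc : ∀ k, (PhiAt Θ y).coeff k =
        ∑ a ∈ range (q * q + q + 1), (((Θ.coeff k).coeff a : ℤ) : E) * y ^ a := by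
      intro k
      have h1 : (PhiAt Θ y).coeff k = (Θ.coeff k).eval₂ (Int.castRingHom E) y := by
        unfold PhiAt
        rw [Polynomial.coeff_map]
        rfl
      have h2 : (Θ.coeff k).natDegree < q * q + q + 1 := by
        have h3 := hdeg k
        have h4 : q * (q + 1 - k) ≤ q * (q + 1) := Nat.mul_le_mul_left _ (Nat.sub_le _ _)
        nlinarith
      rw [h1, Polynomial.eval₂_eq_sum_range' (Int.castRingHom E) h2 y]
      rfl
    rw [Polynomial.eval_eq_sum_range' hnd, Finset.mul_sum]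
    simp_rw [hc, Finset.sum_mul, Finset.mul_sum]
    rw [Finset.sum_comm]
    refine Finset.sum_congr rfl fun a _ => ?_
    rw [gco, Finset.sum_mul]
    refine Finset.sum_congr rfl fun k hk => ?_
    by_cases h0 : (Θ.coeff k).coeff a = 0
    · simp [h0]
    · have ha : a ≤ q * (q + 1 - k) := le_trans (le_natDegree_of_ne_zero h0) (hdeg k)
      have hk' : k < q + 2 := mem_range.mp hk
      obtain ⟨d, hd⟩ : ∃ d, q + 1 = k + d := ⟨q + 1 - k, by omega⟩
      have hd' : q + 1 - k = d := by omega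
      rw [hd'] at ha
      have hW : q * q + q = q * k + q * d := by
        have h1 : q * q + q = q * (q + 1) := by ring
        rw [h1, hd]; ring
      obtain ⟨r, hr1, hr2⟩ : ∃ r, q * q + q = q * k + a + r ∧ q * q + q - q * k - a = r :=
        ⟨q * q + q - q * k - a, by omega, rfl⟩
      rw [hr2, hr1, pow_add, pow_add, hy, hx, mul_pow, mul_pow, ← pow_mul]
      have e1 : j ^ a * z ^ a = 1 := by rw [← mul_pow, hjz, one_pow]
      have e2 : j ^ (q * k) * z ^ (q * k) = 1 := by rw [← mul_pow, hjz, one_pow]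
      linear_combination ((((Θ.coeff k).coeff a : ℤ) : E) * e ^ k * z ^ r * t ^ a
        * (j ^ (q * k) * z ^ (q * k))) * e1
        + ((((Θ.coeff k).coeff a : ℤ) : E) * e ^ k * z ^ r * t ^ a) * e2
  rw [hK, mul_add, hKr, ← hT]
  ring

/-- **The unit identity from the two roots of the modular equation** (the glue).  `S` a subring
of a field `E`, `𝔪` an ideal of `S`; `z = j⁻¹`, `e = jq / j^q`, `w = jqq / j` in `S`;
`Φ_q(X = jq, Y = j) = 0 = Φ_q(X = jq, Y = jqq)`. -/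
theorem exists_unit_of_roots {E : Type*} [Field E] (S : Subring E) (𝔪 : Ideal S) (q : ℕ)
    (hq : q.Prime) (H : HeckeData q) (j jq jqq : E) (hj : j ≠ 0)
    (hr1 : (PhiAt H.Φ j).eval jq = 0) (hr2 : (PhiAt H.Φ jqq).eval jq = 0)
    (z e κ w : S) (hz : (z : E) = j⁻¹) (he : (e : E) = jq / j ^ q) (hw : (w : E) = jqq / j)
    (hzm : z ∈ 𝔪) (hqm : (q : S) ∈ 𝔪) (heκ : e = 1 + (q : S) * κ) (hwm : w - 1 ∈ 𝔪)
    (hw1 : w ≠ 1) :
    ∃ U V : S, U + 1 ∈ 𝔪 ∧ V - 1 ∈ 𝔪 ∧ (w - 1) ^ (q - 1) * U = (q : S) * V := by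
  have : Fact q.Prime := ⟨hq⟩
  obtain ⟨Θ, hΘ⟩ := PhiKron.exists_theta q H
  obtain ⟨hdeg, hnd⟩ := theta_bounds q hq H Θ hΘ
  have hjz : j * (z : E) = 1 := by rw [hz]; exact mul_inv_cancel₀ hj
  have hx : (e : E) * j ^ q = jq := by
    rw [he]
    exact div_mul_cancel₀ _ (pow_ne_zero _ hj)
  have hqq : 1 ≤ q * q := by nlinarith [hq.two_le]
  have hg : ∀ a, ((gco Θ q z e a : S) : E) = gco Θ q (z : E) (e : E) a :=
    fun a => map_gco S.subtype Θ q z e a
  have key : ∀ t : S, (PhiAt H.Φ ((t : E) * j)).eval jq = 0 →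
      (t ^ q - e) * (t * z ^ (q * q - 1) - e ^ q)
        + (q : S) * ∑ a ∈ range (q * q + q + 1), gco Θ q z e a * t ^ a = 0 := by
    intro t ht
    apply Subtype.ext
    have h := hom_identity q H.Φ Θ hΘ hdeg hnd j (z : E) (e : E) (t : E) hjz hqq
    rw [hx, ht, mul_zero] at h
    push_cast
    simp only [hg]
    exact h.symm
  refine unit_identity_range q hq 𝔪 z e κ w (q * q + q + 1) (gco Θ q z e) hzm hqm heκ hwm hw1
    (fun a ha => gco_mem 𝔪 Θ q hdeg z e hzm a ha) ?_ ?_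
  · exact key 1 (by rw [Subring.coe_one, one_mul]; exact hr1)
  · exact key w (by rw [hw, div_mul_cancel₀ _ hj]; exact hr2)

/-! ### 3. The local ring at a prime, inside the fraction field -/

section Loc

variable {R : Type*} [CommRing R] {E : Type*} [Field E] [Algebra R E]

/-- `R_n` as a subring of `E`. -/
def locSub (n : Ideal R) (hn : n.IsPrime) : Subring E where
  carrier := {x | ∃ a s : R, s ∉ n ∧ x * algebraMap R E s = algebraMap R E a}
  mul_mem' := by
    rintro x y ⟨a, s, hs, h⟩ ⟨b, t, ht, h'⟩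
    refine ⟨a * b, s * t, fun hm => (hn.mem_or_mem hm).elim hs ht, ?_⟩
    rw [map_mul, map_mul, ← h, ← h']
    ring
  one_mem' := ⟨1, 1, fun h => hn.ne_top ((Ideal.eq_top_iff_one n).mpr h), by simp⟩
  add_mem' := by
    rintro x y ⟨a, s, hs, h⟩ ⟨b, t, ht, h'⟩
    refine ⟨a * t + b * s, s * t, fun hm => (hn.mem_or_mem hm).elim hs ht, ?_⟩
    rw [map_add, map_mul, map_mul, map_mul, ← h, ← h']
    ring
  zero_mem' := ⟨0, 1, fun h => hn.ne_top ((Ideal.eq_top_iff_one n).mpr h), by simp⟩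
  neg_mem' := by
    rintro x ⟨a, s, hs, h⟩
    exact ⟨-a, s, hs, by rw [map_neg, ← h]; ring⟩

theorem mem_locSub {n : Ideal R} {hn : n.IsPrime} {x : E} :
    x ∈ locSub (E := E) n hn ↔ ∃ a s : R, s ∉ n ∧ x * algebraMap R E s = algebraMap R E a :=
  Iff.rfl

/-- `n R_n`. -/
def locMax (n : Ideal R) (hn : n.IsPrime) : Ideal (locSub (E := E) n hn) where
  carrier := {x | ∃ a s : R, a ∈ n ∧ s ∉ n ∧ (x : E) * algebraMap R E s = algebraMap R E a}
  add_mem' := by
    rintro x y ⟨a, s, ha, hs, h⟩ ⟨b, t, hb, ht, h'⟩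
    refine ⟨a * t + b * s, s * t, n.add_mem (n.mul_mem_right _ ha) (n.mul_mem_right _ hb),
      fun hm => (hn.mem_or_mem hm).elim hs ht, ?_⟩
    rw [Subring.coe_add, map_add, map_mul, map_mul, map_mul, ← h, ← h']
    ring
  zero_mem' := ⟨0, 1, n.zero_mem, fun h => hn.ne_top ((Ideal.eq_top_iff_one n).mpr h), by simp⟩
  smul_mem' := by
    rintro c x ⟨a, s, ha, hs, h⟩
    obtain ⟨b, t, ht, h'⟩ := c.2
    refine ⟨b * a, t * s, n.mul_mem_left _ ha, fun hm => (hn.mem_or_mem hm).elim ht hs, ?_⟩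
    rw [smul_eq_mul, Subring.coe_mul, map_mul, map_mul, ← h, ← h']
    ring

theorem mem_locMax {n : Ideal R} {hn : n.IsPrime} {x : locSub (E := E) n hn} :
    x ∈ locMax (E := E) n hn ↔
      ∃ a s : R, a ∈ n ∧ s ∉ n ∧ (x : E) * algebraMap R E s = algebraMap R E a :=
  Iff.rfl

theorem notMem_locMax (hinj : Function.Injective (algebraMap R E)) {n : Ideal R}
    {hn : n.IsPrime} (x : locSub (E := E) n hn) (a s : R) (ha : a ∉ n)
    (h : (x : E) * algebraMap R E s = algebraMap R E a) : x ∉ locMax (E := E) n hn := by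
  rintro ⟨b, t, hb, ht, h'⟩
  have h1 : a * t = b * s := by
    apply hinj
    rw [map_mul, map_mul, ← h, ← h']
    ring
  have h2 : a * t ∈ n := by rw [h1]; exact n.mul_mem_right _ hb
  exact (hn.mem_or_mem h2).elim ha ht

theorem exists_of_notMem_locMax {n : Ideal R} {hn : n.IsPrime} (x : locSub (E := E) n hn)
    (hx : x ∉ locMax (E := E) n hn) :
    ∃ a s : R, a ∉ n ∧ s ∉ n ∧ (x : E) * algebraMap R E s = algebraMap R E a := by
  obtain ⟨a, s, hs, h⟩ := x.2
  exact ⟨a, s, fun ha => hx ⟨a, s, ha, hs, h⟩, hs, h⟩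

theorem one_notMem_locMax (hinj : Function.Injective (algebraMap R E)) {n : Ideal R}
    {hn : n.IsPrime} : (1 : locSub (E := E) n hn) ∉ locMax (E := E) n hn := by
  have h1n : (1 : R) ∉ n := fun h => hn.ne_top ((Ideal.eq_top_iff_one n).mpr h)
  exact notMem_locMax hinj 1 1 1 h1n (by simp)

end Loc

/-! ### 4. The consumer: `hB1` at a cuspidal point of `W3` -/

section Consumer

open Fermat.Agent.S36.Model3Plan

variable {O : Type*} [CommRing O] {R : Type*} [CommRing R] [Algebra O R]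
  {E : Type*} [Field E] [Algebra R E]
  {π : O} {e : Fin 3 → ℕ} {ϖ : Fin 3 → E} {V : Fin 3 → ValuationSubring E}
  {P : Fin 3 → Ideal R}

/-- **[N10], algebraic route, abstract closed form.**  At a one-branch point `n ⊇ P 2` with
`j⁻¹ ∈ n`: the modular equation `Φ_q(jq, j) = 0 = Φ_q(jq, jqq)`, the Kronecker congruence
`jq / j^q ≡ 1` modulo `π (V 2)`, `jqq / j ≡ 1` modulo `ϖ 2 (V 2)` and `q = π ε` give the
local generator `v2 (jqq / j - 1)` of `P 2` at `n`. -/
theorem cusp_hB1_loc [IsIntegrallyClosed R] [IsFractionRing R E]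
    (val : ValHyp3 (algebraMap R E (algebraMap O R π)) e ϖ V)
    (hyp : ChartHyp3 π ϖ V P) (hp0 : algebraMap R E (algebraMap O R π) ≠ 0)
    (q : ℕ) (hq : q.Prime) (he2 : e 2 = q - 1) (H : HeckeData q)
    (ε : O) (hε : IsUnit ε) (hqε : (q : O) = π * ε)
    (j jq jqq : E) (hj : j ≠ 0) (hjqq : jqq ≠ 0) (hne : jqq ≠ j)
    (hr1 : (PhiAt H.Φ j).eval jq = 0) (hr2 : (PhiAt H.Φ jqq).eval jq = 0)
    (X v1 v2 : R) (hX : algebraMap R E X = j⁻¹)
    (hv1 : algebraMap R E v1 = jq / j ^ q) (hv2 : algebraMap R E v2 = jq / jqq ^ q)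
    (hv2' : v2 - 1 ∈ P 2)
    (hkr : ∃ y ∈ V 2, jq / j ^ q - 1 = algebraMap R E (algebraMap O R π) * y)
    (hy : ∃ y ∈ V 2, jqq / j - 1 = ϖ 2 * y)
    (n : Ideal R) (hn : n.IsPrime) (hπn : algebraMap O R π ∈ n)
    (hP2 : P 2 ≤ n) (hP0 : ¬ P 0 ≤ n) (hP1 : ¬ P 1 ≤ n) (hXn : X ∈ n) :
    ∃ i : Fin 3, P i ≤ n ∧ ∃ g ∈ P i, ∀ x ∈ P i, ∃ t : R, t ∉ n ∧ ∃ c : R, t * x = c * g := by
  have hinj : Function.Injective (algebraMap R E) := IsFractionRing.injective R E
  have h1n : (1 : R) ∉ n := fun h => hn.ne_top ((Ideal.eq_top_iff_one n).mpr h)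
  have hv2n : v2 ∉ n := by
    intro hmem2
    apply h1n
    have := n.sub_mem hmem2 (hP2 hv2')
    rwa [sub_sub_cancel] at this
  obtain ⟨r, hr⟩ := CuspAsmU.exists_ratio j jq jqq hj hjqq q hq.ne_zero v1 v2 hv1 hv2
  obtain ⟨y, hyV, hyj⟩ := hy
  have hrn : r - v2 ∈ n := hP2 (CuspAsmU.ratio_sub_mem hyp j jqq v2 r hr y hyV hyj)
  obtain ⟨y', hy'V, hy'⟩ := hkr
  obtain ⟨σ, hσ, r', hr'⟩ := CuspGen.exists_pi_mul_of_oneBranch val hyp hp0 n hn hP0 hP1
    (v1 - 1) ⟨y', hy'V, by rw [map_sub, map_one, hv1]; exact hy'⟩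
  have hσ0 : algebraMap R E σ ≠ 0 := by
    intro h
    apply hσ
    rw [(map_eq_zero_iff _ hinj).mp h]
    exact n.zero_mem
  obtain ⟨ε', hε'⟩ := hε.exists_right_inv
  have hεε' : algebraMap R E (algebraMap O R ε) * algebraMap R E (algebraMap O R ε') = 1 := by
    rw [← map_mul, ← map_mul, hε', map_one, map_one]
  have hεn : algebraMap O R ε ∉ n := by
    intro h
    apply h1n
    have h2 : algebraMap O R ε * algebraMap O R ε' = 1 := by rw [← map_mul, hε', map_one]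
    rw [← h2]
    exact n.mul_mem_right _ h
  have hqE : (q : E) =
      algebraMap R E (algebraMap O R π) * algebraMap R E (algebraMap O R ε) := by
    rw [← map_mul, ← map_mul, ← hqε, map_natCast, map_natCast]
  -- the elements of the local ring
  let z : locSub (E := E) n hn := ⟨j⁻¹, X, 1, h1n, by rw [map_one, mul_one, hX]⟩
  let ee : locSub (E := E) n hn := ⟨jq / j ^ q, v1, 1, h1n, by rw [map_one, mul_one, hv1]⟩
  let w : locSub (E := E) n hn := ⟨jqq / j, r, v2, hv2n, by rw [hr]; ring⟩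
  let κ : locSub (E := E) n hn :=
    ⟨algebraMap R E (algebraMap O R ε' * r') / algebraMap R E σ, algebraMap O R ε' * r', σ, hσ,
      div_mul_cancel₀ _ hσ0⟩
  have hzm : z ∈ locMax (E := E) n hn :=
    ⟨X, 1, hXn, h1n, by rw [map_one, mul_one, hX]⟩
  have hqm : ((q : ℕ) : locSub (E := E) n hn) ∈ locMax (E := E) n hn :=
    ⟨algebraMap O R π * algebraMap O R ε, 1, n.mul_mem_right _ hπn, h1n, by
      rw [map_one, mul_one, Subring.coe_natCast, hqE, map_mul]⟩
  have heκ : ee = 1 + ((q : ℕ) : locSub (E := E) n hn) * κ := by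
    apply Subtype.ext
    have h3 := congrArg (algebraMap R E) hr'
    rw [map_mul, map_sub, map_one, hv1, map_mul] at h3
    show jq / j ^ q = ((1 + ((q : ℕ) : locSub (E := E) n hn) * κ : locSub (E := E) n hn) : E)
    rw [Subring.coe_add, Subring.coe_one, Subring.coe_mul, Subring.coe_natCast, hqE]
    show jq / j ^ q = 1 + algebraMap R E (algebraMap O R π) * algebraMap R E (algebraMap O R ε) *
      (algebraMap R E (algebraMap O R ε' * r') / algebraMap R E σ)
    rw [map_mul]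
    have h8 : jq / j ^ q - 1 =
        algebraMap R E (algebraMap O R π) * algebraMap R E r' / algebraMap R E σ := by
      rw [eq_div_iff hσ0]
      linear_combination h3
    linear_combination h8 - (algebraMap R E (algebraMap O R π) * algebraMap R E r' /
      algebraMap R E σ) * hεε'
  have hwm : w - 1 ∈ locMax (E := E) n hn :=
    ⟨r - v2, v2, hrn, hv2n, by
      show (jqq / j - 1) * algebraMap R E v2 = algebraMap R E (r - v2)
      rw [map_sub, hr]
      ring⟩
  have hw1 : w ≠ 1 := by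
    intro h
    have h5 : jqq / j = 1 := congrArg Subtype.val h
    exact hne ((div_eq_one_iff_eq hj).mp h5)
  obtain ⟨U, W, hU, hW, hUW⟩ := exists_unit_of_roots (locSub (E := E) n hn)
    (locMax (E := E) n hn) q hq H j jq jqq hj hr1 hr2 z ee κ w rfl rfl rfl hzm hqm heκ hwm hw1
  have h1m : (1 : locSub (E := E) n hn) ∉ locMax (E := E) n hn := one_notMem_locMax hinj
  have hUn : U ∉ locMax (E := E) n hn := by
    intro h
    apply h1m
    have := (locMax (E := E) n hn).sub_mem hU h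
    rwa [add_sub_cancel_left] at this
  have hWn : W ∉ locMax (E := E) n hn := by
    intro h
    apply h1m
    have := (locMax (E := E) n hn).sub_mem h hW
    rwa [sub_sub_cancel] at this
  obtain ⟨s', t, hs', ht, hUt⟩ := exists_of_notMem_locMax U hUn
  obtain ⟨a', t', ha', ht', hWt⟩ := exists_of_notMem_locMax W hWn
  refine CuspAsmU.cusp_hB1_asm_unit' val hyp hp0 j jq jqq hj hjqq q hq.ne_zero v1 v2 hv1 hv2
    hv2' n hn hP2 hP0 hP1 s' (algebraMap O R ε * a') t t' hs'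
    (fun hm => (hn.mem_or_mem hm).elim hεn ha') ht ht' (U : E)
    (algebraMap R E (algebraMap O R ε) * (W : E)) hUt (by rw [map_mul, ← hWt]; ring) ?_
  have h6 : ((w : E) - 1) ^ (q - 1) * (U : E) = (q : E) * (W : E) := by
    have h7 := congrArg Subtype.val hUW
    exact_mod_cast h7
  rw [he2, ← mul_assoc, ← hqE]
  exact h6

end Consumer

end Fermat.Agent.S36.CuspAsmLoc
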