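/-
S36 — CuspChart.lean (helper115): leaf [CUSP-a], the level-`1·q` CORE.

`v = j_q / j^q` (`j_q = j(Q^q)`, `q` prime) is integral over `O[j⁻¹]` at level `1 * q`:

    `isIntegral_core : IsIntegral (Algebra.adjoin (OK A K) {(jK (1 * q) K)⁻¹})
        (S34.WK.jqK 1 q hq h1 K * ((jK (1 * q) K)⁻¹) ^ q)`

i.e. `v ∈ chart (1 * q) A K (jK (1 * q) K)⁻¹` (`core_mem_chart`).  No hypothesis on `A`, `K`.

Route (no modular polynomial): the characteristic polynomial of `v` over `F_K(1) = K(j)`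
(`S34/ConjInt`, family of the `q + 1` embeddings `S34/ConjMod.fam` at `M = 1`).  All conjugates
of `v` are POWER series (`j(Q^{q²})/j(Q^q)^q` and `j(ζ^i Q)/j(Q^q)^q`) and become integral over
`O[j]` after multiplication by `j^q` (they are then the conjugates of `j_q`).  Hence every
coefficient `c` of the characteristic polynomial has a power series expansion and `c j^n ∈ O[j]`
for some `n` (`O[j]` is integrally closed with fraction field `F_K(1)`), so `c = P(j)/j^n` with
`deg P ≤ n` (compare `Q`-orders), i.e. `c ∈ O[j⁻¹]`.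

* `ps`, `mem_ps_iff`, `v_mem_ps`, `w_mem_ps`       : power series inside Laurent series;
* `isFractionRing_adjoin_one`, `mem_adjoin_of_isIntegral`, `mem_adjoin_inv_of_ps` : level one;
* `intAway`                                        : the subring `{x | ∃ n, x J^n integral}`;
* `isIntegral_core`, `core_mem_chart`              : the core.
-/
import Mathlib
import Fermat.Agent.S34.ConjMod
import Fermat.Agent.S34.WKInst
import Fermat.Agent.S34.RegInf
import Fermat.Agent.S18.ModelQFrac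
import Fermat.Agent.S18.ModelFin
import Fermat.Agent.S18.DegFK
import Fermat.Agent.S18.PolyIntCl
import Fermat.Agent.S28.ClaimA

set_option autoImplicit false
set_option linter.style.haveILetI false

noncomputable section

namespace Fermat.Agent.S36.CuspChart

open ModularCurve AlgebraicCurve HahnSeries Polynomial
open Fermat.Agent.S18 Fermat.Agent.S18.Arith Fermat.Agent.S24 Fermat.Agent.S34
open scoped IntermediateField

/-! ### Power series inside Laurent series -/

section PS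

variable (R : Type*) [CommRing R]

/-- The subring of power series inside the Laurent series. -/
def ps : Subring (LaurentSeries R) := (HahnSeries.ofPowerSeries ℤ R).range

variable {R}

theorem ofPowerSeries_mem_ps (Y : PowerSeries R) : HahnSeries.ofPowerSeries ℤ R Y ∈ ps R :=
  ⟨Y, rfl⟩

theorem mem_ps_iff {x : LaurentSeries R} : x ∈ ps R ↔ ∀ n : ℤ, n < 0 → x.coeff n = 0 := by
  constructor
  · rintro ⟨Y, rfl⟩ n hn
    exact ofPowerSeries_coeff_of_neg Y hn
  · intro h
    refine ⟨PowerSeries.mk fun n => x.coeff n, ?_⟩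
    ext n
    rcases lt_or_ge n 0 with hn | hn
    · rw [h n hn]
      exact ofPowerSeries_coeff_of_neg _ hn
    · lift n to ℕ using hn
      rw [HahnSeries.ofPowerSeries_apply_coeff, PowerSeries.coeff_mk]

theorem single_mem_ps {a : ℤ} (ha : 0 ≤ a) (r : R) : HahnSeries.single a r ∈ ps R := by
  rw [mem_ps_iff]
  intro n hn
  rw [HahnSeries.coeff_single_of_ne (by omega)]

theorem qExpand_mem_ps (n : ℕ) [NeZero n] {x : LaurentSeries R} (hx : x ∈ ps R) :
    qExpand R n x ∈ ps R := by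
  rw [mem_ps_iff] at hx ⊢
  intro k hk
  by_cases hd : (n : ℤ) ∣ k
  · obtain ⟨m, rfl⟩ := hd
    rw [qExpand_coeff_mul]
    apply hx
    have hn : (0 : ℤ) < n := by exact_mod_cast Nat.pos_of_ne_zero (NeZero.ne n)
    by_contra hm
    have := mul_nonneg hn.le (not_lt.mp hm)
    omega
  · exact qExpand_coeff_of_not_dvd n x hd

theorem of_qExpand_mem_ps (n : ℕ) [NeZero n] {x : LaurentSeries R} (hx : qExpand R n x ∈ ps R) :
    x ∈ ps R := by
  rw [mem_ps_iff] at hx ⊢
  intro k hk
  rw [← qExpand_coeff_mul n]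
  apply hx
  have hn : (0 : ℤ) < n := by exact_mod_cast Nat.pos_of_ne_zero (NeZero.ne n)
  exact mul_neg_of_pos_of_neg hn hk

theorem rotHom_mem_ps {k : Type*} [Field k] (ζ : k) (hζ : ζ ≠ 0) {x : LaurentSeries k}
    (hx : x ∈ ps k) : rotHom ζ hζ x ∈ ps k := by
  rw [mem_ps_iff] at hx ⊢
  intro n hn
  rw [rotHom_coeff, hx n hn, mul_zero]

/-- The expansion of `j_q / j^q` is a power series. -/
theorem v_mem_ps (q : ℕ) [NeZero q] :
    qExpand R q (jqModC R) * ModelQFrac.jInvL R ^ q ∈ ps R := by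
  have h1 : qExpand R q (jqModC R) = HahnSeries.single (-(q : ℤ)) (1 : R) *
      qExpand R q (HahnSeries.ofPowerSeries ℤ R (jNum.map (Int.castRingHom R))) := by
    rw [jqModC, map_mul, qExpand_single, mul_neg, mul_one]
  have h2 : ModelQFrac.jInvL R ^ q = HahnSeries.single ((q : ℤ)) (1 : R) *
      HahnSeries.ofPowerSeries ℤ R ((jNum.invOfUnit 1).map (Int.castRingHom R)) ^ q := by
    rw [ModelQFrac.jInvL, mul_pow, HahnSeries.single_pow, one_pow, nsmul_eq_mul, mul_one]
  have h3 : HahnSeries.single (-(q : ℤ)) (1 : R) * HahnSeries.single ((q : ℤ)) (1 : R) = 1 := by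
    rw [HahnSeries.single_mul_single, neg_add_cancel, mul_one]
    rfl
  rw [h1, h2, mul_mul_mul_comm, h3, one_mul]
  exact mul_mem (qExpand_mem_ps q (ofPowerSeries_mem_ps _)) (pow_mem (ofPowerSeries_mem_ps _) q)

/-- The expansion of `j / j_q^q` is a power series. -/
theorem w_mem_ps (q : ℕ) [NeZero q] :
    jqModC R * qExpand R q (ModelQFrac.jInvL R) ^ q ∈ ps R := by
  have h2 : qExpand R q (ModelQFrac.jInvL R) ^ q = HahnSeries.single ((q : ℤ) * q) (1 : R) *
      qExpand R q (HahnSeries.ofPowerSeries ℤ R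
        ((jNum.invOfUnit 1).map (Int.castRingHom R))) ^ q := by
    rw [ModelQFrac.jInvL, map_mul, qExpand_single, mul_pow, HahnSeries.single_pow, one_pow,
      nsmul_eq_mul, mul_one]
  have h3 : HahnSeries.single (-1 : ℤ) (1 : R) * HahnSeries.single ((q : ℤ) * q) (1 : R) =
      HahnSeries.single ((q : ℤ) * q - 1) (1 : R) := by
    rw [HahnSeries.single_mul_single, mul_one, neg_add_eq_sub]
  rw [jqModC, h2, mul_mul_mul_comm, h3]
  have hq : (1 : ℤ) ≤ q := by exact_mod_cast Nat.pos_of_ne_zero (NeZero.ne q)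
  refine mul_mem (single_mem_ps (by nlinarith) _)
    (mul_mem (ofPowerSeries_mem_ps _) (pow_mem (qExpand_mem_ps q (ofPowerSeries_mem_ps _)) q))

end PS

/-! ### Level one: `F_K(1) = K(j)` -/

section LevelOne

variable (A : ValuationSubring Qb) (K : IntermediateField ℚ Qb)

/-- `F_K(1)` is the fraction field of `O[j]`. -/
theorem isFractionRing_adjoin_one :
    IsFractionRing (Algebra.adjoin (OK A K) {jK 1 K}) (FK 1 K) := by
  have : FaithfulSMul (Algebra.adjoin (OK A K) {jK 1 K}) (FK 1 K) :=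
    (faithfulSMul_iff_algebraMap_injective _ _).mpr Subtype.val_injective
  refine IsFractionRing.of_field _ _ fun z => ?_
  have htop : K⟮jK 1 K⟯ = ⊤ :=
    IntermediateField.finrank_eq_one_iff_eq_top.mp (by rw [DegFK.finrank_jK, dedekindPsi_one])
  have hz : z ∈ K⟮jK 1 K⟯ := by rw [htop]; exact IntermediateField.mem_top
  obtain ⟨r, s, hrs⟩ := (IntermediateField.mem_adjoin_simple_iff K z).mp hz
  obtain ⟨br, hbrM, hbr⟩ := IsLocalization.integerNormalization_spec (nonZeroDivisors (OK A K)) r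
  obtain ⟨bs, hbsM, hbs⟩ := IsLocalization.integerNormalization_spec (nonZeroDivisors (OK A K)) s
  have hinj : Function.Injective (algebraMap (OK A K) (FK 1 K)) :=
    (constK 1 K).injective.comp Subtype.val_injective
  have hR : aeval (jK 1 K) (IsLocalization.integerNormalization (nonZeroDivisors (OK A K)) r)
      = algebraMap (OK A K) (FK 1 K) br * aeval (jK 1 K) r := by
    rw [← Polynomial.aeval_map_algebraMap K, hbr, AlgHom.map_smul_of_tower, Algebra.smul_def]
  have hS : aeval (jK 1 K) (IsLocalization.integerNormalization (nonZeroDivisors (OK A K)) s)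
      = algebraMap (OK A K) (FK 1 K) bs * aeval (jK 1 K) s := by
    rw [← Polynomial.aeval_map_algebraMap K, hbs, AlgHom.map_smul_of_tower, Algebra.smul_def]
  have hbr0 : algebraMap (OK A K) (FK 1 K) br ≠ 0 :=
    (map_ne_zero_iff _ hinj).mpr (nonZeroDivisors.ne_zero hbrM)
  have hbs0 : algebraMap (OK A K) (FK 1 K) bs ≠ 0 :=
    (map_ne_zero_iff _ hinj).mpr (nonZeroDivisors.ne_zero hbsM)
  refine ⟨⟨algebraMap (OK A K) (FK 1 K) bs *
      aeval (jK 1 K) (IsLocalization.integerNormalization (nonZeroDivisors (OK A K)) r), ?_⟩,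
    ⟨algebraMap (OK A K) (FK 1 K) br *
      aeval (jK 1 K) (IsLocalization.integerNormalization (nonZeroDivisors (OK A K)) s), ?_⟩, ?_⟩
  · exact Subalgebra.mul_mem _ (Subalgebra.algebraMap_mem _ _) (aeval_mem_adjoin_singleton _ _)
  · exact Subalgebra.mul_mem _ (Subalgebra.algebraMap_mem _ _) (aeval_mem_adjoin_singleton _ _)
  · show z = (algebraMap (OK A K) (FK 1 K) bs *
      aeval (jK 1 K) (IsLocalization.integerNormalization (nonZeroDivisors (OK A K)) r)) /
      (algebraMap (OK A K) (FK 1 K) br *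
      aeval (jK 1 K) (IsLocalization.integerNormalization (nonZeroDivisors (OK A K)) s))
    rw [hR, hS, hrs]
    by_cases hs0 : aeval (jK 1 K) s = 0
    · rw [hs0, div_zero, mul_zero, mul_zero, div_zero]
    · field_simp

/-- An element of `F_K(1)` which is integral over `O[j]` lies in `O[j]`. -/
theorem mem_adjoin_of_isIntegral {x : FK 1 K}
    (hx : IsIntegral (Algebra.adjoin (OK A K) {jK 1 K}) x) :
    x ∈ Algebra.adjoin (OK A K) {jK 1 K} := by
  have := isFractionRing_adjoin_one A K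
  have : IsIntegrallyClosed (Algebra.adjoin (OK A K) {jK 1 K}) :=
    RegInf.isIntegrallyClosed_adjoin (jK 1 K) (ModelFin.transcendental_jK 1 A K)
  obtain ⟨y, hy⟩ := (IsIntegrallyClosed.isIntegral_iff (K := FK 1 K)).mp hx
  rw [← hy]
  exact y.2

end LevelOne

theorem jqModC_pow (R : Type*) [CommRing R] (n : ℕ) :
    jqModC R ^ n = HahnSeries.single (-(n : ℤ)) (1 : R) *
      HahnSeries.ofPowerSeries ℤ R ((jNum.map (Int.castRingHom R)) ^ n) := by
  rw [jqModC, mul_pow, HahnSeries.single_pow, one_pow, nsmul_eq_mul, mul_neg, mul_one, map_pow]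

/-- A power series times `j ^ n` has no coefficients below `-n`. -/
theorem coeff_mul_jqModC_pow {R : Type*} [CommRing R] {x : LaurentSeries R} (hx : x ∈ ps R)
    (n : ℕ) {m : ℤ} (hm : m < -(n : ℤ)) : (x * jqModC R ^ n).coeff m = 0 := by
  rw [jqModC_pow, mul_left_comm]
  have h1 : x * HahnSeries.ofPowerSeries ℤ R (jNum.map (Int.castRingHom R) ^ n) ∈ ps R :=
    mul_mem hx (ofPowerSeries_mem_ps _)
  have h2 : m = (m + n) + (-(n : ℤ)) := by ring
  rw [h2, HahnSeries.coeff_single_mul_add, one_mul]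
  exact mem_ps_iff.mp h1 _ (by omega)

section LevelOneB

variable (A : ValuationSubring Qb) (K : IntermediateField ℚ Qb)

/-- **Level one, the cusp.**  An element `c` of `F_K(1)` with a power series expansion and
`c * j ^ n ∈ O[j]` lies in `O[j⁻¹]`. -/
theorem mem_adjoin_inv_of_ps {c : FK 1 K} (hc : ((c : FK 1 K) : LaurentSeries Qb) ∈ ps Qb)
    (n : ℕ) (hn : c * jK 1 K ^ n ∈ Algebra.adjoin (OK A K) {jK 1 K}) :
    c ∈ Algebra.adjoin (OK A K) {(jK 1 K)⁻¹} := by
  rw [Algebra.adjoin_singleton_eq_range_aeval] at hn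
  obtain ⟨P, hP⟩ := hn
  have hP' : aeval (jK 1 K) P = c * jK 1 K ^ n := hP
  have hj0 : jK 1 K ≠ 0 := ModelBasicCore.jK_ne_zero 1 K
  have hJ : coeffEmb Qb jq = jqModC Qb := ModelQFrac.coe_jK 1 K
  have hdeg : P.natDegree ≤ n := by
    by_contra hlt
    have hlt' : (n : ℤ) < P.natDegree := by exact_mod_cast not_le.mp hlt
    have h1 := ModelFin.coe_aeval_jK 1 A K P
    rw [hP', hJ] at h1
    have h1' : ((c : FK 1 K) : LaurentSeries Qb) * jqModC Qb ^ n
        = aeval (jqModC Qb) (P.map (incO A K)) := by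
      rw [← h1, ← ModelQFrac.coe_jK 1 K]
      rfl
    have h2 := S28.ClaimA.coeff_aeval_jqModC Qb (P.map (incO A K))
    have hnat : (P.map (incO A K)).natDegree = P.natDegree :=
      Polynomial.natDegree_map_eq_of_injective (ModelFin.incO_injective A K) P
    rw [hnat, ← h1', coeff_mul_jqModC_pow hc n (by omega), Polynomial.coeff_map] at h2
    have h3 : P.coeff P.natDegree = 0 :=
      ModelFin.incO_injective A K (h2.symm.trans (map_zero _).symm)
    have hP0 : P = 0 := Polynomial.leadingCoeff_eq_zero.mp h3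
    rw [hP0, Polynomial.natDegree_zero] at hlt'
    exact absurd hlt' (by simp)
  have hc' : c = aeval (jK 1 K) P * ((jK 1 K)⁻¹) ^ n := by
    rw [hP', mul_assoc, ← mul_pow, mul_inv_cancel₀ hj0, one_pow, mul_one]
  rw [hc', Polynomial.aeval_eq_sum_range, Finset.sum_mul]
  refine Subalgebra.sum_mem _ fun i hi => ?_
  have hi' : i ≤ n := le_trans (Nat.lt_succ_iff.mp (Finset.mem_range.mp hi)) hdeg
  have h3 : (jK 1 K) ^ i * ((jK 1 K)⁻¹) ^ n = ((jK 1 K)⁻¹) ^ (n - i) := by
    obtain ⟨k, rfl⟩ := Nat.exists_eq_add_of_le hi'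
    rw [Nat.add_sub_cancel_left, _root_.pow_add, ← mul_assoc, ← mul_pow, mul_inv_cancel₀ hj0, one_pow,
      one_mul]
  rw [Algebra.smul_def, mul_assoc, h3]
  exact Subalgebra.mul_mem _ (Subalgebra.algebraMap_mem _ _)
    (Subalgebra.pow_mem _ (Algebra.subset_adjoin (Set.mem_singleton _)) _)

end LevelOneB

/-! ### The subring `{x | ∃ n, x * J ^ n integral}` -/

section Away

variable {S Ω : Type*} [CommRing S] [CommRing Ω]

theorem isIntegralElem_pow (φ : S →+* Ω) {J : Ω} (hJ : φ.IsIntegralElem J) (n : ℕ) :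
    φ.IsIntegralElem (J ^ n) := by
  induction n with
  | zero =>
    rw [pow_zero]
    exact φ.isIntegralElem_one
  | succ n ih =>
    rw [pow_succ]
    exact ih.mul φ hJ

/-- For `φ : S →+* Ω` and `J : Ω` integral over `φ`: the subring of all `x` such that
`x * J ^ n` is integral over `φ` for some `n`. -/
def intAway (φ : S →+* Ω) (J : Ω) (hJ : φ.IsIntegralElem J) : Subring Ω where
  carrier := {x | ∃ n : ℕ, φ.IsIntegralElem (x * J ^ n)}
  mul_mem' := by
    rintro a b ⟨n, hn⟩ ⟨m, hm⟩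
    refine ⟨n + m, ?_⟩
    have h : a * b * J ^ (n + m) = (a * J ^ n) * (b * J ^ m) := by
      rw [_root_.pow_add]
      ring
    rw [h]
    exact hn.mul φ hm
  one_mem' := ⟨0, by rw [pow_zero, mul_one]; exact φ.isIntegralElem_one⟩
  add_mem' := by
    rintro a b ⟨n, hn⟩ ⟨m, hm⟩
    refine ⟨n + m, ?_⟩
    have h : (a + b) * J ^ (n + m) = (a * J ^ n) * J ^ m + (b * J ^ m) * J ^ n := by
      rw [_root_.pow_add]
      ring
    rw [h]
    exact RingHom.IsIntegralElem.add φ (hn.mul φ (isIntegralElem_pow φ hJ m))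
      (hm.mul φ (isIntegralElem_pow φ hJ n))
  zero_mem' := ⟨0, by rw [zero_mul]; exact φ.isIntegralElem_zero⟩
  neg_mem' := by
    rintro a ⟨n, hn⟩
    exact ⟨n, by rw [neg_mul]; exact hn.neg φ⟩

theorem mem_intAway {φ : S →+* Ω} {J : Ω} {hJ : φ.IsIntegralElem J} {x : Ω} :
    x ∈ intAway φ J hJ ↔ ∃ n : ℕ, φ.IsIntegralElem (x * J ^ n) := Iff.rfl

end Away

/-! ### The core at level `1 * q` -/

section Core

variable (q : ℕ) [NeZero q] (hq : q.Prime) (h1 : ¬ q ∣ 1)
  (A : ValuationSubring Qb) (K : IntermediateField ℚ Qb)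

theorem coe_jK_inv (N : ℕ) [NeZero N] :
    (((jK N K)⁻¹ : FK N K) : LaurentSeries Qb) = ModelQFrac.jInvL Qb := by
  have h : ((jK N K : FK N K) : LaurentSeries Qb) * ModelQFrac.jInvL Qb = 1 := by
    rw [ModelQFrac.coe_jK]
    exact ModelQFrac.jqModC_mul_jInvL Qb
  rw [Subfield.coe_inv]
  exact (eq_inv_of_mul_eq_one_right h).symm

/-- The `q`-expansion of `v = j_q / j^q`. -/
theorem coe_v :
    ((WK.jqK 1 q hq h1 K * ((jK (1 * q) K)⁻¹) ^ q : FK (1 * q) K) : LaurentSeries Qb)
      = qExpand Qb q (jqModC Qb) * ModelQFrac.jInvL Qb ^ q := by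
  rw [Subfield.coe_mul, SubmonoidClass.coe_pow, coe_jK_inv, WK.coe_jqK, S28.jd_eq]

/-- The `q`-expansion of `w_q v = j / j_q^q`. -/
theorem coe_wK_v :
    ((WK.wK 1 q hq h1 K (WK.jqK 1 q hq h1 K * ((jK (1 * q) K)⁻¹) ^ q) : FK (1 * q) K) :
        LaurentSeries Qb)
      = jqModC Qb * qExpand Qb q (ModelQFrac.jInvL Qb) ^ q := by
  rw [map_mul, map_pow, map_inv₀, WK.wK_jqK, WK.wK_jK, Subfield.coe_mul, SubmonoidClass.coe_pow,
    Subfield.coe_inv, ModelQFrac.coe_jK, WK.coe_jqK, S28.jd_eq]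
  congr 2
  have h : qExpand Qb q (jqModC Qb) * qExpand Qb q (ModelQFrac.jInvL Qb) = 1 := by
    rw [← map_mul, ModelQFrac.jqModC_mul_jInvL, map_one]
  exact (eq_inv_of_mul_eq_one_right h).symm

theorem wExp_eq (x : FK (1 * q) K) :
    ConjMod.wExp 1 q K (WK.wBar 1 q hq h1 : _ →ₐ[Qb] _) x
      = ((WK.wK 1 q hq h1 K x : FK (1 * q) K) : LaurentSeries Qb) := by
  rw [WK.coe_wK]
  rfl

include hq h1 in
/-- **[CUSP-a], the core.**  `v = j_q / j^q` is integral over `O[j⁻¹]` at level `1 * q`. -/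
theorem isIntegral_core :
    IsIntegral (Algebra.adjoin (OK A K) {(jK (1 * q) K)⁻¹})
      (WK.jqK 1 q hq h1 K * ((jK (1 * q) K)⁻¹) ^ q) := by
  letI := DegTower.algTower 1 (1 * q) K (Dvd.intro q rfl)
  haveI := DegTower.finiteDimensional 1 (1 * q) K (Dvd.intro q rfl)
  haveI := ConjMod.charZero_FK K 1
  haveI : Algebra.IsSeparable ↥(FK 1 K) ↥(FK (1 * q) K) :=
    Algebra.IsAlgebraic.isSeparable_of_perfectField
  obtain ⟨ζ, hζ⟩ := HasEnoughRootsOfUnity.exists_primitiveRoot Qb q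
  have hz : ∀ i : ℕ, ζ ^ i ≠ 0 := fun i => pow_ne_zero i (hζ.ne_zero (NeZero.ne q))
  have hjL0 : jK (1 * q) K ≠ 0 := ModelBasicCore.jK_ne_zero (1 * q) K
  set w : ↥(modularFunctionFieldBar (1 * q)) →ₐ[Qb] ↥(modularFunctionFieldBar (1 * q)) :=
    (WK.wBar 1 q hq h1 :
      ↥(modularFunctionFieldBar (1 * q)) →ₐ[Qb] ↥(modularFunctionFieldBar (1 * q))) with hw
  set v : FK (1 * q) K := WK.jqK 1 q hq h1 K * ((jK (1 * q) K)⁻¹) ^ q with hv
  set φ : Polynomial (OK A K) →+* LaurentSeries Qb :=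
    (ConjMod.iota0 1 q K).comp (aeval (R := OK A K) (jK 1 K)).toRingHom with hφ
  have hJ : φ.IsIntegralElem (ConjMod.iota0 1 q K (jK 1 K)) := by
    have h := RingHom.isIntegralElem_map (f := φ) (x := (X : Polynomial (OK A K)))
    have hX : φ X = ConjMod.iota0 1 q K (jK 1 K) := by
      show ConjMod.iota0 1 q K (aeval (jK 1 K) (X : Polynomial (OK A K))) = _
      rw [aeval_X]
    rwa [hX] at h
  have hfam_incl : ∀ (o : Option (Fin q)) (y : ↥(FK 1 K)),
      ConjMod.fam 1 q K w ζ hz o (algebraMap ↥(FK 1 K) ↥(FK (1 * q) K) y)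
        = ConjMod.iota0 1 q K y :=
    fun o y => ConjMod.fam_incl 1 q K w (WK.wBar_alpha 1 q hq h1) ζ hζ.pow_eq_one hz o y
  have hinj : Function.Injective (ConjMod.fam 1 q K w ζ hz) :=
    ConjMod.fam_injective 1 q K w (WK.wBar_beta 1 q hq h1) hq ζ hζ hz
  have hcard := ConjMod.card_eq_finrank 1 q hq h1 K
  -- all conjugates of `v` are power series
  have hps : ∀ o, ConjMod.fam 1 q K w ζ hz o v ∈ ps Qb := by
    intro o
    cases o with
    | none =>
      rw [ConjMod.fam_none, hv, coe_v]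
      exact qExpand_mem_ps q (v_mem_ps q)
    | some i =>
      rw [ConjMod.fam_some, hw, wExp_eq, hv, coe_wK_v]
      exact rotHom_mem_ps _ _ (w_mem_ps q)
  -- all conjugates of `v` become integral over `O[j]` after multiplication by `j ^ q`
  have hint : ∀ o, ConjMod.fam 1 q K w ζ hz o v ∈
      intAway φ (ConjMod.iota0 1 q K (jK 1 K)) hJ := by
    intro o
    refine ⟨q, ?_⟩
    have h2 : ConjMod.fam 1 q K w ζ hz o v * ConjMod.iota0 1 q K (jK 1 K) ^ q
        = ConjMod.fam 1 q K w ζ hz o (WK.jqK 1 q hq h1 K) := by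
      rw [← hfam_incl o (jK 1 K), ← map_pow, ← map_mul]
      congr 1
      show v * (DegTower.incl 1 (1 * q) K (Dvd.intro q rfl) (jK 1 K)) ^ q = _
      rw [DegTower.incl_jK, hv, mul_assoc, ← mul_pow, inv_mul_cancel₀ hjL0, one_pow, mul_one]
    rw [h2]
    have h3 : (aeval (R := OK A K) (jK (1 * q) K)).toRingHom.IsIntegralElem
        (WK.jqK 1 q hq h1 K) :=
      (PolyIntCl.isIntegralElem_aeval_iff _ _).mpr (WK.isIntegral_jqK 1 q hq h1 A K)
    have h4 := h3.map (ConjMod.fam 1 q K w ζ hz o)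
    have h5 : (ConjMod.fam 1 q K w ζ hz o).comp
        (aeval (R := OK A K) (jK (1 * q) K)).toRingHom = φ := by
      rw [hφ, ← DegTower.incl_jK 1 (1 * q) K (Dvd.intro q rfl),
        ← ConjMod.incl_comp_aeval 1 (1 * q) A K (Dvd.intro q rfl) (jK 1 K),
        ← RingHom.comp_assoc]
      congr 1
      exact RingHom.ext (hfam_incl o)
    rwa [h5] at h4
  -- the coefficients of the characteristic polynomial lie in `O[j⁻¹]`
  have hcoef : ∀ k, (ConjInt.cpoly ↥(FK 1 K) v).coeff k ∈
      Algebra.adjoin (OK A K) {(jK 1 K)⁻¹} := by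
    intro k
    have hmem := ConjInt.coeff_cpoly_mem (ConjMod.iota0 1 q K) (ConjMod.fam 1 q K w ζ hz)
      hfam_incl hinj hcard v (ps Qb ⊓ intAway φ (ConjMod.iota0 1 q K (jK 1 K)) hJ)
      (fun o => ⟨hps o, hint o⟩) k
    obtain ⟨hm1, n, hm2⟩ := hmem
    refine mem_adjoin_inv_of_ps A K (of_qExpand_mem_ps q hm1) n ?_
    apply mem_adjoin_of_isIntegral A K
    rw [← PolyIntCl.isIntegralElem_aeval_iff]
    have h6 : φ.IsIntegralElem (ConjMod.iota0 1 q K
        ((ConjInt.cpoly ↥(FK 1 K) v).coeff k * jK 1 K ^ n)) := by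
      rwa [map_mul, map_pow]
    exact RingHom.IsIntegralElem.of_map (ConjMod.iota0 1 q K).injective h6
  -- conclusion
  rw [← PolyIntCl.isIntegralElem_aeval_iff]
  have hlift : ConjInt.cpoly ↥(FK 1 K) v ∈
      Polynomial.lifts (aeval (R := OK A K) (jK 1 K)⁻¹).toRingHom := by
    rw [Polynomial.lifts_iff_coeff_lifts]
    intro k
    have h7 := hcoef k
    rw [Algebra.adjoin_singleton_eq_range_aeval] at h7
    obtain ⟨P, hP⟩ := h7
    exact ⟨P, hP⟩
  obtain ⟨Q, hQ, -, hQm⟩ := Polynomial.lifts_and_degree_eq_and_monic hlift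
    (ConjInt.cpoly_monic v)
  refine ⟨Q, hQm, ?_⟩
  have h8 : (aeval (R := OK A K) (jK (1 * q) K)⁻¹).toRingHom
      = (DegTower.incl 1 (1 * q) K (Dvd.intro q rfl)).comp
        (aeval (R := OK A K) (jK 1 K)⁻¹).toRingHom := by
    rw [ConjMod.incl_comp_aeval 1 (1 * q) A K (Dvd.intro q rfl) (jK 1 K)⁻¹, map_inv₀,
      DegTower.incl_jK]
  rw [h8, ← Polynomial.eval₂_map, hQ]
  exact ConjInt.aeval_cpoly v

include hq h1 in
/-- The core in chart form. -/
theorem core_mem_chart :
    WK.jqK 1 q hq h1 K * ((jK (1 * q) K)⁻¹) ^ q ∈ chart (1 * q) A K (jK (1 * q) K)⁻¹ :=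
  (mem_chart_iff (1 * q) A K).mpr (isIntegral_core q hq h1 A K)

end Core

end Fermat.Agent.S36.CuspChart
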