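/-
S36 — CuspChartLift.lean (helper115): leaf [CUSP-a], TRANSPORT of the level-`1·q` core
`CuspChart.core_mem_chart` (`j_q / j^q` integral over `O[j⁻¹]`) to the levels `M q` and
`N = M q²` (`q` prime, `q ∤ M`); hypothesis-free.

Level `M q` (`JK = j · j_q`):
* `v_mem_chart_inv`    : `j_q / j^q ∈ chart j⁻¹`;      `wv_mem_chart_inv` : `j / j_q^q ∈ chart j_q⁻¹`;
* `v_mem_chart_JK_inv`, `wv_mem_chart_JK_inv` : both lie in `chart JK⁻¹`.

Level `N = M q²` (`J3 = j · j_q · j_{q²}`, `R = chart N A K J3⁻¹`), all `∈ R`: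
* `mu_mem`   : `j_q / j^q`            (`hμ` of `CuspOne`),   `mu2_mem`  : `j_{q²} / j_q^q` (`hμ₂`),
* `nu_mem`   : `j / j_q^q`,                                   `nu2_mem`  : `j_q / j_{q²}^q`,
* `m1_mem`   : `j_{q²} / j^(q²)`,                             `m2_mem`   : `j / j_{q²}^(q²)`,
* `mu1_mem`  : `j_q / (j^(q-1) · j_{q²})`,
and the same statements written with `/` (`mu_mem_div`, `mu2_mem_div`, `nu_mem_div`, `nu2_mem_div`).
-/
import Mathlib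
import Fermat.Agent.S36.CuspChart
import Fermat.Agent.S36.Chart3B

set_option autoImplicit false

noncomputable section

namespace Fermat.Agent.S36.CuspChartLift

open ModularCurve AlgebraicCurve HahnSeries
open Fermat.Agent.S18 Fermat.Agent.S18.Arith Fermat.Agent.S34

variable (M q : ℕ) [NeZero M] [NeZero q] (hq : q.Prime) (hqM : ¬ q ∣ M)
variable (A : ValuationSubring Qb) (K : IntermediateField ℚ Qb)

/-! ### Two field identities -/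

theorem aux_m {F : Type*} [Field F] (a b c : F) (hb : b ≠ 0) (n : ℕ) :
    a * b⁻¹ ^ n * (b * c⁻¹ ^ n) ^ n = a * c⁻¹ ^ (n ^ 2) := by
  rw [mul_pow, ← pow_mul, ← pow_two, mul_assoc, ← mul_assoc (b⁻¹ ^ n), ← mul_pow,
    inv_mul_cancel₀ hb, one_pow, one_mul]

theorem aux_mu1 {F : Type*} [Field F] (a b c : F) (n : ℕ) (hn : 1 ≤ n) :
    b * c⁻¹ ^ n * (b * a⁻¹ ^ n) ^ (n - 1) = (b * (a⁻¹ ^ (n - 1) * c⁻¹)) ^ n := by
  obtain ⟨k, rfl⟩ : ∃ k, n = k + 1 := ⟨n - 1, (Nat.sub_add_cancel hn).symm⟩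
  rw [Nat.add_sub_cancel]
  ring

/-! ### Level `M q` -/

/-- Level `M q`: `j_q / j^q ∈ chart j⁻¹`. -/
theorem v_mem_chart_inv :
    WK.jqK M q hq hqM K * ((jK (M * q) K)⁻¹) ^ q ∈ chart (M * q) A K (jK (M * q) K)⁻¹ := by
  have h1 : ¬ q ∣ 1 := fun h => hq.one_lt.ne' (Nat.dvd_one.mp h)
  have hd : 1 * q ∣ M * q := Nat.mul_dvd_mul_right (one_dvd M) q
  have h := ConjMod.incl_mem_chart (1 * q) (M * q) A K hd ((jK (1 * q) K)⁻¹) _
    (CuspChart.core_mem_chart q hq h1 A K)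
  have hjq : DegTower.incl (1 * q) (M * q) K hd (WK.jqK 1 q hq h1 K) = WK.jqK M q hq hqM K := by
    apply Subtype.ext
    rw [DegTower.coe_incl, WK.coe_jqK, WK.coe_jqK]
  rw [map_mul, map_pow, map_inv₀, DegTower.incl_jK, hjq] at h
  exact h

/-- Level `M q`: `j / j_q^q ∈ chart j_q⁻¹` (the Atkin–Lehner twin). -/
theorem wv_mem_chart_inv :
    jK (M * q) K * ((WK.jqK M q hq hqM K)⁻¹) ^ q ∈
      chart (M * q) A K (WK.jqK M q hq hqM K)⁻¹ := by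
  have h := WK.wK_mem_chart M q hq hqM A K (v_mem_chart_inv M q hq hqM A K)
  rw [map_mul, map_pow, map_inv₀, WK.wK_jqK, WK.wK_jK] at h
  exact h

/-- Level `M q`: `j_q / j^q ∈ chart JK⁻¹`. -/
theorem v_mem_chart_JK_inv :
    WK.jqK M q hq hqM K * ((jK (M * q) K)⁻¹) ^ q ∈
      chart (M * q) A K (WKInst.JK M q hq hqM K)⁻¹ :=
  WKInst.chart_jK_inv_le M q hq hqM A K (v_mem_chart_inv M q hq hqM A K)

/-- Level `M q`: `j / j_q^q ∈ chart JK⁻¹`. -/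
theorem wv_mem_chart_JK_inv :
    jK (M * q) K * ((WK.jqK M q hq hqM K)⁻¹) ^ q ∈
      chart (M * q) A K (WKInst.JK M q hq hqM K)⁻¹ :=
  WKInst.chart_jqK_inv_le M q hq hqM A K (wv_mem_chart_inv M q hq hqM A K)

/-! ### Level `N = M q²` -/

/-- **(hμ)** `j_q / j^q ∈ chart J3⁻¹`. -/
theorem mu_mem :
    WQ2.jqK2 M q hq hqM K * (jK (M * q * q) K)⁻¹ ^ q ∈
      chart (M * q * q) A K (Chart3B.J3 M q hq hqM K)⁻¹ := by
  have h := Chart3B.alphaK2_mem_chart_J3_inv M q hq hqM A K (v_mem_chart_JK_inv M q hq hqM A K)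
  rw [map_mul, map_pow, map_inv₀, WQ2.alphaK2_jK] at h
  exact h

/-- **(hμ₂)** `j_{q²} / j_q^q ∈ chart J3⁻¹`. -/
theorem mu2_mem :
    WQ2.jqqK2 M q hq hqM K * (WQ2.jqK2 M q hq hqM K)⁻¹ ^ q ∈
      chart (M * q * q) A K (Chart3B.J3 M q hq hqM K)⁻¹ := by
  have h := Chart3B.betaK2_mem_chart_J3_inv M q hq hqM A K (v_mem_chart_JK_inv M q hq hqM A K)
  rw [map_mul, map_pow, map_inv₀, WQ2.betaK2_jK] at h
  exact h

/-- `j / j_q^q ∈ chart J3⁻¹`. -/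
theorem nu_mem :
    jK (M * q * q) K * (WQ2.jqK2 M q hq hqM K)⁻¹ ^ q ∈
      chart (M * q * q) A K (Chart3B.J3 M q hq hqM K)⁻¹ := by
  have h := Chart3B.alphaK2_mem_chart_J3_inv M q hq hqM A K (wv_mem_chart_JK_inv M q hq hqM A K)
  rw [map_mul, map_pow, map_inv₀, WQ2.alphaK2_jK] at h
  exact h

/-- `j_q / j_{q²}^q ∈ chart J3⁻¹`. -/
theorem nu2_mem :
    WQ2.jqK2 M q hq hqM K * (WQ2.jqqK2 M q hq hqM K)⁻¹ ^ q ∈
      chart (M * q * q) A K (Chart3B.J3 M q hq hqM K)⁻¹ := by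
  have h := Chart3B.betaK2_mem_chart_J3_inv M q hq hqM A K (wv_mem_chart_JK_inv M q hq hqM A K)
  rw [map_mul, map_pow, map_inv₀, WQ2.betaK2_jK] at h
  exact h

/-- `m₁ = j_{q²} / j^(q²) ∈ chart J3⁻¹`  (`= (j_{q²}/j_q^q) · (j_q/j^q)^q`). -/
theorem m1_mem :
    WQ2.jqqK2 M q hq hqM K * (jK (M * q * q) K)⁻¹ ^ (q ^ 2) ∈
      chart (M * q * q) A K (Chart3B.J3 M q hq hqM K)⁻¹ := by
  have h := Subalgebra.mul_mem _ (mu2_mem M q hq hqM A K)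
    (Subalgebra.pow_mem _ (mu_mem M q hq hqM A K) q)
  rw [aux_m _ _ _ (Chart3B.jqK2_ne_zero M q hq hqM K)] at h
  exact h

/-- `m₂ = j / j_{q²}^(q²) ∈ chart J3⁻¹`  (`= (j/j_q^q) · (j_q/j_{q²}^q)^q`). -/
theorem m2_mem :
    jK (M * q * q) K * (WQ2.jqqK2 M q hq hqM K)⁻¹ ^ (q ^ 2) ∈
      chart (M * q * q) A K (Chart3B.J3 M q hq hqM K)⁻¹ := by
  have h := Subalgebra.mul_mem _ (nu_mem M q hq hqM A K)
    (Subalgebra.pow_mem _ (nu2_mem M q hq hqM A K) q)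
  rw [aux_m _ _ _ (Chart3B.jqK2_ne_zero M q hq hqM K)] at h
  exact h

/-- `μ₁ = j_q / (j^(q-1) · j_{q²}) ∈ chart J3⁻¹`  (`μ₁^q = (j_q/j_{q²}^q) · (j_q/j^q)^(q-1)`). -/
theorem mu1_mem :
    WQ2.jqK2 M q hq hqM K * ((jK (M * q * q) K)⁻¹ ^ (q - 1) * (WQ2.jqqK2 M q hq hqM K)⁻¹) ∈
      chart (M * q * q) A K (Chart3B.J3 M q hq hqM K)⁻¹ := by
  have h := Subalgebra.mul_mem _ (nu2_mem M q hq hqM A K)
    (Subalgebra.pow_mem _ (mu_mem M q hq hqM A K) (q - 1))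
  rw [aux_mu1 _ _ _ q hq.one_lt.le] at h
  exact ChartJ.root_chart (M * q * q) A K hq.ne_zero h

/-! ### The same statements written with `/` -/

theorem mu_mem_div :
    WQ2.jqK2 M q hq hqM K / jK (M * q * q) K ^ q ∈
      chart (M * q * q) A K (Chart3B.J3 M q hq hqM K)⁻¹ := by
  rw [div_eq_mul_inv, ← inv_pow]
  exact mu_mem M q hq hqM A K

theorem mu2_mem_div :
    WQ2.jqqK2 M q hq hqM K / WQ2.jqK2 M q hq hqM K ^ q ∈
      chart (M * q * q) A K (Chart3B.J3 M q hq hqM K)⁻¹ := by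
  rw [div_eq_mul_inv, ← inv_pow]
  exact mu2_mem M q hq hqM A K

theorem nu_mem_div :
    jK (M * q * q) K / WQ2.jqK2 M q hq hqM K ^ q ∈
      chart (M * q * q) A K (Chart3B.J3 M q hq hqM K)⁻¹ := by
  rw [div_eq_mul_inv, ← inv_pow]
  exact nu_mem M q hq hqM A K

theorem nu2_mem_div :
    WQ2.jqK2 M q hq hqM K / WQ2.jqqK2 M q hq hqM K ^ q ∈
      chart (M * q * q) A K (Chart3B.J3 M q hq hqM K)⁻¹ := by
  rw [div_eq_mul_inv, ← inv_pow]
  exact nu2_mem M q hq hqM A K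

end Fermat.Agent.S36.CuspChartLift
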