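/-
S36 — CuspConj.lean (helper131): conjugates at the cusp.

Level `M * q`, `q` prime not dividing `M`, `w` the Atkin–Lehner swap (as in `S34/ConjMod`).
If `x ∈ F_K(Mq)` and `w x` are POWER SERIES (no negative coefficients), then every coefficient
of the characteristic polynomial of `x` over `F_K(M)` is a power series, so `x` is integral over
the ring of elements of `F_K(M)` which are power series.
-/
import Mathlib
import Fermat.Agent.S34.ConjMod
import Fermat.Agent.S34.WK

set_option autoImplicit false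

noncomputable section

namespace Fermat.Agent.S36.CuspConj

open ModularCurve AlgebraicCurve HahnSeries Polynomial
open Fermat.Agent.S18 Fermat.Agent.S18.Arith Fermat.Agent.S18.ModelPlan Fermat.Agent.S24
open Fermat.Agent.S37.W Fermat.Agent.S37.KC Fermat.Agent.S34.ConjInt Fermat.Agent.S34

/-! ### The subring of power series -/

/-- The subring of power series inside `ℚ̄((Q))`. -/
def psRing : Subring (LaurentSeries Qb) := (HahnSeries.ofPowerSeries ℤ Qb).range

theorem mem_psRing_iff {x : LaurentSeries Qb} :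
    x ∈ psRing ↔ ∀ n : ℤ, n < 0 → x.coeff n = 0 := by
  constructor
  · rintro ⟨p, rfl⟩ n hn
    exact ofPowerSeries_coeff_of_neg p hn
  · intro h
    refine ⟨PowerSeries.mk fun n => x.coeff (n : ℤ), ?_⟩
    ext n
    by_cases hn : n < 0
    · rw [h n hn]
      exact ofPowerSeries_coeff_of_neg _ hn
    · obtain ⟨k, rfl⟩ := Int.eq_ofNat_of_zero_le (not_lt.mp hn)
      show ((PowerSeries.mk fun n => x.coeff (n : ℤ) : PowerSeries Qb) : LaurentSeries Qb).coeff
        (k : ℤ) = _
      rw [PowerSeries.coeff_coe]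
      simp

theorem rot_mem_psRing {ζ : Qb} (hζ : ζ ≠ 0) {x : LaurentSeries Qb} (hx : x ∈ psRing) :
    rotHom ζ hζ x ∈ psRing := by
  rw [mem_psRing_iff] at hx ⊢
  intro n hn
  rw [rotHom_coeff, hx n hn, mul_zero]

theorem qExpand_mem_psRing (n : ℕ) [NeZero n] {x : LaurentSeries Qb} (hx : x ∈ psRing) :
    qExpand Qb n x ∈ psRing := by
  rw [mem_psRing_iff] at hx ⊢
  intro k hk
  by_cases hd : (n : ℤ) ∣ k
  · obtain ⟨m, rfl⟩ := hd
    rw [qExpand_coeff_mul]
    apply hx
    have hn : (0 : ℤ) < n := by exact_mod_cast Nat.pos_of_ne_zero (NeZero.ne n)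
    by_contra hm
    exact absurd hk (not_lt.mpr (mul_nonneg hn.le (not_lt.mp hm)))
  · exact qExpand_coeff_of_not_dvd n x hd

theorem mem_psRing_of_qExpand (n : ℕ) [NeZero n] {x : LaurentSeries Qb}
    (hx : qExpand Qb n x ∈ psRing) : x ∈ psRing := by
  rw [mem_psRing_iff] at hx ⊢
  intro k hk
  rw [← qExpand_coeff_mul n x k]
  apply hx
  have hn : (0 : ℤ) < n := by exact_mod_cast Nat.pos_of_ne_zero (NeZero.ne n)
  exact mul_neg_of_pos_of_neg hn hk

/-! ### Conjugates -/

section Main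

variable (M q : ℕ) [NeZero M] [NeZero q] (hq : q.Prime) (hqM : ¬ q ∣ M)
  (K : IntermediateField ℚ Qb)
  (w : ↥(modularFunctionFieldBar (M * q)) →ₐ[Qb] ↥(modularFunctionFieldBar (M * q)))
  (hwα : ∀ x, w (heckeAlphaBar Qb M q x) = heckeBetaBar Qb M q x)
  (hwβ : ∀ x, w (heckeBetaBar Qb M q x) = heckeAlphaBar Qb M q x)

/-- All conjugates of `x` are power series when `x` and `w x` are. -/
theorem fam_mem_psRing (ζ : Qb) (hz : ∀ i : ℕ, ζ ^ i ≠ 0)
    (x : ↥(FK (M * q) K)) (h1 : (x : LaurentSeries Qb) ∈ psRing)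
    (h2 : ConjMod.wExp M q K w x ∈ psRing) (o : Option (Fin q)) :
    ConjMod.fam M q K w ζ hz o x ∈ psRing := by
  cases o with
  | none =>
    rw [ConjMod.fam_none]
    exact qExpand_mem_psRing q h1
  | some i =>
    rw [ConjMod.fam_some]
    exact rot_mem_psRing (hz i) h2

include hq hqM hwα hwβ in
/-- For `x ∈ F_K(Mq)` with `x` and `w x` power series, all coefficients of the characteristic
polynomial of `x` over `F_K(M)` are power series. -/
theorem coeff_cpoly_mem_psRing (x : ↥(FK (M * q) K)) (h1 : (x : LaurentSeries Qb) ∈ psRing)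
    (h2 : ConjMod.wExp M q K w x ∈ psRing) (k : ℕ) :
    letI := DegTower.algTower M (M * q) K (Dvd.intro q rfl)
    haveI := DegTower.finiteDimensional M (M * q) K (Dvd.intro q rfl)
    (((cpoly ↥(FK M K) x).coeff k : ↥(FK M K)) : LaurentSeries Qb) ∈ psRing := by
  letI := DegTower.algTower M (M * q) K (Dvd.intro q rfl)
  haveI := DegTower.finiteDimensional M (M * q) K (Dvd.intro q rfl)
  haveI := ConjMod.charZero_FK K M
  haveI : Algebra.IsSeparable ↥(FK M K) ↥(FK (M * q) K) :=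
    Algebra.IsAlgebraic.isSeparable_of_perfectField
  obtain ⟨ζ, hζ⟩ := HasEnoughRootsOfUnity.exists_primitiveRoot Qb q
  have hz : ∀ i : ℕ, ζ ^ i ≠ 0 := fun i => pow_ne_zero i (hζ.ne_zero (NeZero.ne q))
  have hmem := coeff_cpoly_mem (ConjMod.iota0 M q K) (ConjMod.fam M q K w ζ hz)
    (fun o y => ConjMod.fam_incl M q K w hwα ζ hζ.pow_eq_one hz o y)
    (ConjMod.fam_injective M q K w hwβ hq ζ hζ hz) (ConjMod.card_eq_finrank M q hq hqM K) x
    psRing (fam_mem_psRing M q K w ζ hz x h1 h2) k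
  exact mem_psRing_of_qExpand q hmem

end Main

/-! ### Integrality over the power-series part of `F_K(M)` -/

section Int

variable (M q : ℕ) [NeZero M] [NeZero q] (hq : q.Prime) (hqM : ¬ q ∣ M)
  (K : IntermediateField ℚ Qb)
  (w : ↥(modularFunctionFieldBar (M * q)) →ₐ[Qb] ↥(modularFunctionFieldBar (M * q)))
  (hwα : ∀ x, w (heckeAlphaBar Qb M q x) = heckeBetaBar Qb M q x)
  (hwβ : ∀ x, w (heckeBetaBar Qb M q x) = heckeAlphaBar Qb M q x)

/-- The elements of `F_K(N)` which are power series. -/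
def psSub (N : ℕ) (K : IntermediateField ℚ Qb) : Subring ↥(FK N K) :=
  psRing.comap (FK N K).subtype

theorem mem_psSub {N : ℕ} {K : IntermediateField ℚ Qb} {a : ↥(FK N K)} :
    a ∈ psSub N K ↔ (a : LaurentSeries Qb) ∈ psRing := Iff.rfl

include hq hqM hwα hwβ in
/-- For `x ∈ F_K(Mq)` with `x` and `w x` power series, `x` is integral over the ring of
elements of `F_K(M)` which are power series. -/
theorem isIntegral_psSub (x : ↥(FK (M * q) K)) (h1 : (x : LaurentSeries Qb) ∈ psRing)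
    (h2 : ConjMod.wExp M q K w x ∈ psRing) :
    letI := DegTower.algTower M (M * q) K (Dvd.intro q rfl)
    IsIntegral (psSub M K) x := by
  letI := DegTower.algTower M (M * q) K (Dvd.intro q rfl)
  haveI := DegTower.finiteDimensional M (M * q) K (Dvd.intro q rfl)
  haveI := ConjMod.charZero_FK K M
  haveI : Algebra.IsSeparable ↥(FK M K) ↥(FK (M * q) K) :=
    Algebra.IsAlgebraic.isSeparable_of_perfectField
  obtain ⟨ζ, hζ⟩ := HasEnoughRootsOfUnity.exists_primitiveRoot Qb q
  have hz : ∀ i : ℕ, ζ ^ i ≠ 0 := fun i => pow_ne_zero i (hζ.ne_zero (NeZero.ne q))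
  exact isIntegral_of_conj_mem (ConjMod.iota0 M q K) (ConjMod.fam M q K w ζ hz)
    (fun o y => ConjMod.fam_incl M q K w hwα ζ hζ.pow_eq_one hz o y)
    (ConjMod.fam_injective M q K w hwβ hq ζ hζ hz) (ConjMod.card_eq_finrank M q hq hqM K) x
    psRing (fam_mem_psRing M q K w ζ hz x h1 h2) (psSub M K)
    (fun a ha => mem_psRing_of_qExpand q ha)

end Int

/-! ### Orders -/

theorem mem_psRing_of_order {x : LaurentSeries Qb} (h : 0 ≤ x.order) : x ∈ psRing := by
  rw [mem_psRing_iff]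
  intro n hn
  exact HahnSeries.coeff_eq_zero_of_lt_order (lt_of_lt_of_le hn h)

theorem jser_ne_zero : coeffEmb Qb jq ≠ 0 := by
  intro h
  have h1 := coeff_coeffEmb_jq_neg_one
  rw [h] at h1
  simp at h1

theorem order_jser : (coeffEmb Qb jq).order = -1 := by
  apply le_antisymm
  · refine HahnSeries.order_le_of_coeff_ne_zero ?_
    rw [coeff_coeffEmb_jq_neg_one]
    exact one_ne_zero
  · by_contra hlt
    rw [not_le] at hlt
    apply jser_ne_zero
    apply HahnSeries.coeff_order_eq_zero.mp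
    rw [coeffEmb_coeff, coeff_jq_of_lt hlt, map_zero]

theorem order_qExpand_eq (n : ℕ) [NeZero n] {x : LaurentSeries Qb} (hx : x ≠ 0) :
    (qExpand Qb n x).order = (n : ℤ) * x.order := by
  have hn : (0 : ℤ) < n := by exact_mod_cast Nat.pos_of_ne_zero (NeZero.ne n)
  have hne : qExpand Qb n x ≠ 0 := fun h =>
    hx ((qExpand Qb n).injective (by rw [h, map_zero]))
  refine le_antisymm (HahnSeries.order_le_of_coeff_ne_zero ?_) ?_
  · rw [qExpand_coeff_mul]
    exact HahnSeries.coeff_order_eq_zero.not.mpr hx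
  · have h1 : (qExpand Qb n x).coeff (qExpand Qb n x).order ≠ 0 :=
      HahnSeries.coeff_order_eq_zero.not.mpr hne
    by_cases hd : (n : ℤ) ∣ (qExpand Qb n x).order
    · obtain ⟨k, hk⟩ := hd
      rw [hk, qExpand_coeff_mul] at h1
      rw [hk]
      exact mul_le_mul_of_nonneg_left (HahnSeries.order_le_of_coeff_ne_zero h1) hn.le
    · exact absurd (qExpand_coeff_of_not_dvd n x hd) h1

theorem order_inv_eq {x : LaurentSeries Qb} (hx : x ≠ 0) : x⁻¹.order = -x.order := by
  have h := HahnSeries.order_mul hx (inv_ne_zero hx)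
  rw [mul_inv_cancel₀ hx, HahnSeries.order_one] at h
  linarith

/-- `j(Q^q) / j(Q)^q` is a power series. -/
theorem ps_one (q : ℕ) [NeZero q] :
    qExpand Qb q (coeffEmb Qb jq) / coeffEmb Qb jq ^ q ∈ psRing := by
  have hJ := jser_ne_zero
  have hE : qExpand Qb q (coeffEmb Qb jq) ≠ 0 := fun h =>
    hJ ((qExpand Qb q).injective (by rw [h, map_zero]))
  apply mem_psRing_of_order
  rw [div_eq_mul_inv, HahnSeries.order_mul hE (inv_ne_zero (pow_ne_zero q hJ)),
    order_inv_eq (pow_ne_zero q hJ), HahnSeries.order_pow, order_qExpand_eq q hJ, order_jser]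
  simp

/-- `j(Q) / j(Q^q)^q` is a power series. -/
theorem ps_two (q : ℕ) [NeZero q] :
    coeffEmb Qb jq / qExpand Qb q (coeffEmb Qb jq) ^ q ∈ psRing := by
  have hJ := jser_ne_zero
  have hE : qExpand Qb q (coeffEmb Qb jq) ≠ 0 := fun h =>
    hJ ((qExpand Qb q).injective (by rw [h, map_zero]))
  have hq1 : 1 ≤ q := Nat.pos_of_ne_zero (NeZero.ne q)
  apply mem_psRing_of_order
  rw [div_eq_mul_inv, HahnSeries.order_mul hJ (inv_ne_zero (pow_ne_zero q hE)),
    order_inv_eq (pow_ne_zero q hE), HahnSeries.order_pow, order_qExpand_eq q hJ, order_jser]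
  have h2 : (1 : ℤ) ≤ (q : ℤ) * q := by
    have : (1 : ℤ) ≤ q := by exact_mod_cast hq1
    nlinarith
  simp only [nsmul_eq_mul, mul_neg, mul_one, neg_neg]
  linarith

/-! ### Level `q`: the two ratios -/

section LevelQ

variable (M q : ℕ) [NeZero M] [NeZero q] (hq : q.Prime) (hqM : ¬ q ∣ M)
  (K : IntermediateField ℚ Qb)

/-- `j_q / j ^ q ∈ F_K(Mq)`. -/
def vA : ↥(FK (M * q) K) := ConjMod.jqK M q K / jK (M * q) K ^ q

/-- `j / j_q ^ q ∈ F_K(Mq)`. -/
def vB : ↥(FK (M * q) K) := jK (M * q) K / ConjMod.jqK M q K ^ q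

theorem coe_vA : ((vA M q K : ↥(FK (M * q) K)) : LaurentSeries Qb)
    = qExpand Qb q (coeffEmb Qb jq) / coeffEmb Qb jq ^ q := by
  rw [vA, Subfield.coe_div, SubmonoidClass.coe_pow, ConjMod.coe_jqK, DegTower.coe_jK]

theorem coe_vB : ((vB M q K : ↥(FK (M * q) K)) : LaurentSeries Qb)
    = coeffEmb Qb jq / qExpand Qb q (coeffEmb Qb jq) ^ q := by
  rw [vB, Subfield.coe_div, SubmonoidClass.coe_pow, ConjMod.coe_jqK, DegTower.coe_jK]

theorem wExp_jK (w : ↥(modularFunctionFieldBar (M * q)) →ₐ[Qb] ↥(modularFunctionFieldBar (M * q)))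
    (hwα : ∀ x, w (heckeAlphaBar Qb M q x) = heckeBetaBar Qb M q x) :
    ConjMod.wExp M q K w (jK (M * q) K) = qExpand Qb q (coeffEmb Qb jq) := by
  rw [← DegTower.incl_jK M (M * q) K (Dvd.intro q rfl), ConjMod.wExp_incl M q K w hwα,
    DegTower.coe_jK]

theorem wExp_vA (w : ↥(modularFunctionFieldBar (M * q)) →ₐ[Qb] ↥(modularFunctionFieldBar (M * q)))
    (hwα : ∀ x, w (heckeAlphaBar Qb M q x) = heckeBetaBar Qb M q x)
    (hwβ : ∀ x, w (heckeBetaBar Qb M q x) = heckeAlphaBar Qb M q x) :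
    ConjMod.wExp M q K w (vA M q K) = coeffEmb Qb jq / qExpand Qb q (coeffEmb Qb jq) ^ q := by
  rw [vA, map_div₀, map_pow, ConjMod.wExp_jqK M q K w hwβ, wExp_jK M q K w hwα]

theorem wExp_vB (w : ↥(modularFunctionFieldBar (M * q)) →ₐ[Qb] ↥(modularFunctionFieldBar (M * q)))
    (hwα : ∀ x, w (heckeAlphaBar Qb M q x) = heckeBetaBar Qb M q x)
    (hwβ : ∀ x, w (heckeBetaBar Qb M q x) = heckeAlphaBar Qb M q x) :
    ConjMod.wExp M q K w (vB M q K) = qExpand Qb q (coeffEmb Qb jq) / coeffEmb Qb jq ^ q := by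
  rw [vB, map_div₀, map_pow, ConjMod.wExp_jqK M q K w hwβ, wExp_jK M q K w hwα]

include hq hqM in
/-- `j_q / j ^ q` is integral over the power-series part of `F_K(M)`. -/
theorem isIntegral_vA :
    letI := DegTower.algTower M (M * q) K (Dvd.intro q rfl)
    IsIntegral (psSub M K) (vA M q K) := by
  refine isIntegral_psSub M q hq hqM K
    (WK.wBar M q hq hqM : ↥(modularFunctionFieldBar (M * q)) →ₐ[Qb] _)
    (WK.wBar_alpha M q hq hqM) (WK.wBar_beta M q hq hqM) (vA M q K) ?_ ?_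
  · rw [coe_vA]; exact ps_one q
  · rw [wExp_vA M q K _ (WK.wBar_alpha M q hq hqM) (WK.wBar_beta M q hq hqM)]; exact ps_two q

include hq hqM in
/-- `j / j_q ^ q` is integral over the power-series part of `F_K(M)`. -/
theorem isIntegral_vB :
    letI := DegTower.algTower M (M * q) K (Dvd.intro q rfl)
    IsIntegral (psSub M K) (vB M q K) := by
  refine isIntegral_psSub M q hq hqM K
    (WK.wBar M q hq hqM : ↥(modularFunctionFieldBar (M * q)) →ₐ[Qb] _)
    (WK.wBar_alpha M q hq hqM) (WK.wBar_beta M q hq hqM) (vB M q K) ?_ ?_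
  · rw [coe_vB]; exact ps_two q
  · rw [wExp_vB M q K _ (WK.wBar_alpha M q hq hqM) (WK.wBar_beta M q hq hqM)]; exact ps_one q

end LevelQ

end Fermat.Agent.S36.CuspConj
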