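/-
S36 — CuspDD.lean (helper92): **(B1) at the cuspidal closed points of `W3` (the middle cusps),
abstract core, by divided differences.**  Mathlib + `Model3Plan` + `Princ3` only.

Setting: a chart `R` with `ChartHyp3`/`ValHyp3` (three vertical primes `P 0, P 1, P 2`,
`e 2 = q - 1`), integrally closed domain; `n` a prime with `P 2 ≤ n`.  Elements (in the
application `R = chart N A K J3⁻¹`, `N = M q²`):

  `x = j⁻¹`, `x' = jq⁻¹`, `x'' = jqq⁻¹`, `y = jq / j^q`, `y' = jq / jqq^q`,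

with `y x' = x^q`, `y' x' = x''^q`, `x x' x'' = J3⁻¹ ∈ n` (cuspidal point), the Kronecker
congruences on the three components, and ONE polynomial relation `Pol ∈ O[X][Y]` with
`Pol(x, y) = 0 = Pol(x'', y')` and `∂_Y Pol (0, 1)` a unit at `n` (the modular equation of level
`q` in the coordinates `(j⁻¹, jq / j^q)`; the second evaluation is the Atkin–Lehner image of the
first).

Conclusions: `P 0 ≰ n`, `P 1 ≰ n` (the point is one-branch), and `g := r0 - y`
(`r0 = y x''/x`, so `g = y (j/jqq - 1)`) lies in `P 2` and satisfies `s g^(q-1) = π v` with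
`s, v ∉ n` (`unit_at_cusp`); hence `g` generates `P 2` locally at `n` (`genAt_cusp`) and lies in
no horizontal prime through `n` (`notMem_hor`).

Proof idea: `Pol(x'', y') - Pol(x, y) = 0` gives `(x'' - x) D1 + (y' - y) D2 = 0` with
`D2 ∉ n` (divided differences).  With `Ψ = (r0^q - y^q)/(r0 - y) = g^(q-1) + q u1`, `u1 ∉ n`, and
`r0^q = y^(q-1) y'` one gets `(g^(q-1) + q u1) D2 = - y^(q-2) x D1`; valuations on `P 2` and the
localised `desc` turn this into `v s ≡ - ε u1 s s2` modulo `n`.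
-/
import Mathlib
import Fermat.Agent.S36.Model3Plan
import Fermat.Agent.S36.Princ3

set_option autoImplicit false

namespace Fermat.Agent.S36.CuspDD

open Fermat.Agent.S36.Model3Plan Polynomial

section Alg

variable {O : Type*} [CommRing O] {R : Type*} [CommRing R]

/-- A bivariate evaluation is a polynomial function of the inner variable. -/
theorem sub_dvd_eval₂_sub (f : O →+* R) (T : Polynomial (Polynomial O)) (a a' b : R) :
    a - a' ∣ T.eval₂ (eval₂RingHom f a) b - T.eval₂ (eval₂RingHom f a') b := by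
  have key : ∀ c : R, T.eval₂ (eval₂RingHom f c) b
      = (T.eval₂ (mapRingHom f) (C b)).eval c := by
    intro c
    have h := hom_eval₂ T (mapRingHom f) (evalRingHom c) (C b)
    rw [coe_evalRingHom, eval_C] at h
    rw [h]
    congr 1
    refine RingHom.ext fun p => ?_
    simp [eval_map]
  rw [key a, key a']
  exact sub_dvd_eval_sub a a' _

/-- **Divided differences** of a bivariate relation with a simple root at `(0, 1)`. -/
theorem exists_D (f : O →+* R) (Pol : Polynomial (Polynomial O)) (x x'' y y' : R)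
    (n : Ideal R) (hx : x ∈ n) (hy : y - 1 ∈ n) (hy' : y' - 1 ∈ n)
    (h1 : (Pol.map (eval₂RingHom f x)).eval y = 0)
    (h2 : (Pol.map (eval₂RingHom f x'')).eval y' = 0)
    (hd : f ((Pol.map (evalRingHom 0)).derivative.eval 1) ∉ n) :
    ∃ D1 D2 : R, (x'' - x) * D1 + (y' - y) * D2 = 0 ∧ D2 ∉ n := by
  set H : R[X] := Pol.map (eval₂RingHom f x) with hH
  obtain ⟨D1, hD1⟩ := sub_dvd_eval₂_sub f Pol x'' x y'
  obtain ⟨k, hk⟩ := binomExpansion H y (y' - y)
  have e1 : Pol.eval₂ (eval₂RingHom f x'') y' = 0 := by rw [← eval_map]; exact h2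
  have e3 : H.eval y' = Pol.eval₂ (eval₂RingHom f x) y' := by rw [hH, eval_map]
  have e4 : y + (y' - y) = y' := by ring
  rw [e4, h1, e3] at hk
  rw [e1, hk] at hD1
  refine ⟨D1, H.derivative.eval y + k * (y' - y), ?_, ?_⟩
  · linear_combination -hD1
  · intro hmem
    apply hd
    have hyy : y' - y ∈ n := by
      have := n.sub_mem hy' hy
      have e : y' - 1 - (y - 1) = y' - y := by ring
      rwa [e] at this
    have h3 : H.derivative.eval y ∈ n := by
      have := n.sub_mem hmem (n.mul_mem_left k hyy)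
      simpa using this
    have h4 : H.derivative.eval y - H.derivative.eval 1 ∈ n := by
      obtain ⟨c, hc⟩ := sub_dvd_eval_sub y 1 H.derivative
      rw [hc]
      exact n.mul_mem_right _ hy
    have e5 : H.derivative.eval 1 = Pol.derivative.eval₂ (eval₂RingHom f x) 1 := by
      rw [hH, derivative_map, eval_map]
    have e6 : f ((Pol.map (evalRingHom 0)).derivative.eval 1)
        = Pol.derivative.eval₂ (eval₂RingHom f 0) 1 := by
      rw [derivative_map, eval_map, hom_eval₂, map_one]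
      congr 1
      refine RingHom.ext fun p => ?_
      simp [eval₂_at_zero, coeff_zero_eq_eval_zero]
    have h5 : H.derivative.eval 1 - f ((Pol.map (evalRingHom 0)).derivative.eval 1) ∈ n := by
      rw [e5, e6]
      obtain ⟨c, hc⟩ := sub_dvd_eval₂_sub f Pol.derivative x 0 1
      rw [hc, sub_zero]
      exact n.mul_mem_right c hx
    have h6 := n.sub_mem (n.sub_mem h3 h4) h5
    have e7 : H.derivative.eval y - (H.derivative.eval y - H.derivative.eval 1)
        - (H.derivative.eval 1 - f ((Pol.map (evalRingHom 0)).derivative.eval 1))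
        = f ((Pol.map (evalRingHom 0)).derivative.eval 1) := by ring
    rwa [e7] at h6

/-- `(g + y)^q - y^q = g (g^(q-1) + q u1)` with `u1 ≡ y^(q-1)` modulo `g` (`q` prime). -/
theorem exists_u1 {q : ℕ} (hq : q.Prime) (g y : R) :
    ∃ u1 : R, (g + y) ^ q - y ^ q = g * (g ^ (q - 1) + (q : R) * u1) ∧
      ∀ n : Ideal R, g ∈ n → u1 - y ^ (q - 1) ∈ n := by
  have hq2 := hq.two_le
  have h := add_pow_prime_eq hq g y
  set S : R := ∑ k ∈ Finset.Ioo 0 q, g ^ (k - 1) * y ^ (q - k - 1) * ((q.choose k / q : ℕ) : R)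
    with hS
  refine ⟨y * S, ?_, ?_⟩
  · rw [h]
    have hg : g ^ q = g * g ^ (q - 1) := by
      rw [← pow_succ']
      congr 1
      omega
    rw [hg]
    ring
  · intro n hg
    rw [← Ideal.Quotient.eq, map_mul, hS, map_sum]
    have hg0 : Ideal.Quotient.mk n g = 0 := Ideal.Quotient.eq_zero_iff_mem.mpr hg
    rw [Finset.sum_eq_single 1]
    · simp only [map_pow, Nat.sub_self, pow_zero, one_mul,
        Nat.choose_one_right, Nat.div_self hq.pos, Nat.cast_one, mul_one]
      rw [← pow_succ']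
      congr 1
      omega
    · intro k hk hk1
      have hk2 : 2 ≤ k := by
        have := (Finset.mem_Ioo.mp hk).1
        omega
      rw [map_mul, map_mul, map_pow, hg0, zero_pow (by omega), zero_mul, zero_mul]
    · intro h1
      exact absurd (Finset.mem_Ioo.mpr ⟨Nat.one_pos, by omega⟩) h1

/-- `r0 = y x'' / x` is an element of the (integrally closed) ring. -/
theorem exists_r0 [IsDomain R] [IsIntegrallyClosed R] {q : ℕ} (hq : 0 < q)
    {x x'' y y' : R} (hx0 : x ≠ 0) (hrel : y' * x ^ q = y * x'' ^ q) :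
    ∃ r0 : R, r0 * x = y * x'' ∧ r0 ^ q = y ^ (q - 1) * y' := by
  have hinj := IsFractionRing.injective R (FractionRing R)
  have hxK : algebraMap R (FractionRing R) x ≠ 0 := by
    intro h
    exact hx0 (hinj (by rw [h, map_zero]))
  set ρ : FractionRing R := algebraMap R (FractionRing R) (y * x'') /
    algebraMap R (FractionRing R) x with hρ
  have hyq : y ^ q = y ^ (q - 1) * y := by
    rw [← pow_succ]
    congr 1
    omega
  have hpow : ρ ^ q = algebraMap R (FractionRing R) (y ^ (q - 1) * y') := by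
    rw [hρ, div_pow, ← map_pow, ← map_pow, div_eq_iff (by rw [map_pow]; exact pow_ne_zero _ hxK),
      ← map_mul]
    congr 1
    rw [mul_pow, hyq]
    linear_combination (-(y ^ (q - 1))) * hrel
  have hint : IsIntegral R ρ := by
    refine ⟨X ^ q - C (y ^ (q - 1) * y'), monic_X_pow_sub_C _ hq.ne', ?_⟩
    rw [eval₂_sub, eval₂_pow, eval₂_X, eval₂_C, hpow, sub_self]
  obtain ⟨r0, hr0⟩ := IsIntegrallyClosed.isIntegral_iff.mp hint
  refine ⟨r0, hinj ?_, hinj ?_⟩
  · rw [map_mul, hr0, hρ, div_mul_cancel₀ _ hxK]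
  · rw [map_pow, hr0, hpow]

end Alg

section Val

variable {O : Type*} [CommRing O] {R : Type*} [CommRing R] [Algebra O R]
  {E : Type*} [Field E] [Algebra R E]
  {π : O} {e : Fin 3 → ℕ} {ϖ : Fin 3 → E} {V : Fin 3 → ValuationSubring E}
  {P : Fin 3 → Ideal R}

theorem unif_ne_zero {p : E} (val : ValHyp3 p e ϖ V) (i : Fin 3) : ϖ i ≠ 0 := by
  intro h
  exact val.unif_not i (by rw [h, inv_zero]; exact zero_mem _)

/-- A nonzero element is a unit of `V i` up to inversion, or lies in `ϖ i (V i)`. -/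
theorem inv_mem_or {p : E} (val : ValHyp3 p e ϖ V) (i : Fin 3) (z : E) (hz : z ≠ 0) :
    z⁻¹ ∈ V i ∨ ∃ y ∈ V i, z = ϖ i * y := by
  obtain ⟨k, u, hu, hu', rfl⟩ := val.disc i z hz
  have hϖ := unif_ne_zero val i
  rcases le_or_gt k 0 with hk | hk
  · left
    obtain ⟨m, hm⟩ : ∃ m : ℕ, -k = m := ⟨(-k).toNat, (Int.toNat_of_nonneg (by omega)).symm⟩
    have h1 : (ϖ i ^ k * u)⁻¹ = ϖ i ^ m * u⁻¹ := by
      rw [mul_inv, ← zpow_neg, hm, zpow_natCast]
    rw [h1]
    exact mul_mem (pow_mem (val.unif_mem i) m) hu'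
  · right
    obtain ⟨m, hm⟩ : ∃ m : ℕ, k = m + 1 :=
      ⟨(k - 1).toNat, by have := Int.toNat_of_nonneg (show 0 ≤ k - 1 by omega); omega⟩
    refine ⟨ϖ i ^ m * u, mul_mem (pow_mem (val.unif_mem i) m) hu, ?_⟩
    rw [hm, zpow_add₀ hϖ, zpow_natCast, zpow_one]
    ring

theorem map_ne_zero_of_notMem (hyp : ChartHyp3 π ϖ V P) (i : Fin 3) {r : R} (hr : r ∉ P i) :
    algebraMap R E r ≠ 0 := by
  intro h
  exact hr ((hyp.mem_P i r).mpr ⟨0, zero_mem _, by rw [h, mul_zero]⟩)

/-- Elements of `R` outside `P i` are units of `V i`. -/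
theorem inv_mem_of_notMem {p : E} (val : ValHyp3 p e ϖ V) (hyp : ChartHyp3 π ϖ V P) (i : Fin 3)
    {r : R} (hr : r ∉ P i) : (algebraMap R E r)⁻¹ ∈ V i := by
  rcases inv_mem_or val i _ (map_ne_zero_of_notMem hyp i hr) with h | ⟨y, hy, hry⟩
  · exact h
  · exact absurd ((hyp.mem_P i r).mpr ⟨y, hy, hry⟩) hr

/-- `P i` is "prime": `a b ∈ P i`, `a ∉ P i` imply `b ∈ P i`. -/
theorem mem_of_mul_mem {p : E} (val : ValHyp3 p e ϖ V) (hyp : ChartHyp3 π ϖ V P) (i : Fin 3)
    {a b : R} (hab : a * b ∈ P i) (ha : a ∉ P i) : b ∈ P i := by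
  obtain ⟨y, hy, hyab⟩ := (hyp.mem_P i _).mp hab
  have hai := inv_mem_of_notMem val hyp i ha
  have h0 := map_ne_zero_of_notMem hyp i ha
  refine (hyp.mem_P i b).mpr ⟨(algebraMap R E a)⁻¹ * y, mul_mem hai hy, ?_⟩
  rw [map_mul] at hyab
  field_simp
  rw [← hyab]
  ring

end Val

section Main

variable {O : Type*} [CommRing O] {R : Type*} [CommRing R] [IsDomain R] [IsIntegrallyClosed R]
  [Algebra O R] {E : Type*} [Field E] [Algebra R E] {S : Type*} [CommRing S]
  {π : O} {e : Fin 3 → ℕ} {ϖ : Fin 3 → E} {V : Fin 3 → ValuationSubring E}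
  {P : Fin 3 → Ideal R}

/-- **The unit step at a middle cusp.**  See the header. -/
theorem unit_at_cusp (val : ValHyp3 (algebraMap R E (algebraMap O R π)) e ϖ V)
    (hyp : ChartHyp3 π ϖ V P) (hp0 : algebraMap R E (algebraMap O R π) ≠ 0)
    {q : ℕ} (hq : q.Prime) (he2 : e 2 = q - 1)
    (n : Ideal R) (hn : n.IsPrime) (h2 : P 2 ≤ n)
    {ε : R} (hε : (q : R) = algebraMap O R π * ε) (hεn : ε ∉ n)
    {x x' x'' y y' : R}
    (hyx : y * x' = x ^ q) (hyx'' : y' * x' = x'' ^ q)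
    (hcusp : x * x' * x'' ∈ n) (hne : x ≠ x'')
    (h2x : x'' - x ∈ P 2) (h2y : y - 1 ∈ P 2) (h2y' : y' - 1 ∈ P 2) (hx2 : x ∉ P 2)
    (h0 : x'' - x ^ (q ^ 2) ∈ P 0) (hx0 : x ∉ P 0)
    (h1 : x - x'' ^ (q ^ 2) ∈ P 1) (hx1 : x'' ∉ P 1)
    (f : S →+* R) (Pol : Polynomial (Polynomial S))
    (hP : (Pol.map (eval₂RingHom f x)).eval y = 0)
    (hP'' : (Pol.map (eval₂RingHom f x'')).eval y' = 0)
    (hPd : f ((Pol.map (evalRingHom 0)).derivative.eval 1) ∉ n) :
    ¬ P 0 ≤ n ∧ ¬ P 1 ≤ n ∧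
      ∃ g ∈ P 2, ∃ s v : R, s ∉ n ∧ v ∉ n ∧ s * g ^ (q - 1) = algebraMap O R π * v := by
  have hq2 : 2 ≤ q := hq.two_le
  have hπR : algebraMap O R π ≠ 0 := fun h => hp0 (by rw [h, map_zero])
  have h1n : (1 : R) ∉ n := fun h => hn.ne_top ((Ideal.eq_top_iff_one n).mpr h)
  have hyn : y ∉ n := by
    intro h
    have := n.sub_mem h (h2 h2y)
    exact h1n (by simpa using this)
  have hy'n : y' ∉ n := by
    intro h
    have := n.sub_mem h (h2 h2y')
    exact h1n (by simpa using this)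
  have hx0' : x ≠ 0 := fun h => hx2 (h ▸ (P 2).zero_mem)
  have hrel : y' * x ^ q = y * x'' ^ q := by rw [← hyx, ← hyx'']; ring
  obtain ⟨r0, hr0x, hr0q⟩ := exists_r0 hq.pos hx0' hrel
  have hr0n : r0 ∉ n := by
    intro h
    have h' : y ^ (q - 1) * y' ∈ n := hr0q ▸ n.pow_mem_of_mem h q hq.pos
    rcases hn.mem_or_mem h' with h'' | h''
    · exact hyn (hn.mem_of_pow_mem _ h'')
    · exact hy'n h''
  have hxn : x ∈ n := by
    rcases hn.mem_or_mem hcusp with h | h
    · rcases hn.mem_or_mem h with h | h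
      · exact h
      · exact hn.mem_of_pow_mem q (hyx ▸ n.mul_mem_left y h)
    · have h' : r0 * x ∈ n := hr0x ▸ n.mul_mem_left y h
      exact (hn.mem_or_mem h').resolve_left hr0n
  have hx''n : x'' ∈ n := by
    have h' : y * x'' ∈ n := hr0x ▸ n.mul_mem_left r0 hxn
    exact (hn.mem_or_mem h').resolve_left hyn
  have hqq : 2 ≤ q ^ 2 := by nlinarith
  have hP0 : ¬ P 0 ≤ n := by
    intro hle
    have hpow : x ^ (q ^ 2) = x ^ (q ^ 2 - 1) * x := by
      rw [← pow_succ]
      congr 1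
      omega
    have hmem : x * (r0 - y * x ^ (q ^ 2 - 1)) ∈ P 0 := by
      have e1 : x * (r0 - y * x ^ (q ^ 2 - 1)) = y * (x'' - x ^ (q ^ 2)) := by
        rw [hpow]
        linear_combination hr0x
      rw [e1]
      exact (P 0).mul_mem_left y h0
    have h3 := hle (mem_of_mul_mem val hyp 0 hmem hx0)
    have hxp : x ^ (q ^ 2 - 1) ∈ n := n.pow_mem_of_mem hxn _ (by omega)
    have h4 := n.add_mem h3 (n.mul_mem_left y hxp)
    exact hr0n (by simpa using h4)
  have hP1 : ¬ P 1 ≤ n := by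
    intro hle
    have hpow : x'' ^ (q ^ 2) = x'' ^ (q ^ 2 - 1) * x'' := by
      rw [← pow_succ]
      congr 1
      omega
    have hmem : x'' * (r0 * x'' ^ (q ^ 2 - 1) - y) ∈ P 1 := by
      have e1 : x'' * (r0 * x'' ^ (q ^ 2 - 1) - y) = -r0 * (x - x'' ^ (q ^ 2)) := by
        rw [hpow]
        linear_combination hr0x
      rw [e1]
      exact (P 1).mul_mem_left _ h1
    have h3 := hle (mem_of_mul_mem val hyp 1 hmem hx1)
    have hxp : x'' ^ (q ^ 2 - 1) ∈ n := n.pow_mem_of_mem hx''n _ (by omega)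
    have h4 := n.sub_mem (n.mul_mem_left r0 hxp) h3
    exact hyn (by simpa using h4)
  -- the generator
  set g0 : R := r0 - y with hg0
  have hg0x : g0 * x = y * (x'' - x) := by
    rw [hg0]
    linear_combination hr0x
  have hg0P : g0 ∈ P 2 := by
    refine mem_of_mul_mem val hyp 2 (a := x) ?_ hx2
    rw [mul_comm, hg0x]
    exact (P 2).mul_mem_left y h2x
  have hg0n : g0 ∈ n := h2 hg0P
  have hyne : y ≠ 0 := fun h => hyn (h ▸ n.zero_mem)
  have hg0ne : g0 ≠ 0 := by
    intro h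
    rw [h, zero_mul] at hg0x
    rcases mul_eq_zero.mp hg0x.symm with h' | h'
    · exact hyne h'
    · exact hne (sub_eq_zero.mp h').symm
  obtain ⟨u1, hu1, hu1n⟩ := exists_u1 hq g0 y
  have hr0 : g0 + y = r0 := by rw [hg0]; ring
  rw [hr0, hr0q] at hu1
  have hu1n' : u1 ∉ n := by
    intro h
    have h3 := n.sub_mem h (hu1n n hg0n)
    have h4 : y ^ (q - 1) ∈ n := by simpa using h3
    exact hyn (hn.mem_of_pow_mem _ h4)
  obtain ⟨D1, D2, hD, hD2n⟩ := exists_D f Pol x x'' y y' n hxn (h2 h2y) (h2 h2y') hP hP'' hPd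
  have hyq : y ^ q = y ^ (q - 1) * y := by
    rw [← pow_succ]
    congr 1
    omega
  have hyq1 : y ^ (q - 1) = y ^ (q - 2) * y := by
    rw [← pow_succ]
    congr 1
    omega
  have hstar : (g0 ^ (q - 1) + (q : R) * u1) * D2 = -(y ^ (q - 2) * x * D1) := by
    have h3 : g0 * ((g0 ^ (q - 1) + (q : R) * u1) * D2 + y ^ (q - 2) * x * D1) = 0 := by
      linear_combination (-D2) * hu1 + (-D2) * hyq + y ^ (q - 1) * hD
        + (-(x'' - x) * D1) * hyq1 + (y ^ (q - 2) * D1) * hg0x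
    exact eq_neg_of_add_eq_zero_left ((mul_eq_zero.mp h3).resolve_left hg0ne)
  -- valuations on `P 2`
  have hg0V : ∃ w ∈ V 2, algebraMap R E (g0 ^ (q - 1))
      = algebraMap R E (algebraMap O R π) * w := by
    have h3 := Princ3.pow_mem_pi val hp0 2 ((hyp.mem_P 2 g0).mp hg0P)
    rw [he2] at h3
    rw [map_pow]
    exact h3
  have hqE : (q : E) = algebraMap R E (algebraMap O R π) * algebraMap R E ε := by
    have h3 := congrArg (algebraMap R E) hε
    rwa [map_natCast, map_mul] at h3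
  have hD1V : ∃ w ∈ V 2, algebraMap R E D1 = algebraMap R E (algebraMap O R π) * w := by
    obtain ⟨w1, hw1, hgw⟩ := hg0V
    have hxi := inv_mem_of_notMem val hyp 2 hx2
    have hyP : y ∉ P 2 := fun h => hyn (h2 h)
    have hyi := inv_mem_of_notMem val hyp 2 hyP
    have hx0E := map_ne_zero_of_notMem hyp 2 hx2
    have hy0E := map_ne_zero_of_notMem hyp 2 hyP
    have hE := congrArg (algebraMap R E) hstar
    simp only [map_mul, map_add, map_neg, map_pow, map_natCast] at hE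
    rw [map_pow] at hgw
    refine ⟨-((w1 + algebraMap R E ε * algebraMap R E u1) * algebraMap R E D2
      * ((algebraMap R E y)⁻¹ ^ (q - 2)) * (algebraMap R E x)⁻¹),
      neg_mem (mul_mem (mul_mem (mul_mem (add_mem hw1 (mul_mem (hyp.le 2 ε) (hyp.le 2 u1)))
        (hyp.le 2 D2)) (pow_mem hyi _)) hxi), ?_⟩
    have hyq2 : (algebraMap R E y) ^ (q - 2) ≠ 0 := pow_ne_zero _ hy0E
    have key : algebraMap R E y ^ (q - 2) * algebraMap R E x * algebraMap R E D1
        = -(algebraMap R E (algebraMap O R π)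
            * (w1 + algebraMap R E ε * algebraMap R E u1) * algebraMap R E D2) := by
      linear_combination hE - (algebraMap R E D2) * hgw
        - (algebraMap R E D2 * algebraMap R E u1) * hqE
    have e9 : algebraMap R E D1
        = (algebraMap R E y ^ (q - 2) * algebraMap R E x * algebraMap R E D1)
          * (algebraMap R E y ^ (q - 2))⁻¹ * (algebraMap R E x)⁻¹ := by
      field_simp
    rw [inv_pow, e9, key]
    ring
  have hall : ∀ z : R, (∃ w ∈ V 2, algebraMap R E z = algebraMap R E (algebraMap O R π) * w) →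
      ∀ i : Fin 3, P i ≤ n →
        ∃ v ∈ V i, algebraMap R E z = algebraMap R E (algebraMap O R π) * v := by
    intro z hz i hi
    fin_cases i
    · exact absurd hi hP0
    · exact absurd hi hP1
    · exact hz
  obtain ⟨s, hsn, D1', hD1'⟩ := Princ3.exists_pi_mul val hyp hp0 n hn D1 (hall D1 hD1V)
  obtain ⟨s2, hs2n, v, hv⟩ :=
    Princ3.exists_pi_mul val hyp hp0 n hn (g0 ^ (q - 1)) (hall _ hg0V)
  refine ⟨hP0, hP1, g0, hg0P, s2, v, hs2n, ?_, hv⟩
  intro hvn
  have hz : algebraMap O R π * (s * v * D2 + s * s2 * ε * u1 * D2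
      + y ^ (q - 2) * x * D1' * s2) = 0 := by
    linear_combination (s * s2) * hstar - (s * D2) * hv - (s * s2 * u1 * D2) * hε
      - (y ^ (q - 2) * x * s2) * hD1'
  have hz' := (mul_eq_zero.mp hz).resolve_left hπR
  have h3 : s * s2 * ε * u1 * D2 ∈ n := by
    have h4 : s * s2 * ε * u1 * D2
        = -(s * v * D2) - y ^ (q - 2) * x * D1' * s2 := by linear_combination hz'
    rw [h4]
    refine n.sub_mem (n.neg_mem ?_) ?_
    · exact n.mul_mem_right _ (n.mul_mem_left _ hvn)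
    · exact n.mul_mem_right _ (n.mul_mem_right _ (n.mul_mem_left _ hxn))
  rcases hn.mem_or_mem h3 with h4 | h4
  · rcases hn.mem_or_mem h4 with h5 | h5
    · rcases hn.mem_or_mem h5 with h6 | h6
      · rcases hn.mem_or_mem h6 with h7 | h7
        · exact hsn h7
        · exact hs2n h7
      · exact hεn h6
    · exact hu1n' h5
  · exact hD2n h4

/-- **(B1) at a middle cusp**: `P 2` is principal locally at `n`. -/
theorem genAt_cusp (val : ValHyp3 (algebraMap R E (algebraMap O R π)) e ϖ V)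
    (hyp : ChartHyp3 π ϖ V P) (hp0 : algebraMap R E (algebraMap O R π) ≠ 0)
    {q : ℕ} (hq : q.Prime) (he2 : e 2 = q - 1)
    (n : Ideal R) (hn : n.IsPrime) (h2 : P 2 ≤ n)
    {ε : R} (hε : (q : R) = algebraMap O R π * ε) (hεn : ε ∉ n)
    {x x' x'' y y' : R}
    (hyx : y * x' = x ^ q) (hyx'' : y' * x' = x'' ^ q)
    (hcusp : x * x' * x'' ∈ n) (hne : x ≠ x'')
    (h2x : x'' - x ∈ P 2) (h2y : y - 1 ∈ P 2) (h2y' : y' - 1 ∈ P 2) (hx2 : x ∉ P 2)
    (h0 : x'' - x ^ (q ^ 2) ∈ P 0) (hx0 : x ∉ P 0)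
    (h1 : x - x'' ^ (q ^ 2) ∈ P 1) (hx1 : x'' ∉ P 1)
    (f : S →+* R) (Pol : Polynomial (Polynomial S))
    (hP : (Pol.map (eval₂RingHom f x)).eval y = 0)
    (hP'' : (Pol.map (eval₂RingHom f x'')).eval y' = 0)
    (hPd : f ((Pol.map (evalRingHom 0)).derivative.eval 1) ∉ n) :
    ∃ g ∈ P 2, ∀ z ∈ P 2, ∃ s : R, s ∉ n ∧ ∃ c : R, s * z = c * g := by
  have hq2 : 2 ≤ q := hq.two_le
  obtain ⟨hP0, hP1, g, hgP, s, v, hsn, hvn, hsv⟩ := unit_at_cusp val hyp hp0 hq he2 n hn h2 hε hεn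
    hyx hyx'' hcusp hne h2x h2y h2y' hx2 h0 hx0 h1 hx1 f Pol hP hP'' hPd
  have hπR : algebraMap O R π ≠ 0 := fun h => hp0 (by rw [h, map_zero])
  have hg0 : g ≠ 0 := by
    intro h
    rw [h, zero_pow (by omega), mul_zero] at hsv
    rcases mul_eq_zero.mp hsv.symm with h' | h'
    · exact hπR h'
    · exact hvn (h' ▸ n.zero_mem)
  refine ⟨g, hgP, fun z hz => ?_⟩
  have hzV : ∀ i : Fin 3, P i ≤ n → ∃ w ∈ V i, algebraMap R E (z * g ^ (q - 2))
      = algebraMap R E (algebraMap O R π) * w := by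
    intro i hi
    fin_cases i
    · exact absurd hi hP0
    · exact absurd hi hP1
    · obtain ⟨a, ha, hza⟩ := (hyp.mem_P 2 z).mp hz
      obtain ⟨b, hb, hgb⟩ := (hyp.mem_P 2 g).mp hgP
      obtain ⟨u, hu, hu', hpu⟩ := val.ram 2
      have hu0 : u ≠ 0 := by
        rintro rfl
        exact hp0 (by rw [hpu, mul_zero])
      refine ⟨u⁻¹ * a * b ^ (q - 2), mul_mem (mul_mem hu' ha) (pow_mem hb _), ?_⟩
      have hq1 : q - 1 = (q - 2) + 1 := by omega
      show algebraMap R E (z * g ^ (q - 2)) = algebraMap R E (algebraMap O R π) * _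
      rw [map_mul, map_pow, hza, hgb, hpu, he2, hq1, mul_pow, pow_succ]
      field_simp
  obtain ⟨s3, hs3n, r', hr'⟩ := Princ3.exists_pi_mul val hyp hp0 n hn _ hzV
  refine ⟨s3 * v, fun h => (hn.mem_or_mem h).elim hs3n hvn, s * r', ?_⟩
  have hq1 : g ^ (q - 1) = g ^ (q - 2) * g := by
    rw [← pow_succ]
    congr 1
    omega
  have h3 : g ^ (q - 2) * (s3 * v * z - s * r' * g) = 0 := by
    linear_combination v * hr' - r' * hsv + (s * r') * hq1
  exact sub_eq_zero.mp ((mul_eq_zero.mp h3).resolve_left (pow_ne_zero _ hg0))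

omit [IsDomain R] [IsIntegrallyClosed R] in
/-- The generator lies in no horizontal prime through `n`. -/
theorem notMem_hor {n : Ideal R} {g s v : R} {q : ℕ} (hvn : v ∉ n)
    (hsv : s * g ^ (q - 1) = algebraMap O R π * v) (𝔮 : Ideal R) (h𝔮 : 𝔮.IsPrime) (hle : 𝔮 ≤ n)
    (hπ𝔮 : algebraMap O R π ∉ 𝔮) (hq : 2 ≤ q) : g ∉ 𝔮 := by
  intro hg
  have h3 : algebraMap O R π * v ∈ 𝔮 := by
    rw [← hsv]
    exact 𝔮.mul_mem_left s (𝔮.pow_mem_of_mem hg _ (by omega))
  rcases h𝔮.mem_or_mem h3 with h4 | h4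
  · exact hπ𝔮 h4
  · exact hvn (hle h4)

end Main

end Fermat.Agent.S36.CuspDD
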