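/-
S36 block [N10]/[CUSP3] (helper136): the horizontal-unit step at the CUSPIDAL closed points of
`W3`, purely algebraic route through the derivative of the reversed modular relation.

Abstract over `Model3Plan.ChartHyp3` + `Model3Plan.ValHyp3`.  `R` = the chart `J3⁻¹`,
`a = j⁻¹`, `b = jq⁻¹`, `c = jqq⁻¹ ∈ R`, `n` a prime of `R` with `P 2 ≤ n` and `a * b * c ∈ n`.
The only non-Kronecker input is ONE polynomial `u` (coefficients in the level-`Mq` subfield `L`)
with `x ^ (q + 1) + b ^ (q + 1) = b * x * u(x)` for `x = a` and `x = c` (both `j` and `jqq` are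
roots of `Φ_q(·, jq)`, and `Φ_q - X ^ (q + 1) - Y ^ (q + 1)` has bidegree `≤ (q, q)`).

* `t = a ^ q / b`, `b ^ q / a`, `c ^ q / b`, `b ^ q / c` and `μ = a ^ (q - 1) * c / b` lie in `R`;
* `a, b, c ∈ n`, and `P 0`, `P 1` do not pass through `n` (one branch);
* `𝒢(T) = t ^ (q + 1) T ^ (q + 1) - t ^ q T u(a T) + a ^ (q² - 1)` vanishes at `1` and at
  `c / a = μ / t`, and `𝒢'(1) = q t ^ (q + 1) - a g₀` with `g₀ ∈ L`; hence
  `(μ - t) * δ' = π * κ` with `κ ∉ n` (`cusp_core`), which is the hypothesis `hhor` of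
  `EtaPrinc.genAt_of_unif`;
* `genAt_cusp`: `μ - t` generates `P 2` locally at `n` (the input (B1) at the cusps of `W3`).
-/
import Mathlib
import Fermat.Agent.S36.Model3Plan
import Fermat.Agent.S36.EtaPrinc

set_option autoImplicit false
set_option linter.unusedSectionVars false

namespace Fermat.Agent.S36.CuspDer

open Polynomial
open Fermat.Agent.S36.Model3Plan

section Ring

variable {S : Type} [CommRing S]

/-- The basic identity: if `x * b = a ^ q` and `a ^ (q + 1) + b ^ (q + 1) = b * a * w`, then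
`x` is a root of `X ^ (q + 1) - w X ^ q + a ^ (q² - 1)` up to the factor `b ^ (q + 1)`. -/
theorem key_eq {x a b w : S} {q N : ℕ} (hN : q * q = N + 1) (hxb : x * b = a ^ q)
    (hrel : a ^ (q + 1) + b ^ (q + 1) = b * a * w) :
    b ^ (q + 1) * (x ^ (q + 1) - w * x ^ q + a ^ N) = 0 := by
  have e1 : b ^ (q + 1) * x ^ (q + 1) = a ^ N * a ^ (q + 1) := by
    rw [← mul_pow, mul_comm b x, hxb, ← pow_mul, ← pow_add]
    congr 1
    rw [mul_add, hN]
    ring
  have e2 : b ^ (q + 1) * x ^ q = b * a ^ N * a := by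
    have : b ^ (q + 1) * x ^ q = b * (x * b) ^ q := by ring
    rw [this, hxb, ← pow_mul, hN]
    ring
  linear_combination e1 - w * e2 + a ^ N * hrel

/-- The second root: with `ρ * a = c`, `x * b = a ^ q` and the relation for `c`. -/
theorem key_eq' {x a b c ρ w : S} {q N : ℕ} (hN : q * q = N + 1) (hxb : x * b = a ^ q)
    (hρ : ρ * a = c) (hrel : c ^ (q + 1) + b ^ (q + 1) = b * c * w) :
    b ^ (q + 1) * a ^ (q + 1) *
      (x ^ (q + 1) * ρ ^ (q + 1) - x ^ q * ρ * w + a ^ N) = 0 := by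
  have e1 : b ^ (q + 1) * x ^ (q + 1) = a ^ N * a ^ (q + 1) := by
    rw [← mul_pow, mul_comm b x, hxb, ← pow_mul, ← pow_add]
    congr 1
    rw [mul_add, hN]
    ring
  have e2 : b ^ (q + 1) * x ^ q = b * a ^ N * a := by
    have : b ^ (q + 1) * x ^ q = b * (x * b) ^ q := by ring
    rw [this, hxb, ← pow_mul, hN]
    ring
  have e3 : a ^ (q + 1) * ρ ^ (q + 1) = c ^ (q + 1) := by rw [← hρ]; ring
  have e4 : a ^ (q + 1) * ρ = a ^ q * c := by rw [← hρ]; ring
  linear_combination a ^ (q + 1) * ρ ^ (q + 1) * e1 - a ^ (q + 1) * ρ * w * e2 +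
    a ^ N * a ^ (q + 1) * e3 - b * a ^ N * a * w * e4 + a ^ N * a ^ (q + 1) * hrel

end Ring

section Frac

variable {R : Type} [CommRing R] [IsDomain R]

/-- `a ^ q / b ∈ R` for an integrally closed `R`. -/
theorem exists_mul_eq_pow (E : Type) [Field E] [Algebra R E] [IsFractionRing R E]
    [IsIntegrallyClosed R] {a b w : R} {q N : ℕ} (hN : q * q = N + 1)
    (hb : b ≠ 0) (hrel : a ^ (q + 1) + b ^ (q + 1) = b * a * w) : ∃ t : R, t * b = a ^ q := by
  have hinj := IsFractionRing.injective R E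
  have hb' : algebraMap R E b ≠ 0 := fun h => hb (hinj (by rw [h, map_zero]))
  set x : E := algebraMap R E a ^ q / algebraMap R E b with hx
  have hxb : x * algebraMap R E b = algebraMap R E a ^ q := by
    rw [hx]; field_simp
  have hrel' : algebraMap R E a ^ (q + 1) + algebraMap R E b ^ (q + 1) =
      algebraMap R E b * algebraMap R E a * algebraMap R E w := by
    rw [← map_pow, ← map_pow, ← map_add, hrel, map_mul, map_mul]
  have hkey := key_eq hN hxb hrel'
  have h0 : x ^ (q + 1) - algebraMap R E w * x ^ q + algebraMap R E a ^ N = 0 := by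
    rcases mul_eq_zero.1 hkey with h | h
    · exact absurd (pow_eq_zero_iff (Nat.succ_ne_zero q) |>.1 h) hb'
    · exact h
  have hint : IsIntegral R x := by
    refine ⟨X ^ (q + 1) + (-(C w * X ^ q) + C (a ^ N)), monic_X_pow_add ?_, ?_⟩
    · refine lt_of_le_of_lt (degree_add_le _ _) (max_lt ?_ ?_)
      · rw [degree_neg]
        exact lt_of_le_of_lt (degree_C_mul_X_pow_le q w) (by exact_mod_cast Nat.lt_succ_self q)
      · exact lt_of_le_of_lt degree_C_le (by exact_mod_cast Nat.succ_pos q)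
    · rw [eval₂_add, eval₂_add, eval₂_neg, eval₂_mul, eval₂_C, eval₂_C, eval₂_pow, eval₂_pow,
        eval₂_X, map_pow]
      linear_combination h0
  obtain ⟨t, ht⟩ := IsIntegrallyClosed.isIntegral_iff.1 hint
  exact ⟨t, hinj (by rw [map_mul, ht, hxb, map_pow])⟩

/-- `a ^ k * c / b ∈ R` (a `(k + 1)`-st root of `t₁ ^ k * t₂`). -/
theorem exists_root (E : Type) [Field E] [Algebra R E] [IsFractionRing R E]
    [IsIntegrallyClosed R] {a b c t₁ t₂ : R} {k : ℕ} (hb : b ≠ 0)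
    (h1 : t₁ * b = a ^ (k + 1)) (h2 : t₂ * b = c ^ (k + 1)) : ∃ μ : R, μ * b = a ^ k * c := by
  have hinj := IsFractionRing.injective R E
  have hb' : algebraMap R E b ≠ 0 := fun h => hb (hinj (by rw [h, map_zero]))
  set x : E := algebraMap R E a ^ k * algebraMap R E c / algebraMap R E b with hx
  have hxb : x * algebraMap R E b = algebraMap R E a ^ k * algebraMap R E c := by
    rw [hx]; field_simp
  have h1' : algebraMap R E t₁ * algebraMap R E b = algebraMap R E a ^ (k + 1) := by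
    rw [← map_mul, h1, map_pow]
  have h2' : algebraMap R E t₂ * algebraMap R E b = algebraMap R E c ^ (k + 1) := by
    rw [← map_mul, h2, map_pow]
  have hpow : x ^ (k + 1) = algebraMap R E (t₁ ^ k * t₂) := by
    have hbk : algebraMap R E b ^ (k + 1) ≠ 0 := pow_ne_zero _ hb'
    apply mul_right_cancel₀ hbk
    rw [← mul_pow, hxb, map_mul, map_pow]
    have : algebraMap R E t₁ ^ k * algebraMap R E t₂ * algebraMap R E b ^ (k + 1) =
        (algebraMap R E t₁ * algebraMap R E b) ^ k * (algebraMap R E t₂ * algebraMap R E b) := by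
      ring
    rw [this, h1', h2']
    ring
  have hint : IsIntegral R x := by
    refine IsIntegral.of_pow (Nat.succ_pos k) ?_
    rw [hpow]
    exact isIntegral_algebraMap
  obtain ⟨μ, hμ⟩ := IsIntegrallyClosed.isIntegral_iff.1 hint
  exact ⟨μ, hinj (by rw [map_mul, hμ, hxb, map_mul, map_pow])⟩

/-- Clearing the denominators of `p(μ / t)`. -/
theorem exists_scaled_aeval (E : Type) [Field E] [Algebra R E] (t μ : R) (ht : algebraMap R E t ≠ 0) (p : R[X]) :
    ∃ (N : ℕ) (r : R), algebraMap R E r =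
      algebraMap R E t ^ N * aeval (algebraMap R E μ / algebraMap R E t) p := by
  induction p using Polynomial.induction_on' with
  | add p₁ p₂ h₁ h₂ =>
    obtain ⟨N₁, r₁, e₁⟩ := h₁
    obtain ⟨N₂, r₂, e₂⟩ := h₂
    refine ⟨N₁ + N₂, t ^ N₂ * r₁ + t ^ N₁ * r₂, ?_⟩
    rw [map_add, map_mul, map_mul, map_pow, map_pow, e₁, e₂, map_add, pow_add]
    ring
  | monomial n a =>
    refine ⟨n, a * μ ^ n, ?_⟩
    rw [aeval_monomial, map_mul, map_pow, div_pow]
    field_simp

/-- **Taylor at `1`.**  If `G(1) = 0 = G(μ / t)` and `μ ≠ t`, then `μ - t` divides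
`t ^ N * G'(1)` in `R`. -/
theorem exists_mul_eq_derivative (E : Type) [Field E] [Algebra R E] [IsFractionRing R E]
    {G : R[X]} (hG1 : G.eval 1 = 0) {μ t : R} (ht : t ≠ 0)
    (hne : μ ≠ t) (hGρ : aeval (algebraMap R E μ / algebraMap R E t) G = 0) :
    ∃ (N : ℕ) (r : R), (μ - t) * r = t ^ N * G.derivative.eval 1 := by
  have hinj := IsFractionRing.injective R E
  have ht' : algebraMap R E t ≠ 0 := fun h => ht (hinj (by rw [h, map_zero]))
  obtain ⟨k, hk⟩ := Polynomial.binomExpansion (G.map (C : R →+* R[X])) (1 : R[X]) (X - 1)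
  have hG : G = C (G.derivative.eval 1) * (X - 1) + k * (X - 1) ^ 2 := by
    have h1 : (G.map (C : R →+* R[X])).eval (1 + (X - 1)) = G := by
      rw [add_sub_cancel, eval_map, eval₂_C_X]
    have h2 : (G.map (C : R →+* R[X])).eval 1 = 0 := by
      rw [eval_map, ← map_one (C : R →+* R[X]), eval₂_at_apply, hG1, map_zero]
    have h3 : (derivative (G.map (C : R →+* R[X]))).eval 1 = C (G.derivative.eval 1) := by
      rw [derivative_map, eval_map, ← map_one (C : R →+* R[X]), eval₂_at_apply]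
    rw [h1, h2, h3, zero_add] at hk
    exact hk
  obtain ⟨N, r, hr⟩ := exists_scaled_aeval E t μ ht' k
  set ρ : E := algebraMap R E μ / algebraMap R E t with hρ
  have hρ1 : ρ - 1 ≠ 0 := by
    intro h
    apply hne
    apply hinj
    have : ρ = 1 := sub_eq_zero.1 h
    rw [hρ, div_eq_one_iff_eq ht'] at this
    exact this
  have hev : algebraMap R E (G.derivative.eval 1) * (ρ - 1) + aeval ρ k * (ρ - 1) ^ 2 = 0 := by
    have := congrArg (aeval ρ) hG
    rw [hGρ] at this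
    simpa using this.symm
  have hev' : algebraMap R E (G.derivative.eval 1) = -(aeval ρ k * (ρ - 1)) := by
    have h : (ρ - 1) * (algebraMap R E (G.derivative.eval 1) + aeval ρ k * (ρ - 1)) = 0 := by
      linear_combination hev
    rcases mul_eq_zero.1 h with h | h
    · exact absurd h hρ1
    · linear_combination h
  have hρt : ρ * algebraMap R E t = algebraMap R E μ := by
    rw [hρ]; field_simp
  refine ⟨N + 1, -r, hinj ?_⟩
  rw [map_mul, map_sub, map_neg, hr, map_mul, map_pow, hev', ← hρt]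
  ring

/-- Elements of a subfield `L`: values of polynomials with coefficients in `L`. -/
theorem eval_mem {E : Type} [Field E] [Algebra R E] (L : Subfield E) {a : R} (ha : algebraMap R E a ∈ L) (p : R[X])
    (hp : ∀ i, algebraMap R E (p.coeff i) ∈ L) : algebraMap R E (p.eval a) ∈ L := by
  rw [eval_eq_sum_range, map_sum]
  refine Subfield.sum_mem L fun i _ => ?_
  rw [map_mul, map_pow]
  exact L.mul_mem (hp i) (L.pow_mem ha i)

/-- **The derivative identity.**  `μ - t` divides `t ^ N * (q t ^ (q + 1) - a g₀)`,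
`g₀ = a ^ N' + t ^ q u'(a)`. -/
theorem exists_mul_eq (E : Type) [Field E] [Algebra R E] [IsFractionRing R E]
    {a b c t μ : R} {u : R[X]} {q N' : ℕ} (hN : q * q = N' + 2)
    (ha : a ≠ 0) (hb : b ≠ 0) (ht : t ≠ 0) (hne : μ ≠ t) (htb : t * b = a ^ q)
    (hμ : μ * a = t * c)
    (hrel_a : a ^ (q + 1) + b ^ (q + 1) = b * a * u.eval a)
    (hrel_c : c ^ (q + 1) + b ^ (q + 1) = b * c * u.eval c) :
    ∃ (N : ℕ) (r : R), (μ - t) * r =
      t ^ N * ((q : R) * t ^ (q + 1) - a * (a ^ N' + t ^ q * u.derivative.eval a)) := by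
  have hinj := IsFractionRing.injective R E
  have ha' : algebraMap R E a ≠ 0 := fun h => ha (hinj (by rw [h, map_zero]))
  have hb' : algebraMap R E b ≠ 0 := fun h => hb (hinj (by rw [h, map_zero]))
  have ht' : algebraMap R E t ≠ 0 := fun h => ht (hinj (by rw [h, map_zero]))
  have hN1 : q * q = (N' + 1) + 1 := hN
  set G : R[X] := C (t ^ (q + 1)) * X ^ (q + 1) - C (t ^ q) * X * u.comp (C a * X) +
    C (a ^ (N' + 1)) with hG
  have hG1' : t ^ (q + 1) - u.eval a * t ^ q + a ^ (N' + 1) = 0 := by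
    rcases mul_eq_zero.1 (key_eq hN1 htb hrel_a) with h | h
    · exact absurd (pow_eq_zero_iff (Nat.succ_ne_zero q) |>.1 h) hb
    · exact h
  have hG1 : G.eval 1 = 0 := by
    rw [hG]
    simp only [eval_add, eval_sub, eval_mul, eval_C, eval_pow, eval_X, eval_comp, one_pow,
      mul_one]
    linear_combination hG1'
  have hGρ : aeval (algebraMap R E μ / algebraMap R E t) G = 0 := by
    set ρ : E := algebraMap R E μ / algebraMap R E t with hρ
    have hρa : ρ * algebraMap R E a = algebraMap R E c := by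
      rw [hρ, div_mul_eq_mul_div, ← map_mul, hμ, map_mul]
      field_simp
    have htb' : algebraMap R E t * algebraMap R E b = algebraMap R E a ^ q := by
      rw [← map_mul, htb, map_pow]
    have hrel' : algebraMap R E c ^ (q + 1) + algebraMap R E b ^ (q + 1) =
        algebraMap R E b * algebraMap R E c * algebraMap R E (u.eval c) := by
      rw [← map_pow, ← map_pow, ← map_add, hrel_c, map_mul, map_mul]
    have hkey := key_eq' hN1 htb' hρa hrel'
    have hval : aeval ρ G = algebraMap R E t ^ (q + 1) * ρ ^ (q + 1) -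
        algebraMap R E t ^ q * ρ * algebraMap R E (u.eval c) + algebraMap R E a ^ (N' + 1) := by
      rw [hG]
      simp only [map_add, map_sub, map_mul, aeval_C, map_pow, aeval_X, aeval_comp]
      rw [mul_comm (algebraMap R E a) ρ, hρa, aeval_algebraMap_apply, coe_aeval_eq_eval]
    rw [hval]
    rcases mul_eq_zero.1 hkey with h | h
    · rcases mul_eq_zero.1 h with h | h
      · exact absurd (pow_eq_zero_iff (Nat.succ_ne_zero q) |>.1 h) hb'
      · exact absurd (pow_eq_zero_iff (Nat.succ_ne_zero q) |>.1 h) ha'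
    · exact h
  obtain ⟨N, r, hr⟩ := exists_mul_eq_derivative E hG1 ht hne hGρ
  refine ⟨N, r, ?_⟩
  rw [hr]
  congr 1
  rw [hG]
  simp only [derivative_add, derivative_sub, derivative_mul, derivative_C, derivative_X_pow,
    derivative_X, derivative_comp, eval_add, eval_sub, eval_mul, eval_C, eval_pow, eval_X,
    eval_comp, one_pow, mul_one, zero_mul, zero_add, add_zero]
  push_cast
  linear_combination hG1'

end Frac

section Chart

variable {O : Type} [CommRing O] {R : Type} [CommRing R] [IsDomain R] [Algebra O R]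
  {E : Type} [Field E] [Algebra R E] [IsFractionRing R E] [IsIntegrallyClosed R]
  {π : O} {e : Fin 3 → ℕ} {ϖ : Fin 3 → E} {V : Fin 3 → ValuationSubring E}
  {P : Fin 3 → Ideal R}

/-- `π ∈ ϖ i (V i)`. -/
theorem pi_mem (hval : ValHyp3 (algebraMap R E (algebraMap O R π)) e ϖ V) (i : Fin 3) :
    ∃ y ∈ V i, algebraMap R E (algebraMap O R π) = ϖ i * y := by
  obtain ⟨u, hu, -, h⟩ := hval.ram i
  obtain ⟨k, hk⟩ := Nat.exists_eq_succ_of_ne_zero (hval.e_pos i).ne'
  refine ⟨ϖ i ^ k * u, mul_mem (pow_mem (hval.unif_mem i) k) hu, ?_⟩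
  rw [h, hk, pow_succ]
  ring

/-- `z ∈ ϖ i (V i) ⇒ z ^ e i ∈ π (V i)`. -/
theorem pow_mem_pi (hval : ValHyp3 (algebraMap R E (algebraMap O R π)) e ϖ V)
    (hπ0 : algebraMap R E (algebraMap O R π) ≠ 0) (i : Fin 3) {z : E}
    (hz : ∃ y ∈ V i, z = ϖ i * y) :
    ∃ y ∈ V i, z ^ e i = algebraMap R E (algebraMap O R π) * y := by
  obtain ⟨y, hy, rfl⟩ := hz
  obtain ⟨u, hu, hu', h⟩ := hval.ram i
  have hu0 : u ≠ 0 := by
    rintro rfl
    rw [mul_zero] at h
    exact hπ0 h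
  refine ⟨u⁻¹ * y ^ e i, mul_mem hu' (pow_mem hy _), ?_⟩
  rw [h, mul_pow]
  field_simp

/-- **The cuspidal closed points of `W3`: one branch and the horizontal unit.** -/
theorem cusp_core (hyp : ChartHyp3 π ϖ V P)
    (hval : ValHyp3 (algebraMap R E (algebraMap O R π)) e ϖ V) (hπ0 : algebraMap O R π ≠ 0)
    {n : Ideal R} (hn : n.IsPrime) (hP2 : P 2 ≤ n) {q : ℕ} (hq : 2 ≤ q)
    (hqπ : ∃ ε : R, ε ∉ n ∧ (q : R) = algebraMap O R π * ε)
    {a b c : R} (ha0 : a ≠ 0) (hb0 : b ≠ 0) (hc0 : c ≠ 0) (hca : c ≠ a) (habc : a * b * c ∈ n)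
    (hau : (algebraMap R E a)⁻¹ ∈ V 2)
    (L : Subfield E) (haL : algebraMap R E a ∈ L) (hbL : algebraMap R E b ∈ L)
    (hram : ∀ x ∈ L, (∃ y ∈ V 2, x = ϖ 2 * y) →
      ∃ y ∈ V 2, x = algebraMap R E (algebraMap O R π) * y)
    (u : R[X]) (huL : ∀ i, algebraMap R E (u.coeff i) ∈ L)
    (hrel_a : a ^ (q + 1) + b ^ (q + 1) = b * a * u.eval a)
    (hrel_c : c ^ (q + 1) + b ^ (q + 1) = b * c * u.eval c)
    (h1 : ∃ y ∈ V 2, algebraMap R E a ^ q = algebraMap R E b * (1 + ϖ 2 * y))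
    (h2 : ∃ y ∈ V 2, algebraMap R E c ^ q = algebraMap R E b * (1 + ϖ 2 * y))
    (h3 : ∃ y ∈ V 1, algebraMap R E b ^ q = algebraMap R E a * (1 + ϖ 1 * y))
    (h4 : ∃ y ∈ V 0, algebraMap R E b ^ q = algebraMap R E c * (1 + ϖ 0 * y))
    (h5 : ∃ y ∈ V 2, algebraMap R E c = algebraMap R E a * (1 + ϖ 2 * y)) :
    a ∈ n ∧ b ∈ n ∧ c ∈ n ∧ ¬ P 0 ≤ n ∧ ¬ P 1 ≤ n ∧
      ∃ t μ : R, t ∉ n ∧ t * b = a ^ q ∧ μ * b = a ^ (q - 1) * c ∧
        ∃ δ' κ : R, κ ∉ n ∧ (μ - t) * δ' = algebraMap O R π * κ := by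
  have hinj := IsFractionRing.injective R E
  have hne0 : ∀ {x : R}, x ≠ 0 → algebraMap R E x ≠ 0 :=
    fun hx h => hx (hinj (by rw [h, map_zero]))
  have ha' := hne0 ha0
  have hb' := hne0 hb0
  obtain ⟨k, rfl⟩ : ∃ k, q = k + 2 := ⟨q - 2, by omega⟩
  have hN : (k + 2) * (k + 2) = (k * k + 4 * k + 2) + 2 := by ring
  have hN1 : (k + 2) * (k + 2) = (k * k + 4 * k + 3) + 1 := by ring
  -- the elements `a ^ q / b`, `b ^ q / a`, `c ^ q / b`, `b ^ q / c`, `a ^ (q - 1) c / b`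
  obtain ⟨t₁, ht₁⟩ := exists_mul_eq_pow E hN1 hb0 hrel_a
  obtain ⟨s₁, hs₁⟩ := exists_mul_eq_pow E hN1 ha0 (a := b) (b := a) (w := u.eval a)
    (by linear_combination hrel_a)
  obtain ⟨t₂, ht₂⟩ := exists_mul_eq_pow E hN1 hb0 hrel_c
  obtain ⟨s₂, hs₂⟩ := exists_mul_eq_pow E hN1 hc0 (a := b) (b := c) (w := u.eval c)
    (by linear_combination hrel_c)
  obtain ⟨μ, hμ⟩ := exists_root E (k := k + 1) hb0 ht₁ ht₂
  -- the congruences
  have memP : ∀ (i : Fin 3) (x y z : R), z ≠ 0 → x * z = y →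
      (∃ w ∈ V i, algebraMap R E y = algebraMap R E z * (1 + ϖ i * w)) → x - 1 ∈ P i := by
    intro i x y z hz hxz ⟨w, hw, h⟩
    rw [hyp.mem_P]
    refine ⟨w, hw, ?_⟩
    have h0 : algebraMap R E x * algebraMap R E z = algebraMap R E z * (1 + ϖ i * w) := by
      rw [← map_mul, hxz, h]
    have h' : algebraMap R E z * (algebraMap R E x - 1 - ϖ i * w) = 0 := by
      linear_combination h0
    rw [map_sub, map_one]
    rcases mul_eq_zero.1 h' with h'' | h''
    · exact absurd h'' (hne0 hz)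
    · linear_combination h''
  have ht₁P : t₁ - 1 ∈ P 2 := by
    obtain ⟨w, hw, h⟩ := h1
    exact memP 2 t₁ _ b hb0 ht₁ ⟨w, hw, by rw [map_pow]; exact h⟩
  have ht₂P : t₂ - 1 ∈ P 2 := by
    obtain ⟨w, hw, h⟩ := h2
    exact memP 2 t₂ _ b hb0 ht₂ ⟨w, hw, by rw [map_pow]; exact h⟩
  have hs₁P : s₁ - 1 ∈ P 1 := by
    obtain ⟨w, hw, h⟩ := h3
    exact memP 1 s₁ _ a ha0 hs₁ ⟨w, hw, by rw [map_pow]; exact h⟩
  have hs₂P : s₂ - 1 ∈ P 0 := by
    obtain ⟨w, hw, h⟩ := h4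
    exact memP 0 s₂ _ c hc0 hs₂ ⟨w, hw, by rw [map_pow]; exact h⟩
  have h1n : (1 : R) ∉ n := fun h => hn.ne_top ((Ideal.eq_top_iff_one n).2 h)
  have notmem : ∀ {x : R}, x - 1 ∈ n → x ∉ n := fun {x} hx hxn =>
    h1n (by simpa using n.sub_mem hxn hx)
  have ht₁n : t₁ ∉ n := notmem (hP2 ht₁P)
  have ht₂n : t₂ ∉ n := notmem (hP2 ht₂P)
  -- `a, b, c ∈ n`
  have hbn : b ∈ n := by
    rcases hn.mem_or_mem habc with h | h
    · rcases hn.mem_or_mem h with h | h
      · have : t₁ * b ∈ n := by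
          rw [ht₁]
          exact n.pow_mem_of_mem h _ (by omega)
        exact (hn.mem_or_mem this).resolve_left ht₁n
      · exact h
    · have : t₂ * b ∈ n := by
        rw [ht₂]
        exact n.pow_mem_of_mem h _ (by omega)
      exact (hn.mem_or_mem this).resolve_left ht₂n
  have han : a ∈ n := hn.mem_of_pow_mem (k + 2) (by rw [← ht₁]; exact n.mul_mem_left _ hbn)
  have hcn : c ∈ n := hn.mem_of_pow_mem (k + 2) (by rw [← ht₂]; exact n.mul_mem_left _ hbn)
  -- one branch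
  have hs₁n : s₁ ∈ n := by
    have h : s₁ * t₁ * (a * b) = (a * b) ^ (k + 1) * (a * b) := by
      linear_combination t₁ * b * hs₁ + b ^ (k + 2) * ht₁
    have h' : s₁ * t₁ = (a * b) ^ (k + 1) := mul_right_cancel₀ (mul_ne_zero ha0 hb0) h
    have : s₁ * t₁ ∈ n := by
      rw [h']
      exact n.pow_mem_of_mem (n.mul_mem_right _ han) _ (Nat.succ_pos k)
    exact (hn.mem_or_mem this).resolve_right ht₁n
  have hs₂n : s₂ ∈ n := by
    have h : s₂ * t₂ * (c * b) = (c * b) ^ (k + 1) * (c * b) := by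
      linear_combination t₂ * b * hs₂ + b ^ (k + 2) * ht₂
    have h' : s₂ * t₂ = (c * b) ^ (k + 1) := mul_right_cancel₀ (mul_ne_zero hc0 hb0) h
    have : s₂ * t₂ ∈ n := by
      rw [h']
      exact n.pow_mem_of_mem (n.mul_mem_right _ hcn) _ (Nat.succ_pos k)
    exact (hn.mem_or_mem this).resolve_right ht₂n
  have hz₁ : s₁ - 1 ∉ n := fun h => h1n (by simpa using n.sub_mem hs₁n h)
  have hz₀ : s₂ - 1 ∉ n := fun h => h1n (by simpa using n.sub_mem hs₂n h)
  have hP1 : ¬ P 1 ≤ n := fun h => hz₁ (h hs₁P)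
  have hP0 : ¬ P 0 ≤ n := fun h => hz₀ (h hs₂P)
  -- the derivative identity
  have hμt : μ ≠ t₁ := by
    rintro rfl
    apply hca
    have : a ^ (k + 1) * c = a ^ (k + 1) * a := by
      rw [← hμ, ht₁]
      ring
    exact mul_left_cancel₀ (pow_ne_zero _ ha0) this
  have hμa : μ * a = t₁ * c := by
    have : (μ * a) * b = (t₁ * c) * b := by linear_combination a * hμ - c * ht₁
    exact mul_right_cancel₀ hb0 this
  have ht₁0 : t₁ ≠ 0 := fun h => ht₁n (h ▸ n.zero_mem)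
  obtain ⟨N, r, hr⟩ := exists_mul_eq E hN ha0 hb0 ht₁0 hμt ht₁ hμa hrel_a hrel_c
  obtain ⟨ε, hεn, hε⟩ := hqπ
  rw [hε] at hr
  -- valuations along `V 2`
  obtain ⟨yπ, hyπ, hπ2⟩ := pi_mem hval 2
  have hT : algebraMap R E t₁ * algebraMap R E b = algebraMap R E a ^ (k + 2) := by
    rw [← map_mul, ht₁, map_pow]
  have ht' := hne0 ht₁0
  have hTinv : (algebraMap R E t₁)⁻¹ = algebraMap R E b * ((algebraMap R E a)⁻¹) ^ (k + 2) := by
    rw [inv_pow, ← hT]
    field_simp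
  have hTinvV : (algebraMap R E t₁)⁻¹ ∈ V 2 := by
    rw [hTinv]
    exact mul_mem (hyp.le 2 b) (pow_mem hau _)
  obtain ⟨y5, hy5, h5'⟩ := h5
  have hδ : algebraMap R E (μ - t₁) = ϖ 2 * (algebraMap R E t₁ * y5) := by
    have hM : algebraMap R E μ * algebraMap R E b =
        algebraMap R E a ^ (k + 1) * algebraMap R E c := by
      rw [← map_mul, hμ, map_mul, map_pow]
    have h0 : algebraMap R E b *
        (algebraMap R E (μ - t₁) - ϖ 2 * (algebraMap R E t₁ * y5)) = 0 := by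
      rw [map_sub]
      linear_combination hM - (1 + ϖ 2 * y5) * hT + algebraMap R E a ^ (k + 1) * h5'
    rcases mul_eq_zero.1 h0 with h | h
    · exact absurd h hb'
    · exact sub_eq_zero.1 h
  set g₀ : R := a ^ (k * k + 4 * k + 2) + t₁ ^ (k + 2) * u.derivative.eval a with hg₀
  have hrE : algebraMap R E (μ - t₁) * algebraMap R E r = algebraMap R E t₁ ^ N *
      (algebraMap R E (algebraMap O R π) * algebraMap R E ε * algebraMap R E t₁ ^ (k + 2 + 1) -
        algebraMap R E a * algebraMap R E g₀) := by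
    have := congrArg (algebraMap R E) hr
    simpa only [map_mul, map_sub, map_pow] using this
  have hg₀V : ∃ y ∈ V 2, algebraMap R E g₀ = ϖ 2 * y := by
    refine ⟨(algebraMap R E t₁)⁻¹ ^ N * (algebraMap R E a)⁻¹ *
      (yπ * algebraMap R E ε * algebraMap R E t₁ ^ (N + (k + 2 + 1)) -
        algebraMap R E t₁ * y5 * algebraMap R E r), ?_, ?_⟩
    · exact mul_mem (mul_mem (pow_mem hTinvV N) hau)
        (sub_mem (mul_mem (mul_mem hyπ (hyp.le 2 ε)) (pow_mem (hyp.le 2 t₁) _))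
          (mul_mem (mul_mem (hyp.le 2 t₁) hy5) (hyp.le 2 r)))
    · have h : algebraMap R E t₁ ^ N * algebraMap R E a * algebraMap R E g₀ =
          ϖ 2 * (yπ * algebraMap R E ε * algebraMap R E t₁ ^ (N + (k + 2 + 1)) -
            algebraMap R E t₁ * y5 * algebraMap R E r) := by
        rw [hδ, hπ2] at hrE
        linear_combination hrE
      have hTN : (algebraMap R E t₁)⁻¹ ^ N * algebraMap R E t₁ ^ N = 1 := by
        rw [← mul_pow, inv_mul_cancel₀ ht', one_pow]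
      have hA : (algebraMap R E a)⁻¹ * algebraMap R E a = 1 := inv_mul_cancel₀ ha'
      calc algebraMap R E g₀ = (algebraMap R E t₁)⁻¹ ^ N * (algebraMap R E a)⁻¹ *
            (algebraMap R E t₁ ^ N * algebraMap R E a * algebraMap R E g₀) := by
            linear_combination (-(algebraMap R E g₀) *
              ((algebraMap R E a)⁻¹ * algebraMap R E a)) * hTN - algebraMap R E g₀ * hA
        _ = _ := by rw [h]; ring
  have hTL : algebraMap R E t₁ ∈ L := by
    have : algebraMap R E t₁ = algebraMap R E a ^ (k + 2) / algebraMap R E b := by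
      rw [eq_div_iff hb', hT]
    rw [this]
    exact L.div_mem (L.pow_mem haL _) hbL
  have hg₀L : algebraMap R E g₀ ∈ L := by
    rw [hg₀, map_add, map_mul, map_pow, map_pow]
    refine L.add_mem (L.pow_mem haL _) (L.mul_mem (L.pow_mem hTL _) (eval_mem L haL _ ?_))
    intro i
    rw [coeff_derivative, map_mul]
    refine L.mul_mem (huL _) ?_
    rw [map_add, map_natCast, map_one]
    exact L.add_mem (natCast_mem L i) L.one_mem
  obtain ⟨y₀, hy₀, hg₀π⟩ := hram _ hg₀L hg₀V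
  -- descent to `R`
  have hπ0' : algebraMap R E (algebraMap O R π) ≠ 0 := hne0 hπ0
  obtain ⟨w₀, hw₀, hz₀π⟩ := pow_mem_pi hval hπ0' 0 ((hyp.mem_P 0 _).1 hs₂P)
  obtain ⟨w₁, hw₁, hz₁π⟩ := pow_mem_pi hval hπ0' 1 ((hyp.mem_P 1 _).1 hs₁P)
  obtain ⟨r', hr'⟩ := hyp.desc ((s₂ - 1) ^ e 0 * (s₁ - 1) ^ e 1 * g₀) (by
    intro i
    fin_cases i
    · exact ⟨w₀ * algebraMap R E ((s₁ - 1) ^ e 1 * g₀), mul_mem hw₀ (hyp.le 0 _), by
        rw [mul_assoc, map_mul, map_pow, hz₀π]; ring⟩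
    · exact ⟨w₁ * algebraMap R E ((s₂ - 1) ^ e 0 * g₀), mul_mem hw₁ (hyp.le 1 _), by
        rw [mul_comm ((s₂ - 1) ^ e 0) ((s₁ - 1) ^ e 1), mul_assoc, map_mul, map_pow, hz₁π]
        ring⟩
    · exact ⟨algebraMap R E ((s₂ - 1) ^ e 0 * (s₁ - 1) ^ e 1) * y₀, mul_mem (hyp.le 2 _) hy₀, by
        rw [map_mul, hg₀π]; ring⟩)
  refine ⟨han, hbn, hcn, hP0, hP1, t₁, μ, ht₁n, ht₁, by simpa using hμ,
    r * ((s₂ - 1) ^ e 0 * (s₁ - 1) ^ e 1),
    t₁ ^ N * (ε * t₁ ^ (k + 2 + 1) * ((s₂ - 1) ^ e 0 * (s₁ - 1) ^ e 1) - a * r'), ?_, ?_⟩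
  · intro hκ
    rcases hn.mem_or_mem hκ with h | h
    · exact ht₁n (hn.mem_of_pow_mem _ h)
    · have h2 : ε * t₁ ^ (k + 2 + 1) * ((s₂ - 1) ^ e 0 * (s₁ - 1) ^ e 1) ∈ n := by
        have := n.add_mem h (n.mul_mem_right r' han)
        simpa using this
      rcases hn.mem_or_mem h2 with h3 | h3
      · rcases hn.mem_or_mem h3 with h4 | h4
        · exact hεn h4
        · exact ht₁n (hn.mem_of_pow_mem _ h4)
      · rcases hn.mem_or_mem h3 with h4 | h4
        · exact hz₀ (hn.mem_of_pow_mem _ h4)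
        · exact hz₁ (hn.mem_of_pow_mem _ h4)
  · linear_combination ((s₂ - 1) ^ e 0 * (s₁ - 1) ^ e 1) * hr - t₁ ^ N * a * hr'

/-- **(B1) at the cuspidal closed points of `W3`.**  With `W3(c / a - 1) = 1` and `c - a` a unit
of `V 0`, `V 1`: the element `μ - t` (`t = a ^ q / b`, `μ = a ^ (q - 1) c / b`) generates `P 2`
locally at `n`, and `P 0`, `P 1` do not pass through `n`. -/
theorem genAt_cusp [IsNoetherianRing R] (hyp : ChartHyp3 π ϖ V P)
    (hval : ValHyp3 (algebraMap R E (algebraMap O R π)) e ϖ V) (hπ0 : algebraMap O R π ≠ 0)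
    {n : Ideal R} (hn : n.IsMaximal) (hP2 : P 2 ≤ n) {q : ℕ} (hq : 2 ≤ q)
    (hqπ : ∃ ε : R, ε ∉ n ∧ (q : R) = algebraMap O R π * ε)
    {a b c : R} (ha0 : a ≠ 0) (hb0 : b ≠ 0) (hc0 : c ≠ 0) (hca : c ≠ a) (habc : a * b * c ∈ n)
    (hau : ∀ i : Fin 3, (algebraMap R E a)⁻¹ ∈ V i)
    (L : Subfield E) (haL : algebraMap R E a ∈ L) (hbL : algebraMap R E b ∈ L)
    (hram : ∀ x ∈ L, (∃ y ∈ V 2, x = ϖ 2 * y) →
      ∃ y ∈ V 2, x = algebraMap R E (algebraMap O R π) * y)
    (u : R[X]) (huL : ∀ i, algebraMap R E (u.coeff i) ∈ L)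
    (hrel_a : a ^ (q + 1) + b ^ (q + 1) = b * a * u.eval a)
    (hrel_c : c ^ (q + 1) + b ^ (q + 1) = b * c * u.eval c)
    (h1 : ∃ y ∈ V 2, algebraMap R E a ^ q = algebraMap R E b * (1 + ϖ 2 * y))
    (h2 : ∃ y ∈ V 2, algebraMap R E c ^ q = algebraMap R E b * (1 + ϖ 2 * y))
    (h3 : ∃ y ∈ V 1, algebraMap R E b ^ q = algebraMap R E a * (1 + ϖ 1 * y))
    (h4 : ∃ y ∈ V 0, algebraMap R E b ^ q = algebraMap R E c * (1 + ϖ 0 * y))
    (h5 : ∃ y ∈ V 2, y⁻¹ ∈ V 2 ∧ algebraMap R E c = algebraMap R E a * (1 + ϖ 2 * y))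
    (hcaV : ∀ j : Fin 3, j ≠ 2 → (algebraMap R E c - algebraMap R E a)⁻¹ ∈ V j) :
    ¬ P 0 ≤ n ∧ ¬ P 1 ≤ n ∧ ∃ δ : R, NakPlan.GenAt n (P 2) δ := by
  have hinj := IsFractionRing.injective R E
  have hne0 : ∀ {x : R}, x ≠ 0 → algebraMap R E x ≠ 0 :=
    fun hx h => hx (hinj (by rw [h, map_zero]))
  have ha' := hne0 ha0
  have hb' := hne0 hb0
  obtain ⟨y5, hy5, hy5', h5e⟩ := h5
  obtain ⟨-, -, -, hP0, hP1, t, μ, htn, htb, hμb, δ', κ, hκ, hmul⟩ :=
    cusp_core hyp hval hπ0 hn.isPrime hP2 hq hqπ ha0 hb0 hc0 hca habc (hau 2) L haL hbL hram u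
      huL hrel_a hrel_c h1 h2 h3 h4 ⟨y5, hy5, h5e⟩
  refine ⟨hP0, hP1, μ - t, ?_⟩
  obtain ⟨k, rfl⟩ : ∃ k, q = k + 2 := ⟨q - 2, by omega⟩
  have hμb' : μ * b = a ^ (k + 1) * c := hμb
  have ht0 : t ≠ 0 := fun h => htn (h ▸ n.zero_mem)
  have ht' := hne0 ht0
  have hT : algebraMap R E t * algebraMap R E b = algebraMap R E a ^ (k + 2) := by
    rw [← map_mul, htb, map_pow]
  have hM : algebraMap R E μ * algebraMap R E b =
      algebraMap R E a ^ (k + 1) * algebraMap R E c := by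
    rw [← map_mul, hμb', map_mul, map_pow]
  have hTinv : (algebraMap R E t)⁻¹ = algebraMap R E b * ((algebraMap R E a)⁻¹) ^ (k + 2) := by
    rw [inv_pow, ← hT]
    field_simp
  have hTinvV : ∀ j : Fin 3, (algebraMap R E t)⁻¹ ∈ V j := by
    intro j
    rw [hTinv]
    exact mul_mem (hyp.le j b) (pow_mem (hau j) _)
  -- `(μ - t) a = t (c - a)`
  have hδa : algebraMap R E (μ - t) * algebraMap R E a =
      algebraMap R E t * (algebraMap R E c - algebraMap R E a) := by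
    have h0 : algebraMap R E b * (algebraMap R E (μ - t) * algebraMap R E a -
        algebraMap R E t * (algebraMap R E c - algebraMap R E a)) = 0 := by
      rw [map_sub]
      linear_combination algebraMap R E a * hM - algebraMap R E c * hT
    rcases mul_eq_zero.1 h0 with h | h
    · exact absurd h hb'
    · exact sub_eq_zero.1 h
  have hδ : algebraMap R E (μ - t) = ϖ 2 * (algebraMap R E t * y5) := by
    have h0 : algebraMap R E a *
        (algebraMap R E (μ - t) - ϖ 2 * (algebraMap R E t * y5)) = 0 := by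
      linear_combination hδa + algebraMap R E t * h5e
    rcases mul_eq_zero.1 h0 with h | h
    · exact absurd h ha'
    · exact sub_eq_zero.1 h
  have hδ0 : μ - t ≠ 0 := by
    intro h
    apply hca
    have h0 : algebraMap R E t * (algebraMap R E c - algebraMap R E a) = 0 := by
      rw [← hδa, h, map_zero, zero_mul]
    rcases mul_eq_zero.1 h0 with h' | h'
    · exact absurd h' ht'
    · exact hinj (sub_eq_zero.1 h')
  refine EtaPrinc.genAt_of_unif hyp hval hπ0 hn 2 hP2 hδ0 (u := algebraMap R E t * y5)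
    (mul_mem (hyp.le 2 t) hy5) ?_ hδ ?_ ⟨δ', κ, 1, hκ, by rw [pow_one]; exact hmul⟩
  · rw [mul_inv]
    exact mul_mem (hTinvV 2) hy5'
  · intro j hj
    have h : (algebraMap R E (μ - t))⁻¹ = algebraMap R E a *
        ((algebraMap R E t)⁻¹ * (algebraMap R E c - algebraMap R E a)⁻¹) := by
      have : algebraMap R E (μ - t) =
          algebraMap R E t * (algebraMap R E c - algebraMap R E a) * (algebraMap R E a)⁻¹ := by
        rw [← hδa, mul_assoc, mul_inv_cancel₀ ha', mul_one]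
      rw [this, mul_inv, mul_inv, inv_inv]
      ring
    rw [h]
    exact mul_mem (hyp.le j a) (mul_mem (hTinvV j) (hcaV j hj))

/-- The same in the shape of the hypothesis `hB1` of `Princ3.princ_of_triple` (`i = 2`). -/
theorem princ_cusp [IsNoetherianRing R] (hyp : ChartHyp3 π ϖ V P)
    (hval : ValHyp3 (algebraMap R E (algebraMap O R π)) e ϖ V) (hπ0 : algebraMap O R π ≠ 0)
    {n : Ideal R} (hn : n.IsMaximal) (hP2 : P 2 ≤ n) {q : ℕ} (hq : 2 ≤ q)
    (hqπ : ∃ ε : R, ε ∉ n ∧ (q : R) = algebraMap O R π * ε)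
    {a b c : R} (ha0 : a ≠ 0) (hb0 : b ≠ 0) (hc0 : c ≠ 0) (hca : c ≠ a) (habc : a * b * c ∈ n)
    (hau : ∀ i : Fin 3, (algebraMap R E a)⁻¹ ∈ V i)
    (L : Subfield E) (haL : algebraMap R E a ∈ L) (hbL : algebraMap R E b ∈ L)
    (hram : ∀ x ∈ L, (∃ y ∈ V 2, x = ϖ 2 * y) →
      ∃ y ∈ V 2, x = algebraMap R E (algebraMap O R π) * y)
    (u : R[X]) (huL : ∀ i, algebraMap R E (u.coeff i) ∈ L)
    (hrel_a : a ^ (q + 1) + b ^ (q + 1) = b * a * u.eval a)
    (hrel_c : c ^ (q + 1) + b ^ (q + 1) = b * c * u.eval c)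
    (h1 : ∃ y ∈ V 2, algebraMap R E a ^ q = algebraMap R E b * (1 + ϖ 2 * y))
    (h2 : ∃ y ∈ V 2, algebraMap R E c ^ q = algebraMap R E b * (1 + ϖ 2 * y))
    (h3 : ∃ y ∈ V 1, algebraMap R E b ^ q = algebraMap R E a * (1 + ϖ 1 * y))
    (h4 : ∃ y ∈ V 0, algebraMap R E b ^ q = algebraMap R E c * (1 + ϖ 0 * y))
    (h5 : ∃ y ∈ V 2, y⁻¹ ∈ V 2 ∧ algebraMap R E c = algebraMap R E a * (1 + ϖ 2 * y))
    (hcaV : ∀ j : Fin 3, j ≠ 2 → (algebraMap R E c - algebraMap R E a)⁻¹ ∈ V j) :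
    ∃ g ∈ P 2, ∀ y ∈ P 2, ∃ s : R, s ∉ n ∧ ∃ c' : R, s * y = c' * g := by
  obtain ⟨-, -, δ, hδ1, hδ2⟩ := genAt_cusp hyp hval hπ0 hn hP2 hq hqπ ha0 hb0 hc0 hca habc hau L
    haL hbL hram u huL hrel_a hrel_c h1 h2 h3 h4 h5 hcaV
  exact ⟨δ, hδ1, hδ2⟩

end Chart

end Fermat.Agent.S36.CuspDer
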