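/-
S36 — CuspEis.lean (helper34): block [N10]-direct of the S36 campaign.

**(B1) at the cuspidal closed points of `W3`, by pure algebra from the Kronecker shape of the
modular polynomial `Φ_q`.**  Abstract (Mathlib + `Model3Plan` + `Princ3`).

* `seidenberg`      : `B` a local integrally closed domain, `x ∈ Frac B` a root of a polynomial
                      over `B` with SOME coefficient a unit: then `x ∈ B` or `x⁻¹ ∈ B`.
* `exists_geom`     : `∑_{i<q} (1+s)^i = s^(q-1) + q (1 + s c)` for a prime `q`.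
* `exists_unit_pow` : the unit step.  `B` local integrally closed with fraction field `E`,
                      contained in a valuation ring `V` of `E`; `j, jq, jqq ∈ E` with
                      `Φ(j, jq) = 0 = Φ(jqq, jq)` for `Φ = (X^q - Y)(X - Y^q) + q Θ`, the monomials
                      `X^a Y^b` of `Θ` of weight `a + q b ≤ q² + q`; `j⁻¹ ∈ 𝔪_B`, `q ∈ 𝔪_B`;
                      `jq / j^q ≡ 1`, `jqq / j ≡ 1` modulo `𝔪_V`.  Then `s := jqq / j - 1` lies in
                      `𝔪_B` and `s^(q-1) = q · unit` in `B`.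
-/
import Mathlib
import Fermat.Agent.S36.Model3Plan
import Fermat.Agent.S36.Princ3
import Fermat.Agent.S36.Chart3Facts

set_option autoImplicit false

namespace Fermat.Agent.S36.CuspEis

open Polynomial

/-! ### Seidenberg's lemma -/

section Seidenberg

variable {B : Type*} [CommRing B] [IsLocalRing B] [IsIntegrallyClosed B]
  {E : Type*} [Field E] [Algebra B E] [IsFractionRing B E]

theorem seidenberg_aux (x : E) : ∀ (d : ℕ) (p : B[X]), p.natDegree ≤ d → aeval x p = 0 →
    (∃ i, IsUnit (p.coeff i)) →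
    (∃ b : B, algebraMap B E b = x) ∨ (∃ b : B, algebraMap B E b = x⁻¹) := by
  have hinj : Function.Injective (algebraMap B E) := IsFractionRing.injective B E
  intro d
  induction d with
  | zero =>
    intro p hd hp hu
    exfalso
    obtain ⟨i, hi⟩ := hu
    have hpC : p = C (p.coeff 0) := eq_C_of_natDegree_le_zero hd
    have hc0 : p.coeff 0 = 0 := by
      rw [hpC, aeval_C] at hp
      exact hinj (by rw [hp, map_zero])
    have hp0 : p = 0 := by rw [hpC, hc0, map_zero]
    rw [hp0, coeff_zero] at hi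
    exact not_isUnit_zero hi
  | succ d ih =>
    intro p hd hp hu
    by_cases hlt : p.natDegree ≤ d
    · exact ih p hlt hp hu
    have hnd : p.natDegree = d + 1 := le_antisymm hd (by omega)
    have hp0 : p ≠ 0 := by
      rintro rfl
      simp at hnd
    by_cases hlu : IsUnit p.leadingCoeff
    · -- `x` is integral
      left
      have hint : IsIntegral B x := by
        refine ⟨p * C (↑hlu.unit⁻¹ : B), ?_, ?_⟩
        · exact monic_mul_C_of_leadingCoeff_mul_eq_one (by simp)
        · rw [← aeval_def, map_mul, hp, zero_mul]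
      exact IsIntegrallyClosed.isIntegral_iff.mp hint
    · -- `b := lc * x ∈ B`
      have hint : IsIntegral B (algebraMap B E p.leadingCoeff * x) :=
        ⟨integralNormalization p, monic_integralNormalization hp0,
          integralNormalization_aeval_eq_zero hp fun c hc => hinj (by rw [hc, map_zero])⟩
      obtain ⟨b, hb⟩ := IsIntegrallyClosed.isIntegral_iff.mp hint
      by_cases hbu : IsUnit b
      · right
        obtain ⟨b', hb'⟩ := hbu.exists_left_inv
        refine ⟨b' * p.leadingCoeff, ?_⟩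
        have hb0 : algebraMap B E b ≠ 0 := fun h =>
          hbu.ne_zero (hinj (by rw [h, map_zero]))
        have hx0 : x ≠ 0 := by
          rintro rfl
          rw [mul_zero] at hb
          exact hb0 hb
        have h1 : algebraMap B E b' * algebraMap B E b = 1 := by
          rw [← map_mul, hb', map_one]
        rw [map_mul]
        refine eq_inv_of_mul_eq_one_left ?_
        rw [mul_assoc, ← hb, h1]
      · -- lower the degree
        have hlead : p.leadingCoeff = p.coeff (d + 1) := by rw [leadingCoeff, hnd]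
        have hdecomp : p = p.eraseLead + C p.leadingCoeff * X ^ (d + 1) := by
          conv_lhs => rw [← eraseLead_add_C_mul_X_pow p, hnd]
        set p' : B[X] := p.eraseLead + C b * X ^ d with hp'
        have hd' : p'.natDegree ≤ d := by
          refine (natDegree_add_le _ _).trans (max_le ?_ ?_)
          · have := eraseLead_natDegree_le p
            omega
          · exact natDegree_C_mul_X_pow_le b d
        have hp'0 : aeval x p' = 0 := by
          have h1 : aeval x p.eraseLead = - (algebraMap B E p.leadingCoeff * x ^ (d + 1)) := by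
            have h2 := hp
            rw [hdecomp] at h2
            simp only [map_add, map_mul, aeval_C, map_pow, aeval_X] at h2
            exact eq_neg_of_add_eq_zero_left h2
          simp only [hp', map_add, map_mul, aeval_C, map_pow, aeval_X, h1, hb]
          ring
        obtain ⟨i, hi⟩ := hu
        have hi1 : i ≠ d + 1 := by
          rintro rfl
          exact hlu (hlead ▸ hi)
        have hu' : ∃ i, IsUnit (p'.coeff i) := by
          refine ⟨i, ?_⟩
          have hci : p.eraseLead.coeff i = p.coeff i :=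
            eraseLead_coeff_of_ne i (by rw [hnd]; exact hi1)
          rw [hp', coeff_add, hci, coeff_C_mul, coeff_X_pow]
          by_cases hid : i = d
          · rw [if_pos hid, mul_one]
            by_contra hcon
            have h3 : p.coeff i ∈ nonunits B := by
              have h4 := IsLocalRing.nonunits_add (a := p.coeff i + b) (b := -b) hcon
                (by rwa [mem_nonunits_iff, IsUnit.neg_iff])
              simpa using h4
            exact h3 hi
          · rw [if_neg hid, mul_zero, add_zero]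
            exact hi
        exact ih p' hd' hp'0 hu'

/-- **Seidenberg's lemma**: in a local integrally closed domain `B`, an element `x` of the
fraction field which is a root of a polynomial with SOME coefficient a unit satisfies `x ∈ B` or
`x⁻¹ ∈ B`. -/
theorem seidenberg (x : E) (p : B[X]) (hp : aeval x p = 0) (hu : ∃ i, IsUnit (p.coeff i)) :
    (∃ b : B, algebraMap B E b = x) ∨ (∃ b : B, algebraMap B E b = x⁻¹) :=
  seidenberg_aux x p.natDegree p le_rfl hp hu

end Seidenberg

/-! ### The geometric sum modulo a prime -/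

section Geom

/-- In `ℤ[X]`: `∑_{i<q} (1+X)^i = X^(q-1) + q (1 + X H)`. -/
theorem exists_geom_poly (q : ℕ) (hq : q.Prime) :
    ∃ H : ℤ[X], ∑ i ∈ Finset.range q, (1 + X : ℤ[X]) ^ i
      = X ^ (q - 1) + C (q : ℤ) * (1 + X * H) := by
  have : Fact q.Prime := ⟨hq⟩
  set G : ℤ[X] := ∑ i ∈ Finset.range q, (1 + X : ℤ[X]) ^ i with hG
  have hGX : G * X = (1 + X) ^ q - 1 := by
    have h := geom_sum_mul (1 + X : ℤ[X]) q
    rwa [add_sub_cancel_left] at h
  -- reduce modulo `q`
  have hmap : (G - X ^ (q - 1)).map (Int.castRingHom (ZMod q)) = 0 := by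
    have h1 : (G.map (Int.castRingHom (ZMod q))) * X = X ^ (q - 1) * X := by
      have h2 := congrArg (Polynomial.map (Int.castRingHom (ZMod q))) hGX
      simp only [Polynomial.map_mul, Polynomial.map_sub, Polynomial.map_pow, Polynomial.map_add,
        Polynomial.map_one, Polynomial.map_X] at h2
      rw [h2, add_pow_char, one_pow, add_sub_cancel_left, ← pow_succ,
        Nat.sub_add_cancel hq.one_le]
    have h3 := mul_right_cancel₀ (X_ne_zero (R := ZMod q)) h1
    rw [Polynomial.map_sub, h3, Polynomial.map_pow, Polynomial.map_X, sub_self]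
  have hdvd : C (q : ℤ) ∣ G - X ^ (q - 1) := by
    rw [C_dvd_iff_dvd_coeff]
    intro i
    have h1 := congrArg (fun f => Polynomial.coeff f i) hmap
    simp only [Polynomial.coeff_map, Polynomial.coeff_zero, eq_intCast] at h1
    exact (ZMod.intCast_zmod_eq_zero_iff_dvd _ q).mp h1
  obtain ⟨H, hH⟩ := hdvd
  have hH0 : H.coeff 0 = 1 := by
    have h1 := congrArg (Polynomial.eval 0) hH
    have hq1 : q - 1 ≠ 0 := by have := hq.two_le; omega
    simp only [hG, eval_sub, eval_finsetSum, eval_pow, eval_add, eval_one, eval_X, add_zero,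
      one_pow, Finset.sum_const, Finset.card_range, nsmul_eq_mul, mul_one, zero_pow hq1, sub_zero,
      eval_mul, eval_C] at h1
    rw [coeff_zero_eq_eval_zero]
    have hq0 : (q : ℤ) ≠ 0 := by exact_mod_cast hq.ne_zero
    have h2 : (q : ℤ) * 1 = (q : ℤ) * eval 0 H := by rw [mul_one]; exact_mod_cast h1
    exact (mul_left_cancel₀ hq0 h2).symm
  refine ⟨H.divX, ?_⟩
  have hHd : H = 1 + X * H.divX := by
    have h := X_mul_divX_add H
    rw [hH0, map_one] at h
    rw [add_comm]
    exact h.symm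
  rw [← hHd, ← hH]
  ring

/-- `∑_{i<q} (1+s)^i = s^(q-1) + q (1 + s c)` for a prime `q`, in any commutative ring. -/
theorem exists_geom {A : Type*} [CommRing A] (q : ℕ) (hq : q.Prime) (s : A) :
    ∃ c : A, ∑ i ∈ Finset.range q, (1 + s) ^ i = s ^ (q - 1) + (q : A) * (1 + s * c) := by
  obtain ⟨H, hH⟩ := exists_geom_poly q hq
  refine ⟨aeval s H, ?_⟩
  have h := congrArg (aeval s) hH
  simpa using h

end Geom

/-! ### The unit step -/

section Core

open IsLocalRing Finset

variable {B : Type*} [CommRing B] [IsDomain B] [IsLocalRing B] [IsIntegrallyClosed B]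
  {E : Type*} [Field E] [Algebra B E] [IsFractionRing B E]

/-- The weight defect `q² + q - (a + q b)` of the monomial `X^a Y^b`. -/
def wt (q a b : ℕ) : ℕ := q * q + q - (a + q * b)

omit [IsDomain B] [IsIntegrallyClosed B] [IsFractionRing B E] in
/-- A unit plus an element of the maximal ideal is a unit. -/
theorem isUnit_add_of_mem {u m : B} (hu : IsUnit u) (hm : m ∈ maximalIdeal B) :
    IsUnit (u + m) := by
  by_contra hcon
  have h1 : u + m ∈ maximalIdeal B := (mem_maximalIdeal _).mpr hcon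
  have h2 : u ∈ maximalIdeal B := by
    have := (maximalIdeal B).sub_mem h1 hm
    rwa [add_sub_cancel_right] at this
  exact (notMem_maximalIdeal.mpr hu) h2

omit [IsDomain B] [IsIntegrallyClosed B] [IsFractionRing B E] in
/-- An element of `B` which is a non-unit of the valuation ring `V ⊇ B` is a non-unit of `B`. -/
theorem mem_of_val_lt (V : ValuationSubring E) (hBV : ∀ b : B, algebraMap B E b ∈ V) (b : B)
    (hb : V.valuation (algebraMap B E b) < 1) : b ∈ maximalIdeal B := by
  by_contra hcon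
  obtain ⟨b', hb'⟩ := (notMem_maximalIdeal.mp hcon).exists_right_inv
  have h1 : V.valuation (algebraMap B E b) * V.valuation (algebraMap B E b') = 1 := by
    rw [← map_mul, ← map_mul, hb', map_one, map_one]
  have h2 : V.valuation (algebraMap B E b') ≤ 1 := (V.valuation_le_one_iff _).mpr (hBV b')
  have h3 : V.valuation (algebraMap B E b) * V.valuation (algebraMap B E b') < 1 :=
    lt_of_le_of_lt (mul_le_of_le_one_right' h2) hb
  exact absurd h1 (ne_of_lt h3)

omit [IsDomain B] [IsIntegrallyClosed B] [IsFractionRing B E] in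
/-- If `x ≡ 1` modulo the maximal ideal of `V ⊇ B` and `x ∈ B` or `x⁻¹ ∈ B`, then `x` is a
unit of `B`, congruent to `1` modulo the maximal ideal of `B`. -/
theorem unit_of_val (V : ValuationSubring E) (hBV : ∀ b : B, algebraMap B E b ∈ V) (x : E)
    (hx : V.valuation (x - 1) < 1)
    (h : (∃ b : B, algebraMap B E b = x) ∨ (∃ b : B, algebraMap B E b = x⁻¹)) :
    ∃ b : B, algebraMap B E b = x ∧ IsUnit b ∧ b - 1 ∈ maximalIdeal B := by
  have key : ∀ (y : E), V.valuation (y - 1) < 1 → ∀ b : B, algebraMap B E b = y →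
      IsUnit b ∧ b - 1 ∈ maximalIdeal B := by
    intro y hy b hb
    have h1 : b - 1 ∈ maximalIdeal B :=
      mem_of_val_lt V hBV (b - 1) (by rwa [map_sub, map_one, hb])
    refine ⟨?_, h1⟩
    have h2 : b = 1 + (b - 1) := by ring
    rw [h2]
    exact isUnit_add_of_mem isUnit_one h1
  rcases h with ⟨b, hb⟩ | ⟨b, hb⟩
  · exact ⟨b, hb, key x hx b hb⟩
  · have hvx : V.valuation x = 1 := by
      have h1 := Valuation.map_one_add_of_lt (v := V.valuation) hx
      rwa [add_sub_cancel] at h1
    have hx0 : x ≠ 0 := by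
      rintro rfl
      rw [map_zero] at hvx
      exact zero_ne_one hvx
    have hinv : V.valuation (x⁻¹ - 1) < 1 := by
      have h1 : x⁻¹ - 1 = -((x - 1) * x⁻¹) := by field_simp; ring
      rw [h1, Valuation.map_neg, map_mul, map_inv₀, hvx, inv_one, mul_one]
      exact hx
    obtain ⟨hbu, -⟩ := key x⁻¹ hinv b hb
    obtain ⟨b', hb'⟩ := hbu.exists_right_inv
    have hb'x : algebraMap B E b' = x := by
      have h1 : algebraMap B E b * algebraMap B E b' = 1 := by rw [← map_mul, hb', map_one]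
      rw [hb] at h1
      have h2 : x * (x⁻¹ * algebraMap B E b') = x * 1 := by rw [h1]
      rwa [← mul_assoc, mul_inv_cancel₀ hx0, one_mul, mul_one] at h2
    exact ⟨b', hb'x, key x hx b' hb'x⟩

/-- **Normalisation of the modular equation at a cusp**: with `z = j⁻¹`, `e = jq z^q`,
`t = x z`, the relation `Φ(x, jq) = 0` multiplied by `z^(q²+q)`. -/
theorem normalize (q : ℕ) (hq : q.Prime) (θ : ℕ → ℕ → ℤ)
    (hθ : ∀ a b, θ a b ≠ 0 → a + q * b ≤ q * q + q) (z jq x : E)
    (hx : (x ^ q - jq) * (x - jq ^ q) + (q : E) * ∑ a ∈ range (q + 1),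
      ∑ b ∈ range (q + 2), (θ a b : E) * (x ^ a * jq ^ b) = 0) :
    ((x * z) ^ q - jq * z ^ q) * ((x * z) * z ^ (q * q - 1) - (jq * z ^ q) ^ q) +
      (q : E) * ∑ a ∈ range (q + 1), ∑ b ∈ range (q + 2),
        (θ a b : E) * ((x * z) ^ a * ((jq * z ^ q) ^ b * z ^ wt q a b)) = 0 := by
  have hqq : 1 ≤ q * q := Nat.mul_pos hq.pos hq.pos
  have h1 : (x * z) ^ q - jq * z ^ q = (x ^ q - jq) * z ^ q := by ring
  have hzz : z * z ^ (q * q - 1) = z ^ (q * q) := by
    rw [← pow_succ', Nat.sub_add_cancel hqq]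
  have h2 : (x * z) * z ^ (q * q - 1) - (jq * z ^ q) ^ q = (x - jq ^ q) * z ^ (q * q) := by
    rw [mul_assoc, hzz, mul_pow, ← pow_mul]
    ring
  have h3 : ∀ a b, (θ a b : E) * ((x * z) ^ a * ((jq * z ^ q) ^ b * z ^ wt q a b))
      = z ^ (q * q + q) * ((θ a b : E) * (x ^ a * jq ^ b)) := by
    intro a b
    by_cases hθ0 : θ a b = 0
    · simp [hθ0]
    · have hab := hθ a b hθ0
      have h4 : z ^ (q * q + q) = z ^ a * (z ^ q) ^ b * z ^ wt q a b := by
        rw [← pow_mul, ← pow_add, ← pow_add]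
        congr 1
        unfold wt
        omega
      rw [h4]
      ring
  rw [h1, h2]
  simp_rw [h3, ← Finset.mul_sum]
  have h5 : (x ^ q - jq) * z ^ q * ((x - jq ^ q) * z ^ (q * q)) +
      (q : E) * (z ^ (q * q + q) * ∑ a ∈ range (q + 1),
        ∑ b ∈ range (q + 2), (θ a b : E) * (x ^ a * jq ^ b))
      = z ^ (q * q + q) * ((x ^ q - jq) * (x - jq ^ q) + (q : E) * ∑ a ∈ range (q + 1),
        ∑ b ∈ range (q + 2), (θ a b : E) * (x ^ a * jq ^ b)) := by
    rw [pow_add]
    ring
  rw [h5, hx, mul_zero]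

/-- **The unit step at a cuspidal point of `W3`.**  `B` a local integrally closed domain with
fraction field `E`, contained in the valuation ring `V`; `Φ(j, jq) = 0 = Φ(jqq, jq)` for
`Φ = (X^q - Y)(X - Y^q) + q Θ` (`Θ = ∑ θ a b X^a Y^b` of weight `a + q b ≤ q² + q`);
`j⁻¹ ∈ 𝔪_B`, `q ∈ 𝔪_B`; `jq / j^q ≡ 1` and `jqq / j ≡ 1` modulo `𝔪_V`; `jqq ≠ j`.
Then `s := jqq / j - 1 ∈ 𝔪_B` and `s^(q-1) = q · unit` in `B`. -/
theorem exists_unit_pow (V : ValuationSubring E) (hBV : ∀ b : B, algebraMap B E b ∈ V)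
    (q : ℕ) (hq : q.Prime) (θ : ℕ → ℕ → ℤ)
    (hθ : ∀ a b, θ a b ≠ 0 → a + q * b ≤ q * q + q)
    (j jq jqq : E) (hj : j ≠ 0)
    (hΦ1 : (j ^ q - jq) * (j - jq ^ q) + (q : E) * ∑ a ∈ range (q + 1),
      ∑ b ∈ range (q + 2), (θ a b : E) * (j ^ a * jq ^ b) = 0)
    (hΦ2 : (jqq ^ q - jq) * (jqq - jq ^ q) + (q : E) * ∑ a ∈ range (q + 1),
      ∑ b ∈ range (q + 2), (θ a b : E) * (jqq ^ a * jq ^ b) = 0)
    (zB : B) (hz : algebraMap B E zB = j⁻¹) (hzm : zB ∈ maximalIdeal B)
    (hqm : (q : B) ∈ maximalIdeal B)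
    (he : V.valuation (jq * j⁻¹ ^ q - 1) < 1) (hw : V.valuation (jqq * j⁻¹ - 1) < 1)
    (hne : jqq ≠ j) :
    ∃ s u : B, IsUnit u ∧ algebraMap B E s = jqq * j⁻¹ - 1 ∧ s ∈ maximalIdeal B ∧
      s ^ (q - 1) = (q : B) * u := by
  have hinj : Function.Injective (algebraMap B E) := IsFractionRing.injective B E
  have hq2 : 2 ≤ q := hq.two_le
  have hqq : 1 ≤ q * q := Nat.mul_pos hq.pos hq.pos
  have hjz : j * j⁻¹ = 1 := mul_inv_cancel₀ hj
  -- the two normalised relations
  have hN1 := normalize q hq θ hθ j⁻¹ jq j hΦ1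
  have hN2 := normalize q hq θ hθ j⁻¹ jq jqq hΦ2
  rw [hjz] at hN1
  simp only [one_pow, one_mul] at hN1
  set ζ : B := zB ^ (q * q - 1) with hζ
  have hqq2 : 2 ≤ q * q := by nlinarith
  have hζm : ζ ∈ maximalIdeal B :=
    Ideal.pow_mem_of_mem _ hzm _ (by omega)
  -- Step 1: `e = jq / j^q` is a unit of `B`
  set Pe : B[X] := (1 - X) * (C ζ - X ^ q) + C (q : B) * ∑ a ∈ range (q + 1),
    ∑ b ∈ range (q + 2), C ((θ a b : B) * zB ^ wt q a b) * X ^ b with hPe
  have hPe0 : aeval (jq * j⁻¹ ^ q) Pe = 0 := by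
    rw [← hN1]
    simp only [hPe, hζ, map_add, map_mul, map_sub, map_one, aeval_X, aeval_C, map_pow, map_sum,
      map_natCast, map_intCast, hz]
    congr 2
    refine Finset.sum_congr rfl fun a _ => Finset.sum_congr rfl fun b _ => ?_
    ring
  have hPeu : IsUnit (Pe.coeff q) := by
    have h1 : ((1 - X) * (C ζ - X ^ q) : B[X]) = C ζ - X ^ q - C ζ * X + X ^ (q + 1) := by ring
    have h2 : ((1 - X) * (C ζ - X ^ q) : B[X]).coeff q = -1 := by
      rw [h1]
      have hq0 : q ≠ 0 := hq.ne_zero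
      have hq1 : q ≠ 1 := hq.ne_one
      simp [coeff_X_pow, coeff_C, coeff_X, hq0, Ne.symm hq1]
    rw [hPe, coeff_add, h2, coeff_C_mul]
    exact isUnit_add_of_mem isUnit_one.neg (Ideal.mul_mem_right _ _ hqm)
  obtain ⟨eB, heB, heBu, heBm⟩ := unit_of_val V hBV _ he (seidenberg _ Pe hPe0 ⟨q, hPeu⟩)
  -- Step 2: `w = jqq / j` is a unit of `B`
  set F : B[X] := (X ^ q - C eB) * (X * C ζ - C (eB ^ q)) + C (q : B) * ∑ a ∈ range (q + 1),
    ∑ b ∈ range (q + 2), C ((θ a b : B) * (eB ^ b * zB ^ wt q a b)) * X ^ a with hF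
  have hF0 : aeval (jqq * j⁻¹) F = 0 := by
    rw [← hN2]
    simp only [hF, hζ, map_add, map_mul, map_sub, aeval_X, aeval_C, map_pow, map_sum,
      map_natCast, map_intCast, hz, heB]
    congr 2
    refine Finset.sum_congr rfl fun a _ => Finset.sum_congr rfl fun b _ => ?_
    ring
  have hFu : IsUnit (F.coeff 0) := by
    have h2 : ((X ^ q - C eB) * (X * C ζ - C (eB ^ q)) : B[X]).coeff 0 = eB ^ (q + 1) := by
      rw [coeff_zero_eq_eval_zero]
      simp [zero_pow hq.ne_zero]
      ring
    rw [hF, coeff_add, h2, coeff_C_mul]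
    exact isUnit_add_of_mem (heBu.pow _) (Ideal.mul_mem_right _ _ hqm)
  obtain ⟨wB, hwB, hwBu, hwBm⟩ := unit_of_val V hBV _ hw (seidenberg _ F hF0 ⟨0, hFu⟩)
  -- Step 3: the relations in `B`
  have hB1 : (1 - eB) * (ζ - eB ^ q) + (q : B) * ∑ a ∈ range (q + 1),
      ∑ b ∈ range (q + 2), (θ a b : B) * (eB ^ b * zB ^ wt q a b) = 0 := by
    apply hinj
    rw [map_zero, ← hN1]
    simp only [hζ, map_add, map_mul, map_sub, map_one, map_pow, map_sum, map_natCast,
      map_intCast, hz, heB]
  have hB2 : (wB ^ q - eB) * (wB * ζ - eB ^ q) + (q : B) * ∑ a ∈ range (q + 1),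
      ∑ b ∈ range (q + 2), (θ a b : B) * (wB ^ a * (eB ^ b * zB ^ wt q a b)) = 0 := by
    apply hinj
    rw [map_zero, ← hN2]
    simp only [hζ, map_add, map_mul, map_sub, map_pow, map_sum, map_natCast,
      map_intCast, hz, heB, hwB]
  set s : B := wB - 1 with hs
  have hws : wB = 1 + s := by rw [hs]; ring
  have hs0 : s ≠ 0 := by
    intro h0
    apply hne
    have h1 : algebraMap B E wB = 1 := by
      rw [hws, h0, add_zero, map_one]
    rw [hwB] at h1
    have h2 : jqq * j⁻¹ * j = 1 * j := by rw [h1]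
    rwa [mul_assoc, inv_mul_cancel₀ hj, mul_one, one_mul] at h2
  set g : ℕ → B := fun a => ∑ b ∈ range (q + 2), (θ a b : B) * (eB ^ b * zB ^ wt q a b) with hg
  set Cg : ℕ → B := fun a => ∑ i ∈ range a, wB ^ i with hCg
  have hCgs : ∀ a, wB ^ a - 1 = Cg a * s := fun a => (geom_sum_mul wB a).symm
  -- `1 - e = q κ`
  have hU1 : IsUnit (ζ - eB ^ q) := by
    have h1 : ζ - eB ^ q = -(eB ^ q) + ζ := by ring
    rw [h1]
    exact isUnit_add_of_mem (heBu.pow q).neg hζm
  obtain ⟨v1, hv1⟩ := hU1.exists_right_inv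
  obtain ⟨κ, hκ⟩ : ∃ κ : B, 1 - eB = (q : B) * κ := by
    refine ⟨-(∑ a ∈ range (q + 1), g a) * v1, ?_⟩
    have h1 : (1 - eB) * (ζ - eB ^ q) = -((q : B) * ∑ a ∈ range (q + 1), g a) :=
      eq_neg_of_add_eq_zero_left hB1
    calc 1 - eB = (1 - eB) * ((ζ - eB ^ q) * v1) := by rw [hv1, mul_one]
      _ = (1 - eB) * (ζ - eB ^ q) * v1 := by ring
      _ = (q : B) * (-(∑ a ∈ range (q + 1), g a) * v1) := by rw [h1]; ring
  -- subtract and divide by `s`
  set U : B := wB * ζ - eB ^ q with hU
  have hsub : s * (Cg q * U + (q : B) * (κ * ζ) + (q : B) * ∑ a ∈ range (q + 1), Cg a * g a)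
      = 0 := by
    have h1 : ∑ a ∈ range (q + 1), ∑ b ∈ range (q + 2),
        (θ a b : B) * (wB ^ a * (eB ^ b * zB ^ wt q a b))
        - ∑ a ∈ range (q + 1), ∑ b ∈ range (q + 2), (θ a b : B) * (eB ^ b * zB ^ wt q a b)
        = s * ∑ a ∈ range (q + 1), Cg a * g a := by
      rw [← Finset.sum_sub_distrib, Finset.mul_sum]
      refine Finset.sum_congr rfl fun a _ => ?_
      rw [← Finset.sum_sub_distrib, hg]
      simp only
      rw [Finset.mul_sum, Finset.mul_sum]
      refine Finset.sum_congr rfl fun b _ => ?_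
      have := hCgs a
      linear_combination ((θ a b : B) * (eB ^ b * zB ^ wt q a b)) * this
    have h2 : (wB ^ q - eB) * (wB * ζ - eB ^ q) - (1 - eB) * (ζ - eB ^ q)
        = s * (Cg q * U + (q : B) * (κ * ζ)) := by
      have h3 := hCgs q
      rw [hU]
      linear_combination (wB * ζ - eB ^ q) * h3 + (wB - 1) * ζ * hκ
    linear_combination hB2 - hB1 - (q : B) * h1 - h2
  have hbr : Cg q * U + (q : B) * (κ * ζ) + (q : B) * ∑ a ∈ range (q + 1), Cg a * g a = 0 :=
    (mul_eq_zero.mp hsub).resolve_left hs0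
  obtain ⟨c, hc⟩ := exists_geom q hq s
  have hCq : Cg q = s ^ (q - 1) + (q : B) * (1 + s * c) := by
    rw [← hc, hCg, hws]
  have hsm : s ∈ maximalIdeal B := hwBm
  have hCqm : Cg q ∈ maximalIdeal B := by
    rw [hCq]
    exact Ideal.add_mem _ (Ideal.pow_mem_of_mem _ hsm _ (by omega)) (Ideal.mul_mem_right _ _ hqm)
  -- the sum lies in the maximal ideal
  have hsum : ∑ a ∈ range (q + 1), Cg a * g a ∈ maximalIdeal B := by
    refine Ideal.sum_mem _ fun a ha => ?_
    rw [Finset.mem_range] at ha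
    rcases Nat.lt_or_ge a q with haq | haq
    · rcases Nat.eq_zero_or_pos a with rfl | ha0
      · simp [hCg]
      · refine Ideal.mul_mem_left _ _ (Ideal.sum_mem _ fun b _ => ?_)
        by_cases hθ0 : θ a b = 0
        · simp [hθ0]
        · have hab := hθ a b hθ0
          have hwt : 0 < wt q a b := by
            unfold wt
            by_contra hcon
            have h1 : a + q * b = q * q + q := by omega
            have h2 : q ∣ a := by
              have h3 : q ∣ a + q * b := by
                rw [h1]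
                exact Dvd.dvd.add (Dvd.intro _ rfl) (dvd_refl q)
              exact (Nat.dvd_add_left (Dvd.intro _ rfl)).mp h3
            have := Nat.le_of_dvd ha0 h2
            omega
          exact Ideal.mul_mem_left _ _ (Ideal.mul_mem_left _ _
            (Ideal.pow_mem_of_mem _ hzm _ hwt))
    · have : a = q := by omega
      subst this
      exact Ideal.mul_mem_right _ _ hCqm
  -- the two units
  have hUu : IsUnit U := by
    have h1 : U = -(eB ^ q) + wB * ζ := by rw [hU]; ring
    rw [h1]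
    exact isUnit_add_of_mem (heBu.pow q).neg (Ideal.mul_mem_left _ _ hζm)
  set W : B := -((1 + s * c) * U + κ * ζ + ∑ a ∈ range (q + 1), Cg a * g a) with hW
  have hWu : IsUnit W := by
    have h1 : W = eB ^ q + (-(1 + s * c) * (wB * ζ) + s * (c * eB ^ q) - κ * ζ
        - ∑ a ∈ range (q + 1), Cg a * g a) := by
      rw [hW, hU]; ring
    rw [h1]
    refine isUnit_add_of_mem (heBu.pow q) ?_
    refine Ideal.sub_mem _ (Ideal.sub_mem _ (Ideal.add_mem _ ?_ ?_) ?_) hsum
    · exact Ideal.mul_mem_left _ _ (Ideal.mul_mem_left _ _ hζm)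
    · exact Ideal.mul_mem_right _ _ hsm
    · exact Ideal.mul_mem_left _ _ hζm
  have hfin : s ^ (q - 1) * U = (q : B) * W := by
    rw [hCq] at hbr
    rw [hW]
    linear_combination hbr
  obtain ⟨U', hU'⟩ := hUu.exists_right_inv
  refine ⟨s, W * U', ?_, ?_, hsm, ?_⟩
  · exact hWu.mul (IsUnit.of_mul_eq_one _ (by rw [mul_comm]; exact hU'))
  · rw [hs, map_sub, map_one, hwB]
  · calc s ^ (q - 1) = s ^ (q - 1) * (U * U') := by rw [hU', mul_one]
      _ = s ^ (q - 1) * U * U' := by ring
      _ = (q : B) * (W * U') := by rw [hfin]; ring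

end Core

/-! ### Chart form -/

section Chart

open Fermat.Agent.S36.Model3Plan IsLocalRing Finset

variable {O : Type*} [CommRing O] {R : Type*} [CommRing R] [IsDomain R] [Algebra O R]
  {E : Type*} [Field E] [Algebra R E] [IsFractionRing R E] [IsIntegrallyClosed R]
  {π : O} {e : Fin 3 → ℕ} {ϖ : Fin 3 → E} {V : Fin 3 → ValuationSubring E}
  {P : Fin 3 → Ideal R}

/-- **(B1) at the cuspidal closed points of `W3`** (chart form; `hB1` of `Princ3.princ_of_triple`
with `i = 2`).  `n` a prime of the chart `R` with `π ∈ n`, `j⁻¹ ∈ n`, `P 2 ≤ n`.  Inputs: the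
Kronecker shape of `Φ_q` evaluated at `(j, jq)` and `(jqq, jq)`, `q = π · unit`,
`e 2 = q - 1`, and the congruences `jq / j^q ≡ 1`, `jqq / j ≡ 1` modulo `𝔪(V 2)`,
`jqq / j - 1 ∈ (V 0)ˣ ∩ (V 1)ˣ`.  Then `n` is a one-branch point (`P 0, P 1 ⊄ n`) and `P 2` is
principal at `n`. -/
theorem princ_cusp (val : ValHyp3 (algebraMap R E (algebraMap O R π)) e ϖ V)
    (hyp : ChartHyp3 π ϖ V P) (hp0 : algebraMap R E (algebraMap O R π) ≠ 0)
    (q : ℕ) (hq : q.Prime) (he2 : e 2 = q - 1)
    (hqπ : ∃ υ υ' : O, υ * υ' = 1 ∧ (q : O) = π * υ)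
    (θ : ℕ → ℕ → ℤ) (hθ : ∀ a b, θ a b ≠ 0 → a + q * b ≤ q * q + q)
    (j jq jqq : E) (hj : j ≠ 0)
    (hΦ1 : (j ^ q - jq) * (j - jq ^ q) + (q : E) * ∑ a ∈ range (q + 1),
      ∑ b ∈ range (q + 2), (θ a b : E) * (j ^ a * jq ^ b) = 0)
    (hΦ2 : (jqq ^ q - jq) * (jqq - jq ^ q) + (q : E) * ∑ a ∈ range (q + 1),
      ∑ b ∈ range (q + 2), (θ a b : E) * (jqq ^ a * jq ^ b) = 0)
    (hne : jqq ≠ j)
    (he : (V 2).valuation (jq * j⁻¹ ^ q - 1) < 1) (hw : (V 2).valuation (jqq * j⁻¹ - 1) < 1)
    (hw0 : (V 0).valuation (jqq * j⁻¹ - 1) = 1) (hw1 : (V 1).valuation (jqq * j⁻¹ - 1) = 1)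
    (x : R) (hx : algebraMap R E x = j⁻¹)
    (n : Ideal R) (hn : n.IsPrime) (hπn : algebraMap O R π ∈ n) (hxn : x ∈ n) (h2 : P 2 ≤ n) :
    ¬ P 0 ≤ n ∧ ¬ P 1 ≤ n ∧
      ∃ g ∈ P 2, ∀ y ∈ P 2, ∃ s : R, s ∉ n ∧ ∃ c : R, s * y = c * g := by
  have hinjR : Function.Injective (algebraMap R E) := IsFractionRing.injective R E
  have hS : n.primeCompl ≤ nonZeroDivisors R := n.primeCompl_le_nonZeroDivisors
  let B := Localization.subalgebra.ofField E n.primeCompl hS
  have i1 : IsLocalization.AtPrime B n := (inferInstance : IsLocalization n.primeCompl B)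
  have i2 : IsLocalRing B := IsLocalization.AtPrime.isLocalRing B n
  have i3 : IsIntegrallyClosed B := isIntegrallyClosed_of_isLocalization B n.primeCompl hS
  have hmem : ∀ y : E, y ∈ B ↔ ∃ (a s : R) (_ : s ∈ n.primeCompl),
      y = algebraMap R E a * (algebraMap R E s)⁻¹ := fun y => Iff.rfl
  have hcoe : ∀ b : B, algebraMap B E b = (b : E) := fun b => rfl
  have hmax : ∀ r : R, algebraMap R B r ∈ maximalIdeal B ↔ r ∈ n :=
    fun r => IsLocalization.AtPrime.to_map_mem_maximal_iff B n r
  -- `B ⊆ V i` for every branch through `n`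
  have hBV : ∀ i : Fin 3, P i ≤ n → ∀ b : B, algebraMap B E b ∈ V i := by
    intro i hi b
    obtain ⟨a, s, hs, hb⟩ := (hmem (b : E)).mp b.2
    rw [hcoe, hb]
    exact (V i).mul_mem _ _ (hyp.le i a)
      (Chart3Facts.cen val hyp i s fun hsP => hs (hi hsP))
  -- `q ∈ n`
  obtain ⟨υ, υ', hυ, hqυ⟩ := hqπ
  have hqR : (q : R) = algebraMap O R π * algebraMap O R υ := by
    rw [← map_mul, ← hqυ, map_natCast]
  have hqn : (q : R) ∈ n := by
    rw [hqR]
    exact n.mul_mem_right _ hπn
  have hqm : (q : B) ∈ maximalIdeal B := by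
    have h := (hmax (q : R)).mpr hqn
    rwa [map_natCast] at h
  have hzm : algebraMap R B x ∈ maximalIdeal B := (hmax x).mpr hxn
  have hz : algebraMap B E (algebraMap R B x) = j⁻¹ := by
    rw [← IsScalarTower.algebraMap_apply R B E, hx]
  obtain ⟨s, u, hu, hsσ, hsm, hsu⟩ := exists_unit_pow (V 2) (hBV 2 h2) q hq θ hθ j jq jqq hj
    hΦ1 hΦ2 (algebraMap R B x) hz hzm hqm he hw hne
  set σ : E := jqq * j⁻¹ - 1 with hσ
  have hσ0 : σ ≠ 0 := by
    intro h0
    apply hne
    have h1 : jqq * j⁻¹ = 1 := sub_eq_zero.mp h0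
    have h2' : jqq * j⁻¹ * j = 1 * j := by rw [h1]
    rwa [mul_assoc, inv_mul_cancel₀ hj, mul_one, one_mul] at h2'
  -- the relation in `E`
  have hrel : σ ^ (q - 1) = (q : E) * algebraMap B E u := by
    have h := congrArg (algebraMap B E) hsu
    rwa [map_pow, hsσ, map_mul, map_natCast] at h
  obtain ⟨u', hu'⟩ := hu.exists_right_inv
  have huu' : algebraMap B E u * algebraMap B E u' = 1 := by rw [← map_mul, hu', map_one]
  have hqE : (q : E) = algebraMap R E (algebraMap O R π) * algebraMap R E (algebraMap O R υ) := by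
    rw [← map_mul, ← hqR, map_natCast]
  -- the branches `P 0`, `P 1` do not pass through `n`
  have hnot : ∀ i : Fin 3, (V i).valuation σ = 1 → ¬ P i ≤ n := by
    intro i hi hPi
    have hvu : (V i).valuation (algebraMap B E u) = 1 := by
      refine le_antisymm (((V i).valuation_le_one_iff _).mpr (hBV i hPi u)) ?_
      have h1 : (V i).valuation (algebraMap B E u') ≤ 1 :=
        ((V i).valuation_le_one_iff _).mpr (hBV i hPi u')
      have h3 : (V i).valuation (algebraMap B E u) * (V i).valuation (algebraMap B E u') = 1 := by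
        rw [← map_mul, huu', map_one]
      calc (1 : (V i).ValueGroup)
          = (V i).valuation (algebraMap B E u) * (V i).valuation (algebraMap B E u') := h3.symm
        _ ≤ (V i).valuation (algebraMap B E u) := mul_le_of_le_one_right' h1
    have hvq : (V i).valuation (q : E) < 1 := by
      rw [hqE, map_mul]
      exact lt_of_le_of_lt
        (mul_le_of_le_one_right' (((V i).valuation_le_one_iff _).mpr (hyp.le i _)))
        (Chart3Facts.val_p_lt_one val i)
    have h4 := congrArg (V i).valuation hrel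
    rw [map_pow, hi, one_pow, map_mul, hvu, mul_one] at h4
    exact absurd h4.symm (ne_of_lt hvq)
  have hP0 : ¬ P 0 ≤ n := hnot 0 hw0
  have hP1 : ¬ P 1 ≤ n := hnot 1 hw1
  refine ⟨hP0, hP1, ?_⟩
  -- the generator
  obtain ⟨r, t, ht, hst⟩ := (hmem (s : E)).mp s.2
  have hsE : (s : E) = σ := by rw [← hcoe, hsσ]
  have ht0 : algebraMap R E t ≠ 0 := fun h =>
    ht (by rw [hinjR (h.trans (map_zero _).symm)]; exact n.zero_mem)
  have hrσ : algebraMap R E r = σ * algebraMap R E t := by
    rw [← hsE, hst, mul_assoc, inv_mul_cancel₀ ht0, mul_one]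
  have hrP : r ∈ P 2 := by
    rw [Chart3Facts.mem_P_iff val hyp, hrσ, map_mul]
    exact lt_of_le_of_lt
      (mul_le_of_le_one_right' (((V 2).valuation_le_one_iff _).mpr (hyp.le 2 t))) hw
  refine ⟨r, hrP, fun y hy => ?_⟩
  -- `y ^ (q - 1) ∈ π R_n`
  have hye : ∀ i : Fin 3, P i ≤ n → ∃ v ∈ V i,
      algebraMap R E (y ^ e 2) = algebraMap R E (algebraMap O R π) * v := by
    intro i hi
    fin_cases i
    · exact absurd hi hP0
    · exact absurd hi hP1
    · exact Chart3Facts.pow_e_mem val hyp hp0 2 y hy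
  obtain ⟨s₁, hs₁, r', hr'⟩ := Princ3.exists_pi_mul val hyp hp0 n hn (y ^ e 2) hye
  have hs₁0 : algebraMap R E s₁ ≠ 0 := fun h =>
    hs₁ (by rw [hinjR (h.trans (map_zero _).symm)]; exact n.zero_mem)
  -- `ρ := y / σ` has `ρ ^ (q - 1) ∈ B`
  have hυE : algebraMap R E (algebraMap O R υ) * algebraMap R E (algebraMap O R υ') = 1 := by
    rw [← map_mul, ← map_mul, hυ, map_one, map_one]
  have hq1 : 0 < q - 1 := by have := hq.two_le; omega
  have hρpow : (algebraMap R E y * σ⁻¹) ^ (q - 1)
      = algebraMap R E (r' * algebraMap O R υ') * (algebraMap R E s₁)⁻¹ * algebraMap B E u' := by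
    have h5 : algebraMap R E s₁ * algebraMap R E y ^ (q - 1)
        = algebraMap R E (algebraMap O R π) * algebraMap R E r' := by
      have := congrArg (algebraMap R E) hr'
      rwa [map_mul, map_mul, map_pow, he2] at this
    have hσp : σ ^ (q - 1) ≠ 0 := pow_ne_zero _ hσ0
    rw [mul_pow, inv_pow, map_mul]
    have h6 : algebraMap R E y ^ (q - 1)
        = algebraMap R E (algebraMap O R π) * algebraMap R E r' * (algebraMap R E s₁)⁻¹ := by
      rw [← h5]
      field_simp
    rw [h6, eq_comm]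
    have h7 : (σ ^ (q - 1))⁻¹
        = algebraMap R E (algebraMap O R υ') * algebraMap B E u' *
          (algebraMap R E (algebraMap O R π))⁻¹ := by
      refine inv_eq_of_mul_eq_one_right ?_
      rw [hrel, hqE]
      calc algebraMap R E (algebraMap O R π) * algebraMap R E (algebraMap O R υ) *
            algebraMap B E u * (algebraMap R E (algebraMap O R υ') * algebraMap B E u' *
            (algebraMap R E (algebraMap O R π))⁻¹)
          = (algebraMap R E (algebraMap O R π) * (algebraMap R E (algebraMap O R π))⁻¹) *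
            (algebraMap R E (algebraMap O R υ) * algebraMap R E (algebraMap O R υ')) *
            (algebraMap B E u * algebraMap B E u') := by ring
        _ = 1 := by rw [mul_inv_cancel₀ hp0, hυE, huu', one_mul, one_mul]
    rw [h7]
    field_simp
  have hbB : algebraMap R E (r' * algebraMap O R υ') * (algebraMap R E s₁)⁻¹ ∈ B :=
    (hmem _).mpr ⟨_, s₁, hs₁, rfl⟩
  have hint : IsIntegral B ((algebraMap R E y * σ⁻¹) ^ (q - 1)) := by
    have h8 : (algebraMap R E y * σ⁻¹) ^ (q - 1)
        = algebraMap B E (⟨_, hbB⟩ * u') := by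
      rw [hρpow, map_mul (algebraMap B E) (⟨_, hbB⟩ : B) u']
      rfl
    rw [h8]
    exact isIntegral_algebraMap
  obtain ⟨ρ, hρ⟩ := IsIntegrallyClosed.exists_algebraMap_eq_of_isIntegral_pow hq1 hint
  obtain ⟨a₂, s₂, hs₂, hρ₂⟩ := (hmem (ρ : E)).mp ρ.2
  have hs₂0 : algebraMap R E s₂ ≠ 0 := fun h =>
    hs₂ (by rw [hinjR (h.trans (map_zero _).symm)]; exact n.zero_mem)
  refine ⟨s₂ * t, fun hmem' => (hn.mem_or_mem hmem').elim hs₂ ht, a₂, ?_⟩
  apply hinjR
  have h9 : algebraMap R E y * σ⁻¹ = algebraMap R E a₂ * (algebraMap R E s₂)⁻¹ := by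
    rw [← hρ₂, ← hcoe, hρ]
  have h10 : algebraMap R E y = algebraMap R E a₂ * (algebraMap R E s₂)⁻¹ * σ := by
    rw [← h9, mul_assoc, inv_mul_cancel₀ hσ0, mul_one]
  rw [map_mul, map_mul, map_mul, h10, hrσ]
  field_simp

end Chart

end Fermat.Agent.S36.CuspEis
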