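/-
S36 [N10]/[CUSP] support (owner: helper51): the SHAPE of the modular polynomial `Φ_p` of any
`S28.HeckeData p` (`Φ ∈ ℤ[Y][X]`, `X` the outer variable), read off from the product formula
`S28.PhiAt_J` over `ℂ`:  `Φ_p(X, j(Q^p)) = (X - j(Q^(p^2))) * ∏_{b<p} (X - j(ζ^b Q))`.

Exports (namespace `Fermat.Agent.S36.PhiShapeW`), for `hp : p.Prime`, `hd : S28.HeckeData p`:
* `weight_natDegree_le` : `hd.Φ.coeff a ≠ 0 → a + p * (hd.Φ.coeff a).natDegree ≤ p ^ 2 + p`
* `weight_le`   : `(hd.Φ.coeff a).coeff b ≠ 0 → a + p * b ≤ p ^ 2 + p`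
* `weight_le'`  : `(hd.Φ.coeff a).coeff b ≠ 0 → p * a + b ≤ p ^ 2 + p`
* `natDegree_coeff_le` : `1 ≤ a → (hd.Φ.coeff a).natDegree ≤ p`
* `natDegree_coeff_zero_le` : `(hd.Φ.coeff 0).natDegree ≤ p + 1`
* `coeff_zero_coeff` : `(hd.Φ.coeff 0).coeff (p + 1) = 1`
* `coeff_succ`, `coeff_eq_zero_of_lt` : `hd.Φ.coeff (p + 1) = 1`, `hd.Φ.coeff a = 0` for `p + 1 < a`
* `eval_eq` : `Φ(x, y) = x^(p+1) + y^(p+1) + ∑_{a ≤ p} ∑_{b ≤ p} φ_{ab} y^b x^a` in any commutative ring
* `rev`, `reversed`, `exists_reversed` : the reversed relation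
  `x⁻¹^(p+1) + y⁻¹^(p+1) = y⁻¹ * x⁻¹ * U(x⁻¹, y⁻¹)` for every root `Φ(x, y) = 0` in a field.
-/
import Mathlib
import Fermat.Agent.S28.Roots

set_option autoImplicit false

noncomputable section

namespace Fermat.Agent.S36.PhiShapeW

open Polynomial

section Laurent

variable {k : Type*} [Field k]

/-- `x` has no coefficient below `u`, and coefficient `t` at `u`. -/
def Top (u : ℤ) (t : k) (x : LaurentSeries k) : Prop :=
  (∀ m : ℤ, m < u → x.coeff m = 0) ∧ x.coeff u = t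

theorem low_mul {x y : LaurentSeries k} {u v : ℤ} (hx : ∀ m : ℤ, m < u → x.coeff m = 0)
    (hy : ∀ m : ℤ, m < v → y.coeff m = 0) (m : ℤ) (hm : m < u + v) : (x * y).coeff m = 0 := by
  rw [HahnSeries.coeff_mul]
  refine Finset.sum_eq_zero fun ij hij => ?_
  have hsum : ij.1 + ij.2 = m := (Finset.mem_antidiagonal.mp hij).2.2
  by_cases h1 : ij.1 < u
  · rw [hx _ h1, zero_mul]
  · rw [hy _ (by omega), mul_zero]

theorem Top.mul {x y : LaurentSeries k} {u v : ℤ} {t s : k} (hx : Top u t x) (hy : Top v s y) :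
    Top (u + v) (t * s) (x * y) := by
  refine ⟨low_mul hx.1 hy.1, ?_⟩
  rw [HahnSeries.coeff_mul, ← hx.2, ← hy.2]
  refine Finset.sum_eq_single (u, v) (fun ij hij hne => ?_) (fun hnot => ?_)
  · have hsum : ij.1 + ij.2 = u + v := (Finset.mem_antidiagonal.mp hij).2.2
    by_cases h1 : ij.1 < u
    · rw [hx.1 _ h1, zero_mul]
    · by_cases h2 : ij.2 < v
      · rw [hy.1 _ h2, mul_zero]
      · exfalso
        apply hne
        ext <;> simp only <;> omega
  · by_contra hne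
    apply hnot
    rw [Finset.mem_antidiagonal]
    refine ⟨?_, ?_, rfl⟩
    · intro h0
      exact hne (by rw [show x.coeff u = 0 from h0, zero_mul])
    · intro h0
      exact hne (by rw [show y.coeff v = 0 from h0, mul_zero])

theorem Top.one : Top 0 (1 : k) (1 : LaurentSeries k) := by
  refine ⟨fun m hm => ?_, ?_⟩
  · rw [HahnSeries.coeff_one, if_neg (by omega)]
  · rw [HahnSeries.coeff_one, if_pos rfl]

theorem Top.pow {x : LaurentSeries k} {u : ℤ} {t : k} (hx : Top u t x) (n : ℕ) :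
    Top ((n : ℤ) * u) (t ^ n) (x ^ n) := by
  induction n with
  | zero => simpa using (Top.one (k := k))
  | succ n ih =>
    have h := ih.mul hx
    rw [pow_succ, pow_succ]
    have e : ((n + 1 : ℕ) : ℤ) * u = (n : ℤ) * u + u := by push_cast; ring
    rw [e]
    exact h

theorem Top.prod_range {x : ℕ → LaurentSeries k} {u : ℕ → ℤ} {t : ℕ → k} (n : ℕ)
    (h : ∀ b < n, Top (u b) (t b) (x b)) :
    Top (∑ b ∈ Finset.range n, u b) (∏ b ∈ Finset.range n, t b) (∏ b ∈ Finset.range n, x b) := by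
  induction n with
  | zero => simpa using (Top.one (k := k))
  | succ n ih =>
    rw [Finset.sum_range_succ, Finset.prod_range_succ, Finset.prod_range_succ]
    exact (ih fun b hb => h b (Nat.lt_succ_of_lt hb)).mul (h n (Nat.lt_succ_self n))

theorem Top.neg {x : LaurentSeries k} {u : ℤ} {t : k} (hx : Top u t x) : Top u (-t) (-x) := by
  refine ⟨fun m hm => ?_, ?_⟩
  · rw [HahnSeries.coeff_neg, hx.1 m hm, neg_zero]
  · rw [HahnSeries.coeff_neg, hx.2]

theorem top_J {c : k} (hc : c ≠ 0) {e : ℕ} (he : e ≠ 0) :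
    Top (-(e : ℤ)) c⁻¹ (S28.J c e) :=
  ⟨fun _ hm => S28.J_coeff_of_lt hc he hm, S28.J_coeff_neg hc he⟩

/-- The top coefficient of an integer polynomial evaluated at a series with a pole of order `e`
and leading coefficient `1`. -/
theorem coeff_eval₂_of_natDegree_le {y : LaurentSeries k} {e : ℕ} (he : e ≠ 0)
    (hy : Top (-(e : ℤ)) 1 y) (c : Polynomial ℤ) (d : ℕ) (hd : c.natDegree ≤ d) :
    (c.eval₂ (Int.castRingHom (LaurentSeries k)) y).coeff (-((e : ℤ) * d)) = ((c.coeff d : ℤ) : k) := by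
  rw [Polynomial.eval₂_eq_sum_range' (Int.castRingHom (LaurentSeries k))
    (Nat.lt_succ_of_le hd) y, HahnSeries.coeff_sum]
  have hterm : ∀ b : ℕ, ((Int.castRingHom (LaurentSeries k)) (c.coeff b) * y ^ b).coeff
      (-((e : ℤ) * d)) = ((c.coeff b : ℤ) : k) * (y ^ b).coeff (-((e : ℤ) * d)) := by
    intro b
    have h1 : (Int.castRingHom (LaurentSeries k)) (c.coeff b)
        = HahnSeries.C ((c.coeff b : ℤ) : k) := by
      rw [eq_intCast, map_intCast]
    rw [h1, HahnSeries.C_mul_eq_smul, HahnSeries.coeff_smul, smul_eq_mul]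
  rw [Finset.sum_eq_single d]
  · rw [hterm]
    have h := (hy.pow d).2
    have e1 : (d : ℤ) * -(e : ℤ) = -((e : ℤ) * d) := by ring
    rw [e1, one_pow] at h
    rw [h, mul_one]
  · intro b hb hne
    rw [hterm]
    have hlt : b < d := lt_of_le_of_ne (Nat.lt_succ_iff.mp (Finset.mem_range.mp hb)) hne
    have h := (hy.pow b).1 (-((e : ℤ) * d)) (by
      have he0 : (0 : ℤ) < (e : ℤ) := by exact_mod_cast Nat.pos_of_ne_zero he
      have hbd : (b : ℤ) < (d : ℤ) := by exact_mod_cast hlt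
      nlinarith)
    rw [h, mul_zero]
  · intro hnot
    exact absurd (Finset.mem_range.mpr (Nat.lt_succ_self d)) hnot

/-- `F` is `D`-bounded: the coefficient of `X ^ a` has no Laurent coefficient below `a - D`. -/
def Bdd (D : ℕ) (F : Polynomial (LaurentSeries k)) : Prop :=
  ∀ (a : ℕ) (m : ℤ), m + (D : ℤ) < (a : ℤ) → (F.coeff a).coeff m = 0

theorem Bdd.one : Bdd 0 (1 : Polynomial (LaurentSeries k)) := by
  intro a m hm
  rw [Polynomial.coeff_one]
  split_ifs with h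
  · subst h
    rw [HahnSeries.coeff_one, if_neg (by push_cast at hm; omega)]
  · rfl

theorem Bdd.mul {D₁ D₂ : ℕ} {F G : Polynomial (LaurentSeries k)} (hF : Bdd D₁ F)
    (hG : Bdd D₂ G) : Bdd (D₁ + D₂) (F * G) := by
  intro a m hm
  rw [Polynomial.coeff_mul, HahnSeries.coeff_sum]
  refine Finset.sum_eq_zero fun ij hij => ?_
  have hsum : ij.1 + ij.2 = a := Finset.HasAntidiagonal.mem_antidiagonal.mp hij
  have hsum' : (ij.1 : ℤ) + (ij.2 : ℤ) = (a : ℤ) := by exact_mod_cast hsum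
  push_cast at hm
  have := low_mul (x := F.coeff ij.1) (y := G.coeff ij.2) (u := (ij.1 : ℤ) - D₁)
    (v := (ij.2 : ℤ) - D₂) (fun m' hm' => hF ij.1 m' (by omega))
    (fun m' hm' => hG ij.2 m' (by omega)) m (by omega)
  exact this

theorem Bdd.X_sub_C {r : LaurentSeries k} {D : ℕ} (hD : 1 ≤ D)
    (hr : ∀ m : ℤ, m < -(D : ℤ) → r.coeff m = 0) : Bdd D (X - C r) := by
  intro a m hm
  rw [Polynomial.coeff_sub, Polynomial.coeff_X, Polynomial.coeff_C, HahnSeries.coeff_sub]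
  have hD' : (1 : ℤ) ≤ (D : ℤ) := by exact_mod_cast hD
  rcases Nat.lt_trichotomy a 1 with h | h | h
  · have ha : a = 0 := by omega
    subst ha
    rw [if_neg (by norm_num), if_pos rfl, HahnSeries.coeff_zero, zero_sub, neg_eq_zero]
    exact hr m (by push_cast at hm; omega)
  · subst h
    rw [if_pos rfl, if_neg (by norm_num), HahnSeries.coeff_zero, sub_zero, HahnSeries.coeff_one,
      if_neg (by push_cast at hm; omega)]
  · rw [if_neg (by omega), if_neg (by omega), HahnSeries.coeff_zero, sub_zero]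

theorem Bdd.prod_range {F : ℕ → Polynomial (LaurentSeries k)} (n : ℕ)
    (h : ∀ b < n, Bdd 1 (F b)) : Bdd n (∏ b ∈ Finset.range n, F b) := by
  induction n with
  | zero => simpa using (Bdd.one (k := k))
  | succ n ih =>
    rw [Finset.prod_range_succ]
    exact (ih fun b hb => h b (Nat.lt_succ_of_lt hb)).mul (h n (Nat.lt_succ_self n))

end Laurent


section Main

variable {p : ℕ}

theorem coeff_PhiAt {R : Type*} [CommRing R] (Φ : Polynomial (Polynomial ℤ)) (y : R) (a : ℕ) :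
    (S28.PhiAt Φ y).coeff a = (Φ.coeff a).eval₂ (Int.castRingHom R) y := by
  unfold S28.PhiAt
  rw [Polynomial.coeff_map, Polynomial.coe_eval₂RingHom]

/-- The product formula `S28.PhiAt_J` over `ℂ` at `c' = 1`, `e' = 1`. -/
theorem main_prod (hp : p.Prime) (hd : S28.HeckeData p) :
    ∃ ζ : ℂ, IsPrimitiveRoot ζ p ∧ S28.PhiAt hd.Φ (S28.J (1 : ℂ) p) =
      (X - C (S28.J (1 : ℂ) (p ^ 2))) * ∏ b ∈ Finset.range p, (X - C (S28.J (ζ ^ b) 1)) := by
  refine ⟨_, Complex.isPrimitiveRoot_exp p hp.ne_zero, ?_⟩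
  have h := S28.PhiAt_J hp hd (Complex.isPrimitiveRoot_exp p hp.ne_zero) (c' := 1) one_ne_zero
    (e' := 1) one_ne_zero
  simp only [one_pow, mul_one] at h
  exact h

theorem top_J_one (hp : p.Prime) : Top (-(p : ℤ)) (1 : ℂ) (S28.J 1 p) := by
  have h := top_J (k := ℂ) (c := 1) one_ne_zero hp.ne_zero
  rwa [inv_one] at h

theorem bdd_PhiAt (hp : p.Prime) (hd : S28.HeckeData p) :
    Bdd (p ^ 2 + p) (S28.PhiAt hd.Φ (S28.J (1 : ℂ) p)) := by
  obtain ⟨ζ, hζ, h⟩ := main_prod hp hd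
  rw [h]
  have hζ0 : ζ ≠ 0 := hζ.ne_zero hp.ne_zero
  refine Bdd.mul (Bdd.X_sub_C ?_ ?_) (Bdd.prod_range p fun b _ => Bdd.X_sub_C le_rfl ?_)
  · exact Nat.one_le_pow _ _ hp.pos
  · intro m hm
    exact S28.J_coeff_of_lt one_ne_zero (pow_ne_zero 2 hp.ne_zero) hm
  · intro m hm
    exact S28.J_coeff_of_lt (pow_ne_zero b hζ0) one_ne_zero hm

/-- **Weight bound**, degree form: the coefficient of `X ^ a` in `Φ_p` has `Y`-degree `d` with
`a + p * d ≤ p ^ 2 + p`. -/
theorem weight_natDegree_le (hp : p.Prime) (hd : S28.HeckeData p) (a : ℕ)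
    (ha : hd.Φ.coeff a ≠ 0) : a + p * (hd.Φ.coeff a).natDegree ≤ p ^ 2 + p := by
  by_contra hcon
  have hlt : p ^ 2 + p < a + p * (hd.Φ.coeff a).natDegree := not_le.mp hcon
  have hlt' : ((p ^ 2 + p : ℕ) : ℤ) < ((a + p * (hd.Φ.coeff a).natDegree : ℕ) : ℤ) := by
    exact_mod_cast hlt
  have hB := bdd_PhiAt hp hd a (-((p : ℤ) * ((hd.Φ.coeff a).natDegree : ℤ))) (by
    push_cast at hlt' ⊢
    linarith)
  rw [coeff_PhiAt, coeff_eval₂_of_natDegree_le hp.ne_zero (top_J_one hp) _ _ le_rfl] at hB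
  have h0 : (hd.Φ.coeff a).leadingCoeff = 0 := by exact_mod_cast hB
  exact ha (Polynomial.leadingCoeff_eq_zero.mp h0)

/-- **Weight bound**: every monomial `X ^ a * Y ^ b` of `Φ_p` has `a + p * b ≤ p ^ 2 + p`. -/
theorem weight_le (hp : p.Prime) (hd : S28.HeckeData p) (a b : ℕ)
    (h : (hd.Φ.coeff a).coeff b ≠ 0) : a + p * b ≤ p ^ 2 + p := by
  have ha : hd.Φ.coeff a ≠ 0 := by
    intro h0
    rw [h0, Polynomial.coeff_zero] at h
    exact h rfl
  have hb : b ≤ (hd.Φ.coeff a).natDegree := Polynomial.le_natDegree_of_ne_zero h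
  have := weight_natDegree_le hp hd a ha
  calc a + p * b ≤ a + p * (hd.Φ.coeff a).natDegree :=
        Nat.add_le_add_left (Nat.mul_le_mul_left p hb) a
    _ ≤ p ^ 2 + p := this

/-- The coefficients of `X ^ a`, `a ≥ 1`, have `Y`-degree at most `p`. -/
theorem natDegree_coeff_le (hp : p.Prime) (hd : S28.HeckeData p) (a : ℕ) (ha : 1 ≤ a) :
    (hd.Φ.coeff a).natDegree ≤ p := by
  by_cases h0 : hd.Φ.coeff a = 0
  · rw [h0, Polynomial.natDegree_zero]
    exact Nat.zero_le p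
  · have h := weight_natDegree_le hp hd a h0
    have h1 : p * (hd.Φ.coeff a).natDegree < p * (p + 1) := by
      have : p * (p + 1) = p ^ 2 + p := by ring
      omega
    exact Nat.lt_succ_iff.mp (Nat.lt_of_mul_lt_mul_left h1)

/-- The constant coefficient (in `X`) has `Y`-degree at most `p + 1`. -/
theorem natDegree_coeff_zero_le (hp : p.Prime) (hd : S28.HeckeData p) :
    (hd.Φ.coeff 0).natDegree ≤ p + 1 := by
  by_cases h0 : hd.Φ.coeff 0 = 0
  · rw [h0, Polynomial.natDegree_zero]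
    exact Nat.zero_le _
  · have h := weight_natDegree_le hp hd 0 h0
    have h1 : p * (hd.Φ.coeff 0).natDegree ≤ p * (p + 1) := by
      have : p * (p + 1) = p ^ 2 + p := by ring
      omega
    exact Nat.le_of_mul_le_mul_left h1 hp.pos

/-- Every coefficient of `Φ_p` (in `X`) has `Y`-degree at most `p + 1`. -/
theorem natDegree_coeff_le_succ (hp : p.Prime) (hd : S28.HeckeData p) (a : ℕ) :
    (hd.Φ.coeff a).natDegree ≤ p + 1 := by
  rcases Nat.eq_zero_or_pos a with h | h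
  · subst h
    exact natDegree_coeff_zero_le hp hd
  · exact (natDegree_coeff_le hp hd a h).trans (Nat.le_succ p)

theorem coeff_succ (hd : S28.HeckeData p) : hd.Φ.coeff (p + 1) = 1 := by
  have h := hd.monic.coeff_natDegree
  rwa [hd.natDegree_eq] at h

theorem coeff_eq_zero_of_lt (hd : S28.HeckeData p) (a : ℕ) (ha : p + 1 < a) :
    hd.Φ.coeff a = 0 :=
  Polynomial.coeff_eq_zero_of_natDegree_lt (by rw [hd.natDegree_eq]; exact ha)

/-- **Weight bound, other weight**: every monomial `X ^ a * Y ^ b` of `Φ_p` has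
`p * a + b ≤ p ^ 2 + p`. -/
theorem weight_le' (hp : p.Prime) (hd : S28.HeckeData p) (a b : ℕ)
    (h : (hd.Φ.coeff a).coeff b ≠ 0) : p * a + b ≤ p ^ 2 + p := by
  have ha0 : hd.Φ.coeff a ≠ 0 := by
    intro h0
    rw [h0, Polynomial.coeff_zero] at h
    exact h rfl
  have hb : b ≤ (hd.Φ.coeff a).natDegree := Polynomial.le_natDegree_of_ne_zero h
  have hw := weight_le hp hd a b h
  have ha : a ≤ p + 1 := by
    have := Polynomial.le_natDegree_of_ne_zero ha0
    rw [hd.natDegree_eq] at this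
    exact this
  have hp1 : 1 ≤ p := hp.pos
  rcases Nat.eq_zero_or_pos a with h0 | h0
  · subst h0
    have := natDegree_coeff_zero_le hp hd
    nlinarith
  · have hbp : b ≤ p := hb.trans (natDegree_coeff_le hp hd a h0)
    rcases Nat.lt_or_ge a (p + 1) with h1 | h1
    · have : a ≤ p := Nat.lt_succ_iff.mp h1
      nlinarith
    · have ha' : a = p + 1 := le_antisymm ha h1
      subst ha'
      have hb0 : b = 0 := by
        by_contra hb0
        apply h
        rw [coeff_succ hd, Polynomial.coeff_one, if_neg hb0]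
      subst hb0
      nlinarith

theorem prod_zeta_pow (hp : p.Prime) {ζ : ℂ} (hζ : IsPrimitiveRoot ζ p) :
    ∏ b ∈ Finset.range p, ζ ^ b = (-1) ^ (p + 1) := by
  rw [Finset.prod_pow_eq_pow_sum]
  rcases hp.eq_two_or_odd' with h2 | hodd
  · subst h2
    have : ζ = -1 := hζ.eq_neg_one_of_two_right
    subst this
    norm_num [Finset.sum_range_succ]
  · obtain ⟨m, hm⟩ := hodd
    have hs : ∑ b ∈ Finset.range p, b = p * m := by
      have h := Finset.sum_range_id_mul_two p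
      have h2 : p - 1 = 2 * m := by omega
      rw [h2] at h
      have : (∑ b ∈ Finset.range p, b) * 2 = (p * m) * 2 := by rw [h]; ring
      exact Nat.eq_of_mul_eq_mul_right (by norm_num) this
    rw [hs, pow_mul, hζ.pow_eq_one, one_pow]
    have heven : Even (p + 1) := ⟨m + 1, by omega⟩
    rw [heven.neg_one_pow]

/-- The coefficient of `Y ^ (p + 1)` in the constant (in `X`) coefficient of `Φ_p` is `1`. -/
theorem coeff_zero_coeff (hp : p.Prime) (hd : S28.HeckeData p) :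
    (hd.Φ.coeff 0).coeff (p + 1) = 1 := by
  obtain ⟨ζ, hζ, h⟩ := main_prod hp hd
  have hζ0 : ζ ≠ 0 := hζ.ne_zero hp.ne_zero
  have hdeg : (hd.Φ.coeff 0).natDegree ≤ p + 1 := natDegree_coeff_zero_le hp hd
  have h1 := coeff_eval₂_of_natDegree_le hp.ne_zero (top_J_one hp) (hd.Φ.coeff 0) (p + 1) hdeg
  rw [← coeff_PhiAt, h, Polynomial.coeff_zero_eq_eval_zero, Polynomial.eval_mul,
    Polynomial.eval_prod] at h1
  simp only [Polynomial.eval_sub, Polynomial.eval_X, Polynomial.eval_C, zero_sub] at h1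
  have hT : Top (-((p ^ 2 : ℕ) : ℤ) + ∑ b ∈ Finset.range p, (-((1 : ℕ) : ℤ)))
      (-(1 : ℂ)⁻¹ * ∏ b ∈ Finset.range p, -(ζ ^ b)⁻¹)
      (-S28.J (1 : ℂ) (p ^ 2) * ∏ b ∈ Finset.range p, -S28.J (ζ ^ b) 1) :=
    (top_J one_ne_zero (pow_ne_zero 2 hp.ne_zero)).neg.mul
      (Top.prod_range p fun b _ => (top_J (pow_ne_zero b hζ0) one_ne_zero).neg)
  have hidx : -((p ^ 2 : ℕ) : ℤ) + ∑ b ∈ Finset.range p, (-((1 : ℕ) : ℤ))
      = -((p : ℤ) * ((p + 1 : ℕ) : ℤ)) := by
    rw [Finset.sum_const, Finset.card_range]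
    push_cast
    simp only [nsmul_eq_mul]
    ring
  rw [hidx] at hT
  rw [hT.2] at h1
  have hprod : ∏ b ∈ Finset.range p, -(ζ ^ b)⁻¹ = (-1) ^ p * ((-1) ^ (p + 1))⁻¹ := by
    rw [Finset.prod_neg, Finset.card_range, Finset.prod_inv_distrib, prod_zeta_pow hp hζ]
  rw [hprod] at h1
  have hval : (-(1 : ℂ)⁻¹ * ((-1) ^ p * ((-1) ^ (p + 1))⁻¹)) = 1 := by
    rw [pow_succ]
    have hne : ((-1 : ℂ)) ^ p ≠ 0 := pow_ne_zero _ (by norm_num)
    field_simp
  rw [hval] at h1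
  exact_mod_cast h1.symm

/-- **Expanded form**: `Φ(x, y) = x^(p+1) + y^(p+1) + ∑_{a ≤ p} ∑_{b ≤ p} φ_{ab} y^b x^a` in every
commutative ring (`φ_{ab}` the coefficient of `X ^ a * Y ^ b`). -/
theorem eval_eq (hp : p.Prime) (hd : S28.HeckeData p) {R : Type*} [CommRing R] (x y : R) :
    (S28.PhiAt hd.Φ y).eval x = x ^ (p + 1) + y ^ (p + 1) +
      ∑ a ∈ Finset.range (p + 1), ∑ b ∈ Finset.range (p + 1),
        (((hd.Φ.coeff a).coeff b : ℤ) : R) * y ^ b * x ^ a := by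
  have hdeg : (S28.PhiAt hd.Φ y).natDegree < p + 1 + 1 := by
    have h := Polynomial.natDegree_map_le (f := Polynomial.eval₂RingHom (Int.castRingHom R) y)
      (p := hd.Φ)
    rw [hd.natDegree_eq] at h
    exact Nat.lt_succ_of_le h
  rw [Polynomial.eval_eq_sum_range' hdeg, Finset.sum_range_succ, coeff_PhiAt, coeff_succ hd,
    Polynomial.eval₂_one, one_mul]
  have hinner : ∀ a ∈ Finset.range (p + 1), (S28.PhiAt hd.Φ y).coeff a * x ^ a =
      (∑ b ∈ Finset.range (p + 1), (((hd.Φ.coeff a).coeff b : ℤ) : R) * y ^ b * x ^ a) +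
        (((hd.Φ.coeff a).coeff (p + 1) : ℤ) : R) * y ^ (p + 1) * x ^ a := by
    intro a _
    rw [coeff_PhiAt, Polynomial.eval₂_eq_sum_range' (Int.castRingHom R)
      (Nat.lt_succ_of_le (natDegree_coeff_le_succ hp hd a)) y, Finset.sum_range_succ, add_mul,
      Finset.sum_mul]
    simp only [eq_intCast]
  rw [Finset.sum_congr rfl hinner, Finset.sum_add_distrib]
  have hlast : ∑ a ∈ Finset.range (p + 1),
      (((hd.Φ.coeff a).coeff (p + 1) : ℤ) : R) * y ^ (p + 1) * x ^ a = y ^ (p + 1) := by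
    rw [Finset.sum_eq_single 0]
    · rw [coeff_zero_coeff hp hd, Int.cast_one, one_mul, pow_zero, mul_one]
    · intro a _ ha0
      have h1 : (hd.Φ.coeff a).coeff (p + 1) = 0 :=
        Polynomial.coeff_eq_zero_of_natDegree_lt
          (Nat.lt_succ_of_le (natDegree_coeff_le hp hd a (Nat.pos_of_ne_zero ha0)))
      rw [h1, Int.cast_zero, zero_mul, zero_mul]
    · intro hnot
      exact absurd (Finset.mem_range.mpr (Nat.succ_pos p)) hnot
  rw [hlast]
  ring

/-- The reversed polynomial `U = -∑_{a,b ≤ p} φ_{ab} Y^(p-b) X^(p-a) ∈ ℤ[Y][X]` of `Φ`. -/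
def rev (p : ℕ) (Φ : Polynomial (Polynomial ℤ)) : Polynomial (Polynomial ℤ) :=
  -∑ a ∈ Finset.range (p + 1), ∑ b ∈ Finset.range (p + 1),
    C (C ((Φ.coeff a).coeff b) * X ^ (p - b)) * X ^ (p - a)

theorem eval_rev (Φ : Polynomial (Polynomial ℤ)) {R : Type*} [CommRing R] (x y : R) :
    (S28.PhiAt (rev p Φ) y).eval x =
      -∑ a ∈ Finset.range (p + 1), ∑ b ∈ Finset.range (p + 1),
        (((Φ.coeff a).coeff b : ℤ) : R) * y ^ (p - b) * x ^ (p - a) := by
  simp only [S28.PhiAt, rev, Polynomial.map_neg, Polynomial.map_sum, Polynomial.map_mul,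
    Polynomial.map_pow, Polynomial.map_C, Polynomial.map_X, Polynomial.eval_neg,
    Polynomial.eval_finsetSum, Polynomial.eval_mul, Polynomial.eval_pow, Polynomial.eval_C,
    Polynomial.eval_X, Polynomial.coe_eval₂RingHom, Polynomial.eval₂_mul, Polynomial.eval₂_C,
    Polynomial.eval₂_X_pow]
  simp only [eq_intCast]

/-- **The reversed relation**: for a root `Φ(x, y) = 0` in a field, with `x' = x⁻¹`, `y' = y⁻¹`:
`x'^(p+1) + y'^(p+1) = y' * x' * U(x', y')`, `U = rev p Φ` (one `U` for all roots). -/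
theorem reversed (hp : p.Prime) (hd : S28.HeckeData p) {E : Type*} [Field E] (x y : E)
    (hx : x ≠ 0) (hy : y ≠ 0) (h : (S28.PhiAt hd.Φ y).eval x = 0) :
    x⁻¹ ^ (p + 1) + y⁻¹ ^ (p + 1) = y⁻¹ * x⁻¹ * (S28.PhiAt (rev p hd.Φ) y⁻¹).eval x⁻¹ := by
  rw [eval_rev]
  rw [eval_eq hp hd] at h
  have h2 : (x ^ (p + 1) + y ^ (p + 1) + ∑ a ∈ Finset.range (p + 1), ∑ b ∈ Finset.range (p + 1),
      (((hd.Φ.coeff a).coeff b : ℤ) : E) * y ^ b * x ^ a) * (x⁻¹ ^ (p + 1) * y⁻¹ ^ (p + 1)) = 0 := by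
    rw [h, zero_mul]
  rw [add_mul, add_mul, Finset.sum_mul] at h2
  have e1 : x ^ (p + 1) * (x⁻¹ ^ (p + 1) * y⁻¹ ^ (p + 1)) = y⁻¹ ^ (p + 1) := by
    rw [← mul_assoc, ← mul_pow, mul_inv_cancel₀ hx, one_pow, one_mul]
  have e2 : y ^ (p + 1) * (x⁻¹ ^ (p + 1) * y⁻¹ ^ (p + 1)) = x⁻¹ ^ (p + 1) := by
    rw [mul_comm (x⁻¹ ^ (p + 1)), ← mul_assoc, ← mul_pow, mul_inv_cancel₀ hy, one_pow, one_mul]
  have epow : ∀ (z : E), z ≠ 0 → ∀ a : ℕ, a ≤ p → z ^ a * z⁻¹ ^ (p + 1) = z⁻¹ * z⁻¹ ^ (p - a) := by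
    intro z hz a ha
    have e : p + 1 = a + (1 + (p - a)) := by omega
    rw [e, pow_add, pow_add, pow_one, ← mul_assoc, ← mul_pow, mul_inv_cancel₀ hz, one_pow,
      one_mul]
  have e3 : ∀ a ∈ Finset.range (p + 1), (∑ b ∈ Finset.range (p + 1),
      (((hd.Φ.coeff a).coeff b : ℤ) : E) * y ^ b * x ^ a) * (x⁻¹ ^ (p + 1) * y⁻¹ ^ (p + 1)) =
      y⁻¹ * x⁻¹ * ∑ b ∈ Finset.range (p + 1),
        (((hd.Φ.coeff a).coeff b : ℤ) : E) * y⁻¹ ^ (p - b) * x⁻¹ ^ (p - a) := by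
    intro a ha
    rw [Finset.sum_mul, Finset.mul_sum]
    refine Finset.sum_congr rfl fun b hb => ?_
    have ha' : a ≤ p := Nat.lt_succ_iff.mp (Finset.mem_range.mp ha)
    have hb' : b ≤ p := Nat.lt_succ_iff.mp (Finset.mem_range.mp hb)
    calc (((hd.Φ.coeff a).coeff b : ℤ) : E) * y ^ b * x ^ a * (x⁻¹ ^ (p + 1) * y⁻¹ ^ (p + 1))
        = (((hd.Φ.coeff a).coeff b : ℤ) : E) * (y ^ b * y⁻¹ ^ (p + 1)) * (x ^ a * x⁻¹ ^ (p + 1)) := by
          ring
      _ = y⁻¹ * x⁻¹ * ((((hd.Φ.coeff a).coeff b : ℤ) : E) * y⁻¹ ^ (p - b) * x⁻¹ ^ (p - a)) := by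
          rw [epow x hx a ha', epow y hy b hb']
          ring
  rw [e1, e2, Finset.sum_congr rfl e3, ← Finset.mul_sum] at h2
  linear_combination h2

/-- Existential form of `reversed` (one `U` for all roots in all fields in `Type`). -/
theorem exists_reversed (hp : p.Prime) (hd : S28.HeckeData p) :
    ∃ U : Polynomial (Polynomial ℤ), ∀ {E : Type} [Field E] (x y : E), x ≠ 0 → y ≠ 0 →
      (S28.PhiAt hd.Φ y).eval x = 0 →
      x⁻¹ ^ (p + 1) + y⁻¹ ^ (p + 1) = y⁻¹ * x⁻¹ * (S28.PhiAt U y⁻¹).eval x⁻¹ :=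
  ⟨rev p hd.Φ, fun x y hx hy h => reversed hp hd x y hx hy h⟩

end Main

end Fermat.Agent.S36.PhiShapeW
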