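/-
# S36 — [N10]: the cuspidal closed points of `W3` on the chart at infinity, CLOSED instance
  (helper34)

Instance of `CuspEis.princ_cusp` (the purely algebraic one-branch/principal statement at a
cuspidal point of `W3`) at the chart of record `chart (M q²) A K J3⁻¹` of the level `M q²`
model.  Inputs consumed here, all on main:

* the Kronecker shape of the modular polynomial `Φ_q = (X^q − Y)(X − Y^q) + q Θ`
  (`PhiKron.exists_theta`) and its weight bound (`PhiShapeW.weight_le`), turned into the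
  coefficient family `θ` of `CuspEis.princ_cusp` (`exists_theta`);
* the modular equations `Φ_q(j, j_q) = 0 = Φ_q(j_{q²}, j_q)` in `F_K(M q²)`
  (`CuspMem.phi_j_jq`, `CuspMem.phi_jqq_jq`);
* the monomial calculus of `CuspMono` on `W1`, `W2`, `W3` (congruences and unit facts).

No residue-degree input, no series lift (KS), no chart membership beyond
`j⁻¹, j_q⁻¹, j_{q²}⁻¹ ∈ chart J3⁻¹` (`Chart3B`).

Main statements:

* `exists_theta`       : the coefficient family `θ` of `Φ_q` in the shape of `CuspEis`;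
* `unit_V1`, `unit_V2` : `j_{q²}/j − 1` is a unit of `V1` and of `V2`;
* `cusp_inst`          : at every prime `n ∋ J3⁻¹` of the chart at infinity with `P 2 ≤ n`:
                         `P 0 ≰ n`, `P 1 ≰ n` and `P 2` is principal at `n`;
* `hcusp2`             : the field `hcusp2` of `Princ3Cases.princ_of_cases` verbatim
                         (`C n := J3⁻¹ ∉ n`), with no modular hypothesis left;
* `not_le_01`          : at a cuspidal `n` with `P 2 ≤ n` neither `P 0` nor `P 1` passes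
                         through `n`;
* `hqπ_of_incO`        : the hypothesis `hqπ` from the normalisation `incO A K π = q`;
* `hcusp2_of_incO`     : `hcusp2` with that normalisation.
-/
import Mathlib
import Fermat.Agent.S36.CuspEis
import Fermat.Agent.S36.CuspMono
import Fermat.Agent.S36.CuspMem
import Fermat.Agent.S36.PhiKron
import Fermat.Agent.S36.PhiShapeW
import Fermat.Agent.S36.Chart3B
import Fermat.Agent.S34.V12J
import Fermat.Agent.S28.HeckeMain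

set_option autoImplicit false

open ModularCurve

namespace Fermat.Agent.S36.CuspEisInst

open Fermat.Agent.S18 Fermat.Agent.S18.Arith Fermat.Agent.S34 Fermat.Agent.S36
  Fermat.Agent.S36.Model3Plan

noncomputable section

/-! ### The coefficient family of `Φ_q` -/

section Adapter

open Polynomial

/-- Coefficients of a monomial `Y ^ b₀ X ^ a₀` of `ℤ[Y][X]`. -/
theorem coeff_coeff_mono (a₀ b₀ a b : ℕ) :
    (((C ((X : ℤ[X]) ^ b₀) * X ^ a₀ : Polynomial (Polynomial ℤ))).coeff a).coeff b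
      = if a = a₀ ∧ b = b₀ then 1 else 0 := by
  rw [Polynomial.coeff_C_mul, Polynomial.coeff_X_pow]
  by_cases ha : a = a₀
  · rw [if_pos ha, mul_one, Polynomial.coeff_X_pow]
    by_cases hb : b = b₀
    · rw [if_pos hb, if_pos ⟨ha, hb⟩]
    · rw [if_neg hb, if_neg (fun h => hb h.2)]
  · rw [if_neg ha, mul_zero, Polynomial.coeff_zero, if_neg (fun h => ha h.1)]

/-- Coefficients of the Kronecker polynomial `(X^q − Y)(X − Y^q)`. -/
theorem coeff_coeff_kron (q a b : ℕ) :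
    (((X ^ q - C (X : ℤ[X])) * (X - C ((X : ℤ[X]) ^ q)) :
        Polynomial (Polynomial ℤ)).coeff a).coeff b
      = (if a = q + 1 ∧ b = 0 then 1 else 0) - (if a = q ∧ b = q then 1 else 0)
        - (if a = 1 ∧ b = 1 then 1 else 0) + (if a = 0 ∧ b = q + 1 then 1 else 0) := by
  have hK : (X ^ q - C (X : ℤ[X])) * (X - C ((X : ℤ[X]) ^ q)) =
      C ((X : ℤ[X]) ^ 0) * X ^ (q + 1) - C ((X : ℤ[X]) ^ q) * X ^ q -
        C ((X : ℤ[X]) ^ 1) * X ^ 1 + C ((X : ℤ[X]) ^ (q + 1)) * X ^ 0 := by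
    simp only [map_pow, pow_zero, pow_one, map_one, one_mul, mul_one]
    ring
  rw [hK]
  simp only [coeff_add, coeff_sub, coeff_coeff_mono]

/-- **The coefficient family of `Φ_q`** in the shape consumed by `CuspEis`: a family `θ` of
integers, supported in weights `a + q b ≤ q² + q`, with
`Φ_q(x, y) = (x^q − y)(x − y^q) + q ∑_{a ≤ q, b ≤ q+1} θ a b x^a y^b` for all `x, y` of a
commutative ring. -/
theorem exists_theta (q : ℕ) (hq : q.Prime) (hd : S28.HeckeData q) :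
    ∃ θ : ℕ → ℕ → ℤ, (∀ a b, θ a b ≠ 0 → a + q * b ≤ q * q + q) ∧
      ∀ {E : Type} [CommRing E] (x y : E), (S28.PhiAt hd.Φ y).eval x =
        (x ^ q - y) * (x - y ^ q) + (q : E) * ∑ a ∈ Finset.range (q + 1),
          ∑ b ∈ Finset.range (q + 2), (θ a b : E) * (x ^ a * y ^ b) := by
  have : Fact q.Prime := ⟨hq⟩
  have hq2 := hq.two_le
  obtain ⟨Θ, hΘ⟩ := PhiKron.exists_theta q hd
  have hcoef : ∀ a b, (hd.Φ.coeff a).coeff b =
      ((if a = q + 1 ∧ b = 0 then 1 else 0) - (if a = q ∧ b = q then 1 else 0)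
        - (if a = 1 ∧ b = 1 then 1 else 0) + (if a = 0 ∧ b = q + 1 then 1 else 0))
        + (q : ℤ) * (Θ.coeff a).coeff b := by
    intro a b
    conv_lhs => rw [hΘ]
    rw [coeff_add, coeff_add, coeff_C_mul, coeff_C_mul, coeff_coeff_kron]
  have hqZ : (q : ℤ) ≠ 0 := by exact_mod_cast hq.ne_zero
  -- the weight bound
  have hW : ∀ a b, (Θ.coeff a).coeff b ≠ 0 → a + q * b ≤ q * q + q := by
    intro a b h0
    have hc := hcoef a b
    by_cases h1 : a = q + 1 ∧ b = 0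
    · obtain ⟨rfl, rfl⟩ := h1
      nlinarith
    by_cases h2 : a = q ∧ b = q
    · obtain ⟨rfl, rfl⟩ := h2
      nlinarith
    by_cases h3 : a = 1 ∧ b = 1
    · obtain ⟨rfl, rfl⟩ := h3
      nlinarith
    by_cases h4 : a = 0 ∧ b = q + 1
    · obtain ⟨rfl, rfl⟩ := h4
      nlinarith
    rw [if_neg h1, if_neg h2, if_neg h3, if_neg h4] at hc
    have hne : (hd.Φ.coeff a).coeff b ≠ 0 := by
      rw [hc]
      simp only [sub_self, zero_add]
      exact mul_ne_zero hqZ h0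
    have := PhiShapeW.weight_le hq hd a b hne
    rwa [sq] at this
  -- the degree bounds
  have hdeg1 : Θ.natDegree < q + 1 := by
    refine Nat.lt_succ_of_le (Polynomial.natDegree_le_iff_coeff_eq_zero.2 fun a ha => ?_)
    ext b
    rw [Polynomial.coeff_zero]
    have hc := hcoef a b
    have hΦa : (hd.Φ.coeff a).coeff b = if a = q + 1 ∧ b = 0 then 1 else 0 := by
      rcases Nat.lt_or_ge (q + 1) a with h | h
      · have h1 : hd.Φ.coeff a = 0 :=
          Polynomial.coeff_eq_zero_of_natDegree_lt (by rw [hd.natDegree_eq]; exact h)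
        rw [h1, Polynomial.coeff_zero, if_neg (fun h' => by omega)]
      · have haq : a = q + 1 := by omega
        have h1 : hd.Φ.coeff a = 1 := by
          have h := hd.monic.coeff_natDegree
          rwa [hd.natDegree_eq, ← haq] at h
        rw [h1, Polynomial.coeff_one]
        by_cases hb : b = 0
        · rw [if_pos hb, if_pos ⟨haq, hb⟩]
        · rw [if_neg hb, if_neg (fun h' => hb h'.2)]
    rw [hΦa, if_neg (fun h' : a = q ∧ b = q => by omega),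
      if_neg (fun h' : a = 1 ∧ b = 1 => by omega),
      if_neg (fun h' : a = 0 ∧ b = q + 1 => by omega)] at hc
    have h0 : (q : ℤ) * (Θ.coeff a).coeff b = 0 := by linarith
    exact (mul_eq_zero.1 h0).resolve_left hqZ
  have hdeg2 : ∀ a, (Θ.coeff a).natDegree < q + 2 := by
    intro a
    refine Nat.lt_succ_of_le (Polynomial.natDegree_le_iff_coeff_eq_zero.2 fun b hb => ?_)
    by_contra h0
    have h := hW a b h0
    have h1 : q * (q + 2) ≤ q * b := Nat.mul_le_mul_left q hb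
    nlinarith
  refine ⟨fun a b => (Θ.coeff a).coeff b, hW, ?_⟩
  intro E _ x y
  have hev : (S28.PhiAt hd.Φ y).eval x
      = Polynomial.eval₂ (Polynomial.eval₂RingHom (Int.castRingHom E) y) x hd.Φ := by
    unfold S28.PhiAt
    rw [Polynomial.eval_map]
  have hΘev : Polynomial.eval₂ (Polynomial.eval₂RingHom (Int.castRingHom E) y) x Θ
      = ∑ a ∈ Finset.range (q + 1), ∑ b ∈ Finset.range (q + 2),
          (((Θ.coeff a).coeff b : ℤ) : E) * (x ^ a * y ^ b) := by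
    rw [Polynomial.eval₂_eq_sum_range' _ hdeg1]
    refine Finset.sum_congr rfl fun a _ => ?_
    rw [Polynomial.coe_eval₂RingHom, Polynomial.eval₂_eq_sum_range' _ (hdeg2 a),
      Finset.sum_mul]
    refine Finset.sum_congr rfl fun b _ => ?_
    rw [eq_intCast]
    ring
  rw [hev]
  conv_lhs => rw [hΘ]
  rw [Polynomial.eval₂_add, Polynomial.eval₂_mul, Polynomial.eval₂_mul, hΘev]
  simp only [Polynomial.eval₂_sub, Polynomial.eval₂_pow, Polynomial.eval₂_X, Polynomial.eval₂_C,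
    Polynomial.coe_eval₂RingHom, eq_intCast, Int.cast_natCast]
  rw [Polynomial.eval₂_natCast]

end Adapter

/-! ### The unit `j_{q²}/j − 1` on `W1`, `W2` -/

variable {M q : ℕ} [NeZero M] [NeZero q] {hq : q.Prime} {hqM : ¬ q ∣ M}
variable {A : ValuationSubring Qb} {K : IntermediateField ℚ Qb}

omit [NeZero q] in
/-- `J̄ ^ (q² − 1) ≠ 1`. -/
theorem jqModC_pow_ne_one (hq : q.Prime) (F : Type*) [Field F] :
    jqModC F ^ (q * q - 1) ≠ 1 := by
  have h2 := hq.two_le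
  have hb : q * q - 1 ≠ 0 := by
    have : 4 ≤ q * q := by nlinarith
    omega
  have h := V12J.jqModC_pow_ne_C F hb 1
  rwa [map_one] at h

/-- `j_{q²}/j − 1` is a unit of `V1`: its Gauss reduction is `J̄^(q²−1) − 1 ≠ 0`. -/
theorem unit_V1 (hdvr : IsDiscreteValuationRing (OK A K)) (hA : A.LiesOverPrime q) :
    (GaussV.V1 (M * q * q) A K hdvr).valuation
      (WQ2.jqqK2 M q hq hqM K * (jK (M * q * q) K)⁻¹ - 1) = 1 := by
  have hmono : WQ2.jqqK2 M q hq hqM K * (jK (M * q * q) K)⁻¹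
      = CuspMono.mono M q hq hqM K (-1) 0 1 := by
    rw [← div_eq_mul_inv, CuspMono.y_eq]
  rw [hmono]
  set m : GaussV.V1 (M * q * q) A K hdvr :=
    ⟨CuspMono.mono M q hq hqM K (-1) 0 1, CuspMono.mono_mem_V1 M q hq hqM A K hdvr _ _ _⟩ with hm
  have hred : GaussV.red1 hdvr (m - 1) ≠ 0 := by
    rw [map_sub, map_one, hm, CuspMono.red1_mono M q hq hqM A K hdvr hA]
    have hexp : ((-1 : ℤ) + (q : ℤ) * 0 + (q : ℤ) * q * 1) = ((q * q - 1 : ℕ) : ℤ) := by
      have h1 : 1 ≤ q * q := Nat.mul_pos hq.pos hq.pos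
      rw [Nat.cast_sub h1]
      push_cast
      ring
    rw [hexp, zpow_natCast, sub_ne_zero]
    exact jqModC_pow_ne_one hq _
  have hcoe : ((m - 1 : GaussV.V1 (M * q * q) A K hdvr) : FK (M * q * q) K)
      = CuspMono.mono M q hq hqM K (-1) 0 1 - 1 := by
    rw [AddSubgroupClass.coe_sub, OneMemClass.coe_one]
  have hne : ((m - 1 : GaussV.V1 (M * q * q) A K hdvr) : FK (M * q * q) K) ≠ 0 := by
    intro h0
    apply hred
    have h2 : (m - 1 : GaussV.V1 (M * q * q) A K hdvr) = 0 := Subtype.ext h0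
    rw [h2, map_zero]
  rw [← hcoe]
  exact Chart3Facts.eq_one_of_unit _ (m - 1).2 (GaussV.inv_mem_V1 hdvr (m - 1) hred) hne

/-- `j_{q²}/j − 1` is a unit of `V2`: its reduction is `J̄^(1−q²) − 1 ≠ 0`. -/
theorem unit_V2 (hdvr : IsDiscreteValuationRing (OK A K)) (hA : A.LiesOverPrime q) :
    (GaussV.V2 (WQ2.wK2 M q hq hqM K) hdvr).valuation
      (WQ2.jqqK2 M q hq hqM K * (jK (M * q * q) K)⁻¹ - 1) = 1 := by
  have hmono : WQ2.jqqK2 M q hq hqM K * (jK (M * q * q) K)⁻¹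
      = CuspMono.mono M q hq hqM K (-1) 0 1 := by
    rw [← div_eq_mul_inv, CuspMono.y_eq]
  rw [hmono]
  set m : GaussV.V1 (M * q * q) A K hdvr :=
    ⟨CuspMono.mono M q hq hqM K 1 0 (-1), CuspMono.mono_mem_V1 M q hq hqM A K hdvr _ _ _⟩ with hm
  have hred : GaussV.red1 hdvr (m - 1) ≠ 0 := by
    rw [map_sub, map_one, hm, CuspMono.red1_mono M q hq hqM A K hdvr hA]
    have hexp : ((1 : ℤ) + (q : ℤ) * 0 + (q : ℤ) * q * (-1)) = -((q * q - 1 : ℕ) : ℤ) := by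
      have h1 : 1 ≤ q * q := Nat.mul_pos hq.pos hq.pos
      rw [Nat.cast_sub h1]
      push_cast
      ring
    rw [hexp, zpow_neg, zpow_natCast, sub_ne_zero]
    intro h
    apply jqModC_pow_ne_one hq (IsLocalRing.ResidueField A)
    rw [← inv_inv (jqModC (IsLocalRing.ResidueField A) ^ (q * q - 1)), h, inv_one]
  have hcoe : ((m - 1 : GaussV.V1 (M * q * q) A K hdvr) : FK (M * q * q) K)
      = CuspMono.mono M q hq hqM K 1 0 (-1) - 1 := by
    rw [AddSubgroupClass.coe_sub, OneMemClass.coe_one]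
  have hw : WQ2.wK2 M q hq hqM K (CuspMono.mono M q hq hqM K (-1) 0 1 - 1)
      = ((m - 1 : GaussV.V1 (M * q * q) A K hdvr) : FK (M * q * q) K) := by
    rw [hcoe, map_sub, map_one, CuspMono.wK2_mono]
  have hmem : CuspMono.mono M q hq hqM K (-1) 0 1 - 1
      ∈ GaussV.V2 (WQ2.wK2 M q hq hqM K) hdvr :=
    (GaussV.V2 (WQ2.wK2 M q hq hqM K) hdvr).sub_mem
      (CuspMono.mono_mem_V2 M q hq hqM A K hdvr _ _ _)
      (GaussV.V2 (WQ2.wK2 M q hq hqM K) hdvr).one_mem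
  have hinv : (CuspMono.mono M q hq hqM K (-1) 0 1 - 1)⁻¹
      ∈ GaussV.V2 (WQ2.wK2 M q hq hqM K) hdvr := by
    have h1 : WQ2.wK2 M q hq hqM K ((CuspMono.mono M q hq hqM K (-1) 0 1 - 1)⁻¹)
        = ((m - 1 : GaussV.V1 (M * q * q) A K hdvr) : FK (M * q * q) K)⁻¹ := by
      rw [map_inv₀, hw]
    show WQ2.wK2 M q hq hqM K ((CuspMono.mono M q hq hqM K (-1) 0 1 - 1)⁻¹)
      ∈ GaussV.V1 (M * q * q) A K hdvr
    rw [h1]
    exact GaussV.inv_mem_V1 hdvr (m - 1) hred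
  have hne : CuspMono.mono M q hq hqM K (-1) 0 1 - 1 ≠ 0 := by
    intro h0
    apply hred
    have h2 : (m - 1 : GaussV.V1 (M * q * q) A K hdvr) = 0 := by
      apply Subtype.ext
      rw [← hw, h0, map_zero, ZeroMemClass.coe_zero]
    rw [h2, map_zero]
  exact Chart3Facts.eq_one_of_unit _ hmem hinv hne

/-! ### The instance on the chart at infinity -/

/-- The chart at infinity `chart (M q²) A K J3⁻¹`. -/
abbrev Rinf (M q : ℕ) [NeZero M] [NeZero q] (hq : q.Prime) (hqM : ¬ q ∣ M)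
    (A : ValuationSubring Qb) (K : IntermediateField ℚ Qb) :
    Subalgebra (OK A K) (FK (M * q * q) K) :=
  chart (M * q * q) A K (Chart3B.J3 M q hq hqM K)⁻¹

/-- **[N10], algebraic route, the instance**: at every prime `n ∋ J3⁻¹` of the chart at infinity
with `P 2 ≤ n`, neither `P 0` nor `P 1` passes through `n`, and `P 2` is principal at `n`.
No modular hypothesis: only the standing data of the model. -/
theorem cusp_inst (hdvr : IsDiscreteValuationRing (OK A K))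
    {K' : IntermediateField ℚ Qb} {ξ : Qb} {hξ0 : ξ ≠ 0}
    {ι : FK (M * q * q) K →+* LaurentSeries Qb} {ϖ' : OK A K'}
    (H : V3.Hyp3 M q hq hqM A K K' ξ hξ0 ι ϖ') (hA : A.LiesOverPrime q)
    {π : OK A K}
    (hp0 : algebraMap (OK A K) (FK (M * q * q) K) π ≠ 0)
    (hqπ : ∃ υ υ' : OK A K, υ * υ' = 1 ∧ (q : OK A K) = π * υ)
    {e : Fin 3 → ℕ} {ϖ : Fin 3 → FK (M * q * q) K}
    {V : Fin 3 → ValuationSubring (FK (M * q * q) K)}
    (hV0 : V 0 = GaussV.V1 (M * q * q) A K hdvr)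
    (hV1 : V 1 = GaussV.V2 (WQ2.wK2 M q hq hqM K) hdvr)
    (hV2 : V 2 = H.W3) (hϖ2 : ϖ 2 = Wit3.sE M q hq hqM K) (he2 : e 2 = q - 1)
    (hV : ValHyp3 (algebraMap (OK A K) (FK (M * q * q) K) π) e ϖ V)
    {P : Fin 3 → Ideal (chart (M * q * q) A K (Chart3B.J3 M q hq hqM K)⁻¹)}
    (hC : ChartHyp3 π ϖ V P) (hd : S28.HeckeData q) :
    ∀ n : Ideal (chart (M * q * q) A K (Chart3B.J3 M q hq hqM K)⁻¹), n.IsPrime →
      (⟨(Chart3B.J3 M q hq hqM K)⁻¹, Chart3B.J3_inv_mem_chart M q hq hqM A K⟩ :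
        chart (M * q * q) A K (Chart3B.J3 M q hq hqM K)⁻¹) ∈ n → P 2 ≤ n →
      ¬ P 0 ≤ n ∧ ¬ P 1 ≤ n ∧
        ∃ g ∈ P 2, ∀ y ∈ P 2, ∃ s : chart (M * q * q) A K (Chart3B.J3 M q hq hqM K)⁻¹, s ∉ n ∧
          ∃ c : chart (M * q * q) A K (Chart3B.J3 M q hq hqM K)⁻¹, s * y = c * g := by
  intro n hn hJ hPn
  obtain ⟨-, ⟨-, hfrac, hintcl⟩, -, -⟩ := Chart3B.rings M q hq hqM A K hdvr
  have := hfrac
  have := hintcl
  have hj0 : jK (M * q * q) K ≠ 0 := CuspMono.jK_ne_zero M q K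
  have hjq0 : WQ2.jqK2 M q hq hqM K ≠ 0 := CuspMono.jqK2_ne_zero M q hq hqM K
  have hjqq0 : WQ2.jqqK2 M q hq hqM K ≠ 0 := CuspMono.jqqK2_ne_zero M q hq hqM K
  have hV' : ValHyp3 (algebraMap (Rinf M q hq hqM A K) (FK (M * q * q) K)
      (algebraMap (OK A K) (Rinf M q hq hqM A K) π)) e ϖ V := hV
  have hp0' : algebraMap (Rinf M q hq hqM A K) (FK (M * q * q) K)
      (algebraMap (OK A K) (Rinf M q hq hqM A K) π) ≠ 0 := hp0
  -- the coordinates
  set Xc : Rinf M q hq hqM A K := ⟨(jK (M * q * q) K)⁻¹, Chart3B.jK_inv_mem_chart_J3_inv M q hq hqM A K⟩ with hXc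
  set Zc : Rinf M q hq hqM A K := ⟨(WQ2.jqK2 M q hq hqM K)⁻¹, Chart3B.jqK2_inv_mem_chart_J3_inv M q hq hqM A K⟩
    with hZc
  set Yc : Rinf M q hq hqM A K := ⟨(WQ2.jqqK2 M q hq hqM K)⁻¹, Chart3B.jqqK2_inv_mem_chart_J3_inv M q hq hqM A K⟩
    with hYc
  have hprod : Xc * Zc * Yc
      = (⟨(Chart3B.J3 M q hq hqM K)⁻¹, Chart3B.J3_inv_mem_chart M q hq hqM A K⟩ :
        Rinf M q hq hqM A K) := by
    apply Subtype.ext
    show (jK (M * q * q) K)⁻¹ * (WQ2.jqK2 M q hq hqM K)⁻¹ * (WQ2.jqqK2 M q hq hqM K)⁻¹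
      = (Chart3B.J3 M q hq hqM K)⁻¹
    rw [Chart3B.J3, mul_inv, mul_inv]
  -- the uniformiser of `W3`
  have hs_lt : (V 2).valuation (Wit3.sE M q hq hqM K) < 1 := by
    rw [← hϖ2]
    exact Chart3Facts.unif_lt_one (V 2) (hV.unif_mem 2) (hV.unif_not 2)
  have hs_ne : Wit3.sE M q hq hqM K ≠ 0 := by
    intro h0
    apply hV.unif_not 2
    rw [hϖ2, h0, inv_zero]
    exact (V 2).zero_mem
  -- `X ∈ n`
  have hXY : Xc - Yc ∈ P 2 := by
    obtain ⟨z, hz, hzz⟩ := CuspMono.X_sub_Y_s3 H hA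
    refine (hC.mem_P 2 _).2 ⟨z, hV2 ▸ hz, ?_⟩
    rw [hϖ2]
    exact hzz
  have hZX : Zc - Xc ^ q ∈ P 2 := by
    obtain ⟨z, hz, hzz⟩ := CuspMono.Z_sub_X_pow_s3 H hA
    refine (hC.mem_P 2 _).2 ⟨z, hV2 ▸ hz, ?_⟩
    rw [hϖ2]
    exact hzz
  have hXn : Xc ∈ n := by
    rw [← hprod] at hJ
    rcases hn.mem_or_mem hJ with h | h
    · rcases hn.mem_or_mem h with h | h
      · exact h
      · have h1 : Xc ^ q ∈ n := by
          have h2 := n.sub_mem h (hPn hZX)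
          rwa [sub_sub_cancel] at h2
        exact hn.mem_of_pow_mem q h1
    · have h2 := n.add_mem (hPn hXY) h
      rwa [sub_add_cancel] at h2
  -- the valuation facts
  have he : (V 2).valuation
      (WQ2.jqK2 M q hq hqM K * (jK (M * q * q) K)⁻¹ ^ q - 1) < 1 := by
    obtain ⟨z, hz, hzz⟩ := CuspMono.mu0_sub_one_s3 H hA
    rw [inv_pow, ← div_eq_mul_inv, hzz]
    exact Chart3Facts.mul_lt_one (V 2) hs_lt (hV2 ▸ hz)
  have hw : (V 2).valuation
      (WQ2.jqqK2 M q hq hqM K * (jK (M * q * q) K)⁻¹ - 1) < 1 := by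
    obtain ⟨z, hz, hzz⟩ := CuspMono.y_sub_one_s3 H hA
    rw [← div_eq_mul_inv, hzz]
    exact Chart3Facts.mul_lt_one (V 2) hs_lt (hV2 ▸ hz)
  have hw0 : (V 0).valuation
      (WQ2.jqqK2 M q hq hqM K * (jK (M * q * q) K)⁻¹ - 1) = 1 := by
    rw [hV0]
    exact unit_V1 hdvr hA
  have hw1 : (V 1).valuation
      (WQ2.jqqK2 M q hq hqM K * (jK (M * q * q) K)⁻¹ - 1) = 1 := by
    rw [hV1]
    exact unit_V2 hdvr hA
  have hne : WQ2.jqqK2 M q hq hqM K ≠ jK (M * q * q) K := by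
    intro h
    apply hs_ne
    rw [Wit3.sE, h, sub_self]
  -- the modular equations
  obtain ⟨θ, hθ, hΦ⟩ := exists_theta q hq hd
  have hΦ1 := hΦ (jK (M * q * q) K) (WQ2.jqK2 M q hq hqM K)
  rw [CuspMem.phi_j_jq M q hq hqM K hd] at hΦ1
  have hΦ2 := hΦ (WQ2.jqqK2 M q hq hqM K) (WQ2.jqK2 M q hq hqM K)
  rw [CuspMem.phi_jqq_jq M q hq hqM K hd] at hΦ2
  have hπn : algebraMap (OK A K) (Rinf M q hq hqM A K) π ∈ n := hPn (Chart3Facts.pi_mem_P hV' hC 2)
  exact CuspEis.princ_cusp hV' hC hp0' q hq he2 hqπ θ hθ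
    (jK (M * q * q) K) (WQ2.jqK2 M q hq hqM K) (WQ2.jqqK2 M q hq hqM K) hj0 hΦ1.symm hΦ2.symm
    hne he hw hw0 hw1 Xc rfl n hn hπn hXn hPn

/-- **The field `hcusp2` of `Princ3Cases.princ_of_cases`** on the chart at infinity, with
`C n := J3⁻¹ ∉ n`: at the cuspidal closed points of `W3` the vertical prime `P 2` is principal.
No modular hypothesis left. -/
theorem hcusp2 (hdvr : IsDiscreteValuationRing (OK A K))
    {K' : IntermediateField ℚ Qb} {ξ : Qb} {hξ0 : ξ ≠ 0}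
    {ι : FK (M * q * q) K →+* LaurentSeries Qb} {ϖ' : OK A K'}
    (H : V3.Hyp3 M q hq hqM A K K' ξ hξ0 ι ϖ') (hA : A.LiesOverPrime q)
    {π : OK A K}
    (hp0 : algebraMap (OK A K) (FK (M * q * q) K) π ≠ 0)
    (hqπ : ∃ υ υ' : OK A K, υ * υ' = 1 ∧ (q : OK A K) = π * υ)
    {e : Fin 3 → ℕ} {ϖ : Fin 3 → FK (M * q * q) K}
    {V : Fin 3 → ValuationSubring (FK (M * q * q) K)}
    (hV0 : V 0 = GaussV.V1 (M * q * q) A K hdvr)
    (hV1 : V 1 = GaussV.V2 (WQ2.wK2 M q hq hqM K) hdvr)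
    (hV2 : V 2 = H.W3) (hϖ2 : ϖ 2 = Wit3.sE M q hq hqM K) (he2 : e 2 = q - 1)
    (hV : ValHyp3 (algebraMap (OK A K) (FK (M * q * q) K) π) e ϖ V)
    {P : Fin 3 → Ideal (chart (M * q * q) A K (Chart3B.J3 M q hq hqM K)⁻¹)}
    (hC : ChartHyp3 π ϖ V P) :
    ∀ n : Ideal (chart (M * q * q) A K (Chart3B.J3 M q hq hqM K)⁻¹), n.IsMaximal →
      algebraMap (OK A K) (chart (M * q * q) A K (Chart3B.J3 M q hq hqM K)⁻¹) π ∈ n →
      ¬ ((⟨(Chart3B.J3 M q hq hqM K)⁻¹, Chart3B.J3_inv_mem_chart M q hq hqM A K⟩ :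
        chart (M * q * q) A K (Chart3B.J3 M q hq hqM K)⁻¹) ∉ n) → P 2 ≤ n →
      ∃ i : Fin 3, P i ≤ n ∧ ∃ g ∈ P i, ∀ y ∈ P i,
        ∃ s : chart (M * q * q) A K (Chart3B.J3 M q hq hqM K)⁻¹, s ∉ n ∧
          ∃ c : chart (M * q * q) A K (Chart3B.J3 M q hq hqM K)⁻¹, s * y = c * g := by
  intro n hn _ hJ hPn
  obtain ⟨hd⟩ := S28.exists_heckeData q hq
  obtain ⟨-, -, g, hg, hgen⟩ := cusp_inst hdvr H hA hp0 hqπ hV0 hV1 hV2 hϖ2 he2 hV hC hd
    n hn.isPrime (not_not.1 hJ) hPn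
  exact ⟨2, hPn, g, hg, hgen⟩

/-- At a cuspidal prime `n` of the chart at infinity lying on `W3`, neither `P 0` nor `P 1`
passes through `n` (the one-branch statement at the cuspidal points of `W3`). -/
theorem not_le_01 (hdvr : IsDiscreteValuationRing (OK A K))
    {K' : IntermediateField ℚ Qb} {ξ : Qb} {hξ0 : ξ ≠ 0}
    {ι : FK (M * q * q) K →+* LaurentSeries Qb} {ϖ' : OK A K'}
    (H : V3.Hyp3 M q hq hqM A K K' ξ hξ0 ι ϖ') (hA : A.LiesOverPrime q)
    {π : OK A K}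
    (hp0 : algebraMap (OK A K) (FK (M * q * q) K) π ≠ 0)
    (hqπ : ∃ υ υ' : OK A K, υ * υ' = 1 ∧ (q : OK A K) = π * υ)
    {e : Fin 3 → ℕ} {ϖ : Fin 3 → FK (M * q * q) K}
    {V : Fin 3 → ValuationSubring (FK (M * q * q) K)}
    (hV0 : V 0 = GaussV.V1 (M * q * q) A K hdvr)
    (hV1 : V 1 = GaussV.V2 (WQ2.wK2 M q hq hqM K) hdvr)
    (hV2 : V 2 = H.W3) (hϖ2 : ϖ 2 = Wit3.sE M q hq hqM K) (he2 : e 2 = q - 1)
    (hV : ValHyp3 (algebraMap (OK A K) (FK (M * q * q) K) π) e ϖ V)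
    {P : Fin 3 → Ideal (chart (M * q * q) A K (Chart3B.J3 M q hq hqM K)⁻¹)}
    (hC : ChartHyp3 π ϖ V P)
    (n : Ideal (chart (M * q * q) A K (Chart3B.J3 M q hq hqM K)⁻¹)) (hn : n.IsPrime)
    (hJ : (⟨(Chart3B.J3 M q hq hqM K)⁻¹, Chart3B.J3_inv_mem_chart M q hq hqM A K⟩ :
        chart (M * q * q) A K (Chart3B.J3 M q hq hqM K)⁻¹) ∈ n) (hPn : P 2 ≤ n) :
    ¬ P 0 ≤ n ∧ ¬ P 1 ≤ n := by
  obtain ⟨hd⟩ := S28.exists_heckeData q hq
  obtain ⟨h0, h1, -⟩ := cusp_inst hdvr H hA hp0 hqπ hV0 hV1 hV2 hϖ2 he2 hV hC hd n hn hJ hPn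
  exact ⟨h0, h1⟩

omit [NeZero q] in
/-- The hypothesis `hqπ` from the normalisation of record `incO A K π = q`. -/
theorem hqπ_of_incO {π : OK A K} (hπq : incO A K π = (q : Qb)) :
    ∃ υ υ' : OK A K, υ * υ' = 1 ∧ (q : OK A K) = π * υ := by
  refine ⟨1, 1, one_mul 1, ?_⟩
  rw [mul_one]
  have hinj : Function.Injective (incO A K) := by
    intro a b hab
    exact Subtype.ext (Subtype.ext hab)
  apply hinj
  rw [hπq, map_natCast]

omit [NeZero M] in
/-- The hypothesis `hqπ` from `q = π a` with `a` a unit of `A`. -/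
theorem hqπ_of_unit {π : OK A K} (a : A) (ha : IsUnit a)
    (hqa : (q : Qb) = incO A K π * (a : Qb)) :
    ∃ υ υ' : OK A K, υ * υ' = 1 ∧ (q : OK A K) = π * υ := by
  have hq0 : q ≠ 0 := NeZero.ne q
  have hqQ : (q : Qb) ≠ 0 := Nat.cast_ne_zero.2 hq0
  have hπQ : incO A K π ≠ 0 := by
    intro h
    rw [h, zero_mul] at hqa
    exact hqQ hqa
  have hπK : ((π : OK A K) : K) ≠ 0 := by
    intro h
    apply hπQ
    show algebraMap K Qb (π : K) = 0
    rw [h, map_zero]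
  have hqK : (q : K) ≠ 0 := Nat.cast_ne_zero.2 hq0
  obtain ⟨b, hb⟩ := ha.exists_right_inv
  have hab : (a : Qb) * (b : Qb) = 1 := by
    have h := congrArg (fun x : A => (x : Qb)) hb
    simpa using h
  have haQ : (a : Qb) ≠ 0 := left_ne_zero_of_mul_eq_one hab
  have hπ' : algebraMap K Qb (π : K) = incO A K π := rfl
  have h1 : algebraMap K Qb ((q : K) * (π : K)⁻¹) = (a : Qb) := by
    rw [map_mul, map_inv₀, map_natCast, hπ', hqa]
    field_simp
  have h2 : algebraMap K Qb ((π : K) * (q : K)⁻¹) = (b : Qb) := by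
    rw [map_mul, map_inv₀, map_natCast, hπ', hqa, mul_inv, ← mul_assoc, mul_inv_cancel₀ hπQ,
      one_mul]
    exact inv_eq_of_mul_eq_one_right hab
  refine ⟨⟨(q : K) * (π : K)⁻¹, ?_⟩, ⟨(π : K) * (q : K)⁻¹, ?_⟩, ?_, ?_⟩
  · show algebraMap K Qb ((q : K) * (π : K)⁻¹) ∈ A
    rw [h1]
    exact a.2
  · show algebraMap K Qb ((π : K) * (q : K)⁻¹) ∈ A
    rw [h2]
    exact b.2
  · apply Subtype.ext
    show (q : K) * (π : K)⁻¹ * ((π : K) * (q : K)⁻¹) = 1
    field_simp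
  · apply Subtype.ext
    show ((q : OK A K) : K) = (π : K) * ((q : K) * (π : K)⁻¹)
    rw [show ((q : OK A K) : K) = (q : K) from map_natCast (OK A K).subtype q]
    field_simp

/-- `hcusp2` with the normalisation of record `incO A K π = q` of the uniformiser. -/
theorem hcusp2_of_incO (hdvr : IsDiscreteValuationRing (OK A K))
    {K' : IntermediateField ℚ Qb} {ξ : Qb} {hξ0 : ξ ≠ 0}
    {ι : FK (M * q * q) K →+* LaurentSeries Qb} {ϖ' : OK A K'}
    (H : V3.Hyp3 M q hq hqM A K K' ξ hξ0 ι ϖ') (hA : A.LiesOverPrime q)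
    {π : OK A K}
    (hp0 : algebraMap (OK A K) (FK (M * q * q) K) π ≠ 0)
    (hπq : incO A K π = (q : Qb))
    {e : Fin 3 → ℕ} {ϖ : Fin 3 → FK (M * q * q) K}
    {V : Fin 3 → ValuationSubring (FK (M * q * q) K)}
    (hV0 : V 0 = GaussV.V1 (M * q * q) A K hdvr)
    (hV1 : V 1 = GaussV.V2 (WQ2.wK2 M q hq hqM K) hdvr)
    (hV2 : V 2 = H.W3) (hϖ2 : ϖ 2 = Wit3.sE M q hq hqM K) (he2 : e 2 = q - 1)
    (hV : ValHyp3 (algebraMap (OK A K) (FK (M * q * q) K) π) e ϖ V)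
    {P : Fin 3 → Ideal (chart (M * q * q) A K (Chart3B.J3 M q hq hqM K)⁻¹)}
    (hC : ChartHyp3 π ϖ V P) :
    ∀ n : Ideal (chart (M * q * q) A K (Chart3B.J3 M q hq hqM K)⁻¹), n.IsMaximal →
      algebraMap (OK A K) (chart (M * q * q) A K (Chart3B.J3 M q hq hqM K)⁻¹) π ∈ n →
      ¬ ((⟨(Chart3B.J3 M q hq hqM K)⁻¹, Chart3B.J3_inv_mem_chart M q hq hqM A K⟩ :
        chart (M * q * q) A K (Chart3B.J3 M q hq hqM K)⁻¹) ∉ n) → P 2 ≤ n →
      ∃ i : Fin 3, P i ≤ n ∧ ∃ g ∈ P i, ∀ y ∈ P i,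
        ∃ s : chart (M * q * q) A K (Chart3B.J3 M q hq hqM K)⁻¹, s ∉ n ∧
          ∃ c : chart (M * q * q) A K (Chart3B.J3 M q hq hqM K)⁻¹, s * y = c * g :=
  hcusp2 hdvr H hA hp0 (hqπ_of_incO hπq) hV0 hV1 hV2 hϖ2 he2 hV hC

end

end Fermat.Agent.S36.CuspEisInst

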