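import Mathlib
import Fermat.Agent.S36.V3
import Fermat.Agent.S36.Wit3Set
import Fermat.Agent.S34.Red2B
import Fermat.Agent.S36.ResDeg3Inst
import Fermat.Agent.S36.Wit3Inst
import Fermat.Agent.S36.Wit3W3Inst

/-!
# S36, [N10] / [CUSP-c] (c2): residue degree one of `W3` over level one

OWNER: helper15.

The level `q²` (`M = 1`) instance of the residue-degree-one statement `hf3` along the middle-cusp
embedding `ι3`: every Gauss reduction along `ι3` of an element of `F_K(q²)` is the Gauss reduction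
of an element of `F_K(1) = K(j)`.  This is the input `hf3` of `CuspKS.exists_polys`
(with `em₁ := iota1`, `h₁ := midEmb_iota1`, `hq1 := hq.not_dvd_one`).
-/

set_option autoImplicit false

noncomputable section

namespace Fermat.Agent.S36.CuspHf3

open ModularCurve HahnSeries
open Fermat.Agent.S18 Fermat.Agent.S18.Arith Fermat.Agent.S18.ModelPlan
open Fermat.Agent.S34

/-- The middle-cusp embedding at a general level is the identity on level `M`. -/
theorem iota3_inc (q : ℕ) [NeZero q] (hq : q.Prime) (M : ℕ) [NeZero M] (hqM : ¬ q ∣ M)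
    (K : IntermediateField ℚ Qb) (ξ : Qb) (hξ : ξ ^ q = 1) (hξ1 : ξ ≠ 1) (x : FK M K) :
    Iota3.iota3 M q K hq hqM ξ hξ hξ1 (Wit3Set.inc M q K x)
      = ((x : FK M K) : LaurentSeries Qb) := by
  rw [Wit3Set.inc_eq, (V3.midEmb_iota3 M q hq hqM K ξ hξ hξ1).alpha, WK.coe_alphaK]

/-- The middle-cusp embedding of level `q²` (`M = 1`). -/
def iota1 (q : ℕ) [NeZero q] (hq : q.Prime) (K : IntermediateField ℚ Qb) (ξ : Qb)
    (hξ : ξ ^ q = 1) (hξ1 : ξ ≠ 1) : FK (1 * q * q) K →+* LaurentSeries Qb :=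
  Iota3.iota3 1 q K hq hq.not_dvd_one ξ hξ hξ1

theorem midEmb_iota1 (q : ℕ) [NeZero q] (hq : q.Prime) (K : IntermediateField ℚ Qb) (ξ : Qb)
    (hξ : ξ ^ q = 1) (hξ1 : ξ ≠ 1) :
    V3.MidEmb 1 q hq hq.not_dvd_one K ξ (Iota3.xi_ne_zero q hξ) (iota1 q hq K ξ hξ hξ1) :=
  V3.midEmb_iota3 1 q hq hq.not_dvd_one K ξ hξ hξ1

theorem iota1_incl (q : ℕ) [NeZero q] (hq : q.Prime) (K : IntermediateField ℚ Qb) (ξ : Qb)
    (hξ : ξ ^ q = 1) (hξ1 : ξ ≠ 1) (x : FK 1 K) :
    iota1 q hq K ξ hξ hξ1 (DegTower.incl 1 (1 * q * q) K (Wit3Set.dvd_level 1 q) x)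
      = ((x : FK 1 K) : LaurentSeries Qb) :=
  iota3_inc q hq 1 hq.not_dvd_one K ξ hξ hξ1 x

/-- `ChartFacts` for the level-one chart `j ≠ ∞`. -/
theorem chartFacts_one (q : ℕ) [NeZero q] (hq : q.Prime) (A : ValuationSubring Qb)
    (K : IntermediateField ℚ Qb) (hA : A.LiesOverPrime q) (hB : BaseFacts q A K) :
    ChartFacts 1 A K (chart 1 A K (jK 1 K)) (jK 1 K) :=
  Red2B.chartFacts 1 q hq hq.not_dvd_one A K hA hB

/-- **Residue degree one of `W3` over level one, abstract `V3.Hyp3`**: for any `V3.Hyp3` at level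
`1 * q * q` (any embedding `ι₁`, any `K'`, `ϖ`), every Gauss reduction along `ι₁` of an element of
`F_K(q²)` is the Gauss reduction of an element of `F_K(1)`. -/
theorem hf3_one_of_hyp3 (q : ℕ) [NeZero q] (hq : q.Prime) {hq1 : ¬ q ∣ 1}
    {A : ValuationSubring Qb} {K K' : IntermediateField ℚ Qb}
    {ξ : Qb} {hξ0 : ξ ≠ 0} {ι₁ : FK (1 * q * q) K →+* LaurentSeries Qb} {ϖ : OK A K'}
    (H₁ : V3.Hyp3 1 q hq hq1 A K K' ξ hξ0 ι₁ ϖ)
    (hA : A.LiesOverPrime q)
    (hC : ChartFacts 1 A K (chart 1 A K (jK 1 K)) (jK 1 K))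
    (hdvr : IsDiscreteValuationRing (OK A K))
    {π : OK A K} (hπ : Irreducible π) (a : A) (hqa : (q : Qb) = incO A K π * (a : Qb))
    (hπϖ : ∃ u : A, IsUnit u ∧ incO A K π = incO A K' ϖ ^ (q - 1) * (u : Qb)) :
    ∀ (x : FK (1 * q * q) K) (y : LaurentSeries (IsLocalRing.ResidueField A)),
      GRel A (ι₁ x) y → ∃ x' : FK 1 K, GRel A ((x' : FK 1 K) : LaurentSeries Qb) y := by
  have HW := Wit3W3Inst.hyp3W H₁ hdvr hA hC hπ a hqa hπϖ
  exact ResDeg3Inst.hf3 1 q hq hdvr hπ hC H₁.emb H₁.dvr' H₁.mid.alpha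
    (Wit3Inst.wit 1 q hq hq1 A K hdvr hA hC hπ H₁.W3 HW)

/-- **Residue degree one of `W3` over level one** (`hf3` at `M = 1`) for the middle-cusp
embedding of record: every Gauss reduction along `ι3` of an element of `F_K(q²)` is the Gauss
reduction of an element of `F_K(1)`.  (`O = A ∩ K` a discrete valuation ring with uniformiser
`π = q`, `A` over `q`, `BaseFacts`.) -/
theorem hf3_one (q : ℕ) [NeZero q] (hq : q.Prime) (A : ValuationSubring Qb)
    (K : IntermediateField ℚ Qb) (hA : A.LiesOverPrime q) (hB : BaseFacts q A K)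
    (hdvr : IsDiscreteValuationRing (OK A K))
    (π : OK A K) (hπ : Irreducible π) (hπq : incO A K π = (q : Qb)) {ξ : Qb}
    (hξ : IsPrimitiveRoot ξ q) :
    ∀ (x : FK (1 * q * q) K) (y : LaurentSeries (IsLocalRing.ResidueField A)),
      GRel A (iota1 q hq K ξ hξ.pow_eq_one (hξ.ne_one hq.one_lt) x) y →
      ∃ x' : FK 1 K, GRel A ((x' : FK 1 K) : LaurentSeries Qb) y := by
  have hC := chartFacts_one q hq A K hA hB
  have H₁ := V3.hyp3_iota3 (M := 1) hq hq.not_dvd_one A hdvr π hπ hπq hξ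
  have HW := Wit3W3Inst.hyp3W_iota3 1 q hq hq.not_dvd_one A K hdvr hA hC π hπ hπq hξ
  exact ResDeg3Inst.hf3 1 q hq hdvr hπ hC H₁.emb H₁.dvr' H₁.mid.alpha
    (Wit3Inst.wit 1 q hq hq.not_dvd_one A K hdvr hA hC hπ H₁.W3 HW)

/-- The same with the level-one `ChartFacts` as a hypothesis (no `BaseFacts`). -/
theorem hf3_one' (q : ℕ) [NeZero q] (hq : q.Prime) (A : ValuationSubring Qb)
    (K : IntermediateField ℚ Qb) (hA : A.LiesOverPrime q)
    (hC : ChartFacts 1 A K (chart 1 A K (jK 1 K)) (jK 1 K))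
    (hdvr : IsDiscreteValuationRing (OK A K))
    (π : OK A K) (hπ : Irreducible π) (hπq : incO A K π = (q : Qb)) {ξ : Qb}
    (hξ : IsPrimitiveRoot ξ q) :
    ∀ (x : FK (1 * q * q) K) (y : LaurentSeries (IsLocalRing.ResidueField A)),
      GRel A (iota1 q hq K ξ hξ.pow_eq_one (hξ.ne_one hq.one_lt) x) y →
      ∃ x' : FK 1 K, GRel A ((x' : FK 1 K) : LaurentSeries Qb) y := by
  have H₁ := V3.hyp3_iota3 (M := 1) hq hq.not_dvd_one A hdvr π hπ hπq hξ
  have HW := Wit3W3Inst.hyp3W_iota3 1 q hq hq.not_dvd_one A K hdvr hA hC π hπ hπq hξ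
  exact ResDeg3Inst.hf3 1 q hq hdvr hπ hC H₁.emb H₁.dvr' H₁.mid.alpha
    (Wit3Inst.wit 1 q hq hq.not_dvd_one A K hdvr hA hC hπ H₁.W3 HW)

end Fermat.Agent.S36.CuspHf3
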