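/-
S36, block [N10]/[CUSP-c], piece (c2), B-copy (helper129; A = helper15 `S36/CuspHf3.lean`):
RESIDUE DEGREE ONE OF `W3` OVER LEVEL ONE, and the CLOSED form of `CuspKS.exists_polys`.

Let `H : V3.Hyp3 M q hq hqM A K K' ξ hξ0 em ϖ` be the middle-cusp datum at level `M q²`.
All fields of `H` except `mid` do not mention the level, so the SAME `(K', ξ, ϖ)` with the
embedding of record `Iota3.iota3 1 q K hq hq1 ξ` is a middle-cusp datum at level `1 · q²`
(`hyp3_one`).  For it, the chart witness of level `1 · q²` over the level-one chart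
(`Wit3Inst.wit` at `M := 1`, fed by `Wit3W3Inst.hyp3W`) and `ResDeg3Inst.hf3'` give the
hypothesis `hf3` of helper65's `CuspKS.exists_polys`:

  every Gauss reduction along `em₁` is the Gauss reduction of an element of `F_K(1) = K(j)`

(`hf3_one`).  Hence `CuspKS.exists_polys` WITHOUT `hf3` (`exists_polys_closed`), and its form
over `BaseFacts q A K` (`exists_polys_base`).
-/
import Mathlib
import Fermat.Agent.S34.Red2B
import Fermat.Agent.S36.V3
import Fermat.Agent.S36.Wit3Inst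
import Fermat.Agent.S36.Wit3W3Inst
import Fermat.Agent.S36.ResDeg3Inst
import Fermat.Agent.S36.CuspKS

set_option autoImplicit false

noncomputable section

namespace Fermat.Agent.S36.CuspHf3B

open ModularCurve HahnSeries
open Fermat.Agent.S18.Arith Fermat.Agent.S18.ModelPlan
open Fermat.Agent.S34 Fermat.Agent.S36

set_option synthInstance.maxHeartbeats 400000

variable {M q : ℕ} [NeZero M] [NeZero q] {hq : q.Prime} {hqM : ¬ q ∣ M}
variable {A : ValuationSubring Qb} {K K' : IntermediateField ℚ Qb}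
variable {ξ : Qb} {hξ0 : ξ ≠ 0} {em : FK (M * q * q) K →+* LaurentSeries Qb} {ϖ : OK A K'}

/-- The middle-cusp embedding of record at level `1 · q²`, for the root of unity of `H`. -/
def em1 (H : V3.Hyp3 M q hq hqM A K K' ξ hξ0 em ϖ) (hq1 : ¬ q ∣ 1) :
    FK (1 * q * q) K →+* LaurentSeries Qb :=
  Iota3.iota3 1 q K hq hq1 ξ H.xi_pow H.xi_ne

/-- `em1` is a middle-cusp embedding (same `ξ`). -/
theorem midEmb_em1 (H : V3.Hyp3 M q hq hqM A K K' ξ hξ0 em ϖ) (hq1 : ¬ q ∣ 1) :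
    V3.MidEmb 1 q hq hq1 K ξ hξ0 (em1 H hq1) :=
  V3.midEmb_iota3 1 q hq hq1 K ξ H.xi_pow H.xi_ne

/-- **The middle-cusp datum at level `1 · q²`** with the same `(K', ξ, ϖ)`. -/
theorem hyp3_one (H : V3.Hyp3 M q hq hqM A K K' ξ hξ0 em ϖ) (hq1 : ¬ q ∣ 1) :
    V3.Hyp3 1 q hq hq1 A K K' ξ hξ0 (em1 H hq1) ϖ where
  mid := midEmb_em1 H hq1
  le := H.le
  xi_mem := H.xi_mem
  xi_pow := H.xi_pow
  xi_ne := H.xi_ne
  dvr' := H.dvr'
  irr := H.irr
  coe_unif := H.coe_unif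

/-- **[CUSP-c] (c2): residue degree one of `W3` over level ONE** — the hypothesis `hf3` of
`CuspKS.exists_polys`, for `em₁ := em1 H hq1`. -/
theorem hf3_one (H : V3.Hyp3 M q hq hqM A K K' ξ hξ0 em ϖ) (hq1 : ¬ q ∣ 1)
    (hdvr : IsDiscreteValuationRing (OK A K)) (hA : A.LiesOverPrime q)
    (hC : ChartFacts 1 A K (chart 1 A K (jK 1 K)) (jK 1 K))
    {π : OK A K} (hπ : Irreducible π) (a : A) (hqa : (q : Qb) = incO A K π * (a : Qb))
    (hπϖ : ∃ u : A, IsUnit u ∧ incO A K π = incO A K' ϖ ^ (q - 1) * (u : Qb)) :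
    ∀ (x : FK (1 * q * q) K) (y : LaurentSeries (IsLocalRing.ResidueField A)),
      GRel A (em1 H hq1 x) y → ∃ x' : FK 1 K, GRel A ((x' : FK 1 K) : LaurentSeries Qb) y := by
  have H₁ := hyp3_one H hq1
  have hW : Wit3Inst.Hyp3W 1 q hq hq1 A K π H₁.W3 :=
    Wit3W3Inst.hyp3W H₁ hdvr hA hC hπ a hqa hπϖ
  have W := Wit3Inst.wit 1 q hq hq1 A K hdvr hA hC hπ H₁.W3 hW
  exact ResDeg3Inst.hf3' 1 q hq hdvr hπ hC (midEmb_em1 H hq1).alpha (fun _ => Iff.rfl) W

/-- **[CUSP-c] CLOSED: "(KS) at the middle cusps" without `hf3`.**  With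
`u = (j_{q²}/j - 1)^(q-1) / π`: `u ∈ W3ˣ`, and `u · b(1/j) - a(1/j) ∈ s · W3` for polynomials
`a, b ∈ O[X]` with unit constant coefficients.  Only input besides `H`: `ChartFacts` of the
level-ONE chart. -/
theorem exists_polys_closed [Fact q.Prime] (H : V3.Hyp3 M q hq hqM A K K' ξ hξ0 em ϖ)
    (hA : A.LiesOverPrime q) (hdvr : IsDiscreteValuationRing (OK A K))
    (hC : ChartFacts 1 A K (chart 1 A K (jK 1 K)) (jK 1 K))
    {π : OK A K} (hπ : Irreducible π) (a : A) (hqa : (q : Qb) = incO A K π * (a : Qb))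
    (hπϖ : ∃ u : A, IsUnit u ∧ incO A K π = incO A K' ϖ ^ (q - 1) * (u : Qb)) :
    CuspKS.uK M q hq hqM K A π ∈ H.W3 ∧ (CuspKS.uK M q hq hqM K A π)⁻¹ ∈ H.W3 ∧
    ∃ a b : Polynomial (OK A K), IsUnit (a.coeff 0) ∧ IsUnit (b.coeff 0) ∧
      ∃ z ∈ H.W3, CuspKS.uK M q hq hqM K A π * Polynomial.aeval (jK (M * q * q) K)⁻¹ b
          - Polynomial.aeval (jK (M * q * q) K)⁻¹ a = Wit3.sE M q hq hqM K * z :=
  CuspKS.exists_polys H hA hdvr π hπϖ hq.not_dvd_one (em1 H hq.not_dvd_one)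
    (midEmb_em1 H hq.not_dvd_one) (hf3_one H hq.not_dvd_one hdvr hA hC hπ a hqa hπϖ)

/-- The same over `BaseFacts q A K` (`ChartFacts` of level one from `S34.Red2B.chartFacts`). -/
theorem exists_polys_base [Fact q.Prime] (H : V3.Hyp3 M q hq hqM A K K' ξ hξ0 em ϖ)
    (hA : A.LiesOverPrime q) (hB : BaseFacts q A K)
    {π : OK A K} (hπ : Irreducible π) (a : A) (hqa : (q : Qb) = incO A K π * (a : Qb))
    (hπϖ : ∃ u : A, IsUnit u ∧ incO A K π = incO A K' ϖ ^ (q - 1) * (u : Qb)) :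
    CuspKS.uK M q hq hqM K A π ∈ H.W3 ∧ (CuspKS.uK M q hq hqM K A π)⁻¹ ∈ H.W3 ∧
    ∃ a b : Polynomial (OK A K), IsUnit (a.coeff 0) ∧ IsUnit (b.coeff 0) ∧
      ∃ z ∈ H.W3, CuspKS.uK M q hq hqM K A π * Polynomial.aeval (jK (M * q * q) K)⁻¹ b
          - Polynomial.aeval (jK (M * q * q) K)⁻¹ a = Wit3.sE M q hq hqM K * z :=
  exists_polys_closed H hA hB.dvr
    (Red2B.chartFacts 1 q hq hq.not_dvd_one A K hA hB) hπ a hqa hπϖ

end Fermat.Agent.S36.CuspHf3B
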