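/-
S36, package [B1-nak] / [N10] (cusps), leaf [CUSP-hor] (helper47; dealt by helper56).

Valuation rings at the cusps.  Let `W` be a valuation subring of `F_K(M q²)` containing the
constants `K` and NOT containing `j` (e.g. the local ring of a cuspidal horizontal prime of a
chart).  Then the four monomials

  `j_q / j^q`,  `j / j_q^q`,  `j_{q²} / j_q^q`,  `j_q / j_{q²}^q`

lie in `W`, and `j_q`, `j_{q²}` do not.  (`j_q = j(Q^q)`, `j_{q²} = j(Q^{q²})`.)

Route (no modular polynomial, no place theory at the cusps of level `M q²`):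

* `F_K(1) = K(j)` (`DegFK.finrank_jK` at level one), hence every `c ∈ F_K(1)` whose
  `Q`-expansion has no negative part lies in every valuation ring of `F_K(1)` over `K` not
  containing `j` (`mem_of_hol`);
* all `q + 1` conjugates (`S34.ConjMod.fam` at `M = 1`) of `j_q / j^q` and `j / j_q^q` have no
  negative part, so both are integral over such a ring (`S34.ConjInt.isIntegral_of_conj_mem`),
  hence lie in every valuation ring of `F_K(q)` over `K` not containing `j` (`level_q`);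
* transport to level `M q²` along the inclusion and along `β` (`cusp_hor`).
-/
import Mathlib
import Fermat.Agent.S34.ConjMod
import Fermat.Agent.S34.ConjInt
import Fermat.Agent.S34.DegTower
import Fermat.Agent.S34.WK
import Fermat.Agent.S36.WQ2
import Fermat.Agent.S36.NakUnram
import Fermat.Agent.S28.HeckeOrdersB

set_option autoImplicit false

noncomputable section

namespace Fermat.Agent.S36.CuspHor

open ModularCurve AlgebraicCurve Polynomial IntermediateField
open Fermat.Agent.S18 Fermat.Agent.S18.Arith Fermat.Agent.S24 Fermat.Agent.S34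
open Fermat.Agent.S34.ConjInt

/-! ### Laurent series without negative part -/

section Hol

variable {k : Type*} [Field k]

/-- `z` has no terms of negative degree. -/
def Hol (z : LaurentSeries k) : Prop := ∀ n : ℤ, n < 0 → z.coeff n = 0

theorem hol_of_order_nonneg {z : LaurentSeries k} (h : 0 ≤ z.order) : Hol z :=
  fun _ hn => HahnSeries.coeff_eq_zero_of_lt_order (lt_of_lt_of_le hn h)

theorem val_le_one_iff_hol (z : LaurentSeries k) : (Valued.v z : WithZero (Multiplicative ℤ)) ≤ 1 ↔ Hol z := by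
  have h := LaurentSeries.valuation_le_iff_coeff_lt_eq_zero k (D := 0) (f := z)
  rw [neg_zero, WithZero.exp_zero] at h
  exact h

theorem hol_qExpand (q : ℕ) [NeZero q] {z : LaurentSeries k} (h : Hol z) :
    Hol (qExpand k q z) := by
  intro n hn
  by_cases hd : (q : ℤ) ∣ n
  · obtain ⟨m, rfl⟩ := hd
    rw [qExpand_coeff_mul]
    apply h
    have hq : (0 : ℤ) < q := by exact_mod_cast Nat.pos_of_ne_zero (NeZero.ne q)
    by_contra hm
    push Not at hm
    nlinarith
  · exact qExpand_coeff_of_not_dvd q z hd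

theorem hol_of_qExpand (q : ℕ) [NeZero q] {z : LaurentSeries k} (h : Hol (qExpand k q z)) :
    Hol z := by
  intro n hn
  rw [← qExpand_coeff_mul (N := q)]
  apply h
  have hq : (0 : ℤ) < q := by exact_mod_cast Nat.pos_of_ne_zero (NeZero.ne q)
  nlinarith

theorem hol_rot (ζ : k) (hζ : ζ ≠ 0) {z : LaurentSeries k} (h : Hol z) :
    Hol (rotHom ζ hζ z) := by
  intro n hn
  rw [rotHom_coeff, h n hn, mul_zero]

/-- The order of a quotient. -/
theorem order_div {x y : LaurentSeries k} (hx : x ≠ 0) (hy : y ≠ 0) :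
    (x / y).order = x.order - y.order := by
  have h1 : x / y ≠ 0 := div_ne_zero hx hy
  have h2 := HahnSeries.order_mul h1 hy
  rw [div_mul_cancel₀ x hy] at h2
  omega

end Hol

/-! ### The series `j(Q)` and `j(Q^q)` -/

section Series

theorem J_eq : coeffEmb Qb jq = S28.jd Qb 1 :=
  S18.ModelBasicCore.coe_jK 1 (⊥ : IntermediateField ℚ Qb)

theorem J_ne_zero : coeffEmb Qb jq ≠ 0 := by
  rw [J_eq]
  exact S28.OrdersB.jd_one_ne_zero' Qb

theorem order_J : (coeffEmb Qb jq).order = -1 := by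
  rw [J_eq]
  exact S28.OrdersB.order_jd_one' Qb

variable (q : ℕ) [NeZero q]

theorem Jq_ne_zero : qExpand Qb q (coeffEmb Qb jq) ≠ 0 := fun h =>
  J_ne_zero (qExpand_injective q (by rw [h, map_zero]))

theorem order_Jq : (qExpand Qb q (coeffEmb Qb jq)).order = -(q : ℤ) := by
  rw [S28.OrdersB.order_qExpand Qb q J_ne_zero, order_J]
  ring

/-- `j(Q^q) / j(Q)^q` has no negative part (it has order `0`). -/
theorem hol_Jq_div : Hol (qExpand Qb q (coeffEmb Qb jq) / coeffEmb Qb jq ^ q) := by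
  apply hol_of_order_nonneg
  rw [order_div (Jq_ne_zero q) (pow_ne_zero q J_ne_zero), order_Jq, HahnSeries.order_pow,
    order_J, nsmul_eq_mul]
  simp

/-- `j(Q) / j(Q^q)^q` has no negative part (it has order `q² - 1`). -/
theorem hol_J_div : Hol (coeffEmb Qb jq / qExpand Qb q (coeffEmb Qb jq) ^ q) := by
  apply hol_of_order_nonneg
  rw [order_div J_ne_zero (pow_ne_zero q (Jq_ne_zero q)), order_J, HahnSeries.order_pow,
    order_Jq, nsmul_eq_mul]
  have hq : (1 : ℤ) ≤ q := by exact_mod_cast Nat.pos_of_ne_zero (NeZero.ne q)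
  nlinarith

end Series

/-! ### Valuations of a rational function field trivial on the constants -/

section RatVal

theorem eq_one_of_mul_eq_one {Γ : Type*} [LinearOrderedCommGroupWithZero Γ] {x y : Γ}
    (hx : x ≤ 1) (hy : y ≤ 1) (h : x * y = 1) : x = 1 := by
  refine le_antisymm hx ?_
  calc (1 : Γ) = x * y := h.symm
    _ ≤ x * 1 := mul_le_mul' le_rfl hy
    _ = x := mul_one x

/-- Two valuations of `F = K(t)`, both trivial on `K` and with `t` a pole: the valuation ring of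
the first is contained in the valuation ring of the second. -/
theorem val_le_one_of_val_le_one {K F : Type*} [Field K] [Field F] [Algebra K F]
    {Γ Γ' : Type*} [LinearOrderedCommGroupWithZero Γ] [LinearOrderedCommGroupWithZero Γ']
    (u : Valuation F Γ) (w : Valuation F Γ') [u.IsTrivialOn K] [w.IsTrivialOn K]
    (t : F) (ht : K⟮t⟯ = ⊤) (hu : 1 < u t) (hw : 1 < w t) (c : F) (hc : u c ≤ 1) :
    w c ≤ 1 := by
  have hmem : c ∈ K⟮t⟯ := by rw [ht]; trivial
  obtain ⟨r, s, rfl⟩ := (IntermediateField.mem_adjoin_simple_iff K c).mp hmem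
  by_cases hr : r = 0
  · simp [hr]
  by_cases hs : s = 0
  · simp [hs]
  rw [map_div₀, valuation_aeval_eq_valuation_X_pow_natDegree_of_one_lt_valuation_X t hu hr,
    valuation_aeval_eq_valuation_X_pow_natDegree_of_one_lt_valuation_X t hu hs] at hc
  rw [map_div₀, valuation_aeval_eq_valuation_X_pow_natDegree_of_one_lt_valuation_X t hw hr,
    valuation_aeval_eq_valuation_X_pow_natDegree_of_one_lt_valuation_X t hw hs]
  have hdeg : r.natDegree ≤ s.natDegree := by
    by_contra h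
    push Not at h
    have h1 : u t ^ s.natDegree < u t ^ r.natDegree := pow_lt_pow_right₀ hu h
    have hpos : 0 < u t ^ s.natDegree := pow_pos (zero_lt_one.trans hu) _
    rw [div_le_one₀ hpos] at hc
    exact absurd hc (not_le.mpr h1)
  have hpos : 0 < w t ^ s.natDegree := pow_pos (zero_lt_one.trans hw) _
  rw [div_le_one₀ hpos]
  exact pow_le_pow_right₀ hw.le hdeg

end RatVal

/-! ### Level one -/

section LevelOne

variable (K : IntermediateField ℚ Qb)

/-- `F_K(1) = K(j)`. -/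
theorem adjoin_jK_one : K⟮jK 1 K⟯ = ⊤ := by
  rw [← IntermediateField.finrank_eq_one_iff_eq_top, DegFK.finrank_jK, dedekindPsi_one]

/-- The valuation of `F_K(1)` given by the `Q`-expansion. -/
def uVal : Valuation (FK 1 K) (WithZero (Multiplicative ℤ)) :=
  (Valued.v : Valuation (LaurentSeries Qb) (WithZero (Multiplicative ℤ))).comap (FK 1 K).subtype

theorem uVal_apply (c : FK 1 K) :
    uVal K c = (Valued.v : Valuation (LaurentSeries Qb) (WithZero (Multiplicative ℤ)))
      (c : LaurentSeries Qb) := rfl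

theorem hol_C (a : Qb) : Hol (HahnSeries.C a : LaurentSeries Qb) := by
  intro n hn
  rw [HahnSeries.C_apply, HahnSeries.coeff_single_of_ne hn.ne]

theorem val_C {a : Qb} (ha : a ≠ 0) :
    (Valued.v : Valuation (LaurentSeries Qb) (WithZero (Multiplicative ℤ)))
      (HahnSeries.C a : LaurentSeries Qb) = 1 := by
  refine eq_one_of_mul_eq_one ((val_le_one_iff_hol _).mpr (hol_C a))
    ((val_le_one_iff_hol _).mpr (hol_C a⁻¹)) ?_
  rw [← map_mul, ← map_mul, mul_inv_cancel₀ ha, map_one, map_one]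

instance uVal_isTrivialOn : (uVal K).IsTrivialOn K where
  eq_one a ha := by
    rw [uVal_apply]
    exact val_C (a := (a : Qb)) (fun h => ha (Subtype.ext h))

theorem one_lt_uVal_jK : 1 < uVal K (jK 1 K) := by
  rw [uVal_apply, DegTower.coe_jK]
  refine lt_of_not_ge fun h => ?_
  have h1 := (val_le_one_iff_hol _).mp h (-1) (by norm_num)
  rw [Fermat.Agent.S37.W.coeff_coeffEmb_jq_neg_one] at h1
  exact one_ne_zero h1

/-- **Level one.**  A valuation ring of `F_K(1)` containing `K` and not containing `j` contains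
every element whose `Q`-expansion has no negative part. -/
theorem mem_of_hol (W : ValuationSubring (FK 1 K))
    (hK : ∀ c : K, algebraMap K (FK 1 K) c ∈ W) (hj : jK 1 K ∉ W) (c : FK 1 K)
    (hc : Hol (c : LaurentSeries Qb)) : c ∈ W := by
  haveI : W.valuation.IsTrivialOn K := ⟨fun a ha => by
    refine eq_one_of_mul_eq_one ((W.valuation_le_one_iff _).mpr (hK a))
      ((W.valuation_le_one_iff _).mpr (hK a⁻¹)) ?_
    rw [← map_mul, ← map_mul, mul_inv_cancel₀ ha, map_one, map_one]⟩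
  have hw : 1 < W.valuation (jK 1 K) :=
    lt_of_not_ge fun h => hj ((W.valuation_le_one_iff _).mp h)
  have hu : uVal K c ≤ 1 := (val_le_one_iff_hol _).mpr hc
  exact (W.valuation_le_one_iff _).mp
    (val_le_one_of_val_le_one (uVal K) W.valuation (jK 1 K) (adjoin_jK_one K)
      (one_lt_uVal_jK K) hw c hu)

end LevelOne

/-! ### Level `q` -/

section LevelQ

/-- The subring of Laurent series without negative part. -/
def holRing : Subring (LaurentSeries Qb) :=
  (Valued.v : Valuation (LaurentSeries Qb) (WithZero (Multiplicative ℤ))).integer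

theorem mem_holRing {z : LaurentSeries Qb} : z ∈ holRing ↔ Hol z :=
  val_le_one_iff_hol z

/-- An element of a field integral over a subring mapping into a valuation ring lies in the
valuation ring. -/
theorem mem_of_isIntegral_comap {F L : Type*} [Field F] [Field L] [Algebra F L]
    (W : ValuationSubring L) (S : Subring F) (hS : ∀ c ∈ S, algebraMap F L c ∈ W) {x : L}
    (hx : IsIntegral S x) : x ∈ W := by
  obtain ⟨p, hp, hpx⟩ := hx
  let h : S →+* W := ((algebraMap F L).comp S.subtype).codRestrict W.toSubring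
    (fun c => hS c c.2)
  have hint : IsIntegral W x := by
    refine ⟨p.map h, hp.map h, ?_⟩
    rw [eval₂_map]
    exact hpx
  obtain ⟨y, hy⟩ := IsIntegrallyClosed.isIntegral_iff.mp hint
  rw [← hy]
  exact y.2

variable (q : ℕ) [NeZero q] (hq : q.Prime) (K : IntermediateField ℚ Qb)

include hq in
/-- `j_q / j^q` and `j / j_q^q` (level `q`) are integral over every subring of `F_K(1)` containing
the elements without negative part. -/
theorem isIntegral_level_q (S : Subring (FK 1 K))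
    (hS : ∀ c : FK 1 K, Hol (c : LaurentSeries Qb) → c ∈ S) :
    letI := DegTower.algTower 1 (1 * q) K (Dvd.intro q rfl)
    IsIntegral S (ConjMod.jqK 1 q K / jK (1 * q) K ^ q) ∧
      IsIntegral S (jK (1 * q) K / ConjMod.jqK 1 q K ^ q) := by
  letI := DegTower.algTower 1 (1 * q) K (Dvd.intro q rfl)
  haveI := DegTower.finiteDimensional 1 (1 * q) K (Dvd.intro q rfl)
  haveI := ConjMod.charZero_FK K 1
  haveI : Algebra.IsSeparable ↥(FK 1 K) ↥(FK (1 * q) K) :=
    Algebra.IsAlgebraic.isSeparable_of_perfectField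
  have hq1 : ¬ q ∣ 1 := fun h => hq.one_lt.ne' (Nat.dvd_one.mp h)
  obtain ⟨ζ, hζ⟩ := HasEnoughRootsOfUnity.exists_primitiveRoot Qb q
  have hz : ∀ i : ℕ, ζ ^ i ≠ 0 := fun i => pow_ne_zero i (hζ.ne_zero (NeZero.ne q))
  have hwα : ∀ x, (WK.wBar 1 q hq hq1 : ↥(modularFunctionFieldBar (1 * q)) →ₐ[Qb]
      ↥(modularFunctionFieldBar (1 * q))) (heckeAlphaBar Qb 1 q x) = heckeBetaBar Qb 1 q x :=
    fun x => WK.wBar_alpha 1 q hq hq1 x
  have hwβ : ∀ x, (WK.wBar 1 q hq hq1 : ↥(modularFunctionFieldBar (1 * q)) →ₐ[Qb]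
      ↥(modularFunctionFieldBar (1 * q))) (heckeBetaBar Qb 1 q x) = heckeAlphaBar Qb 1 q x :=
    fun x => WK.wBar_beta 1 q hq hq1 x
  set w : ↥(modularFunctionFieldBar (1 * q)) →ₐ[Qb] ↥(modularFunctionFieldBar (1 * q)) :=
    (WK.wBar 1 q hq hq1 : ↥(modularFunctionFieldBar (1 * q)) →ₐ[Qb]
      ↥(modularFunctionFieldBar (1 * q))) with hw
  have hf := fun o y => ConjMod.fam_incl 1 q K w hwα ζ hζ.pow_eq_one hz o y
  have hinj := ConjMod.fam_injective 1 q K w hwβ hq ζ hζ hz
  have hcard := ConjMod.card_eq_finrank 1 q hq hq1 K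
  have hS' : ∀ a : ↥(FK 1 K), ConjMod.iota0 1 q K a ∈ holRing → a ∈ S := fun a ha =>
    hS a (hol_of_qExpand q (mem_holRing.mp ha))
  have hjw : ConjMod.wExp 1 q K w (jK (1 * q) K) = qExpand Qb q (coeffEmb Qb jq) := by
    rw [← DegTower.incl_jK 1 (1 * q) K (Dvd.intro q rfl), ConjMod.wExp_incl 1 q K w hwα,
      DegTower.coe_jK]
  have hjqw : ConjMod.wExp 1 q K w (ConjMod.jqK 1 q K) = coeffEmb Qb jq :=
    ConjMod.wExp_jqK 1 q K w hwβ
  have hjc : ((jK (1 * q) K : ↥(FK (1 * q) K)) : LaurentSeries Qb) = coeffEmb Qb jq :=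
    DegTower.coe_jK (1 * q) K
  have hjqc := ConjMod.coe_jqK 1 q K
  constructor
  · refine isIntegral_of_conj_mem (ConjMod.iota0 1 q K) (ConjMod.fam 1 q K w ζ hz) hf hinj hcard
      _ holRing ?_ S hS'
    intro o
    rw [mem_holRing, map_div₀, map_pow]
    cases o with
    | none =>
      rw [ConjMod.fam_none, ConjMod.fam_none, hjc, hjqc, ← map_pow, ← map_div₀]
      exact hol_qExpand q (hol_Jq_div q)
    | some i =>
      rw [ConjMod.fam_some, ConjMod.fam_some, hjw, hjqw, ← map_pow, ← map_div₀]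
      exact hol_rot _ _ (hol_J_div q)
  · refine isIntegral_of_conj_mem (ConjMod.iota0 1 q K) (ConjMod.fam 1 q K w ζ hz) hf hinj hcard
      _ holRing ?_ S hS'
    intro o
    rw [mem_holRing, map_div₀, map_pow]
    cases o with
    | none =>
      rw [ConjMod.fam_none, ConjMod.fam_none, hjc, hjqc, ← map_pow, ← map_div₀]
      exact hol_qExpand q (hol_J_div q)
    | some i =>
      rw [ConjMod.fam_some, ConjMod.fam_some, hjw, hjqw, ← map_pow, ← map_div₀]
      exact hol_rot _ _ (hol_Jq_div q)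

include hq in
/-- **Level `q`.**  A valuation ring of `F_K(q)` containing `K` and not containing `j` contains
`j_q / j^q` and `j / j_q^q`. -/
theorem level_q (W : ValuationSubring ↥(FK (1 * q) K))
    (hK : ∀ c : K, algebraMap K ↥(FK (1 * q) K) c ∈ W) (hj : jK (1 * q) K ∉ W) :
    ConjMod.jqK 1 q K / jK (1 * q) K ^ q ∈ W ∧ jK (1 * q) K / ConjMod.jqK 1 q K ^ q ∈ W := by
  letI := DegTower.algTower 1 (1 * q) K (Dvd.intro q rfl)
  have hK1 : ∀ a : K, algebraMap K ↥(FK 1 K) a
      ∈ W.comap (DegTower.incl 1 (1 * q) K (Dvd.intro q rfl)) := by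
    intro a
    rw [ValuationSubring.mem_comap, DegFK.algebraMap_eq_constK, DegTower.incl_constK,
      ← DegFK.algebraMap_eq_constK]
    exact hK a
  have hj1 : jK 1 K ∉ W.comap (DegTower.incl 1 (1 * q) K (Dvd.intro q rfl)) := by
    rw [ValuationSubring.mem_comap, DegTower.incl_jK]
    exact hj
  have hW₁ : ∀ c : ↥(FK 1 K), Hol (c : LaurentSeries Qb) →
      c ∈ (W.comap (DegTower.incl 1 (1 * q) K (Dvd.intro q rfl))).toSubring := fun c hc =>
    mem_of_hol K _ hK1 hj1 c hc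
  obtain ⟨h1, h2⟩ := isIntegral_level_q q hq K _ hW₁
  have hS : ∀ c ∈ (W.comap (DegTower.incl 1 (1 * q) K (Dvd.intro q rfl))).toSubring,
      algebraMap ↥(FK 1 K) ↥(FK (1 * q) K) c ∈ W := by
    intro c hc
    rw [DegTower.algebraMap_algTower 1 (1 * q) K (Dvd.intro q rfl) c]
    exact ValuationSubring.mem_comap.mp hc
  exact ⟨mem_of_isIntegral_comap W _ hS h1, mem_of_isIntegral_comap W _ hS h2⟩

end LevelQ

/-! ### Transport to level `M q²` -/

section LevelN

variable (q : ℕ) [NeZero q] (hq : q.Prime) (K : IntermediateField ℚ Qb)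

theorem jqK_one_ne_zero : ConjMod.jqK 1 q K ≠ 0 := by
  intro h
  have h1 := ConjMod.coe_jqK 1 q K
  rw [h] at h1
  exact Jq_ne_zero q h1.symm

include hq in
/-- Transport of `level_q` along a ring hom `φ : F_K(q) → F_K(N)` fixing the constants. -/
theorem transport (N : ℕ) [NeZero N] (φ : ↥(FK (1 * q) K) →+* ↥(FK N K))
    (hφ : ∀ c : K, φ (constK (1 * q) K c) = constK N K c)
    (W : ValuationSubring ↥(FK N K)) (hK : ∀ c : K, algebraMap K ↥(FK N K) c ∈ W)
    (hj : φ (jK (1 * q) K) ∉ W) :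
    φ (ConjMod.jqK 1 q K) / φ (jK (1 * q) K) ^ q ∈ W ∧
      φ (jK (1 * q) K) / φ (ConjMod.jqK 1 q K) ^ q ∈ W ∧ φ (ConjMod.jqK 1 q K) ∉ W := by
  have hK' : ∀ c : K, algebraMap K ↥(FK (1 * q) K) c ∈ W.comap φ := by
    intro c
    rw [ValuationSubring.mem_comap, DegFK.algebraMap_eq_constK, hφ, ← DegFK.algebraMap_eq_constK]
    exact hK c
  have hj' : jK (1 * q) K ∉ W.comap φ := by
    rw [ValuationSubring.mem_comap]
    exact hj
  obtain ⟨h1, h2⟩ := level_q q hq K (W.comap φ) hK' hj'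
  rw [ValuationSubring.mem_comap, map_div₀, map_pow] at h1 h2
  refine ⟨h1, h2, fun h3 => hj ?_⟩
  have h0 : φ (ConjMod.jqK 1 q K) ^ q ≠ 0 :=
    pow_ne_zero q ((map_ne_zero φ).mpr (jqK_one_ne_zero q K))
  have h4 := W.mul_mem _ _ h2 (pow_mem h3 q)
  rwa [div_mul_cancel₀ _ h0] at h4

variable (M : ℕ) [NeZero M] (hqM : ¬ q ∣ M)

theorem coe_jqK2_eq :
    ((WQ2.jqK2 M q hq hqM K : ↥(FK (M * q * q) K)) : LaurentSeries Qb)
      = qExpand Qb q (coeffEmb Qb jq) := by
  rw [WQ2.coe_jqK2, S28.jd_eq, ← S28.jd_one, ← J_eq]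

theorem coe_jqqK2_eq :
    ((WQ2.jqqK2 M q hq hqM K : ↥(FK (M * q * q) K)) : LaurentSeries Qb)
      = qExpand Qb q (qExpand Qb q (coeffEmb Qb jq)) := by
  rw [WQ2.coe_jqqK2, J_eq, S28.qExpand_jd, mul_one, S28.qExpand_jd]

include hq hqM in
/-- **[CUSP-hor].**  A valuation ring `W` of `F_K(M q²)` containing the constants `K` and not
containing `j` contains `j_q / j^q`, `j / j_q^q`, `j_{q²} / j_q^q`, `j_q / j_{q²}^q`, and contains
neither `j_q` nor `j_{q²}`. -/
theorem cusp_hor (W : ValuationSubring ↥(FK (M * q * q) K))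
    (hK : ∀ c : K, algebraMap K ↥(FK (M * q * q) K) c ∈ W) (hj : jK (M * q * q) K ∉ W) :
    WQ2.jqK2 M q hq hqM K / jK (M * q * q) K ^ q ∈ W ∧
    jK (M * q * q) K / WQ2.jqK2 M q hq hqM K ^ q ∈ W ∧
    WQ2.jqqK2 M q hq hqM K / WQ2.jqK2 M q hq hqM K ^ q ∈ W ∧
    WQ2.jqK2 M q hq hqM K / WQ2.jqqK2 M q hq hqM K ^ q ∈ W ∧
    WQ2.jqK2 M q hq hqM K ∉ W ∧ WQ2.jqqK2 M q hq hqM K ∉ W := by
  have hdA : 1 * q ∣ M * q * q := ⟨M * q, by ring⟩
  have hdB : 1 * q ∣ M * q := ⟨M, by ring⟩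
  -- along the inclusion
  have hAj : DegTower.incl (1 * q) (M * q * q) K hdA (jK (1 * q) K) = jK (M * q * q) K :=
    DegTower.incl_jK (1 * q) (M * q * q) K hdA
  have hAjq : DegTower.incl (1 * q) (M * q * q) K hdA (ConjMod.jqK 1 q K)
      = WQ2.jqK2 M q hq hqM K := by
    apply Subtype.ext
    rw [DegTower.coe_incl, ConjMod.coe_jqK, coe_jqK2_eq]
  obtain ⟨a1, a2, a3⟩ := transport q hq K (M * q * q) (DegTower.incl (1 * q) (M * q * q) K hdA)
    (fun c => DegTower.incl_constK (1 * q) (M * q * q) K hdA c) W hK (by rw [hAj]; exact hj)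
  rw [hAj, hAjq] at a1 a2
  rw [hAjq] at a3
  -- along `β`
  have hBc : ∀ c : K, ((WQ2.betaK2 M q hq hqM K).comp (DegTower.incl (1 * q) (M * q) K hdB))
      (constK (1 * q) K c) = constK (M * q * q) K c := by
    intro c
    rw [RingHom.comp_apply, DegTower.incl_constK, WQ2.betaK2_constK]
  have hBj : ((WQ2.betaK2 M q hq hqM K).comp (DegTower.incl (1 * q) (M * q) K hdB))
      (jK (1 * q) K) = WQ2.jqK2 M q hq hqM K := by
    rw [RingHom.comp_apply, DegTower.incl_jK, WQ2.betaK2_jK]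
  have hBjq : ((WQ2.betaK2 M q hq hqM K).comp (DegTower.incl (1 * q) (M * q) K hdB))
      (ConjMod.jqK 1 q K) = WQ2.jqqK2 M q hq hqM K := by
    apply Subtype.ext
    rw [RingHom.comp_apply, WQ2.coe_betaK2, DegTower.coe_incl, ConjMod.coe_jqK, coe_jqqK2_eq]
  obtain ⟨b1, b2, b3⟩ := transport q hq K (M * q * q)
    ((WQ2.betaK2 M q hq hqM K).comp (DegTower.incl (1 * q) (M * q) K hdB)) hBc W hK
    (by rw [hBj]; exact a3)
  rw [hBj, hBjq] at b1 b2
  rw [hBjq] at b3
  exact ⟨a1, a2, b1, b2, a3, b3⟩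

/-- A valuation ring contains every element one of whose positive powers it contains. -/
theorem mem_of_pow_mem {L : Type*} [Field L] (W : ValuationSubring L) {x : L} {n : ℕ}
    (hn : n ≠ 0) (h : x ^ n ∈ W) : x ∈ W := by
  rw [← W.valuation_le_one_iff] at h ⊢
  rw [map_pow] at h
  exact (pow_le_one_iff hn).mp h

include hq hqM in
/-- The monomials used at the cusps: with `W` as in `cusp_hor`,
`m₁ = j_{q²} / j^(q²)`, `m₂ = j / j_{q²}^(q²)`, `μ₀ = j_q / j^q` and
`μ₁ = j_q / (j^(q-1) j_{q²})` lie in `W`. -/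
theorem cusp_hor_monomials (W : ValuationSubring ↥(FK (M * q * q) K))
    (hK : ∀ c : K, algebraMap K ↥(FK (M * q * q) K) c ∈ W) (hj : jK (M * q * q) K ∉ W) :
    WQ2.jqqK2 M q hq hqM K / jK (M * q * q) K ^ (q * q) ∈ W ∧
    jK (M * q * q) K / WQ2.jqqK2 M q hq hqM K ^ (q * q) ∈ W ∧
    WQ2.jqK2 M q hq hqM K / jK (M * q * q) K ^ q ∈ W ∧
    WQ2.jqK2 M q hq hqM K / (jK (M * q * q) K ^ (q - 1) * WQ2.jqqK2 M q hq hqM K) ∈ W := by
  obtain ⟨h1, h2, h3, h4, h5, h6⟩ := cusp_hor q hq K M hqM W hK hj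
  have hj0 : jK (M * q * q) K ≠ 0 := fun h => hj (h ▸ W.zero_mem)
  have hjq0 : WQ2.jqK2 M q hq hqM K ≠ 0 := fun h => h5 (h ▸ W.zero_mem)
  have hjqq0 : WQ2.jqqK2 M q hq hqM K ≠ 0 := fun h => h6 (h ▸ W.zero_mem)
  refine ⟨?_, ?_, h1, ?_⟩
  · have e : WQ2.jqqK2 M q hq hqM K / jK (M * q * q) K ^ (q * q)
        = WQ2.jqqK2 M q hq hqM K / WQ2.jqK2 M q hq hqM K ^ q
          * (WQ2.jqK2 M q hq hqM K / jK (M * q * q) K ^ q) ^ q := by
      rw [div_pow, ← pow_mul]
      field_simp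
    rw [e]
    exact W.mul_mem _ _ h3 (pow_mem h1 q)
  · have e : jK (M * q * q) K / WQ2.jqqK2 M q hq hqM K ^ (q * q)
        = jK (M * q * q) K / WQ2.jqK2 M q hq hqM K ^ q
          * (WQ2.jqK2 M q hq hqM K / WQ2.jqqK2 M q hq hqM K ^ q) ^ q := by
      rw [div_pow, ← pow_mul]
      field_simp
    rw [e]
    exact W.mul_mem _ _ h2 (pow_mem h4 q)
  · apply mem_of_pow_mem W hq.ne_zero
    have hq1 : q - 1 + 1 = q := Nat.sub_add_cancel hq.one_lt.le
    have e : (WQ2.jqK2 M q hq hqM K / (jK (M * q * q) K ^ (q - 1) * WQ2.jqqK2 M q hq hqM K)) ^ q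
        = WQ2.jqK2 M q hq hqM K / WQ2.jqqK2 M q hq hqM K ^ q
          * (WQ2.jqK2 M q hq hqM K / jK (M * q * q) K ^ q) ^ (q - 1) := by
      have e1 : WQ2.jqK2 M q hq hqM K ^ q
          = WQ2.jqK2 M q hq hqM K * WQ2.jqK2 M q hq hqM K ^ (q - 1) := by
        rw [← pow_succ', hq1]
      rw [div_pow, div_pow, mul_pow, ← pow_mul, ← pow_mul, mul_comm (q - 1) q, e1]
      field_simp
    rw [e]
    exact W.mul_mem _ _ h4 (pow_mem h1 (q - 1))

end LevelN

/-! ### Consumer form: cuspidal horizontal primes of a chart -/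

section Consumer

open Fermat.Agent.S34.LocPlan

/-- If `x ∈ 𝔮` and `x j = 1`, then `j` is not regular at `𝔮`. -/
theorem not_regAt_of_inv_mem {R E : Type*} [CommRing R] [Field E] [Algebra R E]
    (hinj : Function.Injective (algebraMap R E)) (𝔮 : Ideal R) {x : R} (hx : x ∈ 𝔮) {j : E}
    (hxj : algebraMap R E x * j = 1) : ¬ RegAt 𝔮 j := by
  rintro ⟨a, s, hs, h⟩
  apply hs
  have h1 : algebraMap R E s = algebraMap R E (x * a) := by
    rw [map_mul, ← h, ← mul_assoc, hxj, one_mul]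
  rw [hinj h1]
  exact 𝔮.mul_mem_right a hx

variable (M q : ℕ) [NeZero M] [NeZero q] (hq : q.Prime) (hqM : ¬ q ∣ M)
  (A : ValuationSubring Qb) (K : IntermediateField ℚ Qb)

include hq hqM in
/-- **[CUSP-hor], chart form.**  `R` a chart of level `M q²` (noetherian, fraction field
`F_K(M q²)`), `𝔮` a horizontal prime of `R` with `PrincAt 𝔮` at which `j` is NOT regular (a
cuspidal horizontal prime).  Then the cusp monomials are regular at `𝔮`. -/
theorem regAt_cusp (hdvr : IsDiscreteValuationRing (OK A K))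
    (R : Subalgebra (OK A K) ↥(FK (M * q * q) K)) [IsNoetherianRing R]
    [IsFractionRing R ↥(FK (M * q * q) K)] (𝔮 : Ideal R) [h𝔮 : 𝔮.IsPrime]
    (hhor : ∀ c : OK A K, algebraMap (OK A K) R c ∈ 𝔮 → c = 0) (hprinc : PrincAt 𝔮)
    (hj : ¬ RegAt 𝔮 (jK (M * q * q) K)) :
    RegAt 𝔮 (WQ2.jqK2 M q hq hqM K / jK (M * q * q) K ^ q) ∧
    RegAt 𝔮 (jK (M * q * q) K / WQ2.jqK2 M q hq hqM K ^ q) ∧
    RegAt 𝔮 (WQ2.jqqK2 M q hq hqM K / WQ2.jqK2 M q hq hqM K ^ q) ∧
    RegAt 𝔮 (WQ2.jqK2 M q hq hqM K / WQ2.jqqK2 M q hq hqM K ^ q) ∧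
    RegAt 𝔮 (WQ2.jqqK2 M q hq hqM K / jK (M * q * q) K ^ (q * q)) ∧
    RegAt 𝔮 (jK (M * q * q) K / WQ2.jqqK2 M q hq hqM K ^ (q * q)) ∧
    RegAt 𝔮 (WQ2.jqK2 M q hq hqM K
      / (jK (M * q * q) K ^ (q - 1) * WQ2.jqqK2 M q hq hqM K)) ∧
    ¬ RegAt 𝔮 (WQ2.jqK2 M q hq hqM K) ∧ ¬ RegAt 𝔮 (WQ2.jqqK2 M q hq hqM K) := by
  obtain ⟨v, hv⟩ := NakUnram.exists_place hdvr R 𝔮 hhor hprinc
  have hK : ∀ c : K, algebraMap K ↥(FK (M * q * q) K) c ∈ v.toValuationSubring := fun c =>
    v.algebraMap_mem' c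
  have hjW : jK (M * q * q) K ∉ v.toValuationSubring := fun h => hj ((hv _).mp h)
  obtain ⟨h1, h2, h3, h4, h5, h6⟩ := cusp_hor q hq K M hqM v.toValuationSubring hK hjW
  obtain ⟨m1, m2, -, m4⟩ := cusp_hor_monomials q hq K M hqM v.toValuationSubring hK hjW
  exact ⟨(hv _).mp h1, (hv _).mp h2, (hv _).mp h3, (hv _).mp h4, (hv _).mp m1, (hv _).mp m2,
    (hv _).mp m4, fun h => h5 ((hv _).mpr h), fun h => h6 ((hv _).mpr h)⟩

end Consumer

end Fermat.Agent.S36.CuspHor
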