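/-
S36 — CuspPol.lean (helper37): [N10] / [CUSP-P], the BRIDGE from the series-level polynomial of
the middle cusps to the field `F_K(M q²)`.

Input (helper7, `S36/PhiCusp.lean`, hypothesis form here): a polynomial
`Pol ∈ ℤ[X][Y]`, monic in `Y`, with `Pol(0, Y) = Y^(q+1) - Y^q` and, as identities of Laurent
series over `ℚ̄`,

  `Pol(1/j, j_q/j^q) = 0`   and   `Pol(1/j_{qq}, j_q/j_{qq}^q) = 0`,

where `j = j(Q)`, `j_q = j(Q^q)`, `j_{qq} = j(Q^{q²})`.

Output: the same two identities in the FIELD `F_K(M q²)` for the elements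
`j = jK`, `j_q = WQ2.jqK2`, `j_{qq} = WQ2.jqqK2`, in the shape consumed by the instance of the
abstract core (`CuspDD.genAt_cusp`):

  `(Pol.map (eval₂RingHom (Int.castRingHom _) j⁻¹)).eval (jq * (j⁻¹) ^ q) = 0`,
  `(Pol.map (eval₂RingHom (Int.castRingHom _) jqq⁻¹)).eval (jq * (jqq⁻¹) ^ q) = 0`.
-/
import Mathlib
import Fermat.Agent.S28.Defs
import Fermat.Agent.S18.ModelBasicCore
import Fermat.Agent.S36.WQ2

set_option autoImplicit false

noncomputable section

namespace Fermat.Agent.S36.CuspPol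

open Polynomial
open Fermat.Agent.S18 Fermat.Agent.S18.Arith

/-! ### Transport along the coercion `F_K(N) → ℚ̄((Q))` -/

/-- A polynomial identity with integer coefficients holds in `F_K(N)` as soon as it holds for
the `Q`-expansions. -/
theorem eval_eq_zero_of_coe {N : ℕ} {K : IntermediateField ℚ Qb} (p : Polynomial (Polynomial ℤ))
    (a b : FK N K)
    (h : (S28.PhiAt p ((FK N K).subtype a)).eval ((FK N K).subtype b) = 0) :
    (p.map (Polynomial.eval₂RingHom (Int.castRingHom (FK N K)) a)).eval b = 0 := by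
  have h1 := S28.map_eval_PhiAt (FK N K).subtype p a b
  have h2 : (FK N K).subtype ((S28.PhiAt p a).eval b) = 0 := by rw [h1]; exact h
  have h3 : (S28.PhiAt p a).eval b = 0 :=
    (FK N K).subtype.injective (by rw [h2, map_zero])
  exact h3

/-- The converse transport (for consumers that want the series identity back). -/
theorem eval_coe_eq_zero {N : ℕ} {K : IntermediateField ℚ Qb} (p : Polynomial (Polynomial ℤ))
    (a b : FK N K)
    (h : (p.map (Polynomial.eval₂RingHom (Int.castRingHom (FK N K)) a)).eval b = 0) :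
    (S28.PhiAt p ((FK N K).subtype a)).eval ((FK N K).subtype b) = 0 := by
  have h1 := S28.map_eval_PhiAt (FK N K).subtype p a b
  rw [← h1]
  have h3 : (S28.PhiAt p a).eval b = 0 := h
  rw [h3, map_zero]

/-- Transport of such an identity along an arbitrary ring homomorphism. -/
theorem map_eval_eq_zero {R S : Type*} [CommRing R] [CommRing S] (φ : R →+* S)
    (p : Polynomial (Polynomial ℤ)) (a b : R)
    (h : (p.map (Polynomial.eval₂RingHom (Int.castRingHom R) a)).eval b = 0) :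
    (p.map (Polynomial.eval₂RingHom (Int.castRingHom S) (φ a))).eval (φ b) = 0 := by
  have h1 := S28.map_eval_PhiAt φ p a b
  have h3 : (S28.PhiAt p a).eval b = 0 := h
  rw [h3, map_zero] at h1
  exact h1.symm

variable (M q : ℕ) [NeZero M] [NeZero q] (hq : q.Prime) (hqM : ¬ q ∣ M)
variable (K : IntermediateField ℚ Qb)

/-! ### The two evaluations in `F_K(M q²)` -/

/-- `Pol(1/j, j_q/j^q) = 0` in `F_K(M q²)`. -/
theorem eval_j (p : Polynomial (Polynomial ℤ))
    (h : (S28.PhiAt p (S28.jd Qb 1)⁻¹).eval (S28.jd Qb q * (S28.jd Qb 1 ^ q)⁻¹) = 0) :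
    (p.map (Polynomial.eval₂RingHom (Int.castRingHom (FK (M * q * q) K))
      (jK (M * q * q) K)⁻¹)).eval
      (WQ2.jqK2 M q hq hqM K * ((jK (M * q * q) K)⁻¹) ^ q) = 0 := by
  apply eval_eq_zero_of_coe
  rw [map_mul, map_pow, map_inv₀, inv_pow]
  have hj : (FK (M * q * q) K).subtype (jK (M * q * q) K) = S28.jd Qb 1 :=
    ModelBasicCore.coe_jK (M * q * q) K
  have hjq : (FK (M * q * q) K).subtype (WQ2.jqK2 M q hq hqM K) = S28.jd Qb q :=
    WQ2.coe_jqK2 M q hq hqM K
  rw [hj, hjq]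
  exact h

/-- `Pol(1/j_{qq}, j_q/j_{qq}^q) = 0` in `F_K(M q²)`. -/
theorem eval_jqq (p : Polynomial (Polynomial ℤ))
    (h : (S28.PhiAt p (S28.jd Qb (q * q))⁻¹).eval
      (S28.jd Qb q * (S28.jd Qb (q * q) ^ q)⁻¹) = 0) :
    (p.map (Polynomial.eval₂RingHom (Int.castRingHom (FK (M * q * q) K))
      (WQ2.jqqK2 M q hq hqM K)⁻¹)).eval
      (WQ2.jqK2 M q hq hqM K * ((WQ2.jqqK2 M q hq hqM K)⁻¹) ^ q) = 0 := by
  apply eval_eq_zero_of_coe
  rw [map_mul, map_pow, map_inv₀, inv_pow]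
  have hjqq : (FK (M * q * q) K).subtype (WQ2.jqqK2 M q hq hqM K) = S28.jd Qb (q * q) :=
    WQ2.coe_jqqK2 M q hq hqM K
  have hjq : (FK (M * q * q) K).subtype (WQ2.jqK2 M q hq hqM K) = S28.jd Qb q :=
    WQ2.coe_jqK2 M q hq hqM K
  rw [hjqq, hjq]
  exact h

/-! ### The series-level statement and the packaged existential -/

/-- The series-level statement of [CUSP-P] (the conclusion of `PhiCusp.exists_cuspPol`, with
the field of coefficients in `Type`). -/
def SeriesStatement (q : ℕ) : Prop :=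
  ∃ p : Polynomial (Polynomial ℤ), p.Monic ∧ p.natDegree = q + 1 ∧
    p.map (Polynomial.evalRingHom (0 : ℤ)) = X ^ (q + 1) - X ^ q ∧
    ∀ (F : Type) [Field F] (d : ℕ) [NeZero d],
      (S28.PhiAt p (S28.jd F d)⁻¹).eval (S28.jd F (d * q) * (S28.jd F d ^ q)⁻¹) = 0 ∧
      (S28.PhiAt p (S28.jd F (d * q))⁻¹).eval (S28.jd F d * (S28.jd F (d * q) ^ q)⁻¹) = 0

/-- The weaker statement that is actually used: the two identities over `ℚ̄`. -/
def SeriesStatementQb (q : ℕ) : Prop :=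
  ∃ p : Polynomial (Polynomial ℤ), p.Monic ∧
    p.map (Polynomial.evalRingHom (0 : ℤ)) = X ^ (q + 1) - X ^ q ∧
    (S28.PhiAt p (S28.jd Qb 1)⁻¹).eval (S28.jd Qb q * (S28.jd Qb 1 ^ q)⁻¹) = 0 ∧
    (S28.PhiAt p (S28.jd Qb (q * q))⁻¹).eval (S28.jd Qb q * (S28.jd Qb (q * q) ^ q)⁻¹) = 0

omit [NeZero M] in
theorem seriesStatementQb_of_seriesStatement (h : SeriesStatement q) : SeriesStatementQb q := by
  obtain ⟨p, hmon, -, h0, hF⟩ := h
  refine ⟨p, hmon, h0, ?_, ?_⟩
  · have h1 := (hF Qb 1).1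
    rwa [one_mul] at h1
  · exact (hF Qb q).2

/-- **[CUSP-P] in `F_K(M q²)`** (the shape consumed by the instance of `CuspDD.genAt_cusp`):
one polynomial `Pol ∈ ℤ[X][Y]`, monic in `Y`, `Pol(0, Y) = Y^(q+1) - Y^q`, vanishing at
`(1/j, j_q/j^q)` and at `(1/j_{qq}, j_q/j_{qq}^q)`. -/
theorem exists_pol_of_seriesQb (h : SeriesStatementQb q) :
    ∃ Pol : Polynomial (Polynomial ℤ), Pol.Monic ∧
      Pol.map (Polynomial.evalRingHom (0 : ℤ)) = X ^ (q + 1) - X ^ q ∧
      (Pol.map (Polynomial.eval₂RingHom (Int.castRingHom (FK (M * q * q) K))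
        (jK (M * q * q) K)⁻¹)).eval
        (WQ2.jqK2 M q hq hqM K * ((jK (M * q * q) K)⁻¹) ^ q) = 0 ∧
      (Pol.map (Polynomial.eval₂RingHom (Int.castRingHom (FK (M * q * q) K))
        (WQ2.jqqK2 M q hq hqM K)⁻¹)).eval
        (WQ2.jqK2 M q hq hqM K * ((WQ2.jqqK2 M q hq hqM K)⁻¹) ^ q) = 0 := by
  obtain ⟨p, hmon, h0, h1, h2⟩ := h
  exact ⟨p, hmon, h0, eval_j M q hq hqM K p h1, eval_jqq M q hq hqM K p h2⟩

theorem exists_pol_of_series (h : SeriesStatement q) :
    ∃ Pol : Polynomial (Polynomial ℤ), Pol.Monic ∧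
      Pol.map (Polynomial.evalRingHom (0 : ℤ)) = X ^ (q + 1) - X ^ q ∧
      (Pol.map (Polynomial.eval₂RingHom (Int.castRingHom (FK (M * q * q) K))
        (jK (M * q * q) K)⁻¹)).eval
        (WQ2.jqK2 M q hq hqM K * ((jK (M * q * q) K)⁻¹) ^ q) = 0 ∧
      (Pol.map (Polynomial.eval₂RingHom (Int.castRingHom (FK (M * q * q) K))
        (WQ2.jqqK2 M q hq hqM K)⁻¹)).eval
        (WQ2.jqK2 M q hq hqM K * ((WQ2.jqqK2 M q hq hqM K)⁻¹) ^ q) = 0 :=
  exists_pol_of_seriesQb M q hq hqM K (seriesStatementQb_of_seriesStatement q h)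

omit [NeZero q] in
/-- The derivative condition of the abstract core: `∂_Y (Y^(q+1) - Y^q)` at `Y = 1` is `1`. -/
theorem derivative_eval_one (Pol : Polynomial (Polynomial ℤ))
    (h0 : Pol.map (Polynomial.evalRingHom (0 : ℤ)) = X ^ (q + 1) - X ^ q) :
    (Pol.map (Polynomial.evalRingHom (0 : ℤ))).derivative.eval 1 = 1 := by
  rw [h0, derivative_sub, derivative_X_pow, derivative_X_pow, eval_sub, eval_mul, eval_mul,
    eval_pow, eval_pow, eval_X, one_pow, one_pow, mul_one, mul_one, eval_C, eval_C]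
  push_cast
  ring

end Fermat.Agent.S36.CuspPol
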