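/-
S36 — PhiCusp.lean (helper7): block [N10], leaf [CUSP-P] — the cusp polynomial `Pol` over `ℤ`.

From the SHARP shape of the modular polynomial `Φ = Φ_q ∈ ℤ[Y][X]` of `S28.HeckeData q`
(`deg_Y c_k ≤ q` for `1 ≤ k ≤ q`, `deg_Y c_0 ≤ q + 1`, and the coefficient of `Y^q` in `c_q`
is `-1`; `c_k` the coefficient of `X^k`), the polynomial

  `cuspPol q Φ = T^(q+1) + ∑_{k ≤ q} (reflect_{q(q+1-k)} c_k)(X) · T^k  ∈ ℤ[X][T]`

is monic of degree `q + 1`, satisfies `Pol(0, T) = T^(q+1) - T^q` (so `∂_T Pol(0, 1) = 1`), and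
`Pol(1/y, x/y^q) = 0` whenever `Φ(x, y) = 0`, `y ≠ 0` (any field).  In particular, with ONE `Pol`:

  `Pol(1/j, j_q/j^q) = 0`   and   `Pol(1/j_qq, j_q/j_qq^q) = 0`

(and `Pol(1/j_q, j/j_q^q) = 0 = Pol(1/j_q, j_qq/j_q^q)`), as Laurent series over any field.

* `coeff_mem_Pol`, `natDegree_bound`, `natDegree_coeff_le_of_pos`, `natDegree_coeff_zero_le`,
  `coeff_coeff_q` : the sharp shape;
* `cuspPol`, `cuspPol_monic`, `cuspPol_natDegree`, `cuspPol_map_zero`, `cuspPol_eval` ;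
* `derivative_eval_one` : `(T^(q+1) - T^q)'(1) = 1`;
* `exists_cuspPol` : the bundled existence statement at the points `j(Q^d)`, `j(Q^{dq})`;
* `eval_of_coe` : transport to a field `E` with a ring hom to Laurent series (e.g. `F_K(N)`);
* `map_castRingHom_eval`, `map_castRingHom_zero` : base change `ℤ → O`.
-/
import Mathlib
import Fermat.Agent.S36.PhiShape

set_option autoImplicit false

noncomputable section

namespace Fermat.Agent.S36.PhiCusp

open ModularCurve Polynomial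
open Fermat.Agent.S28 Fermat.Agent.S24 Fermat.Agent.S36.PhiShape

universe u

/-! ### The sharp shape of `Φ_q` -/

section Sharp

/-- `ℚ̄`. -/
local notation "Qb" => AlgebraicClosure ℚ

theorem root_some_mem_Pol {q : ℕ} (ζ : Qb) (hz : ∀ i : ℕ, ζ ^ i ≠ 0) (i : Fin q) :
    root q ζ hz (some i) ∈ Pol (1 : ℤ) := by
  intro n hn
  show (rotHom (ζ ^ (i : ℕ)) (hz i) (jd Qb 1)).coeff n = 0
  rw [rotHom_coeff, jd_one, coeff_jqModC_of_lt Qb hn, mul_zero]

/-- `Φ(X, j(Q^q)) = (X - j(Q^{q²})) ∏_{i<q} (X - j(ζ^i Q))` over `ℚ̄((Q))`. -/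
theorem phiAt_eq_prod {q : ℕ} (hq : q.Prime) (H : HeckeData q) (ζ : Qb)
    (hζ : IsPrimitiveRoot ζ q) (hz : ∀ i : ℕ, ζ ^ i ≠ 0) :
    PhiAt H.Φ (jd Qb q) = ∏ o, (X - C (root q ζ hz o)) := by
  refine eq_prod_of_roots _ (PhiAt_monic H.monic _) (root q ζ hz) (root_injective hq ζ hζ hz)
    (eval_root hq H ζ hζ.pow_eq_one hz) ?_
  rw [PhiAt_natDegree H.monic, H.natDegree_eq, Fintype.card_option, Fintype.card_fin]

/-- The coefficient of `X^k` in `Φ(X, j(Q^q))` has a pole of order at most `q² + q - k`. -/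
theorem coeff_mem_Pol {q : ℕ} (hq : q.Prime) (H : HeckeData q) (k : ℕ) :
    (PhiAt H.Φ (jd Qb q)).coeff k ∈ Pol (((q * q : ℕ) : ℤ) + ((q : ℤ) - k)) := by
  have : NeZero q := ⟨hq.ne_zero⟩
  obtain ⟨ζ, hζ⟩ := HasEnoughRootsOfUnity.exists_primitiveRoot Qb q
  have hz : ∀ i : ℕ, ζ ^ i ≠ 0 := fun i => pow_ne_zero i (hζ.ne_zero hq.ne_zero)
  have hqq : (1 : ℤ) ≤ ((q * q : ℕ) : ℤ) := by
    exact_mod_cast Nat.mul_pos hq.pos hq.pos
  rw [phiAt_eq_prod hq H ζ hζ hz, Fintype.prod_option, sub_mul, Polynomial.coeff_sub]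
  have hP : ∀ m : ℕ, (∏ i : Fin q, (X - C (root q ζ hz (some i)))).coeff m
      ∈ Pol ((q : ℤ) - m) := by
    intro m
    have h := coeff_prod_mem_Pol (1 : ℤ) (fun i : Fin q => root q ζ hz (some i))
      (root_some_mem_Pol ζ hz) Finset.univ m
    rw [Finset.card_univ, Fintype.card_fin, one_mul] at h
    exact h
  refine sub_mem ?_ ?_
  · cases k with
    | zero =>
      rw [Polynomial.coeff_X_mul_zero]
      exact zero_mem _
    | succ m =>
      rw [Polynomial.coeff_X_mul]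
      refine Pol_mono ?_ (hP m)
      push_cast
      omega
  · rw [Polynomial.coeff_C_mul]
    exact mul_mem_Pol (root_mem_Pol hq ζ hz none) (hP k)

theorem coeff_phiAt {R : Type*} [CommRing R] (Φ : Polynomial (Polynomial ℤ)) (y : R) (k : ℕ) :
    (PhiAt Φ y).coeff k = (Φ.coeff k).eval₂ (Int.castRingHom R) y := by
  rw [PhiAt, Polynomial.coeff_map]
  rfl

/-- **Sharp shape, weight form**: `q · deg_Y c_k + k ≤ q² + q` for `k ≤ q`. -/
theorem natDegree_bound {q : ℕ} (hq : q.Prime) (H : HeckeData q) {k : ℕ} (hk : k ≤ q) :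
    q * (H.Φ.coeff k).natDegree + k ≤ q * q + q := by
  have : NeZero q := ⟨hq.ne_zero⟩
  by_contra hle
  have hlt : q * q + q < q * (H.Φ.coeff k).natDegree + k := not_le.mp hle
  set c := H.Φ.coeff k with hc
  have hlead := coeff_eval₂_jd Qb q c
  have hzero : (c.eval₂ (Int.castRingHom (LaurentSeries Qb)) (jd Qb q)).coeff
      (-((q : ℤ) * c.natDegree)) = 0 := by
    rw [← coeff_phiAt]
    apply coeff_mem_Pol hq H k
    have : ((q * q + q : ℕ) : ℤ) < ((q * c.natDegree + k : ℕ) : ℤ) := by exact_mod_cast hlt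
    push_cast at this ⊢
    linarith
  rw [hzero] at hlead
  have hl0 : c.leadingCoeff = 0 := by
    have : ((c.leadingCoeff : ℤ) : Qb) = ((0 : ℤ) : Qb) := by rw [← hlead, Int.cast_zero]
    exact Int.cast_injective this
  have hc0 : c = 0 := Polynomial.leadingCoeff_eq_zero.mp hl0
  rw [hc0, Polynomial.natDegree_zero, Nat.mul_zero, Nat.zero_add] at hlt
  have : q ≤ q * q := Nat.le_mul_self q
  omega

/-- `deg_Y c_k ≤ q` for `1 ≤ k ≤ q`. -/
theorem natDegree_coeff_le_of_pos {q : ℕ} (hq : q.Prime) (H : HeckeData q) {k : ℕ}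
    (hk1 : 1 ≤ k) (hk : k ≤ q) : (H.Φ.coeff k).natDegree ≤ q := by
  have h := natDegree_bound hq H hk
  by_contra hlt
  have h2 : q + 1 ≤ (H.Φ.coeff k).natDegree := Nat.succ_le_of_lt (not_le.mp hlt)
  have h3 : q * (q + 1) ≤ q * (H.Φ.coeff k).natDegree := Nat.mul_le_mul_left q h2
  have h4 : q * (q + 1) = q * q + q := by ring
  omega

/-- `deg_Y c_0 ≤ q + 1`. -/
theorem natDegree_coeff_zero_le {q : ℕ} (hq : q.Prime) (H : HeckeData q) :
    (H.Φ.coeff 0).natDegree ≤ q + 1 := by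
  have h := natDegree_bound hq H (Nat.zero_le q)
  by_contra hlt
  have h2 : q + 2 ≤ (H.Φ.coeff 0).natDegree := Nat.succ_le_of_lt (not_le.mp hlt)
  have h3 : q * (q + 2) ≤ q * (H.Φ.coeff 0).natDegree := Nat.mul_le_mul_left q h2
  have h4 : q * (q + 2) = q * q + q + q := by ring
  have h5 : 0 < q := hq.pos
  omega

/-- The coefficient of `Q^(-(n D))` in `c(j(Q^n))` is the coefficient of `Y^D` in `c`, for any
`D ≥ deg c`. -/
theorem coeff_eval₂_jd_of_le (R : Type*) [CommRing R] (n : ℕ) [NeZero n] (c : Polynomial ℤ)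
    (D : ℕ) (hD : c.natDegree ≤ D) :
    (c.eval₂ (Int.castRingHom (LaurentSeries R)) (jd R n)).coeff (-((n : ℤ) * D))
      = ((c.coeff D : ℤ) : R) := by
  have hterm : ∀ d : ℕ, (Int.castRingHom (LaurentSeries R) (c.coeff d) * jd R n ^ d).coeff
      (-((n : ℤ) * D)) = ((c.coeff d : ℤ) : R) * ((jqModC R) ^ d).coeff (-(D : ℤ)) := by
    intro d
    have h1 : Int.castRingHom (LaurentSeries R) (c.coeff d)
        = HahnSeries.C (((c.coeff d : ℤ) : R)) := by
      rw [eq_intCast, ← map_intCast (HahnSeries.C : R →+* LaurentSeries R)]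
    rw [h1, HahnSeries.C_mul_eq_smul, HahnSeries.coeff_smul, jd_eq, ← map_pow, smul_eq_mul,
      show -((n : ℤ) * (D : ℤ)) = (n : ℤ) * (-(D : ℤ)) by ring, qExpand_coeff_mul]
  rw [Polynomial.eval₂_eq_sum_range' _ (Nat.lt_succ_of_le hD), HahnSeries.coeff_sum,
    Finset.sum_congr rfl (fun d _ => hterm d), Finset.sum_eq_single D]
  · rw [coeff_jqModC_pow_self, mul_one]
  · intro d hd hne
    have hlt : d < D := lt_of_le_of_ne (Nat.lt_succ_iff.mp (Finset.mem_range.mp hd)) hne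
    rw [coeff_jqModC_pow_of_lt R (by exact_mod_cast (neg_lt_neg (by exact_mod_cast hlt))),
      mul_zero]
  · intro h
    exact absurd (Finset.mem_range.mpr (Nat.lt_succ_self _)) h

/-- **The `-X^q Y^q` term**: the coefficient of `Y^q` in `c_q` is `-1`. -/
theorem coeff_coeff_q {q : ℕ} (hq : q.Prime) (H : HeckeData q) : (H.Φ.coeff q).coeff q = -1 := by
  have : NeZero q := ⟨hq.ne_zero⟩
  have : NeZero (q * q) := ⟨Nat.mul_ne_zero hq.ne_zero hq.ne_zero⟩
  obtain ⟨ζ, hζ⟩ := HasEnoughRootsOfUnity.exists_primitiveRoot Qb q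
  have hz : ∀ i : ℕ, ζ ^ i ≠ 0 := fun i => pow_ne_zero i (hζ.ne_zero hq.ne_zero)
  have h2 : 2 ≤ q := hq.two_le
  have hdeg : (H.Φ.coeff q).natDegree ≤ q := natDegree_coeff_le_of_pos hq H hq.pos le_rfl
  have h1 := coeff_eval₂_jd_of_le Qb q (H.Φ.coeff q) q hdeg
  rw [← coeff_phiAt, phiAt_eq_prod hq H ζ hζ hz] at h1
  have hcard : (Finset.univ : Finset (Option (Fin q))).card - 1 = q := by
    rw [Finset.card_univ, Fintype.card_option, Fintype.card_fin]
    rfl
  have hpos : 0 < (Finset.univ : Finset (Option (Fin q))).card := by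
    rw [Finset.card_univ, Fintype.card_option]
    exact Nat.succ_pos _
  have h3 := Polynomial.prod_X_sub_C_coeff_card_pred (Finset.univ : Finset (Option (Fin q)))
    (root q ζ hz) hpos
  rw [hcard] at h3
  rw [h3, HahnSeries.coeff_neg, HahnSeries.coeff_sum, Fintype.sum_option] at h1
  have hnone : (root q ζ hz none).coeff (-((q : ℤ) * (q : ℤ))) = 1 := by
    show (jd Qb (q * q)).coeff (-((q : ℤ) * (q : ℤ))) = 1
    rw [jd_eq, show -((q : ℤ) * (q : ℤ)) = ((q * q : ℕ) : ℤ) * (-1) by push_cast; ring,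
      qExpand_coeff_mul, coeff_jqModC_neg_one]
  have hsome : ∀ i : Fin q, (root q ζ hz (some i)).coeff (-((q : ℤ) * (q : ℤ))) = 0 := by
    intro i
    apply root_some_mem_Pol ζ hz i
    have : (2 : ℤ) ≤ (q : ℤ) := by exact_mod_cast h2
    nlinarith
  rw [hnone, Finset.sum_eq_zero (fun i _ => hsome i), add_zero] at h1
  have : (((H.Φ.coeff q).coeff q : ℤ) : Qb) = ((-1 : ℤ) : Qb) := by
    rw [← h1, Int.cast_neg, Int.cast_one]
  exact Int.cast_injective this

end Sharp

/-! ### The cusp polynomial -/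

section CuspPol

/-- `Pol = T^(q+1) + ∑_{k ≤ q} (reflect_{q(q+1-k)} c_k)(X) · T^k ∈ ℤ[X][T]`, `c_k` the coefficient
of `X^k` in `Φ`. -/
def cuspPol (q : ℕ) (Φ : Polynomial (Polynomial ℤ)) : Polynomial (Polynomial ℤ) :=
  X ^ (q + 1) + ∑ k ∈ Finset.range (q + 1), C ((Φ.coeff k).reflect (q * (q + 1 - k))) * X ^ k

theorem degree_sum_lt (q : ℕ) (a : ℕ → Polynomial ℤ) :
    (∑ k ∈ Finset.range (q + 1), C (a k) * X ^ k : Polynomial (Polynomial ℤ)).degree
      < ((q + 1 : ℕ) : WithBot ℕ) := by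
  rw [Finset.sum_range]
  exact Polynomial.degree_sum_fin_lt _

theorem cuspPol_monic (q : ℕ) (Φ : Polynomial (Polynomial ℤ)) : (cuspPol q Φ).Monic :=
  Polynomial.monic_X_pow_add (degree_sum_lt q _)

theorem cuspPol_natDegree (q : ℕ) (Φ : Polynomial (Polynomial ℤ)) :
    (cuspPol q Φ).natDegree = q + 1 := by
  apply Polynomial.natDegree_eq_of_degree_eq_some
  rw [cuspPol, add_comm, Polynomial.degree_add_eq_right_of_degree_lt]
  · exact Polynomial.degree_X_pow _
  · rw [Polynomial.degree_X_pow]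
    exact degree_sum_lt q _

/-- **`Pol(0, T) = T^(q+1) - T^q`.** -/
theorem cuspPol_map_zero {q : ℕ} (hq : q.Prime) (H : HeckeData q) :
    (cuspPol q H.Φ).map (Polynomial.evalRingHom (0 : ℤ)) = X ^ (q + 1) - X ^ q := by
  have h2 : 2 ≤ q := hq.two_le
  have hval : ∀ k ∈ Finset.range (q + 1),
      (C ((H.Φ.coeff k).reflect (q * (q + 1 - k))) * X ^ k : Polynomial (Polynomial ℤ)).map
        (Polynomial.evalRingHom (0 : ℤ))
      = if k = q then -X ^ q else 0 := by
    intro k hk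
    have hk' : k ≤ q := Nat.lt_succ_iff.mp (Finset.mem_range.mp hk)
    have hev : ((H.Φ.coeff k).reflect (q * (q + 1 - k))).eval 0
        = (H.Φ.coeff k).coeff (q * (q + 1 - k)) := by
      rw [← Polynomial.coeff_zero_eq_eval_zero, Polynomial.coeff_reflect,
        Polynomial.revAt_le (Nat.zero_le _), Nat.sub_zero]
    rw [Polynomial.map_mul, Polynomial.map_C, Polynomial.map_pow, Polynomial.map_X,
      Polynomial.coe_evalRingHom, hev]
    split_ifs with hkq
    · subst hkq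
      rw [show k * (k + 1 - k) = k by rw [Nat.add_sub_cancel_left, Nat.mul_one],
        coeff_coeff_q hq H, map_neg, map_one, neg_one_mul]
    · have hlt : k < q := lt_of_le_of_ne hk' hkq
      have hb := natDegree_bound hq H hk'
      have hN : 2 * q ≤ q * (q + 1 - k) := by
        rw [Nat.mul_comm 2 q]
        exact Nat.mul_le_mul_left q (by omega)
      have hdeg : (H.Φ.coeff k).natDegree < q * (q + 1 - k) := by
        by_contra hge
        have hge' : q * (q + 1 - k) ≤ (H.Φ.coeff k).natDegree := not_lt.mp hge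
        have h3 : q * (2 * q) ≤ q * (H.Φ.coeff k).natDegree :=
          Nat.mul_le_mul_left q (le_trans hN hge')
        have h4 : q * (2 * q) = q * q + q * q := by ring
        have h5 : q * 2 ≤ q * q := Nat.mul_le_mul_left q h2
        omega
      rw [Polynomial.coeff_eq_zero_of_natDegree_lt hdeg, map_zero, zero_mul]
  rw [cuspPol, Polynomial.map_add, Polynomial.map_pow, Polynomial.map_X, Polynomial.map_sum,
    Finset.sum_congr rfl hval, Finset.sum_ite_eq' (Finset.range (q + 1)) q (fun _ => -X ^ q),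
    if_pos (Finset.mem_range.mpr (Nat.lt_succ_self q)), sub_eq_add_neg]

/-- `∂_T (T^(q+1) - T^q)` at `T = 1` is `1`. -/
theorem derivative_eval_one (R : Type*) [CommRing R] (q : ℕ) :
    (Polynomial.derivative (X ^ (q + 1) - X ^ q : Polynomial R)).eval 1 = 1 := by
  simp only [Polynomial.derivative_sub, Polynomial.derivative_X_pow, Polynomial.eval_sub,
    Polynomial.eval_mul, Polynomial.eval_C, Polynomial.eval_pow, Polynomial.eval_X, one_pow,
    mul_one]
  push_cast
  ring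

/-- **`Pol(1/y, x/y^q) = 0` whenever `Φ(x, y) = 0`, `y ≠ 0`** (any field). -/
theorem cuspPol_eval {F : Type*} [Field F] {q : ℕ} (Φ : Polynomial (Polynomial ℤ)) (hΦ : Φ.Monic)
    (hdegΦ : Φ.natDegree = q + 1) (hdeg : ∀ k, (Φ.coeff k).natDegree ≤ q * (q + 1 - k))
    {x y : F} (hy : y ≠ 0) (h : (PhiAt Φ y).eval x = 0) :
    (PhiAt (cuspPol q Φ) y⁻¹).eval (x * (y ^ q)⁻¹) = 0 := by
  set a : ℕ → Polynomial ℤ := fun k => (Φ.coeff k).reflect (q * (q + 1 - k)) with ha
  set gy : Polynomial ℤ →+* F := Polynomial.eval₂RingHom (Int.castRingHom F) y with hgy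
  set g : Polynomial ℤ →+* F := Polynomial.eval₂RingHom (Int.castRingHom F) y⁻¹ with hg
  have hsum : x ^ (q + 1) + ∑ i ∈ Finset.range (q + 1), gy (Φ.coeff i) * x ^ i = 0 := by
    have h1 : (PhiAt Φ y).eval x = Φ.eval₂ gy x := by
      rw [PhiAt, Polynomial.eval_map]
    rw [h1] at h
    conv_lhs at h => rw [hΦ.as_sum, hdegΦ]
    simpa [Polynomial.eval₂_add, Polynomial.eval₂_pow, Polynomial.eval₂_finsetSum,
      Polynomial.eval₂_mul] using h
  have h1 : (PhiAt (cuspPol q Φ) y⁻¹).eval (x * (y ^ q)⁻¹)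
      = (x * (y ^ q)⁻¹) ^ (q + 1)
        + ∑ i ∈ Finset.range (q + 1), g (a i) * (x * (y ^ q)⁻¹) ^ i := by
    rw [PhiAt, Polynomial.eval_map, cuspPol]
    simp [Polynomial.eval₂_add, Polynomial.eval₂_pow, Polynomial.eval₂_finsetSum,
      Polynomial.eval₂_mul, hg, ha]
  rw [h1]
  have hyq : y ^ (q * (q + 1)) ≠ 0 := pow_ne_zero _ hy
  have hyq' : y ^ q ≠ 0 := pow_ne_zero _ hy
  refine (mul_eq_zero.mp ?_).resolve_right hyq
  rw [add_mul, Finset.sum_mul]
  have e1 : (x * (y ^ q)⁻¹) ^ (q + 1) * y ^ (q * (q + 1)) = x ^ (q + 1) := by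
    rw [pow_mul, ← mul_pow, mul_assoc, inv_mul_cancel₀ hyq', mul_one]
  have e2 : ∀ i ∈ Finset.range (q + 1),
      g (a i) * (x * (y ^ q)⁻¹) ^ i * y ^ (q * (q + 1)) = gy (Φ.coeff i) * x ^ i := by
    intro i hi
    have hi' : i ≤ q := Nat.lt_succ_iff.mp (Finset.mem_range.mp hi)
    have hsplit : q * (q + 1) = q * (q + 1 - i) + q * i := by
      rw [← Nat.mul_add]
      congr 1
      omega
    have hrefl : g (a i) * y ^ (q * (q + 1 - i)) = gy (Φ.coeff i) :=
      eval₂_reflect_inv y hy _ _ (hdeg i)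
    have hpow : (x * (y ^ q)⁻¹) ^ i * y ^ (q * i) = x ^ i := by
      rw [pow_mul, ← mul_pow, mul_assoc, inv_mul_cancel₀ hyq', mul_one]
    rw [hsplit, pow_add, ← hrefl, ← hpow]
    ring
  rw [e1, Finset.sum_congr rfl e2]
  exact hsum

/-- **[CUSP-P]** One polynomial `Pol ∈ ℤ[X][T]`, monic of degree `q + 1` in `T`, with
`Pol(0, T) = T^(q+1) - T^q` and, over every field `F` and for every `d ≥ 1`,
`Pol(1/j(Q^d), j(Q^{dq})/j(Q^d)^q) = 0` and `Pol(1/j(Q^{dq}), j(Q^d)/j(Q^{dq})^q) = 0`.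
(`d = 1`, first: `(1/j, j_q/j^q)`; `d = q`, second: `(1/j_qq, j_q/j_qq^q)`.) -/
theorem exists_cuspPol {q : ℕ} (hq : q.Prime) :
    ∃ p : Polynomial (Polynomial ℤ), p.Monic ∧ p.natDegree = q + 1 ∧
      p.map (Polynomial.evalRingHom (0 : ℤ)) = X ^ (q + 1) - X ^ q ∧
      ∀ (F : Type u) [Field F] (d : ℕ) [NeZero d],
        (PhiAt p (jd F d)⁻¹).eval (jd F (d * q) * (jd F d ^ q)⁻¹) = 0 ∧
        (PhiAt p (jd F (d * q))⁻¹).eval (jd F d * (jd F (d * q) ^ q)⁻¹) = 0 := by
  have : NeZero q := ⟨hq.ne_zero⟩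
  obtain ⟨H⟩ := exists_heckeData q hq
  refine ⟨cuspPol q H.Φ, cuspPol_monic q _, cuspPol_natDegree q _, cuspPol_map_zero hq H, ?_⟩
  intro F _ d _
  have : NeZero (d * q) := ⟨Nat.mul_ne_zero (NeZero.ne d) hq.ne_zero⟩
  exact ⟨cuspPol_eval H.Φ H.monic H.natDegree_eq (natDegree_coeff_le hq H) (jd_ne_zero F d)
      (root_jd F H d),
    cuspPol_eval H.Φ H.monic H.natDegree_eq (natDegree_coeff_le hq H) (jd_ne_zero F (d * q))
      (root'_jd F H d)⟩

end CuspPol

/-! ### Consumer forms -/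

section Consumer

/-- Transport to a field `E` mapping to Laurent series (e.g. `E = F_K(N)`, `f` the coercion):
if `f a = j(Q^d)` and `f b = j(Q^{dq})`, the two relations hold for `a`, `b` in `E`. -/
theorem eval_of_coe {E F : Type*} [Field E] [Field F] (f : E →+* LaurentSeries F)
    (p : Polynomial (Polynomial ℤ)) {d q : ℕ} {a b : E} (ha : f a = jd F d)
    (hb : f b = jd F (d * q))
    (h : (PhiAt p (jd F d)⁻¹).eval (jd F (d * q) * (jd F d ^ q)⁻¹) = 0 ∧
      (PhiAt p (jd F (d * q))⁻¹).eval (jd F d * (jd F (d * q) ^ q)⁻¹) = 0) :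
    (PhiAt p a⁻¹).eval (b * (a ^ q)⁻¹) = 0 ∧ (PhiAt p b⁻¹).eval (a * (b ^ q)⁻¹) = 0 := by
  refine ⟨eval_phiAt_of_injective f f.injective p _ _ ?_,
    eval_phiAt_of_injective f f.injective p _ _ ?_⟩
  · rw [map_inv₀, map_mul, map_inv₀, map_pow, ha, hb]
    exact h.1
  · rw [map_inv₀, map_mul, map_inv₀, map_pow, ha, hb]
    exact h.2

/-- Base change `ℤ → O` of the evaluation: `PhiAt p z` is the specialisation at `X = z` of the
image of `p` in `O[X][T]`. -/
theorem map_castRingHom_eval {O E : Type*} [CommRing O] [CommRing E] [Algebra O E]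
    (p : Polynomial (Polynomial ℤ)) (z : E) :
    (p.map (Polynomial.mapRingHom (Int.castRingHom O))).map
        (Polynomial.eval₂RingHom (algebraMap O E) z) = PhiAt p z := by
  rw [PhiAt, Polynomial.map_map]
  congr 1
  refine Polynomial.ringHom_ext (fun a => ?_) ?_
  · simp
  · simp

/-- Base change `ℤ → O` of the value at `X = 0`. -/
theorem map_castRingHom_zero {O : Type*} [CommRing O] (p : Polynomial (Polynomial ℤ)) :
    (p.map (Polynomial.mapRingHom (Int.castRingHom O))).map (Polynomial.evalRingHom (0 : O))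
      = (p.map (Polynomial.evalRingHom (0 : ℤ))).map (Int.castRingHom O) := by
  rw [Polynomial.map_map, Polynomial.map_map]
  congr 1
  refine Polynomial.ringHom_ext (fun a => ?_) ?_
  · simp
  · simp

/-- **[CUSP-P] over an arbitrary coefficient ring `O`** (shape of helper92's (P2)): a monic
`Pol ∈ O[X][T]` with `Pol(0, T) = T^(q+1) - T^q` whose specialisations vanish at the cusp
points of every field `E` over `O` mapping to Laurent series. -/
theorem exists_cuspPol_over {q : ℕ} (hq : q.Prime) (O : Type*) [CommRing O] :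
    ∃ Pol : Polynomial (Polynomial O), Pol.Monic ∧
      Pol.map (Polynomial.evalRingHom (0 : O)) = X ^ (q + 1) - X ^ q ∧
      ∀ (E F : Type u) [Field E] [Field F] [Algebra O E] (f : E →+* LaurentSeries F) (d : ℕ)
        [NeZero d] (a b : E), f a = jd F d → f b = jd F (d * q) →
        ((Pol.map (Polynomial.eval₂RingHom (algebraMap O E) a⁻¹)).eval (b * (a ^ q)⁻¹) = 0 ∧
          (Pol.map (Polynomial.eval₂RingHom (algebraMap O E) b⁻¹)).eval (a * (b ^ q)⁻¹) = 0) := by
  obtain ⟨p, hp, -, h0, hev⟩ := exists_cuspPol.{u} hq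
  refine ⟨p.map (Polynomial.mapRingHom (Int.castRingHom O)), hp.map _, ?_, ?_⟩
  · rw [map_castRingHom_zero, h0]
    simp
  · intro E F _ _ _ f d _ a b ha hb
    rw [map_castRingHom_eval, map_castRingHom_eval]
    exact eval_of_coe f p ha hb (hev F d)

end Consumer

end Fermat.Agent.S36.PhiCusp
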