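/-
S36 — CuspInstCB2.lean (helper30), package [N10], dealt by helper92: the INSTANCE of the abstract
core `CuspDD.genAt_cusp` / `CuspDD.unit_at_cusp` (divided differences at the middle cusps) on the
chart at infinity `R = chart N A K J3⁻¹` (`N = M q²`, `J3 = j · j_q · j_{q²}`) of the model of
record `V = ![W1, W2, H.W3]`, `ϖ = ![π, π, s]`, `e = ram q`.

Dictionary: `x = j⁻¹`, `x' = j_q⁻¹`, `x'' = j_{q²}⁻¹`, `y = j_q (j⁻¹)^q`, `y' = j_q (j_{q²}⁻¹)^q`.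
Inputs, all on main: chart memberships `Chart3B.*_inv_mem_chart_J3_inv`, `CuspMem.y1_mem`,
`CuspMem.y2_mem`; the congruences `CuspMono.X_sub_Y_s3`, `mu0_sub_one_s3`, `v2_sub_one_s3`,
`Y_sub_X_pow_pi1`, `X_sub_Y_pow_pi2`; the units `j`, `j_{q²}` of `W1`, `W2`, `H.W3`; the cusp
polynomial `PhiCusp.exists_cuspPol` through the bridge `CuspPol.exists_pol_of_series`.

* `hcusp2`        : **the binder `hcusp2` of `Princ3Cases.princ_of_cases`** for the chart `J3⁻¹`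
                    with `C n := (J3⁻¹ ∉ n)`: at every prime `n ⊇ P 2` with `J3⁻¹ ∈ n`, the
                    vertical prime `P 2` is principal locally at `n`;
* `unit_cusp`     : at such a point `P 0 ≰ n`, `P 1 ≰ n` and `s g^(q-1) = π v` with `s, v ∉ n`
                    for some `g ∈ P 2`;
* `hcusp2_of_eq`  : the same when `π = q` (`incO A K π = q`, the unramified base).
-/
import Mathlib
import Fermat.Agent.S36.CuspDD
import Fermat.Agent.S36.CuspMono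
import Fermat.Agent.S36.CuspMem
import Fermat.Agent.S36.PhiCusp
import Fermat.Agent.S36.CuspPol

set_option autoImplicit false
set_option linter.unusedSectionVars false

noncomputable section

namespace Fermat.Agent.S36.CuspInstCB2

open ModularCurve ModularCurve.IgusaScheme AlgebraicCurve HahnSeries
open Fermat.Agent.S18 Fermat.Agent.S18.Arith Fermat.Agent.S18.ModelPlan
open Fermat.Agent.S34 Fermat.Agent.S36.Model3Plan

/-! ### Generic: units of `V i` are outside `P i` -/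

section Gen

variable {O : Type*} [CommRing O] {R : Type*} [CommRing R] [Algebra O R]
  {E : Type*} [Field E] [Algebra R E]
  {π : O} {e : Fin 3 → ℕ} {ϖ : Fin 3 → E} {V : Fin 3 → ValuationSubring E}
  {P : Fin 3 → Ideal R}

/-- An element of `R` which is a unit of `V i` does not lie in `P i`. -/
theorem notMem_P_of_inv_mem {p : E} (val : ValHyp3 p e ϖ V) (hyp : ChartHyp3 π ϖ V P) (i : Fin 3)
    {r : R} (hr0 : algebraMap R E r ≠ 0) (hinv : (algebraMap R E r)⁻¹ ∈ V i) : r ∉ P i := by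
  intro h
  obtain ⟨y, hy, hry⟩ := (hyp.mem_P i r).mp h
  apply val.unif_not i
  have hϖ : ϖ i ≠ 0 := fun h0 => hr0 (by rw [hry, h0, zero_mul])
  have e1 : (ϖ i)⁻¹ = y * (algebraMap R E r)⁻¹ := by
    rw [hry, mul_inv, mul_comm (ϖ i)⁻¹, ← mul_assoc, mul_inv_cancel₀, one_mul]
    exact fun h0 => hr0 (by rw [hry, h0, mul_zero])
  rw [e1]
  exact (V i).mul_mem _ _ hy hinv

end Gen

variable {M q : ℕ} [NeZero M] [NeZero q] {hq : q.Prime} {hqM : ¬ q ∣ M}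
variable {A : ValuationSubring Qb} {K K' : IntermediateField ℚ Qb}
variable {ξ : Qb} {hξ0 : ξ ≠ 0} {ι : FK (M * q * q) K →+* LaurentSeries Qb} {ϖ' : OK A K'}

/-- The cusp polynomial evaluated in the chart: transport of a polynomial identity with integer
coefficients from `F_K(N)` to a subalgebra. -/
theorem eval_chart {N : ℕ} {O : Type*} [CommRing O] {K : IntermediateField ℚ Qb}
    [Algebra O (FK N K)] (R : Subalgebra O (FK N K)) (p : Polynomial (Polynomial ℤ)) (a b : R)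
    (h : (p.map (Polynomial.eval₂RingHom (Int.castRingHom (FK N K)) (a : FK N K))).eval
      (b : FK N K) = 0) :
    (p.map (Polynomial.eval₂RingHom (Int.castRingHom R) a)).eval b = 0 := by
  have h1 := S28.map_eval_PhiAt (algebraMap R (FK N K)) p a b
  have h2 : (S28.PhiAt p (algebraMap R (FK N K) a)).eval (algebraMap R (FK N K) b) = 0 := h
  rw [h2] at h1
  have h3 : (S28.PhiAt p a).eval b = 0 := Subtype.ext h1
  exact h3

local notation "jN" => jK (M * q * q) K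
local notation "jqN" => WQ2.jqK2 M q hq hqM K
local notation "jqqN" => WQ2.jqqK2 M q hq hqM K
local notation "RR" => chart (M * q * q) A K (Chart3B.J3 M q hq hqM K)⁻¹

/-- **[N10] `unit_at_cusp` on the chart `J3⁻¹` of the model of record.** -/
theorem unit_cusp (H : V3.Hyp3 M q hq hqM A K K' ξ hξ0 ι ϖ')
    (hdvr : IsDiscreteValuationRing (OK A K)) (hA : A.LiesOverPrime q)
    {π : OK A K} (hπ : Irreducible π)
    {ε : OK A K} (hε : IsUnit ε) (hqε : ((q : ℕ) : OK A K) = π * ε)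
    (val : ValHyp3 (algebraMap (OK A K) (FK (M * q * q) K) π) (Model3Plan.ram q)
      ![algebraMap (OK A K) (FK (M * q * q) K) π, algebraMap (OK A K) (FK (M * q * q) K) π,
        Wit3.sE M q hq hqM K]
      ![GaussV.V1 (M * q * q) A K hdvr, GaussV.V2 (WQ2.wK2 M q hq hqM K) hdvr, H.W3])
    {P : Fin 3 → Ideal (chart (M * q * q) A K (Chart3B.J3 M q hq hqM K)⁻¹)}
    (hyp : ChartHyp3 π
      ![algebraMap (OK A K) (FK (M * q * q) K) π, algebraMap (OK A K) (FK (M * q * q) K) π,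
        Wit3.sE M q hq hqM K]
      ![GaussV.V1 (M * q * q) A K hdvr, GaussV.V2 (WQ2.wK2 M q hq hqM K) hdvr, H.W3] P)
    (n : Ideal (chart (M * q * q) A K (Chart3B.J3 M q hq hqM K)⁻¹)) (hn : n.IsPrime)
    (hC : (⟨(Chart3B.J3 M q hq hqM K)⁻¹, ChartJ.self_mem_chart (M * q * q) A K
      (Chart3B.J3 M q hq hqM K)⁻¹⟩ : chart (M * q * q) A K (Chart3B.J3 M q hq hqM K)⁻¹) ∈ n)
    (h2 : P 2 ≤ n) :
    (¬ P 0 ≤ n ∧ ¬ P 1 ≤ n ∧
      ∃ g ∈ P 2, ∃ s v : chart (M * q * q) A K (Chart3B.J3 M q hq hqM K)⁻¹, s ∉ n ∧ v ∉ n ∧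
        s * g ^ (q - 1)
          = algebraMap (OK A K) (chart (M * q * q) A K (Chart3B.J3 M q hq hqM K)⁻¹) π * v) ∧
    ∃ g ∈ P 2, ∀ z ∈ P 2, ∃ s : chart (M * q * q) A K (Chart3B.J3 M q hq hqM K)⁻¹, s ∉ n ∧
      ∃ c : chart (M * q * q) A K (Chart3B.J3 M q hq hqM K)⁻¹, s * z = c * g := by
  have : Fact q.Prime := ⟨hq⟩
  have : IsIntegrallyClosed RR := (Chart3B.rings M q hq hqM A K hdvr).2.1.2.2
  have hj0 : jN ≠ 0 := ModelBasicCore.jK_ne_zero (M * q * q) K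
  have hjq0 : jqN ≠ 0 := Chart3B.jqK2_ne_zero M q hq hqM K
  have hjqq0 : jqqN ≠ 0 := Chart3B.jqqK2_ne_zero M q hq hqM K
  -- the five elements of the chart
  obtain ⟨x, hx⟩ : ∃ x : RR, (x : FK (M * q * q) K) = jN⁻¹ :=
    ⟨⟨jN⁻¹, Chart3B.jK_inv_mem_chart_J3_inv M q hq hqM A K⟩, rfl⟩
  obtain ⟨x', hx'⟩ : ∃ x' : RR, (x' : FK (M * q * q) K) = jqN⁻¹ :=
    ⟨⟨jqN⁻¹, Chart3B.jqK2_inv_mem_chart_J3_inv M q hq hqM A K⟩, rfl⟩
  obtain ⟨x'', hx''⟩ : ∃ x'' : RR, (x'' : FK (M * q * q) K) = jqqN⁻¹ :=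
    ⟨⟨jqqN⁻¹, Chart3B.jqqK2_inv_mem_chart_J3_inv M q hq hqM A K⟩, rfl⟩
  obtain ⟨y, hy⟩ : ∃ y : RR, (y : FK (M * q * q) K) = jqN * jN⁻¹ ^ q :=
    ⟨⟨jqN * jN⁻¹ ^ q, CuspMem.y1_mem M q hq hqM A K⟩, rfl⟩
  obtain ⟨y', hy'⟩ : ∃ y' : RR, (y' : FK (M * q * q) K) = jqN * jqqN⁻¹ ^ q :=
    ⟨⟨jqN * jqqN⁻¹ ^ q, CuspMem.y2_mem M q hq hqM A K⟩, rfl⟩
  -- the algebraic identities
  have hyx : y * x' = x ^ q := by
    apply Subtype.ext
    rw [MulMemClass.coe_mul, SubmonoidClass.coe_pow, hy, hx, hx',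
      mul_right_comm jqN (jN⁻¹ ^ q) jqN⁻¹, mul_inv_cancel₀ hjq0, one_mul]
  have hyx'' : y' * x' = x'' ^ q := by
    apply Subtype.ext
    rw [MulMemClass.coe_mul, SubmonoidClass.coe_pow, hy', hx'', hx',
      mul_right_comm jqN (jqqN⁻¹ ^ q) jqN⁻¹, mul_inv_cancel₀ hjq0, one_mul]
  have hcusp : x * x' * x'' ∈ n := by
    have e1 : x * x' * x'' = (⟨(Chart3B.J3 M q hq hqM K)⁻¹, ChartJ.self_mem_chart (M * q * q) A K
        (Chart3B.J3 M q hq hqM K)⁻¹⟩ : chart (M * q * q) A K (Chart3B.J3 M q hq hqM K)⁻¹) := by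
      apply Subtype.ext
      rw [MulMemClass.coe_mul, MulMemClass.coe_mul, hx, hx', hx'']
      show jN⁻¹ * jqN⁻¹ * jqqN⁻¹ = (Chart3B.J3 M q hq hqM K)⁻¹
      rw [Chart3B.J3_eq, mul_inv, mul_inv]
    rw [e1]
    exact hC
  have hne : x ≠ x'' := by
    intro h
    have h1 : jN⁻¹ = jqqN⁻¹ := by rw [← hx, ← hx'', h]
    have h3 : Wit3.sE M q hq hqM K = 0 := by
      rw [Wit3.sE, inv_inj.mp h1, sub_self]
    exact H.s_ne_zero h3
  -- coercions
  have cx : algebraMap RR (FK (M * q * q) K) x = jN⁻¹ := hx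
  have cx'' : algebraMap RR (FK (M * q * q) K) x'' = jqqN⁻¹ := hx''
  have cy : algebraMap RR (FK (M * q * q) K) y = jqN * jN⁻¹ ^ q := hy
  have cy' : algebraMap RR (FK (M * q * q) K) y' = jqN * jqqN⁻¹ ^ q := hy'
  -- the congruences
  have h2x : x'' - x ∈ P 2 := by
    obtain ⟨z, hz, hxz⟩ := CuspMono.neg_form (CuspMono.X_sub_Y_s3 H hA)
    refine (hyp.mem_P 2 _).mpr ⟨z, hz, ?_⟩
    rw [map_sub, cx, cx'']
    exact hxz
  have h2y : y - 1 ∈ P 2 := by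
    obtain ⟨z, hz, hxz⟩ := CuspMono.mu0_sub_one_s3 H hA
    refine (hyp.mem_P 2 _).mpr ⟨z, hz, ?_⟩
    rw [map_sub, map_one, cy, inv_pow, ← div_eq_mul_inv]
    exact hxz
  have h2y' : y' - 1 ∈ P 2 := by
    obtain ⟨z, hz, hxz⟩ := CuspMono.v2_sub_one_s3 H hA
    refine (hyp.mem_P 2 _).mpr ⟨z, hz, ?_⟩
    rw [map_sub, map_one, cy', inv_pow, ← div_eq_mul_inv]
    exact hxz
  have h0 : x'' - x ^ (q ^ 2) ∈ P 0 := by
    obtain ⟨z, hz, hxz⟩ := CuspMono.Y_sub_X_pow_pi1 M q hq hqM A K hdvr hA hπ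
    refine (hyp.mem_P 0 _).mpr ⟨z, hz, ?_⟩
    rw [map_sub, map_pow, cx, cx'', sq]
    exact hxz
  have h1 : x - x'' ^ (q ^ 2) ∈ P 1 := by
    obtain ⟨z, hz, hxz⟩ := CuspMono.X_sub_Y_pow_pi2 M q hq hqM A K hdvr hA hπ
    refine (hyp.mem_P 1 _).mpr ⟨z, hz, ?_⟩
    rw [map_sub, map_pow, cx, cx'', sq]
    exact hxz
  -- the units
  have hx0 : x ∉ P 0 := by
    refine notMem_P_of_inv_mem val hyp 0 (by rw [cx]; exact inv_ne_zero hj0) ?_
    rw [cx, inv_inv]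
    exact GaussV.jK_mem_V1 hdvr
  have hx1 : x'' ∉ P 1 := by
    refine notMem_P_of_inv_mem val hyp 1 (by rw [cx'']; exact inv_ne_zero hjqq0) ?_
    rw [cx'', inv_inv]
    show jqqN ∈ GaussV.V2 (WQ2.wK2 M q hq hqM K) hdvr
    rw [GaussV.mem_V2_iff, WQ2.wK2_jqqK2]
    exact GaussV.jK_mem_V1 hdvr
  have hx2 : x ∉ P 2 := by
    refine notMem_P_of_inv_mem val hyp 2 (by rw [cx]; exact inv_ne_zero hj0) ?_
    rw [cx, inv_inv]
    exact H.jK_unit.1
  -- the uniformizer relation `q = π ε`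
  have hεR : ((q : ℕ) : RR) = algebraMap (OK A K) RR π * algebraMap (OK A K) RR ε := by
    rw [← map_mul, ← hqε, map_natCast]
  have hεn : algebraMap (OK A K) RR ε ∉ n :=
    fun h => hn.ne_top (Ideal.eq_top_of_isUnit_mem _ h (hε.map _))
  -- the cusp polynomial
  obtain ⟨Pol, -, hPol0, hPj, hPjqq⟩ :=
    CuspPol.exists_pol_of_series M q hq hqM K (PhiCusp.exists_cuspPol hq)
  have hP : (Pol.map (Polynomial.eval₂RingHom (Int.castRingHom RR) x)).eval y = 0 := by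
    apply eval_chart
    rw [hx, hy]
    exact hPj
  have hP'' : (Pol.map (Polynomial.eval₂RingHom (Int.castRingHom RR) x'')).eval y' = 0 := by
    apply eval_chart
    rw [hx'', hy']
    exact hPjqq
  have hPd : Int.castRingHom RR ((Pol.map (Polynomial.evalRingHom 0)).derivative.eval 1) ∉ n := by
    rw [CuspPol.derivative_eval_one q Pol hPol0, map_one]
    exact fun h => hn.ne_top ((Ideal.eq_top_iff_one _).mpr h)
  have hp0 : algebraMap RR (FK (M * q * q) K) (algebraMap (OK A K) RR π) ≠ 0 :=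
    GaussV.algebraMap_ne_zero (M * q * q) A K hπ.ne_zero
  exact ⟨CuspDD.unit_at_cusp val hyp hp0 hq rfl n hn h2 hεR hεn hyx hyx'' hcusp hne h2x h2y h2y'
      hx2 h0 hx0 h1 hx1 (Int.castRingHom _) Pol hP hP'' hPd,
    CuspDD.genAt_cusp val hyp hp0 hq rfl n hn h2 hεR hεn hyx hyx'' hcusp hne h2x h2y h2y'
      hx2 h0 hx0 h1 hx1 (Int.castRingHom _) Pol hP hP'' hPd⟩

/-- **[N10] the binder `hcusp2` of `Princ3Cases.princ_of_cases`** for the chart `J3⁻¹` of the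
model of record, `C n := (J3⁻¹ ∉ n)`. -/
theorem hcusp2 (H : V3.Hyp3 M q hq hqM A K K' ξ hξ0 ι ϖ')
    (hdvr : IsDiscreteValuationRing (OK A K)) (hA : A.LiesOverPrime q)
    {π : OK A K} (hπ : Irreducible π)
    {ε : OK A K} (hε : IsUnit ε) (hqε : ((q : ℕ) : OK A K) = π * ε)
    (val : ValHyp3 (algebraMap (OK A K) (FK (M * q * q) K) π) (Model3Plan.ram q)
      ![algebraMap (OK A K) (FK (M * q * q) K) π, algebraMap (OK A K) (FK (M * q * q) K) π,
        Wit3.sE M q hq hqM K]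
      ![GaussV.V1 (M * q * q) A K hdvr, GaussV.V2 (WQ2.wK2 M q hq hqM K) hdvr, H.W3])
    {P : Fin 3 → Ideal (chart (M * q * q) A K (Chart3B.J3 M q hq hqM K)⁻¹)}
    (hyp : ChartHyp3 π
      ![algebraMap (OK A K) (FK (M * q * q) K) π, algebraMap (OK A K) (FK (M * q * q) K) π,
        Wit3.sE M q hq hqM K]
      ![GaussV.V1 (M * q * q) A K hdvr, GaussV.V2 (WQ2.wK2 M q hq hqM K) hdvr, H.W3] P) :
    ∀ n : Ideal (chart (M * q * q) A K (Chart3B.J3 M q hq hqM K)⁻¹), n.IsMaximal →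
      algebraMap (OK A K) (chart (M * q * q) A K (Chart3B.J3 M q hq hqM K)⁻¹) π ∈ n →
      ¬ ((⟨(Chart3B.J3 M q hq hqM K)⁻¹, ChartJ.self_mem_chart (M * q * q) A K
        (Chart3B.J3 M q hq hqM K)⁻¹⟩ : chart (M * q * q) A K (Chart3B.J3 M q hq hqM K)⁻¹) ∉ n) →
      P 2 ≤ n →
      ∃ i : Fin 3, P i ≤ n ∧ ∃ g ∈ P i, ∀ y ∈ P i,
        ∃ s : chart (M * q * q) A K (Chart3B.J3 M q hq hqM K)⁻¹, s ∉ n ∧
          ∃ c : chart (M * q * q) A K (Chart3B.J3 M q hq hqM K)⁻¹, s * y = c * g :=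
  fun n hn _ hC h2 =>
    ⟨2, h2, (unit_cusp H hdvr hA hπ hε hqε val hyp n hn.isPrime (not_not.mp hC) h2).2⟩

/-- `hcusp2` when `π = q` (the unramified base: `incO A K π = q`). -/
theorem hcusp2_of_eq (H : V3.Hyp3 M q hq hqM A K K' ξ hξ0 ι ϖ')
    (hdvr : IsDiscreteValuationRing (OK A K)) (hA : A.LiesOverPrime q)
    {π : OK A K} (hπ : Irreducible π) (hπq : incO A K π = (q : Qb))
    (val : ValHyp3 (algebraMap (OK A K) (FK (M * q * q) K) π) (Model3Plan.ram q)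
      ![algebraMap (OK A K) (FK (M * q * q) K) π, algebraMap (OK A K) (FK (M * q * q) K) π,
        Wit3.sE M q hq hqM K]
      ![GaussV.V1 (M * q * q) A K hdvr, GaussV.V2 (WQ2.wK2 M q hq hqM K) hdvr, H.W3])
    {P : Fin 3 → Ideal (chart (M * q * q) A K (Chart3B.J3 M q hq hqM K)⁻¹)}
    (hyp : ChartHyp3 π
      ![algebraMap (OK A K) (FK (M * q * q) K) π, algebraMap (OK A K) (FK (M * q * q) K) π,
        Wit3.sE M q hq hqM K]
      ![GaussV.V1 (M * q * q) A K hdvr, GaussV.V2 (WQ2.wK2 M q hq hqM K) hdvr, H.W3] P) :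
    ∀ n : Ideal (chart (M * q * q) A K (Chart3B.J3 M q hq hqM K)⁻¹), n.IsMaximal →
      algebraMap (OK A K) (chart (M * q * q) A K (Chart3B.J3 M q hq hqM K)⁻¹) π ∈ n →
      ¬ ((⟨(Chart3B.J3 M q hq hqM K)⁻¹, ChartJ.self_mem_chart (M * q * q) A K
        (Chart3B.J3 M q hq hqM K)⁻¹⟩ : chart (M * q * q) A K (Chart3B.J3 M q hq hqM K)⁻¹) ∉ n) →
      P 2 ≤ n →
      ∃ i : Fin 3, P i ≤ n ∧ ∃ g ∈ P i, ∀ y ∈ P i,
        ∃ s : chart (M * q * q) A K (Chart3B.J3 M q hq hqM K)⁻¹, s ∉ n ∧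
          ∃ c : chart (M * q * q) A K (Chart3B.J3 M q hq hqM K)⁻¹, s * y = c * g := by
  have hqπ : ((q : ℕ) : OK A K) = π * 1 := by
    rw [mul_one]
    have hinj : Function.Injective (incO A K) :=
      (algebraMap K Qb).injective.comp Subtype.val_injective
    exact hinj (by rw [hπq, map_natCast])
  exact hcusp2 H hdvr hA hπ isUnit_one hqπ val hyp

end Fermat.Agent.S36.CuspInstCB2
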