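/-
S36 — CuspKSInst.lean (helper65).  Package [N10]/[CUSP3], leaf [CUSP-c] CLOSED:
`CuspKS.exists_polys` with its one hypothesis `hf3` (residue degree one of `W3` over level ONE)
discharged from landed files.

* `hyp3W`   : the `W3`-side hypotheses `Wit3Inst.Hyp3W` for `W3 = H.W3` (fields of `S36/V3Wit`);
* `hf3`     : residue degree one along `W3` at ANY level `M q²` (the input `hf3` of
              `Level3J3B.branch3_J3`), closed over `H : V3.Hyp3 …` and the level-`M` chart facts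
              (`ResDeg3Inst.hf3'` + `Wit3Inst.wit`);
* `hyp3_one`: `Hyp3` at level `1 · q²` for `Iota3.iota3`, from `Hyp3` at level `M q²`
              (all fields but `mid` are level-free);
* `hf3_one` : `hf3` at `M = 1` — the input of `CuspKS.exists_polys`;
* `exists_polys_chart`, `exists_polys` : [CUSP-c] with `hf3`, `em₁`, `h₁`, `hq1` discharged
              (level-one chart facts as a hypothesis, resp. from `BaseFacts` via S18 [Model]);
* `uK_mul_pi` : `u · π = (j_{q²} / j - 1)^(q-1)` (the shape `hu` of `CuspAsm.cusp_hB1_asm'`);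
* `exists_polys_iota3` : the instance of record (`Iota3.iota3`, `K' = BaseXi.Kxi K ξ`, `π = q`).
-/
import Mathlib
import Fermat.Agent.S34.Red2B
import Fermat.Agent.S36.V3Wit
import Fermat.Agent.S36.Wit3Inst
import Fermat.Agent.S36.ResDeg3Inst
import Fermat.Agent.S36.CuspKS

set_option autoImplicit false

noncomputable section

namespace Fermat.Agent.S36.CuspKSInst

open ModularCurve ModularCurve.IgusaScheme AlgebraicCurve HahnSeries
open Fermat.Agent.S18 Fermat.Agent.S18.Arith Fermat.Agent.S18.ModelPlan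
open Fermat.Agent.S34 Fermat.Agent.S36

section Gen

variable {M q : ℕ} [NeZero M] [NeZero q] {hq : q.Prime} {hqM : ¬ q ∣ M}
variable {A : ValuationSubring Qb} {K K' : IntermediateField ℚ Qb}
variable {ξ : Qb} {hξ0 : ξ ≠ 0} {ι : FK (M * q * q) K →+* LaurentSeries Qb} {ϖ : OK A K'}

/-- The `W3`-side hypotheses `Wit3Inst.Hyp3W` of the witness block, for `W3 = H.W3`. -/
theorem hyp3W (H : V3.Hyp3 M q hq hqM A K K' ξ hξ0 ι ϖ)
    (hdvr : IsDiscreteValuationRing (OK A K)) (hA : A.LiesOverPrime q)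
    (hC : ChartFacts M A K (chart M A K (jK M K)) (jK M K))
    {π : OK A K} (hπ : Irreducible π) (a : A) (hqa : (q : Qb) = incO A K π * (a : Qb))
    (hπϖ : ∃ u : A, IsUnit u ∧ incO A K π = incO A K' ϖ ^ (q - 1) * (u : Qb)) :
    Wit3Inst.Hyp3W M q hq hqM A K π H.W3 where
  le3 := V3Wit.le3 H hC
  ind3 := V3Wit.ind3 H hdvr hπ hC
  x1_pi3 := V3Wit.x1_pi3 H hdvr hA hπ a hqa
  x2_pi3 := V3Wit.x2_pi3 H hdvr hA hπ
  x3_unit3 := V3Wit.x3_unit3 H hA
  s_nonunit3 := V3Wit.s_nonunit3 H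
  ram3 := V3Wit.ram3 H π hπϖ
  jqq_mem3 := (V3Wit.jqq_unit3 H).1

/-- **Residue degree one along `W3`** (`hf3` of `Level3J3B.branch3_J3`), closed over `Hyp3`. -/
theorem hf3 (H : V3.Hyp3 M q hq hqM A K K' ξ hξ0 ι ϖ)
    (hdvr : IsDiscreteValuationRing (OK A K)) (hA : A.LiesOverPrime q)
    (hC : ChartFacts M A K (chart M A K (jK M K)) (jK M K))
    {π : OK A K} (hπ : Irreducible π) (a : A) (hqa : (q : Qb) = incO A K π * (a : Qb))
    (hπϖ : ∃ u : A, IsUnit u ∧ incO A K π = incO A K' ϖ ^ (q - 1) * (u : Qb)) :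
    ∀ (x : FK (M * q * q) K) (y : LaurentSeries (IsLocalRing.ResidueField A)),
      GRel A (ι x) y → ∃ x' : FK M K, GRel A ((x' : FK M K) : LaurentSeries Qb) y :=
  ResDeg3Inst.hf3' M q hq hdvr hπ hC H.mid.alpha (V3Wit.hW3 H)
    (Wit3Inst.wit M q hq hqM A K hdvr hA hC hπ H.W3 (hyp3W H hdvr hA hC hπ a hqa hπϖ))

/-- `Hyp3` at level `1 · q²` from `Hyp3` at level `M q²`: all fields but `mid` are level-free, and
`mid` holds for the algebraic middle-cusp embedding `Iota3.iota3` of level `1 · q²` (same `ξ`). -/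
theorem hyp3_one (H : V3.Hyp3 M q hq hqM A K K' ξ hξ0 ι ϖ) :
    V3.Hyp3 1 q hq hq.not_dvd_one A K K' ξ hξ0
      (Iota3.iota3 1 q K hq hq.not_dvd_one ξ H.xi_pow H.xi_ne) ϖ where
  mid := V3.midEmb_iota3 1 q hq hq.not_dvd_one K ξ H.xi_pow H.xi_ne
  le := H.le
  xi_mem := H.xi_mem
  xi_pow := H.xi_pow
  xi_ne := H.xi_ne
  dvr' := H.dvr'
  irr := H.irr
  coe_unif := H.coe_unif

/-- **(c2): residue degree one of `W3` over level ONE**, for the middle-cusp embedding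
`Iota3.iota3` of level `1 · q²` with the `ξ` of `H` — the input `hf3` of `CuspKS.exists_polys`. -/
theorem hf3_one (H : V3.Hyp3 M q hq hqM A K K' ξ hξ0 ι ϖ)
    (hdvr : IsDiscreteValuationRing (OK A K)) (hA : A.LiesOverPrime q)
    (hC₁ : ChartFacts 1 A K (chart 1 A K (jK 1 K)) (jK 1 K))
    {π : OK A K} (hπ : Irreducible π) (a : A) (hqa : (q : Qb) = incO A K π * (a : Qb))
    (hπϖ : ∃ u : A, IsUnit u ∧ incO A K π = incO A K' ϖ ^ (q - 1) * (u : Qb)) :
    ∀ (x : FK (1 * q * q) K) (y : LaurentSeries (IsLocalRing.ResidueField A)),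
      GRel A (Iota3.iota3 1 q K hq hq.not_dvd_one ξ H.xi_pow H.xi_ne x) y →
      ∃ x' : FK 1 K, GRel A ((x' : FK 1 K) : LaurentSeries Qb) y :=
  hf3 (hyp3_one H) hdvr hA hC₁ hπ a hqa hπϖ

/-- **[CUSP-c] closed over the level-one chart facts**: `CuspKS.exists_polys` with `hf3`, `em₁`,
`h₁`, `hq1` discharged. -/
theorem exists_polys_chart [Fact q.Prime] (H : V3.Hyp3 M q hq hqM A K K' ξ hξ0 ι ϖ)
    (hdvr : IsDiscreteValuationRing (OK A K)) (hA : A.LiesOverPrime q)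
    (hC₁ : ChartFacts 1 A K (chart 1 A K (jK 1 K)) (jK 1 K))
    {π : OK A K} (hπ : Irreducible π) (a : A) (hqa : (q : Qb) = incO A K π * (a : Qb))
    (hπϖ : ∃ u : A, IsUnit u ∧ incO A K π = incO A K' ϖ ^ (q - 1) * (u : Qb)) :
    CuspKS.uK M q hq hqM K A π ∈ H.W3 ∧ (CuspKS.uK M q hq hqM K A π)⁻¹ ∈ H.W3 ∧
    ∃ a b : Polynomial (OK A K), IsUnit (a.coeff 0) ∧ IsUnit (b.coeff 0) ∧
      ∃ z ∈ H.W3, CuspKS.uK M q hq hqM K A π * Polynomial.aeval (jK (M * q * q) K)⁻¹ b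
          - Polynomial.aeval (jK (M * q * q) K)⁻¹ a = Wit3.sE M q hq hqM K * z :=
  CuspKS.exists_polys H hA hdvr π hπϖ hq.not_dvd_one _ (hyp3_one H).mid
    (hf3_one H hdvr hA hC₁ hπ a hqa hπϖ)

/-- **[CUSP-c] closed over `BaseFacts`** (`hC₁` from S18 [Model] at level one). -/
theorem exists_polys [Fact q.Prime] (H : V3.Hyp3 M q hq hqM A K K' ξ hξ0 ι ϖ)
    (hA : A.LiesOverPrime q) (hB : BaseFacts q A K)
    {π : OK A K} (hπ : Irreducible π) (a : A) (hqa : (q : Qb) = incO A K π * (a : Qb))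
    (hπϖ : ∃ u : A, IsUnit u ∧ incO A K π = incO A K' ϖ ^ (q - 1) * (u : Qb)) :
    CuspKS.uK M q hq hqM K A π ∈ H.W3 ∧ (CuspKS.uK M q hq hqM K A π)⁻¹ ∈ H.W3 ∧
    ∃ a b : Polynomial (OK A K), IsUnit (a.coeff 0) ∧ IsUnit (b.coeff 0) ∧
      ∃ z ∈ H.W3, CuspKS.uK M q hq hqM K A π * Polynomial.aeval (jK (M * q * q) K)⁻¹ b
          - Polynomial.aeval (jK (M * q * q) K)⁻¹ a = Wit3.sE M q hq hqM K * z :=
  exists_polys_chart H hB.dvr hA (Red2B.chartFacts 1 q hq hq.not_dvd_one A K hA hB) hπ a hqa hπϖ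

/-- `u · π = (j_{q²} / j - 1)^(q-1)` (the shape `hu` of `CuspAsm.cusp_hB1_asm'`). -/
theorem uK_mul_pi (π : OK A K) (hp0 : algebraMap (OK A K) (FK (M * q * q) K) π ≠ 0) :
    CuspKS.uK M q hq hqM K A π * algebraMap (OK A K) (FK (M * q * q) K) π
      = (WQ2.jqqK2 M q hq hqM K / jK (M * q * q) K - 1) ^ (q - 1) := by
  unfold CuspKS.uK
  rw [inv_mul_cancel_right₀ hp0, div_eq_mul_inv]

end Gen

/-! ### The instance of record: `Iota3.iota3`, `π = q` -/

/-- **[CUSP-c] for the model of record**: `ι = Iota3.iota3` over `K' = BaseXi.Kxi K ξ`,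
`π = q` (unramified base), `W3 = (V3.hyp3_iota3 …).W3`. -/
theorem exists_polys_iota3 (M q : ℕ) [NeZero M] [NeZero q] [Fact q.Prime] (hq : q.Prime)
    (hqM : ¬ q ∣ M) (A : ValuationSubring Qb) (K : IntermediateField ℚ Qb)
    (hA : A.LiesOverPrime q) (hB : BaseFacts q A K)
    (hdvr : IsDiscreteValuationRing (OK A K))
    (π : OK A K) (hπ : Irreducible π) (hπq : incO A K π = (q : Qb)) {ξ : Qb}
    (hξ : IsPrimitiveRoot ξ q) :
    CuspKS.uK M q hq hqM K A π ∈ (V3.hyp3_iota3 hq hqM A hdvr π hπ hπq hξ).W3 ∧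
    (CuspKS.uK M q hq hqM K A π)⁻¹ ∈ (V3.hyp3_iota3 hq hqM A hdvr π hπ hπq hξ).W3 ∧
    ∃ a b : Polynomial (OK A K), IsUnit (a.coeff 0) ∧ IsUnit (b.coeff 0) ∧
      ∃ z ∈ (V3.hyp3_iota3 hq hqM A hdvr π hπ hπq hξ).W3,
        CuspKS.uK M q hq hqM K A π * Polynomial.aeval (jK (M * q * q) K)⁻¹ b
          - Polynomial.aeval (jK (M * q * q) K)⁻¹ a = Wit3.sE M q hq hqM K * z :=
  exists_polys (V3.hyp3_iota3 hq hqM A hdvr π hπ hπq hξ) hA hB hπ 1
    (by rw [hπq, OneMemClass.coe_one, mul_one]) (BaseXi.exists_unit hq π hπ hπq hξ)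

end Fermat.Agent.S36.CuspKSInst
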