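/-
S36 — CuspSeam.lean (helper94; package [N10], fit-test desk of the cusp seam, dealt by helper92
and helper25): the seam

  `PhiCusp.exists_cuspPol` (helper7)  +  `CuspMem.y1_mem / y2_mem` (helper14)
      ⟹  the hypotheses `hyx hyx'' hne hP hP'' hPd` of `CuspDD.genAt_cusp` (helper92)
      ⟹  the binder `hcusp2` of `Princ3Cases.princ_of_cases` (helper9) on `chart J3⁻¹`,

compiled end to end for the OBJECTS OF RECORD at level `N = M q²`:

  `xC = j⁻¹`, `xqC = j_q⁻¹`, `xqqC = j_{q²}⁻¹`, `yC = j_q · (j⁻¹)^q`, `yC' = j_q · (j_{q²}⁻¹)^q`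

as elements of `R = chart N A K J3⁻¹`.  What remains open after this file are exactly the eight
`P`-memberships `h2x h2y h2y' hx2 h0 hx0 h1 hx1` of `CuspDD.genAt_cusp` for these five elements
(the Kronecker congruences / unit facts on the three components) and `q = π · ε`, `ε` a unit.

* `yC_mul`, `yC'_mul`, `xC_ne`, `J3_inv_eq`  : the algebraic identities;
* `exists_pol`                               : ONE `Pol ∈ ℤ[X][T]` with `Pol(xC, yC) = 0`,
                                               `Pol(xqqC, yC') = 0`, `∂_T Pol(0, 1) = 1`;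
* `cusp_princ`                               : `P 2` is principal at every cuspidal prime
                                               `n ⊇ P 2` of `R`, and `P 0, P 1 ≰ n`;
* `hcusp2`, `hcusp01_on_P2`                  : the shapes of `Princ3Cases.princ_of_cases`.
-/
import Mathlib
import Fermat.Agent.S36.PhiCusp
import Fermat.Agent.S36.CuspMem
import Fermat.Agent.S36.CuspDD
import Fermat.Agent.S36.Chart3B
import Fermat.Agent.S18.ModelBasicCore

set_option autoImplicit false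

open ModularCurve AlgebraicCurve HahnSeries Polynomial

namespace Fermat.Agent.S36.CuspSeam

open Fermat.Agent.S18 Fermat.Agent.S18.Arith Fermat.Agent.S34
open Fermat.Agent.S36.Model3Plan

noncomputable section

variable (M q : ℕ) [NeZero M] [NeZero q] (hq : q.Prime) (hqM : ¬ q ∣ M)
  (A : ValuationSubring Qb) (K : IntermediateField ℚ Qb)

/-- The cuspidal chart of record `chart (M q²) A K J3⁻¹`. -/
abbrev Rinf : Subalgebra (OK A K) (FK (M * q * q) K) :=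
  chart (M * q * q) A K (Chart3B.J3 M q hq hqM K)⁻¹

/-- `x = j⁻¹` in the cuspidal chart. -/
def xC : Rinf M q hq hqM A K :=
  ⟨(jK (M * q * q) K)⁻¹, Chart3B.jK_inv_mem_chart_J3_inv M q hq hqM A K⟩

/-- `x' = j_q⁻¹` in the cuspidal chart. -/
def xqC : Rinf M q hq hqM A K :=
  ⟨(WQ2.jqK2 M q hq hqM K)⁻¹, Chart3B.jqK2_inv_mem_chart_J3_inv M q hq hqM A K⟩

/-- `x'' = j_{q²}⁻¹` in the cuspidal chart. -/
def xqqC : Rinf M q hq hqM A K :=
  ⟨(WQ2.jqqK2 M q hq hqM K)⁻¹, Chart3B.jqqK2_inv_mem_chart_J3_inv M q hq hqM A K⟩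

/-- `y = j_q / j^q` in the cuspidal chart. -/
def yC : Rinf M q hq hqM A K :=
  ⟨WQ2.jqK2 M q hq hqM K * (jK (M * q * q) K)⁻¹ ^ q, CuspMem.y1_mem M q hq hqM A K⟩

/-- `y' = j_q / j_{q²}^q` in the cuspidal chart. -/
def yC' : Rinf M q hq hqM A K :=
  ⟨WQ2.jqK2 M q hq hqM K * (WQ2.jqqK2 M q hq hqM K)⁻¹ ^ q, CuspMem.y2_mem M q hq hqM A K⟩

@[simp] theorem coe_xC :
    ((xC M q hq hqM A K : Rinf M q hq hqM A K) : FK (M * q * q) K) = (jK (M * q * q) K)⁻¹ := rfl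

@[simp] theorem coe_xqC :
    ((xqC M q hq hqM A K : Rinf M q hq hqM A K) : FK (M * q * q) K)
      = (WQ2.jqK2 M q hq hqM K)⁻¹ := rfl

@[simp] theorem coe_xqqC :
    ((xqqC M q hq hqM A K : Rinf M q hq hqM A K) : FK (M * q * q) K)
      = (WQ2.jqqK2 M q hq hqM K)⁻¹ := rfl

@[simp] theorem coe_yC :
    ((yC M q hq hqM A K : Rinf M q hq hqM A K) : FK (M * q * q) K)
      = WQ2.jqK2 M q hq hqM K * (jK (M * q * q) K)⁻¹ ^ q := rfl

@[simp] theorem coe_yC' :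
    ((yC' M q hq hqM A K : Rinf M q hq hqM A K) : FK (M * q * q) K)
      = WQ2.jqK2 M q hq hqM K * (WQ2.jqqK2 M q hq hqM K)⁻¹ ^ q := rfl

/-- Division forms of the coercions (`jq / j^q`, `jq / jqq^q`). -/
theorem coe_yC_div :
    ((yC M q hq hqM A K : Rinf M q hq hqM A K) : FK (M * q * q) K)
      = WQ2.jqK2 M q hq hqM K / jK (M * q * q) K ^ q := by
  rw [coe_yC, div_eq_mul_inv, inv_pow]

theorem coe_yC'_div :
    ((yC' M q hq hqM A K : Rinf M q hq hqM A K) : FK (M * q * q) K)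
      = WQ2.jqK2 M q hq hqM K / WQ2.jqqK2 M q hq hqM K ^ q := by
  rw [coe_yC', div_eq_mul_inv, inv_pow]

/-- `y · x' = x^q`. -/
theorem yC_mul : yC M q hq hqM A K * xqC M q hq hqM A K = xC M q hq hqM A K ^ q := by
  apply Subtype.ext
  show WQ2.jqK2 M q hq hqM K * (jK (M * q * q) K)⁻¹ ^ q * (WQ2.jqK2 M q hq hqM K)⁻¹
    = (((xC M q hq hqM A K) ^ q : Rinf M q hq hqM A K) : FK (M * q * q) K)
  rw [SubmonoidClass.coe_pow, coe_xC]
  have h0 : WQ2.jqK2 M q hq hqM K ≠ 0 := Chart3B.jqK2_ne_zero M q hq hqM K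
  field_simp

/-- `y' · x' = x''^q`. -/
theorem yC'_mul : yC' M q hq hqM A K * xqC M q hq hqM A K = xqqC M q hq hqM A K ^ q := by
  apply Subtype.ext
  show WQ2.jqK2 M q hq hqM K * (WQ2.jqqK2 M q hq hqM K)⁻¹ ^ q * (WQ2.jqK2 M q hq hqM K)⁻¹
    = (((xqqC M q hq hqM A K) ^ q : Rinf M q hq hqM A K) : FK (M * q * q) K)
  rw [SubmonoidClass.coe_pow, coe_xqqC]
  have h0 : WQ2.jqK2 M q hq hqM K ≠ 0 := Chart3B.jqK2_ne_zero M q hq hqM K
  field_simp

/-- `j_{q²} ≠ j` (comparison of the coefficients of `Q⁻¹`). -/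
theorem jqqK2_ne_jK : WQ2.jqqK2 M q hq hqM K ≠ jK (M * q * q) K := by
  intro h
  have h1 : ((WQ2.jqqK2 M q hq hqM K : FK (M * q * q) K) : LaurentSeries Qb)
      = ((jK (M * q * q) K : FK (M * q * q) K) : LaurentSeries Qb) := by rw [h]
  have : NeZero (q * q) := ⟨Nat.mul_ne_zero hq.ne_zero hq.ne_zero⟩
  rw [WQ2.coe_jqqK2, ModelBasicCore.coe_jK, S28.jd_eq, S28.jd_one] at h1
  have h2 : (qExpand Qb (q * q) (jqModC Qb)).coeff (-1) = (jqModC Qb).coeff (-1) := by rw [h1]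
  rw [qExpand_coeff_of_not_dvd] at h2
  · rw [coeff_jqModC_neg_one] at h2
    exact zero_ne_one h2
  · intro hdvd
    have h4 : q * q ∣ 1 := by
      have := Int.natCast_dvd.mp hdvd
      simpa using this
    have h5 : q * q = 1 := Nat.dvd_one.mp h4
    have := hq.two_le
    nlinarith

/-- `x ≠ x''`. -/
theorem xC_ne : xC M q hq hqM A K ≠ xqqC M q hq hqM A K := by
  intro h
  have h1 : (jK (M * q * q) K)⁻¹ = (WQ2.jqqK2 M q hq hqM K)⁻¹ := congrArg Subtype.val h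
  exact jqqK2_ne_jK M q hq hqM K (inv_injective h1).symm

/-- `J3⁻¹ = x · x' · x''` in the cuspidal chart. -/
theorem J3_inv_eq :
    (⟨(Chart3B.J3 M q hq hqM K)⁻¹, ChartJ.self_mem_chart (M * q * q) A K _⟩ :
      Rinf M q hq hqM A K)
      = xC M q hq hqM A K * xqC M q hq hqM A K * xqqC M q hq hqM A K := by
  apply Subtype.ext
  show (Chart3B.J3 M q hq hqM K)⁻¹
    = (jK (M * q * q) K)⁻¹ * (WQ2.jqK2 M q hq hqM K)⁻¹ * (WQ2.jqqK2 M q hq hqM K)⁻¹
  rw [Chart3B.J3_eq, mul_inv, mul_inv]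

/-! ### The polynomial relation -/

/-- A `PhiAt`-relation in `F_K` between elements of a subalgebra is a relation in the
subalgebra, in the shape of `CuspDD.genAt_cusp` with `f := Int.castRingHom`. -/
theorem eval_of_coe {N : ℕ} {R : Subalgebra (OK A K) (FK N K)} (p : Polynomial (Polynomial ℤ))
    (x y : R) (h : (S28.PhiAt p (x : FK N K)).eval (y : FK N K) = 0) :
    (p.map (eval₂RingHom (Int.castRingHom R) x)).eval y = 0 :=
  PhiShape.eval_phiAt_of_injective (algebraMap R (FK N K)) Subtype.val_injective p x y h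

/-- **[CUSP-P] at the objects of record**: one polynomial `Pol ∈ ℤ[X][T]`, monic in `T`, with
`Pol(x, y) = 0`, `Pol(x'', y') = 0` in the cuspidal chart and `∂_T Pol(0, 1) = 1`. -/
theorem exists_pol :
    ∃ Pol : Polynomial (Polynomial ℤ), Pol.Monic ∧
      (Pol.map (evalRingHom (0 : ℤ))).derivative.eval 1 = 1 ∧
      (Pol.map (eval₂RingHom (Int.castRingHom (Rinf M q hq hqM A K)) (xC M q hq hqM A K))).eval
        (yC M q hq hqM A K) = 0 ∧
      (Pol.map (eval₂RingHom (Int.castRingHom (Rinf M q hq hqM A K)) (xqqC M q hq hqM A K))).eval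
        (yC' M q hq hqM A K) = 0 := by
  obtain ⟨p, hp, -, h0, hev⟩ := PhiCusp.exists_cuspPol.{0} hq
  have : NeZero (1 : ℕ) := ⟨one_ne_zero⟩
  refine ⟨p, hp, ?_, ?_, ?_⟩
  · rw [h0]
    exact PhiCusp.derivative_eval_one ℤ q
  · -- `d = 1`, first relation: `Pol(1/j, j_q/j^q) = 0`
    apply eval_of_coe
    have h1 := (PhiCusp.eval_of_coe (FK (M * q * q) K).subtype p (d := 1) (q := q)
      (a := jK (M * q * q) K) (b := WQ2.jqK2 M q hq hqM K)
      (ModelBasicCore.coe_jK (M * q * q) K) (by rw [one_mul]; exact WQ2.coe_jqK2 M q hq hqM K)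
      (hev Qb 1)).1
    rw [coe_xC, coe_yC, inv_pow]
    exact h1
  · -- `d = q`, second relation: `Pol(1/j_{q²}, j_q/j_{q²}^q) = 0`
    apply eval_of_coe
    have h2 := (PhiCusp.eval_of_coe (FK (M * q * q) K).subtype p (d := q) (q := q)
      (a := WQ2.jqK2 M q hq hqM K) (b := WQ2.jqqK2 M q hq hqM K)
      (WQ2.coe_jqK2 M q hq hqM K) (WQ2.coe_jqqK2 M q hq hqM K) (hev Qb q)).2
    rw [coe_xqqC, coe_yC', inv_pow]
    exact h2

/-! ### The seam -/

section Seam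

variable {M q hq hqM A K}
variable {π : OK A K} {e : Fin 3 → ℕ} {ϖ : Fin 3 → FK (M * q * q) K}
  {V : Fin 3 → ValuationSubring (FK (M * q * q) K)} {P : Fin 3 → Ideal (Rinf M q hq hqM A K)}

/-- **(B1) at the cuspidal points of `W3`, one point**: at a prime `n ⊇ P 2` of the cuspidal
chart containing `J3⁻¹`, the point is one-branch and `P 2` is principal at `n`.  Inputs: the
chart/valuation hypotheses, `q = π ε` with `ε` a unit, and the eight congruence/unit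
memberships of `CuspDD.genAt_cusp` for the five elements of record. -/
theorem cusp_princ [IsIntegrallyClosed (Rinf M q hq hqM A K)]
    (val : ValHyp3 (algebraMap (OK A K) (FK (M * q * q) K) π) e ϖ V)
    (hyp : ChartHyp3 π ϖ V P) (hp0 : algebraMap (OK A K) (FK (M * q * q) K) π ≠ 0)
    (he2 : e 2 = q - 1) {ε : OK A K} (hε : ((q : ℕ) : OK A K) = π * ε) (hεu : IsUnit ε)
    (h2x : xqqC M q hq hqM A K - xC M q hq hqM A K ∈ P 2)
    (h2y : yC M q hq hqM A K - 1 ∈ P 2) (h2y' : yC' M q hq hqM A K - 1 ∈ P 2)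
    (hx2 : xC M q hq hqM A K ∉ P 2)
    (h0 : xqqC M q hq hqM A K - xC M q hq hqM A K ^ (q ^ 2) ∈ P 0)
    (hx0 : xC M q hq hqM A K ∉ P 0)
    (h1 : xC M q hq hqM A K - xqqC M q hq hqM A K ^ (q ^ 2) ∈ P 1)
    (hx1 : xqqC M q hq hqM A K ∉ P 1)
    (n : Ideal (Rinf M q hq hqM A K)) (hn : n.IsPrime)
    (hJ : (⟨(Chart3B.J3 M q hq hqM K)⁻¹, ChartJ.self_mem_chart (M * q * q) A K _⟩ :
      Rinf M q hq hqM A K) ∈ n) (h2 : P 2 ≤ n) :
    ¬ P 0 ≤ n ∧ ¬ P 1 ≤ n ∧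
      (∃ g ∈ P 2, ∃ s v : Rinf M q hq hqM A K, s ∉ n ∧ v ∉ n ∧
        s * g ^ (q - 1) = algebraMap (OK A K) (Rinf M q hq hqM A K) π * v) ∧
      ∃ g ∈ P 2, ∀ z ∈ P 2, ∃ s : Rinf M q hq hqM A K, s ∉ n ∧
        ∃ c : Rinf M q hq hqM A K, s * z = c * g := by
  obtain ⟨Pol, -, hd, hP, hP''⟩ := exists_pol M q hq hqM A K
  have h1n : (1 : Rinf M q hq hqM A K) ∉ n :=
    fun h => hn.ne_top ((Ideal.eq_top_iff_one n).mpr h)
  have hεR : ((q : ℕ) : Rinf M q hq hqM A K)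
      = algebraMap (OK A K) (Rinf M q hq hqM A K) π
        * algebraMap (OK A K) (Rinf M q hq hqM A K) ε := by
    rw [← map_mul, ← hε, map_natCast]
  have hεn : algebraMap (OK A K) (Rinf M q hq hqM A K) ε ∉ n := by
    intro h
    obtain ⟨ε', hε'⟩ := hεu.exists_right_inv
    apply h1n
    have h3 := n.mul_mem_right (algebraMap (OK A K) (Rinf M q hq hqM A K) ε') h
    rwa [← map_mul, hε', map_one] at h3
  have hcusp : xC M q hq hqM A K * xqC M q hq hqM A K * xqqC M q hq hqM A K ∈ n := by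
    rw [← J3_inv_eq]
    exact hJ
  have hPd : (Int.castRingHom (Rinf M q hq hqM A K))
      ((Pol.map (evalRingHom (0 : ℤ))).derivative.eval 1) ∉ n := by
    rw [hd, map_one]
    exact h1n
  have hU := CuspDD.unit_at_cusp (E := FK (M * q * q) K) val hyp hp0 hq he2 n hn h2 hεR hεn
    (yC_mul M q hq hqM A K) (yC'_mul M q hq hqM A K) hcusp (xC_ne M q hq hqM A K)
    h2x h2y h2y' hx2 h0 hx0 h1 hx1 (Int.castRingHom (Rinf M q hq hqM A K)) Pol hP hP'' hPd
  have hG := CuspDD.genAt_cusp (E := FK (M * q * q) K) val hyp hp0 hq he2 n hn h2 hεR hεn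
    (yC_mul M q hq hqM A K) (yC'_mul M q hq hqM A K) hcusp (xC_ne M q hq hqM A K)
    h2x h2y h2y' hx2 h0 hx0 h1 hx1 (Int.castRingHom (Rinf M q hq hqM A K)) Pol hP hP'' hPd
  exact ⟨hU.1, hU.2.1, hU.2.2, hG⟩

/-- **`hcusp2` of `Princ3Cases.princ_of_cases`** on the cuspidal chart, `C n := J3⁻¹ ∉ n`. -/
theorem hcusp2 [IsIntegrallyClosed (Rinf M q hq hqM A K)]
    (val : ValHyp3 (algebraMap (OK A K) (FK (M * q * q) K) π) e ϖ V)
    (hyp : ChartHyp3 π ϖ V P) (hp0 : algebraMap (OK A K) (FK (M * q * q) K) π ≠ 0)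
    (he2 : e 2 = q - 1) {ε : OK A K} (hε : ((q : ℕ) : OK A K) = π * ε) (hεu : IsUnit ε)
    (h2x : xqqC M q hq hqM A K - xC M q hq hqM A K ∈ P 2)
    (h2y : yC M q hq hqM A K - 1 ∈ P 2) (h2y' : yC' M q hq hqM A K - 1 ∈ P 2)
    (hx2 : xC M q hq hqM A K ∉ P 2)
    (h0 : xqqC M q hq hqM A K - xC M q hq hqM A K ^ (q ^ 2) ∈ P 0)
    (hx0 : xC M q hq hqM A K ∉ P 0)
    (h1 : xC M q hq hqM A K - xqqC M q hq hqM A K ^ (q ^ 2) ∈ P 1)
    (hx1 : xqqC M q hq hqM A K ∉ P 1) :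
    ∀ n : Ideal (Rinf M q hq hqM A K), n.IsMaximal →
      algebraMap (OK A K) (Rinf M q hq hqM A K) π ∈ n →
      ¬ ((⟨(Chart3B.J3 M q hq hqM K)⁻¹, ChartJ.self_mem_chart (M * q * q) A K _⟩ :
        Rinf M q hq hqM A K) ∉ n) →
      P 2 ≤ n →
      ∃ i : Fin 3, P i ≤ n ∧ ∃ g ∈ P i, ∀ y ∈ P i, ∃ s : Rinf M q hq hqM A K, s ∉ n ∧
        ∃ c : Rinf M q hq hqM A K, s * y = c * g := fun n hn _ hC h2 =>
  ⟨2, h2, (cusp_princ val hyp hp0 he2 hε hεu h2x h2y h2y' hx2 h0 hx0 h1 hx1 n hn.isPrime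
    (not_not.mp hC) h2).2.2.2⟩

/-- The cuspidal points of `W3` are one-branch (the part of `hcusp01` / [CUSP1] on `P 2`). -/
theorem hcusp01_on_P2 [IsIntegrallyClosed (Rinf M q hq hqM A K)]
    (val : ValHyp3 (algebraMap (OK A K) (FK (M * q * q) K) π) e ϖ V)
    (hyp : ChartHyp3 π ϖ V P) (hp0 : algebraMap (OK A K) (FK (M * q * q) K) π ≠ 0)
    (he2 : e 2 = q - 1) {ε : OK A K} (hε : ((q : ℕ) : OK A K) = π * ε) (hεu : IsUnit ε)
    (h2x : xqqC M q hq hqM A K - xC M q hq hqM A K ∈ P 2)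
    (h2y : yC M q hq hqM A K - 1 ∈ P 2) (h2y' : yC' M q hq hqM A K - 1 ∈ P 2)
    (hx2 : xC M q hq hqM A K ∉ P 2)
    (h0 : xqqC M q hq hqM A K - xC M q hq hqM A K ^ (q ^ 2) ∈ P 0)
    (hx0 : xC M q hq hqM A K ∉ P 0)
    (h1 : xC M q hq hqM A K - xqqC M q hq hqM A K ^ (q ^ 2) ∈ P 1)
    (hx1 : xqqC M q hq hqM A K ∉ P 1) :
    ∀ n : Ideal (Rinf M q hq hqM A K), n.IsPrime →
      (⟨(Chart3B.J3 M q hq hqM K)⁻¹, ChartJ.self_mem_chart (M * q * q) A K _⟩ :
        Rinf M q hq hqM A K) ∈ n →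
      P 2 ≤ n → ¬ P 0 ≤ n ∧ ¬ P 1 ≤ n := fun n hn hJ h2 =>
  let h := cusp_princ val hyp hp0 he2 hε hεu h2x h2y h2y' hx2 h0 hx0 h1 hx1 n hn hJ h2
  ⟨h.1, h.2.1⟩

end Seam

end

end Fermat.Agent.S36.CuspSeam
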