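/-
S36 — CuspMem3.lean (helper120): **[N10] (P3) helper — the nine `P i`-memberships of
`CuspDD.genAt_cusp` / `CuspDD.unit_at_cusp` at the middle cusps**, from the Kronecker congruences
of `S36/CuspMono.lean` (helper79) and `ChartHyp3.mem_P`.

Level `N = M * q * q`, `j = jK N K`, `jq = WQ2.jqK2`, `jqq = WQ2.jqqK2`.  For ANY chart
`R : Subalgebra (OK A K) (FK N K)` with `hyp : ChartHyp3 π ϖ V P`, where
`V 0 = GaussV.V1`, `V 1 = GaussV.V2 wK2`, `V 2 = H.W3`, `ϖ 0 = ϖ 1 = π`, `ϖ 2 = Wit3.sE`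
(given as equalities, `rfl` for the families of record), and elements `x x' x'' y y' : R` with

  `(x : FK) = j⁻¹`, `(x' : FK) = jq⁻¹`, `(x'' : FK) = jqq⁻¹`,
  `(y : FK) = jq / j ^ q`, `(y' : FK) = jq / jqq ^ q`:

* `h2x : x'' - x ∈ P 2`, `h2y : y - 1 ∈ P 2`, `h2y' : y' - 1 ∈ P 2`, `hx2 : x ∉ P 2`,
* `h0 : x'' - x ^ (q ^ 2) ∈ P 0`, `hx0 : x ∉ P 0`,
* `h1 : x - x'' ^ (q ^ 2) ∈ P 1`, `hx1 : x'' ∉ P 1`,
* `hne : x ≠ x''`, `hyx : y * x' = x ^ q`, `hyx'' : y' * x' = x'' ^ q`,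
* `prod_eq : x * x' * x'' = c` whenever `(c : FK) = J3⁻¹` (so `hcusp` is `J3⁻¹ ∈ n`).

`mem8` bundles the eight memberships.  Finally the CLOSING CALLS at helper94's elements of record
(`S36/CuspSeam.lean`: `xC xqC xqqC yC yC'` in `chart N A K J3⁻¹`): `mem8_seam`, and
`cusp_princ`, `hcusp2`, `hcusp01_on_P2` = `CuspSeam.cusp_princ` / `hcusp2` / `hcusp01_on_P2` with
the eight memberships discharged — (B1) at the cuspidal closed points of `W3`, with inputs only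
`H : V3.Hyp3 …`, `val`, `hyp`, the family equalities, `e 2 = q - 1` and `q = π ε`, `ε` a unit.
-/
import Mathlib
import Fermat.Agent.S36.CuspMono
import Fermat.Agent.S36.CuspSeam

set_option autoImplicit false

noncomputable section

namespace Fermat.Agent.S36.CuspMem3

open ModularCurve AlgebraicCurve Fermat.Agent.S18.Arith
open Fermat.Agent.S18 Fermat.Agent.S34 Fermat.Agent.S36.Model3Plan

/-- `b / a ^ n * b⁻¹ = a⁻¹ ^ n`. -/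
theorem div_pow_mul_inv {E : Type*} [Field E] (a b : E) (hb : b ≠ 0) (n : ℕ) :
    b / a ^ n * b⁻¹ = a⁻¹ ^ n := by
  rw [inv_pow, div_eq_mul_inv, mul_right_comm, mul_inv_cancel₀ hb, one_mul]

/-! ### Generic conversion between `P i` and the valuation form -/

section Conv

variable {N : ℕ} [NeZero N] {A : ValuationSubring Qb} {K : IntermediateField ℚ Qb}
  {R : Subalgebra (OK A K) (FK N K)} {π : OK A K} {ϖ : Fin 3 → FK N K}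
  {V : Fin 3 → ValuationSubring (FK N K)} {P : Fin 3 → Ideal R}

/-- valuation form `⇒` membership in `P i`. -/
theorem mem_P_of (hyp : ChartHyp3 π ϖ V P) (i : Fin 3) {W : ValuationSubring (FK N K)}
    {p : FK N K} (hV : V i = W) (hϖ : ϖ i = p) {r : R} {a : FK N K} (hr : (r : FK N K) = a)
    (h : ∃ z ∈ W, a = p * z) : r ∈ P i := by
  obtain ⟨z, hz, hz'⟩ := h
  refine (hyp.mem_P i r).mpr ⟨z, hV ▸ hz, ?_⟩
  rw [hϖ, ← hz', ← hr]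
  rfl

/-- membership in `P i` `⇒` valuation form. -/
theorem exists_of_mem_P (hyp : ChartHyp3 π ϖ V P) (i : Fin 3) {W : ValuationSubring (FK N K)}
    {p : FK N K} (hV : V i = W) (hϖ : ϖ i = p) {r : R} {a : FK N K} (hr : (r : FK N K) = a)
    (h : r ∈ P i) : ∃ z ∈ W, a = p * z := by
  obtain ⟨z, hz, hz'⟩ := (hyp.mem_P i r).mp h
  refine ⟨z, hV ▸ hz, ?_⟩
  rw [← hϖ, ← hz', ← hr]
  rfl

end Conv

/-! ### The memberships -/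

section Mem

variable {M q : ℕ} [NeZero M] [NeZero q] {hq : q.Prime} {hqM : ¬ q ∣ M}
variable {A : ValuationSubring Qb} {K K' : IntermediateField ℚ Qb}
variable {ξ : Qb} {hξ0 : ξ ≠ 0} {ι : FK (M * q * q) K →+* LaurentSeries Qb} {ϖ' : OK A K'}
variable {R : Subalgebra (OK A K) (FK (M * q * q) K)} {π : OK A K}
  {ϖ : Fin 3 → FK (M * q * q) K} {V : Fin 3 → ValuationSubring (FK (M * q * q) K)}
  {P : Fin 3 → Ideal R}

/-! #### On `P 2` (the middle component `W3`) -/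

section W3

variable (H : V3.Hyp3 M q hq hqM A K K' ξ hξ0 ι ϖ') (hA : A.LiesOverPrime q)
  (hyp : ChartHyp3 π ϖ V P) (hV2 : V 2 = H.W3) (hϖ2 : ϖ 2 = Wit3.sE M q hq hqM K)

include hA hyp hV2 hϖ2

/-- `h2x`: `x'' - x ∈ P 2` (`jqq⁻¹ ≡ j⁻¹` on `W3`). -/
theorem h2x {x x'' : R} (hx : (x : FK (M * q * q) K) = (jK (M * q * q) K)⁻¹)
    (hx'' : (x'' : FK (M * q * q) K) = (WQ2.jqqK2 M q hq hqM K)⁻¹) : x'' - x ∈ P 2 :=
  mem_P_of hyp 2 hV2 hϖ2 (by rw [Subalgebra.coe_sub, hx'', hx])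
    (CuspMono.neg_form (CuspMono.X_sub_Y_s3 H hA))

/-- `h2y`: `y - 1 ∈ P 2` (`jq / j^q ≡ 1` on `W3`). -/
theorem h2y {y : R}
    (hy : (y : FK (M * q * q) K) = WQ2.jqK2 M q hq hqM K / jK (M * q * q) K ^ q) :
    y - 1 ∈ P 2 :=
  mem_P_of hyp 2 hV2 hϖ2 (by rw [Subalgebra.coe_sub, Subalgebra.coe_one, hy])
    (CuspMono.mu0_sub_one_s3 H hA)

/-- `h2y'`: `y' - 1 ∈ P 2` (`jq / jqq^q ≡ 1` on `W3`). -/
theorem h2y' {y' : R}
    (hy' : (y' : FK (M * q * q) K) = WQ2.jqK2 M q hq hqM K / WQ2.jqqK2 M q hq hqM K ^ q) :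
    y' - 1 ∈ P 2 :=
  mem_P_of hyp 2 hV2 hϖ2 (by rw [Subalgebra.coe_sub, Subalgebra.coe_one, hy'])
    (CuspMono.v2_sub_one_s3 H hA)

omit hA in
/-- `hx2`: `x ∉ P 2` (`j` is a unit of `W3`). -/
theorem hx2 {x : R} (hx : (x : FK (M * q * q) K) = (jK (M * q * q) K)⁻¹) : x ∉ P 2 := by
  intro h
  obtain ⟨z, hz, hz'⟩ := exists_of_mem_P hyp 2 hV2 hϖ2 hx h
  have hj : jK (M * q * q) K ≠ 0 := ModelBasicCore.jK_ne_zero (M * q * q) K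
  apply H.s_inv_not_mem
  have e : (Wit3.sE M q hq hqM K)⁻¹ = z * jK (M * q * q) K := by
    have h1 : Wit3.sE M q hq hqM K * (z * jK (M * q * q) K) = 1 := by
      rw [← mul_assoc, ← hz', inv_mul_cancel₀ hj]
    exact inv_eq_of_mul_eq_one_right h1
  rw [e]
  exact H.W3.mul_mem _ _ hz H.jK_unit.1

omit hA in
/-- the same for `x''` (`jqq` is a unit of `W3`). -/
theorem hx''2 {x'' : R} (hx'' : (x'' : FK (M * q * q) K) = (WQ2.jqqK2 M q hq hqM K)⁻¹) :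
    x'' ∉ P 2 := by
  intro h
  obtain ⟨z, hz, hz'⟩ := exists_of_mem_P hyp 2 hV2 hϖ2 hx'' h
  have hj : WQ2.jqqK2 M q hq hqM K ≠ 0 := Chart3B.jqqK2_ne_zero M q hq hqM K
  apply H.s_inv_not_mem
  have e : (Wit3.sE M q hq hqM K)⁻¹ = z * WQ2.jqqK2 M q hq hqM K := by
    have h1 : Wit3.sE M q hq hqM K * (z * WQ2.jqqK2 M q hq hqM K) = 1 := by
      rw [← mul_assoc, ← hz', inv_mul_cancel₀ hj]
    exact inv_eq_of_mul_eq_one_right h1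
  rw [e]
  exact H.W3.mul_mem _ _ hz H.jqqK2_unit.1

end W3

/-! #### On `P 0` (`W1 = GaussV.V1`) and `P 1` (`W2 = GaussV.V2 wK2`) -/

section W12

variable (hdvr : IsDiscreteValuationRing (OK A K)) (hA : A.LiesOverPrime q)
  (hπ : Irreducible π) (hyp : ChartHyp3 π ϖ V P)

include hA hπ hyp

/-- `h0`: `x'' - x ^ (q ^ 2) ∈ P 0` (`jqq⁻¹ ≡ (j⁻¹)^(q²)` on `W1`). -/
theorem h0 (hV0 : V 0 = GaussV.V1 (M * q * q) A K hdvr)
    (hϖ0 : ϖ 0 = algebraMap (OK A K) (FK (M * q * q) K) π) {x x'' : R}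
    (hx : (x : FK (M * q * q) K) = (jK (M * q * q) K)⁻¹)
    (hx'' : (x'' : FK (M * q * q) K) = (WQ2.jqqK2 M q hq hqM K)⁻¹) :
    x'' - x ^ (q ^ 2) ∈ P 0 :=
  mem_P_of hyp 0 hV0 hϖ0 (by rw [Subalgebra.coe_sub, Subalgebra.coe_pow, hx'', hx, sq])
    (CuspMono.Y_sub_X_pow_pi1 M q hq hqM A K hdvr hA hπ)

omit hA in
/-- `hx0`: `x ∉ P 0` (`j` is a unit of `W1`). -/
theorem hx0 (hV0 : V 0 = GaussV.V1 (M * q * q) A K hdvr)
    (hϖ0 : ϖ 0 = algebraMap (OK A K) (FK (M * q * q) K) π) {x : R}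
    (hx : (x : FK (M * q * q) K) = (jK (M * q * q) K)⁻¹) : x ∉ P 0 := by
  intro h
  obtain ⟨z, hz, hz'⟩ := exists_of_mem_P hyp 0 hV0 hϖ0 hx h
  have hj : jK (M * q * q) K ≠ 0 := ModelBasicCore.jK_ne_zero (M * q * q) K
  refine GaussV.one_notV1 hdvr hπ.not_isUnit (z * jK (M * q * q) K)
    ((GaussV.V1 (M * q * q) A K hdvr).mul_mem _ _ hz (GaussV.jK_mem_V1 hdvr)) ?_
  rw [← mul_assoc, ← hz', inv_mul_cancel₀ hj]

/-- `h1`: `x - x'' ^ (q ^ 2) ∈ P 1` (`j⁻¹ ≡ (jqq⁻¹)^(q²)` on `W2`). -/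
theorem h1 (hV1 : V 1 = GaussV.V2 (WQ2.wK2 M q hq hqM K) hdvr)
    (hϖ1 : ϖ 1 = algebraMap (OK A K) (FK (M * q * q) K) π) {x x'' : R}
    (hx : (x : FK (M * q * q) K) = (jK (M * q * q) K)⁻¹)
    (hx'' : (x'' : FK (M * q * q) K) = (WQ2.jqqK2 M q hq hqM K)⁻¹) :
    x - x'' ^ (q ^ 2) ∈ P 1 :=
  mem_P_of hyp 1 hV1 hϖ1 (by rw [Subalgebra.coe_sub, Subalgebra.coe_pow, hx'', hx, sq])
    (CuspMono.X_sub_Y_pow_pi2 M q hq hqM A K hdvr hA hπ)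

omit hA in
/-- `hx1`: `x'' ∉ P 1` (`jqq` is a unit of `W2`). -/
theorem hx1 (hV1 : V 1 = GaussV.V2 (WQ2.wK2 M q hq hqM K) hdvr)
    (hϖ1 : ϖ 1 = algebraMap (OK A K) (FK (M * q * q) K) π) {x'' : R}
    (hx'' : (x'' : FK (M * q * q) K) = (WQ2.jqqK2 M q hq hqM K)⁻¹) : x'' ∉ P 1 := by
  intro h
  obtain ⟨z, hz, hz'⟩ := exists_of_mem_P hyp 1 hV1 hϖ1 hx'' h
  have hj : WQ2.jqqK2 M q hq hqM K ≠ 0 := Chart3B.jqqK2_ne_zero M q hq hqM K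
  have hjV : WQ2.jqqK2 M q hq hqM K ∈ GaussV.V2 (WQ2.wK2 M q hq hqM K) hdvr := by
    rw [CuspMono.jqqK2_eq_mono]
    exact CuspMono.mono_mem_V2 M q hq hqM A K hdvr 0 0 1
  refine GaussV.one_notV2 (WQ2.wK2 M q hq hqM K) (WQ2.wK2_algebraMap_OK M q hq hqM K A) hdvr
    hπ.not_isUnit (z * WQ2.jqqK2 M q hq hqM K)
    ((GaussV.V2 (WQ2.wK2 M q hq hqM K) hdvr).mul_mem _ _ hz hjV) ?_
  rw [← mul_assoc, ← hz', inv_mul_cancel₀ hj]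

end W12

/-! #### Field identities -/

section Ident

/-- `hne`: `x ≠ x''` (`j ≠ jqq`, as `s = jqq − j ≠ 0`). -/
theorem hne (H : V3.Hyp3 M q hq hqM A K K' ξ hξ0 ι ϖ') {x x'' : R}
    (hx : (x : FK (M * q * q) K) = (jK (M * q * q) K)⁻¹)
    (hx'' : (x'' : FK (M * q * q) K) = (WQ2.jqqK2 M q hq hqM K)⁻¹) : x ≠ x'' := by
  intro h
  apply H.s_ne_zero
  have h1 : (jK (M * q * q) K)⁻¹ = (WQ2.jqqK2 M q hq hqM K)⁻¹ := by rw [← hx, ← hx'', h]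
  unfold Wit3.sE
  rw [inv_injective h1, sub_self]

/-- `hyx`: `y * x' = x ^ q`. -/
theorem hyx {x x' y : R} (hx : (x : FK (M * q * q) K) = (jK (M * q * q) K)⁻¹)
    (hx' : (x' : FK (M * q * q) K) = (WQ2.jqK2 M q hq hqM K)⁻¹)
    (hy : (y : FK (M * q * q) K) = WQ2.jqK2 M q hq hqM K / jK (M * q * q) K ^ q) :
    y * x' = x ^ q := by
  apply Subtype.ext
  rw [Subalgebra.coe_mul, Subalgebra.coe_pow, hy, hx', hx]
  exact div_pow_mul_inv _ _ (Chart3B.jqK2_ne_zero M q hq hqM K) q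

/-- `hyx''`: `y' * x' = x'' ^ q`. -/
theorem hyx'' {x' x'' y' : R} (hx' : (x' : FK (M * q * q) K) = (WQ2.jqK2 M q hq hqM K)⁻¹)
    (hx'' : (x'' : FK (M * q * q) K) = (WQ2.jqqK2 M q hq hqM K)⁻¹)
    (hy' : (y' : FK (M * q * q) K) = WQ2.jqK2 M q hq hqM K / WQ2.jqqK2 M q hq hqM K ^ q) :
    y' * x' = x'' ^ q := by
  apply Subtype.ext
  rw [Subalgebra.coe_mul, Subalgebra.coe_pow, hy', hx', hx'']
  exact div_pow_mul_inv _ _ (Chart3B.jqK2_ne_zero M q hq hqM K) q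

/-- `x * x' * x'' = J3⁻¹` in the chart (so `hcusp` of `CuspDD` is "`J3⁻¹ ∈ n`"). -/
theorem prod_eq {x x' x'' c : R} (hx : (x : FK (M * q * q) K) = (jK (M * q * q) K)⁻¹)
    (hx' : (x' : FK (M * q * q) K) = (WQ2.jqK2 M q hq hqM K)⁻¹)
    (hx'' : (x'' : FK (M * q * q) K) = (WQ2.jqqK2 M q hq hqM K)⁻¹)
    (hc : (c : FK (M * q * q) K) = (Chart3B.J3 M q hq hqM K)⁻¹) : x * x' * x'' = c := by
  apply Subtype.ext
  rw [Subalgebra.coe_mul, Subalgebra.coe_mul, hx, hx', hx'', hc, Chart3B.J3_eq, mul_inv,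
    mul_inv]

end Ident

end Mem

/-! ### All eight memberships at once -/

section All

variable {M q : ℕ} [NeZero M] [NeZero q] {hq : q.Prime} {hqM : ¬ q ∣ M}
variable {A : ValuationSubring Qb} {K K' : IntermediateField ℚ Qb}
variable {ξ : Qb} {hξ0 : ξ ≠ 0} {ι : FK (M * q * q) K →+* LaurentSeries Qb} {ϖ' : OK A K'}
variable {R : Subalgebra (OK A K) (FK (M * q * q) K)} {π : OK A K}
  {ϖ : Fin 3 → FK (M * q * q) K} {V : Fin 3 → ValuationSubring (FK (M * q * q) K)}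
  {P : Fin 3 → Ideal R}

/-- The eight memberships `h2x h2y h2y' hx2 h0 hx0 h1 hx1` of `CuspDD.genAt_cusp` (in this
order) for ANY chart `R` and ANY elements with the prescribed values. -/
theorem mem8 (H : V3.Hyp3 M q hq hqM A K K' ξ hξ0 ι ϖ') (hA : A.LiesOverPrime q)
    (hdvr : IsDiscreteValuationRing (OK A K)) (hπ : Irreducible π) (hyp : ChartHyp3 π ϖ V P)
    (hV0 : V 0 = GaussV.V1 (M * q * q) A K hdvr)
    (hV1 : V 1 = GaussV.V2 (WQ2.wK2 M q hq hqM K) hdvr) (hV2 : V 2 = H.W3)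
    (hϖ0 : ϖ 0 = algebraMap (OK A K) (FK (M * q * q) K) π)
    (hϖ1 : ϖ 1 = algebraMap (OK A K) (FK (M * q * q) K) π)
    (hϖ2 : ϖ 2 = Wit3.sE M q hq hqM K) {x x'' y y' : R}
    (hx : (x : FK (M * q * q) K) = (jK (M * q * q) K)⁻¹)
    (hx'' : (x'' : FK (M * q * q) K) = (WQ2.jqqK2 M q hq hqM K)⁻¹)
    (hy : (y : FK (M * q * q) K) = WQ2.jqK2 M q hq hqM K / jK (M * q * q) K ^ q)
    (hy' : (y' : FK (M * q * q) K) = WQ2.jqK2 M q hq hqM K / WQ2.jqqK2 M q hq hqM K ^ q) :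
    x'' - x ∈ P 2 ∧ y - 1 ∈ P 2 ∧ y' - 1 ∈ P 2 ∧ x ∉ P 2 ∧
      x'' - x ^ (q ^ 2) ∈ P 0 ∧ x ∉ P 0 ∧ x - x'' ^ (q ^ 2) ∈ P 1 ∧ x'' ∉ P 1 :=
  ⟨h2x H hA hyp hV2 hϖ2 hx hx'', h2y H hA hyp hV2 hϖ2 hy, h2y' H hA hyp hV2 hϖ2 hy',
    hx2 H hyp hV2 hϖ2 hx, h0 hdvr hA hπ hyp hV0 hϖ0 hx hx'', hx0 hdvr hπ hyp hV0 hϖ0 hx,
    h1 hdvr hA hπ hyp hV1 hϖ1 hx hx'', hx1 hdvr hπ hyp hV1 hϖ1 hx''⟩

end All

/-! ### The closing calls: `CuspSeam` (helper94) at the elements of record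

`CuspSeam.cusp_princ` / `hcusp2` / `hcusp01_on_P2` with the eight memberships discharged:
(B1) at the cuspidal closed points of `W3` on the chart at infinity `chart N A K J3⁻¹`. -/

section Seam

variable {M q : ℕ} [NeZero M] [NeZero q] {hq : q.Prime} {hqM : ¬ q ∣ M}
variable {A : ValuationSubring Qb} {K K' : IntermediateField ℚ Qb}
variable {ξ : Qb} {hξ0 : ξ ≠ 0} {ι : FK (M * q * q) K →+* LaurentSeries Qb} {ϖ' : OK A K'}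
variable {π : OK A K} {e : Fin 3 → ℕ} {ϖ : Fin 3 → FK (M * q * q) K}
  {V : Fin 3 → ValuationSubring (FK (M * q * q) K)}
  {P : Fin 3 → Ideal (CuspSeam.Rinf M q hq hqM A K)}

/-- The eight memberships for helper94's elements of record `xC xqqC yC yC'`. -/
theorem mem8_seam (H : V3.Hyp3 M q hq hqM A K K' ξ hξ0 ι ϖ') (hA : A.LiesOverPrime q)
    (hdvr : IsDiscreteValuationRing (OK A K)) (hπ : Irreducible π) (hyp : ChartHyp3 π ϖ V P)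
    (hV0 : V 0 = GaussV.V1 (M * q * q) A K hdvr)
    (hV1 : V 1 = GaussV.V2 (WQ2.wK2 M q hq hqM K) hdvr) (hV2 : V 2 = H.W3)
    (hϖ0 : ϖ 0 = algebraMap (OK A K) (FK (M * q * q) K) π)
    (hϖ1 : ϖ 1 = algebraMap (OK A K) (FK (M * q * q) K) π)
    (hϖ2 : ϖ 2 = Wit3.sE M q hq hqM K) :
    CuspSeam.xqqC M q hq hqM A K - CuspSeam.xC M q hq hqM A K ∈ P 2 ∧
      CuspSeam.yC M q hq hqM A K - 1 ∈ P 2 ∧ CuspSeam.yC' M q hq hqM A K - 1 ∈ P 2 ∧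
      CuspSeam.xC M q hq hqM A K ∉ P 2 ∧
      CuspSeam.xqqC M q hq hqM A K - CuspSeam.xC M q hq hqM A K ^ (q ^ 2) ∈ P 0 ∧
      CuspSeam.xC M q hq hqM A K ∉ P 0 ∧
      CuspSeam.xC M q hq hqM A K - CuspSeam.xqqC M q hq hqM A K ^ (q ^ 2) ∈ P 1 ∧
      CuspSeam.xqqC M q hq hqM A K ∉ P 1 :=
  mem8 H hA hdvr hπ hyp hV0 hV1 hV2 hϖ0 hϖ1 hϖ2 (CuspSeam.coe_xC M q hq hqM A K)
    (CuspSeam.coe_xqqC M q hq hqM A K) (CuspSeam.coe_yC_div M q hq hqM A K)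
    (CuspSeam.coe_yC'_div M q hq hqM A K)

/-- **(B1) at a cuspidal point of `W3`** (`CuspSeam.cusp_princ`, memberships discharged): at a
prime `n ⊇ P 2` of `chart N A K J3⁻¹` with `J3⁻¹ ∈ n`, the point is one-branch, the unit
identity `s g^(q-1) = π v` holds and `P 2` is principal at `n`. -/
theorem cusp_princ [IsIntegrallyClosed (CuspSeam.Rinf M q hq hqM A K)]
    (H : V3.Hyp3 M q hq hqM A K K' ξ hξ0 ι ϖ') (hA : A.LiesOverPrime q)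
    (hdvr : IsDiscreteValuationRing (OK A K)) (hπ : Irreducible π)
    (val : ValHyp3 (algebraMap (OK A K) (FK (M * q * q) K) π) e ϖ V)
    (hyp : ChartHyp3 π ϖ V P)
    (hV0 : V 0 = GaussV.V1 (M * q * q) A K hdvr)
    (hV1 : V 1 = GaussV.V2 (WQ2.wK2 M q hq hqM K) hdvr) (hV2 : V 2 = H.W3)
    (hϖ0 : ϖ 0 = algebraMap (OK A K) (FK (M * q * q) K) π)
    (hϖ1 : ϖ 1 = algebraMap (OK A K) (FK (M * q * q) K) π)
    (hϖ2 : ϖ 2 = Wit3.sE M q hq hqM K)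
    (he2 : e 2 = q - 1) {ε : OK A K} (hε : ((q : ℕ) : OK A K) = π * ε) (hεu : IsUnit ε)
    (n : Ideal (CuspSeam.Rinf M q hq hqM A K)) (hn : n.IsPrime)
    (hJ : (⟨(Chart3B.J3 M q hq hqM K)⁻¹, ChartJ.self_mem_chart (M * q * q) A K _⟩ :
      CuspSeam.Rinf M q hq hqM A K) ∈ n) (h2 : P 2 ≤ n) :
    ¬ P 0 ≤ n ∧ ¬ P 1 ≤ n ∧
      (∃ g ∈ P 2, ∃ s v : CuspSeam.Rinf M q hq hqM A K, s ∉ n ∧ v ∉ n ∧
        s * g ^ (q - 1) = algebraMap (OK A K) (CuspSeam.Rinf M q hq hqM A K) π * v) ∧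
      ∃ g ∈ P 2, ∀ z ∈ P 2, ∃ s : CuspSeam.Rinf M q hq hqM A K, s ∉ n ∧
        ∃ c : CuspSeam.Rinf M q hq hqM A K, s * z = c * g := by
  obtain ⟨a1, a2, a3, a4, a5, a6, a7, a8⟩ :=
    mem8_seam H hA hdvr hπ hyp hV0 hV1 hV2 hϖ0 hϖ1 hϖ2
  exact CuspSeam.cusp_princ val hyp (GaussV.algebraMap_ne_zero (M * q * q) A K hπ.ne_zero)
    he2 hε hεu a1 a2 a3 a4 a5 a6 a7 a8 n hn hJ h2

/-- **`hcusp2` of `Princ3Cases.princ_of_cases`** on the chart at infinity (`C n := J3⁻¹ ∉ n`),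
memberships discharged. -/
theorem hcusp2 [IsIntegrallyClosed (CuspSeam.Rinf M q hq hqM A K)]
    (H : V3.Hyp3 M q hq hqM A K K' ξ hξ0 ι ϖ') (hA : A.LiesOverPrime q)
    (hdvr : IsDiscreteValuationRing (OK A K)) (hπ : Irreducible π)
    (val : ValHyp3 (algebraMap (OK A K) (FK (M * q * q) K) π) e ϖ V)
    (hyp : ChartHyp3 π ϖ V P)
    (hV0 : V 0 = GaussV.V1 (M * q * q) A K hdvr)
    (hV1 : V 1 = GaussV.V2 (WQ2.wK2 M q hq hqM K) hdvr) (hV2 : V 2 = H.W3)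
    (hϖ0 : ϖ 0 = algebraMap (OK A K) (FK (M * q * q) K) π)
    (hϖ1 : ϖ 1 = algebraMap (OK A K) (FK (M * q * q) K) π)
    (hϖ2 : ϖ 2 = Wit3.sE M q hq hqM K)
    (he2 : e 2 = q - 1) {ε : OK A K} (hε : ((q : ℕ) : OK A K) = π * ε) (hεu : IsUnit ε) :
    ∀ n : Ideal (CuspSeam.Rinf M q hq hqM A K), n.IsMaximal →
      algebraMap (OK A K) (CuspSeam.Rinf M q hq hqM A K) π ∈ n →
      ¬ ((⟨(Chart3B.J3 M q hq hqM K)⁻¹, ChartJ.self_mem_chart (M * q * q) A K _⟩ :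
        CuspSeam.Rinf M q hq hqM A K) ∉ n) →
      P 2 ≤ n →
      ∃ i : Fin 3, P i ≤ n ∧ ∃ g ∈ P i, ∀ y ∈ P i, ∃ s : CuspSeam.Rinf M q hq hqM A K,
        s ∉ n ∧ ∃ c : CuspSeam.Rinf M q hq hqM A K, s * y = c * g := by
  obtain ⟨a1, a2, a3, a4, a5, a6, a7, a8⟩ :=
    mem8_seam H hA hdvr hπ hyp hV0 hV1 hV2 hϖ0 hϖ1 hϖ2
  exact CuspSeam.hcusp2 val hyp (GaussV.algebraMap_ne_zero (M * q * q) A K hπ.ne_zero)
    he2 hε hεu a1 a2 a3 a4 a5 a6 a7 a8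

/-- The cuspidal points of `W3` are one-branch (`CuspSeam.hcusp01_on_P2`, memberships
discharged). -/
theorem hcusp01_on_P2 [IsIntegrallyClosed (CuspSeam.Rinf M q hq hqM A K)]
    (H : V3.Hyp3 M q hq hqM A K K' ξ hξ0 ι ϖ') (hA : A.LiesOverPrime q)
    (hdvr : IsDiscreteValuationRing (OK A K)) (hπ : Irreducible π)
    (val : ValHyp3 (algebraMap (OK A K) (FK (M * q * q) K) π) e ϖ V)
    (hyp : ChartHyp3 π ϖ V P)
    (hV0 : V 0 = GaussV.V1 (M * q * q) A K hdvr)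
    (hV1 : V 1 = GaussV.V2 (WQ2.wK2 M q hq hqM K) hdvr) (hV2 : V 2 = H.W3)
    (hϖ0 : ϖ 0 = algebraMap (OK A K) (FK (M * q * q) K) π)
    (hϖ1 : ϖ 1 = algebraMap (OK A K) (FK (M * q * q) K) π)
    (hϖ2 : ϖ 2 = Wit3.sE M q hq hqM K)
    (he2 : e 2 = q - 1) {ε : OK A K} (hε : ((q : ℕ) : OK A K) = π * ε) (hεu : IsUnit ε) :
    ∀ n : Ideal (CuspSeam.Rinf M q hq hqM A K), n.IsPrime →
      (⟨(Chart3B.J3 M q hq hqM K)⁻¹, ChartJ.self_mem_chart (M * q * q) A K _⟩ :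
        CuspSeam.Rinf M q hq hqM A K) ∈ n →
      P 2 ≤ n → ¬ P 0 ≤ n ∧ ¬ P 1 ≤ n := by
  obtain ⟨a1, a2, a3, a4, a5, a6, a7, a8⟩ :=
    mem8_seam H hA hdvr hπ hyp hV0 hV1 hV2 hϖ0 hϖ1 hϖ2
  exact CuspSeam.hcusp01_on_P2 val hyp
    (GaussV.algebraMap_ne_zero (M * q * q) A K hπ.ne_zero) he2 hε hεu a1 a2 a3 a4 a5 a6 a7 a8

end Seam

end Fermat.Agent.S36.CuspMem3
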