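/-
S36 — CuspMu.lean (helper60): [CUSP-a], the TRANSPORT half.

The monomial functions `j_q / j^q`, `j_{q²} / j_q^q`, `j_q / j_{q²}^q`, `j / j_q^q`,
`j_{q²} / j^{q²}`, `j / j_{q²}^{q²}`, `j_q / (j^{q-1} j_{q²})` of level `M q²` lie in the chart
at infinity `chart (M q²) J3⁻¹`, GIVEN the core statement at ANY lower level `L ∣ M q`
(e.g. `L = 1 * q`):

  `Core` :  `j_q · (j⁻¹)^q` is integral over `O[j⁻¹]`.

The core itself (conjugates over `K(j)` / shape of the modular equation) is proved elsewhere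
(`S36/CuspChart.lean`, ...); this file is route-independent: `core_of_level` accepts any element
of `F_K(L)`, `L ∣ M q`, integral over `O[j⁻¹]`, with the right `q`-expansion.

Transport: `α` (inclusion of level `M q`), `β` (`Q ↦ Q^q`), the Atkin–Lehner involution
`w_{q²}` (which swaps `j` and `j_{q²}` and fixes `j_q` and the chart `J3⁻¹`), products, and
root-closedness of charts.
-/
import Mathlib
import Fermat.Agent.S36.Chart3B

set_option autoImplicit false

noncomputable section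

namespace Fermat.Agent.S36.CuspMu

open ModularCurve AlgebraicCurve HahnSeries
open Fermat.Agent.S18 Fermat.Agent.S18.Arith Fermat.Agent.S34

set_option synthInstance.maxHeartbeats 400000

/-! ### Two field identities -/

theorem field_prod {F : Type*} [Field F] (a b c : F) (hb : b ≠ 0) (n : ℕ) :
    a * b⁻¹ ^ n * (b * c⁻¹ ^ n) ^ n = a * c⁻¹ ^ (n * n) := by
  rw [mul_pow, ← pow_mul, mul_assoc, ← mul_assoc (b⁻¹ ^ n), ← mul_pow, inv_mul_cancel₀ hb,
    one_pow, one_mul]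

theorem field_root {F : Type*} [Field F] (a b c : F) (n : ℕ) (hn : 1 ≤ n) :
    (a * (b⁻¹ ^ (n - 1) * c⁻¹)) ^ n = (a * b⁻¹ ^ n) ^ (n - 1) * (a * c⁻¹ ^ n) := by
  have e1 : a ^ n = a ^ (n - 1) * a := by rw [← pow_succ, Nat.sub_add_cancel hn]
  rw [mul_pow, mul_pow, mul_pow, ← pow_mul, ← pow_mul, e1, mul_comm (n - 1) n]
  ring

/-! ### Integrality is transported by ring homomorphisms fixing the constants -/

section Generic

variable (A : ValuationSubring Qb) (K : IntermediateField ℚ Qb)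

/-- A ring homomorphism `φ : F_K(L) → F_K(N)` fixing the constants of `O` transports integrality
over `O[t]` to integrality over `O[φ t]`. -/
theorem isIntegral_ringHom {L N : ℕ} (φ : FK L K →+* FK N K)
    (hφ : ∀ c : OK A K, φ (algebraMap (OK A K) (FK L K) c) = algebraMap (OK A K) (FK N K) c)
    {t x : FK L K} (hx : IsIntegral (Algebra.adjoin (OK A K) {t}) x) :
    IsIntegral (Algebra.adjoin (OK A K) {φ t}) (φ x) := by
  have hmem : ∀ y ∈ Algebra.adjoin (OK A K) {t}, φ y ∈ Algebra.adjoin (OK A K) {φ t} := by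
    intro y hy
    induction hy using Algebra.adjoin_induction with
    | mem y hy =>
      rw [Set.mem_singleton_iff] at hy
      rw [hy]
      exact Algebra.subset_adjoin (Set.mem_singleton _)
    | algebraMap c =>
      rw [hφ]
      exact Subalgebra.algebraMap_mem _ c
    | add y z _ _ hy hz =>
      rw [map_add]
      exact add_mem hy hz
    | mul y z _ _ hy hz =>
      rw [map_mul]
      exact mul_mem hy hz
  let ψ : Algebra.adjoin (OK A K) {t} →+* Algebra.adjoin (OK A K) {φ t} :=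
    (φ.comp (Algebra.adjoin (OK A K) {t}).val.toRingHom).codRestrict
      (Algebra.adjoin (OK A K) {φ t}).toSubring (fun y => hmem y y.2)
  exact IsIntegral.map_of_comp_eq ψ φ (RingHom.ext fun y => rfl) hx

/-- The level inclusion maps `chart L t` into `chart N (incl t)`. -/
theorem incl_isIntegral {L N : ℕ} (h : L ∣ N) {t x : FK L K}
    (hx : IsIntegral (Algebra.adjoin (OK A K) {t}) x) :
    IsIntegral (Algebra.adjoin (OK A K) {DegTower.incl L N K h t}) (DegTower.incl L N K h x) :=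
  isIntegral_ringHom A K (DegTower.incl L N K h)
    (fun c => DegTower.incl_constK L N K h (c : K)) hx

end Generic

variable (M q : ℕ) [NeZero M] [NeZero q] (hq : q.Prime) (hqM : ¬ q ∣ M)
variable (A : ValuationSubring Qb) (K : IntermediateField ℚ Qb)

/-! ### The core statement -/

/-- **The core at level `M q`**: `j_q · (j⁻¹)^q` is integral over `O[j⁻¹]`. -/
def Core : Prop :=
  IsIntegral (Algebra.adjoin (OK A K) {(jK (M * q) K)⁻¹})
    (WK.jqK M q hq hqM K * ((jK (M * q) K)⁻¹) ^ q)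

theorem core_iff :
    Core M q hq hqM A K ↔
      IsIntegral (Algebra.adjoin (OK A K) {(jK (M * q) K)⁻¹})
        (WK.jqK M q hq hqM K * ((jK (M * q) K)⁻¹) ^ q) := Iff.rfl

/-- The core at level `M q` as a chart membership. -/
theorem Core.mem_chart (hc : Core M q hq hqM A K) :
    WK.jqK M q hq hqM K * ((jK (M * q) K)⁻¹) ^ q ∈ chart (M * q) A K (jK (M * q) K)⁻¹ :=
  (mem_chart_iff (M * q) A K).mpr hc

/-- **Route-independent entry**: any element of `F_K(L)`, `L ∣ M q`, integral over `O[j⁻¹]`,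
with `q`-expansion `j(Q^q) · j(Q)^{-q}`, gives the core at level `M q`. -/
theorem core_of_level {L : ℕ} [NeZero L] (hL : L ∣ M * q) (x : FK L K)
    (hx : IsIntegral (Algebra.adjoin (OK A K) {(jK L K)⁻¹}) x)
    (hcoe : (x : LaurentSeries Qb) = S28.jd Qb q * ((S28.jd Qb 1)⁻¹) ^ q) :
    Core M q hq hqM A K := by
  have h := incl_isIntegral A K hL hx
  rw [map_inv₀, DegTower.incl_jK] at h
  have e : DegTower.incl L (M * q) K hL x
      = WK.jqK M q hq hqM K * ((jK (M * q) K)⁻¹) ^ q := by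
    apply Subtype.ext
    rw [DegTower.coe_incl, hcoe, Subfield.coe_mul, SubmonoidClass.coe_pow, Subfield.coe_inv,
      WK.coe_jqK, ModelBasicCore.coe_jK]
  rw [e] at h
  exact h

/-- The core at level `1 * q` gives the core at every level `M q`. -/
theorem core_of_level_one (h1 : ¬ q ∣ 1) (hc : Core 1 q hq h1 A K) : Core M q hq hqM A K := by
  refine core_of_level M q hq hqM A K (L := 1 * q) (mul_dvd_mul_right (one_dvd M) q) _ hc ?_
  rw [Subfield.coe_mul, SubmonoidClass.coe_pow, Subfield.coe_inv, WK.coe_jqK, ModelBasicCore.coe_jK]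

/-! ### The four basic ratios at level `M q²` -/

/-- **(hμ)** `μ = j_q / j^q ∈ chart J3⁻¹`. -/
theorem mu_mem (hc : Core M q hq hqM A K) :
    WQ2.jqK2 M q hq hqM K * (jK (M * q * q) K)⁻¹ ^ q ∈
      chart (M * q * q) A K (Chart3B.J3 M q hq hqM K)⁻¹ := by
  have h := Chart3B.alphaK2_mem_chart_J3_inv_of_jK M q hq hqM A K
    (Core.mem_chart M q hq hqM A K hc)
  rw [map_mul, map_pow, map_inv₀, WQ2.alphaK2_jK] at h
  exact h

/-- **(hμ₂)** `μ₂ = j_{q²} / j_q^q ∈ chart J3⁻¹` (the `β`-twin of `μ`). -/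
theorem mu2_mem (hc : Core M q hq hqM A K) :
    WQ2.jqqK2 M q hq hqM K * (WQ2.jqK2 M q hq hqM K)⁻¹ ^ q ∈
      chart (M * q * q) A K (Chart3B.J3 M q hq hqM K)⁻¹ := by
  have h : IsIntegral (Algebra.adjoin (OK A K) {WQ2.betaK2 M q hq hqM K (jK (M * q) K)⁻¹})
      (WQ2.betaK2 M q hq hqM K (WK.jqK M q hq hqM K * ((jK (M * q) K)⁻¹) ^ q)) :=
    isIntegral_ringHom A K (WQ2.betaK2 M q hq hqM K)
      (fun c => WQ2.betaK2_constK M q hq hqM K (c : K)) hc
  rw [map_inv₀, WQ2.betaK2_jK, map_mul, map_pow, map_inv₀, WQ2.betaK2_jK] at h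
  exact Chart3B.chart_jqK2_inv_le M q hq hqM A K h

/-- `ν = j_q / j_{q²}^q ∈ chart J3⁻¹` (the `w_{q²}`-twin of `μ`). -/
theorem nu_mem (hc : Core M q hq hqM A K) :
    WQ2.jqK2 M q hq hqM K * (WQ2.jqqK2 M q hq hqM K)⁻¹ ^ q ∈
      chart (M * q * q) A K (Chart3B.J3 M q hq hqM K)⁻¹ := by
  have h := Chart3B.wK2_mem_chart_J3_inv M q hq hqM A K (mu_mem M q hq hqM A K hc)
  rwa [map_mul, map_pow, map_inv₀, WQ2.wK2_jqK2, WQ2.wK2_jK] at h

/-- `ν₂ = j / j_q^q ∈ chart J3⁻¹` (the `w_{q²}`-twin of `μ₂`). -/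
theorem nu2_mem (hc : Core M q hq hqM A K) :
    jK (M * q * q) K * (WQ2.jqK2 M q hq hqM K)⁻¹ ^ q ∈
      chart (M * q * q) A K (Chart3B.J3 M q hq hqM K)⁻¹ := by
  have h := Chart3B.wK2_mem_chart_J3_inv M q hq hqM A K (mu2_mem M q hq hqM A K hc)
  rwa [map_mul, map_pow, map_inv₀, WQ2.wK2_jqqK2, WQ2.wK2_jqK2] at h

/-! ### Products and roots -/

/-- `m₁ = j_{q²} / j^{q²} = μ₂ · μ^q ∈ chart J3⁻¹`. -/
theorem m1_mem (hc : Core M q hq hqM A K) :
    WQ2.jqqK2 M q hq hqM K * (jK (M * q * q) K)⁻¹ ^ (q * q) ∈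
      chart (M * q * q) A K (Chart3B.J3 M q hq hqM K)⁻¹ := by
  have h := mul_mem (mu2_mem M q hq hqM A K hc) (pow_mem (mu_mem M q hq hqM A K hc) q)
  rwa [field_prod _ _ _ (Chart3B.jqK2_ne_zero M q hq hqM K)] at h

/-- `m₂ = j / j_{q²}^{q²} = ν₂ · ν^q ∈ chart J3⁻¹`. -/
theorem m2_mem (hc : Core M q hq hqM A K) :
    jK (M * q * q) K * (WQ2.jqqK2 M q hq hqM K)⁻¹ ^ (q * q) ∈
      chart (M * q * q) A K (Chart3B.J3 M q hq hqM K)⁻¹ := by
  have h := mul_mem (nu2_mem M q hq hqM A K hc) (pow_mem (nu_mem M q hq hqM A K hc) q)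
  rwa [field_prod _ _ _ (Chart3B.jqK2_ne_zero M q hq hqM K)] at h

include hq in
/-- `μ₁ = j_q / (j^{q-1} j_{q²}) ∈ chart J3⁻¹`: its `q`-th power is `μ^{q-1} · ν`. -/
theorem mu1_mem (hc : Core M q hq hqM A K) :
    WQ2.jqK2 M q hq hqM K * ((jK (M * q * q) K)⁻¹ ^ (q - 1) * (WQ2.jqqK2 M q hq hqM K)⁻¹) ∈
      chart (M * q * q) A K (Chart3B.J3 M q hq hqM K)⁻¹ := by
  have h := mul_mem (pow_mem (mu_mem M q hq hqM A K hc) (q - 1)) (nu_mem M q hq hqM A K hc)
  refine ChartJ.root_chart (M * q * q) A K hq.ne_zero ?_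
  rw [field_root _ _ _ q hq.one_le]
  exact h

/-! ### Division forms -/

/-- `j_q / j^q ∈ chart J3⁻¹`. -/
theorem mu0_mem (hc : Core M q hq hqM A K) :
    WQ2.jqK2 M q hq hqM K / jK (M * q * q) K ^ q ∈
      chart (M * q * q) A K (Chart3B.J3 M q hq hqM K)⁻¹ := by
  rw [div_eq_mul_inv, ← inv_pow]
  exact mu_mem M q hq hqM A K hc

/-- `j_q / j_{q²}^q ∈ chart J3⁻¹`. -/
theorem v2_mem (hc : Core M q hq hqM A K) :
    WQ2.jqK2 M q hq hqM K / WQ2.jqqK2 M q hq hqM K ^ q ∈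
      chart (M * q * q) A K (Chart3B.J3 M q hq hqM K)⁻¹ := by
  rw [div_eq_mul_inv, ← inv_pow]
  exact nu_mem M q hq hqM A K hc

/-- `j_{q²} / j_q^q ∈ chart J3⁻¹`. -/
theorem mu2_div_mem (hc : Core M q hq hqM A K) :
    WQ2.jqqK2 M q hq hqM K / WQ2.jqK2 M q hq hqM K ^ q ∈
      chart (M * q * q) A K (Chart3B.J3 M q hq hqM K)⁻¹ := by
  rw [div_eq_mul_inv, ← inv_pow]
  exact mu2_mem M q hq hqM A K hc

/-- `j / j_q^q ∈ chart J3⁻¹`. -/
theorem nu2_div_mem (hc : Core M q hq hqM A K) :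
    jK (M * q * q) K / WQ2.jqK2 M q hq hqM K ^ q ∈
      chart (M * q * q) A K (Chart3B.J3 M q hq hqM K)⁻¹ := by
  rw [div_eq_mul_inv, ← inv_pow]
  exact nu2_mem M q hq hqM A K hc

/-- `j_{q²} / j^{q²} ∈ chart J3⁻¹` (exponent `q * q`). -/
theorem m1_div_mem (hc : Core M q hq hqM A K) :
    WQ2.jqqK2 M q hq hqM K / jK (M * q * q) K ^ (q * q) ∈
      chart (M * q * q) A K (Chart3B.J3 M q hq hqM K)⁻¹ := by
  rw [div_eq_mul_inv, ← inv_pow]
  exact m1_mem M q hq hqM A K hc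

/-- `j_{q²} / j^{q²} ∈ chart J3⁻¹` (exponent `q ^ 2`). -/
theorem m1_div_mem' (hc : Core M q hq hqM A K) :
    WQ2.jqqK2 M q hq hqM K / jK (M * q * q) K ^ (q ^ 2) ∈
      chart (M * q * q) A K (Chart3B.J3 M q hq hqM K)⁻¹ := by
  rw [pow_two]
  exact m1_div_mem M q hq hqM A K hc

/-- `j / j_{q²}^{q²} ∈ chart J3⁻¹` (exponent `q * q`). -/
theorem m2_div_mem (hc : Core M q hq hqM A K) :
    jK (M * q * q) K / WQ2.jqqK2 M q hq hqM K ^ (q * q) ∈
      chart (M * q * q) A K (Chart3B.J3 M q hq hqM K)⁻¹ := by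
  rw [div_eq_mul_inv, ← inv_pow]
  exact m2_mem M q hq hqM A K hc

/-- `j / j_{q²}^{q²} ∈ chart J3⁻¹` (exponent `q ^ 2`). -/
theorem m2_div_mem' (hc : Core M q hq hqM A K) :
    jK (M * q * q) K / WQ2.jqqK2 M q hq hqM K ^ (q ^ 2) ∈
      chart (M * q * q) A K (Chart3B.J3 M q hq hqM K)⁻¹ := by
  rw [pow_two]
  exact m2_div_mem M q hq hqM A K hc

include hq in
/-- `j_q / (j^{q-1} · j_{q²}) ∈ chart J3⁻¹`. -/
theorem mu1_div_mem (hc : Core M q hq hqM A K) :
    WQ2.jqK2 M q hq hqM K / (jK (M * q * q) K ^ (q - 1) * WQ2.jqqK2 M q hq hqM K) ∈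
      chart (M * q * q) A K (Chart3B.J3 M q hq hqM K)⁻¹ := by
  rw [div_eq_mul_inv, mul_inv, ← inv_pow]
  exact mu1_mem M q hq hqM A K hc

end Fermat.Agent.S36.CuspMu
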