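/-
S36 — CuspMuC.lean (helper60): [CUSP-a], CLOSED forms (conjugates route).

`S36/CuspChart.lean` (helper115: the core `j_q · (j⁻¹)^q` integral over `O[j⁻¹]` at level
`1 * q`, by the characteristic polynomial over `K(j)` and power-series conjugates — no modular
equation) + `S36/CuspMu.lean` (transport to level `M q²`, twins, products, roots) give,
hypothesis-free, the chart memberships at infinity of

  `j_q / j^q`, `j_{q²} / j_q^q`, `j_q / j_{q²}^q`, `j / j_q^q`,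
  `j_{q²} / j^{q²}`, `j / j_{q²}^{q²}`, `j_q / (j^{q-1} j_{q²})`.

(An independent second proof of the statements of `S36/CuspMem.lean`, which go through the
modular equation.)
-/
import Mathlib
import Fermat.Agent.S36.CuspMu
import Fermat.Agent.S36.CuspChart

set_option autoImplicit false

noncomputable section

namespace Fermat.Agent.S36.CuspMuC

open ModularCurve AlgebraicCurve HahnSeries
open Fermat.Agent.S18 Fermat.Agent.S18.Arith Fermat.Agent.S34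

set_option synthInstance.maxHeartbeats 400000

variable (M q : ℕ) [NeZero M] [NeZero q] (hq : q.Prime) (hqM : ¬ q ∣ M)
variable (A : ValuationSubring Qb) (K : IntermediateField ℚ Qb)

include hq in
theorem not_dvd_one : ¬ q ∣ 1 := fun h => hq.one_lt.ne' (Nat.dvd_one.mp h)

/-- **The core at every level `M q`**, hypothesis-free. -/
theorem core : CuspMu.Core M q hq hqM A K :=
  CuspMu.core_of_level_one M q hq hqM A K (not_dvd_one q hq)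
    (CuspChart.isIntegral_core q hq (not_dvd_one q hq) A K)

/-- `j_q · (j⁻¹)^q ∈ chart_{Mq} j⁻¹`. -/
theorem core_mem_chart :
    WK.jqK M q hq hqM K * ((jK (M * q) K)⁻¹) ^ q ∈ chart (M * q) A K (jK (M * q) K)⁻¹ :=
  CuspMu.Core.mem_chart M q hq hqM A K (core M q hq hqM A K)

/-- **(hμ)** `j_q · (j⁻¹)^q ∈ chart J3⁻¹`. -/
theorem mu_mem :
    WQ2.jqK2 M q hq hqM K * (jK (M * q * q) K)⁻¹ ^ q ∈
      chart (M * q * q) A K (Chart3B.J3 M q hq hqM K)⁻¹ :=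
  CuspMu.mu_mem M q hq hqM A K (core M q hq hqM A K)

/-- **(hμ₂)** `j_{q²} · (j_q⁻¹)^q ∈ chart J3⁻¹`. -/
theorem mu2_mem :
    WQ2.jqqK2 M q hq hqM K * (WQ2.jqK2 M q hq hqM K)⁻¹ ^ q ∈
      chart (M * q * q) A K (Chart3B.J3 M q hq hqM K)⁻¹ :=
  CuspMu.mu2_mem M q hq hqM A K (core M q hq hqM A K)

/-- `j_q · (j_{q²}⁻¹)^q ∈ chart J3⁻¹`. -/
theorem nu_mem :
    WQ2.jqK2 M q hq hqM K * (WQ2.jqqK2 M q hq hqM K)⁻¹ ^ q ∈
      chart (M * q * q) A K (Chart3B.J3 M q hq hqM K)⁻¹ :=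
  CuspMu.nu_mem M q hq hqM A K (core M q hq hqM A K)

/-- `j · (j_q⁻¹)^q ∈ chart J3⁻¹`. -/
theorem nu2_mem :
    jK (M * q * q) K * (WQ2.jqK2 M q hq hqM K)⁻¹ ^ q ∈
      chart (M * q * q) A K (Chart3B.J3 M q hq hqM K)⁻¹ :=
  CuspMu.nu2_mem M q hq hqM A K (core M q hq hqM A K)

/-- `m₁ = j_{q²} · (j⁻¹)^(q·q) ∈ chart J3⁻¹`. -/
theorem m1_mem :
    WQ2.jqqK2 M q hq hqM K * (jK (M * q * q) K)⁻¹ ^ (q * q) ∈
      chart (M * q * q) A K (Chart3B.J3 M q hq hqM K)⁻¹ :=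
  CuspMu.m1_mem M q hq hqM A K (core M q hq hqM A K)

/-- `m₂ = j · (j_{q²}⁻¹)^(q·q) ∈ chart J3⁻¹`. -/
theorem m2_mem :
    jK (M * q * q) K * (WQ2.jqqK2 M q hq hqM K)⁻¹ ^ (q * q) ∈
      chart (M * q * q) A K (Chart3B.J3 M q hq hqM K)⁻¹ :=
  CuspMu.m2_mem M q hq hqM A K (core M q hq hqM A K)

/-- `μ₁ = j_q · ((j⁻¹)^(q-1) · j_{q²}⁻¹) ∈ chart J3⁻¹`. -/
theorem mu1_mem :
    WQ2.jqK2 M q hq hqM K * ((jK (M * q * q) K)⁻¹ ^ (q - 1) * (WQ2.jqqK2 M q hq hqM K)⁻¹) ∈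
      chart (M * q * q) A K (Chart3B.J3 M q hq hqM K)⁻¹ :=
  CuspMu.mu1_mem M q hq hqM A K (core M q hq hqM A K)

/-- **(I1)** `μ₀ = j_q / j^q ∈ chart J3⁻¹`. -/
theorem mu0_mem :
    WQ2.jqK2 M q hq hqM K / jK (M * q * q) K ^ q ∈
      chart (M * q * q) A K (Chart3B.J3 M q hq hqM K)⁻¹ :=
  CuspMu.mu0_mem M q hq hqM A K (core M q hq hqM A K)

/-- **(I1)** `v₂ = j_q / j_{q²}^q ∈ chart J3⁻¹`. -/
theorem v2_mem :
    WQ2.jqK2 M q hq hqM K / WQ2.jqqK2 M q hq hqM K ^ q ∈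
      chart (M * q * q) A K (Chart3B.J3 M q hq hqM K)⁻¹ :=
  CuspMu.v2_mem M q hq hqM A K (core M q hq hqM A K)

/-- `j_{q²} / j_q^q ∈ chart J3⁻¹`. -/
theorem mu2_div_mem :
    WQ2.jqqK2 M q hq hqM K / WQ2.jqK2 M q hq hqM K ^ q ∈
      chart (M * q * q) A K (Chart3B.J3 M q hq hqM K)⁻¹ :=
  CuspMu.mu2_div_mem M q hq hqM A K (core M q hq hqM A K)

/-- `j / j_q^q ∈ chart J3⁻¹`. -/
theorem nu2_div_mem :
    jK (M * q * q) K / WQ2.jqK2 M q hq hqM K ^ q ∈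
      chart (M * q * q) A K (Chart3B.J3 M q hq hqM K)⁻¹ :=
  CuspMu.nu2_div_mem M q hq hqM A K (core M q hq hqM A K)

/-- `j_{q²} / j^(q·q) ∈ chart J3⁻¹`. -/
theorem m1_div_mem :
    WQ2.jqqK2 M q hq hqM K / jK (M * q * q) K ^ (q * q) ∈
      chart (M * q * q) A K (Chart3B.J3 M q hq hqM K)⁻¹ :=
  CuspMu.m1_div_mem M q hq hqM A K (core M q hq hqM A K)

/-- `j_{q²} / j^(q²) ∈ chart J3⁻¹`. -/
theorem m1_div_mem' :
    WQ2.jqqK2 M q hq hqM K / jK (M * q * q) K ^ (q ^ 2) ∈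
      chart (M * q * q) A K (Chart3B.J3 M q hq hqM K)⁻¹ :=
  CuspMu.m1_div_mem' M q hq hqM A K (core M q hq hqM A K)

/-- `j / j_{q²}^(q·q) ∈ chart J3⁻¹`. -/
theorem m2_div_mem :
    jK (M * q * q) K / WQ2.jqqK2 M q hq hqM K ^ (q * q) ∈
      chart (M * q * q) A K (Chart3B.J3 M q hq hqM K)⁻¹ :=
  CuspMu.m2_div_mem M q hq hqM A K (core M q hq hqM A K)

/-- `j / j_{q²}^(q²) ∈ chart J3⁻¹`. -/
theorem m2_div_mem' :
    jK (M * q * q) K / WQ2.jqqK2 M q hq hqM K ^ (q ^ 2) ∈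
      chart (M * q * q) A K (Chart3B.J3 M q hq hqM K)⁻¹ :=
  CuspMu.m2_div_mem' M q hq hqM A K (core M q hq hqM A K)

/-- `j_q / (j^(q-1) · j_{q²}) ∈ chart J3⁻¹`. -/
theorem mu1_div_mem :
    WQ2.jqK2 M q hq hqM K / (jK (M * q * q) K ^ (q - 1) * WQ2.jqqK2 M q hq hqM K) ∈
      chart (M * q * q) A K (Chart3B.J3 M q hq hqM K)⁻¹ :=
  CuspMu.mu1_div_mem M q hq hqM A K (core M q hq hqM A K)

end Fermat.Agent.S36.CuspMuC
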