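/-
S36 — CuspPolInst.lean (helper37): [N10] / [CUSP-P], CLOSED form in the field `F_K(M q²)`.

`exists_pol` : one polynomial `Pol ∈ ℤ[X][Y]`, monic in `Y`, `Pol(0, Y) = Y^(q+1) - Y^q`,
vanishing at `(1/j, j_q/j^q)` and at `(1/j_{qq}, j_q/j_{qq}^q)` in `F_K(M q²)`
(`j = jK`, `j_q = WQ2.jqK2`, `j_{qq} = WQ2.jqqK2`).

= `CuspPol.exists_pol_of_series` (the bridge) applied to `PhiCusp.exists_cuspPol` (helper7).
-/
import Mathlib
import Fermat.Agent.S36.CuspPol
import Fermat.Agent.S36.PhiCusp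

set_option autoImplicit false

noncomputable section

namespace Fermat.Agent.S36.CuspPolInst

open Polynomial
open Fermat.Agent.S18 Fermat.Agent.S18.Arith

/-- The series-level statement of [CUSP-P] holds (helper7's `PhiCusp.exists_cuspPol`). -/
theorem seriesStatement {q : ℕ} (hq : q.Prime) : CuspPol.SeriesStatement q :=
  PhiCusp.exists_cuspPol.{0} hq

theorem seriesStatementQb {q : ℕ} (hq : q.Prime) : CuspPol.SeriesStatementQb q :=
  haveI : NeZero q := ⟨hq.ne_zero⟩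
  CuspPol.seriesStatementQb_of_seriesStatement q (seriesStatement hq)

variable (M q : ℕ) [NeZero M] [NeZero q] (hq : q.Prime) (hqM : ¬ q ∣ M)
variable (K : IntermediateField ℚ Qb)

/-- **[CUSP-P] in `F_K(M q²)`, closed.** -/
theorem exists_pol :
    ∃ Pol : Polynomial (Polynomial ℤ), Pol.Monic ∧
      Pol.map (Polynomial.evalRingHom (0 : ℤ)) = X ^ (q + 1) - X ^ q ∧
      (Pol.map (Polynomial.eval₂RingHom (Int.castRingHom (FK (M * q * q) K))
        (jK (M * q * q) K)⁻¹)).eval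
        (WQ2.jqK2 M q hq hqM K * ((jK (M * q * q) K)⁻¹) ^ q) = 0 ∧
      (Pol.map (Polynomial.eval₂RingHom (Int.castRingHom (FK (M * q * q) K))
        (WQ2.jqqK2 M q hq hqM K)⁻¹)).eval
        (WQ2.jqK2 M q hq hqM K * ((WQ2.jqqK2 M q hq hqM K)⁻¹) ^ q) = 0 :=
  CuspPol.exists_pol_of_series M q hq hqM K (seriesStatement hq)

/-- The same with the derivative condition of `CuspDD.genAt_cusp` attached:
`∂_Y Pol(0, Y)` at `Y = 1` is `1`. -/
theorem exists_pol_deriv :
    ∃ Pol : Polynomial (Polynomial ℤ), Pol.Monic ∧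
      Pol.map (Polynomial.evalRingHom (0 : ℤ)) = X ^ (q + 1) - X ^ q ∧
      (Pol.map (Polynomial.evalRingHom (0 : ℤ))).derivative.eval 1 = 1 ∧
      (Pol.map (Polynomial.eval₂RingHom (Int.castRingHom (FK (M * q * q) K))
        (jK (M * q * q) K)⁻¹)).eval
        (WQ2.jqK2 M q hq hqM K * ((jK (M * q * q) K)⁻¹) ^ q) = 0 ∧
      (Pol.map (Polynomial.eval₂RingHom (Int.castRingHom (FK (M * q * q) K))
        (WQ2.jqqK2 M q hq hqM K)⁻¹)).eval
        (WQ2.jqK2 M q hq hqM K * ((WQ2.jqqK2 M q hq hqM K)⁻¹) ^ q) = 0 := by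
  obtain ⟨Pol, hmon, h0, h1, h2⟩ := exists_pol M q hq hqM K
  exact ⟨Pol, hmon, h0, CuspPol.derivative_eval_one q Pol h0, h1, h2⟩

end Fermat.Agent.S36.CuspPolInst
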