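/-
S36 — CuspPolChart.lean (helper37): [N10] / [CUSP-P] at the CHART level.

For `R := ↥(chart N A K t)` (ANY coordinate `t`; the consumer plugs `t := J3⁻¹`,
`N = M q²`) and elements `x x' x'' y y' : R` given by coe-equalities

  `↑x = j⁻¹`, `↑x' = j_q⁻¹`, `↑x'' = j_{qq}⁻¹`, `↑y = j_q * (j⁻¹)^q`, `↑y' = j_q * (j_{qq}⁻¹)^q`,

the Pol-binders of `CuspDD.genAt_cusp` with `S := ℤ`, `f := Int.castRingHom R`:

* `exists_pol_chart` : `∃ Pol, Pol.Monic ∧ Pol(0,Y) = Y^(q+1) - Y^q ∧ ∂_Y Pol(0,Y)|_{Y=1} = 1 ∧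
    (Pol.map (eval₂RingHom f x)).eval y = 0 ∧ (Pol.map (eval₂RingHom f x'')).eval y' = 0`;
* `mul_eq_pow`, `mul_eq_pow''` : `y * x' = x ^ q`, `y' * x' = x'' ^ q`;
* `castRingHom_deriv_notMem` : `f (∂_Y Pol(0,Y)|_{Y=1}) ∉ n` for every proper ideal `n`;
* `y_mem_chart`, `y''_mem_chart` : `j⁻¹ ∈ chart → j_q * (j⁻¹)^q ∈ chart`,
  `j_{qq}⁻¹ ∈ chart → j_q * (j_{qq}⁻¹)^q ∈ chart`  (the chart is integrally closed in `F_K`);
* generic: `mem_chart_of_root`, `eval_chart`.
-/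
import Mathlib
import Fermat.Agent.S18.Model
import Fermat.Agent.S36.CuspPol
import Fermat.Agent.S36.CuspPolInst

set_option autoImplicit false

noncomputable section

namespace Fermat.Agent.S36.CuspPolChart

open Polynomial
open Fermat.Agent.S18 Fermat.Agent.S18.Arith

/-! ### Generic chart lemmas -/

section Generic

variable (N : ℕ) (A : ValuationSubring Qb) (K : IntermediateField ℚ Qb) (t : FK N K)

/-- A root `b` of `p(a, Y)`, `p ∈ ℤ[X][Y]` monic in `Y`, `a` in the chart, lies in the chart. -/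
theorem mem_chart_of_root (p : Polynomial (Polynomial ℤ)) (hp : p.Monic) {a b : FK N K}
    (ha : a ∈ chart N A K t)
    (h : (p.map (Polynomial.eval₂RingHom (Int.castRingHom (FK N K)) a)).eval b = 0) :
    b ∈ chart N A K t := by
  apply Model.mem_chart_of_isIntegral N A K t b
  refine ⟨S28.PhiAt p (⟨a, ha⟩ : chart N A K t), S28.PhiAt_monic hp _, ?_⟩
  rw [← Polynomial.eval_map, S28.PhiAt_map]
  exact h

/-- An identity `p(a, b) = 0` in `F_K` descends to the chart. -/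
theorem eval_chart (p : Polynomial (Polynomial ℤ)) {a b : FK N K} (x y : chart N A K t)
    (hx : (x : FK N K) = a) (hy : (y : FK N K) = b)
    (h : (p.map (Polynomial.eval₂RingHom (Int.castRingHom (FK N K)) a)).eval b = 0) :
    (p.map (Polynomial.eval₂RingHom (Int.castRingHom (chart N A K t)) x)).eval y = 0 := by
  subst hx hy
  have h1 := S28.map_eval_PhiAt (algebraMap (chart N A K t) (FK N K)) p x y
  have h2 : algebraMap (chart N A K t) (FK N K) ((S28.PhiAt p x).eval y) = 0 := by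
    rw [h1]; exact h
  have h3 : (S28.PhiAt p x).eval y = 0 :=
    (FaithfulSMul.algebraMap_injective (chart N A K t) (FK N K)) (by rw [h2, map_zero])
  exact h3

end Generic

/-- `a * b ^ n * a⁻¹ = b ^ n` in a field. -/
theorem mul_pow_mul_inv {E : Type*} [Field E] {a : E} (ha : a ≠ 0) (b : E) (n : ℕ) :
    a * b ^ n * a⁻¹ = b ^ n := by
  rw [mul_comm a, mul_assoc, mul_inv_cancel₀ ha, mul_one]

/-- The derivative condition of `CuspDD.genAt_cusp` for `f := Int.castRingHom R`: the value is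
`1`, which lies in no proper ideal. -/
theorem castRingHom_deriv_notMem {R : Type*} [CommRing R] (q : ℕ) (Pol : Polynomial (Polynomial ℤ))
    (h0 : Pol.map (Polynomial.evalRingHom (0 : ℤ)) = X ^ (q + 1) - X ^ q)
    (n : Ideal R) (hn : n ≠ ⊤) :
    Int.castRingHom R ((Pol.map (Polynomial.evalRingHom (0 : ℤ))).derivative.eval 1) ∉ n := by
  rw [CuspPol.derivative_eval_one q Pol h0, map_one]
  exact (Ideal.ne_top_iff_one n).mp hn

/-! ### Level `M q²` -/

section Level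

variable (M q : ℕ) [NeZero M] [NeZero q] (hq : q.Prime) (hqM : ¬ q ∣ M)
variable (A : ValuationSubring Qb) (K : IntermediateField ℚ Qb) (t : FK (M * q * q) K)

/-- `j_q ≠ 0`. -/
theorem jq_ne_zero : WQ2.jqK2 M q hq hqM K ≠ 0 := by
  rw [← WQ2.betaK2_jK]
  exact (_root_.map_ne_zero _).mpr (ModelBasicCore.jK_ne_zero (M * q) K)

/-- **`y = j_q / j^q` lies in every chart containing `j⁻¹`.** -/
theorem y_mem_chart (hx : (jK (M * q * q) K)⁻¹ ∈ chart (M * q * q) A K t) :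
    WQ2.jqK2 M q hq hqM K * ((jK (M * q * q) K)⁻¹) ^ q ∈ chart (M * q * q) A K t := by
  obtain ⟨Pol, hmon, -, h1, -⟩ := CuspPolInst.exists_pol M q hq hqM K
  exact mem_chart_of_root (M * q * q) A K t Pol hmon hx h1

/-- **`y' = j_q / j_{qq}^q` lies in every chart containing `j_{qq}⁻¹`.** -/
theorem y''_mem_chart (hx : (WQ2.jqqK2 M q hq hqM K)⁻¹ ∈ chart (M * q * q) A K t) :
    WQ2.jqK2 M q hq hqM K * ((WQ2.jqqK2 M q hq hqM K)⁻¹) ^ q ∈ chart (M * q * q) A K t := by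
  obtain ⟨Pol, hmon, -, -, h2⟩ := CuspPolInst.exists_pol M q hq hqM K
  exact mem_chart_of_root (M * q * q) A K t Pol hmon hx h2

variable {A K t}

/-- `y * x' = x ^ q`. -/
theorem mul_eq_pow {x x' y : chart (M * q * q) A K t}
    (hx : (x : FK (M * q * q) K) = (jK (M * q * q) K)⁻¹)
    (hx' : (x' : FK (M * q * q) K) = (WQ2.jqK2 M q hq hqM K)⁻¹)
    (hy : (y : FK (M * q * q) K) = WQ2.jqK2 M q hq hqM K * ((jK (M * q * q) K)⁻¹) ^ q) :
    y * x' = x ^ q := by
  apply Subtype.ext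
  rw [Subalgebra.coe_mul, Subalgebra.coe_pow, hx, hx', hy]
  exact mul_pow_mul_inv (jq_ne_zero M q hq hqM K) _ q

/-- `y' * x' = x'' ^ q`. -/
theorem mul_eq_pow'' {x' x'' y' : chart (M * q * q) A K t}
    (hx' : (x' : FK (M * q * q) K) = (WQ2.jqK2 M q hq hqM K)⁻¹)
    (hx'' : (x'' : FK (M * q * q) K) = (WQ2.jqqK2 M q hq hqM K)⁻¹)
    (hy' : (y' : FK (M * q * q) K)
      = WQ2.jqK2 M q hq hqM K * ((WQ2.jqqK2 M q hq hqM K)⁻¹) ^ q) :
    y' * x' = x'' ^ q := by
  apply Subtype.ext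
  rw [Subalgebra.coe_mul, Subalgebra.coe_pow, hx', hx'', hy']
  exact mul_pow_mul_inv (jq_ne_zero M q hq hqM K) _ q

/-- **The Pol-binders of `CuspDD.genAt_cusp` on a chart** (`S := ℤ`,
`f := Int.castRingHom ↥(chart N A K t)`). -/
theorem exists_pol_chart {x x'' y y' : chart (M * q * q) A K t}
    (hx : (x : FK (M * q * q) K) = (jK (M * q * q) K)⁻¹)
    (hx'' : (x'' : FK (M * q * q) K) = (WQ2.jqqK2 M q hq hqM K)⁻¹)
    (hy : (y : FK (M * q * q) K) = WQ2.jqK2 M q hq hqM K * ((jK (M * q * q) K)⁻¹) ^ q)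
    (hy' : (y' : FK (M * q * q) K)
      = WQ2.jqK2 M q hq hqM K * ((WQ2.jqqK2 M q hq hqM K)⁻¹) ^ q) :
    ∃ Pol : Polynomial (Polynomial ℤ), Pol.Monic ∧
      Pol.map (Polynomial.evalRingHom (0 : ℤ)) = X ^ (q + 1) - X ^ q ∧
      (Pol.map (Polynomial.evalRingHom (0 : ℤ))).derivative.eval 1 = 1 ∧
      (Pol.map (Polynomial.eval₂RingHom
        (Int.castRingHom (chart (M * q * q) A K t)) x)).eval y = 0 ∧
      (Pol.map (Polynomial.eval₂RingHom
        (Int.castRingHom (chart (M * q * q) A K t)) x'')).eval y' = 0 := by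
  obtain ⟨Pol, hmon, h0, hd, h1, h2⟩ := CuspPolInst.exists_pol_deriv M q hq hqM K
  exact ⟨Pol, hmon, h0, hd, eval_chart (M * q * q) A K t Pol x y hx hy h1,
    eval_chart (M * q * q) A K t Pol x'' y' hx'' hy' h2⟩

/-- The same, with the derivative condition in the exact `hPd` shape of `CuspDD.genAt_cusp`
at a given proper ideal `n`. -/
theorem exists_pol_chart_at {x x'' y y' : chart (M * q * q) A K t}
    (hx : (x : FK (M * q * q) K) = (jK (M * q * q) K)⁻¹)
    (hx'' : (x'' : FK (M * q * q) K) = (WQ2.jqqK2 M q hq hqM K)⁻¹)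
    (hy : (y : FK (M * q * q) K) = WQ2.jqK2 M q hq hqM K * ((jK (M * q * q) K)⁻¹) ^ q)
    (hy' : (y' : FK (M * q * q) K)
      = WQ2.jqK2 M q hq hqM K * ((WQ2.jqqK2 M q hq hqM K)⁻¹) ^ q)
    (n : Ideal (chart (M * q * q) A K t)) (hn : n ≠ ⊤) :
    ∃ Pol : Polynomial (Polynomial ℤ),
      (Pol.map (Polynomial.eval₂RingHom
        (Int.castRingHom (chart (M * q * q) A K t)) x)).eval y = 0 ∧
      (Pol.map (Polynomial.eval₂RingHom
        (Int.castRingHom (chart (M * q * q) A K t)) x'')).eval y' = 0 ∧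
      Int.castRingHom (chart (M * q * q) A K t)
        ((Pol.map (Polynomial.evalRingHom 0)).derivative.eval 1) ∉ n := by
  obtain ⟨Pol, -, h0, -, h1, h2⟩ := exists_pol_chart M q hq hqM hx hx'' hy hy'
  exact ⟨Pol, h1, h2, castRingHom_deriv_notMem q Pol h0 n hn⟩

end Level

end Fermat.Agent.S36.CuspPolChart
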