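/-
S36 — CuspPolDD.lean (helper37): [N10], the abstract core `CuspDD` (helper92) on a chart of
level `M q²` with its polynomial binders DISCHARGED.

For `R := ↥(chart (M q²) A K t)` (any coordinate `t`; the consumer plugs `t := J3⁻¹`) and
`x x' x'' y y' : R` with

  `↑x = j⁻¹`, `↑x' = j_q⁻¹`, `↑x'' = j_{qq}⁻¹`, `↑y = j_q * (j⁻¹)^q`, `↑y' = j_q * (j_{qq}⁻¹)^q`,

`genAt_cusp_chart` / `unit_at_cusp_chart` are `CuspDD.genAt_cusp` / `CuspDD.unit_at_cusp` with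
`hyx`, `hyx''`, `f`, `Pol`, `hP`, `hP''`, `hPd` supplied by `CuspPolChart` (= helper7's
`PhiCusp.exists_cuspPol` through the bridge `CuspPol`).  What remains for the instance: the
valuation/chart hypotheses `val`, `hyp`, `hp0`, `he2`, the unit `ε` with `q = π ε`, the cusp
condition and the eight congruence memberships.
-/
import Mathlib
import Fermat.Agent.S36.CuspDD
import Fermat.Agent.S36.CuspPolChart

set_option autoImplicit false

noncomputable section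

namespace Fermat.Agent.S36.CuspPolDD

open Polynomial
open Fermat.Agent.S18 Fermat.Agent.S18.Arith Fermat.Agent.S36.Model3Plan

variable (M q : ℕ) [NeZero M] [NeZero q] (hq : q.Prime) (hqM : ¬ q ∣ M)
variable {A : ValuationSubring Qb} {K : IntermediateField ℚ Qb} {t : FK (M * q * q) K}
variable [IsDomain (chart (M * q * q) A K t)] [IsIntegrallyClosed (chart (M * q * q) A K t)]
variable {π : OK A K} {e : Fin 3 → ℕ} {ϖ : Fin 3 → FK (M * q * q) K}
  {V : Fin 3 → ValuationSubring (FK (M * q * q) K)}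
  {P : Fin 3 → Ideal (chart (M * q * q) A K t)}

/-- **The unit step at a middle cusp, on a chart of level `M q²`** (`CuspDD.unit_at_cusp` with
the polynomial binders discharged). -/
theorem unit_at_cusp_chart
    (val : ValHyp3 (algebraMap (chart (M * q * q) A K t) (FK (M * q * q) K)
      (algebraMap (OK A K) (chart (M * q * q) A K t) π)) e ϖ V)
    (hyp : ChartHyp3 π ϖ V P)
    (hp0 : algebraMap (chart (M * q * q) A K t) (FK (M * q * q) K)
      (algebraMap (OK A K) (chart (M * q * q) A K t) π) ≠ 0)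
    (he2 : e 2 = q - 1)
    (n : Ideal (chart (M * q * q) A K t)) (hn : n.IsPrime) (h2 : P 2 ≤ n)
    {ε : chart (M * q * q) A K t}
    (hε : (q : chart (M * q * q) A K t) = algebraMap (OK A K) (chart (M * q * q) A K t) π * ε)
    (hεn : ε ∉ n)
    {x x' x'' y y' : chart (M * q * q) A K t}
    (hx : (x : FK (M * q * q) K) = (jK (M * q * q) K)⁻¹)
    (hx' : (x' : FK (M * q * q) K) = (WQ2.jqK2 M q hq hqM K)⁻¹)
    (hx'' : (x'' : FK (M * q * q) K) = (WQ2.jqqK2 M q hq hqM K)⁻¹)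
    (hy : (y : FK (M * q * q) K) = WQ2.jqK2 M q hq hqM K * ((jK (M * q * q) K)⁻¹) ^ q)
    (hy' : (y' : FK (M * q * q) K)
      = WQ2.jqK2 M q hq hqM K * ((WQ2.jqqK2 M q hq hqM K)⁻¹) ^ q)
    (hcusp : x * x' * x'' ∈ n) (hne : x ≠ x'')
    (h2x : x'' - x ∈ P 2) (h2y : y - 1 ∈ P 2) (h2y' : y' - 1 ∈ P 2) (hx2 : x ∉ P 2)
    (h0 : x'' - x ^ (q ^ 2) ∈ P 0) (hx0 : x ∉ P 0)
    (h1 : x - x'' ^ (q ^ 2) ∈ P 1) (hx1 : x'' ∉ P 1) :
    ¬ P 0 ≤ n ∧ ¬ P 1 ≤ n ∧
      ∃ g ∈ P 2, ∃ s v : chart (M * q * q) A K t, s ∉ n ∧ v ∉ n ∧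
        s * g ^ (q - 1) = algebraMap (OK A K) (chart (M * q * q) A K t) π * v := by
  obtain ⟨Pol, hP, hP'', hPd⟩ :=
    CuspPolChart.exists_pol_chart_at M q hq hqM hx hx'' hy hy' n hn.ne_top
  exact CuspDD.unit_at_cusp val hyp hp0 hq he2 n hn h2 hε hεn
    (CuspPolChart.mul_eq_pow M q hq hqM hx hx' hy)
    (CuspPolChart.mul_eq_pow'' M q hq hqM hx' hx'' hy') hcusp hne h2x h2y h2y' hx2 h0 hx0 h1 hx1
    (Int.castRingHom _) Pol hP hP'' hPd

/-- **(B1) at a middle cusp, on a chart of level `M q²`**: `P 2` is principal locally at `n`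
(`CuspDD.genAt_cusp` with the polynomial binders discharged). -/
theorem genAt_cusp_chart
    (val : ValHyp3 (algebraMap (chart (M * q * q) A K t) (FK (M * q * q) K)
      (algebraMap (OK A K) (chart (M * q * q) A K t) π)) e ϖ V)
    (hyp : ChartHyp3 π ϖ V P)
    (hp0 : algebraMap (chart (M * q * q) A K t) (FK (M * q * q) K)
      (algebraMap (OK A K) (chart (M * q * q) A K t) π) ≠ 0)
    (he2 : e 2 = q - 1)
    (n : Ideal (chart (M * q * q) A K t)) (hn : n.IsPrime) (h2 : P 2 ≤ n)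
    {ε : chart (M * q * q) A K t}
    (hε : (q : chart (M * q * q) A K t) = algebraMap (OK A K) (chart (M * q * q) A K t) π * ε)
    (hεn : ε ∉ n)
    {x x' x'' y y' : chart (M * q * q) A K t}
    (hx : (x : FK (M * q * q) K) = (jK (M * q * q) K)⁻¹)
    (hx' : (x' : FK (M * q * q) K) = (WQ2.jqK2 M q hq hqM K)⁻¹)
    (hx'' : (x'' : FK (M * q * q) K) = (WQ2.jqqK2 M q hq hqM K)⁻¹)
    (hy : (y : FK (M * q * q) K) = WQ2.jqK2 M q hq hqM K * ((jK (M * q * q) K)⁻¹) ^ q)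
    (hy' : (y' : FK (M * q * q) K)
      = WQ2.jqK2 M q hq hqM K * ((WQ2.jqqK2 M q hq hqM K)⁻¹) ^ q)
    (hcusp : x * x' * x'' ∈ n) (hne : x ≠ x'')
    (h2x : x'' - x ∈ P 2) (h2y : y - 1 ∈ P 2) (h2y' : y' - 1 ∈ P 2) (hx2 : x ∉ P 2)
    (h0 : x'' - x ^ (q ^ 2) ∈ P 0) (hx0 : x ∉ P 0)
    (h1 : x - x'' ^ (q ^ 2) ∈ P 1) (hx1 : x'' ∉ P 1) :
    ∃ g ∈ P 2, ∀ z ∈ P 2, ∃ s : chart (M * q * q) A K t, s ∉ n ∧
      ∃ c : chart (M * q * q) A K t, s * z = c * g := by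
  obtain ⟨Pol, hP, hP'', hPd⟩ :=
    CuspPolChart.exists_pol_chart_at M q hq hqM hx hx'' hy hy' n hn.ne_top
  exact CuspDD.genAt_cusp val hyp hp0 hq he2 n hn h2 hε hεn
    (CuspPolChart.mul_eq_pow M q hq hqM hx hx' hy)
    (CuspPolChart.mul_eq_pow'' M q hq hqM hx' hx'' hy') hcusp hne h2x h2y h2y' hx2 h0 hx0 h1 hx1
    (Int.castRingHom _) Pol hP hP'' hPd

omit [IsDomain (chart (M * q * q) A K t)] [IsIntegrallyClosed (chart (M * q * q) A K t)] in
/-- `x ≠ x''` for the chart elements `j⁻¹`, `j_{qq}⁻¹`, from `j ≠ j_{qq}`. -/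
theorem ne_of_coe {x x'' : chart (M * q * q) A K t}
    (hx : (x : FK (M * q * q) K) = (jK (M * q * q) K)⁻¹)
    (hx'' : (x'' : FK (M * q * q) K) = (WQ2.jqqK2 M q hq hqM K)⁻¹)
    (hne : jK (M * q * q) K ≠ WQ2.jqqK2 M q hq hqM K) : x ≠ x'' := by
  intro h
  apply hne
  have h1 : (jK (M * q * q) K)⁻¹ = (WQ2.jqqK2 M q hq hqM K)⁻¹ := by rw [← hx, ← hx'', h]
  exact inv_injective h1

omit [IsDomain (chart (M * q * q) A K t)] [IsIntegrallyClosed (chart (M * q * q) A K t)] in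
/-- The cusp condition: `x x' x'' = J3⁻¹` for `J3 = j j_q j_{qq}`. -/
theorem coe_mul_mul {x x' x'' : chart (M * q * q) A K t}
    (hx : (x : FK (M * q * q) K) = (jK (M * q * q) K)⁻¹)
    (hx' : (x' : FK (M * q * q) K) = (WQ2.jqK2 M q hq hqM K)⁻¹)
    (hx'' : (x'' : FK (M * q * q) K) = (WQ2.jqqK2 M q hq hqM K)⁻¹) :
    ((x * x' * x'' : chart (M * q * q) A K t) : FK (M * q * q) K)
      = (jK (M * q * q) K * WQ2.jqK2 M q hq hqM K * WQ2.jqqK2 M q hq hqM K)⁻¹ := by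
  rw [Subalgebra.coe_mul, Subalgebra.coe_mul, hx, hx', hx'', mul_inv, mul_inv]

end Fermat.Agent.S36.CuspPolDD
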