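import Mathlib
import Fermat.Agent.S36.CuspTop
import Fermat.Agent.S36.Model3PrincB

/-!
# [N10] closed for the model of record — plug of `CuspTop.hcusp2_w3` / `CuspOneInst.cusp_one_w3`

The two cusp binders `hcusp2` ([N10]) and `hcusp01` ([CUSP1]) of `Model3PrincB.model3`
(= `Princ3Cases.princ_of_cases` on `chart J3⁻¹`), VERBATIM, for every `H : V3.Hyp3 …`, and the
resulting `Model3` of record with only the eta unit (`hex`) and the Nakayama input on
`chart J3` (`hnak0`) left as hypotheses.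

Route: `HeckeDeg` (weight bound of `Φ_q` from `HeckeData`) → `CuspRel` → `CuspAlg` ([CUSP-a])
→ `CuspCore` (unit step) + `CuspOneInst` ([CUSP1]) → `CuspTop`.  No (KS) datum, no Kronecker
congruence, no `ι3`-expansion.  The only extra input is `q = π · unit` in `OK A K`
(`incO A K π = q` gives it with unit `1`: `q_eq_of_incO`).
-/

namespace Fermat.Agent.S36.CuspTopInst

open ModularCurve AlgebraicCurve HahnSeries
open Fermat.Agent.S18 Fermat.Agent.S18.Arith Fermat.Agent.S18.ModelPlan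
open Fermat.Agent.S34 Fermat.Agent.S36.Model3Plan

variable {M q : ℕ} [NeZero M] [NeZero q] {hq : q.Prime} {hqM : ¬ q ∣ M}
variable {A : ValuationSubring Qb} {K K' : IntermediateField ℚ Qb}
variable {ξ : Qb} {hξ0 : ξ ≠ 0} {ι : FK (M * q * q) K →+* LaurentSeries Qb} {ϖ : OK A K'}

/-- `incO A K π = q` gives `q = π · 1` in `OK A K`. -/
theorem q_eq_of_incO {π : OK A K} (hπq : incO A K π = (q : Qb)) :
    (q : OK A K) = π * 1 := by
  rw [mul_one]
  apply Fermat.Agent.S18.ChartBase.incO_injective A K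
  rw [hπq, map_natCast]

variable (H : V3.Hyp3 M q hq hqM A K K' ξ hξ0 ι ϖ)

/-- **[N10], the binder `hcusp2` of `Model3PrincB.model3` VERBATIM.** -/
theorem hcusp2 (hB : BaseFacts q A K) (hA : A.LiesOverPrime q) {π : OK A K}
    (hπ : Irreducible π) (a : A) (hqa : (q : Qb) = incO A K π * (a : Qb))
    (hπϖ : ∃ u : A, IsUnit u ∧ incO A K π = incO A K' ϖ ^ (q - 1) * (u : Qb))
    (ε : OK A K) (hε : IsUnit ε) (hqπ : (q : OK A K) = π * ε) :
    ChartHyp3 π
        ![algebraMap (OK A K) (FK (M * q * q) K) π, algebraMap (OK A K) (FK (M * q * q) K) π,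
          Wit3.sE M q hq hqM K]
        ![GaussV.V1 (M * q * q) A K hB.dvr, GaussV.V2 (WQ2.wK2 M q hq hqM K) hB.dvr, H.W3]
        (Model3Asm.Pc (chart (M * q * q) A K (Chart3B.J3 M q hq hqM K)⁻¹)
          ![algebraMap (OK A K) (FK (M * q * q) K) π,
            algebraMap (OK A K) (FK (M * q * q) K) π, Wit3.sE M q hq hqM K]
          ![GaussV.V1 (M * q * q) A K hB.dvr, GaussV.V2 (WQ2.wK2 M q hq hqM K) hB.dvr, H.W3]
          (Model3Top.leInf H hB.dvr)) →
      ∀ n : Ideal (chart (M * q * q) A K (Chart3B.J3 M q hq hqM K)⁻¹), n.IsMaximal →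
        algebraMap (OK A K) (chart (M * q * q) A K (Chart3B.J3 M q hq hqM K)⁻¹) π ∈ n →
        (⟨(Chart3B.J3 M q hq hqM K)⁻¹,
            ChartJ.self_mem_chart (M * q * q) A K (Chart3B.J3 M q hq hqM K)⁻¹⟩ :
          chart (M * q * q) A K (Chart3B.J3 M q hq hqM K)⁻¹) ∈ n →
        Model3Asm.Pc (chart (M * q * q) A K (Chart3B.J3 M q hq hqM K)⁻¹)
          ![algebraMap (OK A K) (FK (M * q * q) K) π,
            algebraMap (OK A K) (FK (M * q * q) K) π, Wit3.sE M q hq hqM K]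
          ![GaussV.V1 (M * q * q) A K hB.dvr, GaussV.V2 (WQ2.wK2 M q hq hqM K) hB.dvr, H.W3]
          (Model3Top.leInf H hB.dvr) 2 ≤ n →
        ∃ i : Fin 3,
          Model3Asm.Pc (chart (M * q * q) A K (Chart3B.J3 M q hq hqM K)⁻¹)
          ![algebraMap (OK A K) (FK (M * q * q) K) π,
            algebraMap (OK A K) (FK (M * q * q) K) π, Wit3.sE M q hq hqM K]
          ![GaussV.V1 (M * q * q) A K hB.dvr, GaussV.V2 (WQ2.wK2 M q hq hqM K) hB.dvr, H.W3]
          (Model3Top.leInf H hB.dvr) i ≤ n ∧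
          ∃ g ∈ Model3Asm.Pc (chart (M * q * q) A K (Chart3B.J3 M q hq hqM K)⁻¹)
          ![algebraMap (OK A K) (FK (M * q * q) K) π,
            algebraMap (OK A K) (FK (M * q * q) K) π, Wit3.sE M q hq hqM K]
          ![GaussV.V1 (M * q * q) A K hB.dvr, GaussV.V2 (WQ2.wK2 M q hq hqM K) hB.dvr, H.W3]
          (Model3Top.leInf H hB.dvr) i,
            ∀ y ∈ Model3Asm.Pc (chart (M * q * q) A K (Chart3B.J3 M q hq hqM K)⁻¹)
          ![algebraMap (OK A K) (FK (M * q * q) K) π,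
            algebraMap (OK A K) (FK (M * q * q) K) π, Wit3.sE M q hq hqM K]
          ![GaussV.V1 (M * q * q) A K hB.dvr, GaussV.V2 (WQ2.wK2 M q hq hqM K) hB.dvr, H.W3]
          (Model3Top.leInf H hB.dvr) i,
              ∃ s : chart (M * q * q) A K (Chart3B.J3 M q hq hqM K)⁻¹, s ∉ n ∧
                ∃ c : chart (M * q * q) A K (Chart3B.J3 M q hq hqM K)⁻¹, s * y = c * g :=
  fun hyp =>
    CuspTop.hcusp2_w3 M q hq hqM A K hB.dvr hA hπ H.W3
      (Chart3B.rings M q hq hqM A K hB.dvr).2.1.2.2 (Chart3B.rings M q hq hqM A K hB.dvr).2.1.2.1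
      (V3Wit.valHyp3 H hB.dvr hA hπ a hqa hπϖ) hyp ε hε hqπ
      (V3Wit.j_unit3 H).1 (V3Wit.jqq_unit3 H).1 (V3Wit.x2_pi3 H hB.dvr hA hπ)

/-- **[CUSP1], the binder `hcusp01` of `Model3PrincB.model3` VERBATIM.** -/
theorem hcusp01 (hB : BaseFacts q A K) (hA : A.LiesOverPrime q) {π : OK A K}
    (hπ : Irreducible π) :
    ChartHyp3 π
        ![algebraMap (OK A K) (FK (M * q * q) K) π, algebraMap (OK A K) (FK (M * q * q) K) π,
          Wit3.sE M q hq hqM K]
        ![GaussV.V1 (M * q * q) A K hB.dvr, GaussV.V2 (WQ2.wK2 M q hq hqM K) hB.dvr, H.W3]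
        (Model3Asm.Pc (chart (M * q * q) A K (Chart3B.J3 M q hq hqM K)⁻¹)
          ![algebraMap (OK A K) (FK (M * q * q) K) π,
            algebraMap (OK A K) (FK (M * q * q) K) π, Wit3.sE M q hq hqM K]
          ![GaussV.V1 (M * q * q) A K hB.dvr, GaussV.V2 (WQ2.wK2 M q hq hqM K) hB.dvr, H.W3]
          (Model3Top.leInf H hB.dvr)) →
      ∀ n : Ideal (chart (M * q * q) A K (Chart3B.J3 M q hq hqM K)⁻¹), n.IsMaximal →
        algebraMap (OK A K) (chart (M * q * q) A K (Chart3B.J3 M q hq hqM K)⁻¹) π ∈ n →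
        (⟨(Chart3B.J3 M q hq hqM K)⁻¹,
            ChartJ.self_mem_chart (M * q * q) A K (Chart3B.J3 M q hq hqM K)⁻¹⟩ :
          chart (M * q * q) A K (Chart3B.J3 M q hq hqM K)⁻¹) ∈ n →
        ¬ Model3Asm.Pc (chart (M * q * q) A K (Chart3B.J3 M q hq hqM K)⁻¹)
          ![algebraMap (OK A K) (FK (M * q * q) K) π,
            algebraMap (OK A K) (FK (M * q * q) K) π, Wit3.sE M q hq hqM K]
          ![GaussV.V1 (M * q * q) A K hB.dvr, GaussV.V2 (WQ2.wK2 M q hq hqM K) hB.dvr, H.W3]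
          (Model3Top.leInf H hB.dvr) 2 ≤ n →
        ¬ (Model3Asm.Pc (chart (M * q * q) A K (Chart3B.J3 M q hq hqM K)⁻¹)
          ![algebraMap (OK A K) (FK (M * q * q) K) π,
            algebraMap (OK A K) (FK (M * q * q) K) π, Wit3.sE M q hq hqM K]
          ![GaussV.V1 (M * q * q) A K hB.dvr, GaussV.V2 (WQ2.wK2 M q hq hqM K) hB.dvr, H.W3]
          (Model3Top.leInf H hB.dvr) 0 ≤ n ∧
          Model3Asm.Pc (chart (M * q * q) A K (Chart3B.J3 M q hq hqM K)⁻¹)
          ![algebraMap (OK A K) (FK (M * q * q) K) π,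
            algebraMap (OK A K) (FK (M * q * q) K) π, Wit3.sE M q hq hqM K]
          ![GaussV.V1 (M * q * q) A K hB.dvr, GaussV.V2 (WQ2.wK2 M q hq hqM K) hB.dvr, H.W3]
          (Model3Top.leInf H hB.dvr) 1 ≤ n) :=
  fun hyp n hn hπn hJ _ h01 =>
    absurd (CuspOneInst.cusp_one_w3 M q hq hqM A K hB.dvr hA hπ H.W3 hyp n hn hπn hJ 0 1
      h01.1 h01.2) (by decide)

/-- **[MODEL3] of record with both cusp inputs DISCHARGED**: only the eta unit (`hex`) and the
Nakayama input at the `W3`-only points of `chart J3` (`hnak0`) remain. -/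
noncomputable def model3 (hB : BaseFacts q A K) (hA : A.LiesOverPrime q) {π : OK A K}
    (hπ : Irreducible π) (a : A) (hqa : (q : Qb) = incO A K π * (a : Qb))
    (hπϖ : ∃ u : A, IsUnit u ∧ incO A K π = incO A K' ϖ ^ (q - 1) * (u : Qb))
    (ε : OK A K) (hε : IsUnit ε) (hqπ : (q : OK A K) = π * ε)
    (hex : EtaB1Inst.EtaHyp M q hq hqM A K π)
    (hnak0 : ChartHyp3 π
        ![algebraMap (OK A K) (FK (M * q * q) K) π, algebraMap (OK A K) (FK (M * q * q) K) π,
          Wit3.sE M q hq hqM K]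
        ![GaussV.V1 (M * q * q) A K hB.dvr, GaussV.V2 (WQ2.wK2 M q hq hqM K) hB.dvr, H.W3]
        (Model3Asm.Pc (chart (M * q * q) A K (Chart3B.J3 M q hq hqM K))
          ![algebraMap (OK A K) (FK (M * q * q) K) π,
            algebraMap (OK A K) (FK (M * q * q) K) π, Wit3.sE M q hq hqM K]
          ![GaussV.V1 (M * q * q) A K hB.dvr, GaussV.V2 (WQ2.wK2 M q hq hqM K) hB.dvr, H.W3]
          (Model3Top.le0 H hB.dvr)) →
      ∀ n : Ideal (chart (M * q * q) A K (Chart3B.J3 M q hq hqM K)), n.IsMaximal →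
        algebraMap (OK A K) (chart (M * q * q) A K (Chart3B.J3 M q hq hqM K)) π ∈ n →
        ¬ Model3Asm.Pc (chart (M * q * q) A K (Chart3B.J3 M q hq hqM K))
          ![algebraMap (OK A K) (FK (M * q * q) K) π,
            algebraMap (OK A K) (FK (M * q * q) K) π, Wit3.sE M q hq hqM K]
          ![GaussV.V1 (M * q * q) A K hB.dvr, GaussV.V2 (WQ2.wK2 M q hq hqM K) hB.dvr, H.W3]
          (Model3Top.le0 H hB.dvr) 0 ≤ n →
        ¬ Model3Asm.Pc (chart (M * q * q) A K (Chart3B.J3 M q hq hqM K))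
          ![algebraMap (OK A K) (FK (M * q * q) K) π,
            algebraMap (OK A K) (FK (M * q * q) K) π, Wit3.sE M q hq hqM K]
          ![GaussV.V1 (M * q * q) A K hB.dvr, GaussV.V2 (WQ2.wK2 M q hq hqM K) hB.dvr, H.W3]
          (Model3Top.le0 H hB.dvr) 1 ≤ n →
        Model3Asm.Pc (chart (M * q * q) A K (Chart3B.J3 M q hq hqM K))
          ![algebraMap (OK A K) (FK (M * q * q) K) π,
            algebraMap (OK A K) (FK (M * q * q) K) π, Wit3.sE M q hq hqM K]
          ![GaussV.V1 (M * q * q) A K hB.dvr, GaussV.V2 (WQ2.wK2 M q hq hqM K) hB.dvr, H.W3]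
          (Model3Top.le0 H hB.dvr) 2 ≤ n →
        ∃ i : Fin 3,
          Model3Asm.Pc (chart (M * q * q) A K (Chart3B.J3 M q hq hqM K))
          ![algebraMap (OK A K) (FK (M * q * q) K) π,
            algebraMap (OK A K) (FK (M * q * q) K) π, Wit3.sE M q hq hqM K]
          ![GaussV.V1 (M * q * q) A K hB.dvr, GaussV.V2 (WQ2.wK2 M q hq hqM K) hB.dvr, H.W3]
          (Model3Top.le0 H hB.dvr) i ≤ n ∧
          ∃ g ∈ Model3Asm.Pc (chart (M * q * q) A K (Chart3B.J3 M q hq hqM K))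
          ![algebraMap (OK A K) (FK (M * q * q) K) π,
            algebraMap (OK A K) (FK (M * q * q) K) π, Wit3.sE M q hq hqM K]
          ![GaussV.V1 (M * q * q) A K hB.dvr, GaussV.V2 (WQ2.wK2 M q hq hqM K) hB.dvr, H.W3]
          (Model3Top.le0 H hB.dvr) i,
            ∀ y ∈ Model3Asm.Pc (chart (M * q * q) A K (Chart3B.J3 M q hq hqM K))
          ![algebraMap (OK A K) (FK (M * q * q) K) π,
            algebraMap (OK A K) (FK (M * q * q) K) π, Wit3.sE M q hq hqM K]
          ![GaussV.V1 (M * q * q) A K hB.dvr, GaussV.V2 (WQ2.wK2 M q hq hqM K) hB.dvr, H.W3]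
          (Model3Top.le0 H hB.dvr) i,
              ∃ s : chart (M * q * q) A K (Chart3B.J3 M q hq hqM K), s ∉ n ∧
                ∃ c : chart (M * q * q) A K (Chart3B.J3 M q hq hqM K), s * y = c * g) :
    Model3 (M * q * q) A K π (Model3Plan.ram q)
      ![algebraMap (OK A K) (FK (M * q * q) K) π, algebraMap (OK A K) (FK (M * q * q) K) π,
        Wit3.sE M q hq hqM K]
      ![GaussV.V1 (M * q * q) A K hB.dvr, GaussV.V2 (WQ2.wK2 M q hq hqM K) hB.dvr, H.W3]
      (Chart3B.J3 M q hq hqM K) :=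
  Model3PrincB.model3 H hB hA hπ a hqa hπϖ hex hnak0
    (hcusp2 H hB hA hπ a hqa hπϖ ε hε hqπ) (hcusp01 H hB hA hπ)

end Fermat.Agent.S36.CuspTopInst
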