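/-
S36 — CuspUnitChart.lean (helper98; block [N10]/[CUSP-u-alg], the CHART ADAPTER of the purely
algebraic unit step; Mathlib + `CuspGen` + `CuspAsm`).

Setting of `CuspAsm` (helper112): `R` a chart (integrally closed, `E = Frac R`), `j, jq, jqq ∈ Eˣ`,
chart elements `X = j⁻¹`, `Z = jq⁻¹`, `Y = jqq⁻¹`, `v1 = jq / j ^ q`, `v2 = jq / jqq ^ q`, and a
prime `n ⊇ P 2` containing `X * Y * Z` ("a cuspidal point of `W3`") which lies neither on `P 0`
nor on `P 1` ([CUSP1]).

The input [CUSP-c] of `CuspAsm.cusp_hB1_asm` (polynomials `A, B ∈ O[X]` describing the reduction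
of `(jqq / j - 1) ^ (q - 1) / π` on `W3`; needs the residue degree one of `W3` at level one) is
REPLACED here by the algebraic unit step of helper16 / helper48
(`CuspUnitAlg.unit_identity`, `CuspUnitInst.unit_of_roots`): in the local ring `S = R_n` with
maximal ideal `𝔪`, for `z = j⁻¹ ∈ 𝔪`, `e = jq / j ^ q = 1 + q κ`, `w = jqq / j ∈ 1 + 𝔪`, `w ≠ 1`,

    `(w - 1) ^ (q - 1) * U = q * V`   with   `U ≡ -1`, `V ≡ 1` modulo `𝔪`.

This file builds `S = Localization.AtPrime n` with its embedding `locMap : S →+* E`, produces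
`z, e, κ, w` from the chart data (`κ` by the localised `desc` at the one-branch point `n`, from
the Kronecker congruence `v1 ≡ 1` modulo `π (V 2)`), and turns the unit relation into the input
of `CuspGen.hB1_of_unitCong_field` with `y = 0`.

* `locMap`, `locMap_algebraMap`, `locMap_mk'`, `locMap_injective` : the embedding `R_n → E`;
* `UnitStep S φ 𝔪 q j jq jqq`  : the unit step as a `Prop` (= the conclusion of
                                  `CuspUnitInst.unit_of_roots` for fixed `j, jq, jqq`);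
* `exists_unitCong`            : `∃ s' a' ∉ n, (jqq / j - 1) ^ (q - 1) * s' = π * a'`;
* `cusp_hB1_of_unitStep`       : the shape `hB1` of `Princ3.princ_of_triple` (`i = 2`) at `n`.
-/
import Mathlib
import Fermat.Agent.S36.CuspGen
import Fermat.Agent.S36.CuspAsm

set_option autoImplicit false

namespace Fermat.Agent.S36.CuspUnitChart

open Fermat.Agent.S36.Model3Plan

section Loc

variable {R : Type*} [CommRing R] {E : Type*} [Field E] [Algebra R E]

/-- The canonical map `R_n → E` of the localisation of `R` at a prime `n` into a field `E`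
containing `R`. -/
noncomputable def locMap (hinj : Function.Injective (algebraMap R E)) (n : Ideal R)
    [n.IsPrime] : Localization.AtPrime n →+* E :=
  IsLocalization.lift (M := n.primeCompl) (S := Localization.AtPrime n) (g := algebraMap R E)
    (fun y => IsUnit.mk0 _ (fun h => y.2 (by
      have h0 : (y : R) = 0 := hinj (by rw [h, map_zero])
      rw [h0]
      exact zero_mem n)))

theorem locMap_algebraMap (hinj : Function.Injective (algebraMap R E)) (n : Ideal R)
    [n.IsPrime] (x : R) :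
    locMap hinj n (algebraMap R (Localization.AtPrime n) x) = algebraMap R E x :=
  IsLocalization.lift_eq _ x

theorem locMap_mk' (hinj : Function.Injective (algebraMap R E)) (n : Ideal R)
    [n.IsPrime] (x : R) (y : n.primeCompl) :
    locMap hinj n (IsLocalization.mk' (Localization.AtPrime n) x y) * algebraMap R E y =
      algebraMap R E x := by
  have h := (IsLocalization.lift_mk'_spec (M := n.primeCompl) (S := Localization.AtPrime n)
    (g := algebraMap R E) (hg := fun y => IsUnit.mk0 _ (fun h => y.2 (by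
      have h0 : (y : R) = 0 := hinj (by rw [h, map_zero])
      rw [h0]
      exact zero_mem n))) x
    (locMap hinj n (IsLocalization.mk' (Localization.AtPrime n) x y)) y).mp rfl
  rw [h, mul_comm]

theorem locMap_injective (hinj : Function.Injective (algebraMap R E)) (n : Ideal R)
    [n.IsPrime] : Function.Injective (locMap hinj n) := by
  rw [injective_iff_map_eq_zero]
  intro s hs
  obtain ⟨x, y, rfl⟩ := IsLocalization.exists_mk'_eq n.primeCompl s
  have h := locMap_mk' hinj n x y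
  rw [hs, zero_mul] at h
  have hx : x = 0 := hinj (by rw [← h, map_zero])
  rw [hx, IsLocalization.mk'_zero]

end Loc

section Step

variable {E : Type*} [Field E]

/-- **The unit step** at a local ring `S ⊆ E` with maximal ideal `𝔪` (the conclusion of
`CuspUnitInst.unit_of_roots` for fixed `j, jq, jqq`): for `z = j⁻¹ ∈ 𝔪`,
`e = jq / j ^ q = 1 + q κ`, `w = jqq / j ∈ 1 + 𝔪`, `w ≠ 1`, there are `U ≡ -1`, `V ≡ 1`
modulo `𝔪` with `(w - 1) ^ (q - 1) * U = q * V`. -/
def UnitStep (S : Type*) [CommRing S] (φ : S →+* E) (𝔪 : Ideal S) (q : ℕ) (j jq jqq : E) :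
    Prop :=
  ∀ z e κ w : S, j * φ z = 1 → jq = φ e * j ^ q → jqq = φ w * j → z ∈ 𝔪 → (q : S) ∈ 𝔪 →
    e = 1 + (q : S) * κ → w - 1 ∈ 𝔪 → w ≠ 1 →
    ∃ U V : S, U + 1 ∈ 𝔪 ∧ V - 1 ∈ 𝔪 ∧ (w - 1) ^ (q - 1) * U = (q : S) * V

end Step

variable {O : Type*} [CommRing O] {R : Type*} [CommRing R] [Algebra O R]
  {E : Type*} [Field E] [Algebra R E]
  {π : O} {e : Fin 3 → ℕ} {ϖ : Fin 3 → E} {V : Fin 3 → ValuationSubring E}
  {P : Fin 3 → Ideal R}

/-- `π ∈ P 2`. -/
theorem pi_mem_P2 (val : ValHyp3 (algebraMap R E (algebraMap O R π)) e ϖ V)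
    (hyp : ChartHyp3 π ϖ V P) : algebraMap O R π ∈ P 2 := by
  rw [hyp.mem_P 2]
  obtain ⟨u, hu, -, hpu⟩ := val.ram 2
  obtain ⟨k, hk⟩ : ∃ k : ℕ, e 2 = k + 1 := ⟨e 2 - 1, by have := val.e_pos 2; omega⟩
  exact ⟨ϖ 2 ^ k * u, mul_mem (pow_mem (val.unif_mem 2) _) hu, by rw [hpu, hk, pow_succ]; ring⟩

/-- **The unit datum at a cuspidal point of `W3`, from the algebraic unit step.**
`X = j⁻¹ ∈ n`, `v1 = jq / j ^ q` with `v1 ≡ 1` modulo `π (V 2)` (Kronecker on `W3`),
`r / v2 = jqq / j` with `v2 ∉ n`, `jqq / j ≡ 1` modulo `ϖ 2 (V 2)`, `jqq ≠ j`, `q = π ε`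
(`ε` a unit of `O`), `n ⊇ P 2` a prime containing neither `P 0` nor `P 1`: then
`(jqq / j - 1) ^ (q - 1) * s' = π * a'` with `s', a' ∉ n`. -/
theorem exists_unitCong (hinj : Function.Injective (algebraMap R E))
    (val : ValHyp3 (algebraMap R E (algebraMap O R π)) e ϖ V)
    (hyp : ChartHyp3 π ϖ V P) (hp0 : algebraMap R E (algebraMap O R π) ≠ 0)
    (q : ℕ) (ε : O) (hε : IsUnit ε) (hqπ : (q : O) = π * ε)
    (j jq jqq : E) (hj : j ≠ 0) (hne : jqq ≠ j)
    (X v1 v2 r : R) (hX : algebraMap R E X = j⁻¹) (hv1 : algebraMap R E v1 = jq / j ^ q)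
    (hr : algebraMap R E r = algebraMap R E v2 * (jqq / j))
    (hv1' : ∃ y ∈ V 2, algebraMap R E v1 - 1 = algebraMap R E (algebraMap O R π) * y)
    (hw : ∃ y ∈ V 2, jqq / j - 1 = ϖ 2 * y)
    (n : Ideal R) [hn : n.IsPrime] (hP2 : P 2 ≤ n) (hP0 : ¬ P 0 ≤ n) (hP1 : ¬ P 1 ≤ n)
    (hXn : X ∈ n) (hv2n : v2 ∉ n)
    (hstep : UnitStep (Localization.AtPrime n) (locMap hinj n)
      (IsLocalRing.maximalIdeal (Localization.AtPrime n)) q j jq jqq) :
    ∃ s' a' : R, s' ∉ n ∧ a' ∉ n ∧
      (jqq / j - 1) ^ (q - 1) * algebraMap R E s' =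
        algebraMap R E (algebraMap O R π) * algebraMap R E a' := by
  classical
  have h1n : (1 : R) ∉ n := fun h => hn.ne_top ((Ideal.eq_top_iff_one n).mpr h)
  have hφinj : Function.Injective (locMap hinj n) := locMap_injective hinj n
  -- `π ∈ n`, `q = π ε` in `R`
  have hπn : algebraMap O R π ∈ n := hP2 (pi_mem_P2 val hyp)
  have hqR : ((q : ℕ) : R) = algebraMap O R π * algebraMap O R ε := by
    rw [← map_mul, ← hqπ, map_natCast]
  have hqn : ((q : ℕ) : R) ∈ n := by rw [hqR]; exact n.mul_mem_right _ hπn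
  obtain ⟨ε', hε'⟩ := hε.exists_right_inv
  have hεε' : algebraMap R E (algebraMap O R ε) * algebraMap R E (algebraMap O R ε') = 1 := by
    rw [← map_mul, ← map_mul, hε', map_one, map_one]
  have hεn : algebraMap O R ε ∉ n := by
    intro hmem
    apply h1n
    have h1 : algebraMap O R ε * algebraMap O R ε' = 1 := by rw [← map_mul, hε', map_one]
    rw [← h1]
    exact n.mul_mem_right _ hmem
  have hqE : ((q : ℕ) : E) =
      algebraMap R E (algebraMap O R π) * algebraMap R E (algebraMap O R ε) := by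
    rw [← map_mul, ← hqR, map_natCast]
  -- Kronecker + localised `desc`: `σ * (v1 - 1) = π * c`, `σ ∉ n`
  obtain ⟨yk, hyk, hykeq⟩ := hv1'
  obtain ⟨σ, hσ, c, hc⟩ := CuspGen.exists_pi_mul_of_oneBranch val hyp hp0 n hn hP0 hP1 (v1 - 1)
    ⟨yk, hyk, by rw [map_sub, map_one]; exact hykeq⟩
  have hcE : algebraMap R E σ * (algebraMap R E v1 - 1) =
      algebraMap R E (algebraMap O R π) * algebraMap R E c := by
    have := congrArg (algebraMap R E) hc
    simpa only [map_mul, map_sub, map_one] using this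
  have hσ0 : algebraMap R E σ ≠ 0 := by
    intro h0
    apply hσ
    have : σ = 0 := hinj (by rw [h0, map_zero])
    rw [this]; exact zero_mem _
  -- `r - v2 ∈ P 2 ⊆ n`
  obtain ⟨yw, hyw, hyweq⟩ := hw
  have hrv : r - v2 ∈ n := by
    apply hP2
    rw [hyp.mem_P 2]
    refine ⟨algebraMap R E v2 * yw, mul_mem (hyp.le 2 v2) hyw, ?_⟩
    rw [map_sub, hr]
    linear_combination algebraMap R E v2 * hyweq
  have hv20 : algebraMap R E v2 ≠ 0 := by
    intro h0
    apply hv2n
    have : v2 = 0 := hinj (by rw [h0, map_zero])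
    rw [this]; exact zero_mem _
  -- the elements of `S = R_n`
  have hφκ := locMap_mk' hinj n c (⟨σ, hσ⟩ : n.primeCompl)
  have hφw := locMap_mk' hinj n r (⟨v2, hv2n⟩ : n.primeCompl)
  simp only [] at hφκ hφw
  have hφw' : locMap hinj n (IsLocalization.mk' (Localization.AtPrime n) r
      (⟨v2, hv2n⟩ : n.primeCompl)) = jqq / j := by
    apply mul_right_cancel₀ hv20
    rw [hφw, hr, mul_comm]
  obtain ⟨U₀, V₀, hU, hV, hUV⟩ := hstep
    (algebraMap R (Localization.AtPrime n) X)
    (algebraMap R (Localization.AtPrime n) v1)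
    (algebraMap R (Localization.AtPrime n) (algebraMap O R ε') *
      IsLocalization.mk' (Localization.AtPrime n) c (⟨σ, hσ⟩ : n.primeCompl))
    (IsLocalization.mk' (Localization.AtPrime n) r (⟨v2, hv2n⟩ : n.primeCompl))
    (by rw [locMap_algebraMap, hX]; exact mul_inv_cancel₀ hj)
    (by
      rw [locMap_algebraMap, hv1]
      have hb : j ^ q ≠ 0 := pow_ne_zero _ hj
      field_simp)
    (by rw [hφw']; field_simp)
    ((IsLocalization.AtPrime.to_map_mem_maximal_iff (Localization.AtPrime n) n X).mpr hXn)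
    (by
      have h := (IsLocalization.AtPrime.to_map_mem_maximal_iff (Localization.AtPrime n) n
        ((q : ℕ) : R)).mpr hqn
      rwa [map_natCast] at h)
    (by
      apply hφinj
      rw [map_add, map_one, map_mul, map_mul, map_natCast, locMap_algebraMap, locMap_algebraMap]
      apply mul_right_cancel₀ hσ0
      linear_combination hcE - ((q : E) * algebraMap R E (algebraMap O R ε')) * hφκ -
        (algebraMap R E (algebraMap O R π) * algebraMap R E c) * hεε' -
        (algebraMap R E (algebraMap O R ε') * algebraMap R E c) * hqE)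
    (by
      have h : IsLocalization.mk' (Localization.AtPrime n) r (⟨v2, hv2n⟩ : n.primeCompl) - 1 =
          IsLocalization.mk' (Localization.AtPrime n) (r - v2) (⟨v2, hv2n⟩ : n.primeCompl) := by
        rw [IsLocalization.eq_mk'_iff_mul_eq, sub_mul, one_mul, IsLocalization.mk'_spec,
          map_sub]
      rw [h]
      exact (IsLocalization.AtPrime.mk'_mem_maximal_iff (Localization.AtPrime n) n _ _).mpr hrv)
    (by
      intro h
      have h2 := congrArg (locMap hinj n) h
      rw [hφw', map_one] at h2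
      exact hne ((div_eq_one_iff_eq hj).mp h2))
  -- back to the chart
  have h1m : (1 : Localization.AtPrime n) ∉ IsLocalRing.maximalIdeal (Localization.AtPrime n) :=
    fun h => (IsLocalRing.maximalIdeal.isMaximal (Localization.AtPrime n)).ne_top
      ((Ideal.eq_top_iff_one _).mpr h)
  obtain ⟨u₁, t₁, rfl⟩ := IsLocalization.exists_mk'_eq n.primeCompl U₀
  obtain ⟨u₂, t₂, rfl⟩ := IsLocalization.exists_mk'_eq n.primeCompl V₀
  have hu₁ : u₁ ∉ n := by
    intro hmem
    apply h1m
    have h := (IsLocalization.AtPrime.mk'_mem_maximal_iff (Localization.AtPrime n) n u₁ t₁).mpr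
      hmem
    have := Ideal.sub_mem _ hU h
    rwa [add_sub_cancel_left] at this
  have hu₂ : u₂ ∉ n := by
    intro hmem
    apply h1m
    have h := (IsLocalization.AtPrime.mk'_mem_maximal_iff (Localization.AtPrime n) n u₂ t₂).mpr
      hmem
    have := Ideal.sub_mem _ h hV
    rwa [sub_sub_cancel] at this
  have hφU := locMap_mk' hinj n u₁ t₁
  have hφV := locMap_mk' hinj n u₂ t₂
  have hE := congrArg (locMap hinj n) hUV
  rw [map_mul, map_pow, map_sub, map_one, hφw', map_mul, map_natCast] at hE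
  refine ⟨u₁ * t₂, algebraMap O R ε * u₂ * t₁, ?_, ?_, ?_⟩
  · intro hmem
    rcases hn.mem_or_mem hmem with h | h
    · exact hu₁ h
    · exact t₂.2 h
  · intro hmem
    rcases hn.mem_or_mem hmem with h | h
    · rcases hn.mem_or_mem h with h' | h'
      · exact hεn h'
      · exact hu₂ h'
    · exact t₁.2 h
  · simp only [map_mul]
    linear_combination (algebraMap R E (t₁ : R) * algebraMap R E (t₂ : R)) * hE -
      ((jqq / j - 1) ^ (q - 1) * algebraMap R E (t₂ : R)) * hφU +
      ((q : E) * algebraMap R E (t₁ : R)) * hφV +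
      (algebraMap R E u₂ * algebraMap R E (t₁ : R)) * hqE

/-- **[N10] via the algebraic unit step.**  The shape `hB1` of `Princ3.princ_of_triple`
(`i = 2`) at a cuspidal point `n` of `W3`: same data as `CuspAsm.cusp_hB1_asm`, with the input
[CUSP-c] replaced by `UnitStep` (+ the Kronecker congruence `v1 ≡ 1` modulo `π (V 2)`, the
congruence `jqq / j ≡ 1` modulo `ϖ 2 (V 2)`, `jqq ≠ j` and `q = π ε`). -/
theorem cusp_hB1_of_unitStep [IsIntegrallyClosed R] [IsFractionRing R E]
    (val : ValHyp3 (algebraMap R E (algebraMap O R π)) e ϖ V)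
    (hyp : ChartHyp3 π ϖ V P) (hp0 : algebraMap R E (algebraMap O R π) ≠ 0)
    (q : ℕ) (hq0 : q ≠ 0) (he2 : e 2 = q - 1) (ε : O) (hε : IsUnit ε) (hqπ : (q : O) = π * ε)
    (j jq jqq : E) (hj : j ≠ 0) (hjq : jq ≠ 0) (hjqq : jqq ≠ 0) (hne : jqq ≠ j)
    (X Y Z v1 v2 : R) (hX : algebraMap R E X = j⁻¹) (hY : algebraMap R E Y = jqq⁻¹)
    (hZ : algebraMap R E Z = jq⁻¹) (hv1 : algebraMap R E v1 = jq / j ^ q)
    (hv2 : algebraMap R E v2 = jq / jqq ^ q) (hv2' : v2 - 1 ∈ P 2)
    (hv1' : ∃ y ∈ V 2, algebraMap R E v1 - 1 = algebraMap R E (algebraMap O R π) * y)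
    (hw : ∃ y ∈ V 2, jqq / j - 1 = ϖ 2 * y)
    (n : Ideal R) [hn : n.IsPrime] (hP2 : P 2 ≤ n) (hP0 : ¬ P 0 ≤ n) (hP1 : ¬ P 1 ≤ n)
    (hmem : X * Y * Z ∈ n)
    (hstep : UnitStep (Localization.AtPrime n) (locMap (IsFractionRing.injective R E) n)
      (IsLocalRing.maximalIdeal (Localization.AtPrime n)) q j jq jqq) :
    ∃ i : Fin 3, P i ≤ n ∧ ∃ g ∈ P i, ∀ y ∈ P i, ∃ t : R, t ∉ n ∧ ∃ c : R, t * y = c * g := by
  have hinj : Function.Injective (algebraMap R E) := IsFractionRing.injective R E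
  have h1n : (1 : R) ∉ n := fun h => hn.ne_top ((Ideal.eq_top_iff_one n).mpr h)
  obtain ⟨k, rfl⟩ : ∃ k : ℕ, q = k + 1 := ⟨q - 1, by omega⟩
  -- `v2 ∉ n`
  have hv2n : v2 ∉ n := by
    intro hmem2
    apply h1n
    have := n.sub_mem hmem2 (hP2 hv2')
    rwa [sub_sub_cancel] at this
  -- `X ∈ n`
  have hXn : X ∈ n := by
    refine CuspAsm.mem_of_prod_mem n hn X Y Z v1 v2 (k + 1) hq0 ?_ ?_ hv2n hmem
    · apply hinj
      rw [map_pow, map_mul, hX, hZ, hv1, inv_pow]
      have hb : j ^ (k + 1) ≠ 0 := pow_ne_zero _ hj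
      field_simp
    · apply hinj
      rw [map_pow, map_mul, hY, hZ, hv2, inv_pow]
      have hb : jqq ^ (k + 1) ≠ 0 := pow_ne_zero _ hjqq
      field_simp
  -- `v2 * (jqq / j) ∈ R`
  obtain ⟨r, hr⟩ : ∃ r : R, algebraMap R E r = algebraMap R E v2 * (jqq / j) := by
    have hint : IsIntegral R (algebraMap R E v2 * (jqq / j)) := by
      refine IsIntegral.of_pow (Nat.succ_pos k) ?_
      have : (algebraMap R E v2 * (jqq / j)) ^ (k + 1) = algebraMap R E (v1 * v2 ^ k) := by
        rw [map_mul, map_pow, hv1, hv2, mul_pow, div_pow jqq j]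
        have ha : jqq ^ (k + 1) ≠ 0 := pow_ne_zero _ hjqq
        have hb : j ^ (k + 1) ≠ 0 := pow_ne_zero _ hj
        generalize jqq ^ (k + 1) = a at ha ⊢
        generalize j ^ (k + 1) = b at hb ⊢
        rw [pow_succ (jq / a) k]
        field_simp
      rw [this]
      exact isIntegral_algebraMap
    exact IsIntegrallyClosed.isIntegral_iff.mp hint
  obtain ⟨s', a', hs', ha', hcong⟩ := exists_unitCong hinj val hyp hp0 (k + 1) ε hε hqπ j jq jqq
    hj hne X v1 v2 r hX hv1 hr hv1' hw n hP2 hP0 hP1 hXn hv2n hstep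
  have hδ : (jqq / j - 1) * algebraMap R E v2 = algebraMap R E (r - v2) := by
    rw [map_sub, hr]
    ring
  refine CuspGen.hB1_of_unitCong_field val hyp hp0 hinj n hn hP2 hP0 hP1 (jqq / j - 1) (r - v2)
    v2 s' a' hv2n hs' ha' hδ 0 (zero_mem _) ?_
  rw [he2, mul_zero, add_zero]
  exact hcong

end Fermat.Agent.S36.CuspUnitChart
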