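/-
S36 — CuspUnitInst.lean (helper16): [CUSP-u-alg], the ALGEBRAIC UNIT STEP of (B1) at the cuspidal
closed points of `W3` (field-level glue).

`S` a domain with an injective map `φ` into a field `E` (in the application: the local ring of
the chart at a cuspidal point `n` of `W3` inside `F_K(N)`), `𝔪` an ideal containing `q` and
`z = j⁻¹`; `e = jq · z^q`, `w = jqq · z`, `e = 1 + q κ`, `w ≡ 1` modulo `𝔪`.  From the two root
identities `Φ_q(j, jq) = 0 = Φ_q(jqq, jq)` of the modular polynomial (`S28.HeckeData`), its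
Kronecker form `Φ_q = (X^q − Y)(X − Y^q) + q Θ` (`PhiKron.exists_theta`) and the weight bound
`a + q b ≤ q² + q` on its monomials (`PhiShapeW.weight_le`, helper51), the homogenised polynomial
`F(t) = z^(q²+q) Φ_q(t j, jq) = (t^q − e)(t z^(q²−1) − e^q) + q ∑ g_a t^a` has `F(1) = 0 = F(w)`,
and `CuspUnitAlg.unit_identity` (helper48) gives `(w − 1)^(q−1) · U = q · V`, `U ≡ −1`, `V ≡ 1`
modulo `𝔪`: `jqq / j − 1` is a `(q−1)`-th root of `q` up to a unit at the cusp.
No residue-degree input, no `ι3`, uniform in the cusp of `X_0(M)`.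
-/
import Mathlib
import Fermat.Agent.S28.Roots
import Fermat.Agent.S36.PhiKron
import Fermat.Agent.S36.PhiShapeW
import Fermat.Agent.S36.CuspUnitAlg

set_option autoImplicit false

noncomputable section

namespace Fermat.Agent.S36.CuspUnitInst

open Polynomial Fermat.Agent.S28

section hom

variable {S : Type*} [CommRing S]

/-- The `z`-homogenised evaluation of `P ∈ ℤ[Y][X]` (bidegree `< q + 2`):
`∑ p_ab e^b z^(q²+q−a−qb) t^a`; it equals `z^(q²+q) · P(t/z, e/z^q)` when all monomials of `P`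
have weight `a + q b ≤ q² + q`. -/
def hom (q : ℕ) (P : Polynomial (Polynomial ℤ)) (z e t : S) : S :=
  ∑ a ∈ Finset.range (q + 2), ∑ b ∈ Finset.range (q + 2),
    (((P.coeff a).coeff b : ℤ) : S) * e ^ b * z ^ (q * q + q - a - q * b) * t ^ a

theorem hom_add (q : ℕ) (P P' : Polynomial (Polynomial ℤ)) (z e t : S) :
    hom q (P + P') z e t = hom q P z e t + hom q P' z e t := by
  simp only [hom, coeff_add, Int.cast_add, add_mul, Finset.sum_add_distrib]

theorem hom_neg (q : ℕ) (P : Polynomial (Polynomial ℤ)) (z e t : S) :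
    hom q (-P) z e t = -hom q P z e t := by
  simp only [hom, coeff_neg, Int.cast_neg, neg_mul, Finset.sum_neg_distrib]

theorem hom_sub (q : ℕ) (P P' : Polynomial (Polynomial ℤ)) (z e t : S) :
    hom q (P - P') z e t = hom q P z e t - hom q P' z e t := by
  rw [sub_eq_add_neg, hom_add, hom_neg, sub_eq_add_neg]

theorem hom_CC_mul (q : ℕ) (n : ℤ) (P : Polynomial (Polynomial ℤ)) (z e t : S) :
    hom q (C (C n) * P) z e t = (n : S) * hom q P z e t := by
  simp only [hom, coeff_C_mul, Int.cast_mul, Finset.mul_sum]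
  refine Finset.sum_congr rfl fun a _ => Finset.sum_congr rfl fun b _ => ?_
  ring

theorem coeff_coeff_monomial (a₀ b₀ a b : ℕ) :
    ((C ((X : ℤ[X]) ^ b₀) * X ^ a₀ : Polynomial (Polynomial ℤ)).coeff a).coeff b =
      if a = a₀ ∧ b = b₀ then 1 else 0 := by
  rw [coeff_C_mul_X_pow]
  by_cases ha : a = a₀
  · rw [if_pos ha, coeff_X_pow]
    by_cases hb : b = b₀
    · rw [if_pos hb, if_pos ⟨ha, hb⟩]
    · rw [if_neg hb, if_neg (fun h => hb h.2)]
  · rw [if_neg ha, coeff_zero, if_neg (fun h => ha h.1)]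

theorem hom_monomial (q : ℕ) {a₀ b₀ : ℕ} (ha : a₀ < q + 2) (hb : b₀ < q + 2) (z e t : S) :
    hom q (C ((X : ℤ[X]) ^ b₀) * X ^ a₀) z e t =
      e ^ b₀ * z ^ (q * q + q - a₀ - q * b₀) * t ^ a₀ := by
  unfold hom
  rw [Finset.sum_eq_single a₀, Finset.sum_eq_single b₀]
  · rw [coeff_coeff_monomial, if_pos ⟨rfl, rfl⟩, Int.cast_one, one_mul]
  · intro b _ hb'
    rw [coeff_coeff_monomial, if_neg (fun h => hb' h.2), Int.cast_zero, zero_mul, zero_mul,
      zero_mul]
  · intro h
    exact absurd (Finset.mem_range.mpr hb) h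
  · intro a _ ha'
    refine Finset.sum_eq_zero fun b _ => ?_
    rw [coeff_coeff_monomial, if_neg (fun h => ha' h.1), Int.cast_zero, zero_mul, zero_mul,
      zero_mul]
  · intro h
    exact absurd (Finset.mem_range.mpr ha) h

theorem hom_kron (q : ℕ) (hq : 2 ≤ q) (z e t : S) :
    hom q ((X ^ q - C (X : ℤ[X])) * (X - C ((X : ℤ[X]) ^ q))) z e t =
      (t ^ q - e) * (t * z ^ (q * q - 1) - e ^ q) := by
  have hK : (X ^ q - C (X : ℤ[X])) * (X - C ((X : ℤ[X]) ^ q)) =
      C ((X : ℤ[X]) ^ 0) * X ^ (q + 1) - C ((X : ℤ[X]) ^ q) * X ^ q -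
        C ((X : ℤ[X]) ^ 1) * X ^ 1 + C ((X : ℤ[X]) ^ (q + 1)) * X ^ 0 := by
    simp only [map_pow, pow_zero, pow_one, map_one, one_mul, mul_one]
    ring
  have hqq : 1 ≤ q * q := Nat.mul_pos (by omega) (by omega)
  have e1 : q * q + q - (q + 1) - q * 0 = q * q - 1 := by omega
  have e2 : q * q + q - q - q * q = 0 := by omega
  have e3 : q * q + q - 1 - q * 1 = q * q - 1 := by omega
  have e4 : q * q + q - 0 - q * (q + 1) = 0 := by
    rw [Nat.mul_succ]; omega
  rw [hK, hom_add, hom_sub, hom_sub, hom_monomial q (by omega) (by omega),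
    hom_monomial q (by omega) (by omega), hom_monomial q (by omega) (by omega),
    hom_monomial q (by omega) (by omega), e1, e2, e3, e4]
  ring

end hom

section eval

variable {S E : Type*} [CommRing S] [Field E]

theorem natDegree_coeff_lt (q : ℕ) (hq : 1 ≤ q) (P : Polynomial (Polynomial ℤ))
    (hW : ∀ a b, (P.coeff a).coeff b ≠ 0 → a + q * b ≤ q * q + q) (a : ℕ) :
    (P.coeff a).natDegree < q + 2 := by
  by_contra h
  have h' : q + 2 ≤ (P.coeff a).natDegree := not_lt.mp h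
  have hne : P.coeff a ≠ 0 := by
    intro h0
    rw [h0, natDegree_zero] at h'
    omega
  have hlc : (P.coeff a).coeff (P.coeff a).natDegree ≠ 0 := by
    rw [coeff_natDegree]
    exact leadingCoeff_ne_zero.mpr hne
  have h1 := hW a _ hlc
  have h2 : q * (q + 2) ≤ q * (P.coeff a).natDegree := Nat.mul_le_mul_left q h'
  rw [Nat.mul_add] at h2
  omega

/-- The homogenised evaluation computes `z^(q²+q) · P(t/z, e/z^q)`. -/
theorem map_hom_eq (q : ℕ) (hq : 1 ≤ q) (φ : S →+* E) (j : E) (z e t : S) (hj : j * φ z = 1)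
    (P : Polynomial (Polynomial ℤ)) (hdeg : P.natDegree < q + 2)
    (hW : ∀ a b, (P.coeff a).coeff b ≠ 0 → a + q * b ≤ q * q + q) :
    φ (hom q P z e t) = (φ z) ^ (q * q + q) * (PhiAt P (φ e * j ^ q)).eval (φ t * j) := by
  have hPd : (PhiAt P (φ e * j ^ q)).natDegree < q + 2 :=
    lt_of_le_of_lt (natDegree_map_le) hdeg
  rw [Polynomial.eval_eq_sum_range' hPd, Finset.mul_sum]
  unfold hom
  rw [map_sum]
  refine Finset.sum_congr rfl fun a _ => ?_
  have hc : (PhiAt P (φ e * j ^ q)).coeff a =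
      ∑ b ∈ Finset.range (q + 2), (((P.coeff a).coeff b : ℤ) : E) * (φ e * j ^ q) ^ b := by
    unfold PhiAt
    rw [Polynomial.coeff_map, Polynomial.coe_eval₂RingHom,
      Polynomial.eval₂_eq_sum_range' _ (natDegree_coeff_lt q hq P hW a)]
    simp
  rw [hc, map_sum, Finset.sum_mul, Finset.mul_sum]
  refine Finset.sum_congr rfl fun b _ => ?_
  by_cases h0 : (P.coeff a).coeff b = 0
  · simp [h0]
  · have hw := hW a b h0
    have hsplit : (φ z) ^ (q * q + q) =
        (φ z) ^ (q * q + q - a - q * b) * (φ z) ^ (a + q * b) := by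
      rw [← pow_add]
      congr 1
      omega
    have hone : (φ z) ^ (a + q * b) * (j ^ q) ^ b * j ^ a = 1 := by
      have h1 : (φ z) ^ (a + q * b) * (j ^ q) ^ b * j ^ a = (j * φ z) ^ (a + q * b) := by
        rw [mul_pow, pow_add, pow_add, pow_mul]
        ring
      rw [h1, hj, one_pow]
    simp only [map_mul, map_pow, map_intCast]
    rw [hsplit]
    calc (((P.coeff a).coeff b : ℤ) : E) * φ e ^ b * φ z ^ (q * q + q - a - q * b) * φ t ^ a
        = (((P.coeff a).coeff b : ℤ) : E) * φ e ^ b * φ z ^ (q * q + q - a - q * b) * φ t ^ a *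
            ((φ z) ^ (a + q * b) * (j ^ q) ^ b * j ^ a) := by rw [hone, mul_one]
      _ = _ := by ring

end eval

section main

variable {S E : Type*} [CommRing S] [Field E]

/-- Coefficients of the Kronecker polynomial. -/
theorem coeff_coeff_kron (q a b : ℕ) :
    (((X ^ q - C (X : ℤ[X])) * (X - C ((X : ℤ[X]) ^ q)) : Polynomial (Polynomial ℤ)).coeff a).coeff b
      = (if a = q + 1 ∧ b = 0 then 1 else 0) - (if a = q ∧ b = q then 1 else 0)
        - (if a = 1 ∧ b = 1 then 1 else 0) + (if a = 0 ∧ b = q + 1 then 1 else 0) := by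
  have hK : (X ^ q - C (X : ℤ[X])) * (X - C ((X : ℤ[X]) ^ q)) =
      C ((X : ℤ[X]) ^ 0) * X ^ (q + 1) - C ((X : ℤ[X]) ^ q) * X ^ q -
        C ((X : ℤ[X]) ^ 1) * X ^ 1 + C ((X : ℤ[X]) ^ (q + 1)) * X ^ 0 := by
    simp only [map_pow, pow_zero, pow_one, map_one, one_mul, mul_one]
    ring
  rw [hK]
  simp only [coeff_add, coeff_sub, coeff_coeff_monomial]

/-- The data of the unit identity: the elements `g a` and the homogenised root identities. -/
theorem exists_data (φ : S →+* E) (hφ : Function.Injective φ) (q : ℕ) (hq : q.Prime)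
    (hd : HeckeData q) (𝔪 : Ideal S) (z e : S) (j jq : E) (hj : j * φ z = 1)
    (hjq : jq = φ e * j ^ q) (hz : z ∈ 𝔪) :
    ∃ g : ℕ → S, (∀ a, ¬ q ∣ a → g a ∈ 𝔪) ∧
      ∀ t : S, (PhiAt hd.Φ jq).eval (φ t * j) = 0 →
        (t ^ q - e) * (t * z ^ (q * q - 1) - e ^ q)
          + (q : S) * ∑ a ∈ Finset.range (q + 2), g a * t ^ a = 0 := by
  have : Fact q.Prime := ⟨hq⟩
  have hq2 := hq.two_le
  have hW : ∀ a b, (hd.Φ.coeff a).coeff b ≠ 0 → a + q * b ≤ q * q + q := by
    intro a b h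
    have := PhiShapeW.weight_le hq hd a b h
    rwa [sq] at this
  obtain ⟨Θ, hΘ⟩ := PhiKron.exists_theta q hd
  refine ⟨fun a => ∑ b ∈ Finset.range (q + 2),
    (((Θ.coeff a).coeff b : ℤ) : S) * e ^ b * z ^ (q * q + q - a - q * b), ?_, ?_⟩
  · intro a ha
    refine Ideal.sum_mem _ fun b _ => ?_
    by_cases h0 : (Θ.coeff a).coeff b = 0
    · rw [h0, Int.cast_zero, zero_mul, zero_mul]
      exact 𝔪.zero_mem
    · have hexp : 0 < q * q + q - a - q * b := by
        have hcoef : (hd.Φ.coeff a).coeff b =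
            (((X ^ q - C (X : ℤ[X])) * (X - C ((X : ℤ[X]) ^ q)) :
              Polynomial (Polynomial ℤ)).coeff a).coeff b + (q : ℤ) * (Θ.coeff a).coeff b := by
          conv_lhs => rw [hΘ]
          rw [coeff_add, coeff_add, coeff_C_mul, coeff_C_mul]
        rw [coeff_coeff_kron] at hcoef
        have hqq : 4 ≤ q * q := by nlinarith
        have hqa : a ≠ q := fun h => ha (h ▸ dvd_refl q)
        have ha0 : a ≠ 0 := fun h => ha (h ▸ dvd_zero q)
        by_cases hA : a = q + 1 ∧ b = 0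
        · obtain ⟨rfl, rfl⟩ := hA
          omega
        by_cases hB : a = 1 ∧ b = 1
        · obtain ⟨rfl, rfl⟩ := hB
          omega
        rw [if_neg hA, if_neg (fun h => hqa h.1), if_neg hB, if_neg (fun h => ha0 h.1)] at hcoef
        have hne : (hd.Φ.coeff a).coeff b ≠ 0 := by
          rw [hcoef]
          simp only [sub_self, zero_add]
          exact mul_ne_zero (by exact_mod_cast hq.ne_zero) h0
        have hw := hW a b hne
        have hneq : a + q * b ≠ q * q + q := by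
          intro heq
          apply ha
          have h1 : q ∣ a + q * b := by
            rw [heq]
            exact Dvd.intro (q + 1) (by ring)
          exact (Nat.dvd_add_left (Dvd.intro b rfl)).mp h1
        omega
      exact 𝔪.mul_mem_left _ (Ideal.pow_mem_of_mem 𝔪 hz _ hexp)
  · intro t ht
    have h0 : hom q hd.Φ z e t = 0 := by
      apply hφ
      rw [map_zero, map_hom_eq q (by omega) φ j z e t hj hd.Φ
        (by rw [hd.natDegree_eq]; omega) hW, ← hjq, ht, mul_zero]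
    have h1 : hom q hd.Φ z e t = (t ^ q - e) * (t * z ^ (q * q - 1) - e ^ q)
        + ((q : ℤ) : S) * hom q Θ z e t := by
      conv_lhs => rw [hΘ]
      rw [hom_add, hom_kron q hq2, hom_CC_mul]
    rw [h1] at h0
    rw [← h0, Int.cast_natCast]
    congr 2
    unfold hom
    refine Finset.sum_congr rfl fun a _ => ?_
    rw [Finset.sum_mul]

/-- **The algebraic unit step at the cusps of `W3`.**  `S` a domain mapping injectively to a
field `E`, `𝔪` an ideal of `S` containing `q` and `z`; `j, jq, jqq ∈ E` with `j · z = 1`,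
`jq = e · j^q`, `jqq = w · j` (`z, e, w ∈ S`), `e = 1 + q κ`, `w ≡ 1` modulo `𝔪`, `w ≠ 1`, and
`Φ_q(j, jq) = 0 = Φ_q(jqq, jq)`.  Then `(w − 1)^(q−1) · U = q · V` with `U ≡ −1`, `V ≡ 1`
modulo `𝔪`. -/
theorem unit_of_roots [IsDomain S] (φ : S →+* E) (hφ : Function.Injective φ) (q : ℕ)
    (hq : q.Prime) (hd : HeckeData q) (𝔪 : Ideal S) (z e κ w : S) (j jq jqq : E)
    (hj : j * φ z = 1) (hjq : jq = φ e * j ^ q) (hjqq : jqq = φ w * j)
    (hz : z ∈ 𝔪) (hq𝔪 : (q : S) ∈ 𝔪) (he : e = 1 + (q : S) * κ) (hw : w - 1 ∈ 𝔪) (hw1 : w ≠ 1)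
    (h1 : (PhiAt hd.Φ jq).eval j = 0) (h2 : (PhiAt hd.Φ jq).eval jqq = 0) :
    ∃ U V : S, U + 1 ∈ 𝔪 ∧ V - 1 ∈ 𝔪 ∧ (w - 1) ^ (q - 1) * U = (q : S) * V := by
  obtain ⟨g, hg, hF⟩ := exists_data φ hφ q hq hd 𝔪 z e j jq hj hjq hz
  refine CuspUnitAlg.unit_identity q hq 𝔪 z e κ w g hz hq𝔪 he hw hw1 hg (hF 1 ?_) (hF w ?_)
  · rwa [map_one, one_mul]
  · rwa [← hjqq]

end main

end Fermat.Agent.S36.CuspUnitInst
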