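/-
S36 — CuspUnitRoots.lean (helper48; package [N10], sub-block [CUSP-u-alg]; dealt by helper98 /
helper16).

The two root identities of the modular polynomial `Φ_q` (`hd : S28.HeckeData q`) at the OBJECTS
OF RECORD of level `N = M * q * q` in `E = F_K(N)`:

* `phi_jK`     : `Φ_q(j, j_q) = 0`,      i.e. `(PhiAt hd.Φ jqK2).eval jK = 0`;
* `phi_jqqK2`  : `Φ_q(j_{q²}, j_q) = 0`, i.e. `(PhiAt hd.Φ jqK2).eval jqqK2 = 0`;
* `jqqK2_ne_jK`: `j_{q²} ≠ j`.

(`X` is the outer variable of `hd.Φ`, `Y` the inner one; `jK = j(Q)`, `jqK2 = j(Q^q)`,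
`jqqK2 = j(Q^(q²))` on `q`-expansions.)  These are the hypotheses `h1`, `h2` (and `w ≠ 1`) of the
glue `CuspUnitInst.unit_of_roots` (helper16) / of the chart adapter `CuspUnitChart` (helper98).
-/
import Mathlib
import Fermat.Agent.S36.WQ2
import Fermat.Agent.S28.Roots
import Fermat.Agent.S18.ModelBasicCore

set_option autoImplicit false

noncomputable section

namespace Fermat.Agent.S36.CuspUnitRoots

open ModularCurve HahnSeries Fermat.Agent Fermat.Agent.S18 Fermat.Agent.S18.Arith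

/-- Pull an evaluation identity of `PhiAt` back along the coercion `F_K → ℚ̄((Q))`. -/
theorem eval_PhiAt_eq_zero_of_coe {N : ℕ} [NeZero N] {K : IntermediateField ℚ Qb}
    (Φ : Polynomial (Polynomial ℤ)) (y x : FK N K)
    (h : (S28.PhiAt Φ (y : LaurentSeries Qb)).eval (x : LaurentSeries Qb) = 0) :
    (S28.PhiAt Φ y).eval x = 0 := by
  apply Subtype.ext
  have h1 := S28.map_eval_PhiAt (FK N K).subtype Φ y x
  exact h1.trans h

variable (M q : ℕ) [NeZero M] [NeZero q] (hq : q.Prime) (hqM : ¬ q ∣ M)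
  (K : IntermediateField ℚ Qb)

/-- `Φ_q(j, j_q) = 0` in `F_K(M q²)`. -/
theorem phi_jK (hd : S28.HeckeData q) :
    (S28.PhiAt hd.Φ (WQ2.jqK2 M q hq hqM K)).eval (jK (M * q * q) K) = 0 := by
  apply eval_PhiAt_eq_zero_of_coe
  rw [WQ2.coe_jqK2, ModelBasicCore.coe_jK]
  exact S28.roots_root'_coeff hd Qb

/-- `Φ_q(j_{q²}, j_q) = 0` in `F_K(M q²)`. -/
theorem phi_jqqK2 (hd : S28.HeckeData q) :
    (S28.PhiAt hd.Φ (WQ2.jqK2 M q hq hqM K)).eval (WQ2.jqqK2 M q hq hqM K) = 0 := by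
  apply eval_PhiAt_eq_zero_of_coe
  rw [WQ2.coe_jqK2, WQ2.coe_jqqK2]
  exact S28.root_jd hd Qb hq.ne_zero q

/-- `j_{q²} ≠ j` in `F_K(M q²)`. -/
theorem jqqK2_ne_jK : WQ2.jqqK2 M q hq hqM K ≠ jK (M * q * q) K := by
  intro h
  have h1 : ((WQ2.jqqK2 M q hq hqM K : FK (M * q * q) K) : LaurentSeries Qb)
      = ((jK (M * q * q) K : FK (M * q * q) K) : LaurentSeries Qb) := by rw [h]
  rw [WQ2.coe_jqqK2, ModelBasicCore.coe_jK, S28.jd_eq, S28.jd_one] at h1
  have h2 : (qExpand Qb (q * q) (jqModC Qb)).coeff (-1) = (jqModC Qb).coeff (-1) := by rw [h1]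
  rw [qExpand_coeff_of_not_dvd] at h2
  · rw [coeff_jqModC_neg_one] at h2
    exact zero_ne_one h2
  · intro hdvd
    have h4 : q * q ∣ 1 := by
      have := Int.natCast_dvd.mp hdvd
      simpa using this
    have h5 : q * q = 1 := Nat.dvd_one.mp h4
    have := hq.two_le
    nlinarith

/-- `j_{q²} / j ≠ 1`. -/
theorem jqqK2_div_jK_ne_one :
    WQ2.jqqK2 M q hq hqM K / jK (M * q * q) K ≠ 1 := by
  intro h
  have hj : jK (M * q * q) K ≠ 0 := ModelBasicCore.jK_ne_zero (M * q * q) K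
  exact jqqK2_ne_jK M q hq hqM K ((div_eq_one_iff_eq hj).mp h)

end Fermat.Agent.S36.CuspUnitRoots
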