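/-
S36 — CuspUnitTop.lean (helper98; block [N10], the CLOSED form of the algebraic unit route
[CUSP-u-alg]).

`princ` (B1) at the CUSPIDAL closed points of `W3` on the chart at infinity
`R∞ = chart (M q²) A K J3⁻¹`: the field `hcusp2` of `Princ3Cases.princ_of_cases`, with NO open
modular hypothesis.  Chain:

* `CuspUnitAlg.unit_identity` (helper48)   : the abstract unit identity over a domain;
* `CuspUnitInst.unit_of_roots` (helper16)  : the same from the two roots `Φ_q(j, jq) = 0`,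
                                             `Φ_q(jqq, jq) = 0` (Kronecker + weight bound);
* `CuspUnitRoots.phi_jK / phi_jqqK2` (helper48) : the two roots for `jK`, `jqK2`, `jqqK2`;
* `CuspUnitChart.cusp_hB1_of_unitStep` (helper98) : the chart adapter (`S = R_n`);
* `CuspMem.v1_mem / v2_mem` (helper14)     : `jq / j ^ q`, `jq / jqq ^ q ∈ R∞`  ([CUSP-a]);
* `CuspOneBInst.one_J3_inv` (helper52)     : cuspidal points are one-branch  ([CUSP1]);
* `CuspMono` (helper79), `V3Wit.x2_pi3` (helper119) : the congruences on `W3`.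

No input of type [CUSP-c] (no polynomials `A, B`, no residue degree one at level one, no series
expansion of the unit) is used; the statement is uniform in the prime `q` (`q = 2` included) and
in the cusp.

* `unitStep_of_roots`  : `CuspUnitChart.UnitStep` at `R_n` from the two roots;
* `cusp_hB1_of_roots`  : abstract chart form (hypotheses of `CuspAsm.cusp_hB1_asm` without
                         [CUSP-c], plus the two roots and the two congruences);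
* `cusp_inst`          : on `R∞`, at every prime `n ∋ J3⁻¹` with `P 2 ≤ n`: `P 0 ≰ n`, `P 1 ≰ n`
                         and `P 2` is principal at `n`;
* `hcusp2`             : the field `hcusp2` of `Princ3Cases.princ_of_cases` verbatim
                         (`C n := J3⁻¹ ∉ n`).
-/
import Mathlib
import Fermat.Agent.S28.HeckeMain
import Fermat.Agent.S36.Chart3B
import Fermat.Agent.S36.V3Wit
import Fermat.Agent.S36.CuspMono
import Fermat.Agent.S36.CuspMem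
import Fermat.Agent.S36.CuspOneBInst
import Fermat.Agent.S36.CuspUnitInst
import Fermat.Agent.S36.CuspUnitRoots
import Fermat.Agent.S36.CuspUnitChart

set_option autoImplicit false

open ModularCurve AlgebraicCurve HahnSeries

namespace Fermat.Agent.S36.CuspUnitTop

open Fermat.Agent.S18 Fermat.Agent.S18.Arith Fermat.Agent.S34 Fermat.Agent.S36
  Fermat.Agent.S36.Model3Plan

section Abstract

variable {O : Type*} [CommRing O] {R : Type*} [CommRing R] [Algebra O R]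
  {E : Type*} [Field E] [Algebra R E]
  {π : O} {e : Fin 3 → ℕ} {ϖ : Fin 3 → E} {V : Fin 3 → ValuationSubring E}
  {P : Fin 3 → Ideal R}

/-- The unit step at the local ring `R_n ⊆ E` from the two roots `Φ_q(j, jq) = 0`,
`Φ_q(jqq, jq) = 0` (helper16's `CuspUnitInst.unit_of_roots`). -/
theorem unitStep_of_roots [IsDomain R] (hinj : Function.Injective (algebraMap R E))
    (n : Ideal R) [hn : n.IsPrime] (q : ℕ) (hq : q.Prime) (hd : S28.HeckeData q)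
    (j jq jqq : E) (h1 : (S28.PhiAt hd.Φ jq).eval j = 0)
    (h2 : (S28.PhiAt hd.Φ jq).eval jqq = 0) :
    CuspUnitChart.UnitStep (Localization.AtPrime n) (CuspUnitChart.locMap hinj n)
      (IsLocalRing.maximalIdeal (Localization.AtPrime n)) q j jq jqq := by
  have hdom : IsDomain (Localization.AtPrime n) := IsLocalization.isDomain_of_local_atPrime hn
  intro z e κ w hj hjq hjqq hz hqm he hw hw1
  exact CuspUnitInst.unit_of_roots (CuspUnitChart.locMap hinj n)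
    (CuspUnitChart.locMap_injective hinj n) q hq hd _ z e κ w j jq jqq hj hjq hjqq hz hqm he hw
    hw1 h1 h2

/-- **[N10], abstract chart form of the algebraic route.**  The hypotheses of
`CuspAsm.cusp_hB1_asm` without [CUSP-c], plus: the two roots of `Φ_q`, the Kronecker congruence
`v1 ≡ 1` modulo `π (V 2)`, the congruence `jqq / j ≡ 1` modulo `ϖ 2 (V 2)`, `jqq ≠ j`,
`q = π ε`.  Conclusion: the shape `hB1` of `Princ3.princ_of_triple` with `i = 2`. -/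
theorem cusp_hB1_of_roots [IsIntegrallyClosed R] [IsFractionRing R E]
    (val : ValHyp3 (algebraMap R E (algebraMap O R π)) e ϖ V)
    (hyp : ChartHyp3 π ϖ V P) (hp0 : algebraMap R E (algebraMap O R π) ≠ 0)
    (q : ℕ) (hq : q.Prime) (hd : S28.HeckeData q) (he2 : e 2 = q - 1)
    (ε : O) (hε : IsUnit ε) (hqπ : (q : O) = π * ε)
    (j jq jqq : E) (hj : j ≠ 0) (hjq : jq ≠ 0) (hjqq : jqq ≠ 0) (hne : jqq ≠ j)
    (h1 : (S28.PhiAt hd.Φ jq).eval j = 0) (h2 : (S28.PhiAt hd.Φ jq).eval jqq = 0)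
    (X Y Z v1 v2 : R) (hX : algebraMap R E X = j⁻¹) (hY : algebraMap R E Y = jqq⁻¹)
    (hZ : algebraMap R E Z = jq⁻¹) (hv1 : algebraMap R E v1 = jq / j ^ q)
    (hv2 : algebraMap R E v2 = jq / jqq ^ q) (hv2' : v2 - 1 ∈ P 2)
    (hv1' : ∃ y ∈ V 2, algebraMap R E v1 - 1 = algebraMap R E (algebraMap O R π) * y)
    (hw : ∃ y ∈ V 2, jqq / j - 1 = ϖ 2 * y)
    (n : Ideal R) (hn : n.IsPrime) (hP2 : P 2 ≤ n) (hP0 : ¬ P 0 ≤ n) (hP1 : ¬ P 1 ≤ n)
    (hmem : X * Y * Z ∈ n) :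
    ∃ i : Fin 3, P i ≤ n ∧ ∃ g ∈ P i, ∀ y ∈ P i, ∃ t : R, t ∉ n ∧ ∃ c : R, t * y = c * g := by
  have hdom : IsDomain R := (IsFractionRing.injective R E).isDomain (algebraMap R E)
  exact @CuspUnitChart.cusp_hB1_of_unitStep O _ R _ _ E _ _ π e ϖ V P _ _ val hyp hp0 q
    hq.ne_zero he2 ε hε hqπ j jq jqq hj hjq hjqq hne X Y Z v1 v2 hX hY hZ hv1 hv2 hv2' hv1' hw n
    hn hP2 hP0 hP1 hmem
    (@unitStep_of_roots R _ E _ _ hdom (IsFractionRing.injective R E) n hn q hq hd j jq jqq h1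
      h2)

end Abstract

section Inst

variable (M q : ℕ) [NeZero M] [NeZero q] (hq : q.Prime) (hqM : ¬ q ∣ M)
variable (A : ValuationSubring Qb) (K : IntermediateField ℚ Qb)

/-- **[N10] on the chart at infinity, algebraic route, no open hypothesis.**  At every prime `n`
of `R∞ = chart (M q²) A K J3⁻¹` with `J3⁻¹ ∈ n` and `P 2 ≤ n` (a cuspidal point of `W3`):
`P 0 ≰ n`, `P 1 ≰ n`, and `P 2` is principal locally at `n`. -/
theorem cusp_inst (hdvr : IsDiscreteValuationRing (OK A K))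
    {K' : IntermediateField ℚ Qb} {ξ : Qb} {hξ0 : ξ ≠ 0}
    {ι : FK (M * q * q) K →+* LaurentSeries Qb} {ϖ' : OK A K'}
    (H : V3.Hyp3 M q hq hqM A K K' ξ hξ0 ι ϖ') (hA : A.LiesOverPrime q)
    {π : OK A K} (hπ : Irreducible π)
    (hp0 : algebraMap (OK A K) (FK (M * q * q) K) π ≠ 0)
    (ε : OK A K) (hε : IsUnit ε) (hqπ : ((q : ℕ) : OK A K) = π * ε)
    {e : Fin 3 → ℕ} {ϖ : Fin 3 → FK (M * q * q) K}
    {V : Fin 3 → ValuationSubring (FK (M * q * q) K)}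
    (hV0 : V 0 = GaussV.V1 (M * q * q) A K hdvr)
    (hV1 : V 1 = GaussV.V2 (WQ2.wK2 M q hq hqM K) hdvr)
    (hV2 : V 2 = H.W3)
    (hϖ0 : ϖ 0 = algebraMap (OK A K) (FK (M * q * q) K) π)
    (hϖ1 : ϖ 1 = algebraMap (OK A K) (FK (M * q * q) K) π)
    (hϖ2 : ϖ 2 = Wit3.sE M q hq hqM K) (he2 : e 2 = q - 1)
    (hV : ValHyp3 (algebraMap (OK A K) (FK (M * q * q) K) π) e ϖ V)
    {P : Fin 3 → Ideal (chart (M * q * q) A K (Chart3B.J3 M q hq hqM K)⁻¹)}
    (hC : ChartHyp3 π ϖ V P)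
    (n : Ideal (chart (M * q * q) A K (Chart3B.J3 M q hq hqM K)⁻¹)) (hn : n.IsPrime)
    (hJ : (⟨(Chart3B.J3 M q hq hqM K)⁻¹, Chart3B.J3_inv_mem_chart M q hq hqM A K⟩ :
      chart (M * q * q) A K (Chart3B.J3 M q hq hqM K)⁻¹) ∈ n)
    (hPn : P 2 ≤ n) :
    ¬ P 0 ≤ n ∧ ¬ P 1 ≤ n ∧
      ∃ g ∈ P 2, ∀ y ∈ P 2, ∃ s : chart (M * q * q) A K (Chart3B.J3 M q hq hqM K)⁻¹, s ∉ n ∧
        ∃ c : chart (M * q * q) A K (Chart3B.J3 M q hq hqM K)⁻¹, s * y = c * g := by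
  classical
  obtain ⟨-, ⟨-, hfrac, hintcl⟩, -⟩ := Chart3B.rings M q hq hqM A K hdvr
  have hV' : ValHyp3 (algebraMap (chart (M * q * q) A K (Chart3B.J3 M q hq hqM K)⁻¹)
      (FK (M * q * q) K)
      (algebraMap (OK A K) (chart (M * q * q) A K (Chart3B.J3 M q hq hqM K)⁻¹) π)) e ϖ V := hV
  have hp0' : algebraMap (chart (M * q * q) A K (Chart3B.J3 M q hq hqM K)⁻¹) (FK (M * q * q) K)
      (algebraMap (OK A K) (chart (M * q * q) A K (Chart3B.J3 M q hq hqM K)⁻¹) π) ≠ 0 := hp0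
  obtain ⟨hd⟩ := S28.exists_heckeData q hq
  -- [CUSP1]
  have hone := CuspOneBInst.one_J3_inv M q hq hqM A K hdvr hA hπ (fun i r => hC.le i r)
    (fun i r => hC.mem_P i r) hV0 hV1 hϖ0 hϖ1 ⟨1, one_mem _, by rw [hϖ2, mul_one]⟩ n hn hJ
  have hP0 : ¬ P 0 ≤ n := fun h => absurd (hone 0 2 h hPn) (by decide)
  have hP1 : ¬ P 1 ≤ n := fun h => absurd (hone 1 2 h hPn) (by decide)
  -- the chart elements
  have hj0 : jK (M * q * q) K ≠ 0 := CuspMono.jK_ne_zero M q K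
  have hjq0 : WQ2.jqK2 M q hq hqM K ≠ 0 := Chart3B.jqK2_ne_zero M q hq hqM K
  have hjqq0 : WQ2.jqqK2 M q hq hqM K ≠ 0 := Chart3B.jqqK2_ne_zero M q hq hqM K
  set Xc : chart (M * q * q) A K (Chart3B.J3 M q hq hqM K)⁻¹ :=
    ⟨(jK (M * q * q) K)⁻¹, Chart3B.jK_inv_mem_chart_J3_inv M q hq hqM A K⟩ with hXc
  set Yc : chart (M * q * q) A K (Chart3B.J3 M q hq hqM K)⁻¹ :=
    ⟨(WQ2.jqqK2 M q hq hqM K)⁻¹, Chart3B.jqqK2_inv_mem_chart_J3_inv M q hq hqM A K⟩ with hYc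
  set Zc : chart (M * q * q) A K (Chart3B.J3 M q hq hqM K)⁻¹ :=
    ⟨(WQ2.jqK2 M q hq hqM K)⁻¹, Chart3B.jqK2_inv_mem_chart_J3_inv M q hq hqM A K⟩ with hZc
  set v1c : chart (M * q * q) A K (Chart3B.J3 M q hq hqM K)⁻¹ :=
    ⟨WQ2.jqK2 M q hq hqM K / jK (M * q * q) K ^ q, CuspMem.v1_mem M q hq hqM A K⟩ with hv1c
  set v2c : chart (M * q * q) A K (Chart3B.J3 M q hq hqM K)⁻¹ :=
    ⟨WQ2.jqK2 M q hq hqM K / WQ2.jqqK2 M q hq hqM K ^ q, CuspMem.v2_mem M q hq hqM A K⟩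
    with hv2c
  -- `v2 - 1 ∈ P 2`
  have hv2' : v2c - 1 ∈ P 2 := by
    rw [hC.mem_P 2]
    obtain ⟨z, hz, hzeq⟩ := CuspMono.v2_sub_one_s3 H hA
    refine ⟨z, by rw [hV2]; exact hz, ?_⟩
    rw [hϖ2, ← hzeq]
    rfl
  -- Kronecker on `W3`
  have hv1' : ∃ y ∈ V 2, algebraMap (chart (M * q * q) A K (Chart3B.J3 M q hq hqM K)⁻¹)
      (FK (M * q * q) K) v1c - 1 =
      algebraMap (chart (M * q * q) A K (Chart3B.J3 M q hq hqM K)⁻¹) (FK (M * q * q) K)
        (algebraMap (OK A K) (chart (M * q * q) A K (Chart3B.J3 M q hq hqM K)⁻¹) π) * y := by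
    obtain ⟨z, hz, hzeq⟩ := V3Wit.x2_pi3 H hdvr hA hπ
    refine ⟨z * (jK (M * q * q) K)⁻¹ ^ q,
      mul_mem (by rw [hV2]; exact hz) (pow_mem (hC.le 2 Xc) q), ?_⟩
    have hx2 : Wit3.x2 M q hq hqM K =
        WQ2.jqK2 M q hq hqM K - jK (M * q * q) K ^ q := rfl
    have hb : jK (M * q * q) K ^ q ≠ 0 := pow_ne_zero _ hj0
    show WQ2.jqK2 M q hq hqM K / jK (M * q * q) K ^ q - 1 =
      algebraMap (OK A K) (FK (M * q * q) K) π * (z * (jK (M * q * q) K)⁻¹ ^ q)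
    rw [← mul_assoc, ← hzeq, hx2, inv_pow]
    field_simp
  -- `jqq / j ≡ 1` on `W3`
  have hw : ∃ y ∈ V 2, WQ2.jqqK2 M q hq hqM K / jK (M * q * q) K - 1 = ϖ 2 * y := by
    obtain ⟨z, hz, hzeq⟩ := CuspMono.y_sub_one_s3 H hA
    exact ⟨z, by rw [hV2]; exact hz, by rw [hϖ2]; exact hzeq⟩
  -- `X * Y * Z = J3⁻¹ ∈ n`
  have hmem : Xc * Yc * Zc ∈ n := by
    have h : Xc * Yc * Zc = (⟨(Chart3B.J3 M q hq hqM K)⁻¹,
        Chart3B.J3_inv_mem_chart M q hq hqM A K⟩ :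
        chart (M * q * q) A K (Chart3B.J3 M q hq hqM K)⁻¹) := by
      apply Subtype.ext
      show (jK (M * q * q) K)⁻¹ * (WQ2.jqqK2 M q hq hqM K)⁻¹ * (WQ2.jqK2 M q hq hqM K)⁻¹ =
        (Chart3B.J3 M q hq hqM K)⁻¹
      rw [Chart3B.J3_eq]
      field_simp
    rw [h]
    exact hJ
  obtain ⟨i, hi, g, hg, hgen⟩ := cusp_hB1_of_roots hV' hC hp0' q hq hd he2 ε hε hqπ
    (jK (M * q * q) K) (WQ2.jqK2 M q hq hqM K) (WQ2.jqqK2 M q hq hqM K) hj0 hjq0 hjqq0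
    (CuspUnitRoots.jqqK2_ne_jK M q hq hqM K) (CuspUnitRoots.phi_jK M q hq hqM K hd)
    (CuspUnitRoots.phi_jqqK2 M q hq hqM K hd) Xc Yc Zc v1c v2c rfl rfl rfl rfl rfl hv2' hv1' hw
    n hn hPn hP0 hP1 hmem
  refine ⟨hP0, hP1, ?_⟩
  have hi2 : i = 2 := by
    fin_cases i
    · exact absurd hi hP0
    · exact absurd hi hP1
    · rfl
  subst hi2
  exact ⟨g, hg, hgen⟩

/-- **The field `hcusp2` of `Princ3Cases.princ_of_cases`** on the chart at infinity, with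
`C n := J3⁻¹ ∉ n` ("`n` is non-cuspidal"): at the cuspidal closed points of `W3` the vertical
prime `P 2` is principal.  Algebraic route, no open modular hypothesis. -/
theorem hcusp2 (hdvr : IsDiscreteValuationRing (OK A K))
    {K' : IntermediateField ℚ Qb} {ξ : Qb} {hξ0 : ξ ≠ 0}
    {ι : FK (M * q * q) K →+* LaurentSeries Qb} {ϖ' : OK A K'}
    (H : V3.Hyp3 M q hq hqM A K K' ξ hξ0 ι ϖ') (hA : A.LiesOverPrime q)
    {π : OK A K} (hπ : Irreducible π)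
    (hp0 : algebraMap (OK A K) (FK (M * q * q) K) π ≠ 0)
    (ε : OK A K) (hε : IsUnit ε) (hqπ : ((q : ℕ) : OK A K) = π * ε)
    {e : Fin 3 → ℕ} {ϖ : Fin 3 → FK (M * q * q) K}
    {V : Fin 3 → ValuationSubring (FK (M * q * q) K)}
    (hV0 : V 0 = GaussV.V1 (M * q * q) A K hdvr)
    (hV1 : V 1 = GaussV.V2 (WQ2.wK2 M q hq hqM K) hdvr)
    (hV2 : V 2 = H.W3)
    (hϖ0 : ϖ 0 = algebraMap (OK A K) (FK (M * q * q) K) π)
    (hϖ1 : ϖ 1 = algebraMap (OK A K) (FK (M * q * q) K) π)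
    (hϖ2 : ϖ 2 = Wit3.sE M q hq hqM K) (he2 : e 2 = q - 1)
    (hV : ValHyp3 (algebraMap (OK A K) (FK (M * q * q) K) π) e ϖ V)
    {P : Fin 3 → Ideal (chart (M * q * q) A K (Chart3B.J3 M q hq hqM K)⁻¹)}
    (hC : ChartHyp3 π ϖ V P) :
    ∀ n : Ideal (chart (M * q * q) A K (Chart3B.J3 M q hq hqM K)⁻¹), n.IsMaximal →
      algebraMap (OK A K) (chart (M * q * q) A K (Chart3B.J3 M q hq hqM K)⁻¹) π ∈ n →
      ¬ ((⟨(Chart3B.J3 M q hq hqM K)⁻¹, Chart3B.J3_inv_mem_chart M q hq hqM A K⟩ :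
        chart (M * q * q) A K (Chart3B.J3 M q hq hqM K)⁻¹) ∉ n) → P 2 ≤ n →
      ∃ i : Fin 3, P i ≤ n ∧ ∃ g ∈ P i, ∀ y ∈ P i,
        ∃ s : chart (M * q * q) A K (Chart3B.J3 M q hq hqM K)⁻¹, s ∉ n ∧
          ∃ c : chart (M * q * q) A K (Chart3B.J3 M q hq hqM K)⁻¹, s * y = c * g := by
  intro n hn _ hJ hPn
  obtain ⟨-, -, g, hg, hgen⟩ := cusp_inst M q hq hqM A K hdvr H hA hπ hp0 ε hε hqπ hV0 hV1 hV2
    hϖ0 hϖ1 hϖ2 he2 hV hC n hn.isPrime (not_not.1 hJ) hPn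
  exact ⟨2, hPn, g, hg, hgen⟩

end Inst

end Fermat.Agent.S36.CuspUnitTop
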