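/-
S36 — CuspW3.lean (helper5; block [N10]/[CUSP3] of package [MODEL3], lead helper112): the
CLOSED ADAPTER of the A-package on the chart `J3⁻¹` of the level-`M q²` model.

`N = M q²`, `J3 = j · j_q · j_{q²}` (`Chart3B.J3`), `R∞ = chart N A K J3⁻¹`, and ANY family
`P : Fin 3 → Ideal R∞` with `Model3Plan.ChartHyp3 π ϖ V P` against three valuation rings with
`Model3Plan.ValHyp3 π (ram q) ϖ V`.  A prime `n ∋ J3⁻¹` of `R∞` is a CUSPIDAL point.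

* `cusp2_of_unit`   : the abstract assembly `CuspAsm.cusp_hB1_asm'` instantiated on `R∞`:
                      at a cuspidal prime `n ⊇ P 2`, not on `P 0`, `P 1`, the ideal `P 2` is
                      principal at `n`.  Inputs: the chart membership (hμ) of `j_q / j^q`
                      ([CUSP-a]), `j_q / j_{q²}^q ≡ 1` modulo `ϖ 2 (V 2)`, and the unit
                      congruence ([CUSP-c]) `u · b(1/j) - a(1/j) ∈ ϖ 2 (V 2)` for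
                      `u · π = (j_{q²} / j - 1)^(q-1)`;
* `cusp2_of_e_one`  : the same for `q = 2` with NO unit congruence (`e 2 = 1`,
                      `Princ3.pi_genAt`);
* `cusp2_of_oneBranch`, `cusp2_at` : the same with the one-branch property [CUSP1] as hypothesis
                      (and the unit congruence only for `q ≠ 2`); `cusp2_at` is the sharp form
                      `i = 2`;
* `cusp2_W3`        : for `V 2 = H.W3` (`H : V3.Hyp3 …`), `ϖ 2 = s = j_{q²} - j`,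
                      `V 0 = W1`, `V 1 = W2`, `ϖ 0 = ϖ 1 = π`: everything is discharged
                      (`CuspMono.v2_sub_one_s3`, `CuspKS.exists_polys`, `CuspOne.one_branch`)
                      except the two chart memberships (hμ), (hμ₂) and the residue-degree-one
                      statement (hf3) at level `1 · q²`;
* `cusp01_W3`       : the companion statement `hcusp01` of `Princ3Cases.princ_of_cases`
                      (a cuspidal point does not lie on both `P 0` and `P 1`);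
* `cusp2_W3`, `cusp2_W3_at` : the shapes `hcusp2` (maximal ideals of the special fibre,
                      `C n := J3⁻¹ ∉ n`) and `∃ g ∈ P 2, …`;
* `cusp2_W3'`, `cusp2_W3_at'`, `cusp01_W3'` : the same with (hμ), (hμ₂) discharged by
                      `CuspMem.y1_mem`, `CuspMem.y1'_mem` (helper14): ONLY (hf3) is left.
-/
import Mathlib
import Fermat.Agent.S36.CuspAsm
import Fermat.Agent.S36.CuspOne
import Fermat.Agent.S36.CuspKS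
import Fermat.Agent.S36.CuspMono
import Fermat.Agent.S36.CuspMem
import Fermat.Agent.S36.Princ3

set_option autoImplicit false

open ModularCurve AlgebraicCurve HahnSeries

namespace Fermat.Agent.S36.CuspW3

open Fermat.Agent.S18 Fermat.Agent.S18.Arith Fermat.Agent.S34 Fermat.Agent.S36

noncomputable section

set_option synthInstance.maxHeartbeats 400000

variable (M q : ℕ) [NeZero M] [NeZero q] (hq : q.Prime) (hqM : ¬ q ∣ M)
variable (A : ValuationSubring Qb) (K : IntermediateField ℚ Qb)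

/-! ### The abstract assembly on the chart `J3⁻¹` -/

/-- **[N10] on `chart J3⁻¹`, from the unit congruence.**  At a cuspidal prime `n ⊇ P 2` which
lies neither on `P 0` nor on `P 1`, the vertical prime `P 2` is principal locally at `n`. -/
theorem cusp2_of_unit (hdvr : IsDiscreteValuationRing (OK A K))
    {π : OK A K} {ϖ : Fin 3 → FK (M * q * q) K}
    {V : Fin 3 → ValuationSubring (FK (M * q * q) K)}
    {P : Fin 3 → Ideal ↥(chart (M * q * q) A K (Chart3B.J3 M q hq hqM K)⁻¹)}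
    (val : Model3Plan.ValHyp3 (algebraMap (OK A K) (FK (M * q * q) K) π) (Model3Plan.ram q) ϖ V)
    (hyp : Model3Plan.ChartHyp3 π ϖ V P)
    (hp0 : algebraMap (OK A K) (FK (M * q * q) K) π ≠ 0)
    (hμ : WQ2.jqK2 M q hq hqM K * (jK (M * q * q) K)⁻¹ ^ q ∈
      chart (M * q * q) A K (Chart3B.J3 M q hq hqM K)⁻¹)
    (hv2 : ∃ z ∈ V 2,
      WQ2.jqK2 M q hq hqM K / WQ2.jqqK2 M q hq hqM K ^ q - 1 = ϖ 2 * z)
    (u : FK (M * q * q) K)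
    (hu : u * algebraMap (OK A K) (FK (M * q * q) K) π =
      (WQ2.jqqK2 M q hq hqM K / jK (M * q * q) K - 1) ^ (q - 1))
    (hks : ∃ a b : Polynomial (OK A K), IsUnit (a.coeff 0) ∧ IsUnit (b.coeff 0) ∧
      ∃ z ∈ V 2, u * Polynomial.aeval (jK (M * q * q) K)⁻¹ b
        - Polynomial.aeval (jK (M * q * q) K)⁻¹ a = ϖ 2 * z)
    (n : Ideal ↥(chart (M * q * q) A K (Chart3B.J3 M q hq hqM K)⁻¹)) (hn : n.IsPrime)
    (hJ : (⟨(Chart3B.J3 M q hq hqM K)⁻¹, Chart3B.J3_inv_mem_chart M q hq hqM A K⟩ :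
        ↥(chart (M * q * q) A K (Chart3B.J3 M q hq hqM K)⁻¹)) ∈ n)
    (hP2 : P 2 ≤ n) (hP0 : ¬ P 0 ≤ n) (hP1 : ¬ P 1 ≤ n) :
    ∃ i : Fin 3, P i ≤ n ∧ ∃ g ∈ P i, ∀ y ∈ P i,
      ∃ s : ↥(chart (M * q * q) A K (Chart3B.J3 M q hq hqM K)⁻¹), s ∉ n ∧
        ∃ c : ↥(chart (M * q * q) A K (Chart3B.J3 M q hq hqM K)⁻¹), s * y = c * g := by
  obtain ⟨-, ⟨-, hfrac, hintcl⟩, -, -⟩ := Chart3B.rings M q hq hqM A K hdvr
  have := hfrac
  have := hintcl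
  have hj0 : jK (M * q * q) K ≠ 0 := ModelBasicCore.jK_ne_zero (M * q * q) K
  have hjq0 : WQ2.jqK2 M q hq hqM K ≠ 0 := Chart3B.jqK2_ne_zero M q hq hqM K
  have hjqq0 : WQ2.jqqK2 M q hq hqM K ≠ 0 := Chart3B.jqqK2_ne_zero M q hq hqM K
  -- the `w_{q²}`-twin of `μ`
  have hμ' : WQ2.jqK2 M q hq hqM K * (WQ2.jqqK2 M q hq hqM K)⁻¹ ^ q ∈
      chart (M * q * q) A K (Chart3B.J3 M q hq hqM K)⁻¹ := by
    have h := Chart3B.wK2_mem_chart_J3_inv M q hq hqM A K hμ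
    rwa [map_mul, map_pow, map_inv₀, WQ2.wK2_jqK2, WQ2.wK2_jK] at h
  obtain ⟨a, b, ha, hb, z, hz, hks⟩ := hks
  obtain ⟨z2, hz2, hv2⟩ := hv2
  refine CuspAsm.cusp_hB1_asm' (O := OK A K)
    (R := ↥(chart (M * q * q) A K (Chart3B.J3 M q hq hqM K)⁻¹)) (E := FK (M * q * q) K)
    (e := Model3Plan.ram q) val hyp hp0
    (jK (M * q * q) K) (WQ2.jqK2 M q hq hqM K) (WQ2.jqqK2 M q hq hqM K) hj0 hjq0 hjqq0
    q hq.ne_zero
    ⟨_, Chart3B.jK_inv_mem_chart_J3_inv M q hq hqM A K⟩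
    ⟨_, Chart3B.jqqK2_inv_mem_chart_J3_inv M q hq hqM A K⟩
    ⟨_, Chart3B.jqK2_inv_mem_chart_J3_inv M q hq hqM A K⟩
    ⟨_, hμ⟩ ⟨_, hμ'⟩ rfl rfl rfl ?_ ?_ ?_ a b ha hb u z hz hu hks n hn hP2 hP0 hP1 ?_
  · show WQ2.jqK2 M q hq hqM K * (jK (M * q * q) K)⁻¹ ^ q = _
    rw [inv_pow, div_eq_mul_inv]
  · show WQ2.jqK2 M q hq hqM K * (WQ2.jqqK2 M q hq hqM K)⁻¹ ^ q = _
    rw [inv_pow, div_eq_mul_inv]
  · refine (hyp.mem_P 2 _).mpr ⟨z2, hz2, ?_⟩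
    rw [← hv2]
    show WQ2.jqK2 M q hq hqM K * (WQ2.jqqK2 M q hq hqM K)⁻¹ ^ q - 1 = _
    rw [inv_pow, div_eq_mul_inv]
  · have e : (⟨_, Chart3B.jK_inv_mem_chart_J3_inv M q hq hqM A K⟩ :
          ↥(chart (M * q * q) A K (Chart3B.J3 M q hq hqM K)⁻¹)) *
        ⟨_, Chart3B.jqqK2_inv_mem_chart_J3_inv M q hq hqM A K⟩ *
        ⟨_, Chart3B.jqK2_inv_mem_chart_J3_inv M q hq hqM A K⟩ =
        ⟨(Chart3B.J3 M q hq hqM K)⁻¹, Chart3B.J3_inv_mem_chart M q hq hqM A K⟩ := by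
      apply Subtype.ext
      show (jK (M * q * q) K)⁻¹ * (WQ2.jqqK2 M q hq hqM K)⁻¹ * (WQ2.jqK2 M q hq hqM K)⁻¹ =
        (Chart3B.J3 M q hq hqM K)⁻¹
      rw [Chart3B.J3_eq, mul_inv, mul_inv]
      ring
    rw [e]
    exact hJ

/-- **[N10] on `chart J3⁻¹` for `q = 2`** (`e 2 = 1`): no unit congruence is needed, `π`
generates `P 2` at every prime lying on `P 2` only. -/
theorem cusp2_of_e_one (hq2 : q = 2)
    {π : OK A K} {ϖ : Fin 3 → FK (M * q * q) K}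
    {V : Fin 3 → ValuationSubring (FK (M * q * q) K)}
    {P : Fin 3 → Ideal ↥(chart (M * q * q) A K (Chart3B.J3 M q hq hqM K)⁻¹)}
    (val : Model3Plan.ValHyp3 (algebraMap (OK A K) (FK (M * q * q) K) π) (Model3Plan.ram q) ϖ V)
    (hyp : Model3Plan.ChartHyp3 π ϖ V P)
    (hp0 : algebraMap (OK A K) (FK (M * q * q) K) π ≠ 0)
    (n : Ideal ↥(chart (M * q * q) A K (Chart3B.J3 M q hq hqM K)⁻¹)) (hn : n.IsPrime)
    (hP0 : ¬ P 0 ≤ n) (hP1 : ¬ P 1 ≤ n) :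
    ∃ g ∈ P 2, ∀ y ∈ P 2,
      ∃ s : ↥(chart (M * q * q) A K (Chart3B.J3 M q hq hqM K)⁻¹), s ∉ n ∧
        ∃ c : ↥(chart (M * q * q) A K (Chart3B.J3 M q hq hqM K)⁻¹), s * y = c * g := by
  have he : Model3Plan.ram q 2 = 1 := by
    rw [hq2]
    rfl
  refine Princ3.pi_genAt (O := OK A K)
    (R := ↥(chart (M * q * q) A K (Chart3B.J3 M q hq hqM K)⁻¹)) (E := FK (M * q * q) K)
    (e := Model3Plan.ram q) val hyp hp0 n hn 2 he (fun j hj => ?_)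
  fin_cases j
  · exact hP0
  · exact hP1
  · exact absurd rfl hj

/-- **[N10] on `chart J3⁻¹`, with [CUSP1] as hypothesis**: at a cuspidal prime `n ⊇ P 2`,
the vertical prime `P 2` is principal locally at `n`.  The unit congruence is needed for
`q ≠ 2` only. -/
theorem cusp2_at (hdvr : IsDiscreteValuationRing (OK A K))
    {π : OK A K} {ϖ : Fin 3 → FK (M * q * q) K}
    {V : Fin 3 → ValuationSubring (FK (M * q * q) K)}
    {P : Fin 3 → Ideal ↥(chart (M * q * q) A K (Chart3B.J3 M q hq hqM K)⁻¹)}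
    (val : Model3Plan.ValHyp3 (algebraMap (OK A K) (FK (M * q * q) K) π) (Model3Plan.ram q) ϖ V)
    (hyp : Model3Plan.ChartHyp3 π ϖ V P)
    (hp0 : algebraMap (OK A K) (FK (M * q * q) K) π ≠ 0)
    (hμ : WQ2.jqK2 M q hq hqM K * (jK (M * q * q) K)⁻¹ ^ q ∈
      chart (M * q * q) A K (Chart3B.J3 M q hq hqM K)⁻¹)
    (hv2 : ∃ z ∈ V 2,
      WQ2.jqK2 M q hq hqM K / WQ2.jqqK2 M q hq hqM K ^ q - 1 = ϖ 2 * z)
    (u : FK (M * q * q) K)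
    (hu : u * algebraMap (OK A K) (FK (M * q * q) K) π =
      (WQ2.jqqK2 M q hq hqM K / jK (M * q * q) K - 1) ^ (q - 1))
    (hks : q ≠ 2 → ∃ a b : Polynomial (OK A K), IsUnit (a.coeff 0) ∧ IsUnit (b.coeff 0) ∧
      ∃ z ∈ V 2, u * Polynomial.aeval (jK (M * q * q) K)⁻¹ b
        - Polynomial.aeval (jK (M * q * q) K)⁻¹ a = ϖ 2 * z)
    (n : Ideal ↥(chart (M * q * q) A K (Chart3B.J3 M q hq hqM K)⁻¹)) (hn : n.IsPrime)
    (hJ : (⟨(Chart3B.J3 M q hq hqM K)⁻¹, Chart3B.J3_inv_mem_chart M q hq hqM A K⟩ :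
        ↥(chart (M * q * q) A K (Chart3B.J3 M q hq hqM K)⁻¹)) ∈ n)
    (hone : ∀ i j : Fin 3, P i ≤ n → P j ≤ n → i = j)
    (hP2 : P 2 ≤ n) :
    ∃ g ∈ P 2, ∀ y ∈ P 2,
      ∃ s : ↥(chart (M * q * q) A K (Chart3B.J3 M q hq hqM K)⁻¹), s ∉ n ∧
        ∃ c : ↥(chart (M * q * q) A K (Chart3B.J3 M q hq hqM K)⁻¹), s * y = c * g := by
  have hP0 : ¬ P 0 ≤ n := fun h => absurd (hone 0 2 h hP2) (by decide)
  have hP1 : ¬ P 1 ≤ n := fun h => absurd (hone 1 2 h hP2) (by decide)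
  by_cases hq2 : q = 2
  · exact cusp2_of_e_one M q hq hqM A K hq2 val hyp hp0 n hn hP0 hP1
  · obtain ⟨i, hi, h⟩ := cusp2_of_unit M q hq hqM A K hdvr val hyp hp0 hμ hv2 u hu (hks hq2)
      n hn hJ hP2 hP0 hP1
    obtain rfl : i = 2 := hone i 2 hi hP2
    exact h

/-- The same in the shape `hB1` of `Princ3.princ_of_triple` (`∃ i, P i ≤ n ∧ …`). -/
theorem cusp2_of_oneBranch (hdvr : IsDiscreteValuationRing (OK A K))
    {π : OK A K} {ϖ : Fin 3 → FK (M * q * q) K}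
    {V : Fin 3 → ValuationSubring (FK (M * q * q) K)}
    {P : Fin 3 → Ideal ↥(chart (M * q * q) A K (Chart3B.J3 M q hq hqM K)⁻¹)}
    (val : Model3Plan.ValHyp3 (algebraMap (OK A K) (FK (M * q * q) K) π) (Model3Plan.ram q) ϖ V)
    (hyp : Model3Plan.ChartHyp3 π ϖ V P)
    (hp0 : algebraMap (OK A K) (FK (M * q * q) K) π ≠ 0)
    (hμ : WQ2.jqK2 M q hq hqM K * (jK (M * q * q) K)⁻¹ ^ q ∈
      chart (M * q * q) A K (Chart3B.J3 M q hq hqM K)⁻¹)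
    (hv2 : ∃ z ∈ V 2,
      WQ2.jqK2 M q hq hqM K / WQ2.jqqK2 M q hq hqM K ^ q - 1 = ϖ 2 * z)
    (u : FK (M * q * q) K)
    (hu : u * algebraMap (OK A K) (FK (M * q * q) K) π =
      (WQ2.jqqK2 M q hq hqM K / jK (M * q * q) K - 1) ^ (q - 1))
    (hks : q ≠ 2 → ∃ a b : Polynomial (OK A K), IsUnit (a.coeff 0) ∧ IsUnit (b.coeff 0) ∧
      ∃ z ∈ V 2, u * Polynomial.aeval (jK (M * q * q) K)⁻¹ b
        - Polynomial.aeval (jK (M * q * q) K)⁻¹ a = ϖ 2 * z)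
    (hone : ∀ n : Ideal ↥(chart (M * q * q) A K (Chart3B.J3 M q hq hqM K)⁻¹), n.IsPrime →
      (⟨(Chart3B.J3 M q hq hqM K)⁻¹, Chart3B.J3_inv_mem_chart M q hq hqM A K⟩ :
        ↥(chart (M * q * q) A K (Chart3B.J3 M q hq hqM K)⁻¹)) ∈ n →
      ∀ i j : Fin 3, P i ≤ n → P j ≤ n → i = j) :
    ∀ n : Ideal ↥(chart (M * q * q) A K (Chart3B.J3 M q hq hqM K)⁻¹), n.IsPrime →
      (⟨(Chart3B.J3 M q hq hqM K)⁻¹, Chart3B.J3_inv_mem_chart M q hq hqM A K⟩ :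
        ↥(chart (M * q * q) A K (Chart3B.J3 M q hq hqM K)⁻¹)) ∈ n → P 2 ≤ n →
      ∃ i : Fin 3, P i ≤ n ∧ ∃ g ∈ P i, ∀ y ∈ P i,
        ∃ s : ↥(chart (M * q * q) A K (Chart3B.J3 M q hq hqM K)⁻¹), s ∉ n ∧
          ∃ c : ↥(chart (M * q * q) A K (Chart3B.J3 M q hq hqM K)⁻¹), s * y = c * g :=
  fun n hn hJ hP2 => ⟨2, hP2, cusp2_at M q hq hqM A K hdvr val hyp hp0 hμ hv2 u hu hks n hn hJ
    (hone n hn hJ) hP2⟩

/-! ### The third branch `W3` -/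

section W3

variable {M q hq hqM A K}
variable {K' : IntermediateField ℚ Qb} {ξ : Qb} {hξ0 : ξ ≠ 0}
  {ι : FK (M * q * q) K →+* LaurentSeries Qb} {ϖ' : OK A K'}

/-- `u · π = (j_{q²} / j - 1)^(q-1)` for `u = CuspKS.uK`. -/
theorem uK_mul (π : OK A K) (hp0 : algebraMap (OK A K) (FK (M * q * q) K) π ≠ 0) :
    CuspKS.uK M q hq hqM K A π * algebraMap (OK A K) (FK (M * q * q) K) π =
      (WQ2.jqqK2 M q hq hqM K / jK (M * q * q) K - 1) ^ (q - 1) := by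
  rw [CuspKS.uK, inv_mul_cancel_right₀ hp0, div_eq_mul_inv]

/-- **[N10] closed on `W3`, sharp form.**  For `V 2 = H.W3`, `ϖ 2 = s = j_{q²} - j`,
`V 0 = W1`, `V 1 = W2`, `ϖ 0 = ϖ 1 = π`: at every cuspidal prime `n ⊇ P 2` of `chart J3⁻¹`
the vertical prime `P 2` is principal locally at `n`.  Open inputs: the chart memberships
(hμ), (hμ₂) and the residue-degree-one statement (hf3) at level `1 · q²`. -/
theorem cusp2_W3_at (H : V3.Hyp3 M q hq hqM A K K' ξ hξ0 ι ϖ') (hA : A.LiesOverPrime q)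
    (hdvr : IsDiscreteValuationRing (OK A K)) {π : OK A K} (hπ : Irreducible π)
    (hπϖ : ∃ u : A, IsUnit u ∧ incO A K π = incO A K' ϖ' ^ (q - 1) * (u : Qb))
    {ϖ : Fin 3 → FK (M * q * q) K} {V : Fin 3 → ValuationSubring (FK (M * q * q) K)}
    {P : Fin 3 → Ideal ↥(chart (M * q * q) A K (Chart3B.J3 M q hq hqM K)⁻¹)}
    (val : Model3Plan.ValHyp3 (algebraMap (OK A K) (FK (M * q * q) K) π) (Model3Plan.ram q) ϖ V)
    (hyp : Model3Plan.ChartHyp3 π ϖ V P)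
    (hV0 : V 0 = GaussV.V1 (M * q * q) A K hdvr)
    (hV1 : V 1 = GaussV.V2 (WQ2.wK2 M q hq hqM K) hdvr)
    (hV2 : V 2 = H.W3)
    (hϖ0 : ϖ 0 = algebraMap (OK A K) (FK (M * q * q) K) π)
    (hϖ1 : ϖ 1 = algebraMap (OK A K) (FK (M * q * q) K) π)
    (hϖ2 : ϖ 2 = Wit3.sE M q hq hqM K)
    (hμ : WQ2.jqK2 M q hq hqM K * (jK (M * q * q) K)⁻¹ ^ q ∈
      chart (M * q * q) A K (Chart3B.J3 M q hq hqM K)⁻¹)
    (hμ₂ : WQ2.jqqK2 M q hq hqM K * (WQ2.jqK2 M q hq hqM K)⁻¹ ^ q ∈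
      chart (M * q * q) A K (Chart3B.J3 M q hq hqM K)⁻¹)
    (hq1 : ¬ q ∣ 1) (em₁ : FK (1 * q * q) K →+* LaurentSeries Qb)
    (h₁ : V3.MidEmb 1 q hq hq1 K ξ hξ0 em₁)
    (hf3 : q ≠ 2 → ∀ (x : FK (1 * q * q) K) (y : LaurentSeries (IsLocalRing.ResidueField A)),
      GRel A (em₁ x) y → ∃ x' : FK 1 K, GRel A ((x' : FK 1 K) : LaurentSeries Qb) y)
    (n : Ideal ↥(chart (M * q * q) A K (Chart3B.J3 M q hq hqM K)⁻¹)) (hn : n.IsPrime)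
    (hJ : (⟨(Chart3B.J3 M q hq hqM K)⁻¹, Chart3B.J3_inv_mem_chart M q hq hqM A K⟩ :
        ↥(chart (M * q * q) A K (Chart3B.J3 M q hq hqM K)⁻¹)) ∈ n)
    (hP2 : P 2 ≤ n) :
    ∃ g ∈ P 2, ∀ y ∈ P 2,
      ∃ s : ↥(chart (M * q * q) A K (Chart3B.J3 M q hq hqM K)⁻¹), s ∉ n ∧
        ∃ c : ↥(chart (M * q * q) A K (Chart3B.J3 M q hq hqM K)⁻¹), s * y = c * g := by
  have : Fact q.Prime := ⟨hq⟩
  have hp0 : algebraMap (OK A K) (FK (M * q * q) K) π ≠ 0 :=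
    GaussV.algebraMap_ne_zero (M * q * q) A K hπ.ne_zero
  have h2 : ∃ v ∈ V 2, Wit3.sE M q hq hqM K = ϖ 2 * v :=
    ⟨1, (V 2).one_mem, by rw [hϖ2, mul_one]⟩
  have hone := CuspOne.one_branch M q hq hqM A K hdvr hA hπ hyp hV0 hV1 hϖ0 hϖ1 h2 hμ hμ₂
    n hn hJ
  have hv2 : ∃ z ∈ V 2,
      WQ2.jqK2 M q hq hqM K / WQ2.jqqK2 M q hq hqM K ^ q - 1 = ϖ 2 * z := by
    rw [hV2, hϖ2]
    exact CuspMono.v2_sub_one_s3 H hA
  refine cusp2_at M q hq hqM A K hdvr val hyp hp0 hμ hv2 (CuspKS.uK M q hq hqM K A π)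
    (uK_mul π hp0) (fun hq2 => ?_) n hn hJ hone hP2
  obtain ⟨-, -, a, b, ha, hb, z, hz, hks⟩ :=
    CuspKS.exists_polys H hA hdvr π hπϖ hq1 em₁ h₁ (hf3 hq2)
  exact ⟨a, b, ha, hb, z, by rw [hV2]; exact hz, by rw [hϖ2]; exact hks⟩

/-- **[CUSP1] on `W3`, shape `hcusp01` of `Princ3Cases.princ_of_cases`** (with
`C n := J3⁻¹ ∉ n`): a cuspidal closed point does not lie on both `P 0` and `P 1`. -/
theorem cusp01_W3 (hA : A.LiesOverPrime q)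
    (hdvr : IsDiscreteValuationRing (OK A K)) {π : OK A K} (hπ : Irreducible π)
    {ϖ : Fin 3 → FK (M * q * q) K} {V : Fin 3 → ValuationSubring (FK (M * q * q) K)}
    {P : Fin 3 → Ideal ↥(chart (M * q * q) A K (Chart3B.J3 M q hq hqM K)⁻¹)}
    (hyp : Model3Plan.ChartHyp3 π ϖ V P)
    (hV0 : V 0 = GaussV.V1 (M * q * q) A K hdvr)
    (hV1 : V 1 = GaussV.V2 (WQ2.wK2 M q hq hqM K) hdvr)
    (hϖ0 : ϖ 0 = algebraMap (OK A K) (FK (M * q * q) K) π)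
    (hϖ1 : ϖ 1 = algebraMap (OK A K) (FK (M * q * q) K) π)
    (h2 : ∃ v ∈ V 2, Wit3.sE M q hq hqM K = ϖ 2 * v)
    (hμ : WQ2.jqK2 M q hq hqM K * (jK (M * q * q) K)⁻¹ ^ q ∈
      chart (M * q * q) A K (Chart3B.J3 M q hq hqM K)⁻¹)
    (hμ₂ : WQ2.jqqK2 M q hq hqM K * (WQ2.jqK2 M q hq hqM K)⁻¹ ^ q ∈
      chart (M * q * q) A K (Chart3B.J3 M q hq hqM K)⁻¹) :
    ∀ n : Ideal ↥(chart (M * q * q) A K (Chart3B.J3 M q hq hqM K)⁻¹), n.IsMaximal →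
      algebraMap (OK A K) ↥(chart (M * q * q) A K (Chart3B.J3 M q hq hqM K)⁻¹) π ∈ n →
      ¬ ((⟨(Chart3B.J3 M q hq hqM K)⁻¹, Chart3B.J3_inv_mem_chart M q hq hqM A K⟩ :
        ↥(chart (M * q * q) A K (Chart3B.J3 M q hq hqM K)⁻¹)) ∉ n) → ¬ P 2 ≤ n →
      ¬ (P 0 ≤ n ∧ P 1 ≤ n) := by
  intro n hn _ hJ _ h01
  have hone := CuspOne.one_branch M q hq hqM A K hdvr hA hπ hyp hV0 hV1 hϖ0 hϖ1 h2 hμ hμ₂
    n hn.isPrime (not_not.mp hJ)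
  exact absurd (hone 0 1 h01.1 h01.2) (by decide)

/-- **[N10] closed on `W3`, shape `hcusp2` of `Princ3Cases.princ_of_cases`** (with
`C n := J3⁻¹ ∉ n`; also the shape `hB1` of `Princ3.princ_of_triple` at the cuspidal points). -/
theorem cusp2_W3 (H : V3.Hyp3 M q hq hqM A K K' ξ hξ0 ι ϖ') (hA : A.LiesOverPrime q)
    (hdvr : IsDiscreteValuationRing (OK A K)) {π : OK A K} (hπ : Irreducible π)
    (hπϖ : ∃ u : A, IsUnit u ∧ incO A K π = incO A K' ϖ' ^ (q - 1) * (u : Qb))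
    {ϖ : Fin 3 → FK (M * q * q) K} {V : Fin 3 → ValuationSubring (FK (M * q * q) K)}
    {P : Fin 3 → Ideal ↥(chart (M * q * q) A K (Chart3B.J3 M q hq hqM K)⁻¹)}
    (val : Model3Plan.ValHyp3 (algebraMap (OK A K) (FK (M * q * q) K) π) (Model3Plan.ram q) ϖ V)
    (hyp : Model3Plan.ChartHyp3 π ϖ V P)
    (hV0 : V 0 = GaussV.V1 (M * q * q) A K hdvr)
    (hV1 : V 1 = GaussV.V2 (WQ2.wK2 M q hq hqM K) hdvr)
    (hV2 : V 2 = H.W3)
    (hϖ0 : ϖ 0 = algebraMap (OK A K) (FK (M * q * q) K) π)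
    (hϖ1 : ϖ 1 = algebraMap (OK A K) (FK (M * q * q) K) π)
    (hϖ2 : ϖ 2 = Wit3.sE M q hq hqM K)
    (hμ : WQ2.jqK2 M q hq hqM K * (jK (M * q * q) K)⁻¹ ^ q ∈
      chart (M * q * q) A K (Chart3B.J3 M q hq hqM K)⁻¹)
    (hμ₂ : WQ2.jqqK2 M q hq hqM K * (WQ2.jqK2 M q hq hqM K)⁻¹ ^ q ∈
      chart (M * q * q) A K (Chart3B.J3 M q hq hqM K)⁻¹)
    (hq1 : ¬ q ∣ 1) (em₁ : FK (1 * q * q) K →+* LaurentSeries Qb)
    (h₁ : V3.MidEmb 1 q hq hq1 K ξ hξ0 em₁)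
    (hf3 : q ≠ 2 → ∀ (x : FK (1 * q * q) K) (y : LaurentSeries (IsLocalRing.ResidueField A)),
      GRel A (em₁ x) y → ∃ x' : FK 1 K, GRel A ((x' : FK 1 K) : LaurentSeries Qb) y) :
    ∀ n : Ideal ↥(chart (M * q * q) A K (Chart3B.J3 M q hq hqM K)⁻¹), n.IsMaximal →
      algebraMap (OK A K) ↥(chart (M * q * q) A K (Chart3B.J3 M q hq hqM K)⁻¹) π ∈ n →
      ¬ ((⟨(Chart3B.J3 M q hq hqM K)⁻¹, Chart3B.J3_inv_mem_chart M q hq hqM A K⟩ :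
        ↥(chart (M * q * q) A K (Chart3B.J3 M q hq hqM K)⁻¹)) ∉ n) → P 2 ≤ n →
      ∃ i : Fin 3, P i ≤ n ∧ ∃ g ∈ P i, ∀ y ∈ P i,
        ∃ s : ↥(chart (M * q * q) A K (Chart3B.J3 M q hq hqM K)⁻¹), s ∉ n ∧
          ∃ c : ↥(chart (M * q * q) A K (Chart3B.J3 M q hq hqM K)⁻¹), s * y = c * g :=
  fun n hn _ hJ hP2 => ⟨2, hP2, cusp2_W3_at H hA hdvr hπ hπϖ val hyp hV0 hV1 hV2 hϖ0 hϖ1 hϖ2
    hμ hμ₂ hq1 em₁ h₁ hf3 n hn.isPrime (not_not.mp hJ) hP2⟩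

/-! #### The same with [CUSP-a] discharged (`CuspMem`, helper14): only (hf3) is left -/

/-- **[N10] closed on `W3` up to (hf3), sharp form**: `cusp2_W3_at` with the chart memberships
(hμ), (hμ₂) discharged by `CuspMem.y1_mem`, `CuspMem.y1'_mem`. -/
theorem cusp2_W3_at' (H : V3.Hyp3 M q hq hqM A K K' ξ hξ0 ι ϖ') (hA : A.LiesOverPrime q)
    (hdvr : IsDiscreteValuationRing (OK A K)) {π : OK A K} (hπ : Irreducible π)
    (hπϖ : ∃ u : A, IsUnit u ∧ incO A K π = incO A K' ϖ' ^ (q - 1) * (u : Qb))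
    {ϖ : Fin 3 → FK (M * q * q) K} {V : Fin 3 → ValuationSubring (FK (M * q * q) K)}
    {P : Fin 3 → Ideal ↥(chart (M * q * q) A K (Chart3B.J3 M q hq hqM K)⁻¹)}
    (val : Model3Plan.ValHyp3 (algebraMap (OK A K) (FK (M * q * q) K) π) (Model3Plan.ram q) ϖ V)
    (hyp : Model3Plan.ChartHyp3 π ϖ V P)
    (hV0 : V 0 = GaussV.V1 (M * q * q) A K hdvr)
    (hV1 : V 1 = GaussV.V2 (WQ2.wK2 M q hq hqM K) hdvr)
    (hV2 : V 2 = H.W3)
    (hϖ0 : ϖ 0 = algebraMap (OK A K) (FK (M * q * q) K) π)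
    (hϖ1 : ϖ 1 = algebraMap (OK A K) (FK (M * q * q) K) π)
    (hϖ2 : ϖ 2 = Wit3.sE M q hq hqM K)
    (hq1 : ¬ q ∣ 1) (em₁ : FK (1 * q * q) K →+* LaurentSeries Qb)
    (h₁ : V3.MidEmb 1 q hq hq1 K ξ hξ0 em₁)
    (hf3 : q ≠ 2 → ∀ (x : FK (1 * q * q) K) (y : LaurentSeries (IsLocalRing.ResidueField A)),
      GRel A (em₁ x) y → ∃ x' : FK 1 K, GRel A ((x' : FK 1 K) : LaurentSeries Qb) y)
    (n : Ideal ↥(chart (M * q * q) A K (Chart3B.J3 M q hq hqM K)⁻¹)) (hn : n.IsPrime)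
    (hJ : (⟨(Chart3B.J3 M q hq hqM K)⁻¹, Chart3B.J3_inv_mem_chart M q hq hqM A K⟩ :
        ↥(chart (M * q * q) A K (Chart3B.J3 M q hq hqM K)⁻¹)) ∈ n)
    (hP2 : P 2 ≤ n) :
    ∃ g ∈ P 2, ∀ y ∈ P 2,
      ∃ s : ↥(chart (M * q * q) A K (Chart3B.J3 M q hq hqM K)⁻¹), s ∉ n ∧
        ∃ c : ↥(chart (M * q * q) A K (Chart3B.J3 M q hq hqM K)⁻¹), s * y = c * g :=
  cusp2_W3_at H hA hdvr hπ hπϖ val hyp hV0 hV1 hV2 hϖ0 hϖ1 hϖ2
    (CuspMem.y1_mem M q hq hqM A K) (CuspMem.y1'_mem M q hq hqM A K) hq1 em₁ h₁ hf3 n hn hJ hP2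

/-- **[CUSP1] closed on `W3`, shape `hcusp01`**: `cusp01_W3` with (hμ), (hμ₂) discharged. -/
theorem cusp01_W3' (hA : A.LiesOverPrime q)
    (hdvr : IsDiscreteValuationRing (OK A K)) {π : OK A K} (hπ : Irreducible π)
    {ϖ : Fin 3 → FK (M * q * q) K} {V : Fin 3 → ValuationSubring (FK (M * q * q) K)}
    {P : Fin 3 → Ideal ↥(chart (M * q * q) A K (Chart3B.J3 M q hq hqM K)⁻¹)}
    (hyp : Model3Plan.ChartHyp3 π ϖ V P)
    (hV0 : V 0 = GaussV.V1 (M * q * q) A K hdvr)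
    (hV1 : V 1 = GaussV.V2 (WQ2.wK2 M q hq hqM K) hdvr)
    (hϖ0 : ϖ 0 = algebraMap (OK A K) (FK (M * q * q) K) π)
    (hϖ1 : ϖ 1 = algebraMap (OK A K) (FK (M * q * q) K) π)
    (h2 : ∃ v ∈ V 2, Wit3.sE M q hq hqM K = ϖ 2 * v) :
    ∀ n : Ideal ↥(chart (M * q * q) A K (Chart3B.J3 M q hq hqM K)⁻¹), n.IsMaximal →
      algebraMap (OK A K) ↥(chart (M * q * q) A K (Chart3B.J3 M q hq hqM K)⁻¹) π ∈ n →
      ¬ ((⟨(Chart3B.J3 M q hq hqM K)⁻¹, Chart3B.J3_inv_mem_chart M q hq hqM A K⟩ :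
        ↥(chart (M * q * q) A K (Chart3B.J3 M q hq hqM K)⁻¹)) ∉ n) → ¬ P 2 ≤ n →
      ¬ (P 0 ≤ n ∧ P 1 ≤ n) :=
  cusp01_W3 hA hdvr hπ hyp hV0 hV1 hϖ0 hϖ1 h2
    (CuspMem.y1_mem M q hq hqM A K) (CuspMem.y1'_mem M q hq hqM A K)

/-- **[N10] closed on `W3` up to (hf3), shape `hcusp2` of `Princ3Cases.princ_of_cases`** (with
`C n := J3⁻¹ ∉ n`): `cusp2_W3` with (hμ), (hμ₂) discharged. -/
theorem cusp2_W3' (H : V3.Hyp3 M q hq hqM A K K' ξ hξ0 ι ϖ') (hA : A.LiesOverPrime q)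
    (hdvr : IsDiscreteValuationRing (OK A K)) {π : OK A K} (hπ : Irreducible π)
    (hπϖ : ∃ u : A, IsUnit u ∧ incO A K π = incO A K' ϖ' ^ (q - 1) * (u : Qb))
    {ϖ : Fin 3 → FK (M * q * q) K} {V : Fin 3 → ValuationSubring (FK (M * q * q) K)}
    {P : Fin 3 → Ideal ↥(chart (M * q * q) A K (Chart3B.J3 M q hq hqM K)⁻¹)}
    (val : Model3Plan.ValHyp3 (algebraMap (OK A K) (FK (M * q * q) K) π) (Model3Plan.ram q) ϖ V)
    (hyp : Model3Plan.ChartHyp3 π ϖ V P)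
    (hV0 : V 0 = GaussV.V1 (M * q * q) A K hdvr)
    (hV1 : V 1 = GaussV.V2 (WQ2.wK2 M q hq hqM K) hdvr)
    (hV2 : V 2 = H.W3)
    (hϖ0 : ϖ 0 = algebraMap (OK A K) (FK (M * q * q) K) π)
    (hϖ1 : ϖ 1 = algebraMap (OK A K) (FK (M * q * q) K) π)
    (hϖ2 : ϖ 2 = Wit3.sE M q hq hqM K)
    (hq1 : ¬ q ∣ 1) (em₁ : FK (1 * q * q) K →+* LaurentSeries Qb)
    (h₁ : V3.MidEmb 1 q hq hq1 K ξ hξ0 em₁)
    (hf3 : q ≠ 2 → ∀ (x : FK (1 * q * q) K) (y : LaurentSeries (IsLocalRing.ResidueField A)),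
      GRel A (em₁ x) y → ∃ x' : FK 1 K, GRel A ((x' : FK 1 K) : LaurentSeries Qb) y) :
    ∀ n : Ideal ↥(chart (M * q * q) A K (Chart3B.J3 M q hq hqM K)⁻¹), n.IsMaximal →
      algebraMap (OK A K) ↥(chart (M * q * q) A K (Chart3B.J3 M q hq hqM K)⁻¹) π ∈ n →
      ¬ ((⟨(Chart3B.J3 M q hq hqM K)⁻¹, Chart3B.J3_inv_mem_chart M q hq hqM A K⟩ :
        ↥(chart (M * q * q) A K (Chart3B.J3 M q hq hqM K)⁻¹)) ∉ n) → P 2 ≤ n →
      ∃ i : Fin 3, P i ≤ n ∧ ∃ g ∈ P i, ∀ y ∈ P i,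
        ∃ s : ↥(chart (M * q * q) A K (Chart3B.J3 M q hq hqM K)⁻¹), s ∉ n ∧
          ∃ c : ↥(chart (M * q * q) A K (Chart3B.J3 M q hq hqM K)⁻¹), s * y = c * g :=
  cusp2_W3 H hA hdvr hπ hπϖ val hyp hV0 hV1 hV2 hϖ0 hϖ1 hϖ2
    (CuspMem.y1_mem M q hq hqM A K) (CuspMem.y1'_mem M q hq hqM A K) hq1 em₁ h₁ hf3

end W3

end

end Fermat.Agent.S36.CuspW3
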