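/-
S36 — Model3Princ.lean (helper128), block [MODEL3], leaf [M3.8], second file: the field `princ`
of the two charts of the model of record (`S36/Model3Top`), ETA-FREE ROUTE, and the resulting
model.

Inputs (each ONE named hypothesis, all on the charts of record and the vertical ideals
`Model3Asm.Pc`):
* `htriple0` [TRIPLE] on `chart J3` : a closed point on `P 0` and `P 1` lies on `P 2` (`Inc3`);
* `hB1_0`    (B1)     on `chart J3` : at the closed points of `P 2` some vertical prime is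
                                      principal ([B1-nak] at ALL points of `P 2`, or eta + nak);
* `hcusp`    [N10]    on `chart J3⁻¹` : the same at the CUSPIDAL closed points of `P 2`;
* `hμ`, `hμ₂` [CUSP-a] : `jq / j ^ q`, `jqq / jq ^ q ∈ chart J3⁻¹` (inputs of `CuspOne`).

* `princ0`   : the hypothesis `hprinc0` of `Model3Top.model3` (`Princ3.princ_of_triple`);
* `princInf` : the hypothesis `hprincInf` of `Model3Top.model3` (`ChartGlueInst` + `CuspOne`);
* `model3`   : **the model** `Model3Plan.Model3 (M * q * q) A K π (ram q) ϖ V J3`.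
-/
import Mathlib
import Fermat.Agent.S36.Model3Top
import Fermat.Agent.S36.Princ3
import Fermat.Agent.S36.ChartGlueInst
import Fermat.Agent.S36.CuspOne

set_option autoImplicit false

noncomputable section

namespace Fermat.Agent.S36.Model3Princ

open ModularCurve ModularCurve.IgusaScheme AlgebraicCurve HahnSeries
open Fermat.Agent.S18 Fermat.Agent.S18.Arith Fermat.Agent.S18.ModelPlan
open Fermat.Agent.S34 Fermat.Agent.S36.Model3Plan

variable {M q : ℕ} [NeZero M] [NeZero q] {hq : q.Prime} {hqM : ¬ q ∣ M}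
variable {A : ValuationSubring Qb} {K K' : IntermediateField ℚ Qb}
variable {ξ : Qb} {hξ0 : ξ ≠ 0} {ι : FK (M * q * q) K →+* LaurentSeries Qb} {ϖ : OK A K'}
variable (H : V3.Hyp3 M q hq hqM A K K' ξ hξ0 ι ϖ)

include H

include hq in
/-- **`princ` for `chart J3`** from [TRIPLE] and (B1) at the closed points of `P 2`. -/
theorem princ0 (hdvr : IsDiscreteValuationRing (OK A K)) (hA : A.LiesOverPrime q)
    {π : OK A K} (hπ : Irreducible π) (a : A) (hqa : (q : Qb) = incO A K π * (a : Qb))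
    (hπϖ : ∃ u : A, IsUnit u ∧ incO A K π = incO A K' ϖ ^ (q - 1) * (u : Qb))
    (htriple0 : ∀ n : Ideal (chart (M * q * q) A K (Chart3B.J3 M q hq hqM K)), n.IsMaximal →
      algebraMap (OK A K) (chart (M * q * q) A K (Chart3B.J3 M q hq hqM K)) π ∈ n →
      Model3Asm.Pc (chart (M * q * q) A K (Chart3B.J3 M q hq hqM K))
        ![algebraMap (OK A K) (FK (M * q * q) K) π,
          algebraMap (OK A K) (FK (M * q * q) K) π, Wit3.sE M q hq hqM K]
        ![GaussV.V1 (M * q * q) A K hdvr, GaussV.V2 (WQ2.wK2 M q hq hqM K) hdvr, H.W3]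
        (Model3Top.le0 H hdvr) 0 ≤ n →
      Model3Asm.Pc (chart (M * q * q) A K (Chart3B.J3 M q hq hqM K))
        ![algebraMap (OK A K) (FK (M * q * q) K) π,
          algebraMap (OK A K) (FK (M * q * q) K) π, Wit3.sE M q hq hqM K]
        ![GaussV.V1 (M * q * q) A K hdvr, GaussV.V2 (WQ2.wK2 M q hq hqM K) hdvr, H.W3]
        (Model3Top.le0 H hdvr) 1 ≤ n →
      Model3Asm.Pc (chart (M * q * q) A K (Chart3B.J3 M q hq hqM K))
        ![algebraMap (OK A K) (FK (M * q * q) K) π,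
          algebraMap (OK A K) (FK (M * q * q) K) π, Wit3.sE M q hq hqM K]
        ![GaussV.V1 (M * q * q) A K hdvr, GaussV.V2 (WQ2.wK2 M q hq hqM K) hdvr, H.W3]
        (Model3Top.le0 H hdvr) 2 ≤ n)
    (hB1_0 : ∀ n : Ideal (chart (M * q * q) A K (Chart3B.J3 M q hq hqM K)), n.IsMaximal →
      algebraMap (OK A K) (chart (M * q * q) A K (Chart3B.J3 M q hq hqM K)) π ∈ n →
      Model3Asm.Pc (chart (M * q * q) A K (Chart3B.J3 M q hq hqM K))
        ![algebraMap (OK A K) (FK (M * q * q) K) π,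
          algebraMap (OK A K) (FK (M * q * q) K) π, Wit3.sE M q hq hqM K]
        ![GaussV.V1 (M * q * q) A K hdvr, GaussV.V2 (WQ2.wK2 M q hq hqM K) hdvr, H.W3]
        (Model3Top.le0 H hdvr) 2 ≤ n →
      ∃ i : Fin 3,
        Model3Asm.Pc (chart (M * q * q) A K (Chart3B.J3 M q hq hqM K))
          ![algebraMap (OK A K) (FK (M * q * q) K) π,
            algebraMap (OK A K) (FK (M * q * q) K) π, Wit3.sE M q hq hqM K]
          ![GaussV.V1 (M * q * q) A K hdvr, GaussV.V2 (WQ2.wK2 M q hq hqM K) hdvr, H.W3]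
          (Model3Top.le0 H hdvr) i ≤ n ∧
        ∃ g ∈ Model3Asm.Pc (chart (M * q * q) A K (Chart3B.J3 M q hq hqM K))
          ![algebraMap (OK A K) (FK (M * q * q) K) π,
            algebraMap (OK A K) (FK (M * q * q) K) π, Wit3.sE M q hq hqM K]
          ![GaussV.V1 (M * q * q) A K hdvr, GaussV.V2 (WQ2.wK2 M q hq hqM K) hdvr, H.W3]
          (Model3Top.le0 H hdvr) i,
          ∀ y ∈ Model3Asm.Pc (chart (M * q * q) A K (Chart3B.J3 M q hq hqM K))
            ![algebraMap (OK A K) (FK (M * q * q) K) π,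
              algebraMap (OK A K) (FK (M * q * q) K) π, Wit3.sE M q hq hqM K]
            ![GaussV.V1 (M * q * q) A K hdvr, GaussV.V2 (WQ2.wK2 M q hq hqM K) hdvr, H.W3]
            (Model3Top.le0 H hdvr) i,
            ∃ s : chart (M * q * q) A K (Chart3B.J3 M q hq hqM K), s ∉ n ∧
              ∃ c : chart (M * q * q) A K (Chart3B.J3 M q hq hqM K), s * y = c * g) :
    ChartHyp3 π
        ![algebraMap (OK A K) (FK (M * q * q) K) π, algebraMap (OK A K) (FK (M * q * q) K) π,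
          Wit3.sE M q hq hqM K]
        ![GaussV.V1 (M * q * q) A K hdvr, GaussV.V2 (WQ2.wK2 M q hq hqM K) hdvr, H.W3]
        (Model3Asm.Pc (chart (M * q * q) A K (Chart3B.J3 M q hq hqM K))
          ![algebraMap (OK A K) (FK (M * q * q) K) π,
            algebraMap (OK A K) (FK (M * q * q) K) π, Wit3.sE M q hq hqM K]
          ![GaussV.V1 (M * q * q) A K hdvr, GaussV.V2 (WQ2.wK2 M q hq hqM K) hdvr, H.W3]
          (Model3Top.le0 H hdvr)) →
      ∀ n : Ideal (chart (M * q * q) A K (Chart3B.J3 M q hq hqM K)), n.IsMaximal →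
        algebraMap (OK A K) (chart (M * q * q) A K (Chart3B.J3 M q hq hqM K)) π ∈ n →
        ∃ i : Fin 3,
          Model3Asm.Pc (chart (M * q * q) A K (Chart3B.J3 M q hq hqM K))
            ![algebraMap (OK A K) (FK (M * q * q) K) π,
              algebraMap (OK A K) (FK (M * q * q) K) π, Wit3.sE M q hq hqM K]
            ![GaussV.V1 (M * q * q) A K hdvr, GaussV.V2 (WQ2.wK2 M q hq hqM K) hdvr, H.W3]
            (Model3Top.le0 H hdvr) i ≤ n ∧
          ∃ g ∈ Model3Asm.Pc (chart (M * q * q) A K (Chart3B.J3 M q hq hqM K))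
            ![algebraMap (OK A K) (FK (M * q * q) K) π,
              algebraMap (OK A K) (FK (M * q * q) K) π, Wit3.sE M q hq hqM K]
            ![GaussV.V1 (M * q * q) A K hdvr, GaussV.V2 (WQ2.wK2 M q hq hqM K) hdvr, H.W3]
            (Model3Top.le0 H hdvr) i,
            ∀ y ∈ Model3Asm.Pc (chart (M * q * q) A K (Chart3B.J3 M q hq hqM K))
              ![algebraMap (OK A K) (FK (M * q * q) K) π,
                algebraMap (OK A K) (FK (M * q * q) K) π, Wit3.sE M q hq hqM K]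
              ![GaussV.V1 (M * q * q) A K hdvr, GaussV.V2 (WQ2.wK2 M q hq hqM K) hdvr, H.W3]
              (Model3Top.le0 H hdvr) i,
              ∃ s : chart (M * q * q) A K (Chart3B.J3 M q hq hqM K), s ∉ n ∧
                ∃ c : chart (M * q * q) A K (Chart3B.J3 M q hq hqM K), s * y = c * g :=
  fun hyp => Princ3.princ_of_triple (V3Wit.valHyp3 H hdvr hA hπ a hqa hπϖ) hyp
    (GaussV.algebraMap_ne_zero (M * q * q) A K hπ.ne_zero) rfl rfl htriple0 hB1_0

/-- **`princ` for `chart J3⁻¹`** from [TRIPLE] and (B1) on `chart J3`, (B1) at the cuspidal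
closed points of `P 2` ([N10]) and the chart memberships of [CUSP-a] (one-branch at cusps). -/
theorem princInf (hA : A.LiesOverPrime q) (hB : BaseFacts q A K)
    {π : OK A K} (hπ : Irreducible π) (a : A) (hqa : (q : Qb) = incO A K π * (a : Qb))
    (hπϖ : ∃ u : A, IsUnit u ∧ incO A K π = incO A K' ϖ ^ (q - 1) * (u : Qb))
    (htriple0 : ∀ n : Ideal (chart (M * q * q) A K (Chart3B.J3 M q hq hqM K)), n.IsMaximal →
      algebraMap (OK A K) (chart (M * q * q) A K (Chart3B.J3 M q hq hqM K)) π ∈ n →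
      Model3Asm.Pc (chart (M * q * q) A K (Chart3B.J3 M q hq hqM K))
        ![algebraMap (OK A K) (FK (M * q * q) K) π,
          algebraMap (OK A K) (FK (M * q * q) K) π, Wit3.sE M q hq hqM K]
        ![GaussV.V1 (M * q * q) A K hB.dvr, GaussV.V2 (WQ2.wK2 M q hq hqM K) hB.dvr, H.W3]
        (Model3Top.le0 H hB.dvr) 0 ≤ n →
      Model3Asm.Pc (chart (M * q * q) A K (Chart3B.J3 M q hq hqM K))
        ![algebraMap (OK A K) (FK (M * q * q) K) π,
          algebraMap (OK A K) (FK (M * q * q) K) π, Wit3.sE M q hq hqM K]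
        ![GaussV.V1 (M * q * q) A K hB.dvr, GaussV.V2 (WQ2.wK2 M q hq hqM K) hB.dvr, H.W3]
        (Model3Top.le0 H hB.dvr) 1 ≤ n →
      Model3Asm.Pc (chart (M * q * q) A K (Chart3B.J3 M q hq hqM K))
        ![algebraMap (OK A K) (FK (M * q * q) K) π,
          algebraMap (OK A K) (FK (M * q * q) K) π, Wit3.sE M q hq hqM K]
        ![GaussV.V1 (M * q * q) A K hB.dvr, GaussV.V2 (WQ2.wK2 M q hq hqM K) hB.dvr, H.W3]
        (Model3Top.le0 H hB.dvr) 2 ≤ n)
    (hB1_0 : ∀ n : Ideal (chart (M * q * q) A K (Chart3B.J3 M q hq hqM K)), n.IsMaximal →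
      algebraMap (OK A K) (chart (M * q * q) A K (Chart3B.J3 M q hq hqM K)) π ∈ n →
      Model3Asm.Pc (chart (M * q * q) A K (Chart3B.J3 M q hq hqM K))
        ![algebraMap (OK A K) (FK (M * q * q) K) π,
          algebraMap (OK A K) (FK (M * q * q) K) π, Wit3.sE M q hq hqM K]
        ![GaussV.V1 (M * q * q) A K hB.dvr, GaussV.V2 (WQ2.wK2 M q hq hqM K) hB.dvr, H.W3]
        (Model3Top.le0 H hB.dvr) 2 ≤ n →
      ∃ i : Fin 3,
        Model3Asm.Pc (chart (M * q * q) A K (Chart3B.J3 M q hq hqM K))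
        ![algebraMap (OK A K) (FK (M * q * q) K) π,
          algebraMap (OK A K) (FK (M * q * q) K) π, Wit3.sE M q hq hqM K]
        ![GaussV.V1 (M * q * q) A K hB.dvr, GaussV.V2 (WQ2.wK2 M q hq hqM K) hB.dvr, H.W3]
        (Model3Top.le0 H hB.dvr) i ≤ n ∧
        ∃ g ∈ Model3Asm.Pc (chart (M * q * q) A K (Chart3B.J3 M q hq hqM K))
        ![algebraMap (OK A K) (FK (M * q * q) K) π,
          algebraMap (OK A K) (FK (M * q * q) K) π, Wit3.sE M q hq hqM K]
        ![GaussV.V1 (M * q * q) A K hB.dvr, GaussV.V2 (WQ2.wK2 M q hq hqM K) hB.dvr, H.W3]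
        (Model3Top.le0 H hB.dvr) i,
          ∀ y ∈ Model3Asm.Pc (chart (M * q * q) A K (Chart3B.J3 M q hq hqM K))
        ![algebraMap (OK A K) (FK (M * q * q) K) π,
          algebraMap (OK A K) (FK (M * q * q) K) π, Wit3.sE M q hq hqM K]
        ![GaussV.V1 (M * q * q) A K hB.dvr, GaussV.V2 (WQ2.wK2 M q hq hqM K) hB.dvr, H.W3]
        (Model3Top.le0 H hB.dvr) i,
            ∃ s : chart (M * q * q) A K (Chart3B.J3 M q hq hqM K), s ∉ n ∧
              ∃ c : chart (M * q * q) A K (Chart3B.J3 M q hq hqM K), s * y = c * g)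
    (hcusp : ∀ n : Ideal (chart (M * q * q) A K (Chart3B.J3 M q hq hqM K)⁻¹), n.IsMaximal →
      algebraMap (OK A K) (chart (M * q * q) A K (Chart3B.J3 M q hq hqM K)⁻¹) π ∈ n →
      ChartGlueInst.CuspPt (Chart3B.J3 M q hq hqM K) n →
      Model3Asm.Pc (chart (M * q * q) A K (Chart3B.J3 M q hq hqM K)⁻¹)
        ![algebraMap (OK A K) (FK (M * q * q) K) π,
          algebraMap (OK A K) (FK (M * q * q) K) π, Wit3.sE M q hq hqM K]
        ![GaussV.V1 (M * q * q) A K hB.dvr, GaussV.V2 (WQ2.wK2 M q hq hqM K) hB.dvr, H.W3]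
        (Model3Top.leInf H hB.dvr) 2 ≤ n →
      ∃ i : Fin 3,
        Model3Asm.Pc (chart (M * q * q) A K (Chart3B.J3 M q hq hqM K)⁻¹)
        ![algebraMap (OK A K) (FK (M * q * q) K) π,
          algebraMap (OK A K) (FK (M * q * q) K) π, Wit3.sE M q hq hqM K]
        ![GaussV.V1 (M * q * q) A K hB.dvr, GaussV.V2 (WQ2.wK2 M q hq hqM K) hB.dvr, H.W3]
        (Model3Top.leInf H hB.dvr) i ≤ n ∧
        ∃ g ∈ Model3Asm.Pc (chart (M * q * q) A K (Chart3B.J3 M q hq hqM K)⁻¹)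
        ![algebraMap (OK A K) (FK (M * q * q) K) π,
          algebraMap (OK A K) (FK (M * q * q) K) π, Wit3.sE M q hq hqM K]
        ![GaussV.V1 (M * q * q) A K hB.dvr, GaussV.V2 (WQ2.wK2 M q hq hqM K) hB.dvr, H.W3]
        (Model3Top.leInf H hB.dvr) i,
          ∀ y ∈ Model3Asm.Pc (chart (M * q * q) A K (Chart3B.J3 M q hq hqM K)⁻¹)
        ![algebraMap (OK A K) (FK (M * q * q) K) π,
          algebraMap (OK A K) (FK (M * q * q) K) π, Wit3.sE M q hq hqM K]
        ![GaussV.V1 (M * q * q) A K hB.dvr, GaussV.V2 (WQ2.wK2 M q hq hqM K) hB.dvr, H.W3]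
        (Model3Top.leInf H hB.dvr) i,
            ∃ s : chart (M * q * q) A K (Chart3B.J3 M q hq hqM K)⁻¹, s ∉ n ∧
              ∃ c : chart (M * q * q) A K (Chart3B.J3 M q hq hqM K)⁻¹, s * y = c * g)
    (hμ : WQ2.jqK2 M q hq hqM K * (jK (M * q * q) K)⁻¹ ^ q ∈
      chart (M * q * q) A K (Chart3B.J3 M q hq hqM K)⁻¹)
    (hμ₂ : WQ2.jqqK2 M q hq hqM K * (WQ2.jqK2 M q hq hqM K)⁻¹ ^ q ∈
      chart (M * q * q) A K (Chart3B.J3 M q hq hqM K)⁻¹) :
    ChartHyp3 π
        ![algebraMap (OK A K) (FK (M * q * q) K) π, algebraMap (OK A K) (FK (M * q * q) K) π,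
          Wit3.sE M q hq hqM K]
        ![GaussV.V1 (M * q * q) A K hB.dvr, GaussV.V2 (WQ2.wK2 M q hq hqM K) hB.dvr, H.W3]
        (Model3Asm.Pc (chart (M * q * q) A K (Chart3B.J3 M q hq hqM K)⁻¹)
          ![algebraMap (OK A K) (FK (M * q * q) K) π,
            algebraMap (OK A K) (FK (M * q * q) K) π, Wit3.sE M q hq hqM K]
          ![GaussV.V1 (M * q * q) A K hB.dvr, GaussV.V2 (WQ2.wK2 M q hq hqM K) hB.dvr, H.W3]
          (Model3Top.leInf H hB.dvr)) →
      ∀ n : Ideal (chart (M * q * q) A K (Chart3B.J3 M q hq hqM K)⁻¹), n.IsMaximal →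
        algebraMap (OK A K) (chart (M * q * q) A K (Chart3B.J3 M q hq hqM K)⁻¹) π ∈ n →
        ∃ i : Fin 3,
          Model3Asm.Pc (chart (M * q * q) A K (Chart3B.J3 M q hq hqM K)⁻¹)
          ![algebraMap (OK A K) (FK (M * q * q) K) π,
            algebraMap (OK A K) (FK (M * q * q) K) π, Wit3.sE M q hq hqM K]
          ![GaussV.V1 (M * q * q) A K hB.dvr, GaussV.V2 (WQ2.wK2 M q hq hqM K) hB.dvr, H.W3]
          (Model3Top.leInf H hB.dvr) i ≤ n ∧
          ∃ g ∈ Model3Asm.Pc (chart (M * q * q) A K (Chart3B.J3 M q hq hqM K)⁻¹)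
          ![algebraMap (OK A K) (FK (M * q * q) K) π,
            algebraMap (OK A K) (FK (M * q * q) K) π, Wit3.sE M q hq hqM K]
          ![GaussV.V1 (M * q * q) A K hB.dvr, GaussV.V2 (WQ2.wK2 M q hq hqM K) hB.dvr, H.W3]
          (Model3Top.leInf H hB.dvr) i,
            ∀ y ∈ Model3Asm.Pc (chart (M * q * q) A K (Chart3B.J3 M q hq hqM K)⁻¹)
          ![algebraMap (OK A K) (FK (M * q * q) K) π,
            algebraMap (OK A K) (FK (M * q * q) K) π, Wit3.sE M q hq hqM K]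
          ![GaussV.V1 (M * q * q) A K hB.dvr, GaussV.V2 (WQ2.wK2 M q hq hqM K) hB.dvr, H.W3]
          (Model3Top.leInf H hB.dvr) i,
              ∃ s : chart (M * q * q) A K (Chart3B.J3 M q hq hqM K)⁻¹, s ∉ n ∧
                ∃ c : chart (M * q * q) A K (Chart3B.J3 M q hq hqM K)⁻¹, s * y = c * g := by
  intro hyp
  have : Fact q.Prime := ⟨hq⟩
  have := hB.dvr
  have := ResOK.isAlgClosed_residueField_OK q A K hB
  have hone := CuspOne.one_branch_max M q hq hqM A K hB.dvr hA hπ hyp rfl rfl rfl rfl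
    ⟨1, one_mem _, by simp⟩ hμ hμ₂
  exact Princ3.princ_of_triple (V3Wit.valHyp3 H hB.dvr hA hπ a hqa hπϖ) hyp
    (GaussV.algebraMap_ne_zero (M * q * q) A K hπ.ne_zero) rfl rfl
    (ChartGlueInst.htripleInf_of_one _ _ (Model3Top.le0 H hB.dvr) (Model3Top.leInf H hB.dvr)
      (Chart3B.J3_ne_zero M q hq hqM K) π hπ htriple0 hone)
    (ChartGlueInst.hB1Inf_of_glue _ _ (Model3Top.le0 H hB.dvr) (Model3Top.leInf H hB.dvr)
      (Chart3B.J3_ne_zero M q hq hqM K) π hπ hB1_0 hcusp)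

/-- **[MODEL3]** the model of record, eta-free route: from [TRIPLE] and (B1) on `chart J3`, [N10]
and [CUSP-a]. -/
def model3 (hA : A.LiesOverPrime q) (hB : BaseFacts q A K)
    {π : OK A K} (hπ : Irreducible π) (a : A) (hqa : (q : Qb) = incO A K π * (a : Qb))
    (hπϖ : ∃ u : A, IsUnit u ∧ incO A K π = incO A K' ϖ ^ (q - 1) * (u : Qb))
    (htriple0 : ∀ n : Ideal (chart (M * q * q) A K (Chart3B.J3 M q hq hqM K)), n.IsMaximal →
      algebraMap (OK A K) (chart (M * q * q) A K (Chart3B.J3 M q hq hqM K)) π ∈ n →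
      Model3Asm.Pc (chart (M * q * q) A K (Chart3B.J3 M q hq hqM K))
        ![algebraMap (OK A K) (FK (M * q * q) K) π,
          algebraMap (OK A K) (FK (M * q * q) K) π, Wit3.sE M q hq hqM K]
        ![GaussV.V1 (M * q * q) A K hB.dvr, GaussV.V2 (WQ2.wK2 M q hq hqM K) hB.dvr, H.W3]
        (Model3Top.le0 H hB.dvr) 0 ≤ n →
      Model3Asm.Pc (chart (M * q * q) A K (Chart3B.J3 M q hq hqM K))
        ![algebraMap (OK A K) (FK (M * q * q) K) π,
          algebraMap (OK A K) (FK (M * q * q) K) π, Wit3.sE M q hq hqM K]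
        ![GaussV.V1 (M * q * q) A K hB.dvr, GaussV.V2 (WQ2.wK2 M q hq hqM K) hB.dvr, H.W3]
        (Model3Top.le0 H hB.dvr) 1 ≤ n →
      Model3Asm.Pc (chart (M * q * q) A K (Chart3B.J3 M q hq hqM K))
        ![algebraMap (OK A K) (FK (M * q * q) K) π,
          algebraMap (OK A K) (FK (M * q * q) K) π, Wit3.sE M q hq hqM K]
        ![GaussV.V1 (M * q * q) A K hB.dvr, GaussV.V2 (WQ2.wK2 M q hq hqM K) hB.dvr, H.W3]
        (Model3Top.le0 H hB.dvr) 2 ≤ n)
    (hB1_0 : ∀ n : Ideal (chart (M * q * q) A K (Chart3B.J3 M q hq hqM K)), n.IsMaximal →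
      algebraMap (OK A K) (chart (M * q * q) A K (Chart3B.J3 M q hq hqM K)) π ∈ n →
      Model3Asm.Pc (chart (M * q * q) A K (Chart3B.J3 M q hq hqM K))
        ![algebraMap (OK A K) (FK (M * q * q) K) π,
          algebraMap (OK A K) (FK (M * q * q) K) π, Wit3.sE M q hq hqM K]
        ![GaussV.V1 (M * q * q) A K hB.dvr, GaussV.V2 (WQ2.wK2 M q hq hqM K) hB.dvr, H.W3]
        (Model3Top.le0 H hB.dvr) 2 ≤ n →
      ∃ i : Fin 3,
        Model3Asm.Pc (chart (M * q * q) A K (Chart3B.J3 M q hq hqM K))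
        ![algebraMap (OK A K) (FK (M * q * q) K) π,
          algebraMap (OK A K) (FK (M * q * q) K) π, Wit3.sE M q hq hqM K]
        ![GaussV.V1 (M * q * q) A K hB.dvr, GaussV.V2 (WQ2.wK2 M q hq hqM K) hB.dvr, H.W3]
        (Model3Top.le0 H hB.dvr) i ≤ n ∧
        ∃ g ∈ Model3Asm.Pc (chart (M * q * q) A K (Chart3B.J3 M q hq hqM K))
        ![algebraMap (OK A K) (FK (M * q * q) K) π,
          algebraMap (OK A K) (FK (M * q * q) K) π, Wit3.sE M q hq hqM K]
        ![GaussV.V1 (M * q * q) A K hB.dvr, GaussV.V2 (WQ2.wK2 M q hq hqM K) hB.dvr, H.W3]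
        (Model3Top.le0 H hB.dvr) i,
          ∀ y ∈ Model3Asm.Pc (chart (M * q * q) A K (Chart3B.J3 M q hq hqM K))
        ![algebraMap (OK A K) (FK (M * q * q) K) π,
          algebraMap (OK A K) (FK (M * q * q) K) π, Wit3.sE M q hq hqM K]
        ![GaussV.V1 (M * q * q) A K hB.dvr, GaussV.V2 (WQ2.wK2 M q hq hqM K) hB.dvr, H.W3]
        (Model3Top.le0 H hB.dvr) i,
            ∃ s : chart (M * q * q) A K (Chart3B.J3 M q hq hqM K), s ∉ n ∧
              ∃ c : chart (M * q * q) A K (Chart3B.J3 M q hq hqM K), s * y = c * g)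
    (hcusp : ∀ n : Ideal (chart (M * q * q) A K (Chart3B.J3 M q hq hqM K)⁻¹), n.IsMaximal →
      algebraMap (OK A K) (chart (M * q * q) A K (Chart3B.J3 M q hq hqM K)⁻¹) π ∈ n →
      ChartGlueInst.CuspPt (Chart3B.J3 M q hq hqM K) n →
      Model3Asm.Pc (chart (M * q * q) A K (Chart3B.J3 M q hq hqM K)⁻¹)
        ![algebraMap (OK A K) (FK (M * q * q) K) π,
          algebraMap (OK A K) (FK (M * q * q) K) π, Wit3.sE M q hq hqM K]
        ![GaussV.V1 (M * q * q) A K hB.dvr, GaussV.V2 (WQ2.wK2 M q hq hqM K) hB.dvr, H.W3]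
        (Model3Top.leInf H hB.dvr) 2 ≤ n →
      ∃ i : Fin 3,
        Model3Asm.Pc (chart (M * q * q) A K (Chart3B.J3 M q hq hqM K)⁻¹)
        ![algebraMap (OK A K) (FK (M * q * q) K) π,
          algebraMap (OK A K) (FK (M * q * q) K) π, Wit3.sE M q hq hqM K]
        ![GaussV.V1 (M * q * q) A K hB.dvr, GaussV.V2 (WQ2.wK2 M q hq hqM K) hB.dvr, H.W3]
        (Model3Top.leInf H hB.dvr) i ≤ n ∧
        ∃ g ∈ Model3Asm.Pc (chart (M * q * q) A K (Chart3B.J3 M q hq hqM K)⁻¹)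
        ![algebraMap (OK A K) (FK (M * q * q) K) π,
          algebraMap (OK A K) (FK (M * q * q) K) π, Wit3.sE M q hq hqM K]
        ![GaussV.V1 (M * q * q) A K hB.dvr, GaussV.V2 (WQ2.wK2 M q hq hqM K) hB.dvr, H.W3]
        (Model3Top.leInf H hB.dvr) i,
          ∀ y ∈ Model3Asm.Pc (chart (M * q * q) A K (Chart3B.J3 M q hq hqM K)⁻¹)
        ![algebraMap (OK A K) (FK (M * q * q) K) π,
          algebraMap (OK A K) (FK (M * q * q) K) π, Wit3.sE M q hq hqM K]
        ![GaussV.V1 (M * q * q) A K hB.dvr, GaussV.V2 (WQ2.wK2 M q hq hqM K) hB.dvr, H.W3]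
        (Model3Top.leInf H hB.dvr) i,
            ∃ s : chart (M * q * q) A K (Chart3B.J3 M q hq hqM K)⁻¹, s ∉ n ∧
              ∃ c : chart (M * q * q) A K (Chart3B.J3 M q hq hqM K)⁻¹, s * y = c * g)
    (hμ : WQ2.jqK2 M q hq hqM K * (jK (M * q * q) K)⁻¹ ^ q ∈
      chart (M * q * q) A K (Chart3B.J3 M q hq hqM K)⁻¹)
    (hμ₂ : WQ2.jqqK2 M q hq hqM K * (WQ2.jqK2 M q hq hqM K)⁻¹ ^ q ∈
      chart (M * q * q) A K (Chart3B.J3 M q hq hqM K)⁻¹) :
    Model3 (M * q * q) A K π (Model3Plan.ram q)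
      ![algebraMap (OK A K) (FK (M * q * q) K) π, algebraMap (OK A K) (FK (M * q * q) K) π,
        Wit3.sE M q hq hqM K]
      ![GaussV.V1 (M * q * q) A K hB.dvr, GaussV.V2 (WQ2.wK2 M q hq hqM K) hB.dvr, H.W3]
      (Chart3B.J3 M q hq hqM K) :=
  Model3Top.model3 H hA hB hπ a hqa hπϖ
    (princ0 H hB.dvr hA hπ a hqa hπϖ htriple0 hB1_0)
    (princInf H hA hB hπ a hqa hπϖ htriple0 hB1_0 hcusp hμ hμ₂)

end Fermat.Agent.S36.Model3Princ

end
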