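/-
S36 — CuspW3Closed.lean (helper5; block [N10]/[CUSP3] of package [MODEL3], A-package): the
CLOSED forms of `S36/CuspW3`, with every modular input discharged:

* [CUSP-a]  `j_q / j^q`, `j_{q²} / j_q^q ∈ chart J3⁻¹`        : `CuspMem` (helper14);
* [CUSP-c]  the unit congruence, (hf3) at level `1 · q²`      : `CuspKSInst` (helper65);
* [CUSP1]   one branch at the cusps                           : `CuspOne` (helper89);
* `v2 ≡ 1` modulo `s W3`                                      : `CuspMono` (helper79).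

What remains are the data of the model only: `H : V3.Hyp3 …`, `hA`, `hB : BaseFacts q A K`, the
uniformizer `π` with `q = π · a` and `π = ϖ' ^ (q - 1) · unit`.

* `cusp2_at`     : at every cuspidal prime `n ⊇ P 2` of `chart J3⁻¹`, `P 2` is principal locally
                   at `n` (any `P` with `ChartHyp3` against `V = (W1, W2, H.W3)`,
                   `ϖ = (π, π, s)`);
* `hcusp2`       : the field `hcusp2` of `Princ3Cases.princ_of_cases` (`C n := J3⁻¹ ∉ n`);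
* `hcusp01`      : the field `hcusp01` of `Princ3Cases.princ_of_cases`;
* `chartHypInf`  : `ChartHyp3` of the chart `J3⁻¹` for the families of record of
                   `Model3Top.model3` (vertical ideals `Model3Asm.Pc`);
* `hcusp_model`  : **the hypothesis `hcusp` of `Model3Princ.princInf` / `Model3Princ.model3`,
                   VERBATIM** (hypothesis-free).  The other two inputs `hμ`, `hμ₂` of
                   `Model3Princ.model3` are `CuspMem.y1_mem`, `CuspMem.y1'_mem`.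
-/
import Mathlib
import Fermat.Agent.S36.CuspW3
import Fermat.Agent.S36.CuspKSInst
import Fermat.Agent.S36.Model3Princ

set_option autoImplicit false

open ModularCurve AlgebraicCurve HahnSeries

noncomputable section

namespace Fermat.Agent.S36.CuspW3Closed

open ModularCurve.IgusaScheme
open Fermat.Agent.S18 Fermat.Agent.S18.Arith Fermat.Agent.S18.ModelPlan
open Fermat.Agent.S34 Fermat.Agent.S36 Fermat.Agent.S36.Model3Plan

set_option synthInstance.maxHeartbeats 400000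

variable {M q : ℕ} [NeZero M] [NeZero q] {hq : q.Prime} {hqM : ¬ q ∣ M}
variable {A : ValuationSubring Qb} {K K' : IntermediateField ℚ Qb}
variable {ξ : Qb} {hξ0 : ξ ≠ 0} {ι : FK (M * q * q) K →+* LaurentSeries Qb} {ϖ' : OK A K'}

/-! ### Any vertical family `P` with `ChartHyp3` -/

/-- **[N10] closed (A-package), sharp form.**  At every cuspidal prime `n ⊇ P 2` of
`chart J3⁻¹` the vertical prime `P 2` is principal locally at `n`. -/
theorem cusp2_at (H : V3.Hyp3 M q hq hqM A K K' ξ hξ0 ι ϖ') (hA : A.LiesOverPrime q)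
    (hB : BaseFacts q A K) {π : OK A K} (hπ : Irreducible π) (a : A)
    (hqa : (q : Qb) = incO A K π * (a : Qb))
    (hπϖ : ∃ u : A, IsUnit u ∧ incO A K π = incO A K' ϖ' ^ (q - 1) * (u : Qb))
    {ϖ : Fin 3 → FK (M * q * q) K} {V : Fin 3 → ValuationSubring (FK (M * q * q) K)}
    {P : Fin 3 → Ideal ↥(chart (M * q * q) A K (Chart3B.J3 M q hq hqM K)⁻¹)}
    (val : ValHyp3 (algebraMap (OK A K) (FK (M * q * q) K) π) (Model3Plan.ram q) ϖ V)
    (hyp : ChartHyp3 π ϖ V P)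
    (hV0 : V 0 = GaussV.V1 (M * q * q) A K hB.dvr)
    (hV1 : V 1 = GaussV.V2 (WQ2.wK2 M q hq hqM K) hB.dvr)
    (hV2 : V 2 = H.W3)
    (hϖ0 : ϖ 0 = algebraMap (OK A K) (FK (M * q * q) K) π)
    (hϖ1 : ϖ 1 = algebraMap (OK A K) (FK (M * q * q) K) π)
    (hϖ2 : ϖ 2 = Wit3.sE M q hq hqM K)
    (n : Ideal ↥(chart (M * q * q) A K (Chart3B.J3 M q hq hqM K)⁻¹)) (hn : n.IsPrime)
    (hJ : (⟨(Chart3B.J3 M q hq hqM K)⁻¹, Chart3B.J3_inv_mem_chart M q hq hqM A K⟩ :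
        ↥(chart (M * q * q) A K (Chart3B.J3 M q hq hqM K)⁻¹)) ∈ n)
    (hP2 : P 2 ≤ n) :
    ∃ g ∈ P 2, ∀ y ∈ P 2,
      ∃ s : ↥(chart (M * q * q) A K (Chart3B.J3 M q hq hqM K)⁻¹), s ∉ n ∧
        ∃ c : ↥(chart (M * q * q) A K (Chart3B.J3 M q hq hqM K)⁻¹), s * y = c * g := by
  have : Fact q.Prime := ⟨hq⟩
  exact CuspW3.cusp2_W3_at' H hA hB.dvr hπ hπϖ val hyp hV0 hV1 hV2 hϖ0 hϖ1 hϖ2
    hq.not_dvd_one _ (CuspKSInst.hyp3_one H).mid
    (fun _ => CuspKSInst.hf3_one H hB.dvr hA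
      (Red2B.chartFacts 1 q hq hq.not_dvd_one A K hA hB) hπ a hqa hπϖ) n hn hJ hP2

/-- **The field `hcusp2` of `Princ3Cases.princ_of_cases`, closed (A-package)**
(`C n := J3⁻¹ ∉ n`). -/
theorem hcusp2 (H : V3.Hyp3 M q hq hqM A K K' ξ hξ0 ι ϖ') (hA : A.LiesOverPrime q)
    (hB : BaseFacts q A K) {π : OK A K} (hπ : Irreducible π) (a : A)
    (hqa : (q : Qb) = incO A K π * (a : Qb))
    (hπϖ : ∃ u : A, IsUnit u ∧ incO A K π = incO A K' ϖ' ^ (q - 1) * (u : Qb))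
    {ϖ : Fin 3 → FK (M * q * q) K} {V : Fin 3 → ValuationSubring (FK (M * q * q) K)}
    {P : Fin 3 → Ideal ↥(chart (M * q * q) A K (Chart3B.J3 M q hq hqM K)⁻¹)}
    (val : ValHyp3 (algebraMap (OK A K) (FK (M * q * q) K) π) (Model3Plan.ram q) ϖ V)
    (hyp : ChartHyp3 π ϖ V P)
    (hV0 : V 0 = GaussV.V1 (M * q * q) A K hB.dvr)
    (hV1 : V 1 = GaussV.V2 (WQ2.wK2 M q hq hqM K) hB.dvr)
    (hV2 : V 2 = H.W3)
    (hϖ0 : ϖ 0 = algebraMap (OK A K) (FK (M * q * q) K) π)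
    (hϖ1 : ϖ 1 = algebraMap (OK A K) (FK (M * q * q) K) π)
    (hϖ2 : ϖ 2 = Wit3.sE M q hq hqM K) :
    ∀ n : Ideal ↥(chart (M * q * q) A K (Chart3B.J3 M q hq hqM K)⁻¹), n.IsMaximal →
      algebraMap (OK A K) ↥(chart (M * q * q) A K (Chart3B.J3 M q hq hqM K)⁻¹) π ∈ n →
      ¬ ((⟨(Chart3B.J3 M q hq hqM K)⁻¹, Chart3B.J3_inv_mem_chart M q hq hqM A K⟩ :
        ↥(chart (M * q * q) A K (Chart3B.J3 M q hq hqM K)⁻¹)) ∉ n) → P 2 ≤ n →
      ∃ i : Fin 3, P i ≤ n ∧ ∃ g ∈ P i, ∀ y ∈ P i,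
        ∃ s : ↥(chart (M * q * q) A K (Chart3B.J3 M q hq hqM K)⁻¹), s ∉ n ∧
          ∃ c : ↥(chart (M * q * q) A K (Chart3B.J3 M q hq hqM K)⁻¹), s * y = c * g :=
  fun n hn _ hJ hP2 => ⟨2, hP2, cusp2_at H hA hB hπ a hqa hπϖ val hyp hV0 hV1 hV2 hϖ0 hϖ1 hϖ2
    n hn.isPrime (not_not.mp hJ) hP2⟩

/-- **The field `hcusp01` of `Princ3Cases.princ_of_cases`, closed** (`C n := J3⁻¹ ∉ n`). -/
theorem hcusp01 (H : V3.Hyp3 M q hq hqM A K K' ξ hξ0 ι ϖ') (hA : A.LiesOverPrime q)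
    (hdvr : IsDiscreteValuationRing (OK A K)) {π : OK A K} (hπ : Irreducible π)
    {ϖ : Fin 3 → FK (M * q * q) K} {V : Fin 3 → ValuationSubring (FK (M * q * q) K)}
    {P : Fin 3 → Ideal ↥(chart (M * q * q) A K (Chart3B.J3 M q hq hqM K)⁻¹)}
    (hyp : ChartHyp3 π ϖ V P)
    (hV0 : V 0 = GaussV.V1 (M * q * q) A K hdvr)
    (hV1 : V 1 = GaussV.V2 (WQ2.wK2 M q hq hqM K) hdvr)
    (hϖ0 : ϖ 0 = algebraMap (OK A K) (FK (M * q * q) K) π)
    (hϖ1 : ϖ 1 = algebraMap (OK A K) (FK (M * q * q) K) π)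
    (hϖ2 : ϖ 2 = Wit3.sE M q hq hqM K) :
    ∀ n : Ideal ↥(chart (M * q * q) A K (Chart3B.J3 M q hq hqM K)⁻¹), n.IsMaximal →
      algebraMap (OK A K) ↥(chart (M * q * q) A K (Chart3B.J3 M q hq hqM K)⁻¹) π ∈ n →
      ¬ ((⟨(Chart3B.J3 M q hq hqM K)⁻¹, Chart3B.J3_inv_mem_chart M q hq hqM A K⟩ :
        ↥(chart (M * q * q) A K (Chart3B.J3 M q hq hqM K)⁻¹)) ∉ n) → ¬ P 2 ≤ n →
      ¬ (P 0 ≤ n ∧ P 1 ≤ n) := by
  have _ := H
  exact CuspW3.cusp01_W3' hA hdvr hπ hyp hV0 hV1 hϖ0 hϖ1 ⟨1, (V 2).one_mem, by rw [hϖ2, mul_one]⟩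

/-! ### The families of record of `Model3Top.model3` -/

/-- **`ChartHyp3` of the chart `J3⁻¹`** for the families of record (vertical ideals
`Model3Asm.Pc`): the hypothesis under which `Model3Asm.model3` calls `hprincInf`. -/
theorem chartHypInf (H : V3.Hyp3 M q hq hqM A K K' ξ hξ0 ι ϖ') (hA : A.LiesOverPrime q)
    (hB : BaseFacts q A K) {π : OK A K} (hπ : Irreducible π) (a : A)
    (hqa : (q : Qb) = incO A K π * (a : Qb))
    (hπϖ : ∃ u : A, IsUnit u ∧ incO A K π = incO A K' ϖ' ^ (q - 1) * (u : Qb)) :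
    ChartHyp3 π
      ![algebraMap (OK A K) (FK (M * q * q) K) π, algebraMap (OK A K) (FK (M * q * q) K) π,
        Wit3.sE M q hq hqM K]
      ![GaussV.V1 (M * q * q) A K hB.dvr, GaussV.V2 (WQ2.wK2 M q hq hqM K) hB.dvr, H.W3]
      (Model3Asm.Pc (chart (M * q * q) A K (Chart3B.J3 M q hq hqM K)⁻¹)
        ![algebraMap (OK A K) (FK (M * q * q) K) π,
          algebraMap (OK A K) (FK (M * q * q) K) π, Wit3.sE M q hq hqM K]
        ![GaussV.V1 (M * q * q) A K hB.dvr, GaussV.V2 (WQ2.wK2 M q hq hqM K) hB.dvr, H.W3]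
        (Model3Top.leInf H hB.dvr)) := by
  have : Fact q.Prime := ⟨hq⟩
  have hC : ChartFacts M A K (chart M A K (jK M K)) (jK M K) :=
    Red2B.chartFacts M q hq hqM A K hA hB
  exact Model3Asm.chartHyp3 (chart (M * q * q) A K (Chart3B.J3 M q hq hqM K)⁻¹) π _ _
    (Model3Top.leInf H hB.dvr) (GaussV.algebraMap_ne_zero (M * q * q) A K hπ.ne_zero)
    (Model3Asm.loc_inv (Chart3B.J3 M q hq hqM K) (Chart3B.J3_ne_zero M q hq hqM K) _ _
      (Model3Top.le0 H hB.dvr) (Model3Top.leInf H hB.dvr)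
      (Model3Top.loc H hB.dvr hA hC hπ a hqa hπϖ))
    (Model3Top.descInf H hB.dvr hA hC hπ a hqa hπϖ)

/-- **The hypothesis `hcusp` of `Model3Princ.princInf` / `Model3Princ.model3`, VERBATIM and
hypothesis-free** ([N10] closed on the model of record, A-package). -/
theorem hcusp_model (H : V3.Hyp3 M q hq hqM A K K' ξ hξ0 ι ϖ') (hA : A.LiesOverPrime q)
    (hB : BaseFacts q A K) {π : OK A K} (hπ : Irreducible π) (a : A)
    (hqa : (q : Qb) = incO A K π * (a : Qb))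
    (hπϖ : ∃ u : A, IsUnit u ∧ incO A K π = incO A K' ϖ' ^ (q - 1) * (u : Qb)) :
    ∀ n : Ideal (chart (M * q * q) A K (Chart3B.J3 M q hq hqM K)⁻¹), n.IsMaximal →
      algebraMap (OK A K) (chart (M * q * q) A K (Chart3B.J3 M q hq hqM K)⁻¹) π ∈ n →
      ChartGlueInst.CuspPt (Chart3B.J3 M q hq hqM K) n →
      Model3Asm.Pc (chart (M * q * q) A K (Chart3B.J3 M q hq hqM K)⁻¹)
        ![algebraMap (OK A K) (FK (M * q * q) K) π,
          algebraMap (OK A K) (FK (M * q * q) K) π, Wit3.sE M q hq hqM K]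
        ![GaussV.V1 (M * q * q) A K hB.dvr, GaussV.V2 (WQ2.wK2 M q hq hqM K) hB.dvr, H.W3]
        (Model3Top.leInf H hB.dvr) 2 ≤ n →
      ∃ i : Fin 3,
        Model3Asm.Pc (chart (M * q * q) A K (Chart3B.J3 M q hq hqM K)⁻¹)
        ![algebraMap (OK A K) (FK (M * q * q) K) π,
          algebraMap (OK A K) (FK (M * q * q) K) π, Wit3.sE M q hq hqM K]
        ![GaussV.V1 (M * q * q) A K hB.dvr, GaussV.V2 (WQ2.wK2 M q hq hqM K) hB.dvr, H.W3]
        (Model3Top.leInf H hB.dvr) i ≤ n ∧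
        ∃ g ∈ Model3Asm.Pc (chart (M * q * q) A K (Chart3B.J3 M q hq hqM K)⁻¹)
        ![algebraMap (OK A K) (FK (M * q * q) K) π,
          algebraMap (OK A K) (FK (M * q * q) K) π, Wit3.sE M q hq hqM K]
        ![GaussV.V1 (M * q * q) A K hB.dvr, GaussV.V2 (WQ2.wK2 M q hq hqM K) hB.dvr, H.W3]
        (Model3Top.leInf H hB.dvr) i,
          ∀ y ∈ Model3Asm.Pc (chart (M * q * q) A K (Chart3B.J3 M q hq hqM K)⁻¹)
        ![algebraMap (OK A K) (FK (M * q * q) K) π,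
          algebraMap (OK A K) (FK (M * q * q) K) π, Wit3.sE M q hq hqM K]
        ![GaussV.V1 (M * q * q) A K hB.dvr, GaussV.V2 (WQ2.wK2 M q hq hqM K) hB.dvr, H.W3]
        (Model3Top.leInf H hB.dvr) i,
            ∃ s : chart (M * q * q) A K (Chart3B.J3 M q hq hqM K)⁻¹, s ∉ n ∧
              ∃ c : chart (M * q * q) A K (Chart3B.J3 M q hq hqM K)⁻¹, s * y = c * g := by
  intro n hn _ hJ hP2
  exact ⟨2, hP2, cusp2_at H hA hB hπ a hqa hπϖ (V3Wit.valHyp3 H hB.dvr hA hπ a hqa hπϖ)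
    (chartHypInf H hA hB hπ a hqa hπϖ) rfl rfl rfl rfl rfl rfl n hn.isPrime hJ hP2⟩

end Fermat.Agent.S36.CuspW3Closed

end
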