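/-
S36 — DescL.lean (helper21): block [DESC-L], "descent of the field of constants by coefficients".

For every intermediate field `K` of `ℚ̄/ℚ`:

    F̄_N ∩ K((q)) = F_K        (`F_K = FK N K = K · ℚ(j(q^d) : d ∣ N)`),

i.e. a function of `F̄_N = modularFunctionFieldBar N` whose `q`-expansion coefficients all lie in `K`
belongs to `F_K` (`mem_FK_of_coeff_mem`, `mem_FK_iff`).  In particular a function fixed by a
subgroup `I` of `Gal(ℚ̄/ℚ)` (coefficientwise action) lies in `F_K` for `K = ℚ̄^I` the fixed field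
(`mem_FK_fixedField`).

Proof.  Put `k = F_K`, a subfield of `ℚ̄((q))`.  The `k`-subalgebra `B` of `ℚ̄((q))` generated by
the constants is a field (constants are algebraic), hence contains `F̄_N`; and `B` is the `k`-span
of the constants.  So `f = ∑ gᵢ · cᵢ` with `gᵢ ∈ k` (coefficients in `K`) and `cᵢ ∈ ℚ̄`.  Choose a
`K`-linear retraction `π : ℚ̄ → K` of the inclusion and apply it coefficientwise:
`f = ∑ gᵢ · π(cᵢ) ∈ k`.
-/
import Mathlib
import Fermat.Agent.S18.DescCoeff

set_option autoImplicit false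

open ModularCurve HahnSeries

namespace Fermat.Agent.S36.DescL

open Fermat.Agent.S18.Arith

noncomputable section

set_option synthInstance.maxHeartbeats 400000
set_option linter.style.haveILetI false

/-- A constant Laurent series is integral over every subfield of `ℚ̄((q))`. -/
theorem isIntegral_C (k : Subfield (LaurentSeries Qb)) (c : Qb) :
    IsIntegral k (HahnSeries.C c : LaurentSeries Qb) := by
  haveI : CharZero (LaurentSeries Qb) :=
    charZero_of_injective_ringHom (f := (HahnSeries.C : Qb →+* LaurentSeries Qb))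
      HahnSeries.C_injective
  haveI : CharZero k := RingHom.charZero k.subtype
  have halg : Algebra.IsAlgebraic ℚ Qb := AlgebraicClosure.isAlgebraic ℚ
  have hc : IsIntegral ℚ c := (Algebra.IsAlgebraic.isAlgebraic c).isIntegral
  obtain ⟨p, hp, hpc⟩ := hc
  refine ⟨p.map (Rat.castHom k), hp.map _, ?_⟩
  rw [Polynomial.eval₂_map]
  have h1 : (algebraMap k (LaurentSeries Qb)).comp (Rat.castHom k)
      = (HahnSeries.C : Qb →+* LaurentSeries Qb).comp (algebraMap ℚ Qb) :=
    Subsingleton.elim _ _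
  rw [h1, ← Polynomial.hom_eval₂, hpc, map_zero]

/-- The subalgebra generated by the constants over a subfield `k ⊇ ℚ(j(q^d))` contains `F̄_N`. -/
theorem mem_adjoin_of_mem_bar (N : ℕ) (k : Subfield (LaurentSeries Qb))
    (hk : ∀ x : modularFunctionFieldFull N, coeffEmb Qb (x : LaurentSeries ℚ) ∈ k)
    (f : LaurentSeries Qb) (hf : f ∈ modularFunctionFieldBar N) :
    f ∈ Algebra.adjoin k (Set.range (HahnSeries.C : Qb → LaurentSeries Qb)) := by
  have hint : Algebra.adjoin k (Set.range (HahnSeries.C : Qb → LaurentSeries Qb))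
      ≤ integralClosure k (LaurentSeries Qb) := by
    apply Algebra.adjoin_le
    rintro _ ⟨c, rfl⟩
    exact isIntegral_C k c
  rw [mem_laurentBaseChange_iff] at hf
  induction hf using Subfield.closure_induction with
  | mem y hy =>
    rcases hy with ⟨a, rfl⟩ | ⟨z, hz, rfl⟩
    · rw [algebraMap_laurentSeries_eq_single]
      exact Algebra.subset_adjoin ⟨a, rfl⟩
    · exact (Algebra.adjoin k _).algebraMap_mem ⟨_, hk ⟨z, hz⟩⟩
  | one => exact one_mem _
  | add x y _ _ hx hy => exact add_mem hx hy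
  | neg x _ hx => exact neg_mem hx
  | inv x _ hx =>
    have halg : IsAlgebraic k x := (hint hx : IsIntegral k x).isAlgebraic
    exact Subalgebra.inv_mem_of_algebraic
      (A := Algebra.adjoin k (Set.range (HahnSeries.C : Qb → LaurentSeries Qb)))
      (x := ⟨x, hx⟩) halg
  | mul x y _ _ hx hy => exact mul_mem hx hy

/-- A `K`-linear retraction of `K ⊆ ℚ̄`, as an additive map `ℚ̄ → ℚ̄`. -/
theorem exists_proj (K : IntermediateField ℚ Qb) :
    ∃ π : Qb →+ Qb, (∀ a, π a ∈ K) ∧ (∀ κ ∈ K, π κ = κ) ∧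
      ∀ κ ∈ K, ∀ a, π (κ * a) = κ * π a := by
  obtain ⟨g, hg⟩ := LinearMap.exists_leftInverse_of_injective (Algebra.linearMap K Qb)
    (LinearMap.ker_eq_bot.mpr (algebraMap K Qb).injective)
  refine ⟨((Algebra.linearMap K Qb).comp g).toAddMonoidHom, fun a => (g a).2,
    fun κ hκ => ?_, fun κ hκ a => ?_⟩
  · have h := LinearMap.congr_fun hg ⟨κ, hκ⟩
    change g ((⟨κ, hκ⟩ : K) : Qb) = ⟨κ, hκ⟩ at h
    change ((g κ : K) : Qb) = κ
    rw [h]
  · have h : g (κ * a) = (⟨κ, hκ⟩ : K) * g a := by
      have h2 : κ * a = (⟨κ, hκ⟩ : K) • a := rfl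
      rw [h2, map_smul, smul_eq_mul]
    change ((g (κ * a) : K) : Qb) = κ * ((g a : K) : Qb)
    rw [h]
    rfl

/-- An element of the `F_K`-span of the constants with coefficients in `K` lies in `F_K`. -/
theorem mem_of_mem_span (N : ℕ) (K : IntermediateField ℚ Qb) (f : LaurentSeries Qb)
    (hf : f ∈ Submodule.span (FK N K) (Set.range (HahnSeries.C : Qb → LaurentSeries Qb)))
    (hc : ∀ n, f.coeff n ∈ K) : f ∈ FK N K := by
  obtain ⟨π, hπK, hπid, hπlin⟩ := exists_proj K
  obtain ⟨c, rfl⟩ := Finsupp.mem_span_range_iff_exists_finsupp.mp hf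
  have key : (c.sum fun a g => g • (HahnSeries.C a : LaurentSeries Qb))
      = c.sum fun a g => (g : LaurentSeries Qb) * HahnSeries.C (π a) := by
    ext n
    have hL : ∀ (a : Qb) (g : FK N K), (g • (HahnSeries.C a : LaurentSeries Qb)).coeff n
        = a * (g : LaurentSeries Qb).coeff n := by
      intro a g
      rw [Subfield.smul_def, smul_eq_mul, mul_comm, HahnSeries.C_mul_eq_smul,
        HahnSeries.coeff_smul, smul_eq_mul]
    have hR : ∀ (a : Qb) (g : FK N K),
        ((g : LaurentSeries Qb) * HahnSeries.C (π a)).coeff n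
          = π (a * (g : LaurentSeries Qb).coeff n) := by
      intro a g
      rw [mul_comm, HahnSeries.C_mul_eq_smul, HahnSeries.coeff_smul, smul_eq_mul, mul_comm a,
        hπlin _ (Fermat.Agent.S18.DescCoeff.coeffStatement N K _ g.2 n), mul_comm]
    have hn := hc n
    rw [Finsupp.sum, HahnSeries.coeff_sum] at hn
    simp only [hL] at hn
    rw [Finsupp.sum, Finsupp.sum, HahnSeries.coeff_sum, HahnSeries.coeff_sum]
    simp only [hL, hR]
    rw [← map_sum]
    exact (hπid _ hn).symm
  rw [key]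
  refine Subfield.sum_mem _ fun a _ => mul_mem (c a).2 ?_
  exact Subfield.subset_closure (Or.inl ⟨⟨π a, hπK a⟩, rfl⟩)

/-- **[DESC-L]** `F̄_N ∩ K((q)) ⊆ F_K`: a function of `F̄_N` with all its `q`-expansion coefficients
in `K` lies in `F_K`. -/
theorem mem_FK_of_coeff_mem (N : ℕ) (K : IntermediateField ℚ Qb) (f : LaurentSeries Qb)
    (hf : f ∈ modularFunctionFieldBar N) (hc : ∀ n : ℤ, f.coeff n ∈ K) : f ∈ FK N K := by
  apply mem_of_mem_span N K f _ hc
  have h1 := mem_adjoin_of_mem_bar N (FK N K)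
    (fun x => Subfield.subset_closure (Or.inr ⟨x, rfl⟩)) f hf
  have h2 : (Submonoid.closure (Set.range (HahnSeries.C : Qb → LaurentSeries Qb)) :
      Set (LaurentSeries Qb)) = Set.range (HahnSeries.C : Qb → LaurentSeries Qb) := by
    have h3 : Set.range (HahnSeries.C : Qb → LaurentSeries Qb)
        = (MonoidHom.mrange ((HahnSeries.C : Qb →+* LaurentSeries Qb) : Qb →* LaurentSeries Qb) :
            Set (LaurentSeries Qb)) := by
      rw [MonoidHom.coe_mrange]
      rfl
    rw [h3, Submonoid.closure_eq]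
  rw [← Subalgebra.mem_toSubmodule, Algebra.adjoin_eq_span, h2] at h1
  exact h1

/-- `F_K = F̄_N ∩ K((q))`. -/
theorem mem_FK_iff (N : ℕ) (K : IntermediateField ℚ Qb) (f : LaurentSeries Qb) :
    f ∈ FK N K ↔ f ∈ modularFunctionFieldBar N ∧ ∀ n : ℤ, f.coeff n ∈ K :=
  ⟨fun h => ⟨Fermat.Agent.S18.DescCoeff.FK_le_bar N K h,
    Fermat.Agent.S18.DescCoeff.coeffStatement N K f h⟩,
    fun h => mem_FK_of_coeff_mem N K f h.1 h.2⟩

/-- A function of `F̄_N` fixed (coefficientwise) by a subgroup `I` of `Gal(ℚ̄/ℚ)` lies in `F_K` for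
`K = ℚ̄^I` the fixed field of `I`.  (`arithmeticGalois (modularFunctionFieldFull N) τ` is
`S34.UPlan.gal N τ`.) -/
theorem mem_FK_fixedField (N : ℕ) (I : Subgroup (Qb ≃ₐ[ℚ] Qb)) (f : modularFunctionFieldBar N)
    (hf : ∀ τ ∈ I, arithmeticGalois (modularFunctionFieldFull N) τ • f = f) :
    (f : LaurentSeries Qb) ∈ FK N (IntermediateField.fixedField I) := by
  apply mem_FK_of_coeff_mem N _ _ f.2
  intro n
  rw [IntermediateField.mem_fixedField_iff]
  intro τ hτ
  have h1 := congrArg (fun y : modularFunctionFieldBar N => (y : LaurentSeries Qb).coeff n)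
    (hf τ hτ)
  simp only [coe_arithmeticGalois_smul, coeffMap_coeff] at h1
  exact h1

end

end Fermat.Agent.S36.DescL
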