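/-
S36 — DescN.lean (helper29).  `R ∩ ϖ (⨅ V i) = ϖ R` FROM NORMALITY (no reducedness of the
special fibre): blueprint #2891 (4).

`R` a noetherian integrally closed domain with fraction field `E`, `V i` a family of valuation
rings of `E` (the component valuation rings of the special fibre, with any multiplicities),
`ϖ ≠ 0` in `R`.  If every prime `𝔮 ∋ ϖ` of `R` whose localisation is a discrete valuation ring
satisfies `V i ⊆ R_𝔮` for some `i` ("the `V i` are all the vertical valuations"), then an element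
`z ∈ ⨅ V i` with `ϖ z ∈ R` lies in `R`.

* `desc_of_normal`     — abstract form (`R`, `E`, `algebraMap`);
* `desc_subalgebra`    — the `desc0` / `descInf` field of `S36/AbsTopN.HypN` for a chart
                         `R : Subalgebra O E`.
-/
import Mathlib
import Fermat.Agent.S34.LocPlan
import Fermat.Agent.S34.KrullUnit

set_option autoImplicit false

namespace Fermat.Agent.S36.DescN

open Fermat.Agent.S34 Fermat.Agent.S34.LocPlan

section Abstract

variable {R : Type*} [CommRing R] [IsDomain R] [IsNoetherianRing R] [IsIntegrallyClosed R]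
  {E : Type*} [Field E] [Algebra R E] [IsFractionRing R E] {ι : Type*}

/-- **Descent from normality.** -/
theorem desc_of_normal (V : ι → ValuationSubring E) (ϖ : R)
    (hV : ∀ (𝔮 : Ideal R) [𝔮.IsPrime], ϖ ∈ 𝔮 →
      IsDiscreteValuationRing (Localization.AtPrime 𝔮) → ∃ i, ∀ x ∈ V i, RegAt 𝔮 x)
    (z : E) (hz : ∀ i, z ∈ V i)
    (h : ∃ r : R, algebraMap R E ϖ * z = algebraMap R E r) :
    ∃ r' : R, z = algebraMap R E r' := by
  obtain ⟨r, hr⟩ := h
  have hmem : z ∈ (algebraMap R E).range := by
    refine KrullUnit.mem_range_of_forall_dvr z ?_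
    intro 𝔮 _ hdvr
    by_cases hϖ : ϖ ∈ 𝔮
    · obtain ⟨i, hi⟩ := hV 𝔮 hϖ hdvr
      exact hi z (hz i)
    · exact ⟨r, ϖ, hϖ, by rw [mul_comm, hr]⟩
  obtain ⟨r', hr'⟩ := hmem
  exact ⟨r', hr'.symm⟩

end Abstract

section Chart

variable {O : Type*} [CommRing O] {E : Type*} [Field E] [Algebra O E] {ι : Type*}

/-- The `desc0` / `descInf` field of `AbsTopN.HypN` for a chart `R ⊆ E` which is a noetherian
integrally closed domain with fraction field `E`. -/
theorem desc_subalgebra (R : Subalgebra O E) [IsNoetherianRing R] [IsIntegrallyClosed R]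
    [IsFractionRing R E] (V : ι → ValuationSubring E) (π : O)
    (hV : ∀ (𝔮 : Ideal R) [𝔮.IsPrime], algebraMap O R π ∈ 𝔮 →
      IsDiscreteValuationRing (Localization.AtPrime 𝔮) → ∃ i, ∀ x ∈ V i, RegAt 𝔮 x) :
    ∀ z : E, (∀ i, z ∈ V i) → algebraMap O E π * z ∈ R → z ∈ R := by
  intro z hz hmem
  obtain ⟨r', hr'⟩ := desc_of_normal (R := R) V (algebraMap O R π) hV z hz
    ⟨⟨algebraMap O E π * z, hmem⟩, rfl⟩
  rw [hr']
  exact r'.2

end Chart

end Fermat.Agent.S36.DescN
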