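/-
S36 route, package [TOP36] — PseudoI.lean (helper5).

The determinant `(t, d)` of `S30/LimGlue.exists_pseudo`, re-run with EXPLICIT level data (as
`S35/PseudoQ.exists_pseudoQ`), together with the NON-UNIPOTENCE at the *doubly special* primes `q`
(in the application: `q² ∥ N`, `q ≠ p`):

    `¬ ∀ P ∣ q, ∀ τ ∈ I_P, t τ = 2`.

Extra input (one `Prop` per level and per doubly special prime, `InertQ2`): for SOME place `P`
over `q`, every vector of the level `V_n` fixed by the inertia group `I_P` is killed by a constant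
`c ≠ 0` which does not depend on `n`.

Algebra (`smul_eq_zero_of_unipotent`, helper40's three steps, board #2801): if `g + g⁻¹ = 2` on
`V` for every `g` in a subgroup `H` (i.e. `t = 2`, `d = 1` on `H`), then with `a = g − 1`,
`b = h − 1`, `c' = k − 1` (`g, h, k ∈ H`): `ab + ba = 0` (the relation for `g h`), hence
`2 a b c' = 0` (the relation for `g` and `h k`), hence `2 a b x` is `H`-invariant for every `x`;
three applications of the invariants hypothesis give `2 c³ • x = 0`.  With `x = w_n`, whose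
annihilator is contained in `pⁿ 𝒪`, and `𝒪` `p`-adically separated: `2 c³ = 0`.
-/
import Mathlib
import Fermat.Agent.S29.Defs
import Fermat.Agent.S29.Lucas
import Fermat.Agent.S30.LimLevel
import Fermat.Agent.S30.LimCore
import Fermat.Agent.S30.LimFD
import Fermat.Agent.S30.LimGlue
import Fermat.Agent.S30.Conj

set_option autoImplicit false

namespace Fermat.Agent.S36.PseudoI

open Fermat.Agent.S29 (FDStatement)
open Fermat.Agent.S30.LimLevel (Level)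
open Fermat.Agent.S30.LimCore (IsTrace)

/-- `ℚ̄`. -/
local notation "Qb" => AlgebraicClosure ℚ

/-- `Gal(ℚ̄/ℚ)`. -/
local notation "GQ" => (AlgebraicClosure ℚ ≃ₐ[ℚ] AlgebraicClosure ℚ)

/-! ### Ring identities -/

section RingId

variable {R : Type*} [Ring R]

/-- `g + g⁻¹ = 2`, `h + h⁻¹ = 2`, `g h + h⁻¹ g⁻¹ = 2` give `(g − 1)(h − 1) + (h − 1)(g − 1) = 0`. -/
theorem anticomm_of_rel (g gi h hi : R) (hg : g + gi = 2) (hh : h + hi = 2)
    (hgh : g * h + hi * gi = 2) :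
    (g - 1) * (h - 1) + (h - 1) * (g - 1) = 0 := by
  rw [← one_add_one_eq_two] at hg hh hgh
  have e1 : gi = 1 + 1 - g := eq_sub_of_add_eq' hg
  have e2 : hi = 1 + 1 - h := eq_sub_of_add_eq' hh
  rw [e1, e2] at hgh
  have e3 : (g - 1) * (h - 1) + (h - 1) * (g - 1)
      = (g * h + (1 + 1 - h) * (1 + 1 - g)) - (1 + 1) := by
    simp only [mul_sub, sub_mul, mul_one, one_mul, mul_add, add_mul]
    abel
  rw [e3, hgh, sub_self]

/-- Pairwise anticommutation of `a` with `b`, `c` and `b + c + b c` gives `2 a b c = 0`. -/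
theorem two_mul_triple_eq_zero (a b c : R) (e1 : a * b + b * a = 0) (e2 : a * c + c * a = 0)
    (e3 : a * (b + c + b * c) + (b + c + b * c) * a = 0) :
    2 * (a * b * c) = 0 := by
  have e : 2 * (a * b * c) = (a * (b + c + b * c) + (b + c + b * c) * a) - (a * b + b * a)
      - (a * c + c * a) - (b * (a * c + c * a) - (a * b + b * a) * c) := by
    simp only [mul_add, add_mul, two_mul, mul_assoc]
    abel
  rw [e, e3, e1, e2]
  simp

end RingId

/-! ### The three steps -/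

section ThreeStep

variable {𝒪 : Type*} [CommRing 𝒪] {X : Type*} [AddCommGroup X] [Module 𝒪 X]
  {G : Type*} [Group G]

/-- **The algebra of [TOP36]** (helper40's three steps).  Let `H` be a subgroup acting on `X`
through `π`, unipotently in the sense `π g + π g⁻¹ = 2` for all `g ∈ H`.  If every `H`-invariant
vector is killed by `c`, then `2 c³` kills `X`. -/
theorem smul_eq_zero_of_unipotent (π : G →* Module.End 𝒪 X) (H : Subgroup G)
    (hCH : ∀ g ∈ H, π g + π g⁻¹ = 2)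
    (c : 𝒪) (hinv : ∀ y : X, (∀ g ∈ H, π g y = y) → c • y = 0) (x : X) :
    (2 * c ^ 3) • x = 0 := by
  -- anticommutation
  have hanti : ∀ g ∈ H, ∀ h ∈ H, (π g - 1) * (π h - 1) + (π h - 1) * (π g - 1) = 0 := by
    intro g hg h hh
    refine anticomm_of_rel (π g) (π g⁻¹) (π h) (π h⁻¹) (hCH g hg) (hCH h hh) ?_
    have h1 := hCH (g * h) (H.mul_mem hg hh)
    rw [mul_inv_rev, map_mul, map_mul] at h1
    exact h1
  -- the triple products
  have htriple : ∀ g ∈ H, ∀ h ∈ H, ∀ k ∈ H,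
      2 * ((π g - 1) * (π h - 1) * (π k - 1)) = 0 := by
    intro g hg h hh k hk
    refine two_mul_triple_eq_zero _ _ _ (hanti g hg h hh) (hanti g hg k hk) ?_
    have h1 := hanti g hg (h * k) (H.mul_mem hh hk)
    have e : π (h * k) - 1 = (π h - 1) + (π k - 1) + (π h - 1) * (π k - 1) := by
      rw [map_mul]
      noncomm_ring
    rw [e] at h1
    exact h1
  have htriple' : ∀ g ∈ H, ∀ h ∈ H, ∀ k ∈ H, ∀ z : X,
      (2 : 𝒪) • ((π g - 1) ((π h - 1) ((π k - 1) z))) = 0 := by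
    intro g hg h hh k hk z
    have h1 := congrArg (fun f : Module.End 𝒪 X => f z) (htriple g hg h hh k hk)
    simp only [Module.End.mul_apply, LinearMap.zero_apply] at h1
    rw [two_smul]
    have h2 : (2 : Module.End 𝒪 X) ((π g - 1) ((π h - 1) ((π k - 1) z)))
        = (π g - 1) ((π h - 1) ((π k - 1) z)) + (π g - 1) ((π h - 1) ((π k - 1) z)) := by
      rw [← one_add_one_eq_two, LinearMap.add_apply, Module.End.one_apply]
    rw [← h2]
    exact h1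
  -- invariance criterion
  have hfix : ∀ y : X, (∀ g ∈ H, (π g - 1) y = 0) → c • y = 0 := by
    intro y hy
    refine hinv y (fun g hg => ?_)
    have h1 := hy g hg
    rw [LinearMap.sub_apply, Module.End.one_apply, sub_eq_zero] at h1
    exact h1
  -- step 1
  have s1 : ∀ h ∈ H, ∀ k ∈ H, ∀ z : X, (c * 2) • ((π h - 1) ((π k - 1) z)) = 0 := by
    intro h hh k hk z
    rw [mul_smul]
    refine hfix _ (fun g hg => ?_)
    rw [map_smul]
    exact htriple' g hg h hh k hk z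
  -- step 2
  have s2 : ∀ k ∈ H, ∀ z : X, (c * (c * 2)) • ((π k - 1) z) = 0 := by
    intro k hk z
    rw [mul_smul]
    refine hfix _ (fun h hh => ?_)
    rw [map_smul]
    exact s1 h hh k hk z
  -- step 3
  have s3 : (c * (c * (c * 2))) • x = 0 := by
    rw [mul_smul]
    refine hfix _ (fun k hk => ?_)
    rw [map_smul]
    exact s2 k hk x
  have e : 2 * c ^ 3 = c * (c * (c * 2)) := by ring
  rw [e]
  exact s3

end ThreeStep

/-! ### The extra datum and the determinant -/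

/-- **The extra datum at a doubly special prime `q`** on a level: for SOME place `P` over `q`,
every vector fixed by the inertia group at `P` is killed by `c` (a nonzero constant, independent
of the level, in the application). -/
def InertQ2 {𝒪 : Type} [CommRing 𝒪] {p n : ℕ} {good : ℕ → Prop} {a : ℕ → 𝒪} {unr : ℕ → Prop}
    (Lv : Level 𝒪 p n good a unr) (q : ℕ) (c : 𝒪) : Prop :=
  ∃ P : ValuationSubring Qb, P.LiesOverPrime q ∧
    ∀ y : Lv.V, (∀ τ ∈ P.inertiaSubgroupIn ℚ, Lv.r τ y = y) → c • y = 0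

/-- **The concrete limit step with doubly special primes.**  As `S30/LimGlue.exists_pseudo`, with
the levels given together with `InertQ2` at the doubly special primes (constants `cst q ≠ 0` not
depending on the level); the determinant `(t, d)` is in addition NOT unipotent on inertia at
every doubly special prime: `t τ = 2` cannot hold for all `τ` in all inertia groups over `q`. -/
theorem exists_pseudoI {𝒪 : Type} [CommRing 𝒪] [IsDomain 𝒪] (p : ℕ) (hp : p ≠ 0)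
    (h2 : (2 : 𝒪) ≠ 0)
    (hsep : ∀ a : 𝒪, (∀ n : ℕ, (p : 𝒪) ^ n ∣ a) → a = 0)
    (hcompl : ∀ f : ℕ → 𝒪, (∀ n : ℕ, (p : 𝒪) ^ n ∣ f (n + 1) - f n) →
      ∃ L : 𝒪, ∀ n : ℕ, (p : 𝒪) ^ n ∣ f n - L)
    (good : ℕ → Prop) (a : ℕ → 𝒪) (unr : ℕ → Prop) (S : Finset ℕ)
    (hS : ∀ ℓ : ℕ, ℓ.Prime → ℓ ∉ S → good ℓ) (hFD : FDStatement)
    (d : GQ →* 𝒪ˣ)
    (hd : ∀ (g : GQ) (n k : ℕ), (∀ ζ : Qb, ζ ^ (p ^ n) = 1 → g ζ = ζ ^ k) →
      (p : 𝒪) ^ n ∣ ((d g : 𝒪ˣ) : 𝒪) - (k : 𝒪))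
    (hcycL : ∀ n : ℕ, ∃ L : IntermediateField ℚ Qb, FiniteDimensional ℚ L ∧
      ∀ σ : GQ, (∀ x ∈ L, σ x = x) → ∀ ζ : Qb, ζ ^ (p ^ n) = 1 → σ ζ = ζ)
    (hcycF : ∀ ℓ : ℕ, good ℓ → ∀ A : ValuationSubring Qb, A.LiesOverPrime ℓ →
      ∀ σ : GQ, A.IsFrobeniusAt σ ℓ → ∀ (n : ℕ) (ζ : Qb), ζ ^ (p ^ n) = 1 → σ ζ = ζ ^ ℓ)
    (hcycI : ∀ q : ℕ, unr q → ∀ P : ValuationSubring Qb, P.LiesOverPrime q →
      ∀ τ ∈ P.inertiaSubgroupIn ℚ, ∀ (n : ℕ) (ζ : Qb), ζ ^ (p ^ n) = 1 → τ ζ = ζ)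
    (spec : ℕ → Prop)
    (cst : ℕ → 𝒪) (hcst : ∀ q : ℕ, spec q → cst q ≠ 0)
    (hcycI2 : ∀ q : ℕ, spec q → ∀ P : ValuationSubring Qb, P.LiesOverPrime q →
      ∀ τ ∈ P.inertiaSubgroupIn ℚ, ∀ (n : ℕ) (ζ : Qb), ζ ^ (p ^ n) = 1 → τ ζ = ζ)
    (lev : ∀ n : ℕ, ∃ Lv : Level 𝒪 p n good a unr, ∀ q : ℕ, spec q → InertQ2 Lv q (cst q)) :
    ∃ t : GQ → 𝒪,
      t 1 = 2 ∧ (∀ g h : GQ, t (g * h) = t (h * g)) ∧
      (∀ g h : GQ, t (g * h) + ((d h : 𝒪ˣ) : 𝒪) * t (g * h⁻¹) = t g * t h) ∧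
      (∀ n : ℕ, ∃ L : IntermediateField ℚ Qb, FiniteDimensional ℚ L ∧
        ∀ σ : GQ, (∀ x ∈ L, σ x = x) → ∀ g : GQ, (p : 𝒪) ^ n ∣ t (σ * g) - t g) ∧
      (∀ ℓ : ℕ, good ℓ → ∀ A : ValuationSubring Qb, A.LiesOverPrime ℓ →
        ∀ σ : GQ, A.IsFrobeniusAt σ ℓ → t σ = a ℓ ∧ ((d σ : 𝒪ˣ) : 𝒪) = (ℓ : 𝒪)) ∧
      (∀ q : ℕ, unr q → ∀ P : ValuationSubring Qb, P.LiesOverPrime q →
        ∀ τ ∈ P.inertiaSubgroupIn ℚ, ∀ g : GQ, t (τ * g) = t g) ∧
      (∃ c : GQ, c * c = 1 ∧ t c = 0 ∧ d c = -1) ∧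
      (∀ q : ℕ, spec q → ¬ ∀ P : ValuationSubring Qb, P.LiesOverPrime q →
        ∀ τ ∈ P.inertiaSubgroupIn ℚ, t τ = 2) := by
  classical
  -- the level data
  let Lv : ∀ n : ℕ, Level 𝒪 p n good a unr := fun n => (lev n).choose
  have hLvI : ∀ (n : ℕ) (q : ℕ), spec q → InertQ2 (Lv n) q (cst q) := fun n => (lev n).choose_spec
  let X : ℕ → Type := fun n => (Lv n).V
  let π : ∀ n : ℕ, GQ →* Module.End 𝒪 (X n) := fun n => (Lv n).r
  let w : ∀ n : ℕ, X n := fun n => (Lv n).w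
  have htors : ∀ (n : ℕ) (x : X n), (p : 𝒪) ^ n • x = 0 := fun n => (Lv n).tors
  have hann : ∀ (n : ℕ) (c : 𝒪), c • w n = 0 → (p : 𝒪) ^ n ∣ c := fun n => (Lv n).ann
  have hlevel : ∀ n : ℕ, ∃ L : IntermediateField ℚ Qb, FiniteDimensional ℚ L ∧
      ∀ σ : GQ, (∀ x ∈ L, σ x = x) → π n σ = 1 := fun n => (Lv n).level
  -- the cyclotomic character at Frobenius and inertia
  have hdFrob : ∀ ℓ : ℕ, good ℓ → ∀ A : ValuationSubring Qb, A.LiesOverPrime ℓ →
      ∀ σ : GQ, A.IsFrobeniusAt σ ℓ → ((d σ : 𝒪ˣ) : 𝒪) = (ℓ : 𝒪) :=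
    fun ℓ hℓ A hA σ hσ =>
      Fermat.Agent.S30.LimGlue.d_eq_natCast hsep d hd σ ℓ (hcycF ℓ hℓ A hA σ hσ)
  have hdIn : ∀ q : ℕ, unr q → ∀ P : ValuationSubring Qb, P.LiesOverPrime q →
      ∀ τ ∈ P.inertiaSubgroupIn ℚ, d τ = 1 :=
    fun q hq P hP τ hτ =>
      Fermat.Agent.S30.LimGlue.d_eq_one hsep d hd τ (hcycI q hq P hP τ hτ)
  have hdIn2 : ∀ q : ℕ, spec q → ∀ P : ValuationSubring Qb, P.LiesOverPrime q →
      ∀ τ ∈ P.inertiaSubgroupIn ℚ, d τ = 1 :=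
    fun q hq P hP τ hτ =>
      Fermat.Agent.S30.LimGlue.d_eq_one hsep d hd τ (hcycI2 q hq P hP τ hτ)
  have hdcont : ∀ m : ℕ, ∃ C : IntermediateField ℚ Qb, FiniteDimensional ℚ C ∧
      ∀ σ : GQ, (∀ x ∈ C, σ x = x) → (p : 𝒪) ^ m ∣ ((d σ : 𝒪ˣ) : 𝒪) - 1 := by
    intro m
    obtain ⟨C, hC, h⟩ := hcycL m
    exact ⟨C, hC, fun σ hσ => Fermat.Agent.S30.LimGlue.d_sub_one_dvd d hd m σ (h σ hσ)⟩
  -- the relation on two consecutive levels (FD + Lucas)
  have hrel : ∀ (g : GQ) (n : ℕ), ∃ t' : 𝒪,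
      (π n g + ((d g : 𝒪ˣ) : 𝒪) • π n g⁻¹ = t' • (1 : Module.End 𝒪 (X n))) ∧
      (π (n + 1) g + ((d g : 𝒪ˣ) : 𝒪) • π (n + 1) g⁻¹
        = t' • (1 : Module.End 𝒪 (X (n + 1)))) :=
    Fermat.Agent.S30.LimFD.hrel_of_levels hFD (p : 𝒪) S a d
      (fun ℓ hℓ hℓS A hA σ hσ => hdFrob ℓ (hS ℓ hℓ hℓS) A hA σ hσ) hdcont π htors hlevel
      (fun n ℓ hℓ hℓS A hA σ hσ => (Lv n).frob ℓ (hS ℓ hℓ hℓS) A hA σ hσ)
  -- the limit
  obtain ⟨t, ht, ht1, htcomm, htmul, -⟩ :=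
    Fermat.Agent.S30.LimCore.exists_trace (ϖ := (p : 𝒪)) (d := d) (X := X) (π := π) (w := w)
      hsep hcompl htors hann hrel
  have hT : IsTrace d X π t := ht
  refine ⟨t, ht1, htcomm, htmul, ?_, ?_, ?_, ?_, ?_⟩
  · -- (P2)
    intro n
    obtain ⟨L₁, hL₁, h₁⟩ := hlevel n
    obtain ⟨L₂, hL₂, h₂⟩ := hdcont n
    refine ⟨L₁ ⊔ L₂, inferInstance, fun σ hσ g => ?_⟩
    exact hT.dvd_sub_of_eq htors hann n σ g
      (h₁ σ fun x hx => hσ x ((le_sup_left : L₁ ≤ L₁ ⊔ L₂) hx))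
      (h₂ σ fun x hx => hσ x ((le_sup_right : L₂ ≤ L₁ ⊔ L₂) hx))
  · -- (P3), Frobenius
    intro ℓ hℓ A hA σ hσ
    have hdσ := hdFrob ℓ hℓ A hA σ hσ
    refine ⟨?_, hdσ⟩
    apply hT.eq_of_forall_rel hsep hann σ (a ℓ)
    intro n
    have hq := (Lv n).frob ℓ hℓ A hA σ hσ
    have h1 := Fermat.Agent.S29.Lucas.add_smul_inv_of_quadratic (π n) σ (a ℓ) (ℓ : 𝒪) hq
    have h2 := congrArg (fun f : Module.End 𝒪 (X n) => f (w n)) h1
    simp only [LinearMap.add_apply, LinearMap.smul_apply, Module.End.one_apply] at h2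
    rw [hdσ]
    exact h2
  · -- (P3), inertia
    intro q hq P hP τ hτ g
    exact hT.apply_mul_of_forall_eq_one hsep htors hann τ
      (fun n => (Lv n).inert q hq P hP τ hτ) (hdIn q hq P hP τ hτ) g
  · -- (P4)
    obtain ⟨c, hc, hcζ⟩ := Fermat.Agent.S30.Conj.exists_conj
    have hdc : d c = -1 := Fermat.Agent.S30.LimGlue.d_eq_neg_one hsep d hd hp c
      (fun n ζ hζ => hcζ ζ (p ^ n) (pow_ne_zero n hp) hζ)
    exact ⟨c, hc, hT.eq_zero_of_involution hsep hann c hc hdc, hdc⟩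
  · -- the doubly special primes: not unipotent
    intro q hq hall
    have hzero : 2 * cst q ^ 3 = 0 := by
      apply hsep
      intro n
      apply hann n
      obtain ⟨P, hP, hinv⟩ := hLvI n q hq
      refine smul_eq_zero_of_unipotent (π n) (P.inertiaSubgroupIn ℚ) ?_ (cst q) hinv (w n)
      intro τ hτ
      have hTn := hT n τ
      rw [hdIn2 q hq P hP τ hτ, hall P hP τ hτ, Units.val_one, one_smul, two_smul,
        one_add_one_eq_two] at hTn
      exact hTn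
    rcases mul_eq_zero.mp hzero with h | h
    · exact h2 h
    · exact hcst q hq ((pow_eq_zero_iff (three_ne_zero)).mp h)

end Fermat.Agent.S36.PseudoI
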