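/-
S36 — Emb3Bar.lean (helper101; dealt by helper62): block [EMB3BAR] of [NORM3].

The `K`-level family of conjugate embeddings `Iota3K.emb3` of `F_K(M q²)` over `F_K(M q)` is the
restriction of the `ℚ̄`-level family `Iota3K.famBar`; hence the INTRINSIC `K`-level norms of
`F_K(M q²)` over `F_K(M q)` along `α` (`DegTower.algTower`) and along `β`
(`(WQ2.betaK2 …).toAlgebra`) are the descents of the `ℚ̄`-level norms along
`algebraAlong (heckeAlphaBar Qb (M q) q)` and `algebraAlong (heckeBetaBar Qb (M q) q)`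
(these `ℚ̄`-level norms are, by unfolding, `S35.ModelFPlan.alphaNm (M q) q` and
`S35.ModelFPlan.betaNm (M q) q`):

* `iota3_eq_top`, `iota3_eq_iota3Bar`, `emb3_eq_famBar` : `emb3 c x = famBar c (toBar x)`;
* `coe_norm_eq_coe_alphaNorm`, `toBar_norm_eq_alphaNorm` :
    `toBar (N_{α}^K x) = N_{α}^{ℚ̄} (toBar x)`;
* `incl_wK`, `norm_beta_eq`               : `N_β^K x = w_q (N_α^K (w_{q²} x))`;
* `coe_norm_beta_eq_coe_betaNorm`, `toBar_norm_beta_eq_betaNorm` :
    `toBar (N_{β}^K x) = N_{β}^{ℚ̄} (toBar x)`;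
* `finiteDimensional_beta`, `finrank_beta`, `finrank_alpha` : both extensions are finite of
  degree `q`.
-/
import Mathlib
import Fermat.Agent.S36.Iota3K
import Fermat.Agent.S36.WQ2

set_option autoImplicit false

noncomputable section

namespace Fermat.Agent.S36.Emb3Bar

open ModularCurve AlgebraicCurve HahnSeries
open Fermat.Agent.S18 Fermat.Agent.S18.Arith Fermat.Agent.S18.ModelPlan Fermat.Agent.S24
open Fermat.Agent.S37.W Fermat.Agent.S34 Fermat.Agent.S34.ConjMod
open Fermat.Agent.S36.Iota3 Fermat.Agent.S36.Iota3K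

variable (M q : ℕ) [NeZero M] [NeZero q] (K : IntermediateField ℚ Qb) (hq : q.Prime)
  (hqM : ¬ q ∣ M)

/-! ### (a) the `K`-level family is the restriction of the `ℚ̄`-level family -/

/-- The `K`-level middle-cusp embedding is the restriction of the `⊤`-level one. -/
theorem iota3_eq_top (ξ : Qb) (hξ : ξ ^ q = 1) (hξ1 : ξ ≠ 1) (x : FK ((M * q) * q) K) :
    iota3 M q K hq hqM ξ hξ hξ1 x
      = iota3 M q (⊤ : IntermediateField ℚ Qb) hq hqM ξ hξ hξ1
        (barToTop (M * q * q) (Glob.toBar (M * q * q) K x)) := by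
  have h := ringHom_ext_E2 M q K hq hqM (iota3 M q K hq hqM ξ hξ hξ1)
    ((iota3 M q (⊤ : IntermediateField ℚ Qb) hq hqM ξ hξ hξ1).comp
      ((barToTop (M * q * q)).comp (Glob.toBar (M * q * q) K))) (fun y => ?_) ?_
  · exact congrArg (fun g : FK ((M * q) * q) K →+* LaurentSeries Qb => g x) h
  · rw [iota3_incl]
    show (y : LaurentSeries Qb) = iota3 M q (⊤ : IntermediateField ℚ Qb) hq hqM ξ hξ hξ1
      (barToTop (M * q * q) (Glob.toBar (M * q * q) K
        (DegTower.incl (M * q) ((M * q) * q) K (Dvd.intro q rfl) y)))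
    have e : barToTop (M * q * q) (Glob.toBar (M * q * q) K
        (DegTower.incl (M * q) ((M * q) * q) K (Dvd.intro q rfl) y))
        = DegTower.incl (M * q) ((M * q) * q) (⊤ : IntermediateField ℚ Qb) (Dvd.intro q rfl)
          (barToTop (M * q) (Glob.toBar (M * q) K y)) := by
      apply Subtype.ext
      rw [coe_barToTop, Glob.coe_toBar, DegTower.coe_incl, DegTower.coe_incl, coe_barToTop,
        Glob.coe_toBar]
    rw [e, iota3_incl, coe_barToTop, Glob.coe_toBar]
  · rw [iota3_jq2K]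
    show _ = iota3 M q (⊤ : IntermediateField ℚ Qb) hq hqM ξ hξ hξ1
      (barToTop (M * q * q) (Glob.toBar (M * q * q) K (jq2K M q K)))
    have e : barToTop (M * q * q) (Glob.toBar (M * q * q) K (jq2K M q K))
        = jq2K M q (⊤ : IntermediateField ℚ Qb) := by
      apply Subtype.ext
      rw [coe_barToTop, Glob.coe_toBar, coe_jq2K, coe_jq2K]
    rw [e, iota3_jq2K]

/-- The `K`-level middle-cusp embedding is the restriction of `iota3Bar`. -/
theorem iota3_eq_iota3Bar (ξ : Qb) (hξ : ξ ^ q = 1) (hξ1 : ξ ≠ 1) (x : FK ((M * q) * q) K) :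
    iota3 M q K hq hqM ξ hξ hξ1 x
      = iota3Bar M q hq hqM ξ hξ hξ1 (Glob.toBar (M * q * q) K x) :=
  iota3_eq_top M q K hq hqM ξ hξ hξ1 x

/-- **(a)** `emb3 c x = famBar c (toBar x)`: the `K`-level family of conjugates is the
restriction of the `ℚ̄`-level family. -/
theorem emb3_eq_famBar (ζ : Qb) (hζ : IsPrimitiveRoot ζ q) (c : Fin q)
    (x : FK ((M * q) * q) K) :
    emb3 M q K hq hqM ζ hζ c x = famBar M q hq hqM ζ hζ c (Glob.toBar (M * q * q) K x) := by
  by_cases h : (c : ℕ) = 0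
  · rw [emb3_of_eq M q K hq hqM ζ hζ c h, famBar_of_eq M q hq hqM ζ hζ c h, Glob.coe_toBar]
  · rw [emb3_of_ne M q K hq hqM ζ hζ c h, famBar_of_ne M q hq hqM ζ hζ c h]
    exact iota3_eq_iota3Bar M q K hq hqM _ _ _ x

/-! ### (b) the intrinsic `K`-norm along `α` -/

include hq hqM in
/-- **(b)** The intrinsic norm of `F_K(M q²)` over `F_K(M q)` (inclusion, `DegTower.algTower`)
has the `q`-expansion of the `ℚ̄`-level norm along `α`
(the right-hand side is `S35.ModelFPlan.alphaNm (M * q) q (toBar x)` unfolded). -/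
theorem coe_norm_eq_coe_alphaNorm (x : FK ((M * q) * q) K) :
    ((letI := DegTower.algTower (M * q) ((M * q) * q) K (Dvd.intro q rfl);
        Algebra.norm (FK (M * q) K) x : FK (M * q) K) : LaurentSeries Qb)
      = (((letI := algebraAlong (heckeAlphaBar Qb (M * q) q);
          Algebra.norm ↥(modularFunctionFieldBar (M * q)) (Glob.toBar (M * q * q) K x)) :
          ↥(modularFunctionFieldBar (M * q))) : LaurentSeries Qb) := by
  obtain ⟨ζ, hζ⟩ := HasEnoughRootsOfUnity.exists_primitiveRoot Qb q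
  have h := NormFam.coe_norm_alpha_of_family (M * q) q hq (dvd_mul_left q M)
    (famBar M q hq hqM ζ hζ) (famBar_alpha M q hq hqM ζ hζ) (famBar_injective M q hq hqM ζ hζ)
    (Glob.toBar (M * q * q) K x)
  refine (Iota3K.coe_norm M q K hq hqM ζ hζ x).trans ?_
  refine Eq.trans ?_ h.symm
  exact Finset.prod_congr rfl (fun c _ => emb3_eq_famBar M q K hq hqM ζ hζ c x)

include hq hqM in
/-- **(b)**, `toBar` form: `toBar (N_α^K x) = N_α^{ℚ̄} (toBar x)`
(the right-hand side is `S35.ModelFPlan.alphaNm (M * q) q (toBar x)` unfolded). -/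
theorem toBar_norm_eq_alphaNorm (x : FK ((M * q) * q) K) :
    Glob.toBar (M * q) K
        (letI := DegTower.algTower (M * q) ((M * q) * q) K (Dvd.intro q rfl);
          Algebra.norm (FK (M * q) K) x)
      = (letI := algebraAlong (heckeAlphaBar Qb (M * q) q);
          Algebra.norm ↥(modularFunctionFieldBar (M * q)) (Glob.toBar (M * q * q) K x)) :=
  Subtype.ext (coe_norm_eq_coe_alphaNorm M q K hq hqM x)

/-! ### (c) the intrinsic `K`-norm along `β` -/

/-- The compatibility of the two algebra structures with the Atkin–Lehner pair: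
`α ∘ w_q = w_{q²} ∘ β`. -/
theorem incl_wK (y : FK (M * q) K) :
    DegTower.incl (M * q) ((M * q) * q) K (Dvd.intro q rfl) (WK.wK M q hq hqM K y)
      = WQ2.wK2 M q hq hqM K (WQ2.betaK2 M q hq hqM K y) := by
  rw [WQ2.wK2_betaK2]
  apply Subtype.ext
  rw [DegTower.coe_incl, WQ2.coe_alphaK2]

/-- `β ∘ w_q = w_{q²} ∘ α`. -/
theorem betaK2_wK (y : FK (M * q) K) :
    WQ2.betaK2 M q hq hqM K (WK.wK M q hq hqM K y)
      = WQ2.wK2 M q hq hqM K (DegTower.incl (M * q) ((M * q) * q) K (Dvd.intro q rfl) y) := by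
  have e : DegTower.incl (M * q) ((M * q) * q) K (Dvd.intro q rfl) y = WQ2.alphaK2 M q K y := by
    apply Subtype.ext
    rw [DegTower.coe_incl, WQ2.coe_alphaK2]
  rw [e, WQ2.wK2_alphaK2]

/-- `N_β^K x = w_q (N_α^K (w_{q²} x))` (intrinsic `K`-level norms). -/
theorem norm_beta_eq (x : FK (M * q * q) K) :
    (letI := (WQ2.betaK2 M q hq hqM K).toAlgebra; Algebra.norm (FK (M * q) K) x)
      = WK.wK M q hq hqM K
        (letI := DegTower.algTower (M * q) ((M * q) * q) K (Dvd.intro q rfl);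
          Algebra.norm (FK (M * q) K) (WQ2.wK2 M q hq hqM K x)) := by
  have h := @Algebra.norm_eq_of_equiv_equiv (FK (M * q) K) (FK (M * q * q) K) (FK (M * q) K)
    (FK (M * q * q) K) _ _ _ _ ((WQ2.betaK2 M q hq hqM K).toAlgebra)
    (DegTower.algTower (M * q) ((M * q) * q) K (Dvd.intro q rfl))
    (WK.wK M q hq hqM K) (WQ2.wK2 M q hq hqM K)
    (RingHom.ext fun y => incl_wK M q K hq hqM y) x
  rw [h, WK.wK_symm]

/-- The extension `F_K(M q²) / β F_K(M q)` is finite. -/
theorem finiteDimensional_beta :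
    letI := (WQ2.betaK2 M q hq hqM K).toAlgebra
    FiniteDimensional (FK (M * q) K) (FK (M * q * q) K) := by
  have := DegTower.finiteDimensional (M * q) ((M * q) * q) K (Dvd.intro q rfl)
  exact @Module.Finite.of_equiv_equiv (FK (M * q) K) (FK (M * q * q) K) (FK (M * q) K)
    (FK (M * q * q) K) _ _ _ _
    (DegTower.algTower (M * q) ((M * q) * q) K (Dvd.intro q rfl))
    ((WQ2.betaK2 M q hq hqM K).toAlgebra)
    (WK.wK M q hq hqM K) (WQ2.wK2 M q hq hqM K)
    (RingHom.ext fun y => betaK2_wK M q K hq hqM y) _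

include hq in
/-- `[F_K(M q²) : α F_K(M q)] = q`. -/
theorem finrank_alpha :
    letI := DegTower.algTower (M * q) ((M * q) * q) K (Dvd.intro q rfl)
    Module.finrank (FK (M * q) K) (FK ((M * q) * q) K) = q :=
  finrank_E2 M q K hq

/-- `[F_K(M q²) : β F_K(M q)] = q`. -/
theorem finrank_beta :
    letI := (WQ2.betaK2 M q hq hqM K).toAlgebra
    Module.finrank (FK (M * q) K) (FK (M * q * q) K) = q := by
  have h := @Algebra.finrank_eq_of_equiv_equiv (FK (M * q) K) (FK (M * q * q) K) _ _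
    ((WQ2.betaK2 M q hq hqM K).toAlgebra) (FK (M * q) K) (FK (M * q * q) K) _ _
    (DegTower.algTower (M * q) ((M * q) * q) K (Dvd.intro q rfl))
    (WK.wK M q hq hqM K) (WQ2.wK2 M q hq hqM K)
    (RingHom.ext fun y => incl_wK M q K hq hqM y)
  exact h.trans (finrank_E2 M q K hq)

/-- **(c)** `toBar (N_β^K x) = N_β^{ℚ̄} (toBar x)`: the intrinsic norm of `F_K(M q²)` over
`β F_K(M q)` is the descent of the `ℚ̄`-level norm along `β`
(the right-hand side is `S35.ModelFPlan.betaNm (M * q) q (toBar x)` unfolded). -/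
theorem toBar_norm_beta_eq_betaNorm (x : FK (M * q * q) K) :
    Glob.toBar (M * q) K
        (letI := (WQ2.betaK2 M q hq hqM K).toAlgebra; Algebra.norm (FK (M * q) K) x)
      = (letI := algebraAlong (heckeBetaBar Qb (M * q) q);
          Algebra.norm ↥(modularFunctionFieldBar (M * q)) (Glob.toBar (M * q * q) K x)) := by
  have h1 := norm_beta_eq M q K hq hqM x
  have h2 := toBar_norm_eq_alphaNorm M q K hq hqM (WQ2.wK2 M q hq hqM K x)
  have h3 := NormRot.norm_beta_of_pair (M * q) q (WK.wBar M q hq hqM) (WQ2.wBar2 M q hq hqM)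
    (fun y => WQ2.wBar2_beta M q hq hqM y) (Glob.toBar (M * q * q) K x)
  rw [h1, WK.toBar_wK, h2, WQ2.toBar_wK2, ← h3, WK.wBar_wBar]

/-- **(c)**, `q`-expansion form. -/
theorem coe_norm_beta_eq_coe_betaNorm (x : FK (M * q * q) K) :
    ((letI := (WQ2.betaK2 M q hq hqM K).toAlgebra;
        Algebra.norm (FK (M * q) K) x : FK (M * q) K) : LaurentSeries Qb)
      = (((letI := algebraAlong (heckeBetaBar Qb (M * q) q);
          Algebra.norm ↥(modularFunctionFieldBar (M * q)) (Glob.toBar (M * q * q) K x)) :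
          ↥(modularFunctionFieldBar (M * q))) : LaurentSeries Qb) :=
  congrArg Subtype.val (toBar_norm_beta_eq_betaNorm M q K hq hqM x)

end Fermat.Agent.S36.Emb3Bar
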