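import Mathlib

/-!
# S36, block [B1-eta], leaf E4: integral `q`-expansions of the weight-one eta quotients

OWNER: helper69 (only the owner edits this file).  `import Mathlib` only.

For `g4 w = η(2w)^10 / (η(w)^4 η(4w)^4)` and `g9 w = η(w)^3 / η(3w)` (`η = ModularForm.eta`) the
24th roots of `q` cancel and `g4 (d z)`, `g9 (d z)` are quotients of the Euler products
`etaProd k z = ∏ (1 - q^(k(n+1)))`, `q = 𝕢 1 z`.

* `eulerSeries : PowerSeries ℤ` is the Taylor series of `eulerFun x = ∏ (1 - x^(n+1))`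
  (coefficients: limits of the integer coefficients of the partial products; the iterated
  derivatives converge by `TendstoLocallyUniformlyOn.deriv`, and `ℤ` is closed in `ℂ`).
* `IntQ f Φ`: `f = F ∘ 𝕢` with `F` holomorphic and nowhere zero on the unit disc (`DiscUnit f`),
  `constantCoeff Φ = 1` and `qExpansion 1 f = Φ.map (Int.castRingHom ℂ)`.  Closed under `*`, `⁻¹`,
  `/`, `^`; gives `ne_zero`, `periodic`, `mdiff`, `analyticAt`, `isBoundedAtImInfty` (of `f`,
  `f⁻¹`, `1 / f`), `tendsto_one`, `hasSum`, `qExpansion_div_mul`.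
* `intQ_g4 hd hf : IntQ f (PowerSeries.expand d hd phi4)` whenever `∀ z, f z = g4 (d * z)`;
  `intQ_g9` likewise; explicit bodies: `intQ_G4`, `intQ_G9`, `exists_qExpansion_G4`, ...
-/

set_option autoImplicit false

namespace Fermat.Agent.S36.EtaQInt

open UpperHalfPlane ModularForm Complex Function Filter Topology
open scoped Real Manifold

local notation "𝕢" => Function.Periodic.qParam

/-! ### Functions of `q` on the upper half plane -/

/-- If `f τ = F (𝕢 1 τ)` with `F` continuous at `0`, the cusp function of `f` is `F` on the unit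
disc. -/
theorem cuspFunction_eqOn_of_eq {f : ℍ → ℂ} {F : ℂ → ℂ} (hF : ContinuousAt F 0)
    (hf : ∀ τ : ℍ, f τ = F (𝕢 1 τ)) : Set.EqOn (cuspFunction 1 f) F (Metric.ball 0 1) := by
  have key : ∀ q : ℂ, q ≠ 0 → ‖q‖ < 1 → cuspFunction 1 f q = F q := by
    intro q hq0 hq
    have him := Function.Periodic.im_invQParam_pos_of_norm_lt_one one_pos hq hq0
    rw [cuspFunction, Function.Periodic.cuspFunction_eq_of_nonzero 1 _ hq0, comp_apply,
      ofComplex_apply_of_im_pos him, hf]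
    congr 1
    exact Function.Periodic.qParam_right_inv one_ne_zero hq0
  intro q hq
  by_cases hq0 : q = 0
  · subst hq0
    rw [cuspFunction, Function.Periodic.cuspFunction_zero_eq_limUnder_nhds_ne]
    refine Tendsto.limUnder_eq ?_
    have h1 : Tendsto F (𝓝[≠] 0) (𝓝 (F 0)) := hF.tendsto.mono_left nhdsWithin_le_nhds
    refine h1.congr' ?_
    have h2 : ∀ᶠ q in 𝓝[≠] (0 : ℂ), q ∈ Metric.ball (0 : ℂ) 1 :=
      nhdsWithin_le_nhds (Metric.ball_mem_nhds 0 one_pos)
    filter_upwards [h2, self_mem_nhdsWithin] with q hq hq0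
    exact (key q hq0 (by simpa using hq)).symm
  · exact key q hq0 (by simpa using hq)

theorem cuspFunction_eventuallyEq_of_eq {f : ℍ → ℂ} {F : ℂ → ℂ} (hF : ContinuousAt F 0)
    (hf : ∀ τ : ℍ, f τ = F (𝕢 1 τ)) : cuspFunction 1 f =ᶠ[𝓝 0] F := by
  filter_upwards [Metric.ball_mem_nhds (0 : ℂ) one_pos] with q hq
  exact cuspFunction_eqOn_of_eq hF hf hq

theorem continuousAt_zero_of_differentiableOn {F : ℂ → ℂ}
    (hF : DifferentiableOn ℂ F (Metric.ball 0 1)) : ContinuousAt F 0 :=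
  (hF.differentiableAt (Metric.ball_mem_nhds 0 one_pos)).continuousAt

theorem analyticAt_cuspFunction_of_eq {f : ℍ → ℂ} {F : ℂ → ℂ}
    (hF : DifferentiableOn ℂ F (Metric.ball 0 1)) (hf : ∀ τ : ℍ, f τ = F (𝕢 1 τ)) :
    AnalyticAt ℂ (cuspFunction 1 f) 0 := by
  have h1 : AnalyticAt ℂ F 0 := hF.analyticAt (Metric.ball_mem_nhds 0 one_pos)
  exact h1.congr (cuspFunction_eventuallyEq_of_eq (continuousAt_zero_of_differentiableOn hF) hf).symm

theorem qExpansion_coeff_of_eq {f : ℍ → ℂ} {F : ℂ → ℂ} (hF : ContinuousAt F 0)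
    (hf : ∀ τ : ℍ, f τ = F (𝕢 1 τ)) (m : ℕ) :
    (qExpansion 1 f).coeff m = (m.factorial : ℂ)⁻¹ * iteratedDeriv m F 0 := by
  rw [qExpansion_coeff, (cuspFunction_eventuallyEq_of_eq hF hf).iteratedDeriv_eq m]

theorem periodic_of_eq {f : ℍ → ℂ} {F : ℂ → ℂ} (hf : ∀ τ : ℍ, f τ = F (𝕢 1 τ)) :
    Periodic (f ∘ ofComplex) ((1 : ℝ) : ℂ) := by
  intro w
  by_cases hw : 0 < im w
  · have hw1 : 0 < im (w + ((1 : ℝ) : ℂ)) := by simpa using hw
    simp only [comp_apply]
    rw [ofComplex_apply_of_im_pos hw1, ofComplex_apply_of_im_pos hw, hf, hf]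
    congr 1
    show 𝕢 1 (w + ((1 : ℝ) : ℂ)) = 𝕢 1 w
    simp only [Function.Periodic.qParam]
    have e : 2 * (π : ℂ) * Complex.I * (w + ((1 : ℝ) : ℂ)) / ((1 : ℝ) : ℂ)
        = 2 * π * Complex.I * w / ((1 : ℝ) : ℂ) + 2 * π * Complex.I := by
      push_cast; ring
    rw [e, Complex.exp_add, Complex.exp_two_pi_mul_I, mul_one]
  · have hw' : im w ≤ 0 := not_lt.mp hw
    have hw1 : im (w + ((1 : ℝ) : ℂ)) ≤ 0 := by simpa using hw'
    simp only [comp_apply]
    rw [ofComplex_apply_of_im_nonpos hw1, ofComplex_apply_of_im_nonpos hw']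

theorem tendsto_of_eq {f : ℍ → ℂ} {F : ℂ → ℂ} (hF : ContinuousAt F 0)
    (hf : ∀ τ : ℍ, f τ = F (𝕢 1 τ)) : Tendsto f atImInfty (𝓝 (F 0)) := by
  have h1 : Tendsto (fun τ : ℍ => F (𝕢 1 τ)) atImInfty (𝓝 (F 0)) :=
    hF.tendsto.comp (qParam_tendsto_atImInfty one_pos)
  exact h1.congr fun τ => (hf τ).symm

theorem isBoundedAtImInfty_of_eq {f : ℍ → ℂ} {F : ℂ → ℂ} (hF : ContinuousAt F 0)
    (hf : ∀ τ : ℍ, f τ = F (𝕢 1 τ)) : IsBoundedAtImInfty f :=
  (tendsto_of_eq hF hf).isBigO_one ℝ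

/-! ### Taylor coefficients of locally uniform limits -/

theorem tendstoLocallyUniformlyOn_iteratedDeriv {ι : Type*} {φ : Filter ι} {U : Set ℂ}
    (hU : IsOpen U) {F : ι → ℂ → ℂ} {f : ℂ → ℂ} (hf : TendstoLocallyUniformlyOn F f φ U)
    (hF : ∀ i, DifferentiableOn ℂ (F i) U) (m : ℕ) :
    TendstoLocallyUniformlyOn (fun i => iteratedDeriv m (F i)) (iteratedDeriv m f) φ U := by
  induction m with
  | zero => simpa [iteratedDeriv_zero] using hf
  | succ m ih =>
    have hd : ∀ i, DifferentiableOn ℂ (iteratedDeriv m (F i)) U := by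
      intro i
      have h1 := ((hF i).analyticOnNhd hU).iterated_deriv m
      rw [← iteratedDeriv_eq_iterate] at h1
      exact h1.differentiableOn
    have h2 := ih.deriv (Eventually.of_forall hd) hU
    simpa [Function.comp_def, iteratedDeriv_succ] using h2

theorem iteratedDeriv_aeval (p : Polynomial ℤ) (m : ℕ) :
    iteratedDeriv m (fun x : ℂ => Polynomial.aeval x p)
      = fun x : ℂ => Polynomial.aeval x (Polynomial.derivative^[m] p) := by
  induction m with
  | zero => simp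
  | succ m ih =>
    rw [iteratedDeriv_succ, ih]
    funext x
    rw [Polynomial.deriv_aeval, Function.iterate_succ_apply']

theorem taylorCoeff_aeval (p : Polynomial ℤ) (m : ℕ) :
    (m.factorial : ℂ)⁻¹ * iteratedDeriv m (fun x : ℂ => Polynomial.aeval x p) 0
      = (p.coeff m : ℂ) := by
  rw [iteratedDeriv_aeval]
  have h := Polynomial.coeff_zero_eq_aeval_zero' (A := ℂ) (Polynomial.derivative^[m] p)
  show (m.factorial : ℂ)⁻¹ * Polynomial.aeval (0 : ℂ) (Polynomial.derivative^[m] p) = _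
  rw [← h, Polynomial.coeff_iterate_derivative, zero_add, Nat.descFactorial_self]
  have hm : (m.factorial : ℂ) ≠ 0 := by exact_mod_cast Nat.factorial_ne_zero m
  simp only [nsmul_eq_mul, eq_intCast, Int.cast_mul, Int.cast_natCast]
  field_simp

/-- The Taylor coefficients at `0` of a locally uniform limit (on the unit disc) of polynomial
functions are the limits of the coefficients. -/
theorem tendsto_coeff_of_tendstoLocallyUniformlyOn {ι : Type*} {φ : Filter ι}
    {p : ι → Polynomial ℤ} {f : ℂ → ℂ}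
    (hf : TendstoLocallyUniformlyOn (fun i (x : ℂ) => Polynomial.aeval x (p i)) f φ
      (Metric.ball 0 1)) (m : ℕ) :
    Tendsto (fun i => (((p i).coeff m : ℤ) : ℂ)) φ
      (𝓝 ((m.factorial : ℂ)⁻¹ * iteratedDeriv m f 0)) := by
  have h1 := tendstoLocallyUniformlyOn_iteratedDeriv Metric.isOpen_ball hf
    (fun i => (Polynomial.differentiable_aeval (p i)).differentiableOn) m
  have h2 := (h1.tendsto_at (Metric.mem_ball_self one_pos)).const_mul ((m.factorial : ℂ)⁻¹)
  refine h2.congr fun i => ?_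
  exact taylorCoeff_aeval (p i) m

/-! ### Euler's product -/

/-- The partial Euler products, as integer polynomials. -/
noncomputable def eulerPoly (s : Finset ℕ) : Polynomial ℤ :=
  ∏ n ∈ s, (1 - Polynomial.X ^ (n + 1))

theorem aeval_eulerPoly (s : Finset ℕ) (x : ℂ) :
    Polynomial.aeval x (eulerPoly s) = ∏ n ∈ s, (1 - x ^ (n + 1)) := by
  simp [eulerPoly, map_prod]

/-- Euler's function `∏ (1 - x^(n+1))`. -/
noncomputable def eulerFun (x : ℂ) : ℂ := ∏' n : ℕ, (1 - x ^ (n + 1))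

theorem differentiableOn_eulerFun : DifferentiableOn ℂ eulerFun (Metric.ball 0 1) :=
  differentiableOn_tprod_one_sub_pow

theorem eulerFun_zero : eulerFun 0 = 1 := by
  simp [eulerFun]

theorem eulerFun_ne_zero {x : ℂ} (hx : ‖x‖ < 1) : eulerFun x ≠ 0 := by
  unfold eulerFun
  simp_rw [sub_eq_add_neg]
  refine tprod_one_add_ne_zero_of_summable (f := fun n : ℕ => -x ^ (n + 1)) ?_ ?_
  · intro n h
    have h1 : x ^ (n + 1) = 1 := by
      have := congrArg (fun t => t + x ^ (n + 1)) h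
      simpa using this.symm
    have h2 : ‖x‖ ^ (n + 1) = 1 := by rw [← norm_pow, h1, norm_one]
    have h3 : ‖x‖ ^ (n + 1) < 1 := pow_lt_one₀ (norm_nonneg x) hx (Nat.succ_ne_zero n)
    linarith
  · simpa using (summable_nat_add_iff 1).mpr (summable_geometric_of_lt_one (norm_nonneg x) hx)

theorem tendsto_aeval_eulerPoly :
    TendstoLocallyUniformlyOn (fun (s : Finset ℕ) (x : ℂ) => Polynomial.aeval x (eulerPoly s))
      eulerFun atTop (Metric.ball 0 1) := by
  have h := multipliableLocallyUniformlyOn_one_sub_pow.hasProdLocallyUniformlyOn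
  rw [hasProdLocallyUniformlyOn_iff_tendstoLocallyUniformlyOn] at h
  have e : (fun (s : Finset ℕ) (x : ℂ) => Polynomial.aeval x (eulerPoly s))
      = fun (s : Finset ℕ) (x : ℂ) => ∏ n ∈ s, (1 - x ^ (n + 1)) := by
    funext s x
    exact aeval_eulerPoly s x
  rw [e]
  exact h

theorem mapsTo_pow_ball {d : ℕ} (hd : d ≠ 0) :
    Set.MapsTo (fun x : ℂ => x ^ d) (Metric.ball 0 1) (Metric.ball 0 1) := by
  intro x hx
  have hx' : ‖x‖ < 1 := by simpa using hx
  simpa using pow_lt_one₀ (norm_nonneg x) hx' hd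

theorem tendsto_aeval_expand_eulerPoly {d : ℕ} (hd : d ≠ 0) :
    TendstoLocallyUniformlyOn
      (fun (s : Finset ℕ) (x : ℂ) => Polynomial.aeval x (Polynomial.expand ℤ d (eulerPoly s)))
      (fun x => eulerFun (x ^ d)) atTop (Metric.ball 0 1) := by
  have h := tendsto_aeval_eulerPoly.comp (fun x : ℂ => x ^ d) (mapsTo_pow_ball hd)
    (continuous_pow d).continuousOn
  have e : (fun (s : Finset ℕ) (x : ℂ) => Polynomial.aeval x (Polynomial.expand ℤ d (eulerPoly s)))
      = fun (s : Finset ℕ) => (fun x : ℂ => Polynomial.aeval x (eulerPoly s)) ∘ fun x : ℂ => x ^ d := by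
    funext s x
    simp [Polynomial.expand_aeval]
  rw [e]
  exact h

theorem exists_int_taylorCoeff_eulerFun (m : ℕ) :
    ∃ c : ℤ, (c : ℂ) = (m.factorial : ℂ)⁻¹ * iteratedDeriv m eulerFun 0 := by
  have h := tendsto_coeff_of_tendstoLocallyUniformlyOn tendsto_aeval_eulerPoly m
  have h2 := Complex.isClosed_range_intCast.mem_of_tendsto h
    (Eventually.of_forall fun s => Set.mem_range_self _)
  exact h2

/-- The Taylor series of Euler's function, an integer power series. -/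
noncomputable def eulerSeries : PowerSeries ℤ :=
  PowerSeries.mk fun m => Classical.choose (exists_int_taylorCoeff_eulerFun m)

theorem coeff_eulerSeries (m : ℕ) :
    ((eulerSeries.coeff m : ℤ) : ℂ) = (m.factorial : ℂ)⁻¹ * iteratedDeriv m eulerFun 0 := by
  rw [eulerSeries, PowerSeries.coeff_mk]
  exact Classical.choose_spec (exists_int_taylorCoeff_eulerFun m)

theorem tendsto_coeff_eulerPoly (m : ℕ) :
    Tendsto (fun s : Finset ℕ => (((eulerPoly s).coeff m : ℤ) : ℂ)) atTop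
      (𝓝 ((eulerSeries.coeff m : ℤ) : ℂ)) := by
  rw [coeff_eulerSeries]
  exact tendsto_coeff_of_tendstoLocallyUniformlyOn tendsto_aeval_eulerPoly m

theorem constantCoeff_eulerSeries : PowerSeries.constantCoeff eulerSeries = 1 := by
  have h := coeff_eulerSeries 0
  simp only [Nat.factorial_zero, Nat.cast_one, inv_one, iteratedDeriv_zero, one_mul,
    eulerFun_zero] at h
  rw [← PowerSeries.coeff_zero_eq_constantCoeff_apply]
  exact_mod_cast h

/-- The Taylor coefficients of `x ↦ eulerFun (x ^ d)`. -/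
theorem taylorCoeff_eulerFun_pow {d : ℕ} (hd : d ≠ 0) (m : ℕ) :
    (m.factorial : ℂ)⁻¹ * iteratedDeriv m (fun x => eulerFun (x ^ d)) 0
      = (((PowerSeries.expand d hd eulerSeries).coeff m : ℤ) : ℂ) := by
  have h := tendsto_coeff_of_tendstoLocallyUniformlyOn (tendsto_aeval_expand_eulerPoly hd) m
  refine tendsto_nhds_unique h ?_
  rw [PowerSeries.coeff_expand]
  simp only [Polynomial.coeff_expand (Nat.pos_of_ne_zero hd)]
  by_cases hdm : d ∣ m
  · simp only [if_pos hdm]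
    exact tendsto_coeff_eulerPoly (m / d)
  · simp only [if_neg hdm, Int.cast_zero]
    exact tendsto_const_nhds

/-! ### Units of the disc -/

/-- `f = F ∘ 𝕢` for a nowhere vanishing holomorphic function `F` on the unit disc. -/
def DiscUnit (f : ℍ → ℂ) : Prop :=
  ∃ F : ℂ → ℂ, DifferentiableOn ℂ F (Metric.ball 0 1) ∧
    (∀ q ∈ Metric.ball (0 : ℂ) 1, F q ≠ 0) ∧ ∀ τ : ℍ, f τ = F (𝕢 1 τ)

theorem qParam_mem_ball (τ : ℍ) : 𝕢 1 (τ : ℂ) ∈ Metric.ball (0 : ℂ) 1 := by
  simpa using Function.Periodic.norm_qParam_lt_one one_pos τ.im_pos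

namespace DiscUnit

variable {f g : ℍ → ℂ}

theorem ne_zero (hf : DiscUnit f) (z : ℍ) : f z ≠ 0 := by
  obtain ⟨F, -, hF0, hfF⟩ := hf
  rw [hfF]
  exact hF0 _ (qParam_mem_ball z)

theorem periodic (hf : DiscUnit f) : Periodic (f ∘ ofComplex) ((1 : ℝ) : ℂ) := by
  obtain ⟨F, -, -, hfF⟩ := hf
  exact periodic_of_eq hfF

theorem analyticAt (hf : DiscUnit f) : AnalyticAt ℂ (cuspFunction 1 f) 0 := by
  obtain ⟨F, hF, -, hfF⟩ := hf
  exact analyticAt_cuspFunction_of_eq hF hfF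

theorem isBoundedAtImInfty (hf : DiscUnit f) : IsBoundedAtImInfty f := by
  obtain ⟨F, hF, -, hfF⟩ := hf
  exact isBoundedAtImInfty_of_eq (continuousAt_zero_of_differentiableOn hF) hfF

theorem tendsto_cuspFunction_zero (hf : DiscUnit f) :
    Tendsto f atImInfty (𝓝 (cuspFunction 1 f 0)) := by
  obtain ⟨F, hF, -, hfF⟩ := hf
  have hc := continuousAt_zero_of_differentiableOn hF
  rw [cuspFunction_eqOn_of_eq hc hfF (Metric.mem_ball_self one_pos)]
  exact tendsto_of_eq hc hfF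

theorem mdiff (hf : DiscUnit f) : MDiff f := by
  obtain ⟨F, hF, -, hfF⟩ := hf
  rw [UpperHalfPlane.mdifferentiable_iff]
  have h1 : DifferentiableOn ℂ (F ∘ 𝕢 1) {z : ℂ | 0 < z.im} := by
    intro z hz
    have hq : 𝕢 1 z ∈ Metric.ball (0 : ℂ) 1 := by
      simpa using Function.Periodic.norm_qParam_lt_one one_pos hz
    exact ((hF.differentiableAt (Metric.isOpen_ball.mem_nhds hq)).comp z
      (Function.Periodic.differentiable_qParam z)).differentiableWithinAt
  refine h1.congr fun z hz => ?_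
  have hz' : 0 < z.im := hz
  simp only [comp_apply]
  rw [ofComplex_apply_of_im_pos hz', hfF]

theorem one : DiscUnit (1 : ℍ → ℂ) :=
  ⟨1, differentiableOn_const _, fun _ _ => one_ne_zero, fun _ => rfl⟩

theorem mul (hf : DiscUnit f) (hg : DiscUnit g) : DiscUnit (f * g) := by
  obtain ⟨F, hF, hF0, hfF⟩ := hf
  obtain ⟨G, hG, hG0, hgG⟩ := hg
  exact ⟨F * G, hF.mul hG, fun q hq => mul_ne_zero (hF0 q hq) (hG0 q hq),
    fun τ => by simp [hfF, hgG]⟩

theorem inv (hf : DiscUnit f) : DiscUnit f⁻¹ := by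
  obtain ⟨F, hF, hF0, hfF⟩ := hf
  exact ⟨F⁻¹, hF.inv hF0, fun q hq => inv_ne_zero (hF0 q hq), fun τ => by simp [hfF]⟩

theorem div (hf : DiscUnit f) (hg : DiscUnit g) : DiscUnit (f / g) := by
  rw [div_eq_mul_inv]
  exact hf.mul hg.inv

theorem pow (hf : DiscUnit f) (n : ℕ) : DiscUnit (f ^ n) := by
  obtain ⟨F, hF, hF0, hfF⟩ := hf
  exact ⟨F ^ n, hF.pow n, fun q hq => pow_ne_zero n (hF0 q hq), fun τ => by simp [hfF]⟩

end DiscUnit

/-! ### Units of the disc with `q`-expansion in `1 + Xℤ⟦X⟧` -/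

/-- `f` is a unit of the disc whose `q`-expansion is the integer power series `Φ ∈ 1 + Xℤ⟦X⟧`. -/
structure IntQ (f : ℍ → ℂ) (Φ : PowerSeries ℤ) : Prop where
  disc : DiscUnit f
  const : PowerSeries.constantCoeff Φ = 1
  qexp : qExpansion 1 f = Φ.map (Int.castRingHom ℂ)

namespace IntQ

variable {f g : ℍ → ℂ} {Φ Ψ : PowerSeries ℤ}

theorem one : IntQ 1 1 :=
  ⟨DiscUnit.one, by simp, by simp [qExpansion_one]⟩

theorem mul (hf : IntQ f Φ) (hg : IntQ g Ψ) : IntQ (f * g) (Φ * Ψ) :=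
  ⟨hf.disc.mul hg.disc, by simp [hf.const, hg.const], by
    rw [qExpansion_mul hf.disc.analyticAt hg.disc.analyticAt, hf.qexp, hg.qexp, map_mul]⟩

theorem pow (hf : IntQ f Φ) (n : ℕ) : IntQ (f ^ n) (Φ ^ n) := by
  induction n with
  | zero => simpa using one
  | succ n ih => simpa [pow_succ] using ih.mul hf

theorem inv (hf : IntQ f Φ) : IntQ f⁻¹ (PowerSeries.invOfUnit Φ 1) := by
  refine ⟨hf.disc.inv, by simp [PowerSeries.constantCoeff_invOfUnit], ?_⟩
  have h1 : f⁻¹ * f = 1 := by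
    funext z
    simp [hf.disc.ne_zero z]
  have h2 : qExpansion 1 f⁻¹ * qExpansion 1 f = 1 := by
    rw [← qExpansion_mul hf.disc.inv.analyticAt hf.disc.analyticAt, h1, qExpansion_one]
  have h3 : Φ * PowerSeries.invOfUnit Φ 1 = 1 :=
    PowerSeries.mul_invOfUnit Φ 1 (by simpa using hf.const)
  have h4 : qExpansion 1 f * (PowerSeries.invOfUnit Φ 1).map (Int.castRingHom ℂ) = 1 := by
    rw [hf.qexp, ← map_mul, h3, map_one]
  calc qExpansion 1 f⁻¹
      = qExpansion 1 f⁻¹ * (qExpansion 1 f * (PowerSeries.invOfUnit Φ 1).map (Int.castRingHom ℂ)) := by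
        rw [h4, mul_one]
    _ = (PowerSeries.invOfUnit Φ 1).map (Int.castRingHom ℂ) := by
        rw [← mul_assoc, h2, one_mul]

theorem div (hf : IntQ f Φ) (hg : IntQ g Ψ) : IntQ (f / g) (Φ * PowerSeries.invOfUnit Ψ 1) := by
  rw [div_eq_mul_inv]
  exact hf.mul hg.inv

theorem congr (hf : IntQ f Φ) (h : ∀ z, g z = f z) : IntQ g Φ := by
  have e : g = f := funext h
  rw [e]
  exact hf

theorem exists_int (hf : IntQ f Φ) : ∃ Φ' : PowerSeries ℤ,
    PowerSeries.constantCoeff Φ' = 1 ∧ qExpansion 1 f = Φ'.map (Int.castRingHom ℂ) :=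
  ⟨Φ, hf.const, hf.qexp⟩

theorem cuspFunction_zero (hf : IntQ f Φ) : cuspFunction 1 f 0 = 1 := by
  have h := congrArg (PowerSeries.coeff 0) hf.qexp
  rw [qExpansion_coeff, PowerSeries.coeff_map, PowerSeries.coeff_zero_eq_constantCoeff_apply,
    hf.const] at h
  simpa using h

theorem tendsto_one (hf : IntQ f Φ) : Tendsto f atImInfty (𝓝 1) := by
  have h := hf.disc.tendsto_cuspFunction_zero
  rwa [hf.cuspFunction_zero] at h

/-- The quotient identity for `q`-expansions. -/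
theorem qExpansion_div_mul (hf : IntQ f Φ) (hg : IntQ g Ψ) :
    qExpansion 1 (f / g) * qExpansion 1 g = qExpansion 1 f := by
  have h1 : f / g * g = f := by
    funext z
    simp [hg.disc.ne_zero z]
  rw [← qExpansion_mul (hf.disc.div hg.disc).analyticAt hg.disc.analyticAt, h1]

theorem inv' (hf : IntQ f Φ) : IntQ (fun z => (f z)⁻¹) (PowerSeries.invOfUnit Φ 1) :=
  hf.inv.congr fun _ => rfl

theorem one_div (hf : IntQ f Φ) : IntQ (fun z => 1 / f z) (PowerSeries.invOfUnit Φ 1) :=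
  hf.inv.congr fun z => by simp

theorem div' (hf : IntQ f Φ) (hg : IntQ g Ψ) :
    IntQ (fun z => f z / g z) (Φ * PowerSeries.invOfUnit Ψ 1) :=
  (hf.div hg).congr fun _ => rfl

theorem isBoundedAtImInfty (hf : IntQ f Φ) : IsBoundedAtImInfty f :=
  hf.disc.isBoundedAtImInfty

theorem isBoundedAtImInfty_inv (hf : IntQ f Φ) : IsBoundedAtImInfty f⁻¹ :=
  hf.inv.disc.isBoundedAtImInfty

theorem isBoundedAtImInfty_one_div (hf : IntQ f Φ) : IsBoundedAtImInfty (fun z => 1 / f z) :=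
  hf.one_div.disc.isBoundedAtImInfty

/-- The `q`-expansion converges to `f` on all of `ℍ`. -/
theorem hasSum (hf : IntQ f Φ) (τ : ℍ) :
    HasSum (fun m : ℕ => ((Φ.coeff m : ℤ) : ℂ) * 𝕢 1 τ ^ m) (f τ) := by
  have h := hasSum_qExpansion one_pos hf.disc.periodic hf.disc.mdiff hf.disc.isBoundedAtImInfty τ
  simpa [hf.qexp] using h

end IntQ

/-! ### The eta products -/

/-- The product factor of `η (d z)`. -/
noncomputable def etaProd (d : ℕ) (z : ℍ) : ℂ := ∏' n : ℕ, (1 - eta_q n ((d : ℂ) * z))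

theorem qParam_nat_mul (d : ℕ) (w : ℂ) : 𝕢 1 ((d : ℂ) * w) = 𝕢 1 w ^ d := by
  simp only [Function.Periodic.qParam]
  rw [← Complex.exp_nat_mul]
  congr 1
  push_cast
  ring

theorem etaProd_eq (d : ℕ) (z : ℍ) : etaProd d z = eulerFun (𝕢 1 z ^ d) := by
  simp only [etaProd, eulerFun, eta_q, qParam_nat_mul]

theorem eta_nat_mul (d : ℕ) (z : ℍ) :
    η ((d : ℂ) * z) = 𝕢 24 ((d : ℂ) * z) * etaProd d z := rfl

theorem intQ_etaProd {d : ℕ} (hd : d ≠ 0) :
    IntQ (etaProd d) (PowerSeries.expand d hd eulerSeries) := by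
  have hF : DifferentiableOn ℂ (fun x : ℂ => eulerFun (x ^ d)) (Metric.ball 0 1) :=
    differentiableOn_eulerFun.comp (differentiable_pow d).differentiableOn (mapsTo_pow_ball hd)
  have hrep : ∀ τ : ℍ, etaProd d τ = (fun x : ℂ => eulerFun (x ^ d)) (𝕢 1 τ) :=
    fun τ => etaProd_eq d τ
  refine ⟨⟨_, hF, ?_, hrep⟩, ?_, ?_⟩
  · intro q hq
    exact eulerFun_ne_zero (by simpa using mapsTo_pow_ball hd hq)
  · rw [PowerSeries.constantCoeff_expand, constantCoeff_eulerSeries]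
  · ext m
    rw [qExpansion_coeff_of_eq (continuousAt_zero_of_differentiableOn hF) hrep,
      PowerSeries.coeff_map, taylorCoeff_eulerFun_pow hd]
    simp

/-! ### The eta quotients `G4` and `G9` -/

/-- `η(2w)^10 / (η(w)^4 η(4w)^4)`. -/
noncomputable def g4 (w : ℂ) : ℂ := η (2 * w) ^ 10 / (η w ^ 4 * η (4 * w) ^ 4)

/-- `η(w)^3 / η(3w)`. -/
noncomputable def g9 (w : ℂ) : ℂ := η w ^ 3 / η (3 * w)

theorem g4_nat_mul (d : ℕ) (z : ℍ) :
    g4 ((d : ℂ) * z)
      = etaProd (d * 2) z ^ 10 / (etaProd d z ^ 4 * etaProd (d * 4) z ^ 4) := by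
  have e2 : (2 : ℂ) * ((d : ℂ) * z) = ((d * 2 : ℕ) : ℂ) * z := by push_cast; ring
  have e4 : (4 : ℂ) * ((d : ℂ) * z) = ((d * 4 : ℕ) : ℂ) * z := by push_cast; ring
  unfold g4
  rw [e2, e4, eta_nat_mul, eta_nat_mul, eta_nat_mul]
  have hq : 𝕢 24 (((d * 2 : ℕ) : ℂ) * z) ^ 10
      = 𝕢 24 ((d : ℂ) * z) ^ 4 * 𝕢 24 (((d * 4 : ℕ) : ℂ) * z) ^ 4 := by
    simp only [Function.Periodic.qParam]
    rw [← Complex.exp_nat_mul, ← Complex.exp_nat_mul, ← Complex.exp_nat_mul, ← Complex.exp_add]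
    congr 1
    push_cast
    ring
  have h0 : 𝕢 24 ((d : ℂ) * z) ^ 4 * 𝕢 24 (((d * 4 : ℕ) : ℂ) * z) ^ 4 ≠ 0 :=
    mul_ne_zero (pow_ne_zero _ (Function.Periodic.qParam_ne_zero _))
      (pow_ne_zero _ (Function.Periodic.qParam_ne_zero _))
  rw [mul_pow, mul_pow, mul_pow, hq,
    show ∀ a b c e : ℂ, a * c * (b * e) = a * b * (c * e) from fun a b c e => by ring,
    mul_div_mul_left _ _ h0]

theorem g9_nat_mul (d : ℕ) (z : ℍ) :
    g9 ((d : ℂ) * z) = etaProd d z ^ 3 / etaProd (d * 3) z := by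
  have e3 : (3 : ℂ) * ((d : ℂ) * z) = ((d * 3 : ℕ) : ℂ) * z := by push_cast; ring
  unfold g9
  rw [e3, eta_nat_mul, eta_nat_mul]
  have hq : 𝕢 24 ((d : ℂ) * z) ^ 3 = 𝕢 24 (((d * 3 : ℕ) : ℂ) * z) := by
    simp only [Function.Periodic.qParam]
    rw [← Complex.exp_nat_mul]
    congr 1
    push_cast
    ring
  have h0 : 𝕢 24 (((d * 3 : ℕ) : ℂ) * z) ≠ 0 := Function.Periodic.qParam_ne_zero _
  rw [mul_pow, hq, mul_div_mul_left _ _ h0]

/-- The `q`-expansion of `G4`, an integer power series with constant coefficient `1`. -/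
noncomputable def phi4 : PowerSeries ℤ :=
  PowerSeries.expand 2 two_ne_zero eulerSeries ^ 10 *
    PowerSeries.invOfUnit
      (eulerSeries ^ 4 * PowerSeries.expand 4 four_ne_zero eulerSeries ^ 4) 1

/-- The `q`-expansion of `G9`, an integer power series with constant coefficient `1`. -/
noncomputable def phi9 : PowerSeries ℤ :=
  eulerSeries ^ 3 * PowerSeries.invOfUnit (PowerSeries.expand 3 three_ne_zero eulerSeries) 1

theorem constantCoeff_phi4 : PowerSeries.constantCoeff phi4 = 1 := by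
  simp [phi4, constantCoeff_eulerSeries, PowerSeries.constantCoeff_invOfUnit]

theorem constantCoeff_phi9 : PowerSeries.constantCoeff phi9 = 1 := by
  simp [phi9, constantCoeff_eulerSeries, PowerSeries.constantCoeff_invOfUnit]

theorem expand_invOfUnit {d : ℕ} (hd : d ≠ 0) (x : PowerSeries ℤ)
    (hx : PowerSeries.constantCoeff x = 1) :
    PowerSeries.expand d hd (PowerSeries.invOfUnit x 1)
      = PowerSeries.invOfUnit (PowerSeries.expand d hd x) 1 := by
  have h1 : x * PowerSeries.invOfUnit x 1 = 1 :=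
    PowerSeries.mul_invOfUnit x 1 (by simpa using hx)
  have h2 : PowerSeries.expand d hd x * PowerSeries.expand d hd (PowerSeries.invOfUnit x 1)
      = 1 := by
    rw [← map_mul, h1, map_one]
  have h3 : PowerSeries.expand d hd x * PowerSeries.invOfUnit (PowerSeries.expand d hd x) 1
      = 1 :=
    PowerSeries.mul_invOfUnit _ 1 (by simpa using hx)
  calc PowerSeries.expand d hd (PowerSeries.invOfUnit x 1)
      = PowerSeries.expand d hd (PowerSeries.invOfUnit x 1) *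
          (PowerSeries.expand d hd x * PowerSeries.invOfUnit (PowerSeries.expand d hd x) 1) := by
        rw [h3, mul_one]
    _ = (PowerSeries.expand d hd x * PowerSeries.expand d hd (PowerSeries.invOfUnit x 1)) *
          PowerSeries.invOfUnit (PowerSeries.expand d hd x) 1 := by ring
    _ = PowerSeries.invOfUnit (PowerSeries.expand d hd x) 1 := by rw [h2, one_mul]

theorem expand_phi4 {d : ℕ} (hd : d ≠ 0) :
    PowerSeries.expand d hd phi4
      = PowerSeries.expand (d * 2) (Nat.mul_ne_zero hd two_ne_zero) eulerSeries ^ 10 *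
          PowerSeries.invOfUnit (PowerSeries.expand d hd eulerSeries ^ 4 *
            PowerSeries.expand (d * 4) (Nat.mul_ne_zero hd four_ne_zero) eulerSeries ^ 4) 1 := by
  unfold phi4
  rw [map_mul, map_pow, expand_invOfUnit hd _ (by simp [constantCoeff_eulerSeries]), map_mul,
    map_pow, map_pow, ← PowerSeries.expand_mul, ← PowerSeries.expand_mul]

theorem expand_phi9 {d : ℕ} (hd : d ≠ 0) :
    PowerSeries.expand d hd phi9
      = PowerSeries.expand d hd eulerSeries ^ 3 *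
          PowerSeries.invOfUnit
            (PowerSeries.expand (d * 3) (Nat.mul_ne_zero hd three_ne_zero) eulerSeries) 1 := by
  unfold phi9
  rw [map_mul, map_pow, expand_invOfUnit hd _ (by simp [constantCoeff_eulerSeries]),
    ← PowerSeries.expand_mul]

/-- **`G4 (d z)` has `q`-expansion `phi4 (X^d)`**, for any function `f` with the pointwise
formula `f z = g4 (d z)`. -/
theorem intQ_g4 {d : ℕ} (hd : d ≠ 0) {f : ℍ → ℂ} (hf : ∀ z : ℍ, f z = g4 ((d : ℂ) * z)) :
    IntQ f (PowerSeries.expand d hd phi4) := by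
  rw [expand_phi4 hd]
  have h := ((intQ_etaProd (Nat.mul_ne_zero hd two_ne_zero)).pow 10).div
    (((intQ_etaProd hd).pow 4).mul ((intQ_etaProd (Nat.mul_ne_zero hd four_ne_zero)).pow 4))
  refine h.congr fun z => ?_
  rw [hf, g4_nat_mul]
  rfl

/-- **`G9 (d z)` has `q`-expansion `phi9 (X^d)`**, for any function `f` with the pointwise
formula `f z = g9 (d z)`. -/
theorem intQ_g9 {d : ℕ} (hd : d ≠ 0) {f : ℍ → ℂ} (hf : ∀ z : ℍ, f z = g9 ((d : ℂ) * z)) :
    IntQ f (PowerSeries.expand d hd phi9) := by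
  rw [expand_phi9 hd]
  have h := ((intQ_etaProd hd).pow 3).div (intQ_etaProd (Nat.mul_ne_zero hd three_ne_zero))
  refine h.congr fun z => ?_
  rw [hf, g9_nat_mul]
  rfl

/-! ### Deliverables in explicit form -/

section Deliverables

variable {f fa fb : ℍ → ℂ}

/-- `G4` itself (`d = 1`). -/
theorem intQ_g4_one (hf : ∀ z : ℍ, f z = g4 z) : IntQ f phi4 := by
  have h := intQ_g4 one_ne_zero (f := f) (fun z => by rw [hf]; simp)
  rwa [PowerSeries.expand_one_apply] at h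

/-- `G9` itself (`d = 1`). -/
theorem intQ_g9_one (hf : ∀ z : ℍ, f z = g9 z) : IntQ f phi9 := by
  have h := intQ_g9 one_ne_zero (f := f) (fun z => by rw [hf]; simp)
  rwa [PowerSeries.expand_one_apply] at h

/-- The explicit body of `G4`. -/
theorem intQ_G4 :
    IntQ (fun z : ℍ => η (2 * (z : ℂ)) ^ 10 / (η (z : ℂ) ^ 4 * η (4 * (z : ℂ)) ^ 4)) phi4 :=
  intQ_g4_one fun _ => rfl

/-- The explicit body of `G9`. -/
theorem intQ_G9 : IntQ (fun z : ℍ => η (z : ℂ) ^ 3 / η (3 * (z : ℂ))) phi9 :=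
  intQ_g9_one fun _ => rfl

/-- (1) for `G4`. -/
theorem exists_qExpansion_G4 : ∃ Φ : PowerSeries ℤ, PowerSeries.constantCoeff Φ = 1 ∧
    qExpansion 1 (fun z : ℍ => η (2 * (z : ℂ)) ^ 10 / (η (z : ℂ) ^ 4 * η (4 * (z : ℂ)) ^ 4))
      = Φ.map (Int.castRingHom ℂ) :=
  intQ_G4.exists_int

/-- (1) for `G9`. -/
theorem exists_qExpansion_G9 : ∃ Φ : PowerSeries ℤ, PowerSeries.constantCoeff Φ = 1 ∧
    qExpansion 1 (fun z : ℍ => η (z : ℂ) ^ 3 / η (3 * (z : ℂ))) = Φ.map (Int.castRingHom ℂ) :=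
  intQ_G9.exists_int

/-- (2) for `G4`: the `q`-expansion of `z ↦ G4 (d z)` is `phi4 (X^d)`. -/
theorem qExpansion_g4_dilate {d : ℕ} (hd : d ≠ 0) (hf : ∀ z : ℍ, f z = g4 ((d : ℂ) * z)) :
    qExpansion 1 f = (PowerSeries.expand d hd phi4).map (Int.castRingHom ℂ) :=
  (intQ_g4 hd hf).qexp

/-- (2) for `G9`: the `q`-expansion of `z ↦ G9 (d z)` is `phi9 (X^d)`. -/
theorem qExpansion_g9_dilate {d : ℕ} (hd : d ≠ 0) (hf : ∀ z : ℍ, f z = g9 ((d : ℂ) * z)) :
    qExpansion 1 f = (PowerSeries.expand d hd phi9).map (Int.castRingHom ℂ) :=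
  (intQ_g9 hd hf).qexp

/-- (2) for `G4`, existence form. -/
theorem exists_qExpansion_g4_dilate {d : ℕ} (hd : d ≠ 0)
    (hf : ∀ z : ℍ, f z = g4 ((d : ℂ) * z)) : ∃ Φ : PowerSeries ℤ,
      PowerSeries.constantCoeff Φ = 1 ∧ qExpansion 1 f = Φ.map (Int.castRingHom ℂ) :=
  (intQ_g4 hd hf).exists_int

/-- (2) for `G9`, existence form. -/
theorem exists_qExpansion_g9_dilate {d : ℕ} (hd : d ≠ 0)
    (hf : ∀ z : ℍ, f z = g9 ((d : ℂ) * z)) : ∃ Φ : PowerSeries ℤ,
      PowerSeries.constantCoeff Φ = 1 ∧ qExpansion 1 f = Φ.map (Int.castRingHom ℂ) :=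
  (intQ_g9 hd hf).exists_int

/-- (3) for `G4`: the unit `h = G4 (a z) / G4 (b z)` has `q`-expansion in `1 + Xℤ⟦X⟧`. -/
theorem intQ_g4_quot {a b : ℕ} (ha : a ≠ 0) (hb : b ≠ 0)
    (hfa : ∀ z : ℍ, fa z = g4 ((a : ℂ) * z)) (hfb : ∀ z : ℍ, fb z = g4 ((b : ℂ) * z)) :
    IntQ (fa / fb)
      (PowerSeries.expand a ha phi4 * PowerSeries.invOfUnit (PowerSeries.expand b hb phi4) 1) :=
  (intQ_g4 ha hfa).div (intQ_g4 hb hfb)

/-- (3) for `G9`: the unit `h = G9 (a z) / G9 (b z)` has `q`-expansion in `1 + Xℤ⟦X⟧`. -/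
theorem intQ_g9_quot {a b : ℕ} (ha : a ≠ 0) (hb : b ≠ 0)
    (hfa : ∀ z : ℍ, fa z = g9 ((a : ℂ) * z)) (hfb : ∀ z : ℍ, fb z = g9 ((b : ℂ) * z)) :
    IntQ (fa / fb)
      (PowerSeries.expand a ha phi9 * PowerSeries.invOfUnit (PowerSeries.expand b hb phi9) 1) :=
  (intQ_g9 ha hfa).div (intQ_g9 hb hfb)

/-- (3) for `G4`: the quotient identity. -/
theorem qExpansion_g4_quot_mul {a b : ℕ} (ha : a ≠ 0) (hb : b ≠ 0)
    (hfa : ∀ z : ℍ, fa z = g4 ((a : ℂ) * z)) (hfb : ∀ z : ℍ, fb z = g4 ((b : ℂ) * z)) :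
    qExpansion 1 (fa / fb) * qExpansion 1 fb = qExpansion 1 fa :=
  (intQ_g4 ha hfa).qExpansion_div_mul (intQ_g4 hb hfb)

/-- (3) for `G9`: the quotient identity. -/
theorem qExpansion_g9_quot_mul {a b : ℕ} (ha : a ≠ 0) (hb : b ≠ 0)
    (hfa : ∀ z : ℍ, fa z = g9 ((a : ℂ) * z)) (hfb : ∀ z : ℍ, fb z = g9 ((b : ℂ) * z)) :
    qExpansion 1 (fa / fb) * qExpansion 1 fb = qExpansion 1 fa :=
  (intQ_g9 ha hfa).qExpansion_div_mul (intQ_g9 hb hfb)

/-- (4) for `G4`. -/
theorem isBoundedAtImInfty_G4 : IsBoundedAtImInfty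
    (fun z : ℍ => η (2 * (z : ℂ)) ^ 10 / (η (z : ℂ) ^ 4 * η (4 * (z : ℂ)) ^ 4)) :=
  intQ_G4.isBoundedAtImInfty

/-- (4) for `1 / G4`. -/
theorem isBoundedAtImInfty_one_div_G4 : IsBoundedAtImInfty
    (fun z : ℍ => 1 / (η (2 * (z : ℂ)) ^ 10 / (η (z : ℂ) ^ 4 * η (4 * (z : ℂ)) ^ 4))) :=
  intQ_G4.isBoundedAtImInfty_one_div

/-- (4) for `G9`. -/
theorem isBoundedAtImInfty_G9 : IsBoundedAtImInfty
    (fun z : ℍ => η (z : ℂ) ^ 3 / η (3 * (z : ℂ))) :=
  intQ_G9.isBoundedAtImInfty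

/-- (4) for `1 / G9`. -/
theorem isBoundedAtImInfty_one_div_G9 : IsBoundedAtImInfty
    (fun z : ℍ => 1 / (η (z : ℂ) ^ 3 / η (3 * (z : ℂ)))) :=
  intQ_G9.isBoundedAtImInfty_one_div

end Deliverables

end Fermat.Agent.S36.EtaQInt
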