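import Mathlib
import Fermat.Agent.S23.Basic
import Fermat.Agent.S36.EtaG4
import Fermat.Agent.S36.EtaNine
import Fermat.Agent.S36.EtaHInv
import Fermat.Agent.S36.EtaQInt

/-!
# S36, block [B1-eta]: the integrality leaf E4 instantiated at `G4`, `G9`, `h1`, `h2`

OWNER: helper69 (only the owner edits this file).

`EtaQInt.IntQ f Φ` (`f` is a nowhere vanishing holomorphic function of `q` on the unit disc whose
`q`-expansion is the integer power series `Φ` with constant coefficient `1`) for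

* `EtaG4.G4`, `EtaNine.G9` and their dilates `z ↦ G (mulN d z)`;
* the units `EtaHInv.h1 G q = G(qz)/G(z)` and `EtaHInv.h2 G q = G(q²z)/G(qz)` for `G = G4, G9`.

Consequences in every case (fields / lemmas of `IntQ`, `DiscUnit`): `MDiff`, `IsBoundedAtImInfty`
of the function and of its inverse, periodicity, analyticity of the cusp function, convergence of
the `q`-expansion, and `∃ Φ : PowerSeries ℤ, constantCoeff Φ = 1 ∧ qExpansion 1 f = Φ.map _`.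
-/

set_option autoImplicit false

namespace Fermat.Agent.S36.EtaQIntInst

open UpperHalfPlane ModularForm
open scoped Manifold
open Fermat.Agent.S23 (mulN coe_mulN)
open Fermat.Agent.S36.EtaQInt

/-! ### Abstract `G` -/

section Abstract

variable {G : ℍ → ℂ}

/-- `h1 G q = G(qz)/G(z)` from the two inputs. -/
theorem intQ_h1 (q : ℕ) [NeZero q] {Φ Φq : PowerSeries ℤ} (h : IntQ G Φ)
    (hq : IntQ (fun z => G (mulN q z)) Φq) :
    IntQ (EtaHInv.h1 G q) (Φq * PowerSeries.invOfUnit Φ 1) :=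
  (hq.div h).congr fun _ => rfl

/-- `h2 G q = G(q²z)/G(qz)` from the two inputs. -/
theorem intQ_h2 (q : ℕ) [NeZero q] {Φq Φqq : PowerSeries ℤ}
    (hq : IntQ (fun z => G (mulN q z)) Φq)
    (hqq : IntQ (fun z => G (mulN q (mulN q z))) Φqq) :
    IntQ (EtaHInv.h2 G q) (Φqq * PowerSeries.invOfUnit Φq 1) :=
  (hqq.div hq).congr fun _ => rfl

end Abstract

/-! ### `G4` -/

theorem intQ_G4 : IntQ EtaG4.G4 phi4 :=
  intQ_g4_one fun _ => rfl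

theorem intQ_G4_mulN (d : ℕ) [NeZero d] :
    IntQ (fun z => EtaG4.G4 (mulN d z)) (PowerSeries.expand d (NeZero.ne d) phi4) :=
  intQ_g4 (NeZero.ne d) fun _ => rfl

theorem intQ_G4_mulN_mulN (d : ℕ) [NeZero d] :
    IntQ (fun z => EtaG4.G4 (mulN d (mulN d z)))
      (PowerSeries.expand (d * d) (Nat.mul_ne_zero (NeZero.ne d) (NeZero.ne d)) phi4) :=
  intQ_g4 (Nat.mul_ne_zero (NeZero.ne d) (NeZero.ne d)) fun z => by
    show EtaQInt.g4 ((d : ℂ) * ((d : ℂ) * (z : ℂ))) = EtaQInt.g4 (((d * d : ℕ) : ℂ) * (z : ℂ))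
    congr 1
    push_cast
    ring

/-- `h1 = G4(qz)/G4(z)` has `q`-expansion in `1 + Xℤ⟦X⟧`. -/
theorem intQ_h1_G4 (q : ℕ) [NeZero q] :
    IntQ (EtaHInv.h1 EtaG4.G4 q)
      (PowerSeries.expand q (NeZero.ne q) phi4 * PowerSeries.invOfUnit phi4 1) :=
  intQ_h1 q intQ_G4 (intQ_G4_mulN q)

/-- `h2 = G4(q²z)/G4(qz)` has `q`-expansion in `1 + Xℤ⟦X⟧`. -/
theorem intQ_h2_G4 (q : ℕ) [NeZero q] :
    IntQ (EtaHInv.h2 EtaG4.G4 q)
      (PowerSeries.expand (q * q) (Nat.mul_ne_zero (NeZero.ne q) (NeZero.ne q)) phi4 *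
        PowerSeries.invOfUnit (PowerSeries.expand q (NeZero.ne q) phi4) 1) :=
  intQ_h2 q (intQ_G4_mulN q) (intQ_G4_mulN_mulN q)

/-! ### `G9` -/

theorem intQ_G9 : IntQ EtaNine.G9 phi9 :=
  intQ_g9_one fun _ => rfl

theorem intQ_G9_mulN (d : ℕ) [NeZero d] :
    IntQ (fun z => EtaNine.G9 (mulN d z)) (PowerSeries.expand d (NeZero.ne d) phi9) :=
  intQ_g9 (NeZero.ne d) fun _ => rfl

theorem intQ_G9_mulN_mulN (d : ℕ) [NeZero d] :
    IntQ (fun z => EtaNine.G9 (mulN d (mulN d z)))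
      (PowerSeries.expand (d * d) (Nat.mul_ne_zero (NeZero.ne d) (NeZero.ne d)) phi9) :=
  intQ_g9 (Nat.mul_ne_zero (NeZero.ne d) (NeZero.ne d)) fun z => by
    show EtaQInt.g9 ((d : ℂ) * ((d : ℂ) * (z : ℂ))) = EtaQInt.g9 (((d * d : ℕ) : ℂ) * (z : ℂ))
    congr 1
    push_cast
    ring

/-- `h1 = G9(qz)/G9(z)` has `q`-expansion in `1 + Xℤ⟦X⟧`. -/
theorem intQ_h1_G9 (q : ℕ) [NeZero q] :
    IntQ (EtaHInv.h1 EtaNine.G9 q)
      (PowerSeries.expand q (NeZero.ne q) phi9 * PowerSeries.invOfUnit phi9 1) :=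
  intQ_h1 q intQ_G9 (intQ_G9_mulN q)

/-- `h2 = G9(q²z)/G9(qz)` has `q`-expansion in `1 + Xℤ⟦X⟧`. -/
theorem intQ_h2_G9 (q : ℕ) [NeZero q] :
    IntQ (EtaHInv.h2 EtaNine.G9 q)
      (PowerSeries.expand (q * q) (Nat.mul_ne_zero (NeZero.ne q) (NeZero.ne q)) phi9 *
        PowerSeries.invOfUnit (PowerSeries.expand q (NeZero.ne q) phi9) 1) :=
  intQ_h2 q (intQ_G9_mulN q) (intQ_G9_mulN_mulN q)

/-! ### The statements of (U1) in existence form, and the analytic side conditions -/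

/-- (U1) for `G4`: `h1, h2 ∈ 1 + Xℤ⟦X⟧`. -/
theorem exists_qExpansion_h_G4 (q : ℕ) [NeZero q] :
    (∃ Φ : PowerSeries ℤ, PowerSeries.constantCoeff Φ = 1 ∧
      qExpansion 1 (EtaHInv.h1 EtaG4.G4 q) = Φ.map (Int.castRingHom ℂ)) ∧
    ∃ Φ : PowerSeries ℤ, PowerSeries.constantCoeff Φ = 1 ∧
      qExpansion 1 (EtaHInv.h2 EtaG4.G4 q) = Φ.map (Int.castRingHom ℂ) :=
  ⟨(intQ_h1_G4 q).exists_int, (intQ_h2_G4 q).exists_int⟩

/-- (U1) for `G9`: `h1, h2 ∈ 1 + Xℤ⟦X⟧`. -/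
theorem exists_qExpansion_h_G9 (q : ℕ) [NeZero q] :
    (∃ Φ : PowerSeries ℤ, PowerSeries.constantCoeff Φ = 1 ∧
      qExpansion 1 (EtaHInv.h1 EtaNine.G9 q) = Φ.map (Int.castRingHom ℂ)) ∧
    ∃ Φ : PowerSeries ℤ, PowerSeries.constantCoeff Φ = 1 ∧
      qExpansion 1 (EtaHInv.h2 EtaNine.G9 q) = Φ.map (Int.castRingHom ℂ) :=
  ⟨(intQ_h1_G9 q).exists_int, (intQ_h2_G9 q).exists_int⟩

theorem mdiff_h1_G4 (q : ℕ) [NeZero q] : MDiff (EtaHInv.h1 EtaG4.G4 q) :=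
  (intQ_h1_G4 q).disc.mdiff

theorem mdiff_h2_G4 (q : ℕ) [NeZero q] : MDiff (EtaHInv.h2 EtaG4.G4 q) :=
  (intQ_h2_G4 q).disc.mdiff

theorem mdiff_h1_G9 (q : ℕ) [NeZero q] : MDiff (EtaHInv.h1 EtaNine.G9 q) :=
  (intQ_h1_G9 q).disc.mdiff

theorem mdiff_h2_G9 (q : ℕ) [NeZero q] : MDiff (EtaHInv.h2 EtaNine.G9 q) :=
  (intQ_h2_G9 q).disc.mdiff

theorem isBoundedAtImInfty_h1_G4 (q : ℕ) [NeZero q] :
    IsBoundedAtImInfty (EtaHInv.h1 EtaG4.G4 q) ∧ IsBoundedAtImInfty (EtaHInv.h1 EtaG4.G4 q)⁻¹ :=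
  ⟨(intQ_h1_G4 q).isBoundedAtImInfty, (intQ_h1_G4 q).isBoundedAtImInfty_inv⟩

theorem isBoundedAtImInfty_h2_G4 (q : ℕ) [NeZero q] :
    IsBoundedAtImInfty (EtaHInv.h2 EtaG4.G4 q) ∧ IsBoundedAtImInfty (EtaHInv.h2 EtaG4.G4 q)⁻¹ :=
  ⟨(intQ_h2_G4 q).isBoundedAtImInfty, (intQ_h2_G4 q).isBoundedAtImInfty_inv⟩

theorem isBoundedAtImInfty_h1_G9 (q : ℕ) [NeZero q] :
    IsBoundedAtImInfty (EtaHInv.h1 EtaNine.G9 q) ∧ IsBoundedAtImInfty (EtaHInv.h1 EtaNine.G9 q)⁻¹ :=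
  ⟨(intQ_h1_G9 q).isBoundedAtImInfty, (intQ_h1_G9 q).isBoundedAtImInfty_inv⟩

theorem isBoundedAtImInfty_h2_G9 (q : ℕ) [NeZero q] :
    IsBoundedAtImInfty (EtaHInv.h2 EtaNine.G9 q) ∧ IsBoundedAtImInfty (EtaHInv.h2 EtaNine.G9 q)⁻¹ :=
  ⟨(intQ_h2_G9 q).isBoundedAtImInfty, (intQ_h2_G9 q).isBoundedAtImInfty_inv⟩

theorem isBoundedAtImInfty_G4 :
    IsBoundedAtImInfty EtaG4.G4 ∧ IsBoundedAtImInfty EtaG4.G4⁻¹ :=
  ⟨intQ_G4.isBoundedAtImInfty, intQ_G4.isBoundedAtImInfty_inv⟩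

theorem isBoundedAtImInfty_G9 :
    IsBoundedAtImInfty EtaNine.G9 ∧ IsBoundedAtImInfty EtaNine.G9⁻¹ :=
  ⟨intQ_G9.isBoundedAtImInfty, intQ_G9.isBoundedAtImInfty_inv⟩

end Fermat.Agent.S36.EtaQIntInst
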