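import Mathlib
import Fermat.Agent.S36.Plan
import Fermat.Agent.S36.EtaB1
import Fermat.Agent.S36.EtaB1Inst
import Fermat.Agent.S36.EtaALq
import Fermat.Agent.S36.EtaUnits4
import Fermat.Agent.S36.EtaUnits9
import Fermat.Agent.S36.EtaQIntInst
import Fermat.Agent.S36.EtaUnitsKG
import Fermat.Agent.S36.EtaChartInt
import Fermat.Agent.S36.Chart3B

/-!
# S36 block [B1-eta]: the `h`-side hypotheses of `EtaB1.princ_eta_chart(_inv)`

For a prime `q ∤ M` with the auxiliary level structure `Plan.AuxHyp q M` (`4 ∣ M` for odd `q`,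
`9 ∣ M` for `q = 2`), a discrete valuation ring `O = A ∩ K` with uniformizer `π` of value `q`:
there is ONE element `h ∈ F_K(M q)` (the element with the `q`-expansion of
`h1 = G(qz)/G(z)`, `G = G4` resp. `G9`) with

* the level-`q` Atkin–Lehner relation `w_q h = c · h⁻¹`, `c = ± q⁻¹`, so `c · π = ± 1` is a unit;
* `h` is Gauss-integral with nonzero reduction;
* `π ^ k · α h`, `π ^ k · (α h)⁻¹`, `π ^ k · β h`, `π ^ k · (β h)⁻¹` lie in the chart of `J3`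
  (`= chart j`) at level `M q²`.

`exists_eta_hyp` is the statement of record; `exists_eta_hyp_of_law` is the abstract form
(any weight-one `G` with integral `q`-expansion), `exists_eta_hyp'` allows `q = π · unit`.
-/

set_option autoImplicit false

open ModularCurve AlgebraicCurve HahnSeries UpperHalfPlane

namespace Fermat.Agent.S36.EtaB1Hyp

open Fermat.Agent.S18 Fermat.Agent.S18.Arith Fermat.Agent.S18.ModelPlan
open Fermat.Agent.S24 Fermat.Agent.S34 Fermat.Agent.S36.WQ2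
open Fermat.Agent.S36 Fermat.Agent.S36.EtaQInt
open Fermat.Agent.S23 (mulN)

noncomputable section

/-- A function with an integral `q`-expansion (constant term `1`) is nice. -/
theorem mem_niceSub_of_intQ {f : ℍ → ℂ} {Φ : PowerSeries ℤ} (h : IntQ f Φ) :
    f ∈ S23.niceSub :=
  ⟨by simpa using h.disc.periodic, h.disc.mdiff, h.isBoundedAtImInfty⟩

/-- `h2 G q z = h1 G q (q z)`. -/
theorem h2_eq_h1_scale (G : ℍ → ℂ) (q : ℕ) [NeZero q] :
    EtaHInv.h2 G q = fun z => EtaHInv.h1 G q (mulN q z) := rfl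

/-- The `q`-expansion of `h2` is the `q`-dilate of that of `h1`. -/
theorem qx_h2 {G : ℍ → ℂ} (q : ℕ) [NeZero q] (h1n : EtaHInv.h1 G q ∈ S23.niceSub) :
    S29.K.qx (EtaHInv.h2 G q) = qExpand ℂ q (S29.K.qx (EtaHInv.h1 G q)) := by
  rw [h2_eq_h1_scale]
  exact S24.AnBridge.ofPowerSeries_qExpansion_scale q h1n

section Abstract

variable (M q : ℕ) [NeZero M] [NeZero q] (hq : q.Prime) (hqM : ¬ q ∣ M)
variable (A : ValuationSubring Qb) (K : IntermediateField ℚ Qb)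

/-- **Abstract form**: `G` a weight-one function with the law `Law N0 chi G`, `N0 ∣ M`, integral
`q`-expansions of `G` and `G(qz)`, `chi 1 = 1`, `chi q = ε = ± 1`; `h1 = G(qz)/G(z)` in
`F_ℂ(M q)` and `h1`, `h2` integral units over `ℂ[j]`. -/
theorem exists_eta_hyp_of_law {N0 : ℕ} {chi : ℤ → ℂ} {G : ℍ → ℂ} {Φ0 Φq : PowerSeries ℤ}
    (hG : EtaHInv.Law N0 chi G) (hI : IntQ G Φ0) (hIq : IntQ (fun z => G (mulN q z)) Φq)
    (hN0 : N0 ∣ M) (hχ1 : chi 1 = 1) (ε : ℤ) (hε : ε = 1 ∨ ε = -1)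
    (hχq : chi (q : ℤ) = (ε : ℂ))
    (hFC : S29.K.qx (EtaHInv.h1 G q) ∈ S29.K.FC (M * q))
    (hi1 : IsIntegral (Algebra.adjoin ℂ ({S29.K.jC} : Set (LaurentSeries ℂ)))
       (S29.K.qx (EtaHInv.h1 G q)))
    (hi1' : IsIntegral (Algebra.adjoin ℂ ({S29.K.jC} : Set (LaurentSeries ℂ)))
       (S29.K.qx (EtaHInv.h1 G q))⁻¹)
    (hi2 : IsIntegral (Algebra.adjoin ℂ ({S29.K.jC} : Set (LaurentSeries ℂ)))
       (S29.K.qx (EtaHInv.h2 G q)))
    (hi2' : IsIntegral (Algebra.adjoin ℂ ({S29.K.jC} : Set (LaurentSeries ℂ)))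
       (S29.K.qx (EtaHInv.h2 G q))⁻¹)
    (hdvr : IsDiscreteValuationRing (OK A K)) {π : OK A K} (hπ : Irreducible π)
    {u₀ : A} (hu₀ : IsUnit u₀) (hqπ : (q : Qb) = incO A K π * (u₀ : Qb)) :
    ∃ (h : FK (M * q) K) (c : K) (u : A) (y : LaurentSeries (IsLocalRing.ResidueField A)),
      EtaVal.ALRel M q hq hqM K h c ∧ IsUnit u ∧ (c : Qb) * incO A K π = (u : Qb) ∧
      GRel A ((h : FK (M * q) K) : LaurentSeries Qb) y ∧ y ≠ 0 ∧
      (∃ k : ℕ, algebraMap (OK A K) (FK (M * q * q) K) π ^ k * alphaK2 M q K h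
        ∈ chart (M * q * q) A K (Chart3B.J3 M q hq hqM K)) ∧
      (∃ k : ℕ, algebraMap (OK A K) (FK (M * q * q) K) π ^ k * (alphaK2 M q K h)⁻¹
        ∈ chart (M * q * q) A K (Chart3B.J3 M q hq hqM K)) ∧
      (∃ k : ℕ, algebraMap (OK A K) (FK (M * q * q) K) π ^ k * betaK2 M q hq hqM K h
        ∈ chart (M * q * q) A K (Chart3B.J3 M q hq hqM K)) ∧
      (∃ k : ℕ, algebraMap (OK A K) (FK (M * q * q) K) π ^ k * (betaK2 M q hq hqM K h)⁻¹
        ∈ chart (M * q * q) A K (Chart3B.J3 M q hq hqM K)) := by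
  have hG0 : ∀ z, G z ≠ 0 := hI.disc.ne_zero
  have hGn : G ∈ S23.niceSub := mem_niceSub_of_intQ hI
  have hGib : IsBoundedAtImInfty (fun z => (G z)⁻¹) := hI.isBoundedAtImInfty_inv
  have hI1 : IntQ (EtaHInv.h1 G q) (Φq * PowerSeries.invOfUnit Φ0 1) :=
    EtaQIntInst.intQ_h1 q hI hIq
  have h1n : EtaHInv.h1 G q ∈ S23.niceSub := mem_niceSub_of_intQ hI1
  obtain ⟨Φ, hΦ, hqe⟩ := hI1.exists_int
  have hqx : S29.K.qx (EtaHInv.h1 G q)
      = HahnSeries.ofPowerSeries ℤ ℂ (Φ.map (Int.castRingHom ℂ)) := by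
    rw [S29.K.qx, hqe]
  obtain ⟨x, hx0, hcm, hcminv, hgr⟩ := EtaUnitsKG.exists_unitK_gRel (M * q) K hΦ hqx hFC
  have hw : EtaVal.ALRel M q hq hqM K x ((ε : K) * (q : K)⁻¹) :=
    EtaVal.alRel_of_algebraMap
      (EtaALq.wK_h1_sign M q hq hqM hG hG0 hGn hGib hN0 K x hcm hχ1 ε hε hχq)
  obtain ⟨y, hy0, hGy⟩ := (hgr A).1
  have hq0 : (q : Qb) ≠ 0 := Nat.cast_ne_zero.mpr (NeZero.ne q)
  have hchart := Chart3B.chart_J3_eq M q hq hqM A K
  -- integrality of `α x` and `β x`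
  have ea : coeffMap embC ((alphaK2 M q K x : FK (M * q * q) K) : LaurentSeries Qb)
      = S29.K.qx (EtaHInv.h1 G q) := by
    rw [coe_alphaK2, hcm]
  have eb : coeffMap embC ((betaK2 M q hq hqM K x : FK (M * q * q) K) : LaurentSeries Qb)
      = S29.K.qx (EtaHInv.h2 G q) := by
    rw [coe_betaK2, ModularCurve.coeffMap_qExpand, hcm, qx_h2 q h1n]
  obtain ⟨ka, hka, hka'⟩ := EtaChartInt.exists_pow_mul_mem_chart_unit (M * q * q) A K hdvr hπ
    (alphaK2 M q K x) (by rw [ea]; exact hi1) (by rw [ea]; exact hi1')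
  obtain ⟨kb, hkb, hkb'⟩ := EtaChartInt.exists_pow_mul_mem_chart_unit (M * q * q) A K hdvr hπ
    (betaK2 M q hq hqM K x) (by rw [eb]; exact hi2) (by rw [eb]; exact hi2')
  -- the unit `ε · u₀⁻¹`
  obtain ⟨v₀, hv₀⟩ := hu₀.exists_right_inv
  have huv : (u₀ : Qb) * (v₀ : Qb) = 1 := by
    have := congrArg (Subtype.val : A → Qb) hv₀
    simpa using this
  have hπ0 : incO A K π ≠ 0 := by
    intro h0
    rw [h0, zero_mul] at hqπ
    exact hq0 hqπ
  have hu0 : (u₀ : Qb) ≠ 0 := by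
    intro h0
    rw [h0, mul_zero] at hqπ
    exact hq0 hqπ
  have hv : (v₀ : Qb) = (u₀ : Qb)⁻¹ := eq_inv_of_mul_eq_one_right huv
  have hv₀u : IsUnit v₀ := ⟨⟨v₀, u₀, by rw [mul_comm]; exact hv₀, hv₀⟩, rfl⟩
  have hεu : IsUnit ((ε : ℤ) : A) := by
    rcases hε with rfl | rfl
    · simp
    · simp
  refine ⟨x, (ε : K) * (q : K)⁻¹, ((ε : ℤ) : A) * v₀, y, hw, hεu.mul hv₀u, ?_, hGy, hy0,
    ⟨ka, ?_⟩, ⟨ka, ?_⟩, ⟨kb, ?_⟩, ⟨kb, ?_⟩⟩
  · have e1 : ((((ε : K) * (q : K)⁻¹ : K)) : Qb) = (ε : Qb) * (q : Qb)⁻¹ := by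
      push_cast
      rfl
    have e2 : ((((ε : ℤ) : A) * v₀ : A) : Qb) = (ε : Qb) * (v₀ : Qb) := by
      push_cast
      rfl
    rw [e1, e2, hqπ, hv]
    field_simp
  · rw [hchart]; exact hka
  · rw [hchart]; exact hka'
  · rw [hchart]; exact hkb
  · rw [hchart]; exact hkb'

end Abstract

/-! ### The two instances: `G4` (odd `q`, `4 ∣ M`) and `G9` (`9 ∣ M`, e.g. `q = 2`) -/

section Inst

variable (M q : ℕ) [NeZero M] [NeZero q] (hq : q.Prime) (hqM : ¬ q ∣ M)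
variable (A : ValuationSubring Qb) (K : IntermediateField ℚ Qb)

/-- The bare existence statement (the body of `EtaB1Inst.EtaHyp`). -/
def Concl {π : OK A K} : Prop :=
  ∃ (h : FK (M * q) K) (c : K) (u : A) (y : LaurentSeries (IsLocalRing.ResidueField A)),
    EtaVal.ALRel M q hq hqM K h c ∧ IsUnit u ∧ (c : Qb) * incO A K π = (u : Qb) ∧
    GRel A ((h : FK (M * q) K) : LaurentSeries Qb) y ∧ y ≠ 0 ∧
    (∃ k : ℕ, algebraMap (OK A K) (FK (M * q * q) K) π ^ k * alphaK2 M q K h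
      ∈ chart (M * q * q) A K (Chart3B.J3 M q hq hqM K)) ∧
    (∃ k : ℕ, algebraMap (OK A K) (FK (M * q * q) K) π ^ k * (alphaK2 M q K h)⁻¹
      ∈ chart (M * q * q) A K (Chart3B.J3 M q hq hqM K)) ∧
    (∃ k : ℕ, algebraMap (OK A K) (FK (M * q * q) K) π ^ k * betaK2 M q hq hqM K h
      ∈ chart (M * q * q) A K (Chart3B.J3 M q hq hqM K)) ∧
    (∃ k : ℕ, algebraMap (OK A K) (FK (M * q * q) K) π ^ k * (betaK2 M q hq hqM K h)⁻¹
      ∈ chart (M * q * q) A K (Chart3B.J3 M q hq hqM K))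

/-- `N0 = 4`: `q` odd, `4 ∣ M`, `G = G4`. -/
theorem exists_eta_hyp_four (hq2 : q ≠ 2) (h4 : 4 ∣ M)
    (hdvr : IsDiscreteValuationRing (OK A K)) {π : OK A K} (hπ : Irreducible π)
    {u₀ : A} (hu₀ : IsUnit u₀) (hqπ : (q : Qb) = incO A K π * (u₀ : Qb)) :
    Concl M q hq hqM A K (π := π) := by
  have hodd : q % 4 = 1 ∨ q % 4 = 3 := by
    have h2 : q % 2 = 1 := Nat.odd_iff.mp (hq.eq_two_or_odd'.resolve_left hq2)
    omega
  have hε : ZMod.χ₄ (q : ZMod 4) = 1 ∨ ZMod.χ₄ (q : ZMod 4) = -1 := by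
    rcases hodd with h | h
    · exact Or.inl (ZMod.χ₄_nat_one_mod_four h)
    · exact Or.inr (ZMod.χ₄_nat_three_mod_four h)
  have hχ1 : EtaUnits4.chiZ 1 = 1 := by simp [EtaUnits4.chiZ]
  have hχq : EtaUnits4.chiZ (q : ℤ) = ((ZMod.χ₄ (q : ZMod 4) : ℤ) : ℂ) := by
    simp [EtaUnits4.chiZ]
  have hd : 4 * q ∣ M * q := Nat.mul_dvd_mul_right h4 q
  have he : 4 * 1 ∣ M * q := by
    rw [mul_one]
    exact h4.mul_right q
  have hN : 4 * q ^ 2 ∣ M * q * q := by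
    rw [pow_two, ← mul_assoc]
    exact Nat.mul_dvd_mul_right hd q
  obtain ⟨-, hFC, -, -⟩ := EtaUnits4.hq_unit (N := M * q) q 1 hd he
  obtain ⟨-, -, hi1, hi1'⟩ := EtaUnits4.h1_unit (N := M * q * q) q hN
  obtain ⟨-, -, hi2, hi2'⟩ := EtaUnits4.h2_unit (N := M * q * q) q hN
  rw [← EtaUnits4.h1_eq] at hFC
  exact exists_eta_hyp_of_law M q hq hqM A K EtaUnits4.law_G4 EtaQIntInst.intQ_G4
    (EtaQIntInst.intQ_G4_mulN q) h4 hχ1 _ hε hχq hFC hi1 hi1' hi2 hi2' hdvr hπ hu₀ hqπ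

/-- `N0 = 9`: `q = 2`, `9 ∣ M`, `G = G9`. -/
theorem exists_eta_hyp_nine (hq2 : q = 2) (h9 : 9 ∣ M)
    (hdvr : IsDiscreteValuationRing (OK A K)) {π : OK A K} (hπ : Irreducible π)
    {u₀ : A} (hu₀ : IsUnit u₀) (hqπ : (q : Qb) = incO A K π * (u₀ : Qb)) :
    Concl M q hq hqM A K (π := π) := by
  have hχ1 : EtaNine.chi3 1 = 1 := EtaNine.chi3_one
  have hχq : EtaNine.chi3 (q : ℤ) = (((-1 : ℤ)) : ℂ) := by
    have e : ((q : ℕ) : ℤ) = 2 := by rw [hq2]; rfl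
    rw [e]
    simp [EtaNine.chi3]
  have hd : 9 * q ∣ M * q := Nat.mul_dvd_mul_right h9 q
  have he : 9 * 1 ∣ M * q := by
    rw [mul_one]
    exact h9.mul_right q
  have hN : 9 * q ^ 2 ∣ M * q * q := by
    rw [pow_two, ← mul_assoc]
    exact Nat.mul_dvd_mul_right hd q
  obtain ⟨-, hFC, -, -⟩ := EtaUnits9.hq_unit (N := M * q) q 1 hd he
  obtain ⟨-, -, hi1, hi1'⟩ := EtaUnits9.h1_unit (N := M * q * q) q hN
  obtain ⟨-, -, hi2, hi2'⟩ := EtaUnits9.h2_unit (N := M * q * q) q hN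
  rw [← EtaUnits9.h1_eq] at hFC
  exact exists_eta_hyp_of_law M q hq hqM A K EtaUnits9.law_G9 EtaQIntInst.intQ_G9
    (EtaQIntInst.intQ_G9_mulN q) h9 hχ1 (-1) (Or.inr rfl) hχq hFC hi1 hi1' hi2 hi2' hdvr hπ
    hu₀ hqπ

/-- **The `h`-side hypotheses of `EtaB1.princ_eta_chart(_inv)`, general uniformizer**
(`q = π · u₀`, `u₀` a unit of `A`). -/
theorem exists_eta_hyp' (haux : Plan.AuxHyp q M)
    (hdvr : IsDiscreteValuationRing (OK A K)) {π : OK A K} (hπ : Irreducible π)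
    {u₀ : A} (hu₀ : IsUnit u₀) (hqπ : (q : Qb) = incO A K π * (u₀ : Qb)) :
    ∃ (h : FK (M * q) K) (c : K) (u : A) (y : LaurentSeries (IsLocalRing.ResidueField A)),
      EtaVal.ALRel M q hq hqM K h c ∧ IsUnit u ∧ (c : Qb) * incO A K π = (u : Qb) ∧
      GRel A ((h : FK (M * q) K) : LaurentSeries Qb) y ∧ y ≠ 0 ∧
      (∃ k : ℕ, algebraMap (OK A K) (FK (M * q * q) K) π ^ k * alphaK2 M q K h
        ∈ chart (M * q * q) A K (Chart3B.J3 M q hq hqM K)) ∧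
      (∃ k : ℕ, algebraMap (OK A K) (FK (M * q * q) K) π ^ k * (alphaK2 M q K h)⁻¹
        ∈ chart (M * q * q) A K (Chart3B.J3 M q hq hqM K)) ∧
      (∃ k : ℕ, algebraMap (OK A K) (FK (M * q * q) K) π ^ k * betaK2 M q hq hqM K h
        ∈ chart (M * q * q) A K (Chart3B.J3 M q hq hqM K)) ∧
      (∃ k : ℕ, algebraMap (OK A K) (FK (M * q * q) K) π ^ k * (betaK2 M q hq hqM K h)⁻¹
        ∈ chart (M * q * q) A K (Chart3B.J3 M q hq hqM K)) := by
  by_cases hq2 : q = 2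
  · exact exists_eta_hyp_nine M q hq hqM A K hq2 (haux.2 hq2) hdvr hπ hu₀ hqπ
  · exact exists_eta_hyp_four M q hq hqM A K hq2 (haux.1 hq2) hdvr hπ hu₀ hqπ

/-- **The `h`-side hypotheses of `EtaB1.princ_eta_chart(_inv)`** for a uniformizer `π` of value
`q` (the model of record). -/
theorem exists_eta_hyp (haux : Plan.AuxHyp q M)
    (hdvr : IsDiscreteValuationRing (OK A K)) {π : OK A K} (hπ : Irreducible π)
    (hπq : incO A K π = (q : Qb)) :
    ∃ (h : FK (M * q) K) (c : K) (u : A) (y : LaurentSeries (IsLocalRing.ResidueField A)),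
      EtaVal.ALRel M q hq hqM K h c ∧ IsUnit u ∧ (c : Qb) * incO A K π = (u : Qb) ∧
      GRel A ((h : FK (M * q) K) : LaurentSeries Qb) y ∧ y ≠ 0 ∧
      (∃ k : ℕ, algebraMap (OK A K) (FK (M * q * q) K) π ^ k * alphaK2 M q K h
        ∈ chart (M * q * q) A K (Chart3B.J3 M q hq hqM K)) ∧
      (∃ k : ℕ, algebraMap (OK A K) (FK (M * q * q) K) π ^ k * (alphaK2 M q K h)⁻¹
        ∈ chart (M * q * q) A K (Chart3B.J3 M q hq hqM K)) ∧
      (∃ k : ℕ, algebraMap (OK A K) (FK (M * q * q) K) π ^ k * betaK2 M q hq hqM K h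
        ∈ chart (M * q * q) A K (Chart3B.J3 M q hq hqM K)) ∧
      (∃ k : ℕ, algebraMap (OK A K) (FK (M * q * q) K) π ^ k * (betaK2 M q hq hqM K h)⁻¹
        ∈ chart (M * q * q) A K (Chart3B.J3 M q hq hqM K)) :=
  exists_eta_hyp' M q hq hqM A K haux hdvr hπ (u₀ := 1) isUnit_one (by
    rw [hπq]
    simp)

/-- The same in the vocabulary of `EtaB1Inst`. -/
theorem etaHyp (haux : Plan.AuxHyp q M)
    (hdvr : IsDiscreteValuationRing (OK A K)) {π : OK A K} (hπ : Irreducible π)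
    (hπq : incO A K π = (q : Qb)) : EtaB1Inst.EtaHyp M q hq hqM A K π :=
  exists_eta_hyp M q hq hqM A K haux hdvr hπ hπq

/-- The same in the vocabulary of `EtaB1Inst`, general uniformizer. -/
theorem etaHyp_of_unit (haux : Plan.AuxHyp q M)
    (hdvr : IsDiscreteValuationRing (OK A K)) {π : OK A K} (hπ : Irreducible π)
    {u₀ : A} (hu₀ : IsUnit u₀) (hqπ : (q : Qb) = incO A K π * (u₀ : Qb)) :
    EtaB1Inst.EtaHyp M q hq hqM A K π :=
  exists_eta_hyp' M q hq hqM A K haux hdvr hπ hu₀ hqπ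

end Inst

end

end Fermat.Agent.S36.EtaB1Hyp
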