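import Mathlib
import Fermat.Agent.S24.Bridge
import Fermat.Agent.S36.Iota3AnShift

/-!
# S36 [MODEL3] / [IOTA3] B-copy (analytic route), file 2 (helper113): the bridge for a mixed family

* `Datum`, `Datum.bridge`: the "clear denominators" bridge of `S24/AnBridge` for an arbitrary finite
  family of functions `g i = c i / u i` on the upper half plane (`u i`, `c i` nice, `u i` nowhere
  zero) and series `G i` with `G i * Phi (u i) = Phi (c i)`:
  a complex polynomial relation holds among the `g i` iff it holds among the `G i`.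
* `mixed_bridge`: the instance where some generators `j(e·)` are replaced by real translates
  `j(d(r + ·))` on the analytic side and by the rotated series `(Q ↦ ξ Q)(j(Q^d))` on the formal
  side (`embC ξ = exp (2πi r)`), with coefficients in the algebraic closure of `ℚ`.
-/

set_option autoImplicit false

namespace Fermat.Agent.S36.Iota3AnBridge

open UpperHalfPlane ModularForm ModularCurve
open Fermat.Agent Fermat.Agent.S24 Fermat.Agent.S24.AnBridge Fermat.Agent.S36.Iota3AnShift
open scoped MatrixGroups ModularForm Manifold Real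

/-! ### The generic bridge -/

/-- Bridge datum: functions `g i` on `ℍ` and Laurent series `G i` that are quotients `c i / u i`
of nice functions (`u i` nowhere zero), compatibly with the `q`-expansion map `Phi`. -/
structure Datum (ι : Type*) where
  /-- the analytic family -/
  g : ι → (ℍ → ℂ)
  /-- the formal family -/
  G : ι → LaurentSeries ℂ
  /-- denominators -/
  u : ι → S23.niceSub
  /-- numerators -/
  c : ι → S23.niceSub
  u_ne : ∀ i z, (u i : ℍ → ℂ) z ≠ 0
  gu : ∀ i z, g i z * (u i : ℍ → ℂ) z = (c i : ℍ → ℂ) z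
  GU : ∀ i, G i * Phi (u i) = Phi (c i)

namespace Datum

variable {ι : Type*} [Fintype ι] [DecidableEq ι] (D : Datum ι)

/-- The common denominator. -/
noncomputable def den : S23.niceSub := ∏ i, D.u i

/-- The numerator of `den * g i`. -/
noncomputable def num (i : ι) : S23.niceSub := D.c i * ∏ i' ∈ Finset.univ.erase i, D.u i'

theorem den_eq (i : ι) : D.den = D.u i * ∏ i' ∈ Finset.univ.erase i, D.u i' := by
  rw [den, Finset.mul_prod_erase _ _ (Finset.mem_univ i)]

omit [Fintype ι] in
theorem coe_prod_apply (s : Finset ι) (f : ι → S23.niceSub) (z : ℍ) :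
    ((∏ i ∈ s, f i : S23.niceSub) : ℍ → ℂ) z = ∏ i ∈ s, (f i : ℍ → ℂ) z := by
  classical
  induction s using Finset.induction_on with
  | empty => simp
  | insert a s ha ih => rw [Finset.prod_insert ha, Finset.prod_insert ha, ← ih]; rfl

theorem den_apply_ne_zero (z : ℍ) : (D.den : ℍ → ℂ) z ≠ 0 := by
  rw [den, coe_prod_apply]
  exact Finset.prod_ne_zero_iff.mpr fun i _ => D.u_ne i z

theorem den_ne_zero : D.den ≠ 0 := by
  intro h
  have := congrArg (fun F : S23.niceSub => (F : ℍ → ℂ) UpperHalfPlane.I) h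
  exact D.den_apply_ne_zero _ this

theorem den_mul_g (i : ι) (z : ℍ) : (D.den : ℍ → ℂ) z * D.g i z = (D.num i : ℍ → ℂ) z := by
  rw [D.den_eq i, num]
  show ((D.u i : ℍ → ℂ) z *
      ((∏ i' ∈ Finset.univ.erase i, D.u i' : S23.niceSub) : ℍ → ℂ) z) * D.g i z =
    (D.c i : ℍ → ℂ) z * ((∏ i' ∈ Finset.univ.erase i, D.u i' : S23.niceSub) : ℍ → ℂ) z
  rw [← D.gu i z]
  ring

theorem Phi_den_mul_G (i : ι) : Phi D.den * D.G i = Phi (D.num i) := by
  rw [D.den_eq i, num, map_mul, map_mul, ← D.GU i]
  ring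

/-- Clearing denominators. -/
theorem exists_clear (P : MvPolynomial ι ℂ) :
    ∃ (m : ℕ) (F : S23.niceSub),
      (∀ z : ℍ, (D.den : ℍ → ℂ) z ^ m * (MvPolynomial.aeval D.g P) z = (F : ℍ → ℂ) z) ∧
      Phi D.den ^ m * MvPolynomial.aeval D.G P = Phi F := by
  induction P using MvPolynomial.induction_on with
  | C c =>
    refine ⟨0, algebraMap ℂ S23.niceSub c, fun z => ?_, ?_⟩
    · simp
    · rw [pow_zero, one_mul, MvPolynomial.aeval_C, Phi_algebraMap]
  | add p q hp hq =>
    obtain ⟨m₁, F₁, h₁, h₁'⟩ := hp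
    obtain ⟨m₂, F₂, h₂, h₂'⟩ := hq
    refine ⟨m₁ + m₂, D.den ^ m₂ * F₁ + D.den ^ m₁ * F₂, fun z => ?_, ?_⟩
    · have e : ((D.den ^ m₂ * F₁ + D.den ^ m₁ * F₂ : S23.niceSub) : ℍ → ℂ) z =
          (D.den : ℍ → ℂ) z ^ m₂ * (F₁ : ℍ → ℂ) z + (D.den : ℍ → ℂ) z ^ m₁ * (F₂ : ℍ → ℂ) z := rfl
      rw [e, ← h₁ z, ← h₂ z, map_add, Pi.add_apply]
      ring
    · simp only [map_add, map_mul, map_pow]
      rw [← h₁', ← h₂']
      ring
  | mul_X p i hp =>
    obtain ⟨m, F, h, h'⟩ := hp
    refine ⟨m + 1, F * D.num i, fun z => ?_, ?_⟩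
    · have e : ((F * D.num i : S23.niceSub) : ℍ → ℂ) z = (F : ℍ → ℂ) z * (D.num i : ℍ → ℂ) z := rfl
      rw [e, ← h z, ← D.den_mul_g i z, map_mul, MvPolynomial.aeval_X, Pi.mul_apply]
      ring
    · simp only [map_mul, MvPolynomial.aeval_X]
      rw [← h', ← D.Phi_den_mul_G i]
      ring

/-- **Generic bridge**: a complex polynomial relation holds among the functions `g i` iff it
holds among the series `G i`. -/
theorem bridge (P : MvPolynomial ι ℂ) :
    MvPolynomial.aeval D.g P = 0 ↔ MvPolynomial.aeval D.G P = 0 := by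
  obtain ⟨m, F, h, h'⟩ := D.exists_clear P
  have hD : Phi D.den ^ m ≠ 0 :=
    pow_ne_zero _ fun h0 => D.den_ne_zero (Phi_injective (by rw [h0, map_zero]))
  constructor
  · intro h0
    have hF : F = 0 := by
      apply Subtype.ext
      funext z
      rw [← h z, h0]
      simp
    rw [hF, map_zero] at h'
    exact (mul_eq_zero.mp h').resolve_left hD
  · intro h0
    rw [h0, mul_zero] at h'
    have hF : F = 0 := Phi_injective (by rw [← h', map_zero])
    funext z
    have hz := h z
    rw [hF] at hz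
    have hz' : (D.den : ℍ → ℂ) z ^ m * (MvPolynomial.aeval D.g P) z = 0 := hz
    exact (mul_eq_zero.mp hz').resolve_left (pow_ne_zero _ (D.den_apply_ne_zero z))

end Datum

/-! ### Base change of evaluations from `ℚ̄` to `ℂ` -/

section BaseChange

variable {ι : Type*}

/-- Base change of a formal evaluation. -/
theorem coeffMap_aeval (G : ι → LaurentSeries (AlgebraicClosure ℚ))
    (P : MvPolynomial ι (AlgebraicClosure ℚ)) :
    coeffMap embC (MvPolynomial.aeval G P) =
      MvPolynomial.aeval (fun i => coeffMap embC (G i)) (MvPolynomial.map embC P) := by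
  induction P using MvPolynomial.induction_on with
  | C c =>
    rw [MvPolynomial.aeval_C, MvPolynomial.map_C, MvPolynomial.aeval_C, coeffMap_embC_algebraMap]
  | add p q hp hq => simp only [map_add, hp, hq]
  | mul_X p d hp => simp only [map_mul, hp, MvPolynomial.aeval_X, MvPolynomial.map_X]

/-- Base change of an analytic evaluation. -/
theorem aeval_map (g : ι → (ℍ → ℂ)) (P : MvPolynomial ι (AlgebraicClosure ℚ)) :
    MvPolynomial.aeval g (MvPolynomial.map embC P) = MvPolynomial.aeval g P := by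
  induction P using MvPolynomial.induction_on with
  | C c =>
    rw [MvPolynomial.map_C, MvPolynomial.aeval_C, MvPolynomial.aeval_C]
    rfl
  | add p q hp hq => simp only [map_add, hp, hq]
  | mul_X p d hp => simp only [map_mul, hp, MvPolynomial.aeval_X, MvPolynomial.map_X]

/-- The generic bridge with coefficients in `ℚ̄`. -/
theorem Datum.bridgeK [Fintype ι] [DecidableEq ι] (D : Datum ι)
    (GK : ι → LaurentSeries (AlgebraicClosure ℚ)) (hGK : ∀ i, coeffMap embC (GK i) = D.G i)
    (P : MvPolynomial ι (AlgebraicClosure ℚ)) :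
    MvPolynomial.aeval GK P = 0 ↔ MvPolynomial.aeval D.g P = 0 := by
  rw [← aeval_map, D.bridge]
  have e : D.G = fun i => coeffMap embC (GK i) := funext fun i => (hGK i).symm
  rw [e, ← coeffMap_aeval]
  constructor
  · intro h
    rw [h, map_zero]
  · intro h
    exact coeffMap_embC_injective (by rw [h, map_zero])

end BaseChange

/-! ### Rotation and base change -/

theorem coeffMap_rotHom (ξ : AlgebraicClosure ℚ) (hξ : ξ ≠ 0) (ω : ℂ) (hω : ω ≠ 0)
    (h : embC ξ = ω) (x : LaurentSeries (AlgebraicClosure ℚ)) :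
    coeffMap embC (rotHom ξ hξ x) = rotHom ω hω (coeffMap embC x) := by
  ext k
  rw [coeffMap_coeff, rotHom_coeff, rotHom_coeff, coeffMap_coeff, map_mul, map_zpow₀, h]

/-! ### The mixed family -/

section Mixed

variable (N : ℕ) (p : ↥N.divisors → Prop) [DecidablePred p] (φ : ↥N.divisors → ↥N.divisors)
  (r : ℝ)

/-- The analytic mixed family: `j(e·)`, or the real translate `j(φ e · (r + ·))` where `p e`. -/
noncomputable def gMix : ↥N.divisors → (ℍ → ℂ) := fun e =>
  if p e then shiftFun r (jAt ((φ e : ↥N.divisors) : ℕ)) else jAt ((e : ↥N.divisors) : ℕ)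

/-- The formal mixed family over `ℂ`. -/
noncomputable def GMix (ω : ℂ) (hω : ω ≠ 0) : ↥N.divisors → LaurentSeries ℂ := fun e =>
  if p e then rotHom ω hω (GN N (φ e)) else GN N e

/-- The formal mixed family over `ℚ̄`: `j(Q^e)`, or `(Q ↦ ξ Q)(j(Q^{φ e}))` where `p e`. -/
noncomputable def GMixK (ξ : AlgebraicClosure ℚ) (hξ : ξ ≠ 0) :
    ↥N.divisors → LaurentSeries (AlgebraicClosure ℚ) := fun e =>
  if p e then rotHom ξ hξ (JFam N (φ e)) else JFam N e

theorem jAt_mul_uN (d : ↥N.divisors) (z : ℍ) :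
    jAt ((d : ↥N.divisors) : ℕ) z * (uN N d : ℍ → ℂ) z = ((eN N d ^ 3 : S23.niceSub) : ℍ → ℂ) z := by
  show jAt ((d : ↥N.divisors) : ℕ) z * ModularForm.discriminant (S23.mulN (d : ℕ) z) =
    (E₄ (S23.mulN (d : ℕ) z)) ^ 3
  rw [jAt_apply, LevelOne.jFun_mul_discriminant]

theorem GN_mul_Phi_uN' (d : ↥N.divisors) : GN N d * Phi (uN N d) = Phi (eN N d ^ 3) := by
  rw [map_pow]
  exact GN_mul_Phi_uN jRel d

/-- The bridge datum of the mixed family. -/
noncomputable def mixDatum (ω : ℂ) (hω : ω ≠ 0) (hωr : ω = Complex.exp (2 * π * Complex.I * r)) :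
    Datum ↥N.divisors where
  g := gMix N p φ r
  G := GMix N p φ ω hω
  u := fun e => if p e then shiftNice r (uN N (φ e)) else uN N e
  c := fun e => if p e then shiftNice r (eN N (φ e) ^ 3) else eN N e ^ 3
  u_ne := by
    intro e z
    by_cases h : p e
    · simp only [if_pos h]
      exact ModularForm.discriminant_ne_zero _
    · simp only [if_neg h]
      exact ModularForm.discriminant_ne_zero _
  gu := by
    intro e z
    by_cases h : p e
    · simp only [gMix, if_pos h]
      exact jAt_mul_uN N (φ e) (r +ᵥ z)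
    · simp only [gMix, if_neg h]
      exact jAt_mul_uN N e z
  GU := by
    intro e
    by_cases h : p e
    · simp only [GMix, if_pos h]
      subst hωr
      rw [Phi_shiftNice, Phi_shiftNice, ← map_mul, GN_mul_Phi_uN']
    · simp only [GMix, if_neg h]
      exact GN_mul_Phi_uN' N e

theorem coeffMap_GMixK (ξ : AlgebraicClosure ℚ) (hξ : ξ ≠ 0) (ω : ℂ) (hω : ω ≠ 0)
    (h : embC ξ = ω) (e : ↥N.divisors) :
    coeffMap embC (GMixK N p φ ξ hξ e) = GMix N p φ ω hω e := by
  unfold GMixK GMix
  by_cases hp : p e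
  · rw [if_pos hp, if_pos hp, coeffMap_rotHom ξ hξ ω hω h]
    rfl
  · rw [if_neg hp, if_neg hp]
    rfl

/-- **Mixed bridge**: a polynomial relation with coefficients in `ℚ̄` holds among the formal
series `j(Q^e)` / `(Q ↦ ξ Q)(j(Q^{φ e}))` iff it holds among the analytic functions
`j(e·)` / `j(φ e · (r + ·))`, provided `embC ξ = exp (2πi r)`. -/
theorem mixed_bridge (ξ : AlgebraicClosure ℚ) (hξ : ξ ≠ 0)
    (h : embC ξ = Complex.exp (2 * π * Complex.I * r))
    (P : MvPolynomial ↥N.divisors (AlgebraicClosure ℚ)) :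
    MvPolynomial.aeval (GMixK N p φ ξ hξ) P = 0 ↔ MvPolynomial.aeval (gMix N p φ r) P = 0 :=
  (mixDatum N p φ r _ (Complex.exp_ne_zero _) rfl).bridgeK (GMixK N p φ ξ hξ)
    (fun e => coeffMap_GMixK N p φ ξ hξ _ _ h e) P

end Mixed

end Fermat.Agent.S36.Iota3AnBridge
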