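import Mathlib
import Fermat.Agent.S24.Bridge
import Fermat.Agent.S24.AnBridgeB
import Fermat.Agent.S24.EmbFormal
import Fermat.Agent.S29.KBasic
import Fermat.Agent.S36.Iota3AnBridge

/-!
# S36 block [B1-eta], leaf E8a: the generic bridge

"Field homomorphisms of the function field that are given on the generators by precomposition
with a map `g` of the upper half plane act on every element by precomposition with `g`."

* `Rep X y`: the function `X` on the upper half plane is holomorphic and is a quotient `A / B` of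
  two nice functions (`1`-periodic, holomorphic, bounded at `i∞`) whose `q`-expansions have
  quotient `y`;  `RepW` is the same without holomorphy.
* calculus: constants, sums, products, polynomial expressions; `RepW 0 y → y = 0`,
  `Rep X 0 → X = 0`; the generators `Rep (j(d·)) (j(Q^d))`.
* `bridge`: let `E : F̄_N →ₐ[ℚ̄] ℚ̄((Q))` and `g : ℍ → ℍ` be such that for every generator
  `RepW (j(e · g(·))) (E (j(Q^e)))`.  If `x ∈ F̄_N` is represented by `X` and `X ∘ g` is
  represented by `y`, then `y = E x` (after base change to `ℂ`).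
-/

set_option autoImplicit false

namespace Fermat.Agent.S36.EtaBridge

open UpperHalfPlane ModularForm ModularCurve
open Fermat.Agent Fermat.Agent.S24
open Fermat.Agent.S24.AnBridge (Phi)
open scoped MatrixGroups ModularForm Manifold

local notation "Qb" => AlgebraicClosure ℚ

/-- `X` is a quotient `A / B` of nice functions, and `y` is the quotient of their
`q`-expansions. -/
def RepW (X : ℍ → ℂ) (y : LaurentSeries ℂ) : Prop :=
  ∃ A B : S23.niceSub, B ≠ 0 ∧ (∀ z, X z * (B : ℍ → ℂ) z = (A : ℍ → ℂ) z) ∧ y * Phi B = Phi A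

/-- `X` is holomorphic on the upper half plane, a quotient `A / B` of nice functions, and `y`
is the quotient of their `q`-expansions. -/
def Rep (X : ℍ → ℂ) (y : LaurentSeries ℂ) : Prop :=
  MDiff X ∧ ∃ A B : S23.niceSub, B ≠ 0 ∧ (∀ z, X z * (B : ℍ → ℂ) z = (A : ℍ → ℂ) z) ∧
    y * Phi B = Phi A

theorem rep_iff {X : ℍ → ℂ} {y : LaurentSeries ℂ} : Rep X y ↔ MDiff X ∧ RepW X y := Iff.rfl

theorem Rep.repW {X : ℍ → ℂ} {y : LaurentSeries ℂ} (h : Rep X y) : RepW X y := h.2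

theorem Rep.mdiff {X : ℍ → ℂ} {y : LaurentSeries ℂ} (h : Rep X y) : MDiff X := h.1

theorem Phi_ne_zero {B : S23.niceSub} (hB : B ≠ 0) : Phi B ≠ 0 := fun h =>
  hB (AnBridge.Phi_injective (by rw [h, map_zero]))

theorem niceSub_mul_ne_zero {B₁ B₂ : S23.niceSub} (h₁ : B₁ ≠ 0) (h₂ : B₂ ≠ 0) : B₁ * B₂ ≠ 0 := by
  intro h
  have := congrArg Phi h
  rw [map_mul, map_zero] at this
  exact (mul_ne_zero (Phi_ne_zero h₁) (Phi_ne_zero h₂)) this

/-! ### The calculus of `RepW` -/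

theorem RepW.congr {X X' : ℍ → ℂ} {y : LaurentSeries ℂ} (h : RepW X y) (hX : ∀ z, X' z = X z) :
    RepW X' y := by
  obtain ⟨A, B, hB, h1, h2⟩ := h
  exact ⟨A, B, hB, fun z => by rw [hX z, h1 z], h2⟩

theorem RepW.of_nice (F : S23.niceSub) : RepW (F : ℍ → ℂ) (Phi F) :=
  ⟨F, 1, one_ne_zero, fun z => by
    show (F : ℍ → ℂ) z * (1 : ℂ) = (F : ℍ → ℂ) z
    rw [mul_one], by rw [map_one, mul_one]⟩

theorem RepW.const (c : ℂ) : RepW (fun _ => c) (algebraMap ℂ (LaurentSeries ℂ) c) := by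
  have h := RepW.of_nice (algebraMap ℂ S23.niceSub c)
  rw [AnBridge.Phi_algebraMap] at h
  exact h.congr fun z => by simp [Algebra.algebraMap_eq_smul_one]

theorem RepW.zero : RepW (0 : ℍ → ℂ) 0 := by
  have h := RepW.const 0
  rw [map_zero] at h
  exact h

theorem RepW.one : RepW (1 : ℍ → ℂ) 1 := by
  have h := RepW.const 1
  rw [map_one] at h
  exact h

theorem RepW.add {X₁ X₂ : ℍ → ℂ} {y₁ y₂ : LaurentSeries ℂ} (h₁ : RepW X₁ y₁) (h₂ : RepW X₂ y₂) :
    RepW (X₁ + X₂) (y₁ + y₂) := by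
  obtain ⟨A₁, B₁, hB₁, e₁, f₁⟩ := h₁
  obtain ⟨A₂, B₂, hB₂, e₂, f₂⟩ := h₂
  refine ⟨A₁ * B₂ + A₂ * B₁, B₁ * B₂, niceSub_mul_ne_zero hB₁ hB₂, fun z => ?_, ?_⟩
  · show (X₁ z + X₂ z) * ((B₁ : ℍ → ℂ) z * (B₂ : ℍ → ℂ) z)
      = (A₁ : ℍ → ℂ) z * (B₂ : ℍ → ℂ) z + (A₂ : ℍ → ℂ) z * (B₁ : ℍ → ℂ) z
    rw [← e₁ z, ← e₂ z]
    ring
  · simp only [map_add, map_mul]
    rw [← f₁, ← f₂]
    ring

theorem RepW.mul {X₁ X₂ : ℍ → ℂ} {y₁ y₂ : LaurentSeries ℂ} (h₁ : RepW X₁ y₁) (h₂ : RepW X₂ y₂) :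
    RepW (X₁ * X₂) (y₁ * y₂) := by
  obtain ⟨A₁, B₁, hB₁, e₁, f₁⟩ := h₁
  obtain ⟨A₂, B₂, hB₂, e₂, f₂⟩ := h₂
  refine ⟨A₁ * A₂, B₁ * B₂, niceSub_mul_ne_zero hB₁ hB₂, fun z => ?_, ?_⟩
  · show (X₁ z * X₂ z) * ((B₁ : ℍ → ℂ) z * (B₂ : ℍ → ℂ) z)
      = (A₁ : ℍ → ℂ) z * (A₂ : ℍ → ℂ) z
    rw [← e₁ z, ← e₂ z]
    ring
  · simp only [map_mul]
    rw [← f₁, ← f₂]
    ring

theorem RepW.neg {X : ℍ → ℂ} {y : LaurentSeries ℂ} (h : RepW X y) : RepW (-X) (-y) := by
  obtain ⟨A, B, hB, e, f⟩ := h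
  refine ⟨-A, B, hB, fun z => ?_, ?_⟩
  · show -X z * (B : ℍ → ℂ) z = -(A : ℍ → ℂ) z
    rw [← e z]
    ring
  · rw [map_neg, ← f]
    ring

theorem RepW.sub {X₁ X₂ : ℍ → ℂ} {y₁ y₂ : LaurentSeries ℂ} (h₁ : RepW X₁ y₁) (h₂ : RepW X₂ y₂) :
    RepW (X₁ - X₂) (y₁ - y₂) := by
  rw [sub_eq_add_neg, sub_eq_add_neg]
  exact h₁.add h₂.neg

/-- The series of the zero function is zero. -/
theorem RepW.eq_zero {y : LaurentSeries ℂ} (h : RepW (0 : ℍ → ℂ) y) : y = 0 := by
  obtain ⟨A, B, hB, e, f⟩ := h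
  have hA : A = 0 := by
    apply Subtype.ext
    funext z
    rw [← e z]
    simp
  rw [hA, map_zero] at f
  exact (mul_eq_zero.mp f).resolve_right (Phi_ne_zero hB)

/-- The series of a function is unique. -/
theorem RepW.unique {X : ℍ → ℂ} {y y' : LaurentSeries ℂ} (h : RepW X y) (h' : RepW X y') :
    y = y' := by
  have h0 := h.sub h'
  rw [sub_self] at h0
  exact sub_eq_zero.mp h0.eq_zero

/-- Quotients: if `X * Y = Z` pointwise, `Y` and `Z` are represented by `y ≠ 0` and `z`, then `X`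
is represented by `z / y`. -/
theorem RepW.of_mul_eq {X Y Z : ℍ → ℂ} {y z : LaurentSeries ℂ} (hY : RepW Y y) (hy : y ≠ 0)
    (hZ : RepW Z z) (h : ∀ w, X w * Y w = Z w) : RepW X (z / y) := by
  obtain ⟨A₁, B₁, hB₁, e₁, f₁⟩ := hY
  obtain ⟨A₂, B₂, hB₂, e₂, f₂⟩ := hZ
  have hA₁ : A₁ ≠ 0 := by
    rintro rfl
    rw [map_zero] at f₁
    exact (mul_ne_zero hy (Phi_ne_zero hB₁)) f₁
  refine ⟨A₂ * B₁, A₁ * B₂, niceSub_mul_ne_zero hA₁ hB₂, fun w => ?_, ?_⟩
  · show X w * ((A₁ : ℍ → ℂ) w * (B₂ : ℍ → ℂ) w) = (A₂ : ℍ → ℂ) w * (B₁ : ℍ → ℂ) w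
    rw [← e₁ w, ← e₂ w, ← h w]
    ring
  · simp only [map_mul]
    rw [← f₁, ← f₂]
    field_simp

/-- Polynomial expressions, complex coefficients. -/
theorem RepW.aeval {ι : Type*} {g : ι → (ℍ → ℂ)} {G : ι → LaurentSeries ℂ}
    (h : ∀ i, RepW (g i) (G i)) (P : MvPolynomial ι ℂ) :
    RepW (MvPolynomial.aeval g P) (MvPolynomial.aeval G P) := by
  induction P using MvPolynomial.induction_on with
  | C c =>
    rw [MvPolynomial.aeval_C, MvPolynomial.aeval_C]
    exact (RepW.const c).congr fun z => rfl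
  | add p q hp hq =>
    rw [map_add, map_add]
    exact hp.add hq
  | mul_X p i hp =>
    rw [map_mul, map_mul, MvPolynomial.aeval_X, MvPolynomial.aeval_X]
    exact hp.mul (h i)

/-- Polynomial expressions, coefficients in `ℚ̄`. -/
theorem RepW.aevalK {ι : Type*} {g : ι → (ℍ → ℂ)} {G : ι → LaurentSeries Qb}
    (h : ∀ i, RepW (g i) (coeffMap embC (G i))) (P : MvPolynomial ι Qb) :
    RepW (MvPolynomial.aeval g P) (coeffMap embC (MvPolynomial.aeval G P)) := by
  rw [Iota3AnBridge.coeffMap_aeval, ← Iota3AnBridge.aeval_map]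
  exact RepW.aeval h _

/-! ### The calculus of `Rep` -/

theorem Rep.congr {X X' : ℍ → ℂ} {y : LaurentSeries ℂ} (h : Rep X y) (hX : ∀ z, X' z = X z) :
    Rep X' y := by
  have : X' = X := funext hX
  rw [this]
  exact h

theorem Rep.of_nice (F : S23.niceSub) : Rep (F : ℍ → ℂ) (Phi F) := ⟨F.2.2.1, RepW.of_nice F⟩

/-- A nice function is represented by its `q`-expansion. -/
theorem rep_qx {F : ℍ → ℂ} (hF : F ∈ S23.niceSub) : Rep F (S29.K.qx F) := by
  rw [S29.K.qx_eq_Phi hF]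
  exact Rep.of_nice ⟨F, hF⟩

/-- The defining shape in `qx` form: `X * B = A` pointwise and `y * qx B = qx A`. -/
theorem rep_of_qx {X A B : ℍ → ℂ} {y : LaurentSeries ℂ} (hX : MDiff X) (hA : A ∈ S23.niceSub)
    (hB : B ∈ S23.niceSub) (hB0 : B ≠ 0) (h : ∀ z, X z * B z = A z)
    (hy : y * S29.K.qx B = S29.K.qx A) : Rep X y := by
  rw [S29.K.qx_eq_Phi hA, S29.K.qx_eq_Phi hB] at hy
  exact ⟨hX, ⟨A, hA⟩, ⟨B, hB⟩, fun h0 => hB0 (congrArg Subtype.val h0), h, hy⟩

theorem Rep.const (c : ℂ) : Rep (fun _ => c) (algebraMap ℂ (LaurentSeries ℂ) c) :=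
  ⟨mdifferentiable_const, RepW.const c⟩

theorem Rep.add {X₁ X₂ : ℍ → ℂ} {y₁ y₂ : LaurentSeries ℂ} (h₁ : Rep X₁ y₁) (h₂ : Rep X₂ y₂) :
    Rep (X₁ + X₂) (y₁ + y₂) := ⟨h₁.1.add h₂.1, RepW.add h₁.2 h₂.2⟩

theorem Rep.mul {X₁ X₂ : ℍ → ℂ} {y₁ y₂ : LaurentSeries ℂ} (h₁ : Rep X₁ y₁) (h₂ : Rep X₂ y₂) :
    Rep (X₁ * X₂) (y₁ * y₂) := ⟨h₁.1.mul h₂.1, RepW.mul h₁.2 h₂.2⟩

theorem Rep.neg {X : ℍ → ℂ} {y : LaurentSeries ℂ} (h : Rep X y) : Rep (-X) (-y) :=
  ⟨h.1.neg, RepW.neg h.2⟩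

theorem Rep.sub {X₁ X₂ : ℍ → ℂ} {y₁ y₂ : LaurentSeries ℂ} (h₁ : Rep X₁ y₁) (h₂ : Rep X₂ y₂) :
    Rep (X₁ - X₂) (y₁ - y₂) := ⟨h₁.1.sub h₂.1, RepW.sub h₁.2 h₂.2⟩

/-- A holomorphic function whose series is zero vanishes identically. -/
theorem Rep.eq_zero {X : ℍ → ℂ} (h : Rep X 0) : X = 0 := by
  obtain ⟨hX, A, B, hB, e, f⟩ := h
  rw [zero_mul] at f
  have hA : A = 0 := AnBridge.Phi_injective (by rw [← f, map_zero])
  have hXB : X * (B : ℍ → ℂ) = 0 := by
    funext z
    show X z * (B : ℍ → ℂ) z = 0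
    rw [e z, hA]
    rfl
  rcases S29.K.eq_zero_or_eq_zero_of_mul_eq_zero hX B.2.2.1 hXB with h0 | h0
  · exact h0
  · exact absurd (Subtype.ext h0) hB

/-- The function with a given series is unique. -/
theorem Rep.fun_unique {X X' : ℍ → ℂ} {y : LaurentSeries ℂ} (h : Rep X y) (h' : Rep X' y) :
    X = X' := by
  have h0 := h.sub h'
  rw [sub_self] at h0
  exact sub_eq_zero.mp h0.eq_zero

/-- Polynomial expressions, complex coefficients. -/
theorem Rep.aeval {ι : Type*} {g : ι → (ℍ → ℂ)} {G : ι → LaurentSeries ℂ}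
    (h : ∀ i, Rep (g i) (G i)) (P : MvPolynomial ι ℂ) :
    Rep (MvPolynomial.aeval g P) (MvPolynomial.aeval G P) := by
  induction P using MvPolynomial.induction_on with
  | C c =>
    rw [MvPolynomial.aeval_C, MvPolynomial.aeval_C]
    exact (Rep.const c).congr fun z => rfl
  | add p q hp hq =>
    rw [map_add, map_add]
    exact hp.add hq
  | mul_X p i hp =>
    rw [map_mul, map_mul, MvPolynomial.aeval_X, MvPolynomial.aeval_X]
    exact hp.mul (h i)

/-- Polynomial expressions, coefficients in `ℚ̄`. -/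
theorem Rep.aevalK {ι : Type*} {g : ι → (ℍ → ℂ)} {G : ι → LaurentSeries Qb}
    (h : ∀ i, Rep (g i) (coeffMap embC (G i))) (P : MvPolynomial ι Qb) :
    Rep (MvPolynomial.aeval g P) (coeffMap embC (MvPolynomial.aeval G P)) := by
  rw [Iota3AnBridge.coeffMap_aeval, ← Iota3AnBridge.aeval_map]
  exact Rep.aeval h _

/-! ### The generators -/

/-- The generator `j(d·)` is represented by the formal generator `j(Q^d)`. -/
theorem rep_jAtFam (N : ℕ) (d : ↥N.divisors) :
    Rep (jAtFam N d) (coeffMap embC (JFam N d)) := by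
  refine ⟨jAt_mdiff (d : ℕ), AnBridge.eN N d ^ 3, AnBridge.uN N d, ?_, fun z => ?_, ?_⟩
  · intro h
    have := congrArg (fun F : S23.niceSub => (F : ℍ → ℂ) UpperHalfPlane.I) h
    exact ModularForm.discriminant_ne_zero _ this
  · show jAt ((d : ↥N.divisors) : ℕ) z * ModularForm.discriminant (S23.mulN (d : ℕ) z) =
      (E₄ (S23.mulN (d : ℕ) z)) ^ 3
    rw [jAt_apply, LevelOne.jFun_mul_discriminant]
  · rw [map_pow]
    exact AnBridge.GN_mul_Phi_uN jRel d

/-- Polynomials in the generators. -/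
theorem rep_aeval_jAtFam (N : ℕ) (P : MvPolynomial ↥N.divisors Qb) :
    Rep (MvPolynomial.aeval (jAtFam N) P) (coeffMap embC (MvPolynomial.aeval (JFam N) P)) :=
  Rep.aevalK (rep_jAtFam N) P

/-! ### The bridge -/

/-- Evaluation of polynomials in functions on `ℍ` is pointwise. -/
theorem aeval_apply {σ : Type*} (f : σ → (ℍ → ℂ)) (P : MvPolynomial σ Qb) (z : ℍ) :
    (MvPolynomial.aeval f P) z = MvPolynomial.aeval (fun i => f i z) P := by
  have h := MvPolynomial.comp_aeval (R := Qb) (f := f)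
    (φ := (Pi.evalAlgHom Qb (fun _ : ℍ => ℂ) z))
  have h2 := congrArg (fun g => g P) h
  simpa using h2

/-- Polynomial expressions commute with precomposition. -/
theorem aeval_comp {σ : Type*} (f : σ → (ℍ → ℂ)) (g : ℍ → ℍ) (P : MvPolynomial σ Qb) (z : ℍ) :
    (MvPolynomial.aeval f P) (g z) = (MvPolynomial.aeval (fun i => fun z => f i (g z)) P) z := by
  rw [aeval_apply, aeval_apply]

/-- Every element of the function field is a quotient of polynomials in the generators. -/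
theorem exists_fraction (N : ℕ) [NeZero N] (x : ↥(modularFunctionFieldBar N)) :
    ∃ P Q : MvPolynomial ↥N.divisors Qb, MvPolynomial.aeval (genFam N) Q ≠ 0 ∧
      x * MvPolynomial.aeval (genFam N) Q = MvPolynomial.aeval (genFam N) P := by
  obtain ⟨a, b, hb, hab⟩ := IsFractionRing.div_surjective (A := ↥(RN N)) x
  obtain ⟨P, rfl⟩ := polyToRN_surjective N a
  obtain ⟨Q, rfl⟩ := polyToRN_surjective N b
  have hQ0 : (MvPolynomial.aeval (genFam N) Q : ↥(modularFunctionFieldBar N)) ≠ 0 := by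
    intro h0
    have h1 : polyToRN N Q = 0 := Subtype.ext h0
    exact (nonZeroDivisors.ne_zero hb) h1
  refine ⟨P, Q, hQ0, ?_⟩
  have h2 : (MvPolynomial.aeval (genFam N) P : ↥(modularFunctionFieldBar N))
      / MvPolynomial.aeval (genFam N) Q = x := hab
  rw [← h2, div_mul_cancel₀ _ hQ0]

/-- **The generic bridge, existence form.**  Let `E : F̄_N →ₐ[ℚ̄] ℚ̄((Q))` and `g : ℍ → ℍ` be such
that, for every generator, `j(e · g(·))` is represented by `E (j(Q^e))`.  If `x ∈ F̄_N` is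
represented by the holomorphic function `X`, then `X ∘ g` is represented by `E x`. -/
theorem bridge_rep {N : ℕ} [NeZero N]
    (E : ↥(modularFunctionFieldBar N) →ₐ[Qb] LaurentSeries Qb) (g : ℍ → ℍ)
    (hg : ∀ e : ↥N.divisors,
      RepW (fun z => jAtFam N e (g z)) (coeffMap embC (E (genFam N e))))
    (x : ↥(modularFunctionFieldBar N)) {X : ℍ → ℂ}
    (hX : Rep X (coeffMap embC (x : LaurentSeries Qb))) :
    RepW (fun z => X (g z)) (coeffMap embC (E x)) := by
  obtain ⟨P, Q, hQ0, hxQ⟩ := exists_fraction N x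
  -- the relation in `ℚ̄((Q))`
  have hrel : (x : LaurentSeries Qb) * MvPolynomial.aeval (JFam N) Q
      = MvPolynomial.aeval (JFam N) P := by
    have h1 := congrArg (fun t : ↥(modularFunctionFieldBar N) => (t : LaurentSeries Qb)) hxQ
    have hP : ((MvPolynomial.aeval (genFam N) P : ↥(modularFunctionFieldBar N)) :
        LaurentSeries Qb) = MvPolynomial.aeval (JFam N) P := coe_polyToRN N P
    have hQ : ((MvPolynomial.aeval (genFam N) Q : ↥(modularFunctionFieldBar N)) :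
        LaurentSeries Qb) = MvPolynomial.aeval (JFam N) Q := coe_polyToRN N Q
    rw [← hP, ← hQ]
    exact h1
  -- the relation on the upper half plane
  have hfun : X * MvPolynomial.aeval (jAtFam N) Q = MvPolynomial.aeval (jAtFam N) P := by
    have h1 := (hX.mul (rep_aeval_jAtFam N Q)).sub (rep_aeval_jAtFam N P)
    rw [← map_mul, hrel, sub_self] at h1
    exact sub_eq_zero.mp h1.eq_zero
  -- composition with `g`
  have hQg : ∀ z, (MvPolynomial.aeval (fun e => fun z => jAtFam N e (g z)) Q) z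
      = (MvPolynomial.aeval (jAtFam N) Q) (g z) := fun z => (aeval_comp (jAtFam N) g Q z).symm
  have hPg : ∀ z, (MvPolynomial.aeval (fun e => fun z => jAtFam N e (g z)) P) z
      = (MvPolynomial.aeval (jAtFam N) P) (g z) := fun z => (aeval_comp (jAtFam N) g P z).symm
  have hfung : ∀ z, X (g z) * (MvPolynomial.aeval (fun e => fun z => jAtFam N e (g z)) Q) z
      = (MvPolynomial.aeval (fun e => fun z => jAtFam N e (g z)) P) z := by
    intro z
    rw [hQg z, hPg z]
    have h2 := congrFun hfun (g z)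
    rw [Pi.mul_apply] at h2
    exact h2
  -- the images under `E`
  have hE : ∀ R : MvPolynomial ↥N.divisors Qb,
      E (MvPolynomial.aeval (genFam N) R) = MvPolynomial.aeval (fun e => E (genFam N e)) R := by
    intro R
    have h := MvPolynomial.comp_aeval (R := Qb) (f := genFam N) (φ := E)
    exact congrArg (fun φ => φ R) h
  have hRQ : RepW (MvPolynomial.aeval (fun e => fun z => jAtFam N e (g z)) Q)
      (coeffMap embC (E (MvPolynomial.aeval (genFam N) Q))) := by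
    rw [hE]
    exact RepW.aevalK hg Q
  have hRP : RepW (MvPolynomial.aeval (fun e => fun z => jAtFam N e (g z)) P)
      (coeffMap embC (E (MvPolynomial.aeval (genFam N) P))) := by
    rw [hE]
    exact RepW.aevalK hg P
  have hEQ : coeffMap embC (E (MvPolynomial.aeval (genFam N) Q)) ≠ 0 := by
    intro h
    rw [← map_zero (coeffMap embC)] at h
    have h2 := AnBridge.coeffMap_embC_injective h
    rw [← map_zero E] at h2
    exact hQ0 (E.toRingHom.injective h2)
  have h1 := RepW.of_mul_eq hRQ hEQ hRP hfung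
  have h2 : coeffMap embC (E (MvPolynomial.aeval (genFam N) P))
      / coeffMap embC (E (MvPolynomial.aeval (genFam N) Q)) = coeffMap embC (E x) := by
    rw [← hxQ, map_mul, map_mul, mul_div_cancel_right₀ _ hEQ]
  rw [h2] at h1
  exact h1

/-- **The generic bridge, uniqueness form.**  In the situation of `bridge_rep`: if `X ∘ g` is
represented by `y`, then `y = E x`. -/
theorem bridge {N : ℕ} [NeZero N]
    (E : ↥(modularFunctionFieldBar N) →ₐ[Qb] LaurentSeries Qb) (g : ℍ → ℍ)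
    (hg : ∀ e : ↥N.divisors,
      RepW (fun z => jAtFam N e (g z)) (coeffMap embC (E (genFam N e))))
    (x : ↥(modularFunctionFieldBar N)) {X : ℍ → ℂ}
    (hX : Rep X (coeffMap embC (x : LaurentSeries Qb)))
    {y : LaurentSeries ℂ} (hy : RepW (fun z => X (g z)) y) :
    y = coeffMap embC (E x) :=
  hy.unique (bridge_rep E g hg x hX)

/-- **The bridge for endomorphisms of the function field.**  If `φ : F̄_N →ₐ[ℚ̄] F̄_N` is given on
the generators by precomposition with `g`, `x` is represented by the holomorphic `X`, `x'` by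
`X'`, and `X ∘ g = X'`, then `φ x = x'`. -/
theorem bridge_algHom {N : ℕ} [NeZero N]
    (φ : ↥(modularFunctionFieldBar N) →ₐ[Qb] ↥(modularFunctionFieldBar N)) (g : ℍ → ℍ)
    (hg : ∀ e : ↥N.divisors, RepW (fun z => jAtFam N e (g z))
      (coeffMap embC ((φ (genFam N e) : ↥(modularFunctionFieldBar N)) : LaurentSeries Qb)))
    (x x' : ↥(modularFunctionFieldBar N)) {X X' : ℍ → ℂ}
    (hX : Rep X (coeffMap embC (x : LaurentSeries Qb)))
    (hX' : RepW X' (coeffMap embC (x' : LaurentSeries Qb)))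
    (hXX' : ∀ z, X (g z) = X' z) : φ x = x' := by
  have h := bridge ((modularFunctionFieldBar N).val.comp φ) g hg x hX
    (y := coeffMap embC (x' : LaurentSeries Qb)) (hX'.congr hXX')
  have h2 := AnBridge.coeffMap_embC_injective h
  exact (Subtype.ext h2).symm

end Fermat.Agent.S36.EtaBridge
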