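import Mathlib
import Fermat.Agent.S36.EtaBridge
import Fermat.Agent.S35.ALQx
import Fermat.Agent.S36.EtaHInv

/-!
# S36 block [B1-eta], leaf E8a: the Atkin–Lehner identity at level `M q` for the eta unit `h1`

* `bridge_mul_eq`: product form of the generic bridge: from `X (g w) * Y w = Z w` one gets
  `E x * y = z` for the series.
* level `M q` (`q ∤ M` prime): the Atkin–Lehner involution `w_q = S34.WK.wBar` acts on represented
  elements by precomposition with `z ↦ γ₀ (q z)`, `γ₀ = (a b; M q)` (`rep_wBar`,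
  `wBar_eq_of_rep`, `wBar_mul_eq_const`, `wK_mul_eq_const`).
* the eta unit: for `G` with `EtaHInv.Law N0 chi G` (`N0 ∣ M`), nowhere zero, and the element
  `x` of the function field with `q`-expansion `h1 = G(q·)/G`:
  `w_q x * x = chi 1 / chi q * q⁻¹` (`wBar_h1`, `wK_h1`, `wK_h1_eq`).
-/

set_option autoImplicit false

namespace Fermat.Agent.S36.EtaBridgeAL

open UpperHalfPlane ModularForm ModularCurve CongruenceSubgroup
open Fermat.Agent Fermat.Agent.S24 Fermat.Agent.S23 Fermat.Agent.S36.EtaBridge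
open Fermat.Agent.S18.Arith
open scoped MatrixGroups ModularForm Manifold

local notation "Qb" => AlgebraicClosure ℚ

/-- **Product form of the generic bridge.** -/
theorem bridge_mul_eq {N : ℕ} [NeZero N]
    (E : ↥(modularFunctionFieldBar N) →ₐ[Qb] LaurentSeries Qb) (g : ℍ → ℍ)
    (hg : ∀ e : ↥N.divisors,
      RepW (fun z => jAtFam N e (g z)) (coeffMap embC (E (genFam N e))))
    (x : ↥(modularFunctionFieldBar N)) {X : ℍ → ℂ}
    (hX : Rep X (coeffMap embC (x : LaurentSeries Qb)))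
    {Y Z : ℍ → ℂ} {y z : LaurentSeries ℂ} (hY : RepW Y y) (hZ : RepW Z z)
    (h : ∀ w, X (g w) * Y w = Z w) : coeffMap embC (E x) * y = z :=
  ((bridge_rep E g hg x hX).mul hY).unique (hZ.congr h)

/-- The constants of `F̄_N` after base change. -/
theorem coeffMap_coe_algebraMap (N : ℕ) (c : Qb) :
    coeffMap embC ((algebraMap Qb ↥(modularFunctionFieldBar N) c : ↥(modularFunctionFieldBar N)) :
      LaurentSeries Qb) = algebraMap ℂ (LaurentSeries ℂ) (embC c) :=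
  AnBridge.coeffMap_embC_algebraMap c

/-! ### Level `M q` -/

section LevelQ

variable (M q : ℕ) [NeZero M] [NeZero q] (hq : q.Prime) (hqM : ¬ q ∣ M)

omit [NeZero M] [NeZero q] in
include hq hqM in
/-- There is a matrix `γ₀ = (a b; M q)` in `SL(2, ℤ)`. -/
theorem exists_gamma0 : ∃ (γ₀ : SL(2, ℤ)) (a b : ℤ),
    (γ₀ : Matrix (Fin 2) (Fin 2) ℤ) = !![a, b; (M : ℤ), (q : ℤ)] := by
  have hcop : Nat.Coprime q M := (Nat.Prime.coprime_iff_not_dvd hq).mpr hqM
  obtain ⟨γ₀, -, -, -, a, b, h₀, -⟩ := S37.W.exists_atkinLehner_matrices M q hcop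
  exact ⟨γ₀, a, b, h₀⟩

/-- **(W1), existence form.** If `x ∈ F̄_{Mq}` is represented by the holomorphic `X`, then
`z ↦ X (γ₀ (q z))` is represented by `w_q x`. -/
theorem rep_wBar (γ₀ : SL(2, ℤ)) (a b : ℤ)
    (h₀ : (γ₀ : Matrix (Fin 2) (Fin 2) ℤ) = !![a, b; (M : ℤ), (q : ℤ)])
    (x : ↥(modularFunctionFieldBar (M * q))) {X : ℍ → ℂ}
    (hX : Rep X (coeffMap embC (x : LaurentSeries Qb))) :
    RepW (fun z => X (γ₀ • mulN q z))
      (coeffMap embC ((S34.WK.wBar M q hq hqM x : ↥(modularFunctionFieldBar (M * q))) :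
        LaurentSeries Qb)) := by
  have h := bridge_rep
    ((modularFunctionFieldBar (M * q)).val.comp (S34.WK.wBar M q hq hqM).toAlgHom)
    (fun z => γ₀ • mulN q z)
    (fun e => by
      show RepW (fun z => jAtFam (M * q) e (γ₀ • mulN q z))
        (coeffMap embC ((S34.WK.wBar M q hq hqM (genFam (M * q) e) :
          ↥(modularFunctionFieldBar (M * q))) : LaurentSeries Qb))
      rw [S35.ALQx.wBar_genFam, coe_genFam]
      exact (rep_jAtFam (M * q) (S37.W.swapDiv M q hq e)).repW.congr fun z =>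
        (S35.ALQx.jAtFam_swapDiv M q hq γ₀ a b h₀ e z).symm)
    x hX
  exact h

/-- **(W1), uniqueness form.** -/
theorem wBar_eq_of_rep (γ₀ : SL(2, ℤ)) (a b : ℤ)
    (h₀ : (γ₀ : Matrix (Fin 2) (Fin 2) ℤ) = !![a, b; (M : ℤ), (q : ℤ)])
    (x x' : ↥(modularFunctionFieldBar (M * q))) {X X' : ℍ → ℂ}
    (hX : Rep X (coeffMap embC (x : LaurentSeries Qb)))
    (hX' : RepW X' (coeffMap embC (x' : LaurentSeries Qb)))
    (hXX' : ∀ z, X (γ₀ • mulN q z) = X' z) : S34.WK.wBar M q hq hqM x = x' := by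
  have h := (rep_wBar M q hq hqM γ₀ a b h₀ x hX).unique (hX'.congr hXX')
  exact Subtype.ext (AnBridge.coeffMap_embC_injective h)

/-- **(W1), product form.** If `X (γ₀ (q z)) * X z` is the constant `c`, then `w_q x * x = c`. -/
theorem wBar_mul_eq_const (γ₀ : SL(2, ℤ)) (a b : ℤ)
    (h₀ : (γ₀ : Matrix (Fin 2) (Fin 2) ℤ) = !![a, b; (M : ℤ), (q : ℤ)])
    (x : ↥(modularFunctionFieldBar (M * q))) {X : ℍ → ℂ}
    (hX : Rep X (coeffMap embC (x : LaurentSeries Qb))) (c : Qb)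
    (h : ∀ z, X (γ₀ • mulN q z) * X z = embC c) :
    S34.WK.wBar M q hq hqM x * x = algebraMap Qb ↥(modularFunctionFieldBar (M * q)) c := by
  have h1 := ((rep_wBar M q hq hqM γ₀ a b h₀ x hX).mul hX.repW).unique
    ((RepW.const (embC c)).congr h)
  apply Subtype.ext
  apply AnBridge.coeffMap_embC_injective
  rw [coeffMap_coe_algebraMap, ← h1, ← map_mul]
  rfl

/-- **(W1), product form over `K`.** -/
theorem wK_mul_eq_const (K : IntermediateField ℚ Qb) (γ₀ : SL(2, ℤ)) (a b : ℤ)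
    (h₀ : (γ₀ : Matrix (Fin 2) (Fin 2) ℤ) = !![a, b; (M : ℤ), (q : ℤ)])
    (x : FK (M * q) K) {X : ℍ → ℂ}
    (hX : Rep X (coeffMap embC (x : LaurentSeries Qb))) (c : K)
    (h : ∀ z, X (γ₀ • mulN q z) * X z = embC (c : Qb)) :
    S34.WK.wK M q hq hqM K x * x = constK (M * q) K c := by
  have h1 := wBar_mul_eq_const M q hq hqM γ₀ a b h₀ (S18.Glob.toBar (M * q) K x) hX (c : Qb) h
  have h2 := congrArg (fun t : ↥(modularFunctionFieldBar (M * q)) => (t : LaurentSeries Qb)) h1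
  apply Subtype.ext
  have h3 : ((algebraMap Qb ↥(modularFunctionFieldBar (M * q)) (c : Qb) :
      ↥(modularFunctionFieldBar (M * q))) : LaurentSeries Qb) = HahnSeries.C (c : Qb) :=
    S34.WK.coe_algebraMap_bar (M * q) (c : Qb)
  exact h2.trans h3

end LevelQ

/-! ### The eta unit `h1` -/

section Eta

variable (M q : ℕ) [NeZero M] [NeZero q] (hq : q.Prime) (hqM : ¬ q ∣ M)
variable {G : ℍ → ℂ} {N0 : ℕ} {chi : ℤ → ℂ}

omit [NeZero M] in
/-- The analytic Atkin–Lehner identity of `h1` at `γ₀ = (a b; M q)`. -/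
theorem h1_point (hG : EtaHInv.Law N0 chi G) (hG0 : ∀ z, G z ≠ 0) (hN0 : N0 ∣ M)
    (γ₀ : SL(2, ℤ)) (a b : ℤ)
    (h₀ : (γ₀ : Matrix (Fin 2) (Fin 2) ℤ) = !![a, b; (M : ℤ), (q : ℤ)]) (z : ℍ) :
    EtaHInv.h1 G q (γ₀ • mulN q z) * EtaHInv.h1 G q z = chi 1 / chi (q : ℤ) * (q : ℂ)⁻¹ := by
  have e10 : (γ₀ 1 0 : ℤ) = M := by
    have := congrFun (congrFun h₀ 1) 0; simpa using this
  have e11 : (γ₀ 1 1 : ℤ) = q := by
    have := congrFun (congrFun h₀ 1) 1; simpa using this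
  have hK : (N0 : ℤ) ∣ γ₀ 1 0 := by
    rw [e10]; exact Int.natCast_dvd_natCast.mpr hN0
  have h := EtaHInv.h1_ALq hG hG0 q γ₀ 1 hK (by rw [e11, mul_one]) z
  rw [h, mul_one, mul_assoc, inv_mul_cancel₀ (EtaHInv.h1_ne_zero hG0 q z), mul_one]

/-- **The Atkin–Lehner identity of the eta unit, `F̄` form**: `w_q x * x = chi 1 / chi q * q⁻¹`
for the element `x` of `F̄_{Mq}` with `q`-expansion `h1 = G(q·)/G`. -/
theorem wBar_h1 (hG : EtaHInv.Law N0 chi G) (hG0 : ∀ z, G z ≠ 0) (hN0 : N0 ∣ M)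
    (hnice : EtaHInv.h1 G q ∈ S23.niceSub)
    (x : ↥(modularFunctionFieldBar (M * q)))
    (hx : coeffMap embC (x : LaurentSeries Qb) = S29.K.qx (EtaHInv.h1 G q))
    (c : Qb) (hc : embC c = chi 1 / chi (q : ℤ) * (q : ℂ)⁻¹) :
    S34.WK.wBar M q hq hqM x * x = algebraMap Qb ↥(modularFunctionFieldBar (M * q)) c := by
  obtain ⟨γ₀, a, b, h₀⟩ := exists_gamma0 M q hq hqM
  have hX : Rep (EtaHInv.h1 G q) (coeffMap embC (x : LaurentSeries Qb)) := by
    rw [hx]; exact rep_qx hnice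
  exact wBar_mul_eq_const M q hq hqM γ₀ a b h₀ x hX c
    (fun z => by rw [hc]; exact h1_point M q hG hG0 hN0 γ₀ a b h₀ z)

/-- **The Atkin–Lehner identity of the eta unit over `K`**: `w_q x * x = chi 1 / chi q * q⁻¹`
for `x ∈ F_K(Mq)` with `q`-expansion `h1 = G(q·)/G`. -/
theorem wK_h1 (K : IntermediateField ℚ Qb) (hG : EtaHInv.Law N0 chi G) (hG0 : ∀ z, G z ≠ 0)
    (hN0 : N0 ∣ M) (hnice : EtaHInv.h1 G q ∈ S23.niceSub)
    (x : FK (M * q) K)
    (hx : coeffMap embC (x : LaurentSeries Qb) = S29.K.qx (EtaHInv.h1 G q))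
    (c : K) (hc : embC (c : Qb) = chi 1 / chi (q : ℤ) * (q : ℂ)⁻¹) :
    S34.WK.wK M q hq hqM K x * x = constK (M * q) K c := by
  obtain ⟨γ₀, a, b, h₀⟩ := exists_gamma0 M q hq hqM
  have hX : Rep (EtaHInv.h1 G q) (coeffMap embC (x : LaurentSeries Qb)) := by
    rw [hx]; exact rep_qx hnice
  exact wK_mul_eq_const M q hq hqM K γ₀ a b h₀ x hX c
    (fun z => by rw [hc]; exact h1_point M q hG hG0 hN0 γ₀ a b h₀ z)

/-- The same identity solved for `w_q x`: `w_q x = c * x⁻¹`. -/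
theorem wK_h1_eq (K : IntermediateField ℚ Qb) (hG : EtaHInv.Law N0 chi G) (hG0 : ∀ z, G z ≠ 0)
    (hN0 : N0 ∣ M) (hnice : EtaHInv.h1 G q ∈ S23.niceSub)
    (x : FK (M * q) K)
    (hx : coeffMap embC (x : LaurentSeries Qb) = S29.K.qx (EtaHInv.h1 G q))
    (c : K) (hc : embC (c : Qb) = chi 1 / chi (q : ℤ) * (q : ℂ)⁻¹) :
    S34.WK.wK M q hq hqM K x = constK (M * q) K c * x⁻¹ := by
  have h := wK_h1 M q hq hqM K hG hG0 hN0 hnice x hx c hc
  have hx0 : x ≠ 0 := by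
    rintro rfl
    have h1 : S29.K.qx (EtaHInv.h1 G q) = 0 := by
      rw [← hx]
      show coeffMap embC (0 : LaurentSeries Qb) = 0
      rw [map_zero]
    have h2 := (S29.K.qx_eq_zero_iff hnice).mp h1
    exact EtaHInv.h1_ne_zero hG0 q UpperHalfPlane.I (congrFun h2 _)
  rw [← h, mul_assoc, mul_inv_cancel₀ hx0, mul_one]

end Eta

end Fermat.Agent.S36.EtaBridgeAL
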