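import Mathlib
import Fermat.Agent.S24.Bridge
import Fermat.Agent.S24.AnDistinct
import Fermat.Agent.S24.EmbFormal
import Fermat.Agent.S36.Iota3AnBridge

/-!
# S36 [MODEL3] / [IOTA3] B-copy (analytic route), file 3 (helper113): the middle-cusp embedding `ι3`

Level `N = (M * q) * q`, `q` prime, `q ∤ M`.  `F̄_N = ℚ̄(j(Q^e) : e ∣ N) ⊂ ℚ̄((Q))`.

**`exists_iota3`**: for EVERY primitive `q`-th root of unity `ξ ∈ ℚ̄` there is a `ℚ̄`-embedding
`E : F̄_N → ℚ̄((Q))` with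

* `E (j(Q^e)) = j(Q^e)` for `e ∣ N`, `q² ∤ e` (i.e. `E` is the identity on
  `α(F̄_{Mq}) = ℚ̄(j(Q^d), j(Q^{dq}) : d ∣ M)`), and
* `E (j(Q^{d q²})) = (Q ↦ ξ Q)(j(Q^d)) = j(ξ^d Q^d)` for `d ∣ M`.

These are the `q`-expansions at the middle cusps `1/(c q M)` of `X₀(M q²)`; the valuation `W3` of
the three-component model is the Gauss valuation along `E`.

Method (as `S37/W/Exotic.lean`): analytic input `γ = (1 0; c q M 1) ∈ Γ₀(M q)` with
`j(d q² · γ z) = j(d (z + m / q))` (`σ = (t, d m; -c M / d, q) ∈ SL₂(ℤ)`, `t q + m c M = 1`,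
`σ (d q² · γ z) = d (z + m / q)`), the S24 bridge, the mixed bridge of `Iota3AnBridge`
(shift law for real translates) and `S24.exists_algHom_of_eq_zero_iff`.
-/

set_option autoImplicit false

namespace Fermat.Agent.S36.Iota3An

open UpperHalfPlane ModularForm ModularCurve
open Fermat.Agent Fermat.Agent.S24 Fermat.Agent.S23 Fermat.Agent.LevelOne
open Fermat.Agent.S36.Iota3AnShift Fermat.Agent.S36.Iota3AnBridge
open scoped MatrixGroups ModularForm Manifold Real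

local notation "Qb" => AlgebraicClosure ℚ

/-! ### The analytic input -/

/-- The point identity `σ (d q² · γ z) = d (m / q + z)`. -/
theorem smul_mulN_eq (M q d d₂ m : ℕ) [NeZero d] [NeZero q] [NeZero (d * q ^ 2)]
    (hM : M = d * d₂) (c t : ℤ) (hct : t * q + m * c * M = 1) (γ σ : SL(2, ℤ))
    (hγ : (γ : Matrix (Fin 2) (Fin 2) ℤ) = !![1, 0; c * q * M, 1])
    (hσ : (σ : Matrix (Fin 2) (Fin 2) ℤ) = !![t, d * m; -(c * d₂), q]) (z : ℍ) :
    σ • mulN (d * q ^ 2) (γ • z) = mulN d (((m : ℝ) / q) +ᵥ z) := by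
  have e00 : (γ 0 0 : ℤ) = 1 := by
    have := congrFun (congrFun hγ 0) 0; simpa using this
  have e01 : (γ 0 1 : ℤ) = 0 := by
    have := congrFun (congrFun hγ 0) 1; simpa using this
  have e10 : (γ 1 0 : ℤ) = c * q * M := by
    have := congrFun (congrFun hγ 1) 0; simpa using this
  have e11 : (γ 1 1 : ℤ) = 1 := by
    have := congrFun (congrFun hγ 1) 1; simpa using this
  have f00 : (σ 0 0 : ℤ) = t := by
    have := congrFun (congrFun hσ 0) 0; simpa using this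
  have f01 : (σ 0 1 : ℤ) = d * m := by
    have := congrFun (congrFun hσ 0) 1; simpa using this
  have f10 : (σ 1 0 : ℤ) = -(c * d₂) := by
    have := congrFun (congrFun hσ 1) 0; simpa using this
  have f11 : (σ 1 1 : ℤ) = q := by
    have := congrFun (congrFun hσ 1) 1; simpa using this
  have hden0 : denom γ z ≠ 0 := denom_ne_zero _ _
  have hden1 : denom σ (mulN (d * q ^ 2) (γ • z)) ≠ 0 := denom_ne_zero _ _
  rw [ModularGroup.denom_apply] at hden0 hden1
  apply UpperHalfPlane.ext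
  rw [coe_mulN, UpperHalfPlane.coe_specialLinearGroup_apply, coe_mulN,
    UpperHalfPlane.coe_specialLinearGroup_apply, UpperHalfPlane.coe_vadd]
  simp only [algebraMap_int_eq, Int.coe_castRingHom, Complex.ofReal_intCast]
  rw [f10, f11, coe_mulN, UpperHalfPlane.coe_specialLinearGroup_apply] at hden1
  simp only [algebraMap_int_eq, Int.coe_castRingHom, Complex.ofReal_intCast] at hden1
  rw [e00, e01, e10, e11] at hden1
  rw [e10, e11] at hden0
  rw [e00, e01, e10, e11, f00, f01, f10, f11]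
  subst hM
  have hct' : (t : ℂ) * q + m * c * ((d : ℂ) * d₂) = 1 := by exact_mod_cast hct
  have hq0 : (q : ℂ) ≠ 0 := Nat.cast_ne_zero.mpr (NeZero.ne q)
  push_cast at hden0 hden1 ⊢
  rw [div_eq_iff hden1]
  have hw : (1 * (z : ℂ) + 0) / ((c : ℂ) * q * ((d : ℂ) * d₂) * z + 1) *
      ((c : ℂ) * q * ((d : ℂ) * d₂) * z + 1) = z := by
    rw [div_mul_cancel₀ _ hden0]; ring
  have hmq : (m : ℂ) / q * q = m := div_mul_cancel₀ _ hq0
  generalize (1 * (z : ℂ) + 0) / ((c : ℂ) * q * ((d : ℂ) * d₂) * z + 1) = w at hw ⊢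
  generalize (m : ℂ) / q = mq at hmq ⊢
  linear_combination ((d : ℂ) * q * w) * hct' + ((d : ℂ) * q) * hw
    + (-(d : ℂ) + d * c * d * d₂ * q * w) * hmq

theorem jAt_congr {a b : ℕ} [NeZero a] [NeZero b] (h : a = b) : jAt a = jAt b := by
  subst h
  rfl

/-- Evaluation of polynomials in functions on `ℍ` is pointwise. -/
theorem aeval_fun_apply {σ : Type*} (f : σ → (ℍ → ℂ)) (P : MvPolynomial σ Qb) (z : ℍ) :
    (MvPolynomial.aeval f P) z = MvPolynomial.aeval (fun i => f i z) P := by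
  have h := MvPolynomial.comp_aeval (R := Qb) (f := f)
    (φ := (Pi.evalAlgHom Qb (fun _ : ℍ => ℂ) z))
  have h2 := congrArg (fun g => g P) h
  simpa using h2

/-! ### The index bookkeeping at level `M q²` -/

section Index

variable (M q : ℕ)

/-- The "high" divisors of `M q²`: those divisible by `q²`. -/
def hi (e : ↥(M * q * q).divisors) : Prop := q ^ 2 ∣ (e : ℕ)

instance : DecidablePred (hi M q) := fun e => inferInstanceAs (Decidable (q ^ 2 ∣ (e : ℕ)))

/-- `e ↦ e / q²` on the high divisors (identity elsewhere). -/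
def low (e : ↥(M * q * q).divisors) : ↥(M * q * q).divisors :=
  if h : q ^ 2 ∣ (e : ℕ) then
    ⟨(e : ℕ) / q ^ 2, Nat.mem_divisors.mpr
      ⟨(Nat.div_dvd_of_dvd h).trans (Nat.dvd_of_mem_divisors e.2), (Nat.mem_divisors.mp e.2).2⟩⟩
  else e

theorem coe_low_of_dvd (e : ↥(M * q * q).divisors) (h : q ^ 2 ∣ (e : ℕ)) :
    ((low M q e : ↥(M * q * q).divisors) : ℕ) = (e : ℕ) / q ^ 2 := by
  unfold low
  rw [dif_pos h]

/-- A divisor of `M q²` not divisible by `q²` divides `M q`. -/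
theorem dvd_of_not_sq_dvd {M q : ℕ} (hq : q.Prime) {e : ℕ} (he : e ∣ M * q * q)
    (h : ¬ q ^ 2 ∣ e) : e ∣ M * q := by
  by_cases hqe : q ∣ e
  · obtain ⟨e', rfl⟩ := hqe
    have h' : ¬ q ∣ e' := fun h2 => h (by
      obtain ⟨e'', rfl⟩ := h2
      exact ⟨e'', by ring⟩)
    have h1 : e' ∣ M * q := by
      have : q * e' ∣ q * (M * q) := by
        have e1 : q * (M * q) = M * q * q := by ring
        rw [e1]; exact he
      exact (Nat.mul_dvd_mul_iff_left hq.pos).mp this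
    have hcop : Nat.Coprime e' q := ((Nat.Prime.coprime_iff_not_dvd hq).mpr h').symm
    have h2 : e' ∣ M := hcop.dvd_of_dvd_mul_right h1
    rw [mul_comm M q]
    exact Nat.mul_dvd_mul_left q h2
  · have hcop : Nat.Coprime e q := ((Nat.Prime.coprime_iff_not_dvd hq).mpr hqe).symm
    exact hcop.dvd_of_dvd_mul_right he

end Index

/-- **The analytic input**: `γ = (1 0; c q M 1)` with `j(e · γ z) = j(e z)` for `q² ∤ e` and
`j(d q² · γ z) = j(d (m / q + z))`. -/
theorem exists_gamma (M q : ℕ) [NeZero M] [NeZero q] (hq : q.Prime) (hqM : ¬ q ∣ M) (m : ℕ)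
    (hm : Nat.Coprime m q) :
    ∃ γ : SL(2, ℤ), ∀ (e : ↥(M * q * q).divisors) (z : ℍ),
      jAtFam (M * q * q) e (γ • z) =
        gMix (M * q * q) (hi M q) (low M q) ((m : ℝ) / q) e z := by
  have hMq : Nat.Coprime M q := ((Nat.Prime.coprime_iff_not_dvd hq).mpr hqM).symm
  have hcop : IsCoprime ((m * M : ℕ) : ℤ) (q : ℤ) :=
    Nat.isCoprime_iff_coprime.mpr (Nat.Coprime.mul_left hm hMq)
  obtain ⟨c, t, hct0⟩ := hcop
  have hct : t * q + m * c * M = 1 := by
    rw [← hct0]; push_cast; ring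
  have hdetγ : Matrix.det !![(1 : ℤ), 0; c * q * M, 1] = 1 := by
    rw [Matrix.det_fin_two_of]; ring
  let γ : SL(2, ℤ) := ⟨!![(1 : ℤ), 0; c * q * M, 1], hdetγ⟩
  have hγ : (γ : Matrix (Fin 2) (Fin 2) ℤ) = !![1, 0; c * q * M, 1] := rfl
  have hγmem : γ ∈ CongruenceSubgroup.Gamma0 (M * q) := by
    rw [CongruenceSubgroup.Gamma0_mem]
    show (((c * q * M : ℤ) : ℤ) : ZMod (M * q)) = 0
    have e1 : (c * q * M : ℤ) = c * ((M * q : ℕ) : ℤ) := by push_cast; ring
    rw [e1]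
    push_cast
    have e2 : ((M : ZMod (M * q)) * (q : ZMod (M * q))) = ((M * q : ℕ) : ZMod (M * q)) := by
      push_cast; rfl
    rw [e2, ZMod.natCast_self, mul_zero]
  refine ⟨γ, fun e z => ?_⟩
  obtain ⟨e, he⟩ := e
  have hedvd : e ∣ M * q * q := Nat.dvd_of_mem_divisors he
  have he0 : e ≠ 0 := (Nat.pos_of_mem_divisors he).ne'
  have : NeZero e := ⟨he0⟩
  have hL : jAtFam (M * q * q) ⟨e, he⟩ (γ • z) = jAt e (γ • z) := rfl
  rw [hL]
  by_cases h : q ^ 2 ∣ e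
  · -- the high generators
    have hR : gMix (M * q * q) (hi M q) (low M q) ((m : ℝ) / q) ⟨e, he⟩ z =
        jAt ((low M q ⟨e, he⟩ : ↥(M * q * q).divisors) : ℕ) (((m : ℝ) / q) +ᵥ z) := by
      unfold gMix
      rw [if_pos (show hi M q ⟨e, he⟩ from h)]
      rfl
    rw [hR]
    obtain ⟨d, hd⟩ := h
    have hd0 : d ≠ 0 := fun h0 => he0 (by rw [hd, h0, mul_zero])
    have : NeZero d := ⟨hd0⟩
    have : NeZero (d * q ^ 2) := ⟨Nat.mul_ne_zero hd0 (pow_ne_zero 2 hq.ne_zero)⟩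
    have hdM : d ∣ M := by
      have h1 : q ^ 2 * d ∣ q ^ 2 * M := by
        have e1 : q ^ 2 * M = M * q * q := by ring
        rw [e1, ← hd]; exact hedvd
      exact (Nat.mul_dvd_mul_iff_left (pow_pos hq.pos 2)).mp h1
    obtain ⟨d₂, hM⟩ := hdM
    have hlow : ((low M q ⟨e, he⟩ : ↥(M * q * q).divisors) : ℕ) = d := by
      rw [coe_low_of_dvd M q ⟨e, he⟩ ⟨d, hd⟩]
      show e / q ^ 2 = d
      rw [hd, Nat.mul_div_cancel_left _ (pow_pos hq.pos 2)]
    have hdetσ : Matrix.det !![t, (d : ℤ) * m; -(c * d₂), (q : ℤ)] = 1 := by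
      rw [Matrix.det_fin_two_of, ← hct, hM]; push_cast; ring
    let σ : SL(2, ℤ) := ⟨!![t, (d : ℤ) * m; -(c * d₂), (q : ℤ)], hdetσ⟩
    have hσ : (σ : Matrix (Fin 2) (Fin 2) ℤ) = !![t, (d : ℤ) * m; -(c * d₂), (q : ℤ)] := rfl
    have hed : e = d * q ^ 2 := by rw [hd, mul_comm]
    rw [jAt_congr hlow, jAt_congr hed, jAt_apply, jAt_apply, ← jFun_smul σ,
      smul_mulN_eq M q d d₂ m hM c t hct γ σ hγ hσ z]
  · -- the low generators: `Γ₀(M q)`-invariance
    have hR : gMix (M * q * q) (hi M q) (low M q) ((m : ℝ) / q) ⟨e, he⟩ z = jAt e z := by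
      unfold gMix
      rw [if_neg (show ¬ hi M q ⟨e, he⟩ from h)]
    rw [hR]
    have hedvd' : e ∣ M * q := dvd_of_not_sq_dvd hq hedvd h
    have h1 := congrFun (trans_jAt_of_mem_Gamma0 (M * q) e hedvd' (inv_mem hγmem)) z
    rw [trans_apply, inv_inv] at h1
    exact h1

/-! ### The relations -/

/-- The formal relations among the `j(Q^e)`, `e ∣ M q²`, are exactly the relations among the
mixed family `j(Q^e)` (`q² ∤ e`), `(Q ↦ ξ Q)(j(Q^{e / q²}))` (`q² ∣ e`). -/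
theorem aeval_GMixK_eq_zero_iff (M q : ℕ) [NeZero M] [NeZero q] (hq : q.Prime) (hqM : ¬ q ∣ M)
    (ξ : Qb) (hξ : IsPrimitiveRoot ξ q) (P : MvPolynomial ↥(M * q * q).divisors Qb) :
    MvPolynomial.aeval (GMixK (M * q * q) (hi M q) (low M q) ξ (hξ.ne_zero hq.ne_zero)) P = 0 ↔
      MvPolynomial.aeval (JFam (M * q * q)) P = 0 := by
  have hω : IsPrimitiveRoot (embC ξ) q := hξ.map_of_injective embC_injective
  obtain ⟨m, -, hmc, hexp⟩ := (Complex.isPrimitiveRoot_iff _ q hq.ne_zero).mp hω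
  have hr : embC ξ = Complex.exp (2 * π * Complex.I * (((m : ℝ) / q : ℝ) : ℂ)) := by
    rw [← hexp]; push_cast; rfl
  obtain ⟨γ, hγ⟩ := exists_gamma M q hq hqM m hmc
  rw [mixed_bridge (M * q * q) (hi M q) (low M q) ((m : ℝ) / q) ξ (hξ.ne_zero hq.ne_zero) hr P,
    bridge_iff (M * q * q) P]
  have key : MvPolynomial.aeval (gMix (M * q * q) (hi M q) (low M q) ((m : ℝ) / q)) P =
      fun z => (MvPolynomial.aeval (jAtFam (M * q * q)) P) (γ • z) := by
    funext z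
    rw [aeval_fun_apply, aeval_fun_apply]
    exact congrArg (fun f => MvPolynomial.aeval f P) (funext fun e => (hγ e z).symm)
  rw [key]
  constructor
  · intro h
    funext w
    have h1 := congrFun h (γ⁻¹ • w)
    simpa using h1
  · intro h
    funext z
    rw [h]
    rfl

/-! ### The embedding -/

/-- **[IOTA3]** (index form). For every primitive `q`-th root of unity `ξ`, a `ℚ̄`-embedding
`E : F̄_{M q²} → ℚ̄((Q))` which is the identity on the generators `j(Q^e)`, `q² ∤ e`, and sends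
`j(Q^e)`, `q² ∣ e`, to `(Q ↦ ξ Q)(j(Q^{e / q²}))`. -/
theorem exists_iota3_idx (M q : ℕ) [NeZero M] [NeZero q] (hq : q.Prime) (hqM : ¬ q ∣ M)
    (ξ : Qb) (hξ : IsPrimitiveRoot ξ q) :
    ∃ E : ↥(modularFunctionFieldBar (M * q * q)) →ₐ[Qb] LaurentSeries Qb,
      (∀ e : ↥(M * q * q).divisors, ¬ q ^ 2 ∣ (e : ℕ) →
        E (genFam (M * q * q) e) = JFam (M * q * q) e) ∧
      (∀ e : ↥(M * q * q).divisors, q ^ 2 ∣ (e : ℕ) →
        E (genFam (M * q * q) e) =
          rotHom ξ (hξ.ne_zero hq.ne_zero) (JFam (M * q * q) (low M q e))) := by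
  obtain ⟨E, -, hE⟩ := exists_algHom_of_eq_zero_iff (N := M * q * q)
    (MvPolynomial.aeval (GMixK (M * q * q) (hi M q) (low M q) ξ (hξ.ne_zero hq.ne_zero)))
    (aeval_GMixK_eq_zero_iff M q hq hqM ξ hξ)
  refine ⟨E, fun e he => ?_, fun e he => ?_⟩
  · rw [hE e, MvPolynomial.aeval_X]
    unfold GMixK
    rw [if_neg (show ¬ hi M q e from he)]
  · rw [hE e, MvPolynomial.aeval_X]
    unfold GMixK
    rw [if_pos (show hi M q e from he)]

/-- **[IOTA3]** (export shape of the [MODEL3] leaf deal). For every primitive `q`-th root of unity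
`ξ ∈ ℚ̄`: a `ℚ̄`-embedding `E : F̄_{(M q) q} → ℚ̄((Q))` with `E (j(Q^e)) = j(Q^e)` for `e ∣ M q`
and `E (j(Q^{d q²})) = (Q ↦ ξ Q)(j(Q^d))` for `d ∣ M`. -/
theorem exists_iota3 (M q : ℕ) [NeZero M] [NeZero q] (hq : q.Prime) (hqM : ¬ q ∣ M)
    (ξ : Qb) (hξ : IsPrimitiveRoot ξ q) :
    ∃ E : ↥(modularFunctionFieldBar (M * q * q)) →ₐ[Qb] LaurentSeries Qb,
      (∀ (e : ℕ) [NeZero e] (he : e ∣ M * q),
        E (genJ (M * q * q) e (he.trans (dvd_mul_right (M * q) q))) =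
          coeffEmb Qb (qExpand ℚ e jq)) ∧
      (∀ (d : ℕ) [NeZero d] [NeZero (d * q ^ 2)] (_ : d ∣ M) (hd' : d * q ^ 2 ∣ M * q * q),
        E (genJ (M * q * q) (d * q ^ 2) hd') =
          rotHom ξ (hξ.ne_zero hq.ne_zero) (coeffEmb Qb (qExpand ℚ d jq))) := by
  obtain ⟨E, h1, h2⟩ := exists_iota3_idx M q hq hqM ξ hξ
  refine ⟨E, ?_, ?_⟩
  · intro e _ he
    have hmem : e ∈ (M * q * q).divisors :=
      Nat.mem_divisors.mpr ⟨he.trans (dvd_mul_right (M * q) q), NeZero.ne (M * q * q)⟩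
    have hnot : ¬ q ^ 2 ∣ e := by
      intro h
      have h3 : q ^ 2 ∣ M * q := h.trans he
      have h4 : q * q ∣ M * q := by rwa [sq] at h3
      exact hqM ((Nat.mul_dvd_mul_iff_right hq.pos).mp h4)
    exact h1 ⟨e, hmem⟩ hnot
  · intro d _ _ _ hd'
    have hmem : d * q ^ 2 ∈ (M * q * q).divisors :=
      Nat.mem_divisors.mpr ⟨hd', NeZero.ne (M * q * q)⟩
    have h3 := h2 ⟨d * q ^ 2, hmem⟩ (dvd_mul_left (q ^ 2) d)
    have hlow : ((low M q ⟨d * q ^ 2, hmem⟩ : ↥(M * q * q).divisors) : ℕ) = d := by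
      rw [coe_low_of_dvd M q ⟨d * q ^ 2, hmem⟩ (dvd_mul_left (q ^ 2) d)]
      show d * q ^ 2 / q ^ 2 = d
      exact Nat.mul_div_cancel _ (pow_pos hq.pos 2)
    have hJ : JFam (M * q * q) (low M q ⟨d * q ^ 2, hmem⟩) = coeffEmb Qb (qExpand ℚ d jq) := by
      unfold JFam
      exact congrArg (coeffEmb Qb) (qExpand_congr hlow jq)
    rw [← hJ]
    exact h3

end Fermat.Agent.S36.Iota3An
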