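import Mathlib
import Fermat.Agent.S36.EtaBridge
import Fermat.Agent.S36.WQ2
import Fermat.Agent.S36.Iota3An

/-!
# S36 block [B1-eta], leaf E8a, instantiations of the generic bridge

* `RepW.shift`, `Rep.shift`: real translates `X (r + ·)` are represented by the rotated series
  `(Q ↦ e^{2πi r} Q) y`.
* (W2) `wBar2_eq_of_rep`: the Atkin–Lehner involution `w_{q²}` of `F̄_{M q²}` acts on represented
  elements by precomposition with any `w : ℍ → ℍ` realising the swap of the generators;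
  `rep_wBar2` is the existence form.
* (`ι3` dictionary) `iota3_rep`: any `ℚ̄`-embedding `E : F̄_{M q²} → ℚ̄((Q))` with the generator
  values of the middle-cusp embedding (identity on `j(Q^e)`, `q² ∤ e`; `(Q ↦ ξ Q)(j(Q^{e/q²}))`
  for `q² ∣ e`) acts on represented elements by precomposition with any `g : ℍ → ℍ` realising
  the mixed family (e.g. `g = γ • ·`, `γ = (1 0; c q M 1)`), when `embC ξ = e^{2πi r}`.
-/

set_option autoImplicit false

namespace Fermat.Agent.S36.EtaBridgeInst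

open UpperHalfPlane ModularForm ModularCurve
open Fermat.Agent Fermat.Agent.S24 Fermat.Agent.S36.EtaBridge
open Fermat.Agent.S36.Iota3AnShift Fermat.Agent.S36.Iota3AnBridge Fermat.Agent.S36.Iota3An
open Fermat.Agent.S24.AnBridge (Phi)
open scoped MatrixGroups ModularForm Manifold Real

local notation "Qb" => AlgebraicClosure ℚ

/-! ### Real shifts -/

theorem shiftNice_ne_zero (r : ℝ) {B : S23.niceSub} (hB : B ≠ 0) : shiftNice r B ≠ 0 := by
  intro h
  apply hB
  apply Subtype.ext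
  funext z
  have h1 := congrArg (fun F : S23.niceSub => (F : ℍ → ℂ) ((-r) +ᵥ z)) h
  simp only [shiftNice_apply] at h1
  rw [vadd_vadd, add_neg_cancel, zero_vadd] at h1
  exact h1

/-- Real translates: `X (r + ·)` is represented by the rotated series. -/
theorem RepW.shift {X : ℍ → ℂ} {y : LaurentSeries ℂ} (h : RepW X y) (r : ℝ) :
    RepW (shiftFun r X)
      (rotHom (Complex.exp (2 * π * Complex.I * r)) (Complex.exp_ne_zero _) y) := by
  obtain ⟨A, B, hB, e, f⟩ := h
  refine ⟨shiftNice r A, shiftNice r B, shiftNice_ne_zero r hB, fun z => ?_, ?_⟩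
  · exact e (r +ᵥ z)
  · rw [Phi_shiftNice, Phi_shiftNice, ← map_mul, f]

theorem Rep.shift {X : ℍ → ℂ} {y : LaurentSeries ℂ} (h : Rep X y) (r : ℝ) :
    Rep (shiftFun r X)
      (rotHom (Complex.exp (2 * π * Complex.I * r)) (Complex.exp_ne_zero _) y) :=
  ⟨shiftFun_mdiff h.1 r, RepW.shift h.2 r⟩

/-! ### (W2) the Atkin–Lehner involution at `q²` -/

section W2

variable (M q : ℕ) [NeZero M] [NeZero q] (hq : q.Prime) (hqM : ¬ q ∣ M)

/-- **(W2), existence form.** For `w : ℍ → ℍ` realising the swap of the generators: if `x` is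
represented by the holomorphic `X`, then `X ∘ w` is represented by `w_{q²} x`. -/
theorem rep_wBar2 (w : ℍ → ℍ)
    (hw : ∀ (e : ↥(M * q * q).divisors) (z : ℍ),
      jAtFam (M * q * q) (WQ2.swap2 M q hq e) z = jAtFam (M * q * q) e (w z))
    (x : ↥(modularFunctionFieldBar (M * q * q))) {X : ℍ → ℂ}
    (hX : Rep X (coeffMap embC (x : LaurentSeries Qb))) :
    RepW (fun z => X (w z))
      (coeffMap embC ((WQ2.wBar2 M q hq hqM x : ↥(modularFunctionFieldBar (M * q * q))) :
        LaurentSeries Qb)) := by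
  have h := bridge_rep
    ((modularFunctionFieldBar (M * q * q)).val.comp (WQ2.wBar2 M q hq hqM).toAlgHom) w
    (fun e => by
      show RepW (fun z => jAtFam (M * q * q) e (w z))
        (coeffMap embC ((WQ2.wBar2 M q hq hqM (genFam (M * q * q) e) :
          ↥(modularFunctionFieldBar (M * q * q))) : LaurentSeries Qb))
      rw [WQ2.wBar2_genFam, coe_genFam]
      exact (rep_jAtFam (M * q * q) (WQ2.swap2 M q hq e)).repW.congr fun z => (hw e z).symm)
    x hX
  exact h

/-- **(W2), uniqueness form.** If `x` is represented by the holomorphic `X`, `x'` by `X'` and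
`X ∘ w = X'`, then `w_{q²} x = x'`. -/
theorem wBar2_eq_of_rep (w : ℍ → ℍ)
    (hw : ∀ (e : ↥(M * q * q).divisors) (z : ℍ),
      jAtFam (M * q * q) (WQ2.swap2 M q hq e) z = jAtFam (M * q * q) e (w z))
    (x x' : ↥(modularFunctionFieldBar (M * q * q))) {X X' : ℍ → ℂ}
    (hX : Rep X (coeffMap embC (x : LaurentSeries Qb)))
    (hX' : RepW X' (coeffMap embC (x' : LaurentSeries Qb)))
    (hXX' : ∀ z, X (w z) = X' z) : WQ2.wBar2 M q hq hqM x = x' := by
  have h := (rep_wBar2 M q hq hqM w hw x hX).unique (hX'.congr hXX')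
  exact Subtype.ext (AnBridge.coeffMap_embC_injective h)

/-- There is a `w` for which (W2) applies. -/
theorem exists_w_rep_wBar2 :
    ∃ w : ℍ → ℍ, (∀ (e : ↥(M * q * q).divisors) (z : ℍ),
        jAtFam (M * q * q) (WQ2.swap2 M q hq e) z = jAtFam (M * q * q) e (w z)) ∧
      ∀ (x : ↥(modularFunctionFieldBar (M * q * q))) (X : ℍ → ℂ),
        Rep X (coeffMap embC (x : LaurentSeries Qb)) →
        RepW (fun z => X (w z))
          (coeffMap embC ((WQ2.wBar2 M q hq hqM x : ↥(modularFunctionFieldBar (M * q * q))) :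
            LaurentSeries Qb)) := by
  obtain ⟨w, hw⟩ := WQ2.exists_jAtFam_swap2 M q hq hqM
  exact ⟨w, hw, fun x X hX => rep_wBar2 M q hq hqM w hw x hX⟩

end W2

/-! ### The `ι3` dictionary -/

section Iota3

variable (M q : ℕ) [NeZero M] [NeZero q]

omit [NeZero M] [NeZero q] in
/-- The mixed family of analytic generators is represented by the mixed family of series. -/
theorem repW_gMix (ξ : Qb) (hξ : ξ ≠ 0) (r : ℝ)
    (hr : embC ξ = Complex.exp (2 * π * Complex.I * r)) (e : ↥(M * q * q).divisors) :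
    RepW (gMix (M * q * q) (hi M q) (low M q) r e)
      (coeffMap embC (GMixK (M * q * q) (hi M q) (low M q) ξ hξ e)) := by
  unfold gMix GMixK
  by_cases h : hi M q e
  · rw [if_pos h, if_pos h, coeffMap_rotHom ξ hξ _ (Complex.exp_ne_zero _) hr]
    exact RepW.shift (rep_jAtFam (M * q * q) (low M q e)).repW r
  · rw [if_neg h, if_neg h]
    exact (rep_jAtFam (M * q * q) e).repW

/-- **The `ι3` dictionary, existence form.** Let `E : F̄_{M q²} →ₐ[ℚ̄] ℚ̄((Q))` have the generator
values of the middle-cusp embedding for `ξ`, let `embC ξ = e^{2πi r}` and let `g : ℍ → ℍ` realise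
the mixed family.  If `x` is represented by the holomorphic `X`, then `X ∘ g` is represented by
`E x`. -/
theorem iota3_rep (ξ : Qb) (hξ : ξ ≠ 0) (r : ℝ)
    (hr : embC ξ = Complex.exp (2 * π * Complex.I * r))
    (E : ↥(modularFunctionFieldBar (M * q * q)) →ₐ[Qb] LaurentSeries Qb)
    (hE1 : ∀ e : ↥(M * q * q).divisors, ¬ q ^ 2 ∣ (e : ℕ) →
      E (genFam (M * q * q) e) = JFam (M * q * q) e)
    (hE2 : ∀ e : ↥(M * q * q).divisors, q ^ 2 ∣ (e : ℕ) →
      E (genFam (M * q * q) e) = rotHom ξ hξ (JFam (M * q * q) (low M q e)))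
    (g : ℍ → ℍ)
    (hg : ∀ (e : ↥(M * q * q).divisors) (z : ℍ),
      jAtFam (M * q * q) e (g z) = gMix (M * q * q) (hi M q) (low M q) r e z)
    (x : ↥(modularFunctionFieldBar (M * q * q))) {X : ℍ → ℂ}
    (hX : Rep X (coeffMap embC (x : LaurentSeries Qb))) :
    RepW (fun z => X (g z)) (coeffMap embC (E x)) := by
  refine bridge_rep E g (fun e => ?_) x hX
  have hEe : E (genFam (M * q * q) e) = GMixK (M * q * q) (hi M q) (low M q) ξ hξ e := by
    unfold GMixK
    by_cases h : hi M q e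
    · rw [if_pos h]
      exact hE2 e h
    · rw [if_neg h]
      exact hE1 e h
  rw [hEe]
  exact (repW_gMix M q ξ hξ r hr e).congr fun z => hg e z

/-- **The `ι3` dictionary, uniqueness form.** In the situation of `iota3_rep`: if `X ∘ g` is
represented by `y`, then `y = E x`. -/
theorem iota3_eq_of_rep (ξ : Qb) (hξ : ξ ≠ 0) (r : ℝ)
    (hr : embC ξ = Complex.exp (2 * π * Complex.I * r))
    (E : ↥(modularFunctionFieldBar (M * q * q)) →ₐ[Qb] LaurentSeries Qb)
    (hE1 : ∀ e : ↥(M * q * q).divisors, ¬ q ^ 2 ∣ (e : ℕ) →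
      E (genFam (M * q * q) e) = JFam (M * q * q) e)
    (hE2 : ∀ e : ↥(M * q * q).divisors, q ^ 2 ∣ (e : ℕ) →
      E (genFam (M * q * q) e) = rotHom ξ hξ (JFam (M * q * q) (low M q e)))
    (g : ℍ → ℍ)
    (hg : ∀ (e : ↥(M * q * q).divisors) (z : ℍ),
      jAtFam (M * q * q) e (g z) = gMix (M * q * q) (hi M q) (low M q) r e z)
    (x : ↥(modularFunctionFieldBar (M * q * q))) {X : ℍ → ℂ}
    (hX : Rep X (coeffMap embC (x : LaurentSeries Qb)))
    {y : LaurentSeries ℂ} (hy : RepW (fun z => X (g z)) y) :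
    y = coeffMap embC (E x) :=
  hy.unique (iota3_rep M q ξ hξ r hr E hE1 hE2 g hg x hX)

/-- For a primitive `q`-th root of unity `ξ` there are `m` prime to `q` and `γ ∈ SL(2, ℤ)` to
which the `ι3` dictionary applies (with `g = γ • ·`, `r = m / q`). -/
theorem exists_gamma_iota3_rep (hq : q.Prime) (hqM : ¬ q ∣ M) (ξ : Qb) (hξ : IsPrimitiveRoot ξ q)
    (E : ↥(modularFunctionFieldBar (M * q * q)) →ₐ[Qb] LaurentSeries Qb)
    (hE1 : ∀ e : ↥(M * q * q).divisors, ¬ q ^ 2 ∣ (e : ℕ) →
      E (genFam (M * q * q) e) = JFam (M * q * q) e)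
    (hE2 : ∀ e : ↥(M * q * q).divisors, q ^ 2 ∣ (e : ℕ) →
      E (genFam (M * q * q) e) =
        rotHom ξ (hξ.ne_zero hq.ne_zero) (JFam (M * q * q) (low M q e))) :
    ∃ (m : ℕ) (γ : SL(2, ℤ)), Nat.Coprime m q ∧
      embC ξ = Complex.exp (2 * π * Complex.I * (((m : ℝ) / q : ℝ) : ℂ)) ∧
      (∀ (e : ↥(M * q * q).divisors) (z : ℍ), jAtFam (M * q * q) e (γ • z) =
        gMix (M * q * q) (hi M q) (low M q) ((m : ℝ) / q) e z) ∧
      ∀ (x : ↥(modularFunctionFieldBar (M * q * q))) (X : ℍ → ℂ),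
        Rep X (coeffMap embC (x : LaurentSeries Qb)) →
        RepW (fun z => X (γ • z)) (coeffMap embC (E x)) := by
  have hω : IsPrimitiveRoot (embC ξ) q := hξ.map_of_injective embC_injective
  obtain ⟨m, -, hmc, hexp⟩ := (Complex.isPrimitiveRoot_iff _ q hq.ne_zero).mp hω
  have hr : embC ξ = Complex.exp (2 * π * Complex.I * (((m : ℝ) / q : ℝ) : ℂ)) := by
    rw [← hexp]; push_cast; rfl
  obtain ⟨γ, hγ⟩ := exists_gamma M q hq hqM m hmc
  exact ⟨m, γ, hmc, hr, hγ, fun x X hX =>
    iota3_rep M q ξ (hξ.ne_zero hq.ne_zero) ((m : ℝ) / q) hr E hE1 hE2 (fun z => γ • z) hγ x hX⟩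

end Iota3

end Fermat.Agent.S36.EtaBridgeInst
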