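import Mathlib
import Fermat.Agent.S18.ArithPlan
import Fermat.Agent.S18.DescCoeff
import Fermat.Agent.S18.ModelBasicCore
import Fermat.Agent.S24.AnDefs
import Fermat.Agent.S29.RatDescent
import Fermat.Agent.S29.KDefs

/-!
# S36 [B1-eta] (III-K), copy B (helper104): integrality over `ℂ[j]` ⇒ chart membership

For `y ∈ F_K(N)` whose complex `q`-expansion is integral over `ℂ[j_ℂ]`
(`IsIntegral (Algebra.adjoin ℂ {jC}) (coeffMap embC y)`), and `O = A ∩ K` a discrete valuation
ring with uniformizer `π`: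

* `chartInt`  : `∃ k, π ^ k * y ∈ chart N A K j` and `∃ k a, π ^ k * (j⁻¹) ^ a * y ∈ chart N A K j⁻¹`.

Route: the monic relation of `y` over `ℂ[j_ℂ]` says `Y ^ n ∈ span_ℂ {j_ℂ ^ k Y ^ i : i < n}`;
a `K`-linear functional `l : ℂ → K` with `l 1 = 1`, applied coefficientwise, descends it to
`y ^ n ∈ span_K {j ^ k y ^ i : i < n}` inside `F_K` (`mem_span_of_Psi_mem`: linear disjointness,
elements of `F_K` have coefficients in `K`); finitely many coefficients of `K` are cleared by a
power of `π`, which gives monic relations for `π ^ m y` over `O[j]` and for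
`π ^ m j ^ (-a) y` over `O[j⁻¹]`.
-/

set_option autoImplicit false

noncomputable section

namespace Fermat.Agent.S36.EtaChartIntB

open ModularCurve HahnSeries
open Fermat.Agent.S18.Arith Fermat.Agent

/-! ### Abstract lemmas -/

/-- A power of `z` in the span of the lower powers gives a monic relation. -/
theorem isIntegral_of_pow_mem_span {R F : Type*} [CommRing R] [CommRing F] [Algebra R F]
    (z : F) (n : ℕ)
    (h : z ^ n ∈ Submodule.span R (Set.range (fun i : Fin n => z ^ (i : ℕ)))) :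
    IsIntegral R z := by
  obtain ⟨c, hc⟩ := (Submodule.mem_span_range_iff_exists_fun R).mp h
  refine ⟨Polynomial.X ^ n - ∑ i : Fin n, Polynomial.C (c i) * Polynomial.X ^ (i : ℕ),
    Polynomial.monic_X_pow_sub (Polynomial.degree_sum_fin_lt c), ?_⟩
  simp only [Polynomial.eval₂_sub, Polynomial.eval₂_pow, Polynomial.eval₂_X,
    Polynomial.eval₂_finsetSum, Polynomial.eval₂_mul, Polynomial.eval₂_C]
  rw [← hc, sub_eq_zero]
  exact Finset.sum_congr rfl fun i _ => (Algebra.smul_def _ _)

/-- Clearing the denominator of an element of `K` by a power of a uniformizer of `O = A ∩ K`. -/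
theorem exists_pow_mul (A : ValuationSubring Qb) (K : IntermediateField ℚ Qb)
    [IsDiscreteValuationRing (OK A K)] (π : OK A K) (hπ : Irreducible π) (c : K) :
    ∃ m : ℕ, ∀ m' : ℕ, m ≤ m' → ∃ o : OK A K, (o : K) = (π : K) ^ m' * c := by
  rcases (OK A K).mem_or_inv_mem c with hc | hc
  · exact ⟨0, fun m' _ => ⟨π ^ m' * ⟨c, hc⟩, by simp⟩⟩
  · by_cases hc0 : c = 0
    · exact ⟨0, fun m' _ => ⟨0, by simp [hc0]⟩⟩
    · have hd0 : (⟨c⁻¹, hc⟩ : OK A K) ≠ 0 := by
        intro h
        have h' := congrArg (Subtype.val) h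
        simp only [ZeroMemClass.coe_zero, inv_eq_zero] at h'
        exact hc0 h'
      obtain ⟨m, u, hu⟩ := IsDiscreteValuationRing.associated_pow_irreducible hd0 hπ
      refine ⟨m, fun m' hm' => ⟨π ^ (m' - m) * u, ?_⟩⟩
      have hu' : c⁻¹ * ((u : OK A K) : K) = (π : K) ^ m := by
        have h' := congrArg (Subtype.val) hu
        simpa using h'
      have hpow : (π : K) ^ m' = (π : K) ^ (m' - m) * (π : K) ^ m := by
        rw [← _root_.pow_add, Nat.sub_add_cancel hm']
      push_cast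
      rw [hpow, ← hu']
      field_simp

/-! ### The complex expansion of `F_K` and the descent of spans -/

section Descent

variable (N : ℕ) [NeZero N] (K : IntermediateField ℚ Qb)

/-- The complex `q`-expansion `F_K → ℂ((q))`. -/
def Psi : FK N K →+* LaurentSeries ℂ := (coeffMap S24.embC).comp (FK N K).subtype

omit [NeZero N] in
theorem Psi_apply (x : FK N K) : Psi N K x = coeffMap S24.embC (x : LaurentSeries Qb) := rfl

theorem Psi_jK : Psi N K (jK N K) = S29.K.jC := by
  show coeffMap S24.embC (coeffEmb Qb jq) = coeffEmb ℂ jq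
  exact S29.RatDescent.coeffMap_coeffEmb S24.embC jq

omit [NeZero N] in
/-- A `K`-linear functional `ℂ → K` with value `1` at `1`. -/
theorem exists_functional :
    ∃ l : ℂ →+ K, (∀ (c : K) (t : ℂ), l (S24.embC (c : Qb) * t) = c * l t) ∧ l 1 = 1 := by
  obtain ⟨l, hl, h1⟩ := S29.RatDescent.exists_kLin_ne_zero
    (S24.embC.comp (algebraMap K Qb)) (t := (1 : ℂ)) one_ne_zero
  refine ⟨(AddMonoidHom.mulLeft (l 1)⁻¹).comp l, ?_, ?_⟩
  · intro c t
    simp only [AddMonoidHom.coe_comp, Function.comp_apply, AddMonoidHom.coe_mulLeft]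
    have h := hl c t
    simp only [RingHom.coe_comp, Function.comp_apply] at h
    rw [show S24.embC (c : Qb) = S24.embC (algebraMap K Qb c) from rfl, h]
    ring
  · simp only [AddMonoidHom.coe_comp, Function.comp_apply, AddMonoidHom.coe_mulLeft]
    exact inv_mul_cancel₀ h1

omit [NeZero N] in
/-- The coefficientwise functional undoes the complex expansion on `F_K`. -/
theorem coeffAdd_smul_Psi (l : ℂ →+ K)
    (hl : ∀ (c : K) (t : ℂ), l (S24.embC (c : Qb) * t) = c * l t) (a : ℂ) (s : FK N K) :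
    S29.RatDescent.coeffAdd ((algebraMap K Qb : K →+* Qb).toAddMonoidHom.comp l)
        (a • Psi N K s) = ((l a • s : FK N K) : LaurentSeries Qb) := by
  have h1 : ((l a • s : FK N K) : LaurentSeries Qb) =
      HahnSeries.C ((l a : K) : Qb) * (s : LaurentSeries Qb) := rfl
  ext n
  obtain ⟨κ, hκ⟩ : ∃ κ : K, (κ : Qb) = (s : LaurentSeries Qb).coeff n :=
    ⟨⟨_, S18.DescCoeff.coeffStatement N K _ s.2 n⟩, rfl⟩
  rw [h1, HahnSeries.C_mul_eq_smul, HahnSeries.coeff_smul, S29.RatDescent.coeffAdd_coeff,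
    HahnSeries.coeff_smul, Psi_apply, coeffMap_coeff, ← hκ]
  simp only [smul_eq_mul, AddMonoidHom.coe_comp, Function.comp_apply, RingHom.toAddMonoidHom_eq_coe,
    AddMonoidHom.coe_coe]
  rw [mul_comm a, hl, map_mul, mul_comm]
  rfl

omit [NeZero N] in
/-- **Descent of spans** (linear disjointness of `F_K` and `ℂ` over `K`). -/
theorem mem_span_of_Psi_mem (S : Set (FK N K)) (x : FK N K)
    (h : Psi N K x ∈ Submodule.span ℂ (Psi N K '' S)) : x ∈ Submodule.span K S := by
  obtain ⟨l, hl, hl1⟩ := exists_functional K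
  have key : ∀ z ∈ Submodule.span ℂ (Psi N K '' S), ∀ a : ℂ, ∃ w ∈ Submodule.span K S,
      S29.RatDescent.coeffAdd ((algebraMap K Qb : K →+* Qb).toAddMonoidHom.comp l) (a • z) =
        ((w : FK N K) : LaurentSeries Qb) := by
    intro z hz
    induction hz using Submodule.span_induction with
    | mem z hz =>
      obtain ⟨s, hs, rfl⟩ := hz
      intro a
      exact ⟨l a • s, Submodule.smul_mem _ _ (Submodule.subset_span hs),
        coeffAdd_smul_Psi N K l hl a s⟩
    | zero =>
      intro a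
      exact ⟨0, Submodule.zero_mem _, by simp⟩
    | add z₁ z₂ _ _ h₁ h₂ =>
      intro a
      obtain ⟨w₁, hw₁, e₁⟩ := h₁ a
      obtain ⟨w₂, hw₂, e₂⟩ := h₂ a
      exact ⟨w₁ + w₂, Submodule.add_mem _ hw₁ hw₂, by rw [smul_add, map_add, e₁, e₂]; rfl⟩
    | smul b z _ h₁ =>
      intro a
      obtain ⟨w, hw, e⟩ := h₁ (a * b)
      exact ⟨w, hw, by rw [smul_smul, e]⟩
  obtain ⟨w, hw, e⟩ := key _ h 1
  rw [coeffAdd_smul_Psi N K l hl 1 x, hl1, one_smul] at e
  have hxw : x = w := Subtype.ext e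
  rwa [hxw]

/-- The monic relation over `ℂ[j_ℂ]` descends to a `K`-linear relation in `F_K`. -/
theorem exists_rel (y : FK N K)
    (hy : IsIntegral (Algebra.adjoin ℂ ({S29.K.jC} : Set (LaurentSeries ℂ)))
      (coeffMap S24.embC (y : LaurentSeries Qb))) :
    ∃ n : ℕ, y ^ n ∈ Submodule.span K
      {g : FK N K | ∃ k i : ℕ, i < n ∧ g = jK N K ^ k * y ^ i} := by
  obtain ⟨p, hp, hpe⟩ := hy
  refine ⟨p.natDegree, mem_span_of_Psi_mem N K _ _ ?_⟩
  have hterm : ∀ b ∈ Algebra.adjoin ℂ ({S29.K.jC} : Set (LaurentSeries ℂ)),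
      ∀ i < p.natDegree, b * Psi N K y ^ i ∈ Submodule.span ℂ
        (Psi N K '' {g : FK N K | ∃ k i : ℕ, i < p.natDegree ∧ g = jK N K ^ k * y ^ i}) := by
    intro b hb i hi
    rw [← Subalgebra.mem_toSubmodule, Algebra.adjoin_eq_span] at hb
    induction hb using Submodule.span_induction with
    | mem b hb =>
      obtain ⟨k, rfl⟩ := Submonoid.mem_closure_singleton.mp hb
      refine Submodule.subset_span ⟨jK N K ^ k * y ^ i, ⟨k, i, hi, rfl⟩, ?_⟩
      rw [map_mul, map_pow, map_pow, Psi_jK]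
    | zero =>
      rw [zero_mul]
      exact Submodule.zero_mem _
    | add b₁ b₂ _ _ h₁ h₂ =>
      rw [add_mul]
      exact Submodule.add_mem _ h₁ h₂
    | smul a b _ h₁ =>
      have h3 := Submodule.smul_mem _ a h₁
      convert h3 using 1
      rw [Algebra.smul_def, mul_assoc, S29.RatDescent.algebraMap_eq_smul_one',
        S29.RatDescent.smul_mul', one_mul]
  have hsum : Psi N K y ^ p.natDegree = - ∑ i ∈ Finset.range p.natDegree,
      ((p.coeff i : Algebra.adjoin ℂ ({S29.K.jC} : Set (LaurentSeries ℂ))) : LaurentSeries ℂ) *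
        Psi N K y ^ i := by
    have h1 := hpe
    rw [Polynomial.eval₂_eq_sum_range, Finset.sum_range_succ] at h1
    have h2 : p.coeff p.natDegree = 1 := hp
    rw [h2, map_one, one_mul] at h1
    exact eq_neg_of_add_eq_zero_right h1
  rw [map_pow, hsum]
  exact Submodule.neg_mem _ (Submodule.sum_mem _ fun i hi =>
    hterm _ (p.coeff i).2 i (Finset.mem_range.mp hi))

end Descent

/-! ### Integrality from a relation with coefficients in a subalgebra -/

/-- `z ^ n = ∑ r_g z ^ (e g)` with `r_g` in a subalgebra `S` and `e g < n` ⇒ `z` integral over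
`S`. -/
theorem isIntegral_of_terms {R F : Type*} [CommRing R] [CommRing F] [Algebra R F]
    (S : Subalgebra R F) (z : F) (n : ℕ) {ι : Type*} (T : Finset ι) (r : ι → F) (e : ι → ℕ)
    (hr : ∀ g ∈ T, r g ∈ S) (he : ∀ g ∈ T, e g < n)
    (h : z ^ n = ∑ g ∈ T, r g * z ^ e g) : IsIntegral S z := by
  refine isIntegral_of_pow_mem_span z n ?_
  rw [h]
  refine Submodule.sum_mem _ fun g hg => ?_
  have h1 : r g * z ^ e g = (⟨r g, hr g hg⟩ : S) • z ^ e g := rfl
  rw [h1]
  exact Submodule.smul_mem _ _ (Submodule.subset_span ⟨⟨e g, he g hg⟩, rfl⟩)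

/-- The algebra behind **(III-K)**: a relation `y ^ n = ∑ c_g j ^ (k_g) y ^ (i_g)` (`i_g < n`,
`k_g ≤ a`) whose coefficients become integral after multiplication by `π ^ M` gives integrality of
`π ^ M y` over `O[j]` and of `π ^ M j ^ (-a) y` over `O[j⁻¹]`. -/
theorem integral_of_rel {O F ι : Type*} [CommRing O] [Field F] [Algebra O F] (π : O) (j y : F)
    (hj0 : j ≠ 0) (n M a : ℕ) (T : Finset ι) (c : ι → F) (kk ii : ι → ℕ)
    (hii : ∀ g ∈ T, ii g < n) (hkk : ∀ g ∈ T, kk g ≤ a) (oo : ι → O)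
    (hoo : ∀ g ∈ T, algebraMap O F (oo g) = algebraMap O F π ^ M * c g)
    (hrel : y ^ n = ∑ g ∈ T, c g * (j ^ kk g * y ^ ii g)) :
    IsIntegral (Algebra.adjoin O {j}) (algebraMap O F π ^ M * y) ∧
      IsIntegral (Algebra.adjoin O {j⁻¹}) (algebraMap O F π ^ M * j⁻¹ ^ a * y) := by
  constructor
  · refine isIntegral_of_terms (Algebra.adjoin O {j}) (algebraMap O F π ^ M * y) n T
      (fun g => algebraMap O F (oo g) * algebraMap O F π ^ (M * (n - 1 - ii g)) * j ^ kk g)
      ii ?_ hii ?_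
    · intro g _
      have h1 : algebraMap O F (oo g) ∈ Algebra.adjoin O {j} := Subalgebra.algebraMap_mem _ _
      have h2 : algebraMap O F π ∈ Algebra.adjoin O {j} := Subalgebra.algebraMap_mem _ _
      have h3 : j ∈ Algebra.adjoin O {j} := Algebra.subset_adjoin (Set.mem_singleton j)
      exact mul_mem (mul_mem h1 (pow_mem h2 _)) (pow_mem h3 _)
    · rw [mul_pow, hrel, Finset.mul_sum]
      refine Finset.sum_congr rfl fun g hg => ?_
      obtain ⟨d, hd⟩ : ∃ d, n = ii g + 1 + d := ⟨n - 1 - ii g, by have := hii g hg; omega⟩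
      have hd' : n - 1 - ii g = d := by omega
      rw [hoo g hg, hd', hd]
      ring
  · refine isIntegral_of_terms (Algebra.adjoin O {j⁻¹}) (algebraMap O F π ^ M * j⁻¹ ^ a * y) n T
      (fun g => algebraMap O F (oo g) * algebraMap O F π ^ (M * (n - 1 - ii g)) *
        j⁻¹ ^ (a * (n - ii g) - kk g)) ii ?_ hii ?_
    · intro g _
      have h1 : algebraMap O F (oo g) ∈ Algebra.adjoin O {j⁻¹} := Subalgebra.algebraMap_mem _ _
      have h2 : algebraMap O F π ∈ Algebra.adjoin O {j⁻¹} := Subalgebra.algebraMap_mem _ _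
      have h3 : j⁻¹ ∈ Algebra.adjoin O {j⁻¹} := Algebra.subset_adjoin (Set.mem_singleton j⁻¹)
      exact mul_mem (mul_mem h1 (pow_mem h2 _)) (pow_mem h3 _)
    · rw [mul_pow, mul_pow, hrel, Finset.mul_sum]
      refine Finset.sum_congr rfl fun g hg => ?_
      obtain ⟨d, hd⟩ : ∃ d, n = ii g + 1 + d := ⟨n - 1 - ii g, by have := hii g hg; omega⟩
      have hd' : n - 1 - ii g = d := by omega
      have hka : kk g ≤ a := hkk g hg
      have hka' : kk g ≤ a * (d + 1) := by nlinarith
      obtain ⟨e', he'⟩ : ∃ e', a * (d + 1) = kk g + e' := ⟨a * (d + 1) - kk g, by omega⟩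
      have hd'' : a * (n - ii g) - kk g = e' := by
        have h1 : n - ii g = d + 1 := by omega
        rw [h1]
        omega
      have hxj : j⁻¹ ^ (kk g + e') * j ^ kk g = j⁻¹ ^ e' := by
        rw [_root_.pow_add, mul_comm (j⁻¹ ^ kk g), mul_assoc, ← mul_pow, inv_mul_cancel₀ hj0,
          one_pow, mul_one]
      rw [hoo g hg, hd', hd'', hd]
      calc (algebraMap O F π ^ M) ^ (ii g + 1 + d) * (j⁻¹ ^ a) ^ (ii g + 1 + d) *
            (c g * (j ^ kk g * y ^ ii g))
          = (algebraMap O F π ^ M) ^ (ii g + 1 + d) * c g * y ^ ii g * j⁻¹ ^ (a * ii g) *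
              (j⁻¹ ^ (kk g + e') * j ^ kk g) := by
            rw [← he']
            ring
        _ = algebraMap O F π ^ M * c g * algebraMap O F π ^ (M * d) * j⁻¹ ^ e' *
              (algebraMap O F π ^ M * j⁻¹ ^ a * y) ^ ii g := by
            rw [hxj]
            ring

/-! ### The main statement -/

section Main

variable (N : ℕ) [NeZero N] (A : ValuationSubring Qb) (K : IntermediateField ℚ Qb)

/-- **(III-K)** integrality of the complex expansion over `ℂ[j]` gives membership in both charts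
up to a power of the uniformizer (and a power of `j⁻¹` for the chart at infinity). -/
theorem chartInt [IsDiscreteValuationRing (OK A K)] (π : OK A K) (hπ : Irreducible π)
    (y : FK N K)
    (hy : IsIntegral (Algebra.adjoin ℂ ({S29.K.jC} : Set (LaurentSeries ℂ)))
      (coeffMap S24.embC (y : LaurentSeries Qb))) :
    (∃ k : ℕ, algebraMap (OK A K) (FK N K) π ^ k * y ∈ chart N A K (jK N K)) ∧
    ∃ k a : ℕ, algebraMap (OK A K) (FK N K) π ^ k * ((jK N K)⁻¹) ^ a * y ∈
      chart N A K (jK N K)⁻¹ := by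
  classical
  have hj0 : jK N K ≠ 0 := S18.ModelBasicCore.jK_ne_zero N K
  obtain ⟨n, hn⟩ := exists_rel N K y hy
  obtain ⟨T, hTG, hT⟩ := Submodule.mem_span_finite_of_mem_span hn
  obtain ⟨f, -, hf⟩ := Submodule.mem_span_finset.mp hT
  have hdata : ∀ g ∈ T, ∃ k i : ℕ, i < n ∧ g = jK N K ^ k * y ^ i := fun g hg => hTG hg
  choose! kk ii hii hgeq using hdata
  choose mm hmm using fun g : FK N K => exists_pow_mul A K π hπ (f g)
  have hclear : ∀ g ∈ T, ∃ o : OK A K, (o : K) = (π : K) ^ T.sup mm * f g :=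
    fun g hg => hmm g (T.sup mm) (Finset.le_sup hg)
  choose! oo hoo using hclear
  have hconst : ∀ g ∈ T, algebraMap (OK A K) (FK N K) (oo g) =
      algebraMap (OK A K) (FK N K) π ^ T.sup mm * algebraMap K (FK N K) (f g) := by
    intro g hg
    rw [IsScalarTower.algebraMap_apply (OK A K) K (FK N K) (oo g),
      ValuationSubring.algebraMap_apply, hoo g hg, map_mul, map_pow]
    rfl
  have hrel : y ^ n = ∑ g ∈ T, algebraMap K (FK N K) (f g) * (jK N K ^ kk g * y ^ ii g) := by
    rw [← hf]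
    refine Finset.sum_congr rfl fun g hg => ?_
    rw [← hgeq g hg, Algebra.smul_def]
  have hmain := integral_of_rel (O := OK A K) (F := FK N K) π (jK N K) y hj0 n (T.sup mm)
    (T.sup kk) T (fun g => algebraMap K (FK N K) (f g)) kk ii hii
    (fun g hg => Finset.le_sup hg) oo hconst hrel
  exact ⟨⟨T.sup mm, hmain.1⟩, ⟨T.sup mm, T.sup kk, hmain.2⟩⟩

end Main

end Fermat.Agent.S36.EtaChartIntB
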