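import Mathlib

/-!
# S36 eta leaf, shared core (Mathlib only)

Transformation of the Dedekind eta function under `z ↦ z + 1` and under
`U_N : w ↦ w / (N w + 1)`, with the square root of `N w + 1` pinned down by the sign of its
real part; the automorphy factor `J γ z = c z + d` on `SL(2, ℤ)` with its cocycle identity;
propagation of a weight-one transformation law from generators to the generated subgroup;
the Euclid descent showing that a subgroup containing `-1`, `T` and `U 3` contains `Γ₀(3)`.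
-/

namespace Fermat.Agent.S36.EtaCore

open Complex ModularForm
open UpperHalfPlane hiding I
open scoped Real MatrixGroups

/-- `η (z + 1) = e^{πi/12} η z`. -/
theorem eta_add_one (z : ℂ) : η (z + 1) = cexp (π * I / 12) * η z := by
  unfold ModularForm.eta
  have h1 : Function.Periodic.qParam 24 (z + 1)
      = cexp (π * I / 12) * Function.Periodic.qParam 24 z := by
    simp only [Function.Periodic.qParam]
    rw [← Complex.exp_add]
    congr 1
    push_cast
    ring
  have h2 : ∀ n, eta_q n (z + 1) = eta_q n z := by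
    intro n
    simp only [eta_q, Function.Periodic.qParam]
    congr 1
    have : 2 * (π : ℂ) * I * (z + 1) / ((1 : ℝ) : ℂ) = 2 * π * I * z / ((1 : ℝ) : ℂ) + 2 * π * I := by
      push_cast; ring
    rw [this, Complex.exp_add, Complex.exp_two_pi_mul_I, mul_one]
  rw [h1]
  simp only [h2]
  ring

/-- `η (z - N) = e^{-Nπi/12} η z` for natural `N`. -/
theorem eta_sub_natCast (z : ℂ) (N : ℕ) :
    η (z - N) = cexp (-(N * π * I / 12)) * η z := by
  induction N with
  | zero => simp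
  | succ n ih =>
    have h := eta_add_one (z - (n + 1 : ℕ))
    have e : z - ((n + 1 : ℕ) : ℂ) + 1 = z - (n : ℂ) := by push_cast; ring
    rw [e, ih] at h
    have hne : cexp (π * I / 12) ≠ 0 := Complex.exp_ne_zero _
    have : η (z - ((n + 1 : ℕ) : ℂ)) = (cexp (π * I / 12))⁻¹ * (cexp (-(n * π * I / 12)) * η z) := by
      rw [h]; field_simp
    rw [this, ← Complex.exp_neg, ← mul_assoc, ← Complex.exp_add]
    congr 2
    push_cast
    ring

/-- The principal square root of a point of the open upper half plane lies in the open first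
quadrant. -/
theorem sqrt_quadrant {a : ℂ} (ha : 0 < a.im) :
    0 < (Complex.sqrt a).re ∧ 0 < (Complex.sqrt a).im := by
  have hne : a.im ≠ 0 := ha.ne'
  have hlt : |a.re| < ‖a‖ := Complex.abs_re_lt_norm.mpr hne
  have h1 : 0 < (‖a‖ + a.re) / 2 := by
    have := neg_abs_le a.re
    linarith
  have h2 : 0 < (‖a‖ - a.re) / 2 := by
    have := le_abs_self a.re
    linarith
  rw [Complex.sqrt_eq_real_add_ite, if_pos ha.le]
  constructor
  · simpa using Real.sqrt_pos.mpr h1
  · simpa using Real.sqrt_pos.mpr h2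

theorem sqrt_sq (a : ℂ) : Complex.sqrt a ^ 2 = a := by
  unfold Complex.sqrt
  simpa using Complex.cpow_ofNat_inv_pow a 2

theorem neg_one_div_im_pos {w : ℂ} (hw : 0 < w.im) : 0 < (-1 / w).im := by
  have hw0 : w ≠ 0 := by rintro rfl; simp at hw
  have hn : 0 < Complex.normSq w := Complex.normSq_pos.mpr hw0
  rw [neg_div, Complex.neg_im, one_div, Complex.inv_im, neg_div, neg_neg]
  positivity

theorem natCast_mul_add_one_ne_zero (N : ℕ) {w : ℂ} (hw : 0 < w.im) : (N : ℂ) * w + 1 ≠ 0 := by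
  intro h
  have h1 := congrArg Complex.im h
  have h2 := congrArg Complex.re h
  simp at h1 h2
  rcases h1 with h1 | h1
  · rw [h1] at h2; simp at h2
  · exact hw.ne' h1

/-- The transformation of `η` under `U_N = (1 0; N 1)`, with the square root `s` of `N w + 1`
of positive real part made explicit. -/
theorem eta_U (N : ℕ) {w : ℂ} (hw : 0 < w.im) :
    ∃ s : ℂ, s ^ 2 = N * w + 1 ∧ 0 < s.re ∧
      η (w / (N * w + 1)) = cexp (-(N * π * I / 12)) * s * η w := by
  have hw0 : w ≠ 0 := by rintro rfl; simp at hw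
  have hNw := natCast_mul_add_one_ne_zero N hw
  set w' : ℂ := -1 / w - N with hw'
  have hw'im : 0 < w'.im := by
    have := neg_one_div_im_pos hw
    simpa [hw'] using this
  have h1 := ModularForm.eta_comp_eq_csqrt_I_inv (show w ∈ upperHalfPlaneSet from hw)
  have h2 := ModularForm.eta_comp_eq_csqrt_I_inv (show w' ∈ upperHalfPlaneSet from hw'im)
  simp only [Function.comp_apply, Pi.smul_apply, Pi.mul_apply, smul_eq_mul] at h1 h2
  have h3 : η w' = cexp (-(N * π * I / 12)) * η (-1 / w) := eta_sub_natCast (-1 / w) N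
  have e : -1 / w' = w / (N * w + 1) := by
    have hden : -1 / w - (N : ℂ) ≠ 0 := by
      intro h
      apply hNw
      have : (N : ℂ) * w + 1 = -(w * (-1 / w - N)) := by field_simp; ring
      rw [this, h]; simp
    rw [hw', div_eq_div_iff hden hNw]
    field_simp
    ring
  have hI : (Complex.sqrt I)⁻¹ * (Complex.sqrt I)⁻¹ = -I := by
    rw [← mul_inv, ← pow_two, sqrt_sq, Complex.inv_I]
  obtain ⟨q1r, q1i⟩ := sqrt_quadrant hw
  obtain ⟨q2r, q2i⟩ := sqrt_quadrant hw'im
  refine ⟨-I * (Complex.sqrt w' * Complex.sqrt w), ?_, ?_, ?_⟩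
  · rw [mul_pow, mul_pow, sqrt_sq, sqrt_sq, hw']
    have : (-I) ^ 2 = -1 := by rw [neg_sq, Complex.I_sq]
    rw [this]; field_simp; ring
  · have : (-I * (Complex.sqrt w' * Complex.sqrt w)).re
        = (Complex.sqrt w').re * (Complex.sqrt w).im + (Complex.sqrt w').im * (Complex.sqrt w).re := by
      simp [Complex.mul_re, Complex.mul_im]
    rw [this]
    nlinarith [mul_pos q2r q1i, mul_pos q2i q1r]
  · rw [← e, h2, h3, h1]
    linear_combination (Complex.sqrt w' * cexp (-(N * π * I / 12)) * Complex.sqrt w * η w) * hI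

/-- Squared form of `eta_U`: no choice of square root. -/
theorem eta_U_sq (N : ℕ) {w : ℂ} (hw : 0 < w.im) :
    η (w / (N * w + 1)) ^ 2 = cexp (-(N * π * I / 6)) * (N * w + 1) * η w ^ 2 := by
  obtain ⟨s, hs, -, h⟩ := eta_U N hw
  rw [h, mul_pow, mul_pow, hs, ← Complex.exp_nat_mul]
  congr 3
  push_cast
  ring

/-- The automorphy factor `c z + d` of `γ = (a b; c d) ∈ SL(2, ℤ)`. -/
noncomputable def J (γ : SL(2, ℤ)) (z : ℍ) : ℂ := ((γ 1 0 : ℤ) : ℂ) * z + ((γ 1 1 : ℤ) : ℂ)

theorem J_ne_zero (γ : SL(2, ℤ)) (z : ℍ) : J γ z ≠ 0 := by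
  intro h
  have hdet := Matrix.SpecialLinearGroup.det_coe γ
  rw [Matrix.det_fin_two] at hdet
  have him := congrArg Complex.im h
  have hre := congrArg Complex.re h
  simp [J] at him hre
  rcases him with h0 | h0
  · rw [h0] at hre hdet
    simp at hre
    have h1 : (γ 1 1 : ℤ) = 0 := by exact_mod_cast hre
    rw [h1] at hdet
    simp at hdet
  · exact z.im_ne_zero h0

theorem J_one (z : ℍ) : J 1 z = 1 := by
  simp [J]

theorem coe_smul_eq (γ : SL(2, ℤ)) (z : ℍ) :
    ((γ • z : ℍ) : ℂ) = (((γ 0 0 : ℤ) : ℂ) * z + ((γ 0 1 : ℤ) : ℂ)) / J γ z := by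
  rw [UpperHalfPlane.coe_specialLinearGroup_apply]
  simp [J]

theorem J_mul (γ γ' : SL(2, ℤ)) (z : ℍ) : J (γ * γ') z = J γ (γ' • z) * J γ' z := by
  have h := J_ne_zero γ' z
  have e : J γ (γ' • z) = ((γ 1 0 : ℤ) : ℂ) * ((γ' • z : ℍ) : ℂ) + ((γ 1 1 : ℤ) : ℂ) := rfl
  rw [e, coe_smul_eq, add_mul, mul_assoc, div_mul_cancel₀ _ h]
  simp only [J, Matrix.SpecialLinearGroup.coe_mul, Matrix.mul_apply, Fin.sum_univ_two]
  push_cast
  ring

/-- Propagation of a weight-one transformation law from a generating set to the generated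
subgroup: if `χ` is multiplicative on `closure S` with `χ 1 = 1` and
`G (s • z) = χ s * J s z * G z` for every generator `s`, then the same holds on `closure S`. -/
theorem smul_of_closure {S : Set SL(2, ℤ)} (χ : SL(2, ℤ) → ℂ) (G : ℍ → ℂ)
    (hχ1 : χ 1 = 1)
    (hχmul : ∀ γ ∈ Subgroup.closure S, ∀ γ' ∈ Subgroup.closure S, χ (γ * γ') = χ γ * χ γ')
    (hS : ∀ s ∈ S, ∀ z : ℍ, G (s • z) = χ s * J s z * G z) :
    ∀ γ ∈ Subgroup.closure S, ∀ z : ℍ, G (γ • z) = χ γ * J γ z * G z := by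
  intro γ hγ
  induction hγ using Subgroup.closure_induction with
  | mem s hs => exact hS s hs
  | one => intro z; simp [hχ1, J_one]
  | mul a b ha hb iha ihb =>
    intro z
    rw [mul_smul, iha, ihb, hχmul a ha b hb, J_mul]
    ring
  | inv a ha iha =>
    intro z
    have h1 := iha (a⁻¹ • z)
    rw [smul_inv_smul] at h1
    have h2 : χ a⁻¹ * χ a = 1 := by
      rw [← hχmul _ (Subgroup.inv_mem _ ha) _ ha, inv_mul_cancel, hχ1]
    have h3 : J a⁻¹ z * J a (a⁻¹ • z) = 1 := by
      have := J_mul a a⁻¹ z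
      rw [mul_inv_cancel, J_one] at this
      rw [mul_comm]; exact this.symm
    rw [h1]
    have h4 : χ a⁻¹ * J a⁻¹ z * (χ a * J a (a⁻¹ • z) * G (a⁻¹ • z))
        = (χ a⁻¹ * χ a) * (J a⁻¹ z * J a (a⁻¹ • z)) * G (a⁻¹ • z) := by ring
    rw [h4, h2, h3, one_mul, one_mul]

/-- The lower unipotent matrix `U N = (1 0; N 1)`. -/
def U (N : ℤ) : SL(2, ℤ) := ⟨!![1, 0; N, 1], by simp [Matrix.det_fin_two]⟩

@[simp] theorem U_apply_zero_zero (N : ℤ) : U N 0 0 = 1 := rfl
@[simp] theorem U_apply_zero_one (N : ℤ) : U N 0 1 = 0 := rfl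
@[simp] theorem U_apply_one_zero (N : ℤ) : U N 1 0 = N := rfl
@[simp] theorem U_apply_one_one (N : ℤ) : U N 1 1 = 1 := rfl

theorem U_zero : U 0 = 1 := by
  ext i j; fin_cases i <;> fin_cases j <;> simp [U]

theorem U_add (M N : ℤ) : U (M + N) = U M * U N := by
  ext i j
  rw [Matrix.SpecialLinearGroup.coe_mul]
  fin_cases i <;> fin_cases j <;>
    simp [U, Matrix.mul_apply, Fin.sum_univ_two, add_comm]

theorem U_neg (N : ℤ) : U (-N) = (U N)⁻¹ := by
  rw [eq_inv_iff_mul_eq_one, ← U_add]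
  simp [U_zero]

theorem U_mul_mem {H : Subgroup SL(2, ℤ)} {N : ℤ} (hU : U N ∈ H) (m : ℤ) : U (m * N) ∈ H := by
  induction m using Int.induction_on with
  | zero => simp [U_zero, H.one_mem]
  | succ k ih =>
    have : ((k : ℤ) + 1) * N = k * N + N := by ring
    rw [this, U_add]; exact H.mul_mem ih hU
  | pred k ih =>
    have : (-(k : ℤ) - 1) * N = -(k : ℤ) * N + -N := by ring
    rw [this, U_add, U_neg]; exact H.mul_mem ih (H.inv_mem hU)

theorem J_U (N : ℤ) (z : ℍ) : J (U N) z = (N : ℂ) * z + 1 := by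
  simp [J]

theorem coe_U_smul (N : ℤ) (z : ℍ) : ((U N • z : ℍ) : ℂ) = (z : ℂ) / ((N : ℂ) * z + 1) := by
  rw [coe_smul_eq, J_U]; simp

theorem J_T (z : ℍ) : J ModularGroup.T z = 1 := by
  simp [J, ModularGroup.T]

theorem coe_T_smul (z : ℍ) : ((ModularGroup.T • z : ℍ) : ℂ) = (z : ℂ) + 1 := by
  rw [UpperHalfPlane.modular_T_smul]; simp [add_comm]

theorem J_neg_one (z : ℍ) : J (-1) z = -1 := by
  simp [J]

theorem neg_one_smul_eq (z : ℍ) : (-1 : SL(2, ℤ)) • z = z := by
  apply UpperHalfPlane.ext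
  rw [coe_smul_eq, J_neg_one]; simp

/-- Centred division: some translate of `d` by a multiple of `c` has size at most `|c| / 2`. -/
theorem exists_small (c d : ℤ) (hc : c ≠ 0) : ∃ n : ℤ, 2 * |d + n * c| ≤ |c| := by
  have key : ∀ c : ℤ, 0 < c → ∃ n : ℤ, 2 * |d + n * c| ≤ c := by
    intro c hc
    have h1 := Int.emod_nonneg d hc.ne'
    have h2 := Int.emod_lt_of_pos d hc
    have h3 := Int.emod_add_mul_ediv d c
    by_cases h : 2 * (d % c) ≤ c
    · refine ⟨-(d / c), ?_⟩
      have : d + -(d / c) * c = d % c := by linarith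
      rw [this, abs_of_nonneg h1]; exact h
    · refine ⟨-(d / c) - 1, ?_⟩
      have : d + (-(d / c) - 1) * c = d % c - c := by linarith
      rw [this, abs_of_neg (by linarith)]; linarith
  rcases lt_or_gt_of_ne hc with h | h
  · obtain ⟨n, hn⟩ := key (-c) (by linarith)
    refine ⟨-n, ?_⟩
    rw [abs_of_neg h]
    have : d + -n * c = d + n * -c := by ring
    rw [this]; exact hn
  · obtain ⟨n, hn⟩ := key c h
    exact ⟨n, by rw [abs_of_pos h]; exact hn⟩

theorem mul_T_zpow_apply_one_zero (γ : SL(2, ℤ)) (n : ℤ) :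
    (γ * ModularGroup.T ^ n) 1 0 = γ 1 0 := by
  simp [Matrix.SpecialLinearGroup.coe_mul, Matrix.mul_apply, Fin.sum_univ_two,
    ModularGroup.coe_T_zpow]

theorem mul_T_zpow_apply_one_one (γ : SL(2, ℤ)) (n : ℤ) :
    (γ * ModularGroup.T ^ n) 1 1 = γ 1 1 + n * γ 1 0 := by
  simp [Matrix.SpecialLinearGroup.coe_mul, Matrix.mul_apply, Fin.sum_univ_two,
    ModularGroup.coe_T_zpow]
  ring

theorem mul_U_apply_one_zero (γ : SL(2, ℤ)) (k : ℤ) :
    (γ * U k) 1 0 = γ 1 0 + k * γ 1 1 := by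
  simp [Matrix.SpecialLinearGroup.coe_mul, Matrix.mul_apply, Fin.sum_univ_two]
  ring

theorem mul_U_apply_one_one (γ : SL(2, ℤ)) (k : ℤ) :
    (γ * U k) 1 1 = γ 1 1 := by
  simp [Matrix.SpecialLinearGroup.coe_mul, Matrix.mul_apply, Fin.sum_univ_two]

theorem Gamma0_three_mem_iff (γ : SL(2, ℤ)) :
    γ ∈ CongruenceSubgroup.Gamma0 3 ↔ (3 : ℤ) ∣ γ 1 0 := by
  rw [CongruenceSubgroup.Gamma0_mem]
  exact ZMod.intCast_zmod_eq_zero_iff_dvd _ 3

/-- Upper triangular elements of `SL(2, ℤ)` lie in any subgroup containing `-1` and `T`. -/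
theorem mem_of_apply_one_zero_eq_zero {H : Subgroup SL(2, ℤ)} (hneg : (-1 : SL(2, ℤ)) ∈ H)
    (hT : ModularGroup.T ∈ H) (γ : SL(2, ℤ)) (hc : γ 1 0 = 0) : γ ∈ H := by
  have hdet := Matrix.SpecialLinearGroup.det_coe γ
  rw [Matrix.det_fin_two, hc, mul_zero, sub_zero] at hdet
  rcases Int.eq_one_or_neg_one_of_mul_eq_one' hdet with ⟨ha, hd⟩ | ⟨ha, hd⟩
  · have : γ = ModularGroup.T ^ (γ 0 1) := by
      ext i j
      rw [ModularGroup.coe_T_zpow]
      fin_cases i <;> fin_cases j <;> simp [ha, hd, hc]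
    rw [this]; exact H.zpow_mem hT _
  · have : γ = -1 * ModularGroup.T ^ (-(γ 0 1)) := by
      ext i j
      rw [Matrix.SpecialLinearGroup.coe_mul, Matrix.SpecialLinearGroup.coe_neg,
        Matrix.SpecialLinearGroup.coe_one, ModularGroup.coe_T_zpow]
      fin_cases i <;> fin_cases j <;> simp [ha, hd, hc]
    rw [this]; exact H.mul_mem hneg (H.zpow_mem hT _)

/-- Euclid descent: a subgroup of `SL(2, ℤ)` containing `-1`, `T` and `U 3 = (1 0; 3 1)`
contains `Γ₀(3)`. -/
theorem Gamma0_three_le {H : Subgroup SL(2, ℤ)} (hneg : (-1 : SL(2, ℤ)) ∈ H)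
    (hT : ModularGroup.T ∈ H) (hU : U 3 ∈ H) : CongruenceSubgroup.Gamma0 3 ≤ H := by
  have main : ∀ n : ℕ, ∀ γ : SL(2, ℤ), γ ∈ CongruenceSubgroup.Gamma0 3 →
      (γ 1 0).natAbs = n → γ ∈ H := by
    intro n
    induction n using Nat.strong_induction_on with
    | _ n ih =>
      intro γ hγ hn
      by_cases hc : γ 1 0 = 0
      · exact mem_of_apply_one_zero_eq_zero hneg hT γ hc
      · rw [Gamma0_three_mem_iff] at hγ
        obtain ⟨e, he⟩ := hγ
        obtain ⟨k, hk⟩ := exists_small (γ 1 0) (γ 1 1) hc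
        set γ₁ := γ * ModularGroup.T ^ k with hγ₁
        have h10 : γ₁ 1 0 = γ 1 0 := mul_T_zpow_apply_one_zero γ k
        have h11 : γ₁ 1 1 = γ 1 1 + k * γ 1 0 := mul_T_zpow_apply_one_one γ k
        have hd1 : γ₁ 1 1 ≠ 0 := by
          intro h0
          have hdet := Matrix.SpecialLinearGroup.det_coe γ₁
          rw [Matrix.det_fin_two, h0, mul_zero, zero_sub, h10, he] at hdet
          have : (3 : ℤ) ∣ 1 := ⟨-(γ₁ 0 1 * e), by linarith⟩
          omega
        obtain ⟨m, hm⟩ := exists_small (3 * γ₁ 1 1) (γ₁ 1 0)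
          (mul_ne_zero (by norm_num) hd1)
        set γ₂ := γ₁ * U (m * 3) with hγ₂
        have h20 : γ₂ 1 0 = γ₁ 1 0 + m * 3 * γ₁ 1 1 := mul_U_apply_one_zero γ₁ (m * 3)
        have hmem₂ : γ₂ ∈ CongruenceSubgroup.Gamma0 3 := by
          rw [Gamma0_three_mem_iff, h20, h10, he]
          exact ⟨e + m * γ₁ 1 1, by ring⟩
        have hlt : (γ₂ 1 0).natAbs < n := by
          rw [← hn]
          have e1 : γ₁ 1 0 + m * (3 * γ₁ 1 1) = γ₂ 1 0 := by rw [h20]; ring
          rw [e1] at hm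
          rw [← h11] at hk
          have e2 : |3 * γ₁ 1 1| = 3 * |γ₁ 1 1| := by rw [abs_mul]; norm_num
          rw [e2] at hm
          have hcpos : 0 < |γ 1 0| := abs_pos.mpr hc
          have : |γ₂ 1 0| < |γ 1 0| := by linarith
          rw [Int.abs_eq_natAbs, Int.abs_eq_natAbs] at this
          exact_mod_cast this
        have h2 := ih _ hlt γ₂ hmem₂ rfl
        have h1 : γ₁ ∈ H := by
          have : γ₁ = γ₂ * (U (m * 3))⁻¹ := by rw [hγ₂]; group
          rw [this]; exact H.mul_mem h2 (H.inv_mem (U_mul_mem hU m))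
        have : γ = γ₁ * (ModularGroup.T ^ k)⁻¹ := by rw [hγ₁]; group
        rw [this]; exact H.mul_mem h1 (H.inv_mem (H.zpow_mem hT k))
  intro γ hγ
  exact main _ γ hγ rfl

end Fermat.Agent.S36.EtaCore
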