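import Mathlib
import Fermat.Agent.S29.K1IntB
import Fermat.Agent.S29.K1Gen
import Fermat.Agent.S29.KBasic
import Fermat.Agent.S23.Distinct

/-!
# S36, package [B1-eta], leaf E5 [DQ]: the modular units `Δ(d·)/Δ`

For `d ≥ 1` let `x_d ∈ ℂ((q))` be the `q`-expansion of `Δ(d z)/Δ(z)`, i.e. the element with
`x_d * DeltaC = qx (Δ(d·))`.  Then

* `isIntegral_uQuot`      : `x_d` is integral over `ℂ[j]`;
* `isIntegral_uQuot_inv`  : `x_d⁻¹` is integral over `ℂ[j]`;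
* `uQuot_mem_Mchi`, `uQuot_inv_mem_Mchi` : `x_d, x_d⁻¹ ∈ Mchi N 1` for `d ∣ N`.

So `x_d` is a unit of the integral closure of `ℂ[j]` (no zero and no pole off the cusps).

Route for the inverse: `Δ^(m+1)/Δ(d·)` is a modular form of weight `12 m` and level `Γ₀(N)` as
soon as `d ≤ m + 1`: at a cusp `γ`, the Hermite decomposition `diag(d,1) γ = γ' [[a,b],[0,d']]`
gives `(Δ^(m+1)/Δ(d·)) ∣ γ = d'^12 Δ^(m+1) / Δ((a z + b)/d')`, and `‖Δ(w)‖ ≍ exp(-2π Im w)`.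
-/

set_option autoImplicit false

namespace Fermat.Agent.S36.EtaDQ

open UpperHalfPlane ModularForm Filter Topology CongruenceSubgroup ModularCurve
open scoped MatrixGroups ModularForm Manifold Real
open Fermat.Agent Fermat.Agent.S29.K

local notation "Δ" => ModularForm.discriminant

/-- The function `Δ(z)^(m+1) / Δ(d z)`. -/
noncomputable def invForm (d m : ℕ) [NeZero d] : ℍ → ℂ :=
  fun z => Δ z ^ (m + 1) / Δ (S23.mulN d z)

theorem invForm_apply (d m : ℕ) [NeZero d] (z : ℍ) :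
    invForm d m z = Δ z ^ (m + 1) / Δ (S23.mulN d z) := rfl

theorem mdiff_invForm (d m : ℕ) [NeZero d] : MDiff (invForm d m) := by
  have h1 : MDiff (fun z : ℍ => Δ (S23.mulN d z)) :=
    S20.Base.mdiff_of_mem_MF (K1Gen.discriminant_scale_mem_MF (N := d) d dvd_rfl)
  have h2 : MDiff (fun z : ℍ => Δ z ^ (m + 1)) :=
    (ModularFormClass.holo CuspForm.discriminant).pow (m + 1)
  rw [UpperHalfPlane.mdifferentiable_iff] at h1 h2 ⊢
  exact h2.div h1 (fun w _ => ModularForm.discriminant_ne_zero _)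

/-- The field computation behind the slash formulas. -/
theorem slash_alg (D U X Y W k : ℂ) (m : ℕ) (hD : D ≠ 0) (hW : W ≠ 0) (hk : k ≠ 0)
    (hu : U * D ^ (-(12 : ℤ)) = k * W) (hX : X = Y * D ^ (12 : ℤ)) :
    X ^ (m + 1) / U * D ^ (-(12 * (m : ℤ))) = k⁻¹ * Y ^ (m + 1) / W := by
  have e0 : D ^ (12 : ℤ) = D ^ (12 : ℕ) := zpow_natCast D 12
  have e1 : D ^ (-(12 : ℤ)) = (D ^ (12 : ℕ))⁻¹ := by rw [zpow_neg, e0]
  have e2 : D ^ (-(12 * (m : ℤ))) = (D ^ (12 * m))⁻¹ := by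
    rw [zpow_neg, show (12 * (m : ℤ)) = ((12 * m : ℕ) : ℤ) by push_cast; ring, zpow_natCast]
  have hp : D ^ (12 : ℕ) ≠ 0 := pow_ne_zero _ hD
  have hp2 : D ^ (12 * m) ≠ 0 := pow_ne_zero _ hD
  have hU : U = k * W * D ^ (12 : ℕ) := by
    rw [← hu, e1, mul_assoc, inv_mul_cancel₀ hp, mul_one]
  rw [hX, e0, e2, hU]
  field_simp
  ring

/-- The translates of `Δ^(m+1)/Δ(d·)` in terms of the Hermite decomposition. -/
theorem invForm_slash_apply (d m : ℕ) [NeZero d] (γ γ' : SL(2, ℤ)) (a b d' : ℤ)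
    (ha : 0 < a) (hd' : 0 < d')
    (hmat : !![(d:ℤ), 0; 0, 1] * (γ : Matrix (Fin 2) (Fin 2) ℤ) =
        (γ' : Matrix (Fin 2) (Fin 2) ℤ) * !![a, b; 0, d']) (z : ℍ) :
    (invForm d m ∣[(12 * (m : ℤ))] γ) z =
      (d' : ℂ) ^ (12 : ℕ) * Δ z ^ (m + 1) / Δ (S23.affPt a b d' ha hd' z) := by
  have hu := S23.uFun_slash_apply_of_hermite d γ γ' a b d' ha hd' hmat z
  rw [SL_slash_apply] at hu
  have hne : denom γ z ≠ 0 := denom_ne_zero _ _
  have hdc : ((d' : ℂ) ^ (12 : ℕ))⁻¹ ≠ 0 := inv_ne_zero (pow_ne_zero _ (by exact_mod_cast hd'.ne'))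
  have hΔa : Δ (S23.affPt a b d' ha hd' z) ≠ 0 := ModularForm.discriminant_ne_zero _
  have hX := S23.discriminant_smul_eq γ z
  have h := slash_alg (denom γ z) (S23.uFun d (γ • z)) (Δ (γ • z)) (Δ z)
    (Δ (S23.affPt a b d' ha hd' z)) (((d' : ℂ) ^ (12 : ℕ))⁻¹) m hne hΔa hdc hu hX
  rw [inv_inv] at h
  rw [SL_slash_apply]
  exact h

/-- `Δ^(m+1)/Δ(d·)` is invariant of weight `12 m` under `Γ₀(N)` for `d ∣ N`. -/
theorem isInv_invForm {N d : ℕ} [NeZero N] [NeZero d] (hd : d ∣ N) (m : ℕ) :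
    S20.IsInv N (12 * (m : ℤ)) (invForm d m) := by
  intro γ hγ
  have hu : S20.IsInv N 12 (fun z : ℍ => Δ (S23.mulN d z)) :=
    (S20.mem_MF_iff'.mp (K1Gen.discriminant_scale_mem_MF d hd)).2.1
  have hu1 := congrFun (hu γ hγ)
  ext z
  have hne : denom γ z ≠ 0 := denom_ne_zero _ _
  have hu2 := hu1 z
  rw [SL_slash_apply] at hu2
  have hΔu : Δ (S23.mulN d z) ≠ 0 := ModularForm.discriminant_ne_zero _
  have hX := S23.discriminant_smul_eq γ z
  have hu3 : Δ (S23.mulN d (γ • z)) * denom γ z ^ (-(12 : ℤ)) = 1 * Δ (S23.mulN d z) := by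
    rw [one_mul]
    exact hu2
  have h := slash_alg (denom γ z) (Δ (S23.mulN d (γ • z))) (Δ (γ • z)) (Δ z)
    (Δ (S23.mulN d z)) 1 m hne hΔu one_ne_zero hu3 hX
  rw [inv_one, one_mul] at h
  rw [SL_slash_apply]
  exact h

/-- `Δ^(m+1)/Δ(d·)` is bounded at every cusp when `d ≤ m + 1`. -/
theorem bdd_invForm_slash (d m : ℕ) [NeZero d] (hm : d ≤ m + 1) (γ : SL(2, ℤ)) :
    IsBoundedAtImInfty (invForm d m ∣[(12 * (m : ℤ))] γ) := by
  obtain ⟨γ', a, b, d', ha, hd', had, -, hmat⟩ := S23.exists_hermite d γ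
  have h1 := S23.eventually_discriminant_bounds
  have h2 := (S23.tendsto_affPt_atImInfty a b d' ha hd').eventually
    S23.eventually_discriminant_bounds
  have h3 : ∀ᶠ z : ℍ in atImInfty, (0 : ℝ) ≤ z.im :=
    Filter.Eventually.of_forall fun z => z.im_pos.le
  refine Asymptotics.IsBigO.of_bound ((d' : ℝ) ^ 12 * 2 ^ (m + 2)) ?_
  filter_upwards [h1, h2, h3] with z hz1 hz2 hz3
  rw [invForm_slash_apply d m γ γ' a b d' ha hd' hmat z]
  simp only [Pi.one_apply, norm_one, mul_one]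
  rw [norm_div, norm_mul, norm_pow, norm_pow]
  have hd'r : (0 : ℝ) < d' := by exact_mod_cast hd'
  have har : (0 : ℝ) < a := by exact_mod_cast ha
  have hnd : ‖(d' : ℂ)‖ = (d' : ℝ) := by
    rw [Complex.norm_intCast, abs_of_pos hd'r]
  rw [hnd]
  set y := z.im with hy
  set E := Real.exp (-2 * π * y) with hE
  have hEpos : 0 < E := Real.exp_pos _
  have hE1 : E ≤ 1 := by
    rw [hE]
    apply Real.exp_le_one_iff.2
    have : 0 ≤ 2 * π * y := by positivity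
    linarith
  have him : (S23.affPt a b d' ha hd' z).im = (a : ℝ) * y / d' := S23.im_affPt a b d' ha hd' z
  set F := Real.exp (-2 * π * (S23.affPt a b d' ha hd' z).im) with hF
  have hFpos : 0 < F := Real.exp_pos _
  -- `E^(m+1) ≤ F`
  have hEF : E ^ (m + 1) ≤ F := by
    rw [hE, hF, ← Real.exp_nat_mul, him]
    apply Real.exp_le_exp.2
    have hle : (a : ℝ) / d' ≤ (m + 1 : ℕ) := by
      have h1 : (a : ℝ) ≤ (d : ℝ) := by
        have : a ≤ (d : ℤ) := by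
          rw [← had]
          have : (1 : ℤ) ≤ d' := hd'
          nlinarith
        exact_mod_cast this
      have h2 : (d : ℝ) ≤ (m + 1 : ℕ) := by exact_mod_cast hm
      have h3 : (a : ℝ) / d' ≤ a := by
        rw [div_le_iff₀ hd'r]
        have : (1 : ℝ) ≤ d' := by exact_mod_cast hd'
        nlinarith
      linarith
    have hπ : 0 ≤ 2 * π * y := by positivity
    have : (a : ℝ) * y / d' = (a : ℝ) / d' * y := by ring
    rw [this]
    have : (a : ℝ) / d' * y ≤ ((m + 1 : ℕ) : ℝ) * y := mul_le_mul_of_nonneg_right hle hz3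
    nlinarith [Real.pi_pos]
  have hnum : ‖Δ z‖ ^ (m + 1) ≤ 2 ^ (m + 1) * E ^ (m + 1) := by
    rw [← mul_pow]
    exact pow_le_pow_left₀ (norm_nonneg _) hz1.2 _
  have hden : F / 2 ≤ ‖Δ (S23.affPt a b d' ha hd' z)‖ := hz2.1
  have hdenpos : 0 < ‖Δ (S23.affPt a b d' ha hd' z)‖ := lt_of_lt_of_le (by positivity) hden
  rw [div_le_iff₀ hdenpos]
  have hd12 : (0 : ℝ) < (d' : ℝ) ^ 12 := by positivity
  calc (d' : ℝ) ^ 12 * ‖Δ z‖ ^ (m + 1)
      ≤ (d' : ℝ) ^ 12 * (2 ^ (m + 1) * E ^ (m + 1)) := by gcongr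
    _ ≤ (d' : ℝ) ^ 12 * (2 ^ (m + 1) * F) := by gcongr
    _ = (d' : ℝ) ^ 12 * 2 ^ (m + 2) * (F / 2) := by ring
    _ ≤ (d' : ℝ) ^ 12 * 2 ^ (m + 2) * ‖Δ (S23.affPt a b d' ha hd' z)‖ := by gcongr

/-- `Δ^(m+1)/Δ(d·) ∈ M_{12 m}(Γ₀(N))` for `d ∣ N`, `d ≤ m + 1`. -/
theorem invForm_mem_MF {N d : ℕ} [NeZero N] [NeZero d] (hd : d ∣ N) (m : ℕ) (hm : d ≤ m + 1) :
    invForm d m ∈ S20.MF N (12 * (m : ℤ)) :=
  S20.mem_MF_iff'.mpr ⟨mdiff_invForm d m, isInv_invForm hd m, bdd_invForm_slash d m hm⟩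

/-! ### The `q`-expansion statements -/

theorem invForm_mul (d m : ℕ) [NeZero d] :
    invForm d m * (fun z : ℍ => Δ (S23.mulN d z)) = (Δ : ℍ → ℂ) ^ (m + 1) := by
  ext z
  rw [Pi.mul_apply, invForm_apply, Pi.pow_apply,
    div_mul_cancel₀ _ (ModularForm.discriminant_ne_zero _)]

/-- If `x` is the `q`-expansion of `Δ(d·)/Δ`, then `x⁻¹` is the `q`-expansion of
`(Δ^(m+1)/Δ(d·)) / Δ^m`. -/
theorem inv_mul_DeltaC_pow (d m : ℕ) [NeZero d] (hm : d ≤ m + 1) {x : LaurentSeries ℂ}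
    (hx : x * DeltaC = qx (fun z : ℍ => Δ (S23.mulN d z))) :
    x⁻¹ * DeltaC ^ m = qx (invForm d m) := by
  have hG := invForm_mem_MF (N := d) dvd_rfl m hm
  have hU := K1Gen.discriminant_scale_mem_MF (N := d) d dvd_rfl
  have h1 := qx_mul (K1IntB.mem_niceSub_of_mem_MF hG) (K1IntB.mem_niceSub_of_mem_MF hU)
  rw [invForm_mul, qx_pow S24.AnBridge.discriminant_mem_niceSub (m + 1), ← hx] at h1
  have hD : (DeltaC : LaurentSeries ℂ) ≠ 0 := DeltaC_ne_zero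
  have h2 : DeltaC ^ m = qx (invForm d m) * x := by
    have h3 : DeltaC ^ m * DeltaC = qx (invForm d m) * x * DeltaC := by
      rw [← pow_succ, mul_assoc]
      exact h1
    exact mul_right_cancel₀ hD h3
  have hx0 : x ≠ 0 := by
    rintro rfl
    rw [mul_zero] at h2
    exact pow_ne_zero m hD h2
  rw [h2, mul_comm (qx (invForm d m)) x, ← mul_assoc, inv_mul_cancel₀ hx0, one_mul]

/-- **[DQ]** The `q`-expansion `x` of `Δ(d·)/Δ` is integral over `ℂ[j]`. -/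
theorem isIntegral_uQuot (d : ℕ) [NeZero d] {x : LaurentSeries ℂ}
    (hx : x * DeltaC = qx (fun z : ℍ => Δ (S23.mulN d z))) :
    IsIntegral (Algebra.adjoin ℂ ({jC} : Set (LaurentSeries ℂ))) x := by
  have hG : (fun z : ℍ => Δ (S23.mulN d z)) ∈ S20.MF d (12 * ((1 : ℕ) : ℤ)) := by
    have h := K1Gen.discriminant_scale_mem_MF (N := d) d dvd_rfl
    simpa using h
  exact K1IntB.isIntegral_jC_of_form (N := d) 1 hG (by rw [pow_one]; exact hx)

/-- **[DQ]** The inverse of the `q`-expansion of `Δ(d·)/Δ` is integral over `ℂ[j]`. -/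
theorem isIntegral_uQuot_inv (d : ℕ) [NeZero d] {x : LaurentSeries ℂ}
    (hx : x * DeltaC = qx (fun z : ℍ => Δ (S23.mulN d z))) :
    IsIntegral (Algebra.adjoin ℂ ({jC} : Set (LaurentSeries ℂ))) x⁻¹ :=
  K1IntB.isIntegral_jC_of_form (N := d) d (invForm_mem_MF dvd_rfl d (Nat.le_succ d))
    (inv_mul_DeltaC_pow d d (Nat.le_succ d) hx)

/-- The `q`-expansion of `Δ(d·)/Δ` lies in `Mchi N 1` for `d ∣ N`. -/
theorem uQuot_mem_Mchi {N d : ℕ} [NeZero N] [NeZero d] (hd : d ∣ N) {x : LaurentSeries ℂ}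
    (hx : x * DeltaC = qx (fun z : ℍ => Δ (S23.mulN d z))) : x ∈ Mchi N 1 := by
  have hG : (fun z : ℍ => Δ (S23.mulN d z)) ∈ S20.MF N (12 * ((1 : ℕ) : ℤ)) := by
    have h := K1Gen.discriminant_scale_mem_MF d hd
    simpa using h
  exact K1IntB.mem_Mchi_one_of_form 1 hG (by rw [pow_one]; exact hx)

/-- The inverse of the `q`-expansion of `Δ(d·)/Δ` lies in `Mchi N 1` for `d ∣ N`. -/
theorem uQuot_inv_mem_Mchi {N d : ℕ} [NeZero N] [NeZero d] (hd : d ∣ N) {x : LaurentSeries ℂ}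
    (hx : x * DeltaC = qx (fun z : ℍ => Δ (S23.mulN d z))) : x⁻¹ ∈ Mchi N 1 :=
  K1IntB.mem_Mchi_one_of_form d (invForm_mem_MF hd d (Nat.le_succ d))
    (inv_mul_DeltaC_pow d d (Nat.le_succ d) hx)

/-- The `q`-expansion of `Δ(d·)/Δ`. -/
noncomputable def uQ (d : ℕ) [NeZero d] : LaurentSeries ℂ :=
  qx (fun z : ℍ => Δ (S23.mulN d z)) * DeltaC⁻¹

theorem uQ_mul_DeltaC (d : ℕ) [NeZero d] :
    uQ d * DeltaC = qx (fun z : ℍ => Δ (S23.mulN d z)) := by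
  rw [uQ, mul_assoc, inv_mul_cancel₀ DeltaC_ne_zero, mul_one]

theorem uQ_ne_zero (d : ℕ) [NeZero d] : uQ d ≠ 0 := by
  intro h
  have h1 := uQ_mul_DeltaC d
  rw [h, zero_mul] at h1
  exact qx_ne_zero (K1IntB.mem_niceSub_of_mem_MF (K1Gen.discriminant_scale_mem_MF (N := d) d dvd_rfl))
    (K1Gen.discriminant_scale_ne_zero d) h1.symm

/-- **[DQ]**, packaged: `uQ d` and its inverse are integral over `ℂ[j]`, and both lie in
`Mchi N 1` for `d ∣ N`. -/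
theorem uQ_spec {N d : ℕ} [NeZero N] [NeZero d] (hd : d ∣ N) :
    IsIntegral (Algebra.adjoin ℂ ({jC} : Set (LaurentSeries ℂ))) (uQ d) ∧
    IsIntegral (Algebra.adjoin ℂ ({jC} : Set (LaurentSeries ℂ))) (uQ d)⁻¹ ∧
    uQ d ∈ Mchi N 1 ∧ (uQ d)⁻¹ ∈ Mchi N 1 :=
  ⟨isIntegral_uQuot d (uQ_mul_DeltaC d), isIntegral_uQuot_inv d (uQ_mul_DeltaC d),
    uQuot_mem_Mchi hd (uQ_mul_DeltaC d), uQuot_inv_mem_Mchi hd (uQ_mul_DeltaC d)⟩

end Fermat.Agent.S36.EtaDQ
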