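import Mathlib

/-!
# Invariance, Atkin–Lehner and middle-cusp laws for `G(qz)/G(z)` (S36, [B1-eta] E3, B-copy)

Abstract in a weight one "form with character" `G : ℍ → ℂ`:
`hG : ∀ γ ∈ Γ₀(N0), ∀ z, G (γ • z) = chi (γ 1 1) * denom γ z * G z`, `G` nowhere zero.
With `sc d z = d * z`, `h1 = G ∘ sc q / G`, `h2 = G ∘ sc (q ^ 2) / G ∘ sc q` we prove

* (F1) `h1` is `Γ₀(N0 q)`-invariant, `h2` is `Γ₀(N0 q²)`-invariant;
* (F2) the law under `z ↦ γ0 • (q² z)`, `γ0 = (a b; M q²)` (Atkin–Lehner at `q²`);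
* (F3) the law under `γ3 = (1 0; qM 1)` (middle cusp).

Mathlib only; no hypothesis on `chi` except where stated.
-/

namespace Fermat.Agent.S36.EtaHInvB

open Complex
open scoped MatrixGroups
open UpperHalfPlane hiding I

/-- Multiplication by a positive natural number on the upper half plane. -/
def sc (d : ℕ) [NeZero d] (z : ℍ) : ℍ :=
  ⟨(d : ℂ) * (z : ℂ), by
    have hd : (0 : ℝ) < d := Nat.cast_pos.mpr (NeZero.pos d)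
    simpa using mul_pos hd z.im_pos⟩

@[simp] theorem coe_sc (d : ℕ) [NeZero d] (z : ℍ) : ((sc d z : ℍ) : ℂ) = (d : ℂ) * z := rfl

/-- The matrix `(a b; c d)` of determinant one. -/
def mk (a b c d : ℤ) (h : a * d - b * c = 1) : SL(2, ℤ) :=
  ⟨!![a, b; c, d], by rw [Matrix.det_fin_two_of]; exact h⟩

theorem mk_entries (a b c d : ℤ) (h : a * d - b * c = 1) :
    (mk a b c d h) 0 0 = a ∧ (mk a b c d h) 0 1 = b ∧ (mk a b c d h) 1 0 = c ∧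
      (mk a b c d h) 1 1 = d :=
  ⟨rfl, rfl, rfl, rfl⟩

theorem coe_smul_eq (γ : SL(2, ℤ)) (z : ℍ) :
    (↑(γ • z) : ℂ) = ((γ 0 0 : ℂ) * z + (γ 0 1 : ℂ)) / ((γ 1 0 : ℂ) * z + (γ 1 1 : ℂ)) := by
  rw [UpperHalfPlane.coe_specialLinearGroup_apply]
  simp

theorem det_eq (γ : SL(2, ℤ)) : γ 0 0 * γ 1 1 - γ 0 1 * γ 1 0 = 1 := by
  have := γ.det_coe
  rwa [Matrix.det_fin_two] at this

theorem bottom_ne_zero (γ : SL(2, ℤ)) (z : ℍ) : (γ 1 0 : ℂ) * z + (γ 1 1 : ℂ) ≠ 0 := by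
  have h := UpperHalfPlane.denom_ne_zero γ z
  rwa [ModularGroup.denom_apply] at h

theorem mem_Gamma0_iff (N : ℕ) (γ : SL(2, ℤ)) :
    γ ∈ CongruenceSubgroup.Gamma0 N ↔ (N : ℤ) ∣ γ 1 0 := by
  rw [CongruenceSubgroup.Gamma0_mem]
  exact ZMod.intCast_zmod_eq_zero_iff_dvd _ N

section

variable {G : ℍ → ℂ} {N0 : ℕ} {chi : ℤ → ℂ}

/-- The law of `G` in coordinates: if `u = (a w + b)/(c w + d)` with `N0 ∣ c` then
`G u = chi d (c w + d) G w`. -/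
theorem G_of_coe_eq
    (hG : ∀ γ ∈ CongruenceSubgroup.Gamma0 N0, ∀ z : ℍ, G (γ • z) = chi (γ 1 1) * denom γ z * G z)
    (a b c d : ℤ) (h : a * d - b * c = 1) (hc : (N0 : ℤ) ∣ c) (u w : ℍ)
    (huw : (u : ℂ) = ((a : ℂ) * w + b) / ((c : ℂ) * w + d)) :
    G u = chi d * ((c : ℂ) * w + d) * G w := by
  have hmem : mk a b c d h ∈ CongruenceSubgroup.Gamma0 N0 := (mem_Gamma0_iff N0 _).mpr hc
  have e : u = mk a b c d h • w := by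
    apply UpperHalfPlane.ext
    rw [huw, coe_smul_eq]
    rfl
  rw [e, hG _ hmem w, ModularGroup.denom_apply]
  rfl

/-- `h1 = G(qz)/G(z)`. -/
noncomputable def h1 (G : ℍ → ℂ) (q : ℕ) [NeZero q] (z : ℍ) : ℂ := G (sc q z) / G z

/-- `h2 = G(q²z)/G(qz)`. -/
noncomputable def h2 (G : ℍ → ℂ) (q : ℕ) [NeZero q] (z : ℍ) : ℂ := G (sc (q ^ 2) z) / G (sc q z)

theorem h1_ne_zero (hG0 : ∀ z, G z ≠ 0) (q : ℕ) [NeZero q] (z : ℍ) : h1 G q z ≠ 0 :=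
  div_ne_zero (hG0 _) (hG0 _)

theorem h2_ne_zero (hG0 : ∀ z, G z ≠ 0) (q : ℕ) [NeZero q] (z : ℍ) : h2 G q z ≠ 0 :=
  div_ne_zero (hG0 _) (hG0 _)

/-- The law of `G` on `Γ₀(N0)` with integer casts. -/
theorem G_smul
    (hG : ∀ γ ∈ CongruenceSubgroup.Gamma0 N0, ∀ z : ℍ, G (γ • z) = chi (γ 1 1) * denom γ z * G z)
    (γ : SL(2, ℤ)) (hγ : (N0 : ℤ) ∣ γ 1 0) (z : ℍ) :
    G (γ • z) = chi (γ 1 1) * ((γ 1 0 : ℂ) * z + (γ 1 1 : ℂ)) * G z := by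
  rw [hG γ ((mem_Gamma0_iff N0 γ).mpr hγ) z, ModularGroup.denom_apply]

/-- The law of `z ↦ G (d z)` on `Γ₀(N0 d)`. -/
theorem G_sc_smul
    (hG : ∀ γ ∈ CongruenceSubgroup.Gamma0 N0, ∀ z : ℍ, G (γ • z) = chi (γ 1 1) * denom γ z * G z)
    (d : ℕ) [NeZero d] (γ : SL(2, ℤ)) (hγ : ((N0 * d : ℕ) : ℤ) ∣ γ 1 0) (z : ℍ) :
    G (sc d (γ • z)) = chi (γ 1 1) * ((γ 1 0 : ℂ) * z + (γ 1 1 : ℂ)) * G (sc d z) := by
  obtain ⟨c', hc'⟩ := hγ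
  have hdet := det_eq γ
  have hd0 : (d : ℂ) ≠ 0 := Nat.cast_ne_zero.mpr (NeZero.ne d)
  have key := G_of_coe_eq hG (γ 0 0) (d * γ 0 1) (N0 * c') (γ 1 1)
    (by rw [hc'] at hdet; push_cast at hdet; linear_combination hdet) ⟨c', rfl⟩
    (sc d (γ • z)) (sc d z) (by
      rw [coe_sc, coe_smul_eq, coe_sc, hc', mul_div_assoc']
      congr 1
      · push_cast; ring
      · push_cast; ring)
  rw [key, coe_sc, hc']
  push_cast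
  ring

/-- (F1) `h1 = G(qz)/G(z)` is invariant under `Γ₀(N0 q)`. -/
theorem h1_smul
    (hG : ∀ γ ∈ CongruenceSubgroup.Gamma0 N0, ∀ z : ℍ, G (γ • z) = chi (γ 1 1) * denom γ z * G z)
    (hG0 : ∀ z, G z ≠ 0) (q : ℕ) [NeZero q] (γ : SL(2, ℤ))
    (hγ : γ ∈ CongruenceSubgroup.Gamma0 (N0 * q)) (z : ℍ) :
    h1 G q (γ • z) = h1 G q z := by
  have hdvd : ((N0 * q : ℕ) : ℤ) ∣ γ 1 0 := (mem_Gamma0_iff _ γ).mp hγ
  have hdvd0 : (N0 : ℤ) ∣ γ 1 0 := Dvd.dvd.trans ⟨(q : ℤ), by push_cast; ring⟩ hdvd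
  have e1 := G_sc_smul hG q γ hdvd z
  have e0 := G_smul hG γ hdvd0 z
  have hX : chi (γ 1 1) * ((γ 1 0 : ℂ) * z + (γ 1 1 : ℂ)) ≠ 0 := by
    intro h0
    rw [h0, zero_mul] at e0
    exact hG0 _ e0
  unfold h1
  rw [e1, e0]
  exact mul_div_mul_left _ _ hX

/-- (F1) `h2 = G(q²z)/G(qz)` is invariant under `Γ₀(N0 q²)`. -/
theorem h2_smul
    (hG : ∀ γ ∈ CongruenceSubgroup.Gamma0 N0, ∀ z : ℍ, G (γ • z) = chi (γ 1 1) * denom γ z * G z)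
    (hG0 : ∀ z, G z ≠ 0) (q : ℕ) [NeZero q] (γ : SL(2, ℤ))
    (hγ : γ ∈ CongruenceSubgroup.Gamma0 (N0 * q ^ 2)) (z : ℍ) :
    h2 G q (γ • z) = h2 G q z := by
  have hdvd : ((N0 * q ^ 2 : ℕ) : ℤ) ∣ γ 1 0 := (mem_Gamma0_iff _ γ).mp hγ
  have hdvd1 : ((N0 * q : ℕ) : ℤ) ∣ γ 1 0 := Dvd.dvd.trans ⟨(q : ℤ), by push_cast; ring⟩ hdvd
  have hdvd0 : (N0 : ℤ) ∣ γ 1 0 := Dvd.dvd.trans ⟨(q : ℤ), by push_cast; ring⟩ hdvd1
  have e2 := G_sc_smul hG (q ^ 2) γ hdvd z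
  have e1 := G_sc_smul hG q γ hdvd1 z
  have e0 := G_smul hG γ hdvd0 z
  have hX : chi (γ 1 1) * ((γ 1 0 : ℂ) * z + (γ 1 1 : ℂ)) ≠ 0 := by
    intro h0
    rw [h0, zero_mul] at e0
    exact hG0 _ e0
  unfold h2
  rw [e2, e1]
  exact mul_div_mul_left _ _ hX

/-- The three values of `G` at `u = γ0 • (q² z)`, `q u`, `q² u` for `γ0 = (a b; M q²)`. -/
theorem G_atkinLehner
    (hG : ∀ γ ∈ CongruenceSubgroup.Gamma0 N0, ∀ z : ℍ, G (γ • z) = chi (γ 1 1) * denom γ z * G z)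
    (q : ℕ) [NeZero q] (M : ℤ) (hM : (N0 : ℤ) ∣ M) (a b : ℤ)
    (hab : a * ((q : ℤ) ^ 2) - b * M = 1) (z : ℍ) :
    G (mk a b M ((q : ℤ) ^ 2) hab • sc (q ^ 2) z)
        = chi ((q : ℤ) ^ 2) * ((q : ℂ) ^ 2 * ((M : ℂ) * z + 1)) * G (sc (q ^ 2) z) ∧
    G (sc q (mk a b M ((q : ℤ) ^ 2) hab • sc (q ^ 2) z))
        = chi (q : ℤ) * ((q : ℂ) * ((M : ℂ) * z + 1)) * G (sc q z) ∧
    G (sc (q ^ 2) (mk a b M ((q : ℤ) ^ 2) hab • sc (q ^ 2) z))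
        = chi 1 * ((M : ℂ) * z + 1) * G z := by
  have hq0 : (q : ℂ) ≠ 0 := Nat.cast_ne_zero.mpr (NeZero.ne q)
  have hMz : (M : ℂ) * z + 1 ≠ 0 := by
    have := bottom_ne_zero (mk 1 0 M 1 (by ring)) z
    simpa [(mk_entries 1 0 M 1 (by ring)).2.2.1, (mk_entries 1 0 M 1 (by ring)).2.2.2] using this
  have hu : ((mk a b M ((q : ℤ) ^ 2) hab • sc (q ^ 2) z : ℍ) : ℂ)
      = ((a : ℂ) * ((q : ℂ) ^ 2 * z) + b) / ((q : ℂ) ^ 2 * ((M : ℂ) * z + 1)) := by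
    rw [coe_smul_eq]
    obtain ⟨h00, h01, h10, h11⟩ := mk_entries a b M ((q : ℤ) ^ 2) hab
    rw [h00, h01, h10, h11, coe_sc]
    push_cast
    congr 1
    ring
  refine ⟨?_, ?_, ?_⟩
  · have key := G_of_coe_eq hG a b M ((q : ℤ) ^ 2) hab hM
      (mk a b M ((q : ℤ) ^ 2) hab • sc (q ^ 2) z) (sc (q ^ 2) z) (by
        rw [hu, coe_sc]; push_cast; congr 1; ring)
    rw [key, coe_sc]
    push_cast
    ring
  · have key := G_of_coe_eq hG (q * a) b M q (by linear_combination hab) hM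
      (sc q (mk a b M ((q : ℤ) ^ 2) hab • sc (q ^ 2) z)) (sc q z) (by
        rw [coe_sc, hu, coe_sc]
        push_cast
        have h1 : (M : ℂ) * ((q : ℂ) * z) + q = q * ((M : ℂ) * z + 1) := by ring
        rw [h1, mul_div_assoc', div_eq_div_iff (mul_ne_zero (pow_ne_zero 2 hq0) hMz)
          (mul_ne_zero hq0 hMz)]
        ring)
    rw [key, coe_sc]
    push_cast
    ring
  · have key := G_of_coe_eq hG (q ^ 2 * a) b M 1 (by linear_combination hab) hM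
      (sc (q ^ 2) (mk a b M ((q : ℤ) ^ 2) hab • sc (q ^ 2) z)) z (by
        rw [coe_sc, hu]
        push_cast
        rw [mul_div_assoc', div_eq_div_iff (mul_ne_zero (pow_ne_zero 2 hq0) hMz) hMz]
        ring)
    rw [key]
    push_cast
    ring

/-- (F2) Atkin–Lehner at `q²`, first half: with `u = γ0 • (q² z)`, `γ0 = (a b; M q²)`,
`h1 u · h2 z · (chi (q²) q) = chi q`. -/
theorem h1_atkinLehner
    (hG : ∀ γ ∈ CongruenceSubgroup.Gamma0 N0, ∀ z : ℍ, G (γ • z) = chi (γ 1 1) * denom γ z * G z)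
    (hG0 : ∀ z, G z ≠ 0) (q : ℕ) [NeZero q] (M : ℤ) (hM : (N0 : ℤ) ∣ M) (a b : ℤ)
    (hab : a * ((q : ℤ) ^ 2) - b * M = 1) (z : ℍ) :
    h1 G q (mk a b M ((q : ℤ) ^ 2) hab • sc (q ^ 2) z) * h2 G q z * (chi ((q : ℤ) ^ 2) * q)
      = chi (q : ℤ) := by
  obtain ⟨e0, e1, e2⟩ := G_atkinLehner hG q M hM a b hab z
  have hq0 : (q : ℂ) ≠ 0 := Nat.cast_ne_zero.mpr (NeZero.ne q)
  have hG1 := hG0 (sc q z)
  have hG2 := hG0 (sc (q ^ 2) z)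
  have hne0 := hG0 (mk a b M ((q : ℤ) ^ 2) hab • sc (q ^ 2) z)
  rw [e0] at hne0
  have hchi : chi ((q : ℤ) ^ 2) ≠ 0 := fun h => hne0 (by rw [h]; ring)
  have hMz : (M : ℂ) * z + 1 ≠ 0 := fun h => hne0 (by rw [h]; ring)
  unfold h1 h2
  rw [e1, e0]
  field_simp

/-- (F2) Atkin–Lehner at `q²`, second half: `h2 u · h1 z · (chi q · q) = chi 1`. -/
theorem h2_atkinLehner
    (hG : ∀ γ ∈ CongruenceSubgroup.Gamma0 N0, ∀ z : ℍ, G (γ • z) = chi (γ 1 1) * denom γ z * G z)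
    (hG0 : ∀ z, G z ≠ 0) (q : ℕ) [NeZero q] (M : ℤ) (hM : (N0 : ℤ) ∣ M) (a b : ℤ)
    (hab : a * ((q : ℤ) ^ 2) - b * M = 1) (z : ℍ) :
    h2 G q (mk a b M ((q : ℤ) ^ 2) hab • sc (q ^ 2) z) * h1 G q z * (chi (q : ℤ) * q)
      = chi 1 := by
  obtain ⟨e0, e1, e2⟩ := G_atkinLehner hG q M hM a b hab z
  have hq0 : (q : ℂ) ≠ 0 := Nat.cast_ne_zero.mpr (NeZero.ne q)
  have hG1 := hG0 (sc q z)
  have hGz := hG0 z
  have hne1 := hG0 (sc q (mk a b M ((q : ℤ) ^ 2) hab • sc (q ^ 2) z))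
  rw [e1] at hne1
  have hchi : chi (q : ℤ) ≠ 0 := fun h => hne1 (by rw [h]; ring)
  have hMz : (M : ℂ) * z + 1 ≠ 0 := fun h => hne1 (by rw [h]; ring)
  unfold h1 h2
  rw [e2, e1]
  field_simp

/-- The matrix `γ3 = (1 0; qM 1)` (the middle cusp `1/(qM)`). -/
def gam3 (q : ℕ) (M : ℤ) : SL(2, ℤ) := mk 1 0 (q * M) 1 (by ring)

theorem gam3_entries (q : ℕ) (M : ℤ) :
    (gam3 q M) 0 0 = 1 ∧ (gam3 q M) 0 1 = 0 ∧ (gam3 q M) 1 0 = q * M ∧ (gam3 q M) 1 1 = 1 :=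
  ⟨rfl, rfl, rfl, rfl⟩

/-- (F3) middle cusp, trivial half: `γ3 = (1 0; qM 1) ∈ Γ₀(N0 q)` leaves `h1` invariant. -/
theorem h1_middle
    (hG : ∀ γ ∈ CongruenceSubgroup.Gamma0 N0, ∀ z : ℍ, G (γ • z) = chi (γ 1 1) * denom γ z * G z)
    (hG0 : ∀ z, G z ≠ 0) (q : ℕ) [NeZero q] (M : ℤ) (hM : (N0 : ℤ) ∣ M) (z : ℍ) :
    h1 G q (gam3 q M • z) = h1 G q z := by
  apply h1_smul hG hG0 q
  rw [mem_Gamma0_iff]
  obtain ⟨M', rfl⟩ := hM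
  exact ⟨M', by rw [(gam3_entries q _).2.2.1]; push_cast; ring⟩

/-- (F3) middle cusp: for `M b + q d' = 1` and `γ3 = (1 0; qM 1)`,
`h2 (γ3 • z) · (chi 1 · q) · G (q z) = chi d' · G (z + b/q)`. -/
theorem h2_middle
    (hG : ∀ γ ∈ CongruenceSubgroup.Gamma0 N0, ∀ z : ℍ, G (γ • z) = chi (γ 1 1) * denom γ z * G z)
    (hG0 : ∀ z, G z ≠ 0) (q : ℕ) [NeZero q] (M : ℤ) (hM : (N0 : ℤ) ∣ M) (b d' : ℤ)
    (hbd : M * b + q * d' = 1) (z : ℍ) :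
    h2 G q (gam3 q M • z) * (chi 1 * q) * G (sc q z)
      = chi d' * G (((b : ℝ) / (q : ℝ)) +ᵥ z) := by
  have hq0 : (q : ℂ) ≠ 0 := Nat.cast_ne_zero.mpr (NeZero.ne q)
  have hbdC : (M : ℂ) * b + q * d' = 1 := by exact_mod_cast congrArg (Int.cast : ℤ → ℂ) hbd
  have hD : (q : ℂ) * M * z + 1 ≠ 0 := by
    have := bottom_ne_zero (gam3 q M) z
    simpa [(gam3_entries q M).2.2.1, (gam3_entries q M).2.2.2] using this
  have hu : ((gam3 q M • z : ℍ) : ℂ) = (z : ℂ) / ((q : ℂ) * M * z + 1) := by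
    rw [coe_smul_eq]
    obtain ⟨h00, h01, h10, h11⟩ := gam3_entries q M
    rw [h00, h01, h10, h11]
    push_cast
    congr 1
    ring
  have hw : ((((b : ℝ) / (q : ℝ)) +ᵥ z : ℍ) : ℂ) = (b : ℂ) / q + z := by
    rw [UpperHalfPlane.coe_vadd]; push_cast; ring
  -- numerator
  have e2 := G_of_coe_eq hG q (-b) M d' (by linear_combination hbd) hM
    (sc (q ^ 2) (gam3 q M • z)) (((b : ℝ) / (q : ℝ)) +ᵥ z) (by
      rw [coe_sc, hu, hw]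
      push_cast
      have h1 : (M : ℂ) * ((b : ℂ) / q + z) + d' = ((q : ℂ) * M * z + 1) / q := by
        field_simp
        linear_combination hbdC
      have h2 : (q : ℂ) * ((b : ℂ) / q + z) + -(b : ℂ) = q * z := by
        field_simp
        ring
      rw [h1, h2]
      field_simp)
  -- denominator
  have e1 := G_of_coe_eq hG 1 0 M 1 (by ring) hM
    (sc q (gam3 q M • z)) (sc q z) (by
      rw [coe_sc, hu, coe_sc]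
      push_cast
      rw [mul_div_assoc']
      congr 1
      · ring
      · ring)
  have hG1 := hG0 (sc q z)
  have hne1 := hG0 (sc q (gam3 q M • z))
  rw [e1] at hne1
  have hchi : chi 1 ≠ 0 := fun h => hne1 (by rw [h]; ring)
  have hD' : (M : ℂ) * ((sc q z : ℍ) : ℂ) + ((1 : ℤ) : ℂ) ≠ 0 := fun h => hne1 (by rw [h]; ring)
  have h1 : (M : ℂ) * ((((b : ℝ) / (q : ℝ)) +ᵥ z : ℍ) : ℂ) + d'
      = ((M : ℂ) * ((sc q z : ℍ) : ℂ) + ((1 : ℤ) : ℂ)) / q := by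
    rw [hw, coe_sc]
    field_simp
    push_cast
    linear_combination hbdC
  unfold h2
  rw [e2, e1, h1]
  field_simp

/-! ### The forms with `chi 1 = 1`, `chi (q²) = 1`, `chi q ^ 2 = 1` -/

/-- (F2) as dealt: `h1 (γ0 • q² z) = chi q · q⁻¹ · (h2 z)⁻¹`. -/
theorem h1_atkinLehner'
    (hG : ∀ γ ∈ CongruenceSubgroup.Gamma0 N0, ∀ z : ℍ, G (γ • z) = chi (γ 1 1) * denom γ z * G z)
    (hG0 : ∀ z, G z ≠ 0) (q : ℕ) [NeZero q] (hchi2 : chi ((q : ℤ) ^ 2) = 1)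
    (M : ℤ) (hM : (N0 : ℤ) ∣ M) (a b : ℤ)
    (hab : a * ((q : ℤ) ^ 2) - b * M = 1) (z : ℍ) :
    h1 G q (mk a b M ((q : ℤ) ^ 2) hab • sc (q ^ 2) z) = chi (q : ℤ) * (q : ℂ)⁻¹ * (h2 G q z)⁻¹ := by
  have h := h1_atkinLehner hG hG0 q M hM a b hab z
  have hq0 : (q : ℂ) ≠ 0 := Nat.cast_ne_zero.mpr (NeZero.ne q)
  have h2ne := h2_ne_zero hG0 q z
  rw [hchi2, one_mul] at h
  rw [← h]
  field_simp

/-- (F2) as dealt: `h2 (γ0 • q² z) = chi q · q⁻¹ · (h1 z)⁻¹` (uses `chi 1 = 1`, `chi q ^ 2 = 1`). -/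
theorem h2_atkinLehner'
    (hG : ∀ γ ∈ CongruenceSubgroup.Gamma0 N0, ∀ z : ℍ, G (γ • z) = chi (γ 1 1) * denom γ z * G z)
    (hG0 : ∀ z, G z ≠ 0) (q : ℕ) [NeZero q] (hchi1 : chi 1 = 1) (hchiq : chi (q : ℤ) ^ 2 = 1)
    (M : ℤ) (hM : (N0 : ℤ) ∣ M) (a b : ℤ)
    (hab : a * ((q : ℤ) ^ 2) - b * M = 1) (z : ℍ) :
    h2 G q (mk a b M ((q : ℤ) ^ 2) hab • sc (q ^ 2) z) = chi (q : ℤ) * (q : ℂ)⁻¹ * (h1 G q z)⁻¹ := by
  have h := h2_atkinLehner hG hG0 q M hM a b hab z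
  have hq0 : (q : ℂ) ≠ 0 := Nat.cast_ne_zero.mpr (NeZero.ne q)
  have h1ne := h1_ne_zero hG0 q z
  rw [hchi1] at h
  have hc0 : chi (q : ℤ) ≠ 0 := by
    intro h0; rw [h0] at hchiq; norm_num at hchiq
  have key : h2 G q (mk a b M ((q : ℤ) ^ 2) hab • sc (q ^ 2) z) * h1 G q z * q = chi (q : ℤ) := by
    linear_combination (chi (q : ℤ)) * h
      - (h2 G q (mk a b M ((q : ℤ) ^ 2) hab • sc (q ^ 2) z) * h1 G q z * q) * hchiq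
  have hBq : h1 G q z * (q : ℂ) ≠ 0 := mul_ne_zero h1ne hq0
  apply mul_right_cancel₀ hBq
  have e : chi (q : ℤ) * (q : ℂ)⁻¹ * (h1 G q z)⁻¹ * (h1 G q z * q) = chi (q : ℤ) := by
    field_simp
  rw [e]
  linear_combination key

/-- (F3) as dealt: `h2 (γ3 • z) = chi d' · q⁻¹ · G (z + b/q) / G (q z)` (uses `chi 1 = 1`). -/
theorem h2_middle'
    (hG : ∀ γ ∈ CongruenceSubgroup.Gamma0 N0, ∀ z : ℍ, G (γ • z) = chi (γ 1 1) * denom γ z * G z)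
    (hG0 : ∀ z, G z ≠ 0) (q : ℕ) [NeZero q] (hchi1 : chi 1 = 1)
    (M : ℤ) (hM : (N0 : ℤ) ∣ M) (b d' : ℤ) (hbd : M * b + q * d' = 1) (z : ℍ) :
    h2 G q (gam3 q M • z)
      = chi d' * (q : ℂ)⁻¹ * G (((b : ℝ) / (q : ℝ)) +ᵥ z) / G (sc q z) := by
  have h := h2_middle hG hG0 q M hM b d' hbd z
  have hq0 : (q : ℂ) ≠ 0 := Nat.cast_ne_zero.mpr (NeZero.ne q)
  have hG1 := hG0 (sc q z)
  rw [hchi1, one_mul] at h
  rw [eq_div_iff hG1]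
  apply mul_left_cancel₀ hq0
  have e : (q : ℂ) * (chi d' * (q : ℂ)⁻¹ * G (((b : ℝ) / (q : ℝ)) +ᵥ z))
      = chi d' * G (((b : ℝ) / (q : ℝ)) +ᵥ z) := by
    field_simp
  rw [e, ← h]
  ring

end

end Fermat.Agent.S36.EtaHInvB
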