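import Mathlib

/-!
# The eta quotient `G9 = η(z)^3 / η(3z)` on `Γ₀(9)` (S36, block [B1-eta](0), `N0 = 9`, B-copy)

Independent second copy (Mathlib only) of the weight one, nowhere vanishing eta quotient used
for the prime `q = 2` in the S36 campaign:

* `G9_ne_zero`, `mdiff_G9`, `G9_vadd_one`;
* `G9_smul_Gamma0_three` : on `Γ₀(3)` the multiplier is `psi c d = χ₃(d) · e^{-2πi (c/3) d / 3}`;
* `G9_smul` : on `Γ₀(9)`, `G9 (γ • z) = χ₃(d) (c z + d) G9 z`;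
* `G9_sq_slash` : `G9 ^ 2` is slash invariant of weight `2` under `Γ₀(9)`.

Route: `eta_add_int` (from the product), `eta_U` (the law under `(1 0; N 1)`, from the
`S`-law of Mathlib applied twice, with THE square root of positive real part), hence the
laws of `G9` under `(1 n; 0 1)` and `(1 0; 3m 1)`; a cocycle argument (`Law_mul`, `psi_mul`)
and Euclidean descent on the lower left entry (`Law_of_three_dvd`) give all of `Γ₀(3)`.
-/

namespace Fermat.Agent.S36.EtaNineB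

open Complex
open scoped Real ModularForm MatrixGroups Manifold
open UpperHalfPlane hiding I

/-- `η (z + n) = e^{n π i / 12} η z` for an integer `n`. -/
theorem eta_add_int (z : ℂ) (n : ℤ) :
    η (z + n) = cexp (n * π * I / 12) * η z := by
  have h1 : ∀ k : ℕ, ModularForm.eta_q k (z + n) = ModularForm.eta_q k z := by
    intro k
    rw [ModularForm.eta_q_eq_cexp, ModularForm.eta_q_eq_cexp]
    have : 2 * ↑π * I * (↑k + 1) * (z + ↑n) = 2 * ↑π * I * (↑k + 1) * z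
        + (((k + 1 : ℕ) : ℤ) * n : ℤ) * (2 * ↑π * I) := by
      push_cast; ring
    rw [this, Complex.exp_add, Complex.exp_int_mul_two_pi_mul_I, mul_one]
  have h2 : Function.Periodic.qParam 24 (z + n) = cexp (n * π * I / 12) * Function.Periodic.qParam 24 z := by
    simp only [Function.Periodic.qParam]
    rw [← Complex.exp_add]
    congr 1
    push_cast
    ring
  unfold ModularForm.eta
  simp only [h1, h2]
  ring

/-- The `S`-transformation law in pointwise form. -/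
theorem eta_neg_inv {z : ℂ} (hz : 0 < z.im) :
    η (-1 / z) = (Complex.sqrt I)⁻¹ * (Complex.sqrt z * η z) := by
  have := ModularForm.eta_comp_eq_csqrt_I_inv (show z ∈ UpperHalfPlane.upperHalfPlaneSet from hz)
  simpa using this

theorem sqrt_sq' {z : ℂ} : Complex.sqrt z ^ 2 = z := by
  unfold Complex.sqrt
  exact Complex.cpow_nat_inv_pow z two_ne_zero

/-- The principal square root of a point of the upper half plane lies in the open first
quadrant. -/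
theorem sqrt_re_im_pos {z : ℂ} (hz : 0 < z.im) :
    0 < (Complex.sqrt z).re ∧ 0 < (Complex.sqrt z).im := by
  have h1 : 0 ≤ (Complex.sqrt z).re := by
    rw [Complex.sqrt_eq_real_add_ite, if_pos hz.le]
    simp
    positivity
  have h2 : (Complex.sqrt z ^ 2).im = z.im := by rw [sqrt_sq']
  have h3 : 2 * (Complex.sqrt z).re * (Complex.sqrt z).im = z.im := by
    rw [← h2, sq, Complex.mul_im]; ring
  have h4 : 0 < (Complex.sqrt z).re * (Complex.sqrt z).im := by nlinarith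
  have h5 : (Complex.sqrt z).re ≠ 0 := by
    intro h; rw [h] at h4; simp at h4
  have h6 : 0 < (Complex.sqrt z).re := lt_of_le_of_ne h1 (Ne.symm h5)
  exact ⟨h6, (pos_iff_pos_of_mul_pos h4).mp h6⟩

theorem sqrt_I_inv_sq : (Complex.sqrt I)⁻¹ * (Complex.sqrt I)⁻¹ = -I := by
  have h : Complex.sqrt I ^ 2 = I := sqrt_sq'
  have h0 : Complex.sqrt I ≠ 0 := by
    intro h0; rw [h0] at h; simp at h; exact I_ne_zero h.symm
  rw [← mul_inv, ← sq, h, Complex.inv_I]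

theorem int_mul_add_one_ne_zero (N : ℤ) {w : ℂ} (hw : 0 < w.im) : (N : ℂ) * w + 1 ≠ 0 := by
  intro h
  have him := congrArg Complex.im h
  have hre := congrArg Complex.re h
  simp at him hre
  rcases him with h0 | h0
  · rw [h0] at hre; simp at hre
  · exact hw.ne' h0

/-- The law of `η` under `U_N = (1 0; N 1)`: `η (w / (N w + 1)) = e^{-N π i / 12} s η w` with
`s` THE square root of `N w + 1` of positive real part. -/
theorem eta_U (N : ℤ) {w : ℂ} (hw : 0 < w.im) :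
    ∃ s : ℂ, s ^ 2 = N * w + 1 ∧ 0 < s.re ∧
      η (w / (N * w + 1)) = cexp (-(N * π * I / 12)) * s * η w := by
  have hw0 : w ≠ 0 := by
    intro h; rw [h] at hw; simp at hw
  have hN := int_mul_add_one_ne_zero N hw
  have hw1 : 0 < (-1 / w).im := by
    rw [neg_div, one_div, Complex.neg_im, Complex.inv_im]
    have : 0 < Complex.normSq w := Complex.normSq_pos.mpr hw0
    have : 0 < w.im / Complex.normSq w := div_pos hw this
    rw [neg_div]; linarith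
  have hz' : 0 < (-1 / w + ((-N : ℤ) : ℂ)).im := by
    simpa using hw1
  have e0 : -1 / w + ((-N : ℤ) : ℂ) = -(N * w + 1) / w := by
    push_cast
    field_simp
    ring
  have e1 : w / (N * w + 1) = -1 / (-1 / w + ((-N : ℤ) : ℂ)) := by
    rw [e0]
    field_simp
  have e4 : (-1 / w + ((-N : ℤ) : ℂ)) * w = -(N * w + 1) := by
    rw [e0]
    field_simp
  obtain ⟨ha1, ha2⟩ := sqrt_re_im_pos hz'
  obtain ⟨hb1, hb2⟩ := sqrt_re_im_pos hw
  refine ⟨-I * Complex.sqrt (-1 / w + ((-N : ℤ) : ℂ)) * Complex.sqrt w, ?_, ?_, ?_⟩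
  · have : (-I * Complex.sqrt (-1 / w + ((-N : ℤ) : ℂ)) * Complex.sqrt w) ^ 2
        = -(Complex.sqrt (-1 / w + ((-N : ℤ) : ℂ)) ^ 2 * Complex.sqrt w ^ 2) := by
      have := Complex.I_sq
      linear_combination (Complex.sqrt (-1 / w + ((-N : ℤ) : ℂ)) ^ 2 * Complex.sqrt w ^ 2) * this
    rw [this, sqrt_sq', sqrt_sq', e4, neg_neg]
  · have : (-I * Complex.sqrt (-1 / w + ((-N : ℤ) : ℂ)) * Complex.sqrt w).re
        = (Complex.sqrt (-1 / w + ((-N : ℤ) : ℂ))).re * (Complex.sqrt w).im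
          + (Complex.sqrt (-1 / w + ((-N : ℤ) : ℂ))).im * (Complex.sqrt w).re := by
      simp only [Complex.mul_re, Complex.mul_im, Complex.neg_re, Complex.neg_im, Complex.I_re,
        Complex.I_im]
      ring
    rw [this]
    positivity
  · rw [e1, eta_neg_inv hz', eta_add_int, eta_neg_inv hw]
    have h := sqrt_I_inv_sq
    have e2 : (((-N : ℤ) : ℂ)) * π * I / 12 = -(N * π * I / 12) := by push_cast; ring
    rw [e2]
    linear_combination (cexp (-(N * π * I / 12)) * Complex.sqrt (-1 / w + ((-N : ℤ) : ℂ))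
      * Complex.sqrt w * η w) * h

/-- The eta quotient `η(z)^3 / η(3z)` as a function on `ℂ`. -/
noncomputable def G9c (z : ℂ) : ℂ := η z ^ 3 / η (3 * z)

theorem three_mul_im_pos {z : ℂ} (hz : 0 < z.im) : 0 < (3 * z).im := by
  have : (3 * z).im = 3 * z.im := by simp
  rw [this]; positivity

theorem G9c_ne_zero {z : ℂ} (hz : 0 < z.im) : G9c z ≠ 0 := by
  unfold G9c
  exact div_ne_zero (pow_ne_zero 3 (ModularForm.eta_ne_zero hz))
    (ModularForm.eta_ne_zero (three_mul_im_pos hz))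

theorem G9c_add_int (z : ℂ) (n : ℤ) : G9c (z + n) = G9c z := by
  unfold G9c
  have e1 : 3 * (z + n) = 3 * z + ((3 * n : ℤ) : ℂ) := by push_cast; ring
  rw [e1, eta_add_int, eta_add_int]
  have e2 : cexp (((3 * n : ℤ) : ℂ) * π * I / 12) = cexp (n * π * I / 12) ^ 3 := by
    rw [← Complex.exp_nat_mul]
    congr 1
    push_cast
    ring
  rw [e2, mul_pow]
  exact mul_div_mul_left _ _ (pow_ne_zero 3 (Complex.exp_ne_zero _))

theorem G9c_U {z : ℂ} (hz : 0 < z.im) (m : ℤ) :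
    G9c (z / (3 * m * z + 1)) = cexp (-(2 * π * I * m / 3)) * (3 * m * z + 1) * G9c z := by
  obtain ⟨s1, hs1, hs1', h1⟩ := eta_U (3 * m) hz
  obtain ⟨s2, hs2, hs2', h2⟩ := eta_U m (three_mul_im_pos hz)
  have hss : s1 = s2 := by
    have h : (s1 - s2) * (s1 + s2) = 0 := by
      have : s1 ^ 2 = s2 ^ 2 := by rw [hs1, hs2]; push_cast; ring
      linear_combination this
    rcases mul_eq_zero.mp h with h | h
    · exact sub_eq_zero.mp h
    · exfalso
      have := congrArg Complex.re h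
      simp at this
      linarith
  subst hss
  have hs0 : s1 ≠ 0 := by
    intro h; rw [h] at hs1'; simp at hs1'
  have hd := int_mul_add_one_ne_zero (3 * m) hz
  have e1 : z / (3 * m * z + 1) = z / (((3 * m : ℤ) : ℂ) * z + 1) := by push_cast; ring
  have e2 : 3 * (z / (3 * m * z + 1)) = 3 * z / ((m : ℂ) * (3 * z) + 1) := by
    rw [mul_div_assoc]; congr 2; ring
  unfold G9c
  rw [e2, h2, e1, h1]
  have hη : η (3 * z) ≠ 0 := ModularForm.eta_ne_zero (three_mul_im_pos hz)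
  have e3 : cexp (-(((3 * m : ℤ) : ℂ) * π * I / 12)) ^ 3
      = cexp (-(2 * π * I * m / 3)) * cexp (-((m : ℂ) * π * I / 12)) := by
    rw [← Complex.exp_nat_mul, ← Complex.exp_add]
    congr 1
    push_cast
    ring
  have e4 : (3 * (m : ℂ) * z + 1) = s1 ^ 2 := by rw [hs1]; push_cast; ring
  rw [e4]
  have hE : cexp (-((m : ℂ) * π * I / 12)) ≠ 0 := Complex.exp_ne_zero _
  rw [mul_pow, mul_pow, e3]
  field_simp

/-! ### The character on `Γ₀(3)` -/

/-- The quadratic character modulo `3` on integers prime to `3` (value `-1` elsewhere). -/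
noncomputable def chi3 (d : ℤ) : ℂ := if d % 3 = 1 then 1 else -1

/-- `n ↦ e^{-2 π i n / 3}`. -/
noncomputable def E3 (n : ℤ) : ℂ := cexp (-(2 * π * I * n / 3))

theorem E3_zero : E3 0 = 1 := by simp [E3]

theorem E3_add (a b : ℤ) : E3 (a + b) = E3 a * E3 b := by
  unfold E3
  rw [← Complex.exp_add]
  congr 1
  push_cast
  ring

theorem E3_three_mul (k : ℤ) : E3 (3 * k) = 1 := by
  unfold E3
  have : -(2 * (π : ℂ) * I * ((3 * k : ℤ) : ℂ) / 3) = ((-k : ℤ) : ℂ) * (2 * π * I) := by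
    push_cast; ring
  rw [this, Complex.exp_int_mul_two_pi_mul_I]

theorem E3_add_three_mul (n k : ℤ) : E3 (n + 3 * k) = E3 n := by
  rw [E3_add, E3_three_mul, mul_one]

/-- The multiplier of `G9` on `Γ₀(3)`, as a function of the bottom row `(c, d)`. -/
noncomputable def psi (c d : ℤ) : ℂ := chi3 d * E3 (c / 3 * d)

theorem chi3_mul {d1 d2 : ℤ} (h1 : ¬ (3 : ℤ) ∣ d1) (h2 : ¬ (3 : ℤ) ∣ d2) (k : ℤ) :
    chi3 (3 * k + d1 * d2) = chi3 d1 * chi3 d2 := by
  have e : (3 * k + d1 * d2) % 3 = ((d1 % 3) * (d2 % 3)) % 3 := by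
    rw [Int.add_emod, Int.mul_emod_right, zero_add, Int.emod_emod_of_dvd _ (dvd_refl 3),
      Int.mul_emod]
  have h1' : d1 % 3 = 1 ∨ d1 % 3 = 2 := by omega
  have h2' : d2 % 3 = 1 ∨ d2 % 3 = 2 := by omega
  unfold chi3
  rw [e]
  rcases h1' with h | h <;> rcases h2' with h' | h' <;> rw [h, h'] <;> norm_num

theorem psi_mul (a1 b1 c1 d1 a2 b2 c2 d2 : ℤ) (h1 : a1 * d1 - b1 * c1 = 1)
    (h2 : a2 * d2 - b2 * c2 = 1) (hc1 : (3 : ℤ) ∣ c1) (hc2 : (3 : ℤ) ∣ c2) :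
    psi (c1 * a2 + d1 * c2) (c1 * b2 + d1 * d2) = psi c1 d1 * psi c2 d2 := by
  obtain ⟨c1', rfl⟩ := hc1
  obtain ⟨c2', rfl⟩ := hc2
  have hd1 : ¬ (3 : ℤ) ∣ d1 := by
    rintro ⟨e, rfl⟩
    have : (3 : ℤ) ∣ 1 := ⟨a1 * e - b1 * c1', by linarith⟩
    omega
  have hd2 : ¬ (3 : ℤ) ∣ d2 := by
    rintro ⟨e, rfl⟩
    have : (3 : ℤ) ∣ 1 := ⟨a2 * e - b2 * c2', by linarith⟩
    omega
  have hsq : ∃ e : ℤ, d1 * d1 = 1 + 3 * e := by
    have h1' : d1 % 3 = 1 ∨ d1 % 3 = 2 := by omega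
    rcases h1' with h | h
    · refine ⟨(d1 / 3) * (3 * (d1 / 3) + 2), ?_⟩
      have := Int.emod_add_mul_ediv d1 3
      rw [h] at this
      have hd : d1 = 1 + 3 * (d1 / 3) := by linarith
      linear_combination (d1 + 1 + 3 * (d1 / 3)) * hd
    · refine ⟨(d1 / 3) * (3 * (d1 / 3) + 4) + 1, ?_⟩
      have := Int.emod_add_mul_ediv d1 3
      rw [h] at this
      have hd : d1 = 2 + 3 * (d1 / 3) := by linarith
      linear_combination (d1 + 2 + 3 * (d1 / 3)) * hd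
  obtain ⟨e, he⟩ := hsq
  unfold psi
  have e1 : (3 * c1' * a2 + d1 * (3 * c2')) / 3 = c1' * a2 + d1 * c2' := by
    have : 3 * c1' * a2 + d1 * (3 * c2') = 3 * (c1' * a2 + d1 * c2') := by ring
    rw [this, Int.mul_ediv_cancel_left _ (by norm_num)]
  have e2 : 3 * c1' / 3 = c1' := Int.mul_ediv_cancel_left _ (by norm_num)
  have e3 : 3 * c2' / 3 = c2' := Int.mul_ediv_cancel_left _ (by norm_num)
  have e4 : 3 * c1' * b2 + d1 * d2 = 3 * (c1' * b2) + d1 * d2 := by ring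
  rw [e1, e2, e3, e4, chi3_mul hd1 hd2]
  have e5 : (c1' * a2 + d1 * c2') * (3 * (c1' * b2) + d1 * d2)
      = (c1' * d1 + c2' * d2)
        + 3 * (c1' * d1 * b2 * c2' + c2' * d2 * e + (c1' * a2 + d1 * c2') * c1' * b2) := by
    linear_combination (c1' * d1) * h2 + (c2' * d2) * he
  rw [e5, E3_add_three_mul, E3_add]
  ring

/-! ### The transformation law on `Γ₀(3)` -/

theorem coe_smul_eq (γ : SL(2, ℤ)) (z : ℍ) :
    (↑(γ • z) : ℂ) = ((γ 0 0 : ℂ) * z + (γ 0 1 : ℂ)) / ((γ 1 0 : ℂ) * z + (γ 1 1 : ℂ)) := by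
  rw [UpperHalfPlane.coe_specialLinearGroup_apply]
  simp

theorem det_eq (γ : SL(2, ℤ)) : γ 0 0 * γ 1 1 - γ 0 1 * γ 1 0 = 1 := by
  have := γ.det_coe
  rwa [Matrix.det_fin_two] at this

theorem bottom_ne_zero (γ : SL(2, ℤ)) (z : ℍ) : (γ 1 0 : ℂ) * z + (γ 1 1 : ℂ) ≠ 0 := by
  intro h
  have him := congrArg Complex.im h
  have hre := congrArg Complex.re h
  simp at him hre
  have hdet := det_eq γ
  rcases him with h0 | h0
  · rw [h0] at hre hdet
    simp at hre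
    rw [hre] at hdet
    simp at hdet
  · exact z.im_pos.ne' h0

/-- The transformation law of `G9c` for `γ`, with multiplier `psi`. -/
def Law (γ : SL(2, ℤ)) : Prop :=
  ∀ z : ℍ, G9c (↑(γ • z) : ℂ)
    = psi (γ 1 0) (γ 1 1) * ((γ 1 0 : ℂ) * z + (γ 1 1 : ℂ)) * G9c z

theorem mul_entries (γ₁ γ₂ : SL(2, ℤ)) :
    (γ₁ * γ₂) 1 0 = γ₁ 1 0 * γ₂ 0 0 + γ₁ 1 1 * γ₂ 1 0 ∧
    (γ₁ * γ₂) 1 1 = γ₁ 1 0 * γ₂ 0 1 + γ₁ 1 1 * γ₂ 1 1 := by
  constructor <;>
  simp [Matrix.SpecialLinearGroup.coe_mul, Matrix.mul_apply, Fin.sum_univ_two]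

theorem Law_mul {γ₁ γ₂ : SL(2, ℤ)} (h1 : (3 : ℤ) ∣ γ₁ 1 0) (h2 : (3 : ℤ) ∣ γ₂ 1 0)
    (L1 : Law γ₁) (L2 : Law γ₂) : Law (γ₁ * γ₂) := by
  intro z
  obtain ⟨e10, e11⟩ := mul_entries γ₁ γ₂
  rw [mul_smul, L1 (γ₂ • z), L2 z, e10, e11, psi_mul _ _ _ _ _ _ _ _ (det_eq γ₁) (det_eq γ₂) h1 h2,
    coe_smul_eq γ₂ z]
  have hne := bottom_ne_zero γ₂ z
  have key : ((γ₁ 1 0 : ℂ) * (((γ₂ 0 0 : ℂ) * z + (γ₂ 0 1 : ℂ)) / ((γ₂ 1 0 : ℂ) * z + (γ₂ 1 1 : ℂ)))
        + (γ₁ 1 1 : ℂ)) * ((γ₂ 1 0 : ℂ) * z + (γ₂ 1 1 : ℂ))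
      = ((γ₁ 1 0 : ℂ) * (γ₂ 0 0 : ℂ) + (γ₁ 1 1 : ℂ) * (γ₂ 1 0 : ℂ)) * z
        + ((γ₁ 1 0 : ℂ) * (γ₂ 0 1 : ℂ) + (γ₁ 1 1 : ℂ) * (γ₂ 1 1 : ℂ)) := by
    rw [add_mul, mul_assoc, div_mul_cancel₀ _ hne]
    ring
  push_cast
  linear_combination (psi (γ₁ 1 0) (γ₁ 1 1) * psi (γ₂ 1 0) (γ₂ 1 1) * G9c z) * key

theorem chi3_one : chi3 1 = 1 := by simp [chi3]

theorem chi3_neg_one : chi3 (-1) = -1 := by
  unfold chi3
  norm_num

theorem Law_of_bottom_left_eq_zero (γ : SL(2, ℤ)) (h : γ 1 0 = 0) : Law γ := by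
  intro z
  have hdet := det_eq γ
  rw [h, mul_zero, sub_zero] at hdet
  rw [coe_smul_eq, h]
  rcases Int.eq_one_or_neg_one_of_mul_eq_one' hdet with ⟨ha, hd⟩ | ⟨ha, hd⟩
  · rw [ha, hd]
    simp only [psi, chi3_one, Int.cast_zero, zero_mul, zero_add, Int.cast_one, div_one, one_mul,
      Int.zero_ediv, E3_zero, mul_one]
    exact G9c_add_int _ _
  · rw [ha, hd]
    have e : (((-1 : ℤ) : ℂ) * (z : ℂ) + ((γ 0 1 : ℤ) : ℂ)) / (((0 : ℤ) : ℂ) * z + ((-1 : ℤ) : ℂ))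
        = (z : ℂ) + ((-(γ 0 1) : ℤ) : ℂ) := by
      push_cast
      rw [zero_mul, zero_add, div_neg, div_one]
      ring
    rw [e, G9c_add_int]
    simp only [psi, chi3_neg_one, Int.zero_ediv, zero_mul, E3_zero]
    push_cast
    ring

/-- The matrix `(1 n; 0 1)`. -/
def Tn (n : ℤ) : SL(2, ℤ) := ⟨!![1, n; 0, 1], by simp [Matrix.det_fin_two]⟩

/-- The matrix `(1 0; 3m 1)`. -/
def Um (m : ℤ) : SL(2, ℤ) := ⟨!![1, 0; 3 * m, 1], by simp [Matrix.det_fin_two]⟩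

theorem Tn_entries (n : ℤ) : (Tn n) 0 0 = 1 ∧ (Tn n) 0 1 = n ∧ (Tn n) 1 0 = 0 ∧ (Tn n) 1 1 = 1 :=
  ⟨rfl, rfl, rfl, rfl⟩

theorem Um_entries (m : ℤ) :
    (Um m) 0 0 = 1 ∧ (Um m) 0 1 = 0 ∧ (Um m) 1 0 = 3 * m ∧ (Um m) 1 1 = 1 :=
  ⟨rfl, rfl, rfl, rfl⟩

theorem Tn_mul_neg (n : ℤ) : Tn n * Tn (-n) = 1 := by
  apply Subtype.ext
  show (!![1, n; 0, 1] : Matrix (Fin 2) (Fin 2) ℤ) * !![1, -n; 0, 1] = 1
  rw [Matrix.mul_fin_two, Matrix.one_fin_two]
  simp

theorem Um_mul_neg (m : ℤ) : Um m * Um (-m) = 1 := by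
  apply Subtype.ext
  show (!![1, 0; 3 * m, 1] : Matrix (Fin 2) (Fin 2) ℤ) * !![1, 0; 3 * -m, 1] = 1
  rw [Matrix.mul_fin_two, Matrix.one_fin_two]
  simp

theorem Law_Tn (n : ℤ) : Law (Tn n) := Law_of_bottom_left_eq_zero _ rfl

theorem Law_Um (m : ℤ) : Law (Um m) := by
  intro z
  obtain ⟨h00, h01, h10, h11⟩ := Um_entries m
  rw [coe_smul_eq, h00, h01, h10, h11]
  have e : (((1 : ℤ) : ℂ) * (z : ℂ) + ((0 : ℤ) : ℂ)) / (((3 * m : ℤ) : ℂ) * z + ((1 : ℤ) : ℂ))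
      = (z : ℂ) / (3 * m * z + 1) := by
    push_cast; ring
  rw [e, G9c_U z.im_pos m]
  have e2 : psi (3 * m) 1 = E3 m := by
    unfold psi
    rw [chi3_one, one_mul, Int.mul_ediv_cancel_left _ (by norm_num), mul_one]
  rw [e2]
  unfold E3
  push_cast
  ring

theorem exists_small (d c : ℤ) (hc : c ≠ 0) : ∃ n : ℤ, 2 * (d + c * n).natAbs ≤ c.natAbs := by
  obtain ⟨k, hk⟩ : c ∣ (c.natAbs : ℤ) := Int.dvd_natAbs.mpr dvd_rfl
  have hpos : (0 : ℤ) < c.natAbs := by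
    have := Int.natAbs_pos.mpr hc
    exact_mod_cast this
  have h1 := Int.emod_nonneg d hpos.ne'
  have h2 := Int.emod_lt_of_pos d hpos
  have h3 := Int.mul_ediv_add_emod d (c.natAbs : ℤ)
  by_cases h : 2 * (d % (c.natAbs : ℤ)) ≤ c.natAbs
  · refine ⟨-k * (d / (c.natAbs : ℤ)), ?_⟩
    have e : d + c * (-k * (d / (c.natAbs : ℤ))) = d % (c.natAbs : ℤ) := by
      have : c * (-k * (d / (c.natAbs : ℤ))) = -((c.natAbs : ℤ) * (d / (c.natAbs : ℤ))) := by
        rw [hk]; ring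
      rw [this]; linarith
    rw [e]
    omega
  · refine ⟨-k * (d / (c.natAbs : ℤ)) - k, ?_⟩
    have e : d + c * (-k * (d / (c.natAbs : ℤ)) - k) = d % (c.natAbs : ℤ) - c.natAbs := by
      have : c * (-k * (d / (c.natAbs : ℤ)) - k)
          = -((c.natAbs : ℤ) * (d / (c.natAbs : ℤ))) - c.natAbs := by
        rw [hk]; ring
      rw [this]; linarith
    rw [e]
    omega

/-- The transformation law on all of `Γ₀(3)`, by descent on the bottom left entry. -/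
theorem Law_of_three_dvd : ∀ (N : ℕ) (γ : SL(2, ℤ)), (3 : ℤ) ∣ γ 1 0 → (γ 1 0).natAbs = N → Law γ := by
  intro N
  induction N using Nat.strong_induction_on with
  | _ N ih =>
    intro γ h3 hN
    by_cases hc : γ 1 0 = 0
    · exact Law_of_bottom_left_eq_zero γ hc
    · obtain ⟨n, hn⟩ := exists_small (γ 1 1) (γ 1 0) hc
      obtain ⟨e10, e11⟩ := mul_entries γ (Tn n)
      obtain ⟨t00, t01, t10, t11⟩ := Tn_entries n
      rw [t00, t10, mul_one, mul_zero, add_zero] at e10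
      rw [t01, t11, mul_one] at e11
      have hd' : (γ * Tn n) 1 1 ≠ 0 := by
        intro h0
        have hdet := det_eq (γ * Tn n)
        rw [h0, mul_zero, zero_sub, e10] at hdet
        obtain ⟨c', hc'⟩ := h3
        rw [hc'] at hdet
        have : (3 : ℤ) ∣ 1 := ⟨-((γ * Tn n) 0 1 * c'), by linarith⟩
        omega
      obtain ⟨m, hm⟩ := exists_small ((γ * Tn n) 1 0) (3 * (γ * Tn n) 1 1) (by omega)
      obtain ⟨f10, -⟩ := mul_entries (γ * Tn n) (Um m)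
      obtain ⟨u00, u01, u10, u11⟩ := Um_entries m
      rw [u00, u10, mul_one] at f10
      have h3' : (3 : ℤ) ∣ (γ * Tn n) 1 0 := by rw [e10]; exact h3
      have h3'' : (3 : ℤ) ∣ (γ * Tn n * Um m) 1 0 := by
        rw [f10]
        exact dvd_add h3' ⟨(γ * Tn n) 1 1 * m, by ring⟩
      have hlt : ((γ * Tn n * Um m) 1 0).natAbs < N := by
        have e : (γ * Tn n * Um m) 1 0
            = (γ * Tn n) 1 0 + 3 * (γ * Tn n) 1 1 * m := by rw [f10]; ring
        have hn' : 2 * ((γ * Tn n) 1 1).natAbs ≤ (γ 1 0).natAbs := by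
          rw [e11, add_comm]; exact hn
        have h3abs : (3 * (γ * Tn n) 1 1).natAbs = 3 * ((γ * Tn n) 1 1).natAbs :=
          Int.natAbs_mul 3 _
        have hN' : 0 < (γ 1 0).natAbs := Int.natAbs_pos.mpr hc
        have hm' : 2 * ((γ * Tn n * Um m) 1 0).natAbs ≤ 3 * ((γ * Tn n) 1 1).natAbs := by
          rw [e, ← h3abs]; exact hm
        omega
      have L'' : Law (γ * Tn n * Um m) := ih _ hlt _ h3'' rfl
      have L' : Law (γ * Tn n) := by
        have e : γ * Tn n = γ * Tn n * Um m * Um (-m) := by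
          rw [mul_assoc (γ * Tn n), Um_mul_neg, mul_one]
        rw [e]
        exact Law_mul h3'' ⟨-m, by rw [(Um_entries (-m)).2.2.1]⟩ L'' (Law_Um (-m))
      have e : γ = γ * Tn n * Tn (-n) := by
        rw [mul_assoc, Tn_mul_neg, mul_one]
      rw [e]
      exact Law_mul h3' ⟨0, by rw [(Tn_entries (-n)).2.2.1]; rfl⟩ L' (Law_Tn (-n))

/-! ### Final statements on `ℍ` -/

/-- The weight one eta quotient `G9(z) = η(z)^3 / η(3z)` on the upper half plane. -/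
noncomputable def G9 (z : ℍ) : ℂ := η (z : ℂ) ^ 3 / η (3 * (z : ℂ))

theorem G9_eq_G9c (z : ℍ) : G9 z = G9c (z : ℂ) := rfl

/-- `G9` has no zero on the upper half plane. -/
theorem G9_ne_zero (z : ℍ) : G9 z ≠ 0 := G9c_ne_zero z.im_pos

/-- `G9` is holomorphic. -/
theorem mdiff_G9 : MDiff G9 := by
  rw [UpperHalfPlane.mdifferentiable_iff]
  have h3 : ∀ z : ℂ, 0 < z.im → DifferentiableAt ℂ (fun w : ℂ => η (3 * w)) z := by
    intro z hz
    have h1 : DifferentiableAt ℂ η (3 * z) :=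
      ModularForm.differentiableAt_eta_of_mem_upperHalfPlaneSet (three_mul_im_pos hz)
    have h2 : DifferentiableAt ℂ (fun w : ℂ => 3 * w) z := by fun_prop
    exact h1.comp z h2
  refine DifferentiableOn.congr (f := fun z : ℂ => η z ^ 3 / η (3 * z)) ?_ ?_
  · intro z hz
    exact (((ModularForm.differentiableAt_eta_of_mem_upperHalfPlaneSet hz).pow 3).div (h3 z hz)
      (ModularForm.eta_ne_zero (three_mul_im_pos hz))).differentiableWithinAt
  · intro z hz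
    simp [G9, ofComplex_apply_of_im_pos hz]

/-- Translation invariance. -/
theorem G9_vadd_one (z : ℍ) : G9 ((1 : ℝ) +ᵥ z) = G9 z := by
  rw [G9_eq_G9c, G9_eq_G9c]
  have : (↑((1 : ℝ) +ᵥ z) : ℂ) = (z : ℂ) + ((1 : ℤ) : ℂ) := by
    rw [UpperHalfPlane.coe_vadd]; push_cast; ring
  rw [this, G9c_add_int]

/-- The transformation law of `G9` on `Γ₀(3)`: multiplier `psi c d = χ₃(d) · e^{-2πi (c/3) d / 3}`. -/
theorem G9_smul_Gamma0_three (γ : SL(2, ℤ)) (hγ : γ ∈ CongruenceSubgroup.Gamma0 3) (z : ℍ) :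
    G9 (γ • z) = psi (γ 1 0) (γ 1 1) * ((γ 1 0 : ℂ) * z + (γ 1 1 : ℂ)) * G9 z := by
  have h3 : (3 : ℤ) ∣ γ 1 0 := by
    have := CongruenceSubgroup.Gamma0_mem.mp hγ
    exact (ZMod.intCast_zmod_eq_zero_iff_dvd _ 3).mp this
  exact Law_of_three_dvd _ γ h3 rfl z

theorem psi_of_nine_dvd {c : ℤ} (hc : (9 : ℤ) ∣ c) (d : ℤ) : psi c d = chi3 d := by
  obtain ⟨k, rfl⟩ := hc
  unfold psi
  have : 9 * k / 3 * d = 3 * (k * d) := by
    have : 9 * k = 3 * (3 * k) := by ring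
    rw [this, Int.mul_ediv_cancel_left _ (by norm_num)]
    ring
  rw [this, E3_three_mul, mul_one]

/-- **The transformation law of `G9 = η(z)^3/η(3z)` on `Γ₀(9)`**: weight one, character
`χ₃(d)` (the quadratic character modulo `3` of the lower right entry). -/
theorem G9_smul (γ : SL(2, ℤ)) (hγ : γ ∈ CongruenceSubgroup.Gamma0 9) (z : ℍ) :
    G9 (γ • z) = chi3 (γ 1 1) * ((γ 1 0 : ℂ) * z + (γ 1 1 : ℂ)) * G9 z := by
  have h9 : (9 : ℤ) ∣ γ 1 0 := by
    have := CongruenceSubgroup.Gamma0_mem.mp hγ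
    exact (ZMod.intCast_zmod_eq_zero_iff_dvd _ 9).mp this
  have h3 : (3 : ℤ) ∣ γ 1 0 := Dvd.dvd.trans ⟨3, by norm_num⟩ h9
  rw [← psi_of_nine_dvd h9]
  exact Law_of_three_dvd _ γ h3 rfl z

/-- `χ₃(d)² = 1`. -/
theorem chi3_sq (d : ℤ) : chi3 d ^ 2 = 1 := by
  unfold chi3
  split_ifs <;> norm_num

/-- The same law with Mathlib's `denom`. -/
theorem G9_smul_denom (γ : SL(2, ℤ)) (hγ : γ ∈ CongruenceSubgroup.Gamma0 9) (z : ℍ) :
    G9 (γ • z) = chi3 (γ 1 1) * denom γ z * G9 z := by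
  rw [G9_smul γ hγ z, ModularGroup.denom_apply]

/-- `G9 ^ 2` is invariant of weight `2` under `Γ₀(9)` (trivial character). -/
theorem G9_sq_slash (γ : SL(2, ℤ)) (hγ : γ ∈ CongruenceSubgroup.Gamma0 9) :
    (G9 ^ 2) ∣[(2 : ℤ)] γ = G9 ^ 2 := by
  ext z
  rw [ModularForm.SL_slash_apply, Pi.pow_apply, Pi.pow_apply, G9_smul_denom γ hγ z]
  have hd : denom γ z ≠ 0 := denom_ne_zero γ z
  rw [mul_pow, mul_pow, chi3_sq, one_mul, zpow_neg]
  have : denom γ z ^ (2 : ℤ) = denom γ z ^ 2 := by norm_cast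
  rw [this]
  field_simp

end Fermat.Agent.S36.EtaNineB
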