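/-
S36 — EtaValInst.lean (helper93): block [B1-eta], glue `EtaVal` → `EtaPrincInst`.

For the valuation rings of record of the level-`M q²` model,
`V = ![GaussV.V1, GaussV.V2 w_{q²}, W3]`, `ϖ = ![π, π, s]` (`W3 = V3.Hyp3.W3` or any Gauss ring
`GaussE.V` along a middle-cusp embedding), the two eta units give

* `x = π · β h`   : `x = ϖ 0 · u` with `u` a unit of `V 0`, and `x` a unit of `V 1`, `V 2`;
* `x = (α h)⁻¹`   : `x = ϖ 1 · u` with `u` a unit of `V 1`, and `x` a unit of `V 0`, `V 2`,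

i.e. exactly the hypotheses `hx0`, `hu`, `hu'`, `hx`, `hxj` of `EtaPrincInst.princ_chart` for
`i = 0` and `i = 1`.  Inputs: `h ∈ F_K(M q)` a Gauss unit with the level-`q` Atkin–Lehner
relation `w_q h = c · h⁻¹`, `c · π` a unit of `A` (see `EtaVal`).
-/
import Mathlib
import Fermat.Agent.S36.EtaVal
import Fermat.Agent.S36.V3

set_option autoImplicit false

noncomputable section

namespace Fermat.Agent.S36.EtaValInst

open ModularCurve HahnSeries
open Fermat.Agent.S18 Fermat.Agent.S18.Arith Fermat.Agent.S18.ModelPlan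
open Fermat.Agent.S24 Fermat.Agent.S34 Fermat.Agent.S36.WQ2 Fermat.Agent.S36.EtaVal

variable {M q : ℕ} [NeZero M] [NeZero q] {hq : q.Prime} {hqM : ¬ q ∣ M}
variable {A : ValuationSubring Qb} {K K' : IntermediateField ℚ Qb}
variable {h : FK (M * q) K} {c : K}
variable {y : LaurentSeries (IsLocalRing.ResidueField A)}
variable {ι : FK (M * q * q) K →+* LaurentSeries Qb} {ξ : Qb} {hξ0 : ξ ≠ 0}

omit [NeZero q] in
/-- A `q`-th root of unity `≠ 1` is primitive (`q` prime). -/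
theorem isPrimitiveRoot_of_prime (hq : q.Prime) {ξ : Qb} (hξ : ξ ^ q = 1) (hξ1 : ξ ≠ 1) :
    IsPrimitiveRoot ξ q := by
  have : Fact q.Prime := ⟨hq⟩
  have h1 : orderOf ξ = q := orderOf_eq_prime hξ hξ1
  have h2 := IsPrimitiveRoot.orderOf ξ
  rwa [h1] at h2

/-- A Gauss unit is nonzero. -/
theorem ne_zero_of_gRel {x : LaurentSeries Qb} (hG : GRel A x y) (hy : y ≠ 0) : x ≠ 0 := by
  rintro rfl
  exact hy ((V12Rel.gFacts A).unique _ _ _ hG (ModelRed.gRel_zero (V12Rel.gFacts A)))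

omit [NeZero M] [NeZero q] in
theorem h_ne_zero (hG : GRel A ((h : FK (M * q) K) : LaurentSeries Qb) y) (hy : y ≠ 0) :
    h ≠ 0 := by
  rintro rfl
  exact ne_zero_of_gRel hG hy rfl

/-- `π · β h ≠ 0`. -/
theorem pi_beta_ne_zero (hG : GRel A ((h : FK (M * q) K) : LaurentSeries Qb) y) (hy : y ≠ 0)
    {π : OK A K} (hπ0 : π ≠ 0) :
    algebraMap (OK A K) (FK (M * q * q) K) π * betaK2 M q hq hqM K h ≠ 0 :=
  mul_ne_zero (GaussV.algebraMap_ne_zero (M * q * q) A K hπ0)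
    (fun h0 => h_ne_zero hG hy ((betaK2 M q hq hqM K).injective (by rw [h0, map_zero])))

/-- `(α h)⁻¹ ≠ 0`. -/
theorem alpha_inv_ne_zero (hG : GRel A ((h : FK (M * q) K) : LaurentSeries Qb) y) (hy : y ≠ 0) :
    (alphaK2 M q K h)⁻¹ ≠ 0 :=
  inv_ne_zero (fun h0 => h_ne_zero hG hy ((alphaK2 M q K).injective (by rw [h0, map_zero])))

section General

variable (hdvr : IsDiscreteValuationRing (OK A K))

/-- **Branch `i = 0`**: `x = π · β h` for the family `![V1, V2, GaussE.V]`, `![π, π, s]`. -/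
theorem vals0 (hE : GaussE.Emb A K K' ι) (hdvr' : IsDiscreteValuationRing (OK A K'))
    (hA : A.LiesOverPrime q) (hξ : IsPrimitiveRoot ξ q)
    (hβ : ∀ x : FK (M * q) K, ι (betaK2 M q hq hqM K x)
      = rotHom ξ hξ0 ((S34.WK.wK M q hq hqM K x : FK (M * q) K) : LaurentSeries Qb))
    (hw : ALRel M q hq hqM K h c) {π : OK A K} (hπ0 : π ≠ 0) {u : A} (hu : IsUnit u)
    (hcπ : (c : Qb) * incO A K π = (u : Qb))
    (hG : GRel A ((h : FK (M * q) K) : LaurentSeries Qb) y) (hy : y ≠ 0)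
    (s : FK (M * q * q) K) :
    algebraMap (OK A K) (FK (M * q * q) K) π * betaK2 M q hq hqM K h ≠ 0 ∧
    betaK2 M q hq hqM K h ∈ (![GaussV.V1 (M * q * q) A K hdvr,
        GaussV.V2 (wK2 M q hq hqM K) hdvr, GaussE.V hE hdvr'] :
        Fin 3 → ValuationSubring (FK (M * q * q) K)) 0 ∧
    (betaK2 M q hq hqM K h)⁻¹ ∈ (![GaussV.V1 (M * q * q) A K hdvr,
        GaussV.V2 (wK2 M q hq hqM K) hdvr, GaussE.V hE hdvr'] :
        Fin 3 → ValuationSubring (FK (M * q * q) K)) 0 ∧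
    algebraMap (OK A K) (FK (M * q * q) K) π * betaK2 M q hq hqM K h
      = (![algebraMap (OK A K) (FK (M * q * q) K) π,
          algebraMap (OK A K) (FK (M * q * q) K) π, s] : Fin 3 → FK (M * q * q) K) 0
        * betaK2 M q hq hqM K h ∧
    ∀ j : Fin 3, j ≠ 0 →
      algebraMap (OK A K) (FK (M * q * q) K) π * betaK2 M q hq hqM K h
        ∈ (![GaussV.V1 (M * q * q) A K hdvr, GaussV.V2 (wK2 M q hq hqM K) hdvr,
          GaussE.V hE hdvr'] : Fin 3 → ValuationSubring (FK (M * q * q) K)) j ∧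
      (algebraMap (OK A K) (FK (M * q * q) K) π * betaK2 M q hq hqM K h)⁻¹
        ∈ (![GaussV.V1 (M * q * q) A K hdvr, GaussV.V2 (wK2 M q hq hqM K) hdvr,
          GaussE.V hE hdvr'] : Fin 3 → ValuationSubring (FK (M * q * q) K)) j := by
  refine ⟨pi_beta_ne_zero hG hy hπ0, (beta_unit1 hdvr hG hy).1, (beta_unit1 hdvr hG hy).2, rfl,
    ?_⟩
  intro j hj
  fin_cases j
  · exact absurd rfl hj
  · exact pi_beta_unit2 hdvr hw hu hcπ hG hy
  · exact pi_beta_unit3 hE hdvr' hA hξ hβ hw hu hcπ hG hy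

/-- **Branch `i = 1`**: `x = (α h)⁻¹` for the family `![V1, V2, GaussE.V]`, `![π, π, s]`. -/
theorem vals1 (hE : GaussE.Emb A K K' ι) (hdvr' : IsDiscreteValuationRing (OK A K'))
    (hα : ∀ x : FK (M * q) K, ι (alphaK2 M q K x) = ((x : FK (M * q) K) : LaurentSeries Qb))
    (hw : ALRel M q hq hqM K h c) {π : OK A K} (hπ0 : π ≠ 0) {u : A} (hu : IsUnit u)
    (hcπ : (c : Qb) * incO A K π = (u : Qb))
    (hG : GRel A ((h : FK (M * q) K) : LaurentSeries Qb) y) (hy : y ≠ 0)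
    (s : FK (M * q * q) K) :
    (alphaK2 M q K h)⁻¹ ≠ 0 ∧
    ∃ v : FK (M * q * q) K,
      v ∈ (![GaussV.V1 (M * q * q) A K hdvr, GaussV.V2 (wK2 M q hq hqM K) hdvr,
        GaussE.V hE hdvr'] : Fin 3 → ValuationSubring (FK (M * q * q) K)) 1 ∧
      v⁻¹ ∈ (![GaussV.V1 (M * q * q) A K hdvr, GaussV.V2 (wK2 M q hq hqM K) hdvr,
        GaussE.V hE hdvr'] : Fin 3 → ValuationSubring (FK (M * q * q) K)) 1 ∧
      (alphaK2 M q K h)⁻¹
        = (![algebraMap (OK A K) (FK (M * q * q) K) π,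
            algebraMap (OK A K) (FK (M * q * q) K) π, s] : Fin 3 → FK (M * q * q) K) 1 * v ∧
      ∀ j : Fin 3, j ≠ 1 →
        (alphaK2 M q K h)⁻¹
          ∈ (![GaussV.V1 (M * q * q) A K hdvr, GaussV.V2 (wK2 M q hq hqM K) hdvr,
            GaussE.V hE hdvr'] : Fin 3 → ValuationSubring (FK (M * q * q) K)) j ∧
        ((alphaK2 M q K h)⁻¹)⁻¹
          ∈ (![GaussV.V1 (M * q * q) A K hdvr, GaussV.V2 (wK2 M q hq hqM K) hdvr,
            GaussE.V hE hdvr'] : Fin 3 → ValuationSubring (FK (M * q * q) K)) j := by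
  obtain ⟨h1, ⟨v, hv, hv', hxv⟩, h3⟩ := delta2 hdvr hE hdvr' hα hw hπ0 hu hcπ hG hy
  refine ⟨alpha_inv_ne_zero hG hy, v, hv, hv', hxv, ?_⟩
  intro j hj
  fin_cases j
  · exact h1
  · exact absurd rfl hj
  · exact h3

end General

/-! ### The instance of record: `W3 = V3.Hyp3.W3` -/

section Record

variable {ϖ' : OK A K'} (H : V3.Hyp3 M q hq hqM A K K' ξ hξ0 ι ϖ')
variable (hdvr : IsDiscreteValuationRing (OK A K))

/-- **Branch `i = 0`, family of record** `V = ![V1, V2, H.W3]`, `ϖ = ![π, π, s]`. -/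
theorem vals0_record (hA : A.LiesOverPrime q) (hw : ALRel M q hq hqM K h c) {π : OK A K}
    (hπ0 : π ≠ 0) {u : A} (hu : IsUnit u) (hcπ : (c : Qb) * incO A K π = (u : Qb))
    (hG : GRel A ((h : FK (M * q) K) : LaurentSeries Qb) y) (hy : y ≠ 0)
    (s : FK (M * q * q) K) :
    algebraMap (OK A K) (FK (M * q * q) K) π * betaK2 M q hq hqM K h ≠ 0 ∧
    betaK2 M q hq hqM K h ∈ (![GaussV.V1 (M * q * q) A K hdvr,
        GaussV.V2 (wK2 M q hq hqM K) hdvr, H.W3] :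
        Fin 3 → ValuationSubring (FK (M * q * q) K)) 0 ∧
    (betaK2 M q hq hqM K h)⁻¹ ∈ (![GaussV.V1 (M * q * q) A K hdvr,
        GaussV.V2 (wK2 M q hq hqM K) hdvr, H.W3] :
        Fin 3 → ValuationSubring (FK (M * q * q) K)) 0 ∧
    algebraMap (OK A K) (FK (M * q * q) K) π * betaK2 M q hq hqM K h
      = (![algebraMap (OK A K) (FK (M * q * q) K) π,
          algebraMap (OK A K) (FK (M * q * q) K) π, s] : Fin 3 → FK (M * q * q) K) 0
        * betaK2 M q hq hqM K h ∧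
    ∀ j : Fin 3, j ≠ 0 →
      algebraMap (OK A K) (FK (M * q * q) K) π * betaK2 M q hq hqM K h
        ∈ (![GaussV.V1 (M * q * q) A K hdvr, GaussV.V2 (wK2 M q hq hqM K) hdvr,
          H.W3] : Fin 3 → ValuationSubring (FK (M * q * q) K)) j ∧
      (algebraMap (OK A K) (FK (M * q * q) K) π * betaK2 M q hq hqM K h)⁻¹
        ∈ (![GaussV.V1 (M * q * q) A K hdvr, GaussV.V2 (wK2 M q hq hqM K) hdvr,
          H.W3] : Fin 3 → ValuationSubring (FK (M * q * q) K)) j :=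
  vals0 hdvr H.emb H.dvr' hA (isPrimitiveRoot_of_prime hq H.xi_pow H.xi_ne) H.mid.beta hw hπ0 hu
    hcπ hG hy s

/-- **Branch `i = 1`, family of record** `V = ![V1, V2, H.W3]`, `ϖ = ![π, π, s]`. -/
theorem vals1_record (hw : ALRel M q hq hqM K h c) {π : OK A K} (hπ0 : π ≠ 0) {u : A}
    (hu : IsUnit u) (hcπ : (c : Qb) * incO A K π = (u : Qb))
    (hG : GRel A ((h : FK (M * q) K) : LaurentSeries Qb) y) (hy : y ≠ 0)
    (s : FK (M * q * q) K) :
    (alphaK2 M q K h)⁻¹ ≠ 0 ∧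
    ∃ v : FK (M * q * q) K,
      v ∈ (![GaussV.V1 (M * q * q) A K hdvr, GaussV.V2 (wK2 M q hq hqM K) hdvr,
        H.W3] : Fin 3 → ValuationSubring (FK (M * q * q) K)) 1 ∧
      v⁻¹ ∈ (![GaussV.V1 (M * q * q) A K hdvr, GaussV.V2 (wK2 M q hq hqM K) hdvr,
        H.W3] : Fin 3 → ValuationSubring (FK (M * q * q) K)) 1 ∧
      (alphaK2 M q K h)⁻¹
        = (![algebraMap (OK A K) (FK (M * q * q) K) π,
            algebraMap (OK A K) (FK (M * q * q) K) π, s] : Fin 3 → FK (M * q * q) K) 1 * v ∧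
      ∀ j : Fin 3, j ≠ 1 →
        (alphaK2 M q K h)⁻¹
          ∈ (![GaussV.V1 (M * q * q) A K hdvr, GaussV.V2 (wK2 M q hq hqM K) hdvr,
            H.W3] : Fin 3 → ValuationSubring (FK (M * q * q) K)) j ∧
        ((alphaK2 M q K h)⁻¹)⁻¹
          ∈ (![GaussV.V1 (M * q * q) A K hdvr, GaussV.V2 (wK2 M q hq hqM K) hdvr,
            H.W3] : Fin 3 → ValuationSubring (FK (M * q * q) K)) j :=
  vals1 hdvr H.emb H.dvr' H.mid.alpha hw hπ0 hu hcπ hG hy s

end Record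

end Fermat.Agent.S36.EtaValInst
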