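/-
S36 — FKDesc.lean (helper126).  GALOIS DESCENT OF COEFFICIENTS for the function fields `F_K`:

    `F̄_N ∩ L((q)) ⊆ F_L`        (`mem_FK_of_coeff_mem`)

for EVERY intermediate field `L` of `ℚ̄/ℚ` (no finiteness, no Galois-stability of `L`): an element
of `F̄_N = modularFunctionFieldBar N` all of whose `q`-expansion coefficients lie in `L` belongs
to `F_L = FK N L`.  (`S18/DescCoeff` has the two easy halves: `F_L ⊆ F̄_N`, coefficients of `F_L`
lie in `L`, and `x ∈ F_K` for `K ⊇` a finite set depending on `x`.)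

Proof.  `S := F_L[C(ℚ̄)]` (the `F_L`-subalgebra of `ℚ̄((q))` generated by the constants) is
algebraic over `F_L`, hence a field, hence contains `F̄_N`; as an `F_L`-module it is spanned by
the constants.  Let `ψ : ℚ̄ → ℚ̄` be an `L`-linear projection onto `L` and `Ψ` its coefficientwise
extension to `ℚ̄((q))`: then `Ψ (a · C c) = a · C (ψ c) ∈ F_L` for `a ∈ F_L`, so `Ψ (S) ⊆ F_L`, and
`Ψ x = x` if the coefficients of `x` lie in `L`.

Corollaries (the forms consumed by [FJ36] / [NORMK]):
* `mem_FK_of_forall_fixed` — `f ∈ F̄_N` fixed by every `σ ∈ Gal(ℚ̄/ℚ)` fixing `K` pointwise lies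
                             in `F_K`;
* `mem_FK_fixedField`      — `f ∈ F̄_N` fixed by a subgroup `I` lies in `F_{ℚ̄^I}`.
-/
import Mathlib
import Fermat.Agent.S18.ArithPlan
import Fermat.Agent.S18.DescCoeff
import Fermat.Agent.S34.UPlan
import Fermat.Agent.S34.BaseNormal

set_option autoImplicit false

open ModularCurve AlgebraicCurve HahnSeries

namespace Fermat.Agent.S36.FKDesc

open Fermat.Agent.S18.Arith (Qb FK)
open Fermat.Agent.S34.UPlan (gal)

noncomputable section

/-! ### The coefficientwise extension of an additive map -/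

/-- Coefficientwise application of an additive map. -/
def mapAdd (ψ : Qb →+ Qb) (x : LaurentSeries Qb) : LaurentSeries Qb := x.map ψ

theorem mapAdd_coeff (ψ : Qb →+ Qb) (x : LaurentSeries Qb) (n : ℤ) :
    (mapAdd ψ x).coeff n = ψ (x.coeff n) := rfl

theorem mapAdd_zero (ψ : Qb →+ Qb) : mapAdd ψ 0 = 0 := by
  ext n
  rw [mapAdd_coeff, HahnSeries.coeff_zero]
  exact map_zero ψ

theorem mapAdd_add (ψ : Qb →+ Qb) (x y : LaurentSeries Qb) :
    mapAdd ψ (x + y) = mapAdd ψ x + mapAdd ψ y := by
  ext n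
  rw [mapAdd_coeff, HahnSeries.coeff_add, HahnSeries.coeff_add, mapAdd_coeff, mapAdd_coeff,
    map_add]

/-- Coefficients of a product with a constant. -/
theorem coeff_mul_C (a : LaurentSeries Qb) (c : Qb) (n : ℤ) :
    (a * HahnSeries.C c).coeff n = a.coeff n * c := by
  rw [mul_comm, HahnSeries.C_mul_eq_smul, HahnSeries.coeff_smul, smul_eq_mul, mul_comm]

/-! ### The descent -/

/-- Constants of `L` lie in `F_L`. -/
theorem C_mem_FK (N : ℕ) (L : IntermediateField ℚ Qb) {c : Qb} (hc : c ∈ L) :
    (HahnSeries.C c : LaurentSeries Qb) ∈ FK N L :=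
  Subfield.subset_closure (Or.inl ⟨⟨c, hc⟩, rfl⟩)

/-- A constant is integral over `F_L`. -/
theorem isIntegral_C (N : ℕ) (L : IntermediateField ℚ Qb) (c : Qb) :
    IsIntegral (FK N L) (HahnSeries.C c : LaurentSeries Qb) := by
  have h1 : IsIntegral ℚ c := (AlgebraicClosure.isAlgebraic ℚ).isIntegral.isIntegral c
  obtain ⟨p, hp, hpc⟩ := h1
  refine ⟨p.map ((Fermat.Agent.S18.Arith.constK N L).comp (algebraMap ℚ L)), hp.map _, ?_⟩
  rw [Polynomial.eval₂_map]
  have h2 : (algebraMap (FK N L) (LaurentSeries Qb)).comp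
        ((Fermat.Agent.S18.Arith.constK N L).comp (algebraMap ℚ L))
      = (HahnSeries.C : Qb →+* LaurentSeries Qb).comp (algebraMap ℚ Qb) :=
    RingHom.ext_rat _ _
  rw [h2, ← Polynomial.hom_eval₂, hpc, map_zero]

/-- **`F̄_N ⊆ F_L[C(ℚ̄)]`**, and the latter is spanned over `F_L` by the constants. -/
theorem mem_span_C (N : ℕ) (L : IntermediateField ℚ Qb) (x : LaurentSeries Qb)
    (hx : x ∈ modularFunctionFieldBar N) :
    x ∈ Submodule.span (FK N L) (Set.range (HahnSeries.C : Qb → LaurentSeries Qb)) := by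
  set S : Subalgebra (FK N L) (LaurentSeries Qb) :=
    Algebra.adjoin (FK N L) (Set.range (HahnSeries.C : Qb → LaurentSeries Qb)) with hS
  -- `S` is integral over `F_L`
  have hint : ∀ y ∈ S, IsIntegral (FK N L) y := by
    intro y hy
    have hle : S ≤ integralClosure (FK N L) (LaurentSeries Qb) := by
      rw [hS]
      refine Algebra.adjoin_le ?_
      rintro _ ⟨c, rfl⟩
      exact isIntegral_C N L c
    exact hle hy
  -- hence closed under inverses
  have hinv : ∀ y ∈ S, y⁻¹ ∈ S := by
    intro y hy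
    exact Subalgebra.inv_mem_of_algebraic S (x := ⟨y, hy⟩) (hint y hy).isAlgebraic
  -- `F̄_N ⊆ S`
  have hall : ∀ y : LaurentSeries Qb, y ∈ Subfield.closure
      (Set.range (algebraMap Qb (LaurentSeries Qb)) ∪
        (⇑(coeffEmb Qb) '' ((modularFunctionFieldFull N : IntermediateField ℚ (LaurentSeries ℚ))
          : Set (LaurentSeries ℚ)))) → y ∈ S := by
    intro y hy
    induction hy using Subfield.closure_induction with
    | mem y hy =>
      rcases hy with ⟨a, rfl⟩ | ⟨z, hz, rfl⟩
      · have h : algebraMap Qb (LaurentSeries Qb) a = (HahnSeries.C a : LaurentSeries Qb) := by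
          rw [algebraMap_laurentSeries_eq_single]
          rfl
        rw [h]
        exact Algebra.subset_adjoin ⟨a, rfl⟩
      · have hz' : coeffEmb Qb z ∈ FK N L :=
          Subfield.subset_closure (Or.inr ⟨⟨z, hz⟩, rfl⟩)
        exact S.algebraMap_mem ⟨coeffEmb Qb z, hz'⟩
    | one => exact S.one_mem
    | add y z _ _ hy hz => exact S.add_mem hy hz
    | neg y _ hy => exact S.neg_mem hy
    | inv y _ hy => exact hinv y hy
    | mul y z _ _ hy hz => exact S.mul_mem hy hz
  have hxS : x ∈ S := hall x hx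
  -- `S` is the span of the constants
  have hspan : Subalgebra.toSubmodule S
      = Submodule.span (FK N L) (Set.range (HahnSeries.C : Qb → LaurentSeries Qb)) := by
    rw [hS, Algebra.adjoin_eq_span]
    congr 1
    have h : Set.range (HahnSeries.C : Qb → LaurentSeries Qb)
        = ((MonoidHom.mrange ((HahnSeries.C : Qb →+* LaurentSeries Qb) : Qb →* LaurentSeries Qb)
            : Submonoid (LaurentSeries Qb)) : Set (LaurentSeries Qb)) := by
      ext y
      simp
    rw [h, Submonoid.closure_eq]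
  rw [← hspan]
  exact hxS

/-- **Descent of coefficients.**  An element of `F̄_N` whose `q`-expansion coefficients all lie in
`L` belongs to `F_L`. -/
theorem mem_FK_of_coeff_mem (N : ℕ) (L : IntermediateField ℚ Qb) (x : LaurentSeries Qb)
    (hx : x ∈ modularFunctionFieldBar N) (hc : ∀ n : ℤ, x.coeff n ∈ L) : x ∈ FK N L := by
  -- an `L`-linear projection of `ℚ̄` onto `L`
  obtain ⟨g, hg⟩ := LinearMap.exists_leftInverse_of_injective (Algebra.linearMap L Qb)
    (LinearMap.ker_eq_bot.mpr (algebraMap L Qb).injective)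
  have hgL : ∀ l : L, g (l : Qb) = l := fun l => by
    have := congrArg (fun f : L →ₗ[L] L => f l) hg
    simpa using this
  let ψ : Qb →+ Qb := (algebraMap L Qb : L →+ Qb).comp g.toAddMonoidHom
  have hψ : ∀ y : Qb, ψ y = ((g y : L) : Qb) := fun _ => rfl
  have hψmem : ∀ y : Qb, ψ y ∈ L := fun y => (g y).2
  have hψL : ∀ y : Qb, y ∈ L → ψ y = y := by
    intro y hy
    rw [hψ]
    have := hgL ⟨y, hy⟩
    exact congrArg Subtype.val this
  have hψmul : ∀ (l y : Qb), l ∈ L → ψ (l * y) = l * ψ y := by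
    intro l y hl
    rw [hψ, hψ]
    have h1 : l * y = (⟨l, hl⟩ : L) • y := rfl
    rw [h1, map_smul]
    rfl
  -- `Ψ` maps `F_L · span` into `F_L`
  have key : ∀ z ∈ Submodule.span (FK N L)
      (Set.range (HahnSeries.C : Qb → LaurentSeries Qb)),
      ∀ a : LaurentSeries Qb, a ∈ FK N L → mapAdd ψ (a * z) ∈ FK N L := by
    intro z hz
    induction hz using Submodule.span_induction with
    | mem y hy =>
      obtain ⟨c, rfl⟩ := hy
      intro a ha
      have h : mapAdd ψ (a * (HahnSeries.C c : LaurentSeries Qb)) = a * HahnSeries.C (ψ c) := by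
        ext n
        rw [mapAdd_coeff, coeff_mul_C, coeff_mul_C,
          hψmul _ _ (Fermat.Agent.S18.DescCoeff.coeffStatement N L _ ha n)]
      rw [h]
      exact mul_mem ha (C_mem_FK N L (hψmem c))
    | zero =>
      intro a _
      rw [mul_zero, mapAdd_zero]
      exact zero_mem _
    | add y z _ _ hy hz =>
      intro a ha
      rw [mul_add, mapAdd_add]
      exact add_mem (hy a ha) (hz a ha)
    | smul b y _ ih =>
      intro a ha
      have e : a * (b • y) = (a * (b : LaurentSeries Qb)) * y := by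
        rw [mul_assoc]
        rfl
      rw [e]
      exact ih _ (mul_mem ha b.2)
  have hfix : mapAdd ψ x = x := by
    ext n
    rw [mapAdd_coeff, hψL _ (hc n)]
  rw [← hfix]
  have h1 := key x (mem_span_C N L x hx) 1 (one_mem _)
  rwa [one_mul] at h1

/-! ### Galois forms -/

/-- A function of `F̄_N` fixed by every automorphism of `ℚ̄` fixing `K` pointwise lies in `F_K`. -/
theorem mem_FK_of_forall_fixed (N : ℕ) (K : IntermediateField ℚ Qb)
    (f : modularFunctionFieldBar N)
    (h : ∀ σ : Qb ≃ₐ[ℚ] Qb, (∀ a ∈ K, σ a = a) → gal N σ • f = f) :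
    (f : LaurentSeries Qb) ∈ FK N K := by
  refine mem_FK_of_coeff_mem N K _ f.2 (fun n => ?_)
  refine Fermat.Agent.S34.BaseNormal.mem_of_forall_fixed K _ (fun σ hσ => ?_)
  have h1 := congrArg (fun y : modularFunctionFieldBar N => (y : LaurentSeries Qb).coeff n)
    (h σ hσ)
  simp only [coe_arithmeticGalois_smul, coeffMap_coeff] at h1
  exact h1

/-- A function of `F̄_N` fixed by a subgroup `I` of `Gal(ℚ̄/ℚ)` lies in `F_L`, `L = ℚ̄^I`. -/
theorem mem_FK_fixedField (N : ℕ) (I : Subgroup (Qb ≃ₐ[ℚ] Qb)) (f : modularFunctionFieldBar N)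
    (hf : ∀ τ ∈ I, gal N τ • f = f) :
    (f : LaurentSeries Qb) ∈ FK N (IntermediateField.fixedField I) := by
  refine mem_FK_of_coeff_mem N _ _ f.2 (fun n => ?_)
  rw [IntermediateField.mem_fixedField_iff]
  intro τ hτ
  have h1 := congrArg (fun y : modularFunctionFieldBar N => (y : LaurentSeries Qb).coeff n)
    (hf τ hτ)
  simp only [coe_arithmeticGalois_smul, coeffMap_coeff] at h1
  exact h1

/-- Converse bookkeeping: an element of `F_K`, viewed in `F̄_N`. -/
theorem mem_bar_of_mem_FK (N : ℕ) (K : IntermediateField ℚ Qb) {x : LaurentSeries Qb}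
    (hx : x ∈ FK N K) : x ∈ modularFunctionFieldBar N :=
  Fermat.Agent.S18.DescCoeff.FK_le_bar N K hx

end

end Fermat.Agent.S36.FKDesc
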