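/-
S36 — FrobStable.lean (helper99): a Frobenius element at `A` stabilising the inertia field.

For a valuation subring `A` of `ℚ̄` lying over a prime `q`:

* `stable_inertiaField_of_mem_decomp` : every element of the decomposition group of `A`
  stabilises the inertia field `L_A = ℚ̄^{I_A}` (`S34.TauAct.Stable`);
* `stable_of_isFrobeniusAt` : in particular every Frobenius element at `A` does;
* `exists_frob_stable` : `∃ σ, A.IsFrobeniusAt σ q ∧ Stable (BaseL.inertiaField A) σ` — the inputs
  `hσ`, `hK` of `Corr3Lift.hL1 / hL2 / hCΦ` at `K = BaseL.inertiaField A`;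
* `exists_frob_stable_symm` : the same with `Stable … σ.symm` added.
-/
import Mathlib
import Fermat.Agent.S34.TauAct
import Fermat.Agent.S36.BaseL
import Fermat.Agent.S37.FrobEx

set_option autoImplicit false

namespace Fermat.Agent.S36.FrobStable

open Fermat.Agent.S18 Fermat.Agent.S18.Arith Fermat.Agent.S34

/-- Every element of the decomposition group of `A` stabilises the inertia field of `A`. -/
theorem stable_inertiaField_of_mem_decomp {A : ValuationSubring Qb} {σ : Qb ≃ₐ[ℚ] Qb}
    (hσ : σ ∈ A.decompositionSubgroup ℚ) :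
    TauAct.Stable (BaseL.inertiaField A) σ := by
  refine ⟨fun c hc => (BaseL.apply_mem_inertiaField_iff hσ c).mpr hc, fun c hc => ?_⟩
  have h := (BaseL.apply_mem_inertiaField_iff hσ (σ.symm c)).mp
  apply h
  rw [AlgEquiv.apply_symm_apply]
  exact hc

/-- Every Frobenius element at `A` stabilises the inertia field of `A`. -/
theorem stable_of_isFrobeniusAt {A : ValuationSubring Qb} {σ : Qb ≃ₐ[ℚ] Qb} {q : ℕ}
    (hσ : A.IsFrobeniusAt σ q) : TauAct.Stable (BaseL.inertiaField A) σ :=
  stable_inertiaField_of_mem_decomp hσ.mem_decompositionSubgroup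

/-- **[FrobStable]**: there is a Frobenius element at `A` stabilising the inertia field. -/
theorem exists_frob_stable (q : ℕ) (hq : q.Prime) (A : ValuationSubring Qb)
    (hA : A.LiesOverPrime q) :
    ∃ σ : Qb ≃ₐ[ℚ] Qb, A.IsFrobeniusAt σ q ∧ TauAct.Stable (BaseL.inertiaField A) σ := by
  obtain ⟨σ, hσ⟩ := Fermat.Agent.S37.FrobEx.exists_isFrobeniusAt_of_liesOver q hq A hA
  exact ⟨σ, hσ, stable_of_isFrobeniusAt hσ⟩

/-- The same, with the stability of the inverse recorded. -/
theorem exists_frob_stable_symm (q : ℕ) (hq : q.Prime) (A : ValuationSubring Qb)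
    (hA : A.LiesOverPrime q) :
    ∃ σ : Qb ≃ₐ[ℚ] Qb, A.IsFrobeniusAt σ q ∧ TauAct.Stable (BaseL.inertiaField A) σ ∧
      TauAct.Stable (BaseL.inertiaField A) σ.symm := by
  obtain ⟨σ, hσ, hK⟩ := exists_frob_stable q hq A hA
  exact ⟨σ, hσ, hK, hK.symm⟩

end Fermat.Agent.S36.FrobStable
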