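/-
S36 — H90Desc.lean (helper6): block [H90], the DESCENT half.

A function `f ∈ F̄_N` fixed (coefficientwise) by a subgroup `I` of `Gal(ℚ̄/ℚ)` lies in
`F_K = FK N K` for every field `K` containing a suitable FINITE subset `S` of the fixed field
`ℚ̄^I`.  With `I` an inertia group this puts an `I`-invariant Kummer generator (`S36/H90.lean`)
into `F_K` for base fields `K` inside `ℚ̄^I`, i.e. unramified ones.

Proof (no linear disjointness, no finite-level argument; only finiteness of Galois orbits of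
tuples of algebraic numbers).  Write `f = A / B` with `A, B` in the `ℚ̄`-span of the image `E₀`
of `F_ℚ`, say `B = ∑ bᵢ eᵢ`.  The orbit `O` of the tuple `(bᵢ)` under `I` is finite; the norm
`B' = ∏_{b ∈ O} ∑ bᵢ eᵢ = B · C` is fixed by `I`, hence so is `A' = A · C = f · B'`.  An `I`-fixed
element `X = ∑ aᵢ eᵢ` of the span equals the average `∑ (tr aᵢ / |O|) eᵢ` over the orbit `O` of
`(aᵢ)`, whose coefficients `tr aᵢ / |O|` are fixed by `I`.

Exports:
* `exists_finset_of_fixed`     — averaging: `I`-fixed elements of the `ℚ̄`-span of `E₀`;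
* `exists_fixed_denominator`   — the norm step;
* `exists_finset_of_invariant` — the descent statement above;
* `exists_invariant_kummer_FK` — `S36/H90.exists_invariant_kummer` together with the descent.
-/
import Mathlib
import Fermat.Agent.S36.H90
import Fermat.Agent.S18.ArithPlan

set_option autoImplicit false

open ModularCurve AlgebraicCurve HahnSeries

namespace Fermat.Agent.S36.H90Desc

open Fermat.Agent.S18.Arith (Qb FK)
open Fermat.Agent.S34.UPlan (gal)

noncomputable section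

set_option synthInstance.maxHeartbeats 400000

attribute [local instance] Fermat.Agent.S29.FinLevel.isAlgClosure_rat
  Fermat.Agent.S29.FinLevel.isAlgebraic_rat Fermat.Agent.S29.FinLevel.normal_rat

/-! ### Galois orbits of tuples -/

section Tuples

variable {ι : Type*} [Fintype ι]

/-- The Galois action on tuples of algebraic numbers. -/
def act (τ : Qb ≃ₐ[ℚ] Qb) (b : ι → Qb) : ι → Qb := fun i => τ (b i)

/-- The orbit of a tuple of algebraic numbers under a subgroup of the Galois group is finite. -/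
theorem orbit_finite (I : Subgroup (Qb ≃ₐ[ℚ] Qb)) (a : ι → Qb) :
    {b : ι → Qb | ∃ τ ∈ I, b = act τ a}.Finite := by
  refine (Set.Finite.pi (fun i => (minpoly ℚ (a i)).rootSet_finite Qb)).subset ?_
  rintro b ⟨τ, -, rfl⟩
  rw [Set.mem_univ_pi]
  intro i
  rw [Polynomial.mem_rootSet]
  refine ⟨minpoly.ne_zero (Algebra.IsIntegral.isIntegral (a i)), ?_⟩
  have h := Polynomial.aeval_algHom_apply (τ : Qb →ₐ[ℚ] Qb) (a i) (minpoly ℚ (a i))
  rw [minpoly.aeval, map_zero] at h
  exact h

/-- The linear combination `∑ aᵢ eᵢ`. -/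
def lin (a : ι → Qb) (e : ι → LaurentSeries Qb) : LaurentSeries Qb :=
  ∑ i, algebraMap Qb (LaurentSeries Qb) (a i) * e i

theorem coeffMap_lin (τ : Qb ≃ₐ[ℚ] Qb) (a : ι → Qb) (e : ι → LaurentSeries Qb)
    (he : ∀ i, coeffMap (τ : Qb →+* Qb) (e i) = e i) :
    coeffMap (τ : Qb →+* Qb) (lin a e) = lin (act τ a) e := by
  unfold lin act
  rw [map_sum]
  refine Finset.sum_congr rfl (fun i _ => ?_)
  rw [map_mul, coeffMap_algebraMap, he i]
  rfl

end Tuples

/-! ### The `ℚ̄`-span of the image of `F_ℚ` -/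

section Span

variable (F₀ : IntermediateField ℚ (LaurentSeries ℚ))

/-- Elements of the `ℚ̄`-algebra generated by the image of `F₀` are finite linear combinations
of elements of the image. -/
theorem exists_lin (X : LaurentSeries Qb)
    (hX : X ∈ Algebra.adjoin Qb (⇑(coeffEmb Qb) '' (F₀ : Set (LaurentSeries ℚ)))) :
    ∃ (t : Finset (LaurentSeries Qb)) (a : t → Qb),
      (∀ y ∈ t, y ∈ ⇑(coeffEmb Qb) '' (F₀ : Set (LaurentSeries ℚ))) ∧
      X = lin a (fun y : t => (y : LaurentSeries Qb)) := by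
  classical
  let M : Submonoid (LaurentSeries Qb) :=
    (F₀.toSubalgebra.toSubmonoid).map
      ((coeffEmb Qb : LaurentSeries ℚ →+* LaurentSeries Qb) : LaurentSeries ℚ →* LaurentSeries Qb)
  have hM : (M : Set (LaurentSeries Qb)) = ⇑(coeffEmb Qb) '' (F₀ : Set (LaurentSeries ℚ)) := rfl
  have h2 : X ∈ Subalgebra.toSubmodule
      (Algebra.adjoin Qb (⇑(coeffEmb Qb) '' (F₀ : Set (LaurentSeries ℚ)))) := hX
  rw [Algebra.adjoin_eq_span, ← hM, Submonoid.closure_eq] at h2
  obtain ⟨f, t, ht, -, hsum⟩ := (@Submodule.mem_span_iff_exists_finset_subset Qb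
    (LaurentSeries Qb) _ _ Algebra.toModule _ _).mp h2
  refine ⟨t, fun y => f y, fun y hy => ht hy, ?_⟩
  rw [← hsum]
  unfold lin
  rw [Finset.sum_coe_sort t (fun y => algebraMap Qb (LaurentSeries Qb) (f y) * y)]
  exact Finset.sum_congr rfl (fun y _ => Algebra.smul_def _ _)

/-- **Norm step.**  A nonzero element `B` of the span has a nonzero multiple `B · C`, `C` in the
span, which is fixed by `I`. -/
theorem exists_fixed_denominator (I : Subgroup (Qb ≃ₐ[ℚ] Qb)) (B : LaurentSeries Qb)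
    (hB : B ∈ Algebra.adjoin Qb (⇑(coeffEmb Qb) '' (F₀ : Set (LaurentSeries ℚ))))
    (hB0 : B ≠ 0) :
    ∃ C ∈ Algebra.adjoin Qb (⇑(coeffEmb Qb) '' (F₀ : Set (LaurentSeries ℚ))), C ≠ 0 ∧
      ∀ τ ∈ I, coeffMap (τ : Qb →+* Qb) (B * C) = B * C := by
  classical
  obtain ⟨t, a, ht, rfl⟩ := exists_lin F₀ B hB
  have he : ∀ (τ : Qb ≃ₐ[ℚ] Qb) (i : t),
      coeffMap (τ : Qb →+* Qb) (i : LaurentSeries Qb) = (i : LaurentSeries Qb) := by
    intro τ i
    obtain ⟨x, -, hx⟩ := ht i i.2
    rw [← hx]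
    exact coeffMap_coeffEmb τ x
  let O : Finset (t → Qb) := (orbit_finite I a).toFinset
  have hO : ∀ b, b ∈ O ↔ ∃ τ ∈ I, b = act τ a := fun b => (orbit_finite I a).mem_toFinset
  have haO : a ∈ O := (hO a).2 ⟨1, I.one_mem, rfl⟩
  have hne : ∀ b ∈ O, lin b (fun y : t => (y : LaurentSeries Qb)) ≠ 0 := by
    intro b hb
    obtain ⟨τ, -, rfl⟩ := (hO b).1 hb
    rw [← coeffMap_lin τ a _ (he τ)]
    intro h
    exact hB0 (Fermat.Agent.S36.H90.coeffMap_injective (τ : Qb →+* Qb) τ.injective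
      (h.trans (map_zero _).symm))
  have hmem : ∀ b : t → Qb, lin b (fun y : t => (y : LaurentSeries Qb)) ∈
      Algebra.adjoin Qb (⇑(coeffEmb Qb) '' (F₀ : Set (LaurentSeries ℚ))) := fun b =>
    sum_mem (fun i _ => mul_mem (Subalgebra.algebraMap_mem _ _)
      (Algebra.subset_adjoin (ht i i.2)))
  refine ⟨∏ b ∈ O.erase a, lin b (fun y : t => (y : LaurentSeries Qb)),
    prod_mem (fun b _ => hmem b),
    Finset.prod_ne_zero_iff.2 (fun b hb => hne b (Finset.mem_of_mem_erase hb)), fun τ hτ => ?_⟩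
  rw [Finset.mul_prod_erase O (fun b => lin b (fun y : t => (y : LaurentSeries Qb))) haO,
    map_prod, Finset.prod_congr rfl (fun b _ => coeffMap_lin τ b _ (he τ))]
  refine Finset.prod_nbij' (fun b => act τ b) (fun b => act τ⁻¹ b) ?_ ?_ ?_ ?_ (fun b _ => rfl)
  · intro b hb
    obtain ⟨τ', hτ', rfl⟩ := (hO b).1 hb
    exact (hO _).2 ⟨τ * τ', I.mul_mem hτ hτ', rfl⟩
  · intro b hb
    obtain ⟨τ', hτ', rfl⟩ := (hO b).1 hb
    exact (hO _).2 ⟨τ⁻¹ * τ', I.mul_mem (I.inv_mem hτ) hτ', rfl⟩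
  · intro b _
    funext i
    exact τ.symm_apply_apply (b i)
  · intro b _
    funext i
    exact τ.apply_symm_apply (b i)

end Span

/-! ### Averaging -/

/-- **Averaging.**  An `I`-fixed element of the `ℚ̄`-span of the image of `F_ℚ` lies in `F_K` for
every `K` containing a suitable finite subset of the fixed field of `I`. -/
theorem exists_finset_of_fixed (N : ℕ) (I : Subgroup (Qb ≃ₐ[ℚ] Qb)) (X : LaurentSeries Qb)
    (hX : X ∈ Algebra.adjoin Qb
      (⇑(coeffEmb Qb) '' ((modularFunctionFieldFull N : IntermediateField ℚ (LaurentSeries ℚ)) :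
        Set (LaurentSeries ℚ))))
    (hfix : ∀ τ ∈ I, coeffMap (τ : Qb →+* Qb) X = X) :
    ∃ S : Finset Qb, (↑S ⊆ (IntermediateField.fixedField I : Set Qb)) ∧
      ∀ K : IntermediateField ℚ Qb, (↑S ⊆ (K : Set Qb)) → X ∈ FK N K := by
  classical
  obtain ⟨t, a, ht, rfl⟩ := exists_lin (modularFunctionFieldFull N) X hX
  have he : ∀ (τ : Qb ≃ₐ[ℚ] Qb) (i : t),
      coeffMap (τ : Qb →+* Qb) (i : LaurentSeries Qb) = (i : LaurentSeries Qb) := by
    intro τ i
    obtain ⟨x, -, hx⟩ := ht i i.2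
    rw [← hx]
    exact coeffMap_coeffEmb τ x
  let O : Finset (t → Qb) := (orbit_finite I a).toFinset
  have hO : ∀ b, b ∈ O ↔ ∃ τ ∈ I, b = act τ a := fun b => (orbit_finite I a).mem_toFinset
  have haO : a ∈ O := (hO a).2 ⟨1, I.one_mem, rfl⟩
  have hcard : (O.card : Qb) ≠ 0 := Nat.cast_ne_zero.mpr (Finset.card_ne_zero.mpr ⟨a, haO⟩)
  -- every member of the orbit gives the same series
  have hlinO : ∀ b ∈ O, lin b (fun y : t => (y : LaurentSeries Qb))
      = lin a (fun y : t => (y : LaurentSeries Qb)) := by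
    intro b hb
    obtain ⟨τ, hτ, rfl⟩ := (hO b).1 hb
    rw [← coeffMap_lin τ a _ (he τ)]
    exact hfix τ hτ
  -- the traces over the orbit
  let tr : t → Qb := fun i => ∑ b ∈ O, b i
  have htr : ∀ i, ∀ τ ∈ I, τ (tr i) = tr i := by
    intro i τ hτ
    show τ (∑ b ∈ O, b i) = ∑ b ∈ O, b i
    rw [map_sum]
    refine Finset.sum_nbij' (fun b => act τ b) (fun b => act τ⁻¹ b) ?_ ?_ ?_ ?_ (fun b _ => rfl)
    · intro b hb
      obtain ⟨τ', hτ', rfl⟩ := (hO b).1 hb
      exact (hO _).2 ⟨τ * τ', I.mul_mem hτ hτ', rfl⟩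
    · intro b hb
      obtain ⟨τ', hτ', rfl⟩ := (hO b).1 hb
      exact (hO _).2 ⟨τ⁻¹ * τ', I.mul_mem (I.inv_mem hτ) hτ', rfl⟩
    · intro b _
      funext j
      exact τ.symm_apply_apply (b j)
    · intro b _
      funext j
      exact τ.apply_symm_apply (b j)
  have hsum : ∑ b ∈ O, lin b (fun y : t => (y : LaurentSeries Qb))
      = lin tr (fun y : t => (y : LaurentSeries Qb)) := by
    unfold lin
    rw [Finset.sum_comm]
    refine Finset.sum_congr rfl (fun i _ => ?_)
    rw [← Finset.sum_mul, ← map_sum]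
  have h1 : (O.card : LaurentSeries Qb) * lin a (fun y : t => (y : LaurentSeries Qb))
      = lin tr (fun y : t => (y : LaurentSeries Qb)) := by
    rw [← hsum, Finset.sum_congr rfl hlinO, Finset.sum_const, nsmul_eq_mul]
  have h2 : lin (fun i => tr i / O.card) (fun y : t => (y : LaurentSeries Qb))
      = algebraMap Qb (LaurentSeries Qb) ((O.card : Qb)⁻¹)
        * lin tr (fun y : t => (y : LaurentSeries Qb)) := by
    unfold lin
    rw [Finset.mul_sum]
    refine Finset.sum_congr rfl (fun i _ => ?_)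
    beta_reduce
    rw [div_eq_mul_inv, mul_comm (tr i), map_mul, mul_assoc]
  have h3 : algebraMap Qb (LaurentSeries Qb) ((O.card : Qb)⁻¹) * (O.card : LaurentSeries Qb)
      = 1 := by
    rw [← map_natCast (algebraMap Qb (LaurentSeries Qb)), ← map_mul, inv_mul_cancel₀ hcard,
      map_one]
  have hXeq : lin a (fun y : t => (y : LaurentSeries Qb))
      = lin (fun i => tr i / O.card) (fun y : t => (y : LaurentSeries Qb)) := by
    rw [h2, ← h1, ← mul_assoc, h3, one_mul]
  refine ⟨Finset.univ.image (fun i => tr i / O.card), ?_, fun K hK => ?_⟩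
  · intro s hs
    obtain ⟨i, -, rfl⟩ := Finset.mem_image.mp (Finset.mem_coe.mp hs)
    show tr i / O.card ∈ IntermediateField.fixedField I
    rw [IntermediateField.mem_fixedField_iff]
    intro τ hτ
    rw [map_div₀, htr i τ hτ, map_natCast]
  · rw [hXeq]
    unfold lin
    refine sum_mem (fun i _ => mul_mem ?_ ?_)
    · have hs : tr i / O.card ∈ K :=
        hK (Finset.mem_coe.2 (Finset.mem_image_of_mem _ (Finset.mem_univ i)))
      beta_reduce
      rw [algebraMap_laurentSeries_eq_single]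
      exact Subfield.subset_closure (Or.inl ⟨⟨_, hs⟩, rfl⟩)
    · obtain ⟨x, hx, hxe⟩ := ht i i.2
      beta_reduce
      rw [← hxe]
      exact Subfield.subset_closure (Or.inr ⟨⟨x, hx⟩, rfl⟩)

/-! ### Descent of invariant functions -/

/-- **[H90], descent.**  A function of `F̄_N` fixed by a subgroup `I` of `Gal(ℚ̄/ℚ)` lies in
`F_K` for every `K` containing a suitable finite subset of the fixed field of `I`. -/
theorem exists_finset_of_invariant (N : ℕ) (I : Subgroup (Qb ≃ₐ[ℚ] Qb))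
    (f : modularFunctionFieldBar N) (hf : ∀ τ ∈ I, gal N τ • f = f) :
    ∃ S : Finset Qb, (↑S ⊆ (IntermediateField.fixedField I : Set Qb)) ∧
      ∀ K : IntermediateField ℚ Qb, (↑S ⊆ (K : Set Qb)) → (f : LaurentSeries Qb) ∈ FK N K := by
  classical
  have hfx : ∀ τ ∈ I, coeffMap (τ : Qb →+* Qb) (f : LaurentSeries Qb) = f := fun τ hτ =>
    congrArg (fun y : modularFunctionFieldBar N => (y : LaurentSeries Qb)) (hf τ hτ)
  have hf2 : (f : LaurentSeries Qb) ∈ IntermediateField.adjoin Qb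
      (⇑(coeffEmb Qb) '' ((modularFunctionFieldFull N : IntermediateField ℚ (LaurentSeries ℚ)) :
        Set (LaurentSeries ℚ))) := f.2
  obtain ⟨A, hA, B, hB, hAB⟩ := IntermediateField.mem_adjoin_iff_div.mp hf2
  by_cases hB0 : B = 0
  · refine ⟨∅, by simp, fun K _ => ?_⟩
    rw [hAB, hB0, div_zero]
    exact zero_mem _
  obtain ⟨C, hC, hC0, hBC⟩ := exists_fixed_denominator (modularFunctionFieldFull N) I B hB hB0
  have hAC : ∀ τ ∈ I, coeffMap (τ : Qb →+* Qb) (A * C) = A * C := by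
    intro τ hτ
    have h1 : A * C = (f : LaurentSeries Qb) * (B * C) := by
      rw [hAB, ← mul_assoc, div_mul_cancel₀ _ hB0]
    rw [h1, map_mul, hfx τ hτ, hBC τ hτ]
  obtain ⟨S₁, hS₁, h₁⟩ := exists_finset_of_fixed N I (A * C) (mul_mem hA hC) hAC
  obtain ⟨S₂, hS₂, h₂⟩ := exists_finset_of_fixed N I (B * C) (mul_mem hB hC) hBC
  refine ⟨S₁ ∪ S₂, ?_, fun K hK => ?_⟩
  · rw [Finset.coe_union]
    exact Set.union_subset hS₁ hS₂
  · rw [Finset.coe_union] at hK
    have e : (f : LaurentSeries Qb) = (A * C) / (B * C) := by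
      rw [hAB, mul_div_mul_right _ _ hC0]
    rw [e]
    exact div_mem (h₁ K (Set.subset_union_left.trans hK)) (h₂ K (Set.subset_union_right.trans hK))

/-- **[H90] with descent.**  An `m`-torsion class of `J₀(N)` fixed by `I` is the class of a
divisor `D` with `m • D = div f`, where `f` and `D` are fixed by `I` and `f ∈ F_K` for every `K`
containing a suitable finite subset of the fixed field of `I`. -/
theorem exists_invariant_kummer_FK (N : ℕ) [NeZero N] (I : Subgroup (Qb ≃ₐ[ℚ] Qb)) {m : ℕ}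
    (hm : m ≠ 0) (x : JZero N) (hmx : m • x = 0) (hx : ∀ τ ∈ I, τ • x = x) :
    ∃ (f : modularFunctionFieldBar N)
      (D : Divisor.degZero (K := Qb) (F := modularFunctionFieldBar N)) (S : Finset Qb),
      f ≠ 0 ∧
      (∀ P : Place Qb (modularFunctionFieldBar N),
        (m : ℤ) * (D : Divisor Qb (modularFunctionFieldBar N)) P = P.ord f) ∧
      Pic0.mk D = x ∧ (∀ τ ∈ I, gal N τ • f = f) ∧
      (∀ τ ∈ I, gal N τ • (D : Divisor Qb (modularFunctionFieldBar N)) = D) ∧
      (↑S ⊆ (IntermediateField.fixedField I : Set Qb)) ∧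
      ∀ K : IntermediateField ℚ Qb, (↑S ⊆ (K : Set Qb)) → (f : LaurentSeries Qb) ∈ FK N K := by
  obtain ⟨f, D, hf0, hD, hDx, hfix, hDfix⟩ :=
    Fermat.Agent.S36.H90.exists_invariant_kummer N I hm x hmx hx
  obtain ⟨S, hS, hK⟩ := exists_finset_of_invariant N I f hfix
  exact ⟨f, D, S, hf0, hD, hDx, hfix, hDfix, hS, hK⟩

end

end Fermat.Agent.S36.H90Desc
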