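/-
S36 — H90DescB.lean (helper73): block [H90-desc], B-copy (A = helper6 `S36/H90Desc.lean`),
independent route.

**Descent of invariant functions.**  A function `f ∈ F̄_N` fixed by a subgroup `I` of
`Gal(ℚ̄/ℚ)` (coefficientwise action) lies in `F_K = FK N K` for `K` the fixed field of `I`
(and already for `K = K₁ ⊓ ℚ̄^I`, `K₁` any finite normal field of definition of `f`).

Route: `f ∈ F_{K₁}` for a finite normal `K₁` ([Desc]).  With `L = K₁ ⊓ ℚ̄^I`, the `F_L`-span `B`
of the constants of `K₁` is an `F_L`-subalgebra of `ℚ̄((q))`, algebraic over the field `F_L`,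
hence a field, hence contains `F_{K₁}`.  Averaging over (lifts to `I` of) the finite image `Γ`
of `I` in `Gal(K₁/ℚ)` maps `g · c` (`g ∈ F_L`, `c ∈ K₁`) to `g · Σ_γ γ c ∈ F_L`, and maps the
invariant `f` to `|Γ| · f`.
-/
import Mathlib
import Fermat.Agent.S34.UPlan
import Fermat.Agent.S18.DescCoeff

set_option autoImplicit false

namespace Fermat.Agent.S36.H90DescB

open ModularCurve
open Fermat.Agent.S18.Arith (Qb FK)
open Fermat.Agent.S34.UPlan (gal)

noncomputable section

set_option synthInstance.maxHeartbeats 400000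

theorem isAlgClosure_rat : IsAlgClosure ℚ Qb := by
  have h : (DivisionRing.toRatAlgebra : Algebra ℚ Qb) = AlgebraicClosure.instAlgebra ℚ :=
    Subsingleton.elim _ _
  rw [h]
  infer_instance

theorem isAlgebraic_rat : Algebra.IsAlgebraic ℚ Qb :=
  have := isAlgClosure_rat
  IsAlgClosure.isAlgebraic

theorem normal_rat : Normal ℚ Qb :=
  have := isAlgClosure_rat
  IsAlgClosure.normal ℚ Qb

attribute [local instance] isAlgClosure_rat isAlgebraic_rat normal_rat

/-- `F_K` is monotone in `K`. -/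
theorem FK_mono (N : ℕ) {K K' : IntermediateField ℚ Qb} (h : K ≤ K') : FK N K ≤ FK N K' := by
  apply Subfield.closure_mono
  rintro y (⟨c, rfl⟩ | hy)
  · exact Or.inl ⟨⟨(c : Qb), h c.2⟩, rfl⟩
  · exact Or.inr hy

/-- Constants from `K` lie in `F_K`. -/
theorem C_mem_FK (N : ℕ) (K : IntermediateField ℚ Qb) {c : Qb} (hc : c ∈ K) :
    (HahnSeries.C c : LaurentSeries Qb) ∈ FK N K :=
  Subfield.subset_closure (Or.inl ⟨⟨c, hc⟩, rfl⟩)

/-- An automorphism fixing `K` pointwise fixes `F_K` coefficientwise. -/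
theorem coeffMap_eq_self_of_mem_FK (N : ℕ) (K : IntermediateField ℚ Qb) (τ : Qb ≃ₐ[ℚ] Qb)
    (hτ : ∀ c ∈ K, τ c = c) {g : LaurentSeries Qb} (hg : g ∈ FK N K) :
    coeffMap (τ : Qb →+* Qb) g = g := by
  ext n
  rw [coeffMap_coeff]
  exact hτ _ (Fermat.Agent.S18.DescCoeff.coeffStatement N K g hg n)

theorem coeffMap_C (τ : Qb ≃ₐ[ℚ] Qb) (c : Qb) :
    coeffMap (τ : Qb →+* Qb) (HahnSeries.C c : LaurentSeries Qb) = HahnSeries.C (τ c) := by
  change coeffMap (τ : Qb →+* Qb) (HahnSeries.single 0 c) = HahnSeries.single 0 (τ c)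
  rw [coeffMap_single]
  rfl

/-- The `F_L`-span of the constants of a finite extension `K₁` contains `F_{K₁}`. -/
theorem FK_le_span (N : ℕ) (L K₁ : IntermediateField ℚ Qb) [FiniteDimensional ℚ K₁]
    (x : LaurentSeries Qb) (hx : x ∈ FK N K₁) :
    x ∈ Submodule.span (FK N L)
      (Set.range (fun c : K₁ => (HahnSeries.C (c : Qb) : LaurentSeries Qb))) := by
  classical
  let φ : K₁ →* LaurentSeries Qb :=
    (((HahnSeries.C : Qb →+* LaurentSeries Qb).comp (algebraMap K₁ Qb) :
      K₁ →+* LaurentSeries Qb) : K₁ →* LaurentSeries Qb)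
  have hφ : Set.range (fun c : K₁ => (HahnSeries.C (c : Qb) : LaurentSeries Qb))
      = ((MonoidHom.mrange φ : Submonoid (LaurentSeries Qb)) : Set (LaurentSeries Qb)) := by
    ext y
    constructor
    · rintro ⟨c, rfl⟩
      exact ⟨c, rfl⟩
    · rintro ⟨c, rfl⟩
      exact ⟨c, rfl⟩
  let B : Subalgebra (FK N L) (LaurentSeries Qb) :=
    Algebra.adjoin (FK N L) (Set.range (fun c : K₁ => (HahnSeries.C (c : Qb) : LaurentSeries Qb)))
  have hBspan : Subalgebra.toSubmodule B = Submodule.span (FK N L)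
      (Set.range (fun c : K₁ => (HahnSeries.C (c : Qb) : LaurentSeries Qb))) := by
    rw [Algebra.adjoin_eq_span, hφ, Submonoid.closure_eq]
  have hint : ∀ y ∈ B, IsIntegral (FK N L) y := by
    have hle : B ≤ integralClosure (FK N L) (LaurentSeries Qb) := by
      apply Algebra.adjoin_le
      rintro _ ⟨c, rfl⟩
      have h1 : IsIntegral ℚ c := Algebra.IsIntegral.isIntegral c
      exact IsIntegral.map_of_comp_eq
        ((Fermat.Agent.S18.Arith.constK N L).comp (algebraMap ℚ L))
        ((HahnSeries.C : Qb →+* LaurentSeries Qb).comp (algebraMap K₁ Qb))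
        (Subsingleton.elim _ _) h1
    intro y hy
    exact hle hy
  have hinv : ∀ y ∈ B, y⁻¹ ∈ B := by
    intro y hy
    exact B.inv_mem_of_algebraic (x := ⟨y, hy⟩) (hint y hy).isAlgebraic
  have hmem : x ∈ B := by
    refine Subfield.closure_induction (p := fun y _ => y ∈ B) ?_ ?_ ?_ ?_ ?_ ?_ hx
    · rintro y (⟨c, rfl⟩ | ⟨z, rfl⟩)
      · exact Algebra.subset_adjoin ⟨c, rfl⟩
      · have hz : coeffEmb Qb (z : LaurentSeries ℚ) ∈ FK N L :=
          Subfield.subset_closure (Or.inr ⟨z, rfl⟩)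
        exact B.algebraMap_mem ⟨_, hz⟩
    · exact B.one_mem
    · intro y z _ _ hy hz
      exact B.add_mem hy hz
    · intro y _ hy
      exact B.neg_mem hy
    · intro y _ hy
      exact hinv y hy
    · intro y z _ _ hy hz
      exact B.mul_mem hy hz
  have := hBspan ▸ (show x ∈ Subalgebra.toSubmodule B from hmem)
  exact this

/-- **Core descent.**  An element of `F_{K₁}` (`K₁` finite normal over `ℚ`) fixed coefficientwise
by a subgroup `I` of `Gal(ℚ̄/ℚ)` lies in `F_L`, `L = K₁ ⊓ ℚ̄^I`. -/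
theorem mem_FK_inf_of_fixed (N : ℕ) (I : Subgroup (Qb ≃ₐ[ℚ] Qb)) (K₁ : IntermediateField ℚ Qb)
    [FiniteDimensional ℚ K₁] [Normal ℚ K₁] (x : LaurentSeries Qb) (hx : x ∈ FK N K₁)
    (hfix : ∀ τ ∈ I, coeffMap (τ : Qb →+* Qb) x = x) :
    x ∈ FK N (K₁ ⊓ IntermediateField.fixedField I) := by
  classical
  set L : IntermediateField ℚ Qb := K₁ ⊓ IntermediateField.fixedField I with hL
  let res : (Qb ≃ₐ[ℚ] Qb) →* (K₁ ≃ₐ[ℚ] K₁) := AlgEquiv.restrictNormalHom K₁
  let Γ : Subgroup (K₁ ≃ₐ[ℚ] K₁) := I.map res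
  have hlift : ∀ γ : Γ, ∃ τ ∈ I, res τ = (γ : K₁ ≃ₐ[ℚ] K₁) := fun γ => γ.2
  choose lift hliftI hliftres using hlift
  have hIL : ∀ τ ∈ I, ∀ c ∈ L, τ c = c := by
    intro τ hτ c hc
    exact (IntermediateField.mem_fixedField_iff I c).mp hc.2 τ hτ
  have hres : ∀ (τ : Qb ≃ₐ[ℚ] Qb) (c : K₁), τ (c : Qb) = ((res τ c : K₁) : Qb) := by
    intro τ c
    exact (AlgEquiv.restrictNormal_commutes τ K₁ c).symm
  let Av : LaurentSeries Qb → LaurentSeries Qb := fun y =>
    ∑ γ : Γ, coeffMap ((lift γ : Qb ≃ₐ[ℚ] Qb) : Qb →+* Qb) y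
  have hAv : ∀ y ∈ Submodule.span (FK N L)
      (Set.range (fun c : K₁ => (HahnSeries.C (c : Qb) : LaurentSeries Qb))), Av y ∈ FK N L := by
    intro y hy
    induction hy using Submodule.span_induction with
    | mem y hy =>
      obtain ⟨c, rfl⟩ := hy
      have h1 : Av (HahnSeries.C (c : Qb))
          = HahnSeries.C (((∑ γ : Γ, (γ : K₁ ≃ₐ[ℚ] K₁) c : K₁) : K₁) : Qb) := by
        simp only [Av]
        rw [IntermediateField.coe_sum, map_sum]
        refine Finset.sum_congr rfl fun γ _ => ?_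
        rw [coeffMap_C, hres, hliftres γ]
      rw [h1]
      apply C_mem_FK
      refine ⟨(∑ γ : Γ, (γ : K₁ ≃ₐ[ℚ] K₁) c : K₁).2, ?_⟩
      change ((∑ γ : Γ, (γ : K₁ ≃ₐ[ℚ] K₁) c : K₁) : Qb) ∈ IntermediateField.fixedField I
      rw [IntermediateField.mem_fixedField_iff]
      intro τ hτ
      have hτΓ : res τ ∈ Γ := Subgroup.mem_map_of_mem res hτ
      rw [hres]
      congr 1
      rw [map_sum]
      exact Fintype.sum_equiv (Equiv.mulLeft (⟨res τ, hτΓ⟩ : Γ)) _ _ fun γ => rfl
    | zero =>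
      have h0 : Av 0 = 0 := by simp [Av]
      rw [h0]
      exact zero_mem _
    | add y z _ _ hy hz =>
      have h1 : Av (y + z) = Av y + Av z := by
        simp only [Av, map_add, Finset.sum_add_distrib]
      rw [h1]
      exact add_mem hy hz
    | smul g y _ hy =>
      have h1 : Av (g • y) = (g : LaurentSeries Qb) * Av y := by
        simp only [Av]
        rw [Finset.mul_sum]
        refine Finset.sum_congr rfl fun γ _ => ?_
        rw [show g • y = (g : LaurentSeries Qb) * y from rfl, map_mul,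
          coeffMap_eq_self_of_mem_FK N L (lift γ) (hIL _ (hliftI γ)) g.2]
      rw [h1]
      exact mul_mem g.2 hy
  have hx' := hAv x (FK_le_span N L K₁ x hx)
  have hAvx : Av x = (HahnSeries.C ((Fintype.card Γ : ℕ) : Qb) : LaurentSeries Qb) * x := by
    have h1 : Av x = ∑ _γ : Γ, x := Finset.sum_congr rfl fun γ _ => hfix _ (hliftI γ)
    rw [h1, Finset.sum_const, Finset.card_univ, nsmul_eq_mul, map_natCast]
  have hn : (HahnSeries.C ((Fintype.card Γ : ℕ) : Qb) : LaurentSeries Qb) ≠ 0 := by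
    intro h0
    have h2 : ((Fintype.card Γ : ℕ) : Qb) = 0 :=
      HahnSeries.C_injective (h0.trans (map_zero _).symm)
    exact Fintype.card_ne_zero (Nat.cast_eq_zero.mp h2)
  have hnmem : (HahnSeries.C ((Fintype.card Γ : ℕ) : Qb) : LaurentSeries Qb) ∈ FK N L :=
    C_mem_FK N L (natCast_mem L _)
  have hxeq : x = (HahnSeries.C ((Fintype.card Γ : ℕ) : Qb) : LaurentSeries Qb)⁻¹ * Av x := by
    rw [hAvx, ← mul_assoc, inv_mul_cancel₀ hn, one_mul]
  rw [hxeq]
  exact mul_mem (inv_mem hnmem) hx'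

/-- An invariant function is defined over a FINITE subextension of the fixed field. -/
theorem exists_finite_level (N : ℕ) (I : Subgroup (Qb ≃ₐ[ℚ] Qb)) (f : modularFunctionFieldBar N)
    (hf : ∀ τ ∈ I, gal N τ • f = f) :
    ∃ L₁ : IntermediateField ℚ Qb, FiniteDimensional ℚ L₁ ∧
      L₁ ≤ IntermediateField.fixedField I ∧ (f : LaurentSeries Qb) ∈ FK N L₁ := by
  classical
  obtain ⟨S, hS⟩ := (Fermat.Agent.S18.DescCoeff.descStatement N).1 (f : LaurentSeries Qb) f.2
  have : FiniteDimensional ℚ (IntermediateField.adjoin ℚ (S : Set Qb)) :=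
    IntermediateField.finiteDimensional_adjoin fun x _ => Algebra.IsIntegral.isIntegral x
  have : Normal ℚ (IntermediateField.normalClosure ℚ
      (IntermediateField.adjoin ℚ (S : Set Qb)) Qb) :=
    normalClosure.normal ℚ (IntermediateField.adjoin ℚ (S : Set Qb)) Qb
  have : FiniteDimensional ℚ (IntermediateField.normalClosure ℚ
      (IntermediateField.adjoin ℚ (S : Set Qb)) Qb) :=
    normalClosure.is_finiteDimensional ℚ (IntermediateField.adjoin ℚ (S : Set Qb)) Qb
  have hSK : (↑S : Set Qb) ⊆ ((IntermediateField.normalClosure ℚ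
      (IntermediateField.adjoin ℚ (S : Set Qb)) Qb : IntermediateField ℚ Qb) : Set Qb) :=
    fun s hs => IntermediateField.le_normalClosure _ (IntermediateField.subset_adjoin ℚ _ hs)
  have h1 : (f : LaurentSeries Qb) ∈ FK N (IntermediateField.normalClosure ℚ
      (IntermediateField.adjoin ℚ (S : Set Qb)) Qb) := hS _ hSK
  have hfix : ∀ τ ∈ I, coeffMap (τ : Qb →+* Qb) (f : LaurentSeries Qb) = f := by
    intro τ hτ
    have h2 := congrArg (fun y : modularFunctionFieldBar N => (y : LaurentSeries Qb)) (hf τ hτ)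
    simpa only [coe_arithmeticGalois_smul] using h2
  refine ⟨IntermediateField.normalClosure ℚ (IntermediateField.adjoin ℚ (S : Set Qb)) Qb ⊓
    IntermediateField.fixedField I, ?_, inf_le_right, mem_FK_inf_of_fixed N I _ _ h1 hfix⟩
  have hle : IntermediateField.normalClosure ℚ (IntermediateField.adjoin ℚ (S : Set Qb)) Qb ⊓
      IntermediateField.fixedField I ≤
      IntermediateField.normalClosure ℚ (IntermediateField.adjoin ℚ (S : Set Qb)) Qb :=
    inf_le_left
  exact FiniteDimensional.of_injective (IntermediateField.inclusion hle).toLinearMap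
    (IntermediateField.inclusion_injective hle)

/-- **[H90-desc]** a function of `F̄_N` fixed by a subgroup `I` of `Gal(ℚ̄/ℚ)` lies in `F_K` for
`K` the fixed field of `I`. -/
theorem mem_FK_fixedField (N : ℕ) (I : Subgroup (Qb ≃ₐ[ℚ] Qb)) (f : modularFunctionFieldBar N)
    (hf : ∀ τ ∈ I, gal N τ • f = f) :
    (f : LaurentSeries Qb) ∈ FK N (IntermediateField.fixedField I) := by
  obtain ⟨L₁, _, hL₁, hfL₁⟩ := exists_finite_level N I f hf
  exact FK_mono N hL₁ hfL₁

/-- **[H90-desc]**, finite-set form: an `I`-fixed function lies in `F_K` for every `K` containing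
a suitable finite subset of the fixed field of `I`. -/
theorem exists_finset_of_invariant (N : ℕ) (I : Subgroup (Qb ≃ₐ[ℚ] Qb))
    (f : modularFunctionFieldBar N) (hf : ∀ τ ∈ I, gal N τ • f = f) :
    ∃ S : Finset Qb, (↑S ⊆ (IntermediateField.fixedField I : Set Qb)) ∧
      ∀ K : IntermediateField ℚ Qb, ↑S ⊆ (K : Set Qb) → (f : LaurentSeries Qb) ∈ FK N K := by
  classical
  obtain ⟨L₁, hfin, hL₁, hfL₁⟩ := exists_finite_level N I f hf
  have hfg : (Subalgebra.toSubmodule L₁.toSubalgebra).FG :=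
    (Submodule.fg_iff_finiteDimensional _).mpr hfin
  obtain ⟨S, hS⟩ := L₁.fg_of_fg_toSubalgebra (Subalgebra.fg_of_fg_toSubmodule hfg)
  refine ⟨S, ?_, ?_⟩
  · intro s hs
    exact hL₁ (hS ▸ IntermediateField.subset_adjoin ℚ _ hs)
  · intro K hK
    have hLK : L₁ ≤ K := by
      rw [← hS, IntermediateField.adjoin_le_iff]
      exact hK
    exact FK_mono N hLK hfL₁

/-- The `q`-expansion coefficients of an `I`-fixed function lie in the fixed field of `I`. -/
theorem coeff_mem_fixedField (N : ℕ) (I : Subgroup (Qb ≃ₐ[ℚ] Qb))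
    (f : modularFunctionFieldBar N) (hf : ∀ τ ∈ I, gal N τ • f = f) (k : ℤ) :
    (f : LaurentSeries Qb).coeff k ∈ IntermediateField.fixedField I :=
  Fermat.Agent.S18.DescCoeff.coeffStatement N _ _ (mem_FK_fixedField N I f hf) k

end

end Fermat.Agent.S36.H90DescB

/-! Axiom check (kept as comments for the record):
`mem_FK_fixedField`, `exists_finset_of_invariant`, `exists_finite_level`, `mem_FK_inf_of_fixed`
depend only on `propext`, `Classical.choice`, `Quot.sound`. -/
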