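/-
S36, package [B1-nak] (helper92 #2969, steps (2)(ii) and (2)(iii)), abstract, Mathlib-only.

Two ring homomorphisms `φ ψ : R →+* D` which agree on a coefficient ring `ι : O →+* R`
(with `R = ι(O) + 𝔪`) and on a generating set `S` of `𝔪`, and which send `S` into an ideal
`I` of `D` with `⨅ n, I ^ n = ⊥`, are equal.  Corollaries: the noetherian / local forms
(Krull intersection), and the "density" form for an unramified uniformiser.
-/
import Mathlib

set_option autoImplicit false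

namespace Fermat.Agent.S36.HomAgree

open IsLocalRing

/-- the inductive step: the differences `φ r - ψ r` lie in every power of `I`. -/
theorem sub_mem_pow {O R D : Type*} [CommRing O] [CommRing R] [CommRing D]
    (ι : O →+* R) (𝔪 : Ideal R) (hres : ∀ r : R, ∃ c : O, r - ι c ∈ 𝔪)
    (S : Set R) (hS : 𝔪 ≤ Ideal.span S) (φ ψ : R →+* D) (I : Ideal D)
    (hφI : ∀ g ∈ S, φ g ∈ I) (hO : ∀ c, φ (ι c) = ψ (ι c)) (hS' : ∀ g ∈ S, φ g = ψ g)
    (n : ℕ) (r : R) : φ r - ψ r ∈ I ^ n := by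
  induction n generalizing r with
  | zero => simp
  | succ n ih =>
    -- elements of `span S`
    have hspan : ∀ x ∈ Ideal.span S, φ x - ψ x ∈ I ^ (n + 1) := by
      intro x hx
      induction hx using Submodule.span_induction with
      | mem g hg => rw [hS' g hg, sub_self]; exact zero_mem _
      | zero => simp
      | add x y _ _ hx hy =>
        have : φ (x + y) - ψ (x + y) = (φ x - ψ x) + (φ y - ψ y) := by
          rw [map_add, map_add]; ring
        rw [this]; exact add_mem hx hy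
      | smul a x hx hx' =>
        -- `a • x` with `x ∈ span S`: `φ (a x) - ψ (a x) = φ a (φ x - ψ x) + (φ a - ψ a) ψ x`
        have hψx : ψ x ∈ I := by
          -- `ψ x ∈ I` for `x ∈ span S`
          clear hx'
          induction hx using Submodule.span_induction with
          | mem g hg => rw [← hS' g hg]; exact hφI g hg
          | zero => simp
          | add x y _ _ hx hy => rw [map_add]; exact add_mem hx hy
          | smul b x _ hx => rw [smul_eq_mul, map_mul]; exact Ideal.mul_mem_left _ _ hx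
        have : φ (a • x) - ψ (a • x) = φ a * (φ x - ψ x) + ψ x * (φ a - ψ a) := by
          rw [smul_eq_mul, map_mul, map_mul]; ring
        rw [this]
        refine add_mem (Ideal.mul_mem_left _ _ hx') ?_
        rw [pow_succ']
        exact Ideal.mul_mem_mul hψx (ih a)
    obtain ⟨c, hc⟩ := hres r
    have h1 := hspan _ (hS hc)
    have : φ r - ψ r = φ (r - ι c) - ψ (r - ι c) := by
      rw [map_sub, map_sub, hO c]; ring
    rw [this]; exact h1

/-- core: `R = ι(O) + 𝔪`, `𝔪 ≤ span S`; `φ ψ : R →+* D` agree on `ι(O)` and on `S`,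
`φ(S) ⊆ I`, `⨅ I^n = ⊥` ⇒ `φ = ψ`. -/
theorem eq_of_agree_of_iInf_pow {O R D : Type*} [CommRing O] [CommRing R] [CommRing D]
    (ι : O →+* R) (𝔪 : Ideal R) (hres : ∀ r : R, ∃ c : O, r - ι c ∈ 𝔪)
    (S : Set R) (hS : 𝔪 ≤ Ideal.span S) (φ ψ : R →+* D) (I : Ideal D) (hI : ⨅ n : ℕ, I ^ n = ⊥)
    (hφI : ∀ g ∈ S, φ g ∈ I) (hO : ∀ c, φ (ι c) = ψ (ι c)) (hS' : ∀ g ∈ S, φ g = ψ g) :
    φ = ψ := by
  ext r
  have h : φ r - ψ r ∈ ⨅ n : ℕ, I ^ n :=
    (Ideal.mem_iInf).2 fun n => sub_mem_pow ι 𝔪 hres S hS φ ψ I hφI hO hS' n r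
  rw [hI, Ideal.mem_bot] at h
  exact sub_eq_zero.1 h

/-- noetherian form: `I` inside the Jacobson radical of a noetherian ring `D`. -/
theorem eq_of_agree_of_le_jacobson {O R D : Type*} [CommRing O] [CommRing R] [CommRing D]
    [IsNoetherianRing D]
    (ι : O →+* R) (𝔪 : Ideal R) (hres : ∀ r : R, ∃ c : O, r - ι c ∈ 𝔪)
    (S : Set R) (hS : 𝔪 ≤ Ideal.span S) (φ ψ : R →+* D) (I : Ideal D)
    (hI : I ≤ Ideal.jacobson ⊥)
    (hφI : ∀ g ∈ S, φ g ∈ I) (hO : ∀ c, φ (ι c) = ψ (ι c)) (hS' : ∀ g ∈ S, φ g = ψ g) :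
    φ = ψ := by
  refine eq_of_agree_of_iInf_pow ι 𝔪 hres S hS φ ψ I ?_ hφI hO hS'
  have h := Ideal.iInf_pow_smul_eq_bot_of_le_jacobson (M := D) I hI
  simpa using h

/-- (ii): `D` noetherian local (domain NOT needed), `R` local with `𝔪_R ≤ span S`,
`φ` maps `S` into the maximal ideal. -/
theorem eq_of_agree_local {O R D : Type*} [CommRing O] [CommRing R] [IsLocalRing R] [CommRing D]
    [IsLocalRing D] [IsNoetherianRing D] (ι : O →+* R)
    (hres : ∀ r : R, ∃ c : O, r - ι c ∈ IsLocalRing.maximalIdeal R)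
    (S : Set R) (hS : IsLocalRing.maximalIdeal R ≤ Ideal.span S) (φ ψ : R →+* D)
    (hφ : ∀ g ∈ S, φ g ∈ IsLocalRing.maximalIdeal D)
    (hO : ∀ c, φ (ι c) = ψ (ι c)) (hS' : ∀ g ∈ S, φ g = ψ g) : φ = ψ := by
  refine eq_of_agree_of_le_jacobson ι _ hres S hS φ ψ (IsLocalRing.maximalIdeal D) ?_ hφ hO hS'
  rw [IsLocalRing.jacobson_eq_maximalIdeal ⊥ bot_ne_top]

/-- (ii), finite-generator form: `𝔪_R = (g_1, …, g_k)`. -/
theorem eq_of_agree_local_fin {O R D : Type*} [CommRing O] [CommRing R] [IsLocalRing R]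
    [CommRing D] [IsLocalRing D] [IsNoetherianRing D] (ι : O →+* R)
    (hres : ∀ r : R, ∃ c : O, r - ι c ∈ IsLocalRing.maximalIdeal R)
    {k : ℕ} (g : Fin k → R) (hg : IsLocalRing.maximalIdeal R ≤ Ideal.span (Set.range g))
    (φ ψ : R →+* D) (hφ : ∀ i, φ (g i) ∈ IsLocalRing.maximalIdeal D)
    (hO : ∀ c, φ (ι c) = ψ (ι c)) (hg' : ∀ i, φ (g i) = ψ (g i)) : φ = ψ := by
  refine eq_of_agree_local ι hres (Set.range g) hg φ ψ ?_ hO ?_
  · rintro _ ⟨i, rfl⟩; exact hφ i
  · rintro _ ⟨i, rfl⟩; exact hg' i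

/-- (iii) density: `A = k + s·A` (unramified uniformiser `s`, residue field `k`),
`φ ψ : A →ₐ[k] B` agree on `s`, and `φ s` lies in an ideal `I` of `B` with `⨅ I^n = ⊥`
⇒ `φ = ψ`. -/
theorem algHom_eq_of_uniformizer {k A B : Type*} [CommRing k] [CommRing A] [Algebra k A]
    [CommRing B] [Algebra k B] (s : A)
    (hA : ∀ h : A, ∃ c : k, ∃ h' : A, h = algebraMap k A c + s * h')
    (φ ψ : A →ₐ[k] B) (hs : φ s = ψ s) (I : Ideal B) (hI : ⨅ n : ℕ, I ^ n = ⊥)
    (hφs : φ s ∈ I) : φ = ψ := by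
  have h := eq_of_agree_of_iInf_pow (algebraMap k A) (Ideal.span {s}) (fun h => by
      obtain ⟨c, h', rfl⟩ := hA h
      refine ⟨c, ?_⟩
      rw [add_sub_cancel_left]
      exact Ideal.mul_mem_right _ _ (Ideal.subset_span rfl)) {s} le_rfl
    (φ : A →+* B) (ψ : A →+* B) I hI
    (by rintro g rfl; exact hφs) (fun c => by simp)
    (by rintro g rfl; exact hs)
  exact AlgHom.ext fun x => RingHom.congr_fun h x

/-- (iii), ring-hom form with a DVR-like target: `B` a noetherian local ring, `φ s ∈ 𝔪_B`. -/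
theorem ringHom_eq_of_uniformizer_local {k A B : Type*} [CommRing k] [CommRing A]
    [CommRing B] [IsLocalRing B] [IsNoetherianRing B] (ι : k →+* A) (s : A)
    (hA : ∀ h : A, ∃ c : k, ∃ h' : A, h = ι c + s * h')
    (φ ψ : A →+* B) (hk : ∀ c, φ (ι c) = ψ (ι c)) (hs : φ s = ψ s)
    (hφs : φ s ∈ IsLocalRing.maximalIdeal B) : φ = ψ := by
  refine eq_of_agree_of_le_jacobson ι (Ideal.span {s}) (fun h => ?_) {s} le_rfl φ ψ
    (IsLocalRing.maximalIdeal B) ?_ (by rintro g rfl; exact hφs) hk (by rintro g rfl; exact hs)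
  · obtain ⟨c, h', rfl⟩ := hA h
    refine ⟨c, ?_⟩
    rw [add_sub_cancel_left]
    exact Ideal.mul_mem_right _ _ (Ideal.subset_span rfl)
  · rw [IsLocalRing.jacobson_eq_maximalIdeal ⊥ bot_ne_top]

/-- fraction-field form: two ring homomorphisms out of `K = Frac A` into a ring `L` which agree
on `A` are equal. -/
theorem ringHom_eq_of_agree_on_subring {A K L : Type*} [CommRing A] [CommRing K]
    [Algebra A K] [IsFractionRing A K] [CommRing L] (φ ψ : K →+* L)
    (h : ∀ a : A, φ (algebraMap A K a) = ψ (algebraMap A K a)) : φ = ψ :=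
  IsLocalization.ringHom_ext (nonZeroDivisors A) (RingHom.ext h)

/-- (iii), function-field form: `A ⊆ K = Frac A` with `A = k + s·A`; `φ ψ : K →+* L` (`L` a
field) agree on `k` and `s`; `V ⊆ L` a subring containing `φ(A)`, `ψ(A)`, with an ideal `I`,
`⨅ I^n = ⊥`, containing `φ s`.  Then `φ = ψ`. -/
theorem fieldHom_eq_of_uniformizer {k A K L V : Type*} [CommRing k] [CommRing A] [Field K]
    [Algebra A K] [IsFractionRing A K] [Field L] [CommRing V] [Algebra V L]
    [FaithfulSMul V L]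
    (ι : k →+* A) (s : A) (hA : ∀ h : A, ∃ c : k, ∃ h' : A, h = ι c + s * h')
    (φ ψ : K →+* L) (φV ψV : A →+* V)
    (hφV : ∀ a, algebraMap V L (φV a) = φ (algebraMap A K a))
    (hψV : ∀ a, algebraMap V L (ψV a) = ψ (algebraMap A K a))
    (hk : ∀ c, φ (algebraMap A K (ι c)) = ψ (algebraMap A K (ι c)))
    (hs : φ (algebraMap A K s) = ψ (algebraMap A K s))
    (I : Ideal V) (hI : ⨅ n : ℕ, I ^ n = ⊥) (hφs : φV s ∈ I) : φ = ψ := by
  have hinj : Function.Injective (algebraMap V L) := FaithfulSMul.algebraMap_injective V L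
  have hsV : φV s = ψV s := hinj (by rw [hφV, hψV, hs])
  have hV : φV = ψV := by
    refine eq_of_agree_of_iInf_pow ι (Ideal.span {s}) (fun h => ?_) {s} le_rfl φV ψV I hI
      (by rintro g rfl; exact hφs) (fun c => hinj ?_) (by rintro g rfl; exact hsV)
    · obtain ⟨c, h', rfl⟩ := hA h
      refine ⟨c, ?_⟩
      rw [add_sub_cancel_left]
      exact Ideal.mul_mem_right _ _ (Ideal.subset_span rfl)
    · rw [hφV, hψV, hk]
  refine ringHom_eq_of_agree_on_subring (A := A) φ ψ fun a => ?_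
  rw [← hφV, ← hψV, hV]

end Fermat.Agent.S36.HomAgree
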