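/-
S36 — Hor3B.lean (helper105; package [MODEL3], lead helper128; interface `S36/Model3Plan.lean`
of helper9).  The `f`-dependent field of the level-`q²` model:

  `Model3Plan.Hor3 π m fK R` — at every horizontal prime `𝔮` of a chart `R ⊆ F_K` with `R_𝔮` a
  discrete valuation ring, `fK` is a unit times an `m`-th power,

for EVERY chart `R` (noetherian, fraction field `F_K`), EVERY base `K` with `O = A ∩ K` a
discrete valuation ring, from `m ∣ ord_P f` at all places `P` of `F̄ / ℚ̄`.  This is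
`S34.HorInst.hor_of_place` minus rationality (at level `q²` the points are regular, no
`O`-rationality of `𝔮` is needed), plus `S18.Dict.dictStatement`.

* `hor3_of_place`  : from `m ∣ ord_v fK` at every place `v` of `F_K / K`;
* `hor3`           : from `m ∣ ord_P f` at every place `P` of `F̄ / ℚ̄`, `toBar fK = f`;
* `hor3_of_ord_eq` : the same when `ord_P f = m * ord_P g` is known (`f ≠ 0` is then the only
                     side condition);
* `exists_zpow_unitAt_of_place` : the local statement with the explicit `x = t ^ (-k)`.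
-/
import Mathlib
import Fermat.Agent.S34.LocPlan
import Fermat.Agent.S34.DvrAt
import Fermat.Agent.S34.HorInst
import Fermat.Agent.S18.Dict
import Fermat.Agent.S36.Model3Plan

set_option autoImplicit false

noncomputable section

namespace Fermat.Agent.S36.Hor3B

open ModularCurve AlgebraicCurve HahnSeries Fermat.Agent.S18.Arith Fermat.Agent.S34.LocPlan
open Fermat.Agent.S34

set_option synthInstance.maxHeartbeats 400000

section Hor

variable (N : ℕ) [NeZero N] (A : ValuationSubring Qb) (K : IntermediateField ℚ Qb)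

omit [NeZero N] in
/-- The local statement: at a horizontal prime `𝔮` of a chart `R ⊆ F_K` with `R_𝔮` a discrete
valuation ring, if `m` divides the order of `fK` at every place of `F_K / K`, then
`fK * (t ^ (-k)) ^ m` is a unit at `𝔮` for some `t ∈ 𝔮` and some integer `k`. -/
theorem exists_zpow_unitAt_of_place (hdvr : IsDiscreteValuationRing (OK A K)) (π : OK A K)
    (hπ : Irreducible π) (m : ℕ) (fK : FK N K) (hf : fK ≠ 0)
    (hdiv : ∀ v : Place K (FK N K), (m : ℤ) ∣ v.ord fK)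
    (R : Subalgebra (OK A K) (FK N K)) [IsNoetherianRing R] [IsFractionRing R (FK N K)]
    (𝔮 : Ideal R) (h𝔮 : 𝔮.IsPrime) (hπ𝔮 : algebraMap (OK A K) R π ∉ 𝔮) (hprinc : PrincAt 𝔮) :
    ∃ t ∈ 𝔮, ∃ k : ℤ, algebraMap R (FK N K) t ≠ 0 ∧
      UnitAt 𝔮 (fK * (algebraMap R (FK N K) t ^ (-k)) ^ m) := by
  have := h𝔮
  obtain ⟨W, hdW, hW⟩ := DvrAt.dvrAt (E := FK N K) 𝔮 hprinc
  obtain ⟨hne, t, ht, hgen⟩ := hprinc
  -- `R ⊆ W`, `K ⊆ W`, `W ≠ ⊤`
  have hRW : ∀ r : R, (r : FK N K) ∈ W := fun r => DvrAt.algebraMap_mem hW r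
  have hOW : ∀ c : OK A K, algebraMap (OK A K) (FK N K) c ∈ W := fun c =>
    hRW (algebraMap (OK A K) R c)
  have hπW : (algebraMap (OK A K) (FK N K) π)⁻¹ ∈ W := by
    have h := DvrAt.inv_algebraMap_mem hW hπ𝔮
    have e : algebraMap R (FK N K) (algebraMap (OK A K) R π)
        = algebraMap (OK A K) (FK N K) π := rfl
    rwa [e] at h
  have hKW : ∀ c : K, algebraMap K (FK N K) c ∈ W := HorInst.constK_mem hdvr hπ W hOW hπW
  have hirr := DvrAt.irreducible_gen hW ht hgen
  have ht0 : algebraMap R (FK N K) t ≠ 0 := fun h0 => hirr.ne_zero (Subtype.ext h0)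
  have htop : W ≠ ⊤ :=
    HorInst.ne_top_of_mem_nonunits W ht0 ((DvrAt.algebraMap_mem_nonunits_iff hW).mpr ht)
  obtain ⟨v, hvW⟩ : ∃ v : Place K (FK N K), v.toValuationSubring = W :=
    ⟨HorInst.placeOf W hdW hKW htop, rfl⟩
  subst hvW
  -- `ord_v x = 0 → UnitAt 𝔮 x`
  have hunit : ∀ x : FK N K, x ≠ 0 → v.ord x = 0 → UnitAt 𝔮 x := by
    intro x hx hord
    refine (DvrAt.unitAt_iff hW hx).mpr ⟨?_, ?_⟩
    · exact Fermat.Agent.S24.mem_of_ord_nonneg v (le_of_eq hord.symm)
    · refine Fermat.Agent.S24.mem_of_ord_nonneg v ?_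
      rw [v.ord_inv, hord, neg_zero]
  obtain ⟨k, hk⟩ := hdiv v
  have hordt := v.ord_coe_irreducible hirr
  simp only [] at hordt
  refine ⟨t, ht, k, ht0, ?_⟩
  have hx0 : (algebraMap R (FK N K) t ^ (-k)) ^ m ≠ 0 := pow_ne_zero _ (zpow_ne_zero _ ht0)
  refine hunit _ (mul_ne_zero hf hx0) ?_
  rw [v.ord_mul hf hx0, Fermat.Agent.S24.ord_pow, v.ord_zpow, hordt, hk]
  ring

omit [NeZero N] in
/-- **[Hor3] from the `K`-places**: `Model3Plan.Hor3 π m fK R` for any chart `R ⊆ F_K`
(noetherian with fraction field `F_K`), if `m ∣ ord_v fK` at every place `v` of `F_K / K`. -/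
theorem hor3_of_place (hdvr : IsDiscreteValuationRing (OK A K)) (π : OK A K) (hπ : Irreducible π)
    (m : ℕ) (fK : FK N K) (hf : fK ≠ 0)
    (hdiv : ∀ v : Place K (FK N K), (m : ℤ) ∣ v.ord fK)
    (R : Subalgebra (OK A K) (FK N K)) [IsNoetherianRing R] [IsFractionRing R (FK N K)] :
    Model3Plan.Hor3 π m fK R := by
  intro 𝔮 h𝔮 hπ𝔮 hprinc
  obtain ⟨t, -, k, ht0, hu⟩ :=
    exists_zpow_unitAt_of_place N A K hdvr π hπ m fK hf hdiv R 𝔮 h𝔮 hπ𝔮 hprinc
  exact ⟨algebraMap R (FK N K) t ^ (-k), zpow_ne_zero _ ht0, hu⟩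

omit [NeZero N] in
/-- `m ∣ ord_v fK` at every place `v` of `F_K / K`, for the descent `fK` of a function `f ∈ F̄`
all of whose orders are divisible by `m` ([Dict]; no condition on `K`). -/
theorem dvd_ord_of_toBar (m : ℕ) (f : modularFunctionFieldBar N)
    (hdiv : ∀ P : Place Qb (modularFunctionFieldBar N), (m : ℤ) ∣ P.ord f)
    (fK : FK N K) (hfK : Fermat.Agent.S18.Glob.toBar N K fK = f) (v : Place K (FK N K)) :
    (m : ℤ) ∣ v.ord fK := by
  obtain ⟨P, hP⟩ := Fermat.Agent.S18.Dict.dictStatement N K v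
  have h1 : P.ord (Fermat.Agent.S18.Glob.toBar N K fK) = v.ord fK :=
    hP fK (Fermat.Agent.S18.Glob.fk_le_bar N K fK.2)
  rw [← h1, hfK]
  exact hdiv P

omit [NeZero N] in
/-- **[Hor3]**: for `f ≠ 0` in `F̄` with all orders divisible by `m`, EVERY base `K` with
`O = A ∩ K` a discrete valuation ring, the descent `fK` of `f` and EVERY chart `R ⊆ F_K`
(noetherian, fraction field `F_K`): `Model3Plan.Hor3 π m fK R`. -/
theorem hor3 (m : ℕ) (f : modularFunctionFieldBar N) (hf : f ≠ 0)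
    (hdiv : ∀ P : Place Qb (modularFunctionFieldBar N), (m : ℤ) ∣ P.ord f)
    (hdvr : IsDiscreteValuationRing (OK A K)) (π : OK A K) (hπ : Irreducible π)
    (fK : FK N K) (hfK : Fermat.Agent.S18.Glob.toBar N K fK = f)
    (R : Subalgebra (OK A K) (FK N K)) [IsNoetherianRing R] [IsFractionRing R (FK N K)] :
    Model3Plan.Hor3 π m fK R := by
  have hfK0 : fK ≠ 0 := by
    rintro rfl
    apply hf
    rw [← hfK, map_zero]
  exact hor3_of_place N A K hdvr π hπ m fK hfK0 (dvd_ord_of_toBar N K m f hdiv fK hfK) R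

omit [NeZero N] in
/-- **[Hor3]**, Kummer form: if `ord_P f = m * ord_P g` at every place `P` of `F̄ / ℚ̄`. -/
theorem hor3_of_ord_eq (m : ℕ) (f g : modularFunctionFieldBar N) (hf : f ≠ 0)
    (hfg : ∀ P : Place Qb (modularFunctionFieldBar N), P.ord f = (m : ℤ) * P.ord g)
    (hdvr : IsDiscreteValuationRing (OK A K)) (π : OK A K) (hπ : Irreducible π)
    (fK : FK N K) (hfK : Fermat.Agent.S18.Glob.toBar N K fK = f)
    (R : Subalgebra (OK A K) (FK N K)) [IsNoetherianRing R] [IsFractionRing R (FK N K)] :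
    Model3Plan.Hor3 π m fK R :=
  hor3 N A K m f hf (fun P => ⟨P.ord g, hfg P⟩) hdvr π hπ fK hfK R

end Hor

end Fermat.Agent.S36.Hor3B
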