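/-
S36, [HorPrinc] (helper136), abstract (Mathlib + S34.LocPlan vocabulary).

Every nonzero HORIZONTAL prime of a chart is `PrincAt` (height one):
`O` a discrete valuation ring with uniformizer `π`, `R` a noetherian integrally closed domain,
integral over (the image of) `O[X]`, `𝔮` a nonzero prime of `R` with `π ∉ 𝔮`.  Then `R_𝔮` is a
discrete valuation ring, i.e. `LocPlan.PrincAt 𝔮`.

Route: contract to `O[X]`, localise to `K[X]` (a principal ideal domain: nonzero primes are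
maximal), incomparability along the integral map; hence `R_𝔮` has exactly one nonzero prime.
-/
import Mathlib
import Fermat.Agent.S34.LocPlan

set_option autoImplicit false

namespace Fermat.Agent.S36.HorPrinc

open Polynomial Fermat.Agent.S34.LocPlan

attribute [local instance] Polynomial.algebra

/-- primes of `O[X]` not containing `C π`: a chain `I < P' ≤ P` collapses, `P' = P`. -/
theorem poly_chain {O : Type*} [CommRing O] [IsDomain O] [IsDiscreteValuationRing O] (π : O)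
    (hπ : Irreducible π) (I P' P : Ideal O[X]) (hI : I.IsPrime) (hP' : P'.IsPrime)
    (hP : P.IsPrime) (h1 : I < P') (h2 : P' ≤ P) (hπP : C π ∉ P) : P' = P := by
  have hloc : IsLocalization ((nonZeroDivisors O).map (C : O →+* O[X])) (FractionRing O)[X] :=
    Polynomial.isLocalization (nonZeroDivisors O) (FractionRing O)
  have hdisjP : Disjoint (((nonZeroDivisors O).map (C : O →+* O[X]) : Submonoid O[X]) : Set O[X])
      (P : Set O[X]) := by
    rw [Set.disjoint_left]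
    rintro x ⟨c, hc, rfl⟩ hx
    have hc0 : c ≠ 0 := nonZeroDivisors.ne_zero hc
    obtain ⟨k, u, hu⟩ := IsDiscreteValuationRing.eq_unit_mul_pow_irreducible hc0 hπ
    have hx' : C (u : O) * C π ^ k ∈ P := by
      have : (C : O →+* O[X]) c = C (u : O) * C π ^ k := by rw [hu, map_mul, map_pow]
      rw [← this]; exact hx
    rcases hP.mem_or_mem hx' with h | h
    · exact hP.ne_top (Ideal.eq_top_of_isUnit_mem _ h (u.isUnit.map C))
    · exact hπP (hP.mem_of_pow_mem k h)
  have hdisjP' : Disjoint (((nonZeroDivisors O).map (C : O →+* O[X]) : Submonoid O[X]) : Set O[X])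
      (P' : Set O[X]) := Set.disjoint_of_subset_right h2 hdisjP
  have hdisjI : Disjoint (((nonZeroDivisors O).map (C : O →+* O[X]) : Submonoid O[X]) : Set O[X])
      (I : Set O[X]) := Set.disjoint_of_subset_right h1.le hdisjP'
  have eI := IsLocalization.under_map_of_isPrime_disjoint _ (FractionRing O)[X] hI hdisjI
  have eP' := IsLocalization.under_map_of_isPrime_disjoint _ (FractionRing O)[X] hP' hdisjP'
  have eP := IsLocalization.under_map_of_isPrime_disjoint _ (FractionRing O)[X] hP hdisjP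
  have pP' : (Ideal.map (algebraMap O[X] (FractionRing O)[X]) P').IsPrime :=
    IsLocalization.isPrime_of_isPrime_disjoint _ (FractionRing O)[X] P' hP' hdisjP'
  have pP : (Ideal.map (algebraMap O[X] (FractionRing O)[X]) P).IsPrime :=
    IsLocalization.isPrime_of_isPrime_disjoint _ (FractionRing O)[X] P hP hdisjP
  have hne : Ideal.map (algebraMap O[X] (FractionRing O)[X]) P' ≠ ⊥ := by
    intro h
    have h3 : Ideal.map (algebraMap O[X] (FractionRing O)[X]) I = ⊥ :=
      le_bot_iff.1 (h ▸ Ideal.map_mono h1.le)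
    apply h1.ne
    rw [← eI, ← eP', h, h3]
  have hmax : (Ideal.map (algebraMap O[X] (FractionRing O)[X]) P').IsMaximal :=
    IsPrime.to_maximal_ideal hne
  have heq : Ideal.map (algebraMap O[X] (FractionRing O)[X]) P' =
      Ideal.map (algebraMap O[X] (FractionRing O)[X]) P :=
    hmax.eq_of_le pP.ne_top (Ideal.map_mono h2)
  rw [← eP', ← eP, heq]

/-- nonzero horizontal primes of a chart are incomparable. -/
theorem eq_of_le_of_horizontal {O R : Type*} [CommRing O] [IsDomain O] [IsDiscreteValuationRing O]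
    [CommRing R] [IsDomain R] [Algebra O R]
    (π : O) (hπ : Irreducible π) (φ : O[X] →+* R) (hφ : φ.IsIntegral)
    (hC : ∀ c : O, φ (C c) = algebraMap O R c)
    (𝔮' 𝔮 : Ideal R) (h𝔮' : 𝔮'.IsPrime) (h𝔮 : 𝔮.IsPrime) (hle : 𝔮' ≤ 𝔮) (h0 : 𝔮' ≠ ⊥)
    (hπ𝔮 : algebraMap O R π ∉ 𝔮) : 𝔮' = 𝔮 := by
  by_contra hne
  have hlt : 𝔮' < 𝔮 := lt_of_le_of_ne hle hne
  let _ : Algebra O[X] R := φ.toAlgebra
  obtain ⟨x, hx, hx0⟩ : ∃ x ∈ 𝔮', x ≠ 0 := Submodule.exists_mem_ne_zero_of_ne_bot h0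
  have hbot : (⊥ : Ideal R).IsPrime := Ideal.isPrime_bot
  have hI : (⊥ : Ideal R).comap φ < 𝔮'.comap φ :=
    Ideal.comap_lt_comap_of_integral_mem_sdiff (I := ⊥) bot_le ⟨hx, by simpa using hx0⟩ (hφ x)
  obtain ⟨y, hy, hy'⟩ := SetLike.exists_of_lt hlt
  have hP : 𝔮'.comap φ < 𝔮.comap φ :=
    Ideal.comap_lt_comap_of_integral_mem_sdiff hle ⟨hy, hy'⟩ (hφ y)
  have := poly_chain π hπ _ _ _ (Ideal.comap_isPrime φ ⊥) (Ideal.comap_isPrime φ 𝔮')
    (Ideal.comap_isPrime φ 𝔮) hI hP.le (by rw [Ideal.mem_comap, hC]; exact hπ𝔮)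
  exact hP.ne this

/-- **[HorPrinc]** core: every nonzero horizontal prime of a chart is `PrincAt`. -/
theorem princAt_of_horizontal {O R : Type*} [CommRing O] [IsDomain O] [IsDiscreteValuationRing O]
    [CommRing R] [IsDomain R] [IsNoetherianRing R] [IsIntegrallyClosed R] [Algebra O R]
    (π : O) (hπ : Irreducible π) (φ : Polynomial O →+* R) (hφ : φ.IsIntegral)
    (hC : ∀ c : O, φ (Polynomial.C c) = algebraMap O R c)
    (𝔮 : Ideal R) (h𝔮 : 𝔮.IsPrime) (h0 : 𝔮 ≠ ⊥) (hπ𝔮 : algebraMap O R π ∉ 𝔮) :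
    PrincAt 𝔮 := by
  have := h𝔮
  have hinj : Function.Injective (algebraMap R (Localization.AtPrime 𝔮)) :=
    IsLocalization.injective _ 𝔮.primeCompl_le_nonZeroDivisors
  have hnoeth : IsNoetherianRing (Localization.AtPrime 𝔮) :=
    IsLocalization.isNoetherianRing 𝔮.primeCompl _ inferInstance
  have hic : IsIntegrallyClosed (Localization.AtPrime 𝔮) :=
    isIntegrallyClosed_of_isLocalization _ 𝔮.primeCompl 𝔮.primeCompl_le_nonZeroDivisors
  obtain ⟨x, hx, hx0⟩ : ∃ x ∈ 𝔮, x ≠ 0 := Submodule.exists_mem_ne_zero_of_ne_bot h0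
  have hmne : IsLocalRing.maximalIdeal (Localization.AtPrime 𝔮) ≠ ⊥ := by
    intro h
    have h1 : algebraMap R (Localization.AtPrime 𝔮) x ∈
        IsLocalRing.maximalIdeal (Localization.AtPrime 𝔮) :=
      (IsLocalization.AtPrime.to_map_mem_maximal_iff _ 𝔮 x).2 hx
    rw [h, Ideal.mem_bot] at h1
    exact hx0 (hinj (by rw [h1, map_zero]))
  have hnf : ¬ IsField (Localization.AtPrime 𝔮) := by
    rw [IsLocalRing.isField_iff_maximalIdeal_eq]
    exact hmne
  have huniq : ∃! P : Ideal (Localization.AtPrime 𝔮), P ≠ ⊥ ∧ P.IsPrime := by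
    refine ⟨IsLocalRing.maximalIdeal _, ⟨hmne, inferInstance⟩, ?_⟩
    rintro Q ⟨hQ0, hQ⟩
    have hQ' : (Q.comap (algebraMap R (Localization.AtPrime 𝔮))).IsPrime :=
      Ideal.comap_isPrime _ _
    have hle : Q.comap (algebraMap R (Localization.AtPrime 𝔮)) ≤ 𝔮 := by
      intro y hy
      exact (IsLocalization.AtPrime.to_map_mem_maximal_iff _ 𝔮 y).1
        (IsLocalRing.le_maximalIdeal hQ.ne_top hy)
    have hne : Q.comap (algebraMap R (Localization.AtPrime 𝔮)) ≠ ⊥ := by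
      intro h
      apply hQ0
      rw [← IsLocalization.map_under 𝔮.primeCompl (Localization.AtPrime 𝔮) Q, Ideal.under_def, h,
        Ideal.map_bot]
    have heq := eq_of_le_of_horizontal π hπ φ hφ hC _ 𝔮 hQ' h𝔮 hle hne hπ𝔮
    rw [← IsLocalization.map_under 𝔮.primeCompl (Localization.AtPrime 𝔮) Q, Ideal.under_def, heq,
      IsLocalization.AtPrime.map_eq_maximalIdeal]
  have h34 : (IsIntegrallyClosed (Localization.AtPrime 𝔮) ∧
      ∃! P : Ideal (Localization.AtPrime 𝔮), P ≠ ⊥ ∧ P.IsPrime) ↔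
      (IsLocalRing.maximalIdeal (Localization.AtPrime 𝔮)).IsPrincipal :=
    (IsDiscreteValuationRing.TFAE (Localization.AtPrime 𝔮) hnf).out 3 4
  have hprinc : (IsLocalRing.maximalIdeal (Localization.AtPrime 𝔮)).IsPrincipal :=
    h34.mp ⟨hic, huniq⟩
  obtain ⟨ϖ, hϖ⟩ := hprinc
  have hϖ' : IsLocalRing.maximalIdeal (Localization.AtPrime 𝔮) = Ideal.span {ϖ} := hϖ
  obtain ⟨t₀, s₀, hts⟩ := IsLocalization.exists_mk'_eq 𝔮.primeCompl ϖ
  have hts' : ϖ * algebraMap R (Localization.AtPrime 𝔮) s₀ =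
      algebraMap R (Localization.AtPrime 𝔮) t₀ := by
    rw [← hts]; exact IsLocalization.mk'_spec _ t₀ s₀
  have ht₀ : t₀ ∈ 𝔮 := by
    rw [← IsLocalization.AtPrime.to_map_mem_maximal_iff (Localization.AtPrime 𝔮) 𝔮 t₀, ← hts',
      hϖ']
    exact Ideal.mul_mem_right _ _ (Ideal.mem_span_singleton_self ϖ)
  refine ⟨h0, t₀, ht₀, fun y hy => ?_⟩
  have hy' : algebraMap R (Localization.AtPrime 𝔮) y ∈
      IsLocalRing.maximalIdeal (Localization.AtPrime 𝔮) :=
    (IsLocalization.AtPrime.to_map_mem_maximal_iff _ 𝔮 y).2 hy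
  rw [hϖ', Ideal.mem_span_singleton'] at hy'
  obtain ⟨a, ha⟩ := hy'
  obtain ⟨c, s, hcs⟩ := IsLocalization.exists_mk'_eq 𝔮.primeCompl a
  have hcs' : a * algebraMap R (Localization.AtPrime 𝔮) s =
      algebraMap R (Localization.AtPrime 𝔮) c := by
    rw [← hcs]; exact IsLocalization.mk'_spec _ c s
  refine ⟨s * s₀, 𝔮.primeCompl.mul_mem s.2 s₀.2, c, hinj ?_⟩
  rw [map_mul, map_mul, map_mul, ← ha, ← hcs', ← hts']
  ring

/-- transfer of integrality: `x ∈ R ⊆ E` integral over `O[t]` (`t ∈ R`) is integral over `O[X]`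
along `aeval t : O[X] → R`. -/
theorem isIntegralElem_aeval {O E : Type*} [CommRing O] [Field E] [Algebra O E]
    (R : Subalgebra O E) (t : E) (ht : t ∈ R) (x : R)
    (hx : IsIntegral (Algebra.adjoin O {t}) (x : E)) :
    ((aeval (⟨t, ht⟩ : R) : O[X] →ₐ[O] R) : O[X] →+* R).IsIntegralElem x := by
  obtain ⟨p, hp, hpx⟩ := hx
  -- lift the coefficients of `p` to `O[X]`
  have hsurj : Function.Surjective
      ((aeval (⟨t, Algebra.self_mem_adjoin_singleton O t⟩ : Algebra.adjoin O {t}) :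
        O[X] →ₐ[O] Algebra.adjoin O {t}) : O[X] →+* Algebra.adjoin O {t}) := by
    rintro ⟨y, hy⟩
    rw [Algebra.adjoin_singleton_eq_range_aeval] at hy
    obtain ⟨f, rfl⟩ := hy
    refine ⟨f, Subtype.ext ?_⟩
    show ((aeval (⟨t, Algebra.self_mem_adjoin_singleton O t⟩ : Algebra.adjoin O {t}) f :
      Algebra.adjoin O {t}) : E) = aeval t f
    rw [← Subalgebra.coe_val, ← aeval_algHom_apply]
    rfl
  obtain ⟨q, hq, -, hqm⟩ := Polynomial.lifts_and_natDegree_eq_and_monic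
    (Polynomial.mem_lifts_of_surjective hsurj p) hp
  refine ⟨q, hqm, ?_⟩
  apply Subtype.val_injective
  have key : ∀ f : O[X], ((aeval (⟨t, ht⟩ : R) f : R) : E) =
      algebraMap (Algebra.adjoin O {t}) E
        (aeval (⟨t, Algebra.self_mem_adjoin_singleton O t⟩ : Algebra.adjoin O {t}) f) := by
    intro f
    have h1 : ((aeval (⟨t, ht⟩ : R) f : R) : E) = aeval t f := by
      rw [← Subalgebra.coe_val, ← aeval_algHom_apply]; rfl
    have h2 : algebraMap (Algebra.adjoin O {t}) E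
        (aeval (⟨t, Algebra.self_mem_adjoin_singleton O t⟩ : Algebra.adjoin O {t}) f) =
        aeval t f := by
      show ((aeval (⟨t, Algebra.self_mem_adjoin_singleton O t⟩ : Algebra.adjoin O {t}) f :
        Algebra.adjoin O {t}) : E) = aeval t f
      rw [← Subalgebra.coe_val, ← aeval_algHom_apply]; rfl
    rw [h1, h2]
  have h3 : ((eval₂ ((aeval (⟨t, ht⟩ : R) : O[X] →ₐ[O] R) : O[X] →+* R) x q : R) : E) =
      eval₂ (algebraMap (Algebra.adjoin O {t}) E) (x : E) p := by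
    rw [← hq, eval₂_map]
    show (R.val : R →+* E) (eval₂ ((aeval (⟨t, ht⟩ : R) : O[X] →ₐ[O] R) : O[X] →+* R) x q) = _
    rw [Polynomial.hom_eval₂]
    refine Polynomial.eval₂_congr (RingHom.ext fun f => ?_) rfl rfl
    exact key f
  rw [h3, ZeroMemClass.coe_zero]
  exact hpx

/-- `t` is integral over `O[t]` (so `t` lies in the chart `integralClosure O[t] E`). -/
theorem isIntegral_adjoin_self {O E : Type*} [CommRing O] [Field E] [Algebra O E] (t : E) :
    IsIntegral (Algebra.adjoin O {t}) t := by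
  have h : t = algebraMap (Algebra.adjoin O {t}) E ⟨t, Algebra.self_mem_adjoin_singleton O t⟩ :=
    rfl
  rw [h]
  exact isIntegral_algebraMap

/-- **[HorPrinc]**, chart form: `R` a subalgebra of a field `E` with `t ∈ R` and every element
integral over `O[t]` (e.g. `R = chart N A K t`). -/
theorem princAt_of_horizontal_chart {O E : Type*} [CommRing O] [IsDomain O]
    [IsDiscreteValuationRing O] [Field E] [Algebra O E] (π : O) (hπ : Irreducible π)
    (R : Subalgebra O E) [IsNoetherianRing R] [IsIntegrallyClosed R] (t : E) (ht : t ∈ R)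
    (hR : ∀ x ∈ R, IsIntegral (Algebra.adjoin O {t}) x)
    (𝔮 : Ideal R) (h𝔮 : 𝔮.IsPrime) (h0 : 𝔮 ≠ ⊥) (hπ𝔮 : algebraMap O R π ∉ 𝔮) :
    PrincAt 𝔮 :=
  princAt_of_horizontal π hπ ((aeval (⟨t, ht⟩ : R) : O[X] →ₐ[O] R) : O[X] →+* R)
    (fun x => isIntegralElem_aeval R t ht x (hR x x.2)) (fun c => by simp) 𝔮 h𝔮 h0 hπ𝔮

/-- chart form of the incomparability of nonzero horizontal primes. -/
theorem eq_of_le_of_horizontal_chart {O E : Type*} [CommRing O] [IsDomain O]
    [IsDiscreteValuationRing O] [Field E] [Algebra O E] (π : O) (hπ : Irreducible π)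
    (R : Subalgebra O E) (t : E) (ht : t ∈ R)
    (hR : ∀ x ∈ R, IsIntegral (Algebra.adjoin O {t}) x)
    (𝔮' 𝔮 : Ideal R) (h𝔮' : 𝔮'.IsPrime) (h𝔮 : 𝔮.IsPrime) (hle : 𝔮' ≤ 𝔮) (h0 : 𝔮' ≠ ⊥)
    (hπ𝔮 : algebraMap O R π ∉ 𝔮) : 𝔮' = 𝔮 :=
  eq_of_le_of_horizontal π hπ ((aeval (⟨t, ht⟩ : R) : O[X] →ₐ[O] R) : O[X] →+* R)
    (fun x => isIntegralElem_aeval R t ht x (hR x x.2)) (fun c => by simp) 𝔮' 𝔮 h𝔮' h𝔮 hle h0 hπ𝔮

end Fermat.Agent.S36.HorPrinc
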