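/-
S36 — Level3Inst.lean (helper42; package [MODEL3], leaf [Level3] of
`Model3Leaves.model3_of_leaves`, for the objects of record).

Level `N = M q²`; coordinate `t = Chart3B.J3 = j · j_q · j_{q²}`; valuation rings
`V = ![GaussV.V1, GaussV.V2 w_{q²}, H.W3]` (`H : V3.Hyp3 …` the middle-cusp data),
uniformisers `ϖ = ![π, π, Wit3.sE]`; `al = Level3B.al2` the inclusion of level `M`;
`RM0 = R0 M q A K`, `RMInf = Rinf M q A K`.

From residue degree one along `W1` (`hf1`) and along `W3` (`hf3`):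
* `hB0_J3`, `hB2_J3`, `hB0_J3_inv`, `hB2_J3_inv` : the inputs `hB0_0`, `hB2_0`, `hB0_Inf`,
  `hB2_Inf` of `Model3Leaves.model3_of_leaves`;
* `hne_J3`, `hne_J3_inv` : the inputs `hne0`, `hneInf` (no residue-degree hypothesis);
* `hmap_J3`, `hmap_J3_inv`, `al2_algebraMap'`, `igusa_R0`, `igusa_Rinf` : `hmap0`, `hmapInf`,
  `hal`, `hI0`, `hIInf`;
* `branch_J3`, `branch_J3_inv` : the `branch` field itself, for any `P` with `ChartHyp3`.
-/
import Mathlib
import Fermat.Agent.S36.Level3J3B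
import Fermat.Agent.S36.Chart3B
import Fermat.Agent.S36.V3

set_option autoImplicit false

noncomputable section

namespace Fermat.Agent.S36.Level3Inst

open ModularCurve HahnSeries Fermat.Agent.S18 Fermat.Agent.S18.Arith Fermat.Agent.S18.ModelPlan
  Fermat.Agent.S34

variable {M q : ℕ} [NeZero M] [NeZero q] {hq : q.Prime} {hqM : ¬ q ∣ M}
variable {A : ValuationSubring Qb} {K K' : IntermediateField ℚ Qb}
variable {ξ : Qb} {hξ0 : ξ ≠ 0} {ι : FK (M * q * q) K →+* LaurentSeries Qb} {ϖ' : OK A K'}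

/-- The two names of the coordinate of record agree. -/
theorem J3_eq_J3K : Chart3B.J3 M q hq hqM K = Level3J3B.J3K M q hq hqM K := rfl

/-- The uniformiser `s = j_{q²} - j` of `W3` has `ι`-reduction `0`. -/
theorem gRel_sE (H : V3.Hyp3 M q hq hqM A K K' ξ hξ0 ι ϖ') :
    GRel A (ι (WQ2.jqqK2 M q hq hqM K - jK (M * q * q) K)) 0 :=
  GaussE.gRel_unif H.irr H.unif

/-- `hal` : the inclusion of level `M` fixes the constants. -/
theorem al2_algebraMap' (c : OK A K) :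
    Level3B.al2 M q K (algebraMap (OK A K) (FK M K) c) =
      algebraMap (OK A K) (FK (M * q * q) K) c :=
  Level3B.al2_algebraMap M q A K c

/-- `hmap0`. -/
theorem hmap_J3 [Fact q.Prime] : ∀ y ∈ R0 M q A K,
    Level3B.al2 M q K y ∈ chart (M * q * q) A K (Chart3B.J3 M q hq hqM K) :=
  fun _ hy => Level3J3B.al2_mem_chart_J3K M q hq hqM A K hy

/-- `hmapInf`. -/
theorem hmap_J3_inv [Fact q.Prime] : ∀ y ∈ Rinf M q A K,
    Level3B.al2 M q K y ∈ chart (M * q * q) A K (Chart3B.J3 M q hq hqM K)⁻¹ :=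
  fun _ hy => Level3J3B.al2_mem_chart_J3K_inv M q hq hqM A K hy

section Base

variable [Fact q.Prime] (hA : A.LiesOverPrime q) (hB : BaseFacts q A K)

include hA hB in
/-- `hI0` : Igusa at level `M`, chart `j ≠ ∞`. -/
theorem igusa_R0 (hqM : ¬ q ∣ M) : IgusaAt M A K (R0 M q A K) :=
  (IgusaStmt.igusaStatement M q hqM A hA K hB (ModelAll.modelStatement M q hqM A hA K hB)).1

include hA hB in
/-- `hIInf` : Igusa at level `M`, chart `j ≠ 0`. -/
theorem igusa_Rinf (hqM : ¬ q ∣ M) : IgusaAt M A K (Rinf M q A K) :=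
  (IgusaStmt.igusaStatement M q hqM A hA K hB (ModelAll.modelStatement M q hqM A hA K hB)).2

variable {π : OK A K} (hπ : Irreducible π)

include hA hπ in
/-- `hB0_0` : `chart J3 = al (R0) + π W1`. -/
theorem hB0_J3
    (hf1 : ∀ (x : FK (M * q * q) K) (y : LaurentSeries (IsLocalRing.ResidueField A)),
      GRel A ((x : FK (M * q * q) K) : LaurentSeries Qb) y →
      ∃ x' : FK M K, GRel A ((x' : FK M K) : LaurentSeries Qb) y) :
    ∀ y ∈ chart (M * q * q) A K (Chart3B.J3 M q hq hqM K), ∃ y' ∈ R0 M q A K,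
      ∃ v ∈ GaussV.V1 (M * q * q) A K hB.dvr,
        y - Level3B.al2 M q K y' = algebraMap (OK A K) (FK (M * q * q) K) π * v :=
  Level3B.exists_sub_eq_mul_V1 M (M * q * q) hB.dvr hπ _ (R0 M q A K)
    (fun _ hy hint => Branch.mem_redRing_R0 M q hqM hA hB hy hint) hf1
    ⟨_, Level3J3B.gRel_J3K M q hq hqM A K hA,
      Level3B.isIntegral_pow_of_mem M _
        (Level3B.jqModC_mem_redRing M (R0 M q A K) (Model.self_mem_chart M A K _)) _⟩
    (Level3B.al2 M q K) (Level3B.coe_al2 M q K)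

include hA hπ in
/-- `hB0_Inf` : `chart J3⁻¹ = al (Rinf) + π W1`. -/
theorem hB0_J3_inv
    (hf1 : ∀ (x : FK (M * q * q) K) (y : LaurentSeries (IsLocalRing.ResidueField A)),
      GRel A ((x : FK (M * q * q) K) : LaurentSeries Qb) y →
      ∃ x' : FK M K, GRel A ((x' : FK M K) : LaurentSeries Qb) y) :
    ∀ y ∈ chart (M * q * q) A K (Chart3B.J3 M q hq hqM K)⁻¹, ∃ y' ∈ Rinf M q A K,
      ∃ v ∈ GaussV.V1 (M * q * q) A K hB.dvr,
        y - Level3B.al2 M q K y' = algebraMap (OK A K) (FK (M * q * q) K) π * v :=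
  Level3B.exists_sub_eq_mul_V1 M (M * q * q) hB.dvr hπ _ (Rinf M q A K)
    (fun _ hy hint => Branch.mem_redRing_Rinf M q hqM hA hB hy hint) hf1
    ⟨_, Level3J3B.gRel_J3K_inv M q hq hqM A K hA,
      Level3B.isIntegral_pow_of_mem M _
        (Level3B.jqModC_inv_mem_redRing M (Rinf M q A K) (Model.self_mem_chart M A K _)) _⟩
    (Level3B.al2 M q K) (Level3B.coe_al2 M q K)

variable (H : V3.Hyp3 M q hq hqM A K K' ξ hξ0 ι ϖ')

include hA hB in
/-- `hB2_0` : `chart J3 = al (R0) + s W3`. -/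
theorem hB2_J3
    (hf3 : ∀ (x : FK (M * q * q) K) (y : LaurentSeries (IsLocalRing.ResidueField A)),
      GRel A (ι x) y → ∃ x' : FK M K, GRel A ((x' : FK M K) : LaurentSeries Qb) y) :
    ∀ y ∈ chart (M * q * q) A K (Chart3B.J3 M q hq hqM K), ∃ y' ∈ R0 M q A K,
      ∃ v ∈ H.W3, y - Level3B.al2 M q K y' = Wit3.sE M q hq hqM K * v :=
  Level3B.exists_sub_eq_mul_E M (M * q * q) H.emb H.dvr' H.irr H.unif _ (R0 M q A K)
    (fun _ hy hint => Branch.mem_redRing_R0 M q hqM hA hB hy hint) hf3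
    ⟨_, Level3J3B.gRel_E_J3K M q hq hqM hA H.mid.alpha (gRel_sE H),
      Level3B.isIntegral_pow_of_mem M _
        (Level3B.jqModC_mem_redRing M (R0 M q A K) (Model.self_mem_chart M A K _)) _⟩
    (Level3B.al2 M q K) (Level3J3B.hal3_of_alphaK2 M q H.mid.alpha)

include hA hB in
/-- `hB2_Inf` : `chart J3⁻¹ = al (Rinf) + s W3`. -/
theorem hB2_J3_inv
    (hf3 : ∀ (x : FK (M * q * q) K) (y : LaurentSeries (IsLocalRing.ResidueField A)),
      GRel A (ι x) y → ∃ x' : FK M K, GRel A ((x' : FK M K) : LaurentSeries Qb) y) :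
    ∀ y ∈ chart (M * q * q) A K (Chart3B.J3 M q hq hqM K)⁻¹, ∃ y' ∈ Rinf M q A K,
      ∃ v ∈ H.W3, y - Level3B.al2 M q K y' = Wit3.sE M q hq hqM K * v :=
  Level3B.exists_sub_eq_mul_E M (M * q * q) H.emb H.dvr' H.irr H.unif _ (Rinf M q A K)
    (fun _ hy hint => Branch.mem_redRing_Rinf M q hqM hA hB hy hint) hf3
    ⟨_, Level3J3B.gRel_E_J3K_inv M q hq hqM hA H.mid.alpha (gRel_sE H),
      Level3B.isIntegral_pow_of_mem M _
        (Level3B.jqModC_inv_mem_redRing M (Rinf M q A K) (Model.self_mem_chart M A K _)) _⟩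
    (Level3B.al2 M q K) (Level3J3B.hal3_of_alphaK2 M q H.mid.alpha)

include hA hπ in
/-- `hne0` : `J3 - c ∉ ϖ i (V i)`. -/
theorem hne_J3 (hdvr : IsDiscreteValuationRing (OK A K)) (c : OK A K) (i : Fin 3) :
    ¬ ∃ v ∈ (![GaussV.V1 (M * q * q) A K hdvr, GaussV.V2 (WQ2.wK2 M q hq hqM K) hdvr,
        H.W3] : Fin 3 → ValuationSubring (FK (M * q * q) K)) i,
      Chart3B.J3 M q hq hqM K - algebraMap (OK A K) (FK (M * q * q) K) c =
        (![algebraMap (OK A K) (FK (M * q * q) K) π, algebraMap (OK A K) (FK (M * q * q) K) π,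
          Wit3.sE M q hq hqM K] : Fin 3 → FK (M * q * q) K) i * v := by
  fin_cases i
  · exact Level3B.not_sub_const_V1 (M * q * q) hdvr hπ _ _
      (Level3J3B.gRel_J3K M q hq hqM A K hA)
      (fun c => V12J.jqModC_pow_ne_C _ (Nat.succ_ne_zero _) _) c
  · exact Level3B.not_sub_const_V2 (M * q * q) (WQ2.wK2 M q hq hqM K)
      (WQ2.wK2_algebraMap_OK M q hq hqM K A) hdvr hπ _ (Level3J3B.wK2_J3K M q hq hqM K) _
      (Level3J3B.gRel_J3K M q hq hqM A K hA)
      (fun c => V12J.jqModC_pow_ne_C _ (Nat.succ_ne_zero _) _) c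
  · exact Level3B.not_sub_const_E (M * q * q) H.emb H.dvr' H.irr H.unif _ _
      (Level3J3B.gRel_E_J3K M q hq hqM hA H.mid.alpha (gRel_sE H))
      (fun c => V12J.jqModC_pow_ne_C _ (Nat.succ_ne_zero _) _) c

include hA hπ in
/-- `hneInf` : `J3⁻¹ - c ∉ ϖ i (V i)`. -/
theorem hne_J3_inv (hdvr : IsDiscreteValuationRing (OK A K)) (c : OK A K) (i : Fin 3) :
    ¬ ∃ v ∈ (![GaussV.V1 (M * q * q) A K hdvr, GaussV.V2 (WQ2.wK2 M q hq hqM K) hdvr,
        H.W3] : Fin 3 → ValuationSubring (FK (M * q * q) K)) i,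
      (Chart3B.J3 M q hq hqM K)⁻¹ - algebraMap (OK A K) (FK (M * q * q) K) c =
        (![algebraMap (OK A K) (FK (M * q * q) K) π, algebraMap (OK A K) (FK (M * q * q) K) π,
          Wit3.sE M q hq hqM K] : Fin 3 → FK (M * q * q) K) i * v := by
  fin_cases i
  · exact Level3B.not_sub_const_V1 (M * q * q) hdvr hπ _ _
      (Level3J3B.gRel_J3K_inv M q hq hqM A K hA)
      (fun c => V12J.jqModC_inv_pow_ne_C _ (Nat.succ_ne_zero _) _) c
  · exact Level3B.not_sub_const_V2 (M * q * q) (WQ2.wK2 M q hq hqM K)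
      (WQ2.wK2_algebraMap_OK M q hq hqM K A) hdvr hπ _ (Level3J3B.wK2_J3K_inv M q hq hqM K) _
      (Level3J3B.gRel_J3K_inv M q hq hqM A K hA)
      (fun c => V12J.jqModC_inv_pow_ne_C _ (Nat.succ_ne_zero _) _) c
  · exact Level3B.not_sub_const_E (M * q * q) H.emb H.dvr' H.irr H.unif _ _
      (Level3J3B.gRel_E_J3K_inv M q hq hqM hA H.mid.alpha (gRel_sE H))
      (fun c => V12J.jqModC_inv_pow_ne_C _ (Nat.succ_ne_zero _) _) c

include hA hπ in
/-- **The `branch` field of `Model3Plan.ChartModel3` for `chart J3`**, objects of record. -/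
theorem branch_J3
    (hf1 : ∀ (x : FK (M * q * q) K) (y : LaurentSeries (IsLocalRing.ResidueField A)),
      GRel A ((x : FK (M * q * q) K) : LaurentSeries Qb) y →
      ∃ x' : FK M K, GRel A ((x' : FK M K) : LaurentSeries Qb) y)
    (hf3 : ∀ (x : FK (M * q * q) K) (y : LaurentSeries (IsLocalRing.ResidueField A)),
      GRel A (ι x) y → ∃ x' : FK M K, GRel A ((x' : FK M K) : LaurentSeries Qb) y)
    (P : Fin 3 → Ideal (chart (M * q * q) A K (Chart3B.J3 M q hq hqM K)))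
    (hyp : Model3Plan.ChartHyp3 π
      ![algebraMap (OK A K) (FK (M * q * q) K) π, algebraMap (OK A K) (FK (M * q * q) K) π,
        Wit3.sE M q hq hqM K]
      ![GaussV.V1 (M * q * q) A K hB.dvr, GaussV.V2 (WQ2.wK2 M q hq hqM K) hB.dvr, H.W3] P) :
    ∀ n : Ideal (chart (M * q * q) A K (Chart3B.J3 M q hq hqM K)), n.IsMaximal →
      algebraMap (OK A K) (chart (M * q * q) A K (Chart3B.J3 M q hq hqM K)) π ∈ n →
      ∀ i : Fin 3, P i ≤ n →
      (∃ x ∈ n, x ∉ P i) ∧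
        ∃ u ∈ n, ∀ x ∈ n, ∃ s' : chart (M * q * q) A K (Chart3B.J3 M q hq hqM K), s' ∉ n ∧
          ∃ c : chart (M * q * q) A K (Chart3B.J3 M q hq hqM K), s' * x - c * u ∈ P i :=
  Level3J3B.branch3_J3 M q hq hqM hA hB π hπ H.emb H.dvr' H.irr H.unif H.mid.alpha (gRel_sE H)
    hf1 hf3 P hyp

include hA hπ in
/-- **The `branch` field of `Model3Plan.ChartModel3` for `chart J3⁻¹`**, objects of record. -/
theorem branch_J3_inv
    (hf1 : ∀ (x : FK (M * q * q) K) (y : LaurentSeries (IsLocalRing.ResidueField A)),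
      GRel A ((x : FK (M * q * q) K) : LaurentSeries Qb) y →
      ∃ x' : FK M K, GRel A ((x' : FK M K) : LaurentSeries Qb) y)
    (hf3 : ∀ (x : FK (M * q * q) K) (y : LaurentSeries (IsLocalRing.ResidueField A)),
      GRel A (ι x) y → ∃ x' : FK M K, GRel A ((x' : FK M K) : LaurentSeries Qb) y)
    (P : Fin 3 → Ideal (chart (M * q * q) A K (Chart3B.J3 M q hq hqM K)⁻¹))
    (hyp : Model3Plan.ChartHyp3 π
      ![algebraMap (OK A K) (FK (M * q * q) K) π, algebraMap (OK A K) (FK (M * q * q) K) π,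
        Wit3.sE M q hq hqM K]
      ![GaussV.V1 (M * q * q) A K hB.dvr, GaussV.V2 (WQ2.wK2 M q hq hqM K) hB.dvr, H.W3] P) :
    ∀ n : Ideal (chart (M * q * q) A K (Chart3B.J3 M q hq hqM K)⁻¹), n.IsMaximal →
      algebraMap (OK A K) (chart (M * q * q) A K (Chart3B.J3 M q hq hqM K)⁻¹) π ∈ n →
      ∀ i : Fin 3, P i ≤ n →
      (∃ x ∈ n, x ∉ P i) ∧
        ∃ u ∈ n, ∀ x ∈ n, ∃ s' : chart (M * q * q) A K (Chart3B.J3 M q hq hqM K)⁻¹, s' ∉ n ∧
          ∃ c : chart (M * q * q) A K (Chart3B.J3 M q hq hqM K)⁻¹, s' * x - c * u ∈ P i :=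
  Level3J3B.branch3_J3_inv M q hq hqM hA hB π hπ H.emb H.dvr' H.irr H.unif H.mid.alpha
    (gRel_sE H) hf1 hf3 P hyp

end Base

end Fermat.Agent.S36.Level3Inst
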