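/-
S36 — Inc3Asm.lean (helper75): the CLOSING ASSEMBLY of block [INC3]: `S36/Inc3.Hyp` for the two
degeneracy maps `alphaC`, `betaC : chart_{Mq} JK → chart_{Mq²} J3` and the objects of record

    `V = ![GaussV.V1, GaussV.V2 w_{q²}, H.W3]`,  `ϖ = ![π, π, Wit3.sE]`
    (`H : V3.Hyp3 …` the middle-cusp data), `P` any family with `Model3Plan.ChartHyp3 π ϖ V P`,
    `P' = Inc3Low.PK'` the two vertical primes of `chart_{Mq} JK`.

Inputs: the model facts `ValHyp3` + `ChartHyp3` of the upper chart and the two residue-degree-one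
statements `hf1` (along `W1`) and `hf3` (along `W3`) — exactly the inputs of
`Level3Inst.hB0_J3 / hB2_J3` (and of `Model3Leaves`).  Everything else is discharged from
`Inc3Gd` (going-down), `Inc3Low` (min, Gauss contractions, level-`M q` primes), `Inc3W3`
(helper2: the `W3` contractions and `δ_y ∈ P 2`), `TorM` (helper86: deg/rad) and `Level3Inst`
(helper42: `chart = al (R0) + ϖ_i V_i`).

* `hyp_J3`            : `Inc3.Hyp alphaC betaC P PK' π`;
* `triple_J3`         : the field `triple` of `ChartTorInst.TorIn` (chart `J3`);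
* `huniq_alpha_J3`, `huniq_beta_J3`, `hcen_alpha_J3`, `hcen_beta_J3` : the hypotheses `huniq`,
  `hcen'` of `TorRelInst.relα_field / relβ_field` (`φ := alphaC / betaC`, `T n l := P l ≤ n`,
  `V' := V12.VK`).
-/
import Mathlib
import Fermat.Agent.S36.Inc3Low
import Fermat.Agent.S36.Inc3W3
import Fermat.Agent.S36.TorM
import Fermat.Agent.S36.Level3Inst

set_option autoImplicit false

open ModularCurve AlgebraicCurve HahnSeries

namespace Fermat.Agent.S36.Inc3Asm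

open Fermat.Agent.S18 Fermat.Agent.S18.Arith Fermat.Agent.S18.ModelPlan Fermat.Agent.S34
  Fermat.Agent.S36.Inc3Gd Fermat.Agent.S36.Inc3Low Fermat.Agent.S36.Model3Plan

noncomputable section

set_option synthInstance.maxHeartbeats 400000

variable {M q : ℕ} [NeZero M] [NeZero q] {hq : q.Prime} {hqM : ¬ q ∣ M}
variable {A : ValuationSubring Qb} {K K' : IntermediateField ℚ Qb}
variable {ξ : Qb} {hξ0 : ξ ≠ 0} {ι : FK (M * q * q) K →+* LaurentSeries Qb} {ϖ' : OK A K'}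

/-- **[INC3], closed form on the chart `J3`.** -/
theorem hyp_J3 [Fact q.Prime] (hA : A.LiesOverPrime q) (hB : BaseFacts q A K)
    (hdvr : IsDiscreteValuationRing (OK A K)) {π : OK A K} (hπ : Irreducible π)
    (H : V3.Hyp3 M q hq hqM A K K' ξ hξ0 ι ϖ')
    (hf1 : ∀ (x : FK (M * q * q) K) (y : LaurentSeries (IsLocalRing.ResidueField A)),
      GRel A ((x : FK (M * q * q) K) : LaurentSeries Qb) y →
      ∃ x' : FK M K, GRel A ((x' : FK M K) : LaurentSeries Qb) y)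
    (hf3 : ∀ (x : FK (M * q * q) K) (y : LaurentSeries (IsLocalRing.ResidueField A)),
      GRel A (ι x) y → ∃ x' : FK M K, GRel A ((x' : FK M K) : LaurentSeries Qb) y)
    {e : Fin 3 → ℕ} {ϖ : Fin 3 → FK (M * q * q) K}
    {V : Fin 3 → ValuationSubring (FK (M * q * q) K)}
    (hV0 : V 0 = GaussV.V1 (M * q * q) A K hdvr)
    (hV1 : V 1 = GaussV.V2 (WQ2.wK2 M q hq hqM K) hdvr)
    (hV2 : V 2 = H.W3)
    (hϖ0 : ϖ 0 = algebraMap (OK A K) (FK (M * q * q) K) π)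
    (hϖ1 : ϖ 1 = algebraMap (OK A K) (FK (M * q * q) K) π)
    (hϖ2 : ϖ 2 = Wit3.sE M q hq hqM K)
    (P : Fin 3 → Ideal ↥(chart (M * q * q) A K (Chart3B.J3 M q hq hqM K)))
    (val : ValHyp3 (algebraMap (OK A K) (FK (M * q * q) K) π) e ϖ V)
    (hyp : ChartHyp3 π ϖ V P) :
    Inc3.Hyp (alphaC M q hq hqM A K) (betaC M q hq hqM A K) P (PK' M q hq hqM A K hdvr)
      (algebraMap (OK A K) ↥(chart (M * q) A K (WKInst.JK M q hq hqM K)) π) := by
  -- the three vertical primes of the upper chart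
  have hP0' : ∀ r : ↥(chart (M * q * q) A K (Chart3B.J3 M q hq hqM K)), r ∈ P 0 ↔
      ∃ y ∈ GaussV.V1 (M * q * q) A K hdvr,
        (r : FK (M * q * q) K) = algebraMap (OK A K) (FK (M * q * q) K) π * y := by
    intro r
    rw [hyp.mem_P 0 r, hV0, hϖ0]
    rfl
  have hP1' : ∀ r : ↥(chart (M * q * q) A K (Chart3B.J3 M q hq hqM K)), r ∈ P 1 ↔
      ∃ y ∈ GaussV.V2 (WQ2.wK2 M q hq hqM K) hdvr,
        (r : FK (M * q * q) K) = algebraMap (OK A K) (FK (M * q * q) K) π * y := by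
    intro r
    rw [hyp.mem_P 1 r, hV1, hϖ1]
    rfl
  have hP2 : ∀ r : ↥(chart (M * q * q) A K (Chart3B.J3 M q hq hqM K)), r ∈ P 2 ↔
      ∃ y ∈ H.W3, (r : FK (M * q * q) K) = Wit3.sE M q hq hqM K * y := by
    intro r
    rw [hyp.mem_P 2 r, hV2, hϖ2]
    rfl
  have hP0 := fun r => TorM.gRel_iff_of_V1 (Chart3B.J3 M q hq hqM K) hdvr hπ (P 0) hP0' r
  have hP1 := fun r => TorM.gRel_iff_of_V2 hq hqM (Chart3B.J3 M q hq hqM K) hdvr hπ (P 1) hP1' r
  -- chart memberships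
  have haY : ∀ y ∈ R0 M q A K, WK.alphaK M q K y ∈ chart (M * q) A K (WKInst.JK M q hq hqM K) :=
    fun y hy => WKInst.alphaK_mem_chart_JK M q hq hqM A K hy
  have hbY : ∀ y ∈ R0 M q A K,
      WK.betaK M q hq hqM K y ∈ chart (M * q) A K (WKInst.JK M q hq hqM K) :=
    fun y hy => WKInst.betaK_mem_chart_JK M q hq hqM A K hy
  have hat : ∀ y ∈ chart (M * q) A K (WKInst.JK M q hq hqM K),
      WQ2.alphaK2 M q K y ∈ chart (M * q * q) A K (Chart3B.J3 M q hq hqM K) :=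
    fun _ hy => Chart3B.alphaK2_mem_chart_J3 M q hq hqM A K hy
  have hbt : ∀ y ∈ chart (M * q) A K (WKInst.JK M q hq hqM K),
      WQ2.betaK2 M q hq hqM K y ∈ chart (M * q * q) A K (Chart3B.J3 M q hq hqM K) :=
    fun _ hy => Chart3B.betaK2_mem_chart_J3 M q hq hqM A K hy
  have hwt : ∀ x ∈ chart (M * q * q) A K (Chart3B.J3 M q hq hqM K),
      WQ2.wK2 M q hq hqM K x ∈ chart (M * q * q) A K (Chart3B.J3 M q hq hqM K) :=
    fun _ hx => Chart3B.wK2_mem_chart_J3 M q hq hqM A K hx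
  -- residue degree one along `W1` and `W3`
  have h0 : ∀ x ∈ chart (M * q * q) A K (Chart3B.J3 M q hq hqM K), ∃ y ∈ R0 M q A K,
      GRel A (((x : FK (M * q * q) K) : LaurentSeries Qb) - ((y : FK M K) : LaurentSeries Qb))
        0 := by
    intro x hx
    obtain ⟨y', hy', v, hv, hxv⟩ := Level3Inst.hB0_J3 hA hB hπ hf1 x hx
    refine ⟨y', hy', ?_⟩
    have h1 : GRel A (((x - Level3B.al2 M q K y' : FK (M * q * q) K)) : LaurentSeries Qb) 0 :=
      (BranchInst.exists_V1_iff_gRel hdvr hπ _).mp ⟨v, hv, hxv⟩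
    rwa [Subfield.coe_sub, Level3B.coe_al2] at h1
  have h2 : ∀ x ∈ chart (M * q * q) A K (Chart3B.J3 M q hq hqM K), ∃ y ∈ R0 M q A K,
      ∃ r ∈ P 2, ((r : ↥(chart (M * q * q) A K (Chart3B.J3 M q hq hqM K))) :
        FK (M * q * q) K) = x - TorM.incl2 M q K y := by
    intro x hx
    obtain ⟨y', hy', v, hv, hxv⟩ := Level3Inst.hB2_J3 hA hB H hf3 x hx
    have hmem : x - Level3B.al2 M q K y' ∈ chart (M * q * q) A K (Chart3B.J3 M q hq hqM K) :=
      Subalgebra.sub_mem _ hx (hat _ (haY y' hy'))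
    exact ⟨y', hy', ⟨_, hmem⟩, (hP2 _).mpr ⟨v, hv, hxv⟩, rfl⟩
  have hδ : ∀ y ∈ R0 M q A K, ∃ r ∈ P 2,
      ((r : ↥(chart (M * q * q) A K (Chart3B.J3 M q hq hqM K))) : FK (M * q * q) K) =
        WQ2.betaK2 M q hq hqM K (WK.betaK M q hq hqM K y) - TorM.incl2 M q K y := by
    intro y hy
    have hyV : y ∈ GaussV.V1 M A K hdvr := GaussV.R0_le_V1 q hdvr y hy
    have hnu := Inc3W3.delta_mem_nonunits H hA hdvr y hyV
    obtain ⟨v, hv, hxv⟩ := (Inc3W3.mem_nonunits_W3_iff_exists H _).mp hnu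
    have hmem : WQ2.betaK2 M q hq hqM K (WK.betaK M q hq hqM K y)
        - WQ2.alphaK2 M q K (WK.alphaK M q K y) ∈
        chart (M * q * q) A K (Chart3B.J3 M q hq hqM K) :=
      Subalgebra.sub_mem _ (hbt _ (hbY y hy)) (hat _ (haY y hy))
    exact ⟨⟨_, hmem⟩, (hP2 _).mpr ⟨v, hv, hxv⟩, rfl⟩
  obtain ⟨d1, d2, d3, -, d5, d6⟩ := TorM.transfer_R0 hq hqM (WKInst.JK M q hq hqM K)
    (Chart3B.J3 M q hq hqM K) hA hB haY hbY hat hbt hwt P hP0 hP1 h0 h2 hδ
  exact hyp_of_pieces hdvr P hA hπ val hyp hP0 hP1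
    (Inc3W3.comap_alpha_P2 H hdvr hπ (alphaC M q hq hqM A K) (alphaC_coe M q hq hqM A K) (P 2)
      hP2 _ (fun s => mem_PK' M q hq hqM A K hdvr hπ 0 s))
    (Inc3W3.comap_beta_P2 H hA hdvr hπ (betaC M q hq hqM A K) (betaC_coe M q hq hqM A K) (P 2)
      hP2 _ (fun s => mem_PK' M q hq hqM A K hdvr hπ 1 s))
    d1 d2 d3 d5 d6

/-! ### Consumer shapes (`ChartTorInst.TorIn.triple`, `TorRelInst.relα_field / relβ_field`) -/

section Consumers

variable {π : OK A K} {P : Fin 3 → Ideal ↥(chart (M * q * q) A K (Chart3B.J3 M q hq hqM K))}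
  {hdvr : IsDiscreteValuationRing (OK A K)}
  (Hy : Inc3.Hyp (alphaC M q hq hqM A K) (betaC M q hq hqM A K) P (PK' M q hq hqM A K hdvr)
    (algebraMap (OK A K) ↥(chart (M * q) A K (WKInst.JK M q hq hqM K)) π))

include Hy

/-- The field `triple` of `ChartTorInst.TorIn` on the chart `J3`. -/
theorem triple_J3 : ∀ n : Ideal ↥(chart (M * q * q) A K (Chart3B.J3 M q hq hqM K)),
    n.IsMaximal → algebraMap (OK A K) ↥(chart (M * q * q) A K (Chart3B.J3 M q hq hqM K)) π ∈ n →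
    ∀ i j : Fin 3, i ≠ j → P i ≤ n → P j ≤ n → ∀ l, P l ≤ n :=
  fun n hn _ i j hij hi hj => Hy.triple n hn.isPrime i j hij hi hj

/-- The hypothesis `huniq` of `TorRelInst.relα_field` (`φ := alphaC`, `T n l := P l ≤ n`). -/
theorem huniq_alpha_J3 : ∀ n : Ideal ↥(chart (M * q * q) A K (Chart3B.J3 M q hq hqM K)),
    n.IsMaximal → algebraMap (OK A K) ↥(chart (M * q * q) A K (Chart3B.J3 M q hq hqM K)) π ∈ n →
    (∀ l, P l ≤ n) →
    ∀ n₂ : Ideal ↥(chart (M * q * q) A K (Chart3B.J3 M q hq hqM K)), n₂.IsPrime →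
      n₂.comap (alphaC M q hq hqM A K) = n.comap (alphaC M q hq hqM A K) → n₂ = n :=
  fun n hn _ hT n₂ hn₂ h => Hy.unique_over_alpha n n₂ hn.isPrime hn₂ (hT 1) h

/-- The hypothesis `huniq` of `TorRelInst.relβ_field` (`φ := betaC`). -/
theorem huniq_beta_J3 : ∀ n : Ideal ↥(chart (M * q * q) A K (Chart3B.J3 M q hq hqM K)),
    n.IsMaximal → algebraMap (OK A K) ↥(chart (M * q * q) A K (Chart3B.J3 M q hq hqM K)) π ∈ n →
    (∀ l, P l ≤ n) →
    ∀ n₂ : Ideal ↥(chart (M * q * q) A K (Chart3B.J3 M q hq hqM K)), n₂.IsPrime →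
      n₂.comap (betaC M q hq hqM A K) = n.comap (betaC M q hq hqM A K) → n₂ = n :=
  fun n hn _ hT n₂ hn₂ h => Hy.unique_over_beta n n₂ hn.isPrime hn₂ (hT 0) h

/-- The hypothesis `hcen'` of `TorRelInst.relα_field` (`φ := alphaC`, `V' := V12.VK`). -/
theorem hcen_alpha_J3 (hπ : Irreducible π) :
    ∀ n : Ideal ↥(chart (M * q * q) A K (Chart3B.J3 M q hq hqM K)),
    n.IsMaximal → algebraMap (OK A K) ↥(chart (M * q * q) A K (Chart3B.J3 M q hq hqM K)) π ∈ n →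
    (∀ l, P l ≤ n) → ∀ j, ∀ r : ↥(chart (M * q) A K (WKInst.JK M q hq hqM K)),
      (∃ z ∈ V12.VK M q hq hqM A K hdvr j,
        (r : FK (M * q) K) = algebraMap (OK A K) (FK (M * q) K) π * z) →
      alphaC M q hq hqM A K r ∈ n := by
  intro n _ _ hT j r hr
  have h1 : r ∈ PK' M q hq hqM A K hdvr j := (mem_PK' M q hq hqM A K hdvr hπ j r).mpr hr
  have h2 : PK' M q hq hqM A K hdvr j ≤ n.comap (alphaC M q hq hqM A K) :=
    Hy.node_below_alpha n (hT 0) (hT 1) j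
  exact Ideal.mem_comap.mp (h2 h1)

/-- The hypothesis `hcen'` of `TorRelInst.relβ_field` (`φ := betaC`, `V' := V12.VK`). -/
theorem hcen_beta_J3 (hπ : Irreducible π) :
    ∀ n : Ideal ↥(chart (M * q * q) A K (Chart3B.J3 M q hq hqM K)),
    n.IsMaximal → algebraMap (OK A K) ↥(chart (M * q * q) A K (Chart3B.J3 M q hq hqM K)) π ∈ n →
    (∀ l, P l ≤ n) → ∀ j, ∀ r : ↥(chart (M * q) A K (WKInst.JK M q hq hqM K)),
      (∃ z ∈ V12.VK M q hq hqM A K hdvr j,
        (r : FK (M * q) K) = algebraMap (OK A K) (FK (M * q) K) π * z) →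
      betaC M q hq hqM A K r ∈ n := by
  intro n _ _ hT j r hr
  have h1 : r ∈ PK' M q hq hqM A K hdvr j := (mem_PK' M q hq hqM A K hdvr hπ j r).mpr hr
  have h2 : PK' M q hq hqM A K hdvr j ≤ n.comap (betaC M q hq hqM A K) :=
    Hy.node_below_beta n (hT 0) (hT 1) j
  exact Ideal.mem_comap.mp (h2 h1)

end Consumers

end

end Fermat.Agent.S36.Inc3Asm
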