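/-
S36 — Inc3Closed.lean (helper75): block [INC3] CLOSED for the objects of record of
`Model3Top.model3` — no residue-degree hypotheses left.

Binders = those of `Model3Top.model3`: `H : V3.Hyp3 …` (middle-cusp data), `hA`, `hB`, `hπ`,
`a`, `hqa`, `hπϖ`.  Valuation rings `![GaussV.V1, GaussV.V2 w_{q²}, H.W3]`, uniformisers
`![π, π, Wit3.sE]`.

* `hf1`, `hf3`      : residue degree one along `W1`, `W3` (as inside `Model3Top.model3`);
* `hyp_closed`      : `Inc3.Hyp alphaC betaC P PK' π` for ANY `P` with `ChartHyp3` on chart `J3`;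
* `hyp_of_model3`   : the same for `P := Md.c0.P`, `Md` any `Model3` of record;
* `triple_of_model3`, `huniq_alpha_of_model3`, `huniq_beta_of_model3`, `hcen_alpha_of_model3`,
  `hcen_beta_of_model3` : the consumer shapes (`ChartTorInst.TorIn.triple`, `huniq` / `hcen'` of
  `TorRelInst.relα_field / relβ_field`) for `Md.c0.P`.
-/
import Mathlib
import Fermat.Agent.S36.Inc3Asm
import Fermat.Agent.S36.Model3Top

set_option autoImplicit false

open ModularCurve AlgebraicCurve HahnSeries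

namespace Fermat.Agent.S36.Inc3Closed

open Fermat.Agent.S18 Fermat.Agent.S18.Arith Fermat.Agent.S18.ModelPlan Fermat.Agent.S34
  Fermat.Agent.S36.Inc3Gd Fermat.Agent.S36.Inc3Low Fermat.Agent.S36.Model3Plan

noncomputable section

set_option synthInstance.maxHeartbeats 400000

variable {M q : ℕ} [NeZero M] [NeZero q] {hq : q.Prime} {hqM : ¬ q ∣ M}
variable {A : ValuationSubring Qb} {K K' : IntermediateField ℚ Qb}
variable {ξ : Qb} {hξ0 : ξ ≠ 0} {ι : FK (M * q * q) K →+* LaurentSeries Qb} {ϖ : OK A K'}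
variable (H : V3.Hyp3 M q hq hqM A K K' ξ hξ0 ι ϖ)

include H

/-- Residue degree one along `W1` for the objects of record. -/
theorem hf1 (hA : A.LiesOverPrime q) (hB : BaseFacts q A K)
    {π : OK A K} (hπ : Irreducible π) (a : A) (hqa : (q : Qb) = incO A K π * (a : Qb))
    (hπϖ : ∃ u : A, IsUnit u ∧ incO A K π = incO A K' ϖ ^ (q - 1) * (u : Qb)) :
    ∀ (x : FK (M * q * q) K) (y : LaurentSeries (IsLocalRing.ResidueField A)),
      GRel A ((x : FK (M * q * q) K) : LaurentSeries Qb) y →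
      ∃ x' : FK M K, GRel A ((x' : FK M K) : LaurentSeries Qb) y :=
  haveI : Fact q.Prime := ⟨hq⟩
  have hC : ChartFacts M A K (chart M A K (jK M K)) (jK M K) :=
    Red2B.chartFacts M q hq hqM A K hA hB
  ResDeg3Inst.hf1 M q hB.dvr hπ hC (Model3Top.wit H hB.dvr hA hC hπ a hqa hπϖ)

/-- Residue degree one along `W3` for the objects of record. -/
theorem hf3 (hA : A.LiesOverPrime q) (hB : BaseFacts q A K)
    {π : OK A K} (hπ : Irreducible π) (a : A) (hqa : (q : Qb) = incO A K π * (a : Qb))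
    (hπϖ : ∃ u : A, IsUnit u ∧ incO A K π = incO A K' ϖ ^ (q - 1) * (u : Qb)) :
    ∀ (x : FK (M * q * q) K) (y : LaurentSeries (IsLocalRing.ResidueField A)),
      GRel A (ι x) y → ∃ x' : FK M K, GRel A ((x' : FK M K) : LaurentSeries Qb) y :=
  haveI : Fact q.Prime := ⟨hq⟩
  have hC : ChartFacts M A K (chart M A K (jK M K)) (jK M K) :=
    Red2B.chartFacts M q hq hqM A K hA hB
  ResDeg3Inst.hf3' M q hq hB.dvr hπ hC H.mid.alpha (V3Wit.hW3 H)
    (Model3Top.wit H hB.dvr hA hC hπ a hqa hπϖ)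

/-- **[INC3] closed**: `Inc3.Hyp` for the two degeneracy maps on the chart `J3`, for any family
`P` of vertical primes with `ChartHyp3` against the valuation rings of record. -/
theorem hyp_closed (hA : A.LiesOverPrime q) (hB : BaseFacts q A K)
    {π : OK A K} (hπ : Irreducible π) (a : A) (hqa : (q : Qb) = incO A K π * (a : Qb))
    (hπϖ : ∃ u : A, IsUnit u ∧ incO A K π = incO A K' ϖ ^ (q - 1) * (u : Qb))
    (P : Fin 3 → Ideal ↥(chart (M * q * q) A K (Chart3B.J3 M q hq hqM K)))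
    (hyp : ChartHyp3 π
      ![algebraMap (OK A K) (FK (M * q * q) K) π, algebraMap (OK A K) (FK (M * q * q) K) π,
        Wit3.sE M q hq hqM K]
      ![GaussV.V1 (M * q * q) A K hB.dvr, GaussV.V2 (WQ2.wK2 M q hq hqM K) hB.dvr, H.W3] P) :
    Inc3.Hyp (alphaC M q hq hqM A K) (betaC M q hq hqM A K) P (PK' M q hq hqM A K hB.dvr)
      (algebraMap (OK A K) ↥(chart (M * q) A K (WKInst.JK M q hq hqM K)) π) :=
  haveI : Fact q.Prime := ⟨hq⟩
  Inc3Asm.hyp_J3 hA hB hB.dvr hπ H (hf1 H hA hB hπ a hqa hπϖ) (hf3 H hA hB hπ a hqa hπϖ)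
    rfl rfl rfl rfl rfl rfl P (V3Wit.valHyp3 H hB.dvr hA hπ a hqa hπϖ) hyp

section Model

variable (hA : A.LiesOverPrime q) (hB : BaseFacts q A K)
  {π : OK A K} (hπ : Irreducible π) (a : A) (hqa : (q : Qb) = incO A K π * (a : Qb))
  (hπϖ : ∃ u : A, IsUnit u ∧ incO A K π = incO A K' ϖ ^ (q - 1) * (u : Qb))
  (Md : Model3 (M * q * q) A K π (Model3Plan.ram q)
    ![algebraMap (OK A K) (FK (M * q * q) K) π, algebraMap (OK A K) (FK (M * q * q) K) π,
      Wit3.sE M q hq hqM K]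
    ![GaussV.V1 (M * q * q) A K hB.dvr, GaussV.V2 (WQ2.wK2 M q hq hqM K) hB.dvr, H.W3]
    (Chart3B.J3 M q hq hqM K))

include hA hπ hqa hπϖ

/-- **[INC3] for the model of record**: `P := Md.c0.P`. -/
theorem hyp_of_model3 :
    Inc3.Hyp (alphaC M q hq hqM A K) (betaC M q hq hqM A K) Md.c0.P
      (PK' M q hq hqM A K hB.dvr)
      (algebraMap (OK A K) ↥(chart (M * q) A K (WKInst.JK M q hq hqM K)) π) :=
  hyp_closed H hA hB hπ a hqa hπϖ Md.c0.P Md.c0.hyp

/-- The field `triple` of `ChartTorInst.TorIn` for the model of record (chart `J3`). -/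
theorem triple_of_model3 :
    ∀ n : Ideal ↥(chart (M * q * q) A K (Chart3B.J3 M q hq hqM K)), n.IsMaximal →
      algebraMap (OK A K) ↥(chart (M * q * q) A K (Chart3B.J3 M q hq hqM K)) π ∈ n →
      ∀ i j : Fin 3, i ≠ j → Md.c0.P i ≤ n → Md.c0.P j ≤ n → ∀ l, Md.c0.P l ≤ n :=
  Inc3Asm.triple_J3 (hyp_of_model3 H hA hB hπ a hqa hπϖ Md)

/-- `huniq` of `TorRelInst.relα_field` for the model of record. -/
theorem huniq_alpha_of_model3 :
    ∀ n : Ideal ↥(chart (M * q * q) A K (Chart3B.J3 M q hq hqM K)), n.IsMaximal →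
      algebraMap (OK A K) ↥(chart (M * q * q) A K (Chart3B.J3 M q hq hqM K)) π ∈ n →
      (∀ l, Md.c0.P l ≤ n) →
      ∀ n₂ : Ideal ↥(chart (M * q * q) A K (Chart3B.J3 M q hq hqM K)), n₂.IsPrime →
        n₂.comap (alphaC M q hq hqM A K) = n.comap (alphaC M q hq hqM A K) → n₂ = n :=
  Inc3Asm.huniq_alpha_J3 (hyp_of_model3 H hA hB hπ a hqa hπϖ Md)

/-- `huniq` of `TorRelInst.relβ_field` for the model of record. -/
theorem huniq_beta_of_model3 :
    ∀ n : Ideal ↥(chart (M * q * q) A K (Chart3B.J3 M q hq hqM K)), n.IsMaximal →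
      algebraMap (OK A K) ↥(chart (M * q * q) A K (Chart3B.J3 M q hq hqM K)) π ∈ n →
      (∀ l, Md.c0.P l ≤ n) →
      ∀ n₂ : Ideal ↥(chart (M * q * q) A K (Chart3B.J3 M q hq hqM K)), n₂.IsPrime →
        n₂.comap (betaC M q hq hqM A K) = n.comap (betaC M q hq hqM A K) → n₂ = n :=
  Inc3Asm.huniq_beta_J3 (hyp_of_model3 H hA hB hπ a hqa hπϖ Md)

/-- `hcen'` of `TorRelInst.relα_field` for the model of record (`V' := V12.VK`). -/
theorem hcen_alpha_of_model3 :
    ∀ n : Ideal ↥(chart (M * q * q) A K (Chart3B.J3 M q hq hqM K)), n.IsMaximal →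
      algebraMap (OK A K) ↥(chart (M * q * q) A K (Chart3B.J3 M q hq hqM K)) π ∈ n →
      (∀ l, Md.c0.P l ≤ n) → ∀ j, ∀ r : ↥(chart (M * q) A K (WKInst.JK M q hq hqM K)),
        (∃ z ∈ V12.VK M q hq hqM A K hB.dvr j,
          (r : FK (M * q) K) = algebraMap (OK A K) (FK (M * q) K) π * z) →
        alphaC M q hq hqM A K r ∈ n :=
  Inc3Asm.hcen_alpha_J3 (hyp_of_model3 H hA hB hπ a hqa hπϖ Md) hπ

/-- `hcen'` of `TorRelInst.relβ_field` for the model of record (`V' := V12.VK`). -/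
theorem hcen_beta_of_model3 :
    ∀ n : Ideal ↥(chart (M * q * q) A K (Chart3B.J3 M q hq hqM K)), n.IsMaximal →
      algebraMap (OK A K) ↥(chart (M * q * q) A K (Chart3B.J3 M q hq hqM K)) π ∈ n →
      (∀ l, Md.c0.P l ≤ n) → ∀ j, ∀ r : ↥(chart (M * q) A K (WKInst.JK M q hq hqM K)),
        (∃ z ∈ V12.VK M q hq hqM A K hB.dvr j,
          (r : FK (M * q) K) = algebraMap (OK A K) (FK (M * q) K) π * z) →
        betaC M q hq hqM A K r ∈ n :=
  Inc3Asm.hcen_beta_J3 (hyp_of_model3 H hA hB hπ a hqa hπϖ Md) hπ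

end Model

end

end Fermat.Agent.S36.Inc3Closed
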