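/-
S36 — Inc3CompB.lean (helper42; package [INC3], slice (i) of Inc3Inst, independent B-copy).

The six CONTRACTION IDENTITIES of `Inc3.Hyp` (fields `α0 α1 α2 β0 β1 β2`) for the charts
`S = chart (M q) A K tY`, `R = chart (M q²) A K t` and the restrictions `αc`, `βc` of
`WQ2.alphaK2`, `WQ2.betaK2` (`S34.BranchInst.chartHom`):

    (P 0).comap αc = P' 0      (P 0).comap βc = P' 0
    (P 1).comap αc = P' 1      (P 1).comap βc = P' 1
    (P 2).comap αc = P' 0      (P 2).comap βc = P' 1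

`P 0, P 1, P 2` = centres on `R` of `W1` (Gauss), `W2 = W1 ∘ w_{q²}`, `W3` (Gauss along an
embedding `E` with `E ∘ α = ` the `q`-expansion, `E ∘ β ≡ ` the `q`-expansion of `w_q`);
`P' 0, P' 1` = centres on `S` of `V'1` (Gauss), `V'2 = V'1 ∘ w_q`.

Three layers:
* `gRel_zero_iff_of_transfer`, `gRel_qExpand_zero_iff`, `gRel_rot_zero_iff` : the Gauss
  valuation of `F_K(N)` is not changed by `Q ↦ Q^d` / by a rotation `Q ↦ ξ Q`, `ξ^q = 1`;
* `comap_alpha_P0 … comap_beta_P2` : the six identities with the ideals described by Gauss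
  reductions (the vocabulary of `S36/TorM`), `E` ABSTRACT;
* `gRel_iff_of_V1', gRel_iff_of_V2', gRel_iff_of_W3` : the `mem_P` shapes of
  `LocPlan.ChartHyp` / `Model3Plan.ChartHyp3` in Gauss-reduction form, and
  `contractions` / `contractions_J3` : the six identities for the objects of record
  (`V = ![V1, V2 w_{q²}, H.W3]`, `ϖ = ![π, π, Wit3.sE]`, `V' = ![V1, V2 w_q]`; coordinates
  `Chart3B.J3` over `WKInst.JK`).
-/
import Mathlib
import Fermat.Agent.S34.BranchInst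
import Fermat.Agent.S34.ConjMod
import Fermat.Agent.S34.LocPlan
import Fermat.Agent.S36.WQ2
import Fermat.Agent.S36.V3
import Fermat.Agent.S36.Chart3B
import Fermat.Agent.S36.Model3Plan

set_option autoImplicit false

noncomputable section

namespace Fermat.Agent.S36.Inc3CompB

open ModularCurve HahnSeries Fermat.Agent.S18 Fermat.Agent.S18.Arith Fermat.Agent.S18.ModelPlan
  Fermat.Agent.S34 Fermat.Agent.S24

/-! ### The Gauss valuation is insensitive to `Q ↦ Q^d` and to rotations -/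

section Core

variable {N : ℕ} [NeZero N] {A : ValuationSubring Qb} {K : IntermediateField ℚ Qb}

/-- **Transfer of the kernel of the Gauss reduction.**  If a ring homomorphism
`E' : F_K(N) → ℚ̄((Q))` carries the Gauss relation of the `q`-expansion to the Gauss relation
along `E'`, up to a map `φ` on reductions with trivial kernel, then `E' z` reduces to `0` iff
the `q`-expansion of `z` does. -/
theorem gRel_zero_iff_of_transfer (hdvr : IsDiscreteValuationRing (OK A K))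
    (E' : FK N K →+* LaurentSeries Qb)
    (φ : LaurentSeries (IsLocalRing.ResidueField A) → LaurentSeries (IsLocalRing.ResidueField A))
    (hφ0 : φ 0 = 0) (hφ : ∀ y, φ y = 0 → y = 0)
    (hE : ∀ (z : FK N K) (y : LaurentSeries (IsLocalRing.ResidueField A)),
      GRel A ((z : FK N K) : LaurentSeries Qb) y → GRel A (E' z) (φ y))
    (z : FK N K) :
    GRel A (E' z) 0 ↔ GRel A ((z : FK N K) : LaurentSeries Qb) 0 := by
  have hG := Fermat.Agent.S18.GRel.gRelStatement A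
  constructor
  · intro h
    rcases (GaussV.V1 N A K hdvr).mem_or_inv_mem z with hz | hz
    · obtain ⟨y, hy⟩ := (GaussV.mem_V1_iff hdvr).mp hz
      have h0 : φ y = 0 := hG.unique _ _ _ (hE z y hy) h
      rw [hφ y h0] at hy
      exact hy
    · by_cases hz0 : z = 0
      · rw [hz0]
        exact ModelRed.gRel_zero hG
      · exfalso
        obtain ⟨y, hy⟩ := (GaussV.mem_V1_iff hdvr).mp hz
        have h1 := hG.mul _ _ _ _ h (hE z⁻¹ y hy)
        rw [← map_mul, mul_inv_cancel₀ hz0, map_one, zero_mul] at h1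
        exact zero_ne_one (hG.unique _ _ _ h1 (ModelRed.gRel_one hG))
  · intro h
    have h1 := hE z 0 h
    rwa [hφ0] at h1

/-- `z(Q^d)` reduces to `0` iff `z(Q)` does, `z ∈ F_K(N)`. -/
theorem gRel_qExpand_zero_iff (hdvr : IsDiscreteValuationRing (OK A K)) (d : ℕ) [NeZero d]
    (z : FK N K) :
    GRel A (qExpand Qb d ((z : FK N K) : LaurentSeries Qb)) 0 ↔
      GRel A ((z : FK N K) : LaurentSeries Qb) 0 :=
  gRel_zero_iff_of_transfer hdvr ((qExpand Qb d).comp (FK N K).subtype)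
    (fun y => qExpand (IsLocalRing.ResidueField A) d y) (map_zero _)
    (fun y hy => qExpand_injective (R := IsLocalRing.ResidueField A) d (by rw [hy, map_zero]))
    (fun _ _ h => V12Rel.gRel_qExpand A d h) z

/-- `z(ξ Q)` reduces to `0` iff `z(Q)` does, `z ∈ F_K(N)`, `ξ^q = 1`, `A` over `q`. -/
theorem gRel_rot_zero_iff (hdvr : IsDiscreteValuationRing (OK A K)) (q : ℕ) [Fact q.Prime]
    (hA : A.LiesOverPrime q) {ξ : Qb} (hξ : ξ ^ q = 1) (hξ0 : ξ ≠ 0) (z : FK N K) :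
    GRel A (rotHom ξ hξ0 ((z : FK N K) : LaurentSeries Qb)) 0 ↔
      GRel A ((z : FK N K) : LaurentSeries Qb) 0 :=
  gRel_zero_iff_of_transfer hdvr
    (((rotHom ξ hξ0 : LaurentSeries Qb →ₐ[Qb] LaurentSeries Qb) :
      LaurentSeries Qb →+* LaurentSeries Qb).comp (FK N K).subtype)
    (fun y => y) rfl (fun _ hy => hy)
    (fun _ _ h => ConjMod.gRel_rot q hA hξ hξ0 h) z

/-- `P = R ∩ π V1` in Gauss-reduction form (any level, any subalgebra). -/
theorem gRel_iff_of_V1' (hdvr : IsDiscreteValuationRing (OK A K)) {π : OK A K}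
    (hπ : Irreducible π) (R : Subalgebra (OK A K) (FK N K)) (P : Ideal R)
    (hP : ∀ r : R, r ∈ P ↔ ∃ y ∈ GaussV.V1 N A K hdvr,
      algebraMap R (FK N K) r = algebraMap (OK A K) (FK N K) π * y) (r : R) :
    r ∈ P ↔ GRel A (((r : FK N K)) : LaurentSeries Qb) 0 := by
  rw [hP]
  exact BranchInst.exists_V1_iff_gRel hdvr hπ (r : FK N K)

/-- `P = R ∩ π V2`, `V2 = w⁻¹ V1`, in Gauss-reduction form (any level, any subalgebra). -/
theorem gRel_iff_of_V2' (hdvr : IsDiscreteValuationRing (OK A K)) {π : OK A K}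
    (hπ : Irreducible π) (w : FK N K ≃+* FK N K)
    (hw : ∀ c : OK A K, w (algebraMap (OK A K) (FK N K) c) = algebraMap (OK A K) (FK N K) c)
    (R : Subalgebra (OK A K) (FK N K)) (P : Ideal R)
    (hP : ∀ r : R, r ∈ P ↔ ∃ y ∈ GaussV.V2 w hdvr,
      algebraMap R (FK N K) r = algebraMap (OK A K) (FK N K) π * y) (r : R) :
    r ∈ P ↔ GRel A ((w (r : FK N K) : FK N K) : LaurentSeries Qb) 0 := by
  rw [hP, ← BranchInst.exists_V1_iff_gRel hdvr hπ]
  constructor
  · rintro ⟨y, hy, hr⟩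
    refine ⟨w y, (GaussV.mem_V2_iff _ hdvr).mp hy, ?_⟩
    have hr' : (r : FK N K) = algebraMap (OK A K) (FK N K) π * y := hr
    rw [hr', map_mul, hw]
  · rintro ⟨y, hy, hr⟩
    refine ⟨w.symm y, ?_, ?_⟩
    · rw [GaussV.mem_V2_iff, RingEquiv.apply_symm_apply]
      exact hy
    · show (r : FK N K) = algebraMap (OK A K) (FK N K) π * w.symm y
      apply w.injective
      rw [hr, map_mul, hw, RingEquiv.apply_symm_apply]

end Core

/-! ### The six contraction identities, Gauss-reduction form, abstract `E` -/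

section Six

variable {M q : ℕ} [NeZero M] [NeZero q] {hq : q.Prime} {hqM : ¬ q ∣ M}
variable {A : ValuationSubring Qb} {K : IntermediateField ℚ Qb}
variable (tY : FK (M * q) K) (t : FK (M * q * q) K)
variable (hat : ∀ y ∈ chart (M * q) A K tY, WQ2.alphaK2 M q K y ∈ chart (M * q * q) A K t)
variable (hbt : ∀ y ∈ chart (M * q) A K tY,
  WQ2.betaK2 M q hq hqM K y ∈ chart (M * q * q) A K t)

/-- **(α0)** `W1 ∘ α = V'1`. -/
theorem comap_alpha_P0 (P0 : Ideal ↥(chart (M * q * q) A K t))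
    (P0' : Ideal ↥(chart (M * q) A K tY))
    (hP0 : ∀ r : ↥(chart (M * q * q) A K t), r ∈ P0 ↔
      GRel A (((r : FK (M * q * q) K)) : LaurentSeries Qb) 0)
    (hP0' : ∀ s : ↥(chart (M * q) A K tY), s ∈ P0' ↔
      GRel A (((s : FK (M * q) K)) : LaurentSeries Qb) 0) :
    P0.comap (BranchInst.chartHom tY t (WQ2.alphaK2 M q K) hat) = P0' := by
  ext s
  rw [Ideal.mem_comap, hP0, hP0', BranchInst.chartHom_coe, WQ2.coe_alphaK2]

/-- **(α1)** `W2 ∘ α = V'2`. -/
theorem comap_alpha_P1 (hdvr : IsDiscreteValuationRing (OK A K))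
    (P1 : Ideal ↥(chart (M * q * q) A K t)) (P1' : Ideal ↥(chart (M * q) A K tY))
    (hP1 : ∀ r : ↥(chart (M * q * q) A K t), r ∈ P1 ↔
      GRel A ((WQ2.wK2 M q hq hqM K (r : FK (M * q * q) K) : FK (M * q * q) K) :
        LaurentSeries Qb) 0)
    (hP1' : ∀ s : ↥(chart (M * q) A K tY), s ∈ P1' ↔
      GRel A ((WK.wK M q hq hqM K (s : FK (M * q) K) : FK (M * q) K) : LaurentSeries Qb) 0) :
    P1.comap (BranchInst.chartHom tY t (WQ2.alphaK2 M q K) hat) = P1' := by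
  ext s
  rw [Ideal.mem_comap, hP1, hP1', BranchInst.chartHom_coe, WQ2.wK2_alphaK2, WQ2.coe_betaK2]
  exact gRel_qExpand_zero_iff hdvr q _

/-- **(α2)** `W3 ∘ α = V'1`, for any `E` with `E ∘ α = ` the `q`-expansion. -/
theorem comap_alpha_P2 (E : FK (M * q * q) K →+* LaurentSeries Qb)
    (hEα : ∀ x : FK (M * q) K, E (WQ2.alphaK2 M q K x) = (x : LaurentSeries Qb))
    (P2 : Ideal ↥(chart (M * q * q) A K t)) (P0' : Ideal ↥(chart (M * q) A K tY))
    (hP2 : ∀ r : ↥(chart (M * q * q) A K t), r ∈ P2 ↔ GRel A (E (r : FK (M * q * q) K)) 0)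
    (hP0' : ∀ s : ↥(chart (M * q) A K tY), s ∈ P0' ↔
      GRel A (((s : FK (M * q) K)) : LaurentSeries Qb) 0) :
    P2.comap (BranchInst.chartHom tY t (WQ2.alphaK2 M q K) hat) = P0' := by
  ext s
  rw [Ideal.mem_comap, hP2, hP0', BranchInst.chartHom_coe, hEα]

/-- **(β0)** `W1 ∘ β = V'1`. -/
theorem comap_beta_P0 (hdvr : IsDiscreteValuationRing (OK A K))
    (P0 : Ideal ↥(chart (M * q * q) A K t)) (P0' : Ideal ↥(chart (M * q) A K tY))
    (hP0 : ∀ r : ↥(chart (M * q * q) A K t), r ∈ P0 ↔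
      GRel A (((r : FK (M * q * q) K)) : LaurentSeries Qb) 0)
    (hP0' : ∀ s : ↥(chart (M * q) A K tY), s ∈ P0' ↔
      GRel A (((s : FK (M * q) K)) : LaurentSeries Qb) 0) :
    P0.comap (BranchInst.chartHom tY t (WQ2.betaK2 M q hq hqM K) hbt) = P0' := by
  ext s
  rw [Ideal.mem_comap, hP0, hP0', BranchInst.chartHom_coe, WQ2.coe_betaK2]
  exact gRel_qExpand_zero_iff hdvr q _

/-- **(β1)** `W2 ∘ β = V'2`. -/
theorem comap_beta_P1 (P1 : Ideal ↥(chart (M * q * q) A K t))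
    (P1' : Ideal ↥(chart (M * q) A K tY))
    (hP1 : ∀ r : ↥(chart (M * q * q) A K t), r ∈ P1 ↔
      GRel A ((WQ2.wK2 M q hq hqM K (r : FK (M * q * q) K) : FK (M * q * q) K) :
        LaurentSeries Qb) 0)
    (hP1' : ∀ s : ↥(chart (M * q) A K tY), s ∈ P1' ↔
      GRel A ((WK.wK M q hq hqM K (s : FK (M * q) K) : FK (M * q) K) : LaurentSeries Qb) 0) :
    P1.comap (BranchInst.chartHom tY t (WQ2.betaK2 M q hq hqM K) hbt) = P1' := by
  ext s
  rw [Ideal.mem_comap, hP1, hP1', BranchInst.chartHom_coe, WQ2.wK2_betaK2, WQ2.coe_alphaK2]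

/-- **(β2)** `W3 ∘ β = V'2`, for any `E` with `E (β x)` and the `q`-expansion of `w_q x`
reducing to `0` simultaneously. -/
theorem comap_beta_P2 (E : FK (M * q * q) K →+* LaurentSeries Qb)
    (hEβ : ∀ x : FK (M * q) K, GRel A (E (WQ2.betaK2 M q hq hqM K x)) 0 ↔
      GRel A ((WK.wK M q hq hqM K x : FK (M * q) K) : LaurentSeries Qb) 0)
    (P2 : Ideal ↥(chart (M * q * q) A K t)) (P1' : Ideal ↥(chart (M * q) A K tY))
    (hP2 : ∀ r : ↥(chart (M * q * q) A K t), r ∈ P2 ↔ GRel A (E (r : FK (M * q * q) K)) 0)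
    (hP1' : ∀ s : ↥(chart (M * q) A K tY), s ∈ P1' ↔
      GRel A ((WK.wK M q hq hqM K (s : FK (M * q) K) : FK (M * q) K) : LaurentSeries Qb) 0) :
    P2.comap (BranchInst.chartHom tY t (WQ2.betaK2 M q hq hqM K) hbt) = P1' := by
  ext s
  rw [Ideal.mem_comap, hP2, hP1', BranchInst.chartHom_coe]
  exact hEβ _

/-- The hypothesis `hEβ` of `comap_beta_P2` for an embedding which is a rotation of the
`q`-expansion of `w_q` on `β` (the shape of `V3.MidEmb.beta`). -/
theorem hEβ_of_rot (hdvr : IsDiscreteValuationRing (OK A K)) [Fact q.Prime]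
    (hA : A.LiesOverPrime q) {ξ : Qb} (hξ : ξ ^ q = 1) (hξ0 : ξ ≠ 0)
    (E : FK (M * q * q) K →+* LaurentSeries Qb)
    (hβ : ∀ x : FK (M * q) K, E (WQ2.betaK2 M q hq hqM K x) =
      rotHom ξ hξ0 ((WK.wK M q hq hqM K x : FK (M * q) K) : LaurentSeries Qb))
    (x : FK (M * q) K) :
    GRel A (E (WQ2.betaK2 M q hq hqM K x)) 0 ↔
      GRel A ((WK.wK M q hq hqM K x : FK (M * q) K) : LaurentSeries Qb) 0 := by
  rw [hβ]
  exact gRel_rot_zero_iff hdvr q hA hξ hξ0 _

end Six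

/-! ### The objects of record -/

section Record

variable {M q : ℕ} [NeZero M] [NeZero q] {hq : q.Prime} {hqM : ¬ q ∣ M}
variable {A : ValuationSubring Qb} {K K' : IntermediateField ℚ Qb}
variable {ξ : Qb} {hξ0 : ξ ≠ 0} {ι : FK (M * q * q) K →+* LaurentSeries Qb} {ϖ' : OK A K'}

/-- `P = R ∩ s W3` in Gauss-reduction form along `ι` (any subalgebra). -/
theorem gRel_iff_of_W3 (H : V3.Hyp3 M q hq hqM A K K' ξ hξ0 ι ϖ')
    (R : Subalgebra (OK A K) (FK (M * q * q) K)) (P : Ideal R)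
    (hP : ∀ r : R, r ∈ P ↔ ∃ y ∈ H.W3,
      algebraMap R (FK (M * q * q) K) r = Wit3.sE M q hq hqM K * y) (r : R) :
    r ∈ P ↔ GRel A (ι (r : FK (M * q * q) K)) 0 := by
  rw [hP]
  constructor
  · rintro ⟨y, hy, hr⟩
    have hr' : (r : FK (M * q * q) K) = Wit3.sE M q hq hqM K * y := hr
    have hrW : (r : FK (M * q * q) K) ∈ H.W3 := by
      rw [hr']
      exact H.W3.mul_mem _ _ H.s_mem hy
    have h0 : H.red3 ⟨(r : FK (M * q * q) K), hrW⟩ = 0 :=
      (H.red3_eq_zero_iff ⟨(r : FK (M * q * q) K), hrW⟩).mpr ⟨y, hy, hr'⟩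
    have h1 := H.gRel_red3 ⟨(r : FK (M * q * q) K), hrW⟩
    rwa [h0] at h1
  · intro h
    have hrW : (r : FK (M * q * q) K) ∈ H.W3 := H.mem_W3_of_gRel h
    exact (H.red3_eq_zero_iff ⟨(r : FK (M * q * q) K), hrW⟩).mp
      (H.red3_eq_of_gRel ⟨(r : FK (M * q * q) K), hrW⟩ h)

/-- **The six contraction identities** (`Inc3.Hyp.α0 α1 α2 β0 β1 β2`) for the valuation rings
of record, any pair of coordinates `tY`, `t` with `α`, `β` mapping `chart tY` into `chart t`. -/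
theorem contractions [Fact q.Prime] (hA : A.LiesOverPrime q)
    (hdvr : IsDiscreteValuationRing (OK A K)) {π : OK A K} (hπ : Irreducible π)
    (H : V3.Hyp3 M q hq hqM A K K' ξ hξ0 ι ϖ')
    (tY : FK (M * q) K) (t : FK (M * q * q) K)
    (hat : ∀ y ∈ chart (M * q) A K tY, WQ2.alphaK2 M q K y ∈ chart (M * q * q) A K t)
    (hbt : ∀ y ∈ chart (M * q) A K tY, WQ2.betaK2 M q hq hqM K y ∈ chart (M * q * q) A K t)
    {P : Fin 3 → Ideal ↥(chart (M * q * q) A K t)}
    (C : Model3Plan.ChartHyp3 π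
      ![algebraMap (OK A K) (FK (M * q * q) K) π, algebraMap (OK A K) (FK (M * q * q) K) π,
        Wit3.sE M q hq hqM K]
      ![GaussV.V1 (M * q * q) A K hdvr, GaussV.V2 (WQ2.wK2 M q hq hqM K) hdvr, H.W3] P)
    {P' : Fin 2 → Ideal ↥(chart (M * q) A K tY)}
    (C' : LocPlan.ChartHyp π
      ![GaussV.V1 (M * q) A K hdvr, GaussV.V2 (WK.wK M q hq hqM K) hdvr] P') :
    (P 0).comap (BranchInst.chartHom tY t (WQ2.alphaK2 M q K) hat) = P' 0 ∧
    (P 1).comap (BranchInst.chartHom tY t (WQ2.alphaK2 M q K) hat) = P' 1 ∧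
    (P 2).comap (BranchInst.chartHom tY t (WQ2.alphaK2 M q K) hat) = P' 0 ∧
    (P 0).comap (BranchInst.chartHom tY t (WQ2.betaK2 M q hq hqM K) hbt) = P' 0 ∧
    (P 1).comap (BranchInst.chartHom tY t (WQ2.betaK2 M q hq hqM K) hbt) = P' 1 ∧
    (P 2).comap (BranchInst.chartHom tY t (WQ2.betaK2 M q hq hqM K) hbt) = P' 1 := by
  have hP0 := gRel_iff_of_V1' hdvr hπ (chart (M * q * q) A K t) (P 0) (fun r => C.mem_P 0 r)
  have hP1 := gRel_iff_of_V2' hdvr hπ (WQ2.wK2 M q hq hqM K)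
    (WQ2.wK2_algebraMap_OK M q hq hqM K A) (chart (M * q * q) A K t) (P 1)
    (fun r => C.mem_P 1 r)
  have hP2 := gRel_iff_of_W3 H (chart (M * q * q) A K t) (P 2) (fun r => C.mem_P 2 r)
  have hP0' := gRel_iff_of_V1' hdvr hπ (chart (M * q) A K tY) (P' 0) (fun s => C'.mem_P 0 s)
  have hP1' := gRel_iff_of_V2' hdvr hπ (WK.wK M q hq hqM K)
    (WK.wK_algebraMap_OK M q hq hqM K A) (chart (M * q) A K tY) (P' 1)
    (fun s => C'.mem_P 1 s)
  exact ⟨comap_alpha_P0 tY t hat (P 0) (P' 0) hP0 hP0',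
    comap_alpha_P1 tY t hat hdvr (P 1) (P' 1) hP1 hP1',
    comap_alpha_P2 tY t hat ι H.mid.alpha (P 2) (P' 0) hP2 hP0',
    comap_beta_P0 tY t hbt hdvr (P 0) (P' 0) hP0 hP0',
    comap_beta_P1 tY t hbt (P 1) (P' 1) hP1 hP1',
    comap_beta_P2 tY t hbt ι (hEβ_of_rot hdvr hA H.xi_pow hξ0 ι H.mid.beta) (P 2) (P' 1) hP2
      hP1'⟩

/-- **The six contraction identities for the charts of record**: `chart (M q²) J3` over
`chart (M q) JK`. -/
theorem contractions_J3 [Fact q.Prime] (hA : A.LiesOverPrime q)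
    (hdvr : IsDiscreteValuationRing (OK A K)) {π : OK A K} (hπ : Irreducible π)
    (H : V3.Hyp3 M q hq hqM A K K' ξ hξ0 ι ϖ')
    {P : Fin 3 → Ideal ↥(chart (M * q * q) A K (Chart3B.J3 M q hq hqM K))}
    (C : Model3Plan.ChartHyp3 π
      ![algebraMap (OK A K) (FK (M * q * q) K) π, algebraMap (OK A K) (FK (M * q * q) K) π,
        Wit3.sE M q hq hqM K]
      ![GaussV.V1 (M * q * q) A K hdvr, GaussV.V2 (WQ2.wK2 M q hq hqM K) hdvr, H.W3] P)
    {P' : Fin 2 → Ideal ↥(chart (M * q) A K (WKInst.JK M q hq hqM K))}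
    (C' : LocPlan.ChartHyp π
      ![GaussV.V1 (M * q) A K hdvr, GaussV.V2 (WK.wK M q hq hqM K) hdvr] P') :
    (P 0).comap (BranchInst.chartHom (WKInst.JK M q hq hqM K) (Chart3B.J3 M q hq hqM K)
      (WQ2.alphaK2 M q K) (fun _ hy => Chart3B.alphaK2_mem_chart_J3 M q hq hqM A K hy)) = P' 0 ∧
    (P 1).comap (BranchInst.chartHom (WKInst.JK M q hq hqM K) (Chart3B.J3 M q hq hqM K)
      (WQ2.alphaK2 M q K) (fun _ hy => Chart3B.alphaK2_mem_chart_J3 M q hq hqM A K hy)) = P' 1 ∧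
    (P 2).comap (BranchInst.chartHom (WKInst.JK M q hq hqM K) (Chart3B.J3 M q hq hqM K)
      (WQ2.alphaK2 M q K) (fun _ hy => Chart3B.alphaK2_mem_chart_J3 M q hq hqM A K hy)) = P' 0 ∧
    (P 0).comap (BranchInst.chartHom (WKInst.JK M q hq hqM K) (Chart3B.J3 M q hq hqM K)
      (WQ2.betaK2 M q hq hqM K)
      (fun _ hy => Chart3B.betaK2_mem_chart_J3 M q hq hqM A K hy)) = P' 0 ∧
    (P 1).comap (BranchInst.chartHom (WKInst.JK M q hq hqM K) (Chart3B.J3 M q hq hqM K)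
      (WQ2.betaK2 M q hq hqM K)
      (fun _ hy => Chart3B.betaK2_mem_chart_J3 M q hq hqM A K hy)) = P' 1 ∧
    (P 2).comap (BranchInst.chartHom (WKInst.JK M q hq hqM K) (Chart3B.J3 M q hq hqM K)
      (WQ2.betaK2 M q hq hqM K)
      (fun _ hy => Chart3B.betaK2_mem_chart_J3 M q hq hqM A K hy)) = P' 1 :=
  contractions hA hdvr hπ H _ _ _ _ C C'

end Record

end Fermat.Agent.S36.Inc3CompB
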