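/-
S36 — Inc3InstB.lean (helper84): B-copy of the chart instantiation of `S36/Inc3` ([INC3],
A = helper95 `S36/Inc3Inst.lean`; wanted by the [TORIC36] lead, board #3229).

Abstract (`Mathlib` + `S34.LocPlan` + `S36.Model3Plan` vocabulary).
`R'` a chart of the level-`q M` model with the two component valuation rings `V' 0`, `V' 1` of
its fraction field `E'` (`S34.LocPlan.ChartHyp π V' P'`), `R` a chart of the level-`q² M` model
with the three component valuation rings `V 0`, `V 1`, `V 2` of its fraction field `E`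
(`Model3Plan.ValHyp3` + `Model3Plan.ChartHyp3`), `α β : E' →+* E` the two degeneracy maps and
`φα φβ : R' →+* R` their restrictions to the charts.

* `comap_eq` : if `α (V' j) ⊆ V i` then `(P i).comap φα = P' j`  (lying over: only ONE inclusion
  of valuation rings is needed — `V' j` is the centre of a valuation with `P' j = R' ∩ 𝔪`);
* `hyp_of_val` : **`Inc3.Hyp φα φβ P P' π`** from
  - the six inclusions `α (V' 0) ⊆ V 0`, `α (V' 1) ⊆ V 1`, `α (V' 0) ⊆ V 2`,
    `β (V' 0) ⊆ V 0`, `β (V' 1) ⊆ V 1`, `β (V' 1) ⊆ V 2`,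
  - incomparability of `P' 0`, `P' 1`,
  - integrality of `φα`, `φβ` (`R'` integrally closed: going-down),
  - the residue-degree-one / purely-inseparable transfer statements (`S36/TorM`).
  The fields `prime'`, `mem'`, `minα`, `minβ`, `gdα`, `gdβ` and the six lying-over identities are
  proved here.

The chart-level inputs are on main: `S36/Inc3Gd` (`alphaC`, `betaC`, integrality, going-down),
`S36/Inc3Low` (`PK'`, `not_le_01/10`), `S36/Inc3W3` / `S36/V3` (`alpha_mem`, `beta_mem`: the `W3`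
inclusions), `S36/TorMInst` (deg/rad).  This file is the abstract assembly, independent of
`S36/Inc3Inst.hyp_of_lying` (which asks the six lying-over facts as equivalences).
-/
import Mathlib
import Fermat.Agent.S34.LocPlan
import Fermat.Agent.S34.CoreAsm
import Fermat.Agent.S34.LocAB
import Fermat.Agent.S36.Model3Plan
import Fermat.Agent.S36.Chart3Facts
import Fermat.Agent.S36.Inc3

set_option autoImplicit false
set_option linter.unusedSectionVars false

namespace Fermat.Agent.S36.Inc3InstB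

open Fermat.Agent.S34 Fermat.Agent.S36

/-! ### Abstract assembly -/

section Abstract

variable {O : Type*} [CommRing O]
  {R' : Type*} [CommRing R'] [IsDomain R'] [Algebra O R']
  {E' : Type*} [Field E'] [Algebra R' E'] [IsFractionRing R' E']
  {R : Type*} [CommRing R] [IsDomain R] [Algebra O R]
  {E : Type*} [Field E] [Algebra R E] [IsFractionRing R E]
  {π : O} {e : Fin 3 → ℕ} {ϖ : Fin 3 → E} {V : Fin 3 → ValuationSubring E} {P : Fin 3 → Ideal R}
  {V' : Fin 2 → ValuationSubring E'} {P' : Fin 2 → Ideal R'}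

/-- The restriction to the charts of an embedding of the fraction fields is injective. -/
theorem injective_of_compat (α : E' →+* E) (φ : R' →+* R)
    (hφ : ∀ r : R', algebraMap R E (φ r) = α (algebraMap R' E' r)) : Function.Injective φ := by
  intro a b hab
  have h : α (algebraMap R' E' a) = α (algebraMap R' E' b) := by rw [← hφ, ← hφ, hab]
  exact IsFractionRing.injective R' E' (α.injective h)

/-- **Lying over.**  If `α (V' j) ⊆ V i` then the vertical prime `P i` of the upper chart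
restricts to the vertical prime `P' j` of the lower chart. -/
theorem comap_eq (hV : Model3Plan.ValHyp3 (algebraMap R E (algebraMap O R π)) e ϖ V)
    (hC : Model3Plan.ChartHyp3 π ϖ V P) (hC' : LocPlan.ChartHyp π V' P')
    (α : E' →+* E) (φ : R' →+* R)
    (hφ : ∀ r : R', algebraMap R E (φ r) = α (algebraMap R' E' r))
    (hφπ : φ (algebraMap O R' π) = algebraMap O R π)
    (i : Fin 3) (j : Fin 2) (hα : ∀ x ∈ V' j, α x ∈ V i) : (P i).comap φ = P' j := by
  ext r
  rw [Ideal.mem_comap, Chart3Facts.mem_P_iff hV hC i (φ r)]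
  constructor
  · intro hlt
    by_contra hr
    -- `r` is a unit of `V' j`
    have hle : (V' j).valuation (algebraMap R' E' r) ≤ 1 :=
      ((V' j).valuation_le_one_iff _).2 (hC'.le j r)
    have hone : (V' j).valuation (algebraMap R' E' r) = 1 :=
      le_antisymm hle (not_lt.1 fun h => hr ((CoreAsm.mem_P_iff_val_lt hC' j r).2 h))
    have hinv : (algebraMap R' E' r)⁻¹ ∈ V' j := Chart3Facts.inv_mem_of_eq_one (V' j) hone
    have h1 : α (algebraMap R' E' r)⁻¹ ∈ V i := hα _ hinv
    rw [map_inv₀, ← hφ] at h1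
    have h0 : algebraMap R E (φ r) ≠ 0 := by
      rw [hφ]
      intro h
      rw [map_eq_zero] at h
      rw [h, map_zero] at hone
      exact zero_ne_one hone
    exact Chart3Facts.inv_not_mem_of_lt_one (V i) h0 hlt h1
  · intro hr
    obtain ⟨y, hy, hry⟩ := (hC'.mem_P j r).1 hr
    have e1 : algebraMap R E (φ r) = algebraMap R E (algebraMap O R π) * α y := by
      rw [hφ, hry, map_mul, ← hφ, hφπ]
    rw [e1]
    exact Chart3Facts.mul_lt_one (V i) (Chart3Facts.val_p_lt_one hV i) (hα y hy)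

/-- **`Inc3.Hyp` for a pair of charts**, from inclusions of the component valuation rings,
integrality, and the branch-transfer statements. -/
theorem hyp_of_val [IsIntegrallyClosed R']
    (hV : Model3Plan.ValHyp3 (algebraMap R E (algebraMap O R π)) e ϖ V)
    (hC : Model3Plan.ChartHyp3 π ϖ V P)
    (hp0 : algebraMap R E (algebraMap O R π) ≠ 0)
    (hC' : LocPlan.ChartHyp π V' P')
    (hsep : ¬ P' 0 ≤ P' 1 ∧ ¬ P' 1 ≤ P' 0)
    (α β : E' →+* E) (φα φβ : R' →+* R)
    (hφα : ∀ r : R', algebraMap R E (φα r) = α (algebraMap R' E' r))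
    (hφβ : ∀ r : R', algebraMap R E (φβ r) = β (algebraMap R' E' r))
    (hαπ : φα (algebraMap O R' π) = algebraMap O R π)
    (hβπ : φβ (algebraMap O R' π) = algebraMap O R π)
    (hα00 : ∀ x ∈ V' 0, α x ∈ V 0) (hα11 : ∀ x ∈ V' 1, α x ∈ V 1)
    (hα02 : ∀ x ∈ V' 0, α x ∈ V 2)
    (hβ00 : ∀ x ∈ V' 0, β x ∈ V 0) (hβ11 : ∀ x ∈ V' 1, β x ∈ V 1)
    (hβ12 : ∀ x ∈ V' 1, β x ∈ V 2)
    (hintα : φα.IsIntegral) (hintβ : φβ.IsIntegral)
    (hdegα0 : ∀ x : R, ∃ y : R', x - φα y ∈ P 0)
    (hdegα2 : ∀ x : R, ∃ y : R', x - φα y ∈ P 2)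
    (hdegβ1 : ∀ x : R, ∃ y : R', x - φβ y ∈ P 1)
    (hradα1 : ∀ x : R, ∃ (y : R') (k : ℕ), k ≠ 0 ∧ x ^ k - φα y ∈ P 1)
    (hradβ0 : ∀ x : R, ∃ (y : R') (k : ℕ), k ≠ 0 ∧ x ^ k - φβ y ∈ P 0) :
    Inc3.Hyp φα φβ P P' (algebraMap O R' π) where
  α0 := comap_eq hV hC hC' α φα hφα hαπ 0 0 hα00
  α1 := comap_eq hV hC hC' α φα hφα hαπ 1 1 hα11
  α2 := comap_eq hV hC hC' α φα hφα hαπ 2 0 hα02
  β0 := comap_eq hV hC hC' β φβ hφβ hβπ 0 0 hβ00
  β1 := comap_eq hV hC hC' β φβ hφβ hβπ 1 1 hβ11
  β2 := comap_eq hV hC hC' β φβ hφβ hβπ 2 1 hβ12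
  not01 := hsep.1
  not10 := hsep.2
  prime' := CoreAsm.P_isPrime hC'
  mem' := LocAB.pi_mem_P hC'
  minα := fun Q hQ h => Chart3Facts.exists_le hV hC hp0 Q hQ (hαπ ▸ h)
  minβ := fun Q hQ h => Chart3Facts.exists_le hV hC hp0 Q hQ (hβπ ▸ h)
  gdα := Inc3.goingDown_of_isIntegral φα (injective_of_compat α φα hφα) hintα
  gdβ := Inc3.goingDown_of_isIntegral φβ (injective_of_compat β φβ hφβ) hintβ
  degα0 := hdegα0
  degα2 := hdegα2
  degβ1 := hdegβ1
  radα1 := hradα1
  radβ0 := hradβ0

end Abstract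

end Fermat.Agent.S36.Inc3InstB
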