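/-
S36 — Inc3Top.lean (helper95; block [INC3] of the S36 campaign, package [TORIC36]).

**[INC3] CLOSED at the objects of record**: the incidence hypotheses `S36/Inc3.Hyp` for the two
degeneracy maps between the charts

    `S = chart (M * q) A K JK`   (level `M q`),     `R = chart (M * q * q) A K J3`   (level `M q²`),

`Inc3Gd.alphaC`, `Inc3Gd.betaC : S →+* R`, the three vertical primes `P i` of `R` for the valuation
rings of record `W1 = GaussV.V1`, `W2 = GaussV.V2 w_{q²}`, `W3 = H.W3` (uniformizers `π, π, sE`)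
and the two vertical primes `Inc3Low.PK'` of `S`; and its consequences in the consumer shapes.

One application each of the landed pieces: `Inc3Low.hyp_of_pieces` (helper75: going-down, `min`,
Gauss contractions, level-`M q` primes), `Inc3W3.comap_alpha_P2 / comap_beta_P2` (helper2: the
two `W3` contractions), `TorMInst.transfer_J3_hyp3` (helper86: residue degree one / purely
inseparable), `Model3Top` + `ResDeg3Inst` (helper128/helper9: `hf1`, `hf3`, `ChartHyp3` of `Pc`).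

* `hyp_J3`        : `Inc3.Hyp alphaC betaC P PK' π` for ANY `P` with `ChartHyp3 π ϖ V P`
                    (`V`, `ϖ` the objects of record up to six equations), `hf1`, `hf3` as inputs;
* `hf1`, `hf3`    : the two residue-degree-one inputs, as in `Model3Top.model3`;
* `hyp_record`    : the same with `hf1`, `hf3` discharged, literal vectors `![_, _, _]`;
* `chartHyp3_Pc`  : `ChartHyp3` of `chart J3` for the ideals of record `Model3Asm.Pc`;
* `htriple0`      : **[TRIPLE]**, the input `htriple0` of `Model3Princ.model3` VERBATIM;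
* `hyp_model`, `htriple_model`, `huniq_alpha_model`, `huniq_beta_model`, `hcen_alpha_model`,
  `hcen_beta_model` : for any model `Md` with the objects of record: `Inc3.Hyp` for `Md.c0.P`,
  `htriple` of `TorInInst.torIn_chart`, and `huniq` / `hcen'` of `TorRelInst.relα_field` /
  `relβ_field` for `φ = alphaC` / `betaC`, `T n l := Md.c0.P l ≤ n`.
-/
import Mathlib
import Fermat.Agent.S36.Inc3Inst
import Fermat.Agent.S36.Inc3Low
import Fermat.Agent.S36.Inc3W3
import Fermat.Agent.S36.TorMInst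
import Fermat.Agent.S36.Model3Top

set_option autoImplicit false

noncomputable section

namespace Fermat.Agent.S36.Inc3Top

open ModularCurve ModularCurve.IgusaScheme AlgebraicCurve HahnSeries
open Fermat.Agent.S18 Fermat.Agent.S18.Arith Fermat.Agent.S18.ModelPlan
open Fermat.Agent.S34 Fermat.Agent.S36.Model3Plan

variable {M q : ℕ} [NeZero M] [NeZero q] {hq : q.Prime} {hqM : ¬ q ∣ M}
variable {A : ValuationSubring Qb} {K K' : IntermediateField ℚ Qb}
variable {ξ : Qb} {hξ0 : ξ ≠ 0} {ι : FK (M * q * q) K →+* LaurentSeries Qb} {ϖ' : OK A K'}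
variable (H : V3.Hyp3 M q hq hqM A K K' ξ hξ0 ι ϖ')

include H

/-- **`Inc3.Hyp` for `chart JK → chart J3`**, any vertical primes `P` with `ChartHyp3 π ϖ V P`
for the valuation rings of record (`V`, `ϖ` given up to six equations), with the two
residue-degree-one statements `hf1`, `hf3` as inputs. -/
theorem hyp_J3 (hA : A.LiesOverPrime q) (hB : BaseFacts q A K)
    (hdvr : IsDiscreteValuationRing (OK A K)) {π : OK A K} (hπ : Irreducible π)
    (hf1 : ∀ (x : FK (M * q * q) K) (y : LaurentSeries (IsLocalRing.ResidueField A)),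
      GRel A ((x : FK (M * q * q) K) : LaurentSeries Qb) y →
      ∃ x' : FK M K, GRel A ((x' : FK M K) : LaurentSeries Qb) y)
    (hf3 : ∀ (x : FK (M * q * q) K) (y : LaurentSeries (IsLocalRing.ResidueField A)),
      GRel A (ι x) y → ∃ x' : FK M K, GRel A ((x' : FK M K) : LaurentSeries Qb) y)
    {e : Fin 3 → ℕ} {ϖ : Fin 3 → FK (M * q * q) K}
    {V : Fin 3 → ValuationSubring (FK (M * q * q) K)}
    (hV0 : V 0 = GaussV.V1 (M * q * q) A K hdvr)
    (hV1 : V 1 = GaussV.V2 (WQ2.wK2 M q hq hqM K) hdvr)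
    (hV2 : V 2 = H.W3)
    (hϖ0 : ϖ 0 = algebraMap (OK A K) (FK (M * q * q) K) π)
    (hϖ1 : ϖ 1 = algebraMap (OK A K) (FK (M * q * q) K) π)
    (hϖ2 : ϖ 2 = Wit3.sE M q hq hqM K)
    (val : ValHyp3 (algebraMap (OK A K) (FK (M * q * q) K) π) e ϖ V)
    (P : Fin 3 → Ideal ↥(chart (M * q * q) A K (Chart3B.J3 M q hq hqM K)))
    (hyp : ChartHyp3 π ϖ V P) :
    Inc3.Hyp (Inc3Gd.alphaC M q hq hqM A K) (Inc3Gd.betaC M q hq hqM A K) P
      (Inc3Low.PK' M q hq hqM A K hdvr)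
      (algebraMap (OK A K) ↥(chart (M * q) A K (WKInst.JK M q hq hqM K)) π) := by
  have : Fact q.Prime := ⟨hq⟩
  have hP0 : ∀ r : ↥(chart (M * q * q) A K (Chart3B.J3 M q hq hqM K)), r ∈ P 0 ↔
      ∃ y ∈ GaussV.V1 (M * q * q) A K hdvr,
        (r : FK (M * q * q) K) = algebraMap (OK A K) (FK (M * q * q) K) π * y := by
    intro r
    rw [hyp.mem_P 0 r, hV0, hϖ0]
    rfl
  have hP1 : ∀ r : ↥(chart (M * q * q) A K (Chart3B.J3 M q hq hqM K)), r ∈ P 1 ↔
      ∃ y ∈ GaussV.V2 (WQ2.wK2 M q hq hqM K) hdvr,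
        (r : FK (M * q * q) K) = algebraMap (OK A K) (FK (M * q * q) K) π * y := by
    intro r
    rw [hyp.mem_P 1 r, hV1, hϖ1]
    rfl
  have hP2 : ∀ r : ↥(chart (M * q * q) A K (Chart3B.J3 M q hq hqM K)), r ∈ P 2 ↔
      ∃ y ∈ H.W3, (r : FK (M * q * q) K) = Wit3.sE M q hq hqM K * y := by
    intro r
    rw [hyp.mem_P 2 r, hV2, hϖ2]
    rfl
  obtain ⟨d0, d2, d1, -, r1, r0⟩ :=
    TorMInst.transfer_J3_hyp3 M q hq hqM hA hB hdvr π hπ H hf1 hf3
      (fun _ hy => Chart3B.alphaK2_mem_chart_J3 M q hq hqM A K hy)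
      (fun _ hy => Chart3B.betaK2_mem_chart_J3 M q hq hqM A K hy) P hP0 hP1 hP2
  exact Inc3Low.hyp_of_pieces hdvr P hA hπ val hyp
    (TorM.gRel_iff_of_V1 _ hdvr hπ (P 0) hP0)
    (TorM.gRel_iff_of_V2 hq hqM _ hdvr hπ (P 1) hP1)
    (Inc3W3.comap_alpha_P2 H hdvr hπ (Inc3Gd.alphaC M q hq hqM A K)
      (Inc3Gd.alphaC_coe M q hq hqM A K) (P 2) hP2 _
      (fun s => Inc3Low.mem_PK' M q hq hqM A K hdvr hπ 0 s))
    (Inc3W3.comap_beta_P2 H hA hdvr hπ (Inc3Gd.betaC M q hq hqM A K)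
      (Inc3Gd.betaC_coe M q hq hqM A K) (P 2) hP2 _
      (fun s => Inc3Low.mem_PK' M q hq hqM A K hdvr hπ 1 s))
    d0 d2 d1 r1 r0

/-! ### The two residue-degree-one inputs (as in `Model3Top.model3`) -/

/-- **`hf1`**: residue degree one along `W1` (from the chart witness of `Model3Top`). -/
theorem hf1 (hA : A.LiesOverPrime q) (hB : BaseFacts q A K)
    {π : OK A K} (hπ : Irreducible π) (a : A) (hqa : (q : Qb) = incO A K π * (a : Qb))
    (hπϖ : ∃ u : A, IsUnit u ∧ incO A K π = incO A K' ϖ' ^ (q - 1) * (u : Qb)) :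
    ∀ (x : FK (M * q * q) K) (y : LaurentSeries (IsLocalRing.ResidueField A)),
      GRel A ((x : FK (M * q * q) K) : LaurentSeries Qb) y →
      ∃ x' : FK M K, GRel A ((x' : FK M K) : LaurentSeries Qb) y := by
  have : Fact q.Prime := ⟨hq⟩
  have hC : ChartFacts M A K (chart M A K (jK M K)) (jK M K) :=
    Red2B.chartFacts M q hq hqM A K hA hB
  exact ResDeg3Inst.hf1 M q hB.dvr hπ hC (Model3Top.wit H hB.dvr hA hC hπ a hqa hπϖ)

/-- **`hf3`**: residue degree one along `W3` (from the chart witness of `Model3Top`). -/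
theorem hf3 (hA : A.LiesOverPrime q) (hB : BaseFacts q A K)
    {π : OK A K} (hπ : Irreducible π) (a : A) (hqa : (q : Qb) = incO A K π * (a : Qb))
    (hπϖ : ∃ u : A, IsUnit u ∧ incO A K π = incO A K' ϖ' ^ (q - 1) * (u : Qb)) :
    ∀ (x : FK (M * q * q) K) (y : LaurentSeries (IsLocalRing.ResidueField A)),
      GRel A (ι x) y → ∃ x' : FK M K, GRel A ((x' : FK M K) : LaurentSeries Qb) y := by
  have : Fact q.Prime := ⟨hq⟩
  have hC : ChartFacts M A K (chart M A K (jK M K)) (jK M K) :=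
    Red2B.chartFacts M q hq hqM A K hA hB
  exact ResDeg3Inst.hf3' M q hq hB.dvr hπ hC H.mid.alpha (V3Wit.hW3 H)
    (Model3Top.wit H hB.dvr hA hC hπ a hqa hπϖ)

/-! ### The objects of record -/

/-- **`Inc3.Hyp` for `chart JK → chart J3`**, the valuation rings and uniformizers of record
(literal vectors), any `P` with `ChartHyp3`; `hf1`, `hf3` discharged. -/
theorem hyp_record (hA : A.LiesOverPrime q) (hB : BaseFacts q A K)
    {π : OK A K} (hπ : Irreducible π) (a : A) (hqa : (q : Qb) = incO A K π * (a : Qb))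
    (hπϖ : ∃ u : A, IsUnit u ∧ incO A K π = incO A K' ϖ' ^ (q - 1) * (u : Qb))
    (P : Fin 3 → Ideal ↥(chart (M * q * q) A K (Chart3B.J3 M q hq hqM K)))
    (hyp : ChartHyp3 π
      ![algebraMap (OK A K) (FK (M * q * q) K) π, algebraMap (OK A K) (FK (M * q * q) K) π,
        Wit3.sE M q hq hqM K]
      ![GaussV.V1 (M * q * q) A K hB.dvr, GaussV.V2 (WQ2.wK2 M q hq hqM K) hB.dvr, H.W3] P) :
    Inc3.Hyp (Inc3Gd.alphaC M q hq hqM A K) (Inc3Gd.betaC M q hq hqM A K) P
      (Inc3Low.PK' M q hq hqM A K hB.dvr)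
      (algebraMap (OK A K) ↥(chart (M * q) A K (WKInst.JK M q hq hqM K)) π) :=
  hyp_J3 H hA hB hB.dvr hπ (hf1 H hA hB hπ a hqa hπϖ) (hf3 H hA hB hπ a hqa hπϖ)
    rfl rfl rfl rfl rfl rfl (V3Wit.valHyp3 H hB.dvr hA hπ a hqa hπϖ) P hyp

/-- **[TRIPLE] on `chart J3`, debt (D3) of the end-to-end seam table VERBATIM**: for ANY vertical
primes `P` with `ChartHyp3 π ϖ₃ V₃ P` (objects of record), two branches through a closed point of
the special fibre force all three.  Inputs = those of `Model3Top.model3` (nothing else). -/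
theorem htriple_record (hA : A.LiesOverPrime q) (hB : BaseFacts q A K)
    {π : OK A K} (hπ : Irreducible π) (a : A) (hqa : (q : Qb) = incO A K π * (a : Qb))
    (hπϖ : ∃ u : A, IsUnit u ∧ incO A K π = incO A K' ϖ' ^ (q - 1) * (u : Qb))
    (P : Fin 3 → Ideal ↥(chart (M * q * q) A K (Chart3B.J3 M q hq hqM K)))
    (hyp : ChartHyp3 π
      ![algebraMap (OK A K) (FK (M * q * q) K) π, algebraMap (OK A K) (FK (M * q * q) K) π,
        Wit3.sE M q hq hqM K]
      ![GaussV.V1 (M * q * q) A K hB.dvr, GaussV.V2 (WQ2.wK2 M q hq hqM K) hB.dvr, H.W3] P) :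
    ∀ n : Ideal (chart (M * q * q) A K (Chart3B.J3 M q hq hqM K)), n.IsMaximal →
      algebraMap (OK A K) (chart (M * q * q) A K (Chart3B.J3 M q hq hqM K)) π ∈ n →
      ∀ i j, i ≠ j → P i ≤ n → P j ≤ n → ∀ l, P l ≤ n :=
  Inc3Inst.htriple (hyp_record H hA hB hπ a hqa hπϖ P hyp) _

/-- `ChartHyp3` of `chart J3` for the vertical ideals of record `Model3Asm.Pc`. -/
theorem chartHyp3_Pc (hA : A.LiesOverPrime q) (hB : BaseFacts q A K)
    {π : OK A K} (hπ : Irreducible π) (a : A) (hqa : (q : Qb) = incO A K π * (a : Qb))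
    (hπϖ : ∃ u : A, IsUnit u ∧ incO A K π = incO A K' ϖ' ^ (q - 1) * (u : Qb)) :
    ChartHyp3 π
      ![algebraMap (OK A K) (FK (M * q * q) K) π, algebraMap (OK A K) (FK (M * q * q) K) π,
        Wit3.sE M q hq hqM K]
      ![GaussV.V1 (M * q * q) A K hB.dvr, GaussV.V2 (WQ2.wK2 M q hq hqM K) hB.dvr, H.W3]
      (Model3Asm.Pc (chart (M * q * q) A K (Chart3B.J3 M q hq hqM K))
        ![algebraMap (OK A K) (FK (M * q * q) K) π,
          algebraMap (OK A K) (FK (M * q * q) K) π, Wit3.sE M q hq hqM K]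
        ![GaussV.V1 (M * q * q) A K hB.dvr, GaussV.V2 (WQ2.wK2 M q hq hqM K) hB.dvr, H.W3]
        (Model3Top.le0 H hB.dvr)) := by
  have : Fact q.Prime := ⟨hq⟩
  have hC : ChartFacts M A K (chart M A K (jK M K)) (jK M K) :=
    Red2B.chartFacts M q hq hqM A K hA hB
  exact Model3Asm.chartHyp3 _ π _ _ (Model3Top.le0 H hB.dvr)
    (GaussV.algebraMap_ne_zero (M * q * q) A K hπ.ne_zero)
    (Model3Top.loc H hB.dvr hA hC hπ a hqa hπϖ) (Model3Top.desc0 H hB.dvr hA hC hπ a hqa hπϖ)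

/-- **[TRIPLE] on `chart J3`** — the input `htriple0` of `Model3Princ.model3` (and of
`Model3Princ.princ0`, `princInf` with `hdvr := hB.dvr`) VERBATIM: a closed point of the special
fibre on `P 0` and `P 1` lies on `P 2`, for the vertical ideals of record `Model3Asm.Pc`. -/
theorem htriple0 (hA : A.LiesOverPrime q) (hB : BaseFacts q A K)
    {π : OK A K} (hπ : Irreducible π) (a : A) (hqa : (q : Qb) = incO A K π * (a : Qb))
    (hπϖ : ∃ u : A, IsUnit u ∧ incO A K π = incO A K' ϖ' ^ (q - 1) * (u : Qb)) :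
    ∀ n : Ideal (chart (M * q * q) A K (Chart3B.J3 M q hq hqM K)), n.IsMaximal →
      algebraMap (OK A K) (chart (M * q * q) A K (Chart3B.J3 M q hq hqM K)) π ∈ n →
      Model3Asm.Pc (chart (M * q * q) A K (Chart3B.J3 M q hq hqM K))
        ![algebraMap (OK A K) (FK (M * q * q) K) π,
          algebraMap (OK A K) (FK (M * q * q) K) π, Wit3.sE M q hq hqM K]
        ![GaussV.V1 (M * q * q) A K hB.dvr, GaussV.V2 (WQ2.wK2 M q hq hqM K) hB.dvr, H.W3]
        (Model3Top.le0 H hB.dvr) 0 ≤ n →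
      Model3Asm.Pc (chart (M * q * q) A K (Chart3B.J3 M q hq hqM K))
        ![algebraMap (OK A K) (FK (M * q * q) K) π,
          algebraMap (OK A K) (FK (M * q * q) K) π, Wit3.sE M q hq hqM K]
        ![GaussV.V1 (M * q * q) A K hB.dvr, GaussV.V2 (WQ2.wK2 M q hq hqM K) hB.dvr, H.W3]
        (Model3Top.le0 H hB.dvr) 1 ≤ n →
      Model3Asm.Pc (chart (M * q * q) A K (Chart3B.J3 M q hq hqM K))
        ![algebraMap (OK A K) (FK (M * q * q) K) π,
          algebraMap (OK A K) (FK (M * q * q) K) π, Wit3.sE M q hq hqM K]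
        ![GaussV.V1 (M * q * q) A K hB.dvr, GaussV.V2 (WQ2.wK2 M q hq hqM K) hB.dvr, H.W3]
        (Model3Top.le0 H hB.dvr) 2 ≤ n :=
  Inc3Inst.htriple0
    (hyp_record H hA hB hπ a hqa hπϖ _ (chartHyp3_Pc H hA hB hπ a hqa hπϖ)) _

/-! ### Any model with the objects of record -/

section Model

variable {π : OK A K} {e : Fin 3 → ℕ}

/-- **`Inc3.Hyp` for the vertical primes `Md.c0.P` of a model** with the objects of record. -/
theorem hyp_model (hA : A.LiesOverPrime q) (hB : BaseFacts q A K)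
    (a : A) (hqa : (q : Qb) = incO A K π * (a : Qb))
    (hπϖ : ∃ u : A, IsUnit u ∧ incO A K π = incO A K' ϖ' ^ (q - 1) * (u : Qb))
    (Md : Model3 (M * q * q) A K π e
      ![algebraMap (OK A K) (FK (M * q * q) K) π, algebraMap (OK A K) (FK (M * q * q) K) π,
        Wit3.sE M q hq hqM K]
      ![GaussV.V1 (M * q * q) A K hB.dvr, GaussV.V2 (WQ2.wK2 M q hq hqM K) hB.dvr, H.W3]
      (Chart3B.J3 M q hq hqM K)) :
    Inc3.Hyp (Inc3Gd.alphaC M q hq hqM A K) (Inc3Gd.betaC M q hq hqM A K) Md.c0.P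
      (Inc3Low.PK' M q hq hqM A K hB.dvr)
      (algebraMap (OK A K) ↥(chart (M * q) A K (WKInst.JK M q hq hqM K)) π) :=
  hyp_J3 H hA hB hB.dvr Md.irr (hf1 H hA hB Md.irr a hqa hπϖ) (hf3 H hA hB Md.irr a hqa hπϖ)
    rfl rfl rfl rfl rfl rfl Md.val Md.c0.P Md.c0.hyp

/-- **[TRIPLE] for a model** — `htriple` of `TorInInst.torIn_chart` /
`TorOutInst.torOutProp_of_relAt` VERBATIM. -/
theorem htriple_model (hA : A.LiesOverPrime q) (hB : BaseFacts q A K)
    (a : A) (hqa : (q : Qb) = incO A K π * (a : Qb))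
    (hπϖ : ∃ u : A, IsUnit u ∧ incO A K π = incO A K' ϖ' ^ (q - 1) * (u : Qb))
    (Md : Model3 (M * q * q) A K π e
      ![algebraMap (OK A K) (FK (M * q * q) K) π, algebraMap (OK A K) (FK (M * q * q) K) π,
        Wit3.sE M q hq hqM K]
      ![GaussV.V1 (M * q * q) A K hB.dvr, GaussV.V2 (WQ2.wK2 M q hq hqM K) hB.dvr, H.W3]
      (Chart3B.J3 M q hq hqM K)) :
    ∀ n : Ideal (chart (M * q * q) A K (Chart3B.J3 M q hq hqM K)), n.IsMaximal →
      algebraMap (OK A K) (chart (M * q * q) A K (Chart3B.J3 M q hq hqM K)) π ∈ n →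
      ∀ i j, i ≠ j → Md.c0.P i ≤ n → Md.c0.P j ≤ n → ∀ l, Md.c0.P l ≤ n :=
  Inc3Inst.htriple (hyp_model H hA hB a hqa hπϖ Md) _

/-- `huniq` of `TorRelInst.relα_field` for `φ := Inc3Gd.alphaC`, `T n l := Md.c0.P l ≤ n`. -/
theorem huniq_alpha_model (hA : A.LiesOverPrime q) (hB : BaseFacts q A K)
    (a : A) (hqa : (q : Qb) = incO A K π * (a : Qb))
    (hπϖ : ∃ u : A, IsUnit u ∧ incO A K π = incO A K' ϖ' ^ (q - 1) * (u : Qb))
    (Md : Model3 (M * q * q) A K π e
      ![algebraMap (OK A K) (FK (M * q * q) K) π, algebraMap (OK A K) (FK (M * q * q) K) π,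
        Wit3.sE M q hq hqM K]
      ![GaussV.V1 (M * q * q) A K hB.dvr, GaussV.V2 (WQ2.wK2 M q hq hqM K) hB.dvr, H.W3]
      (Chart3B.J3 M q hq hqM K)) :
    ∀ n : Ideal (chart (M * q * q) A K (Chart3B.J3 M q hq hqM K)), n.IsMaximal →
      algebraMap (OK A K) (chart (M * q * q) A K (Chart3B.J3 M q hq hqM K)) π ∈ n →
      (∀ l, Md.c0.P l ≤ n) →
      ∀ n₂ : Ideal (chart (M * q * q) A K (Chart3B.J3 M q hq hqM K)), n₂.IsPrime →
        n₂.comap (Inc3Gd.alphaC M q hq hqM A K) = n.comap (Inc3Gd.alphaC M q hq hqM A K) →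
        n₂ = n :=
  Inc3Inst.huniq_alpha (hyp_model H hA hB a hqa hπϖ Md) _

/-- `huniq` of `TorRelInst.relβ_field` for `φ := Inc3Gd.betaC`, `T n l := Md.c0.P l ≤ n`. -/
theorem huniq_beta_model (hA : A.LiesOverPrime q) (hB : BaseFacts q A K)
    (a : A) (hqa : (q : Qb) = incO A K π * (a : Qb))
    (hπϖ : ∃ u : A, IsUnit u ∧ incO A K π = incO A K' ϖ' ^ (q - 1) * (u : Qb))
    (Md : Model3 (M * q * q) A K π e
      ![algebraMap (OK A K) (FK (M * q * q) K) π, algebraMap (OK A K) (FK (M * q * q) K) π,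
        Wit3.sE M q hq hqM K]
      ![GaussV.V1 (M * q * q) A K hB.dvr, GaussV.V2 (WQ2.wK2 M q hq hqM K) hB.dvr, H.W3]
      (Chart3B.J3 M q hq hqM K)) :
    ∀ n : Ideal (chart (M * q * q) A K (Chart3B.J3 M q hq hqM K)), n.IsMaximal →
      algebraMap (OK A K) (chart (M * q * q) A K (Chart3B.J3 M q hq hqM K)) π ∈ n →
      (∀ l, Md.c0.P l ≤ n) →
      ∀ n₂ : Ideal (chart (M * q * q) A K (Chart3B.J3 M q hq hqM K)), n₂.IsPrime →
        n₂.comap (Inc3Gd.betaC M q hq hqM A K) = n.comap (Inc3Gd.betaC M q hq hqM A K) →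
        n₂ = n :=
  Inc3Inst.huniq_beta (hyp_model H hA hB a hqa hπϖ Md) _

/-- `hcen'` of `TorRelInst.relα_field` for `φ := Inc3Gd.alphaC`, `T n l := Md.c0.P l ≤ n`,
`V' := V12.VK` (`= ![V1, V2 w_q]` at level `M q`). -/
theorem hcen_alpha_model (hA : A.LiesOverPrime q) (hB : BaseFacts q A K)
    (a : A) (hqa : (q : Qb) = incO A K π * (a : Qb))
    (hπϖ : ∃ u : A, IsUnit u ∧ incO A K π = incO A K' ϖ' ^ (q - 1) * (u : Qb))
    (Md : Model3 (M * q * q) A K π e
      ![algebraMap (OK A K) (FK (M * q * q) K) π, algebraMap (OK A K) (FK (M * q * q) K) π,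
        Wit3.sE M q hq hqM K]
      ![GaussV.V1 (M * q * q) A K hB.dvr, GaussV.V2 (WQ2.wK2 M q hq hqM K) hB.dvr, H.W3]
      (Chart3B.J3 M q hq hqM K)) :
    ∀ n : Ideal (chart (M * q * q) A K (Chart3B.J3 M q hq hqM K)), n.IsMaximal →
      algebraMap (OK A K) (chart (M * q * q) A K (Chart3B.J3 M q hq hqM K)) π ∈ n →
      (∀ l, Md.c0.P l ≤ n) →
      ∀ j, ∀ r : chart (M * q) A K (WKInst.JK M q hq hqM K),
        (∃ z ∈ V12.VK M q hq hqM A K hB.dvr j,
          (r : FK (M * q) K) = algebraMap (OK A K) (FK (M * q) K) π * z) →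
        Inc3Gd.alphaC M q hq hqM A K r ∈ n := by
  intro n _ _ hT j r hr
  have Hy := hyp_model H hA hB a hqa hπϖ Md
  have h2 : r ∈ Inc3Low.PK' M q hq hqM A K hB.dvr j :=
    (Inc3Low.mem_PK' M q hq hqM A K hB.dvr Md.irr j r).2 hr
  have h1 : Inc3Low.PK' M q hq hqM A K hB.dvr j ≤ n.comap (Inc3Gd.alphaC M q hq hqM A K) :=
    Hy.node_below_alpha n (hT 0) (hT 1) j
  exact Ideal.mem_comap.mp (h1 h2)

/-- `hcen'` of `TorRelInst.relβ_field` for `φ := Inc3Gd.betaC`, `T n l := Md.c0.P l ≤ n`,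
`V' := V12.VK`. -/
theorem hcen_beta_model (hA : A.LiesOverPrime q) (hB : BaseFacts q A K)
    (a : A) (hqa : (q : Qb) = incO A K π * (a : Qb))
    (hπϖ : ∃ u : A, IsUnit u ∧ incO A K π = incO A K' ϖ' ^ (q - 1) * (u : Qb))
    (Md : Model3 (M * q * q) A K π e
      ![algebraMap (OK A K) (FK (M * q * q) K) π, algebraMap (OK A K) (FK (M * q * q) K) π,
        Wit3.sE M q hq hqM K]
      ![GaussV.V1 (M * q * q) A K hB.dvr, GaussV.V2 (WQ2.wK2 M q hq hqM K) hB.dvr, H.W3]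
      (Chart3B.J3 M q hq hqM K)) :
    ∀ n : Ideal (chart (M * q * q) A K (Chart3B.J3 M q hq hqM K)), n.IsMaximal →
      algebraMap (OK A K) (chart (M * q * q) A K (Chart3B.J3 M q hq hqM K)) π ∈ n →
      (∀ l, Md.c0.P l ≤ n) →
      ∀ j, ∀ r : chart (M * q) A K (WKInst.JK M q hq hqM K),
        (∃ z ∈ V12.VK M q hq hqM A K hB.dvr j,
          (r : FK (M * q) K) = algebraMap (OK A K) (FK (M * q) K) π * z) →
        Inc3Gd.betaC M q hq hqM A K r ∈ n := by
  intro n _ _ hT j r hr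
  have Hy := hyp_model H hA hB a hqa hπϖ Md
  have h2 : r ∈ Inc3Low.PK' M q hq hqM A K hB.dvr j :=
    (Inc3Low.mem_PK' M q hq hqM A K hB.dvr Md.irr j r).2 hr
  have h1 : Inc3Low.PK' M q hq hqM A K hB.dvr j ≤ n.comap (Inc3Gd.betaC M q hq hqM A K) :=
    Hy.node_below_beta n (hT 0) (hT 1) j
  exact Ideal.mem_comap.mp (h1 h2)

end Model

end Fermat.Agent.S36.Inc3Top

end
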