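/-
S36 — Model3Leaves.lean (helper9; package [MODEL3]): `Model3Plan.Model3 N A K π e ϖ V t` from the
LEAF-LEVEL inputs (hypothesis form; fit-test of `Model3Asm.model3` against `Branch3.branch3`,
`Princ3.princ_of_triple`, `LocV3.loc_of_inter`).

Leaf-level inputs, by owner:
* [Val3]     `val : ValHyp3 (algebraMap π) e ϖ V`, `e 0 = 1`, `e 1 = 1`;
* [Chart3]   `t ≠ 0`, `fin0`, both charts noetherian / integrally closed / fraction field `F_K`,
             both charts inside every `V i`, stability of both charts under `w`;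
* [Red3]     `z ∈ ⋂ V i`, `π z ∈ chart` ⟹ `z ∈ chart` (both charts);
* [NVal (T0)] + [Wit3]  for `chart t`: every `z ∈ ⋂ V i` has a denominator `r ∈ chart t` which is
             a unit of every `V i`; separating elements `x i ∈ chart t` (unit of `V i`, in
             `ϖ j (V j)` for `j ≠ i`);
* [Level3]   residue degree one along `V 0` and `V 2` over the level-`M` charts `RM0`, `RMInf`
             (`hB0`, `hB2`), `t^{±1} - c ∉ ϖ i (V i)` (`hne`), Igusa at level `M`;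
* [WQ2]      the involution `w` with `V 1 = w⁻¹ (V 0)`, `w (ϖ 1) = ϖ 0`;
* [Inc3]     [TRIPLE]: a closed point on `P 0` and `P 1` lies on `P 2` (both charts);
* [B1]       at the closed points of `P 2` some vertical prime is principal (both charts).
-/
import Mathlib
import Fermat.Agent.S36.Model3Asm
import Fermat.Agent.S36.Branch3
import Fermat.Agent.S36.Princ3

set_option autoImplicit false

open ModularCurve AlgebraicCurve HahnSeries

namespace Fermat.Agent.S36.Model3Leaves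

open Fermat.Agent.S18.Arith Fermat.Agent.S34 Fermat.Agent.S36.Model3Plan
  Fermat.Agent.S36.Model3Asm

noncomputable section

variable {N M : ℕ} [NeZero N] {A : ValuationSubring Qb} {K : IntermediateField ℚ Qb}

/-- The hypotheses of `LocV3` for a subalgebra `R ⊆ ⋂ V i` with the vertical ideals `Pc`. -/
theorem locHyp (R : Subalgebra (OK A K) (FK N K)) {p : FK N K} {e : Fin 3 → ℕ}
    {ϖ : Fin 3 → FK N K} {V : Fin 3 → ValuationSubring (FK N K)} (val : ValHyp3 p e ϖ V)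
    (hle : ∀ i : Fin 3, ∀ x ∈ R, x ∈ V i) :
    LocV3.Hyp ϖ V (Pc R ϖ V hle) where
  le := fun i r => hle i r r.2
  mem_P := fun _ _ => Iff.rfl
  unif_mem := val.unif_mem
  unif_not := val.unif_not
  disc := val.disc

/-- **`loc` for a subalgebra `R ⊆ ⋂ V i`** from the leaf-level inputs: denominators which are
units of every `V i` (statement (T0) of the valuation core) and separating elements. -/
theorem loc_of_leaves (R : Subalgebra (OK A K) (FK N K)) {p : FK N K} {e : Fin 3 → ℕ}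
    {ϖ : Fin 3 → FK N K} {V : Fin 3 → ValuationSubring (FK N K)} (val : ValHyp3 p e ϖ V)
    (hle : ∀ i : Fin 3, ∀ x ∈ R, x ∈ V i)
    (hT0 : ∀ z : FK N K, (∀ i : Fin 3, z ∈ V i) →
      ∃ r ∈ R, r * z ∈ R ∧ r ≠ 0 ∧ ∀ i : Fin 3, r⁻¹ ∈ V i)
    (x : Fin 3 → FK N K) (hx : ∀ i : Fin 3, x i ∈ R)
    (hxP : ∀ i j : Fin 3, i ≠ j → ∃ v ∈ V j, x i = ϖ j * v)
    (hxU : ∀ i : Fin 3, x i ≠ 0 ∧ (x i)⁻¹ ∈ V i) :
    ∀ (i : Fin 3), ∀ y ∈ V i, ∃ a s : R, s ∉ Pc R ϖ V hle i ∧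
      y * algebraMap R (FK N K) s = algebraMap R (FK N K) a := by
  have H := locHyp R val hle
  refine LocV3.loc_of_inter H (fun z hz i => ?_) (fun i j hij => ?_)
  · obtain ⟨r, hr, hrz, hr0, hrinv⟩ := hT0 z hz
    refine ⟨⟨r * z, hrz⟩, ⟨r, hr⟩, ?_, ?_⟩
    · rw [H.not_mem_iff]
      exact ⟨hr0, hrinv i⟩
    · show z * r = r * z
      ring
  · refine ⟨⟨x i, hx i⟩, hxP i j hij, ?_⟩
    rw [H.not_mem_iff]
    exact hxU i

/-- **[Model3] from the leaves.** -/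
def model3_of_leaves [IsDiscreteValuationRing (OK A K)]
    [IsAlgClosed (IsLocalRing.ResidueField (OK A K))]
    (π : OK A K) (e : Fin 3 → ℕ) (ϖ : Fin 3 → FK N K)
    (V : Fin 3 → ValuationSubring (FK N K)) (t : FK N K)
    (irr : Irreducible π)
    -- [Val3]
    (val : ValHyp3 (algebraMap (OK A K) (FK N K) π) e ϖ V) (he0 : e 0 = 1) (he1 : e 1 = 1)
    (hp0 : algebraMap (OK A K) (FK N K) π ≠ 0)
    -- [Chart3]
    (ht : t ≠ 0)
    (hfin0 : ∃ s : Finset (FK N K), (chart N A K t : Set (FK N K)) ⊆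
      Submodule.span (Algebra.adjoin (OK A K) {t}) (s : Set (FK N K)))
    (hle0 : ∀ i : Fin 3, ∀ x ∈ chart N A K t, x ∈ V i)
    (hleInf : ∀ i : Fin 3, ∀ x ∈ chart N A K t⁻¹, x ∈ V i)
    (hnoeth0 : IsNoetherianRing (chart N A K t))
    (hfrac0 : IsFractionRing (chart N A K t) (FK N K))
    (hintcl0 : IsIntegrallyClosed (chart N A K t))
    (hnoethInf : IsNoetherianRing (chart N A K t⁻¹))
    (hfracInf : IsFractionRing (chart N A K t⁻¹) (FK N K))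
    (hintclInf : IsIntegrallyClosed (chart N A K t⁻¹))
    -- [Red3]
    (hdesc0 : ∀ z : FK N K, (∀ i : Fin 3, z ∈ V i) →
      algebraMap (OK A K) (FK N K) π * z ∈ chart N A K t → z ∈ chart N A K t)
    (hdescInf : ∀ z : FK N K, (∀ i : Fin 3, z ∈ V i) →
      algebraMap (OK A K) (FK N K) π * z ∈ chart N A K t⁻¹ → z ∈ chart N A K t⁻¹)
    -- [NVal (T0)] + [Wit3], for `chart t` only
    (hT0 : ∀ z : FK N K, (∀ i : Fin 3, z ∈ V i) →
      ∃ r ∈ chart N A K t, r * z ∈ chart N A K t ∧ r ≠ 0 ∧ ∀ i : Fin 3, r⁻¹ ∈ V i)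
    (x : Fin 3 → FK N K) (hx : ∀ i : Fin 3, x i ∈ chart N A K t)
    (hxP : ∀ i j : Fin 3, i ≠ j → ∃ v ∈ V j, x i = ϖ j * v)
    (hxU : ∀ i : Fin 3, x i ≠ 0 ∧ (x i)⁻¹ ∈ V i)
    -- [WQ2]
    (w : FK N K ≃+* FK N K)
    (hV : ∀ y : FK N K, y ∈ V 1 ↔ w y ∈ V 0) (hϖ : w (ϖ 1) = ϖ 0)
    (hwR0 : ∀ y ∈ chart N A K t, w y ∈ chart N A K t)
    (hwR0' : ∀ y ∈ chart N A K t, w.symm y ∈ chart N A K t)
    (hwRInf : ∀ y ∈ chart N A K t⁻¹, w y ∈ chart N A K t⁻¹)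
    (hwRInf' : ∀ y ∈ chart N A K t⁻¹, w.symm y ∈ chart N A K t⁻¹)
    -- [Level3]
    (al : FK M K →+* FK N K)
    (hal : ∀ c : OK A K, al (algebraMap (OK A K) (FK M K) c) = algebraMap (OK A K) (FK N K) c)
    (RM0 RMInf : Subalgebra (OK A K) (FK M K))
    (hmap0 : ∀ y ∈ RM0, al y ∈ chart N A K t)
    (hmapInf : ∀ y ∈ RMInf, al y ∈ chart N A K t⁻¹)
    (hI0 : IgusaAt M A K RM0) (hIInf : IgusaAt M A K RMInf)
    (hB0_0 : ∀ y ∈ chart N A K t, ∃ y' ∈ RM0, ∃ v ∈ V 0, y - al y' = ϖ 0 * v)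
    (hB2_0 : ∀ y ∈ chart N A K t, ∃ y' ∈ RM0, ∃ v ∈ V 2, y - al y' = ϖ 2 * v)
    (hB0_Inf : ∀ y ∈ chart N A K t⁻¹, ∃ y' ∈ RMInf, ∃ v ∈ V 0, y - al y' = ϖ 0 * v)
    (hB2_Inf : ∀ y ∈ chart N A K t⁻¹, ∃ y' ∈ RMInf, ∃ v ∈ V 2, y - al y' = ϖ 2 * v)
    (hne0 : ∀ (c : OK A K) (i : Fin 3), ¬ ∃ v ∈ V i,
      t - algebraMap (OK A K) (FK N K) c = ϖ i * v)
    (hneInf : ∀ (c : OK A K) (i : Fin 3), ¬ ∃ v ∈ V i,
      t⁻¹ - algebraMap (OK A K) (FK N K) c = ϖ i * v)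
    -- [Inc3] ([TRIPLE]) and [B1], both charts
    (htriple0 : ∀ n : Ideal (chart N A K t), n.IsMaximal →
      algebraMap (OK A K) (chart N A K t) π ∈ n →
      Pc (chart N A K t) ϖ V hle0 0 ≤ n → Pc (chart N A K t) ϖ V hle0 1 ≤ n →
      Pc (chart N A K t) ϖ V hle0 2 ≤ n)
    (hB1_0 : ∀ n : Ideal (chart N A K t), n.IsMaximal →
      algebraMap (OK A K) (chart N A K t) π ∈ n → Pc (chart N A K t) ϖ V hle0 2 ≤ n →
      ∃ i : Fin 3, Pc (chart N A K t) ϖ V hle0 i ≤ n ∧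
        ∃ g ∈ Pc (chart N A K t) ϖ V hle0 i, ∀ y ∈ Pc (chart N A K t) ϖ V hle0 i,
          ∃ s : chart N A K t, s ∉ n ∧ ∃ c : chart N A K t, s * y = c * g)
    (htripleInf : ∀ n : Ideal (chart N A K t⁻¹), n.IsMaximal →
      algebraMap (OK A K) (chart N A K t⁻¹) π ∈ n →
      Pc (chart N A K t⁻¹) ϖ V hleInf 0 ≤ n → Pc (chart N A K t⁻¹) ϖ V hleInf 1 ≤ n →
      Pc (chart N A K t⁻¹) ϖ V hleInf 2 ≤ n)
    (hB1_Inf : ∀ n : Ideal (chart N A K t⁻¹), n.IsMaximal →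
      algebraMap (OK A K) (chart N A K t⁻¹) π ∈ n → Pc (chart N A K t⁻¹) ϖ V hleInf 2 ≤ n →
      ∃ i : Fin 3, Pc (chart N A K t⁻¹) ϖ V hleInf i ≤ n ∧
        ∃ g ∈ Pc (chart N A K t⁻¹) ϖ V hleInf i, ∀ y ∈ Pc (chart N A K t⁻¹) ϖ V hleInf i,
          ∃ s : chart N A K t⁻¹, s ∉ n ∧ ∃ c : chart N A K t⁻¹, s * y = c * g) :
    Model3 N A K π e ϖ V t :=
  model3 π e ϖ V t irr val hp0 ht hfin0 hle0 hleInf hnoeth0 hfrac0 hintcl0 hnoethInf hfracInf
    hintclInf (loc_of_leaves (chart N A K t) val hle0 hT0 x hx hxP hxU) hdesc0 hdescInf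
    (fun hyp => Branch3.branch3 π irr t RM0 ϖ V _ hyp (fun i => Princ3.pi_mem val hyp i)
      al hal hmap0 w hwR0 hwR0' hV hϖ hB0_0 hB2_0 hI0 hne0)
    (fun hyp => Princ3.princ_of_triple val hyp hp0 he0 he1 htriple0 hB1_0)
    (fun hyp => Branch3.branch3 π irr t⁻¹ RMInf ϖ V _ hyp (fun i => Princ3.pi_mem val hyp i)
      al hal hmapInf w hwRInf hwRInf' hV hϖ hB0_Inf hB2_Inf hIInf hneInf)
    (fun hyp => Princ3.princ_of_triple val hyp hp0 he0 he1 htripleInf hB1_Inf)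

end

end Fermat.Agent.S36.Model3Leaves
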