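/-
S36 — InfAsm.lean (helper114; package [MODEL3], seam [INF-ASM]): the CLOSING ADAPTERS for the
chart `t⁻¹` inputs of the [MODEL3] assembly, composed from the landed pieces

* `ChartGlueInst` (helper117): transport `chart t → chart t⁻¹` at the non-cuspidal points;
* `CuspOne` (helper89): the cusps of `chart J3⁻¹` are one-branch points ([CUSP1]);
* `Model3Asm.chartHyp3`, `Model3Asm.loc_inv`, `Model3Leaves.loc_of_leaves` (helper9);
* `Princ3Cases.princ_of_cases` (helper9).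

The seam closed here: the two binders `htripleInf`, `hB1_Inf` of
`Model3Leaves.model3_of_leaves` are typed on `Model3Asm.Pc` WITHOUT a `ChartHyp3`, while the
cusp leaves (`CuspOne`, `CuspOff3`, `CuspAsm`) need a `ChartHyp3` on the chart `t⁻¹`.

Generic level `N`, coordinate `t`:
* `chartHyp0`, `chartHypInf` : `ChartHyp3 π ϖ V (Pc (chart t^{±1}) ϖ V hle)` from the leaf inputs
                               of `model3_of_leaves` ([Val3], [Red3], [NVal (T0)] + [Wit3]);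
* `princ_noncusp_of_glue`    : the conclusion of the field `princ` at the NON-cuspidal closed
                               points of `chart t⁻¹` from the same on `chart t`;
* `princInf_of_glue`         : the whole field `princ` on `chart t⁻¹` from the field `princ` on
                               `chart t`, [CUSP1] (pair `(0,1)` only) and [N10] at the cusps;
* `hB1_of_princ`, `htriple_of_cases` : small shape adapters.

Level `M q q`, coordinate `J3` (`V 0 = W1`, `V 1 = W2`, `ϖ 0 = ϖ 1 = π`, `s ∈ ϖ 2 (V 2)`):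
* `hone_J3`      : [CUSP1] in `Pc` form (the hypothesis `hone` of
                   `ChartGlueInst.htripleInf_of_one`; also `ChartTorInst.TorInCusp.one`);
* `htripleInf_J3`: the binder `htripleInf` of `model3_of_leaves` VERBATIM;
* `hB1Inf_J3`    : the binder `hB1_Inf` of `model3_of_leaves` VERBATIM;
* `princInf_J3`  : the field `princ` of `chart J3⁻¹`;
* `model3_of_leaves_J3` : `Model3Leaves.model3_of_leaves` with the two `Inf` binders replaced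
                   by the chart memberships `hμ`, `hμ₂` ([CUSP-a]) and [N10] at the cusps.
-/
import Mathlib
import Fermat.Agent.S36.Model3Leaves
import Fermat.Agent.S36.ChartGlueInst
import Fermat.Agent.S36.CuspOne
import Fermat.Agent.S36.Princ3Cases

set_option autoImplicit false

open ModularCurve AlgebraicCurve HahnSeries

namespace Fermat.Agent.S36.InfAsm

open Fermat.Agent.S18 Fermat.Agent.S18.Arith Fermat.Agent.S34 Fermat.Agent.S36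
  Fermat.Agent.S36.Model3Plan Fermat.Agent.S36.Model3Asm

noncomputable section

set_option synthInstance.maxHeartbeats 400000

/-! ### Generic level and coordinate -/

section Generic

variable {N : ℕ} [NeZero N] {A : ValuationSubring Qb} {K : IntermediateField ℚ Qb}
  {π : OK A K} {e : Fin 3 → ℕ} {ϖ : Fin 3 → FK N K} {V : Fin 3 → ValuationSubring (FK N K)}
  {t : FK N K}

/-- `ChartHyp3` on `chart t` from the leaf inputs of `Model3Leaves.model3_of_leaves`. -/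
theorem chartHyp0 (val : ValHyp3 (algebraMap (OK A K) (FK N K) π) e ϖ V)
    (hp0 : algebraMap (OK A K) (FK N K) π ≠ 0)
    (hle0 : ∀ i : Fin 3, ∀ x ∈ chart N A K t, x ∈ V i)
    (hdesc0 : ∀ z : FK N K, (∀ i : Fin 3, z ∈ V i) →
      algebraMap (OK A K) (FK N K) π * z ∈ chart N A K t → z ∈ chart N A K t)
    (hT0 : ∀ z : FK N K, (∀ i : Fin 3, z ∈ V i) →
      ∃ r ∈ chart N A K t, r * z ∈ chart N A K t ∧ r ≠ 0 ∧ ∀ i : Fin 3, r⁻¹ ∈ V i)
    (x : Fin 3 → FK N K) (hx : ∀ i : Fin 3, x i ∈ chart N A K t)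
    (hxP : ∀ i j : Fin 3, i ≠ j → ∃ v ∈ V j, x i = ϖ j * v)
    (hxU : ∀ i : Fin 3, x i ≠ 0 ∧ (x i)⁻¹ ∈ V i) :
    ChartHyp3 π ϖ V (Pc (chart N A K t) ϖ V hle0) :=
  chartHyp3 (chart N A K t) π ϖ V hle0 hp0
    (Model3Leaves.loc_of_leaves (chart N A K t) val hle0 hT0 x hx hxP hxU) hdesc0

/-- `ChartHyp3` on `chart t⁻¹` from the leaf inputs of `Model3Leaves.model3_of_leaves`
(`loc` comes from `chart t` by `Model3Asm.loc_inv`). -/
theorem chartHypInf (val : ValHyp3 (algebraMap (OK A K) (FK N K) π) e ϖ V)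
    (hp0 : algebraMap (OK A K) (FK N K) π ≠ 0) (ht : t ≠ 0)
    (hle0 : ∀ i : Fin 3, ∀ x ∈ chart N A K t, x ∈ V i)
    (hleInf : ∀ i : Fin 3, ∀ x ∈ chart N A K t⁻¹, x ∈ V i)
    (hdescInf : ∀ z : FK N K, (∀ i : Fin 3, z ∈ V i) →
      algebraMap (OK A K) (FK N K) π * z ∈ chart N A K t⁻¹ → z ∈ chart N A K t⁻¹)
    (hT0 : ∀ z : FK N K, (∀ i : Fin 3, z ∈ V i) →
      ∃ r ∈ chart N A K t, r * z ∈ chart N A K t ∧ r ≠ 0 ∧ ∀ i : Fin 3, r⁻¹ ∈ V i)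
    (x : Fin 3 → FK N K) (hx : ∀ i : Fin 3, x i ∈ chart N A K t)
    (hxP : ∀ i j : Fin 3, i ≠ j → ∃ v ∈ V j, x i = ϖ j * v)
    (hxU : ∀ i : Fin 3, x i ≠ 0 ∧ (x i)⁻¹ ∈ V i) :
    ChartHyp3 π ϖ V (Pc (chart N A K t⁻¹) ϖ V hleInf) :=
  chartHyp3 (chart N A K t⁻¹) π ϖ V hleInf hp0
    (loc_inv t ht ϖ V hle0 hleInf
      (Model3Leaves.loc_of_leaves (chart N A K t) val hle0 hT0 x hx hxP hxU)) hdescInf

omit [NeZero N] in
/-- The input (B1) (`hB1` of `Princ3.princ_of_triple`) from the full field `princ`. -/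
theorem hB1_of_princ {R : Subalgebra (OK A K) (FK N K)} {P : Fin 3 → Ideal R}
    (hprinc : ∀ n : Ideal R, n.IsMaximal → algebraMap (OK A K) R π ∈ n →
      ∃ i : Fin 3, P i ≤ n ∧ ∃ g ∈ P i, ∀ y ∈ P i, ∃ s : R, s ∉ n ∧ ∃ c : R, s * y = c * g) :
    ∀ n : Ideal R, n.IsMaximal → algebraMap (OK A K) R π ∈ n → P 2 ≤ n →
      ∃ i : Fin 3, P i ≤ n ∧ ∃ g ∈ P i, ∀ y ∈ P i, ∃ s : R, s ∉ n ∧ ∃ c : R, s * y = c * g :=
  fun n hn hπn _ => hprinc n hn hπn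

section Glue

variable [IsDiscreteValuationRing (OK A K)] [IsAlgClosed (IsLocalRing.ResidueField (OK A K))]

/-- **The field `princ` at the non-cuspidal closed points of `chart t⁻¹`** from the field
`princ` of `chart t` (no hypothesis on the branches through the point). -/
theorem princ_noncusp_of_glue (ht : t ≠ 0) (hπ : Irreducible π)
    (hle0 : ∀ i : Fin 3, ∀ x ∈ chart N A K t, x ∈ V i)
    (hleInf : ∀ i : Fin 3, ∀ x ∈ chart N A K t⁻¹, x ∈ V i)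
    (hprinc0 : ∀ n : Ideal (chart N A K t), n.IsMaximal →
      algebraMap (OK A K) (chart N A K t) π ∈ n →
      ∃ i : Fin 3, Pc (chart N A K t) ϖ V hle0 i ≤ n ∧
        ∃ g ∈ Pc (chart N A K t) ϖ V hle0 i, ∀ y ∈ Pc (chart N A K t) ϖ V hle0 i,
          ∃ s : chart N A K t, s ∉ n ∧ ∃ c : chart N A K t, s * y = c * g) :
    ∀ n : Ideal (chart N A K t⁻¹), n.IsMaximal →
      algebraMap (OK A K) (chart N A K t⁻¹) π ∈ n → ¬ ChartGlueInst.CuspPt t n →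
      ∃ i : Fin 3, Pc (chart N A K t⁻¹) ϖ V hleInf i ≤ n ∧
        ∃ g ∈ Pc (chart N A K t⁻¹) ϖ V hleInf i, ∀ y ∈ Pc (chart N A K t⁻¹) ϖ V hleInf i,
          ∃ s : chart N A K t⁻¹, s ∉ n ∧ ∃ c : chart N A K t⁻¹, s * y = c * g := by
  intro n hn hπn hD
  have := hn.isPrime
  obtain ⟨hmax, hπ0⟩ := ChartGlueInst.contr_chart ht π hπ n hn hπn hD
  obtain ⟨i, hi, hgen⟩ := hprinc0 _ hmax hπ0
  exact ⟨i, (ChartGlueInst.le_Pc_iff ϖ V hle0 hleInf ht n hD i).1 hi,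
    ChartGlue.genAt_glue (ChartGlueInst.glue_chart ht) n
      (ChartGlueInst.not_in_of_not_cuspPt ht hD) (ChartGlueInst.corr_Pc ϖ V hle0 hleInf i) hgen⟩

/-- **The field `princ` of `chart t⁻¹`** from the field `princ` of `chart t` and the two cusp
inputs: [CUSP1] (a cusp does not lie on both `P 0` and `P 1`) and [N10] (at a cusp on `P 2`
some vertical prime is locally principal). -/
theorem princInf_of_glue (ht : t ≠ 0) (hπ : Irreducible π)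
    (val : ValHyp3 (algebraMap (OK A K) (FK N K) π) e ϖ V)
    (hp0 : algebraMap (OK A K) (FK N K) π ≠ 0) (he0 : e 0 = 1) (he1 : e 1 = 1)
    (hle0 : ∀ i : Fin 3, ∀ x ∈ chart N A K t, x ∈ V i)
    (hleInf : ∀ i : Fin 3, ∀ x ∈ chart N A K t⁻¹, x ∈ V i)
    (hypInf : ChartHyp3 π ϖ V (Pc (chart N A K t⁻¹) ϖ V hleInf))
    (hprinc0 : ∀ n : Ideal (chart N A K t), n.IsMaximal →
      algebraMap (OK A K) (chart N A K t) π ∈ n →
      ∃ i : Fin 3, Pc (chart N A K t) ϖ V hle0 i ≤ n ∧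
        ∃ g ∈ Pc (chart N A K t) ϖ V hle0 i, ∀ y ∈ Pc (chart N A K t) ϖ V hle0 i,
          ∃ s : chart N A K t, s ∉ n ∧ ∃ c : chart N A K t, s * y = c * g)
    (hcusp01 : ∀ n : Ideal (chart N A K t⁻¹), n.IsMaximal →
      algebraMap (OK A K) (chart N A K t⁻¹) π ∈ n → ChartGlueInst.CuspPt t n →
      ¬ (Pc (chart N A K t⁻¹) ϖ V hleInf 0 ≤ n ∧ Pc (chart N A K t⁻¹) ϖ V hleInf 1 ≤ n))
    (hcusp2 : ∀ n : Ideal (chart N A K t⁻¹), n.IsMaximal →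
      algebraMap (OK A K) (chart N A K t⁻¹) π ∈ n → ChartGlueInst.CuspPt t n →
      Pc (chart N A K t⁻¹) ϖ V hleInf 2 ≤ n →
      ∃ i : Fin 3, Pc (chart N A K t⁻¹) ϖ V hleInf i ≤ n ∧
        ∃ g ∈ Pc (chart N A K t⁻¹) ϖ V hleInf i, ∀ y ∈ Pc (chart N A K t⁻¹) ϖ V hleInf i,
          ∃ s : chart N A K t⁻¹, s ∉ n ∧ ∃ c : chart N A K t⁻¹, s * y = c * g) :
    ∀ n : Ideal (chart N A K t⁻¹), n.IsMaximal →
      algebraMap (OK A K) (chart N A K t⁻¹) π ∈ n →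
      ∃ i : Fin 3, Pc (chart N A K t⁻¹) ϖ V hleInf i ≤ n ∧
        ∃ g ∈ Pc (chart N A K t⁻¹) ϖ V hleInf i, ∀ y ∈ Pc (chart N A K t⁻¹) ϖ V hleInf i,
          ∃ s : chart N A K t⁻¹, s ∉ n ∧ ∃ c : chart N A K t⁻¹, s * y = c * g :=
  Princ3Cases.princ_of_cases val hypInf hp0 he0 he1 (fun n => ¬ ChartGlueInst.CuspPt t n)
    (fun n hn hπn hC _ => princ_noncusp_of_glue ht hπ hle0 hleInf hprinc0 n hn hπn hC)
    (fun n hn hπn hC _ _ _ => princ_noncusp_of_glue ht hπ hle0 hleInf hprinc0 n hn hπn hC)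
    (fun n hn hπn hC h2 => hcusp2 n hn hπn (not_not.1 hC) h2)
    (fun n hn hπn hC _ => hcusp01 n hn hπn (not_not.1 hC))

end Glue

end Generic

/-! ### `Model3Leaves.model3_of_leaves` with the two `Inf` binders eliminated -/

section Drop

variable {N M : ℕ} [NeZero N] {A : ValuationSubring Qb} {K : IntermediateField ℚ Qb}

/-- **[Model3] from the leaves, cusp form** (generic level and coordinate):
`Model3Leaves.model3_of_leaves` with its two binders `htripleInf`, `hB1_Inf` replaced by the two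
CUSP inputs of the chart `t⁻¹`, each of which may use the `ChartHyp3` of that chart:
* `hcusp01` ([CUSP1]): a cusp does not lie on both `P 0` and `P 1`;
* `hcusp2` ([N10]): at a cusp on `P 2` some vertical prime is locally principal.
The non-cuspidal closed points of `chart t⁻¹` are closed points of `chart t`
(`ChartGlueInst`). -/
def model3_of_leaves_cusp [IsDiscreteValuationRing (OK A K)]
    [IsAlgClosed (IsLocalRing.ResidueField (OK A K))]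
    (π : OK A K) (e : Fin 3 → ℕ) (ϖ : Fin 3 → FK N K)
    (V : Fin 3 → ValuationSubring (FK N K)) (t : FK N K)
    (irr : Irreducible π)
    -- [Val3]
    (val : ValHyp3 (algebraMap (OK A K) (FK N K) π) e ϖ V) (he0 : e 0 = 1) (he1 : e 1 = 1)
    (hp0 : algebraMap (OK A K) (FK N K) π ≠ 0)
    -- [Chart3]
    (ht : t ≠ 0)
    (hfin0 : ∃ s : Finset (FK N K), (chart N A K t : Set (FK N K)) ⊆
      Submodule.span (Algebra.adjoin (OK A K) {t}) (s : Set (FK N K)))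
    (hle0 : ∀ i : Fin 3, ∀ x ∈ chart N A K t, x ∈ V i)
    (hleInf : ∀ i : Fin 3, ∀ x ∈ chart N A K t⁻¹, x ∈ V i)
    (hnoeth0 : IsNoetherianRing (chart N A K t))
    (hfrac0 : IsFractionRing (chart N A K t) (FK N K))
    (hintcl0 : IsIntegrallyClosed (chart N A K t))
    (hnoethInf : IsNoetherianRing (chart N A K t⁻¹))
    (hfracInf : IsFractionRing (chart N A K t⁻¹) (FK N K))
    (hintclInf : IsIntegrallyClosed (chart N A K t⁻¹))
    -- [Red3]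
    (hdesc0 : ∀ z : FK N K, (∀ i : Fin 3, z ∈ V i) →
      algebraMap (OK A K) (FK N K) π * z ∈ chart N A K t → z ∈ chart N A K t)
    (hdescInf : ∀ z : FK N K, (∀ i : Fin 3, z ∈ V i) →
      algebraMap (OK A K) (FK N K) π * z ∈ chart N A K t⁻¹ → z ∈ chart N A K t⁻¹)
    -- [NVal (T0)] + [Wit3], for `chart t` only
    (hT0 : ∀ z : FK N K, (∀ i : Fin 3, z ∈ V i) →
      ∃ r ∈ chart N A K t, r * z ∈ chart N A K t ∧ r ≠ 0 ∧ ∀ i : Fin 3, r⁻¹ ∈ V i)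
    (x : Fin 3 → FK N K) (hx : ∀ i : Fin 3, x i ∈ chart N A K t)
    (hxP : ∀ i j : Fin 3, i ≠ j → ∃ v ∈ V j, x i = ϖ j * v)
    (hxU : ∀ i : Fin 3, x i ≠ 0 ∧ (x i)⁻¹ ∈ V i)
    -- [WQ2]
    (w : FK N K ≃+* FK N K)
    (hV : ∀ y : FK N K, y ∈ V 1 ↔ w y ∈ V 0) (hϖ : w (ϖ 1) = ϖ 0)
    (hwR0 : ∀ y ∈ chart N A K t, w y ∈ chart N A K t)
    (hwR0' : ∀ y ∈ chart N A K t, w.symm y ∈ chart N A K t)
    (hwRInf : ∀ y ∈ chart N A K t⁻¹, w y ∈ chart N A K t⁻¹)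
    (hwRInf' : ∀ y ∈ chart N A K t⁻¹, w.symm y ∈ chart N A K t⁻¹)
    -- [Level3]
    (al : FK M K →+* FK N K)
    (hal : ∀ c : OK A K, al (algebraMap (OK A K) (FK M K) c) = algebraMap (OK A K) (FK N K) c)
    (RM0 RMInf : Subalgebra (OK A K) (FK M K))
    (hmap0 : ∀ y ∈ RM0, al y ∈ chart N A K t)
    (hmapInf : ∀ y ∈ RMInf, al y ∈ chart N A K t⁻¹)
    (hI0 : IgusaAt M A K RM0) (hIInf : IgusaAt M A K RMInf)
    (hB0_0 : ∀ y ∈ chart N A K t, ∃ y' ∈ RM0, ∃ v ∈ V 0, y - al y' = ϖ 0 * v)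
    (hB2_0 : ∀ y ∈ chart N A K t, ∃ y' ∈ RM0, ∃ v ∈ V 2, y - al y' = ϖ 2 * v)
    (hB0_Inf : ∀ y ∈ chart N A K t⁻¹, ∃ y' ∈ RMInf, ∃ v ∈ V 0, y - al y' = ϖ 0 * v)
    (hB2_Inf : ∀ y ∈ chart N A K t⁻¹, ∃ y' ∈ RMInf, ∃ v ∈ V 2, y - al y' = ϖ 2 * v)
    (hne0 : ∀ (c : OK A K) (i : Fin 3), ¬ ∃ v ∈ V i,
      t - algebraMap (OK A K) (FK N K) c = ϖ i * v)
    (hneInf : ∀ (c : OK A K) (i : Fin 3), ¬ ∃ v ∈ V i,
      t⁻¹ - algebraMap (OK A K) (FK N K) c = ϖ i * v)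
    -- [Inc3] ([TRIPLE]) and [B1], both charts
    (htriple0 : ∀ n : Ideal (chart N A K t), n.IsMaximal →
      algebraMap (OK A K) (chart N A K t) π ∈ n →
      Pc (chart N A K t) ϖ V hle0 0 ≤ n → Pc (chart N A K t) ϖ V hle0 1 ≤ n →
      Pc (chart N A K t) ϖ V hle0 2 ≤ n)
    (hB1_0 : ∀ n : Ideal (chart N A K t), n.IsMaximal →
      algebraMap (OK A K) (chart N A K t) π ∈ n → Pc (chart N A K t) ϖ V hle0 2 ≤ n →
      ∃ i : Fin 3, Pc (chart N A K t) ϖ V hle0 i ≤ n ∧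
        ∃ g ∈ Pc (chart N A K t) ϖ V hle0 i, ∀ y ∈ Pc (chart N A K t) ϖ V hle0 i,
          ∃ s : chart N A K t, s ∉ n ∧ ∃ c : chart N A K t, s * y = c * g)
    -- the cusps of `chart t⁻¹`: [CUSP1] and [N10]
    (hcusp01 : ChartHyp3 π ϖ V (Pc (chart N A K t⁻¹) ϖ V hleInf) →
      ∀ n : Ideal (chart N A K t⁻¹), n.IsMaximal →
      algebraMap (OK A K) (chart N A K t⁻¹) π ∈ n → ChartGlueInst.CuspPt t n →
      ¬ (Pc (chart N A K t⁻¹) ϖ V hleInf 0 ≤ n ∧ Pc (chart N A K t⁻¹) ϖ V hleInf 1 ≤ n))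
    (hcusp2 : ChartHyp3 π ϖ V (Pc (chart N A K t⁻¹) ϖ V hleInf) →
      ∀ n : Ideal (chart N A K t⁻¹), n.IsMaximal →
      algebraMap (OK A K) (chart N A K t⁻¹) π ∈ n → ChartGlueInst.CuspPt t n →
      Pc (chart N A K t⁻¹) ϖ V hleInf 2 ≤ n →
      ∃ i : Fin 3, Pc (chart N A K t⁻¹) ϖ V hleInf i ≤ n ∧
        ∃ g ∈ Pc (chart N A K t⁻¹) ϖ V hleInf i, ∀ y ∈ Pc (chart N A K t⁻¹) ϖ V hleInf i,
          ∃ s : chart N A K t⁻¹, s ∉ n ∧ ∃ c : chart N A K t⁻¹, s * y = c * g) :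
    Model3 N A K π e ϖ V t :=
  Model3Leaves.model3_of_leaves π e ϖ V t irr val he0 he1 hp0 ht hfin0 hle0 hleInf hnoeth0 hfrac0 hintcl0 hnoethInf hfracInf
    hintclInf hdesc0 hdescInf hT0 x hx hxP hxU w hV hϖ hwR0 hwR0' hwRInf hwRInf' al hal RM0 RMInf
    hmap0 hmapInf hI0 hIInf hB0_0 hB2_0 hB0_Inf hB2_Inf hne0 hneInf htriple0 hB1_0
    (ChartGlueInst.htripleInf_of_glue ϖ V hle0 hleInf ht π irr htriple0
      (fun n hn hπn hD h0 h1 => absurd ⟨h0, h1⟩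
        (hcusp01 (chartHypInf val hp0 ht hle0 hleInf hdescInf hT0 x hx hxP hxU) n hn hπn hD)))
    (ChartGlueInst.hB1Inf_of_glue ϖ V hle0 hleInf ht π irr hB1_0
      (hcusp2 (chartHypInf val hp0 ht hle0 hleInf hdescInf hT0 x hx hxP hxU)))

end Drop

/-! ### Level `M q q`, coordinate `J3` -/

section J3

variable (M q : ℕ) [NeZero M] [NeZero q] (hq : q.Prime) (hqM : ¬ q ∣ M)
variable (A : ValuationSubring Qb) (K : IntermediateField ℚ Qb)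

/-- **[CUSP1] in `Pc` form**: the hypothesis `hone` of `ChartGlueInst.htripleInf_of_one` (and
the field `one` of `ChartTorInst.TorInCusp` with `D := ChartGlueInst.CuspPt J3`) for the chart
`J3⁻¹`, from a `ChartHyp3` on that chart and the two chart memberships of [CUSP-a]. -/
theorem hone_J3 (hdvr : IsDiscreteValuationRing (OK A K)) (hA : A.LiesOverPrime q)
    {π : OK A K} (hπ : Irreducible π) {ϖ : Fin 3 → FK (M * q * q) K}
    {V : Fin 3 → ValuationSubring (FK (M * q * q) K)}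
    (hleInf : ∀ i : Fin 3, ∀ x ∈ chart (M * q * q) A K (Chart3B.J3 M q hq hqM K)⁻¹, x ∈ V i)
    (hypInf : ChartHyp3 π ϖ V
      (Pc (chart (M * q * q) A K (Chart3B.J3 M q hq hqM K)⁻¹) ϖ V hleInf))
    (hV0 : V 0 = GaussV.V1 (M * q * q) A K hdvr)
    (hV1 : V 1 = GaussV.V2 (WQ2.wK2 M q hq hqM K) hdvr)
    (hϖ0 : ϖ 0 = algebraMap (OK A K) (FK (M * q * q) K) π)
    (hϖ1 : ϖ 1 = algebraMap (OK A K) (FK (M * q * q) K) π)
    (h2 : ∃ v ∈ V 2, Wit3.sE M q hq hqM K = ϖ 2 * v)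
    (hμ : WQ2.jqK2 M q hq hqM K * (jK (M * q * q) K)⁻¹ ^ q ∈
      chart (M * q * q) A K (Chart3B.J3 M q hq hqM K)⁻¹)
    (hμ₂ : WQ2.jqqK2 M q hq hqM K * (WQ2.jqK2 M q hq hqM K)⁻¹ ^ q ∈
      chart (M * q * q) A K (Chart3B.J3 M q hq hqM K)⁻¹) :
    ∀ n : Ideal (chart (M * q * q) A K (Chart3B.J3 M q hq hqM K)⁻¹), n.IsMaximal →
      algebraMap (OK A K) (chart (M * q * q) A K (Chart3B.J3 M q hq hqM K)⁻¹) π ∈ n →
      ChartGlueInst.CuspPt (Chart3B.J3 M q hq hqM K) n →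
      ∀ i j : Fin 3,
        Pc (chart (M * q * q) A K (Chart3B.J3 M q hq hqM K)⁻¹) ϖ V hleInf i ≤ n →
        Pc (chart (M * q * q) A K (Chart3B.J3 M q hq hqM K)⁻¹) ϖ V hleInf j ≤ n → i = j :=
  fun n hn hπn hD =>
    CuspOne.one_branch_max M q hq hqM A K hdvr hA hπ hypInf hV0 hV1 hϖ0 hϖ1 h2 hμ hμ₂ n hn hπn hD

/-- **The binder `htripleInf` of `Model3Leaves.model3_of_leaves`, VERBATIM at `t := J3`**, from
`htriple0` (chart `J3`; [Inc3]) and the two chart memberships of [CUSP-a]: the non-cuspidal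
points come from `chart J3` by the gluing, the cusps are one-branch points. -/
theorem htripleInf_J3 [hdvr : IsDiscreteValuationRing (OK A K)]
    [IsAlgClosed (IsLocalRing.ResidueField (OK A K))] (hA : A.LiesOverPrime q)
    {π : OK A K} (hπ : Irreducible π) {ϖ : Fin 3 → FK (M * q * q) K}
    {V : Fin 3 → ValuationSubring (FK (M * q * q) K)}
    (hle0 : ∀ i : Fin 3, ∀ x ∈ chart (M * q * q) A K (Chart3B.J3 M q hq hqM K), x ∈ V i)
    (hleInf : ∀ i : Fin 3, ∀ x ∈ chart (M * q * q) A K (Chart3B.J3 M q hq hqM K)⁻¹, x ∈ V i)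
    (hypInf : ChartHyp3 π ϖ V
      (Pc (chart (M * q * q) A K (Chart3B.J3 M q hq hqM K)⁻¹) ϖ V hleInf))
    (hV0 : V 0 = GaussV.V1 (M * q * q) A K hdvr)
    (hV1 : V 1 = GaussV.V2 (WQ2.wK2 M q hq hqM K) hdvr)
    (hϖ0 : ϖ 0 = algebraMap (OK A K) (FK (M * q * q) K) π)
    (hϖ1 : ϖ 1 = algebraMap (OK A K) (FK (M * q * q) K) π)
    (h2 : ∃ v ∈ V 2, Wit3.sE M q hq hqM K = ϖ 2 * v)
    (hμ : WQ2.jqK2 M q hq hqM K * (jK (M * q * q) K)⁻¹ ^ q ∈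
      chart (M * q * q) A K (Chart3B.J3 M q hq hqM K)⁻¹)
    (hμ₂ : WQ2.jqqK2 M q hq hqM K * (WQ2.jqK2 M q hq hqM K)⁻¹ ^ q ∈
      chart (M * q * q) A K (Chart3B.J3 M q hq hqM K)⁻¹)
    (htriple0 : ∀ n : Ideal (chart (M * q * q) A K (Chart3B.J3 M q hq hqM K)), n.IsMaximal →
      algebraMap (OK A K) (chart (M * q * q) A K (Chart3B.J3 M q hq hqM K)) π ∈ n →
      Pc (chart (M * q * q) A K (Chart3B.J3 M q hq hqM K)) ϖ V hle0 0 ≤ n →
      Pc (chart (M * q * q) A K (Chart3B.J3 M q hq hqM K)) ϖ V hle0 1 ≤ n →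
      Pc (chart (M * q * q) A K (Chart3B.J3 M q hq hqM K)) ϖ V hle0 2 ≤ n) :
    ∀ n : Ideal (chart (M * q * q) A K (Chart3B.J3 M q hq hqM K)⁻¹), n.IsMaximal →
      algebraMap (OK A K) (chart (M * q * q) A K (Chart3B.J3 M q hq hqM K)⁻¹) π ∈ n →
      Pc (chart (M * q * q) A K (Chart3B.J3 M q hq hqM K)⁻¹) ϖ V hleInf 0 ≤ n →
      Pc (chart (M * q * q) A K (Chart3B.J3 M q hq hqM K)⁻¹) ϖ V hleInf 1 ≤ n →
      Pc (chart (M * q * q) A K (Chart3B.J3 M q hq hqM K)⁻¹) ϖ V hleInf 2 ≤ n :=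
  ChartGlueInst.htripleInf_of_one ϖ V hle0 hleInf (Chart3B.J3_ne_zero M q hq hqM K) π hπ
    htriple0 (hone_J3 M q hq hqM A K hdvr hA hπ hleInf hypInf hV0 hV1 hϖ0 hϖ1 h2 hμ hμ₂)

/-- **The binder `hB1_Inf` of `Model3Leaves.model3_of_leaves`, VERBATIM at `t := J3`**, from
`hB1_0` (chart `J3`) and [N10] (the same statement at the cusps of `chart J3⁻¹`). -/
theorem hB1Inf_J3 [IsDiscreteValuationRing (OK A K)]
    [IsAlgClosed (IsLocalRing.ResidueField (OK A K))]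
    {π : OK A K} (hπ : Irreducible π) {ϖ : Fin 3 → FK (M * q * q) K}
    {V : Fin 3 → ValuationSubring (FK (M * q * q) K)}
    (hle0 : ∀ i : Fin 3, ∀ x ∈ chart (M * q * q) A K (Chart3B.J3 M q hq hqM K), x ∈ V i)
    (hleInf : ∀ i : Fin 3, ∀ x ∈ chart (M * q * q) A K (Chart3B.J3 M q hq hqM K)⁻¹, x ∈ V i)
    (hB1_0 : ∀ n : Ideal (chart (M * q * q) A K (Chart3B.J3 M q hq hqM K)), n.IsMaximal →
      algebraMap (OK A K) (chart (M * q * q) A K (Chart3B.J3 M q hq hqM K)) π ∈ n →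
      Pc (chart (M * q * q) A K (Chart3B.J3 M q hq hqM K)) ϖ V hle0 2 ≤ n →
      ∃ i : Fin 3, Pc (chart (M * q * q) A K (Chart3B.J3 M q hq hqM K)) ϖ V hle0 i ≤ n ∧
        ∃ g ∈ Pc (chart (M * q * q) A K (Chart3B.J3 M q hq hqM K)) ϖ V hle0 i,
          ∀ y ∈ Pc (chart (M * q * q) A K (Chart3B.J3 M q hq hqM K)) ϖ V hle0 i,
            ∃ s : chart (M * q * q) A K (Chart3B.J3 M q hq hqM K), s ∉ n ∧
              ∃ c : chart (M * q * q) A K (Chart3B.J3 M q hq hqM K), s * y = c * g)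
    (hcusp2 : ∀ n : Ideal (chart (M * q * q) A K (Chart3B.J3 M q hq hqM K)⁻¹), n.IsMaximal →
      algebraMap (OK A K) (chart (M * q * q) A K (Chart3B.J3 M q hq hqM K)⁻¹) π ∈ n →
      (⟨(Chart3B.J3 M q hq hqM K)⁻¹, Chart3B.J3_inv_mem_chart M q hq hqM A K⟩ :
        chart (M * q * q) A K (Chart3B.J3 M q hq hqM K)⁻¹) ∈ n →
      Pc (chart (M * q * q) A K (Chart3B.J3 M q hq hqM K)⁻¹) ϖ V hleInf 2 ≤ n →
      ∃ i : Fin 3, Pc (chart (M * q * q) A K (Chart3B.J3 M q hq hqM K)⁻¹) ϖ V hleInf i ≤ n ∧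
        ∃ g ∈ Pc (chart (M * q * q) A K (Chart3B.J3 M q hq hqM K)⁻¹) ϖ V hleInf i,
          ∀ y ∈ Pc (chart (M * q * q) A K (Chart3B.J3 M q hq hqM K)⁻¹) ϖ V hleInf i,
            ∃ s : chart (M * q * q) A K (Chart3B.J3 M q hq hqM K)⁻¹, s ∉ n ∧
              ∃ c : chart (M * q * q) A K (Chart3B.J3 M q hq hqM K)⁻¹, s * y = c * g) :
    ∀ n : Ideal (chart (M * q * q) A K (Chart3B.J3 M q hq hqM K)⁻¹), n.IsMaximal →
      algebraMap (OK A K) (chart (M * q * q) A K (Chart3B.J3 M q hq hqM K)⁻¹) π ∈ n →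
      Pc (chart (M * q * q) A K (Chart3B.J3 M q hq hqM K)⁻¹) ϖ V hleInf 2 ≤ n →
      ∃ i : Fin 3, Pc (chart (M * q * q) A K (Chart3B.J3 M q hq hqM K)⁻¹) ϖ V hleInf i ≤ n ∧
        ∃ g ∈ Pc (chart (M * q * q) A K (Chart3B.J3 M q hq hqM K)⁻¹) ϖ V hleInf i,
          ∀ y ∈ Pc (chart (M * q * q) A K (Chart3B.J3 M q hq hqM K)⁻¹) ϖ V hleInf i,
            ∃ s : chart (M * q * q) A K (Chart3B.J3 M q hq hqM K)⁻¹, s ∉ n ∧
              ∃ c : chart (M * q * q) A K (Chart3B.J3 M q hq hqM K)⁻¹, s * y = c * g :=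
  ChartGlueInst.hB1Inf_of_glue ϖ V hle0 hleInf (Chart3B.J3_ne_zero M q hq hqM K) π hπ hB1_0
    hcusp2

/-- **The field `princ` of `chart J3⁻¹`** from the field `princ` of `chart J3`, the two chart
memberships of [CUSP-a] and [N10] at the cusps on `P 2` (route `Princ3Cases`: no [TRIPLE]). -/
theorem princInf_J3 [hdvr : IsDiscreteValuationRing (OK A K)]
    [IsAlgClosed (IsLocalRing.ResidueField (OK A K))] (hA : A.LiesOverPrime q)
    {π : OK A K} (hπ : Irreducible π) {e : Fin 3 → ℕ} {ϖ : Fin 3 → FK (M * q * q) K}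
    {V : Fin 3 → ValuationSubring (FK (M * q * q) K)}
    (val : ValHyp3 (algebraMap (OK A K) (FK (M * q * q) K) π) e ϖ V)
    (hp0 : algebraMap (OK A K) (FK (M * q * q) K) π ≠ 0) (he0 : e 0 = 1) (he1 : e 1 = 1)
    (hle0 : ∀ i : Fin 3, ∀ x ∈ chart (M * q * q) A K (Chart3B.J3 M q hq hqM K), x ∈ V i)
    (hleInf : ∀ i : Fin 3, ∀ x ∈ chart (M * q * q) A K (Chart3B.J3 M q hq hqM K)⁻¹, x ∈ V i)
    (hypInf : ChartHyp3 π ϖ V
      (Pc (chart (M * q * q) A K (Chart3B.J3 M q hq hqM K)⁻¹) ϖ V hleInf))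
    (hV0 : V 0 = GaussV.V1 (M * q * q) A K hdvr)
    (hV1 : V 1 = GaussV.V2 (WQ2.wK2 M q hq hqM K) hdvr)
    (hϖ0 : ϖ 0 = algebraMap (OK A K) (FK (M * q * q) K) π)
    (hϖ1 : ϖ 1 = algebraMap (OK A K) (FK (M * q * q) K) π)
    (h2 : ∃ v ∈ V 2, Wit3.sE M q hq hqM K = ϖ 2 * v)
    (hμ : WQ2.jqK2 M q hq hqM K * (jK (M * q * q) K)⁻¹ ^ q ∈
      chart (M * q * q) A K (Chart3B.J3 M q hq hqM K)⁻¹)
    (hμ₂ : WQ2.jqqK2 M q hq hqM K * (WQ2.jqK2 M q hq hqM K)⁻¹ ^ q ∈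
      chart (M * q * q) A K (Chart3B.J3 M q hq hqM K)⁻¹)
    (hprinc0 : ∀ n : Ideal (chart (M * q * q) A K (Chart3B.J3 M q hq hqM K)), n.IsMaximal →
      algebraMap (OK A K) (chart (M * q * q) A K (Chart3B.J3 M q hq hqM K)) π ∈ n →
      ∃ i : Fin 3, Pc (chart (M * q * q) A K (Chart3B.J3 M q hq hqM K)) ϖ V hle0 i ≤ n ∧
        ∃ g ∈ Pc (chart (M * q * q) A K (Chart3B.J3 M q hq hqM K)) ϖ V hle0 i,
          ∀ y ∈ Pc (chart (M * q * q) A K (Chart3B.J3 M q hq hqM K)) ϖ V hle0 i,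
            ∃ s : chart (M * q * q) A K (Chart3B.J3 M q hq hqM K), s ∉ n ∧
              ∃ c : chart (M * q * q) A K (Chart3B.J3 M q hq hqM K), s * y = c * g)
    (hcusp2 : ∀ n : Ideal (chart (M * q * q) A K (Chart3B.J3 M q hq hqM K)⁻¹), n.IsMaximal →
      algebraMap (OK A K) (chart (M * q * q) A K (Chart3B.J3 M q hq hqM K)⁻¹) π ∈ n →
      (⟨(Chart3B.J3 M q hq hqM K)⁻¹, Chart3B.J3_inv_mem_chart M q hq hqM A K⟩ :
        chart (M * q * q) A K (Chart3B.J3 M q hq hqM K)⁻¹) ∈ n →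
      Pc (chart (M * q * q) A K (Chart3B.J3 M q hq hqM K)⁻¹) ϖ V hleInf 2 ≤ n →
      ∃ i : Fin 3, Pc (chart (M * q * q) A K (Chart3B.J3 M q hq hqM K)⁻¹) ϖ V hleInf i ≤ n ∧
        ∃ g ∈ Pc (chart (M * q * q) A K (Chart3B.J3 M q hq hqM K)⁻¹) ϖ V hleInf i,
          ∀ y ∈ Pc (chart (M * q * q) A K (Chart3B.J3 M q hq hqM K)⁻¹) ϖ V hleInf i,
            ∃ s : chart (M * q * q) A K (Chart3B.J3 M q hq hqM K)⁻¹, s ∉ n ∧
              ∃ c : chart (M * q * q) A K (Chart3B.J3 M q hq hqM K)⁻¹, s * y = c * g) :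
    ∀ n : Ideal (chart (M * q * q) A K (Chart3B.J3 M q hq hqM K)⁻¹), n.IsMaximal →
      algebraMap (OK A K) (chart (M * q * q) A K (Chart3B.J3 M q hq hqM K)⁻¹) π ∈ n →
      ∃ i : Fin 3, Pc (chart (M * q * q) A K (Chart3B.J3 M q hq hqM K)⁻¹) ϖ V hleInf i ≤ n ∧
        ∃ g ∈ Pc (chart (M * q * q) A K (Chart3B.J3 M q hq hqM K)⁻¹) ϖ V hleInf i,
          ∀ y ∈ Pc (chart (M * q * q) A K (Chart3B.J3 M q hq hqM K)⁻¹) ϖ V hleInf i,
            ∃ s : chart (M * q * q) A K (Chart3B.J3 M q hq hqM K)⁻¹, s ∉ n ∧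
              ∃ c : chart (M * q * q) A K (Chart3B.J3 M q hq hqM K)⁻¹, s * y = c * g :=
  princInf_of_glue (Chart3B.J3_ne_zero M q hq hqM K) hπ val hp0 he0 he1 hle0 hleInf hypInf
    hprinc0
    (fun n hn hπn hD h01 => absurd
      (hone_J3 M q hq hqM A K hdvr hA hπ hleInf hypInf hV0 hV1 hϖ0 hϖ1 h2 hμ hμ₂ n hn hπn hD
        0 1 h01.1 h01.2) (by decide))
    hcusp2

/-- **[Model3] from the leaves at the coordinate `J3`**: `Model3Leaves.model3_of_leaves` at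
`N = M q q`, `t = J3`, with its two binders `htripleInf`, `hB1_Inf` replaced by
* the shape of the first two branches (`V 0 = W1`, `V 1 = W2`, `ϖ 0 = ϖ 1 = π`) and
  `s = j_{q²} - j ∈ ϖ 2 (V 2)` (all `rfl` / trivial for the objects of record),
* [CUSP-a]: the chart memberships of `j_q / j^q` and `j_{q²} / j_q^q`,
* [N10]: at a cusp of `chart J3⁻¹` on `P 2` some vertical prime is locally principal. -/
def model3_of_leaves_J3 {M' : ℕ} [hdvr : IsDiscreteValuationRing (OK A K)]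
    [IsAlgClosed (IsLocalRing.ResidueField (OK A K))] (hA : A.LiesOverPrime q)
    (π : OK A K) (e : Fin 3 → ℕ) (ϖ : Fin 3 → FK (M * q * q) K)
    (V : Fin 3 → ValuationSubring (FK (M * q * q) K))
    (irr : Irreducible π)
    -- [Val3]
    (val : ValHyp3 (algebraMap (OK A K) (FK (M * q * q) K) π) e ϖ V) (he0 : e 0 = 1) (he1 : e 1 = 1)
    (hp0 : algebraMap (OK A K) (FK (M * q * q) K) π ≠ 0)
    -- [Chart3]
    (hfin0 : ∃ s : Finset (FK (M * q * q) K), (chart (M * q * q) A K (Chart3B.J3 M q hq hqM K) : Set (FK (M * q * q) K)) ⊆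
      Submodule.span (Algebra.adjoin (OK A K) {Chart3B.J3 M q hq hqM K}) (s : Set (FK (M * q * q) K)))
    (hle0 : ∀ i : Fin 3, ∀ x ∈ chart (M * q * q) A K (Chart3B.J3 M q hq hqM K), x ∈ V i)
    (hleInf : ∀ i : Fin 3, ∀ x ∈ chart (M * q * q) A K (Chart3B.J3 M q hq hqM K)⁻¹, x ∈ V i)
    (hnoeth0 : IsNoetherianRing (chart (M * q * q) A K (Chart3B.J3 M q hq hqM K)))
    (hfrac0 : IsFractionRing (chart (M * q * q) A K (Chart3B.J3 M q hq hqM K)) (FK (M * q * q) K))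
    (hintcl0 : IsIntegrallyClosed (chart (M * q * q) A K (Chart3B.J3 M q hq hqM K)))
    (hnoethInf : IsNoetherianRing (chart (M * q * q) A K (Chart3B.J3 M q hq hqM K)⁻¹))
    (hfracInf : IsFractionRing (chart (M * q * q) A K (Chart3B.J3 M q hq hqM K)⁻¹) (FK (M * q * q) K))
    (hintclInf : IsIntegrallyClosed (chart (M * q * q) A K (Chart3B.J3 M q hq hqM K)⁻¹))
    -- [Red3]
    (hdesc0 : ∀ z : FK (M * q * q) K, (∀ i : Fin 3, z ∈ V i) →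
      algebraMap (OK A K) (FK (M * q * q) K) π * z ∈ chart (M * q * q) A K (Chart3B.J3 M q hq hqM K) → z ∈ chart (M * q * q) A K (Chart3B.J3 M q hq hqM K))
    (hdescInf : ∀ z : FK (M * q * q) K, (∀ i : Fin 3, z ∈ V i) →
      algebraMap (OK A K) (FK (M * q * q) K) π * z ∈ chart (M * q * q) A K (Chart3B.J3 M q hq hqM K)⁻¹ → z ∈ chart (M * q * q) A K (Chart3B.J3 M q hq hqM K)⁻¹)
    -- [NVal (T0)] + [Wit3], for `chart (Chart3B.J3 M q hq hqM K)` only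
    (hT0 : ∀ z : FK (M * q * q) K, (∀ i : Fin 3, z ∈ V i) →
      ∃ r ∈ chart (M * q * q) A K (Chart3B.J3 M q hq hqM K), r * z ∈ chart (M * q * q) A K (Chart3B.J3 M q hq hqM K) ∧ r ≠ 0 ∧ ∀ i : Fin 3, r⁻¹ ∈ V i)
    (x : Fin 3 → FK (M * q * q) K) (hx : ∀ i : Fin 3, x i ∈ chart (M * q * q) A K (Chart3B.J3 M q hq hqM K))
    (hxP : ∀ i j : Fin 3, i ≠ j → ∃ v ∈ V j, x i = ϖ j * v)
    (hxU : ∀ i : Fin 3, x i ≠ 0 ∧ (x i)⁻¹ ∈ V i)
    -- [WQ2]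
    (w : FK (M * q * q) K ≃+* FK (M * q * q) K)
    (hV : ∀ y : FK (M * q * q) K, y ∈ V 1 ↔ w y ∈ V 0) (hϖ : w (ϖ 1) = ϖ 0)
    (hwR0 : ∀ y ∈ chart (M * q * q) A K (Chart3B.J3 M q hq hqM K), w y ∈ chart (M * q * q) A K (Chart3B.J3 M q hq hqM K))
    (hwR0' : ∀ y ∈ chart (M * q * q) A K (Chart3B.J3 M q hq hqM K), w.symm y ∈ chart (M * q * q) A K (Chart3B.J3 M q hq hqM K))
    (hwRInf : ∀ y ∈ chart (M * q * q) A K (Chart3B.J3 M q hq hqM K)⁻¹, w y ∈ chart (M * q * q) A K (Chart3B.J3 M q hq hqM K)⁻¹)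
    (hwRInf' : ∀ y ∈ chart (M * q * q) A K (Chart3B.J3 M q hq hqM K)⁻¹, w.symm y ∈ chart (M * q * q) A K (Chart3B.J3 M q hq hqM K)⁻¹)
    -- [Level3]
    (al : FK M' K →+* FK (M * q * q) K)
    (hal : ∀ c : OK A K, al (algebraMap (OK A K) (FK M' K) c) = algebraMap (OK A K) (FK (M * q * q) K) c)
    (RM0 RMInf : Subalgebra (OK A K) (FK M' K))
    (hmap0 : ∀ y ∈ RM0, al y ∈ chart (M * q * q) A K (Chart3B.J3 M q hq hqM K))
    (hmapInf : ∀ y ∈ RMInf, al y ∈ chart (M * q * q) A K (Chart3B.J3 M q hq hqM K)⁻¹)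
    (hI0 : IgusaAt M' A K RM0) (hIInf : IgusaAt M' A K RMInf)
    (hB0_0 : ∀ y ∈ chart (M * q * q) A K (Chart3B.J3 M q hq hqM K), ∃ y' ∈ RM0, ∃ v ∈ V 0, y - al y' = ϖ 0 * v)
    (hB2_0 : ∀ y ∈ chart (M * q * q) A K (Chart3B.J3 M q hq hqM K), ∃ y' ∈ RM0, ∃ v ∈ V 2, y - al y' = ϖ 2 * v)
    (hB0_Inf : ∀ y ∈ chart (M * q * q) A K (Chart3B.J3 M q hq hqM K)⁻¹, ∃ y' ∈ RMInf, ∃ v ∈ V 0, y - al y' = ϖ 0 * v)
    (hB2_Inf : ∀ y ∈ chart (M * q * q) A K (Chart3B.J3 M q hq hqM K)⁻¹, ∃ y' ∈ RMInf, ∃ v ∈ V 2, y - al y' = ϖ 2 * v)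
    (hne0 : ∀ (c : OK A K) (i : Fin 3), ¬ ∃ v ∈ V i,
      (Chart3B.J3 M q hq hqM K) - algebraMap (OK A K) (FK (M * q * q) K) c = ϖ i * v)
    (hneInf : ∀ (c : OK A K) (i : Fin 3), ¬ ∃ v ∈ V i,
      (Chart3B.J3 M q hq hqM K)⁻¹ - algebraMap (OK A K) (FK (M * q * q) K) c = ϖ i * v)
    -- [Inc3] ([TRIPLE]) and [B1], both charts
    (htriple0 : ∀ n : Ideal (chart (M * q * q) A K (Chart3B.J3 M q hq hqM K)), n.IsMaximal →
      algebraMap (OK A K) (chart (M * q * q) A K (Chart3B.J3 M q hq hqM K)) π ∈ n →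
      Pc (chart (M * q * q) A K (Chart3B.J3 M q hq hqM K)) ϖ V hle0 0 ≤ n → Pc (chart (M * q * q) A K (Chart3B.J3 M q hq hqM K)) ϖ V hle0 1 ≤ n →
      Pc (chart (M * q * q) A K (Chart3B.J3 M q hq hqM K)) ϖ V hle0 2 ≤ n)
    (hB1_0 : ∀ n : Ideal (chart (M * q * q) A K (Chart3B.J3 M q hq hqM K)), n.IsMaximal →
      algebraMap (OK A K) (chart (M * q * q) A K (Chart3B.J3 M q hq hqM K)) π ∈ n → Pc (chart (M * q * q) A K (Chart3B.J3 M q hq hqM K)) ϖ V hle0 2 ≤ n →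
      ∃ i : Fin 3, Pc (chart (M * q * q) A K (Chart3B.J3 M q hq hqM K)) ϖ V hle0 i ≤ n ∧
        ∃ g ∈ Pc (chart (M * q * q) A K (Chart3B.J3 M q hq hqM K)) ϖ V hle0 i, ∀ y ∈ Pc (chart (M * q * q) A K (Chart3B.J3 M q hq hqM K)) ϖ V hle0 i,
          ∃ s : chart (M * q * q) A K (Chart3B.J3 M q hq hqM K), s ∉ n ∧ ∃ c : chart (M * q * q) A K (Chart3B.J3 M q hq hqM K), s * y = c * g)
    -- the first two branches, and `s ∈ ϖ 2 (V 2)`
    (hV0 : V 0 = GaussV.V1 (M * q * q) A K hdvr)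
    (hV1 : V 1 = GaussV.V2 (WQ2.wK2 M q hq hqM K) hdvr)
    (hϖ0 : ϖ 0 = algebraMap (OK A K) (FK (M * q * q) K) π)
    (hϖ1 : ϖ 1 = algebraMap (OK A K) (FK (M * q * q) K) π)
    (h2 : ∃ v ∈ V 2, Wit3.sE M q hq hqM K = ϖ 2 * v)
    -- [CUSP-a]
    (hμ : WQ2.jqK2 M q hq hqM K * (jK (M * q * q) K)⁻¹ ^ q ∈
      chart (M * q * q) A K (Chart3B.J3 M q hq hqM K)⁻¹)
    (hμ₂ : WQ2.jqqK2 M q hq hqM K * (WQ2.jqK2 M q hq hqM K)⁻¹ ^ q ∈
      chart (M * q * q) A K (Chart3B.J3 M q hq hqM K)⁻¹)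
    -- [N10]
    (hcusp2 : ChartHyp3 π ϖ V (Pc (chart (M * q * q) A K (Chart3B.J3 M q hq hqM K)⁻¹) ϖ V hleInf) →
      ∀ n : Ideal (chart (M * q * q) A K (Chart3B.J3 M q hq hqM K)⁻¹), n.IsMaximal →
      algebraMap (OK A K) (chart (M * q * q) A K (Chart3B.J3 M q hq hqM K)⁻¹) π ∈ n →
      (⟨(Chart3B.J3 M q hq hqM K)⁻¹, Chart3B.J3_inv_mem_chart M q hq hqM A K⟩ :
        chart (M * q * q) A K (Chart3B.J3 M q hq hqM K)⁻¹) ∈ n →
      Pc (chart (M * q * q) A K (Chart3B.J3 M q hq hqM K)⁻¹) ϖ V hleInf 2 ≤ n →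
      ∃ i : Fin 3, Pc (chart (M * q * q) A K (Chart3B.J3 M q hq hqM K)⁻¹) ϖ V hleInf i ≤ n ∧
        ∃ g ∈ Pc (chart (M * q * q) A K (Chart3B.J3 M q hq hqM K)⁻¹) ϖ V hleInf i,
          ∀ y ∈ Pc (chart (M * q * q) A K (Chart3B.J3 M q hq hqM K)⁻¹) ϖ V hleInf i,
            ∃ s : chart (M * q * q) A K (Chart3B.J3 M q hq hqM K)⁻¹, s ∉ n ∧
              ∃ c : chart (M * q * q) A K (Chart3B.J3 M q hq hqM K)⁻¹, s * y = c * g) :
    Model3 (M * q * q) A K π e ϖ V (Chart3B.J3 M q hq hqM K) :=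
  model3_of_leaves_cusp π e ϖ V (Chart3B.J3 M q hq hqM K) irr val he0 he1 hp0 (Chart3B.J3_ne_zero M q hq hqM K) hfin0 hle0 hleInf hnoeth0 hfrac0 hintcl0 hnoethInf hfracInf
    hintclInf hdesc0 hdescInf hT0 x hx hxP hxU w hV hϖ hwR0 hwR0' hwRInf hwRInf' al hal RM0 RMInf
    hmap0 hmapInf hI0 hIInf hB0_0 hB2_0 hB0_Inf hB2_Inf hne0 hneInf htriple0 hB1_0
    (fun hyp n hn hπn hD h01 => absurd
      (hone_J3 M q hq hqM A K hdvr hA irr hleInf hyp hV0 hV1 hϖ0 hϖ1 h2 hμ hμ₂ n hn hπn hD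
        0 1 h01.1 h01.2) (by decide))
    hcusp2

end J3

end

end Fermat.Agent.S36.InfAsm
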