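/-
S36 — InvJ.lean (helper40, [TOP36] package lead).  THE INTERFACE between the top of S36 and the
geometric block, compiled.

* `InvKill M q p`   — **TOP ↔ GEOM, torsion form** (the statement `(b)` of the blueprint): there is
                      a constant `c ≠ 0` such that every `pⁿ`-torsion class of `J₀(M q)` which is
                      `q`-new (`PushPic.newKer M q = ker α_* ∩ ker β_*`) and fixed by an inertia
                      group at `q` is killed by `c` (`c` independent of `n`).  Used by the top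
                      for `M = M' q`, `q ∤ M'`, `q ≠ p`.
* `InvFun M q m c`  — **GEOM, function form**: a function `f ≠ 0` of `F̄_{M q}`, fixed by an
                      inertia group `I` at `q`, whose divisor is divisible by `m` and whose two
                      degeneracy norms are `a · h ^ m` with `h`, `a` fixed by `I`, satisfies
                      `f ^ c = a · g ^ m`.
* `exists_fixed_root` — [NormFix] an `I`-fixed function of the form `a · h ^ m` is `a' · h' ^ m`
                      with `h'`, `a'` fixed by `I` (normalise the leading coefficient of `h`).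
* `invKill_of_invFun` — `(∀ n, InvFun M q (p ^ n) c) ⟹ InvKill M q p`, through the landed
                      `H90.exists_invariant_kummer`, `PushPic.exists_norms_of_mem_newKer` and
                      `NormGal`.
-/
import Mathlib
import Fermat.Agent.S35.PushPic
import Fermat.Agent.S35.NormGal
import Fermat.Agent.S36.H90

set_option autoImplicit false

open ModularCurve AlgebraicCurve HahnSeries

namespace Fermat.Agent.S36.InvJ

open Fermat.Agent.S18.Arith (Qb)
open Fermat.Agent.S34.UPlan (gal)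
open Fermat.Agent.S35
open Fermat.Agent.S36.H90 (lc lc_gal lc_algebraMap gal_algebraMap eq_of_pow_eq_pow)

noncomputable section

set_option synthInstance.maxHeartbeats 400000

/-- **TOP ↔ GEOM, torsion form**: the `q`-new `p`-power torsion of `J₀(M q)` has no inertia
invariants at `q`, up to a bounded constant. -/
def InvKill (M q p : ℕ) [NeZero M] [NeZero q] : Prop :=
  ∃ c : ℕ, c ≠ 0 ∧ ∀ (n : ℕ) (P : ValuationSubring Qb), P.LiesOverPrime q →
    ∀ x : JZero (M * q), p ^ n • x = 0 → x ∈ PushPic.newKer M q →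
      (∀ τ ∈ P.inertiaSubgroupIn ℚ, τ • x = x) → c • x = 0

/-- **GEOM, function form** (exponent `m`, constant `c`). -/
def InvFun (M q m c : ℕ) [NeZero M] [NeZero q] : Prop :=
  ∀ A : ValuationSubring Qb, A.LiesOverPrime q →
  ∀ f : modularFunctionFieldBar (M * q), f ≠ 0 →
    (∀ τ ∈ A.inertiaSubgroupIn ℚ, gal (M * q) τ • f = f) →
    (∀ P : Place Qb (modularFunctionFieldBar (M * q)), (m : ℤ) ∣ P.ord f) →
    (∃ (h : modularFunctionFieldBar M) (a : Qb), h ≠ 0 ∧ a ≠ 0 ∧
      (∀ τ ∈ A.inertiaSubgroupIn ℚ, gal M τ • h = h) ∧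
      (∀ τ ∈ A.inertiaSubgroupIn ℚ, τ a = a) ∧
      PushPic.alphaNorm M q f = algebraMap Qb (modularFunctionFieldBar M) a * h ^ m) →
    (∃ (h : modularFunctionFieldBar M) (a : Qb), h ≠ 0 ∧ a ≠ 0 ∧
      (∀ τ ∈ A.inertiaSubgroupIn ℚ, gal M τ • h = h) ∧
      (∀ τ ∈ A.inertiaSubgroupIn ℚ, τ a = a) ∧
      PushPic.betaNorm M q f = algebraMap Qb (modularFunctionFieldBar M) a * h ^ m) →
    ∃ (g : modularFunctionFieldBar (M * q)) (a : Qb), g ≠ 0 ∧ a ≠ 0 ∧
      f ^ c = algebraMap Qb (modularFunctionFieldBar (M * q)) a * g ^ m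

/-- **[NormFix]**: an `I`-fixed function `F = a · h ^ m` is `a' · h' ^ m` with `h'` and `a'`
fixed by `I`. -/
theorem exists_fixed_root {N : ℕ} [NeZero N] (I : Subgroup (Qb ≃ₐ[ℚ] Qb)) {m : ℕ} (hm : m ≠ 0)
    (F h : modularFunctionFieldBar N) (a : Qb) (hh : h ≠ 0) (ha : a ≠ 0)
    (hF : F = algebraMap Qb (modularFunctionFieldBar N) a * h ^ m)
    (hfix : ∀ τ ∈ I, gal N τ • F = F) :
    ∃ (h' : modularFunctionFieldBar N) (a' : Qb), h' ≠ 0 ∧ a' ≠ 0 ∧
      (∀ τ ∈ I, gal N τ • h' = h') ∧ (∀ τ ∈ I, τ a' = a') ∧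
      F = algebraMap Qb (modularFunctionFieldBar N) a' * h' ^ m := by
  have hl0' : lc N h ≠ 0 := by
    rw [Ne, map_eq_zero]
    exact hh
  obtain ⟨l, hl⟩ : ∃ l : Qb, l = lc N h := ⟨_, rfl⟩
  have hl0 : l ≠ 0 := by rw [hl]; exact hl0'
  obtain ⟨h', hh'⟩ : ∃ h' : modularFunctionFieldBar N,
      h' = algebraMap Qb (modularFunctionFieldBar N) l⁻¹ * h := ⟨_, rfl⟩
  obtain ⟨a', ha'⟩ : ∃ a' : Qb, a' = a * l ^ m := ⟨_, rfl⟩
  have hh'0 : h' ≠ 0 := by
    rw [hh']
    exact mul_ne_zero ((map_ne_zero _).mpr (inv_ne_zero hl0)) hh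
  have ha'0 : a' ≠ 0 := by
    rw [ha']
    exact mul_ne_zero ha (pow_ne_zero m hl0)
  have hlc : lc N h' = 1 := by
    rw [hh', map_mul, lc_algebraMap, ← hl, inv_mul_cancel₀ hl0]
  have e1 : (algebraMap Qb (modularFunctionFieldBar N) l) ^ m *
      (algebraMap Qb (modularFunctionFieldBar N) l⁻¹) ^ m = 1 := by
    rw [← mul_pow, ← map_mul, mul_inv_cancel₀ hl0, map_one, one_pow]
  have hF' : F = algebraMap Qb (modularFunctionFieldBar N) a' * h' ^ m := by
    rw [hF, ha', hh', map_mul, map_pow, mul_pow, mul_assoc,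
      ← mul_assoc ((algebraMap Qb (modularFunctionFieldBar N) l) ^ m), e1, one_mul]
  have hlcF : lc N F = a' := by
    rw [hF', map_mul, lc_algebraMap, map_pow, hlc, one_pow, mul_one]
  have ha'fix : ∀ τ ∈ I, τ a' = a' := by
    intro τ hτ
    rw [← hlcF, ← lc_gal, hfix τ hτ]
  refine ⟨h', a', hh'0, ha'0, ?_, ha'fix, hF'⟩
  intro τ hτ
  have h1 : gal N τ • F = algebraMap Qb (modularFunctionFieldBar N) (τ a') *
      (gal N τ • h') ^ m := by
    rw [hF', smul_mul', gal_algebraMap, smul_pow']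
  rw [hfix τ hτ, ha'fix τ hτ] at h1
  have ha'F : algebraMap Qb (modularFunctionFieldBar N) a' ≠ 0 := (map_ne_zero _).mpr ha'0
  have h2 : (gal N τ • h') ^ m = h' ^ m := by
    apply mul_left_cancel₀ ha'F
    rw [← h1, ← hF']
  exact eq_of_pow_eq_pow hm h2 (by rw [lc_gal, hlc, map_one]) hlc

/-- **J-side, one exponent**: the function form at exponent `m` with constant `c` kills, by `c`,
every `q`-new `m`-torsion class of `J₀(M q)` fixed by an inertia group at `q`. -/
theorem smul_eq_zero_of_invFun (M q : ℕ) [NeZero M] [NeZero q] {m : ℕ} (hm : m ≠ 0) (c : ℕ)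
    (h : InvFun M q m c) (P : ValuationSubring Qb) (hP : P.LiesOverPrime q)
    (x : JZero (M * q)) (hx : m • x = 0) (hnew : x ∈ PushPic.newKer M q)
    (hinv : ∀ τ ∈ P.inertiaSubgroupIn ℚ, τ • x = x) : c • x = 0 := by
  have : NeZero (M * q) := ⟨Nat.mul_ne_zero (NeZero.ne M) (NeZero.ne q)⟩
  obtain ⟨f, D, hf, hD, hDx, hffix, -⟩ :=
    H90.exists_invariant_kummer (M * q) (P.inertiaSubgroupIn ℚ) hm x hx hinv
  have hnew' : Pic0.mk D ∈ PushPic.newKer M q := by rw [hDx]; exact hnew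
  obtain ⟨⟨hα, aα, hα0, aα0, hαeq⟩, ⟨hβ, aβ, hβ0, aβ0, hβeq⟩⟩ :=
    PushPic.exists_norms_of_mem_newKer M q D f hf hD hnew'
  have hαfix : ∀ τ ∈ P.inertiaSubgroupIn ℚ, gal M τ • PushPic.alphaNorm M q f
      = PushPic.alphaNorm M q f := by
    intro τ hτ
    have h1 := NormGal.norm_alpha_gal M q τ f
    have h2 : gal (M * q) τ • f = f := hffix τ hτ
    exact (h1.symm.trans (by
      show PushPic.alphaNorm M q (gal (M * q) τ • f) = PushPic.alphaNorm M q f
      rw [h2]))
  have hβfix : ∀ τ ∈ P.inertiaSubgroupIn ℚ, gal M τ • PushPic.betaNorm M q f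
      = PushPic.betaNorm M q f := by
    intro τ hτ
    have h1 := NormGal.norm_beta_gal M q τ f
    have h2 : gal (M * q) τ • f = f := hffix τ hτ
    exact (h1.symm.trans (by
      show PushPic.betaNorm M q (gal (M * q) τ • f) = PushPic.betaNorm M q f
      rw [h2]))
  obtain ⟨hα', aα', hα'0, aα'0, hα'fix, aα'fix, hα'eq⟩ :=
    exists_fixed_root (P.inertiaSubgroupIn ℚ) hm _ hα aα hα0 aα0 hαeq hαfix
  obtain ⟨hβ', aβ', hβ'0, aβ'0, hβ'fix, aβ'fix, hβ'eq⟩ :=
    exists_fixed_root (P.inertiaSubgroupIn ℚ) hm _ hβ aβ hβ0 aβ0 hβeq hβfix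
  obtain ⟨g, a, hg0, ha0, hfg⟩ := h P hP f hf hffix
    (fun Q => ⟨(D : Divisor Qb (modularFunctionFieldBar (M * q))) Q, (hD Q).symm⟩)
    ⟨hα', aα', hα'0, aα'0, hα'fix, aα'fix, hα'eq⟩
    ⟨hβ', aβ', hβ'0, aβ'0, hβ'fix, aβ'fix, hβ'eq⟩
  -- `c • D = div g`
  have haF : algebraMap Qb (modularFunctionFieldBar (M * q)) a ≠ 0 := (map_ne_zero _).mpr ha0
  have hprin : Divisor.IsPrincipal
      ((c • D : Divisor.degZero (K := Qb) (F := modularFunctionFieldBar (M * q))) :
        Divisor Qb (modularFunctionFieldBar (M * q))) := by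
    refine ⟨g, hg0, fun Q => ?_⟩
    have h1 : Q.ord (f ^ c)
        = Q.ord (algebraMap Qb (modularFunctionFieldBar (M * q)) a * g ^ m) := by
      rw [hfg]
    rw [Fermat.Agent.S24.ord_pow, Q.ord_mul haF (pow_ne_zero _ hg0),
      Fermat.Agent.S24.ord_algebraMap, zero_add, Fermat.Agent.S24.ord_pow, ← hD Q] at h1
    have h2 : (m : ℤ) ≠ 0 := by exact_mod_cast hm
    have h3 : (m : ℤ) * ((c : ℤ) * (D : Divisor Qb (modularFunctionFieldBar (M * q))) Q)
        = (m : ℤ) * Q.ord g := by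
      rw [← h1]; ring
    have h4 := mul_left_cancel₀ h2 h3
    rw [← h4]
    simp [Finsupp.smul_apply]
  have hzero : (Pic0.mk (c • D) : JZero (M * q)) = 0 := by
    refine (QuotientAddGroup.eq_zero_iff _).2 ?_
    exact hprin
  rw [← hDx]
  exact hzero

/-- **J-side of the interface, all exponents prime to `q`** (the shape of the architect's
`InertTorsStatement`, at level `M * q`): -/
theorem forall_smul_eq_zero_of_invFun (M q : ℕ) [NeZero M] [NeZero q] (c : ℕ)
    (h : ∀ m : ℕ, m ≠ 0 → ¬ q ∣ m → InvFun M q m c) :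
    ∀ m : ℕ, m ≠ 0 → ¬ q ∣ m → ∀ A : ValuationSubring Qb, A.LiesOverPrime q →
      ∀ x : JZero (M * q), m • x = 0 → x ∈ PushPic.newKer M q →
        (∀ τ ∈ A.inertiaSubgroupIn ℚ, τ • x = x) → c • x = 0 :=
  fun m hm hqm A hA x hx hnew hinv =>
    smul_eq_zero_of_invFun M q hm c (h m hm hqm) A hA x hx hnew hinv

/-- **J-side of the interface**: the function form at every exponent `pⁿ`, with one constant `c`,
gives the torsion form. -/
theorem invKill_of_invFun (M q p : ℕ) [NeZero M] [NeZero q] (hp : p ≠ 0) (c : ℕ) (hc : c ≠ 0)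
    (h : ∀ n : ℕ, InvFun M q (p ^ n) c) : InvKill M q p :=
  ⟨c, hc, fun n P hP x hx hnew hinv =>
    smul_eq_zero_of_invFun M q (pow_ne_zero n hp) c (h n) P hP x hx hnew hinv⟩

end

end Fermat.Agent.S36.InvJ
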