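/-
S36 — JSide36.lean (helper57).  [JSIDE36] = the J-side of the S36 Čech block: the twin of
`S35/FJSide` (i) WITHOUT any Frobenius/inertia difference (in S36 the Kummer generator itself is
normalised, the inertia-invariance having been used to descend it to an unramified base).

Everything is per function, for ANY level `N`, ANY valuation subring `A`, ANY base field `K`;
no model, no norm condition.

* `ZeroCoreAt N A m f`     — the conclusion of the S36 assembly for ONE function `f`: a Čech-bis
                             setting on the charts `chart t`, `chart t⁻¹` with exponent `m` and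
                             `w = κ · f · G ^ m` for some `G ≠ 0` and some `κ ≠ 0` of order `0`
                             at every place (a constant, e.g. a power of the uniformizer);
* `isPrincipal_of_setting` — such a setting + `Cech2Statement` ⟹ `D` is principal whenever
                             `div f = m • D`;
* `isPrincipal_of_zeroCoreAt` — the same in the vocabulary `ZeroCoreAt`;
* `mk_eq_zero_of_isPrincipal` — a principal divisor of degree `0` has class `0` in `JZero N`;
* `eq_zero_of_zeroCoreAt`  — a class `x` with ONE Kummer pair `(D, f)` (`x = [D]`,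
                             `div f = m • D`) such that `ZeroCoreAt N A m f` is `0`;
* `eq_zero_of_forall_zeroCoreAt` — the same when the core holds for every Kummer generator;
* closed forms `…'` with `S34/Cech2.cech2Statement` plugged in.
-/
import Mathlib
import Fermat.Agent.S34.UPlan
import Fermat.Agent.S34.Cech2Plan
import Fermat.Agent.S34.Cech2

set_option autoImplicit false

open ModularCurve AlgebraicCurve HahnSeries

namespace Fermat.Agent.S36.JSide36

open Fermat.Agent.S18.Arith
open Fermat.Agent.S34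

noncomputable section

set_option synthInstance.maxHeartbeats 400000

/-- The conclusion of the S36 assembly for one function `f`: a Čech-bis setting on the charts
`chart t`, `chart t⁻¹` with exponent `m` whose function is `w = κ · f · G ^ m`, `G ≠ 0`, `κ ≠ 0`
of order `0` at every place of `F̄ / ℚ̄`. -/
def ZeroCoreAt (N : ℕ) [NeZero N] (A : ValuationSubring Qb) (m : ℕ)
    (f : modularFunctionFieldBar N) : Prop :=
  ∃ (K : IntermediateField ℚ Qb) (_ : IsDiscreteValuationRing (OK A K))
    (S : Cech2Plan.Setting (OK A K) (FK N K)) (t : FK N K) (κ G : modularFunctionFieldBar N),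
    κ ≠ 0 ∧ G ≠ 0 ∧ (∀ P : Place Qb (modularFunctionFieldBar N), P.ord κ = 0) ∧
      S.m = m ∧ S.R0 = chart N A K t ∧ S.Rinf = chart N A K t⁻¹ ∧
      ((S.w : FK N K) : LaurentSeries Qb) =
        ((κ * f * G ^ m : modularFunctionFieldBar N) : LaurentSeries Qb)

/-- **Per-`f` form** (any level, no norm condition): from a Čech-bis setting on the charts
`chart t`, `chart t⁻¹` with exponent `m` and `w = κ · f · G ^ m`, every `D` with
`div f = m • D` is principal. -/
theorem isPrincipal_of_setting (N : ℕ) [NeZero N] (m : ℕ) (hm : m ≠ 0)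
    (hCech : Cech2Plan.Cech2Statement) (A : ValuationSubring Qb) (K : IntermediateField ℚ Qb)
    [IsDiscreteValuationRing (OK A K)] (S : Cech2Plan.Setting (OK A K) (FK N K)) (t : FK N K)
    (f κ G : modularFunctionFieldBar N) (hf : f ≠ 0) (hκ : κ ≠ 0) (hG : G ≠ 0)
    (hκord : ∀ P : Place Qb (modularFunctionFieldBar N), P.ord κ = 0)
    (hSm : S.m = m) (hS0 : S.R0 = chart N A K t) (hSinf : S.Rinf = chart N A K t⁻¹)
    (hw : ((S.w : FK N K) : LaurentSeries Qb) =
      ((κ * f * G ^ m : modularFunctionFieldBar N) : LaurentSeries Qb))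
    (D : Divisor Qb (modularFunctionFieldBar N))
    (hD : ∀ P : Place Qb (modularFunctionFieldBar N), (m : ℤ) * D P = P.ord f) :
    Divisor.IsPrincipal D := by
  obtain ⟨h, hh0, hh1, hh2, -⟩ := hCech (OK A K) (FK N K) S
  rw [hS0] at hh1
  rw [hSinf] at hh2
  rw [hSm] at hh1 hh2
  have hW : Fermat.Agent.S18.Glob.toBar N K S.w = κ * f * G ^ m := Subtype.ext hw
  have hW0 : κ * f * G ^ m ≠ 0 := mul_ne_zero (mul_ne_zero hκ hf) (pow_ne_zero m hG)
  have hw0 : S.w ≠ 0 := by
    intro h0
    apply hW0
    rw [← hW, h0, map_zero]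
  have hne : S.w * h ^ m ≠ 0 := mul_ne_zero hw0 (pow_ne_zero m hh0)
  set hb : modularFunctionFieldBar N := Fermat.Agent.S18.Glob.toBar N K h with hhb
  have hhb0 : hb ≠ 0 := fun h0 =>
    hh0 ((Fermat.Agent.S18.Glob.toBar N K).injective (by rw [← hhb, h0, map_zero]))
  refine ⟨(hb * G)⁻¹, inv_ne_zero (mul_ne_zero hhb0 hG), fun P => ?_⟩
  have h1 := UPlan.ord_eq_zero_of_mem_charts N A K t (S.w * h ^ m) hh1 hh2 hne P
  rw [map_mul, map_pow, hW, ← hhb,
    P.ord_mul hW0 (pow_ne_zero m hhb0),
    P.ord_mul (mul_ne_zero hκ hf) (pow_ne_zero m hG), P.ord_mul hκ hf,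
    Fermat.Agent.S24.ord_pow, Fermat.Agent.S24.ord_pow, hκord P, ← hD P] at h1
  rw [P.ord_inv, P.ord_mul hhb0 hG]
  have h2 : (m : ℤ) * D P = (m : ℤ) * (-(P.ord hb + P.ord G)) := by linarith
  exact mul_left_cancel₀ (Nat.cast_ne_zero.mpr hm) h2

/-- **Per-function form** in the vocabulary `ZeroCoreAt`. -/
theorem isPrincipal_of_zeroCoreAt {N : ℕ} [NeZero N] {m : ℕ} (hm : m ≠ 0)
    (hCech : Cech2Plan.Cech2Statement) {A : ValuationSubring Qb}
    {f : modularFunctionFieldBar N} (hf : f ≠ 0) (hS : ZeroCoreAt N A m f)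
    (D : Divisor Qb (modularFunctionFieldBar N))
    (hD : ∀ P : Place Qb (modularFunctionFieldBar N), (m : ℤ) * D P = P.ord f) :
    Divisor.IsPrincipal D := by
  obtain ⟨K, hdvr, S, t, κ, G, hκ, hG, hκord, hSm, hS0, hSinf, hw⟩ := hS
  exact isPrincipal_of_setting N m hm hCech A K S t f κ G hf hκ hG hκord hSm hS0 hSinf hw D hD

/-- A principal divisor of degree `0` has class `0` in `JZero N`. -/
theorem mk_eq_zero_of_isPrincipal {N : ℕ}
    (D : Divisor.degZero (K := Qb) (F := modularFunctionFieldBar N))
    (hprin : Divisor.IsPrincipal (D : Divisor Qb (modularFunctionFieldBar N))) :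
    (Pic0.mk D : JZero N) = 0 := by
  refine (QuotientAddGroup.eq_zero_iff _).2 ?_
  show ((D : Divisor.degZero (K := Qb) (F := modularFunctionFieldBar N)) :
    Divisor Qb (modularFunctionFieldBar N)) ∈ Divisor.principal
  exact hprin

/-- **Per-class form**: a class `x` with ONE Kummer pair `(D, f)` at exponent `m` whose
generator `f` has the S36 core is `0`. -/
theorem eq_zero_of_zeroCoreAt {N : ℕ} [NeZero N] {m : ℕ} (hm : m ≠ 0)
    (hCech : Cech2Plan.Cech2Statement) (A : ValuationSubring Qb) (x : JZero N)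
    (h : ∃ (D : Divisor.degZero (K := Qb) (F := modularFunctionFieldBar N))
      (f : modularFunctionFieldBar N), Pic0.mk D = x ∧ f ≠ 0 ∧
      (∀ P : Place Qb (modularFunctionFieldBar N),
        (m : ℤ) * (D : Divisor Qb (modularFunctionFieldBar N)) P = P.ord f) ∧
      ZeroCoreAt N A m f) : x = 0 := by
  obtain ⟨D, f, hDx, hf, hD, hS⟩ := h
  rw [← hDx]
  exact mk_eq_zero_of_isPrincipal D (isPrincipal_of_zeroCoreAt hm hCech hf hS _ hD)

/-- **Per-class form, all generators**: an `m`-torsion class all of whose Kummer generators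
have the S36 core is `0`. -/
theorem eq_zero_of_forall_zeroCoreAt {N : ℕ} [NeZero N] {m : ℕ} (hm : m ≠ 0)
    (hCech : Cech2Plan.Cech2Statement) (A : ValuationSubring Qb) (x : JZero N)
    (hx : m • x = 0)
    (h : ∀ (D : Divisor.degZero (K := Qb) (F := modularFunctionFieldBar N))
      (f : modularFunctionFieldBar N), Pic0.mk D = x → f ≠ 0 →
      (∀ P : Place Qb (modularFunctionFieldBar N),
        (m : ℤ) * (D : Divisor Qb (modularFunctionFieldBar N)) P = P.ord f) →
      ZeroCoreAt N A m f) : x = 0 := by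
  obtain ⟨D, f, hDx, hf, hD⟩ := UPlan.exists_div_of_nsmul_eq_zero m x hx
  exact eq_zero_of_zeroCoreAt hm hCech A x ⟨D, f, hDx, hf, hD, h D f hDx hf hD⟩

/-! ### Closed forms (`S34/Cech2.cech2Statement` plugged in) -/

/-- `isPrincipal_of_zeroCoreAt`, closed. -/
theorem isPrincipal_of_zeroCoreAt' {N : ℕ} [NeZero N] {m : ℕ} (hm : m ≠ 0)
    {A : ValuationSubring Qb} {f : modularFunctionFieldBar N} (hf : f ≠ 0)
    (hS : ZeroCoreAt N A m f) (D : Divisor Qb (modularFunctionFieldBar N))
    (hD : ∀ P : Place Qb (modularFunctionFieldBar N), (m : ℤ) * D P = P.ord f) :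
    Divisor.IsPrincipal D :=
  isPrincipal_of_zeroCoreAt hm Cech2.cech2Statement hf hS D hD

/-- `eq_zero_of_zeroCoreAt`, closed. -/
theorem eq_zero_of_zeroCoreAt' {N : ℕ} [NeZero N] {m : ℕ} (hm : m ≠ 0)
    (A : ValuationSubring Qb) (x : JZero N)
    (h : ∃ (D : Divisor.degZero (K := Qb) (F := modularFunctionFieldBar N))
      (f : modularFunctionFieldBar N), Pic0.mk D = x ∧ f ≠ 0 ∧
      (∀ P : Place Qb (modularFunctionFieldBar N),
        (m : ℤ) * (D : Divisor Qb (modularFunctionFieldBar N)) P = P.ord f) ∧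
      ZeroCoreAt N A m f) : x = 0 :=
  eq_zero_of_zeroCoreAt hm Cech2.cech2Statement A x h

end

end Fermat.Agent.S36.JSide36
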