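/-
S36 package [KTR36] — KTrGen.lean (helper37): the bridge `[K-tr]` (`KTrPlan.KTrStatement`) from ANY
systems of coset representatives, by route R1 (characteristic polynomial), with NO coprimality
hypothesis between the level `M` and the prime `q`.

* `inst_along`        : the instantiation of `PrimNorm.norm_eq_of_rel` along an arbitrary
                        `φ : F̄_M →ₐ F̄_{M q}` of degree `n` (hypothesis), with its coefficient change
                        `e' : F_ℂ(M) → ℂ((q))`;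
* `half_of_family`    : the generic closer for a family `ρ : ι → GL₂(ℝ)` (vocabulary of
                        `RepPair` / `SymForms`), of cardinality `[F̄_{M q} : φ F̄_M]`;
* `kTrAlpha_of_reps`  : `KTrPlan.KTrAlphaStatement M q m` from representatives `r : ι → Γ₀(M)` of
                        `Γ₀(M q) \ Γ₀(M)` (`hcov`, `hinj` for `incl₁`, one of them `= 1`) and
                        `[F̄_{M q} : F̄_M] = card ι`;
* `kTrBeta_of_reps`   : `KTrPlan.KTrBetaStatement M q m` from representatives of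
                        `ι₂(Γ₀(M q)) \ Γ₀(M)` and `[F̄_{M q} : β F̄_M] = card ι`;
* `kTr_of_reps`       : both halves, `KTrPlan.KTrStatement M q m`.
-/
import Mathlib
import Fermat.Agent.S29.KDefs
import Fermat.Agent.S29.KBasic
import Fermat.Agent.S29.KPlanDefs
import Fermat.Agent.S29.HeckeProdQxB
import Fermat.Agent.S35.KTrPlan
import Fermat.Agent.S35.TrDesc
import Fermat.Agent.S35.RepPair
import Fermat.Agent.S35.CosetProd
import Fermat.Agent.S35.PushPic
import Fermat.Agent.S29.RatDescent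
import Fermat.Agent.S35.PrimNorm
import Fermat.Agent.S35.IndepLD
import Fermat.Agent.S35.SymForms
import Fermat.Agent.S35.TrProdMem
import Fermat.Agent.S35.TrProdMem2
import Fermat.Agent.S35.WitNorm
import Fermat.Prelude.Thm_ModularCurve_coeffMap_qExpand

set_option autoImplicit false
set_option linter.style.haveILetI false

noncomputable section

namespace Fermat.Agent.S36.KTrGen

open CongruenceSubgroup UpperHalfPlane ModularForm ModularCurve AlgebraicCurve HahnSeries
open Matrix.SpecialLinearGroup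
open scoped MatrixGroups ModularForm Manifold
open P2MW.S_ModularForm_heckeT_slash_eq_self_of_mem_Gamma0.ModularForm.HeckeSlashInvariance
open Fermat.Agent.S29 Fermat.Agent.S41 Fermat.Agent.S35
open Fermat.Agent.S24 (embC)

local notation "Qb" => AlgebraicClosure ℚ

variable (M q : ℕ) [NeZero M] [NeZero q]

/-! ### The instantiation of `PrimNorm` along an arbitrary `φ` -/

section Engine

variable (φ : ↥(modularFunctionFieldBar M) →ₐ[Qb] ↥(modularFunctionFieldBar (M * q)))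

omit [NeZero M] [NeZero q] in
theorem sep_along (hfin : FiniteAlong Qb φ) :
    letI : Algebra ↥(modularFunctionFieldBar M) ↥(modularFunctionFieldBar (M * q)) :=
      algebraAlong φ
    Algebra.IsSeparable ↥(modularFunctionFieldBar M) ↥(modularFunctionFieldBar (M * q)) := by
  letI : Algebra ↥(modularFunctionFieldBar M) ↥(modularFunctionFieldBar (M * q)) :=
    algebraAlong φ
  haveI : FiniteDimensional ↥(modularFunctionFieldBar M) ↥(modularFunctionFieldBar (M * q)) :=
    hfin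
  infer_instance

omit [NeZero M] [NeZero q] in
theorem hpoly_along (e' : ↥(K.FC M) →+* LaurentSeries ℂ) (n : ℕ)
    (hdeg : letI : Algebra ↥(modularFunctionFieldBar M) ↥(modularFunctionFieldBar (M * q)) :=
        algebraAlong φ
      Module.finrank ↥(modularFunctionFieldBar M) ↥(modularFunctionFieldBar (M * q)) = n)
    (R : ↥(modularFunctionFieldBar (M * q)) → ↥(K.FC M) → Prop)
    (hpoly : ∀ f c, R f c → ∃ P : Polynomial ↥(K.FC M), P.Monic ∧ P.natDegree = n ∧
      P.eval₂ e' (coeffMap embC (f : LaurentSeries Qb)) = 0 ∧ P.coeff 0 = (-1) ^ n * c) :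
    letI : Algebra ↥(modularFunctionFieldBar M) ↥(modularFunctionFieldBar (M * q)) :=
      algebraAlong φ
    ∀ (f : ↥(modularFunctionFieldBar (M * q))) (c : ↥(K.FC M)), R f c →
      ∃ P : Polynomial ↥(K.FC M), P.Monic ∧
        P.natDegree =
          Module.finrank ↥(modularFunctionFieldBar M) ↥(modularFunctionFieldBar (M * q)) ∧
        P.eval₂ e' (IndepLD.jBar M q f) = 0 ∧
        P.coeff 0 = (-1) ^
          Module.finrank ↥(modularFunctionFieldBar M) ↥(modularFunctionFieldBar (M * q)) * c := by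
  intro f c h
  obtain ⟨P, h1, h2, h3, h4⟩ := hpoly f c h
  exact ⟨P, h1, by rw [h2, hdeg], h3, by rw [h4, hdeg]⟩

/-- The norm of a related element (`Algebra.norm` form). -/
theorem norm_along (hfin : FiniteAlong Qb φ) (e' : ↥(K.FC M) →+* LaurentSeries ℂ)
    (hj : ∀ x : ↥(modularFunctionFieldBar M),
      IndepLD.jBar M q (φ x) = e' (WitNorm.j0B M x))
    (hind : letI : Algebra ↥(modularFunctionFieldBar M) ↥(modularFunctionFieldBar (M * q)) :=
        algebraAlong φ
      ∀ v : Fin (Module.finrank ↥(modularFunctionFieldBar M)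
          ↥(modularFunctionFieldBar (M * q))) → ↥(modularFunctionFieldBar (M * q)),
        LinearIndependent ↥(modularFunctionFieldBar M) v →
        ∀ c : Fin (Module.finrank ↥(modularFunctionFieldBar M)
            ↥(modularFunctionFieldBar (M * q))) → ↥(K.FC M),
          ∑ i, e' (c i) * IndepLD.jBar M q (v i) = 0 → ∀ i, c i = 0)
    (n : ℕ)
    (hdeg : letI : Algebra ↥(modularFunctionFieldBar M) ↥(modularFunctionFieldBar (M * q)) :=
        algebraAlong φ
      Module.finrank ↥(modularFunctionFieldBar M) ↥(modularFunctionFieldBar (M * q)) = n)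
    (R : ↥(modularFunctionFieldBar (M * q)) → ↥(K.FC M) → Prop)
    (hex : ∀ f, f ≠ 0 → ∃ c, R f c)
    (hmul : ∀ f f' c c', R f c → R f' c' → R (f * f') (c * c'))
    (hpoly : ∀ f c, R f c → ∃ P : Polynomial ↥(K.FC M), P.Monic ∧ P.natDegree = n ∧
      P.eval₂ e' (coeffMap embC (f : LaurentSeries Qb)) = 0 ∧ P.coeff 0 = (-1) ^ n * c)
    {f : ↥(modularFunctionFieldBar (M * q))} (hf : f ≠ 0) {c : ↥(K.FC M)} (hc : R f c) :
    letI : Algebra ↥(modularFunctionFieldBar M) ↥(modularFunctionFieldBar (M * q)) :=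
      algebraAlong φ
    c = WitNorm.j0B M (Algebra.norm ↥(modularFunctionFieldBar M) f) := by
  letI : Algebra ↥(modularFunctionFieldBar M) ↥(modularFunctionFieldBar (M * q)) :=
    algebraAlong φ
  haveI : FiniteDimensional ↥(modularFunctionFieldBar M) ↥(modularFunctionFieldBar (M * q)) :=
    hfin
  haveI : Algebra.IsSeparable ↥(modularFunctionFieldBar M) ↥(modularFunctionFieldBar (M * q)) :=
    sep_along M q φ hfin
  haveI : Infinite ↥(modularFunctionFieldBar M) :=
    Infinite.of_injective _ (algebraMap Qb ↥(modularFunctionFieldBar M)).injective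
  exact PrimNorm.norm_eq_of_rel (K := ↥(modularFunctionFieldBar M))
    (L := ↥(modularFunctionFieldBar (M * q))) (WitNorm.j0B M) (IndepLD.jBar M q) e'
    hj hind R hex hmul (hpoly_along M q φ e' n hdeg R hpoly) hf hc

omit [NeZero M] [NeZero q] in
/-- `PushPic.normAlong φ` is the norm for `algebraAlong φ`. -/
theorem normAlong_eq (f : ↥(modularFunctionFieldBar (M * q))) :
    PushPic.normAlong φ f =
      (letI : Algebra ↥(modularFunctionFieldBar M) ↥(modularFunctionFieldBar (M * q)) :=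
        algebraAlong φ
       Algebra.norm ↥(modularFunctionFieldBar M) f) := rfl

/-- **The instantiation of `PrimNorm.norm_eq_of_rel` along `φ`.** -/
theorem inst_along (hfin : FiniteAlong Qb φ) (e' : ↥(K.FC M) →+* LaurentSeries ℂ)
    (hj : ∀ x : ↥(modularFunctionFieldBar M),
      IndepLD.jBar M q (φ x) = e' (WitNorm.j0B M x))
    (hind : letI : Algebra ↥(modularFunctionFieldBar M) ↥(modularFunctionFieldBar (M * q)) :=
        algebraAlong φ
      ∀ v : Fin (Module.finrank ↥(modularFunctionFieldBar M)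
          ↥(modularFunctionFieldBar (M * q))) → ↥(modularFunctionFieldBar (M * q)),
        LinearIndependent ↥(modularFunctionFieldBar M) v →
        ∀ c : Fin (Module.finrank ↥(modularFunctionFieldBar M)
            ↥(modularFunctionFieldBar (M * q))) → ↥(K.FC M),
          ∑ i, e' (c i) * IndepLD.jBar M q (v i) = 0 → ∀ i, c i = 0)
    (n : ℕ)
    (hdeg : letI : Algebra ↥(modularFunctionFieldBar M) ↥(modularFunctionFieldBar (M * q)) :=
        algebraAlong φ
      Module.finrank ↥(modularFunctionFieldBar M) ↥(modularFunctionFieldBar (M * q)) = n)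
    (R : ↥(modularFunctionFieldBar (M * q)) → ↥(K.FC M) → Prop)
    (hex : ∀ f, f ≠ 0 → ∃ c, R f c)
    (hmul : ∀ f f' c c', R f c → R f' c' → R (f * f') (c * c'))
    (hpoly : ∀ f c, R f c → ∃ P : Polynomial ↥(K.FC M), P.Monic ∧ P.natDegree = n ∧
      P.eval₂ e' (coeffMap embC (f : LaurentSeries Qb)) = 0 ∧ P.coeff 0 = (-1) ^ n * c)
    {f : ↥(modularFunctionFieldBar (M * q))} (hf : f ≠ 0) {c : ↥(K.FC M)} (hc : R f c) :
    (c : LaurentSeries ℂ) =
      coeffMap embC ((PushPic.normAlong φ f : ↥(modularFunctionFieldBar M)) : LaurentSeries Qb) := by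
  rw [normAlong_eq, ← WitNorm.coe_j0B]
  exact congrArg Subtype.val (norm_along M q φ hfin e' hj hind n hdeg R hex hmul hpoly hf hc)

end Engine

/-! ### The generic closer for a family of `GL₂(ℝ)`-representatives -/

section Family

variable {ι : Type} [Fintype ι] (ρ : ι → GL (Fin 2) ℝ)
variable (φ : ↥(modularFunctionFieldBar M) →ₐ[Qb] ↥(modularFunctionFieldBar (M * q)))

/-- **Generic half of [K-tr]**: for a family `ρ` computing the norm along `φ`. -/
theorem half_of_family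
    (hdet : ∀ x, 0 < (ρ x).det.val)
    (hmem : ∀ (w : ℤ) (A : ℍ → ℂ), A ∈ S20.MF (M * q) w →
      (∏ x, A ∣[w] ρ x) ∈ S20.MF M (w * (Fintype.card ι : ℤ)))
    (hne : ∀ (w : ℤ) (B : ℍ → ℂ), B ∈ S20.MF (M * q) w → B ≠ 0 → (∏ x, B ∣[w] ρ x) ≠ 0)
    (x₀ : ι) (d : ℕ) [NeZero d] (κ : ℂ) (hκ : κ ≠ 0)
    (hx₀ : ∀ (w : ℤ) (A : ℍ → ℂ) (z : ℍ), (A ∣[w] ρ x₀) (S23.mulN d z) = κ * A z)
    (hfin : FiniteAlong Qb φ) (e' : ↥(K.FC M) →+* LaurentSeries ℂ)
    (he' : (qExpand ℂ d).comp (algebraMap ↥(K.FC M) (LaurentSeries ℂ)) = e')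
    (hj : ∀ x : ↥(modularFunctionFieldBar M),
      IndepLD.jBar M q (φ x) = e' (WitNorm.j0B M x))
    (hind : letI : Algebra ↥(modularFunctionFieldBar M) ↥(modularFunctionFieldBar (M * q)) :=
        algebraAlong φ
      ∀ v : Fin (Module.finrank ↥(modularFunctionFieldBar M)
          ↥(modularFunctionFieldBar (M * q))) → ↥(modularFunctionFieldBar (M * q)),
        LinearIndependent ↥(modularFunctionFieldBar M) v →
        ∀ c : Fin (Module.finrank ↥(modularFunctionFieldBar M)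
            ↥(modularFunctionFieldBar (M * q))) → ↥(K.FC M),
          ∑ i, e' (c i) * IndepLD.jBar M q (v i) = 0 → ∀ i, c i = 0)
    (hdeg : letI : Algebra ↥(modularFunctionFieldBar M) ↥(modularFunctionFieldBar (M * q)) :=
        algebraAlong φ
      Module.finrank ↥(modularFunctionFieldBar M) ↥(modularFunctionFieldBar (M * q)) =
        Fintype.card ι)
    {m : ℕ} (hm : m ≠ 0) (u : Lpar (M * q))
    (hmult : ∀ {w : ℤ} {A : ℍ → ℂ},
      A ∈ K.MFchi (M * q) w (KPlan.chiU m (u : Additive (Gamma0 (M * q)) →+ ℤ)) →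
      (∏ x, A ∣[w] ρ x) ∈ K.MFchi M (w * (Fintype.card ι : ℤ)) 1)
    (y : LaurentSeries Qb)
    (hy : KPlan.Wit (M * q) m (u : Additive (Gamma0 (M * q)) →+ ℤ) y)
    (f : ↥(modularFunctionFieldBar (M * q))) (hf : (f : LaurentSeries Qb) = y ^ m) :
    ∃ (h : ↥(modularFunctionFieldBar M)) (c : Qb), h ≠ 0 ∧ c ≠ 0 ∧
      PushPic.normAlong φ f = algebraMap Qb ↥(modularFunctionFieldBar M) c * h ^ m := by
  obtain ⟨hy0, w, A, B, hA, hB, hB0, hyAB⟩ := hy
  -- the transfer products of the numerator and of the denominator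
  have hPA : (∏ x, A ∣[w] ρ x) ∈ K.MFchi M (w * (Fintype.card ι : ℤ)) 1 := hmult hA
  have nPA := K.mem_niceSub_of_mem_MF (K.mem_MFchi_one_iff.mp hPA)
  have hPB := hmem w B hB
  have nPB := K.mem_niceSub_of_mem_MF hPB
  have hPB0 := hne w B hB hB0
  have hqB : K.qx (∏ x, B ∣[w] ρ x) ≠ 0 := K.qx_ne_zero nPB hPB0
  obtain ⟨c₀, hc₀eq⟩ : ∃ c₀ : LaurentSeries ℂ,
      c₀ * K.qx (∏ x, B ∣[w] ρ x) = K.qx (∏ x, A ∣[w] ρ x) :=
    ⟨_, div_mul_cancel₀ _ hqB⟩
  have hc₀mem : c₀ ∈ K.FC M := TrDesc.mem_FC_of_forms hPA hPB hPB0 hc₀eq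
  -- `c₀ ^ m` is an analytic norm of `f`
  have hRel : RepPair.Rel (M * q) ρ (coeffMap embC (f : LaurentSeries Qb)) (c₀ ^ m) := by
    have h := RepPair.rel_pow_of_char (Nlow := M) hdet hmem hne
      (KPlan.chiU_pow m hm (u : Additive (Gamma0 (M * q)) →+ ℤ)) (KPlan.chiU_TG m u)
      hA hB hB0 hyAB hc₀eq nPA
    rwa [← map_pow, ← hf] at h
  -- the relation of `PrimNorm`
  have hex : ∀ f : ↥(modularFunctionFieldBar (M * q)), f ≠ 0 → ∃ c : ↥(K.FC M),
      RepPair.Rel (M * q) ρ (coeffMap embC (f : LaurentSeries Qb)) (c : LaurentSeries ℂ) := by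
    intro f _
    obtain ⟨c, hc⟩ := RepPair.rel_exists (Nlow := M) hmem hne f
    exact ⟨⟨c, RepPair.rel_mem_FC hmem hne hc⟩, hc⟩
  have hmul : ∀ (f f' : ↥(modularFunctionFieldBar (M * q))) (c c' : ↥(K.FC M)),
      RepPair.Rel (M * q) ρ (coeffMap embC (f : LaurentSeries Qb)) (c : LaurentSeries ℂ) →
      RepPair.Rel (M * q) ρ (coeffMap embC (f' : LaurentSeries Qb)) (c' : LaurentSeries ℂ) →
      RepPair.Rel (M * q) ρ
        (coeffMap embC ((f * f' : ↥(modularFunctionFieldBar (M * q))) : LaurentSeries Qb))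
        ((c * c' : ↥(K.FC M)) : LaurentSeries ℂ) := by
    intro f f' c c' h h'
    have h2 := RepPair.rel_mul (Nlow := M) hdet hmem hne h h'
    rw [← map_mul] at h2
    exact h2
  have hpoly : ∀ (f : ↥(modularFunctionFieldBar (M * q))) (c : ↥(K.FC M)),
      RepPair.Rel (M * q) ρ (coeffMap embC (f : LaurentSeries Qb)) (c : LaurentSeries ℂ) →
      ∃ P : Polynomial ↥(K.FC M), P.Monic ∧ P.natDegree = Fintype.card ι ∧
        P.eval₂ e' (coeffMap embC (f : LaurentSeries Qb)) = 0 ∧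
        P.coeff 0 = (-1) ^ (Fintype.card ι) * c := by
    rintro f c ⟨w', A', B', hA', hB', hB0', hfAB, hcAB⟩
    obtain ⟨P, hP1, hP2, hP3, hP4⟩ := SymForms.exists_poly (Nup := M * q) (Nlow := M) (ρ := ρ)
      hdet hmem hne x₀ d κ hκ (hx₀ w') hA' hB' hB0' hfAB
    rw [he'] at hP3
    refine ⟨P, hP1, hP2, hP3, ?_⟩
    have hqB' : K.qx (∏ x, B' ∣[w'] ρ x) ≠ 0 :=
      K.qx_ne_zero (K.mem_niceSub_of_mem_MF (hmem w' B' hB')) (hne w' B' hB' hB0')
    apply Subtype.ext
    apply mul_right_cancel₀ hqB'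
    rw [hP4]
    push_cast
    rw [mul_assoc, hcAB]
  have hf0 : f ≠ 0 := by
    intro h0
    apply pow_ne_zero m hy0
    rw [← hf, h0]
    rfl
  have hfin' := inst_along M q φ hfin e' hj hind (Fintype.card ι) hdeg
    (fun f c => RepPair.Rel (M * q) ρ
      (coeffMap embC (f : LaurentSeries Qb)) (c : LaurentSeries ℂ))
    hex hmul hpoly hf0 (c := ⟨c₀ ^ m, pow_mem hc₀mem m⟩) hRel
  -- descent of the `m`-th root
  have hg : PushPic.normAlong φ f ≠ 0 := (hf0.isUnit.map (PushPic.normAlong φ)).ne_zero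
  exact TrDesc.exists_root_of_pow_eq hm (PushPic.normAlong φ f) hg c₀ hc₀mem hfin'

end Family

/-! ### The two families attached to systems of representatives -/

section Reps

variable {ι : Type} [Fintype ι] (r : ι → Gamma0 M)

/-- The family of `α`: the representatives, in `GL₂(ℝ)`. -/
def famA (i : ι) : GL (Fin 2) ℝ := mapGL ℝ ((r i : Gamma0 M) : SL(2, ℤ))

/-- The family of `β`: `diag(1, q)` times the representatives. -/
def famB (i : ι) : GL (Fin 2) ℝ :=
  heckeMatrix q 0 * mapGL ℝ ((r i : Gamma0 M) : SL(2, ℤ))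

omit [NeZero M] [Fintype ι] in
theorem famA_slash (w : ℤ) (A : ℍ → ℂ) (i : ι) :
    A ∣[w] famA M r i = A ∣[w] ((r i : Gamma0 M) : SL(2, ℤ)) := rfl

omit [NeZero M] [NeZero q] [Fintype ι] in
theorem famB_slash (w : ℤ) (A : ℍ → ℂ) (i : ι) :
    A ∣[w] famB M q r i = (A ∣[w] heckeMatrix q 0) ∣[w] ((r i : Gamma0 M) : SL(2, ℤ)) := by
  unfold famB
  rw [SlashAction.slash_mul]
  rfl

omit [NeZero M] [Fintype ι] in
theorem det_famA_pos (i : ι) :
    0 < ((famA M r i : GL (Fin 2) ℝ) : Matrix (Fin 2) (Fin 2) ℝ).det := by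
  unfold famA
  rw [CosetProd.det_mapGL]
  exact one_pos

omit [NeZero M] [Fintype ι] in
theorem det_famB_pos (i : ι) :
    0 < ((famB M q r i : GL (Fin 2) ℝ) : Matrix (Fin 2) (Fin 2) ℝ).det := by
  have hq0 : (0 : ℝ) < (q : ℝ) := Nat.cast_pos.mpr (Nat.pos_of_ne_zero (NeZero.ne q))
  unfold famB
  rw [Matrix.GeneralLinearGroup.coe_mul, Matrix.det_mul, CosetProd.det_mapGL, mul_one,
    val_heckeMatrix (NeZero.ne q), Matrix.det_fin_two_of]
  simpa using hq0

omit [NeZero M] [Fintype ι] in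
theorem famA_base (i₀ : ι) (hr0 : r i₀ = 1) (w : ℤ) (A : ℍ → ℂ) (z : ℍ) :
    (A ∣[w] famA M r i₀) (S23.mulN 1 z) = 1 * A z := by
  have h1 : famA M r i₀ = 1 := by
    unfold famA
    rw [hr0]
    simp
  rw [h1, SlashAction.slash_one, one_mul]
  congr 1
  ext
  rw [S23.coe_mulN]
  simp

omit [NeZero M] [Fintype ι] in
theorem famB_base (i₀ : ι) (hr0 : r i₀ = 1) (w : ℤ) (A : ℍ → ℂ) (z : ℍ) :
    (A ∣[w] famB M q r i₀) (S23.mulN q z) = (q : ℂ)⁻¹ * A z := by
  have h1 : famB M q r i₀ = heckeMatrix q 0 := by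
    unfold famB
    rw [hr0]
    simp
  rw [h1, slash_heckeMatrix_apply w (NeZero.ne q), HeckeProdQxB.heckeMatrix_smul_mulN]
  congr 2
  ext
  simp

omit [NeZero M] [NeZero q] in
theorem famA_ne (w : ℤ) (B : ℍ → ℂ) (hB : B ∈ S20.MF (M * q) w) (hB0 : B ≠ 0) :
    (∏ x, B ∣[w] famA M r x) ≠ 0 := by
  obtain ⟨F, rfl⟩ := hB
  exact CosetProd.prod_slash_gl_ne_zero _ w F.holo' hB0

omit [NeZero M] [NeZero q] in
theorem famB_ne (w : ℤ) (B : ℍ → ℂ) (hB : B ∈ S20.MF (M * q) w) (hB0 : B ≠ 0) :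
    (∏ x, B ∣[w] famB M q r x) ≠ 0 := by
  obtain ⟨F, rfl⟩ := hB
  exact CosetProd.prod_slash_gl_ne_zero _ w F.holo' hB0

/-! #### The data of `PrimNorm` along `α` -/

omit [NeZero M] in
theorem eAlpha_eq : (qExpand ℂ 1).comp (algebraMap ↥(K.FC M) (LaurentSeries ℂ)) =
    IndepLD.eAlpha M := by
  refine RingHom.ext fun c => ?_
  show qExpand ℂ 1 ((c : ↥(K.FC M)) : LaurentSeries ℂ) = _
  rw [qExpand_one_apply]
  rfl

theorem hj_alpha (x : ↥(modularFunctionFieldBar M)) :
    IndepLD.jBar M q (heckeAlphaBar Qb M q x) = IndepLD.eAlpha M (WitNorm.j0B M x) := by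
  rw [IndepLD.jBar_apply, IndepLD.eAlpha_apply, WitNorm.coe_j0B, coe_heckeAlphaBar]

theorem hind_alpha :
    letI : Algebra ↥(modularFunctionFieldBar M) ↥(modularFunctionFieldBar (M * q)) :=
      algebraAlong (heckeAlphaBar Qb M q)
    ∀ v : Fin (Module.finrank ↥(modularFunctionFieldBar M)
        ↥(modularFunctionFieldBar (M * q))) → ↥(modularFunctionFieldBar (M * q)),
      LinearIndependent ↥(modularFunctionFieldBar M) v →
      ∀ c : Fin (Module.finrank ↥(modularFunctionFieldBar M)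
          ↥(modularFunctionFieldBar (M * q))) → ↥(K.FC M),
        ∑ i, IndepLD.eAlpha M (c i) * IndepLD.jBar M q (v i) = 0 → ∀ i, c i = 0 :=
  IndepLD.indep_alpha M q

/-- **[K-tr], `α`-half, from ANY representatives of `Γ₀(M q) \ Γ₀(M)`** of cardinality
`[F̄_{M q} : F̄_M]`, one of which is `1`. -/
theorem kTrAlpha_of_reps
    (hcov : ∀ g : Gamma0 M, ∃ i, ∃ h : Gamma0 (M * q), g = incl₁ M q h * r i)
    (hinj : ∀ i j, (∃ h : Gamma0 (M * q), r i = incl₁ M q h * r j) → i = j)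
    (i₀ : ι) (hr0 : r i₀ = 1)
    (hdeg : finrankAlong Qb (heckeAlphaBar Qb M q) = Fintype.card ι)
    {m : ℕ} (hm : m ≠ 0) : KTrPlan.KTrAlphaStatement M q m := by
  intro u y hy f hf htr
  refine half_of_family M q (famA M r) (heckeAlphaBar Qb M q)
    (fun x => det_famA_pos M r x)
    (fun w A hA => TrProdMem.prod_slash_reps_mem_MF r hcov hinj hA)
    (famA_ne M q r) i₀ 1 1 one_ne_zero (famA_base M r i₀ hr0)
    (PushPic.alpha_finiteAlong M q) (IndepLD.eAlpha M) (eAlpha_eq M) (hj_alpha M q)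
    (hind_alpha M q) hdeg hm u ?_ y hy f hf
  intro w A hA
  have h := TrProdMem.prod_slash_reps_mem r hcov hinj m
    (u : Additive (Gamma0 (M * q)) →+ ℤ) hA
  rw [htr, KPlan.chiU_zero] at h
  exact h

/-- **[K-tr], `β`-half, from ANY representatives of `ι₂(Γ₀(M q)) \ Γ₀(M)`** of cardinality
`[F̄_{M q} : β F̄_M]`, one of which is `1`. -/
theorem kTrBeta_of_reps (hq : q.Prime)
    (hcov : ∀ g : Gamma0 M, ∃ i, ∃ h : Gamma0 (M * q), g = incl₂ M q h * r i)
    (hinj : ∀ i j, (∃ h : Gamma0 (M * q), r i = incl₂ M q h * r j) → i = j)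
    (i₀ : ι) (hr0 : r i₀ = 1)
    (hdeg : finrankAlong Qb (heckeBetaBar Qb M q) = Fintype.card ι)
    {m : ℕ} (hm : m ≠ 0) : KTrPlan.KTrBetaStatement M q m := by
  haveI : Fact q.Prime := ⟨hq⟩
  intro u y hy f hf htr
  have hκ : ((q : ℂ))⁻¹ ≠ 0 := inv_ne_zero (Nat.cast_ne_zero.mpr (NeZero.ne q))
  have hslash : ∀ (w : ℤ) (A : ℍ → ℂ), (∏ x, A ∣[w] famB M q r x) =
      ∏ i, (A ∣[w] heckeMatrix q 0) ∣[w] ((r i : Gamma0 M) : SL(2, ℤ)) :=
    fun w A => Finset.prod_congr rfl (fun i _ => famB_slash M q r w A i)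
  refine half_of_family M q (famB M q r) (heckeBetaBar Qb M q)
    (fun x => det_famB_pos M q r x)
    (fun w A hA => ?_)
    (famB_ne M q r) i₀ q ((q : ℂ))⁻¹ hκ (famB_base M q r i₀ hr0)
    (PushPic.beta_finiteAlong M q) (IndepLD.eBeta M q) (WitNorm.eBeta_eq M q).symm
    (WitNorm.hj_beta M q) (WitNorm.hind_beta M q) hdeg hm u ?_ y hy f hf
  · rw [hslash]
    exact TrProdMem2.prod_slash_reps₂_mem_MF r hcov hinj hA
  · intro w A hA
    have h := TrProdMem2.prod_slash_reps₂_mem r hcov hinj m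
      (u : Additive (Gamma0 (M * q)) →+ ℤ) hA
    rw [htr, KPlan.chiU_zero] at h
    rw [hslash]
    exact h

end Reps

/-- **[K-tr] from two systems of representatives** (no coprimality between `M` and `q`). -/
theorem kTr_of_reps (hq : q.Prime) {ι₁ ι₂ : Type} [Fintype ι₁] [Fintype ι₂]
    (r₁ : ι₁ → Gamma0 M)
    (hcov₁ : ∀ g : Gamma0 M, ∃ i, ∃ h : Gamma0 (M * q), g = incl₁ M q h * r₁ i)
    (hinj₁ : ∀ i j, (∃ h : Gamma0 (M * q), r₁ i = incl₁ M q h * r₁ j) → i = j)
    (i₁ : ι₁) (hr₁ : r₁ i₁ = 1)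
    (hdeg₁ : finrankAlong Qb (heckeAlphaBar Qb M q) = Fintype.card ι₁)
    (r₂ : ι₂ → Gamma0 M)
    (hcov₂ : ∀ g : Gamma0 M, ∃ i, ∃ h : Gamma0 (M * q), g = incl₂ M q h * r₂ i)
    (hinj₂ : ∀ i j, (∃ h : Gamma0 (M * q), r₂ i = incl₂ M q h * r₂ j) → i = j)
    (i₂ : ι₂) (hr₂ : r₂ i₂ = 1)
    (hdeg₂ : finrankAlong Qb (heckeBetaBar Qb M q) = Fintype.card ι₂)
    {m : ℕ} (hm : m ≠ 0) : KTrPlan.KTrStatement M q m :=
  KTrPlan.kTrStatement_of_halves
    (kTrAlpha_of_reps M q r₁ hcov₁ hinj₁ i₁ hr₁ hdeg₁ hm)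
    (kTrBeta_of_reps M q r₂ hq hcov₂ hinj₂ i₂ hr₂ hdeg₂ hm)

end Fermat.Agent.S36.KTrGen
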