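/-
S36 (Carayol), package [KTR36], leaf (T1), second copy.  Owner: helper125.

Coset representatives for the two degeneracy inclusions `incl₁, incl₂ : Γ₀(Mq) → Γ₀(M)` of
`S41/Defs.lean` in the RAMIFIED case `q ∣ M` (`q` prime): both indices are `q` (no `∞`-coset),
and representatives indexed by `ZMod q` are

* `rA t = [[1, 0],[M t, 1]]` for `incl₁` (the inclusion), and
* `rB t = [[1, t],[0, 1]]` for `incl₂` (`γ ↦ δ γ δ⁻¹`, `δ = diag(q,1)`).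

The covering / disjointness statements are VERBATIM the hypotheses `hcov`, `hinj` of
`S41.tr₁_apply_of_reps`, `S41.tr₂_apply_of_reps`, `S35.TrProdMem.prod_slash_reps_mem` and
`S35.TrProdMem2.prod_slash_reps₂_mem`.
-/
import Mathlib
import Fermat.Agent.S41.Defs
import Fermat.Agent.S41.TrReps

set_option autoImplicit false

noncomputable section

open CongruenceSubgroup Matrix.SpecialLinearGroup
open scoped MatrixGroups
open Fermat.Agent.S41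

namespace Fermat.Agent.S36.Reps36B

/-! ### Matrices -/

/-- The matrix `[[1, 0],[M t, 1]]`. -/
def repAMat (M : ℕ) (t : ℤ) : SL(2, ℤ) :=
  ⟨!![1, 0; (M : ℤ) * t, 1], by rw [Matrix.det_fin_two_of]; ring⟩

theorem repAMat_mem (M : ℕ) (t : ℤ) : repAMat M t ∈ Gamma0 M := by
  rw [Fermat.Agent.S16.mem_Gamma0_iff_dvd]
  exact Dvd.intro _ rfl

theorem repAMat_apply_zero_zero (M : ℕ) (t : ℤ) : (repAMat M t) 0 0 = 1 := rfl
theorem repAMat_apply_zero_one (M : ℕ) (t : ℤ) : (repAMat M t) 0 1 = 0 := rfl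
theorem repAMat_apply_one_zero (M : ℕ) (t : ℤ) : (repAMat M t) 1 0 = (M : ℤ) * t := rfl
theorem repAMat_apply_one_one (M : ℕ) (t : ℤ) : (repAMat M t) 1 1 = 1 := rfl

theorem rep₂Mat_apply_zero_zero (t : ℤ) : (rep₂Mat t) 0 0 = 1 := rfl
theorem rep₂Mat_apply_zero_one (t : ℤ) : (rep₂Mat t) 0 1 = t := rfl
theorem rep₂Mat_apply_one_zero (t : ℤ) : (rep₂Mat t) 1 0 = 0 := rfl
theorem rep₂Mat_apply_one_one (t : ℤ) : (rep₂Mat t) 1 1 = 1 := rfl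

/-- entries of a product in `SL(2, ℤ)` -/
theorem sl2_mul_apply (X Y : SL(2, ℤ)) (i j : Fin 2) :
    (X * Y) i j = X i 0 * Y 0 j + X i 1 * Y 1 j := by
  rw [Matrix.SpecialLinearGroup.coe_mul, Matrix.mul_apply, Fin.sum_univ_two]

/-- the determinant relation of an element of `SL(2, ℤ)` -/
theorem sl2_det (X : SL(2, ℤ)) : X 0 0 * X 1 1 - X 0 1 * X 1 0 = 1 := by
  have h := Matrix.SpecialLinearGroup.det_coe X
  rw [Matrix.det_fin_two] at h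
  exact h

/-- extensionality for `SL(2, ℤ)` by the four entries -/
theorem sl2_ext {X Y : SL(2, ℤ)} (h00 : X 0 0 = Y 0 0) (h01 : X 0 1 = Y 0 1)
    (h10 : X 1 0 = Y 1 0) (h11 : X 1 1 = Y 1 1) : X = Y := by
  ext i j
  fin_cases i <;> fin_cases j
  · exact h00
  · exact h01
  · exact h10
  · exact h11

/-! ### The two families of representatives -/

variable (M q : ℕ)

/-- Representatives of `Γ₀(Mq) \ Γ₀(M)` for `q ∣ M`: `rA t = [[1, 0],[M t, 1]]`. -/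
def rA (t : ZMod q) : Gamma0 M := ⟨repAMat M (t.val : ℤ), repAMat_mem M _⟩

/-- Representatives of `incl₂(Γ₀(Mq)) \ Γ₀(M)` for `q ∣ M`: `rB t = [[1, t],[0, 1]]`. -/
def rB (t : ZMod q) : Gamma0 M := ⟨rep₂Mat (t.val : ℤ), rep₂Mat_mem M _⟩

theorem rA_coe (t : ZMod q) : ((rA M q t : Gamma0 M) : SL(2, ℤ)) = repAMat M (t.val : ℤ) := rfl
theorem rB_coe (t : ZMod q) : ((rB M q t : Gamma0 M) : SL(2, ℤ)) = rep₂Mat (t.val : ℤ) := rfl

theorem rA_zero : rA M q 0 = 1 := by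
  apply Subtype.ext
  rw [rA_coe, ZMod.val_zero]
  apply sl2_ext
  · rfl
  · rfl
  · show (M : ℤ) * ((0 : ℕ) : ℤ) = 0
    simp
  · rfl

theorem rB_zero : rB M q 0 = 1 := by
  apply Subtype.ext
  rw [rB_coe, ZMod.val_zero]
  apply sl2_ext
  · rfl
  · show ((0 : ℕ) : ℤ) = 0
    simp
  · rfl
  · rfl

variable {M q}

/-- For `q ∣ M`, the diagonal entries of `g ∈ Γ₀(M)` are inverse to each other modulo `q`. -/
theorem diag_mul_eq_one (hqM : q ∣ M) (g : Gamma0 M) :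
    (((g : SL(2, ℤ)) 0 0 : ℤ) : ZMod q) * (((g : SL(2, ℤ)) 1 1 : ℤ) : ZMod q) = 1 := by
  have hdet := sl2_det (g : SL(2, ℤ))
  have hM : (M : ℤ) ∣ (g : SL(2, ℤ)) 1 0 := Fermat.Agent.S16.mem_Gamma0_iff_dvd.mp g.2
  have hq10 : ((((g : SL(2, ℤ)) 1 0 : ℤ)) : ZMod q) = 0 := by
    rw [ZMod.intCast_zmod_eq_zero_iff_dvd]
    exact (Int.natCast_dvd_natCast.mpr hqM).trans hM
  have hc := congrArg (Int.cast : ℤ → ZMod q) hdet
  push_cast at hc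
  rw [hq10, mul_zero, sub_zero] at hc
  exact hc

/-! ### `incl₁` -/

/-- **Covering for `incl₁`**, `q ∣ M`. -/
theorem rA_cov (hq : q.Prime) (hqM : q ∣ M) :
    ∀ g : Gamma0 M, ∃ t : ZMod q, ∃ h : Gamma0 (M * q), g = incl₁ M q h * rA M q t := by
  intro g
  have : Fact q.Prime := ⟨hq⟩
  have : NeZero q := ⟨hq.ne_zero⟩
  obtain ⟨c, hc⟩ : (M : ℤ) ∣ (g : SL(2, ℤ)) 1 0 := Fermat.Agent.S16.mem_Gamma0_iff_dvd.mp g.2
  have hdiag := diag_mul_eq_one hqM g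
  have hd : ((((g : SL(2, ℤ)) 1 1 : ℤ)) : ZMod q) ≠ 0 := by
    intro h0
    rw [h0, mul_zero] at hdiag
    exact zero_ne_one hdiag
  -- the index
  let t : ZMod q := (c : ZMod q) * ((((g : SL(2, ℤ)) 1 1 : ℤ)) : ZMod q)⁻¹
  have ht : (q : ℤ) ∣ c - (g : SL(2, ℤ)) 1 1 * (t.val : ℤ) := by
    rw [← ZMod.intCast_zmod_eq_zero_iff_dvd]
    push_cast
    rw [ZMod.natCast_zmod_val]
    show (c : ZMod q) - _ * ((c : ZMod q) * _) = 0
    field_simp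
    ring
  obtain ⟨k, hk⟩ := ht
  -- the matrix `g * (rA t)⁻¹`
  let H : SL(2, ℤ) :=
    ⟨!![(g : SL(2, ℤ)) 0 0 - (g : SL(2, ℤ)) 0 1 * ((M : ℤ) * (t.val : ℤ)), (g : SL(2, ℤ)) 0 1;
        (g : SL(2, ℤ)) 1 0 - (g : SL(2, ℤ)) 1 1 * ((M : ℤ) * (t.val : ℤ)), (g : SL(2, ℤ)) 1 1], by
      rw [Matrix.det_fin_two_of]
      linear_combination sl2_det (g : SL(2, ℤ))⟩
  have hH : H ∈ Gamma0 (M * q) := by
    rw [Fermat.Agent.S16.mem_Gamma0_iff_dvd]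
    show ((M * q : ℕ) : ℤ) ∣
      (g : SL(2, ℤ)) 1 0 - (g : SL(2, ℤ)) 1 1 * ((M : ℤ) * (t.val : ℤ))
    refine ⟨k, ?_⟩
    push_cast
    rw [hc]
    linear_combination (M : ℤ) * hk
  refine ⟨t, ⟨H, hH⟩, ?_⟩
  apply Subtype.ext
  rw [Subgroup.coe_mul, incl₁_coe, rA_coe]
  apply sl2_ext
  · rw [sl2_mul_apply, repAMat_apply_zero_zero, repAMat_apply_one_zero]
    show _ = ((g : SL(2, ℤ)) 0 0 - (g : SL(2, ℤ)) 0 1 * ((M : ℤ) * (t.val : ℤ))) * 1 +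
      (g : SL(2, ℤ)) 0 1 * ((M : ℤ) * (t.val : ℤ))
    ring
  · rw [sl2_mul_apply, repAMat_apply_zero_one, repAMat_apply_one_one]
    show _ = ((g : SL(2, ℤ)) 0 0 - (g : SL(2, ℤ)) 0 1 * ((M : ℤ) * (t.val : ℤ))) * 0 +
      (g : SL(2, ℤ)) 0 1 * 1
    ring
  · rw [sl2_mul_apply, repAMat_apply_zero_zero, repAMat_apply_one_zero]
    show _ = ((g : SL(2, ℤ)) 1 0 - (g : SL(2, ℤ)) 1 1 * ((M : ℤ) * (t.val : ℤ))) * 1 +
      (g : SL(2, ℤ)) 1 1 * ((M : ℤ) * (t.val : ℤ))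
    ring
  · rw [sl2_mul_apply, repAMat_apply_zero_one, repAMat_apply_one_one]
    show _ = ((g : SL(2, ℤ)) 1 0 - (g : SL(2, ℤ)) 1 1 * ((M : ℤ) * (t.val : ℤ))) * 0 +
      (g : SL(2, ℤ)) 1 1 * 1
    ring

/-- **Disjointness for `incl₁`** (`M ≠ 0`; no hypothesis on `q` beyond `q ≠ 0`). -/
theorem rA_inj' [NeZero M] [NeZero q] :
    ∀ s t : ZMod q, (∃ h : Gamma0 (M * q), rA M q s = incl₁ M q h * rA M q t) → s = t := by
  rintro s t ⟨h, hh⟩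
  have hM0 : (M : ℤ) ≠ 0 := by exact_mod_cast NeZero.ne M
  have e := congrArg (fun x : Gamma0 M => (x : SL(2, ℤ))) hh
  simp only [Subgroup.coe_mul, incl₁_coe, rA_coe] at e
  have e10 := congrArg (fun X : SL(2, ℤ) => X 1 0) e
  have e11 := congrArg (fun X : SL(2, ℤ) => X 1 1) e
  simp only [sl2_mul_apply, repAMat_apply_zero_zero, repAMat_apply_one_zero,
    repAMat_apply_zero_one, repAMat_apply_one_one] at e10 e11
  obtain ⟨k, hk⟩ := dvd_lower_left h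
  have h11 : (h : SL(2, ℤ)) 1 1 = 1 := by linear_combination -e11
  have key : (M : ℤ) * ((s.val : ℤ) - (t.val : ℤ)) = (M : ℤ) * ((q : ℤ) * k) := by
    rw [h11, hk] at e10
    push_cast at e10
    linear_combination e10
  have hdvd : (q : ℤ) ∣ (s.val : ℤ) - (t.val : ℤ) := ⟨k, mul_left_cancel₀ hM0 key⟩
  rw [← ZMod.intCast_zmod_eq_zero_iff_dvd] at hdvd
  push_cast at hdvd
  rw [ZMod.natCast_zmod_val, ZMod.natCast_zmod_val] at hdvd
  exact sub_eq_zero.mp hdvd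

/-- **Disjointness for `incl₁`**, in the shape of the consumer. -/
theorem rA_inj [NeZero M] (hq : q.Prime) (_hqM : q ∣ M) :
    ∀ s t : ZMod q, (∃ h : Gamma0 (M * q), rA M q s = incl₁ M q h * rA M q t) → s = t :=
  haveI : NeZero q := ⟨hq.ne_zero⟩
  rA_inj'

/-! ### `incl₂` -/

/-- **Covering for `incl₂`**, `q ∣ M`. -/
theorem rB_cov (hq : q.Prime) (hqM : q ∣ M) :
    ∀ g : Gamma0 M, ∃ t : ZMod q, ∃ h : Gamma0 (M * q), g = incl₂ M q h * rB M q t := by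
  intro g
  have : Fact q.Prime := ⟨hq⟩
  have : NeZero q := ⟨hq.ne_zero⟩
  have hdiag := diag_mul_eq_one hqM g
  have ha : ((((g : SL(2, ℤ)) 0 0 : ℤ)) : ZMod q) ≠ 0 := by
    intro h0
    rw [h0, zero_mul] at hdiag
    exact zero_ne_one hdiag
  -- the index
  let t : ZMod q := ((((g : SL(2, ℤ)) 0 1 : ℤ)) : ZMod q) * ((((g : SL(2, ℤ)) 0 0 : ℤ)) : ZMod q)⁻¹
  have ht : (q : ℤ) ∣ (g : SL(2, ℤ)) 0 1 - (g : SL(2, ℤ)) 0 0 * (t.val : ℤ) := by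
    rw [← ZMod.intCast_zmod_eq_zero_iff_dvd]
    push_cast
    rw [ZMod.natCast_zmod_val]
    show ((((g : SL(2, ℤ)) 0 1 : ℤ)) : ZMod q) - _ * (((((g : SL(2, ℤ)) 0 1 : ℤ)) : ZMod q) * _) = 0
    field_simp
    ring
  -- the matrix `g * (rB t)⁻¹`
  let H : SL(2, ℤ) :=
    ⟨!![(g : SL(2, ℤ)) 0 0, (g : SL(2, ℤ)) 0 1 - (g : SL(2, ℤ)) 0 0 * (t.val : ℤ);
        (g : SL(2, ℤ)) 1 0, (g : SL(2, ℤ)) 1 1 - (g : SL(2, ℤ)) 1 0 * (t.val : ℤ)], by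
      rw [Matrix.det_fin_two_of]
      linear_combination sl2_det (g : SL(2, ℤ))⟩
  have hH : H ∈ Gamma0 M := by
    rw [Fermat.Agent.S16.mem_Gamma0_iff_dvd]
    exact Fermat.Agent.S16.mem_Gamma0_iff_dvd.mp g.2
  obtain ⟨h, hh⟩ := (exists_incl₂_iff (N := M) (q := q) ⟨H, hH⟩).mpr ht
  refine ⟨t, h, ?_⟩
  rw [← hh]
  apply Subtype.ext
  rw [Subgroup.coe_mul, rB_coe]
  show (g : SL(2, ℤ)) = H * rep₂Mat (t.val : ℤ)
  apply sl2_ext
  · rw [sl2_mul_apply, rep₂Mat_apply_zero_zero, rep₂Mat_apply_one_zero]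
    show _ = (g : SL(2, ℤ)) 0 0 * 1 +
      ((g : SL(2, ℤ)) 0 1 - (g : SL(2, ℤ)) 0 0 * (t.val : ℤ)) * 0
    ring
  · rw [sl2_mul_apply, rep₂Mat_apply_zero_one, rep₂Mat_apply_one_one]
    show _ = (g : SL(2, ℤ)) 0 0 * (t.val : ℤ) +
      ((g : SL(2, ℤ)) 0 1 - (g : SL(2, ℤ)) 0 0 * (t.val : ℤ)) * 1
    ring
  · rw [sl2_mul_apply, rep₂Mat_apply_zero_zero, rep₂Mat_apply_one_zero]
    show _ = (g : SL(2, ℤ)) 1 0 * 1 +
      ((g : SL(2, ℤ)) 1 1 - (g : SL(2, ℤ)) 1 0 * (t.val : ℤ)) * 0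
    ring
  · rw [sl2_mul_apply, rep₂Mat_apply_zero_one, rep₂Mat_apply_one_one]
    show _ = (g : SL(2, ℤ)) 1 0 * (t.val : ℤ) +
      ((g : SL(2, ℤ)) 1 1 - (g : SL(2, ℤ)) 1 0 * (t.val : ℤ)) * 1
    ring

/-- **Disjointness for `incl₂`** (any `M`; only `q ≠ 0` is used). -/
theorem rB_inj' [NeZero q] :
    ∀ s t : ZMod q, (∃ h : Gamma0 (M * q), rB M q s = incl₂ M q h * rB M q t) → s = t := by
  rintro s t ⟨h, hh⟩
  have e := congrArg (fun x : Gamma0 M => (x : SL(2, ℤ))) hh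
  simp only [Subgroup.coe_mul, incl₂_coe, rB_coe] at e
  have e00 := congrArg (fun X : SL(2, ℤ) => X 0 0) e
  have e01 := congrArg (fun X : SL(2, ℤ) => X 0 1) e
  simp only [sl2_mul_apply, rep₂Mat_apply_zero_zero, rep₂Mat_apply_one_zero,
    rep₂Mat_apply_zero_one, rep₂Mat_apply_one_one, conjMat_apply_zero_zero,
    conjMat_apply_zero_one] at e00 e01
  have h00 : (h : SL(2, ℤ)) 0 0 = 1 := by linear_combination -e00
  have hdvd : (q : ℤ) ∣ (s.val : ℤ) - (t.val : ℤ) := by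
    refine ⟨(h : SL(2, ℤ)) 0 1, ?_⟩
    rw [h00] at e01
    linear_combination e01
  rw [← ZMod.intCast_zmod_eq_zero_iff_dvd] at hdvd
  push_cast at hdvd
  rw [ZMod.natCast_zmod_val, ZMod.natCast_zmod_val] at hdvd
  exact sub_eq_zero.mp hdvd

/-- **Disjointness for `incl₂`**, in the shape of the consumer. -/
theorem rB_inj (hq : q.Prime) (_hqM : q ∣ M) :
    ∀ s t : ZMod q, (∃ h : Gamma0 (M * q), rB M q s = incl₂ M q h * rB M q t) → s = t :=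
  haveI : NeZero q := ⟨hq.ne_zero⟩
  rB_inj'

theorem card_index (q : ℕ) [NeZero q] : Fintype.card (ZMod q) = q := ZMod.card q

end Fermat.Agent.S36.Reps36B

end
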