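/-
S36 package [KTR36] — KTr36.lean (helper37): the bridge `[K-tr]` at level `M q` with `q ∣ M`
(i.e. `q² ∣ level`), and for every prime `q`.

* `kTrAlpha36`, `kTrBeta36`, `kTr36` : `KTrPlan.KTrStatement M q m` for a prime `q ∣ M`, `m ≠ 0`
  (`KTrGen.kTr_of_reps` at the `q` representatives `Reps36B.rA` / `Reps36B.rB` of
  `Γ₀(M q) \ Γ₀(M)` / `ι₂(Γ₀(M q)) \ Γ₀(M)`, with the degrees `Fricke.finrank_alpha_of_dvd` /
  `Fricke.finrank_beta_of_dvd`);
* `kTrAll` : `KTrPlan.KTrStatement M q m` for EVERY prime `q` (with `S35.TrNorm2.kTr'` when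
  `q ∤ M`).
-/
import Mathlib
import Fermat.Agent.S35.KTrPlan
import Fermat.Agent.S35.TrNorm2
import Fermat.Agent.S36.KTrGen
import Fermat.Agent.S36.Reps36B
import Fermat.Agent.S36.Fricke

set_option autoImplicit false

namespace Fermat.Agent.S36.KTr36

open ModularCurve AlgebraicCurve CongruenceSubgroup
open Fermat.Agent.S35

/-- **[K-tr], `α`-half, `q ∣ M`.** -/
theorem kTrAlpha36 (M q m : ℕ) [NeZero M] [NeZero q] (hq : q.Prime) (hqM : q ∣ M) (hm : m ≠ 0) :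
    KTrPlan.KTrAlphaStatement M q m :=
  KTrGen.kTrAlpha_of_reps M q (Reps36B.rA M q) (Reps36B.rA_cov hq hqM) (Reps36B.rA_inj hq hqM)
    0 (Reps36B.rA_zero M q)
    ((Fricke.finrank_alpha_of_dvd M q hq hqM).trans (Reps36B.card_index q).symm) hm

/-- **[K-tr], `β`-half, `q ∣ M`.** -/
theorem kTrBeta36 (M q m : ℕ) [NeZero M] [NeZero q] (hq : q.Prime) (hqM : q ∣ M) (hm : m ≠ 0) :
    KTrPlan.KTrBetaStatement M q m :=
  KTrGen.kTrBeta_of_reps M q (Reps36B.rB M q) hq (Reps36B.rB_cov hq hqM) (Reps36B.rB_inj hq hqM)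
    0 (Reps36B.rB_zero M q)
    ((Fricke.finrank_beta_of_dvd M q hq hqM).trans (Reps36B.card_index q).symm) hm

/-- **[K-tr] at level `M q`, `q ∣ M`** (`q² ∣ level`). -/
theorem kTr36 (M q m : ℕ) [NeZero M] [NeZero q] (hq : q.Prime) (hqM : q ∣ M) (hm : m ≠ 0) :
    KTrPlan.KTrStatement M q m :=
  KTrPlan.kTrStatement_of_halves (kTrAlpha36 M q m hq hqM hm) (kTrBeta36 M q m hq hqM hm)

/-- **[K-tr] for every prime `q`** (no hypothesis relating `q` and `M`). -/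
theorem kTrAll (M q m : ℕ) [NeZero M] [NeZero q] (hq : q.Prime) (hm : m ≠ 0) :
    KTrPlan.KTrStatement M q m := by
  by_cases hqM : q ∣ M
  · exact kTr36 M q m hq hqM hm
  · exact TrNorm2.kTr' M q m hq hqM hm

end Fermat.Agent.S36.KTr36
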