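/-
S36 [KTR36] (T3), second copy — KTr36B.lean (owner: helper98).

Generic closer of the characteristic-polynomial route for `[K-tr]`, in hypothesis form over an
ARBITRARY finite family of coset representatives (no coprimality between `q` and `M`):

* `kTrAlpha_of_reps` : `KTrPlan.KTrAlphaStatement M q m` from a family `r : ι → Γ₀(M)` of
  representatives of `incl₁(Γ₀(Mq)) \ Γ₀(M)` with `r x₀ = 1` and `card ι = [F̄_{Mq} : α F̄_M]`;
* `kTrBeta_of_reps` : `KTrPlan.KTrBetaStatement M q m` from a family `r : ι → Γ₀(M)` of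
  representatives of `incl₂(Γ₀(Mq)) \ Γ₀(M)` with `r x₀ = 1` and `card ι = [F̄_{Mq} : β F̄_M]`;
* `kTr_of_reps` : `KTrPlan.KTrStatement M q m` from both.

The `α`-half is `S35/NormRelA` with `S41.rep₁` replaced by the family `r`; the `β`-half is
`S35/WitNorm` with `CosetProd.repB` replaced by `diag(1, q) · r x`.
-/
import Mathlib
import Fermat.Agent.S35.NormRelA
import Fermat.Agent.S35.WitNorm
import Fermat.Agent.S35.TrProdMem2

set_option autoImplicit false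
set_option linter.unusedSectionVars false
set_option linter.style.haveILetI false

open CongruenceSubgroup UpperHalfPlane ModularCurve AlgebraicCurve Polynomial
open scoped MatrixGroups ModularForm Manifold

namespace Fermat.Agent.S36.KTr36B

open Fermat.Agent.S29 Fermat.Agent.S41 Fermat.Agent.S35
open Fermat.Agent.S24 (embC)

local notation "Qb" => AlgebraicClosure ℚ

/-! ### The `α`-half over an arbitrary family of representatives -/

section Alpha

variable {M q : ℕ} [NeZero M] [NeZero q] [Fact q.Prime] {ι : Type} [Fintype ι]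
  (r : ι → Gamma0 M)

/-- `RelR r f c` : `c` is the quotient of the coset products (over the family `r`) of SOME pair
of forms of level `M q` representing `f`. -/
def RelR (f : ↥(modularFunctionFieldBar (M * q))) (c : ↥(K.FC M)) : Prop :=
  ∃ (w : ℤ) (A B : ℍ → ℂ), A ∈ S20.MF (M * q) w ∧ B ∈ S20.MF (M * q) w ∧ B ≠ 0 ∧
    IndepLD.jBar M q f * K.qx B = K.qx A ∧
    (c : LaurentSeries ℂ) *
        K.qx (∏ x : ι, B ∣[w] ((r x : Gamma0 M) : SL(2, ℤ))) =
      K.qx (∏ x : ι, A ∣[w] ((r x : Gamma0 M) : SL(2, ℤ)))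

/-- The coset products of a form of level `M q` (trivial multiplier) over `r`. -/
theorem prodR_mem
    (hcov : ∀ g : Gamma0 M, ∃ i, ∃ h : Gamma0 (M * q), g = incl₁ M q h * r i)
    (hinj : ∀ i j, (∃ h : Gamma0 (M * q), r i = incl₁ M q h * r j) → i = j)
    {w : ℤ} {B : ℍ → ℂ} (hB : B ∈ S20.MF (M * q) w) :
    (∏ x : ι, B ∣[w] ((r x : Gamma0 M) : SL(2, ℤ))) ∈
      S20.MF M (w * (Fintype.card ι : ℤ)) :=
  haveI : NeZero (M * q) := ⟨Nat.mul_ne_zero (NeZero.ne M) (NeZero.ne q)⟩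
  TrProdMem.prod_slash_reps_mem_MF r hcov hinj hB

theorem prodR_ne_zero {w : ℤ} {B : ℍ → ℂ} (hB : B ∈ S20.MF (M * q) w) (hB0 : B ≠ 0) :
    (∏ x : ι, B ∣[w] ((r x : Gamma0 M) : SL(2, ℤ))) ≠ 0 :=
  haveI : NeZero (M * q) := ⟨Nat.mul_ne_zero (NeZero.ne M) (NeZero.ne q)⟩
  TrProdMem.prod_slash_ne_zero (fun x => ((r x : Gamma0 M) : SL(2, ℤ))) w
    (K.mdiff_of_mem_MFchi (K.mem_MFchi_one_iff.mpr hB)) hB0

/-- (K1) at level `M q`: every element of `F̄_{M q}` is related to some `c`. -/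
theorem relR_exists
    (hcov : ∀ g : Gamma0 M, ∃ i, ∃ h : Gamma0 (M * q), g = incl₁ M q h * r i)
    (hinj : ∀ i j, (∃ h : Gamma0 (M * q), r i = incl₁ M q h * r j) → i = j)
    (f : ↥(modularFunctionFieldBar (M * q))) :
    ∃ c, RelR r f c := by
  have : NeZero (M * q) := ⟨Nat.mul_ne_zero (NeZero.ne M) (NeZero.ne q)⟩
  have hmem : coeffMap embC (f : LaurentSeries Qb) ∈ K.Mchi (M * q) 1 := by
    rw [K.K2Div.mchi_one_eq_FC (M * q)]
    exact RatDescent.coeffMap_mem_laurentBaseChange embC _ f.2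
  obtain ⟨w, A, B, hA, hB, hB0, hx⟩ := hmem
  have hA' : A ∈ S20.MF (M * q) w := K.mem_MFchi_one_iff.mp hA
  have hPA := prodR_mem r hcov hinj hA'
  have hPB := prodR_mem r hcov hinj hB
  have hPB0 := prodR_ne_zero r hB hB0
  have hq0 : K.qx (∏ x : ι, B ∣[w] ((r x : Gamma0 M) : SL(2, ℤ))) ≠ 0 :=
    K.qx_ne_zero (K.mem_niceSub_of_mem_MF hPB) hPB0
  refine ⟨⟨_, TrDesc.mem_FC_of_forms (K.mem_MFchi_one_iff.mpr hPA) hPB hPB0
    (div_mul_cancel₀ _ hq0)⟩, w, A, B, hA', hB, hB0, hx, div_mul_cancel₀ _ hq0⟩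

/-- The relation is multiplicative. -/
theorem relR_mul
    (hcov : ∀ g : Gamma0 M, ∃ i, ∃ h : Gamma0 (M * q), g = incl₁ M q h * r i)
    (hinj : ∀ i j, (∃ h : Gamma0 (M * q), r i = incl₁ M q h * r j) → i = j)
    {f f' : ↥(modularFunctionFieldBar (M * q))} {c c' : ↥(K.FC M)}
    (h : RelR r f c) (h' : RelR r f' c') : RelR r (f * f') (c * c') := by
  have : NeZero (M * q) := ⟨Nat.mul_ne_zero (NeZero.ne M) (NeZero.ne q)⟩
  obtain ⟨w, A, B, hA, hB, hB0, hx, hc⟩ := h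
  obtain ⟨w', A', B', hA', hB', hB0', hx', hc'⟩ := h'
  have hAn := K.mem_niceSub_of_mem_MF hA
  have hBn := K.mem_niceSub_of_mem_MF hB
  have hAn' := K.mem_niceSub_of_mem_MF hA'
  have hBn' := K.mem_niceSub_of_mem_MF hB'
  have hmulMF : ∀ {X Y : ℍ → ℂ}, X ∈ S20.MF (M * q) w → Y ∈ S20.MF (M * q) w' →
      X * Y ∈ S20.MF (M * q) (w + w') := by
    intro X Y hX hY
    have h1 := K.mul_mem_MFchi (K.mem_MFchi_one_iff.mpr hX) (K.mem_MFchi_one_iff.mpr hY)
    exact K.mem_MFchi_one_iff.mp (K.MFchi_congr_char (mul_one 1) h1)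
  have hprod : ∀ X Y : ℍ → ℂ,
      (∏ x : ι, (X * Y) ∣[w + w'] ((r x : Gamma0 M) : SL(2, ℤ))) =
      (∏ x : ι, X ∣[w] ((r x : Gamma0 M) : SL(2, ℤ))) *
        ∏ x : ι, Y ∣[w'] ((r x : Gamma0 M) : SL(2, ℤ)) := by
    intro X Y
    rw [← Finset.prod_mul_distrib]
    refine Finset.prod_congr rfl fun x _ => ?_
    exact ModularForm.mul_slash_SL2 w w' _ X Y
  refine ⟨w + w', A * A', B * B', hmulMF hA hA', hmulMF hB hB',
    K.mul_ne_zero_of_mdiff (K.mdiff_of_mem_MFchi (K.mem_MFchi_one_iff.mpr hB))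
      (K.mdiff_of_mem_MFchi (K.mem_MFchi_one_iff.mpr hB')) hB0 hB0', ?_, ?_⟩
  · rw [map_mul, K.qx_mul hBn hBn', K.qx_mul hAn hAn', ← hx, ← hx']
    ring
  · rw [hprod, hprod, K.qx_mul (K.mem_niceSub_of_mem_MF (prodR_mem r hcov hinj hB))
      (K.mem_niceSub_of_mem_MF (prodR_mem r hcov hinj hB')),
      K.qx_mul (K.mem_niceSub_of_mem_MF (prodR_mem r hcov hinj hA))
      (K.mem_niceSub_of_mem_MF (prodR_mem r hcov hinj hA')), ← hc, ← hc']
    push_cast
    ring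

/-- The relation produces monic annihilators of degree `card ι`. -/
theorem relR_poly
    (hcov : ∀ g : Gamma0 M, ∃ i, ∃ h : Gamma0 (M * q), g = incl₁ M q h * r i)
    (hinj : ∀ i j, (∃ h : Gamma0 (M * q), r i = incl₁ M q h * r j) → i = j)
    (x₀ : ι) (hx₀ : r x₀ = 1)
    {f : ↥(modularFunctionFieldBar (M * q))} {c : ↥(K.FC M)}
    (h : RelR r f c) :
    ∃ P : Polynomial ↥(K.FC M), P.Monic ∧ P.natDegree = Fintype.card ι ∧
      P.eval₂ (IndepLD.eAlpha M) (IndepLD.jBar M q f) = 0 ∧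
      P.coeff 0 = (-1) ^ Fintype.card ι * c := by
  have : NeZero (M * q) := ⟨Nat.mul_ne_zero (NeZero.ne M) (NeZero.ne q)⟩
  obtain ⟨w, A, B, hA, hB, hB0, hx, hc⟩ := h
  exact NormRelA.exists_poly r hcov hinj x₀ hx₀ hA hB hB0 hx c hc

theorem hpolyR_alpha
    (hcov : ∀ g : Gamma0 M, ∃ i, ∃ h : Gamma0 (M * q), g = incl₁ M q h * r i)
    (hinj : ∀ i j, (∃ h : Gamma0 (M * q), r i = incl₁ M q h * r j) → i = j)
    (x₀ : ι) (hx₀ : r x₀ = 1)
    (hdeg : finrankAlong Qb (heckeAlphaBar Qb M q) = Fintype.card ι) :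
    letI : Algebra ↥(modularFunctionFieldBar M) ↥(modularFunctionFieldBar (M * q)) :=
      algebraAlong (heckeAlphaBar Qb M q)
    ∀ (f : ↥(modularFunctionFieldBar (M * q))) (c : ↥(K.FC M)), RelR r f c →
      ∃ P : Polynomial ↥(K.FC M), P.Monic ∧
        P.natDegree =
          Module.finrank ↥(modularFunctionFieldBar M) ↥(modularFunctionFieldBar (M * q)) ∧
        P.eval₂ (IndepLD.eAlpha M) (IndepLD.jBar M q f) = 0 ∧
        P.coeff 0 = (-1) ^
          Module.finrank ↥(modularFunctionFieldBar M) ↥(modularFunctionFieldBar (M * q)) * c := by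
  intro f c h
  obtain ⟨P, h1, h2, h3, h4⟩ := relR_poly r hcov hinj x₀ hx₀ h
  have hfr : (letI : Algebra ↥(modularFunctionFieldBar M) ↥(modularFunctionFieldBar (M * q)) :=
      algebraAlong (heckeAlphaBar Qb M q)
    Module.finrank ↥(modularFunctionFieldBar M) ↥(modularFunctionFieldBar (M * q))) =
      Fintype.card ι := hdeg
  exact ⟨P, h1, by rw [h2, hfr], h3, by rw [h4, hfr]⟩

theorem relR_exists' 
    (hcov : ∀ g : Gamma0 M, ∃ i, ∃ h : Gamma0 (M * q), g = incl₁ M q h * r i)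
    (hinj : ∀ i j, (∃ h : Gamma0 (M * q), r i = incl₁ M q h * r j) → i = j) :
    ∀ f : ↥(modularFunctionFieldBar (M * q)), f ≠ 0 → ∃ c, RelR r f c :=
  fun f _ => relR_exists r hcov hinj f

theorem relR_mul'
    (hcov : ∀ g : Gamma0 M, ∃ i, ∃ h : Gamma0 (M * q), g = incl₁ M q h * r i)
    (hinj : ∀ i j, (∃ h : Gamma0 (M * q), r i = incl₁ M q h * r j) → i = j) :
    ∀ (f f' : ↥(modularFunctionFieldBar (M * q))) (c c' : ↥(K.FC M)),
      RelR r f c → RelR r f' c' → RelR r (f * f') (c * c') :=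
  fun _ _ _ _ h h' => relR_mul r hcov hinj h h'

/-- **The norm of a represented element** (`Algebra.norm` form). -/
theorem relR_norm_aux
    (hcov : ∀ g : Gamma0 M, ∃ i, ∃ h : Gamma0 (M * q), g = incl₁ M q h * r i)
    (hinj : ∀ i j, (∃ h : Gamma0 (M * q), r i = incl₁ M q h * r j) → i = j)
    (x₀ : ι) (hx₀ : r x₀ = 1)
    (hdeg : finrankAlong Qb (heckeAlphaBar Qb M q) = Fintype.card ι)
    {f : ↥(modularFunctionFieldBar (M * q))} (hf : f ≠ 0)
    {c : ↥(K.FC M)} (h : RelR r f c) :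
    letI : Algebra ↥(modularFunctionFieldBar M) ↥(modularFunctionFieldBar (M * q)) :=
      algebraAlong (heckeAlphaBar Qb M q)
    c = NormRelA.j0 M (Algebra.norm ↥(modularFunctionFieldBar M) f) := by
  letI : Algebra ↥(modularFunctionFieldBar M) ↥(modularFunctionFieldBar (M * q)) :=
    algebraAlong (heckeAlphaBar Qb M q)
  haveI : FiniteDimensional ↥(modularFunctionFieldBar M) ↥(modularFunctionFieldBar (M * q)) :=
    NormRelA.fd_alpha
  haveI : Algebra.IsSeparable ↥(modularFunctionFieldBar M) ↥(modularFunctionFieldBar (M * q)) :=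
    NormRelA.sep_alpha
  haveI : Infinite ↥(modularFunctionFieldBar M) :=
    Infinite.of_injective _ (algebraMap Qb ↥(modularFunctionFieldBar M)).injective
  exact PrimNorm.norm_eq_of_rel (K := ↥(modularFunctionFieldBar M))
    (L := ↥(modularFunctionFieldBar (M * q))) (NormRelA.j0 M) (IndepLD.jBar M q)
    (IndepLD.eAlpha M) NormRelA.hj_alpha NormRelA.hind_alpha (RelR r)
    (relR_exists' r hcov hinj) (relR_mul' r hcov hinj) (hpolyR_alpha r hcov hinj x₀ hx₀ hdeg) hf h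

/-- **The norm of a represented element** is the quotient of the coset products. -/
theorem relR_norm
    (hcov : ∀ g : Gamma0 M, ∃ i, ∃ h : Gamma0 (M * q), g = incl₁ M q h * r i)
    (hinj : ∀ i j, (∃ h : Gamma0 (M * q), r i = incl₁ M q h * r j) → i = j)
    (x₀ : ι) (hx₀ : r x₀ = 1)
    (hdeg : finrankAlong Qb (heckeAlphaBar Qb M q) = Fintype.card ι)
    {f : ↥(modularFunctionFieldBar (M * q))} (hf : f ≠ 0)
    {c : ↥(K.FC M)} (h : RelR r f c) :
    (c : LaurentSeries ℂ) =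
      coeffMap embC ((PushPic.alphaNorm M q f : ↥(modularFunctionFieldBar M)) : LaurentSeries Qb) := by
  rw [NormRelA.alphaNorm_eq, ← NormRelA.coe_j0]
  exact congrArg Subtype.val (relR_norm_aux r hcov hinj x₀ hx₀ hdeg hf h)

/-- **[K-tr], `α`-half, over an arbitrary family of representatives.** -/
theorem kTrAlpha_of_reps_aux
    (hcov : ∀ g : Gamma0 M, ∃ i, ∃ h : Gamma0 (M * q), g = incl₁ M q h * r i)
    (hinj : ∀ i j, (∃ h : Gamma0 (M * q), r i = incl₁ M q h * r j) → i = j)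
    (x₀ : ι) (hx₀ : r x₀ = 1)
    (hdeg : finrankAlong Qb (heckeAlphaBar Qb M q) = Fintype.card ι)
    {m : ℕ} (hm : m ≠ 0) : KTrPlan.KTrAlphaStatement M q m := by
  have : NeZero (M * q) := ⟨Nat.mul_ne_zero (NeZero.ne M) (NeZero.ne q)⟩
  intro u y hy f hf htr
  obtain ⟨hy0, w, A, B, hA, hB, hB0, hx⟩ := hy
  -- `f ≠ 0`
  have hf0 : f ≠ 0 := by
    intro h0
    have h1 : (f : LaurentSeries Qb) = 0 := by rw [h0]; rfl
    rw [hf] at h1
    exact hy0 (pow_eq_zero_iff hm |>.mp h1)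
  have hBd : MDiff B := K.mdiff_of_mem_MFchi (K.mem_MFchi_one_iff.mpr hB)
  have hAn : A ∈ S23.niceSub := K.mem_niceSub_of_mem_MFchi (KPlan.chiU_TG m u) hA
  have hBn : B ∈ S23.niceSub := K.mem_niceSub_of_mem_MF hB
  -- the coset products of the witness pair
  set PA : ℍ → ℂ := ∏ x : ι, A ∣[w] ((r x : Gamma0 M) : SL(2, ℤ)) with hPA
  set PB : ℍ → ℂ := ∏ x : ι, B ∣[w] ((r x : Gamma0 M) : SL(2, ℤ)) with hPB
  have hPAmem : PA ∈ S20.MF M (w * (Fintype.card ι : ℤ)) :=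
    TrProdMem.prod_slash_reps_mem_MF_of_tr₁_eq_zero r hcov hinj m
      (u : Additive (Gamma0 (M * q)) →+ ℤ) htr hA
  have hPBmem : PB ∈ S20.MF M (w * (Fintype.card ι : ℤ)) := prodR_mem r hcov hinj hB
  have hPB0 : PB ≠ 0 := prodR_ne_zero r hB hB0
  have hPAn : PA ∈ S23.niceSub := K.mem_niceSub_of_mem_MF hPAmem
  have hPBn : PB ∈ S23.niceSub := K.mem_niceSub_of_mem_MF hPBmem
  have hqPB : K.qx PB ≠ 0 := K.qx_ne_zero hPBn hPB0
  set hC : LaurentSeries ℂ := K.qx PA / K.qx PB with hhC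
  have hCmem : hC ∈ K.FC M :=
    TrDesc.mem_FC_of_forms (K.mem_MFchi_one_iff.mpr hPAmem) hPBmem hPB0 (div_mul_cancel₀ _ hqPB)
  -- the pair `(A ^ m, B ^ m)` represents `f`
  have hAm : A ^ m ∈ S20.MF (M * q) ((m : ℤ) * w) := by
    have h1 := K.pow_mem_MFchi hA m
    rw [KPlan.chiU_pow m hm] at h1
    exact K.mem_MFchi_one_iff.mp h1
  have hBm : B ^ m ∈ S20.MF (M * q) ((m : ℤ) * w) := by
    have h1 := K.pow_mem_MFchi (K.mem_MFchi_one_iff.mpr hB) m
    exact K.mem_MFchi_one_iff.mp (K.MFchi_congr_char (one_pow m) h1)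
  have hBm0 : B ^ m ≠ 0 := K.pow_ne_zero_of_mdiff hBd hB0 m
  have hprodpow : ∀ X : ℍ → ℂ,
      (∏ x : ι, (X ^ m) ∣[(m : ℤ) * w] ((r x : Gamma0 M) : SL(2, ℤ))) =
      (∏ x : ι, X ∣[w] ((r x : Gamma0 M) : SL(2, ℤ))) ^ m := by
    intro X
    rw [← Finset.prod_pow]
    refine Finset.prod_congr rfl fun x _ => ?_
    exact NormRelA.pow_slash w X _ m
  have hrel : RelR r f ⟨hC ^ m, pow_mem hCmem m⟩ := by
    refine ⟨(m : ℤ) * w, A ^ m, B ^ m, hAm, hBm, hBm0, ?_, ?_⟩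
    · rw [IndepLD.jBar_apply, hf, map_pow, K.qx_pow hBn, K.qx_pow hAn, ← mul_pow, hx]
    · show hC ^ m * _ = _
      rw [hprodpow, hprodpow, K.qx_pow hPBn, K.qx_pow hPAn, ← mul_pow, hhC,
        div_mul_cancel₀ _ hqPB]
  have hnorm := relR_norm r hcov hinj x₀ hx₀ hdeg hf0 hrel
  have hpow : hC ^ m = coeffMap embC
      ((PushPic.alphaNorm M q f : ↥(modularFunctionFieldBar M)) : LaurentSeries Qb) := hnorm
  exact TrDesc.exists_root_of_pow_eq hm (PushPic.alphaNorm M q f)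
    (PushPic.normAlong_ne_zero _ (PushPic.alpha_finiteAlong M q) hf0) hC hCmem hpow

end Alpha


/-! ### The `β`-half over an arbitrary family of representatives -/

section Beta

variable {M q : ℕ} [NeZero M] [NeZero q] [Fact q.Prime] {ι : Type} [Fintype ι]
  (r : ι → Gamma0 M)

/-- The `GL₂(ℝ)` family `diag(1, q) · r x`, which computes the norm along `β`. -/
noncomputable def rhoB (q : ℕ) {M : ℕ} {ι : Type} (r : ι → Gamma0 M) (x : ι) : GL (Fin 2) ℝ :=
  ModularForm.heckeMatrix q 0 * Matrix.SpecialLinearGroup.mapGL ℝ ((r x : Gamma0 M) : SL(2, ℤ))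

theorem slash_rhoB (w : ℤ) (A : ℍ → ℂ) (x : ι) :
    A ∣[w] rhoB q r x =
      (A ∣[w] ModularForm.heckeMatrix q 0) ∣[w] ((r x : Gamma0 M) : SL(2, ℤ)) := by
  unfold rhoB
  rw [SlashAction.slash_mul]
  rfl

theorem prod_rhoB (w : ℤ) (A : ℍ → ℂ) :
    (∏ x, A ∣[w] rhoB q r x) =
      ∏ x, (A ∣[w] ModularForm.heckeMatrix q 0) ∣[w] ((r x : Gamma0 M) : SL(2, ℤ)) :=
  Finset.prod_congr rfl fun x _ => slash_rhoB r w A x

theorem det_rhoB_pos (x : ι) : 0 < (rhoB q r x).det.val := by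
  have hd : 0 < ((ModularForm.heckeMatrix q 0 : GL (Fin 2) ℝ) :
      Matrix (Fin 2) (Fin 2) ℝ).det := by
    simpa using ModularForm.det_heckeMatrix_pos q 0
  show 0 < ((rhoB q r x : GL (Fin 2) ℝ) : Matrix (Fin 2) (Fin 2) ℝ).det
  unfold rhoB
  rw [Matrix.GeneralLinearGroup.coe_mul, Matrix.det_mul, CosetProd.det_mapGL, mul_one]
  exact hd

theorem hmemR
    (hcov : ∀ g : Gamma0 M, ∃ i, ∃ h : Gamma0 (M * q), g = incl₂ M q h * r i)
    (hinj : ∀ i j, (∃ h : Gamma0 (M * q), r i = incl₂ M q h * r j) → i = j)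
    (w : ℤ) (A : ℍ → ℂ) (hA : A ∈ S20.MF (M * q) w) :
    (∏ x, A ∣[w] rhoB q r x) ∈ S20.MF M (w * (Fintype.card ι : ℤ)) := by
  rw [prod_rhoB]
  exact TrProdMem2.prod_slash_reps₂_mem_MF r hcov hinj hA

theorem hneR (w : ℤ) (B : ℍ → ℂ) (hB : B ∈ S20.MF (M * q) w) (hB0 : B ≠ 0) :
    (∏ x, B ∣[w] rhoB q r x) ≠ 0 := by
  obtain ⟨F, rfl⟩ := hB
  exact CosetProd.prod_slash_gl_ne_zero _ w F.holo' hB0

theorem hbaseR (x₀ : ι) (hx₀ : r x₀ = 1) (w : ℤ) (A : ℍ → ℂ) (z : ℍ) :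
    (A ∣[w] rhoB q r x₀) (S23.mulN q z) = (q : ℂ)⁻¹ * A z := by
  have h1 : rhoB q r x₀ = ModularForm.heckeMatrix q 0 := by
    unfold rhoB
    rw [hx₀]
    simp
  rw [h1, ModularForm.slash_heckeMatrix_apply w (NeZero.ne q),
    HeckeProdQxB.heckeMatrix_smul_mulN]
  congr 2
  ext
  simp

/-- The relation of `PrimNorm` along `β`: `c` is an analytic norm of `f` along `rhoB q r`. -/
def RelB (f : ↥(modularFunctionFieldBar (M * q))) (c : ↥(K.FC M)) : Prop :=
  RepPair.Rel (M * q) (rhoB q r) (coeffMap embC (f : LaurentSeries Qb)) (c : LaurentSeries ℂ)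

theorem relB_exists'
    (hcov : ∀ g : Gamma0 M, ∃ i, ∃ h : Gamma0 (M * q), g = incl₂ M q h * r i)
    (hinj : ∀ i j, (∃ h : Gamma0 (M * q), r i = incl₂ M q h * r j) → i = j) :
    ∀ f : ↥(modularFunctionFieldBar (M * q)), f ≠ 0 → ∃ c, RelB r f c := by
  have : NeZero (M * q) := ⟨Nat.mul_ne_zero (NeZero.ne M) (NeZero.ne q)⟩
  intro f _
  obtain ⟨c, hc⟩ := RepPair.rel_exists (Nlow := M) (hmemR r hcov hinj) (hneR r) f
  exact ⟨⟨c, RepPair.rel_mem_FC (hmemR r hcov hinj) (hneR r) hc⟩, hc⟩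

theorem relB_mul'
    (hcov : ∀ g : Gamma0 M, ∃ i, ∃ h : Gamma0 (M * q), g = incl₂ M q h * r i)
    (hinj : ∀ i j, (∃ h : Gamma0 (M * q), r i = incl₂ M q h * r j) → i = j) :
    ∀ (f f' : ↥(modularFunctionFieldBar (M * q))) (c c' : ↥(K.FC M)),
      RelB r f c → RelB r f' c' → RelB r (f * f') (c * c') := by
  have : NeZero (M * q) := ⟨Nat.mul_ne_zero (NeZero.ne M) (NeZero.ne q)⟩
  intro f f' c c' h h'
  have h2 := RepPair.rel_mul (Nlow := M) (det_rhoB_pos r) (hmemR r hcov hinj) (hneR r) h h'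
  unfold RelB
  rw [← map_mul] at h2
  exact h2

/-- The relation produces monic annihilators of degree `card ι`. -/
theorem relB_poly
    (hcov : ∀ g : Gamma0 M, ∃ i, ∃ h : Gamma0 (M * q), g = incl₂ M q h * r i)
    (hinj : ∀ i j, (∃ h : Gamma0 (M * q), r i = incl₂ M q h * r j) → i = j)
    (x₀ : ι) (hx₀ : r x₀ = 1)
    {f : ↥(modularFunctionFieldBar (M * q))} {c : ↥(K.FC M)}
    (h : RelB r f c) :
    ∃ P : Polynomial ↥(K.FC M), P.Monic ∧ P.natDegree = Fintype.card ι ∧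
      P.eval₂ (IndepLD.eBeta M q) (IndepLD.jBar M q f) = 0 ∧
      P.coeff 0 = (-1) ^ Fintype.card ι * c := by
  have : NeZero (M * q) := ⟨Nat.mul_ne_zero (NeZero.ne M) (NeZero.ne q)⟩
  obtain ⟨w, A, B, hA, hB, hB0, hfAB, hcAB⟩ := h
  have hκ : ((q : ℂ))⁻¹ ≠ 0 := inv_ne_zero (Nat.cast_ne_zero.mpr (NeZero.ne q))
  obtain ⟨P, hP1, hP2, hP3, hP4⟩ := SymForms.exists_poly (Nup := M * q) (Nlow := M)
    (ρ := rhoB q r) (det_rhoB_pos r) (hmemR r hcov hinj) (hneR r) x₀ q ((q : ℂ))⁻¹ hκ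
    (hbaseR r x₀ hx₀ w) hA hB hB0 hfAB
  refine ⟨P, hP1, hP2, hP3, ?_⟩
  have hqB : K.qx (∏ x, B ∣[w] rhoB q r x) ≠ 0 :=
    K.qx_ne_zero (K.mem_niceSub_of_mem_MF (hmemR r hcov hinj w B hB)) (hneR r w B hB hB0)
  apply Subtype.ext
  apply mul_right_cancel₀ hqB
  rw [hP4]
  push_cast
  rw [mul_assoc, hcAB]

theorem hpolyR_beta
    (hcov : ∀ g : Gamma0 M, ∃ i, ∃ h : Gamma0 (M * q), g = incl₂ M q h * r i)
    (hinj : ∀ i j, (∃ h : Gamma0 (M * q), r i = incl₂ M q h * r j) → i = j)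
    (x₀ : ι) (hx₀ : r x₀ = 1)
    (hdeg : finrankAlong Qb (heckeBetaBar Qb M q) = Fintype.card ι) :
    letI : Algebra ↥(modularFunctionFieldBar M) ↥(modularFunctionFieldBar (M * q)) :=
      algebraAlong (heckeBetaBar Qb M q)
    ∀ (f : ↥(modularFunctionFieldBar (M * q))) (c : ↥(K.FC M)), RelB r f c →
      ∃ P : Polynomial ↥(K.FC M), P.Monic ∧
        P.natDegree =
          Module.finrank ↥(modularFunctionFieldBar M) ↥(modularFunctionFieldBar (M * q)) ∧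
        P.eval₂ (IndepLD.eBeta M q) (IndepLD.jBar M q f) = 0 ∧
        P.coeff 0 = (-1) ^
          Module.finrank ↥(modularFunctionFieldBar M) ↥(modularFunctionFieldBar (M * q)) * c := by
  intro f c h
  obtain ⟨P, h1, h2, h3, h4⟩ := relB_poly r hcov hinj x₀ hx₀ h
  have hfr : (letI : Algebra ↥(modularFunctionFieldBar M) ↥(modularFunctionFieldBar (M * q)) :=
      algebraAlong (heckeBetaBar Qb M q)
    Module.finrank ↥(modularFunctionFieldBar M) ↥(modularFunctionFieldBar (M * q))) =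
      Fintype.card ι := hdeg
  exact ⟨P, h1, by rw [h2, hfr], h3, by rw [h4, hfr]⟩

/-- **The norm of a represented element** (`Algebra.norm` form). -/
theorem relB_norm_aux
    (hcov : ∀ g : Gamma0 M, ∃ i, ∃ h : Gamma0 (M * q), g = incl₂ M q h * r i)
    (hinj : ∀ i j, (∃ h : Gamma0 (M * q), r i = incl₂ M q h * r j) → i = j)
    (x₀ : ι) (hx₀ : r x₀ = 1)
    (hdeg : finrankAlong Qb (heckeBetaBar Qb M q) = Fintype.card ι)
    {f : ↥(modularFunctionFieldBar (M * q))} (hf : f ≠ 0)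
    {c : ↥(K.FC M)} (h : RelB r f c) :
    letI : Algebra ↥(modularFunctionFieldBar M) ↥(modularFunctionFieldBar (M * q)) :=
      algebraAlong (heckeBetaBar Qb M q)
    c = WitNorm.j0B M (Algebra.norm ↥(modularFunctionFieldBar M) f) := by
  letI : Algebra ↥(modularFunctionFieldBar M) ↥(modularFunctionFieldBar (M * q)) :=
    algebraAlong (heckeBetaBar Qb M q)
  haveI : FiniteDimensional ↥(modularFunctionFieldBar M) ↥(modularFunctionFieldBar (M * q)) :=
    WitNorm.fd_beta M q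
  haveI : Algebra.IsSeparable ↥(modularFunctionFieldBar M) ↥(modularFunctionFieldBar (M * q)) :=
    WitNorm.sep_beta M q
  haveI : Infinite ↥(modularFunctionFieldBar M) :=
    Infinite.of_injective _ (algebraMap Qb ↥(modularFunctionFieldBar M)).injective
  exact PrimNorm.norm_eq_of_rel (K := ↥(modularFunctionFieldBar M))
    (L := ↥(modularFunctionFieldBar (M * q))) (WitNorm.j0B M) (IndepLD.jBar M q)
    (IndepLD.eBeta M q) (WitNorm.hj_beta M q) (WitNorm.hind_beta M q) (RelB r)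
    (relB_exists' r hcov hinj) (relB_mul' r hcov hinj) (hpolyR_beta r hcov hinj x₀ hx₀ hdeg) hf h

/-- **The norm of a represented element** is the quotient of the coset products. -/
theorem relB_norm
    (hcov : ∀ g : Gamma0 M, ∃ i, ∃ h : Gamma0 (M * q), g = incl₂ M q h * r i)
    (hinj : ∀ i j, (∃ h : Gamma0 (M * q), r i = incl₂ M q h * r j) → i = j)
    (x₀ : ι) (hx₀ : r x₀ = 1)
    (hdeg : finrankAlong Qb (heckeBetaBar Qb M q) = Fintype.card ι)
    {f : ↥(modularFunctionFieldBar (M * q))} (hf : f ≠ 0)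
    {c : ↥(K.FC M)} (h : RelB r f c) :
    (c : LaurentSeries ℂ) =
      coeffMap embC ((PushPic.betaNorm M q f : ↥(modularFunctionFieldBar M)) : LaurentSeries Qb) := by
  rw [WitNorm.betaNorm_eq, ← WitNorm.coe_j0B]
  exact congrArg Subtype.val (relB_norm_aux r hcov hinj x₀ hx₀ hdeg hf h)

/-- **[K-tr], `β`-half, over an arbitrary family of representatives.** -/
theorem kTrBeta_of_reps_aux
    (hcov : ∀ g : Gamma0 M, ∃ i, ∃ h : Gamma0 (M * q), g = incl₂ M q h * r i)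
    (hinj : ∀ i j, (∃ h : Gamma0 (M * q), r i = incl₂ M q h * r j) → i = j)
    (x₀ : ι) (hx₀ : r x₀ = 1)
    (hdeg : finrankAlong Qb (heckeBetaBar Qb M q) = Fintype.card ι)
    {m : ℕ} (hm : m ≠ 0) : KTrPlan.KTrBetaStatement M q m := by
  have : NeZero (M * q) := ⟨Nat.mul_ne_zero (NeZero.ne M) (NeZero.ne q)⟩
  intro u y hy f hf htr
  obtain ⟨hy0, w, A, B, hA, hB, hB0, hyAB⟩ := hy
  have hdet := det_rhoB_pos (q := q) r
  have hmem := hmemR r hcov hinj
  have hne := hneR (q := q) r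
  -- the transfer products of the numerator and of the denominator
  have hPA : (∏ x, A ∣[w] rhoB q r x) ∈ K.MFchi M (w * (Fintype.card ι : ℤ)) 1 := by
    rw [prod_rhoB]
    exact K.mem_MFchi_one_iff.mpr (TrProdMem2.prod_slash_reps₂_mem_MF_of_tr₂_eq_zero r hcov hinj m
      (u : Additive (Gamma0 (M * q)) →+ ℤ) htr hA)
  have nPA := K.mem_niceSub_of_mem_MF (K.mem_MFchi_one_iff.mp hPA)
  have hPB := hmem w B hB
  have nPB := K.mem_niceSub_of_mem_MF hPB
  have hPB0 := hne w B hB hB0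
  have hqB : K.qx (∏ x, B ∣[w] rhoB q r x) ≠ 0 := K.qx_ne_zero nPB hPB0
  obtain ⟨c₀, hc₀eq⟩ : ∃ c₀ : LaurentSeries ℂ,
      c₀ * K.qx (∏ x, B ∣[w] rhoB q r x) = K.qx (∏ x, A ∣[w] rhoB q r x) :=
    ⟨_, div_mul_cancel₀ _ hqB⟩
  have hc₀mem : c₀ ∈ K.FC M := TrDesc.mem_FC_of_forms hPA hPB hPB0 hc₀eq
  -- `c₀ ^ m` is an analytic norm of `f`
  have hRel : RelB r f ⟨c₀ ^ m, pow_mem hc₀mem m⟩ := by
    have h := RepPair.rel_pow_of_char (Nlow := M) hdet hmem hne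
      (KPlan.chiU_pow m hm (u : Additive (Gamma0 (M * q)) →+ ℤ)) (KPlan.chiU_TG m u)
      hA hB hB0 hyAB hc₀eq nPA
    unfold RelB
    rwa [← map_pow, ← hf] at h
  have hf0 : f ≠ 0 := by
    intro h0
    apply pow_ne_zero m hy0
    rw [← hf, h0]
    rfl
  have hfin : c₀ ^ m = coeffMap embC
      ((PushPic.betaNorm M q f : ↥(modularFunctionFieldBar M)) : LaurentSeries Qb) :=
    relB_norm r hcov hinj x₀ hx₀ hdeg hf0 hRel
  -- descent of the `m`-th root
  have hg : PushPic.betaNorm M q f ≠ 0 := (hf0.isUnit.map (PushPic.betaNorm M q)).ne_zero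
  exact TrDesc.exists_root_of_pow_eq hm (PushPic.betaNorm M q f) hg c₀ hc₀mem hfin

end Beta

/-- **[K-tr], `α`-half, over an arbitrary finite family of representatives** of
`incl₁(Γ₀(Mq)) \ Γ₀(M)` containing `1`, whose cardinality is the degree along `α`
(`q` prime; NO coprimality between `q` and `M`). -/
theorem kTrAlpha_of_reps (M q : ℕ) [NeZero M] [NeZero q] (hq : q.Prime)
    {ι : Type} [Fintype ι] (r : ι → Gamma0 M)
    (hcov : ∀ g : Gamma0 M, ∃ i, ∃ h : Gamma0 (M * q),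
      g = Fermat.Agent.S41.incl₁ M q h * r i)
    (hinj : ∀ i j, (∃ h : Gamma0 (M * q), r i = Fermat.Agent.S41.incl₁ M q h * r j) → i = j)
    (x₀ : ι) (hx₀ : r x₀ = 1)
    (hdeg : finrankAlong (AlgebraicClosure ℚ) (heckeAlphaBar (AlgebraicClosure ℚ) M q) =
      Fintype.card ι)
    {m : ℕ} (hm : m ≠ 0) : Fermat.Agent.S35.KTrPlan.KTrAlphaStatement M q m :=
  haveI : Fact q.Prime := ⟨hq⟩
  kTrAlpha_of_reps_aux r hcov hinj x₀ hx₀ hdeg hm

/-- **[K-tr], `β`-half, over an arbitrary finite family of representatives** of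
`incl₂(Γ₀(Mq)) \ Γ₀(M)` containing `1`, whose cardinality is the degree along `β`
(`q` prime; NO coprimality between `q` and `M`). -/
theorem kTrBeta_of_reps (M q : ℕ) [NeZero M] [NeZero q] (hq : q.Prime)
    {ι : Type} [Fintype ι] (r : ι → Gamma0 M)
    (hcov : ∀ g : Gamma0 M, ∃ i, ∃ h : Gamma0 (M * q),
      g = Fermat.Agent.S41.incl₂ M q h * r i)
    (hinj : ∀ i j, (∃ h : Gamma0 (M * q), r i = Fermat.Agent.S41.incl₂ M q h * r j) → i = j)
    (x₀ : ι) (hx₀ : r x₀ = 1)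
    (hdeg : finrankAlong (AlgebraicClosure ℚ) (heckeBetaBar (AlgebraicClosure ℚ) M q) =
      Fintype.card ι)
    {m : ℕ} (hm : m ≠ 0) : Fermat.Agent.S35.KTrPlan.KTrBetaStatement M q m :=
  haveI : Fact q.Prime := ⟨hq⟩
  kTrBeta_of_reps_aux r hcov hinj x₀ hx₀ hdeg hm

/-- **[K-tr] over arbitrary finite families of representatives** (both halves). -/
theorem kTr_of_reps (M q : ℕ) [NeZero M] [NeZero q] (hq : q.Prime)
    {ιA : Type} [Fintype ιA] (rA : ιA → Gamma0 M)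
    (hcovA : ∀ g : Gamma0 M, ∃ i, ∃ h : Gamma0 (M * q),
      g = Fermat.Agent.S41.incl₁ M q h * rA i)
    (hinjA : ∀ i j, (∃ h : Gamma0 (M * q), rA i = Fermat.Agent.S41.incl₁ M q h * rA j) → i = j)
    (a₀ : ιA) (ha₀ : rA a₀ = 1)
    (hdegA : finrankAlong (AlgebraicClosure ℚ) (heckeAlphaBar (AlgebraicClosure ℚ) M q) =
      Fintype.card ιA)
    {ιB : Type} [Fintype ιB] (rB : ιB → Gamma0 M)
    (hcovB : ∀ g : Gamma0 M, ∃ i, ∃ h : Gamma0 (M * q),
      g = Fermat.Agent.S41.incl₂ M q h * rB i)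
    (hinjB : ∀ i j, (∃ h : Gamma0 (M * q), rB i = Fermat.Agent.S41.incl₂ M q h * rB j) → i = j)
    (b₀ : ιB) (hb₀ : rB b₀ = 1)
    (hdegB : finrankAlong (AlgebraicClosure ℚ) (heckeBetaBar (AlgebraicClosure ℚ) M q) =
      Fintype.card ιB)
    {m : ℕ} (hm : m ≠ 0) : Fermat.Agent.S35.KTrPlan.KTrStatement M q m :=
  Fermat.Agent.S35.KTrPlan.kTrStatement_of_halves
    (kTrAlpha_of_reps M q hq rA hcovA hinjA a₀ ha₀ hdegA hm)
    (kTrBeta_of_reps M q hq rB hcovB hinjB b₀ hb₀ hdegB hm)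

end Fermat.Agent.S36.KTr36B
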