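/-
S36 package [KTR36] — KTr36N.lean (helper37): the bridge `[K-tr]` at `q ∣ M` in the `NewPlan` form
(`S35.NewPlan.KTrStatement`, the Prop consumed by the top of S35 / S36).

* `kTr36N`  : `NewPlan.KTrStatement M q m` for a prime `q ∣ M`, `m ≠ 0`;
* `kTrAllN` : `NewPlan.KTrStatement M q m` for EVERY prime `q`;
* `kTr36N_forall`, `kTrAllN_forall` : the same with all binders explicit-universal (hypothesis
  shapes of the consumers).
-/
import Mathlib
import Fermat.Agent.S35.NewPlan
import Fermat.Agent.S35.TrNorm2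
import Fermat.Agent.S36.KTr36

set_option autoImplicit false

namespace Fermat.Agent.S36.KTr36N

open Fermat.Agent.S35

/-- **[K-tr] at level `M q`, `q ∣ M`**, `NewPlan` form. -/
theorem kTr36N (M q m : ℕ) [NeZero M] [NeZero q] (hq : q.Prime) (hqM : q ∣ M) (hm : m ≠ 0) :
    NewPlan.KTrStatement M q m :=
  TrNorm2.kTr_of_halves (KTr36.kTrAlpha36 M q m hq hqM hm) (KTr36.kTrBeta36 M q m hq hqM hm)

/-- **[K-tr] for every prime `q`**, `NewPlan` form. -/
theorem kTrAllN (M q m : ℕ) [NeZero M] [NeZero q] (hq : q.Prime) (hm : m ≠ 0) :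
    NewPlan.KTrStatement M q m := by
  by_cases hqM : q ∣ M
  · exact kTr36N M q m hq hqM hm
  · exact TrNorm2.kTr M q m hq hqM hm

/-- The `q ∣ M` case as a universally quantified statement. -/
theorem kTr36N_forall : ∀ (M q m : ℕ) [NeZero M] [NeZero q], q.Prime → q ∣ M → m ≠ 0 →
    NewPlan.KTrStatement M q m :=
  fun M q m _ _ hq hqM hm => kTr36N M q m hq hqM hm

/-- Every prime, as a universally quantified statement. -/
theorem kTrAllN_forall : ∀ (M q m : ℕ) [NeZero M] [NeZero q], q.Prime → m ≠ 0 →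
    NewPlan.KTrStatement M q m :=
  fun M q m _ _ hq hm => kTrAllN M q m hq hm

end Fermat.Agent.S36.KTr36N
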