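/-
S36 block [KTR36], β-norm formula at `q ∣ M` (helper51).

For a prime `q ∣ M`, the field `F̄_{M q}` has degree `q` over `β(F̄_M)` (`S36/Fricke.lean`), and
its `q` embeddings into `ℚ̄((q))` over `β(F̄_M)` are exactly the `q` rotations `q ↦ ζ^i q`
(`ζ` a primitive `q`-th root of unity); there is no exotic embedding any more.  Hence

* `qExpand_norm_beta_of_dvd`:  `(N_β z)(q^q) = ∏_{i<q} z(ζ^i q)` for all `z ∈ F̄_{M q}`;
* `qExpand_betaNorm_of_dvd`: the same for the landed `S35.PushPic.betaNorm`.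
-/
import Mathlib
import Fermat.Agent.S24.Rot
import Fermat.Agent.S37.W.Norm
import Fermat.Agent.S36.Fricke
import Fermat.Agent.S35.PushPic

set_option autoImplicit false

namespace Fermat.Agent.S36.NormBetaQ

open ModularCurve AlgebraicCurve HahnSeries
open Fermat.Agent.S24 Fermat.Agent.S37.W

local notation "Qb" => AlgebraicClosure ℚ

/-- **(β-norm formula at `q ∣ M`)** For `z ∈ F̄_{M q}`, `q` prime, `q ∣ M`:
`(N_{F̄_{M q}/β F̄_M} z)(q^q) = ∏_{i<q} z(ζ^i q)`. -/
theorem qExpand_norm_beta_of_dvd (M q : ℕ) [NeZero M] [NeZero q] (hq : q.Prime) (hqM : q ∣ M)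
    (ζ : Qb) (hζ : IsPrimitiveRoot ζ q) (hz : ∀ i : ℕ, ζ ^ i ≠ 0)
    (z : ↥(modularFunctionFieldBar (M * q))) :
    letI := algebraAlong (heckeBetaBar Qb M q)
    qExpand Qb q
        ((Algebra.norm ↥(modularFunctionFieldBar M) z : ↥(modularFunctionFieldBar M)) :
          LaurentSeries Qb)
      = ∏ i ∈ Finset.range q, rotHom (ζ ^ i) (hz i) (z : LaurentSeries Qb) := by
  letI := algebraAlong (heckeBetaBar Qb M q)
  have hdeg : Module.finrank ↥(modularFunctionFieldBar M) ↥(modularFunctionFieldBar (M * q))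
      = q := Fermat.Agent.S36.Fricke.finrank_beta_of_dvd' M q hq hqM
  haveI : FiniteDimensional ↥(modularFunctionFieldBar M) ↥(modularFunctionFieldBar (M * q)) :=
    Module.finite_of_finrank_pos (by rw [hdeg]; exact hq.pos)
  -- the base embedding and the family
  let ι₀ : ↥(modularFunctionFieldBar M) →+* LaurentSeries Qb :=
    (qExpand Qb q).comp (modularFunctionFieldBar M).val.toRingHom
  let f : Fin q → (↥(modularFunctionFieldBar (M * q)) →+* LaurentSeries Qb) := fun i =>
    ((rotHom (ζ ^ (i : ℕ)) (hz i)).toRingHom).comp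
      (modularFunctionFieldBar (M * q)).val.toRingHom
  have hf : ∀ o x, f o (algebraMap ↥(modularFunctionFieldBar M)
      ↥(modularFunctionFieldBar (M * q)) x) = ι₀ x := by
    intro i x
    have hx : algebraMap ↥(modularFunctionFieldBar M) ↥(modularFunctionFieldBar (M * q)) x
        = heckeBetaBar Qb M q x := rfl
    rw [hx]
    show rotHom (ζ ^ (i : ℕ)) (hz i)
      ((heckeBetaBar Qb M q x : ↥(modularFunctionFieldBar (M * q))) : LaurentSeries Qb)
        = qExpand Qb q (x : LaurentSeries Qb)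
    rw [coe_heckeBetaBar]
    exact rotHom_qExpand q _ _ (by rw [← pow_mul, mul_comm, pow_mul, hζ.pow_eq_one, one_pow]) _
  -- distinctness, tested on the `q⁻¹`-coefficient of `j`
  have hsome : ∀ i : Fin q, (f i (heckeAlphaBar Qb M q (jF M))).coeff (-1 : ℤ)
      = (ζ ^ (i : ℕ)) ^ (-1 : ℤ) := by
    intro i
    show (rotHom (ζ ^ (i : ℕ)) (hz i)
      ((heckeAlphaBar Qb M q (jF M) : ↥(modularFunctionFieldBar (M * q))) :
        LaurentSeries Qb)).coeff (-1 : ℤ) = _
    rw [rotHom_coeff, coe_heckeAlphaBar, coe_jF, coeff_coeffEmb_jq_neg_one, mul_one]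
  have hinj : Function.Injective f := by
    intro i i' h
    have hc := congrArg (fun g : ↥(modularFunctionFieldBar (M * q)) →+* LaurentSeries Qb =>
      (g (heckeAlphaBar Qb M q (jF M))).coeff (-1 : ℤ)) h
    rw [hsome, hsome] at hc
    have h2 : ζ ^ (i : ℕ) = ζ ^ (i' : ℕ) := by
      have := congrArg (fun t : Qb => t⁻¹) hc
      simpa [zpow_neg] using this
    have h3 : (i : ℕ) = (i' : ℕ) := hζ.pow_inj i.2 i'.2 h2
    exact Fin.ext h3
  have hcard : Fintype.card (Fin q)
      = Module.finrank ↥(modularFunctionFieldBar M) ↥(modularFunctionFieldBar (M * q)) := by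
    rw [hdeg, Fintype.card_fin]
  have key := norm_eq_prod_of_ringHoms ι₀ f hf hinj hcard z
  have hrange : ∏ i : Fin q, f i z
      = ∏ i ∈ Finset.range q, rotHom (ζ ^ i) (hz i) (z : LaurentSeries Qb) :=
    Fin.prod_univ_eq_prod_range
      (fun i => rotHom (ζ ^ i) (hz i) (z : LaurentSeries Qb)) q
  rw [hrange] at key
  exact key

/-- The same formula for the landed `S35.PushPic.betaNorm`. -/
theorem qExpand_betaNorm_of_dvd (M q : ℕ) [NeZero M] [NeZero q] (hq : q.Prime) (hqM : q ∣ M)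
    (ζ : Qb) (hζ : IsPrimitiveRoot ζ q) (hz : ∀ i : ℕ, ζ ^ i ≠ 0)
    (z : ↥(modularFunctionFieldBar (M * q))) :
    qExpand Qb q
        ((Fermat.Agent.S35.PushPic.betaNorm M q z : ↥(modularFunctionFieldBar M)) :
          LaurentSeries Qb)
      = ∏ i ∈ Finset.range q, rotHom (ζ ^ i) (hz i) (z : LaurentSeries Qb) :=
  qExpand_norm_beta_of_dvd M q hq hqM ζ hζ hz z

end Fermat.Agent.S36.NormBetaQ
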