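/-
S36 block [KTR36] (classes killed by both degeneracy transfers when `q² ∥ M`), leaf (T1) —
TrRepsQ.lean (helper26; dealt by helper37): COSET REPRESENTATIVES AND TRANSFER PRODUCTS AT A
LOWER LEVEL `N` DIVISIBLE BY `q`.

For `q` prime and `q ∣ N` the index of `Γ₀(Nq)` in `Γ₀(N)` is `q`, and

* `rA N q t = [[1, 0], [N t, 1]]`  (`t : ZMod q`) represent `Γ₀(Nq) \ Γ₀(N)`          (`incl₁`);
* `rB N q t = [[1, t], [0, 1]]`    (`t : ZMod q`) represent `ι₂(Γ₀(Nq)) \ Γ₀(N)`      (`incl₂`);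
  (`rA_cov`, `rA_inj`, `rB_cov`, `rB_inj`: the hypotheses of `S41.tr₁_apply_of_reps`,
  `S41.tr₂_apply_of_reps`; `rA_zero`, `rB_zero`: the base representative is `1`).

With the landed generic leaves `S35/TrProdMem`, `S35/TrProdMem2` (no coprimality there):

* `prod_slash_rA_mem` : `A ∈ MFchi (Nq) w χ_u ⇒ ∏ t, A ∣[w] rA t ∈ MFchi N (w q) χ_{tr₁ u}`;
* `prod_slash_rB_mem` : `A ∈ MFchi (Nq) w χ_u ⇒
                          ∏ t, (A ∣[w] diag(1,q)) ∣[w] rB t ∈ MFchi N (w q) χ_{tr₂ u}`;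
* `…_mem_MF_of_tr₁_eq_zero`, `…_mem_MF_of_tr₂_eq_zero`, `…_mem_MF` (trivial multiplier), `…_ne_zero`.

In the `GL₂(ℝ)` vocabulary of route R1 (`S35/CosetProd`, `S35/RepPair`):

* `repA N q t = mapGL ℝ (rA t)`, `repB N q t = diag(1, q) · mapGL ℝ (rB t) = heckeMatrix q t`;
* `prod_slash_repA_mem`, `prod_slash_repB_mem` (multiplier forms), `hdetA/hmemA/hneA/hbaseA`,
  `hdetB/hmemB/hneB/hbaseB` (the four hypotheses of the generic vocabulary), `repA_zero`,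
  `repB_zero`, `repB_eq_heckeMatrix`.
-/
import Mathlib
import Fermat.Agent.S29.KDefs
import Fermat.Agent.S29.KBasic
import Fermat.Agent.S29.KPlanDefs
import Fermat.Agent.S29.HeckeProdMem
import Fermat.Agent.S29.HeckeProdQxB
import Fermat.Agent.S41.Defs
import Fermat.Agent.S41.ALConj
import Fermat.Agent.S41.IwahoriU
import Fermat.Agent.S35.TrProdMem
import Fermat.Agent.S35.TrProdMem2
import Fermat.Agent.S35.CosetProd

set_option autoImplicit false

noncomputable section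

namespace Fermat.Agent.S36.TrRepsQ

open CongruenceSubgroup UpperHalfPlane Matrix.SpecialLinearGroup Filter
open scoped MatrixGroups Manifold ModularForm
open P2MW.S_ModularForm_heckeT_slash_eq_self_of_mem_Gamma0.ModularForm.HeckeSlashInvariance
open ModularForm
open Fermat.Agent.S16 (mem_Gamma0_iff_dvd)
open Fermat.Agent.S29 Fermat.Agent.S35 Fermat.Agent.S41

/-! ### Elementary matrices -/

/-- The lower unipotent matrix `[[1, 0], [N n, 1]]` as an element of `Γ₀(N)`. -/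
def lmat (N : ℕ) (n : ℤ) : Gamma0 N :=
  ⟨⟨!![1, 0; (N : ℤ) * n, 1], by simp [Matrix.det_fin_two_of]⟩,
    mem_Gamma0_iff_dvd.mpr ⟨n, by simp⟩⟩

theorem lmat_apply (N : ℕ) (n : ℤ) (i j : Fin 2) : ((lmat N n : Gamma0 N) : SL(2, ℤ)) i j =
    (!![1, 0; (N : ℤ) * n, 1] : Matrix (Fin 2) (Fin 2) ℤ) i j := rfl

theorem lmat_zero (N : ℕ) : lmat N 0 = 1 := by
  apply Subtype.ext
  ext i j
  fin_cases i <;> fin_cases j <;> simp [lmat_apply]

theorem umat_zero (N : ℕ) : IwahoriU.umat N 0 = 1 := by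
  apply Subtype.ext
  ext i j
  fin_cases i <;> fin_cases j <;> simp [IwahoriU.umat_apply]

/-- `det = 1` in coordinates. -/
theorem det_coord (g : SL(2, ℤ)) : g 0 0 * g 1 1 - g 0 1 * g 1 0 = 1 := by
  have h := g.det_coe
  rw [Matrix.det_fin_two] at h
  exact h

/-- entries of `g * r⁻¹` in `Γ₀(N)` -/
theorem mul_inv_apply_one_zero {N : ℕ} (g r : Gamma0 N) :
    ((g * r⁻¹ : Gamma0 N) : SL(2, ℤ)) 1 0 =
      (g : SL(2, ℤ)) 1 0 * (r : SL(2, ℤ)) 1 1 - (g : SL(2, ℤ)) 1 1 * (r : SL(2, ℤ)) 1 0 := by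
  rw [IwahoriU.mul_apply', Subgroup.coe_inv, Matrix.SpecialLinearGroup.coe_inv,
    Matrix.adjugate_fin_two]
  simp
  ring

variable (N q : ℕ)

/-! ### The representatives -/

/-- representatives of `Γ₀(Nq) \ Γ₀(N)` for `q ∣ N`: `[[1, 0], [N t, 1]]`, `t` mod `q`. -/
def rA (t : ZMod q) : Gamma0 N := lmat N (t.val : ℤ)

/-- representatives of `ι₂(Γ₀(Nq)) \ Γ₀(N)` for `q ∣ N`: `[[1, t], [0, 1]]`, `t` mod `q`. -/
def rB (t : ZMod q) : Gamma0 N := IwahoriU.umat N (t.val : ℤ)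

theorem rA_zero [NeZero q] : rA N q 0 = 1 := by
  unfold rA
  rw [ZMod.val_zero]
  exact lmat_zero N

theorem rB_zero [NeZero q] : rB N q 0 = 1 := by
  unfold rB
  rw [ZMod.val_zero]
  exact umat_zero N

variable {N q}

/-- for `q ∣ N`, the diagonal entries of an element of `Γ₀(N)` are units mod `q`. -/
theorem diag_ne_zero [Fact q.Prime] (hqN : q ∣ N) (g : Gamma0 N) :
    (((g : SL(2, ℤ)) 0 0 : ℤ) : ZMod q) ≠ 0 ∧ (((g : SL(2, ℤ)) 1 1 : ℤ) : ZMod q) ≠ 0 := by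
  obtain ⟨s, hs⟩ := mem_Gamma0_iff_dvd.mp g.2
  have hN : ((N : ℕ) : ZMod q) = 0 := (ZMod.natCast_eq_zero_iff N q).mpr hqN
  have hc : (((g : SL(2, ℤ)) 1 0 : ℤ) : ZMod q) = 0 := by
    rw [hs]
    push_cast
    rw [hN, zero_mul]
  have h1 := congrArg (Int.cast : ℤ → ZMod q) (det_coord (g : SL(2, ℤ)))
  push_cast at h1
  rw [hc, mul_zero, sub_zero] at h1
  constructor
  · intro h0
    rw [h0, zero_mul] at h1
    exact zero_ne_one h1
  · intro h0
    rw [h0, mul_zero] at h1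
    exact zero_ne_one h1

/-- `rA` covers `Γ₀(Nq) \ Γ₀(N)`. -/
theorem rA_cov [Fact q.Prime] (hqN : q ∣ N) (g : Gamma0 N) :
    ∃ t : ZMod q, ∃ h : Gamma0 (N * q), g = incl₁ N q h * rA N q t := by
  obtain ⟨s, hs⟩ := mem_Gamma0_iff_dvd.mp g.2
  have hd := (diag_ne_zero hqN g).2
  set t : ZMod q := (s : ZMod q) * (((g : SL(2, ℤ)) 1 1 : ℤ) : ZMod q)⁻¹ with ht
  have hmem : ((g * (rA N q t)⁻¹ : Gamma0 N) : SL(2, ℤ)) ∈ Gamma0 (N * q) := by
    rw [mem_Gamma0_iff_dvd, mul_inv_apply_one_zero]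
    have h10 : (g : SL(2, ℤ)) 1 0 * ((rA N q t : Gamma0 N) : SL(2, ℤ)) 1 1 -
        (g : SL(2, ℤ)) 1 1 * ((rA N q t : Gamma0 N) : SL(2, ℤ)) 1 0 =
        (N : ℤ) * (s - (g : SL(2, ℤ)) 1 1 * (t.val : ℤ)) := by
      rw [hs]
      simp only [rA, lmat_apply, Matrix.of_apply, Matrix.cons_val_zero, Matrix.cons_val_one,
        Matrix.cons_val', Matrix.cons_val_fin_one]
      ring
    rw [h10]
    push_cast
    apply mul_dvd_mul_left
    rw [← ZMod.intCast_zmod_eq_zero_iff_dvd]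
    push_cast
    rw [ZMod.natCast_zmod_val, ht]
    field_simp
    ring
  refine ⟨t, ⟨_, hmem⟩, ?_⟩
  apply Subtype.ext
  rw [Subgroup.coe_mul, incl₁_coe]
  simp

/-- `rA` is injective modulo `Γ₀(Nq)`. -/
theorem rA_inj [NeZero N] [NeZero q] (i j : ZMod q)
    (h : ∃ k : Gamma0 (N * q), rA N q i = incl₁ N q k * rA N q j) : i = j := by
  obtain ⟨k, hk⟩ := h
  obtain ⟨s, hs⟩ := mem_Gamma0_iff_dvd.mp k.2
  have e10 := congrArg (fun g : Gamma0 N => (g : SL(2, ℤ)) 1 0) hk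
  have e11 := congrArg (fun g : Gamma0 N => (g : SL(2, ℤ)) 1 1) hk
  simp only [IwahoriU.mul_apply', incl₁_coe, rA, lmat_apply, Matrix.of_apply,
    Matrix.cons_val_zero, Matrix.cons_val_one, Matrix.cons_val', Matrix.cons_val_fin_one]
    at e10 e11
  have hN : (N : ℤ) ≠ 0 := by exact_mod_cast NeZero.ne N
  have hdvd : (q : ℤ) ∣ (i.val : ℤ) - (j.val : ℤ) := by
    refine ⟨s, ?_⟩
    apply mul_left_cancel₀ hN
    rw [hs] at e10
    push_cast at e10
    linear_combination e10 - (N : ℤ) * (j.val : ℤ) * e11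
  have h0 := (ZMod.intCast_zmod_eq_zero_iff_dvd _ q).mpr hdvd
  push_cast at h0
  rw [ZMod.natCast_zmod_val, ZMod.natCast_zmod_val, sub_eq_zero] at h0
  exact h0

/-- `rB` covers `ι₂(Γ₀(Nq)) \ Γ₀(N)`. -/
theorem rB_cov [Fact q.Prime] (hqN : q ∣ N) (g : Gamma0 N) :
    ∃ t : ZMod q, ∃ h : Gamma0 (N * q), g = incl₂ N q h * rB N q t := by
  have hq : q ≠ 0 := (Fact.out : q.Prime).ne_zero
  have : NeZero q := ⟨hq⟩
  have hne := (diag_ne_zero hqN g).1
  obtain ⟨k, hk⟩ := IwahoriU.exists_incl₂_eq hq (g * (IwahoriU.umat N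
      (((((g : SL(2, ℤ)) 0 1 : ℤ) : ZMod q) * (((g : SL(2, ℤ)) 0 0 : ℤ) : ZMod q)⁻¹).val : ℤ))⁻¹)
    (by
      rw [IwahoriU.mul_inv_apply_zero_one, IwahoriU.umat_apply, IwahoriU.umat_apply,
        ← ZMod.intCast_zmod_eq_zero_iff_dvd]
      simp only [Matrix.of_apply, Matrix.cons_val_zero, Matrix.cons_val_one, Matrix.cons_val',
        Matrix.cons_val_fin_one]
      push_cast
      rw [ZMod.natCast_zmod_val]
      field_simp
      ring)
  exact ⟨_, k, by rw [hk, rB, inv_mul_cancel_right]⟩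

/-- `rB` is injective modulo `ι₂(Γ₀(Nq))`. -/
theorem rB_inj [NeZero q] (i j : ZMod q)
    (h : ∃ k : Gamma0 (N * q), rB N q i = incl₂ N q k * rB N q j) : i = j := by
  obtain ⟨k, hk⟩ := h
  obtain ⟨k00, k01, -, -⟩ := incl₂_entries N q k
  have e00 := congrArg (fun g : Gamma0 N => (g : SL(2, ℤ)) 0 0) hk
  have e01 := congrArg (fun g : Gamma0 N => (g : SL(2, ℤ)) 0 1) hk
  simp only [IwahoriU.mul_apply', k00, k01, rB, IwahoriU.umat_apply, Matrix.of_apply,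
    Matrix.cons_val_zero, Matrix.cons_val_one, Matrix.cons_val', Matrix.cons_val_fin_one]
    at e00 e01
  have hdvd : (q : ℤ) ∣ (i.val : ℤ) - (j.val : ℤ) :=
    ⟨(k : SL(2, ℤ)) 0 1, by linear_combination e01 - (j.val : ℤ) * e00⟩
  have h0 := (ZMod.intCast_zmod_eq_zero_iff_dvd _ q).mpr hdvd
  push_cast at h0
  rw [ZMod.natCast_zmod_val, ZMod.natCast_zmod_val, sub_eq_zero] at h0
  exact h0

/-! ### The transfer products (`SL₂(ℤ)` form) -/

section Products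

variable [Fact q.Prime] [NeZero N] (hqN : q ∣ N)

theorem card_zmod_q : (Fintype.card (ZMod q) : ℤ) = (q : ℤ) := by
  have : NeZero q := ⟨(Fact.out : q.Prime).ne_zero⟩
  rw [ZMod.card]

include hqN in
/-- **(T1), `α`-side**: for `q ∣ N`, if `A` is a form of weight `w` on `Γ₀(Nq)` with multiplier
`χ_u`, then `∏ t, A ∣[w] [[1,0],[N t,1]]` is a form of weight `w q` on `Γ₀(N)` with multiplier
`χ_{tr₁ u}`. -/
theorem prod_slash_rA_mem (p : ℕ) (u : Additive (Gamma0 (N * q)) →+ ℤ) {w : ℤ} {A : ℍ → ℂ}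
    (hA : A ∈ K.MFchi (N * q) w (KPlan.chiU p u)) :
    (∏ t : ZMod q, A ∣[w] ((rA N q t : Gamma0 N) : SL(2, ℤ))) ∈
      K.MFchi N (w * (q : ℤ)) (KPlan.chiU p (tr₁ N q u)) := by
  have : NeZero q := ⟨(Fact.out : q.Prime).ne_zero⟩
  have h := TrProdMem.prod_slash_reps_mem (rA N q) (rA_cov hqN) rA_inj p u hA
  rwa [card_zmod_q] at h

include hqN in
/-- **(T1), `α`-side, kernel of the transfer**: trivial multiplier if `tr₁ u = 0`. -/
theorem prod_slash_rA_mem_MF_of_tr₁_eq_zero (p : ℕ) (u : Additive (Gamma0 (N * q)) →+ ℤ)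
    (hu : tr₁ N q u = 0) {w : ℤ} {A : ℍ → ℂ}
    (hA : A ∈ K.MFchi (N * q) w (KPlan.chiU p u)) :
    (∏ t : ZMod q, A ∣[w] ((rA N q t : Gamma0 N) : SL(2, ℤ))) ∈ S20.MF N (w * (q : ℤ)) := by
  have : NeZero q := ⟨(Fact.out : q.Prime).ne_zero⟩
  have h := TrProdMem.prod_slash_reps_mem_MF_of_tr₁_eq_zero (rA N q) (rA_cov hqN) rA_inj p u hu hA
  rwa [card_zmod_q] at h

include hqN in
/-- **(T1), `α`-side, denominators.** -/
theorem prod_slash_rA_mem_MF {w : ℤ} {B : ℍ → ℂ} (hB : B ∈ S20.MF (N * q) w) :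
    (∏ t : ZMod q, B ∣[w] ((rA N q t : Gamma0 N) : SL(2, ℤ))) ∈ S20.MF N (w * (q : ℤ)) := by
  have : NeZero q := ⟨(Fact.out : q.Prime).ne_zero⟩
  have : NeZero (N * q) := ⟨Nat.mul_ne_zero (NeZero.ne N) (NeZero.ne q)⟩
  have h := TrProdMem.prod_slash_reps_mem_MF (rA N q) (rA_cov hqN) rA_inj hB
  rwa [card_zmod_q] at h

omit [Fact q.Prime] [NeZero N] in
/-- the `α`-product of a nonzero holomorphic function is nonzero. -/
theorem prod_slash_rA_ne_zero [NeZero q] (w : ℤ) {B : ℍ → ℂ} (hB : MDiff B) (hB0 : B ≠ 0) :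
    (∏ t : ZMod q, B ∣[w] ((rA N q t : Gamma0 N) : SL(2, ℤ))) ≠ 0 :=
  TrProdMem.prod_slash_ne_zero (fun t => ((rA N q t : Gamma0 N) : SL(2, ℤ))) w hB hB0

omit [NeZero N] in
include hqN in
/-- **(T1), `β`-side**: for `q ∣ N`, if `A` is a form of weight `w` on `Γ₀(Nq)` with multiplier
`χ_u`, then `∏ t, (A ∣[w] diag(1,q)) ∣[w] [[1,t],[0,1]]` is a form of weight `w q` on `Γ₀(N)` with
multiplier `χ_{tr₂ u}`. -/
theorem prod_slash_rB_mem (p : ℕ) (u : Additive (Gamma0 (N * q)) →+ ℤ) {w : ℤ} {A : ℍ → ℂ}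
    (hA : A ∈ K.MFchi (N * q) w (KPlan.chiU p u)) :
    (∏ t : ZMod q, (A ∣[w] ModularForm.heckeMatrix q 0) ∣[w]
        ((rB N q t : Gamma0 N) : SL(2, ℤ))) ∈
      K.MFchi N (w * (q : ℤ)) (KPlan.chiU p (tr₂ N q u)) := by
  have : NeZero q := ⟨(Fact.out : q.Prime).ne_zero⟩
  have h := TrProdMem2.prod_slash_reps₂_mem (rB N q) (rB_cov hqN) rB_inj p u hA
  rwa [card_zmod_q] at h

include hqN in
/-- **(T1), `β`-side, kernel of the transfer**: trivial multiplier if `tr₂ u = 0`. -/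
theorem prod_slash_rB_mem_MF_of_tr₂_eq_zero (p : ℕ) (u : Additive (Gamma0 (N * q)) →+ ℤ)
    (hu : tr₂ N q u = 0) {w : ℤ} {A : ℍ → ℂ}
    (hA : A ∈ K.MFchi (N * q) w (KPlan.chiU p u)) :
    (∏ t : ZMod q, (A ∣[w] ModularForm.heckeMatrix q 0) ∣[w]
        ((rB N q t : Gamma0 N) : SL(2, ℤ))) ∈ S20.MF N (w * (q : ℤ)) := by
  have : NeZero q := ⟨(Fact.out : q.Prime).ne_zero⟩
  have h := TrProdMem2.prod_slash_reps₂_mem_MF_of_tr₂_eq_zero (rB N q) (rB_cov hqN) rB_inj p u hu hA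
  rwa [card_zmod_q] at h

include hqN in
/-- **(T1), `β`-side, denominators.** -/
theorem prod_slash_rB_mem_MF {w : ℤ} {B : ℍ → ℂ} (hB : B ∈ S20.MF (N * q) w) :
    (∏ t : ZMod q, (B ∣[w] ModularForm.heckeMatrix q 0) ∣[w]
        ((rB N q t : Gamma0 N) : SL(2, ℤ))) ∈ S20.MF N (w * (q : ℤ)) := by
  have : NeZero q := ⟨(Fact.out : q.Prime).ne_zero⟩
  have h := TrProdMem2.prod_slash_reps₂_mem_MF (rB N q) (rB_cov hqN) rB_inj hB
  rwa [card_zmod_q] at h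

omit [Fact q.Prime] [NeZero N] in
/-- the `β`-product of a nonzero holomorphic function is nonzero. -/
theorem prod_slash_rB_ne_zero [NeZero q] (w : ℤ) {B : ℍ → ℂ} (hB : MDiff B) (hB0 : B ≠ 0) :
    (∏ t : ZMod q, (B ∣[w] ModularForm.heckeMatrix q 0) ∣[w]
        ((rB N q t : Gamma0 N) : SL(2, ℤ))) ≠ 0 :=
  TrProdMem2.prod_slash_reps₂_ne_zero (rB N q) w hB hB0

end Products

/-! ### The two families in `GL₂(ℝ)` (vocabulary of route R1) -/

section Families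

variable (N q)

/-- The representatives `rA N q t` of `Γ₀(Nq) \ Γ₀(N)`, in `GL₂(ℝ)`. -/
def repA (t : ZMod q) : GL (Fin 2) ℝ := mapGL ℝ ((rA N q t : Gamma0 N) : SL(2, ℤ))

/-- The representatives `diag(1, q) · rB N q t = [[1, t], [0, q]]`, which compute the norm
along `β`. -/
def repB (t : ZMod q) : GL (Fin 2) ℝ :=
  ModularForm.heckeMatrix q 0 * mapGL ℝ ((rB N q t : Gamma0 N) : SL(2, ℤ))

/-- the base representative of `repA` is the identity. -/
theorem repA_zero [NeZero q] : repA N q 0 = 1 := by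
  unfold repA
  rw [rA_zero]
  simp

/-- the base representative of `repB` is `diag(1, q)`. -/
theorem repB_zero [NeZero q] : repB N q 0 = ModularForm.heckeMatrix q 0 := by
  unfold repB
  rw [rB_zero]
  simp

/-- `repB t = [[1, t], [0, q]]`, the Hecke matrix. -/
theorem repB_eq_heckeMatrix (hq : q ≠ 0) (t : ZMod q) :
    repB N q t = ModularForm.heckeMatrix q t.val :=
  (IwahoriU.heckeMatrix_eq (N := N) hq t.val).symm

theorem slash_repA (w : ℤ) (A : ℍ → ℂ) (t : ZMod q) :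
    A ∣[w] repA N q t = A ∣[w] ((rA N q t : Gamma0 N) : SL(2, ℤ)) := rfl

theorem slash_repB (w : ℤ) (A : ℍ → ℂ) (t : ZMod q) :
    A ∣[w] repB N q t =
      (A ∣[w] ModularForm.heckeMatrix q 0) ∣[w] ((rB N q t : Gamma0 N) : SL(2, ℤ)) := by
  unfold repB
  rw [SlashAction.slash_mul]
  rfl

theorem det_repA_pos (t : ZMod q) :
    0 < ((repA N q t : GL (Fin 2) ℝ) : Matrix (Fin 2) (Fin 2) ℝ).det := by
  unfold repA
  rw [CosetProd.det_mapGL]
  exact one_pos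

theorem det_repB_pos [Fact q.Prime] (t : ZMod q) :
    0 < ((repB N q t : GL (Fin 2) ℝ) : Matrix (Fin 2) (Fin 2) ℝ).det := by
  have : NeZero q := ⟨(Fact.out : q.Prime).ne_zero⟩
  have hd : 0 < (heckeRep q ((0 : ZMod q) : OnePoint (ZMod q)) :
      Matrix (Fin 2) (Fin 2) ℝ).det := by
    simpa using HeckeProd.det_heckeRep_pos q ((0 : ZMod q) : OnePoint (ZMod q))
  have h0 : heckeRep q ((0 : ZMod q) : OnePoint (ZMod q)) = ModularForm.heckeMatrix q 0 := by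
    simp
  rw [h0] at hd
  unfold repB
  rw [Matrix.GeneralLinearGroup.coe_mul, Matrix.det_mul, CosetProd.det_mapGL, mul_one]
  exact hd

/-- `hdet` for `repA`. -/
theorem hdetA : ∀ t : ZMod q, 0 < (repA N q t).det.val := fun t => det_repA_pos N q t

/-- `hdet` for `repB`. -/
theorem hdetB [Fact q.Prime] : ∀ t : ZMod q, 0 < (repB N q t).det.val :=
  fun t => det_repB_pos N q t

variable {N q}
variable [Fact q.Prime] [NeZero N] (hqN : q ∣ N)

include hqN in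
/-- **The `α`-transfer product of a multiplier form** (`GL₂` vocabulary). -/
theorem prod_slash_repA_mem (p : ℕ) (u : Additive (Gamma0 (N * q)) →+ ℤ) {w : ℤ} {A : ℍ → ℂ}
    (hA : A ∈ K.MFchi (N * q) w (KPlan.chiU p u)) :
    (∏ x : ZMod q, A ∣[w] repA N q x) ∈
      K.MFchi N (w * (Fintype.card (ZMod q) : ℤ)) (KPlan.chiU p (tr₁ N q u)) := by
  have h := prod_slash_rA_mem hqN p u hA
  rw [card_zmod_q]
  exact h

omit [NeZero N] in
include hqN in
/-- **The `β`-transfer product of a multiplier form** (`GL₂` vocabulary). -/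
theorem prod_slash_repB_mem (p : ℕ) (u : Additive (Gamma0 (N * q)) →+ ℤ) {w : ℤ} {A : ℍ → ℂ}
    (hA : A ∈ K.MFchi (N * q) w (KPlan.chiU p u)) :
    (∏ x : ZMod q, A ∣[w] repB N q x) ∈
      K.MFchi N (w * (Fintype.card (ZMod q) : ℤ)) (KPlan.chiU p (tr₂ N q u)) := by
  have h := prod_slash_rB_mem hqN p u hA
  rw [card_zmod_q]
  simp only [slash_repB]
  exact h

include hqN in
/-- `hmem` for `repA`. -/
theorem hmemA (w : ℤ) (A : ℍ → ℂ) (hA : A ∈ S20.MF (N * q) w) :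
    (∏ x : ZMod q, A ∣[w] repA N q x) ∈ S20.MF N (w * (Fintype.card (ZMod q) : ℤ)) := by
  have h := prod_slash_rA_mem_MF hqN hA
  rw [card_zmod_q]
  exact h

include hqN in
/-- `hmem` for `repB`. -/
theorem hmemB (w : ℤ) (A : ℍ → ℂ) (hA : A ∈ S20.MF (N * q) w) :
    (∏ x : ZMod q, A ∣[w] repB N q x) ∈ S20.MF N (w * (Fintype.card (ZMod q) : ℤ)) := by
  have h := prod_slash_rB_mem_MF hqN hA
  rw [card_zmod_q]
  simp only [slash_repB]
  exact h

omit [NeZero N] in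
/-- `hne` for `repA`. -/
theorem hneA (w : ℤ) (B : ℍ → ℂ) (hB : B ∈ S20.MF (N * q) w) (hB0 : B ≠ 0) :
    (∏ x : ZMod q, B ∣[w] repA N q x) ≠ 0 := by
  obtain ⟨F, rfl⟩ := hB
  exact CosetProd.prod_slash_gl_ne_zero _ w F.holo' hB0

omit [NeZero N] in
/-- `hne` for `repB`. -/
theorem hneB (w : ℤ) (B : ℍ → ℂ) (hB : B ∈ S20.MF (N * q) w) (hB0 : B ≠ 0) :
    (∏ x : ZMod q, B ∣[w] repB N q x) ≠ 0 := by
  obtain ⟨F, rfl⟩ := hB
  exact CosetProd.prod_slash_gl_ne_zero _ w F.holo' hB0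

end Families

section Base

variable {N q : ℕ}

/-- `hx₀` for `repA` (`x₀ = 0`, `d = 1`, `κ = 1`). -/
theorem hbaseA [NeZero q] (w : ℤ) (A : ℍ → ℂ) (z : ℍ) :
    (A ∣[w] repA N q 0) (S23.mulN 1 z) = 1 * A z := by
  rw [repA_zero, SlashAction.slash_one, one_mul]
  congr 1
  ext
  rw [S23.coe_mulN]
  simp

/-- `hx₀` for `repB` (`x₀ = 0`, `d = q`, `κ = q⁻¹`). -/
theorem hbaseB [NeZero q] (w : ℤ) (A : ℍ → ℂ) (z : ℍ) :
    (A ∣[w] repB N q 0) (S23.mulN q z) = (q : ℂ)⁻¹ * A z := by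
  rw [repB_zero]
  have h : (A ∣[w] ModularForm.heckeMatrix q 0) (S23.mulN q z) =
      (q : ℂ)⁻¹ * A (heckeMatrix q 0 • S23.mulN q z) := by
    rw [slash_heckeMatrix_apply w (NeZero.ne q)]
  rw [h]
  have h2 := HeckeProdQxB.heckeMatrix_smul_mulN q 0 z
  rw [h2]
  congr 2
  ext
  simp

end Base

end Fermat.Agent.S36.TrRepsQ
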