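/-
S36 block [KTR36], the `β`-half of [K-tr] at `q ∣ M`, by ROTATIONS (helper51).

Level `M q`, `q` prime, `q ∣ M`; `u ∈ Lpar (M q)`, `y` a witness of `u` at torsion order `m`
(forms `(A, B)` of level `M q`: `embC y · qx B = qx A`, `A` with multiplier `χ_u`), `f ∈ F̄_{M q}`
with `f = y ^ m`.  If `tr₂ u = 0` then the norm of `f` along `β` is `c · h ^ m` with `h ∈ F̄_M`,
`c ∈ ℚ̄ˣ`  (`S35.KTrPlan.KTrBetaStatement M q m`, the landed Prop, total in `M q`).

Proof.  For `q ∣ M` the cosets `ι₂(Γ₀(M q)) \ Γ₀(M)` are represented by the `q` translations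
`T^t` (`S36/TrRepsQ.lean`, helper26), so with `α₀ = diag(1, q)`
`A'' := ∏_t (A ∣ α₀) ∣ T^t = q^{-q} • uProd q A` is a form of level `M` with TRIVIAL multiplier,
`qx A'' = q^{-q} • NP (qx A)`; hence `hC := qx A'' / qx B'' = NP (embC y) ∈ F_ℂ(M)` and
`hC(Q^q) = ∏_{i<q} (embC y)(ζ^i Q)`.  By the norm formula at `q ∣ M` (`S36/NormBetaQ.lean`: all `q`
conjugates over `β F̄_M` are rotations, no exotic embedding) `hC ^ m = embC (Nm_β f)`; finally
`S35.TrDesc.exists_root_of_pow_eq`.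

* `prod_slash_rB_eq`  : `∏_t (A ∣ α₀) ∣ T^t = q^{-q} • uProd q A`  (function level);
* `qx_prod_slash_rB`  : its `q`-expansion `q^{-q} • NP q (qx A)` for nice `A`;
* `kTrBetaQ`          : **`KTrPlan.KTrBetaStatement M q m`** for `q` prime, `q ∣ M`, `m ≠ 0`.
-/
import Mathlib
import Fermat.Prelude.Thm_ModularCurve_coeffMap_qExpand
import Fermat.Agent.S29.KDefs
import Fermat.Agent.S29.KBasic
import Fermat.Agent.S29.KPlanDefs
import Fermat.Agent.S29.HeckeProdQxB
import Fermat.Agent.S35.TrDesc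
import Fermat.Agent.S35.TrQx
import Fermat.Agent.S35.TrQx2
import Fermat.Agent.S35.TrNorm
import Fermat.Agent.S35.PushPic
import Fermat.Agent.S35.KTrPlan
import Fermat.Agent.S36.TrRepsQ
import Fermat.Agent.S36.NormBetaQ

set_option autoImplicit false

noncomputable section

namespace Fermat.Agent.S36.KTrBetaQ

open UpperHalfPlane ModularForm CongruenceSubgroup ModularCurve AlgebraicCurve
open scoped MatrixGroups ModularForm Manifold
open P2MW.S_ModularForm_heckeT_slash_eq_self_of_mem_Gamma0.ModularForm.HeckeSlashInvariance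
open Fermat.Agent.S29 Fermat.Agent.S37 Fermat.Agent.S24 Fermat.Agent.S41 Fermat.Agent.S35

local notation "Qb" => AlgebraicClosure ℚ

/-! ### The transfer product along `ι₂` at `q ∣ N`: function level and `q`-expansion -/

/-- The constant `q^{-q}` relating the `β`-transfer product to the `U`-product. -/
def betaConst (q : ℕ) : ℂ := ((q : ℂ)⁻¹) ^ q

theorem betaConst_ne_zero (q : ℕ) [NeZero q] : betaConst q ≠ 0 :=
  pow_ne_zero _ (inv_ne_zero (Nat.cast_ne_zero.mpr (NeZero.ne q)))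

/-- **Function level**: the product over the translations of `A ∣ α₀` is `q^{-q} • uProd q A`. -/
theorem prod_slash_rB_eq (N q : ℕ) [NeZero q] (w : ℤ) (A : ℍ → ℂ) :
    (∏ t : ZMod q, (A ∣[w] ModularForm.heckeMatrix q 0) ∣[w]
        ((TrRepsQ.rB N q t : Gamma0 N) : SL(2, ℤ))) =
      betaConst q • HeckeProdQxB.uProd q A := by
  have hq : q ≠ 0 := NeZero.ne q
  funext z
  rw [Finset.prod_apply, Pi.smul_apply, smul_eq_mul]
  have h2 : ∀ j : ZMod q, ((A ∣[w] ModularForm.heckeMatrix q 0) ∣[w]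
      ((TrRepsQ.rB N q j : Gamma0 N) : SL(2, ℤ))) z =
      (q : ℂ)⁻¹ * A (ModularForm.heckeMatrix q j.val • z) := by
    intro j
    show ((A ∣[w] ModularForm.heckeMatrix q 0) ∣[w]
      ((IwahoriU.umat N (j.val : ℤ) : Gamma0 N) : SL(2, ℤ))) z = _
    rw [TrQx2.slash_zero_slash_umat hq, slash_heckeMatrix_apply w hq]
  simp only [h2, Finset.prod_mul_distrib, Finset.prod_const, Finset.card_univ, ZMod.card]
  rfl

/-- **`q`-expansion** of the `β`-transfer product of a nice function. -/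
theorem qx_prod_slash_rB (N q : ℕ) [NeZero q] (w : ℤ) {A : ℍ → ℂ} (hA : A ∈ S23.niceSub) :
    K.qx (∏ t : ZMod q, (A ∣[w] ModularForm.heckeMatrix q 0) ∣[w]
        ((TrRepsQ.rB N q t : Gamma0 N) : SL(2, ℤ))) =
      betaConst q • TrQx.NP q (K.qx A) := by
  rw [prod_slash_rB_eq, K.qx_smul _ (HeckeProdQxB.uProd_mem_niceSub q hA),
    HeckeProdQxB.qx_uProd q hA]
  rfl

/-! ### The `β`-half at `q ∣ M` -/

/-- **[K-tr], `β`-half at `q ∣ M`**: for a witness `y` of `u ∈ Lpar (M q)` with `tr₂ u = 0` and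
`f = y ^ m`, the norm of `f` along `β` is `c · h ^ m`. -/
theorem kTrBetaQ (M q m : ℕ) [NeZero M] [NeZero q] (hq : q.Prime) (hqM : q ∣ M) (hm : m ≠ 0) :
    KTrPlan.KTrBetaStatement M q m := by
  intro u y hy f hf hu
  have : Fact q.Prime := ⟨hq⟩
  obtain ⟨hy0, w, A, B, hA, hB, hB0, hyAB⟩ := hy
  have : NeZero (M * q) := ⟨Nat.mul_ne_zero (NeZero.ne M) (NeZero.ne q)⟩
  -- niceness
  have hB1 : B ∈ K.MFchi (M * q) w 1 := K.mem_MFchi_one_iff.mpr hB
  have hAn : A ∈ S23.niceSub := K.mem_niceSub_of_mem_MFchi (KPlan.chiU_TG m u) hA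
  have hBn : B ∈ S23.niceSub := K.mem_niceSub_of_mem_MF hB
  -- the transfer products: forms of level `M` with trivial multiplier
  have hA'mem := TrRepsQ.prod_slash_rB_mem_MF_of_tr₂_eq_zero hqM m
    (u : Additive (Gamma0 (M * q)) →+ ℤ) hu hA
  have hB'mem := TrRepsQ.prod_slash_rB_mem_MF hqM hB
  have hB'0 := TrRepsQ.prod_slash_rB_ne_zero (N := M) (q := q) w hB1.1 hB0
  -- their q-expansions
  have hqA := qx_prod_slash_rB M q w hAn
  have hqB := qx_prod_slash_rB M q w hBn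
  have hb0 : K.qx B ≠ 0 := K.qx_ne_zero hBn hB0
  have hb'0 : K.qx (∏ t : ZMod q, (B ∣[w] ModularForm.heckeMatrix q 0) ∣[w]
      ((TrRepsQ.rB M q t : Gamma0 M) : SL(2, ℤ))) ≠ 0 := by
    rw [hqB]
    exact smul_ne_zero (betaConst_ne_zero q) (TrQx.NP_ne_zero q hb0)
  have hcore : K.qx (∏ t : ZMod q, (A ∣[w] ModularForm.heckeMatrix q 0) ∣[w]
        ((TrRepsQ.rB M q t : Gamma0 M) : SL(2, ℤ))) /
      K.qx (∏ t : ZMod q, (B ∣[w] ModularForm.heckeMatrix q 0) ∣[w]
        ((TrRepsQ.rB M q t : Gamma0 M) : SL(2, ℤ))) = TrQx.NP q (coeffMap embC y) := by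
    rw [div_eq_iff hb'0, hqA, hqB, ← hyAB, TrQx.NP_mul, ← HahnSeries.C_mul_eq_smul,
      ← HahnSeries.C_mul_eq_smul]
    ring
  -- `hC ∈ F_ℂ(M)`
  have hCmem := TrDesc.mem_FC_of_forms (K.mem_MFchi_one_iff.mpr hA'mem) hB'mem hB'0
    (div_mul_cancel₀ _ hb'0)
  have hfC : coeffMap embC (f : LaurentSeries Qb) = coeffMap embC y ^ m := by
    rw [hf, map_pow]
  -- the norm formula
  obtain ⟨ζ, hζ⟩ := HasEnoughRootsOfUnity.exists_primitiveRoot Qb q
  have hz : ∀ i : ℕ, ζ ^ i ≠ 0 := fun i => pow_ne_zero i (hζ.ne_zero (NeZero.ne q))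
  have hnorm := NormBetaQ.qExpand_betaNorm_of_dvd M q hq hqM ζ hζ hz f
  have key : (K.qx (∏ t : ZMod q, (A ∣[w] ModularForm.heckeMatrix q 0) ∣[w]
        ((TrRepsQ.rB M q t : Gamma0 M) : SL(2, ℤ))) /
      K.qx (∏ t : ZMod q, (B ∣[w] ModularForm.heckeMatrix q 0) ∣[w]
        ((TrRepsQ.rB M q t : Gamma0 M) : SL(2, ℤ)))) ^ m =
      coeffMap embC ((PushPic.betaNorm M q f : ↥(modularFunctionFieldBar M)) :
        LaurentSeries Qb) := by
    apply qExpand_injective (R := ℂ) q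
    rw [hcore, map_pow, TrNorm.qExpand_NP, ← TrNorm.rotProd_pow, ← hfC,
      ← TrNorm.coeffMap_prod_rotHom q ζ hζ hz, ← coeffMap_qExpand]
    congr 1
    exact hnorm.symm
  have hf0 : f ≠ 0 := by
    intro h0
    apply pow_ne_zero m hy0
    rw [← hf, h0]
    rfl
  exact TrDesc.exists_root_of_pow_eq hm (PushPic.betaNorm M q f)
    (PushPic.normAlong_ne_zero _ (PushPic.beta_finiteAlong M q) hf0) _ hCmem key

end Fermat.Agent.S36.KTrBetaQ
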