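/-
S36 — LevelIB.lean (helper68): block [B36] of the top of S36 (the S36 twin of `S35/LevelQB`).

The level-`n` datum of `S30/LimLevel` for the new eigenvector `v ∈ 𝒪 ⊗ J₀(N)[pⁿ]`, with the
INERTIA-INVARIANTS datum at the doubly special primes `q` (`q² ∥ N`, `q ≠ p`): every vector of
the level module fixed by an inertia group at `q` is killed by a constant `c q ≠ 0` which does
not depend on `n`.

* `smul_eq_zero_of_fixed`     — invariants after a flat base change (abstract, Mathlib only);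
* `exists_orbit_module_inv`   — the orbit module of `S30/ModOrbitR` with its invariants;
* `nonempty_levelI_of_vector` — the level from a vector lying in the `𝒪`-span of `1 ⊗ K`, `K` a
  Galois-stable subgroup of `J₀(N)[pⁿ]` whose inertia invariants are killed by `c q`;
* `exists_vectorI`            — the new eigenvector at level `pⁿ` (abstract newness predicate);
* `exists_newSubgroup`, `exists_const`, `levelI_of_blocks` — the glue: from the norm statement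
  [K-tr] at `q ∣ M` and the geometric statement "the `q`-new torsion of level `M' q²` has no
  inertia invariants up to a constant", the levels with the inertia-invariants datum.
-/
import Mathlib
import Fermat.Agent.S29.Defs
import Fermat.Agent.S29.ESGH
import Fermat.Agent.S29.SpecCoreS37
import Fermat.Agent.S30.LimLevel
import Fermat.Agent.S30.ModOrbitR
import Fermat.Agent.S30.Defs
import Fermat.Agent.S30.EigLevel
import Fermat.Agent.S30.LevelGlue
import Fermat.Agent.S35.PushPic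
import Fermat.Agent.S35.KGraph
import Fermat.Agent.S35.KTrPlan
import Fermat.Agent.S36.NewVecAll

set_option autoImplicit false

noncomputable section

open ModularCurve AlgebraicCurve CongruenceSubgroup
open scoped TensorProduct

namespace Fermat.Agent.S36.LevelIB

open Fermat.Agent.S29 (Qb GQ Jp galJp heckeJp mem_Jp_iff heckeLpar)
open Fermat.Agent.S30
open Fermat.Agent.S41 (Lpar)
open Fermat.Agent.S35

/-! ### Invariants after a flat base change -/

/-- Integers killing a module kill its base change (natural-number form). -/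
theorem natCast_smul_tensor_eq_zero (R : Type*) [CommRing R] {M : Type*} [AddCommGroup M]
    (c : ℕ) (hc : ∀ m : M, c • m = 0) (x : R ⊗[ℤ] M) : (c : R) • x = 0 := by
  induction x using TensorProduct.induction_on with
  | zero => rw [smul_zero]
  | tmul a m =>
    rw [Nat.cast_smul_eq_nsmul, ← TensorProduct.tmul_smul, hc m, TensorProduct.tmul_zero]
  | add x y hx hy => rw [smul_add, hx, hy, add_zero]

/-- **Invariants after a flat base change.**  Let `a τ` (`τ : H`) be additive endomorphisms of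
`M`, `K` a subgroup of `M` all of whose elements have a finite orbit, and `c` an integer killing
the elements of `K` fixed by every `a τ`.  If `R` is flat over `ℤ`, then `c` kills every element
of the `R`-span of the pure tensors `1 ⊗ k` (`k ∈ K`) of `R ⊗ M` fixed by every `1 ⊗ a τ`. -/
theorem smul_eq_zero_of_fixed {M : Type*} [AddCommGroup M] {R : Type*} [CommRing R]
    [Module.Flat ℤ R] {H : Type*} (a : H → (M →+ M)) (K : AddSubgroup M)
    (hfin : ∀ k ∈ K, (Set.range fun τ : H => a τ k).Finite)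
    (c : ℕ) (hc : ∀ k ∈ K, (∀ τ : H, a τ k = k) → c • k = 0)
    (y : R ⊗[ℤ] M)
    (hyK : y ∈ Submodule.span R {z : R ⊗[ℤ] M | ∃ k ∈ K, z = (1 : R) ⊗ₜ[ℤ] k})
    (hy : ∀ τ : H, LinearMap.baseChange R (a τ).toIntLinearMap y = y) :
    (c : R) • y = 0 := by
  classical
  -- a finite expression of `y`
  obtain ⟨n, f, g, hfg⟩ := Submodule.mem_span_set'.mp hyK
  choose k hkK hgk using fun i : Fin n => (g i).2
  have hysum : y = ∑ i, f i ⊗ₜ[ℤ] k i := by
    rw [← hfg]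
    refine Finset.sum_congr rfl fun i _ => ?_
    rw [hgk i, TensorProduct.smul_tmul', smul_eq_mul, mul_one]
  -- the subgroup generated by the `k i`
  let K₀ : Submodule ℤ M := Submodule.span ℤ (Set.range k)
  have hK₀K : ∀ x ∈ K₀, x ∈ K := by
    intro x hx
    have hle : K₀ ≤ AddSubgroup.toIntSubmodule K := by
      refine Submodule.span_le.mpr ?_
      rintro _ ⟨i, rfl⟩
      exact hkK i
    exact hle hx
  let k' : Fin n → K₀ := fun i => ⟨k i, Submodule.subset_span ⟨i, rfl⟩⟩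
  let y₀ : R ⊗[ℤ] K₀ := ∑ i, f i ⊗ₜ[ℤ] k' i
  have hy₀ : LinearMap.lTensor R K₀.subtype y₀ = y := by
    rw [hysum, map_sum]
    refine Finset.sum_congr rfl fun i _ => ?_
    rw [LinearMap.lTensor_tmul]
    rfl
  -- finitely many operators suffice
  let Φ : H → (Fin n → M) := fun τ i => a τ (k i)
  have hΦ : (Set.range Φ).Finite := by
    refine (Set.Finite.pi (t := fun i : Fin n => Set.range fun τ : H => a τ (k i))
      (fun i => hfin (k i) (hkK i))).subset ?_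
    rintro _ ⟨τ, rfl⟩
    rw [Set.mem_univ_pi]
    exact fun i => ⟨τ, rfl⟩
  have : Fintype (Set.range Φ) := hΦ.fintype
  let s : Set.range Φ → H := fun t => t.2.choose
  have hs : ∀ t : Set.range Φ, Φ (s t) = t.1 := fun t => t.2.choose_spec
  -- the map whose kernel is the invariants
  let φ : K₀ →ₗ[ℤ] (Set.range Φ → M) :=
    LinearMap.pi fun t => ((a (s t)).toIntLinearMap - LinearMap.id) ∘ₗ K₀.subtype
  have hφ : ∀ (x : K₀) (t : Set.range Φ), φ x t = a (s t) (x : M) - (x : M) := fun _ _ => rfl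
  -- `y₀` is in the kernel of `1 ⊗ φ`
  have hker : LinearMap.lTensor R φ y₀ = 0 := by
    apply (TensorProduct.piRight ℤ ℤ R (fun _ : Set.range Φ => M)).injective
    rw [map_zero]
    funext t
    have h1 : TensorProduct.piRight ℤ ℤ R (fun _ : Set.range Φ => M) (LinearMap.lTensor R φ y₀) t
        = ∑ i, f i ⊗ₜ[ℤ] (a (s t) (k i) - k i) := by
      simp only [y₀, map_sum, LinearMap.lTensor_tmul, TensorProduct.piRight_apply,
        TensorProduct.piRightHom_tmul, Finset.sum_apply]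
      rfl
    rw [h1]
    have h2 := hy (s t)
    rw [hysum, map_sum] at h2
    simp only [LinearMap.baseChange_tmul] at h2
    simp only [TensorProduct.tmul_sub, Finset.sum_sub_distrib]
    rw [Pi.zero_apply, sub_eq_zero]
    exact h2
  -- flatness
  have hex := Module.Flat.lTensor_exact R (LinearMap.exact_subtype_ker_map φ)
  obtain ⟨u, hu⟩ := (hex y₀).mp hker
  -- the kernel is killed by `c`
  have hkill : ∀ κ : LinearMap.ker φ, c • κ = 0 := by
    intro κ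
    have hκ : ∀ t : Set.range Φ, a (s t) ((κ : K₀) : M) = ((κ : K₀) : M) := by
      intro t
      have h := congrFun (LinearMap.mem_ker.mp κ.2) t
      rw [hφ, Pi.zero_apply, sub_eq_zero] at h
      exact h
    have hfix : ∀ τ : H, a τ ((κ : K₀) : M) = ((κ : K₀) : M) := by
      intro τ
      let t : Set.range Φ := ⟨Φ τ, τ, rfl⟩
      have hagree : Set.EqOn (a τ).toIntLinearMap (a (s t)).toIntLinearMap (Set.range k) := by
        rintro _ ⟨i, rfl⟩
        exact (congrFun (hs t) i).symm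
      have h := LinearMap.eqOn_span hagree (κ : K₀).2
      exact h.trans (hκ t)
    have h0 := hc _ (hK₀K _ (κ : K₀).2) hfix
    apply Subtype.ext
    apply Subtype.ext
    rw [AddSubmonoidClass.coe_nsmul, AddSubmonoidClass.coe_nsmul, h0]
    rfl
  have hu0 : (c : R) • u = 0 := natCast_smul_tensor_eq_zero R c hkill u
  rw [← hy₀, ← hu, Nat.cast_smul_eq_nsmul, ← map_nsmul, ← map_nsmul,
    ← Nat.cast_smul_eq_nsmul R, hu0, map_zero, map_zero]

/-! ### The orbit module with the invariants -/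

/-- The Galois orbit of an element of finite level is finite. -/
theorem finite_orbit_of_level {M : Type} [AddCommGroup M]
    (act : (AlgebraicClosure ℚ ≃ₐ[ℚ] AlgebraicClosure ℚ) →* AddMonoid.End M)
    (hFL : ∀ m : M, ∃ L : IntermediateField ℚ (AlgebraicClosure ℚ), FiniteDimensional ℚ L ∧
      ∀ σ : AlgebraicClosure ℚ ≃ₐ[ℚ] AlgebraicClosure ℚ, (∀ z ∈ L, σ z = z) → act σ m = m)
    (m : M) :
    (Set.range fun σ : AlgebraicClosure ℚ ≃ₐ[ℚ] AlgebraicClosure ℚ => act σ m).Finite := by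
  classical
  obtain ⟨L, hL, h⟩ := hFL m
  let res : (AlgebraicClosure ℚ ≃ₐ[ℚ] AlgebraicClosure ℚ) → (L →ₐ[ℚ] AlgebraicClosure ℚ) :=
    fun σ => (σ : AlgebraicClosure ℚ →ₐ[ℚ] AlgebraicClosure ℚ).comp L.val
  have hfac : ∀ σ τ : AlgebraicClosure ℚ ≃ₐ[ℚ] AlgebraicClosure ℚ, res σ = res τ →
      act σ m = act τ m := by
    intro σ τ hστ
    have hfix : ∀ z ∈ L, (τ⁻¹ * σ) z = z := by
      intro z hz
      have h1 : σ z = τ z := DFunLike.congr_fun hστ ⟨z, hz⟩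
      rw [AlgEquiv.mul_apply, h1]
      exact τ.symm_apply_apply z
    have h2 := h (τ⁻¹ * σ) hfix
    have h3 : act σ m = act τ (act (τ⁻¹ * σ) m) := by
      have h4 : act σ = act τ * act (τ⁻¹ * σ) := by rw [← map_mul, mul_inv_cancel_left]
      rw [h4]
      rfl
    rw [h3, h2]
  have hsub : (Set.range fun σ : AlgebraicClosure ℚ ≃ₐ[ℚ] AlgebraicClosure ℚ => act σ m) ⊆
      Set.range fun q : Set.range res => act (Classical.choose q.2) m := by
    rintro _ ⟨σ, rfl⟩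
    refine ⟨⟨res σ, σ, rfl⟩, ?_⟩
    exact hfac _ _ (Classical.choose_spec (⟨σ, rfl⟩ : ∃ τ, res τ = res σ))
  exact (Set.finite_range _).subset hsub

/-- **The orbit module of `S30/ModOrbitR`, with its invariants**: if the generating vector `v`
is an `R`-combination of pure tensors `1 ⊗ k`, `k ∈ K`, for a Galois-stable subgroup `K` of `M`,
and the integer `c` kills the elements of `K` fixed by a set `H` of Galois elements, then `c`
kills the elements of the orbit module fixed by `H` (`R` flat over `ℤ`). -/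
theorem exists_orbit_module_inv {M : Type} [AddCommGroup M]
    (act : (AlgebraicClosure ℚ ≃ₐ[ℚ] AlgebraicClosure ℚ) →* AddMonoid.End M)
    (hFL : ∀ m : M, ∃ L : IntermediateField ℚ (AlgebraicClosure ℚ), FiniteDimensional ℚ L ∧
      ∀ σ : AlgebraicClosure ℚ ≃ₐ[ℚ] AlgebraicClosure ℚ, (∀ z ∈ L, σ z = z) → act σ m = m)
    {R : Type} [CommRing R] [Module.Flat ℤ R] {I : Type*} (TM : I → (M →+ M)) (lam : I → R)
    (hGH : ∀ (i : I) (σ : AlgebraicClosure ℚ ≃ₐ[ℚ] AlgebraicClosure ℚ) (m : M),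
      act σ (TM i m) = TM i (act σ m))
    (v : R ⊗[ℤ] M)
    (hv : ∀ i, LinearMap.baseChange R (TM i).toIntLinearMap v = lam i • v) :
    ∃ (V : Type) (_ : AddCommGroup V) (_ : Module R V)
      (r : (AlgebraicClosure ℚ ≃ₐ[ℚ] AlgebraicClosure ℚ) →* Module.End R V) (w : V),
      (∀ a : R, a • w = 0 ↔ a • v = 0) ∧
      (∀ c : ℤ, (∀ m : M, c • m = 0) → ∀ x : V, (c : R) • x = 0) ∧
      GaloisFactorsThroughFiniteLevel r ∧
      (∀ σ : AlgebraicClosure ℚ ≃ₐ[ℚ] AlgebraicClosure ℚ, (∀ m : M, act σ m = m) → r σ = 1) ∧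
      (∀ (σ : AlgebraicClosure ℚ ≃ₐ[ℚ] AlgebraicClosure ℚ) (i : I) (c : ℤ),
        (∀ m : M, act σ (act σ m) - TM i (act σ m) + c • m = 0) →
          r σ * r σ - lam i • r σ + (c : R) • (1 : Module.End R V) = 0) ∧
      (∀ (K : AddSubgroup M) (H : Set (AlgebraicClosure ℚ ≃ₐ[ℚ] AlgebraicClosure ℚ)) (c : ℕ),
        (∀ (σ : AlgebraicClosure ℚ ≃ₐ[ℚ] AlgebraicClosure ℚ), ∀ k ∈ K, act σ k ∈ K) →
        v ∈ Submodule.span R {z : R ⊗[ℤ] M | ∃ k ∈ K, z = (1 : R) ⊗ₜ[ℤ] k} →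
        (∀ k ∈ K, (∀ τ ∈ H, act τ k = k) → c • k = 0) →
        ∀ x : V, (∀ τ ∈ H, r τ x = x) → (c : R) • x = 0) := by
  obtain ⟨V, i1, i2, -, r, w, ι, hι, hιw, hιr, hspan, hfin, htriv, hquad⟩ :=
    Fermat.Agent.S30.ModOrbitR.exists_orbit_module act hFL TM lam hGH v hv
  refine ⟨V, i1, i2, r, w, fun a => ?_, fun c hc x => ?_, hfin, htriv, hquad, ?_⟩
  · rw [← hιw, ← map_smul]
    exact ⟨fun h => by rw [h, map_zero], fun h => hι (by rw [h, map_zero])⟩
  · apply hι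
    rw [map_smul, map_zero]
    exact Fermat.Agent.S30.ModOrbitR.intCast_smul_eq_zero R c hc (ι x)
  · intro K H c hKst hvK hc x hx
    -- the image of `ι` lies in the span of the pure tensors `1 ⊗ k`, `k ∈ K`
    have hstab : ∀ (σ : AlgebraicClosure ℚ ≃ₐ[ℚ] AlgebraicClosure ℚ),
        ∀ y ∈ Submodule.span R {z : R ⊗[ℤ] M | ∃ k ∈ K, z = (1 : R) ⊗ₜ[ℤ] k},
        LinearMap.baseChange R (act σ).toIntLinearMap y ∈
          Submodule.span R {z : R ⊗[ℤ] M | ∃ k ∈ K, z = (1 : R) ⊗ₜ[ℤ] k} := by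
      intro σ y hy
      induction hy using Submodule.span_induction with
      | mem z hz =>
        obtain ⟨k, hk, rfl⟩ := hz
        rw [LinearMap.baseChange_tmul]
        exact Submodule.subset_span ⟨act σ k, hKst σ k hk, rfl⟩
      | zero => rw [map_zero]; exact Submodule.zero_mem _
      | add y z _ _ hy hz => rw [map_add]; exact Submodule.add_mem _ hy hz
      | smul a y _ hy => rw [map_smul]; exact Submodule.smul_mem _ a hy
    have hιx : ∀ x : V, ι x ∈ Submodule.span R {z : R ⊗[ℤ] M | ∃ k ∈ K, z = (1 : R) ⊗ₜ[ℤ] k} := by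
      intro x
      have hx' : x ∈ Submodule.span R (Set.range fun σ :
          AlgebraicClosure ℚ ≃ₐ[ℚ] AlgebraicClosure ℚ => r σ w) := by
        rw [hspan]; exact Submodule.mem_top
      induction hx' using Submodule.span_induction with
      | mem z hz =>
        obtain ⟨σ, rfl⟩ := hz
        rw [hιr, hιw]
        exact hstab σ v hvK
      | zero => rw [map_zero]; exact Submodule.zero_mem _
      | add y z _ _ hy hz => rw [map_add]; exact Submodule.add_mem _ hy hz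
      | smul a y _ hy => rw [map_smul]; exact Submodule.smul_mem _ a hy
    apply hι
    rw [map_smul, map_zero]
    refine smul_eq_zero_of_fixed (H := H) (fun τ => act τ.1) K
      (fun k _ => ?_) c (fun k hk hfix => hc k hk fun τ hτ => hfix ⟨τ, hτ⟩) (ι x) (hιx x)
      (fun τ => ?_)
    · refine (finite_orbit_of_level act hFL k).subset ?_
      rintro _ ⟨τ, rfl⟩
      exact ⟨τ.1, rfl⟩
    · rw [← hιr, hx τ.1 τ.2]

/-! ### The level with the inertia-invariants datum from a vector -/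

/-- **[B36]**: the level-`n` datum from an eigenvector `v ∈ 𝒪 ⊗ J₀(N)[pⁿ]`, with the
inertia-invariants datum (constant `c q`) at every prime `q` such that `v` is an
`𝒪`-combination of pure tensors `1 ⊗ k`, `k ∈ K`, for a Galois-stable subgroup `K` of
`J₀(N)[pⁿ]` whose inertia invariants (at every place over `q`) are killed by `c q`. -/
theorem nonempty_levelI_of_vector (N p : ℕ) [NeZero N] (hp : p.Prime) (S : Set ℕ) (hpS : p ∈ S)
    {𝒪 : Type} [CommRing 𝒪] [Module.Flat ℤ 𝒪] (χ : CuspForm.heckeAlgebra N 2 S →+* 𝒪) (n : ℕ)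
    (v : 𝒪 ⊗[ℤ] (Jp N (p ^ n)))
    (hann : ∀ a : 𝒪, a • v = 0 → (p : 𝒪) ^ n ∣ a)
    (hv : ∀ (ℓ : ℕ) (hℓ : ℓ.Prime) (hℓN : ¬ ℓ ∣ N) (hℓS : ℓ ∉ S),
      (heckeJp N (p ^ n) ⟨ℓ, hℓ⟩).baseChange 𝒪 v = χ (CuspForm.heckeAlgebra.T hℓ hℓN hℓS) • v)
    (spec : ℕ → Prop) (c : ℕ → ℕ)
    (hspec : ∀ q : ℕ, spec q → ∃ K : AddSubgroup (Jp N (p ^ n)),
      (∀ σ : GQ, ∀ k ∈ K, galJp N (p ^ n) σ k ∈ K) ∧
      v ∈ Submodule.span 𝒪 {z : 𝒪 ⊗[ℤ] (Jp N (p ^ n)) | ∃ k ∈ K, z = (1 : 𝒪) ⊗ₜ[ℤ] k} ∧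
      ∀ P : ValuationSubring Qb, P.LiesOverPrime q → ∀ k ∈ K,
        (∀ τ ∈ P.inertiaSubgroupIn ℚ, τ • (k : JZero N) = (k : JZero N)) → c q • k = 0) :
    ∃ Lv : LimLevel.Level 𝒪 p n (LimLevel.goodPrime N S) (LimLevel.heckeEig N S χ)
      (LimLevel.unrPrime N p), ∀ q : ℕ, spec q → ∀ P : ValuationSubring Qb, P.LiesOverPrime q →
        ∀ x : Lv.V, (∀ τ ∈ P.inertiaSubgroupIn ℚ, Lv.r τ x = x) → (c q : 𝒪) • x = 0 := by
  classical
  have hIn := Fermat.Agent.S29.inertiaStatement_of_specCore N (p ^ n)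
    (Fermat.Agent.S29.specCoreStatement N (p ^ n))
  have hES := Fermat.Agent.S29.esStatement_of_specCore N (p ^ n)
    (Fermat.Agent.S29.specCoreStatement N (p ^ n))
  have hGH := Fermat.Agent.S29.ghStatement N (p ^ n)
  have hFL := Fermat.Agent.S29.flStatement N (p ^ n) (pow_ne_zero n hp.ne_zero)
  -- the action by additive maps
  let act : GQ →* AddMonoid.End (Jp N (p ^ n)) :=
    { toFun := fun σ => (galJp N (p ^ n) σ).toAddMonoidHom
      map_one' := by rw [map_one]; rfl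
      map_mul' := fun σ τ => by rw [map_mul]; rfl }
  have hact : ∀ (σ : GQ) (m : Jp N (p ^ n)),
      ((act σ m : Jp N (p ^ n)) : JZero N) = σ • (m : JZero N) := fun _ _ => rfl
  have hm : ∀ m : Jp N (p ^ n), p ^ n • (m : JZero N) = 0 :=
    fun m => (mem_Jp_iff N (p ^ n) _).mp m.2
  -- index set: the good primes
  let I : Type := {ℓ : ℕ // LimLevel.goodPrime N S ℓ}
  have hIp : ∀ i : I, i.1 ≠ p := fun i h => i.2.2.2 (h ▸ hpS)
  have hIdvd : ∀ i : I, ¬ i.1 ∣ N * p ^ n := fun i =>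
    LevelGlue.not_dvd_mul_pow hp i.2.1 i.2.2.1 (hIp i) n
  let TM : I → (Jp N (p ^ n) →+ Jp N (p ^ n)) :=
    fun i => (heckeJp N (p ^ n) ⟨i.1, i.2.1⟩).toAddMonoidHom
  have hTM : ∀ (i : I) (m : Jp N (p ^ n)),
      ((TM i m : Jp N (p ^ n)) : JZero N) = heckeOperatorBar N ⟨i.1, i.2.1⟩ (m : JZero N) :=
    fun _ _ => rfl
  have Horb :=
    exists_orbit_module_inv act
      (fun m => by
        obtain ⟨L, hL, hfix⟩ := hFL (m : JZero N) (hm m)
        exact ⟨L, hL, fun σ hσ => Subtype.ext (hfix σ hσ)⟩)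
      TM (fun i : I => χ (CuspForm.heckeAlgebra.T i.2.1 i.2.2.1 i.2.2.2))
      (fun i σ m => Subtype.ext (by
        rw [hact, hTM, hTM, hact]
        exact (hGH i.1 i.2.1 (hIdvd i) σ (m : JZero N) (hm m)).symm))
      v
      (fun i => by
        have e : (TM i).toIntLinearMap = heckeJp N (p ^ n) ⟨i.1, i.2.1⟩ :=
          LinearMap.ext fun _ => rfl
        rw [e]
        exact hv i.1 i.2.1 i.2.2.1 i.2.2.2)
  obtain ⟨V, i1, i2, r, w, hw, htors, hfin, htriv, hquad, hinv⟩ := Horb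
  have hkill : ∀ m : Jp N (p ^ n), ((p : ℤ) ^ n) • m = 0 := fun m => Subtype.ext (by
    have h1 := hm m
    rw [Submodule.coe_smul, ZeroMemClass.coe_zero]
    rw [← h1]
    norm_cast)
  have htors' : ∀ x : V, (p : 𝒪) ^ n • x = 0 := by
    intro x
    have h := htors ((p : ℤ) ^ n) hkill x
    rw [← h]
    norm_cast
  have hann' : ∀ c : 𝒪, c • w = 0 → (p : 𝒪) ^ n ∣ c := fun c hc => hann c ((hw c).mp hc)
  have hfrob' : ∀ ℓ : ℕ, LimLevel.goodPrime N S ℓ → ∀ A : ValuationSubring Qb,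
      A.LiesOverPrime ℓ → ∀ σ : GQ, A.IsFrobeniusAt σ ℓ →
      r σ * r σ - LimLevel.heckeEig N S χ ℓ • r σ + (ℓ : 𝒪) • (1 : Module.End 𝒪 V) = 0 := by
    intro ℓ hℓg A hA σ hσ
    let i : I := ⟨ℓ, hℓg⟩
    have h := hquad σ i (ℓ : ℤ) (fun m => Subtype.ext (by
      have h1 := hES ℓ hℓg.1 (hIdvd i) A hA σ hσ (m : JZero N) (hm m)
      rw [Submodule.coe_add, Submodule.coe_sub, Submodule.coe_smul, hact, hact, hTM, hact,
        natCast_zsmul]
      exact h1))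
    rw [Int.cast_natCast] at h
    rw [LimLevel.heckeEig_eq N S χ hℓg.1 hℓg.2.1 hℓg.2.2]
    exact h
  have hinert' : ∀ q : ℕ, LimLevel.unrPrime N p q → ∀ P : ValuationSubring Qb,
      P.LiesOverPrime q → ∀ τ ∈ P.inertiaSubgroupIn ℚ, r τ = 1 := by
    intro q hq P hP τ hτ
    refine htriv τ (fun m => Subtype.ext ?_)
    rw [hact]
    exact hIn q hq.1 (LevelGlue.not_dvd_mul_pow hp hq.1 hq.2.1 hq.2.2 n) P hP τ hτ
      (m : JZero N) (hm m)
  have hdatum : ∀ q : ℕ, spec q → ∀ P : ValuationSubring Qb, P.LiesOverPrime q →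
      ∀ x : V, (∀ τ ∈ P.inertiaSubgroupIn ℚ, r τ x = x) → (c q : 𝒪) • x = 0 := by
    intro q hq P hP x hx
    obtain ⟨K, hKst, hvK, hKc⟩ := hspec q hq
    exact hinv K {τ : GQ | τ ∈ P.inertiaSubgroupIn ℚ} (c q) (fun σ k hk => hKst σ k hk) hvK
      (fun k hk hfix => hKc P hP k hk fun τ hτ =>
        (hact τ k).symm.trans (congrArg Subtype.val (hfix τ hτ)))
      x (fun τ hτ => hx τ hτ)
  exact ⟨{ V := V, r := r, w := w, tors := htors', ann := hann', level := hfin, frob := hfrob',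
           inert := hinert' }, hdatum⟩

/-! ### The new eigenvector at level `pⁿ` -/

/-- **The new eigenvector at level `pⁿ`** (abstract newness predicate `Pnew`): for primitive
eigen-coordinates `x` whose tensor `∑ x_i ⊗ b_i` lies in the `𝒪`-span of the pure tensors
`1 ⊗ c`, `Pnew c`, the vector `v = ∑ x_i ⊗ θ (b_i)` has annihilator `pⁿ 𝒪`, is an eigenvector,
and lies in the `𝒪`-span of the pure tensors `1 ⊗ θ c` with `Pnew c`. -/
theorem exists_vectorI (N p : ℕ) [NeZero N] (S : Set ℕ) (hpS : p ∈ S)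
    (𝒪 : Type) [CommRing 𝒪] [Module.Flat ℤ 𝒪] (χ : CuspForm.heckeAlgebra N 2 S →+* 𝒪)
    (Pnew : Lpar N → Prop) {r : ℕ} (b : Module.Basis (Fin r) ℤ (Lpar N))
    (x : Fin r → 𝒪) (hx1 : ∃ i, x i = 1)
    (hx : ∀ (ℓ : ℕ) (hℓ : ℓ.Prime) (hℓN : ¬ ℓ ∣ N) (hℓS : ℓ ∉ S) (m : Fin r),
      ∑ n, ((b.repr (heckeLpar N ℓ hℓ hℓN (b n)) m : ℤ) : 𝒪) * x n
        = χ (CuspForm.heckeAlgebra.T hℓ hℓN hℓS) * x m)
    (hxnew : (∑ n, x n ⊗ₜ[ℤ] b n : 𝒪 ⊗[ℤ] (Lpar N)) ∈
      Submodule.span 𝒪 {z : 𝒪 ⊗[ℤ] (Lpar N) | ∃ c : Lpar N, Pnew c ∧ z = 1 ⊗ₜ[ℤ] c})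
    (n : ℕ)
    (θ : Lpar N →+ JZero N) (hθ1 : ∀ u : Lpar N, p ^ n • θ u = 0)
    (hθ2 : ∀ u : Lpar N, θ u = 0 → ∃ z : Lpar N, u = ((p ^ n : ℕ) : ℤ) • z)
    (hθ3 : ∀ (ℓ : ℕ) (hℓ : ℓ.Prime) (hℓN : ¬ ℓ ∣ N), ℓ ≠ p → ∀ u : Lpar N,
      θ (heckeLpar N ℓ hℓ hℓN u) = heckeOperatorBar N ⟨ℓ, hℓ⟩ (θ u)) :
    ∃ v : 𝒪 ⊗[ℤ] (Jp N (p ^ n)), (∀ a : 𝒪, a • v = 0 → (p : 𝒪) ^ n ∣ a) ∧
      (∀ (ℓ : ℕ) (hℓ : ℓ.Prime) (hℓN : ¬ ℓ ∣ N) (hℓS : ℓ ∉ S),
        (heckeJp N (p ^ n) ⟨ℓ, hℓ⟩).baseChange 𝒪 v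
          = χ (CuspForm.heckeAlgebra.T hℓ hℓN hℓS) • v) ∧
      v ∈ Submodule.span 𝒪 {z : 𝒪 ⊗[ℤ] (Jp N (p ^ n)) | ∃ (c : Lpar N) (k : Jp N (p ^ n)),
        Pnew c ∧ (k : JZero N) = θ c ∧ z = (1 : 𝒪) ⊗ₜ[ℤ] k} := by
  classical
  -- corestriction of `θ` to the `pⁿ`-torsion
  let θ' : Lpar N →+ Jp N (p ^ n) :=
    { toFun := fun u => ⟨θ u, (mem_Jp_iff N (p ^ n) (θ u)).mpr (hθ1 u)⟩
      map_zero' := Subtype.ext (map_zero θ)
      map_add' := fun u v => Subtype.ext (map_add θ u v) }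
  have hker : ∀ u, θ'.toIntLinearMap u = 0 → ∃ z, u = ((p ^ n : ℕ) : ℤ) • z := by
    intro u hu
    apply hθ2 u
    have h : ((θ' u : Jp N (p ^ n)) : JZero N) = 0 := congrArg Subtype.val hu
    exact h
  have hheck : ∀ (ℓ : ℕ) (hℓ : ℓ.Prime) (hℓN : ¬ ℓ ∣ N), ℓ ≠ p → ∀ u,
      heckeJp N (p ^ n) ⟨ℓ, hℓ⟩ (θ' u) = θ' (heckeLpar N ℓ hℓ hℓN u) := by
    intro ℓ hℓ hℓN hℓp u
    apply Subtype.ext
    change heckeOperatorBar N ⟨ℓ, hℓ⟩ (θ u) = θ (heckeLpar N ℓ hℓ hℓN u)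
    exact (hθ3 ℓ hℓ hℓN hℓp u).symm
  refine ⟨∑ i, x i ⊗ₜ[ℤ] θ' (b i), ?_, ?_, ?_⟩
  · intro a ha
    have h := EigLevel.dvd_of_smul_sum_tmul_eq_zero b θ'.toIntLinearMap (p ^ n) hker x hx1 a ha
    rwa [Nat.cast_pow] at h
  · intro ℓ hℓ hℓN hℓS
    have hℓp : ℓ ≠ p := fun h => hℓS (h ▸ hpS)
    rw [map_sum]
    simp_rw [LinearMap.baseChange_tmul, hheck ℓ hℓ hℓN hℓp]
    exact EigLevel.sum_tmul_map_eq_smul b (heckeLpar N ℓ hℓ hℓN)
      θ'.toIntLinearMap x _ (fun k => hx ℓ hℓ hℓN hℓS k)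
  · have hmap : (∑ i, x i ⊗ₜ[ℤ] θ' (b i) : 𝒪 ⊗[ℤ] (Jp N (p ^ n)))
        = LinearMap.baseChange 𝒪 θ'.toIntLinearMap (∑ i, x i ⊗ₜ[ℤ] b i) := by
      rw [map_sum]
      refine Finset.sum_congr rfl fun i _ => ?_
      rw [LinearMap.baseChange_tmul]
      rfl
    rw [hmap]
    have h1 := Submodule.mem_map_of_mem (f := LinearMap.baseChange 𝒪 θ'.toIntLinearMap) hxnew
    rw [Submodule.map_span] at h1
    refine Submodule.span_mono ?_ h1
    rintro _ ⟨_, ⟨c, hc, rfl⟩, rfl⟩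
    refine ⟨c, θ' c, hc, rfl, ?_⟩
    rw [LinearMap.baseChange_tmul]
    rfl

/-! ### The glue -/

/-- The doubly special primes: `q` prime, `q ≠ p`, `q² ∥ N`. -/
def spec2 (N p q : ℕ) : Prop := q.Prime ∧ q ≠ p ∧ N.factorization q = 2

/-- `q² ∥ N` gives `N = M' q q` with `q ∤ M'`. -/
theorem exists_eq_mul_mul_of_factorization_eq_two {N q : ℕ} (hN : N ≠ 0) (hq : q.Prime)
    (h : N.factorization q = 2) : ∃ M' : ℕ, N = M' * q * q ∧ ¬ q ∣ M' := by
  have h2 : q ^ 2 ∣ N := (hq.pow_dvd_iff_le_factorization hN).mpr (le_of_eq h.symm)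
  obtain ⟨M', hM'⟩ := h2
  refine ⟨M', by rw [hM']; ring, ?_⟩
  rintro ⟨d, hd⟩
  have h3 : q ^ 3 ∣ N := ⟨d, by rw [hM', hd]; ring⟩
  have h4 := (hq.pow_dvd_iff_le_factorization hN).mp h3
  omega

/-- **The `q`-new subgroup of `J₀(M' q²)[m]`**: it is Galois-stable, contains `θ c` for every
new class `c` (by the norm statement [K-tr] at `q ∣ M' q` and the graph of `θ`), and its inertia
invariants are killed by `c` as soon as those of the `q`-new `m`-torsion are. -/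
theorem exists_newSubgroup (M' q m : ℕ) [NeZero (M' * q * q)] [NeZero (M' * q)] [NeZero q]
    (hq : q.Prime) (hm : m ≠ 0) (hKtr : KTrPlan.KTrStatement (M' * q) q m)
    (θ : Lpar (M' * q * q) →+ JZero (M' * q * q))
    (h4 : ∀ (u : Lpar (M' * q * q)) (y : LaurentSeries Qb),
      Fermat.Agent.S29.KPlan.Wit (M' * q * q) m (u : Additive (Gamma0 (M' * q * q)) →+ ℤ) y →
      ∀ f : ↥(modularFunctionFieldBar (M' * q * q)), (f : LaurentSeries Qb) = y ^ m →
        ∃ D : Divisor.degZero (K := Qb) (F := ↥(modularFunctionFieldBar (M' * q * q))),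
          (∀ P : Place Qb ↥(modularFunctionFieldBar (M' * q * q)),
            (m : ℤ) * (D : Divisor Qb ↥(modularFunctionFieldBar (M' * q * q))) P = P.ord f) ∧
          θ u = Pic0.mk D)
    (c : ℕ)
    (hc : ∀ P : ValuationSubring Qb, P.LiesOverPrime q → ∀ x : JZero (M' * q * q),
      m • x = 0 → x ∈ PushPic.newKer (M' * q) q →
      (∀ τ ∈ P.inertiaSubgroupIn ℚ, τ • x = x) → c • x = 0) :
    ∃ K : AddSubgroup (Jp (M' * q * q) m),
      (∀ σ : GQ, ∀ k ∈ K, galJp (M' * q * q) m σ k ∈ K) ∧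
      (∀ (u : Lpar (M' * q * q)) (k : Jp (M' * q * q) m),
        NewVecAll.IsNewAtAll (M' * q * q) u → (k : JZero (M' * q * q)) = θ u → k ∈ K) ∧
      ∀ P : ValuationSubring Qb, P.LiesOverPrime q → ∀ k ∈ K,
        (∀ τ ∈ P.inertiaSubgroupIn ℚ,
          τ • (k : JZero (M' * q * q)) = (k : JZero (M' * q * q))) → c • k = 0 := by
  refine ⟨(PushPic.newKer (M' * q) q).comap (Jp (M' * q * q) m).subtype.toAddMonoidHom,
    fun σ k hk => ?_, fun u k hu hk => ?_, fun P hP k hk hfix => ?_⟩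
  · rw [AddSubgroup.mem_comap] at hk ⊢
    exact PushPic.galois_smul_mem_newKer (M' * q) q σ hk
  · rw [AddSubgroup.mem_comap]
    change (k : JZero (M' * q * q)) ∈ PushPic.newKer (M' * q) q
    rw [hk]
    obtain ⟨htr1, htr2⟩ := hu.tr hq
    obtain ⟨y, f, hy, hf, hf0⟩ := KGraph.exists_wit (M' * q * q) m hm u
    obtain ⟨D, hD, hθD⟩ := h4 u y hy f hf
    obtain ⟨ha, hb⟩ := hKtr u y hy f hf
    obtain ⟨h, c', -, -, hnorm⟩ := ha htr1
    obtain ⟨h', c'', -, -, hnorm'⟩ := hb htr2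
    rw [hθD, PushPic.mem_newKer]
    exact ⟨KGraph.alphaPush_mk_eq_zero_of_norm (M' * q) q hm D f hf0 hD h c' hnorm,
      KGraph.betaPush_mk_eq_zero_of_norm (M' * q) q hm D f hf0 hD h' c'' hnorm'⟩
  · rw [AddSubgroup.mem_comap] at hk
    have h0 := hc P hP (k : JZero (M' * q * q)) ((mem_Jp_iff (M' * q * q) m _).mp k.2) hk hfix
    apply Subtype.ext
    rw [AddSubmonoidClass.coe_nsmul, h0]
    rfl

/-- **The constant at a doubly special prime** (independent of the level `n`). -/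
theorem exists_const
    (hK : ∀ (M q m : ℕ) [NeZero M] [NeZero q], q.Prime → q ∣ M → m ≠ 0 →
      KTrPlan.KTrStatement M q m)
    (hInv : ∀ (M' q p : ℕ) [NeZero (M' * q)] [NeZero q], q.Prime → ¬ q ∣ M' → p.Prime → p ≠ q →
      ∃ c : ℕ, c ≠ 0 ∧ ∀ (n : ℕ) (P : ValuationSubring Qb), P.LiesOverPrime q →
        ∀ x : JZero (M' * q * q), p ^ n • x = 0 → x ∈ PushPic.newKer (M' * q) q →
          (∀ τ ∈ P.inertiaSubgroupIn ℚ, τ • x = x) → c • x = 0)
    (N p q : ℕ) [NeZero N] (hp : p.Prime) (hq : spec2 N p q) :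
    ∃ c : ℕ, c ≠ 0 ∧ ∀ (n : ℕ) (θ : Lpar N →+ JZero N),
      (∀ (u : Lpar N) (y : LaurentSeries Qb),
        Fermat.Agent.S29.KPlan.Wit N (p ^ n) (u : Additive (Gamma0 N) →+ ℤ) y →
        ∀ f : ↥(modularFunctionFieldBar N), (f : LaurentSeries Qb) = y ^ (p ^ n) →
          ∃ D : Divisor.degZero (K := Qb) (F := ↥(modularFunctionFieldBar N)),
            (∀ P : Place Qb ↥(modularFunctionFieldBar N),
              ((p ^ n : ℕ) : ℤ) * (D : Divisor Qb ↥(modularFunctionFieldBar N)) P = P.ord f) ∧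
            θ u = Pic0.mk D) →
      ∃ K : AddSubgroup (Jp N (p ^ n)),
        (∀ σ : GQ, ∀ k ∈ K, galJp N (p ^ n) σ k ∈ K) ∧
        (∀ (u : Lpar N) (k : Jp N (p ^ n)),
          NewVecAll.IsNewAtAll N u → (k : JZero N) = θ u → k ∈ K) ∧
        ∀ P : ValuationSubring Qb, P.LiesOverPrime q → ∀ k ∈ K,
          (∀ τ ∈ P.inertiaSubgroupIn ℚ, τ • (k : JZero N) = (k : JZero N)) → c • k = 0 := by
  obtain ⟨hqp, hqne, hfac⟩ := hq
  obtain ⟨M', hN, hqM'⟩ := exists_eq_mul_mul_of_factorization_eq_two (NeZero.ne N) hqp hfac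
  subst hN
  have hMq : NeZero (M' * q) := ⟨fun h0 => NeZero.ne (M' * q * q) (by rw [h0, zero_mul])⟩
  have hq0 : NeZero q := ⟨hqp.ne_zero⟩
  obtain ⟨c, hc0, hc⟩ := hInv M' q p hqp hqM' hp (Ne.symm hqne)
  refine ⟨c, hc0, fun n θ h4 => ?_⟩
  have hpn : p ^ n ≠ 0 := pow_ne_zero n hp.ne_zero
  exact exists_newSubgroup M' q (p ^ n) hqp hpn (hK (M' * q) q (p ^ n) hqp (dvd_mul_left q M') hpn)
    θ h4 c (fun P hP x hx hxnew hfix => hc n P hP x hx hxnew hfix)

/-- **[B36] + [C] + [K-tr] + geometry ⇒ the levels with the inertia-invariants datum.**  For a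
newform `g` of level `N` with eigencharacter `chig` and `iota : chig.range → 𝒪`: from the norm
statement [K-tr] at `q ∣ M` (`hK`) and the statement that the `q`-new torsion of level `M' q²`
has no inertia invariants up to a constant (`hInv`), there are constants `cst q ≠ 0` and, at
every `n`, a level all of whose vectors fixed by an inertia group at a doubly special prime `q`
are killed by `cst q`. -/
theorem levelI_of_blocks
    (hK : ∀ (M q m : ℕ) [NeZero M] [NeZero q], q.Prime → q ∣ M → m ≠ 0 →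
      KTrPlan.KTrStatement M q m)
    (hInv : ∀ (M' q p : ℕ) [NeZero (M' * q)] [NeZero q], q.Prime → ¬ q ∣ M' → p.Prime → p ≠ q →
      ∃ c : ℕ, c ≠ 0 ∧ ∀ (n : ℕ) (P : ValuationSubring Qb), P.LiesOverPrime q →
        ∀ x : JZero (M' * q * q), p ^ n • x = 0 → x ∈ PushPic.newKer (M' * q) q →
          (∀ τ ∈ P.inertiaSubgroupIn ℚ, τ • x = x) → c • x = 0)
    {N : ℕ} [NeZero N] {g : CuspForm (Gamma0 N) 2} (hg : g.IsNewform)
    (p : ℕ) (hp : p.Prime) (S : Finset ℕ) (hpS : p ∈ S)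
    (𝒪 : Type) [CommRing 𝒪] [IsDomain 𝒪] [ValuationRing 𝒪] [CharZero 𝒪]
    (chig : CuspForm.heckeAlgebra N 2 (↑S : Set ℕ) →+* ℂ)
    (hchig : ∀ (ℓ : ℕ) (hℓ : ℓ.Prime) (hℓN : ¬ ℓ ∣ N) (hℓS : ℓ ∉ (↑S : Set ℕ)),
      chig (CuspForm.heckeAlgebra.T hℓ hℓN hℓS) = ModularFormClass.qCoeff g ℓ)
    (iota : chig.range →+* 𝒪) :
    ∃ cst : ℕ → ℕ, (∀ q : ℕ, spec2 N p q → cst q ≠ 0) ∧
      ∀ n : ℕ, ∃ Lv : LimLevel.Level 𝒪 p n (LimLevel.goodPrime N (↑S : Set ℕ))
          (LimLevel.heckeEig N (↑S : Set ℕ) (iota.comp chig.rangeRestrict))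
          (LimLevel.unrPrime N p),
        ∀ q : ℕ, spec2 N p q → ∀ P : ValuationSubring Qb, P.LiesOverPrime q →
          ∀ x : Lv.V, (∀ τ ∈ P.inertiaSubgroupIn ℚ, Lv.r τ x = x) → (cst q : 𝒪) • x = 0 := by
  classical
  choose! cst hcst using fun q (hq : spec2 N p q) => exists_const hK hInv N p q hp hq
  refine ⟨cst, fun q hq => (hcst q hq).1, fun n => ?_⟩
  have hpn : p ^ n ≠ 0 := pow_ne_zero n hp.ne_zero
  obtain ⟨θ, h1, h2, h3, h4⟩ := KGraph.kGraphStatement N (p ^ n) hpn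
  have h3' : ∀ (ℓ : ℕ) (hℓ : ℓ.Prime) (hℓN : ¬ ℓ ∣ N), ℓ ≠ p → ∀ u : Lpar N,
      θ (heckeLpar N ℓ hℓ hℓN u) = heckeOperatorBar N ⟨ℓ, hℓ⟩ (θ u) := by
    intro ℓ hℓ hℓN hℓp u
    refine h3 ℓ hℓ hℓN ?_ u
    intro h
    rcases Nat.lt_trichotomy n 1 with hn | hn | hn
    · have hn0 : n = 0 := by omega
      rw [hn0, pow_zero] at h
      exact hℓ.one_lt.ne' h
    · rw [hn, pow_one] at h
      exact hℓp h
    · rw [h] at hℓ
      exact Nat.Prime.not_prime_pow (by omega) hℓ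
  have hfin : Module.Finite ℤ (Lpar N) := Fermat.Agent.S41.LparFree.lpar_finite N
  have hfree : Module.Free ℤ (Lpar N) := Fermat.Agent.S41.LparFree.lpar_free N
  obtain ⟨x, hx1, hx, hxnew⟩ := NewVecAll.newVecStatementAll N g hg (↑S : Set ℕ) chig hchig 𝒪 iota
    (Module.finBasis ℤ (Lpar N))
  obtain ⟨v, hann, hv, hspan⟩ := exists_vectorI N p (↑S : Set ℕ) (Finset.mem_coe.mpr hpS) 𝒪
    (iota.comp chig.rangeRestrict) (NewVecAll.IsNewAtAll N) (Module.finBasis ℤ (Lpar N)) x hx1 hx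
    hxnew n θ h1 h2 h3'
  refine nonempty_levelI_of_vector N p hp (↑S : Set ℕ) (Finset.mem_coe.mpr hpS)
    (iota.comp chig.rangeRestrict) n v hann hv (spec2 N p) cst ?_
  intro q hq
  obtain ⟨K, hst, hnew, hkill⟩ := (hcst q hq).2 n θ h4
  refine ⟨K, hst, ?_, hkill⟩
  refine Submodule.span_mono ?_ hspan
  rintro _ ⟨u, k, hu, hk, rfl⟩
  exact ⟨k, hnew u k hu hk, rfl⟩

end Fermat.Agent.S36.LevelIB
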