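/-
S36 — Loc3.lean (helper89).  Block [Loc3] = [LOC36] + [FIX3] of the S36 plan: the LOCAL input of
the Čech block (`loc0` / `locInf`) at a closed point `n` of a chart `R` whose special fibre has
finitely many components `V i` (multiplicities allowed), abstract.

* `exists_lift`  : multi-branch unit lifting in `E`-form.  If `g ^ m ≡ u` modulo `ϖ (V i)` on every
  branch through `n` (`u` a unit at `n`) and the first-order branch values of `g` at `n` are regular
  and agree (`≡ c`, `c ∉ n`), then `g ≡ r₁ / r₂` modulo `ϖ (V i)` on every branch, `r₂ ∉ n`.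
  (Reduction to `BranchRoot.mem_range_of_branch_roots` with `A = R_n / ϖ`, `C = ∏ V i / ϖ`.)
* `desc_at`      : `R_n ∩ ⋂_{i through n} ϖ (V i) = ϖ R_n` from the global `R ∩ ⋂ ϖ (V i) = ϖ R`.
* `exists_locA3` : the local form consumed by Čech: from a local generator `g₀` of `w`
  (`w * g₀ ^ m` a unit at `n`) whose branch values at `n` agree, an `a ≡ 1` modulo `ϖ (V i)` for ALL
  `i` with `w * a ^ m ∈ 1 + ϖ R_n`.
-/
import Mathlib
import Fermat.Agent.S34.LocPlan
import Fermat.Agent.S36.BranchRoot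
import Fermat.Agent.S36.SmoothFixN

set_option autoImplicit false

namespace Fermat.Agent.S36.Loc3

open Fermat.Agent.S34.LocPlan (UnitAt)

section Aux

variable {E : Type*} [Field E] (A : ValuationSubring E)

theorem val_one_of {x : E} (hx : x ∈ A) (hx' : x ∉ A.nonunits) : A.valuation x = 1 := by
  rw [ValuationSubring.mem_nonunits_iff] at hx'
  exact le_antisymm ((A.valuation_le_one_iff x).mpr hx) (not_lt.mp hx')

theorem inv_mem_of {x : E} (hx : x ∈ A) (hx' : x ∉ A.nonunits) : x⁻¹ ∈ A := by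
  rw [← A.valuation_le_one_iff, map_inv₀, val_one_of A hx hx', inv_one]

theorem nonunits_mem {x : E} (hx : x ∈ A.nonunits) : x ∈ A := A.nonunits_subset hx

theorem mul_nonunits {x y : E} (hx : x ∈ A) (hy : y ∈ A.nonunits) : x * y ∈ A.nonunits := by
  rw [ValuationSubring.mem_nonunits_iff] at *
  rw [map_mul]
  have h1 : A.valuation x ≤ 1 := (A.valuation_le_one_iff x).mpr hx
  calc A.valuation x * A.valuation y ≤ 1 * A.valuation y := mul_le_mul_left h1 _
    _ = A.valuation y := one_mul _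
    _ < 1 := hy

theorem ne_zero_of_not {x : E} (hx' : x ∉ A.nonunits) : x ≠ 0 := by
  rintro rfl
  apply hx'
  rw [ValuationSubring.mem_nonunits_iff, map_zero]
  exact zero_lt_one

theorem add_nonunits {x y : E} (hx : x ∈ A.nonunits) (hy : y ∈ A.nonunits) :
    x + y ∈ A.nonunits := by
  rw [ValuationSubring.mem_nonunits_iff] at *
  exact Valuation.map_add_lt _ hx hy

end Aux

/-- **Multi-branch unit lifting, `E`-form.** -/
theorem exists_lift
    {R : Type*} [CommRing R] [IsDomain R] {E : Type*} [Field E] [Algebra R E]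
    [IsFractionRing R E]
    {τ : Type*} [Finite τ] [Nonempty τ] (V : τ → ValuationSubring E) (ϖ : R) (m : ℕ)
    (n : Ideal R) (hn : n.IsMaximal) (hϖn : ϖ ∈ n) (hm : (m : R) ∉ n)
    (hle : ∀ (i : τ) (r : R), algebraMap R E r ∈ V i)
    (hcen : ∀ (i : τ) (r : R), algebraMap R E r ∈ (V i).nonunits → r ∈ n)
    (hϖ : ∀ i, algebraMap R E ϖ ∈ (V i).nonunits)
    (hnil : ∀ i, ∃ N : ℕ, ∀ x ∈ (V i).nonunits, ∃ z ∈ V i, x ^ N = algebraMap R E ϖ * z)
    (g : E) (u₁ u₂ : R) (hu₁ : u₁ ∉ n) (hu₂ : u₂ ∉ n)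
    (hgm : ∀ i, ∃ z ∈ V i,
      g ^ m * algebraMap R E u₂ - algebraMap R E u₁ = algebraMap R E ϖ * z)
    (c : R)
    (hbr : ∀ i, ∃ a s : R, s ∉ n ∧ a - c * s ∈ n ∧
      g * algebraMap R E s - algebraMap R E a ∈ (V i).nonunits) :
    ∃ r₁ r₂ : R, r₂ ∉ n ∧ ∀ i, ∃ z ∈ V i,
      g * algebraMap R E r₂ - algebraMap R E r₁ = algebraMap R E ϖ * z := by
  classical
  have hnp : n.IsPrime := hn.isPrime
  have hinj : Function.Injective (algebraMap R E) := IsFractionRing.injective R E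
  -- units of `V i` coming from `R ∖ n`
  have hsV : ∀ (i : τ) (s : R), s ∉ n → (algebraMap R E s)⁻¹ ∈ V i := fun i s hs =>
    inv_mem_of (V i) (hle i s) (fun h => hs (hcen i s h))
  have hs0 : ∀ s : R, s ∉ n → algebraMap R E s ≠ 0 := by
    intro s hs h
    apply hs
    have : s = 0 := hinj (by rw [h, map_zero])
    rw [this]; exact n.zero_mem
  -- `g ∈ V i`
  have hgV : ∀ i, g ∈ V i := by
    intro i
    obtain ⟨a, s, hs, -, hnu⟩ := hbr i
    have h1 : g * algebraMap R E s ∈ V i := by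
      have := add_mem (nonunits_mem (V i) hnu) (hle i a)
      simpa using this
    have : g = g * algebraMap R E s * (algebraMap R E s)⁻¹ := by
      field_simp [hs0 s hs]
    rw [this]
    exact mul_mem h1 (hsV i s hs)
  -- the local ring `Rn` and its map to `E`
  let Rn := Localization.AtPrime n
  have hunitE : ∀ y : n.primeCompl, IsUnit (algebraMap R E y) := fun y =>
    (hs0 y.1 y.2).isUnit
  let ψ : Rn →+* E := IsLocalization.lift hunitE
  have hψmk : ∀ (a : R) (s : n.primeCompl),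
      ψ (IsLocalization.mk' Rn a s) = algebraMap R E a * (algebraMap R E s)⁻¹ := by
    intro a s
    rw [IsLocalization.lift_mk'_spec]
    field_simp [hs0 s.1 s.2]
  have hψV : ∀ (i : τ) (x : Rn), ψ x ∈ V i := by
    intro i x
    obtain ⟨⟨a, s⟩, rfl⟩ := IsLocalization.mk'_surjective n.primeCompl x
    rw [hψmk]
    exact mul_mem (hle i a) (hsV i s.1 s.2)
  let ψi : ∀ i : τ, Rn →+* (V i) := fun i => ψ.codRestrict (V i) (hψV i)
  let ϖV : ∀ i : τ, (V i) := fun i => ⟨algebraMap R E ϖ, hle i ϖ⟩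
  let I : Ideal Rn := Ideal.span {algebraMap R Rn ϖ}
  have hImax : I ≤ IsLocalRing.maximalIdeal Rn := by
    rw [Ideal.span_le, Set.singleton_subset_iff]
    exact (IsLocalization.AtPrime.to_map_mem_maximal_iff Rn n ϖ).mpr hϖn
  have hItop : I ≠ ⊤ := fun h => (IsLocalRing.maximalIdeal.isMaximal Rn).ne_top (top_le_iff.mp (h ▸ hImax))
  let A := Rn ⧸ I
  have : Nontrivial A := Ideal.Quotient.nontrivial_iff.mpr hItop
  have : IsLocalRing A := IsLocalRing.of_surjective' (Ideal.Quotient.mk I)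
    Ideal.Quotient.mk_surjective
  have hloc : IsLocalHom (Ideal.Quotient.mk I) := by
    apply isLocalHom_of_le_jacobson_bot
    rw [IsLocalRing.jacobson_eq_maximalIdeal ⊥ bot_ne_top]
    exact hImax
  let J : ∀ i : τ, Ideal (V i) := fun i => Ideal.span {ϖV i}
  let C := ∀ i : τ, (V i) ⧸ J i
  let f0 : Rn →+* C := RingHom.pi (fun i => (Ideal.Quotient.mk (J i)).comp (ψi i))
  have hf0 : ∀ a ∈ I, f0 a = 0 := by
    intro a ha
    have hker : I ≤ RingHom.ker f0 := by
      rw [Ideal.span_le, Set.singleton_subset_iff]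
      show f0 (algebraMap R Rn ϖ) = 0
      funext i
      show Ideal.Quotient.mk (J i) (ψi i (algebraMap R Rn ϖ)) = 0
      rw [Ideal.Quotient.eq_zero_iff_mem]
      have : ψi i (algebraMap R Rn ϖ) = ϖV i := by
        apply Subtype.ext
        show ψ (algebraMap R Rn ϖ) = algebraMap R E ϖ
        exact IsLocalization.lift_eq hunitE ϖ
      rw [this]
      exact Ideal.subset_span (Set.mem_singleton _)
    exact hker ha
  let f : A →+* C := Ideal.Quotient.lift I f0 hf0
  let : Algebra A C := f.toAlgebra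
  have hfmk : ∀ (x : Rn) (i : τ), f (Ideal.Quotient.mk I x) i =
      Ideal.Quotient.mk (J i) (ψi i x) := fun x i => rfl
  -- branch maps
  let K : τ → Type _ := fun i => IsLocalRing.ResidueField (V i)
  have hJres : ∀ i, ∀ a ∈ J i, IsLocalRing.residue (V i) a = 0 := by
    intro i a ha
    have hle' : J i ≤ IsLocalRing.maximalIdeal (V i) := by
      rw [Ideal.span_le, Set.singleton_subset_iff]
      obtain ⟨h1, h2⟩ := ValuationSubring.mem_nonunits_iff_exists_mem_maximalIdeal.mp (hϖ i)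
      exact h2
    exact (IsLocalRing.residue_eq_zero_iff _).mpr (hle' ha)
  let ρ : ∀ i, C →+* K i := fun i =>
    (Ideal.Quotient.lift (J i) (IsLocalRing.residue (V i)) (hJres i)).comp (Pi.evalRingHom _ i)
  have hρ : ∀ (i : τ) (x : C) (y : V i), x i = Ideal.Quotient.mk (J i) y →
      ρ i x = IsLocalRing.residue (V i) y := by
    intro i x y h
    show Ideal.Quotient.lift (J i) (IsLocalRing.residue (V i)) (hJres i) (x i) = _
    rw [h, Ideal.Quotient.lift_mk]
  -- nilpotency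
  have hnilC : ∀ x : C, (∀ i, ρ i x = 0) → IsNilpotent x := by
    intro x hx
    cases nonempty_fintype τ
    choose N hN using hnil
    have hpow : ∀ i, (x i) ^ (N i) = 0 := by
      intro i
      obtain ⟨y, hy⟩ := Ideal.Quotient.mk_surjective (x i)
      have h1 : IsLocalRing.residue (V i) y = 0 := by rw [← hρ i x y hy.symm]; exact hx i
      have h2 : y ∈ IsLocalRing.maximalIdeal (V i) := (IsLocalRing.residue_eq_zero_iff _).mp h1
      have h3 : (y : E) ∈ (V i).nonunits :=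
        ValuationSubring.mem_nonunits_iff_exists_mem_maximalIdeal.mpr ⟨y.2, h2⟩
      obtain ⟨z, hz, e⟩ := hN i _ h3
      rw [← hy, ← map_pow, Ideal.Quotient.eq_zero_iff_mem, Ideal.mem_span_singleton]
      refine ⟨⟨z, hz⟩, ?_⟩
      apply Subtype.ext
      show (y : E) ^ N i = algebraMap R E ϖ * z
      exact e
    refine ⟨∑ i, N i, ?_⟩
    funext i
    show (x i) ^ (∑ i, N i) = 0
    have hle' : N i ≤ ∑ i, N i :=
      Finset.single_le_sum (fun _ _ => Nat.zero_le _) (Finset.mem_univ i)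
    rw [← Nat.sub_add_cancel hle', pow_add, hpow i, mul_zero]
  -- `m` invertible
  have hmA : (m : IsLocalRing.ResidueField A) ≠ 0 := by
    have h1 : IsUnit (algebraMap R Rn (m : R)) :=
      (IsLocalization.AtPrime.isUnit_to_map_iff Rn n (m : R)).mpr hm
    have h2 : IsUnit ((IsLocalRing.residue A) (Ideal.Quotient.mk I (algebraMap R Rn (m : R)))) :=
      (h1.map (Ideal.Quotient.mk I)).map (IsLocalRing.residue A)
    have h3 : (IsLocalRing.residue A) (Ideal.Quotient.mk I (algebraMap R Rn (m : R))) =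
        (m : IsLocalRing.ResidueField A) := by
      simp
    rw [h3] at h2
    exact h2.ne_zero
  -- the unit `u`
  have huRn : IsUnit (IsLocalization.mk' Rn u₁ (⟨u₂, hu₂⟩ : n.primeCompl)) :=
    (IsLocalization.AtPrime.isUnit_mk'_iff Rn n u₁ ⟨u₂, hu₂⟩).mpr hu₁
  have huA : IsUnit (Ideal.Quotient.mk I (IsLocalization.mk' Rn u₁ (⟨u₂, hu₂⟩ : n.primeCompl))) :=
    huRn.map _
  -- the root `t`
  let t : C := fun i => Ideal.Quotient.mk (J i) ⟨g, hgV i⟩
  have ht : t ^ m = algebraMap A C huA.unit := by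
    funext i
    show (Ideal.Quotient.mk (J i) ⟨g, hgV i⟩) ^ m =
      f (Ideal.Quotient.mk I (IsLocalization.mk' Rn u₁ (⟨u₂, hu₂⟩ : n.primeCompl))) i
    rw [hfmk, ← map_pow, Ideal.Quotient.eq, Ideal.mem_span_singleton]
    obtain ⟨z, hz, e⟩ := hgm i
    refine ⟨⟨z * (algebraMap R E u₂)⁻¹, mul_mem hz (hsV i u₂ hu₂)⟩, ?_⟩
    apply Subtype.ext
    show g ^ m - ψ (IsLocalization.mk' Rn u₁ (⟨u₂, hu₂⟩ : n.primeCompl)) =
      algebraMap R E ϖ * (z * (algebraMap R E u₂)⁻¹)
    rw [hψmk]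
    have h0 := hs0 u₂ hu₂
    show g ^ m - algebraMap R E u₁ * (algebraMap R E u₂)⁻¹ =
      algebraMap R E ϖ * (z * (algebraMap R E u₂)⁻¹)
    rw [← mul_assoc, ← e]
    field_simp
  -- branch values
  choose a s hs has hnu using hbr
  let aA : τ → A := fun i =>
    Ideal.Quotient.mk I (IsLocalization.mk' Rn (a i) (⟨s i, hs i⟩ : n.primeCompl))
  have haρ : ∀ i, ρ i t = ρ i (algebraMap A C (aA i)) := by
    intro i
    rw [hρ i t ⟨g, hgV i⟩ rfl,
      hρ i (algebraMap A C (aA i)) (ψi i (IsLocalization.mk' Rn (a i) (⟨s i, hs i⟩ : n.primeCompl)))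
        (hfmk _ i)]
    rw [← sub_eq_zero, ← map_sub, IsLocalRing.residue_eq_zero_iff]
    have hmem : g - algebraMap R E (a i) * (algebraMap R E (s i))⁻¹ ∈ (V i).nonunits := by
      have h0 := hs0 (s i) (hs i)
      have e : g - algebraMap R E (a i) * (algebraMap R E (s i))⁻¹ =
          (algebraMap R E (s i))⁻¹ * (g * algebraMap R E (s i) - algebraMap R E (a i)) := by
        field_simp
      rw [e]
      exact mul_nonunits (V i) (hsV i (s i) (hs i)) (hnu i)
    obtain ⟨h1, h2⟩ := ValuationSubring.mem_nonunits_iff_exists_mem_maximalIdeal.mp hmem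
    have e2 : (⟨g, hgV i⟩ : V i) - ψi i (IsLocalization.mk' Rn (a i) (⟨s i, hs i⟩ : n.primeCompl)) =
        ⟨g - algebraMap R E (a i) * (algebraMap R E (s i))⁻¹, h1⟩ := by
      apply Subtype.ext
      show g - ψ (IsLocalization.mk' Rn (a i) (⟨s i, hs i⟩ : n.primeCompl)) = _
      rw [hψmk]
    rw [e2]
    exact h2
  have hagree : ∀ i j, aA i - aA j ∈ IsLocalRing.maximalIdeal A := by
    intro i j
    have key : ∀ i, IsLocalization.mk' Rn (a i) (⟨s i, hs i⟩ : n.primeCompl) - algebraMap R Rn c ∈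
        IsLocalRing.maximalIdeal Rn := by
      intro i
      have e : IsLocalization.mk' Rn (a i) (⟨s i, hs i⟩ : n.primeCompl) - algebraMap R Rn c =
          IsLocalization.mk' Rn (a i - c * s i) (⟨s i, hs i⟩ : n.primeCompl) := by
        rw [IsLocalization.eq_mk'_iff_mul_eq, sub_mul, IsLocalization.mk'_spec, map_sub, map_mul]
      rw [e]
      exact (IsLocalization.AtPrime.mk'_mem_maximal_iff Rn n _ _).mpr (has i)
    have h1 : IsLocalization.mk' Rn (a i) (⟨s i, hs i⟩ : n.primeCompl) -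
        IsLocalization.mk' Rn (a j) (⟨s j, hs j⟩ : n.primeCompl) ∈ IsLocalRing.maximalIdeal Rn := by
      have := sub_mem (key i) (key j)
      simpa using this
    show Ideal.Quotient.mk I _ - Ideal.Quotient.mk I _ ∈ IsLocalRing.maximalIdeal A
    rw [← map_sub, IsLocalRing.mem_maximalIdeal, mem_nonunits_iff]
    intro hunit
    exact (IsLocalRing.mem_maximalIdeal _).mp h1 (hloc.map_nonunit _ hunit)
  -- apply the root lifting lemma
  obtain ⟨rA, hrA⟩ := Fermat.Agent.S36.BranchRoot.mem_range_of_branch_roots K ρ hnilC m hmA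
    huA.unit t ht aA haρ hagree
  obtain ⟨rn, rfl⟩ := Ideal.Quotient.mk_surjective rA
  obtain ⟨⟨r₁, r₂⟩, rfl⟩ := IsLocalization.mk'_surjective n.primeCompl rn
  refine ⟨r₁, r₂.1, r₂.2, fun i => ?_⟩
  have h1 : f (Ideal.Quotient.mk I (IsLocalization.mk' Rn r₁ r₂)) i = t i := congrFun hrA i
  rw [hfmk] at h1
  have h2 : (⟨g, hgV i⟩ : V i) - ψi i (IsLocalization.mk' Rn r₁ r₂) ∈ J i := by
    rw [← Ideal.Quotient.eq]; exact h1.symm
  obtain ⟨z, hz⟩ := Ideal.mem_span_singleton.mp h2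
  have h3 : g - algebraMap R E r₁ * (algebraMap R E r₂)⁻¹ = algebraMap R E ϖ * (z : E) := by
    have := congrArg (Subtype.val) hz
    rw [← hψmk]
    exact this
  refine ⟨z * algebraMap R E r₂, mul_mem z.2 (hle i r₂), ?_⟩
  have h0 := hs0 r₂.1 r₂.2
  have e : g * algebraMap R E r₂ - algebraMap R E r₁ =
      (g - algebraMap R E r₁ * (algebraMap R E r₂)⁻¹) * algebraMap R E r₂ := by
    field_simp
  rw [e, h3]; ring

/-- **Local descent at `n`.**  An element of `E` which is regular at `n` and divisible by `ϖ` in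
every `V i` through `n` is divisible by `ϖ` in `R_n`. -/
theorem desc_at
    {R : Type*} [CommRing R] [IsDomain R] {E : Type*} [Field E] [Algebra R E]
    [IsFractionRing R E]
    {ι : Type*} [Finite ι] (V : ι → ValuationSubring E) (ϖ : R) (n : Ideal R) (hn : n.IsPrime)
    (hle : ∀ (i : ι) (r : R), algebraMap R E r ∈ V i)
    (hϖ0 : ϖ ≠ 0)
    (hdesc : ∀ z : E, (∀ i, z ∈ V i) → (∃ r : R, algebraMap R E ϖ * z = algebraMap R E r) →
      ∃ r' : R, z = algebraMap R E r')
    (hnil : ∀ i, ∃ N : ℕ, ∀ x ∈ (V i).nonunits, ∃ z ∈ V i, x ^ N = algebraMap R E ϖ * z)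
    (x : E) (hx : ∃ s : R, s ∉ n ∧ ∃ a : R, algebraMap R E s * x = algebraMap R E a)
    (hxV : ∀ i, (∀ r : R, algebraMap R E r ∈ (V i).nonunits → r ∈ n) →
      ∃ z ∈ V i, x = algebraMap R E ϖ * z) :
    ∃ s : R, s ∉ n ∧ ∃ r : R, algebraMap R E s * x = algebraMap R E ϖ * algebraMap R E r := by
  classical
  cases nonempty_fintype ι
  have hinj : Function.Injective (algebraMap R E) := IsFractionRing.injective R E
  have hϖE : algebraMap R E ϖ ≠ 0 := fun h => hϖ0 (hinj (by rw [h, map_zero]))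
  have h1n : (1 : R) ∉ n := fun h => hn.ne_top ((Ideal.eq_top_iff_one n).mpr h)
  -- witnesses for the valuations not through `n`
  have hb : ∀ i, ∃ b : R, b ∉ n ∧ ((∀ r : R, algebraMap R E r ∈ (V i).nonunits → r ∈ n) ∨
      algebraMap R E b ∈ (V i).nonunits) := by
    intro i
    by_cases h : ∀ r : R, algebraMap R E r ∈ (V i).nonunits → r ∈ n
    · exact ⟨1, h1n, Or.inl h⟩
    · simp only [not_forall] at h
      obtain ⟨r, hr, hrn⟩ := h
      exact ⟨r, hrn, Or.inr hr⟩
  choose b hbn hb' using hb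
  choose N hN using hnil
  obtain ⟨s, hs, a, hsa⟩ := hx
  obtain ⟨B, hBdef⟩ : ∃ B : R, B = ∏ i, (b i) ^ (N i) := ⟨_, rfl⟩
  have hBn : B ∉ n := by
    intro h
    rw [hBdef] at h
    obtain ⟨i, -, hi⟩ := (Ideal.IsPrime.prod_mem_iff (hp := hn)).mp h
    exact hbn i (hn.mem_of_pow_mem _ hi)
  have key : ∀ i, ∃ z ∈ V i, algebraMap R E (B * a) = algebraMap R E ϖ * z := by
    intro i
    rcases hb' i with h | h
    · obtain ⟨z, hz, e⟩ := hxV i h
      refine ⟨algebraMap R E B * algebraMap R E s * z,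
        mul_mem (mul_mem (hle i B) (hle i s)) hz, ?_⟩
      rw [map_mul, ← hsa, e]; ring
    · obtain ⟨z, hz, e⟩ := hN i _ h
      have hB : B = (b i) ^ (N i) * ∏ j ∈ Finset.univ.erase i, (b j) ^ (N j) := by
        rw [hBdef]
        exact (Finset.mul_prod_erase Finset.univ (fun j => (b j) ^ (N j)) (Finset.mem_univ i)).symm
      refine ⟨z * algebraMap R E (∏ j ∈ Finset.univ.erase i, (b j) ^ (N j)) * algebraMap R E a,
        mul_mem (mul_mem hz (hle i _)) (hle i a), ?_⟩
      rw [hB, map_mul, map_mul, map_pow, e]; ring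
  have hz : ∀ i, (algebraMap R E ϖ)⁻¹ * algebraMap R E (B * a) ∈ V i := by
    intro i
    obtain ⟨z, hz, e⟩ := key i
    rw [e, ← mul_assoc, inv_mul_cancel₀ hϖE, one_mul]
    exact hz
  obtain ⟨r', hr'⟩ := hdesc _ hz ⟨B * a, by rw [← mul_assoc, mul_inv_cancel₀ hϖE, one_mul]⟩
  refine ⟨B * s, fun h => ?_, r', ?_⟩
  · rcases hn.mem_or_mem h with h | h
    · exact hBn h
    · exact hs h
  · rw [← hr', ← mul_assoc, mul_inv_cancel₀ hϖE, one_mul, map_mul, map_mul, ← hsa]; ring

/-- **[Loc3]: the local form at a closed point `n` of a chart with finitely many special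
components.**  `g₀` is a local generator of `w` at `n` (`w * g₀ ^ m` is a unit at `n`) whose
first-order branch values at `n` along the components through `n` agree (all `≡ c`, `c ∉ n`);
then `w` is locally at `n` a unit `≡ 1` modulo `ϖ` times an `m`-th power of an element which is
`≡ 1` modulo `ϖ` on EVERY component. -/
theorem exists_locA3
    {R : Type*} [CommRing R] [IsDomain R] {E : Type*} [Field E] [Algebra R E] [IsFractionRing R E]
    {ι : Type*} [Finite ι] (V : ι → ValuationSubring E) (ϖ : R) (m : ℕ) (n : Ideal R) (w : E)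
    (hle : ∀ (i : ι) (r : R), algebraMap R E r ∈ V i)
    (hϖ : ∀ i, algebraMap R E ϖ ∈ (V i).nonunits)
    (hϖ0 : ϖ ≠ 0)
    (hn : n.IsMaximal) (hϖn : ϖ ∈ n) (hm : (m : R) ∉ n)
    (hdesc : ∀ z : E, (∀ i, z ∈ V i) → (∃ r : R, algebraMap R E ϖ * z = algebraMap R E r) → ∃ r' : R, z = algebraMap R E r')
    (hnil : ∀ i, ∃ N : ℕ, ∀ x ∈ (V i).nonunits, ∃ z ∈ V i, x ^ N = algebraMap R E ϖ * z)
    (harch : ∀ i, ∀ a ∈ (V i).nonunits, a ≠ 0 → ∀ x : E, ∃ N : ℕ, a ^ N * x ∈ V i)
    (hw : ∀ i, ∃ z ∈ V i, w - 1 = algebraMap R E ϖ * z)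
    (g₀ : E) (hu : Fermat.Agent.S34.LocPlan.UnitAt n (w * g₀ ^ m))
    (c : R) (hc : c ∉ n)
    (hbr : ∀ i, (∀ r : R, algebraMap R E r ∈ (V i).nonunits → r ∈ n) →
      ∃ a s : R, s ∉ n ∧ a - c * s ∈ n ∧ g₀ * algebraMap R E s - algebraMap R E a ∈ (V i).nonunits) :
    ∃ a : E, (∀ i, ∃ v ∈ V i, a - 1 = algebraMap R E ϖ * v) ∧
      ∃ s : R, s ∉ n ∧ ∃ r : R, algebraMap R E s * (w * a ^ m - 1) = algebraMap R E ϖ * algebraMap R E r := by
  classical
  have hnp : n.IsPrime := hn.isPrime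
  have hinj : Function.Injective (algebraMap R E) := IsFractionRing.injective R E
  have hs0 : ∀ s : R, s ∉ n → algebraMap R E s ≠ 0 := by
    intro s hs h
    apply hs
    have : s = 0 := hinj (by rw [h, map_zero])
    rw [this]; exact n.zero_mem
  have h1n : (1 : R) ∉ n := fun h => hnp.ne_top ((Ideal.eq_top_iff_one n).mpr h)
  -- some component passes through `n`
  have hex : ∃ i, ∀ r : R, algebraMap R E r ∈ (V i).nonunits → r ∈ n := by
    by_contra hne
    obtain ⟨s, hs, r, e⟩ := desc_at V ϖ n hnp hle hϖ0 hdesc hnil 1 ⟨1, h1n, 1, by simp⟩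
      (fun i hi => (hne ⟨i, hi⟩).elim)
    apply hs
    have : s = ϖ * r := hinj (by rw [map_mul, ← e, mul_one])
    rw [this]
    exact n.mul_mem_right _ hϖn
  obtain ⟨i₀, hi₀⟩ := hex
  have : Nonempty {i : ι // ∀ r : R, algebraMap R E r ∈ (V i).nonunits → r ∈ n} :=
    ⟨⟨i₀, hi₀⟩⟩
  obtain ⟨u₁, u₂, hu₁, hu₂, hue⟩ := hu
  have hsV : ∀ (i : ι), (∀ r : R, algebraMap R E r ∈ (V i).nonunits → r ∈ n) →
      ∀ s : R, s ∉ n → (algebraMap R E s)⁻¹ ∈ V i := fun i hi s hs =>
    inv_mem_of (V i) (hle i s) (fun h => hs (hi s h))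
  have hgV : ∀ i, (∀ r : R, algebraMap R E r ∈ (V i).nonunits → r ∈ n) → g₀ ∈ V i := by
    intro i hi
    obtain ⟨a, s, hs, -, hnu⟩ := hbr i hi
    have h1 : g₀ * algebraMap R E s ∈ V i := by
      have := add_mem (nonunits_mem (V i) hnu) (hle i a)
      simpa using this
    have : g₀ = g₀ * algebraMap R E s * (algebraMap R E s)⁻¹ := by
      field_simp [hs0 s hs]
    rw [this]
    exact mul_mem h1 (hsV i hi s hs)
  have hgm : ∀ t : {i : ι // ∀ r : R, algebraMap R E r ∈ (V i).nonunits → r ∈ n},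
      ∃ z ∈ V t.1, g₀ ^ m * algebraMap R E u₂ - algebraMap R E u₁ = algebraMap R E ϖ * z := by
    intro t
    obtain ⟨z, hz, e⟩ := hw t.1
    refine ⟨-(g₀ ^ m * algebraMap R E u₂ * z),
      neg_mem (mul_mem (mul_mem (pow_mem (hgV t.1 t.2) m) (hle t.1 u₂)) hz), ?_⟩
    rw [← hue]
    linear_combination (-(g₀ ^ m * algebraMap R E u₂)) * e
  obtain ⟨r₁, r₂, hr₂, hr⟩ := exists_lift
    (fun t : {i : ι // ∀ r : R, algebraMap R E r ∈ (V i).nonunits → r ∈ n} => V t.1) ϖ m n hn hϖn hm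
    (fun t => hle t.1) (fun t => t.2) (fun t => hϖ t.1) (fun t => hnil t.1) g₀ u₁ u₂ hu₁ hu₂ hgm c
    (fun t => hbr t.1 t.2)
  -- `r₁ ∉ n`
  have hr₁ : r₁ ∉ n := by
    intro h
    obtain ⟨a, s, hs, has, hnu⟩ := hbr i₀ hi₀
    obtain ⟨z, hz, e⟩ := hr ⟨i₀, hi₀⟩
    have h1 : algebraMap R E (r₂ * a - s * r₁) ∈ (V i₀).nonunits := by
      have e' : algebraMap R E (r₂ * a - s * r₁) =
          algebraMap R E s * (algebraMap R E ϖ * z) +
            (-algebraMap R E r₂) * (g₀ * algebraMap R E s - algebraMap R E a) := by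
        rw [← e]; simp only [map_sub, map_mul]; ring
      rw [e']
      refine add_nonunits (V i₀) ?_ ?_
      · have : algebraMap R E s * (algebraMap R E ϖ * z) =
            (algebraMap R E s * z) * algebraMap R E ϖ := by ring
        rw [this]
        exact mul_nonunits (V i₀) (mul_mem (hle i₀ s) hz) (hϖ i₀)
      · exact mul_nonunits (V i₀) (neg_mem (hle i₀ r₂)) hnu
    have h2 := hi₀ _ h1
    have h3 : r₂ * a ∈ n := by
      have := n.add_mem h2 (n.mul_mem_left s h)
      simpa using this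
    rcases hnp.mem_or_mem h3 with h4 | h4
    · exact hr₂ h4
    · have h5 : c * s ∈ n := by
        have := n.sub_mem h4 has
        simpa using this
      rcases hnp.mem_or_mem h5 with h6 | h6
      · exact hc h6
      · exact hs h6
  have hr₁0 := hs0 r₁ hr₁
  have hr₂0 := hs0 r₂ hr₂
  have hu₂0 := hs0 u₂ hu₂
  obtain ⟨a₀, ha₀def⟩ : ∃ a₀ : E, a₀ = g₀ * algebraMap R E r₂ * (algebraMap R E r₁)⁻¹ := ⟨_, rfl⟩
  have ha₀ : ∀ i, (∀ r : R, algebraMap R E r ∈ (V i).nonunits → r ∈ n) →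
      ∃ v ∈ V i, a₀ - 1 = algebraMap R E ϖ * v := by
    intro i hi
    obtain ⟨z, hz, e⟩ := hr ⟨i, hi⟩
    refine ⟨z * (algebraMap R E r₁)⁻¹, mul_mem hz (hsV i hi r₁ hr₁), ?_⟩
    rw [← mul_assoc, ← e, ha₀def]
    field_simp
  have ha₀pow : ∀ i, (∀ r : R, algebraMap R E r ∈ (V i).nonunits → r ∈ n) →
      ∀ k : ℕ, ∃ v ∈ V i, a₀ ^ k - 1 = algebraMap R E ϖ * v := by
    intro i hi k
    obtain ⟨v, hv, e⟩ := ha₀ i hi
    have ha₀V : a₀ ∈ V i := by
      have : a₀ = 1 + algebraMap R E ϖ * v := by rw [← e]; ring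
      rw [this]
      exact add_mem (one_mem _) (mul_mem (hle i ϖ) hv)
    induction k with
    | zero => exact ⟨0, zero_mem _, by simp⟩
    | succ k ih =>
      obtain ⟨z, hz, e'⟩ := ih
      refine ⟨a₀ ^ k * v + z, add_mem (mul_mem (pow_mem ha₀V k) hv) hz, ?_⟩
      have : a₀ ^ (k + 1) - 1 = a₀ ^ k * (a₀ - 1) + (a₀ ^ k - 1) := by ring
      rw [this, e, e']; ring
  have hloc : ∃ s : R, s ∉ n ∧ ∃ r : R,
      algebraMap R E s * (w * a₀ ^ m - 1) = algebraMap R E ϖ * algebraMap R E r := by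
    apply desc_at V ϖ n hnp hle hϖ0 hdesc hnil (w * a₀ ^ m - 1)
    · refine ⟨u₂ * r₁ ^ m, ?_, u₁ * r₂ ^ m - u₂ * r₁ ^ m, ?_⟩
      · intro h
        rcases hnp.mem_or_mem h with h | h
        · exact hu₂ h
        · exact hr₁ (hnp.mem_of_pow_mem _ h)
      · have e1 : a₀ ^ m * algebraMap R E r₁ ^ m = g₀ ^ m * algebraMap R E r₂ ^ m := by
          rw [ha₀def, mul_pow, inv_pow, mul_assoc, inv_mul_cancel₀ (pow_ne_zero m hr₁0), mul_one,
            mul_pow]
        simp only [map_sub, map_mul, map_pow]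
        linear_combination (w * algebraMap R E u₂) * e1 + (algebraMap R E r₂ ^ m) * hue
    · intro i hi
      obtain ⟨z, hz, e⟩ := hw i
      obtain ⟨v, hv, e'⟩ := ha₀pow i hi m
      have ha₀mV : a₀ ^ m ∈ V i := by
        have : a₀ ^ m = 1 + algebraMap R E ϖ * v := by rw [← e']; ring
        rw [this]; exact add_mem (one_mem _) (mul_mem (hle i ϖ) hv)
      refine ⟨z * a₀ ^ m + v, add_mem (mul_mem hz ha₀mV) hv, ?_⟩
      have : w * a₀ ^ m - 1 = (w - 1) * a₀ ^ m + (a₀ ^ m - 1) := by ring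
      rw [this, e, e']; ring
  refine Fermat.Agent.S36.SmoothFixN.smoothFixN V ϖ hϖ0 n hnp hϖn
    (fun i => ¬ ∀ r : R, algebraMap R E r ∈ (V i).nonunits → r ∈ n) (fun j _ => hle j) ?_ ?_
    w a₀ m ?_ hloc
  · -- far valuations
    intro j hj
    simp only [not_forall] at hj
    obtain ⟨s, hsnu, hsn⟩ := hj
    refine ⟨s, hsn, fun x => ?_⟩
    obtain ⟨N, hN⟩ := harch j _ hsnu (hs0 s hsn) x
    refine ⟨N, fun k hk => ?_⟩
    have : algebraMap R E s ^ k * x = algebraMap R E s ^ (k - N) * (algebraMap R E s ^ N * x) := by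
      rw [← mul_assoc, ← pow_add, Nat.sub_add_cancel hk]
    rw [this]
    exact mul_mem (pow_mem (hle j s) _) hN
  · -- near valuations
    rintro i hi y ⟨s, hs, r, e⟩
    have hi' := not_not.mp hi
    have : y = algebraMap R E r * (algebraMap R E s)⁻¹ := by
      rw [← e]; field_simp [hs0 s hs]
    rw [this]
    exact mul_mem (hle i r) (hsV i hi' s hs)
  · intro i hi
    exact ha₀ i (not_not.mp hi)

end Fermat.Agent.S36.Loc3
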