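/-
S36 — Loc36.lean (helper19): block [LOC36] of the S36 campaign (architect plan, board #3063).

**The local form of `G` at a closed point `n` of a chart** — the input `AbsTopN.LocForm` of the
Čech block — assembled from the landed leaves:

    [B1] cuts (`NakPlan.GenAt`) + `m ∣ ord` at the horizontal primes + `G ≡ 1` modulo `π (V i)`
      ⟹ (`HorGen`, helper116)        `G = g ^ m * u`, `u` a unit of `R_n`
      ⟹ ([LocG3], helper28)          a NORMAL FORM `G = g₀ ^ m * u₀`, `u₀ ∈ 1 + π R_n`,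
                                      `g₀ ≡ γ i` (constants) modulo `π (V i)` on the branches
                                      through `n`
      ⟹ ([TORIC])                    the constants agree modulo `π`
      ⟹ (`ToricRel.fix`, helper72)   a local root `a₀ ≡ 1` on the branches through `n`
      ⟹ (`SmoothFixN`, helper22)     `a ≡ 1` modulo `π (V l)` on ALL components: `LocForm`.

Everything is in hypothesis form over explicit chart facts (collected in `PtHyp`), so that it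
compiles before the model is assembled.  `R` is any domain with fraction field `E` (in the last
section: a chart `R : Subalgebra O E`), `V i` the valuation rings of the vertical components,
`P i` their centres on `R`; "the branch `i` passes through `n`" is `P i ≤ n`.

* `LocA V ϖ n w m`              the local form (conclusion shape of `S34.LocPlan.LocAStatement`);
* `PtHyp V P ϖ n`               the chart facts used at the point `n`;
* `NormalAt π V P n G m g₀ γ`   a normal form of `G` at `n`;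
* `locA_of_near`      (E1)      a local root `≡ 1` on the branches through `n` gives `LocA`;
* `locA_of_fix`       (E2)      normal form of `G` + corrector `H` + the constants relation give
                                `LocA` for `G ^ N * H ^ m`;
* `locA_of_normal`    (E2)      normal form whose constants are all `≡ κ⁻¹` gives `LocA` for `G`;
* `BranchVal`, `TorAt`          the toric vocabulary (plan (P6));
* `agree_of_torAt`, `locA_of_torAt`  `TorAt` makes the constants of a normal form agree;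
* `LocGAt`, `normal_of_gen`, `locA_of_gen`, `locA_of_gen_fix` (E3)  the whole chain from the
                                (B1) cuts (`TorAt` shape / toric-relation shape);
* `locGAt_of_sub`               [LocG3] for the subtype of the branches through `n` gives `LocGAt`;
* `locForm_iff`, `locForm_of_*` the same for a chart `R : Subalgebra O E`, with conclusion
                                `AbsTopN.LocForm R π V G m n`.
-/
import Mathlib
import Fermat.Agent.S34.LocPlan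
import Fermat.Agent.S36.NakPlan
import Fermat.Agent.S36.HorGen
import Fermat.Agent.S36.SmoothFixN
import Fermat.Agent.S36.ToricRel
import Fermat.Agent.S36.AbsTopN

set_option autoImplicit false
set_option linter.unusedSectionVars false

namespace Fermat.Agent.S36.Loc36

open Fermat.Agent.S34.LocPlan Fermat.Agent.S36.NakPlan

section Generic

variable {O : Type*} [CommRing O] {R : Type*} [CommRing R] [IsDomain R] [Algebra O R]
  {E : Type*} [Field E] [Algebra R E] [IsFractionRing R E] {ι : Type*} [Finite ι]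

/-! ### Vocabulary -/

/-- The local form of `w` at the prime `n`: there is `a ≡ 1` modulo `ϖ (V l)` for every `l` with
`w * a ^ m ∈ 1 + ϖ R_n`. -/
def LocA (V : ι → ValuationSubring E) (ϖ : R) (n : Ideal R) (w : E) (m : ℕ) : Prop :=
  ∃ a : E, (∀ l, ∃ v ∈ V l, a - 1 = algebraMap R E ϖ * v) ∧
    ∃ s : R, s ∉ n ∧ ∃ r : R,
      algebraMap R E s * (w * a ^ m - 1) = algebraMap R E ϖ * algebraMap R E r

/-- The chart facts used at the point `n`: `n` is a prime containing `ϖ ≠ 0`; `R ⊆ V i`; `ϖ` is a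
nonunit of the `V i` through `n`; a component NOT through `n` has a witness `s ∉ n` whose powers
kill every pole along it; a component through `n` contains `R_n`. -/
structure PtHyp (V : ι → ValuationSubring E) (P : ι → Ideal R) (ϖ : R) (n : Ideal R) : Prop where
  prime : n.IsPrime
  mem : ϖ ∈ n
  ne : ϖ ≠ 0
  le : ∀ (i : ι) (r : R), algebraMap R E r ∈ V i
  nonunit : ∀ i : ι, P i ≤ n → (V i).valuation (algebraMap R E ϖ) < 1
  far : ∀ j : ι, ¬ P j ≤ n → ∃ s : R, s ∉ n ∧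
    ∀ x : E, ∃ k₀ : ℕ, ∀ k : ℕ, k₀ ≤ k → algebraMap R E s ^ k * x ∈ V j
  near : ∀ i : ι, P i ≤ n → ∀ y : E,
    (∃ s : R, s ∉ n ∧ ∃ r : R, algebraMap R E s * y = algebraMap R E r) → y ∈ V i

/-- A normal form of `G` at `n`: `G = g₀ ^ m * u₀` with `u₀ ∈ 1 + π R_n` and `g₀ ≡ γ i` (a
constant of `O`) modulo `π (V i)` on every branch through `n`. -/
def NormalAt (π : O) (V : ι → ValuationSubring E) (P : ι → Ideal R) (n : Ideal R) (G : E)
    (m : ℕ) (g₀ : E) (γ : ι → O) : Prop :=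
  g₀ ≠ 0 ∧
    (∀ i, P i ≤ n → ∃ z ∈ V i, g₀ - algebraMap R E (algebraMap O R (γ i)) =
      algebraMap R E (algebraMap O R π) * z) ∧
    ∃ s : R, s ∉ n ∧ ∃ r : R, algebraMap R E s * (G / g₀ ^ m - 1) =
      algebraMap R E (algebraMap O R π) * algebraMap R E r

/-- `g ≡ ρ / σ` (a unit of `R_n`) modulo the maximal ideal of `V`: a first-order branch value of
`g` at `n` along the branch `V`. -/
def BranchVal (V : ValuationSubring E) (n : Ideal R) (g : E) (ρ σ : R) : Prop :=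
  σ ∉ n ∧ ρ ∉ n ∧ algebraMap R E σ * g - algebraMap R E ρ ∈ V.nonunits

/-- The gluing class of `G` at `n` is trivial: the branch values at `n` of a local `m`-th root
agree on all the branches through `n`. -/
def TorAt (V : ι → ValuationSubring E) (P : ι → Ideal R) (n : Ideal R) (G : E) (m : ℕ) : Prop :=
  ∀ g : E, UnitAt n (G * g ^ m) → ∀ i j : ι, P i ≤ n → P j ≤ n → ∀ ρ σ ρ' σ' : R,
    BranchVal (V i) n g ρ σ → BranchVal (V j) n g ρ' σ' → ρ * σ' - ρ' * σ ∈ n

/-- The conclusion of [LocG3] at the point `n`, for the family of the branches through `n`: every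
presentation `G = g ^ m * u` (`u` a unit of `R_n`) can be brought to a normal form, normalised
(`γ i₀ = 1`) on any chosen branch `i₀` through `n`; the constants are `m`-th roots of unity
modulo `π`. -/
def LocGAt (π : O) (V : ι → ValuationSubring E) (P : ι → Ideal R) (n : Ideal R) (G : E)
    (m : ℕ) : Prop :=
  ∀ g u : E, g ≠ 0 → G = g ^ m * u → UnitAt n u → ∀ i₀ : ι, P i₀ ≤ n →
    ∃ (g₀ : E) (γ : ι → O), γ i₀ = 1 ∧ (∀ i, P i ≤ n → π ∣ γ i ^ m - 1) ∧
      NormalAt π V P n G m g₀ γ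

variable {V : ι → ValuationSubring E} {P : ι → Ideal R} {n : Ideal R}

/-! ### (E1) from a local root on the branches through `n` -/

/-- **(E1)** a local section `a₀` which is `≡ 1` modulo `ϖ (V i)` on the branches through `n`,
with `w * a₀ ^ m ∈ 1 + ϖ R_n`, gives the local form of `w` at `n` (`SmoothFixN`). -/
theorem locA_of_near {ϖ : R} (H : PtHyp V P ϖ n) (w a₀ : E) (m : ℕ)
    (ha₀ : ∀ i, P i ≤ n → ∃ v ∈ V i, a₀ - 1 = algebraMap R E ϖ * v)
    (hloc : ∃ s : R, s ∉ n ∧ ∃ r : R,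
      algebraMap R E s * (w * a₀ ^ m - 1) = algebraMap R E ϖ * algebraMap R E r) :
    LocA V ϖ n w m :=
  SmoothFixN.smoothFixN V ϖ H.ne n H.prime H.mem (fun j => ¬ P j ≤ n)
    (fun j _ => H.le j) H.far (fun i hi => H.near i (not_not.1 hi)) w a₀ m
    (fun i hi => ha₀ i (not_not.1 hi)) hloc

/-! ### (E2) from a normal form -/

/-- **(E2)**, toric form: a normal form of `G` at `n` with constants `γ i`, a corrector `H ≡ c i`
(constants) on the branches through `n`, and a constant `κ` with `κ ^ m ≡ 1` and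
`γ i ^ N * c i * κ ≡ 1` modulo `π` on every branch through `n`, give the local form of
`G ^ N * H ^ m` at `n`. -/
theorem locA_of_fix {π : O} (H : PtHyp V P (algebraMap O R π) n) {G : E} {m : ℕ} {g₀ : E}
    {γ : ι → O} (hN : NormalAt π V P n G m g₀ γ) (N : ℕ) (Hc : E) (hH0 : Hc ≠ 0) (c : ι → O)
    (hH : ∀ i, P i ≤ n → ∃ z ∈ V i, Hc - algebraMap R E (algebraMap O R (c i)) =
      algebraMap R E (algebraMap O R π) * z)
    (κ : O) (hκ0 : algebraMap R E (algebraMap O R κ) ≠ 0) (hκm : π ∣ κ ^ m - 1)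
    (hκ : ∀ i, P i ≤ n → π ∣ γ i ^ N * c i * κ - 1) :
    LocA V (algebraMap O R π) n (G ^ N * Hc ^ m) m := by
  obtain ⟨hg₀, hγ, hu₀⟩ := hN
  obtain ⟨a, ha, hloc⟩ := ToricRel.fix π V (fun i => P i ≤ n) n H.prime H.mem
    (fun i _ => H.le i) H.nonunit m N G g₀ hg₀ γ hγ hu₀ Hc hH0 c hH κ hκ0 hκm hκ
  exact locA_of_near H _ a m ha hloc

/-- **(E2)**: a normal form of `G` at `n` whose constants are all `≡ κ⁻¹` modulo `π` on the
branches through `n` (`κ ^ m ≡ 1`) gives the local form of `G` at `n`. -/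
theorem locA_of_normal {π : O} (H : PtHyp V P (algebraMap O R π) n) {G : E} {m : ℕ} {g₀ : E}
    {γ : ι → O} (hN : NormalAt π V P n G m g₀ γ)
    (κ : O) (hκ0 : algebraMap R E (algebraMap O R κ) ≠ 0) (hκm : π ∣ κ ^ m - 1)
    (hκ : ∀ i, P i ≤ n → π ∣ γ i * κ - 1) :
    LocA V (algebraMap O R π) n G m := by
  have h := locA_of_fix H hN 1 1 one_ne_zero (fun _ => 1)
    (fun i _ => ⟨0, (V i).zero_mem, by rw [map_one, map_one, sub_self, mul_zero]⟩) κ hκ0 hκm
    (fun i hi => by rw [pow_one, mul_one]; exact hκ i hi)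
  rwa [pow_one, one_pow, mul_one] at h

/-! ### `TorAt` makes the constants agree -/

/-- A constant which is an `m`-th root of unity modulo `π` does not lie in `n`. -/
theorem const_notMem {π : O} (hn : n.IsPrime) (hπn : algebraMap O R π ∈ n) {m : ℕ} (hm : 0 < m)
    {c : O} (hc : π ∣ c ^ m - 1) : algebraMap O R c ∉ n := by
  intro hmem
  obtain ⟨d, hd⟩ := hc
  have h1 : algebraMap O R c ^ m - algebraMap O R π * algebraMap O R d = 1 := by
    rw [← map_pow, ← map_mul, ← map_sub, ← hd]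
    simp
  apply hn.ne_top
  rw [Ideal.eq_top_iff_one, ← h1]
  exact n.sub_mem (n.pow_mem_of_mem hmem m hm) (n.mul_mem_right _ hπn)

/-- A normal form of `G` at `n` presents `G * (g₀⁻¹) ^ m` as a unit of `R_n`. -/
theorem unitAt_of_normal {π : O} (hπn : algebraMap O R π ∈ n) {G : E} {m : ℕ}
    {g₀ : E} {γ : ι → O} (hN : NormalAt π V P n G m g₀ γ) : UnitAt n (G * g₀⁻¹ ^ m) := by
  obtain ⟨-, -, s, hs, r, hsr⟩ := hN
  refine ⟨s + algebraMap O R π * r, s, ?_, hs, ?_⟩
  · intro h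
    apply hs
    have : s = s + algebraMap O R π * r - algebraMap O R π * r := by ring
    rw [this]
    exact n.sub_mem h (n.mul_mem_right _ hπn)
  · rw [map_add, map_mul, inv_pow, ← div_eq_mul_inv]
    linear_combination hsr

/-- On a branch through `n`, the inverse of the root `g₀` of a normal form has the branch value
`1 / γ i`. -/
theorem branchVal_of_normal {π : O} (H : PtHyp V P (algebraMap O R π) n) {G : E} {m : ℕ}
    (hm : 0 < m) {g₀ : E} {γ : ι → O} (hN : NormalAt π V P n G m g₀ γ)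
    {i : ι} (hi : P i ≤ n) (hγm : π ∣ γ i ^ m - 1) :
    BranchVal (V i) n g₀⁻¹ 1 (algebraMap O R (γ i)) := by
  obtain ⟨hg₀, hγ, -⟩ := hN
  refine ⟨const_notMem H.prime H.mem hm hγm, H.prime.one_notMem, ?_⟩
  obtain ⟨z, hz, hgz⟩ := hγ i hi
  set v := (V i).valuation with hv
  set p : E := algebraMap R E (algebraMap O R π) with hp
  set c : E := algebraMap R E (algebraMap O R (γ i)) with hc
  have hpv : v p < 1 := H.nonunit i hi
  have hzv : v z ≤ 1 := ((V i).valuation_le_one_iff z).2 hz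
  have hpz : v (p * z) < 1 := by
    rw [map_mul]
    exact lt_of_le_of_lt (mul_le_of_le_one_right' hzv) hpv
  -- `γ i` is a unit of `V i`
  have hc1 : v c = 1 := by
    obtain ⟨d, hd⟩ := hγm
    have h1 : c ^ m = 1 + p * algebraMap R E (algebraMap O R d) := by
      have := congrArg (fun x => algebraMap R E (algebraMap O R x)) hd
      simp only [map_sub, map_pow, map_one, map_mul] at this
      rw [hc, hp]
      linear_combination this
    have h2 : v (c ^ m) = 1 := by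
      rw [h1]
      apply Valuation.map_one_add_of_lt
      rw [map_mul]
      exact lt_of_le_of_lt
        (mul_le_of_le_one_right' (((V i).valuation_le_one_iff _).2 (H.le i _))) hpv
    rw [map_pow] at h2
    exact (pow_eq_one_iff_of_nonneg zero_le (Nat.pos_iff_ne_zero.1 hm)).1 h2
  -- `g₀` is a unit of `V i`
  have hg1 : v g₀ = 1 := by
    have h1 : g₀ = c + p * z := by rw [← hgz]; ring
    rw [h1, ← hc1]
    apply Valuation.map_add_eq_of_lt_left
    rw [hc1]
    exact hpz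
  rw [ValuationSubring.mem_nonunits_iff, map_one]
  have h3 : c * g₀⁻¹ - 1 = -(p * z) * g₀⁻¹ := by
    rw [← hgz]
    field_simp
    ring
  rw [h3, map_mul, Valuation.map_neg, map_inv₀, hg1, inv_one, mul_one]
  exact hpz

/-- **`TorAt` makes the constants of a normal form agree**: the images in `R` of the constants
`γ i`, `γ j` of two branches through `n` are congruent modulo `n`. -/
theorem agree_of_torAt {π : O} (H : PtHyp V P (algebraMap O R π) n) {G : E} {m : ℕ}
    (hm : 0 < m) {g₀ : E} {γ : ι → O} (hN : NormalAt π V P n G m g₀ γ)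
    (hγm : ∀ i, P i ≤ n → π ∣ γ i ^ m - 1) (hTor : TorAt V P n G m)
    {i j : ι} (hi : P i ≤ n) (hj : P j ≤ n) : algebraMap O R (γ j - γ i) ∈ n := by
  have h := hTor g₀⁻¹ (unitAt_of_normal H.mem hN) i j hi hj 1 (algebraMap O R (γ i)) 1
    (algebraMap O R (γ j)) (branchVal_of_normal H hm hN hi (hγm i hi))
    (branchVal_of_normal H hm hN hj (hγm j hj))
  rw [one_mul, one_mul] at h
  rw [map_sub]
  exact h

/-- **(E2), `TorAt` form**: a normal form of `G` at `n`, normalised on one branch through `n`,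
with constants `m`-th roots of unity modulo `π`, and `TorAt` give the local form of `G`. -/
theorem locA_of_torAt {π : O} (H : PtHyp V P (algebraMap O R π) n)
    (hO : ∀ c : O, algebraMap O R c ∈ n → π ∣ c) {G : E} {m : ℕ}
    (hm : 0 < m) {g₀ : E} {γ : ι → O} (hN : NormalAt π V P n G m g₀ γ)
    (hγm : ∀ i, P i ≤ n → π ∣ γ i ^ m - 1) {i₀ : ι} (hi₀ : P i₀ ≤ n) (hγ₀ : γ i₀ = 1)
    (hTor : TorAt V P n G m) : LocA V (algebraMap O R π) n G m := by
  have hinj : Function.Injective (algebraMap R E) := IsFractionRing.injective R E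
  refine locA_of_normal H hN 1 ?_ ⟨0, by simp⟩ ?_
  · rw [map_one, map_one]
    exact one_ne_zero
  · intro i hi
    have h := hO _ (agree_of_torAt H hm hN hγm hTor hi₀ hi)
    rwa [hγ₀, ← mul_one (γ i)] at h

/-! ### (E3) the whole chain from the (B1) cuts -/

/-- **(E3), first half**: the (B1) cuts at the horizontal primes through `n`, `m ∣ ord` there,
`G ≡ 1` modulo `π (V i)` on the branches through `n`, and [LocG3] give a normal form of `G` at
`n`, normalised on any chosen branch through `n` (`HorGen`). -/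
theorem normal_of_gen [IsNoetherianRing R] [IsIntegrallyClosed R] {π : O}
    (H : PtHyp V P (algebraMap O R π) n) {m : ℕ} (hm : 0 < m) {G : E} (hG : G ≠ 0)
    (hcen : ∀ (i : ι) (r : R), r ∉ P i → (algebraMap R E r)⁻¹ ∈ V i)
    (hnon : ∀ (i : ι) (r : R), r ∈ P i → r ≠ 0 → (algebraMap R E r)⁻¹ ∉ V i)
    (hπP : ∀ i : ι, algebraMap O R π ∈ P i)
    (hvert : ∀ 𝔮 : Ideal R, 𝔮.IsPrime → 𝔮 ≤ n → algebraMap O R π ∈ 𝔮 → PrincAt 𝔮 →
      ∃ i : ι, 𝔮 = P i)
    (hcong : ∀ i : ι, P i ≤ n →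
      ∃ z ∈ V i, G - 1 = algebraMap R E (algebraMap O R π) * z)
    (hhor : ∀ 𝔮 : Ideal R, 𝔮.IsPrime → 𝔮 ≤ n → algebraMap O R π ∉ 𝔮 → PrincAt 𝔮 →
      (∃ x : E, x ≠ 0 ∧ UnitAt 𝔮 (G * x ^ m)) ∧ ∃ e : R, GenAt n 𝔮 e)
    (hLocG : LocGAt π V P n G m) {i₀ : ι} (hi₀ : P i₀ ≤ n) :
    ∃ (g₀ : E) (γ : ι → O), γ i₀ = 1 ∧ (∀ i, P i ≤ n → π ∣ γ i ^ m - 1) ∧
      NormalAt π V P n G m g₀ γ := by
  have := H.prime
  obtain ⟨g, u, hg, hGgu, hu, -⟩ := HorGen.exists_pow_mul_unit_chart V P (algebraMap O R π) n m G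
    hm H.le hcen hnon H.ne hπP hvert hcong hG
    (fun 𝔮 h𝔮 hle hπ𝔮 hP => Or.inr (hhor 𝔮 h𝔮 hle hπ𝔮 hP))
  exact hLocG g u hg hGgu hu i₀ hi₀

/-- **(E3) [LOC36]**: the (B1) cuts at the horizontal primes through `n`, `m ∣ ord` there,
`G ≡ 1` modulo `π (V i)` on the branches through `n`, [LocG3] and `TorAt` give the local form of
`G` at `n`. -/
theorem locA_of_gen [IsNoetherianRing R] [IsIntegrallyClosed R] {π : O}
    (H : PtHyp V P (algebraMap O R π) n) (hO : ∀ c : O, algebraMap O R c ∈ n → π ∣ c)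
    {m : ℕ} (hm : 0 < m) {G : E} (hG : G ≠ 0)
    (hcen : ∀ (i : ι) (r : R), r ∉ P i → (algebraMap R E r)⁻¹ ∈ V i)
    (hnon : ∀ (i : ι) (r : R), r ∈ P i → r ≠ 0 → (algebraMap R E r)⁻¹ ∉ V i)
    (hπP : ∀ i : ι, algebraMap O R π ∈ P i)
    (hvert : ∀ 𝔮 : Ideal R, 𝔮.IsPrime → 𝔮 ≤ n → algebraMap O R π ∈ 𝔮 → PrincAt 𝔮 →
      ∃ i : ι, 𝔮 = P i)
    (hcong : ∀ i : ι, P i ≤ n →
      ∃ z ∈ V i, G - 1 = algebraMap R E (algebraMap O R π) * z)
    (hhor : ∀ 𝔮 : Ideal R, 𝔮.IsPrime → 𝔮 ≤ n → algebraMap O R π ∉ 𝔮 → PrincAt 𝔮 →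
      (∃ x : E, x ≠ 0 ∧ UnitAt 𝔮 (G * x ^ m)) ∧ ∃ e : R, GenAt n 𝔮 e)
    (hLocG : LocGAt π V P n G m) (hne : ∃ i₀ : ι, P i₀ ≤ n) (hTor : TorAt V P n G m) :
    LocA V (algebraMap O R π) n G m := by
  obtain ⟨i₀, hi₀⟩ := hne
  obtain ⟨g₀, γ, hγ₀, hγm, hN⟩ :=
    normal_of_gen H hm hG hcen hnon hπP hvert hcong hhor hLocG hi₀
  exact locA_of_torAt H hO hm hN hγm hi₀ hγ₀ hTor

/-- **(E3), toric shape**: the chain from the (B1) cuts for `G`, a corrector `H ≡ c i` (constants)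
on the branches through `n`, and the constants relation for the normal forms of `G` normalised
on the branch `i₀` (the output of the toric block), give the local form of `G ^ N * H ^ m`. -/
theorem locA_of_gen_fix [IsNoetherianRing R] [IsIntegrallyClosed R] {π : O}
    (H : PtHyp V P (algebraMap O R π) n) {m : ℕ} (hm : 0 < m) {G : E} (hG : G ≠ 0)
    (hcen : ∀ (i : ι) (r : R), r ∉ P i → (algebraMap R E r)⁻¹ ∈ V i)
    (hnon : ∀ (i : ι) (r : R), r ∈ P i → r ≠ 0 → (algebraMap R E r)⁻¹ ∉ V i)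
    (hπP : ∀ i : ι, algebraMap O R π ∈ P i)
    (hvert : ∀ 𝔮 : Ideal R, 𝔮.IsPrime → 𝔮 ≤ n → algebraMap O R π ∈ 𝔮 → PrincAt 𝔮 →
      ∃ i : ι, 𝔮 = P i)
    (hcong : ∀ i : ι, P i ≤ n →
      ∃ z ∈ V i, G - 1 = algebraMap R E (algebraMap O R π) * z)
    (hhor : ∀ 𝔮 : Ideal R, 𝔮.IsPrime → 𝔮 ≤ n → algebraMap O R π ∉ 𝔮 → PrincAt 𝔮 →
      (∃ x : E, x ≠ 0 ∧ UnitAt 𝔮 (G * x ^ m)) ∧ ∃ e : R, GenAt n 𝔮 e)
    (hLocG : LocGAt π V P n G m) {i₀ : ι} (hi₀ : P i₀ ≤ n)
    (N : ℕ) (Hc : E) (hH0 : Hc ≠ 0) (c : ι → O)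
    (hH : ∀ i, P i ≤ n → ∃ z ∈ V i, Hc - algebraMap R E (algebraMap O R (c i)) =
      algebraMap R E (algebraMap O R π) * z)
    (hrel : ∀ (g₀ : E) (γ : ι → O), γ i₀ = 1 → (∀ i, P i ≤ n → π ∣ γ i ^ m - 1) →
      NormalAt π V P n G m g₀ γ →
      ∃ κ : O, algebraMap R E (algebraMap O R κ) ≠ 0 ∧ π ∣ κ ^ m - 1 ∧
        ∀ i, P i ≤ n → π ∣ γ i ^ N * c i * κ - 1) :
    LocA V (algebraMap O R π) n (G ^ N * Hc ^ m) m := by
  obtain ⟨g₀, γ, hγ₀, hγm, hN⟩ :=
    normal_of_gen H hm hG hcen hnon hπP hvert hcong hhor hLocG hi₀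
  obtain ⟨κ, hκ0, hκm, hκ⟩ := hrel g₀ γ hγ₀ hγm hN
  exact locA_of_fix H hN N Hc hH0 c hH κ hκ0 hκm hκ

/-- [LocG3] stated for the SUBTYPE of the branches through `n` (the shape of
`S36/LocGMulti`) gives `LocGAt`: extend the constants by `1` outside the subtype. -/
theorem locGAt_of_sub {π : O} {G : E} {m : ℕ}
    (h : ∀ g u : E, g ≠ 0 → G = g ^ m * u → UnitAt n u → ∀ i₀ : {i : ι // P i ≤ n},
      ∃ (g₀ : E) (γ : {i : ι // P i ≤ n} → O), g₀ ≠ 0 ∧ γ i₀ = 1 ∧
        (∀ i, ∃ c : O, γ i ^ m - 1 = π * c) ∧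
        (∀ i : {i : ι // P i ≤ n}, ∃ z ∈ V i.1,
          g₀ - algebraMap R E (algebraMap O R (γ i)) = algebraMap R E (algebraMap O R π) * z) ∧
        ∃ s : R, s ∉ n ∧ ∃ r : R, algebraMap R E s * (G / g₀ ^ m - 1) =
          algebraMap R E (algebraMap O R π) * algebraMap R E r) :
    LocGAt π V P n G m := by
  classical
  intro g u hg hGgu hu i₀ hi₀
  obtain ⟨g₀, γ, hg₀, hγ₀, hγm, hγ, hu₀⟩ := h g u hg hGgu hu ⟨i₀, hi₀⟩
  refine ⟨g₀, fun i => if hi : P i ≤ n then γ ⟨i, hi⟩ else 1, ?_, ?_, hg₀, ?_, hu₀⟩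
  · simp only [dif_pos hi₀]
    exact hγ₀
  · intro i hi
    simp only [dif_pos hi]
    obtain ⟨c, hc⟩ := hγm ⟨i, hi⟩
    exact ⟨c, hc⟩
  · intro i hi
    simp only [dif_pos hi]
    exact hγ ⟨i, hi⟩

end Generic

/-! ### Charts: `R : Subalgebra O E`, conclusion `AbsTopN.LocForm` -/

section Chart

variable {O : Type*} [CommRing O] [IsDomain O] [IsDiscreteValuationRing O]
  {E : Type*} [Field E] [Algebra O E] {ι : Type*} [Finite ι]

/-- For a chart `R : Subalgebra O E`, `LocA` is `AbsTopN.LocForm`. -/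
theorem locForm_iff (R : Subalgebra O E) (π : O) (V : ι → ValuationSubring E) (w : E) (m : ℕ)
    (n : Ideal R) : AbsTopN.LocForm R π V w m n ↔ LocA V (algebraMap O R π) n w m :=
  Iff.rfl

/-- In a chart over the discrete valuation ring `O` with uniformizer `π`, a constant lying in a
proper ideal `n` is divisible by `π`. -/
theorem dvd_of_mem (R : Subalgebra O E) {π : O} (hπ : Irreducible π) {n : Ideal R}
    (hn : n ≠ ⊤) (c : O) (hc : algebraMap O R c ∈ n) : π ∣ c := by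
  by_contra hdvd
  apply hn
  have hmax : IsLocalRing.maximalIdeal O = Ideal.span {π} :=
    (IsDiscreteValuationRing.irreducible_iff_uniformizer π).1 hπ
  have hu : IsUnit c := by
    by_contra hnu
    apply hdvd
    have : c ∈ IsLocalRing.maximalIdeal O := (IsLocalRing.mem_maximalIdeal c).2 hnu
    rw [hmax, Ideal.mem_span_singleton] at this
    exact this
  exact Ideal.eq_top_of_isUnit_mem n hc (hu.map (algebraMap O R))

variable {R : Subalgebra O E} [IsFractionRing R E] {π : O} {V : ι → ValuationSubring E}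
  {P : ι → Ideal R} {n : Ideal R}

/-- **(E1), chart form.** -/
theorem locForm_of_near (H : PtHyp V P (algebraMap O R π) n) (w a₀ : E) (m : ℕ)
    (ha₀ : ∀ i, P i ≤ n → ∃ v ∈ V i, a₀ - 1 = algebraMap O E π * v)
    (hloc : ∃ s : R, s ∉ n ∧ ∃ r : R, (s : E) * (w * a₀ ^ m - 1) = algebraMap O E π * (r : E)) :
    AbsTopN.LocForm R π V w m n :=
  locA_of_near H w a₀ m ha₀ hloc

/-- **(E2), chart form, toric shape.** -/
theorem locForm_of_fix (H : PtHyp V P (algebraMap O R π) n) {G : E} {m : ℕ} {g₀ : E}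
    {γ : ι → O} (hN : NormalAt π V P n G m g₀ γ) (N : ℕ) (Hc : E) (hH0 : Hc ≠ 0) (c : ι → O)
    (hH : ∀ i, P i ≤ n → ∃ z ∈ V i, Hc - algebraMap O E (c i) = algebraMap O E π * z)
    (κ : O) (hκ0 : algebraMap O E κ ≠ 0) (hκm : π ∣ κ ^ m - 1)
    (hκ : ∀ i, P i ≤ n → π ∣ γ i ^ N * c i * κ - 1) :
    AbsTopN.LocForm R π V (G ^ N * Hc ^ m) m n :=
  locA_of_fix H hN N Hc hH0 c hH κ hκ0 hκm hκ

/-- **(E2), chart form, `TorAt` shape.** -/
theorem locForm_of_torAt (hπ : Irreducible π) (H : PtHyp V P (algebraMap O R π) n)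
    {G : E} {m : ℕ} (hm : 0 < m) {g₀ : E} {γ : ι → O} (hN : NormalAt π V P n G m g₀ γ)
    (hγm : ∀ i, P i ≤ n → π ∣ γ i ^ m - 1) {i₀ : ι} (hi₀ : P i₀ ≤ n) (hγ₀ : γ i₀ = 1)
    (hTor : TorAt V P n G m) : AbsTopN.LocForm R π V G m n :=
  locA_of_torAt H (dvd_of_mem R hπ H.prime.ne_top) hm hN hγm hi₀ hγ₀ hTor

/-- **(E3) [LOC36], chart form**: at a closed point `n` of the special fibre of the chart `R`,
the (B1) cuts at the horizontal primes through `n`, `m ∣ ord` there, `G ≡ 1` modulo `π (V i)`,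
[LocG3] and `TorAt` give `AbsTopN.LocForm R π V G m n`. -/
theorem locForm_of_gen [IsNoetherianRing R] [IsIntegrallyClosed R] (hπ : Irreducible π)
    (H : PtHyp V P (algebraMap O R π) n) {m : ℕ} (hm : 0 < m) {G : E} (hG : G ≠ 0)
    (hcen : ∀ (i : ι) (r : R), r ∉ P i → ((r : E))⁻¹ ∈ V i)
    (hnon : ∀ (i : ι) (r : R), r ∈ P i → r ≠ 0 → ((r : E))⁻¹ ∉ V i)
    (hπP : ∀ i : ι, algebraMap O R π ∈ P i)
    (hvert : ∀ 𝔮 : Ideal R, 𝔮.IsPrime → 𝔮 ≤ n → algebraMap O R π ∈ 𝔮 → PrincAt 𝔮 →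
      ∃ i : ι, 𝔮 = P i)
    (hcong : ∀ i : ι, P i ≤ n → ∃ z ∈ V i, G - 1 = algebraMap O E π * z)
    (hhor : ∀ 𝔮 : Ideal R, 𝔮.IsPrime → 𝔮 ≤ n → algebraMap O R π ∉ 𝔮 → PrincAt 𝔮 →
      (∃ x : E, x ≠ 0 ∧ UnitAt 𝔮 (G * x ^ m)) ∧ ∃ e : R, GenAt n 𝔮 e)
    (hLocG : LocGAt π V P n G m) (hne : ∃ i₀ : ι, P i₀ ≤ n) (hTor : TorAt V P n G m) :
    AbsTopN.LocForm R π V G m n :=
  locA_of_gen H (dvd_of_mem R hπ H.prime.ne_top) hm hG hcen hnon hπP hvert hcong hhor hLocG hne
    hTor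

/-- **(E3), chart form, toric shape**: as `locForm_of_gen`, with the corrector `H` and the
constants relation of the toric block in place of `TorAt`; conclusion for `G ^ N * H ^ m`. -/
theorem locForm_of_gen_fix [IsNoetherianRing R] [IsIntegrallyClosed R]
    (H : PtHyp V P (algebraMap O R π) n) {m : ℕ} (hm : 0 < m) {G : E} (hG : G ≠ 0)
    (hcen : ∀ (i : ι) (r : R), r ∉ P i → ((r : E))⁻¹ ∈ V i)
    (hnon : ∀ (i : ι) (r : R), r ∈ P i → r ≠ 0 → ((r : E))⁻¹ ∉ V i)
    (hπP : ∀ i : ι, algebraMap O R π ∈ P i)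
    (hvert : ∀ 𝔮 : Ideal R, 𝔮.IsPrime → 𝔮 ≤ n → algebraMap O R π ∈ 𝔮 → PrincAt 𝔮 →
      ∃ i : ι, 𝔮 = P i)
    (hcong : ∀ i : ι, P i ≤ n → ∃ z ∈ V i, G - 1 = algebraMap O E π * z)
    (hhor : ∀ 𝔮 : Ideal R, 𝔮.IsPrime → 𝔮 ≤ n → algebraMap O R π ∉ 𝔮 → PrincAt 𝔮 →
      (∃ x : E, x ≠ 0 ∧ UnitAt 𝔮 (G * x ^ m)) ∧ ∃ e : R, GenAt n 𝔮 e)
    (hLocG : LocGAt π V P n G m) {i₀ : ι} (hi₀ : P i₀ ≤ n)
    (N : ℕ) (Hc : E) (hH0 : Hc ≠ 0) (c : ι → O)
    (hH : ∀ i, P i ≤ n → ∃ z ∈ V i, Hc - algebraMap O E (c i) = algebraMap O E π * z)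
    (hrel : ∀ (g₀ : E) (γ : ι → O), γ i₀ = 1 → (∀ i, P i ≤ n → π ∣ γ i ^ m - 1) →
      NormalAt π V P n G m g₀ γ →
      ∃ κ : O, algebraMap O E κ ≠ 0 ∧ π ∣ κ ^ m - 1 ∧
        ∀ i, P i ≤ n → π ∣ γ i ^ N * c i * κ - 1) :
    AbsTopN.LocForm R π V (G ^ N * Hc ^ m) m n :=
  locA_of_gen_fix H hm hG hcen hnon hπP hvert hcong hhor hLocG hi₀ N Hc hH0 c hH hrel

end Chart

end Fermat.Agent.S36.Loc36
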