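import Mathlib
import Fermat.Agent.S34.LocPlan
import Fermat.Agent.S35.NodeNorm
import Fermat.Agent.S36.NakPlan
import Fermat.Agent.S36.HorGen
import Fermat.Agent.S36.BranchRoot
import Fermat.Agent.S36.SmoothFixN
import Fermat.Agent.S36.AbsTopN

/-!
# S36, block [LOC36] (B copy, direct route) — helper75

The local input of the Čech block at a closed point `n` of the special fibre of a chart `R`
(noetherian, integrally closed, fraction field `E`) of the level-`M q²` model:

  `∃ a ≡ 1` modulo `π (V i)` for ALL component valuation rings `V i`, `G * a ^ m ∈ 1 + π R_n`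

(`AbsTopN.LocForm`), from

* [B1] + [Hor3]: every horizontal height-one prime through `n` is principal at `n`
  (`NakPlan.GenAt`) and `m` divides the order of `G` there;
* `G ≡ 1` modulo `π (V i)` for all `i`;
* [TorAt]: the branch values at `n` of a local `m`-th root agree.

Route (no `γ`-normal form, no rationality of `n`):
`HorGen.exists_pow_mul_unit_chart` gives `G = g ^ m * u`, `u ∈ R_nˣ`; `branch_unit_gen` (port of
`S35.NodeNorm.branch_unit` to a general valuation ring `W = R_P`) gives on each branch through `n`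
a unit of `R_n` congruent to `g` modulo the maximal ideal of `V i`; [TorAt] says these branch
values agree at `n`; `exists_regAt_congr` (the multi-branch root lifting
`BranchRoot.mem_range_of_branch_roots` with `A = R_n`, `C = ∏ V i / π`) glues them to ONE
`r ∈ R_n` with `r ≡ g` modulo `π (V i)` on all branches through `n`; `a₀ = r / g`; the components
not through `n` are repaired by `SmoothFixN.smoothFixN`.
-/

set_option autoImplicit false
set_option linter.unusedSectionVars false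

namespace Fermat.Agent.S36.Loc36B

open Fermat.Agent.S34.LocPlan Fermat.Agent.S36.NakPlan

/-! ### The Nakayama gluing on the chart -/

section Glue

variable {R : Type*} [CommRing R] [IsDomain R] {E : Type*} [Field E] [Algebra R E]
  [IsFractionRing R E] {ι : Type*} [Finite ι] [Nonempty ι]

/-- **Gluing of branch values.**  All the `V i` pass through the closed point `n` (`hcen`),
`ϖ` is a nonunit of every `V i` and a power of the maximal ideal of `V i` lies in `ϖ (V i)`;
`g i ^ m * u ≡ 1` modulo `ϖ (V i)` with `u` a unit at `n`; on every branch `g i` is congruent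
modulo the maximal ideal to the unit `a i / s i` of `R_n`, and these branch values agree at `n`.
Then ONE element `b / c` of `R_n` is congruent to `g i` modulo `ϖ (V i)` on all branches.
(In the applications `g i = g`, or `g i = γ i⁻¹ * g` for constants `γ i`.) -/
theorem exists_regAt_congr (V : ι → ValuationSubring E) (ϖ : R) (n : Ideal R) (hn : n.IsMaximal)
    (m : ℕ) (hmn : (m : R) ∉ n)
    (hle : ∀ i (r : R), algebraMap R E r ∈ V i)
    (hcen : ∀ i (r : R), r ∉ n → (algebraMap R E r)⁻¹ ∈ V i)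
    (hpi : ∀ i, algebraMap R E ϖ ∈ (V i).nonunits)
    (hnil : ∀ i, ∃ N : ℕ, ∀ x ∈ (V i).nonunits, ∃ z ∈ V i, x ^ N = algebraMap R E ϖ * z)
    (g : ι → E) (u : E) (hu : UnitAt n u)
    (hgu : ∀ i, ∃ z ∈ V i, g i ^ m * u - 1 = algebraMap R E ϖ * z)
    (a s : ι → R) (hs : ∀ i, s i ∉ n)
    (hbr : ∀ i, algebraMap R E (s i) * g i - algebraMap R E (a i) ∈ (V i).nonunits)
    (hagree : ∀ i j, a i * s j - a j * s i ∈ n) :
    ∃ b c : R, c ∉ n ∧
      ∀ i, ∃ z ∈ V i, algebraMap R E c * g i - algebraMap R E b = algebraMap R E ϖ * z := by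
  classical
  have : n.IsPrime := hn.isPrime
  have hinj : Function.Injective (algebraMap R E) := IsFractionRing.injective R E
  have hne0 : ∀ {r : R}, r ∉ n → algebraMap R E r ≠ 0 := by
    intro r hr h
    apply hr
    have : r = 0 := hinj (h.trans (map_zero _).symm)
    rw [this]
    exact n.zero_mem
  set p : E := algebraMap R E ϖ with hp
  -- `g ∈ V i`
  have hgV : ∀ i, g i ∈ V i := by
    intro i
    have h1 : algebraMap R E (s i) * g i ∈ V i := by
      have h2 := (V i).add_mem _ _ ((V i).nonunits_subset (hbr i)) (hle i (a i))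
      rwa [sub_add_cancel] at h2
    have h2 := (V i).mul_mem _ _ (hcen i (s i) (hs i)) h1
    rwa [← mul_assoc, inv_mul_cancel₀ (hne0 (hs i)), one_mul] at h2
  -- the ring homs `R → V i` and `R_n → V i`
  let f : ∀ i, R →+* V i := fun i => (algebraMap R E).codRestrict (V i) (hle i)
  have hfunit : ∀ i (y : n.primeCompl), IsUnit (f i y) := by
    intro i y
    refine isUnit_iff_exists_inv.2 ⟨⟨(algebraMap R E (y : R))⁻¹, hcen i y y.2⟩, ?_⟩
    exact Subtype.ext (mul_inv_cancel₀ (hne0 y.2))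
  let φ : ∀ i, Localization.AtPrime n →+* V i := fun i =>
    IsLocalization.lift (M := n.primeCompl) (hfunit i)
  have hφ : ∀ i (b : R) (c : n.primeCompl),
      ((φ i (IsLocalization.mk' (Localization.AtPrime n) b c) : V i) : E) =
        algebraMap R E b / algebraMap R E (c : R) := by
    intro i b c
    have h1 : φ i (IsLocalization.mk' (Localization.AtPrime n) b c) * f i c = f i b := by
      have h2 := congrArg (φ i) (IsLocalization.mk'_spec (Localization.AtPrime n) b c)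
      rw [map_mul, IsLocalization.lift_eq, IsLocalization.lift_eq] at h2
      exact h2
    have h3 := congrArg (Subtype.val) h1
    rw [eq_div_iff (hne0 c.2)]
    exact h3
  -- the target of the branch maps
  let I : ∀ i, Ideal (V i) := fun i => Ideal.span {f i ϖ}
  have hImax : ∀ i, I i ≤ IsLocalRing.maximalIdeal (V i) := by
    intro i
    rw [Ideal.span_singleton_le_iff_mem]
    exact (ValuationSubring.coe_mem_nonunits_iff).1 (hpi i)
  let Φ : Localization.AtPrime n →+* (∀ i, (V i) ⧸ I i) :=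
    RingHom.pi fun i => (Ideal.Quotient.mk (I i)).comp (φ i)
  let _ : Algebra (Localization.AtPrime n) (∀ i, (V i) ⧸ I i) := Φ.toAlgebra
  let ρ : ∀ i, (∀ i, (V i) ⧸ I i) →+* IsLocalRing.ResidueField (V i) := fun i =>
    (Ideal.Quotient.lift (I i) (IsLocalRing.residue (V i))
      (fun x hx => (IsLocalRing.residue_eq_zero_iff _).2 (hImax i hx))).comp
      (Pi.evalRingHom (fun i => (V i) ⧸ I i) i)
  -- nilpotency
  have hnilC : ∀ x : (∀ i, (V i) ⧸ I i), (∀ i, ρ i x = 0) → IsNilpotent x := by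
    intro x hx
    choose N hN using hnil
    cases nonempty_fintype ι
    refine ⟨∑ i, N i, ?_⟩
    funext i
    obtain ⟨xi, hxi⟩ := Ideal.Quotient.mk_surjective (x i)
    have h1 : IsLocalRing.residue (V i) xi = 0 := by
      have h0 := hx i
      simp only [ρ, RingHom.comp_apply, Pi.evalRingHom_apply, ← hxi, Ideal.Quotient.lift_mk] at h0
      exact h0
    have h2 : xi ∈ IsLocalRing.maximalIdeal (V i) := (IsLocalRing.residue_eq_zero_iff _).1 h1
    have h3 : (xi : E) ∈ (V i).nonunits := (ValuationSubring.coe_mem_nonunits_iff).2 h2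
    obtain ⟨z, hz, hxz⟩ := hN i _ h3
    have h4 : xi ^ N i ∈ I i := by
      rw [Ideal.mem_span_singleton']
      refine ⟨⟨z, hz⟩, Subtype.ext ?_⟩
      show z * algebraMap R E ϖ = (xi : E) ^ N i
      rw [hxz, mul_comm]
    have h5 : (x i) ^ N i = 0 := by
      rw [← hxi, ← map_pow]
      exact Ideal.Quotient.eq_zero_iff_mem.2 h4
    have h6 : N i ≤ ∑ j, N j := Finset.single_le_sum (fun j _ => Nat.zero_le (N j))
      (Finset.mem_univ i)
    show (x ^ ∑ j, N j) i = 0
    rw [Pi.pow_apply, ← Nat.sub_add_cancel h6, pow_add, h5, mul_zero]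
  -- `m` is invertible in the residue field
  have hmA : ((m : ℕ) : IsLocalRing.ResidueField (Localization.AtPrime n)) ≠ 0 := by
    intro h
    have h1 : IsLocalRing.residue (Localization.AtPrime n)
        ((m : ℕ) : Localization.AtPrime n) = 0 := by
      rw [map_natCast]
      exact h
    have h2 := (IsLocalRing.residue_eq_zero_iff _).1 h1
    have h3 : IsUnit ((m : ℕ) : Localization.AtPrime n) := by
      have h4 := IsLocalization.map_units (Localization.AtPrime n) (⟨(m : R), hmn⟩ : n.primeCompl)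
      simpa using h4
    exact (IsLocalRing.mem_maximalIdeal _).1 h2 h3
  -- the unit
  obtain ⟨au, su, hau, hsu, hU⟩ := hu
  have hUunit : IsUnit (IsLocalization.mk' (Localization.AtPrime n) su
      (⟨au, hau⟩ : n.primeCompl)) := by
    by_contra h
    exact hsu ((IsLocalization.AtPrime.mk'_mem_maximal_iff (Localization.AtPrime n) n su
      ⟨au, hau⟩).1 ((IsLocalRing.mem_maximalIdeal _).2 h))
  obtain ⟨U', hU'⟩ := hUunit
  -- the root
  let t : ∀ i, (V i) ⧸ I i := fun i => Ideal.Quotient.mk (I i) ⟨g i, hgV i⟩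
  have ht : t ^ m = algebraMap (Localization.AtPrime n) (∀ i, (V i) ⧸ I i) U' := by
    funext i
    show (Ideal.Quotient.mk (I i) ⟨g i, hgV i⟩) ^ m = Ideal.Quotient.mk (I i) (φ i U')
    rw [← map_pow, Ideal.Quotient.eq, Ideal.mem_span_singleton']
    obtain ⟨z, hz, hgz⟩ := hgu i
    have hau0 := hne0 hau
    have hsu0 := hne0 hsu
    have hq : algebraMap R E su / algebraMap R E au ∈ V i := by
      rw [div_eq_mul_inv]
      exact (V i).mul_mem _ _ (hle i su) (hcen i au hau)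
    refine ⟨⟨z * (algebraMap R E su / algebraMap R E au), (V i).mul_mem _ _ hz hq⟩,
      Subtype.ext ?_⟩
    show z * (algebraMap R E su / algebraMap R E au) * p =
      g i ^ m - ((φ i U' : V i) : E)
    rw [hU', hφ]
    have hu' : u = algebraMap R E au / algebraMap R E su := by
      rw [eq_div_iff hsu0]
      exact hU
    rw [hu'] at hgz
    field_simp
    field_simp at hgz
    linear_combination -hgz
  -- the branch values
  let abr : ι → Localization.AtPrime n := fun i =>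
    IsLocalization.mk' (Localization.AtPrime n) (a i) (⟨s i, hs i⟩ : n.primeCompl)
  have habr : ∀ i, ρ i t =
      ρ i (algebraMap (Localization.AtPrime n) (∀ i, (V i) ⧸ I i) (abr i)) := by
    intro i
    show IsLocalRing.residue (V i) ⟨g i, hgV i⟩ = IsLocalRing.residue (V i) (φ i (abr i))
    rw [← sub_eq_zero, ← map_sub, IsLocalRing.residue_eq_zero_iff,
      ← ValuationSubring.coe_mem_nonunits_iff]
    have h1 : (((⟨g i, hgV i⟩ : V i) - φ i (abr i) : V i) : E) =
        (algebraMap R E (s i))⁻¹ * (algebraMap R E (s i) * g i - algebraMap R E (a i)) := by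
      have h2 : (((⟨g i, hgV i⟩ : V i) - φ i (abr i) : V i) : E) =
          g i - ((φ i (abr i) : V i) : E) := rfl
      rw [h2, hφ]
      have := hne0 (hs i)
      field_simp
    rw [h1, ValuationSubring.mem_nonunits_iff, map_mul]
    have h3 : (V i).valuation (algebraMap R E (s i))⁻¹ ≤ 1 :=
      ((V i).valuation_le_one_iff _).2 (hcen i (s i) (hs i))
    exact lt_of_le_of_lt (mul_le_of_le_one_left' h3)
      ((ValuationSubring.mem_nonunits_iff _).1 (hbr i))
  have hagr : ∀ i j, abr i - abr j ∈ IsLocalRing.maximalIdeal (Localization.AtPrime n) := by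
    intro i j
    have h1 : abr i - abr j = IsLocalization.mk' (Localization.AtPrime n)
        (a i * s j - a j * s i) ((⟨s i, hs i⟩ : n.primeCompl) * ⟨s j, hs j⟩) := by
      show IsLocalization.mk' (Localization.AtPrime n) (a i) (⟨s i, hs i⟩ : n.primeCompl) -
        IsLocalization.mk' (Localization.AtPrime n) (a j) (⟨s j, hs j⟩ : n.primeCompl) = _
      rw [← IsLocalization.mk'_sub]
    rw [h1, IsLocalization.AtPrime.mk'_mem_maximal_iff (Localization.AtPrime n) n]
    exact hagree i j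
  -- the multi-branch root lifting
  obtain ⟨x, hx⟩ := Fermat.Agent.S36.BranchRoot.mem_range_of_branch_roots
    (A := Localization.AtPrime n) (C := ∀ i, (V i) ⧸ I i)
    (fun i => IsLocalRing.ResidueField (V i)) ρ hnilC m hmA U' t ht abr habr hagr
  obtain ⟨⟨b, c⟩, rfl⟩ := IsLocalization.mk'_surjective n.primeCompl x
  refine ⟨b, c, c.2, fun i => ?_⟩
  have h1 : Ideal.Quotient.mk (I i) (φ i (IsLocalization.mk' (Localization.AtPrime n) b c)) =
      Ideal.Quotient.mk (I i) ⟨g i, hgV i⟩ := congrFun hx i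
  rw [Ideal.Quotient.eq, Ideal.mem_span_singleton'] at h1
  obtain ⟨z, hz⟩ := h1
  have h2 : (z : E) * algebraMap R E ϖ =
      algebraMap R E b / algebraMap R E (c : R) - g i := by
    have h3 := congrArg (Subtype.val) hz
    have h4 : ((φ i (IsLocalization.mk' (Localization.AtPrime n) b c) - ⟨g i, hgV i⟩ : V i) : E) =
        ((φ i (IsLocalization.mk' (Localization.AtPrime n) b c) : V i) : E) - g i := rfl
    rw [h4, hφ] at h3
    exact h3
  refine ⟨-(algebraMap R E (c : R) * z), (V i).neg_mem _ ((V i).mul_mem _ _ (hle i c) z.2), ?_⟩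
  have hc0 := hne0 c.2
  field_simp at h2
  linear_combination h2

end Glue

/-! ### [BranchUnit] for a general valuation ring `W = R_P` -/

section BranchUnit

open Fermat.Agent.S35

variable {R : Type*} [CommRing R] [IsDomain R] [IsNoetherianRing R] {E : Type*} [Field E]
  [Algebra R E] [IsFractionRing R E]

/-- An element of `R` outside the centre `P` of `W` has valuation one. -/
theorem val_eq_one_of_notMem (W : ValuationSubring E) (P : Ideal R)
    (hle : ∀ r : R, algebraMap R E r ∈ W)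
    (hcen : ∀ r : R, r ∉ P → (algebraMap R E r)⁻¹ ∈ W) {r : R} (hr : r ∉ P) :
    W.valuation (algebraMap R E r) = 1 := by
  have h0 : algebraMap R E r ≠ 0 := by
    intro h
    apply hr
    have : r = 0 := IsFractionRing.injective R E (h.trans (map_zero _).symm)
    rw [this]
    exact P.zero_mem
  exact NodeNorm.val_eq_one W h0 (hle r) (hcen r hr)

/-- The centre `P` of `W` on `R` in terms of the valuation. -/
theorem mem_iff_val_lt (W : ValuationSubring E) (P : Ideal R)
    (hle : ∀ r : R, algebraMap R E r ∈ W)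
    (hcen : ∀ r : R, r ∉ P → (algebraMap R E r)⁻¹ ∈ W)
    (hnon : ∀ r : R, r ∈ P → r ≠ 0 → (algebraMap R E r)⁻¹ ∉ W) (r : R) :
    r ∈ P ↔ W.valuation (algebraMap R E r) < 1 := by
  constructor
  · intro hr
    by_cases h0 : r = 0
    · rw [h0, map_zero, map_zero]
      exact zero_lt_one
    · exact NodeNorm.val_unif_lt W (hnon r hr h0)
  · intro hlt
    by_contra hr
    rw [val_eq_one_of_notMem W P hle hcen hr] at hlt
    exact lt_irrefl _ hlt

/-- **[BranchUnit], general form** (port of `S35.NodeNorm.branch_unit`): `W ⊇ R` a valuation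
ring with centre `P` and `W = R_P`; the branch `R / P` is regular of dimension one at the closed
point `n` (`n / P` locally generated by `t`).  If `g ^ m * U ≡ 1` modulo the maximal ideal of `W`
with `U` a unit at `n`, then `g` is congruent modulo the maximal ideal of `W` to a unit `a / s` of
`R_n`. -/
theorem branch_unit_gen (W : ValuationSubring E) (P n : Ideal R) (hprime : P.IsPrime)
    (hle : ∀ r : R, algebraMap R E r ∈ W)
    (hcen : ∀ r : R, r ∉ P → (algebraMap R E r)⁻¹ ∈ W)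
    (hnon : ∀ r : R, r ∈ P → r ≠ 0 → (algebraMap R E r)⁻¹ ∉ W)
    (hloc : ∀ x ∈ W, ∃ a s : R, s ∉ P ∧ x * algebraMap R E s = algebraMap R E a)
    (hn : n.IsMaximal) (hPn : P ≤ n) (hx : ∃ x ∈ n, x ∉ P)
    {u : R} (hu : u ∈ n) (hgen : ∀ x ∈ n, ∃ s : R, s ∉ n ∧ ∃ c : R, s * x - c * u ∈ P)
    {m : ℕ} (hm : 0 < m) {g U : E} (hU : UnitAt n U) (hgU : g ^ m * U - 1 ∈ W.nonunits) :
    ∃ a s : R, a ∉ n ∧ s ∉ n ∧ algebraMap R E s * g - algebraMap R E a ∈ W.nonunits := by
  have hnp : n.IsPrime := hn.isPrime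
  have hmemP := mem_iff_val_lt W P hle hcen hnon
  have hvle : ∀ r : R, W.valuation (algebraMap R E r) ≤ 1 :=
    fun r => (W.valuation_le_one_iff _).2 (hle r)
  have hnotP : ∀ {r : R}, r ∉ n → r ∉ P := fun hr hrP => hr (hPn hrP)
  have honeP : ∀ {r : R}, r ∉ P → W.valuation (algebraMap R E r) = 1 :=
    fun hr => val_eq_one_of_notMem W P hle hcen hr
  have hone : ∀ {r : R}, r ∉ n → W.valuation (algebraMap R E r) = 1 :=
    fun hr => honeP (hnotP hr)
  rw [ValuationSubring.mem_nonunits_iff] at hgU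
  obtain ⟨a_u, s_u, ha_u, hs_u, hU'⟩ := hU
  have hvU : W.valuation U = 1 := by
    have h1 := congrArg W.valuation hU'
    rw [map_mul, hone hs_u, mul_one, hone ha_u] at h1
    exact h1
  have hvgU : W.valuation (g ^ m * U) = 1 :=
    NodeNorm.val_eq_one_of_sub_lt W (map_one _) hgU
  have hvg : W.valuation g = 1 := by
    rw [map_mul, hvU, mul_one, map_pow] at hvgU
    exact (pow_eq_one_iff_of_nonneg zero_le hm.ne').1 hvgU
  obtain ⟨a₀, s₀, hs₀, hg'⟩ := hloc g ((W.valuation_le_one_iff g).1 hvg.le)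
  have ha₀ : a₀ ∉ P := by
    rw [hmemP, ← hg', map_mul, hvg, one_mul, honeP hs₀]
    exact lt_irrefl _
  obtain ⟨ka, ta, ca, hta, hca, hA⟩ :=
    NodeNorm.exists_branch_decomp P n hn hPn hx hu hgen ha₀
  obtain ⟨ks, ts, cs, hts, hcs, hS⟩ :=
    NodeNorm.exists_branch_decomp P n hn hPn hx hu hgen hs₀
  -- the relation `a₀ ^ m * a_u ≡ s₀ ^ m * s_u` modulo `P`
  have hN1 : a₀ ^ m * a_u - s₀ ^ m * s_u ∈ P := by
    rw [hmemP]
    have e : algebraMap R E (a₀ ^ m * a_u - s₀ ^ m * s_u)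
        = (g ^ m * U - 1) * (algebraMap R E s₀ ^ m * algebraMap R E s_u) := by
      rw [map_sub, map_mul, map_mul, map_pow, map_pow, ← hg', ← hU']
      ring
    rw [e, map_mul]
    refine lt_of_le_of_lt (mul_le_of_le_one_right' ?_) hgU
    rw [map_mul, map_pow]
    exact mul_le_one' (pow_le_one₀ zero_le (hvle s₀)) (hvle s_u)
  have huP : u ∉ P := by
    obtain ⟨x, hxn, hxP⟩ := hx
    obtain ⟨s, hs, c, hc⟩ := hgen x hxn
    intro huP
    have h1 : s * x ∈ P := by
      have h2 := P.add_mem hc (P.mul_mem_left c huP)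
      simpa using h2
    rcases hprime.mem_or_mem h1 with h3 | h3
    · exact hs (hPn h3)
    · exact hxP h3
  -- the key congruence
  have key : ca ^ m * ts ^ m * a_u * u ^ (m * ka) - cs ^ m * ta ^ m * s_u * u ^ (m * ks) ∈ P := by
    have e : ca ^ m * ts ^ m * a_u * u ^ (m * ka) - cs ^ m * ta ^ m * s_u * u ^ (m * ks)
        = ts ^ m * a_u * ((ca * u ^ ka) ^ m - (a₀ * ta) ^ m)
          + (ta * ts) ^ m * (a₀ ^ m * a_u - s₀ ^ m * s_u)
          + ta ^ m * s_u * ((s₀ * ts) ^ m - (cs * u ^ ks) ^ m) := by ring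
    rw [e]
    refine P.add_mem (P.add_mem (P.mul_mem_left _ ?_) (P.mul_mem_left _ hN1))
      (P.mul_mem_left _ ?_)
    · obtain ⟨c, hc⟩ := sub_dvd_pow_sub_pow (ca * u ^ ka) (a₀ * ta) m
      rw [hc]
      apply P.mul_mem_right
      have h1 := P.neg_mem hA
      rwa [neg_sub] at h1
    · obtain ⟨c, hc⟩ := sub_dvd_pow_sub_pow (s₀ * ts) (cs * u ^ ks) m
      rw [hc]
      exact P.mul_mem_right _ hS
  have hAn : ca ^ m * ts ^ m * a_u ∉ n := fun hmem => by
    rcases hnp.mem_or_mem hmem with h1 | h1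
    · rcases hnp.mem_or_mem h1 with h2 | h2
      · exact hca (hnp.mem_of_pow_mem _ h2)
      · exact hts (hnp.mem_of_pow_mem _ h2)
    · exact ha_u h1
  have hBn : cs ^ m * ta ^ m * s_u ∉ n := fun hmem => by
    rcases hnp.mem_or_mem hmem with h1 | h1
    · rcases hnp.mem_or_mem h1 with h2 | h2
      · exact hcs (hnp.mem_of_pow_mem _ h2)
      · exact hta (hnp.mem_of_pow_mem _ h2)
    · exact hs_u h1
  have hk : ka = ks := by
    rcases lt_trichotomy ka ks with hlt | heq | hgt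
    · exfalso
      obtain ⟨d, rfl⟩ : ∃ d, ks = ka + d + 1 := ⟨ks - ka - 1, by omega⟩
      exact NodeNorm.aux_pow_cancel hprime hPn hu huP hAn hm ka d key
    · exact heq
    · exfalso
      obtain ⟨d, rfl⟩ : ∃ d, ka = ks + d + 1 := ⟨ka - ks - 1, by omega⟩
      have key' := P.neg_mem key
      rw [neg_sub] at key'
      exact NodeNorm.aux_pow_cancel hprime hPn hu huP hBn hm ks d key'
  subst hk
  have hN : cs * ta * a₀ - ca * ts * s₀ ∈ P := by
    have e : cs * ta * a₀ - ca * ts * s₀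
        = cs * (a₀ * ta - ca * u ^ ka) - ca * (s₀ * ts - cs * u ^ ka) := by ring
    rw [e]
    exact P.sub_mem (P.mul_mem_left _ hA) (P.mul_mem_left _ hS)
  refine ⟨ca * ts, cs * ta, hnp.mul_notMem hca hts, hnp.mul_notMem hcs hta, ?_⟩
  rw [ValuationSubring.mem_nonunits_iff]
  have e2 : (algebraMap R E (cs * ta) * g - algebraMap R E (ca * ts)) * algebraMap R E s₀
      = algebraMap R E (cs * ta * a₀ - ca * ts * s₀) := by
    rw [map_sub, map_mul, map_mul, map_mul, map_mul, map_mul, map_mul, ← hg']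
    ring
  have h3 := congrArg W.valuation e2
  rw [map_mul, honeP hs₀, mul_one] at h3
  rw [h3]
  exact (hmemP _).1 hN

end BranchUnit

/-! ### The local form at a closed point -/

section Main

variable {O : Type*} [CommRing O] {R : Type*} [CommRing R] [IsDomain R] [IsNoetherianRing R]
  [IsIntegrallyClosed R] [Algebra O R] {E : Type*} [Field E] [Algebra R E] [IsFractionRing R E]
  {ι : Type*} [Finite ι]

/-- **Local descent**: `R_n ∩ ⋂_{i through n} ϖ (V i) = ϖ R_n`, from the global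
`R ∩ ⋂_i ϖ (V i) = ϖ R` and, for every component not through `n`, an element of `R ∖ n` lying in
`ϖ (V i)`. -/
theorem local_desc (V : ι → ValuationSubring E) (P : ι → Ideal R) (ϖ : R) (n : Ideal R)
    (hn : n.IsPrime)
    (hle : ∀ i (r : R), algebraMap R E r ∈ V i)
    (hdesc : ∀ r : R, (∀ i, ∃ y ∈ V i, algebraMap R E r = algebraMap R E ϖ * y) →
      ∃ r' : R, r = ϖ * r')
    (hfar : ∀ i, ¬ P i ≤ n → ∃ t : R, t ∉ n ∧ ∃ z ∈ V i, algebraMap R E t = algebraMap R E ϖ * z)
    (x : E) (hx : RegAt n x)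
    (hxV : ∀ i, P i ≤ n → ∃ z ∈ V i, x = algebraMap R E ϖ * z) :
    ∃ s : R, s ∉ n ∧ ∃ r : R, algebraMap R E s * x = algebraMap R E ϖ * algebraMap R E r := by
  classical
  cases nonempty_fintype ι
  obtain ⟨a₁, s₁, hs₁, hxa⟩ := hx
  have ht : ∀ i, ∃ t : R, t ∉ n ∧ (¬ P i ≤ n → ∃ z ∈ V i, algebraMap R E t = algebraMap R E ϖ * z) := by
    intro i
    by_cases hi : P i ≤ n
    · exact ⟨1, hn.one_notMem, fun h => absurd hi h⟩
    · obtain ⟨t, ht, hz⟩ := hfar i hi
      exact ⟨t, ht, fun _ => hz⟩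
  choose t htn htV using ht
  set T : R := ∏ i, t i with hT
  have hTn : T ∉ n := by
    intro hmem
    obtain ⟨i, -, hi⟩ := (Ideal.IsPrime.prod_mem_iff).mp hmem
    exact htn i hi
  have hTV : ∀ i, algebraMap R E T ∈ V i := fun i => hle i T
  have hkey : ∀ i, ∃ y ∈ V i, algebraMap R E (a₁ * T) = algebraMap R E ϖ * y := by
    intro i
    by_cases hi : P i ≤ n
    · obtain ⟨z, hz, hxz⟩ := hxV i hi
      refine ⟨z * algebraMap R E s₁ * algebraMap R E T,
        (V i).mul_mem _ _ ((V i).mul_mem _ _ hz (hle i s₁)) (hTV i), ?_⟩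
      rw [map_mul, ← hxa, hxz]
      ring
    · obtain ⟨z, hz, htz⟩ := htV i hi
      have hsplit : T = t i * ∏ j ∈ Finset.univ.erase i, t j := by
        rw [hT, Finset.mul_prod_erase _ _ (Finset.mem_univ i)]
      refine ⟨z * algebraMap R E (∏ j ∈ Finset.univ.erase i, t j) * algebraMap R E a₁,
        (V i).mul_mem _ _ ((V i).mul_mem _ _ hz (hle i _)) (hle i a₁), ?_⟩
      rw [map_mul, hsplit, map_mul, htz]
      ring
  obtain ⟨r', hr'⟩ := hdesc (a₁ * T) hkey
  refine ⟨s₁ * T, hn.mul_notMem hs₁ hTn, r', ?_⟩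
  have h1 : algebraMap R E (s₁ * T) * x = algebraMap R E (a₁ * T) := by
    rw [map_mul, map_mul, ← hxa]
    ring
  rw [h1, hr', map_mul]

/-- **[LOC36], direct route.**  At a closed point `n` of the special fibre of the chart `R`:
if every horizontal height-one prime through `n` is principal at `n` and `m` divides the order of
`G` there (`hhor`), `G ≡ 1` modulo `π (V i)` for all `i` (`hcong`), and the branch values at `n`
of every local `m`-th root of `G` agree (`htor`, the Prop `TorAt` of the plan, written out), then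
there is `a ≡ 1` modulo `π (V i)` for ALL `i` with `G * a ^ m ∈ 1 + π R_n`. -/
theorem locForm_of_torAt (π : O) (V : ι → ValuationSubring E) (P : ι → Ideal R) (m : ℕ)
    (n : Ideal R) (G : E) (hn : n.IsMaximal) (hm : 0 < m) (hmn : (m : R) ∉ n)
    (hπ0 : algebraMap O R π ≠ 0)
    (hPp : ∀ i, (P i).IsPrime)
    (hle : ∀ i (r : R), algebraMap R E r ∈ V i)
    (hcen : ∀ i (r : R), r ∉ P i → (algebraMap R E r)⁻¹ ∈ V i)
    (hnon : ∀ i (r : R), r ∈ P i → r ≠ 0 → (algebraMap R E r)⁻¹ ∉ V i)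
    (hπP : ∀ i, algebraMap O R π ∈ P i)
    (hloc : ∀ i, ∀ x ∈ V i, ∃ a s : R, s ∉ P i ∧ x * algebraMap R E s = algebraMap R E a)
    (hnil : ∀ i, ∃ N : ℕ, ∀ x ∈ (V i).nonunits,
      ∃ z ∈ V i, x ^ N = algebraMap R E (algebraMap O R π) * z)
    (hdesc : ∀ r : R,
      (∀ i, ∃ y ∈ V i, algebraMap R E r = algebraMap R E (algebraMap O R π) * y) →
      ∃ r' : R, r = algebraMap O R π * r')
    (hvert : ∀ 𝔮 : Ideal R, 𝔮.IsPrime → 𝔮 ≤ n → algebraMap O R π ∈ 𝔮 → PrincAt 𝔮 →
      ∃ i, 𝔮 = P i)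
    (harch : ∀ i, ¬ P i ≤ n → ∀ s : R, s ∈ P i → s ≠ 0 →
      ∀ x : E, ∃ k₀ : ℕ, ∀ k : ℕ, k₀ ≤ k → algebraMap R E s ^ k * x ∈ V i)
    (hne : ∃ i, P i ≤ n)
    (hbranch : ∀ i, P i ≤ n → (∃ x ∈ n, x ∉ P i) ∧
      ∃ t ∈ n, ∀ x ∈ n, ∃ s : R, s ∉ n ∧ ∃ c : R, s * x - c * t ∈ P i)
    (hcong : ∀ i, ∃ z ∈ V i, G - 1 = algebraMap R E (algebraMap O R π) * z)
    (hhor : ∀ 𝔮 : Ideal R, 𝔮.IsPrime → 𝔮 ≤ n → algebraMap O R π ∉ 𝔮 → PrincAt 𝔮 →
      UnitAt 𝔮 G ∨ ((∃ x : E, x ≠ 0 ∧ UnitAt 𝔮 (G * x ^ m)) ∧ ∃ e : R, GenAt n 𝔮 e))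
    (htor : ∀ g : E, UnitAt n (G * g ^ m) → ∀ i j, P i ≤ n → P j ≤ n → ∀ ρ σ ρ' σ' : R,
      σ ∉ n → ρ ∉ n → algebraMap R E σ * g - algebraMap R E ρ ∈ (V i).nonunits →
      σ' ∉ n → ρ' ∉ n → algebraMap R E σ' * g - algebraMap R E ρ' ∈ (V j).nonunits →
      ρ * σ' - ρ' * σ ∈ n) :
    ∃ a : E, (∀ i, ∃ v ∈ V i, a - 1 = algebraMap R E (algebraMap O R π) * v) ∧
      ∃ s : R, s ∉ n ∧ ∃ r : R,
        algebraMap R E s * (G * a ^ m - 1) =
          algebraMap R E (algebraMap O R π) * algebraMap R E r := by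
  classical
  have hnp : n.IsPrime := hn.isPrime
  have hinj : Function.Injective (algebraMap R E) := IsFractionRing.injective R E
  set ϖ : R := algebraMap O R π with hϖ
  set p : E := algebraMap R E ϖ with hp
  have hp0 : p ≠ 0 := fun h => hπ0 (hinj (h.trans (map_zero _).symm))
  have hne0 : ∀ {r : R}, r ∉ n → algebraMap R E r ≠ 0 := by
    intro r hr h
    apply hr
    have : r = 0 := hinj (h.trans (map_zero _).symm)
    rw [this]
    exact n.zero_mem
  -- `π` is a nonunit of every `V i`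
  have hpnu : ∀ i, p ∈ (V i).nonunits := by
    intro i
    rw [ValuationSubring.mem_nonunits_iff]
    exact (mem_iff_val_lt (V i) (P i) (hle i) (hcen i) (hnon i) ϖ).1 (hπP i)
  have hpV : ∀ i, p ∈ V i := fun i => hle i ϖ
  -- nonunit times element
  have hnu_mul : ∀ i {x y : E}, x ∈ (V i).nonunits → y ∈ V i → x * y ∈ (V i).nonunits := by
    intro i x y hx hy
    rw [ValuationSubring.mem_nonunits_iff] at hx ⊢
    rw [map_mul]
    exact lt_of_le_of_lt (mul_le_of_le_one_right' (((V i).valuation_le_one_iff y).2 hy)) hx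
  -- near valuations contain `R_n`
  have hnearinv : ∀ i, P i ≤ n → ∀ r : R, r ∉ n → (algebraMap R E r)⁻¹ ∈ V i :=
    fun i hi r hr => hcen i r (fun h => hr (hi h))
  obtain ⟨i₁, hi₁⟩ := hne
  have hϖn : ϖ ∈ n := hi₁ (hπP i₁)
  -- `G ≠ 0`
  have hG0 : G ≠ 0 := by
    intro h0
    obtain ⟨z, hz, hGz⟩ := hcong i₁
    rw [h0, zero_sub] at hGz
    have h1 : (1 : E) ∈ (V i₁).nonunits := by
      have h2 : (1 : E) = p * (-z) := by rw [mul_neg, ← hGz, neg_neg]
      rw [h2]
      exact hnu_mul i₁ (hpnu i₁) ((V i₁).neg_mem _ hz)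
    rw [ValuationSubring.mem_nonunits_iff, map_one] at h1
    exact lt_irrefl _ h1
  -- Step 1: `G = g ^ m * u`
  obtain ⟨g, u, hg0, hGgu, hu, hgV⟩ :=
    @HorGen.exists_pow_mul_unit_chart R _ _ _ E _ _ _ _ ι V P ϖ n hnp m G hm hle hcen hnon hπ0
      hπP hvert (fun i _ => hcong i) hG0 hhor
  -- Step 2: branch values
  have hbu : ∀ i : {i // P i ≤ n}, ∃ a s : R, a ∉ n ∧ s ∉ n ∧
      algebraMap R E s * g - algebraMap R E a ∈ (V i.1).nonunits := by
    rintro ⟨i, hi⟩
    obtain ⟨hx, t, ht, hgen⟩ := hbranch i hi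
    refine branch_unit_gen (V i) (P i) n (hPp i) (hle i) (hcen i) (hnon i) (hloc i) hn hi hx ht
      hgen hm hu ?_
    obtain ⟨z, hz, hGz⟩ := hcong i
    rw [← hGgu, hGz]
    exact hnu_mul i (hpnu i) hz
  choose a s ha hs hbr using hbu
  -- Step 3: the branch values agree
  have hginv : G * g⁻¹ ^ m = u := by
    rw [hGgu, inv_pow]
    field_simp
  have hagree : ∀ i j : {i // P i ≤ n}, a i * s j - a j * s i ∈ n := by
    intro i j
    have hbv : ∀ k : {i // P i ≤ n},
        algebraMap R E (a k) * g⁻¹ - algebraMap R E (s k) ∈ (V k.1).nonunits := by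
      intro k
      have h1 : algebraMap R E (a k) * g⁻¹ - algebraMap R E (s k) =
          (algebraMap R E (s k) * g - algebraMap R E (a k)) * (-g⁻¹) := by
        field_simp
        ring
      rw [h1]
      exact hnu_mul k.1 (hbr k) ((V k.1).neg_mem _ (hgV k.1 k.2).2)
    have h2 := htor g⁻¹ (by rw [hginv]; exact hu) i.1 j.1 i.2 j.2 (s i) (a i) (s j) (a j)
      (ha i) (hs i) (hbv i) (ha j) (hs j) (hbv j)
    have h3 : a i * s j - a j * s i = -(s i * a j - s j * a i) := by ring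
    rw [h3]
    exact n.neg_mem h2
  -- Step 4: gluing
  have : Nonempty {i // P i ≤ n} := ⟨⟨i₁, hi₁⟩⟩
  obtain ⟨b, c, hc, hbc⟩ := exists_regAt_congr (fun i : {i // P i ≤ n} => V i.1) ϖ n hn m hmn
    (fun i r => hle i.1 r) (fun i r hr => hnearinv i.1 i.2 r hr) (fun i => hpnu i.1)
    (fun i => hnil i.1) (fun _ => g) u hu
    (fun i => by
      obtain ⟨z, hz, hGz⟩ := hcong i.1
      exact ⟨z, hz, by rw [← hGgu, hGz]⟩)
    a s hs hbr hagree
  have hc0 := hne0 hc
  -- Step 5: `a₀ = (b / c) / g`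
  set a₀ : E := algebraMap R E b / (algebraMap R E c * g) with ha₀
  have ha₀near : ∀ i, P i ≤ n → ∃ v ∈ V i, a₀ - 1 = p * v := by
    intro i hi
    obtain ⟨z, hz, hcz⟩ := hbc ⟨i, hi⟩
    refine ⟨-(z * (algebraMap R E c)⁻¹ * g⁻¹), (V i).neg_mem _ ((V i).mul_mem _ _
      ((V i).mul_mem _ _ hz (hnearinv i hi c hc)) (hgV i hi).2), ?_⟩
    have h1 : a₀ - 1 = -((algebraMap R E c * g - algebraMap R E b) *
        ((algebraMap R E c)⁻¹ * g⁻¹)) := by
      rw [ha₀]
      field_simp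
      ring
    rw [h1, hcz]
    ring
  have ha₀V : ∀ i, P i ≤ n → a₀ ∈ V i := by
    intro i hi
    obtain ⟨v, hv, hav⟩ := ha₀near i hi
    have h1 : a₀ = 1 + p * v := by rw [← hav]; ring
    rw [h1]
    exact (V i).add_mem _ _ (V i).one_mem ((V i).mul_mem _ _ (hpV i) hv)
  -- `G * a₀ ^ m - 1 ∈ R_n`
  obtain ⟨au, su, hau, hsu, hU⟩ := hu
  have hreg : RegAt n (G * a₀ ^ m - 1) := by
    refine ⟨au * b ^ m - su * c ^ m, su * c ^ m,
      hnp.mul_notMem hsu (fun h => hc (hnp.mem_of_pow_mem m h)), ?_⟩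
    have hsu0 := hne0 hsu
    have hcm0 : algebraMap R E c ^ m ≠ 0 := pow_ne_zero m hc0
    have hgm0 : g ^ m ≠ 0 := pow_ne_zero m hg0
    have h1 : G * a₀ ^ m = u * (algebraMap R E b ^ m / algebraMap R E c ^ m) := by
      rw [hGgu, ha₀, div_pow, mul_pow]
      field_simp
    rw [h1, map_sub, map_mul, map_mul, map_pow, map_pow, ← hU]
    field_simp
  have hnearV : ∀ i, P i ≤ n → ∃ z ∈ V i, G * a₀ ^ m - 1 = p * z := by
    intro i hi
    obtain ⟨z₁, hz₁, hGz⟩ := hcong i
    obtain ⟨v, hv, hav⟩ := ha₀near i hi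
    have hsum : ∑ j ∈ Finset.range m, a₀ ^ j ∈ V i :=
      sum_mem (fun j _ => pow_mem (ha₀V i hi) j)
    refine ⟨z₁ * a₀ ^ m + v * ∑ j ∈ Finset.range m, a₀ ^ j,
      (V i).add_mem _ _ ((V i).mul_mem _ _ hz₁ (pow_mem (ha₀V i hi) m))
        ((V i).mul_mem _ _ hv hsum), ?_⟩
    have h1 : a₀ ^ m - 1 = (∑ j ∈ Finset.range m, a₀ ^ j) * (a₀ - 1) := (geom_sum_mul a₀ m).symm
    have h2 : G * a₀ ^ m - 1 = (G - 1) * a₀ ^ m + (a₀ ^ m - 1) := by ring
    rw [h2, h1, hGz, hav]
    ring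
  -- far witnesses
  have hfarw : ∀ i, ¬ P i ≤ n → ∃ t : R, t ∉ n ∧ t ∈ P i ∧ t ≠ 0 := by
    intro i hi
    obtain ⟨t, htP, htn⟩ := SetLike.not_le_iff_exists.1 hi
    refine ⟨t, htn, htP, ?_⟩
    rintro rfl
    exact htn n.zero_mem
  have hloc0 : ∃ s : R, s ∉ n ∧ ∃ r : R,
      algebraMap R E s * (G * a₀ ^ m - 1) = p * algebraMap R E r := by
    refine local_desc V P ϖ n hnp hle hdesc ?_ _ hreg hnearV
    intro i hi
    obtain ⟨t, htn, htP, ht0⟩ := hfarw i hi
    obtain ⟨N, hN⟩ := hnil i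
    have htnu : algebraMap R E t ∈ (V i).nonunits := by
      rw [ValuationSubring.mem_nonunits_iff]
      exact (mem_iff_val_lt (V i) (P i) (hle i) (hcen i) (hnon i) t).1 htP
    obtain ⟨z, hz, htz⟩ := hN _ htnu
    exact ⟨t ^ N, fun h => htn (hnp.mem_of_pow_mem N h), z, hz, by rw [map_pow, htz]⟩
  -- Step 6: the far components
  exact SmoothFixN.smoothFixN V ϖ hπ0 n hnp hϖn (fun i => ¬ P i ≤ n) (fun j _ r => hle j r)
    (fun j hj => by
      obtain ⟨t, htn, htP, ht0⟩ := hfarw j hj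
      exact ⟨t, htn, harch j hj t htP ht0⟩)
    (fun i hi y hy => by
      have hi' : P i ≤ n := not_not.1 hi
      obtain ⟨s', hs', r', hy'⟩ := hy
      have hs0 := hne0 hs'
      have h1 : y = algebraMap R E r' * (algebraMap R E s')⁻¹ := by
        rw [← hy']
        field_simp
      rw [h1]
      exact (V i).mul_mem _ _ (hle i r') (hnearinv i hi' s' hs'))
    G a₀ m (fun i hi => ha₀near i (not_not.1 hi)) hloc0

end Main

/-! ### Chart form: `R : Subalgebra O E`, conclusion `AbsTopN.LocForm` -/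

section Chart

variable {O : Type*} [CommRing O] [IsDomain O] [IsDiscreteValuationRing O]
  {E : Type*} [Field E] [Algebra O E] {ι : Type*} [Finite ι]

/-- **[LOC36], direct route, chart form**: `locForm_of_torAt` for a chart `R : Subalgebra O E`,
with conclusion `AbsTopN.LocForm R π V G m n`. -/
theorem locForm_chart (R : Subalgebra O E) [IsFractionRing R E] [IsNoetherianRing R]
    [IsIntegrallyClosed R] (π : O) (V : ι → ValuationSubring E) (P : ι → Ideal R) (m : ℕ)
    (n : Ideal R) (G : E) (hn : n.IsMaximal) (hm : 0 < m) (hmn : (m : R) ∉ n)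
    (hπ0 : algebraMap O R π ≠ 0)
    (hPp : ∀ i, (P i).IsPrime)
    (hle : ∀ i (r : R), (r : E) ∈ V i)
    (hcen : ∀ i (r : R), r ∉ P i → ((r : E))⁻¹ ∈ V i)
    (hnon : ∀ i (r : R), r ∈ P i → r ≠ 0 → ((r : E))⁻¹ ∉ V i)
    (hπP : ∀ i, algebraMap O R π ∈ P i)
    (hloc : ∀ i, ∀ x ∈ V i, ∃ a s : R, s ∉ P i ∧ x * (s : E) = (a : E))
    (hnil : ∀ i, ∃ N : ℕ, ∀ x ∈ (V i).nonunits, ∃ z ∈ V i, x ^ N = algebraMap O E π * z)
    (hdesc : ∀ r : R, (∀ i, ∃ y ∈ V i, (r : E) = algebraMap O E π * y) →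
      ∃ r' : R, r = algebraMap O R π * r')
    (hvert : ∀ 𝔮 : Ideal R, 𝔮.IsPrime → 𝔮 ≤ n → algebraMap O R π ∈ 𝔮 → PrincAt 𝔮 →
      ∃ i, 𝔮 = P i)
    (harch : ∀ i, ¬ P i ≤ n → ∀ s : R, s ∈ P i → s ≠ 0 →
      ∀ x : E, ∃ k₀ : ℕ, ∀ k : ℕ, k₀ ≤ k → (s : E) ^ k * x ∈ V i)
    (hne : ∃ i, P i ≤ n)
    (hbranch : ∀ i, P i ≤ n → (∃ x ∈ n, x ∉ P i) ∧
      ∃ t ∈ n, ∀ x ∈ n, ∃ s : R, s ∉ n ∧ ∃ c : R, s * x - c * t ∈ P i)
    (hcong : ∀ i, ∃ z ∈ V i, G - 1 = algebraMap O E π * z)
    (hhor : ∀ 𝔮 : Ideal R, 𝔮.IsPrime → 𝔮 ≤ n → algebraMap O R π ∉ 𝔮 → PrincAt 𝔮 →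
      UnitAt 𝔮 G ∨ ((∃ x : E, x ≠ 0 ∧ UnitAt 𝔮 (G * x ^ m)) ∧ ∃ e : R, GenAt n 𝔮 e))
    (htor : ∀ g : E, UnitAt n (G * g ^ m) → ∀ i j, P i ≤ n → P j ≤ n → ∀ ρ σ ρ' σ' : R,
      σ ∉ n → ρ ∉ n → (σ : E) * g - (ρ : E) ∈ (V i).nonunits →
      σ' ∉ n → ρ' ∉ n → (σ' : E) * g - (ρ' : E) ∈ (V j).nonunits →
      ρ * σ' - ρ' * σ ∈ n) :
    AbsTopN.LocForm R π V G m n :=
  locForm_of_torAt π V P m n G hn hm hmn hπ0 hPp hle hcen hnon hπP hloc hnil hdesc hvert harch
    hne hbranch hcong hhor htor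

end Chart

end Fermat.Agent.S36.Loc36B
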