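/-
S36 — Loc36Chart.lean (helper19): block [LOC36], chart adapter.  The hypotheses of the abstract
local chain `S36/Loc36.lean` (and of helper22's `S36/ToricAsm.lean`) discharged from the
[MODEL3] interface `S36/Model3Plan.lean`, using

* `S36/Chart3Facts.lean` (helper132): the chart facts F1–F13 from `ValHyp3` + `ChartHyp3`;
* `S36/LocGMulti.lean` (helper28): the multi-branch normal form [LocG3];
* `S36/HorGen3.lean` (helper116) + `S36/Fact3.lean`: the local datum `G = g ^ m * u`;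
* `S35/RootConst.lean`: the `m`-th roots of unity of `R / n` are constants, from a primitive
  `m`-th root of unity of the base.

Abstract layer (`R` any `O`-algebra domain with fraction field `E`, `V : Fin 3 → _`):
* `ptHyp`         : `Loc36.PtHyp V P π n` at every prime `n ∋ π`;
* `locGAt`        : `Loc36.LocGAt π V P n G m` at a closed point `n` (LocGMulti);
* `exists_normal` : a normal form of `G` at `n` from the (B1) cuts (`Loc36.normal_of_gen`);
* `locA_of_torAt`, `locA_of_rel` : the local form `Loc36.LocA` from `TorAt`, resp. from the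
  constants relation of the toric block.

Model layer (`C : Model3Plan.ChartModel3 N A K π ϖ V R`, `T n i := C.P i ≤ n`):
* `normalAt_iff_nf`   : `Loc36.NormalAt` is `ToricAsm.NF` (definitionally);
* `nf_of_chartModel3` : a normal form `ToricAsm.NF` of `G` at every closed point of the special
                        fibre, normalised on a chosen branch, constants `m`-th roots of unity;
* `TorIn`, `chartTor_of_chartModel3` : the structure `ToricAsm.ChartTor` of the chart, from the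
                        model, the incidence statement `triple` and the two toric relations;
* `exists_corrector_of_model3` : for a `Model3`, ONE corrector `H` such that
                        `G ^ ((q+1)(q-1)) * H ^ m` is `≡ 1` modulo `π V` and has
                        `AbsTopN.LocForm` at every closed point of both charts (the inputs of
                        `CoreAsm3.hypN_of_model3`);
* `exists_hypN_of_model3` : the resulting `AbsTopN.HypN` for `G ^ ((q+1)(q-1)) * H ^ m`;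
* `exists_primitiveRoot_OK` : a primitive `m`-th root of unity in `O = A ∩ K` (`q ∤ m`).
-/
import Mathlib
import Fermat.Agent.S35.RootConst
import Fermat.Agent.S36.Loc36
import Fermat.Agent.S36.Chart3Facts
import Fermat.Agent.S36.LocGMulti
import Fermat.Agent.S36.HorGen3
import Fermat.Agent.S36.Fact3
import Fermat.Agent.S36.ToricAsm
import Fermat.Agent.S36.Sep3
import Fermat.Agent.S36.CoreAsm3

set_option autoImplicit false
set_option linter.unusedSectionVars false

namespace Fermat.Agent.S36.Loc36Chart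

open Fermat.Agent.S34 Fermat.Agent.S34.LocPlan Fermat.Agent.S36 Fermat.Agent.S36.Model3Plan

/-! ### Abstract layer -/

section Abs

variable {O : Type*} [CommRing O] {R : Type*} [CommRing R] [IsDomain R] [Algebra O R]
  {E : Type*} [Field E] [Algebra R E] [IsFractionRing R E] {π : O} {e : Fin 3 → ℕ}
  {ϖ : Fin 3 → E} {V : Fin 3 → ValuationSubring E} {P : Fin 3 → Ideal R}

/-- The point hypotheses of `S36/Loc36.lean` hold at every prime `n ∋ π` of a chart. -/
theorem ptHyp (hV : ValHyp3 (algebraMap R E (algebraMap O R π)) e ϖ V)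
    (hC : ChartHyp3 π ϖ V P) (hp0 : algebraMap R E (algebraMap O R π) ≠ 0)
    (n : Ideal R) (hn : n.IsPrime) (hπn : algebraMap O R π ∈ n) :
    Loc36.PtHyp V P (algebraMap O R π) n where
  prime := hn
  mem := hπn
  ne := Chart3Facts.pi_ne_zero hp0
  le := hC.le
  nonunit := fun i _ => Chart3Facts.val_p_lt_one hV i
  far := fun j hj => Chart3Facts.far hV hC n j hj
  near := fun i hi => Chart3Facts.near hV hC n i hi

/-- **[LocG3] at a closed point of a chart**: every presentation `G = g ^ m * u` (`u` a unit of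
`R_n`) of a function `G ≡ 1` modulo `π (V i)` can be brought to a normal form at `n`. -/
theorem locGAt [IsDomain O] [IsDiscreteValuationRing O] [IsNoetherianRing R]
    (hV : ValHyp3 (algebraMap R E (algebraMap O R π)) e ϖ V)
    (hC : ChartHyp3 π ϖ V P) (hp0 : algebraMap R E (algebraMap O R π) ≠ 0)
    (hπ : Irreducible π) (n : Ideal R) (hn : n.IsMaximal)
    (hbranch : ∀ i, P i ≤ n → (∃ x ∈ n, x ∉ P i) ∧
      ∃ u ∈ n, ∀ x ∈ n, ∃ s : R, s ∉ n ∧ ∃ c : R, s * x - c * u ∈ P i)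
    {m : ℕ} (hm : 0 < m) (hmn : (m : R) ∉ n)
    (hroot : ∀ x : R, x ^ m - 1 ∈ n → ∃ c : O, x - algebraMap O R c ∈ n) (G : E)
    (hcong : ∀ i, P i ≤ n → ∃ z ∈ V i, G - 1 = algebraMap R E (algebraMap O R π) * z) :
    Loc36.LocGAt π V P n G m := by
  intro g u _ hGgu hu i₀ hi₀
  obtain ⟨g₀, γ, hg₀, hγ₀, hγm, hγ, hloc⟩ :=
    LocGMulti.locGMulti_pred V (fun i => P i ≤ n) hπ hn hm hmn
      (fun i _ => hC.le i)
      (fun i hi r hr => hi ((Chart3Facts.mem_P_iff hV hC i r).2 hr))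
      (fun i _ => Chart3Facts.val_p_lt_one hV i)
      (fun i _ => ⟨e i, fun x hx =>
        Chart3Facts.pow_e_eq hV hp0 i ((Chart3Facts.val_lt_one_iff hV i x).1 hx)⟩)
      (fun i _ => Chart3Facts.res hV hC i)
      (fun i hi => Chart3Facts.branch hV hC n i (hbranch i hi))
      (Chart3Facts.desc_at hV hC hp0 n hn.isPrime)
      hroot hGgu hu hcong i₀ hi₀
  exact ⟨g₀, γ, hγ₀, fun i _ => hγm i, hg₀, hγ, hloc⟩

/-- **A normal form at a closed point of a chart**, from the (B1) cuts at the horizontal primes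
through `n` and `m ∣ ord` there, normalised on a chosen branch `i₀` through `n`. -/
theorem exists_normal [IsDomain O] [IsDiscreteValuationRing O] [IsNoetherianRing R]
    [IsIntegrallyClosed R]
    (hV : ValHyp3 (algebraMap R E (algebraMap O R π)) e ϖ V)
    (hC : ChartHyp3 π ϖ V P) (hp0 : algebraMap R E (algebraMap O R π) ≠ 0)
    (hπ : Irreducible π) (n : Ideal R) (hn : n.IsMaximal) (hπn : algebraMap O R π ∈ n)
    (hbranch : ∀ i, P i ≤ n → (∃ x ∈ n, x ∉ P i) ∧
      ∃ u ∈ n, ∀ x ∈ n, ∃ s : R, s ∉ n ∧ ∃ c : R, s * x - c * u ∈ P i)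
    {m : ℕ} (hm : 0 < m) (hmn : (m : R) ∉ n)
    (hroot : ∀ x : R, x ^ m - 1 ∈ n → ∃ c : O, x - algebraMap O R c ∈ n) {G : E} (hG : G ≠ 0)
    (hcong : ∀ i, P i ≤ n → ∃ z ∈ V i, G - 1 = algebraMap R E (algebraMap O R π) * z)
    (hhor : ∀ 𝔮 : Ideal R, 𝔮.IsPrime → 𝔮 ≤ n → algebraMap O R π ∉ 𝔮 → PrincAt 𝔮 →
      (∃ x : E, x ≠ 0 ∧ UnitAt 𝔮 (G * x ^ m)) ∧ ∃ e : R, NakPlan.GenAt n 𝔮 e)
    {i₀ : Fin 3} (hi₀ : P i₀ ≤ n) :
    ∃ (g₀ : E) (γ : Fin 3 → O), γ i₀ = 1 ∧ (∀ i, P i ≤ n → π ∣ γ i ^ m - 1) ∧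
      Loc36.NormalAt π V P n G m g₀ γ :=
  Loc36.normal_of_gen (ptHyp hV hC hp0 n hn.isPrime hπn) hm hG (Chart3Facts.cen hV hC)
    (Chart3Facts.non hV hC) (Chart3Facts.pi_mem_P hV hC)
    (fun 𝔮 h𝔮 _ hπ𝔮 hP => Chart3Facts.vert hV hC hp0 𝔮 h𝔮 hπ𝔮 hP) hcong hhor
    (locGAt hV hC hp0 hπ n hn hbranch hm hmn hroot G hcong) hi₀

/-- **[LOC36], `TorAt` shape**: the local form of `G` at a closed point `n` of a chart, from the
(B1) cuts, `m ∣ ord` at the horizontal primes, `G ≡ 1` and `TorAt`. -/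
theorem locA_of_torAt [IsDomain O] [IsDiscreteValuationRing O] [IsNoetherianRing R]
    [IsIntegrallyClosed R]
    (hV : ValHyp3 (algebraMap R E (algebraMap O R π)) e ϖ V)
    (hC : ChartHyp3 π ϖ V P) (hp0 : algebraMap R E (algebraMap O R π) ≠ 0)
    (hπ : Irreducible π) (n : Ideal R) (hn : n.IsMaximal) (hπn : algebraMap O R π ∈ n)
    (hbranch : ∀ i, P i ≤ n → (∃ x ∈ n, x ∉ P i) ∧
      ∃ u ∈ n, ∀ x ∈ n, ∃ s : R, s ∉ n ∧ ∃ c : R, s * x - c * u ∈ P i)
    {m : ℕ} (hm : 0 < m) (hmn : (m : R) ∉ n)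
    (hroot : ∀ x : R, x ^ m - 1 ∈ n → ∃ c : O, x - algebraMap O R c ∈ n) {G : E} (hG : G ≠ 0)
    (hcong : ∀ i, P i ≤ n → ∃ z ∈ V i, G - 1 = algebraMap R E (algebraMap O R π) * z)
    (hhor : ∀ 𝔮 : Ideal R, 𝔮.IsPrime → 𝔮 ≤ n → algebraMap O R π ∉ 𝔮 → PrincAt 𝔮 →
      (∃ x : E, x ≠ 0 ∧ UnitAt 𝔮 (G * x ^ m)) ∧ ∃ e : R, NakPlan.GenAt n 𝔮 e)
    (hTor : Loc36.TorAt V P n G m) : Loc36.LocA V (algebraMap O R π) n G m := by
  obtain ⟨i₀, hi₀⟩ := Chart3Facts.exists_le hV hC hp0 n hn.isPrime hπn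
  obtain ⟨g₀, γ, hγ₀, hγm, hN⟩ :=
    exists_normal hV hC hp0 hπ n hn hπn hbranch hm hmn hroot hG hcong hhor hi₀
  refine Loc36.locA_of_torAt (ptHyp hV hC hp0 n hn.isPrime hπn) ?_ hm hN hγm hi₀ hγ₀ hTor
  -- a constant in `n` is divisible by `π`
  intro c hc
  by_contra hdvd
  have hu : IsUnit c := by
    rw [← IsLocalRing.notMem_maximalIdeal, hπ.maximalIdeal_eq, Ideal.mem_span_singleton]
    exact hdvd
  exact hn.ne_top (Ideal.eq_top_of_isUnit_mem n hc (hu.map (algebraMap O R)))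

/-- **[LOC36], toric-relation shape**: the local form of `G ^ N * H ^ m` at a closed point `n` of
a chart, from the (B1) cuts for `G`, a corrector `H ≡ c i` (constants) on the branches through
`n`, and the constants relation for the normal forms of `G` at `n`. -/
theorem locA_of_rel [IsDomain O] [IsDiscreteValuationRing O] [IsNoetherianRing R]
    [IsIntegrallyClosed R]
    (hV : ValHyp3 (algebraMap R E (algebraMap O R π)) e ϖ V)
    (hC : ChartHyp3 π ϖ V P) (hp0 : algebraMap R E (algebraMap O R π) ≠ 0)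
    (hπ : Irreducible π) (n : Ideal R) (hn : n.IsMaximal) (hπn : algebraMap O R π ∈ n)
    (hbranch : ∀ i, P i ≤ n → (∃ x ∈ n, x ∉ P i) ∧
      ∃ u ∈ n, ∀ x ∈ n, ∃ s : R, s ∉ n ∧ ∃ c : R, s * x - c * u ∈ P i)
    {m : ℕ} (hm : 0 < m) (hmn : (m : R) ∉ n)
    (hroot : ∀ x : R, x ^ m - 1 ∈ n → ∃ c : O, x - algebraMap O R c ∈ n) {G : E} (hG : G ≠ 0)
    (hcong : ∀ i, P i ≤ n → ∃ z ∈ V i, G - 1 = algebraMap R E (algebraMap O R π) * z)
    (hhor : ∀ 𝔮 : Ideal R, 𝔮.IsPrime → 𝔮 ≤ n → algebraMap O R π ∉ 𝔮 → PrincAt 𝔮 →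
      (∃ x : E, x ≠ 0 ∧ UnitAt 𝔮 (G * x ^ m)) ∧ ∃ e : R, NakPlan.GenAt n 𝔮 e)
    (N : ℕ) (Hc : E) (hH0 : Hc ≠ 0) (c : Fin 3 → O)
    (hH : ∀ i, P i ≤ n → ∃ z ∈ V i, Hc - algebraMap R E (algebraMap O R (c i)) =
      algebraMap R E (algebraMap O R π) * z)
    (hrel : ∀ (g₀ : E) (γ : Fin 3 → O), (∀ i, P i ≤ n → π ∣ γ i ^ m - 1) →
      Loc36.NormalAt π V P n G m g₀ γ →
      ∃ κ : O, algebraMap R E (algebraMap O R κ) ≠ 0 ∧ π ∣ κ ^ m - 1 ∧
        ∀ i, P i ≤ n → π ∣ γ i ^ N * c i * κ - 1) :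
    Loc36.LocA V (algebraMap O R π) n (G ^ N * Hc ^ m) m := by
  obtain ⟨i₀, hi₀⟩ := Chart3Facts.exists_le hV hC hp0 n hn.isPrime hπn
  obtain ⟨g₀, γ, -, hγm, hN⟩ :=
    exists_normal hV hC hp0 hπ n hn hπn hbranch hm hmn hroot hG hcong hhor hi₀
  obtain ⟨κ, hκ0, hκm, hκ⟩ := hrel g₀ γ hγm hN
  exact Loc36.locA_of_fix (ptHyp hV hC hp0 n hn.isPrime hπn) hN N Hc hH0 c hH κ hκ0 hκm hκ

end Abs

/-! ### Model layer -/

section Model

open Fermat.Agent.S18.Arith

variable {N : ℕ} [NeZero N] {A : ValuationSubring Qb} {K : IntermediateField ℚ Qb}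
  {π : OK A K} {e : Fin 3 → ℕ} {ϖ : Fin 3 → FK N K} {V : Fin 3 → ValuationSubring (FK N K)}
  {R : Subalgebra (OK A K) (FK N K)}

/-- The image of the uniformizer in `F_K` (through a chart) is nonzero. -/
theorem pi_ne_zero (hπ : Irreducible π) :
    algebraMap R (FK N K) (algebraMap (OK A K) R π) ≠ 0 := by
  have hinjOE : Function.Injective (algebraMap (OK A K) (FK N K)) := by
    have h1 : Function.Injective (constK N K) := (constK N K).injective
    have h2 : Function.Injective (OK A K).subtype := Subtype.val_injective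
    exact h1.comp h2
  intro h0
  exact hπ.ne_zero (hinjOE (by rw [map_zero]; exact h0))

/-- For a chart `R : Subalgebra O E`, `Loc36.NormalAt` is `ToricAsm.NF` with
`T i := P i ≤ n`. -/
theorem normalAt_iff_nf [IsDiscreteValuationRing (OK A K)] (P : Fin 3 → Ideal R) (n : Ideal R)
    (G : FK N K) (m : ℕ) (g₀ : FK N K) (γ : Fin 3 → OK A K) :
    Loc36.NormalAt π V P n G m g₀ γ ↔ ToricAsm.NF R π V m G n (fun i => P i ≤ n) g₀ γ :=
  Iff.rfl

/-- **The `nf` field of `ToricAsm.ChartTor` from the model**: at every closed point `n` of the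
special fibre of a chart of the model, a function `G ≡ 1` modulo `π V` with `m ∣ ord_𝔮 G` at the
horizontal primes has a normal form, normalised on any chosen branch `i₀` through `n`, whose
constants are `m`-th roots of unity modulo `π`.  (`m` a unit of `O`, and `O` contains a
primitive `m`-th root of unity.) -/
theorem nf_of_chartModel3 [IsDiscreteValuationRing (OK A K)] (C : ChartModel3 N A K π ϖ V R)
    (hV : ValHyp3 (algebraMap (OK A K) (FK N K) π) e ϖ V) (hπ : Irreducible π)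
    {m : ℕ} (hm : 0 < m) (hmO : IsUnit ((m : ℕ) : OK A K)) {ζ : OK A K}
    (hζ : IsPrimitiveRoot ζ m) {G : FK N K}
    (hG : OneMod (algebraMap (OK A K) (FK N K) π) V G) (hHor : Hor3 π m G R)
    (n : Ideal R) (hn : n.IsMaximal) (hπn : algebraMap (OK A K) R π ∈ n)
    {i₀ : Fin 3} (hi₀ : C.P i₀ ≤ n) :
    ∃ (g₀ : FK N K) (γ : Fin 3 → OK A K), γ i₀ = 1 ∧ (∀ i, C.P i ≤ n → π ∣ γ i ^ m - 1) ∧
      ToricAsm.NF R π V m G n (fun i => C.P i ≤ n) g₀ γ := by
  have := C.noeth
  have := C.frac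
  have := C.intcl
  obtain ⟨g, u, hg, hGgu, hu, -⟩ := HorGen3.exists_local_datum Fact3.factStatement C hV
    hπ.ne_zero m hm G hG hHor n hn hπn
  have hV' : ValHyp3 (algebraMap R (FK N K) (algebraMap (OK A K) R π)) e ϖ V := hV
  have hp0 : algebraMap R (FK N K) (algebraMap (OK A K) R π) ≠ 0 := pi_ne_zero hπ
  have hmn : ((m : ℕ) : R) ∉ n := by
    intro hmem
    have h1 : ((m : ℕ) : R) = algebraMap (OK A K) R ((m : ℕ) : OK A K) := by
      rw [map_natCast]
    rw [h1] at hmem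
    exact hn.ne_top (Ideal.eq_top_of_isUnit_mem n hmem (hmO.map (algebraMap (OK A K) R)))
  have hroot : ∀ x : R, x ^ m - 1 ∈ n → ∃ c : OK A K, x - algebraMap (OK A K) R c ∈ n := by
    intro x hx
    obtain ⟨c, -, hc⟩ :=
      Fermat.Agent.S35.RootConst.exists_const_of_pow_sub_one_mem hm hζ n hn.isPrime x hx
    exact ⟨c, hc⟩
  exact locGAt hV' C.hyp hp0 hπ n hn (C.branch n hn hπn) hm hmn hroot G
    (fun i _ => hG i) g u hg hGgu hu i₀ hi₀

/-- **The toric inputs on one chart of the model** (what the incidence block [INC3] and the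
toric block supply): two branches through a closed point force all three, and the two relations
between the constants of any normal form at a triple point (the conclusions of `ToricRel.rel`
for the norms along `α` and `β`). -/
structure TorIn (C : ChartModel3 N A K π ϖ V R) (q m : ℕ) (G : FK N K)
    (ηα ηβ : Fin 2 → OK A K) : Prop where
  triple : ∀ n : Ideal R, n.IsMaximal → algebraMap (OK A K) R π ∈ n →
    ∀ i j, i ≠ j → C.P i ≤ n → C.P j ≤ n → ∀ l, C.P l ≤ n
  relα : ∀ n : Ideal R, n.IsMaximal → algebraMap (OK A K) R π ∈ n → (∀ l, C.P l ≤ n) →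
    ∀ (g₀ : FK N K) (γ : Fin 3 → OK A K), ToricAsm.NF R π V m G n (fun i => C.P i ≤ n) g₀ γ →
      π ∣ ηα 0 * γ 1 ^ q - ηα 1 * (γ 0 * γ 2 ^ (q - 1))
  relβ : ∀ n : Ideal R, n.IsMaximal → algebraMap (OK A K) R π ∈ n → (∀ l, C.P l ≤ n) →
    ∀ (g₀ : FK N K) (γ : Fin 3 → OK A K), ToricAsm.NF R π V m G n (fun i => C.P i ≤ n) g₀ γ →
      π ∣ ηβ 0 * (γ 1 * γ 2 ^ (q - 1)) - ηβ 1 * γ 0 ^ q

/-- **`ToricAsm.ChartTor` from the model**: for a chart `C` of the model, a function `G ≡ 1`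
modulo `π V` with `m ∣ ord_𝔮 G` at the horizontal primes, and the toric inputs `TorIn`, all the
fields of `ToricAsm.ChartTor` hold with `T n i := C.P i ≤ n`. -/
theorem chartTor_of_chartModel3 [IsDiscreteValuationRing (OK A K)]
    (C : ChartModel3 N A K π ϖ V R)
    (hV : ValHyp3 (algebraMap (OK A K) (FK N K) π) e ϖ V) (hπ : Irreducible π)
    {q m : ℕ} (hm : 0 < m) (hmO : IsUnit ((m : ℕ) : OK A K)) {ζ : OK A K}
    (hζ : IsPrimitiveRoot ζ m) {G : FK N K}
    (hG : OneMod (algebraMap (OK A K) (FK N K) π) V G) (hHor : Hor3 π m G R)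
    {ηα ηβ : Fin 2 → OK A K} (hT : TorIn C q m G ηα ηβ) :
    ToricAsm.ChartTor R π V q m G ηα ηβ (fun n i => C.P i ≤ n) := by
  have := C.frac
  have hV' : ValHyp3 (algebraMap R (FK N K) (algebraMap (OK A K) R π)) e ϖ V := hV
  have hp0 : algebraMap R (FK N K) (algebraMap (OK A K) R π) ≠ 0 := pi_ne_zero hπ
  refine
    { frac := C.frac
      le := fun i x hx => C.hyp.le i ⟨x, hx⟩
      near := fun n _ _ i hi => Chart3Facts.near hV' C.hyp n i hi
      far := fun n _ _ i hi => Chart3Facts.far hV' C.hyp n i hi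
      triple := hT.triple
      nf := ?_
      relα := hT.relα
      relβ := hT.relβ }
  intro n hn hπn
  obtain ⟨i₀, hi₀⟩ := Chart3Facts.exists_le hV' C.hyp hp0 n hn.isPrime hπn
  obtain ⟨g₀, γ, -, -, hNF⟩ := nf_of_chartModel3 C hV hπ hm hmO hζ hG hHor n hn hπn hi₀
  exact ⟨g₀, γ, hNF⟩

/-- **[TORIC36] + [LOC36] for the model** (the local half of the chain `f ↦ G`): from the model,
a function `G ≡ 1` modulo `π V` with `m ∣ ord_𝔮 G` at the horizontal primes of both charts, and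
the toric inputs on both charts, ONE corrector `H`: the function
`G ^ ((q+1)(q-1)) * H ^ m` is `≡ 1` modulo `π V` and has the local form `AbsTopN.LocForm` at
every closed point of the special fibre of both charts — the inputs `hG`, `hloc0`, `hlocInf` of
`CoreAsm3.hypN_of_model3`. -/
theorem exists_corrector_of_model3 [IsDiscreteValuationRing (OK A K)] {t : FK N K}
    (Md : Model3 N A K π e ϖ V t) {q m : ℕ} (hq : 0 < q) (hm : 0 < m)
    (hmO : IsUnit ((m : ℕ) : OK A K)) {ζ : OK A K} (hζ : IsPrimitiveRoot ζ m) {G : FK N K}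
    (hG : OneMod (algebraMap (OK A K) (FK N K) π) V G)
    (hHor0 : Hor3 π m G (chart N A K t)) (hHorInf : Hor3 π m G (chart N A K t⁻¹))
    {ηα ηβ : Fin 2 → OK A K} (hηα : ¬ π ∣ ηα 0) (hηβ : ¬ π ∣ ηβ 0)
    (hT0 : TorIn Md.c0 q m G ηα ηβ) (hTInf : TorIn Md.cInf q m G ηα ηβ) :
    ∃ H : FK N K, H ≠ 0 ∧
      OneMod (algebraMap (OK A K) (FK N K) π) V (G ^ ((q + 1) * (q - 1)) * H ^ m) ∧
      (∀ n : Ideal (chart N A K t), n.IsMaximal →
        algebraMap (OK A K) (chart N A K t) π ∈ n →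
        AbsTopN.LocForm (chart N A K t) π V (G ^ ((q + 1) * (q - 1)) * H ^ m) m n) ∧
      (∀ n : Ideal (chart N A K t⁻¹), n.IsMaximal →
        algebraMap (OK A K) (chart N A K t⁻¹) π ∈ n →
        AbsTopN.LocForm (chart N A K t⁻¹) π V (G ^ ((q + 1) * (q - 1)) * H ^ m) m n) := by
  obtain ⟨s, hS⟩ := Sep3.exists_sep Md.val
  have h0 := chartTor_of_chartModel3 Md.c0 Md.val Md.irr hm hmO hζ hG hHor0 hT0
  have hinf := chartTor_of_chartModel3 Md.cInf Md.val Md.irr hm hmO hζ hG hHorInf hTInf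
  have hOV : ∀ i (x : OK A K), algebraMap (OK A K) (FK N K) x ∈ V i :=
    fun i x => h0.le i _ ((chart N A K t).algebraMap_mem x)
  have hπV : ∀ i, (algebraMap (OK A K) (FK N K) π)⁻¹ ∉ V i := by
    intro i h
    have h1 : (V i).valuation (algebraMap (OK A K) (FK N K) π) < 1 :=
      Chart3Facts.val_p_lt_one' Md.val i
    have h2 : (V i).valuation (algebraMap (OK A K) (FK N K) π)⁻¹ ≤ 1 :=
      ((V i).valuation_le_one_iff _).2 h
    have hp0 : algebraMap (OK A K) (FK N K) π ≠ 0 := pi_ne_zero (R := chart N A K t) Md.irr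
    have hpos : 0 < (V i).valuation (algebraMap (OK A K) (FK N K) π) :=
      zero_lt_iff.2 ((Valuation.ne_zero_iff _).2 hp0)
    rw [map_inv₀, inv_le_one₀ hpos] at h2
    exact absurd h1 (not_lt.2 h2)
  obtain ⟨H, hH0, hw, hloc⟩ := ToricAsm.exists_corrector (𝒞 := Bool)
    (fun b => Bool.rec (chart N A K t⁻¹) (chart N A K t) b) π Md.irr V hS hOV hπV q m hq hm G hG
    ηα ηβ hηα hηβ
    (fun b => Bool.rec (motive := fun b =>
      Ideal ((Bool.rec (chart N A K t⁻¹) (chart N A K t) b :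
        Subalgebra (OK A K) (FK N K))) → Fin 3 → Prop)
      (fun n i => Md.cInf.P i ≤ n) (fun n i => Md.c0.P i ≤ n) b)
    (fun b => by cases b; exacts [hinf, h0])
  exact ⟨H, hH0, hw, fun n hn hπn => hloc true n hn hπn, fun n hn hπn => hloc false n hn hπn⟩

/-- **The complete input of the Čech block for the corrected function**: `CoreAsm3.hypN_of_model3`
fed with `exists_corrector_of_model3`. -/
theorem exists_hypN_of_model3 [IsDiscreteValuationRing (OK A K)] {t : FK N K}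
    (Md : Model3 N A K π e ϖ V t) {q m : ℕ} (hq : 0 < q)
    (hmO : IsUnit ((m : ℕ) : OK A K)) {ζ : OK A K} (hζ : IsPrimitiveRoot ζ m) {G : FK N K}
    (hG : OneMod (algebraMap (OK A K) (FK N K) π) V G)
    (hHor0 : Hor3 π m G (chart N A K t)) (hHorInf : Hor3 π m G (chart N A K t⁻¹))
    {ηα ηβ : Fin 2 → OK A K} (hηα : ¬ π ∣ ηα 0) (hηβ : ¬ π ∣ ηβ 0)
    (hT0 : TorIn Md.c0 q m G ηα ηβ) (hTInf : TorIn Md.cInf q m G ηα ηβ) :
    ∃ H : FK N K, H ≠ 0 ∧
      AbsTopN.HypN π m t (chart N A K t) (chart N A K t⁻¹) V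
        (G ^ ((q + 1) * (q - 1)) * H ^ m) := by
  have hm : 0 < m := by
    rcases Nat.eq_zero_or_pos m with h | h
    · exfalso
      rw [h, Nat.cast_zero] at hmO
      exact not_isUnit_zero hmO
    · exact h
  obtain ⟨H, hH0, hw, hl0, hlInf⟩ :=
    exists_corrector_of_model3 Md hq hm hmO hζ hG hHor0 hHorInf hηα hηβ hT0 hTInf
  exact ⟨H, hH0, CoreAsm3.hypN_of_model3 Md hmO hw hl0 hlInf⟩

/-- A primitive `m`-th root of unity in `O = A ∩ K`, for `m` prime to the residue characteristic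
(from `BaseFacts.roots`). -/
theorem exists_primitiveRoot_OK {q : ℕ} [Fact q.Prime] (hB : BaseFacts q A K) {m : ℕ}
    (hm : m ≠ 0) (hqm : ¬ q ∣ m) : ∃ ζ : OK A K, IsPrimitiveRoot ζ m := by
  haveI : NeZero m := ⟨hm⟩
  obtain ⟨ζ₀, hζ₀⟩ := HasEnoughRootsOfUnity.exists_primitiveRoot Qb m
  have hK : ζ₀ ∈ K := hB.roots m ζ₀ hqm hζ₀.pow_eq_one
  have hA : ζ₀ ∈ A := by
    rw [← A.valuation_le_one_iff]
    refine le_of_eq ((pow_eq_one_iff_of_nonneg zero_le hm).1 ?_)
    rw [← map_pow, hζ₀.pow_eq_one, map_one]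
  refine ⟨⟨⟨ζ₀, hK⟩, hA⟩, ?_⟩
  have hinj : Function.Injective (incO A K) := by
    have h1 : Function.Injective (algebraMap K Qb) := (algebraMap K Qb).injective
    have h2 : Function.Injective (OK A K).subtype := Subtype.val_injective
    exact h1.comp h2
  exact IsPrimitiveRoot.of_map_of_injective (f := incO A K) hζ₀ hinj

end Model

end Fermat.Agent.S36.Loc36Chart
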