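/-
S36 — Loc3B.lean (helper52).  B-copy of block [Loc3] = [LOC36] + [FIX3] of the architect's plan
(A-copy: helper89, `S36/Loc3.lean`): the LOCAL input of the Čech block at a closed point `n` of
a chart `R`, for an arbitrary finite family of component valuation rings `V i ⊇ R`
(multiplicities allowed).

Statement (`exists_locA3`, the signature of record of the A-copy): if `w ≡ 1` modulo `ϖ (V i)`
for every `i`, and `g₀` is a local `m`-th root of `w⁻¹` up to a unit at `n` (`w g₀ ^ m ∈ R_nˣ`)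
whose first-order values on the branches through `n` are regular at `n` and all equal to `c (n)`
(trivial gluing ratios), then there is `a ≡ 1` modulo `ϖ (V i)` for ALL `i` with
`w a ^ m ∈ 1 + ϖ R_n` — the conclusion of `S34.LocPlan.LocAStatement` for a finite family.

Route of this copy (independent of the A-copy: no quotient of `R_n`, no product of the
`V i / ϖ`):
* `exists_linear_mem_span`  — polynomial Nakayama over a local ring `A`: if `G` is monic,
  `G ≡ (X - c) ^ e` and `H ≡ (X - c) Q` modulo `𝔪` with `Q (c) ∉ 𝔪`, then `X - ρ ∈ (G, H)` for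
  some `ρ ≡ c`;
* `exists_root_linear`      — the case `H = X ^ m - u`, `u ≡ c ^ m`, `m`, `c` units;
* `regAt_of_near`           — local descent at `n` (`z ∈ V i` on the branches through `n` and
  `ϖ z ∈ R_n` imply `z ∈ R_n`) from the global descent `R ∩ ϖ ⋂ V i = ϖ R`;
* `exists_unit_lift`        — multi-branch unit lifting: `ρ ∈ R_nˣ` with `g₀ ≡ ρ` modulo
  `ϖ (V i)` on every branch through `n` (apply the polynomial Nakayama in
  `A = Localization.AtPrime n` to `G = (∏ (X - β i)) ^ L`, `H = X ^ m - u` and evaluate at `g₀`);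
* `exists_locA3`            — the statement, with `S36.SmoothFixN.smoothFixN` (helper22) for the
  components not through `n`.
-/
import Mathlib
import Fermat.Agent.S34.LocPlan
import Fermat.Agent.S36.SmoothFixN

set_option autoImplicit false

open Polynomial

namespace Fermat.Agent.S36.Loc3B

/-- **Polynomial Nakayama.**  `A` local with residue field `k`, `G` monic with
`G ≡ (X - c) ^ e` modulo `𝔪`, `e ≠ 0`, and `H ≡ (X - c) * Q̄` modulo `𝔪` with `Q̄ (c) ≠ 0`.
Then the ideal `(G, H)` of `A[X]` contains a monic linear polynomial `X - ρ`, `ρ ≡ c`. -/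
theorem exists_linear_mem_span {A : Type*} [CommRing A] [IsLocalRing A] (G H : A[X]) (c : A)
    (e : ℕ) (he : e ≠ 0) (hG : G.Monic)
    (hGc : G.map (IsLocalRing.residue A) = (X - C (IsLocalRing.residue A c)) ^ e)
    (Qb : (IsLocalRing.ResidueField A)[X])
    (hH : H.map (IsLocalRing.residue A) = (X - C (IsLocalRing.residue A c)) * Qb)
    (hQ : Qb.eval (IsLocalRing.residue A c) ≠ 0) :
    ∃ ρ : A, ρ - c ∈ IsLocalRing.maximalIdeal A ∧
      (X - C ρ : A[X]) ∈ Ideal.span ({G, H} : Set A[X]) := by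
  classical
  set k := IsLocalRing.ResidueField A
  set res := IsLocalRing.residue A with hres
  set cb : k := res c with hcb
  set J : Ideal A[X] := Ideal.span ({G, H} : Set A[X]) with hJ
  have hGJ : G ∈ J := Ideal.subset_span (by simp)
  have hHJ : H ∈ J := Ideal.subset_span (by simp)
  -- Bezout over the residue field
  obtain ⟨e', rfl⟩ : ∃ e', e = e' + 1 := ⟨e - 1, by omega⟩
  have hcop : IsCoprime ((X - C cb : k[X]) ^ e') Qb := by
    apply IsCoprime.pow_left
    rw [(irreducible_X_sub_C cb).coprime_iff_not_dvd]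
    rw [dvd_iff_isRoot]
    exact hQ
  obtain ⟨ab, bb, hab⟩ := hcop
  have hsurj : Function.Surjective (Polynomial.map res) :=
    Polynomial.map_surjective res IsLocalRing.residue_surjective
  obtain ⟨a, rfl⟩ := hsurj ab
  obtain ⟨b, rfl⟩ := hsurj bb
  -- `X - C c ∈ J + 𝔪[X]`
  have hker : ∀ f : A[X], f.map res = 0 →
      f ∈ Ideal.map (C : A →+* A[X]) (IsLocalRing.maximalIdeal A) := by
    intro f hf
    have h1 : f ∈ RingHom.ker (Polynomial.mapRingHom res) := by
      rw [RingHom.mem_ker]; exact hf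
    rw [Polynomial.ker_mapRingHom, IsLocalRing.ker_residue] at h1
    exact h1
  have hXc : (X - C c : A[X]) - (a * G + b * H) ∈
      Ideal.map (C : A →+* A[X]) (IsLocalRing.maximalIdeal A) := by
    apply hker
    rw [Polynomial.map_sub, Polynomial.map_sub, Polynomial.map_add, Polynomial.map_mul,
      Polynomial.map_mul, hGc, hH, Polynomial.map_X, Polynomial.map_C]
    have : (X - C cb : k[X]) = (X - C cb) * (a.map res * (X - C cb) ^ e' + b.map res * Qb) := by
      rw [hab, mul_one]
    rw [sub_eq_zero]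
    conv_lhs => rw [this]
    ring
  -- the quotient module
  set Mq := A[X] ⧸ J
  have hfin : Module.Finite A Mq := by
    have h1 : Module.Finite A (A[X] ⧸ Ideal.span ({G} : Set A[X])) := hG.finite_adjoinRoot
    have hle : Ideal.span ({G} : Set A[X]) ≤ J := by
      rw [Ideal.span_le]
      intro x hx
      rw [Set.mem_singleton_iff.mp hx]
      exact hGJ
    exact Module.Finite.of_surjective (Ideal.Quotient.factorₐ A hle).toLinearMap
      (Ideal.Quotient.factor_surjective hle)
  have hsm : ∀ (r : A) (q : A[X]),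
      (Ideal.Quotient.mk J (C r * q) : Mq) = r • (Ideal.Quotient.mk J q : Mq) := by
    intro r q
    rw [← Polynomial.smul_eq_C_mul]
    rfl
  -- Nakayama
  have hN : (⊤ : Submodule A Mq) ≤ Submodule.span A {(1 : Mq)} := by
    apply Submodule.le_of_le_smul_of_le_jacobson_bot (I := IsLocalRing.maximalIdeal A)
      Module.Finite.fg_top (IsLocalRing.maximalIdeal_le_jacobson _)
    intro x _
    obtain ⟨f, rfl⟩ := Ideal.Quotient.mk_surjective x
    -- `f = f(c) + (X - c) f₁`
    obtain ⟨f₁, hf₁⟩ : (X - C c : A[X]) ∣ f - C (f.eval c) := by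
      rw [dvd_iff_isRoot]
      simp
    have hmem : ∀ g ∈ Ideal.map (C : A →+* A[X]) (IsLocalRing.maximalIdeal A),
        (Ideal.Quotient.mk J g : Mq) ∈
          IsLocalRing.maximalIdeal A • (⊤ : Submodule A Mq) := by
      intro g hg
      rw [Ideal.mem_map_C_iff] at hg
      rw [as_sum_support_C_mul_X_pow g, map_sum]
      refine Submodule.sum_mem _ fun i _ => ?_
      rw [hsm]
      exact Submodule.smul_mem_smul (hg i) Submodule.mem_top
    -- `f = f(c) + (aG + bH) f₁ + μ f₁`
    have hdec : f = C (f.eval c) * 1 + (a * G + b * H) * f₁ +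
        ((X - C c : A[X]) - (a * G + b * H)) * f₁ := by
      have : f = C (f.eval c) + (X - C c) * f₁ := by rw [← hf₁]; ring
      conv_lhs => rw [this]
      ring
    have hJ0 : (Ideal.Quotient.mk J ((a * G + b * H) * f₁) : Mq) = 0 := by
      rw [Ideal.Quotient.eq_zero_iff_mem]
      exact J.mul_mem_right _ (J.add_mem (J.mul_mem_left _ hGJ) (J.mul_mem_left _ hHJ))
    rw [hdec, map_add, map_add, hJ0, add_zero, hsm, map_one]
    refine Submodule.add_mem_sup (Submodule.smul_mem _ _ (Submodule.subset_span rfl)) ?_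
    exact hmem _ (Ideal.mul_mem_right _ _ hXc)
  -- `X ∈ A·1 + J`
  have hX : (Ideal.Quotient.mk J X : Mq) ∈ Submodule.span A {(1 : Mq)} := hN Submodule.mem_top
  obtain ⟨ρ, hρ⟩ := Submodule.mem_span_singleton.mp hX
  have hρJ : (X - C ρ : A[X]) ∈ J := by
    rw [← Ideal.Quotient.eq_zero_iff_mem, map_sub, ← hρ, sub_eq_zero]
    have := hsm ρ 1
    rw [mul_one, map_one] at this
    exact this.symm
  refine ⟨ρ, ?_, hρJ⟩
  -- `ρ ≡ c`: reduce modulo `𝔪` and evaluate at `c̄`
  have hmapJ : ∀ g ∈ J, (g.map res).eval cb = 0 := by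
    intro g hg
    refine Submodule.span_induction ?_ ?_ ?_ ?_ hg
    · intro x hx
      rcases hx with rfl | hx
      · rw [hGc]; simp
      · rw [Set.mem_singleton_iff.mp hx, hH]; simp
    · simp
    · intro x y _ _ hx hy
      rw [Polynomial.map_add, eval_add, hx, hy, add_zero]
    · intro r x _ hx
      rw [smul_eq_mul, Polynomial.map_mul, eval_mul, hx, mul_zero]
  have h0 := hmapJ _ hρJ
  rw [Polynomial.map_sub, Polynomial.map_X, Polynomial.map_C, eval_sub, eval_X, eval_C,
    sub_eq_zero] at h0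
  rw [← IsLocalRing.residue_eq_zero_iff, map_sub, sub_eq_zero]
  exact h0.symm

/-- **Polynomial Nakayama, root form**: `H = X ^ m - u` with `u ≡ c ^ m`, `m` and `c` units. -/
theorem exists_root_linear {A : Type*} [CommRing A] [IsLocalRing A] (G : A[X]) (c u : A)
    (e : ℕ) (he : e ≠ 0) (hG : G.Monic)
    (hGc : G.map (IsLocalRing.residue A) = (X - C (IsLocalRing.residue A c)) ^ e)
    (m : ℕ) (hm : (m : A) ∉ IsLocalRing.maximalIdeal A) (hc : c ∉ IsLocalRing.maximalIdeal A)
    (hu : u - c ^ m ∈ IsLocalRing.maximalIdeal A) :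
    ∃ ρ : A, ρ - c ∈ IsLocalRing.maximalIdeal A ∧
      (X - C ρ : A[X]) ∈ Ideal.span ({G, X ^ m - C u} : Set A[X]) := by
  set res := IsLocalRing.residue A with hres
  set cb := res c with hcb
  have hub : res u = cb ^ m := by
    have := (IsLocalRing.residue_eq_zero_iff _).mpr hu
    rw [map_sub, map_pow, sub_eq_zero] at this
    exact this
  have hcb0 : cb ≠ 0 := fun h => hc ((IsLocalRing.residue_eq_zero_iff c).mp h)
  have hmb : (m : IsLocalRing.ResidueField A) ≠ 0 := by
    intro h
    apply hm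
    rw [← IsLocalRing.residue_eq_zero_iff, map_natCast]
    exact h
  refine exists_linear_mem_span G (X ^ m - C u) c e he hG hGc
    (∑ j ∈ Finset.range m, X ^ j * (C cb) ^ (m - 1 - j)) ?_ ?_
  · rw [Polynomial.map_sub, Polynomial.map_pow, Polynomial.map_X, Polynomial.map_C, hub,
      mul_comm, geom_sum₂_mul, C_pow]
  · rw [eval_finsetSum]
    have : ∀ j ∈ Finset.range m, eval cb (X ^ j * (C cb) ^ (m - 1 - j)) = cb ^ (m - 1) := by
      intro j hj
      rw [eval_mul, eval_pow, eval_pow, eval_X, eval_C, ← pow_add]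
      congr 1
      have := Finset.mem_range.mp hj
      omega
    rw [Finset.sum_congr rfl this, Finset.sum_const, Finset.card_range, nsmul_eq_mul]
    exact mul_ne_zero hmb (pow_ne_zero _ hcb0)

/-! ### Valuation rings -/

section Val

variable {E : Type*} [Field E]

/-- An element of a valuation ring which is not a nonunit has its inverse in the ring. -/
theorem inv_mem_of_notMem_nonunits (V : ValuationSubring E) {x : E} (hx : x ∈ V)
    (hn : x ∉ V.nonunits) : x⁻¹ ∈ V := by
  rw [ValuationSubring.mem_nonunits_iff, not_lt] at hn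
  have h1 : V.valuation x = 1 := le_antisymm ((V.valuation_le_one_iff x).mpr hx) hn
  rw [← V.valuation_le_one_iff, map_inv₀, h1, inv_one]

/-- The nonunits are stable under multiplication by the ring. -/
theorem mul_mem_nonunits (V : ValuationSubring E) {x y : E} (hx : x ∈ V.nonunits)
    (hy : y ∈ V) : x * y ∈ V.nonunits := by
  rw [ValuationSubring.mem_nonunits_iff] at hx ⊢
  rw [map_mul]
  exact mul_lt_one_of_lt_of_le hx ((V.valuation_le_one_iff y).mpr hy)

/-- The nonunits are contained in the ring. -/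
theorem mem_of_mem_nonunits (V : ValuationSubring E) {x : E} (hx : x ∈ V.nonunits) : x ∈ V := by
  rw [ValuationSubring.mem_nonunits_iff] at hx
  exact (V.valuation_le_one_iff x).mp hx.le

end Val

/-! ### The local statement -/

section Main

variable {R : Type*} [CommRing R] [IsDomain R] {E : Type*} [Field E] [Algebra R E]
  [IsFractionRing R E] {ι : Type*} [Finite ι]

/-- The branch `V i` passes through `n`: the centre of `V i` is contained in `n`. -/
def Near (V : ι → ValuationSubring E) (n : Ideal R) (i : ι) : Prop :=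
  ∀ r : R, algebraMap R E r ∈ (V i).nonunits → r ∈ n

omit [IsDomain R] [IsFractionRing R E] [Finite ι] in
/-- On a branch through `n`, the elements of `R` outside `n` are units of `V i`. -/
theorem Near.inv_mem {V : ι → ValuationSubring E} {n : Ideal R} {i : ι} (h : Near V n i)
    (hle : ∀ r : R, algebraMap R E r ∈ V i) {s : R} (hs : s ∉ n) :
    (algebraMap R E s)⁻¹ ∈ V i :=
  inv_mem_of_notMem_nonunits (V i) (hle s) fun hmem => hs (h s hmem)

omit [IsDomain R] in
/-- **Local descent at `n`**: if `z ∈ V i` on the branches through `n` and `ϖ z ∈ R_n`, then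
`z ∈ R_n`. -/
theorem regAt_of_near (V : ι → ValuationSubring E) (ϖ : R) (n : Ideal R) (hn : n.IsPrime)
    (hle : ∀ (i : ι) (r : R), algebraMap R E r ∈ V i)
    (hdesc : ∀ z : E, (∀ i, z ∈ V i) →
      (∃ r : R, algebraMap R E ϖ * z = algebraMap R E r) → ∃ r' : R, z = algebraMap R E r')
    (harch : ∀ i, ∀ a ∈ (V i).nonunits, a ≠ 0 → ∀ x : E, ∃ N : ℕ, a ^ N * x ∈ V i)
    (z : E) (hz : ∀ i, Near V n i → z ∈ V i)
    (hreg : ∃ s : R, s ∉ n ∧ ∃ r : R,
      algebraMap R E s * (algebraMap R E ϖ * z) = algebraMap R E r) :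
    ∃ s : R, s ∉ n ∧ ∃ r : R, algebraMap R E s * z = algebraMap R E r := by
  classical
  cases nonempty_fintype ι
  have hinj : Function.Injective (algebraMap R E) := IsFractionRing.injective R E
  obtain ⟨s, hs, r, hr⟩ := hreg
  -- the far witnesses
  have hd : ∀ i, ∃ d : R, d ∉ n ∧ (¬ Near V n i → algebraMap R E d ∈ (V i).nonunits) := by
    intro i
    by_cases hi : Near V n i
    · exact ⟨1, hn.one_notMem, fun h => absurd hi h⟩
    · unfold Near at hi
      rw [not_forall] at hi
      obtain ⟨d, hd⟩ := hi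
      rw [Classical.not_imp] at hd
      exact ⟨d, hd.2, fun _ => hd.1⟩
  choose d hdn hdfar using hd
  have hK : ∀ i, ∃ K : ℕ, ¬ Near V n i →
      algebraMap R E (d i) ^ K * (algebraMap R E s * z) ∈ V i := by
    intro i
    by_cases hi : Near V n i
    · exact ⟨0, fun h => absurd hi h⟩
    · have hd0 : algebraMap R E (d i) ≠ 0 := by
        intro h0
        apply hdn i
        have : d i = 0 := hinj (h0.trans (map_zero _).symm)
        rw [this]
        exact n.zero_mem
      obtain ⟨K, hK⟩ := harch i _ (hdfar i hi) hd0 (algebraMap R E s * z)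
      exact ⟨K, fun _ => hK⟩
  choose K hK using hK
  set Km : ℕ := ∑ i, K i with hKm
  set Sf : R := ∏ i, d i with hSf
  have hSfn : Sf ∉ n := by
    rw [hSf]
    intro h
    obtain ⟨i, -, hi⟩ := (hn.prod_mem_iff).mp h
    exact hdn i hi
  have hSK : Sf ^ Km ∉ n := fun h => hSfn (hn.mem_of_pow_mem _ h)
  set z' : E := algebraMap R E s * algebraMap R E (Sf ^ Km) * z with hz'
  have hz'V : ∀ i, z' ∈ V i := by
    intro i
    by_cases hi : Near V n i
    · exact (V i).mul_mem _ _ ((V i).mul_mem _ _ (hle i _) (hle i _)) (hz i hi)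
    · have hsplit : Sf = d i * ∏ j ∈ Finset.univ.erase i, d j := by
        rw [hSf, Finset.mul_prod_erase _ _ (Finset.mem_univ i)]
      have hKi : K i ≤ Km := by
        rw [hKm]
        exact Finset.single_le_sum (f := K) (fun _ _ => Nat.zero_le _) (Finset.mem_univ i)
      have e1 : z' = algebraMap R E ((∏ j ∈ Finset.univ.erase i, d j) ^ Km) *
          (algebraMap R E (d i) ^ (Km - K i) *
            (algebraMap R E (d i) ^ K i * (algebraMap R E s * z))) := by
        rw [hz']
        conv_lhs => rw [hsplit, mul_pow, map_mul]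
        have : algebraMap R E (d i ^ Km) =
            algebraMap R E (d i) ^ (Km - K i) * algebraMap R E (d i) ^ K i := by
          rw [map_pow, ← pow_add, Nat.sub_add_cancel hKi]
        rw [this]
        ring
      rw [e1]
      exact (V i).mul_mem _ _ (hle i _)
        ((V i).mul_mem _ _ (pow_mem (hle i _) _) (hK i hi))
  obtain ⟨r', hr'⟩ := hdesc z' hz'V ⟨Sf ^ Km * r, by
    rw [hz', map_mul, ← hr]
    ring⟩
  refine ⟨s * Sf ^ Km, fun h => ?_, r', ?_⟩
  · rcases hn.mem_or_mem h with h | h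
    · exact hs h
    · exact hSK h
  · rw [← hr', hz', map_mul]

omit [IsDomain R] [IsFractionRing R E] [Finite ι] in
/-- Evaluations at an element of `V` of polynomials with coefficients mapped into `V` lie in
`V`. -/
theorem eval₂_mem_of_mem {A : Type*} [CommRing A] (φ : A →+* E) (W : ValuationSubring E)
    (hφ : ∀ x : A, φ x ∈ W) {t : E} (ht : t ∈ W) (q : A[X]) : q.eval₂ φ t ∈ W := by
  rw [eval₂_eq_sum_range]
  exact sum_mem fun k _ => W.mul_mem _ _ (hφ _) (pow_mem ht k)

omit [IsDomain R] in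
/-- **Multi-branch unit lifting**: a local `m`-th root `g₀` of a unit of `R_n` (up to
`w ≡ 1`), whose first-order values on the branches through `n` are regular at `n` and equal to
`c (n)`, is congruent modulo `ϖ (V i)`, on every branch through `n`, to ONE unit `ρ` of `R_n`. -/
theorem exists_unit_lift (V : ι → ValuationSubring E) (ϖ : R) (m : ℕ) (n : Ideal R) (w : E)
    (hle : ∀ (i : ι) (r : R), algebraMap R E r ∈ V i)
    (hϖ : ∀ i, algebraMap R E ϖ ∈ (V i).nonunits)
    (hn : n.IsMaximal) (hm : (m : R) ∉ n)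
    (hnil : ∀ i, ∃ N : ℕ, ∀ x ∈ (V i).nonunits, ∃ z ∈ V i, x ^ N = algebraMap R E ϖ * z)
    (hw : ∀ i, ∃ z ∈ V i, w - 1 = algebraMap R E ϖ * z)
    (g₀ : E) (hu : Fermat.Agent.S34.LocPlan.UnitAt n (w * g₀ ^ m))
    (c : R) (hc : c ∉ n)
    (hbr : ∀ i, Near V n i →
      ∃ a s : R, s ∉ n ∧ a - c * s ∈ n ∧
        g₀ * algebraMap R E s - algebraMap R E a ∈ (V i).nonunits)
    (i₀ : ι) (hi₀ : Near V n i₀) :
    ∃ ρ : E, (∃ a s : R, a ∉ n ∧ s ∉ n ∧ ρ * algebraMap R E s = algebraMap R E a) ∧
      ∀ i, Near V n i → ∃ z ∈ V i, g₀ - ρ = algebraMap R E ϖ * z := by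
  classical
  cases nonempty_fintype ι
  have hnp : n.IsPrime := hn.isPrime
  have hinj : Function.Injective (algebraMap R E) := IsFractionRing.injective R E
  have hne : ∀ s : R, s ∉ n → algebraMap R E s ≠ 0 := by
    intro s hs h0
    apply hs
    have : s = 0 := hinj (h0.trans (map_zero _).symm)
    rw [this]
    exact n.zero_mem
  set p : E := algebraMap R E ϖ with hp
  -- the local ring and its map to `E`
  let A := Localization.AtPrime n
  have hunits : ∀ y : n.primeCompl, IsUnit (algebraMap R E (y : R)) :=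
    fun y => (hne _ y.2).isUnit
  let φ : A →+* E := IsLocalization.lift (M := n.primeCompl) (g := algebraMap R E) hunits
  have hφalg : ∀ r : R, φ (algebraMap R A r) = algebraMap R E r :=
    fun r => IsLocalization.lift_eq hunits r
  have hφmk : ∀ (a : R) (s : n.primeCompl),
      φ (IsLocalization.mk' A a s) * algebraMap R E (s : R) = algebraMap R E a := by
    intro a s
    rw [← hφalg (s : R), ← map_mul, IsLocalization.mk'_spec, hφalg]
  have hφV : ∀ i, Near V n i → ∀ x : A, φ x ∈ V i := by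
    intro i hi x
    obtain ⟨⟨a, s⟩, rfl⟩ := IsLocalization.mk'_surjective n.primeCompl x
    have h1 := hφmk a s
    have h2 : φ (IsLocalization.mk' A a s) = algebraMap R E a * (algebraMap R E (s : R))⁻¹ := by
      rw [← h1, mul_assoc, mul_inv_cancel₀ (hne _ s.2), mul_one]
    rw [h2]
    exact (V i).mul_mem _ _ (hle i a) (hi.inv_mem (hle i) s.2)
  have hφmax : ∀ i, Near V n i → ∀ x : A, φ x ∈ (V i).nonunits →
      x ∈ IsLocalRing.maximalIdeal A := by
    intro i hi x hx
    obtain ⟨⟨a, s⟩, rfl⟩ := IsLocalization.mk'_surjective n.primeCompl x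
    rw [IsLocalization.AtPrime.mk'_mem_maximal_iff A n]
    apply hi a
    rw [← hφmk a s]
    exact mul_mem_nonunits (V i) hx (hle i _)
  -- the data in `A`
  obtain ⟨au, su, hau, hsu, hus⟩ := hu
  set uA : A := IsLocalization.mk' A au (⟨su, hsu⟩ : n.primeCompl) with huA
  have hφu : φ uA = w * g₀ ^ m := by
    have h1 := hφmk au (⟨su, hsu⟩ : n.primeCompl)
    exact mul_right_cancel₀ (hne su hsu) (h1.trans hus.symm)
  set cA : A := algebraMap R A c with hcA
  have hcAmax : cA ∉ IsLocalRing.maximalIdeal A := by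
    rw [hcA, IsLocalization.AtPrime.to_map_mem_maximal_iff A n]
    exact hc
  have hmA : (m : A) ∉ IsLocalRing.maximalIdeal A := by
    have : (m : A) = algebraMap R A (m : R) := (map_natCast (algebraMap R A) m).symm
    rw [this, IsLocalization.AtPrime.to_map_mem_maximal_iff A n]
    exact hm
  have hβ : ∀ i, ∃ β : A, β - cA ∈ IsLocalRing.maximalIdeal A ∧
      (Near V n i → g₀ - φ β ∈ (V i).nonunits) := by
    intro i
    by_cases hi : Near V n i
    · obtain ⟨a, s, hs, has, hg⟩ := hbr i hi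
      refine ⟨IsLocalization.mk' A a (⟨s, hs⟩ : n.primeCompl), ?_, fun _ => ?_⟩
      · have hsu' : IsUnit (algebraMap R A s) :=
          (IsLocalization.AtPrime.isUnit_to_map_iff A n s).mpr hs
        have e1 : (IsLocalization.mk' A a (⟨s, hs⟩ : n.primeCompl) - cA) * algebraMap R A s =
            algebraMap R A (a - c * s) := by
          rw [sub_mul, IsLocalization.mk'_spec, hcA, map_sub, map_mul]
        have h2 : algebraMap R A (a - c * s) ∈ IsLocalRing.maximalIdeal A :=
          (IsLocalization.AtPrime.to_map_mem_maximal_iff A n _).mpr has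
        rw [← e1] at h2
        exact (Ideal.mul_unit_mem_iff_mem _ hsu').mp h2
      · have h1 := hφmk a (⟨s, hs⟩ : n.primeCompl)
        have e2 : g₀ - φ (IsLocalization.mk' A a (⟨s, hs⟩ : n.primeCompl)) =
            (g₀ * algebraMap R E s - algebraMap R E a) * (algebraMap R E s)⁻¹ := by
          rw [← h1]
          field_simp [hne s hs]
        rw [e2]
        exact mul_mem_nonunits (V i) hg (hi.inv_mem (hle i) hs)
    · exact ⟨cA, by rw [sub_self]; exact Ideal.zero_mem _, fun h => absurd h hi⟩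
  choose β hβmax hβV using hβ
  -- `g₀ ∈ V i` on the branches through `n`
  have hgV : ∀ i, Near V n i → g₀ ∈ V i := by
    intro i hi
    have h1 := mem_of_mem_nonunits (V i) (hβV i hi)
    have h2 := (V i).add_mem _ _ h1 (hφV i hi (β i))
    rwa [sub_add_cancel] at h2
  -- the exponents of nilpotency
  choose N hN using hnil
  set L : ℕ := (∑ i, N i) + 1 with hL
  -- the two polynomials
  set F : A[X] := ∏ i, (X - C (β i)) with hF
  set G : A[X] := F ^ L with hG
  have hFm : F.Monic := monic_prod_of_monic _ _ fun i _ => monic_X_sub_C (β i)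
  have hGm : G.Monic := hFm.pow L
  have hGmap : G.map (IsLocalRing.residue A) =
      (X - C (IsLocalRing.residue A cA)) ^ (Fintype.card ι * L) := by
    rw [hG, Polynomial.map_pow, hF, Polynomial.map_prod]
    have : ∀ i ∈ (Finset.univ : Finset ι), (X - C (β i) : A[X]).map (IsLocalRing.residue A) =
        X - C (IsLocalRing.residue A cA) := by
      intro i _
      rw [Polynomial.map_sub, Polynomial.map_X, Polynomial.map_C]
      congr 2
      have := (IsLocalRing.residue_eq_zero_iff _).mpr (hβmax i)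
      rw [map_sub, sub_eq_zero] at this
      exact this
    rw [Finset.prod_congr rfl this, Finset.prod_const, Finset.card_univ, ← pow_mul]
  have he : Fintype.card ι * L ≠ 0 := by
    have hne' : Nonempty ι := ⟨i₀⟩
    have h1 : Fintype.card ι ≠ 0 := Fintype.card_ne_zero
    exact Nat.mul_ne_zero h1 (by rw [hL]; omega)
  -- `u ≡ c ^ m`
  have hucm : uA - cA ^ m ∈ IsLocalRing.maximalIdeal A := by
    have h1 : uA - β i₀ ^ m ∈ IsLocalRing.maximalIdeal A := by
      apply hφmax i₀ hi₀
      obtain ⟨zw, hzw, hwz⟩ := hw i₀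
      have e3 : φ (uA - β i₀ ^ m) = (w - 1) * g₀ ^ m + (g₀ ^ m - φ (β i₀) ^ m) := by
        rw [map_sub, map_pow, hφu]
        ring
      rw [e3]
      refine add_mem ?_ ?_
      · rw [hwz]
        exact mul_mem_nonunits (V i₀) (mul_mem_nonunits (V i₀) (hϖ i₀) hzw)
          (pow_mem (hgV i₀ hi₀) m)
      · rw [← geom_sum₂_mul, mul_comm]
        refine mul_mem_nonunits (V i₀) (hβV i₀ hi₀) ?_
        exact sum_mem fun j _ => (V i₀).mul_mem _ _ (pow_mem (hgV i₀ hi₀) _)
          (pow_mem (hφV i₀ hi₀ _) _)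
    have h2 : β i₀ ^ m - cA ^ m ∈ IsLocalRing.maximalIdeal A :=
      Ideal.mem_of_dvd _ (sub_dvd_pow_sub_pow (β i₀) cA m) (hβmax i₀)
    have := Ideal.add_mem _ h1 h2
    rwa [sub_add_sub_cancel] at this
  -- polynomial Nakayama
  obtain ⟨ρA, hρc, hρJ⟩ := exists_root_linear G cA uA (Fintype.card ι * L) he hGm hGmap m hmA
    hcAmax hucm
  obtain ⟨qa, qb, hqab⟩ := Ideal.mem_span_pair.mp hρJ
  have hρmax : ρA ∉ IsLocalRing.maximalIdeal A := by
    intro h
    apply hcAmax
    have := Ideal.sub_mem _ h hρc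
    rwa [sub_sub_cancel] at this
  -- evaluation at `g₀`
  have hev : g₀ - φ ρA = qa.eval₂ φ g₀ * G.eval₂ φ g₀ + qb.eval₂ φ g₀ * (g₀ ^ m - φ uA) := by
    have h := congrArg (Polynomial.eval₂ φ g₀) hqab
    rw [eval₂_add, eval₂_mul, eval₂_mul] at h
    have h1 : (X ^ m - C uA : A[X]).eval₂ φ g₀ = g₀ ^ m - φ uA := by
      rw [eval₂_sub, eval₂_pow, eval₂_X, eval₂_C]
    have h2 : (X - C ρA : A[X]).eval₂ φ g₀ = g₀ - φ ρA := by
      rw [eval₂_sub, eval₂_X, eval₂_C]
    rw [h1, h2] at h
    exact h.symm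
  have hGev : G.eval₂ φ g₀ = (∏ i, (g₀ - φ (β i))) ^ L := by
    rw [hG, eval₂_pow, hF, eval₂_finsetProd]
    congr 1
    refine Finset.prod_congr rfl fun i _ => ?_
    rw [eval₂_sub, eval₂_X, eval₂_C]
  refine ⟨φ ρA, ?_, ?_⟩
  · obtain ⟨⟨a, s⟩, hρeq⟩ := IsLocalization.mk'_surjective n.primeCompl ρA
    refine ⟨a, s, ?_, s.2, ?_⟩
    · intro ha
      apply hρmax
      rw [← hρeq, IsLocalization.AtPrime.mk'_mem_maximal_iff A n]
      exact ha
    · rw [← hρeq]
      exact hφmk a s
  · intro i hi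
    -- the product is a nonunit of `V i`, so its `L`-th power is in `ϖ (V i)`
    have hprod : (∏ j, (g₀ - φ (β j))) ∈ (V i).nonunits := by
      rw [← Finset.mul_prod_erase _ _ (Finset.mem_univ i)]
      refine mul_mem_nonunits (V i) (hβV i hi) ?_
      exact prod_mem fun j _ => (V i).sub_mem (hgV i hi) (hφV i hi _)
    obtain ⟨z1, hz1, hz1e⟩ := hN i _ hprod
    have hNL : N i ≤ L := by
      rw [hL]
      exact (Finset.single_le_sum (f := N) (fun _ _ => Nat.zero_le _)
        (Finset.mem_univ i)).trans (Nat.le_succ _)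
    have hGV : ∃ z ∈ V i, G.eval₂ φ g₀ = p * z := by
      refine ⟨z1 * (∏ j, (g₀ - φ (β j))) ^ (L - N i),
        (V i).mul_mem _ _ hz1 (pow_mem (mem_of_mem_nonunits (V i) hprod) _), ?_⟩
      rw [hGev, ← mul_assoc, ← hz1e, ← pow_add, Nat.add_sub_cancel' hNL]
    obtain ⟨z2, hz2, hz2e⟩ := hGV
    obtain ⟨zw, hzw, hwz⟩ := hw i
    refine ⟨qa.eval₂ φ g₀ * z2 - qb.eval₂ φ g₀ * (zw * g₀ ^ m),
      (V i).sub_mem ((V i).mul_mem _ _ (eval₂_mem_of_mem φ (V i) (hφV i hi) (hgV i hi) qa) hz2)
        ((V i).mul_mem _ _ (eval₂_mem_of_mem φ (V i) (hφV i hi) (hgV i hi) qb)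
          ((V i).mul_mem _ _ hzw (pow_mem (hgV i hi) m))), ?_⟩
    rw [hev, hz2e, hφu]
    have : g₀ ^ m - w * g₀ ^ m = -((w - 1) * g₀ ^ m) := by ring
    rw [this, hwz]
    ring

end Main

/-- **[Loc3] = [LOC36] + [FIX3]** (signature of record of the A-copy `S36/Loc3.lean`): the local
input of the Čech block at a closed point `n` of the chart `R`, for a finite family of component
valuation rings. -/
theorem exists_locA3
    {R : Type*} [CommRing R] [IsDomain R] {E : Type*} [Field E] [Algebra R E] [IsFractionRing R E]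
    {ι : Type*} [Finite ι] (V : ι → ValuationSubring E) (ϖ : R) (m : ℕ) (n : Ideal R) (w : E)
    (hle : ∀ (i : ι) (r : R), algebraMap R E r ∈ V i)
    (hϖ : ∀ i, algebraMap R E ϖ ∈ (V i).nonunits)
    (hϖ0 : ϖ ≠ 0)
    (hn : n.IsMaximal) (hϖn : ϖ ∈ n) (hm : (m : R) ∉ n)
    (hdesc : ∀ z : E, (∀ i, z ∈ V i) →
      (∃ r : R, algebraMap R E ϖ * z = algebraMap R E r) → ∃ r' : R, z = algebraMap R E r')
    (hnil : ∀ i, ∃ N : ℕ, ∀ x ∈ (V i).nonunits, ∃ z ∈ V i, x ^ N = algebraMap R E ϖ * z)
    (harch : ∀ i, ∀ a ∈ (V i).nonunits, a ≠ 0 → ∀ x : E, ∃ N : ℕ, a ^ N * x ∈ V i)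
    (hw : ∀ i, ∃ z ∈ V i, w - 1 = algebraMap R E ϖ * z)
    (g₀ : E) (hu : Fermat.Agent.S34.LocPlan.UnitAt n (w * g₀ ^ m))
    (c : R) (hc : c ∉ n)
    (hbr : ∀ i, (∀ r : R, algebraMap R E r ∈ (V i).nonunits → r ∈ n) →
      ∃ a s : R, s ∉ n ∧ a - c * s ∈ n ∧
        g₀ * algebraMap R E s - algebraMap R E a ∈ (V i).nonunits) :
    ∃ a : E, (∀ i, ∃ v ∈ V i, a - 1 = algebraMap R E ϖ * v) ∧
      ∃ s : R, s ∉ n ∧ ∃ r : R,
        algebraMap R E s * (w * a ^ m - 1) = algebraMap R E ϖ * algebraMap R E r := by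
  classical
  have hnp : n.IsPrime := hn.isPrime
  have hinj : Function.Injective (algebraMap R E) := IsFractionRing.injective R E
  have hne : ∀ s : R, s ∉ n → algebraMap R E s ≠ 0 := by
    intro s hs h0
    apply hs
    have : s = 0 := hinj (h0.trans (map_zero _).symm)
    rw [this]
    exact n.zero_mem
  set p : E := algebraMap R E ϖ with hp
  have hp0 : p ≠ 0 := fun h => hϖ0 (hinj (h.trans (map_zero _).symm))
  -- there is a branch through `n`
  obtain ⟨i₀, hi₀⟩ : ∃ i₀, Near V n i₀ := by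
    by_contra hcon
    rw [not_exists] at hcon
    obtain ⟨s, hs, r, hr⟩ := regAt_of_near V ϖ n hnp hle hdesc harch p⁻¹
      (fun i hi => absurd hi (hcon i))
      ⟨1, hnp.one_notMem, 1, by rw [mul_inv_cancel₀ hp0, mul_one]⟩
    apply hs
    have h1 : algebraMap R E s = algebraMap R E (r * ϖ) := by
      rw [map_mul, ← hr, mul_assoc, inv_mul_cancel₀ hp0, mul_one]
    rw [hinj h1]
    exact n.mul_mem_left _ hϖn
  -- unit lifting on the branches through `n`
  obtain ⟨ρ, ⟨aρ, sρ, haρ, hsρ, hρe⟩, hρV⟩ := exists_unit_lift V ϖ m n w hle hϖ hn hm hnil hw g₀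
    hu c hc hbr i₀ hi₀
  have hρ0 : ρ ≠ 0 := by
    intro h0
    rw [h0, zero_mul] at hρe
    exact hne aρ haρ hρe.symm
  have hρeq : ρ = algebraMap R E aρ * (algebraMap R E sρ)⁻¹ := by
    rw [← hρe, mul_assoc, mul_inv_cancel₀ (hne sρ hsρ), mul_one]
  have hρinv : ρ⁻¹ = algebraMap R E sρ * (algebraMap R E aρ)⁻¹ := by
    rw [hρeq, mul_inv, inv_inv, mul_comm]
  have hρinvV : ∀ i, Near V n i → ρ⁻¹ ∈ V i := by
    intro i hi
    rw [hρinv]
    exact (V i).mul_mem _ _ (hle i _) (hi.inv_mem (hle i) haρ)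
  -- the local section `a₀ = g₀ / ρ`
  set a₀ : E := g₀ * ρ⁻¹ with ha₀
  have ha₀1 : ∀ i, Near V n i → ∃ v ∈ V i, a₀ - 1 = p * v := by
    intro i hi
    obtain ⟨z, hz, hze⟩ := hρV i hi
    refine ⟨z * ρ⁻¹, (V i).mul_mem _ _ hz (hρinvV i hi), ?_⟩
    have : a₀ - 1 = (g₀ - ρ) * ρ⁻¹ := by
      rw [ha₀, sub_mul, mul_inv_cancel₀ hρ0]
    rw [this, hze, mul_assoc]
  have ha₀V : ∀ i, Near V n i → a₀ ∈ V i := by
    intro i hi
    obtain ⟨v, hv, hve⟩ := ha₀1 i hi
    have : a₀ = 1 + p * v := by rw [← hve]; ring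
    rw [this]
    exact (V i).add_mem _ _ (V i).one_mem
      ((V i).mul_mem _ _ (mem_of_mem_nonunits (V i) (hϖ i)) hv)
  -- `w a₀ ^ m - 1` is regular at `n` ...
  obtain ⟨au, su, hau, hsu, hus⟩ := hu
  have hreg : ∃ s : R, s ∉ n ∧ ∃ r : R,
      algebraMap R E s * (p * ((w * a₀ ^ m - 1) * p⁻¹)) = algebraMap R E r := by
    refine ⟨su * aρ ^ m, fun h => ?_, au * sρ ^ m - su * aρ ^ m, ?_⟩
    · rcases hnp.mem_or_mem h with h | h
      · exact hsu h
      · exact haρ (hnp.mem_of_pow_mem _ h)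
    · have e1 : p * ((w * a₀ ^ m - 1) * p⁻¹) = w * a₀ ^ m - 1 := by
        rw [mul_comm ((w * a₀ ^ m - 1)) p⁻¹, ← mul_assoc, mul_inv_cancel₀ hp0, one_mul]
      have e2 : w * a₀ ^ m = (w * g₀ ^ m) * (ρ⁻¹) ^ m := by
        rw [ha₀, mul_pow, mul_assoc]
      have hsu0 := hne su hsu
      have haρ0 := hne aρ haρ
      rw [e1, e2, hρinv]
      simp only [map_sub, map_mul, map_pow]
      rw [← hus, mul_pow, inv_pow]
      field_simp
  -- ... and divisible by `ϖ` on the branches through `n`
  have hzV : ∀ i, Near V n i → (w * a₀ ^ m - 1) * p⁻¹ ∈ V i := by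
    intro i hi
    obtain ⟨v, hv, hve⟩ := ha₀1 i hi
    obtain ⟨zw, hzw, hwz⟩ := hw i
    have hsum : a₀ ^ m - 1 = (∑ j ∈ Finset.range m, a₀ ^ j) * (a₀ - 1) := by
      have := geom_sum₂_mul a₀ 1 m
      simp only [one_pow, mul_one] at this
      exact this.symm
    have e1 : (w * a₀ ^ m - 1) * p⁻¹ =
        zw * a₀ ^ m + (∑ j ∈ Finset.range m, a₀ ^ j) * v := by
      have h1 : w * a₀ ^ m - 1 = (w - 1) * a₀ ^ m + (a₀ ^ m - 1) := by ring
      have key : w * a₀ ^ m - 1 =
          p * (zw * a₀ ^ m + (∑ j ∈ Finset.range m, a₀ ^ j) * v) := by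
        rw [h1, hsum, hwz, hve]
        ring
      rw [key, mul_comm p, mul_assoc, mul_inv_cancel₀ hp0, mul_one]
    rw [e1]
    exact (V i).add_mem _ _ ((V i).mul_mem _ _ hzw (pow_mem (ha₀V i hi) m))
      ((V i).mul_mem _ _ (sum_mem fun j _ => pow_mem (ha₀V i hi) j) hv)
  obtain ⟨s, hs, r, hr⟩ := regAt_of_near V ϖ n hnp hle hdesc harch _ hzV hreg
  have hloc : ∃ s : R, s ∉ n ∧ ∃ r : R,
      algebraMap R E s * (w * a₀ ^ m - 1) = algebraMap R E ϖ * algebraMap R E r := by
    refine ⟨s, hs, r, ?_⟩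
    rw [← hr]
    change _ = p * _
    rw [mul_comm (w * a₀ ^ m - 1) p⁻¹, mul_left_comm, ← mul_assoc p,
      mul_inv_cancel₀ hp0, one_mul]
  -- the components not through `n`
  refine Fermat.Agent.S36.SmoothFixN.smoothFixN V ϖ hϖ0 n hnp hϖn (fun i => ¬ Near V n i)
    (fun j _ => hle j) ?_ ?_ w a₀ m ?_ hloc
  · intro j hj
    unfold Near at hj
    rw [not_forall] at hj
    obtain ⟨d, hd⟩ := hj
    rw [Classical.not_imp] at hd
    refine ⟨d, hd.2, fun x => ?_⟩
    obtain ⟨N, hN⟩ := harch j _ hd.1 (hne d hd.2) x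
    refine ⟨N, fun k hk => ?_⟩
    have : algebraMap R E d ^ k * x =
        algebraMap R E d ^ (k - N) * (algebraMap R E d ^ N * x) := by
      rw [← mul_assoc, ← pow_add, Nat.sub_add_cancel hk]
    rw [this]
    exact (V j).mul_mem _ _ (pow_mem (hle j d) _) hN
  · intro i hi y hy
    rw [not_not] at hi
    obtain ⟨s', hs', r', hr'⟩ := hy
    have : y = algebraMap R E r' * (algebraMap R E s')⁻¹ := by
      rw [← hr', mul_comm (algebraMap R E s') y, mul_assoc, mul_inv_cancel₀ (hne s' hs'),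
        mul_one]
    rw [this]
    exact (V i).mul_mem _ _ (hle i _) (hi.inv_mem (hle i) hs')
  · intro i hi
    rw [not_not] at hi
    exact ha₀1 i hi

end Fermat.Agent.S36.Loc3B
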