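/-
S36, [N10] (P1) (helper120; dealt by helper92): LEVEL ONE.

`F_K(1) = K(j)`, and `R1 = O[j]` (`O = OK A K` a discrete valuation ring) is a polynomial ring,
hence integrally closed with fraction field `F_K(1)`:

* `exists_ratfunc`      : every `z ∈ F_K(1)` is `r(j) / s(j)` with `r, s ∈ O[X]`, `s(j) ≠ 0`
                          (`[F_K(1) : K(j)] = ψ(1) = 1`, `S18.DegFK.finrank_jK`);
* `isFractionRing_R1`, `isIntegrallyClosed_R1` : for `R1 = Algebra.adjoin O {j}`;
* `poly_of_isIntegral`  : an element of `F_K(1)` integral over `O[j]` is a polynomial in `j` with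
                          coefficients in `O`.
-/
import Mathlib
import Fermat.Agent.S18.ArithPlan
import Fermat.Agent.S18.DegFK

set_option autoImplicit false

namespace Fermat.Agent.S36.Lvl1Rat

open ModularCurve Polynomial IntermediateField
open Fermat.Agent.S18 Fermat.Agent.S18.Arith

variable (A : ValuationSubring Qb) (K : IntermediateField ℚ Qb)

/-- `j` is transcendental over `O` (any level). -/
theorem transcendental_O (N : ℕ) [NeZero N] : Transcendental (OK A K) (jK N K) :=
  (DegFK.transcendental_jK N K).restrictScalars (IsFractionRing.injective (OK A K) K)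

/-- `aeval j : O[X] → F_K` is injective (any level). -/
theorem aeval_injective (N : ℕ) [NeZero N] :
    Function.Injective (aeval (R := OK A K) (jK N K)) :=
  transcendental_iff_injective.mp (transcendental_O A K N)

/-- `F_K(1) = K(j)`: every element is a quotient of two polynomials in `j` over `K`. -/
theorem exists_ratfunc_K (z : FK 1 K) :
    ∃ r s : K[X], aeval (jK 1 K) s ≠ 0 ∧ z * aeval (jK 1 K) s = aeval (jK 1 K) r := by
  have h1 : Module.finrank K⟮jK 1 K⟯ (FK 1 K) = 1 := by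
    rw [DegFK.finrank_jK, dedekindPsi_one]
  obtain ⟨c, hc⟩ := (finrank_eq_one_iff_of_nonzero' (1 : FK 1 K) one_ne_zero).mp h1 z
  have hz : z ∈ K⟮jK 1 K⟯ := by
    rw [← hc, Algebra.smul_def, mul_one]
    exact c.2
  obtain ⟨r, s, hrs⟩ := (mem_adjoin_simple_iff K z).mp hz
  by_cases hs : aeval (jK 1 K) s = 0
  · refine ⟨0, 1, ?_, ?_⟩
    · rw [map_one]
      exact one_ne_zero
    · rw [hrs, hs, div_zero, zero_mul, map_zero]
  · exact ⟨r, s, hs, by rw [hrs, div_mul_cancel₀ _ hs]⟩

/-- The structure map `O → F_K` is injective. -/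
theorem algebraMap_ne_zero (N : ℕ) {b : OK A K} (hb : b ≠ 0) :
    algebraMap (OK A K) (FK N K) b ≠ 0 := by
  intro h0
  have h1 : algebraMap K (FK N K) (b : K) = 0 := h0
  rw [map_eq_zero] at h1
  exact hb (Subtype.ext h1)

/-- Clearing denominators: `b p ∈ O[X]` for some `b ≠ 0` in `O`. -/
theorem exists_clear (N : ℕ) (y : FK N K) (p : K[X]) :
    ∃ (b : OK A K) (p0 : (OK A K)[X]), b ≠ 0 ∧
      aeval y p0 = algebraMap (OK A K) (FK N K) b * aeval y p := by
  obtain ⟨b, hbM, hb⟩ :=
    IsLocalization.integerNormalization_spec (nonZeroDivisors (OK A K)) p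
  refine ⟨b, IsLocalization.integerNormalization (nonZeroDivisors (OK A K)) p,
    nonZeroDivisors.ne_zero hbM, ?_⟩
  rw [← aeval_map_algebraMap K y, hb, ← IsScalarTower.algebraMap_smul K (b : OK A K) p,
    smul_eq_C_mul, map_mul, aeval_C]
  rfl

/-- `F_K(1) = Frac O[j]`: every element is a quotient of two polynomials in `j` over `O`. -/
theorem exists_ratfunc (z : FK 1 K) :
    ∃ a b : (OK A K)[X], aeval (jK 1 K) b ≠ 0 ∧ z * aeval (jK 1 K) b = aeval (jK 1 K) a := by
  obtain ⟨r, s, hs, hz⟩ := exists_ratfunc_K K z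
  obtain ⟨br, r0, hbr, er⟩ := exists_clear A K 1 (jK 1 K) r
  obtain ⟨bs, s0, hbs, es⟩ := exists_clear A K 1 (jK 1 K) s
  refine ⟨C bs * r0, C br * s0, ?_, ?_⟩
  · rw [map_mul, aeval_C, es]
    exact mul_ne_zero (algebraMap_ne_zero A K 1 hbr) (mul_ne_zero (algebraMap_ne_zero A K 1 hbs) hs)
  · rw [map_mul, map_mul, aeval_C, aeval_C, es, er]
    linear_combination (algebraMap (OK A K) (FK 1 K) br * algebraMap (OK A K) (FK 1 K) bs) * hz

/-- `Frac O[j] = F_K(1)`. -/
theorem isFractionRing_R1 :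
    IsFractionRing (Algebra.adjoin (OK A K) ({jK 1 K} : Set (FK 1 K))) (FK 1 K) := by
  refine IsFractionRing.of_field (R := Algebra.adjoin (OK A K) ({jK 1 K} : Set (FK 1 K)))
    (K := FK 1 K) ?_
  intro z
  obtain ⟨a, b, hb, hz⟩ := exists_ratfunc A K z
  refine ⟨⟨aeval (jK 1 K) a, aeval_mem_adjoin_singleton _ _⟩,
    ⟨aeval (jK 1 K) b, aeval_mem_adjoin_singleton _ _⟩, ?_⟩
  show z = aeval (jK 1 K) a / aeval (jK 1 K) b
  rw [eq_div_iff hb]
  exact hz

/-- `O[j] ≅ O[X]` is integrally closed. -/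
theorem isIntegrallyClosed_R1 (hdvr : IsDiscreteValuationRing (OK A K)) :
    IsIntegrallyClosed (Algebra.adjoin (OK A K) ({jK 1 K} : Set (FK 1 K))) := by
  have := hdvr
  have e1 : (OK A K)[X] ≃ₐ[OK A K] (aeval (R := OK A K) (jK 1 K)).range :=
    AlgEquiv.ofInjective _ (aeval_injective A K 1)
  have e2 : (aeval (R := OK A K) (jK 1 K)).range ≃ₐ[OK A K]
      Algebra.adjoin (OK A K) ({jK 1 K} : Set (FK 1 K)) :=
    Subalgebra.equivOfEq _ _ (Algebra.adjoin_singleton_eq_range_aeval (OK A K) (jK 1 K)).symm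
  exact IsIntegrallyClosed.of_equiv (e1.trans e2).toRingEquiv

/-- **(P1)** An element of `F_K(1)` integral over `O[j]` is a polynomial in `j` with coefficients
in `O`. -/
theorem poly_of_isIntegral (hdvr : IsDiscreteValuationRing (OK A K)) (z : FK 1 K)
    (hz : IsIntegral (Algebra.adjoin (OK A K) ({jK 1 K} : Set (FK 1 K))) z) :
    ∃ p : (OK A K)[X], z = aeval (jK 1 K) p := by
  have := isFractionRing_R1 A K
  have := isIntegrallyClosed_R1 A K hdvr
  obtain ⟨y, hy⟩ := (IsIntegrallyClosed.isIntegral_iff (K := FK 1 K)).mp hz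
  have hy2 : (y : FK 1 K) ∈ (aeval (R := OK A K) (jK 1 K)).range := by
    rw [← Algebra.adjoin_singleton_eq_range_aeval]
    exact y.2
  obtain ⟨p, hp⟩ := hy2
  exact ⟨p, by rw [← hy]; exact hp.symm⟩

end Fermat.Agent.S36.Lvl1Rat
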