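/-
S36 — Lvl1RatB.lean (helper76; B-copy of (P1) of helper92's [CUSP-P] plan, board #3288).

**Level-one rationality.**  At level `N = 1` the function field `F_K = FK 1 K` is `K(j)`, and
the ring `O[j] = Algebra.adjoin (OK A K) {jK 1 K}` is a polynomial ring over the valuation ring
`O = OK A K = A ∩ K`; hence it is integrally closed with fraction field `F_K`, and every element
of `F_K` which is integral over `O[j]` is a polynomial in `j` with coefficients in `O`.

Exports (namespace `Fermat.Agent.S36.Lvl1RatB`; all arguments `A K` explicit):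
* `exists_div_of_mem_closure`   : abstract: the subfield generated by a subalgebra consists of
                                 quotients;
* `gens_one_subset`            : `ModelFin.gens 1 K ⊆ {jK 1 K}`;
* `mem_closure_adjoin`         : every `z : FK 1 K` lies in `Subfield.closure ↑(O[j])`;
* `exists_div`                 : every `z : FK 1 K` is `a / b` with `a b ∈ O[j]`, `b ≠ 0`;
* `exists_aeval_div`           : every `z : FK 1 K` is `P(j) / Q(j)`, `P Q ∈ O[X]`, `Q ≠ 0`;
* `isIntegrallyClosed_R1`      : `IsIntegrallyClosed ↥(O[j])`;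
* `isFractionRing_R1`          : `IsFractionRing ↥(O[j]) (FK 1 K)`;
* `mem_adjoin_of_isIntegral`   : `IsIntegral ↥(O[j]) z → z ∈ O[j]`;
* `poly_of_isIntegral`         : `IsIntegral ↥(O[j]) z → ∃ p : (OK A K)[X], z = aeval j p`
                                 (the statement of record of (P1));
* `poly_of_mem_chart`          : the same with hypothesis `z ∈ chart 1 A K (jK 1 K)`;
* `poly_unique`                : the polynomial is unique;
* `chart_eq`                   : `chart 1 A K (jK 1 K) = O[j]` (as subalgebras).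
No hypothesis on `(A, K)` is needed (a valuation ring is integrally closed).
-/
import Mathlib
import Fermat.Agent.S18.ModelFin

set_option autoImplicit false

noncomputable section

namespace Fermat.Agent.S36.Lvl1RatB

open ModularCurve ModularCurve.IgusaScheme HahnSeries Fermat.Agent.S18.Arith
open Fermat.Agent.S18 Polynomial

section Abstract

/-- Elements of the subfield generated by a subalgebra `S` of a field are quotients of elements
of `S`. -/
theorem exists_div_of_mem_closure {O E : Type*} [CommRing O] [Field E] [Algebra O E]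
    (S : Subalgebra O E) (z : E) (hz : z ∈ Subfield.closure (S : Set E)) :
    ∃ a ∈ S, ∃ b ∈ S, b ≠ 0 ∧ z * b = a := by
  rw [Subfield.mem_closure_iff] at hz
  obtain ⟨a, ha, b, hb, hab⟩ := hz
  have hle : Subring.closure (S : Set E) ≤ S.toSubring :=
    Subring.closure_le.2 (fun x hx => hx)
  have ha' : a ∈ S := hle ha
  have hb' : b ∈ S := hle hb
  by_cases hb0 : b = 0
  · refine ⟨0, zero_mem _, 1, one_mem _, one_ne_zero, ?_⟩
    rw [← hab, hb0, div_zero, zero_mul]
  · refine ⟨a, ha', b, hb', hb0, ?_⟩
    rw [← hab, div_mul_cancel₀ _ hb0]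

end Abstract

variable (A : ValuationSubring Qb) (K : IntermediateField ℚ Qb)

/-- At level one the only divisor expansion is `j(q)` itself. -/
theorem divisorExpansions_one : divisorExpansions 1 = {jq} := by
  ext x
  constructor
  · rintro ⟨d, hne, hd, rfl⟩
    have hd1 : d = 1 := Nat.dvd_one.1 hd
    subst hd1
    rw [qExpand_one_apply]
    rfl
  · rintro rfl
    refine ⟨1, inferInstance, dvd_rfl, ?_⟩
    rw [qExpand_one_apply]

/-- The generators of `F_K` at level one: only `j`. -/
theorem gens_one_subset : ModelFin.gens 1 K ⊆ {jK 1 K} := by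
  rintro x ⟨f, hf, rfl⟩
  rw [divisorExpansions_one] at hf
  have h1 : f = jFull 1 := Subtype.ext hf
  rw [h1]
  rfl

/-- `F_K` at level one is the fraction field of `O[j]`, closure form. -/
theorem mem_closure_adjoin (z : FK 1 K) :
    z ∈ Subfield.closure
      ((Algebra.adjoin (OK A K) {jK 1 K} : Subalgebra (OK A K) (FK 1 K)) : Set (FK 1 K)) := by
  have h1 := ModelFin.mem_closure_gens 1 A K (jK 1 K) z
  have h2 : ((Algebra.adjoin (OK A K) {jK 1 K} : Subalgebra (OK A K) (FK 1 K)) : Set (FK 1 K)) ∪
      ModelFin.gens 1 K =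
      ((Algebra.adjoin (OK A K) {jK 1 K} : Subalgebra (OK A K) (FK 1 K)) : Set (FK 1 K)) := by
    apply Set.union_eq_self_of_subset_right
    intro x hx
    have h3 := gens_one_subset K hx
    rw [Set.mem_singleton_iff] at h3
    rw [h3]
    exact Algebra.subset_adjoin (Set.mem_singleton _)
  rw [h2] at h1
  exact h1

/-- Every element of `F_K` (level one) is a quotient of two elements of `O[j]`. -/
theorem exists_div (z : FK 1 K) :
    ∃ a ∈ (Algebra.adjoin (OK A K) {jK 1 K} : Subalgebra (OK A K) (FK 1 K)),
      ∃ b ∈ (Algebra.adjoin (OK A K) {jK 1 K} : Subalgebra (OK A K) (FK 1 K)),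
        b ≠ 0 ∧ z * b = a :=
  exists_div_of_mem_closure _ z (mem_closure_adjoin A K z)

/-- Every element of `F_K` (level one) is a quotient `P(j)/Q(j)` of polynomials over `O`. -/
theorem exists_aeval_div (z : FK 1 K) :
    ∃ P Q : Polynomial (OK A K), Q ≠ 0 ∧ aeval (jK 1 K) Q ≠ 0 ∧
      z * aeval (jK 1 K) Q = aeval (jK 1 K) P := by
  obtain ⟨a, ha, b, hb, hb0, hab⟩ := exists_div A K z
  rw [Algebra.adjoin_singleton_eq_range_aeval] at ha hb
  obtain ⟨P, rfl⟩ := ha
  obtain ⟨Q, rfl⟩ := hb
  refine ⟨P, Q, ?_, hb0, hab⟩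
  rintro rfl
  exact hb0 (map_zero _)

/-- `O[j]` is integrally closed (a polynomial ring over a valuation ring). -/
theorem isIntegrallyClosed_R1 :
    IsIntegrallyClosed (Algebra.adjoin (OK A K) {jK 1 K} : Subalgebra (OK A K) (FK 1 K)) :=
  ModelFin.isIntegrallyClosed_adjoin_of_transcendental (jK 1 K)
    (ModelFin.transcendental_jK 1 A K)

/-- `F_K` (level one) is the fraction field of `O[j]`. -/
theorem isFractionRing_R1 :
    IsFractionRing (Algebra.adjoin (OK A K) {jK 1 K} : Subalgebra (OK A K) (FK 1 K))
      (FK 1 K) := by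
  refine IsFractionRing.of_field _ _ ?_
  intro z
  obtain ⟨a, ha, b, hb, hb0, hab⟩ := exists_div A K z
  refine ⟨⟨a, ha⟩, ⟨b, hb⟩, ?_⟩
  show z = a / b
  rw [← hab, mul_div_cancel_right₀ _ hb0]

/-- An element of `F_K` (level one) integral over `O[j]` lies in `O[j]`. -/
theorem mem_adjoin_of_isIntegral (z : FK 1 K)
    (hz : IsIntegral (Algebra.adjoin (OK A K) {jK 1 K} : Subalgebra (OK A K) (FK 1 K)) z) :
    z ∈ (Algebra.adjoin (OK A K) {jK 1 K} : Subalgebra (OK A K) (FK 1 K)) := by
  have := isIntegrallyClosed_R1 A K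
  have := isFractionRing_R1 A K
  obtain ⟨y, hy⟩ := IsIntegrallyClosed.isIntegral_iff.1 hz
  rw [← hy]
  exact y.2

/-- **(P1), statement of record.** An element of `F_K` (level one) integral over `O[j]` is a
polynomial in `j` with coefficients in `O`. -/
theorem poly_of_isIntegral (z : FK 1 K)
    (hz : IsIntegral (Algebra.adjoin (OK A K) {jK 1 K} : Subalgebra (OK A K) (FK 1 K)) z) :
    ∃ p : Polynomial (OK A K), z = Polynomial.aeval (jK 1 K) p := by
  have h1 := mem_adjoin_of_isIntegral A K z hz
  rw [Algebra.adjoin_singleton_eq_range_aeval] at h1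
  obtain ⟨p, hp⟩ := h1
  exact ⟨p, hp.symm⟩

/-- The same for elements of the chart `j ≠ ∞` at level one. -/
theorem poly_of_mem_chart (z : FK 1 K) (hz : z ∈ chart 1 A K (jK 1 K)) :
    ∃ p : Polynomial (OK A K), z = Polynomial.aeval (jK 1 K) p :=
  poly_of_isIntegral A K z ((mem_chart_iff 1 A K).1 hz)

/-- Uniqueness of the polynomial. -/
theorem poly_unique (p p' : Polynomial (OK A K))
    (h : Polynomial.aeval (jK 1 K) p = Polynomial.aeval (jK 1 K) p') : p = p' :=
  ModelFin.aeval_jK_injective 1 A K h

/-- The chart `j ≠ ∞` at level one is `O[j]`. -/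
theorem chart_eq : chart 1 A K (jK 1 K) = Algebra.adjoin (OK A K) {jK 1 K} := by
  apply le_antisymm
  · intro z hz
    exact mem_adjoin_of_isIntegral A K z ((mem_chart_iff 1 A K).1 hz)
  · intro z hz
    rw [mem_chart_iff]
    exact (isIntegral_algebraMap :
      IsIntegral (Algebra.adjoin (OK A K) {jK 1 K} : Subalgebra (OK A K) (FK 1 K))
        (algebraMap (Algebra.adjoin (OK A K) {jK 1 K} : Subalgebra (OK A K) (FK 1 K))
          (FK 1 K) ⟨z, hz⟩))

end Fermat.Agent.S36.Lvl1RatB
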