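/-
S36 — Model3Closed.lean (helper127; [MODEL3], dealt by helper128): the CLOSED DATA LAYER of
`Model3Top.model3` over an unramified base.

For a base `K` with `Plan.UnrBase q A K` (in particular the inertia field `L = ℚ̄^{I_A}`,
`UnrBaseL.inertiaField A`) all the data of `Model3Top.model3` are produced:

* `hB : BaseFacts q A K`, `π : O_K = A ∩ K` irreducible with `incO π = q`;
* a primitive `q`-th root of unity `ξ ∈ ℚ̄`, the middle-cusp embedding `Iota3.iota3 … ξ` and
  `H := V3.hyp3_iota3 …` over `K(ξ)` (`ϖ = 1 - ξ`, `BaseXi`);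
* `a = 1` (`q = π · 1`), `hπϖ := BaseXi.exists_unit` (`π = ϖ ^ (q - 1) · unit`),

so that ONLY the field `princ` of the two charts (`hprinc0`, `hprincInf`, here `PrincHyp`) is
left:

* `Vrec`, `ϖrec`    : the literal families `![W1, W2, W3]`, `![π, π, s]` of record;
* `PrincHyp`        : the `princ` binder of `Model3Top.model3` on one chart (verbatim, as a `def`);
* `model3`          : the model of record from `PrincHyp` on `chart J3` and `chart J3⁻¹`;
* `exists_data`     : `Plan.UnrBase q A K → ∃ π ξ, Irreducible π ∧ incO π = q ∧ IsPrimitiveRoot ξ q`;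
* `chain_point`     : the body of `LocAsm3.ChainStatement` at one `(m, A, K)`;
* `chainStatement`, `chainStatementL` : `LocAsm3.ChainStatement` / `LocAsm3L.ChainStatementL`
                      from the three point inputs (princ, [CORR36], [TORIC36] + [LOC36]) at the
                      objects of record.
-/
import Mathlib
import Fermat.Agent.S36.Model3Top
import Fermat.Agent.S36.LocAsm3L

set_option autoImplicit false

noncomputable section

namespace Fermat.Agent.S36.Model3Closed

open ModularCurve HahnSeries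
open Fermat.Agent.S18 Fermat.Agent.S18.Arith Fermat.Agent.S18.ModelPlan
open Fermat.Agent.S34 Fermat.Agent.S36.Model3Plan
open Fermat.Agent.S36.LocAsm3 (CorrProp TorOutProp)

/-! ### The `princ` binder of `Model3Top.model3` -/

section Princ

variable {N : ℕ} [NeZero N] {A : ValuationSubring Qb} {K : IntermediateField ℚ Qb}

/-- The `princ` input of `Model3Asm.model3` / `Model3Top.model3` on one chart `R ⊆ ⋂ V i`
(VERBATIM the binders `hprinc0`, `hprincInf`): under the chart hypotheses, every closed point of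
the special fibre lies on a vertical prime which is locally principal there. -/
def PrincHyp (π : OK A K) (ϖ : Fin 3 → FK N K) (V : Fin 3 → ValuationSubring (FK N K))
    (R : Subalgebra (OK A K) (FK N K)) (hle : ∀ i : Fin 3, ∀ x ∈ R, x ∈ V i) : Prop :=
  ChartHyp3 π ϖ V (Model3Asm.Pc R ϖ V hle) →
    ∀ n : Ideal R, n.IsMaximal → algebraMap (OK A K) R π ∈ n →
      ∃ i : Fin 3, Model3Asm.Pc R ϖ V hle i ≤ n ∧
        ∃ g ∈ Model3Asm.Pc R ϖ V hle i, ∀ y ∈ Model3Asm.Pc R ϖ V hle i,
          ∃ s : R, s ∉ n ∧ ∃ c : R, s * y = c * g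

end Princ

/-! ### The objects of record -/

section Record

variable {M q : ℕ} [NeZero M] [NeZero q] (hq : q.Prime) (hqM : ¬ q ∣ M)
variable {A : ValuationSubring Qb} {K : IntermediateField ℚ Qb}

/-- The three valuation rings of record: the Gauss ring, its `w_{q²}`-twist, and the Gauss
ring `W3` along the middle-cusp embedding `Iota3.iota3 … ξ`. -/
abbrev Vrec (hB : BaseFacts q A K) (π : OK A K) (hπ : Irreducible π)
    (hπq : incO A K π = (q : Qb)) {ξ : Qb} (hξ : IsPrimitiveRoot ξ q) :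
    Fin 3 → ValuationSubring (FK (M * q * q) K) :=
  ![GaussV.V1 (M * q * q) A K hB.dvr, GaussV.V2 (WQ2.wK2 M q hq hqM K) hB.dvr,
    (V3.hyp3_iota3 hq hqM A hB.dvr π hπ hπq hξ).W3]

/-- The three uniformisers of record: `π`, `π`, `s = j_{q²} - j`. -/
abbrev ϖrec (π : OK A K) : Fin 3 → FK (M * q * q) K :=
  ![algebraMap (OK A K) (FK (M * q * q) K) π, algebraMap (OK A K) (FK (M * q * q) K) π,
    Wit3.sE M q hq hqM K]

omit [NeZero q] in
/-- `q = π · 1`. -/
theorem hqa (π : OK A K) (hπq : incO A K π = (q : Qb)) :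
    (q : Qb) = incO A K π * (((1 : A) : A) : Qb) := by
  rw [hπq]
  simp

/-- **The model of record**, from the field `princ` of the two charts. -/
def model3 (hA : A.LiesOverPrime q) (hB : BaseFacts q A K) (π : OK A K) (hπ : Irreducible π)
    (hπq : incO A K π = (q : Qb)) {ξ : Qb} (hξ : IsPrimitiveRoot ξ q)
    (hprinc0 : PrincHyp π (ϖrec hq hqM π) (Vrec hq hqM hB π hπ hπq hξ)
      (chart (M * q * q) A K (Chart3B.J3 M q hq hqM K))
      (Model3Top.le0 (V3.hyp3_iota3 hq hqM A hB.dvr π hπ hπq hξ) hB.dvr))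
    (hprincInf : PrincHyp π (ϖrec hq hqM π) (Vrec hq hqM hB π hπ hπq hξ)
      (chart (M * q * q) A K (Chart3B.J3 M q hq hqM K)⁻¹)
      (Model3Top.leInf (V3.hyp3_iota3 hq hqM A hB.dvr π hπ hπq hξ) hB.dvr)) :
    Model3 (M * q * q) A K π (Model3Plan.ram q) (ϖrec hq hqM π)
      (Vrec hq hqM hB π hπ hπq hξ) (Chart3B.J3 M q hq hqM K) :=
  Model3Top.model3 (V3.hyp3_iota3 hq hqM A hB.dvr π hπ hπq hξ) hA hB hπ 1 (hqa π hπq)
    (BaseXi.exists_unit hq π hπ hπq hξ) hprinc0 hprincInf

end Record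

/-! ### The data over an unramified base -/

section Unr

variable {M q : ℕ} [NeZero M] [NeZero q] [Fact q.Prime]
variable {A : ValuationSubring Qb} {K : IntermediateField ℚ Qb}

/-- **The data of record exist over every unramified base**: a uniformiser `π` of `O_K` with
`incO π = q`, and a primitive `q`-th root of unity `ξ`. -/
theorem exists_data (hK : Plan.UnrBase q A K) :
    ∃ (π : OK A K) (ξ : Qb), Irreducible π ∧ incO A K π = (q : Qb) ∧ IsPrimitiveRoot ξ q := by
  obtain ⟨p, hpq, hp⟩ := hK.2.1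
  obtain ⟨ξ, hξ⟩ := HasEnoughRootsOfUnity.exists_primitiveRoot Qb q
  exact ⟨p, ξ, hp, hpq, hξ⟩

/-- **The body of `LocAsm3.ChainStatement` at one `(m, A, K)`**: over an unramified base, the
model of record exists as soon as `princ` holds on its two charts; [CORR36] and
[TORIC36] + [LOC36] are passed through (they may use the model). -/
theorem chain_point (hqM : ¬ q ∣ M) (m : ℕ) (hA : A.LiesOverPrime q) (hK : Plan.UnrBase q A K)
    (h : ∀ (π : OK A K) (hπ : Irreducible π) (hπq : incO A K π = (q : Qb)) (ξ : Qb)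
      (hξ : IsPrimitiveRoot ξ q),
      PrincHyp π (ϖrec Fact.out hqM π) (Vrec Fact.out hqM hK.1 π hπ hπq hξ)
        (chart (M * q * q) A K (Chart3B.J3 M q Fact.out hqM K))
        (Model3Top.le0 (V3.hyp3_iota3 Fact.out hqM A hK.1.dvr π hπ hπq hξ) hK.1.dvr) ∧
      PrincHyp π (ϖrec Fact.out hqM π) (Vrec Fact.out hqM hK.1 π hπ hπq hξ)
        (chart (M * q * q) A K (Chart3B.J3 M q Fact.out hqM K)⁻¹)
        (Model3Top.leInf (V3.hyp3_iota3 Fact.out hqM A hK.1.dvr π hπ hπq hξ) hK.1.dvr) ∧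
      (Model3 (M * q * q) A K π (Model3Plan.ram q) (ϖrec Fact.out hqM π)
          (Vrec Fact.out hqM hK.1 π hπ hπq hξ) (Chart3B.J3 M q Fact.out hqM K) →
        CorrProp M q m A K π (ϖrec Fact.out hqM π) (Vrec Fact.out hqM hK.1 π hπ hπq hξ)) ∧
      (Model3 (M * q * q) A K π (Model3Plan.ram q) (ϖrec Fact.out hqM π)
          (Vrec Fact.out hqM hK.1 π hπ hπq hξ) (Chart3B.J3 M q Fact.out hqM K) →
        TorOutProp M q m A K π (Vrec Fact.out hqM hK.1 π hπ hπq hξ)
          (Chart3B.J3 M q Fact.out hqM K))) :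
    ∃ (_ : IsDiscreteValuationRing (OK A K)) (π : OK A K) (t : FK (M * q * q) K)
      (ϖ : Fin 3 → FK (M * q * q) K) (V : Fin 3 → ValuationSubring (FK (M * q * q) K)),
      Nonempty (Model3 (M * q * q) A K π (Model3Plan.ram q) ϖ V t) ∧
      CorrProp M q m A K π ϖ V ∧ TorOutProp M q m A K π V t := by
  obtain ⟨π, ξ, hπ, hπq, hξ⟩ := exists_data hK
  obtain ⟨h0, hInf, hcorr, htor⟩ := h π hπ hπq ξ hξ
  have Md := model3 Fact.out hqM hA hK.1 π hπ hπq hξ h0 hInf
  exact ⟨hK.1.dvr, π, _, _, _, ⟨Md⟩, hcorr Md, htor Md⟩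

/-- The point inputs of the chain at the objects of record over the base `K`: `princ` on both
charts, [CORR36], [TORIC36] + [LOC36]. -/
def PointInputs (M q : ℕ) [NeZero M] [NeZero q] [Fact q.Prime] (hqM : ¬ q ∣ M) (m : ℕ)
    (A : ValuationSubring Qb) (K : IntermediateField ℚ Qb) (hB : BaseFacts q A K) : Prop :=
  ∀ (π : OK A K) (hπ : Irreducible π) (hπq : incO A K π = (q : Qb)) (ξ : Qb)
    (hξ : IsPrimitiveRoot ξ q),
    PrincHyp π (ϖrec Fact.out hqM π) (Vrec Fact.out hqM hB π hπ hπq hξ)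
      (chart (M * q * q) A K (Chart3B.J3 M q Fact.out hqM K))
      (Model3Top.le0 (V3.hyp3_iota3 Fact.out hqM A hB.dvr π hπ hπq hξ) hB.dvr) ∧
    PrincHyp π (ϖrec Fact.out hqM π) (Vrec Fact.out hqM hB π hπ hπq hξ)
      (chart (M * q * q) A K (Chart3B.J3 M q Fact.out hqM K)⁻¹)
      (Model3Top.leInf (V3.hyp3_iota3 Fact.out hqM A hB.dvr π hπ hπq hξ) hB.dvr) ∧
    (Model3 (M * q * q) A K π (Model3Plan.ram q) (ϖrec Fact.out hqM π)
        (Vrec Fact.out hqM hB π hπ hπq hξ) (Chart3B.J3 M q Fact.out hqM K) →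
      CorrProp M q m A K π (ϖrec Fact.out hqM π) (Vrec Fact.out hqM hB π hπ hπq hξ)) ∧
    (Model3 (M * q * q) A K π (Model3Plan.ram q) (ϖrec Fact.out hqM π)
        (Vrec Fact.out hqM hB π hπ hπq hξ) (Chart3B.J3 M q Fact.out hqM K) →
      TorOutProp M q m A K π (Vrec Fact.out hqM hB π hπ hπq hξ)
        (Chart3B.J3 M q Fact.out hqM K))

/-- `chain_point` in terms of `PointInputs`. -/
theorem chain_point' (hqM : ¬ q ∣ M) (m : ℕ) (hA : A.LiesOverPrime q)
    (hK : Plan.UnrBase q A K) (h : PointInputs M q hqM m A K hK.1) :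
    ∃ (_ : IsDiscreteValuationRing (OK A K)) (π : OK A K) (t : FK (M * q * q) K)
      (ϖ : Fin 3 → FK (M * q * q) K) (V : Fin 3 → ValuationSubring (FK (M * q * q) K)),
      Nonempty (Model3 (M * q * q) A K π (Model3Plan.ram q) ϖ V t) ∧
      CorrProp M q m A K π ϖ V ∧ TorOutProp M q m A K π V t :=
  chain_point hqM m hA hK h

end Unr

/-! ### The chain statements -/

section Chain

variable (M q : ℕ) [NeZero M] [NeZero q] [Fact q.Prime]

/-- **`LocAsm3.ChainStatement`** from the point inputs over every unramified base. -/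
theorem chainStatement (hqM : ¬ q ∣ M)
    (h : ∀ m : ℕ, m ≠ 0 → ¬ q ∣ m → ∀ A : ValuationSubring Qb, A.LiesOverPrime q →
      ∀ (K : IntermediateField ℚ Qb) (hK : Plan.UnrBase q A K),
        PointInputs M q hqM m A K hK.1) :
    LocAsm3.ChainStatement M q :=
  fun m hm hqm A hA K hK => chain_point hqM m hA hK (h m hm hqm A hA K hK)

/-- **`LocAsm3L.ChainStatementL`** from the point inputs over the inertia field only. -/
theorem chainStatementL (hqM : ¬ q ∣ M)
    (h : ∀ m : ℕ, m ≠ 0 → ¬ q ∣ m → ∀ (A : ValuationSubring Qb) (hA : A.LiesOverPrime q),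
      PointInputs M q hqM m A (UnrBaseL.inertiaField A)
        (LocAsm3L.unrBase_inertiaField hA).1) :
    LocAsm3L.ChainStatementL M q :=
  fun m hm hqm A hA =>
    chain_point hqM m hA (LocAsm3L.unrBase_inertiaField hA) (h m hm hqm A hA)

end Chain

end Fermat.Agent.S36.Model3Closed
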