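/-
S36 — Model3ClosedB.lean (helper9; package [MODEL3], B-copy of the closed data layer
`Model3Closed` (A = helper127), dealt by helper128).

The DATA OF RECORD over an unramified base `K` (`Plan.UnrBase q A K`; in the chain: the inertia
field `L = UnrBaseL.inertiaField A`) and the model on it, aimed at the `∃`-shape of
`LocAsm3L.ChainStatementL`:

* `exists_pi`     : a uniformizer `π` of `O = A ∩ K` with `incO π = q`;
* `exists_xi`     : a primitive `q`-th root of unity `ξ` of `ℚ̄`;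
* `unif`, `vals`  : the uniformizers `![π, π, sE]` and the valuation rings `![W1, W2, W3]`
                    (`W3 = (V3.hyp3_iota3 …).W3`) — reducible, so every leaf stated for the
                    literal vectors applies;
* `PrincOn R π ϖ V` : the field `princ` for EVERY family `P` of vertical ideals satisfying
                    `ChartHyp3 π ϖ V P` on the chart `R`;
* `eq_Pc`, `princOn_of_pc` : every such `P` is `Model3Asm.Pc`; `PrincOn` from the `Pc`-shape;
* `model`         : `Model3 (M q²) A K π (ram q) (unif …) (vals …) J3` from `PrincOn` on both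
                    charts (= `Model3Top.model3` at `H := V3.hyp3_iota3`, `a := 1`);
* `model_pc`      : the same with the two hypotheses in the literal shape of `Model3Top.model3`;
* `chainL_of_record` : `LocAsm3L.ChainStatementL M q` from the four record-level inputs
                    (`PrincOn` ×2, `LocAsm3.CorrProp`, `LocAsm3.TorOutProp`) at `K = L`.
-/
import Mathlib
import Fermat.Agent.S36.Model3Top
import Fermat.Agent.S36.LocAsm3L

set_option autoImplicit false

noncomputable section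

namespace Fermat.Agent.S36.Model3ClosedB

open ModularCurve AlgebraicCurve HahnSeries
open Fermat.Agent.S18 Fermat.Agent.S18.Arith Fermat.Agent.S18.ModelPlan
open Fermat.Agent.S34 Fermat.Agent.S36.Model3Plan

/-! ### Standing data -/

/-- A uniformizer `π` of `O = A ∩ K` with `π = q` in `ℚ̄`. -/
theorem exists_pi {q : ℕ} [Fact q.Prime] {A : ValuationSubring Qb}
    {K : IntermediateField ℚ Qb} (hK : Plan.UnrBase q A K) :
    ∃ π : OK A K, Irreducible π ∧ incO A K π = (q : Qb) := by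
  obtain ⟨p, hp, hirr⟩ := hK.2.1
  exact ⟨p, hirr, hp⟩

/-- A primitive `q`-th root of unity of `ℚ̄`. -/
theorem exists_xi (q : ℕ) [NeZero q] : ∃ ξ : Qb, IsPrimitiveRoot ξ q :=
  HasEnoughRootsOfUnity.exists_primitiveRoot Qb q

variable {M q : ℕ} [NeZero M] [NeZero q]
variable {A : ValuationSubring Qb} {K : IntermediateField ℚ Qb}

/-- The uniformizers of record `![π, π, sE]`. -/
abbrev unif (hq : q.Prime) (hqM : ¬ q ∣ M) (π : OK A K) : Fin 3 → FK (M * q * q) K :=
  ![algebraMap (OK A K) (FK (M * q * q) K) π, algebraMap (OK A K) (FK (M * q * q) K) π,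
    Wit3.sE M q hq hqM K]

/-- The valuation rings of record `![W1, W2, W3]`, `W3` along `Iota3.iota3` at `ξ`. -/
abbrev vals (hq : q.Prime) (hqM : ¬ q ∣ M) (hdvr : IsDiscreteValuationRing (OK A K))
    (π : OK A K) (hπ : Irreducible π) (hπq : incO A K π = (q : Qb)) {ξ : Qb}
    (hξ : IsPrimitiveRoot ξ q) : Fin 3 → ValuationSubring (FK (M * q * q) K) :=
  ![GaussV.V1 (M * q * q) A K hdvr, GaussV.V2 (WQ2.wK2 M q hq hqM K) hdvr,
    (V3.hyp3_iota3 hq hqM A hdvr π hπ hπq hξ).W3]

/-- The field `princ` on the chart `R`, for every family `P` of vertical ideals of `R`. -/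
def PrincOn {N : ℕ} (R : Subalgebra (OK A K) (FK N K)) (π : OK A K) (ϖ : Fin 3 → FK N K)
    (V : Fin 3 → ValuationSubring (FK N K)) : Prop :=
  ∀ P : Fin 3 → Ideal R, ChartHyp3 π ϖ V P →
    ∀ n : Ideal R, n.IsMaximal → algebraMap (OK A K) R π ∈ n →
      ∃ i : Fin 3, P i ≤ n ∧ ∃ g ∈ P i, ∀ y ∈ P i, ∃ s : R, s ∉ n ∧ ∃ c : R, s * y = c * g

/-- Every family of vertical ideals with `ChartHyp3` is the family of record `Model3Asm.Pc`. -/
theorem eq_Pc {N : ℕ} [NeZero N] {R : Subalgebra (OK A K) (FK N K)} {π : OK A K}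
    {ϖ : Fin 3 → FK N K} {V : Fin 3 → ValuationSubring (FK N K)} {P : Fin 3 → Ideal R}
    (hyp : ChartHyp3 π ϖ V P) (hle : ∀ i : Fin 3, ∀ x ∈ R, x ∈ V i) :
    P = Model3Asm.Pc R ϖ V hle :=
  funext fun i => Ideal.ext fun r => (hyp.mem_P i r).trans Model3Asm.mem_Pc.symm

/-- `PrincOn` from the statement for the family of record `Model3Asm.Pc` (the shape of the
hypotheses `hprinc0`, `hprincInf` of `Model3Asm.model3` / `Model3Top.model3`). -/
theorem princOn_of_pc {N : ℕ} [NeZero N] (R : Subalgebra (OK A K) (FK N K)) (π : OK A K)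
    (ϖ : Fin 3 → FK N K) (V : Fin 3 → ValuationSubring (FK N K))
    (hle : ∀ i : Fin 3, ∀ x ∈ R, x ∈ V i)
    (h : ChartHyp3 π ϖ V (Model3Asm.Pc R ϖ V hle) →
      ∀ n : Ideal R, n.IsMaximal → algebraMap (OK A K) R π ∈ n →
        ∃ i : Fin 3, Model3Asm.Pc R ϖ V hle i ≤ n ∧ ∃ g ∈ Model3Asm.Pc R ϖ V hle i,
          ∀ y ∈ Model3Asm.Pc R ϖ V hle i, ∃ s : R, s ∉ n ∧ ∃ c : R, s * y = c * g) :
    PrincOn R π ϖ V := by
  intro P hyp
  obtain rfl := eq_Pc hyp hle
  exact h hyp

/-! ### The model of record -/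

/-- **The model of record**, with the two `princ` hypotheses in the literal shape of
`Model3Top.model3` (`P = Model3Asm.Pc …`). -/
def model_pc (hq : q.Prime) (hqM : ¬ q ∣ M) (hA : A.LiesOverPrime q) (hB : BaseFacts q A K)
    {π : OK A K} (hπ : Irreducible π) (hπq : incO A K π = (q : Qb)) {ξ : Qb}
    (hξ : IsPrimitiveRoot ξ q)
    (hprinc0 : ChartHyp3 π (unif hq hqM π) (vals hq hqM hB.dvr π hπ hπq hξ)
        (Model3Asm.Pc (chart (M * q * q) A K (Chart3B.J3 M q hq hqM K)) (unif hq hqM π)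
          (vals hq hqM hB.dvr π hπ hπq hξ)
          (Model3Top.le0 (V3.hyp3_iota3 hq hqM A hB.dvr π hπ hπq hξ) hB.dvr)) →
      ∀ n : Ideal (chart (M * q * q) A K (Chart3B.J3 M q hq hqM K)), n.IsMaximal →
        algebraMap (OK A K) (chart (M * q * q) A K (Chart3B.J3 M q hq hqM K)) π ∈ n →
        ∃ i : Fin 3,
          Model3Asm.Pc (chart (M * q * q) A K (Chart3B.J3 M q hq hqM K)) (unif hq hqM π)
            (vals hq hqM hB.dvr π hπ hπq hξ)
            (Model3Top.le0 (V3.hyp3_iota3 hq hqM A hB.dvr π hπ hπq hξ) hB.dvr) i ≤ n ∧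
          ∃ g ∈ Model3Asm.Pc (chart (M * q * q) A K (Chart3B.J3 M q hq hqM K)) (unif hq hqM π)
            (vals hq hqM hB.dvr π hπ hπq hξ)
            (Model3Top.le0 (V3.hyp3_iota3 hq hqM A hB.dvr π hπ hπq hξ) hB.dvr) i,
            ∀ y ∈ Model3Asm.Pc (chart (M * q * q) A K (Chart3B.J3 M q hq hqM K))
              (unif hq hqM π) (vals hq hqM hB.dvr π hπ hπq hξ)
              (Model3Top.le0 (V3.hyp3_iota3 hq hqM A hB.dvr π hπ hπq hξ) hB.dvr) i,
              ∃ s : chart (M * q * q) A K (Chart3B.J3 M q hq hqM K), s ∉ n ∧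
                ∃ c : chart (M * q * q) A K (Chart3B.J3 M q hq hqM K), s * y = c * g)
    (hprincInf : ChartHyp3 π (unif hq hqM π) (vals hq hqM hB.dvr π hπ hπq hξ)
        (Model3Asm.Pc (chart (M * q * q) A K (Chart3B.J3 M q hq hqM K)⁻¹) (unif hq hqM π)
          (vals hq hqM hB.dvr π hπ hπq hξ)
          (Model3Top.leInf (V3.hyp3_iota3 hq hqM A hB.dvr π hπ hπq hξ) hB.dvr)) →
      ∀ n : Ideal (chart (M * q * q) A K (Chart3B.J3 M q hq hqM K)⁻¹), n.IsMaximal →
        algebraMap (OK A K) (chart (M * q * q) A K (Chart3B.J3 M q hq hqM K)⁻¹) π ∈ n →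
        ∃ i : Fin 3,
          Model3Asm.Pc (chart (M * q * q) A K (Chart3B.J3 M q hq hqM K)⁻¹) (unif hq hqM π)
            (vals hq hqM hB.dvr π hπ hπq hξ)
            (Model3Top.leInf (V3.hyp3_iota3 hq hqM A hB.dvr π hπ hπq hξ) hB.dvr) i ≤ n ∧
          ∃ g ∈ Model3Asm.Pc (chart (M * q * q) A K (Chart3B.J3 M q hq hqM K)⁻¹)
            (unif hq hqM π) (vals hq hqM hB.dvr π hπ hπq hξ)
            (Model3Top.leInf (V3.hyp3_iota3 hq hqM A hB.dvr π hπ hπq hξ) hB.dvr) i,
            ∀ y ∈ Model3Asm.Pc (chart (M * q * q) A K (Chart3B.J3 M q hq hqM K)⁻¹)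
              (unif hq hqM π) (vals hq hqM hB.dvr π hπ hπq hξ)
              (Model3Top.leInf (V3.hyp3_iota3 hq hqM A hB.dvr π hπ hπq hξ) hB.dvr) i,
              ∃ s : chart (M * q * q) A K (Chart3B.J3 M q hq hqM K)⁻¹, s ∉ n ∧
                ∃ c : chart (M * q * q) A K (Chart3B.J3 M q hq hqM K)⁻¹, s * y = c * g) :
    Model3 (M * q * q) A K π (ram q) (unif hq hqM π) (vals hq hqM hB.dvr π hπ hπq hξ)
      (Chart3B.J3 M q hq hqM K) :=
  Model3Top.model3 (V3.hyp3_iota3 hq hqM A hB.dvr π hπ hπq hξ) hA hB hπ 1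
    (by rw [hπq, OneMemClass.coe_one, mul_one]) (BaseXi.exists_unit hq π hπ hπq hξ)
    hprinc0 hprincInf

/-- **The model of record** from `PrincOn` on both charts. -/
def model (hq : q.Prime) (hqM : ¬ q ∣ M) (hA : A.LiesOverPrime q) (hB : BaseFacts q A K)
    {π : OK A K} (hπ : Irreducible π) (hπq : incO A K π = (q : Qb)) {ξ : Qb}
    (hξ : IsPrimitiveRoot ξ q)
    (h0 : PrincOn (chart (M * q * q) A K (Chart3B.J3 M q hq hqM K)) π (unif hq hqM π)
      (vals hq hqM hB.dvr π hπ hπq hξ))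
    (hInf : PrincOn (chart (M * q * q) A K (Chart3B.J3 M q hq hqM K)⁻¹) π (unif hq hqM π)
      (vals hq hqM hB.dvr π hπ hπq hξ)) :
    Model3 (M * q * q) A K π (ram q) (unif hq hqM π) (vals hq hqM hB.dvr π hπ hπq hξ)
      (Chart3B.J3 M q hq hqM K) :=
  model_pc hq hqM hA hB hπ hπq hξ (fun hyp => h0 _ hyp) (fun hyp => hInf _ hyp)

/-! ### The chain over the inertia field -/

/-- **`LocAsm3L.ChainStatementL` from the record-level inputs at `K = L`** (the inertia field):
for every uniformizer `π = q` of `O = A ∩ L`, SOME primitive `q`-th root of unity `ξ` with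
`princ` on both charts, [CORR36] and [TORIC36]+[LOC36] for the data of record. -/
theorem chainL_of_record [Fact q.Prime] (hqM : ¬ q ∣ M)
    (h : ∀ m : ℕ, m ≠ 0 → ¬ q ∣ m → ∀ (A : ValuationSubring Qb) (_ : A.LiesOverPrime q)
      (hB : BaseFacts q A (UnrBaseL.inertiaField A)) (π : OK A (UnrBaseL.inertiaField A))
      (hπ : Irreducible π) (hπq : incO A (UnrBaseL.inertiaField A) π = (q : Qb)),
      ∃ (ξ : Qb) (hξ : IsPrimitiveRoot ξ q),
        PrincOn (chart (M * q * q) A (UnrBaseL.inertiaField A)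
            (Chart3B.J3 M q Fact.out hqM (UnrBaseL.inertiaField A))) π
          (unif Fact.out hqM π) (vals Fact.out hqM hB.dvr π hπ hπq hξ) ∧
        PrincOn (chart (M * q * q) A (UnrBaseL.inertiaField A)
            (Chart3B.J3 M q Fact.out hqM (UnrBaseL.inertiaField A))⁻¹) π
          (unif Fact.out hqM π) (vals Fact.out hqM hB.dvr π hπ hπq hξ) ∧
        LocAsm3.CorrProp M q m A (UnrBaseL.inertiaField A) π (unif Fact.out hqM π)
          (vals Fact.out hqM hB.dvr π hπ hπq hξ) ∧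
        (Model3 (M * q * q) A (UnrBaseL.inertiaField A) π (ram q) (unif Fact.out hqM π)
            (vals Fact.out hqM hB.dvr π hπ hπq hξ)
            (Chart3B.J3 M q Fact.out hqM (UnrBaseL.inertiaField A)) →
          LocAsm3.TorOutProp M q m A (UnrBaseL.inertiaField A) π
            (vals Fact.out hqM hB.dvr π hπ hπq hξ)
            (Chart3B.J3 M q Fact.out hqM (UnrBaseL.inertiaField A)))) :
    LocAsm3L.ChainStatementL M q := by
  intro m hm hqm A hA
  have hK : Plan.UnrBase q A (UnrBaseL.inertiaField A) := LocAsm3L.unrBase_inertiaField hA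
  obtain ⟨π, hπ, hπq⟩ := exists_pi hK
  obtain ⟨ξ, hξ, h0, hInf, hcorr, htor⟩ := h m hm hqm A hA hK.1 π hπ hπq
  exact ⟨hK.1.dvr, π, _, _, _, ⟨model Fact.out hqM hA hK.1 hπ hπq hξ h0 hInf⟩, hcorr,
    htor (model Fact.out hqM hA hK.1 hπ hπq hξ h0 hInf)⟩

end Fermat.Agent.S36.Model3ClosedB

end
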