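import Mathlib
import Fermat.Agent.S34.ChartRing
import Fermat.Agent.S34.WKInst
import Fermat.Agent.S36.Chart3B
import Fermat.Agent.S36.V3
import Fermat.Agent.S36.NakMod
import Fermat.Agent.S36.NakModC
import Fermat.Agent.S36.NakUnramEll
import Fermat.Agent.S36.NakTopB

/-!
# S36, package [B1-nak] : chart glue for the closed top (`NakTopB`)

The charts of record of the three levels

* `CA = chart M A K (jK M K)`                       (`= R0 M q A K`, level `M`),
* `CB = chart (M q) A K (WKInst.JK M q hq hqM K)`   (`= chart (M q) A K (jK (M q) K)`),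
* `CC = chart (M q²) A K (Chart3B.J3 M q hq hqM K)` (`= chart (M q²) A K (jK (M q²) K)`),

with the ring-theoretic facts (`IsNoetherianRing`, `IsFractionRing`, `IsIntegrallyClosed`) in the
exact instance shapes consumed by `NakAsm.b1_at_W3_point`, `NakTopB.b1_W3 / princ_W3`,
`NakUnramEll.unram` and `NakNodeJ.node_data_JK`, and the discharge of the binders `hU`, `E`,
`hP3`, `hP0`, `hP1`, `hEα`, `hEβ`, `j`, `hj` of `NakTopB.princ_W3`.

* `hCA`, `hCB`, `hCC`                 : the three chart equalities (`rfl`, `WKInst.chart_JK_eq`,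
                                        `Chart3B.chart_J3_eq`);
* `isNoetherianRing_of_eq`, `isFractionRing_of_eq`, `isIntegrallyClosed_of_eq`, `jK_mem_of_eq` :
  for ANY subalgebra `R = chart N A K (jK N K)`;
* `noeth_CA/CB/CC`, `frac_CA/CB/CC`, `intcl_CA/CB/CC` : the nine instances;
* `hU`                                : **(U)** for `CB` over `CA` under `4 ∣ M ∨ 9 ∣ M`, VERBATIM
                                        the binder `hU` of `NakTopB.b1_W3 / princ_W3`;
* `princ_W3`                          : `NakTopB.princ_W3` with `E := ι` (`H : V3.Hyp3 …`), `hP3`,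
                                        `hP0`, `hP1`, `hEα`, `hEβ`, `hU`, `j`, `hj` discharged — left:
                                        `ChartHyp3`, `ValHyp3`, the shape of `V`, and `hbr`;
* `princ_W3_J3`                       : the same on `CC = chart J3`, no instance binder.
-/

set_option autoImplicit false

namespace Fermat.Agent.S36.NakCC

open ModularCurve AlgebraicCurve HahnSeries
open Fermat.Agent.S18 Fermat.Agent.S18.Arith Fermat.Agent.S18.ModelPlan
open Fermat.Agent.S34 Fermat.Agent.S36.Model3Plan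

/-! ### The base ring -/

section Base

variable (A : ValuationSubring Qb) (K : IntermediateField ℚ Qb)

theorem charZero_OK : CharZero (OK A K) := inferInstance

theorem isDomain_OK : IsDomain (OK A K) := inferInstance

end Base

/-! ### Any subalgebra equal to the chart `j ≠ ∞` -/

section Gen

variable {N : ℕ} [NeZero N] {A : ValuationSubring Qb} {K : IntermediateField ℚ Qb}

omit [NeZero N] in
theorem isDomain_sub (R : Subalgebra (OK A K) (FK N K)) : IsDomain R := inferInstance

theorem isNoetherianRing_of_eq (hdvr : IsDiscreteValuationRing (OK A K))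
    (R : Subalgebra (OK A K) (FK N K)) (hR : R = chart N A K (jK N K)) :
    IsNoetherianRing R := by
  subst hR
  have : Fact (Nat.Prime 2) := ⟨Nat.prime_two⟩
  exact ChartRing.isNoetherianRing_R0 N A K 2 hdvr

theorem isFractionRing_of_eq (R : Subalgebra (OK A K) (FK N K))
    (hR : R = chart N A K (jK N K)) : IsFractionRing R (FK N K) := by
  subst hR
  have : Fact (Nat.Prime 2) := ⟨Nat.prime_two⟩
  exact ChartRing.isFractionRing_R0 N A K 2

theorem isIntegrallyClosed_of_eq (R : Subalgebra (OK A K) (FK N K))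
    (hR : R = chart N A K (jK N K)) : IsIntegrallyClosed R := by
  subst hR
  have : Fact (Nat.Prime 2) := ⟨Nat.prime_two⟩
  exact ChartRing.isIntegrallyClosed_R0 N A K 2

theorem jK_mem_of_eq (R : Subalgebra (OK A K) (FK N K)) (hR : R = chart N A K (jK N K)) :
    jK N K ∈ R := by
  subst hR
  exact Fermat.Agent.S18.Model.self_mem_chart N A K (jK N K)

end Gen

/-! ### The three charts of record -/

section Charts

variable (M q : ℕ) [NeZero M] [NeZero q] (hq : q.Prime) (hqM : ¬ q ∣ M)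
variable (A : ValuationSubring Qb) (K : IntermediateField ℚ Qb)

omit [NeZero q] in
/-- `R0 M q A K` is the chart `j ≠ ∞` of level `M` (by definition). -/
theorem hCA [Fact q.Prime] : R0 M q A K = chart M A K (jK M K) := rfl

/-- `chart JK = chart j` at level `M q`. -/
theorem hCB :
    chart (M * q) A K (WKInst.JK M q hq hqM K) = chart (M * q) A K (jK (M * q) K) :=
  WKInst.chart_JK_eq M q hq hqM A K

/-- `chart J3 = chart j` at level `M q²`. -/
theorem hCC :
    chart (M * q * q) A K (Chart3B.J3 M q hq hqM K)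
      = chart (M * q * q) A K (jK (M * q * q) K) :=
  Chart3B.chart_J3_eq M q hq hqM A K

theorem noeth_CA (hdvr : IsDiscreteValuationRing (OK A K)) :
    IsNoetherianRing (chart M A K (jK M K)) :=
  isNoetherianRing_of_eq hdvr _ rfl

theorem frac_CA : IsFractionRing (chart M A K (jK M K)) (FK M K) :=
  isFractionRing_of_eq _ rfl

theorem intcl_CA : IsIntegrallyClosed (chart M A K (jK M K)) :=
  isIntegrallyClosed_of_eq _ rfl

theorem jK_mem_CA : jK M K ∈ chart M A K (jK M K) := jK_mem_of_eq _ rfl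

theorem noeth_CB (hdvr : IsDiscreteValuationRing (OK A K)) :
    IsNoetherianRing (chart (M * q) A K (WKInst.JK M q hq hqM K)) :=
  isNoetherianRing_of_eq hdvr _ (hCB M q hq hqM A K)

theorem frac_CB :
    IsFractionRing (chart (M * q) A K (WKInst.JK M q hq hqM K)) (FK (M * q) K) :=
  isFractionRing_of_eq _ (hCB M q hq hqM A K)

theorem intcl_CB : IsIntegrallyClosed (chart (M * q) A K (WKInst.JK M q hq hqM K)) :=
  isIntegrallyClosed_of_eq _ (hCB M q hq hqM A K)

theorem noeth_CC (hdvr : IsDiscreteValuationRing (OK A K)) :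
    IsNoetherianRing (chart (M * q * q) A K (Chart3B.J3 M q hq hqM K)) :=
  isNoetherianRing_of_eq hdvr _ (hCC M q hq hqM A K)

theorem frac_CC :
    IsFractionRing (chart (M * q * q) A K (Chart3B.J3 M q hq hqM K)) (FK (M * q * q) K) :=
  isFractionRing_of_eq _ (hCC M q hq hqM A K)

theorem intcl_CC : IsIntegrallyClosed (chart (M * q * q) A K (Chart3B.J3 M q hq hqM K)) :=
  isIntegrallyClosed_of_eq _ (hCC M q hq hqM A K)

end Charts

/-! ### `(U)` and the closed form of `NakTopB.princ_W3` -/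

section Top

variable (M q : ℕ) [NeZero M] [NeZero q] (hq : q.Prime) (hqM : ¬ q ∣ M)
variable {A : ValuationSubring Qb} {K : IntermediateField ℚ Qb}

/-- **(U)**: under `4 ∣ M ∨ 9 ∣ M` every horizontal prime of the level-`M q` chart `CB` is
unramified over the level-`M` chart `CA`.  VERBATIM the binder `hU` of `NakTopB.b1_W3` and
`NakTopB.princ_W3`. -/
theorem hU (hM : 4 ∣ M ∨ 9 ∣ M) (hdvr : IsDiscreteValuationRing (OK A K)) :
    ∀ 𝔮B : Ideal (chart (M * q) A K (WKInst.JK M q hq hqM K)), 𝔮B.IsPrime →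
      (∀ c : OK A K,
        algebraMap (OK A K) (chart (M * q) A K (WKInst.JK M q hq hqM K)) c ∈ 𝔮B → c = 0) →
      ∀ r ∈ 𝔮B, ∃ s : chart (M * q) A K (WKInst.JK M q hq hqM K), s ∉ 𝔮B ∧
        s * r ∈ Ideal.map
          (NakMod.iota M q (chart (M * q) A K (WKInst.JK M q hq hqM K))
            (WKInst.chart_JK_eq M q hq hqM A K) :
            chart M A K (jK M K) →+* chart (M * q) A K (WKInst.JK M q hq hqM K))
          (Ideal.comap
            (NakMod.iota M q (chart (M * q) A K (WKInst.JK M q hq hqM K))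
              (WKInst.chart_JK_eq M q hq hqM A K) :
              chart M A K (jK M K) →+* chart (M * q) A K (WKInst.JK M q hq hqM K)) 𝔮B) := by
  intro 𝔮B h𝔮 hhor
  have h1 := noeth_CB M q hq hqM A K hdvr
  have h2 := frac_CB M q hq hqM A K
  have h3 := intcl_CB M q hq hqM A K
  have h4 := noeth_CA M A K hdvr
  have h5 := frac_CA M A K
  have h6 := intcl_CA M A K
  exact NakUnramEll.unram M q A K hM hdvr (chart (M * q) A K (WKInst.JK M q hq hqM K))
    (chart M A K (jK M K)) (jK_mem_CA M A K)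
    (NakMod.iota M q (chart (M * q) A K (WKInst.JK M q hq hqM K))
      (WKInst.chart_JK_eq M q hq hqM A K) :
      chart M A K (jK M K) →+* chart (M * q) A K (WKInst.JK M q hq hqM K))
    (fun _ => rfl) 𝔮B h𝔮 hhor

variable {K' : IntermediateField ℚ Qb} {ξ : Qb} {hξ0 : ξ ≠ 0}
  {ι : FK (M * q * q) K →+* LaurentSeries Qb} {ϖ' : OK A K'}

/-- **The `princ` conjunct at the points of `W3`** (`hnak` of `Princ3Cases.princ_of_cases` on the
finite chart), closed form of `NakTopB.princ_W3`: the expansion is the middle-cusp embedding `ι`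
of `H : V3.Hyp3 …`, the valuation rings are `V = (V1, V1 ∘ w_{q²}, W3)` with ANY uniformizers;
`(U)` from `4 ∣ M ∨ 9 ∣ M`.  Left: the branch `CC / P 2` is regular at the closed points. -/
theorem princ_W3 [Fact q.Prime] (hA : A.LiesOverPrime q) (hB : BaseFacts q A K)
    (hM : 4 ∣ M ∨ 9 ∣ M) (π : OK A K) (hπ : Irreducible π)
    (CC : Subalgebra (OK A K) (FK (M * q * q) K))
    (hCC : CC = chart (M * q * q) A K (jK (M * q * q) K))
    [IsNoetherianRing CC] [IsIntegrallyClosed CC] [IsFractionRing CC (FK (M * q * q) K)]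
    {e : Fin 3 → ℕ} {ϖ : Fin 3 → FK (M * q * q) K}
    {V : Fin 3 → ValuationSubring (FK (M * q * q) K)} {P : Fin 3 → Ideal CC}
    (H : V3.Hyp3 M q hq hqM A K K' ξ hξ0 ι ϖ')
    (hyp : ChartHyp3 π ϖ V P)
    (hval : ValHyp3 (algebraMap CC (FK (M * q * q) K) (algebraMap (OK A K) CC π)) e ϖ V)
    (hV0 : V 0 = GaussV.V1 (M * q * q) A K hB.dvr)
    (hV1 : V 1 = GaussV.V2 (WQ2.wK2 M q hq hqM K) hB.dvr) (hV2 : V 2 = H.W3)
    (hbr : ∀ n : Ideal CC, n.IsMaximal → algebraMap (OK A K) CC π ∈ n → P 2 ≤ n →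
      ∃ u ∈ n, ∀ x ∈ n, ∃ s : CC, s ∉ n ∧ ∃ c : CC, s * x - c * u ∈ P 2) :
    ∀ n : Ideal CC, n.IsMaximal → algebraMap (OK A K) CC π ∈ n → P 2 ≤ n →
      ∃ i : Fin 3, P i ≤ n ∧ ∃ g ∈ P i, ∀ y ∈ P i, ∃ s : CC, s ∉ n ∧ ∃ c : CC, s * y = c * g :=
  NakTopB.princ_W3 M q hq hqM hA hB π hπ CC hCC hyp hval ι
    (NakModC.mem_P2_iff_gRel CC H hyp hval hV2)
    (NakModC.gRel_zero_of_mem_P0 M q CC hB.dvr hyp hval hV0)
    (NakModC.gRel_zero_of_mem_P1 M q hq hqM CC hB.dvr hyp hval hV1)
    H.mid.alpha (fun _ _ h => H.gRel_beta hA h)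
    (hU M q hq hqM hM hB.dvr)
    ⟨jK M K, jK_mem_CA M A K⟩
    (NakModC.delta_j_gen M q hq hqM _ (WKInst.chart_JK_eq M q hq hqM A K) CC hCC inferInstance
      H hyp hval hV2 ⟨jK M K, jK_mem_CA M A K⟩ rfl)
    hbr

/-- `princ_W3` on the chart of record `CC = chart J3` (no instance binder). -/
theorem princ_W3_J3 [Fact q.Prime] (hA : A.LiesOverPrime q) (hB : BaseFacts q A K)
    (hM : 4 ∣ M ∨ 9 ∣ M) (π : OK A K) (hπ : Irreducible π)
    {e : Fin 3 → ℕ} {ϖ : Fin 3 → FK (M * q * q) K}
    {V : Fin 3 → ValuationSubring (FK (M * q * q) K)}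
    {P : Fin 3 → Ideal (chart (M * q * q) A K (Chart3B.J3 M q hq hqM K))}
    (H : V3.Hyp3 M q hq hqM A K K' ξ hξ0 ι ϖ')
    (hyp : ChartHyp3 π ϖ V P)
    (hval : ValHyp3 (algebraMap (OK A K) (FK (M * q * q) K) π) e ϖ V)
    (hV0 : V 0 = GaussV.V1 (M * q * q) A K hB.dvr)
    (hV1 : V 1 = GaussV.V2 (WQ2.wK2 M q hq hqM K) hB.dvr) (hV2 : V 2 = H.W3)
    (hbr : ∀ n : Ideal (chart (M * q * q) A K (Chart3B.J3 M q hq hqM K)), n.IsMaximal →
      algebraMap (OK A K) (chart (M * q * q) A K (Chart3B.J3 M q hq hqM K)) π ∈ n → P 2 ≤ n →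
      ∃ u ∈ n, ∀ x ∈ n, ∃ s : chart (M * q * q) A K (Chart3B.J3 M q hq hqM K), s ∉ n ∧
        ∃ c : chart (M * q * q) A K (Chart3B.J3 M q hq hqM K), s * x - c * u ∈ P 2) :
    ∀ n : Ideal (chart (M * q * q) A K (Chart3B.J3 M q hq hqM K)), n.IsMaximal →
      algebraMap (OK A K) (chart (M * q * q) A K (Chart3B.J3 M q hq hqM K)) π ∈ n → P 2 ≤ n →
      ∃ i : Fin 3, P i ≤ n ∧ ∃ g ∈ P i, ∀ y ∈ P i,
        ∃ s : chart (M * q * q) A K (Chart3B.J3 M q hq hqM K), s ∉ n ∧
          ∃ c : chart (M * q * q) A K (Chart3B.J3 M q hq hqM K), s * y = c * g := by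
  have h1 := noeth_CC M q hq hqM A K hB.dvr
  have h2 := frac_CC M q hq hqM A K
  have h3 := intcl_CC M q hq hqM A K
  exact princ_W3 M q hq hqM hA hB hM π hπ _ (hCC M q hq hqM A K) H hyp hval hV0 hV1 hV2 hbr

end Top

end Fermat.Agent.S36.NakCC
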