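import Mathlib
import Fermat.Agent.S36.Model3Top
import Fermat.Agent.S36.Model3PrincB
import Fermat.Agent.S36.Model3ClosedB
import Fermat.Agent.S36.NakCC
import Fermat.Agent.S36.CuspClose
import Fermat.Agent.S36.EtaB1HypC
import Fermat.Agent.S36.ResDeg3Inst
import Fermat.Agent.S36.Level3J3B
import Fermat.Agent.S36.Plan

/-!
# S36 [MODEL3] — Model3Fin.lean (helper113): the model of record, CLOSED under `Plan.AuxHyp`

Seam of the three (B1) packages with `S36/Model3Top`, at the objects of record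
(`V = ![W1, W2, H.W3]`, `ϖ = ![π, π, sE]`, coordinate `J3`, `P = Model3Asm.Pc …`):

* `hM_of_aux`  : `Plan.AuxHyp q M → 4 ∣ M ∨ 9 ∣ M`;
* `hbr2`       : the branch `chart J3 / P 2` is regular at its closed points
                 (`Level3J3B.branch3_J3` + `ResDeg3Inst.hf1`, `hf3'`);
* `hnak0`      : **[B1-nak] closed** — the binder `hnak0` of `Model3PrincB.hprinc0` / `model3`
                 (`NakCC.princ_W3_J3` + `hbr2`), under `4 ∣ M ∨ 9 ∣ M`;
* `hB1_0`      : the same at ALL closed points of `P 2` (binder `hB1_0` of `Model3Princ.princ0`);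
* `princ0`     : the field `princ` of `chart J3` ([B1-eta] `EtaB1Inst.heta0` + `hnak0`), from the
                 eta unit `hex`;
* `model3`     : `Model3 (M q²) A K π (ram q) ![π, π, sE] ![W1, W2, H.W3] J3` from `hex` and
                 `4 ∣ M ∨ 9 ∣ M` (`CuspClose.model3_of_princ0`: the chart at infinity is closed);
* `princOn0`, `princOnInf`, `model_record` : the data of record of `S36/Model3ClosedB`
                 (`H = V3.hyp3_iota3`, `incO π = q`) under `Plan.AuxHyp q M`: the two `PrincOn`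
                 inputs of `Model3ClosedB.chainL_of_record` and the model, HYPOTHESIS-FREE.
-/

set_option autoImplicit false
set_option linter.unusedSectionVars false

noncomputable section

namespace Fermat.Agent.S36.Model3Fin

open ModularCurve AlgebraicCurve HahnSeries
open Fermat.Agent.S18 Fermat.Agent.S18.Arith Fermat.Agent.S18.ModelPlan
open Fermat.Agent.S34 Fermat.Agent.S36.Model3Plan

/-- `Plan.AuxHyp q M` gives `4 ∣ M ∨ 9 ∣ M`. -/
theorem hM_of_aux {q M : ℕ} (haux : Plan.AuxHyp q M) : 4 ∣ M ∨ 9 ∣ M := by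
  by_cases h2 : q = 2
  · exact Or.inr (haux.2 h2)
  · exact Or.inl (haux.1 h2)

variable {M q : ℕ} [NeZero M] [NeZero q] {hq : q.Prime} {hqM : ¬ q ∣ M}
variable {A : ValuationSubring Qb} {K K' : IntermediateField ℚ Qb}
variable {ξ : Qb} {hξ0 : ξ ≠ 0} {ι : FK (M * q * q) K →+* LaurentSeries Qb} {ϖ : OK A K'}
variable (H : V3.Hyp3 M q hq hqM A K K' ξ hξ0 ι ϖ)
variable (hB : BaseFacts q A K) (π : OK A K)

/-- the uniformizer family of record `![π, π, sE]` -/
local notation "WRec" => (![algebraMap (OK A K) (FK (M * q * q) K) π,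
  algebraMap (OK A K) (FK (M * q * q) K) π, Wit3.sE M q hq hqM K] : Fin 3 → FK (M * q * q) K)

/-- the valuation rings of record `![W1, W2, W3]` -/
local notation "VRec" => (![GaussV.V1 (M * q * q) A K hB.dvr,
  GaussV.V2 (WQ2.wK2 M q hq hqM K) hB.dvr, H.W3] :
    Fin 3 → ValuationSubring (FK (M * q * q) K))

/-- the vertical primes of `chart J3` -/
local notation "P0Rec" => Model3Asm.Pc (chart (M * q * q) A K (Chart3B.J3 M q hq hqM K))
  WRec VRec (Model3Top.le0 H hB.dvr)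

variable {π}

/-- **The branch `chart J3 / P` at the closed points** for any family `P` of vertical primes of
`chart J3` (`Level3J3B.branch3_J3` with `hf1`, `hf3` from `ResDeg3Inst`). -/
theorem hbr (hA : A.LiesOverPrime q) (hπ : Irreducible π) (a : A)
    (hqa : (q : Qb) = incO A K π * (a : Qb))
    (hπϖ : ∃ u : A, IsUnit u ∧ incO A K π = incO A K' ϖ ^ (q - 1) * (u : Qb))
    {P : Fin 3 → Ideal (chart (M * q * q) A K (Chart3B.J3 M q hq hqM K))}
    (hyp : ChartHyp3 π WRec VRec P) :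
    ∀ n : Ideal (chart (M * q * q) A K (Chart3B.J3 M q hq hqM K)), n.IsMaximal →
      algebraMap (OK A K) (chart (M * q * q) A K (Chart3B.J3 M q hq hqM K)) π ∈ n →
      ∀ i : Fin 3, P i ≤ n →
      (∃ x ∈ n, x ∉ P i) ∧
        ∃ u ∈ n, ∀ x ∈ n, ∃ s' : chart (M * q * q) A K (Chart3B.J3 M q hq hqM K), s' ∉ n ∧
          ∃ c : chart (M * q * q) A K (Chart3B.J3 M q hq hqM K), s' * x - c * u ∈ P i := by
  have : Fact q.Prime := ⟨hq⟩
  have hC : ChartFacts M A K (chart M A K (jK M K)) (jK M K) :=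
    Red2B.chartFacts M q hq hqM A K hA hB
  have hW := Model3Top.wit H hB.dvr hA hC hπ a hqa hπϖ
  have hf1 := ResDeg3Inst.hf1 M q hB.dvr hπ hC hW
  have hf3 := ResDeg3Inst.hf3' M q hq hB.dvr hπ hC H.mid.alpha (V3Wit.hW3 H) hW
  exact Level3J3B.branch3_J3 M q hq hqM hA hB π hπ H.emb H.dvr' H.irr H.unif
    H.mid.alpha (Model3Top.gRel_s H) hf1 hf3 _ hyp

/-- **(B1) at every closed point of `P 2` on `chart J3`** ([B1-nak], closed), for any family `P`
of vertical primes with `ChartHyp3` against the valuation rings of record. -/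
theorem princ_P2 (hA : A.LiesOverPrime q) (hM : 4 ∣ M ∨ 9 ∣ M) (hπ : Irreducible π) (a : A)
    (hqa : (q : Qb) = incO A K π * (a : Qb))
    (hπϖ : ∃ u : A, IsUnit u ∧ incO A K π = incO A K' ϖ ^ (q - 1) * (u : Qb))
    {P : Fin 3 → Ideal (chart (M * q * q) A K (Chart3B.J3 M q hq hqM K))}
    (hyp : ChartHyp3 π WRec VRec P) :
    ∀ n : Ideal (chart (M * q * q) A K (Chart3B.J3 M q hq hqM K)), n.IsMaximal →
      algebraMap (OK A K) (chart (M * q * q) A K (Chart3B.J3 M q hq hqM K)) π ∈ n →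
      P 2 ≤ n →
      ∃ i : Fin 3, P i ≤ n ∧ ∃ g ∈ P i, ∀ y ∈ P i,
        ∃ s : chart (M * q * q) A K (Chart3B.J3 M q hq hqM K), s ∉ n ∧
          ∃ c : chart (M * q * q) A K (Chart3B.J3 M q hq hqM K), s * y = c * g := by
  have : Fact q.Prime := ⟨hq⟩
  have hbr' := hbr H hB hA hπ a hqa hπϖ hyp
  exact NakCC.princ_W3_J3 M q hq hqM hA hB hM π hπ H hyp
    (V3Wit.valHyp3 H hB.dvr hA hπ a hqa hπϖ) rfl rfl rfl
    (fun n hn hπn h2 => (hbr' n hn hπn 2 h2).2)

/-- **[B1-nak] closed: the binder `hnak0` of `Model3PrincB.hprinc0` / `Model3PrincB.model3`,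
VERBATIM**, under `4 ∣ M ∨ 9 ∣ M`. -/
theorem hnak0 (hA : A.LiesOverPrime q) (hM : 4 ∣ M ∨ 9 ∣ M) (hπ : Irreducible π) (a : A)
    (hqa : (q : Qb) = incO A K π * (a : Qb))
    (hπϖ : ∃ u : A, IsUnit u ∧ incO A K π = incO A K' ϖ ^ (q - 1) * (u : Qb)) :
    ChartHyp3 π WRec VRec P0Rec →
      ∀ n : Ideal (chart (M * q * q) A K (Chart3B.J3 M q hq hqM K)), n.IsMaximal →
        algebraMap (OK A K) (chart (M * q * q) A K (Chart3B.J3 M q hq hqM K)) π ∈ n →
        ¬ P0Rec 0 ≤ n → ¬ P0Rec 1 ≤ n → P0Rec 2 ≤ n →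
        ∃ i : Fin 3, P0Rec i ≤ n ∧ ∃ g ∈ P0Rec i, ∀ y ∈ P0Rec i,
          ∃ s : chart (M * q * q) A K (Chart3B.J3 M q hq hqM K), s ∉ n ∧
            ∃ c : chart (M * q * q) A K (Chart3B.J3 M q hq hqM K), s * y = c * g :=
  fun hyp n hn hπn _ _ h2 => princ_P2 H hB hA hM hπ a hqa hπϖ hyp n hn hπn h2

/-- **The binder `hB1_0` of `Model3Princ.princ0` (route II), VERBATIM**: (B1) at ALL closed
points of `P 2` on `chart J3`, under `4 ∣ M ∨ 9 ∣ M`. -/
theorem hB1_0 (hA : A.LiesOverPrime q) (hM : 4 ∣ M ∨ 9 ∣ M) (hπ : Irreducible π) (a : A)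
    (hqa : (q : Qb) = incO A K π * (a : Qb))
    (hπϖ : ∃ u : A, IsUnit u ∧ incO A K π = incO A K' ϖ ^ (q - 1) * (u : Qb)) :
    ∀ n : Ideal (chart (M * q * q) A K (Chart3B.J3 M q hq hqM K)), n.IsMaximal →
      algebraMap (OK A K) (chart (M * q * q) A K (Chart3B.J3 M q hq hqM K)) π ∈ n →
      P0Rec 2 ≤ n →
      ∃ i : Fin 3, P0Rec i ≤ n ∧ ∃ g ∈ P0Rec i, ∀ y ∈ P0Rec i,
        ∃ s : chart (M * q * q) A K (Chart3B.J3 M q hq hqM K), s ∉ n ∧
          ∃ c : chart (M * q * q) A K (Chart3B.J3 M q hq hqM K), s * y = c * g :=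
  princ_P2 H hB hA hM hπ a hqa hπϖ (CuspClose.chartHyp3_zero H hA hB hπ a hqa hπϖ)

/-- **The field `princ` of `chart J3`** for the vertical primes of record: [B1-eta] on
`P 0 ∪ P 1` (from the eta unit `hex`), [B1-nak] on `P 2` (under `4 ∣ M ∨ 9 ∣ M`). -/
theorem princ0 (hA : A.LiesOverPrime q) (hM : 4 ∣ M ∨ 9 ∣ M) (hπ : Irreducible π) (a : A)
    (hqa : (q : Qb) = incO A K π * (a : Qb))
    (hπϖ : ∃ u : A, IsUnit u ∧ incO A K π = incO A K' ϖ ^ (q - 1) * (u : Qb))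
    (hex : EtaB1Inst.EtaHyp M q hq hqM A K π) :
    ∀ n : Ideal (chart (M * q * q) A K (Chart3B.J3 M q hq hqM K)), n.IsMaximal →
      algebraMap (OK A K) (chart (M * q * q) A K (Chart3B.J3 M q hq hqM K)) π ∈ n →
      ∃ i : Fin 3, P0Rec i ≤ n ∧ ∃ g ∈ P0Rec i, ∀ y ∈ P0Rec i,
        ∃ s : chart (M * q * q) A K (Chart3B.J3 M q hq hqM K), s ∉ n ∧
          ∃ c : chart (M * q * q) A K (Chart3B.J3 M q hq hqM K), s * y = c * g :=
  Model3PrincB.hprinc0 H hB hA hπ a hqa hπϖ hex (hnak0 H hB hA hM hπ a hqa hπϖ)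
    (CuspClose.chartHyp3_zero H hA hB hπ a hqa hπϖ)

/-- **[MODEL3] closed**: the model at level `M q²` for the valuation rings of record and the
coordinate `J3`, from the eta unit `hex` and `4 ∣ M ∨ 9 ∣ M`. -/
def model3 (hA : A.LiesOverPrime q) (hM : 4 ∣ M ∨ 9 ∣ M) (hπ : Irreducible π) (a : A)
    (hqa : (q : Qb) = incO A K π * (a : Qb))
    (hπϖ : ∃ u : A, IsUnit u ∧ incO A K π = incO A K' ϖ ^ (q - 1) * (u : Qb))
    (hex : EtaB1Inst.EtaHyp M q hq hqM A K π) :
    Model3 (M * q * q) A K π (Model3Plan.ram q) WRec VRec (Chart3B.J3 M q hq hqM K) :=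
  CuspClose.model3_of_princ0 H hA hB hπ a hqa hπϖ (princ0 H hB hA hM hπ a hqa hπϖ hex)

omit H

/-! ### The data of record of `S36/Model3ClosedB`, under `Plan.AuxHyp` -/

section Record

variable (hq) (hqM)

/-- `q = π · 1` for a uniformizer with `incO π = q`. -/
theorem hqa_one (hπq : incO A K π = (q : Qb)) :
    (q : Qb) = incO A K π * ((1 : A) : Qb) := by
  rw [hπq, OneMemClass.coe_one, mul_one]

/-- **`PrincOn` for `chart J3`** at the data of record, under `Plan.AuxHyp q M`. -/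
theorem princOn0 (haux : Plan.AuxHyp q M) (hA : A.LiesOverPrime q)
    (hπ : Irreducible π) (hπq : incO A K π = (q : Qb)) {ξ : Qb} (hξ : IsPrimitiveRoot ξ q) :
    Model3ClosedB.PrincOn (chart (M * q * q) A K (Chart3B.J3 M q hq hqM K)) π
      (Model3ClosedB.unif hq hqM π) (Model3ClosedB.vals hq hqM hB.dvr π hπ hπq hξ) :=
  Model3ClosedB.princOn_of_pc _ π _ _
    (Model3Top.le0 (V3.hyp3_iota3 hq hqM A hB.dvr π hπ hπq hξ) hB.dvr)
    (fun _ => princ0 (V3.hyp3_iota3 hq hqM A hB.dvr π hπ hπq hξ) hB hA (hM_of_aux haux) hπ 1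
      (hqa_one hπq) (BaseXi.exists_unit hq π hπ hπq hξ)
      (EtaB1HypC.etaHyp M q hq hqM haux A K hB.dvr hπ hπq))

/-- **`PrincOn` for `chart J3⁻¹`** at the data of record, under `Plan.AuxHyp q M`. -/
theorem princOnInf (haux : Plan.AuxHyp q M) (hA : A.LiesOverPrime q)
    (hπ : Irreducible π) (hπq : incO A K π = (q : Qb)) {ξ : Qb} (hξ : IsPrimitiveRoot ξ q) :
    Model3ClosedB.PrincOn (chart (M * q * q) A K (Chart3B.J3 M q hq hqM K)⁻¹) π
      (Model3ClosedB.unif hq hqM π) (Model3ClosedB.vals hq hqM hB.dvr π hπ hπq hξ) :=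
  fun _ hypInf =>
    CuspClose.princInf_of_princ0 (V3.hyp3_iota3 hq hqM A hB.dvr π hπ hπq hξ) hA hB hπ 1
      (hqa_one hπq) (BaseXi.exists_unit hq π hπ hπq hξ)
      (CuspClose.chartHyp3_zero (V3.hyp3_iota3 hq hqM A hB.dvr π hπ hπq hξ) hA hB hπ 1
        (hqa_one hπq) (BaseXi.exists_unit hq π hπ hπq hξ))
      hypInf
      (princ0 (V3.hyp3_iota3 hq hqM A hB.dvr π hπ hπq hξ) hB hA (hM_of_aux haux) hπ 1
        (hqa_one hπq) (BaseXi.exists_unit hq π hπ hπq hξ)
        (EtaB1HypC.etaHyp M q hq hqM haux A K hB.dvr hπ hπq))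

/-- **The model of record, hypothesis-free under `Plan.AuxHyp q M`**: for an unramified base
(`BaseFacts q A K`, a uniformizer `π` of `O = A ∩ K` with `incO π = q`) and a primitive `q`-th
root of unity `ξ`. -/
def model_record (haux : Plan.AuxHyp q M) (hA : A.LiesOverPrime q)
    (hπ : Irreducible π) (hπq : incO A K π = (q : Qb)) {ξ : Qb} (hξ : IsPrimitiveRoot ξ q) :
    Model3 (M * q * q) A K π (Model3Plan.ram q) (Model3ClosedB.unif hq hqM π)
      (Model3ClosedB.vals hq hqM hB.dvr π hπ hπq hξ) (Chart3B.J3 M q hq hqM K) :=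
  Model3ClosedB.model hq hqM hA hB hπ hπq hξ (princOn0 hq hqM hB haux hA hπ hπq hξ)
    (princOnInf hq hqM hB haux hA hπ hπq hξ)

end Record

end Fermat.Agent.S36.Model3Fin
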