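/-
S36 — V3B.lean (helper3), block [MODEL3], leaf [M3.3] (B-copy; A = helper119 `S36/V3.lean`) and the
`W3`-half of the witness leaf [M3.4].

THE THIRD VALUATION RING `W3` at level `N = M * q * q` (`q` prime, `q ∤ M`): the Gauss valuation
ring of `F_K(N)` ALONG A MIDDLE-CUSP EMBEDDING `ι3` (identity on `F_K(M q)`,
`j(Q^(q²)) ↦ j(ξ Q)`, `ξ` a primitive `q`-th root of unity), an instance of `S36/GaussE` with
`K' = K(ξ)`, `ϖ = 1 - ξ`.

PART A (abstract in the embedding `E`, so that it applies to ANY copy of `W3 = GaussE.V hE hdvr'`):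
* `Mid ξ hξ0 E`             — `E` is the identity on `F_K(M q)` and `E (j_{q²}) = j(ξ Q)`;
* `Mid.apply_jK/_jq/_jqq`, `Mid.apply_x1/_x2/_x3/_sE/_bE` — the `E`-expansions of the witnesses;
* `Mid.mem_V_of_low`, `Mid.red_of_low` — `V1` of level `M q` lies in `W3`, same reduction;
* `Mid.unif`                — `s = j_{q²} - j` is a uniformiser along `E` (`GaussE.Unif`);
* the witness facts of `S36/Wit3` on the third branch: `Mid.x2_pi`, `Mid.x1_pi` (`x ∈ π W3`),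
  `Mid.x3_unit`, `Mid.b_mem`, `Mid.red_b`.

PART B (the concrete instance for `Iota3.iota3`, `K' = BaseXiB.Kxi K ξ`, `ϖ = BaseXiB.varpi`):
* `E3`, `mid3`, `emb3`, `W3`, `red3`, `unif3`;
* `isDVR_W3`, `ker_red3`, `red3_eq_zero_iff`, `exists_pi_eq3` (`π = s ^ (q - 1) * unit`);
* `x1_pi3`, `x2_pi3`, `x3_unit3`, `b_mem3`, `red3_b`, `incl_mem_W3`, `red3_incl`;
* the `ValHyp3`-fields at the third index: `unif_mem3`, `unif_not3`, `disc3`, `ram3`.
-/
import Mathlib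
import Fermat.Agent.S36.GaussE
import Fermat.Agent.S36.Iota3
import Fermat.Agent.S36.BaseXiB
import Fermat.Agent.S36.Wit3Xi
import Fermat.Agent.S36.Wit3
import Fermat.Agent.S36.Qfrac3
import Fermat.Agent.S36.Wit3Set

set_option autoImplicit false

noncomputable section

namespace Fermat.Agent.S36.V3B

open ModularCurve HahnSeries Fermat.Agent.S18 Fermat.Agent.S18.Arith Fermat.Agent.S18.ModelPlan
open Fermat.Agent.S34

/-! ## Two general facts on `GaussE.V` -/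

section Gen

variable {A : ValuationSubring Qb} {K K' : IntermediateField ℚ Qb}
variable {F : Type*} [Field F] [Algebra (OK A K) F] {E : F →+* LaurentSeries Qb}
variable (hE : GaussE.Emb A K K' E) (hdvr' : IsDiscreteValuationRing (OK A K'))

/-- A nonunit of the Gauss ring along `E` has Gauss reduction `0`. -/
theorem gRel_zero_of_mem_nonunits {x : F} (hx : x ∈ (GaussE.V hE hdvr').nonunits) :
    GRel A (E x) 0 := by
  rw [ValuationSubring.mem_nonunits_iff] at hx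
  have hxV : x ∈ GaussE.V hE hdvr' := ((GaussE.V hE hdvr').valuation_le_one_iff x).mp hx.le
  have hred : GaussE.red hE hdvr' ⟨x, hxV⟩ = 0 := by
    by_contra hne
    have hinv : x⁻¹ ∈ GaussE.V hE hdvr' := GaussE.inv_mem_V hE hdvr' ⟨x, hxV⟩ hne
    have hx0 : x ≠ 0 := by
      rintro rfl
      exact hne (map_zero (GaussE.red hE hdvr'))
    have h1 : (GaussE.V hE hdvr').valuation x⁻¹ ≤ 1 :=
      ((GaussE.V hE hdvr').valuation_le_one_iff _).mpr hinv
    have h2 : (GaussE.V hE hdvr').valuation (x * x⁻¹) < 1 := by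
      rw [map_mul]
      exact mul_lt_one_of_lt_of_le hx h1
    rw [mul_inv_cancel₀ hx0, map_one] at h2
    exact lt_irrefl _ h2
  have h := GaussE.gRel_red hE hdvr' ⟨x, hxV⟩
  rwa [hred] at h

/-- An element of Gauss reduction `0` is a nonunit of the Gauss ring along `E`. -/
theorem mem_nonunits_of_gRel_zero {x : F} (hx : GRel A (E x) 0) :
    x ∈ (GaussE.V hE hdvr').nonunits := by
  rw [ValuationSubring.mem_nonunits_iff]
  have hxV : x ∈ GaussE.V hE hdvr' := (GaussE.mem_V_iff hE hdvr').mpr ⟨0, hx⟩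
  have hle : (GaussE.V hE hdvr').valuation x ≤ 1 :=
    ((GaussE.V hE hdvr').valuation_le_one_iff x).mpr hxV
  refine lt_of_le_of_ne hle fun h1 => ?_
  have hx0 : x ≠ 0 := by
    rintro rfl
    rw [map_zero] at h1
    exact zero_ne_one h1
  have hinv : x⁻¹ ∈ GaussE.V hE hdvr' := by
    rw [← (GaussE.V hE hdvr').valuation_le_one_iff, map_inv₀, h1, inv_one]
  exact GaussE.red_ne_zero_of_inv_mem hE hdvr' ⟨x, hxV⟩ hinv hx0
    (GaussE.red_eq_of_gRel hE hdvr' ⟨x, hxV⟩ hx)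

/-- A non-unit constant is a nonunit of the Gauss ring along `E`. -/
theorem algebraMap_mem_nonunits {π : OK A K} (hπ : ¬ IsUnit π) :
    algebraMap (OK A K) F π ∈ (GaussE.V hE hdvr').nonunits := by
  refine mem_nonunits_of_gRel_zero hE hdvr' ?_
  have h := GaussE.gRel_red hE hdvr' ⟨_, GaussE.algebraMap_mem_V hE hdvr' π⟩
  rwa [GaussE.red_algebraMap_of_not_isUnit hE hdvr' π hπ] at h

end Gen

/-! ## Part A: abstract middle-cusp embeddings -/

section Abs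

variable (M q : ℕ) [NeZero M] [NeZero q] (hq : q.Prime) (hqM : ¬ q ∣ M)
variable {A : ValuationSubring Qb} {K K' : IntermediateField ℚ Qb}

/-- **Middle-cusp embedding.**  `E : F_K(M q²) → ℚ̄((Q))` is the identity on `F_K(M q)` and maps
`j(Q^(q²))` to `j(ξ Q)`. -/
structure Mid (ξ : Qb) (hξ0 : ξ ≠ 0) (E : FK (M * q * q) K →+* LaurentSeries Qb) : Prop where
  /-- `E` is the identity on the elements lying in `F_K(M q)` -/
  low : ∀ y : FK (M * q * q) K, ((y : FK (M * q * q) K) : LaurentSeries Qb) ∈ FK (M * q) K →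
    E y = ((y : FK (M * q * q) K) : LaurentSeries Qb)
  /-- `E (j(Q^(q²))) = j(ξ Q)` -/
  top : E (WQ2.jqqK2 M q hq hqM K) = S24.rotHom ξ hξ0 (jqModC Qb)

variable {M q hq hqM}
variable {ξ : Qb} {hξ0 : ξ ≠ 0} {E : FK (M * q * q) K →+* LaurentSeries Qb}

/-- `Mid` from the `α`-form of the first condition. -/
theorem Mid.of_alpha
    (hα : ∀ x : FK (M * q) K, E (WQ2.alphaK2 M q K x) = ((x : FK (M * q) K) : LaurentSeries Qb))
    (hβ : E (WQ2.jqqK2 M q hq hqM K) = S24.rotHom ξ hξ0 (jqModC Qb)) :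
    Mid M q hq hqM ξ hξ0 E where
  low := by
    intro y hy
    have e : y = WQ2.alphaK2 M q K ⟨_, hy⟩ := by
      apply Subtype.ext
      rw [WQ2.coe_alphaK2]
    conv_lhs => rw [e]
    rw [hα]
  top := hβ

/-- `Mid` from the `α`-form, the value at `j_{q²}` written with `S28.jd Qb 1` (the shape of
`V3.MidEmb.alpha` / `V3.MidEmb.apply_jqqK2`). -/
theorem Mid.of_alpha_jd
    (hα : ∀ x : FK (M * q) K, E (WQ2.alphaK2 M q K x) = ((x : FK (M * q) K) : LaurentSeries Qb))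
    (hβ : E (WQ2.jqqK2 M q hq hqM K) = S24.rotHom ξ hξ0 (S28.jd Qb 1)) :
    Mid M q hq hqM ξ hξ0 E :=
  Mid.of_alpha hα (by
    rw [hβ, ← S18.ModelBasicCore.coe_jK (N := M) (K := K), ModelQFrac.coe_jK])

/-- `Mid` from the `incl`-form of the first condition. -/
theorem Mid.of_incl
    (hα : ∀ x : FK (M * q) K, E (DegTower.incl (M * q) (M * q * q) K (Dvd.intro q rfl) x)
      = ((x : FK (M * q) K) : LaurentSeries Qb))
    (hβ : E (WQ2.jqqK2 M q hq hqM K) = S24.rotHom ξ hξ0 (jqModC Qb)) :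
    Mid M q hq hqM ξ hξ0 E where
  low := by
    intro y hy
    have e : y = DegTower.incl (M * q) (M * q * q) K (Dvd.intro q rfl) ⟨_, hy⟩ := by
      apply Subtype.ext
      rw [DegTower.coe_incl]
    conv_lhs => rw [e]
    rw [hα]
  top := hβ

section Values

variable (H : Mid M q hq hqM ξ hξ0 E)
include H

theorem Mid.apply_jK : E (jK (M * q * q) K) = jqModC Qb := by
  have h : ((jK (M * q * q) K : FK (M * q * q) K) : LaurentSeries Qb) ∈ FK (M * q) K := by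
    rw [ModelQFrac.coe_jK, ← ModelQFrac.coe_jK (N := M * q) (K := K)]
    exact (jK (M * q) K).2
  rw [H.low _ h, ModelQFrac.coe_jK]

theorem Mid.apply_jq : E (WQ2.jqK2 M q hq hqM K) = qExpand Qb q (jqModC Qb) := by
  have h : ((WQ2.jqK2 M q hq hqM K : FK (M * q * q) K) : LaurentSeries Qb) ∈ FK (M * q) K := by
    rw [WQ2.coe_jqK2, ← S34.WK.coe_jqK M q hq hqM K]
    exact (S34.WK.jqK M q hq hqM K).2
  rw [H.low _ h, Wit3.coe_jq]

theorem Mid.apply_jqq : E (WQ2.jqqK2 M q hq hqM K) = S24.rotHom ξ hξ0 (jqModC Qb) := H.top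

theorem Mid.apply_x1 : E (Wit3.x1 M q hq hqM K)
    = qExpand Qb q (jqModC Qb) - S24.rotHom ξ hξ0 (jqModC Qb) ^ q := by
  rw [Wit3.x1, map_sub, map_pow, H.apply_jq, H.apply_jqq]

theorem Mid.apply_x2 : E (Wit3.x2 M q hq hqM K)
    = qExpand Qb q (jqModC Qb) - jqModC Qb ^ q := by
  rw [Wit3.x2, map_sub, map_pow, H.apply_jq, H.apply_jK]

theorem Mid.apply_x3 : E (Wit3.x3 M q hq hqM K)
    = (S24.rotHom ξ hξ0 (jqModC Qb) - jqModC Qb ^ (q ^ 2)) *
      (jqModC Qb - S24.rotHom ξ hξ0 (jqModC Qb) ^ (q ^ 2)) := by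
  rw [Wit3.x3, map_mul, map_sub, map_sub, map_pow, map_pow, H.apply_jqq, H.apply_jK]

theorem Mid.apply_sE : E (Wit3.sE M q hq hqM K)
    = S24.rotHom ξ hξ0 (jqModC Qb) - jqModC Qb := by
  rw [Wit3.sE, map_sub, H.apply_jqq, H.apply_jK]

theorem Mid.apply_bE (i : ℕ) : E (Wit3.bE M q hq hqM K i)
    = S24.rotHom ξ hξ0 (jqModC Qb) ^ i := by
  rw [Wit3.bE, map_pow, H.apply_jqq]

end Values

/-! ### The Gauss ring along a middle-cusp embedding -/

section Gauss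

variable (H : Mid M q hq hqM ξ hξ0 E) (hE : GaussE.Emb A K K' E)
  (hdvr' : IsDiscreteValuationRing (OK A K'))

include H in
/-- **`V1` of level `M q` lies in `W3`.** -/
theorem Mid.mem_V_of_low (hdvr : IsDiscreteValuationRing (OK A K)) {y : FK (M * q * q) K}
    {x : FK (M * q) K}
    (hyx : ((y : FK (M * q * q) K) : LaurentSeries Qb) = ((x : FK (M * q) K) : LaurentSeries Qb))
    (hx : x ∈ GaussV.V1 (M * q) A K hdvr) : y ∈ GaussE.V hE hdvr' := by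
  obtain ⟨r, hr⟩ := (GaussV.mem_V1_iff hdvr).mp hx
  refine ⟨r, ?_⟩
  rw [H.low y (by rw [hyx]; exact x.2), hyx]
  exact hr

include H in
/-- … with the same reduction. -/
theorem Mid.red_of_low (hdvr : IsDiscreteValuationRing (OK A K)) {y : FK (M * q * q) K}
    {x : FK (M * q) K}
    (hyx : ((y : FK (M * q * q) K) : LaurentSeries Qb) = ((x : FK (M * q) K) : LaurentSeries Qb))
    (hx : x ∈ GaussV.V1 (M * q) A K hdvr) :
    GaussE.red hE hdvr' ⟨y, H.mem_V_of_low hE hdvr' hdvr hyx hx⟩ = GaussV.red1 hdvr ⟨x, hx⟩ := by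
  apply GaussE.red_eq_of_gRel
  show GRel A (E y) _
  rw [H.low y (by rw [hyx]; exact x.2), hyx]
  exact GaussV.gRel_red1 hdvr ⟨x, hx⟩

include H in
/-- **The uniformiser.**  `s = j_{q²} - j` is a uniformiser along `E`:
`E s = j(ξ Q) - j(Q) = (ξ - 1) · (Gauss unit)`. -/
theorem Mid.unif (hA : A.LiesOverPrime q) (hξ : IsPrimitiveRoot ξ q) {ϖ : OK A K'}
    (hϖ : incO A K' ϖ = 1 - ξ) : GaussE.Unif A K' ϖ E (Wit3.sE M q hq hqM K) := by
  haveI : Fact q.Prime := ⟨hq⟩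
  obtain ⟨g, hg, hg0⟩ := Wit3Xi.exists_jxi_sub A q hA hξ hξ0
  have hϖ0 : ϖ ≠ 0 := by
    rintro rfl
    rw [map_zero] at hϖ
    exact hξ.ne_one hq.one_lt (sub_eq_zero.mp hϖ.symm).symm
  refine GaussE.unif_of_int hϖ0 (-g) ?_ ?_
  · rw [map_neg]
    exact neg_ne_zero.mpr hg0
  · rw [H.apply_sE, hg, hϖ, map_neg, mul_neg, ← neg_mul, ← map_neg, neg_sub]

include H in
/-- **(W3, x2)** `x2 = j_q - j ^ q ∈ π W3`. -/
theorem Mid.x2_pi (hdvr : IsDiscreteValuationRing (OK A K)) (hA : A.LiesOverPrime q)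
    {π : OK A K} (hπ : Irreducible π) :
    ∃ z ∈ GaussE.V hE hdvr',
      Wit3.x2 M q hq hqM K = algebraMap (OK A K) (FK (M * q * q) K) π * z := by
  haveI : Fact q.Prime := ⟨hq⟩
  have hc : (((S34.WK.jqK M q hq hqM K - jK (M * q) K ^ q : FK (M * q) K)) : LaurentSeries Qb)
      = qExpand Qb q (jqModC Qb) - jqModC Qb ^ q := by
    rw [Subfield.coe_sub, SubmonoidClass.coe_pow, S34.WK.coe_jqK, ModelQFrac.coe_jK, S28.jd_eq]
  obtain ⟨z', hz', hxz⟩ := Wit3.pi1_of_gRel_zero hdvr hπ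
    (x := S34.WK.jqK M q hq hqM K - jK (M * q) K ^ q) (by rw [hc]; exact Wit3.gRel_x2 A q hA)
  refine ⟨DegTower.incl (M * q) (M * q * q) K (Dvd.intro q rfl) z',
    H.mem_V_of_low hE hdvr' hdvr (DegTower.coe_incl _ _ _ _ _) hz', ?_⟩
  apply Subtype.ext
  rw [Wit3.coe_x2, Subfield.coe_mul, GaussV.coe_algebraMap, DegTower.coe_incl, ← hc, hxz,
    Subfield.coe_mul, GaussV.coe_algebraMap]

include H in
/-- `(j_{q²} ^ q - j ^ q) / π ∈ W3`. -/
theorem Mid.pow_sub_pow_div_pi_mem (hξ : IsPrimitiveRoot ξ q) {π : OK A K}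
    (hπq : incO A K π = (q : Qb)) :
    (WQ2.jqqK2 M q hq hqM K ^ q - jK (M * q * q) K ^ q) *
      (algebraMap (OK A K) (FK (M * q * q) K) π)⁻¹ ∈ GaussE.V hE hdvr' := by
  haveI : Fact q.Prime := ⟨hq⟩
  obtain ⟨z, hz⟩ := Wit3Xi.exists_jxi_pow_sub A q hξ hξ0
  have hq0 : (C (q : Qb) : LaurentSeries Qb) ≠ 0 := by
    intro h
    have h1 : (q : Qb) = 0 := by
      apply HahnSeries.C_injective (Γ := ℤ)
      rw [h, map_zero]
    exact (NeZero.ne q) (by exact_mod_cast h1)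
  let a : A := ⟨ξ, Wit3Xi.xi_mem (A := A) hξ⟩ - 1
  have ha : A.subtype a = ξ - 1 := by simp [a]
  refine GaussE.mem_V_of_int hE hdvr' (X := C a * z) ?_
  rw [map_mul, map_inv₀, map_sub, map_pow, map_pow, H.apply_jqq, H.apply_jK, hz, hE.const, hπq,
    map_mul, map_mul, Wit3Xi.coeffMap_constC, ha]
  field_simp

include H in
/-- **(W3, x1)** `x1 = j_q - j_{q²} ^ q ∈ π W3`. -/
theorem Mid.x1_pi (hdvr : IsDiscreteValuationRing (OK A K)) (hA : A.LiesOverPrime q)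
    (hξ : IsPrimitiveRoot ξ q) {π : OK A K} (hπ : Irreducible π) (hπq : incO A K π = (q : Qb)) :
    ∃ z ∈ GaussE.V hE hdvr',
      Wit3.x1 M q hq hqM K = algebraMap (OK A K) (FK (M * q * q) K) π * z := by
  obtain ⟨z₂, hz₂, hx₂⟩ := H.x2_pi hE hdvr' hdvr hA hπ
  have hw := H.pow_sub_pow_div_pi_mem hE hdvr' hξ hπq
  have hπ0 : algebraMap (OK A K) (FK (M * q * q) K) π ≠ 0 := by
    intro h
    have h1 := hE.const π
    rw [h, map_zero, hπq] at h1
    have h2 : (q : Qb) = 0 := by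
      apply HahnSeries.C_injective (Γ := ℤ)
      rw [← h1, map_zero]
    exact (NeZero.ne q) (by exact_mod_cast h2)
  refine ⟨z₂ - (WQ2.jqqK2 M q hq hqM K ^ q - jK (M * q * q) K ^ q) *
      (algebraMap (OK A K) (FK (M * q * q) K) π)⁻¹, sub_mem hz₂ hw, ?_⟩
  rw [mul_sub, ← hx₂, mul_comm (_ - _) _, ← mul_assoc, mul_inv_cancel₀ hπ0, one_mul, Wit3.x1,
    Wit3.x2]
  ring

include H in
/-- **(W3, x3)** `x3` is a unit of `W3`. -/
theorem Mid.x3_unit (hA : A.LiesOverPrime q) (hξ : IsPrimitiveRoot ξ q) :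
    Wit3.x3 M q hq hqM K ∈ GaussE.V hE hdvr' ∧ (Wit3.x3 M q hq hqM K)⁻¹ ∈ GaussE.V hE hdvr' := by
  haveI : Fact q.Prime := ⟨hq⟩
  have hG := V12Rel.gFacts A
  have h : GRel A (E (Wit3.x3 M q hq hqM K))
      ((jqModC (IsLocalRing.ResidueField A) - jqModC (IsLocalRing.ResidueField A) ^ (q ^ 2)) *
        (jqModC (IsLocalRing.ResidueField A) - jqModC (IsLocalRing.ResidueField A) ^ (q ^ 2))) := by
    rw [H.apply_x3]
    exact hG.mul _ _ _ _ (Wit3Xi.gRel_x3_left A q hA hξ hξ0) (Wit3Xi.gRel_x3_right A q hA hξ hξ0)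
  have hne := Wit3Xi.jbar_sub_pow_ne_zero A q hA
  have h' := hG.inv _ _ h (mul_ne_zero hne hne)
  rw [← map_inv₀] at h'
  exact ⟨(GaussE.mem_V_iff hE hdvr').mpr ⟨_, h⟩, (GaussE.mem_V_iff hE hdvr').mpr ⟨_, h'⟩⟩

include H in
/-- **(W3, b)** `b i = j_{q²} ^ i ∈ W3`. -/
theorem Mid.b_mem (hA : A.LiesOverPrime q) (hξ : IsPrimitiveRoot ξ q) (i : ℕ) :
    Wit3.bE M q hq hqM K i ∈ GaussE.V hE hdvr' := by
  haveI : Fact q.Prime := ⟨hq⟩
  have h : GRel A (E (Wit3.bE M q hq hqM K i)) (jqModC (IsLocalRing.ResidueField A) ^ i) := by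
    rw [H.apply_bE]
    exact V12Rel.gRel_pow A (Wit3Xi.gRel_jxi A q hA hξ hξ0) i
  exact (GaussE.mem_V_iff hE hdvr').mpr ⟨_, h⟩

include H in
/-- **(W3, b)** the reduction of `b i` is `j̄ ^ i`. -/
theorem Mid.red_b (hA : A.LiesOverPrime q) (hξ : IsPrimitiveRoot ξ q) (i : ℕ) :
    GaussE.red hE hdvr' ⟨Wit3.bE M q hq hqM K i, H.b_mem hE hdvr' hA hξ i⟩
      = jqModC (IsLocalRing.ResidueField A) ^ i := by
  haveI : Fact q.Prime := ⟨hq⟩
  apply GaussE.red_eq_of_gRel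
  show GRel A (E (Wit3.bE M q hq hqM K i)) _
  rw [H.apply_bE]
  exact V12Rel.gRel_pow A (Wit3Xi.gRel_jxi A q hA hξ hξ0) i

include H in
/-- **The level-`M` chart lies in `W3`.** -/
theorem Mid.le (hdvr : IsDiscreteValuationRing (OK A K))
    (hC : ChartFacts M A K (chart M A K (jK M K)) (jK M K))
    (r : ↥(chart M A K (jK M K))) :
    Wit3Set.inc M q K (r : FK M K) ∈ GaussE.V hE hdvr' := by
  obtain ⟨ρ, hρ, -, -⟩ := hC.red
  have hmem : ((Wit3Set.inc M q K (r : FK M K) : FK (M * q * q) K) : LaurentSeries Qb)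
      ∈ FK (M * q) K := by
    rw [Wit3Set.coe_inc, ← DegTower.coe_incl M (M * q) K (Dvd.intro q rfl) (r : FK M K)]
    exact Subtype.property _
  refine (GaussE.mem_V_iff hE hdvr').mpr ⟨ρ r, ?_⟩
  rw [H.low _ hmem, Wit3Set.coe_inc]
  exact hρ r

include H in
/-- **(W3, ind)** `inc r ∈ W3.nonunits → π ∣ r` for `r` in the level-`M` chart (the shape of
`Wit3Set.ind1`). -/
theorem Mid.ind (hdvr : IsDiscreteValuationRing (OK A K))
    (hC : ChartFacts M A K (chart M A K (jK M K)) (jK M K))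
    {π : OK A K} (hπ : Irreducible π) (r : ↥(chart M A K (jK M K)))
    (hr : Wit3Set.inc M q K (r : FK M K) ∈ (GaussE.V hE hdvr').nonunits) :
    algebraMap (OK A K) ↥(chart M A K (jK M K)) π ∣ r := by
  obtain ⟨ρ, hρ, hdvd⟩ := Wit3Set.exists_rho M A K hdvr hC hπ
  have hmem : ((Wit3Set.inc M q K (r : FK M K) : FK (M * q * q) K) : LaurentSeries Qb)
      ∈ FK (M * q) K := by
    rw [Wit3Set.coe_inc, ← DegTower.coe_incl M (M * q) K (Dvd.intro q rfl) (r : FK M K)]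
    exact Subtype.property _
  have h0 := gRel_zero_of_mem_nonunits hE hdvr' hr
  rw [H.low _ hmem, Wit3Set.coe_inc] at h0
  exact hdvd r ((GRel.gRelStatement A).unique _ _ _ (hρ r) h0)

end Gauss

end Abs

/-! ## Part B: the concrete instance along `Iota3.iota3` -/

section Conc

variable (M q : ℕ) [NeZero M] [NeZero q] (hq : q.Prime) (hqM : ¬ q ∣ M)
variable (A : ValuationSubring Qb) (K : IntermediateField ℚ Qb) {ξ : Qb}
  (hξ : IsPrimitiveRoot ξ q)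

/-- The middle-cusp embedding `ι3 : F_K(M q²) → ℚ̄((Q))` attached to the primitive `q`-th root of
unity `ξ` (`Iota3.iota3`). -/
def E3 : FK (M * q * q) K →+* LaurentSeries Qb :=
  Iota3.iota3 M q K hq hqM ξ hξ.pow_eq_one (hξ.ne_one hq.one_lt)

theorem E3_incl (x : FK (M * q) K) :
    E3 M q hq hqM K hξ (DegTower.incl (M * q) (M * q * q) K (Dvd.intro q rfl) x)
      = ((x : FK (M * q) K) : LaurentSeries Qb) :=
  Iota3.iota3_incl M q K hq hqM ξ hξ.pow_eq_one (hξ.ne_one hq.one_lt) x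

omit [NeZero M] in
theorem coeffEmb_jq : coeffEmb Qb jq = jqModC Qb :=
  (DegTower.coe_jK (N := 1) (K := (⊥ : IntermediateField ℚ Qb))).symm.trans
    (ModelQFrac.coe_jK (N := 1) (K := (⊥ : IntermediateField ℚ Qb)))

/-- The two names of `j(Q^(q²)) ∈ F_K(M q²)` agree. -/
theorem jqqK2_eq : WQ2.jqqK2 M q hq hqM K = Iota3.jq2K M q K := by
  apply Subtype.ext
  rw [WQ2.coe_jqqK2, Iota3.coe_jq2K, S28.jd_eq, coeffEmb_jq, qExpand_qExpand]

theorem E3_jqqK2 :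
    E3 M q hq hqM K hξ (WQ2.jqqK2 M q hq hqM K)
      = S24.rotHom ξ (hξ.ne_zero (NeZero.ne q)) (jqModC Qb) := by
  rw [jqqK2_eq, E3, Iota3.iota3_jq2K, coeffEmb_jq]

/-- `ι3` is a middle-cusp embedding. -/
theorem mid3 : Mid M q hq hqM ξ (hξ.ne_zero (NeZero.ne q)) (E3 M q hq hqM K hξ) :=
  Mid.of_incl (E3_incl M q hq hqM K hξ) (E3_jqqK2 M q hq hqM K hξ)

omit [NeZero M] [NeZero q] in
/-- `F_K(N) ⊆ fracO A K'` for `K ≤ K'`. -/
theorem FK_le_fracO' (N : ℕ) {K' : IntermediateField ℚ Qb} (hKK' : K ≤ K') :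
    FK N K ≤ ModelQFrac.fracO A K' := by
  refine Iota3.FK_le_of N K _ (fun c => ?_) (fun d _ _ => ?_)
  · exact ModelQFrac.C_mem_fracO A K' (⟨(c : Qb), hKK' c.2⟩ : K')
  · exact Qfrac3.coeffEmb_qExpand_jq_mem_fracO A K' d

/-- Every `ι3 x` is a quotient of two `O_{K(ξ)}`-integral series. -/
theorem E3_mem_fracO (x : FK (M * q * q) K) :
    E3 M q hq hqM K hξ x ∈ ModelQFrac.fracO A (BaseXiB.Kxi K ξ) := by
  letI := DegTower.algTower (M * q) (M * q * q) K (Dvd.intro q rfl)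
  have hξA := Qfrac3.mem_of_pow_eq_one A (NeZero.ne q) hξ.pow_eq_one
  refine Iota3.map_mem_of_adjoin_eq_top (Iota3.jq2K M q K) (Iota3.adjoin_jq2K_eq_top M q K hq hqM)
    (E3 M q hq hqM K hξ) (ModelQFrac.fracO A (BaseXiB.Kxi K ξ)) (fun y => ?_) ?_ x
  · show E3 M q hq hqM K hξ (DegTower.incl (M * q) (M * q * q) K (Dvd.intro q rfl) y) ∈ _
    rw [E3_incl]
    exact FK_le_fracO' A K (M * q) (BaseXiB.le_Kxi K ξ) y.2
  · rw [E3, Iota3.iota3_jq2K]
    refine Qfrac3.rotHom_mem_fracO A (BaseXiB.Kxi K ξ) ξ _ (BaseXiB.xi_mem_Kxi K ξ) hξA.1 hξA.2 ?_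
    rw [coeffEmb_jq, ← coeffMap_jqModC (incO A (BaseXiB.Kxi K ξ))]
    exact ModelQFrac.coeffMap_mem_fracO A (BaseXiB.Kxi K ξ) _

/-- **`ι3` satisfies the hypotheses of `GaussE`** with `K' = K(ξ)`. -/
theorem emb3 : GaussE.Emb A K (BaseXiB.Kxi K ξ) (E3 M q hq hqM K hξ) where
  const := by
    intro c
    have h : ((algebraMap (OK A K) (FK (M * q * q) K) c : FK (M * q * q) K) : LaurentSeries Qb)
        ∈ FK (M * q) K := by
      rw [GaussV.coe_algebraMap, ← GaussV.coe_algebraMap (M * q) A K c]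
      exact (algebraMap (OK A K) (FK (M * q) K) c).2
    rw [(mid3 M q hq hqM K hξ).low _ h, GaussV.coe_algebraMap]
  qfrac := fun x => E3_mem_fracO M q hq hqM A K hξ x

end Conc

/-! ### `W3` and its structure -/

section W3

variable (M q : ℕ) [NeZero M] [NeZero q] (hq : q.Prime) (hqM : ¬ q ∣ M)
variable {A : ValuationSubring Qb} {K : IntermediateField ℚ Qb} {ξ : Qb}
  (hξ : IsPrimitiveRoot ξ q) {π : OK A K} (hπ : Irreducible π) (hπq : incO A K π = (q : Qb))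
  (hdvr : IsDiscreteValuationRing (OK A K))

/-- **The third valuation ring** `W3` of `F_K(M q²)`: the Gauss ring along `ι3`. -/
def W3 : ValuationSubring (FK (M * q * q) K) :=
  GaussE.V (emb3 M q hq hqM A K hξ) (BaseXiB.isDVR hq hπ hπq hdvr hξ)

theorem mem_W3_iff {x : FK (M * q * q) K} :
    x ∈ W3 M q hq hqM hξ hπ hπq hdvr ↔ ∃ y, GRel A (E3 M q hq hqM K hξ x) y := Iff.rfl

/-- The Gauss reduction `W3 → k((Q))` along `ι3`. -/
def red3 : W3 M q hq hqM hξ hπ hπq hdvr →+* LaurentSeries (IsLocalRing.ResidueField A) :=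
  GaussE.red (emb3 M q hq hqM A K hξ) (BaseXiB.isDVR hq hπ hπq hdvr hξ)

theorem gRel_red3 (x : W3 M q hq hqM hξ hπ hπq hdvr) :
    GRel A (E3 M q hq hqM K hξ (x : FK (M * q * q) K)) (red3 M q hq hqM hξ hπ hπq hdvr x) :=
  GaussE.gRel_red _ _ x

/-- `s = j_{q²} - j` is a uniformiser along `ι3` (over `ϖ = 1 - ξ`). -/
theorem unif3 (hA : A.LiesOverPrime q) :
    GaussE.Unif A (BaseXiB.Kxi K ξ) (BaseXiB.varpi A K hq hξ) (E3 M q hq hqM K hξ)
      (Wit3.sE M q hq hqM K) :=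
  (mid3 M q hq hqM K hξ).unif hA hξ (BaseXiB.incO_varpi A K hq hξ)

/-- **`W3` is a discrete valuation ring.** -/
theorem isDVR_W3 (hA : A.LiesOverPrime q) :
    IsDiscreteValuationRing (W3 M q hq hqM hξ hπ hπq hdvr) :=
  GaussE.isDiscreteValuationRing_V _ _ (BaseXiB.irreducible_varpi hq hπ hπq hdvr hξ)
    (unif3 M q hq hqM hξ hA)

/-- `ker red3 = s W3`. -/
theorem red3_eq_zero_iff (hA : A.LiesOverPrime q) (x : W3 M q hq hqM hξ hπ hπq hdvr) :
    red3 M q hq hqM hξ hπ hπq hdvr x = 0 ↔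
      ∃ z ∈ W3 M q hq hqM hξ hπ hπq hdvr, (x : FK (M * q * q) K) = Wit3.sE M q hq hqM K * z :=
  GaussE.red_eq_zero_iff _ _ (BaseXiB.irreducible_varpi hq hπ hπq hdvr hξ)
    (unif3 M q hq hqM hξ hA) x

/-- **`ValHyp3.unif_mem` at the third index.** -/
theorem unif_mem3 (hA : A.LiesOverPrime q) :
    Wit3.sE M q hq hqM K ∈ W3 M q hq hqM hξ hπ hπq hdvr :=
  GaussE.unif_mem_V _ _ (BaseXiB.irreducible_varpi hq hπ hπq hdvr hξ) (unif3 M q hq hqM hξ hA)

/-- **`ValHyp3.unif_not` at the third index.** -/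
theorem unif_not3 (hA : A.LiesOverPrime q) :
    (Wit3.sE M q hq hqM K)⁻¹ ∉ W3 M q hq hqM hξ hπ hπq hdvr := fun h =>
  GaussE.red_ne_zero_of_inv_mem _ _ ⟨_, unif_mem3 M q hq hqM hξ hπ hπq hdvr hA⟩ h
    (GaussE.unif_ne_zero (unif3 M q hq hqM hξ hA))
    (GaussE.red_unif _ _ (BaseXiB.irreducible_varpi hq hπ hπq hdvr hξ) (unif3 M q hq hqM hξ hA))

/-- **`ValHyp3.disc` at the third index.** -/
theorem disc3 (hA : A.LiesOverPrime q) (x : FK (M * q * q) K) (hx : x ≠ 0) :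
    ∃ k : ℤ, ∃ u ∈ W3 M q hq hqM hξ hπ hπq hdvr, u⁻¹ ∈ W3 M q hq hqM hξ hπ hπq hdvr ∧
      x = Wit3.sE M q hq hqM K ^ k * u := by
  obtain ⟨γ, h1, h2⟩ := GaussE.exists_zpow_mul_unit (emb3 M q hq hqM A K hξ)
    (BaseXiB.isDVR hq hπ hπq hdvr hξ) (BaseXiB.irreducible_varpi hq hπ hπq hdvr hξ)
    (unif3 M q hq hqM hξ hA) x hx
  have hs0 : Wit3.sE M q hq hqM K ≠ 0 := GaussE.unif_ne_zero (unif3 M q hq hqM hξ hA)
  refine ⟨γ, _, h1, h2, ?_⟩
  rw [mul_comm x, ← mul_assoc, ← zpow_add₀ hs0, add_neg_cancel, zpow_zero, one_mul]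

/-- **`ValHyp3.ram` at the third index**: `π = s ^ (q - 1) * unit` in `W3`. -/
theorem ram3 (hA : A.LiesOverPrime q) :
    ∃ u ∈ W3 M q hq hqM hξ hπ hπq hdvr, u⁻¹ ∈ W3 M q hq hqM hξ hπ hπq hdvr ∧
      algebraMap (OK A K) (FK (M * q * q) K) π = Wit3.sE M q hq hqM K ^ (q - 1) * u :=
  GaussE.exists_pi_eq _ _ (BaseXiB.irreducible_varpi hq hπ hπq hdvr hξ) (unif3 M q hq hqM hξ hA)
    π (q - 1) (BaseXiB.exists_unit hq hπq hξ)

/-- `π` is a nonunit of `W3`. -/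
theorem pi_nonunit3 :
    algebraMap (OK A K) (FK (M * q * q) K) π ∈ (W3 M q hq hqM hξ hπ hπq hdvr).nonunits :=
  algebraMap_mem_nonunits _ _ hπ.not_isUnit

/-! ### The witness facts on the third branch -/

/-- **(W3)** `x1 ∈ π W3`. -/
theorem x1_pi3 (hA : A.LiesOverPrime q) :
    ∃ z ∈ W3 M q hq hqM hξ hπ hπq hdvr,
      Wit3.x1 M q hq hqM K = algebraMap (OK A K) (FK (M * q * q) K) π * z :=
  (mid3 M q hq hqM K hξ).x1_pi _ _ hdvr hA hξ hπ hπq

/-- **(W3)** `x2 ∈ π W3`. -/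
theorem x2_pi3 (hA : A.LiesOverPrime q) :
    ∃ z ∈ W3 M q hq hqM hξ hπ hπq hdvr,
      Wit3.x2 M q hq hqM K = algebraMap (OK A K) (FK (M * q * q) K) π * z :=
  (mid3 M q hq hqM K hξ).x2_pi _ _ hdvr hA hπ

/-- **(W3)** `x3` is a unit of `W3`. -/
theorem x3_unit3 (hA : A.LiesOverPrime q) :
    Wit3.x3 M q hq hqM K ∈ W3 M q hq hqM hξ hπ hπq hdvr ∧
      (Wit3.x3 M q hq hqM K)⁻¹ ∈ W3 M q hq hqM hξ hπ hπq hdvr :=
  (mid3 M q hq hqM K hξ).x3_unit _ _ hA hξ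

/-- **(W3)** `b i = j_{q²} ^ i ∈ W3`. -/
theorem b_mem3 (hA : A.LiesOverPrime q) (i : ℕ) :
    Wit3.bE M q hq hqM K i ∈ W3 M q hq hqM hξ hπ hπq hdvr :=
  (mid3 M q hq hqM K hξ).b_mem _ _ hA hξ i

/-- **(W3)** `red3 (b i) = j̄ ^ i`. -/
theorem red3_b (hA : A.LiesOverPrime q) (i : ℕ) :
    red3 M q hq hqM hξ hπ hπq hdvr ⟨Wit3.bE M q hq hqM K i, b_mem3 M q hq hqM hξ hπ hπq hdvr hA i⟩
      = jqModC (IsLocalRing.ResidueField A) ^ i :=
  (mid3 M q hq hqM K hξ).red_b _ _ hA hξ i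

/-- **`V1` of level `M q` lies in `W3`.** -/
theorem incl_mem_W3 {x : FK (M * q) K} (hx : x ∈ GaussV.V1 (M * q) A K hdvr) :
    DegTower.incl (M * q) (M * q * q) K (Dvd.intro q rfl) x ∈ W3 M q hq hqM hξ hπ hπq hdvr :=
  (mid3 M q hq hqM K hξ).mem_V_of_low _ _ hdvr (DegTower.coe_incl _ _ _ _ _) hx

/-- … with the same reduction. -/
theorem red3_incl {x : FK (M * q) K} (hx : x ∈ GaussV.V1 (M * q) A K hdvr) :
    red3 M q hq hqM hξ hπ hπq hdvr ⟨_, incl_mem_W3 M q hq hqM hξ hπ hπq hdvr hx⟩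
      = GaussV.red1 hdvr ⟨x, hx⟩ :=
  (mid3 M q hq hqM K hξ).red_of_low _ _ hdvr (DegTower.coe_incl _ _ _ _ _) hx

/-- **The level-`M` chart lies in `W3`.** -/
theorem le3 (hC : ChartFacts M A K (chart M A K (jK M K)) (jK M K))
    (r : ↥(chart M A K (jK M K))) :
    Wit3Set.inc M q K (r : FK M K) ∈ W3 M q hq hqM hξ hπ hπq hdvr :=
  (mid3 M q hq hqM K hξ).le _ _ hdvr hC r

/-- **(W3, ind)** `inc r ∈ W3.nonunits → π ∣ r` (the shape of `Wit3Set.ind1`). -/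
theorem ind3 (hC : ChartFacts M A K (chart M A K (jK M K)) (jK M K))
    (r : ↥(chart M A K (jK M K)))
    (hr : Wit3Set.inc M q K (r : FK M K) ∈ (W3 M q hq hqM hξ hπ hπq hdvr).nonunits) :
    algebraMap (OK A K) ↥(chart M A K (jK M K)) π ∣ r :=
  (mid3 M q hq hqM K hξ).ind _ _ hdvr hC hπ r hr

end W3

end Fermat.Agent.S36.V3B

end
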