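/-
S36 — Model3TopB.lean (helper46; package [MODEL3], leaf [M3.8], B-copy / seam check).

Assembly of `Model3Plan.Model3 (M * q * q) A K π (ram q) ![π, π, s] ![W1, W2, W3] J3` from the
landed leaves of [MODEL3], for ANY `H : V3.Hyp3 M q hq hqM A K K' ξ hξ0 ι ϖ'` (so for
`V3.hyp3_iota3`, `V3.hyp3_iota3B` and for any other middle-cusp embedding), with
`W1 = GaussV.V1`, `W2 = GaussV.V2 (WQ2.wK2 …)`, `W3 = H.W3`, `s = Wit3.sE`, `J3 = Chart3B.J3`.

Everything except the field `princ` of the two charts is discharged here: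

* `val`        : [Val3]   (`Val3.valHyp3` + `V3` + `V3B.Mid.x1_pi / x2_pi`);
* `hle0`, `hleInf` : both charts lie in the three rings (`Chart3B.le3`, `le3_inv`);
* `hyp3W`, `wit`   : the `NValChart.Wit` instance (`Wit3Inst.wit`) for `H.W3`;
* `hdesc0`, `hdescInf` : [Red3] (`NValChart.desc0`, `Red3.descInv_coord`, `Chart3B.glue0/Inf`);
* `hloc`       : [Loc] (`LocInst3.loc_J3` + (T0) `NValChart.exists_mul_mem_chart_j`);
* `exists_pow_mul_mem`, `hf13` : residue degree one along `W1`, `W3` over level `M`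
                 (`ResDeg3G.hf_of_setting` for the setting of `wit`);
* `model3_of_princ` : `Model3` with `branch` from `Level3J3B.branch3_J3(_inv)` and the two
                 `princ` fields as hypotheses, stated on the vertical ideals of record
                 `P0 = Model3Asm.Pc (chart J3) …`, `PInf = Model3Asm.Pc (chart J3⁻¹) …`.
-/
import Mathlib
import Fermat.Agent.S36.Model3Asm
import Fermat.Agent.S36.Princ3Cases
import Fermat.Agent.S36.Chart3B
import Fermat.Agent.S36.V3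
import Fermat.Agent.S36.V3B
import Fermat.Agent.S36.Val3
import Fermat.Agent.S36.Level3J3B
import Fermat.Agent.S36.LocInst3
import Fermat.Agent.S36.NValChart
import Fermat.Agent.S36.ResDeg3G
import Fermat.Agent.S36.Wit3Inst

set_option autoImplicit false
set_option linter.style.haveILetI false

noncomputable section

namespace Fermat.Agent.S36.Model3TopB

open ModularCurve HahnSeries Fermat.Agent.S18 Fermat.Agent.S18.Arith Fermat.Agent.S18.ModelPlan
open Fermat.Agent.S34 Fermat.Agent.S36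

variable {M q : ℕ} [NeZero M] [NeZero q] {hq : q.Prime} {hqM : ¬ q ∣ M}
variable {A : ValuationSubring Qb} {K K' : IntermediateField ℚ Qb}
variable {ξ : Qb} {hξ0 : ξ ≠ 0} {ι : FK (M * q * q) K →+* LaurentSeries Qb} {ϖ' : OK A K'}

/-- The three valuation rings `![W1, W2, W3]`. -/
abbrev Vf (hdvr : IsDiscreteValuationRing (OK A K)) (H : V3.Hyp3 M q hq hqM A K K' ξ hξ0 ι ϖ') :
    Fin 3 → ValuationSubring (FK (M * q * q) K) :=
  ![GaussV.V1 (M * q * q) A K hdvr, GaussV.V2 (WQ2.wK2 M q hq hqM K) hdvr, H.W3]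

/-- The three uniformizers `![π, π, s]`. -/
abbrev pf (M q : ℕ) [NeZero M] [NeZero q] (hq : q.Prime) (hqM : ¬ q ∣ M)
    {A : ValuationSubring Qb} {K : IntermediateField ℚ Qb} (π : OK A K) :
    Fin 3 → FK (M * q * q) K :=
  ![algebraMap (OK A K) (FK (M * q * q) K) π, algebraMap (OK A K) (FK (M * q * q) K) π,
    Wit3.sE M q hq hqM K]

section Val

/-- `π = ϖ' ^ (q - 1) · unit` in `A`, for `ϖ' = 1 - ξ`. -/
theorem exists_unit (H : V3.Hyp3 M q hq hqM A K K' ξ hξ0 ι ϖ') (π : OK A K)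
    (hπ : Irreducible π) (hπq : incO A K π = (q : Qb)) (hξ : IsPrimitiveRoot ξ q) :
    ∃ u : A, IsUnit u ∧ incO A K π = incO A K' ϖ' ^ (q - 1) * (u : Qb) := by
  obtain ⟨u, hu, h⟩ := BaseXi.exists_unit hq π hπ hπq hξ
  refine ⟨u, hu, ?_⟩
  rw [H.coe_unif, h, BaseXi.incO_varpi]

/-- The mid structure of `V3B` for the embedding of `H`. -/
theorem mid (H : V3.Hyp3 M q hq hqM A K K' ξ hξ0 ι ϖ') : V3B.Mid M q hq hqM ξ hξ0 ι :=
  V3B.Mid.of_alpha_jd H.mid.alpha H.mid.apply_jqqK2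

/-- **[Val3]** for the instance. -/
theorem val (hdvr : IsDiscreteValuationRing (OK A K))
    (H : V3.Hyp3 M q hq hqM A K K' ξ hξ0 ι ϖ') (hA : A.LiesOverPrime q) (π : OK A K)
    (hπ : Irreducible π) (hπq : incO A K π = (q : Qb)) (hξ : IsPrimitiveRoot ξ q) :
    Model3Plan.ValHyp3 (algebraMap (OK A K) (FK (M * q * q) K) π) (Model3Plan.ram q)
      (pf M q hq hqM π) (Vf hdvr H) :=
  Val3.valHyp3 M q hq hqM A K hdvr hA hπ H.W3
    (H.W3.mem_nonunits_iff_or.mpr (Or.inr H.s_inv_not_mem))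
    (GaussE.exists_zpow_mul_unit H.emb H.dvr' H.irr H.unif)
    (H.ram π (exists_unit H π hπ hπq hξ))
    ((mid H).x1_pi H.emb H.dvr' hdvr hA hξ hπ hπq)
    ((mid H).x2_pi H.emb H.dvr' hdvr hA hπ)

end Val

section Charts

/-- `chart J3 ⊆ V i`. -/
theorem hle0 (hdvr : IsDiscreteValuationRing (OK A K))
    (H : V3.Hyp3 M q hq hqM A K K' ξ hξ0 ι ϖ') :
    ∀ i : Fin 3, ∀ x ∈ chart (M * q * q) A K (Chart3B.J3 M q hq hqM K), x ∈ Vf hdvr H i :=
  fun i x hx => Chart3B.le3 M q hq hqM A K hdvr (Vf hdvr H) rfl rfl H.algebraMap_mem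
    H.jK_unit.1 H.jqK2_unit.1 H.jqqK2_unit.1 i ⟨x, hx⟩

/-- `chart J3⁻¹ ⊆ V i`. -/
theorem hleInf (hdvr : IsDiscreteValuationRing (OK A K))
    (H : V3.Hyp3 M q hq hqM A K K' ξ hξ0 ι ϖ') :
    ∀ i : Fin 3, ∀ x ∈ chart (M * q * q) A K (Chart3B.J3 M q hq hqM K)⁻¹, x ∈ Vf hdvr H i :=
  fun i x hx => Chart3B.le3_inv M q hq hqM A K hdvr (Vf hdvr H) rfl rfl H.algebraMap_mem
    H.jK_unit.2 H.jqK2_unit.2 H.jqqK2_unit.2 i ⟨x, hx⟩

/-- `J3 ∈ V i`. -/
theorem J3_mem (hdvr : IsDiscreteValuationRing (OK A K))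
    (H : V3.Hyp3 M q hq hqM A K K' ξ hξ0 ι ϖ') (i : Fin 3) :
    Chart3B.J3 M q hq hqM K ∈ Vf hdvr H i :=
  hle0 hdvr H i _ (Chart3B.J3_mem_chart M q hq hqM A K)

end Charts

section Wit

/-- The `W3`-side hypotheses of the witness block, for the ring of `H`. -/
theorem hyp3W (hdvr : IsDiscreteValuationRing (OK A K))
    (H : V3.Hyp3 M q hq hqM A K K' ξ hξ0 ι ϖ') (hA : A.LiesOverPrime q)
    (hC : ChartFacts M A K (chart M A K (jK M K)) (jK M K))
    (π : OK A K) (hπ : Irreducible π) (hπq : incO A K π = (q : Qb))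
    (hξ : IsPrimitiveRoot ξ q) : Wit3Inst.Hyp3W M q hq hqM A K π H.W3 where
  le3 := fun r => (mid H).le H.emb H.dvr' hdvr hC r
  ind3 := fun r hr => (mid H).ind H.emb H.dvr' hdvr hC hπ r hr
  x1_pi3 := (mid H).x1_pi H.emb H.dvr' hdvr hA hξ hπ hπq
  x2_pi3 := (mid H).x2_pi H.emb H.dvr' hdvr hA hπ
  x3_unit3 := (mid H).x3_unit H.emb H.dvr' hA hξ
  s_nonunit3 := H.W3.mem_nonunits_iff_or.mpr (Or.inr H.s_inv_not_mem)
  ram3 := H.ram π (exists_unit H π hπ hπq hξ)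
  jqq_mem3 := H.jqqK2_unit.1

/-- The witness instance. -/
theorem wit (hdvr : IsDiscreteValuationRing (OK A K))
    (H : V3.Hyp3 M q hq hqM A K K' ξ hξ0 ι ϖ') (hA : A.LiesOverPrime q)
    (hC : ChartFacts M A K (chart M A K (jK M K)) (jK M K))
    (π : OK A K) (hπ : Irreducible π) (hπq : incO A K π = (q : Qb))
    (hξ : IsPrimitiveRoot ξ q) :
    NValChart.Wit M (M * q * q) (Wit3Set.dvd_level M q) A (jK M K) π (Vf hdvr H)
      (Model3Plan.ram q) ![1, q * q, 1]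
      ![Wit3.x1 M q hq hqM K, Wit3.x2 M q hq hqM K, Wit3.x3 M q hq hqM K]
      (pf M q hq hqM π) (Wit3Inst.bfam M q hq hqM K) :=
  Wit3Inst.wit M q hq hqM A K hdvr hA hC hπ H.W3 (hyp3W hdvr H hA hC π hπ hπq hξ)

/-- **[Red3]** `desc` for `chart J3`. -/
theorem hdesc0 (hdvr : IsDiscreteValuationRing (OK A K))
    (H : V3.Hyp3 M q hq hqM A K K' ξ hξ0 ι ϖ') (hA : A.LiesOverPrime q)
    (hC : ChartFacts M A K (chart M A K (jK M K)) (jK M K))
    (π : OK A K) (hπ : Irreducible π) (hπq : incO A K π = (q : Qb))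
    (hξ : IsPrimitiveRoot ξ q) :
    ∀ z : FK (M * q * q) K, (∀ i : Fin 3, z ∈ Vf hdvr H i) →
      algebraMap (OK A K) (FK (M * q * q) K) π * z
        ∈ chart (M * q * q) A K (Chart3B.J3 M q hq hqM K) →
      z ∈ chart (M * q * q) A K (Chart3B.J3 M q hq hqM K) := by
  rw [Chart3B.chart_J3_eq]
  exact NValChart.desc0 hC hdvr hπ (wit hdvr H hA hC π hπ hπq hξ)

/-- **[Red3]** `desc` for `chart J3⁻¹`. -/
theorem hdescInf (hdvr : IsDiscreteValuationRing (OK A K))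
    (H : V3.Hyp3 M q hq hqM A K K' ξ hξ0 ι ϖ') (hA : A.LiesOverPrime q)
    (hC : ChartFacts M A K (chart M A K (jK M K)) (jK M K))
    (π : OK A K) (hπ : Irreducible π) (hπq : incO A K π = (q : Qb))
    (hξ : IsPrimitiveRoot ξ q) :
    ∀ z : FK (M * q * q) K, (∀ i : Fin 3, z ∈ Vf hdvr H i) →
      algebraMap (OK A K) (FK (M * q * q) K) π * z
        ∈ chart (M * q * q) A K (Chart3B.J3 M q hq hqM K)⁻¹ →
      z ∈ chart (M * q * q) A K (Chart3B.J3 M q hq hqM K)⁻¹ := by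
  intro z hz hπz
  refine Red3.descInv_coord (M * q * q) hdvr hπ (Chart3B.J3 M q hq hqM K)
    (Chart3B.transcendental_J3 M q hq hqM A K)
    (⨅ i : Fin 3, (Vf hdvr H i).toSubring) (Subring.mem_iInf.mpr (J3_mem hdvr H))
    (Chart3B.glue0 M q hq hqM A K) (Chart3B.glueInf M q hq hqM A K)
    (fun z hz => hdesc0 hdvr H hA hC π hπ hπq hξ z (fun i => Subring.mem_iInf.mp hz i))
    z (Subring.mem_iInf.mpr hz) hπz

/-- **[Loc]** for `chart J3`. -/
theorem hloc (hdvr : IsDiscreteValuationRing (OK A K))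
    (H : V3.Hyp3 M q hq hqM A K K' ξ hξ0 ι ϖ') (hA : A.LiesOverPrime q)
    (hC : ChartFacts M A K (chart M A K (jK M K)) (jK M K))
    (π : OK A K) (hπ : Irreducible π) (hπq : incO A K π = (q : Qb))
    (hξ : IsPrimitiveRoot ξ q) :
    ∀ (i : Fin 3), ∀ y ∈ Vf hdvr H i,
      ∃ a s : ↥(chart (M * q * q) A K (Chart3B.J3 M q hq hqM K)),
        s ∉ Model3Asm.Pc (chart (M * q * q) A K (Chart3B.J3 M q hq hqM K)) (pf M q hq hqM π)
          (Vf hdvr H) (hle0 hdvr H) i ∧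
        y * algebraMap ↥(chart (M * q * q) A K (Chart3B.J3 M q hq hqM K)) (FK (M * q * q) K) s
          = algebraMap ↥(chart (M * q * q) A K (Chart3B.J3 M q hq hqM K))
              (FK (M * q * q) K) a := by
  have hW := hyp3W hdvr H hA hC π hπ hπq hξ
  refine LocInst3.loc_J3 M q hq hqM A K hdvr hC hA hπ rfl rfl
    (val hdvr H hA π hπ hπq hξ) (hle0 hdvr H) hW.x1_pi3 hW.x2_pi3 hW.x3_unit3.2 hW.ind3 ?_
  intro z hz
  obtain ⟨r, hr, hmem⟩ := NValChart.exists_mul_mem_chart_j hC hdvr hπ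
    (wit hdvr H hA hC π hπ hπq hξ) hz
  refine ⟨r, hr, ?_⟩
  rw [Chart3B.chart_J3_eq]
  exact hmem

end Wit

section ResDeg

/-- Archimedean property of the three discrete valuation rings: some power of `p` moves any
element into `V a`. -/
theorem exists_pow_mul_mem {E : Type*} [Field E] {p : E} {e : Fin 3 → ℕ} {ϖ : Fin 3 → E}
    {V : Fin 3 → ValuationSubring E} (val : Model3Plan.ValHyp3 p e ϖ V) (a : Fin 3) (z : E) :
    ∃ k : ℕ, p ^ k * z ∈ V a := by
  by_cases hz : z = 0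
  · exact ⟨0, by rw [hz, mul_zero]; exact zero_mem _⟩
  obtain ⟨n, u, hu, -, rfl⟩ := val.disc a z hz
  obtain ⟨w, hw, -, hp⟩ := val.ram a
  have hϖ0 : ϖ a ≠ 0 := by
    intro h0
    apply val.unif_not a
    rw [h0, inv_zero]
    exact zero_mem _
  have hpos := val.e_pos a
  refine ⟨n.natAbs, ?_⟩
  have hm : (0 : ℤ) ≤ ((e a * n.natAbs : ℕ) : ℤ) + n := by
    have h1 : (n.natAbs : ℤ) ≤ ((e a * n.natAbs : ℕ) : ℤ) := by
      exact_mod_cast Nat.le_mul_of_pos_left _ hpos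
    omega
  obtain ⟨m, hm'⟩ := Int.eq_ofNat_of_zero_le hm
  have hpow : ϖ a ^ (e a * n.natAbs) * ϖ a ^ n = ϖ a ^ m := by
    rw [← zpow_natCast, ← zpow_natCast, ← zpow_add₀ hϖ0, hm']
  have key : p ^ n.natAbs * (ϖ a ^ n * u) = ϖ a ^ m * (w ^ n.natAbs * u) := by
    rw [hp, mul_pow, ← pow_mul, ← hpow]
    ring
  rw [key]
  exact mul_mem (pow_mem (val.unif_mem a) m) (mul_mem (pow_mem hw _) hu)

/-- **Residue degree one along `W1` and `W3`** over level `M`, in the `GRel` shape of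
`Level3J3B.branch3_J3`. -/
theorem hf13 (hdvr : IsDiscreteValuationRing (OK A K))
    (H : V3.Hyp3 M q hq hqM A K K' ξ hξ0 ι ϖ') (hA : A.LiesOverPrime q)
    (hC : ChartFacts M A K (chart M A K (jK M K)) (jK M K))
    (π : OK A K) (hπ : Irreducible π) (hπq : incO A K π = (q : Qb))
    (hξ : IsPrimitiveRoot ξ q) :
    (∀ (x : FK (M * q * q) K) (y : LaurentSeries (IsLocalRing.ResidueField A)),
      GRel A ((x : FK (M * q * q) K) : LaurentSeries Qb) y →
      ∃ x' : FK M K, GRel A ((x' : FK M K) : LaurentSeries Qb) y) ∧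
    (∀ (x : FK (M * q * q) K) (y : LaurentSeries (IsLocalRing.ResidueField A)),
      GRel A (ι x) y → ∃ x' : FK M K, GRel A ((x' : FK M K) : LaurentSeries Qb) y) := by
  letI := NValChart.algFE (K := K) M (M * q * q) (Wit3Set.dvd_level M q)
  letI := NValChart.algRE M (M * q * q) (Wit3Set.dvd_level M q) A (jK M K)
  haveI := NValChart.towerRFE (K := K) M (M * q * q) (Wit3Set.dvd_level M q) A (jK M K)
  have S := NValChart.setting hC hdvr hπ (wit hdvr H hA hC π hπ hπq hξ)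
  have hval := val hdvr H hA π hπ hπq hξ
  have harch : ∀ a₀ a : Fin 3, a ≠ a₀ → ∀ z : FK (M * q * q) K, ∃ k : ℕ,
      (![Wit3.x1 M q hq hqM K, Wit3.x2 M q hq hqM K, Wit3.x3 M q hq hqM K] : Fin 3 → _) a₀ ^ k
        * z ∈ Vf hdvr H a := by
    intro a₀ a ha z
    obtain ⟨k, hk⟩ := exists_pow_mul_mem hval a z
    have e : algebraMap ↥(chart M A K (jK M K)) ↥(FK (M * q * q) K)
        (algebraMap (OK A K) ↥(chart M A K (jK M K)) π)
        = algebraMap (OK A K) (FK (M * q * q) K) π :=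
      NValChart.chartHom_pi (M := M) (N := M * q * q) (h := Wit3Set.dvd_level M q)
        (A := A) (t := jK M K) π
    obtain ⟨k', hk'⟩ := ResDeg3.harch_of_pi S (a₀ := a₀) (z := z) ha
      ⟨k, ((Vf hdvr H a).valuation_le_one_iff _).mpr (by rw [e]; exact hk)⟩
    exact ⟨k', ((Vf hdvr H a).valuation_le_one_iff _).mp hk'⟩
  constructor
  · exact ResDeg3G.hf_of_setting (Vf hdvr H) S 0 rfl Nat.one_pos (harch 0)
      (FK (M * q * q) K).subtype (fun z => Iff.rfl)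
      (fun x' => DegTower.coe_incl M (M * q * q) K (Wit3Set.dvd_level M q) x')
  · refine ResDeg3G.hf_of_setting (Vf hdvr H) S 2 rfl ?_ (harch 2) ι (fun z => Iff.rfl)
      (fun x' => ?_)
    · have := hq.one_lt
      show 0 < q - 1
      omega
    · show ι (Wit3Set.inc M q K x') = _
      rw [Wit3Set.inc_eq, H.mid.alpha, WK.coe_alphaK]

end ResDeg

section Top

/-- The reduction of `s = jqq - j` along `ι` vanishes. -/
theorem hEs (H : V3.Hyp3 M q hq hqM A K K' ξ hξ0 ι ϖ') :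
    GRel A (ι (WQ2.jqqK2 M q hq hqM K - jK (M * q * q) K)) 0 := by
  have h := H.gRel_red3 ⟨Wit3.sE M q hq hqM K, H.s_mem⟩
  rw [H.red3_s] at h
  exact h

/-- Abbreviation: the vertical ideals of record on `chart J3`. -/
abbrev P0 (hdvr : IsDiscreteValuationRing (OK A K))
    (H : V3.Hyp3 M q hq hqM A K K' ξ hξ0 ι ϖ') (π : OK A K) :
    Fin 3 → Ideal ↥(chart (M * q * q) A K (Chart3B.J3 M q hq hqM K)) :=
  Model3Asm.Pc (chart (M * q * q) A K (Chart3B.J3 M q hq hqM K)) (pf M q hq hqM π)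
    (Vf hdvr H) (hle0 hdvr H)

/-- Abbreviation: the vertical ideals of record on `chart J3⁻¹`. -/
abbrev PInf (hdvr : IsDiscreteValuationRing (OK A K))
    (H : V3.Hyp3 M q hq hqM A K K' ξ hξ0 ι ϖ') (π : OK A K) :
    Fin 3 → Ideal ↥(chart (M * q * q) A K (Chart3B.J3 M q hq hqM K)⁻¹) :=
  Model3Asm.Pc (chart (M * q * q) A K (Chart3B.J3 M q hq hqM K)⁻¹) (pf M q hq hqM π)
    (Vf hdvr H) (hleInf hdvr H)

/-- **[M3.8] `Model3` at level `M * q * q`** from the landed leaves of [MODEL3], with the field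
`princ` of the two charts in hypothesis form (outputs of the (B1) packages). -/
def model3_of_princ [Fact q.Prime] (hA : A.LiesOverPrime q) (hB : BaseFacts q A K)
    (H : V3.Hyp3 M q hq hqM A K K' ξ hξ0 ι ϖ')
    (π : OK A K) (hπ : Irreducible π) (hπq : incO A K π = (q : Qb))
    (hξ : IsPrimitiveRoot ξ q)
    (hprinc0 : Model3Plan.ChartHyp3 π (pf M q hq hqM π) (Vf hB.dvr H) (P0 hB.dvr H π) →
      ∀ n : Ideal ↥(chart (M * q * q) A K (Chart3B.J3 M q hq hqM K)), n.IsMaximal →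
        algebraMap (OK A K) ↥(chart (M * q * q) A K (Chart3B.J3 M q hq hqM K)) π ∈ n →
        ∃ i : Fin 3, P0 hB.dvr H π i ≤ n ∧
          ∃ g ∈ P0 hB.dvr H π i, ∀ y ∈ P0 hB.dvr H π i,
            ∃ s : ↥(chart (M * q * q) A K (Chart3B.J3 M q hq hqM K)), s ∉ n ∧
              ∃ c : ↥(chart (M * q * q) A K (Chart3B.J3 M q hq hqM K)), s * y = c * g)
    (hprincInf : Model3Plan.ChartHyp3 π (pf M q hq hqM π) (Vf hB.dvr H) (PInf hB.dvr H π) →
      ∀ n : Ideal ↥(chart (M * q * q) A K (Chart3B.J3 M q hq hqM K)⁻¹), n.IsMaximal →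
        algebraMap (OK A K) ↥(chart (M * q * q) A K (Chart3B.J3 M q hq hqM K)⁻¹) π ∈ n →
        ∃ i : Fin 3, PInf hB.dvr H π i ≤ n ∧
          ∃ g ∈ PInf hB.dvr H π i, ∀ y ∈ PInf hB.dvr H π i,
            ∃ s : ↥(chart (M * q * q) A K (Chart3B.J3 M q hq hqM K)⁻¹), s ∉ n ∧
              ∃ c : ↥(chart (M * q * q) A K (Chart3B.J3 M q hq hqM K)⁻¹), s * y = c * g) :
    Model3Plan.Model3 (M * q * q) A K π (Model3Plan.ram q) (pf M q hq hqM π) (Vf hB.dvr H)
      (Chart3B.J3 M q hq hqM K) :=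
  have hC : ChartFacts M A K (chart M A K (jK M K)) (jK M K) :=
    (ModelAll.modelStatement M q hqM A hA K hB).c0
  have hR := Chart3B.rings M q hq hqM A K hB.dvr
  have hf := hf13 hB.dvr H hA hC π hπ hπq hξ
  Model3Asm.model3 π (Model3Plan.ram q) (pf M q hq hqM π) (Vf hB.dvr H)
    (Chart3B.J3 M q hq hqM K) hπ (val hB.dvr H hA π hπ hπq hξ)
    (GaussV.algebraMap_ne_zero (M * q * q) A K hπ.ne_zero) (Chart3B.J3_ne_zero M q hq hqM K)
    hR.2.2.1 (hle0 hB.dvr H) (hleInf hB.dvr H) hR.1.1 hR.1.2.1 hR.1.2.2 hR.2.1.1 hR.2.1.2.1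
    hR.2.1.2.2 (hloc hB.dvr H hA hC π hπ hπq hξ) (hdesc0 hB.dvr H hA hC π hπ hπq hξ)
    (hdescInf hB.dvr H hA hC π hπ hπq hξ)
    (fun hyp => Level3J3B.branch3_J3 M q hq hqM hA hB π hπ H.emb H.dvr' H.irr H.unif
      H.mid.alpha (hEs H) hf.1 hf.2 _ hyp)
    hprinc0
    (fun hyp => Level3J3B.branch3_J3_inv M q hq hqM hA hB π hπ H.emb H.dvr' H.irr H.unif
      H.mid.alpha (hEs H) hf.1 hf.2 _ hyp)
    hprincInf

end Top

end Fermat.Agent.S36.Model3TopB
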