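/-
S36 — NormCongInstB.lean (helper57).  B-copy (independent code) of the block [NORM3], the four
modular instances of the norm congruence (N2) consumed by the toric block (`S36/ToricRel.rel`,
hypothesis `hN2`); A-copy = `S36/NormCongInst.lean` (helper26), same Props.

Levels `M q ⊂ M q²` (`q` prime, `q ∤ M`), `O = A ∩ K`, `E = F_K(M q²)`, `E' = F_K(M q)`,
`G_A = ConjMod.gaussRing A ⊆ ℚ̄((Q))` the Gauss ring.  Valuation rings `V 0`, `V 1`, `V 2` of `E`
(`W1` = Gauss along the `q`-expansion, `W2 = W1 ∘ w_{q²}`, `W3` = Gauss along the middle-cusp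
embeddings) and `V' 0`, `V' 1` of `E'` (`Z1` = Gauss, `Z2 = Z1 ∘ w_q`), entering ONLY through

  `h0V  : z ∈ V 0 → z ∈ G_A`,                 `h1V  : z ∈ V 1 → w_{q²} z ∈ G_A`,
  `h2V  : z ∈ V 2 → f s z ∈ G_A (s ≠ i₀)`,    `h2Vw : z ∈ V 2 → f s (w_{q²} z) ∈ G_A (s ≠ i₀)`,
  `h0V' : y ∈ G_A → y ∈ V' 0`,                `h1V' : w_q y ∈ G_A → y ∈ V' 1`,

`f : Fin q → (F̄_{M q²} →+* ℚ̄((Q)))` a complete family of conjugates over `α(F̄_{M q})` with
`f i₀` the inclusion (hypotheses of `S36/NormFam`; instance: `Iota3K.famBar`), and the `K`-level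
norms `Nmα`, `Nmβ : E → E'` (any functions lifting `PushPic.alphaNorm`, `PushPic.betaNorm`).

For `x ∈ E` and constants `c 0, c 1, c 2 ∈ O` with `x ≡ c i` modulo `π (V i)` for all `i`:

* `n2_alpha_zero` : `N_α x ≡ c 0 * c 2 ^ (q - 1)` modulo `π (V' 0)`
                    (`N_α x = x · ∏_{s ≠ i₀} f s x`);
* `n2_alpha_one`  : `N_α x ≡ c 1 ^ q` modulo `π (V' 1)`
                    (`(w_q N_α x)(Q^q) = ∏_{i<q} (w_{q²} x)(ζ^i Q)`);
* `n2_beta_zero`  : `N_β x ≡ c 0 ^ q` modulo `π (V' 0)`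
                    (`(N_β x)(Q^q) = ∏_{i<q} x(ζ^i Q)`);
* `n2_beta_one`   : `N_β x ≡ c 1 * c 2 ^ (q - 1)` modulo `π (V' 1)`
                    (`w_q N_β x = N_α (w_{q²} x)`);
* `hN2_alpha`, `hN2_beta` : the hypothesis `hN2` of `ToricRel.rel` VERBATIM, for arbitrary
  subalgebras `R ⊆ E`, `R' ⊆ E'`, `ι = Fin 3`, `ι' = Fin 2`, with the exponent matrices
  `dAlpha q = ![![1, 0], ![0, q], ![q - 1, 0]]`, `dBeta q = ![![q, 0], ![0, 1], ![0, q - 1]]`.
-/
import Mathlib
import Fermat.Agent.S18.Glob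
import Fermat.Agent.S18.ModelRed
import Fermat.Agent.S18.GRel
import Fermat.Agent.S34.ConjMod
import Fermat.Agent.S34.WK
import Fermat.Agent.S35.PushPic
import Fermat.Agent.S36.WQ2
import Fermat.Agent.S36.NormRot
import Fermat.Agent.S36.NormFam

set_option autoImplicit false

noncomputable section

namespace Fermat.Agent.S36.NormCongInstB

open ModularCurve AlgebraicCurve HahnSeries
open Fermat.Agent.S18 Fermat.Agent.S18.Arith Fermat.Agent.S24 Fermat.Agent.S34
open Fermat.Agent.S35 Fermat.Agent.S37.W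

set_option synthInstance.maxHeartbeats 400000

/-! ### Product congruences modulo `P · G` -/

/-- Product congruence modulo `P · G`, for a subring `G` of a commutative ring and `P ∈ G`. -/
theorem prod_cong {Ω : Type*} [CommRing Ω] (G : Subring Ω) (P : Ω) (hP : P ∈ G) {ι : Type*}
    (s : Finset ι) (X b : ι → Ω) (hb : ∀ i ∈ s, b i ∈ G)
    (h : ∀ i ∈ s, ∃ Z ∈ G, X i - b i = P * Z) :
    ∃ Z ∈ G, ∏ i ∈ s, X i - ∏ i ∈ s, b i = P * Z := by
  classical
  induction s using Finset.induction_on with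
  | empty => exact ⟨0, G.zero_mem, by simp⟩
  | insert i s hi ih =>
    obtain ⟨Z₁, hZ₁, e₁⟩ := h i (Finset.mem_insert_self i s)
    obtain ⟨Z₂, hZ₂, e₂⟩ := ih (fun j hj => hb j (Finset.mem_insert_of_mem hj))
      (fun j hj => h j (Finset.mem_insert_of_mem hj))
    have hbi : b i ∈ G := hb i (Finset.mem_insert_self i s)
    have hbs : ∏ j ∈ s, b j ∈ G :=
      Subring.prod_mem G (fun j hj => hb j (Finset.mem_insert_of_mem hj))
    refine ⟨Z₁ * (∏ j ∈ s, b j) + Z₁ * (P * Z₂) + b i * Z₂, ?_, ?_⟩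
    · exact G.add_mem (G.add_mem (G.mul_mem hZ₁ hbs) (G.mul_mem hZ₁ (G.mul_mem hP hZ₂)))
        (G.mul_mem hbi hZ₂)
    · rw [Finset.prod_insert hi, Finset.prod_insert hi]
      have e₁' : X i = b i + P * Z₁ := by rw [← e₁]; ring
      have e₂' : ∏ j ∈ s, X j = ∏ j ∈ s, b j + P * Z₂ := by rw [← e₂]; ring
      rw [e₁', e₂']
      ring

/-! ### Congruences of Laurent series modulo `π G_A` -/

section Series

variable (A : ValuationSubring Qb) (K : IntermediateField ℚ Qb) (π : OK A K)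

/-- `X ≡ c` modulo `π G_A`: the series `X - c` is `π` times a Gauss-integral series. -/
def CongS (X : LaurentSeries Qb) (c : OK A K) : Prop :=
  ∃ Z ∈ ConjMod.gaussRing A, X - (C (incO A K c) : LaurentSeries Qb) = C (incO A K π) * Z

variable {A K π}

theorem C_incO_mem (c : OK A K) : (C (incO A K c) : LaurentSeries Qb) ∈ ConjMod.gaussRing A :=
  ⟨_, ModelRed.gRel_const K (GRel.gRelStatement A) c⟩

/-- Family product: one factor `≡ c₀`, all the others `≡ c₂`. -/
theorem congS_prod_family {n : ℕ} (X : Fin n → LaurentSeries Qb) (i₀ : Fin n) (c₀ c₂ : OK A K)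
    (h0 : CongS A K π (X i₀) c₀) (h2 : ∀ s, s ≠ i₀ → CongS A K π (X s) c₂) :
    CongS A K π (∏ s, X s) (c₀ * c₂ ^ (n - 1)) := by
  classical
  obtain ⟨Z, hZ, e⟩ := prod_cong (ConjMod.gaussRing A) (C (incO A K π)) (C_incO_mem π)
    Finset.univ X
    (fun s => if s = i₀ then (C (incO A K c₀) : LaurentSeries Qb) else C (incO A K c₂))
    (fun s _ => by
      by_cases hs : s = i₀
      · rw [if_pos hs]; exact C_incO_mem c₀
      · rw [if_neg hs]; exact C_incO_mem c₂)
    (fun s _ => by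
      by_cases hs : s = i₀
      · rw [if_pos hs, hs]; exact h0
      · rw [if_neg hs]; exact h2 s hs)
  refine ⟨Z, hZ, ?_⟩
  rw [← e]
  congr 1
  rw [← Finset.mul_prod_erase Finset.univ _ (Finset.mem_univ i₀), if_pos rfl,
    Finset.prod_congr rfl (fun s hs => if_neg (Finset.ne_of_mem_erase hs)),
    Finset.prod_const, Finset.card_erase_of_mem (Finset.mem_univ i₀), Finset.card_univ,
    Fintype.card_fin, map_mul, map_mul, map_pow, map_pow]

/-- A rotation by a `q`-th root of unity preserves congruences modulo `π G_A`. -/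
theorem congS_rot (q : ℕ) [Fact q.Prime] (hA : A.LiesOverPrime q) {ζ : Qb} (hζ : ζ ^ q = 1)
    (hζ0 : ζ ≠ 0) {Y : LaurentSeries Qb} {c : OK A K} (h : CongS A K π Y c) :
    CongS A K π (rotHom ζ hζ0 Y) c := by
  obtain ⟨Z, ⟨y, hy⟩, e⟩ := h
  have hC : ∀ a : Qb, rotHom ζ hζ0 (C a : LaurentSeries Qb) = C a := by
    intro a
    have h1 : (C a : LaurentSeries Qb) = algebraMap Qb (LaurentSeries Qb) a := by
      rw [algebraMap_laurentSeries_eq_single]
      rfl
    rw [h1, AlgHom.commutes]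
  refine ⟨rotHom ζ hζ0 Z, ⟨y, ConjMod.gRel_rot q hA hζ hζ0 hy⟩, ?_⟩
  have h2 := congrArg (rotHom ζ hζ0) e
  rwa [map_sub, map_mul, hC, hC] at h2

/-- Congruences modulo `π G_A` descend along `Q ↦ Q ^ q`. -/
theorem congS_of_qExpand (hπ : π ≠ 0) (q : ℕ) [NeZero q] {X : LaurentSeries Qb} {c : OK A K}
    (h : CongS A K π (qExpand Qb q X) c) : CongS A K π X c := by
  obtain ⟨Z, ⟨y, hy⟩, e⟩ := h
  have hP : (C (incO A K π) : LaurentSeries Qb) ≠ 0 := ModelRed.C_incO_ne_zero π hπ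
  have hq : qExpand Qb q ((C (incO A K π) : LaurentSeries Qb)⁻¹ * (X - C (incO A K c))) = Z := by
    rw [map_mul, map_inv₀, map_sub, qExpand_C, qExpand_C, e, inv_mul_cancel_left₀ hP]
  refine ⟨(C (incO A K π) : LaurentSeries Qb)⁻¹ * (X - C (incO A K c)),
    ⟨_, ConjMod.gRel_of_qExpand q (hq ▸ hy)⟩, ?_⟩
  rw [mul_inv_cancel_left₀ hP]

/-- Rotation product: if `X(Q^q) = ∏_{i<q} Y(ζ^i Q)` and `Y ≡ c` then `X ≡ c ^ q`. -/
theorem congS_of_rot_prod (hπ : π ≠ 0) (q : ℕ) [NeZero q] (hq : q.Prime)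
    (hA : A.LiesOverPrime q) {ζ : Qb} (hζ : ζ ^ q = 1) (hz : ∀ i : ℕ, ζ ^ i ≠ 0)
    {X Y : LaurentSeries Qb} {c : OK A K} (h : CongS A K π Y c)
    (hX : qExpand Qb q X = ∏ i ∈ Finset.range q, rotHom (ζ ^ i) (hz i) Y) :
    CongS A K π X (c ^ q) := by
  have : Fact q.Prime := ⟨hq⟩
  apply congS_of_qExpand hπ q
  obtain ⟨Z, hZ, e⟩ := prod_cong (ConjMod.gaussRing A) (C (incO A K π)) (C_incO_mem π)
    (Finset.range q) (fun i => rotHom (ζ ^ i) (hz i) Y)
    (fun _ => (C (incO A K c) : LaurentSeries Qb)) (fun _ _ => C_incO_mem c)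
    (fun i _ => congS_rot q hA (by rw [← pow_mul, mul_comm, pow_mul, hζ, one_pow]) (hz i) h)
  refine ⟨Z, hZ, ?_⟩
  rw [hX, ← e, Finset.prod_const, Finset.card_range, map_pow, map_pow]

end Series

/-! ### Transfer between `F_K` and Laurent series -/

section Transfer

variable {A : ValuationSubring Qb} {K : IntermediateField ℚ Qb} {π : OK A K} {N : ℕ}

/-- A congruence modulo `π V` in `F_K` gives a congruence modulo `π G_A` along any embedding
`φ` which is the identity on constants and maps `V` into `G_A`. -/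
theorem congS_map (φ : FK N K →+* LaurentSeries Qb)
    (hφ : ∀ c : OK A K, φ (algebraMap (OK A K) (FK N K) c) = C (incO A K c))
    {x z : FK N K} {c : OK A K} (hz : φ z ∈ ConjMod.gaussRing A)
    (h : x - algebraMap (OK A K) (FK N K) c = algebraMap (OK A K) (FK N K) π * z) :
    CongS A K π (φ x) c := by
  refine ⟨φ z, hz, ?_⟩
  rw [← hφ c, ← hφ π, ← map_sub, h, map_mul]

/-- A congruence modulo `π G_A` along an embedding `ψ` gives a congruence modulo `π V'` in
`F_K`, if `V'` contains the elements with Gauss-integral `ψ`-expansion. -/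
theorem exists_of_congS (hπ : π ≠ 0) (ψ : FK N K →+* LaurentSeries Qb)
    (hψ : ∀ c : OK A K, ψ (algebraMap (OK A K) (FK N K) c) = C (incO A K c))
    (V' : ValuationSubring (FK N K)) (hV' : ∀ y : FK N K, ψ y ∈ ConjMod.gaussRing A → y ∈ V')
    {y : FK N K} {c : OK A K} (h : CongS A K π (ψ y) c) :
    ∃ z' ∈ V', y - algebraMap (OK A K) (FK N K) c = algebraMap (OK A K) (FK N K) π * z' := by
  obtain ⟨Z, hZ, e⟩ := h
  have hP : (C (incO A K π) : LaurentSeries Qb) ≠ 0 := ModelRed.C_incO_ne_zero π hπ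
  have hπ' : algebraMap (OK A K) (FK N K) π ≠ 0 := by
    intro h0
    apply hP
    rw [← hψ π, h0, map_zero]
  refine ⟨(algebraMap (OK A K) (FK N K) π)⁻¹ * (y - algebraMap (OK A K) (FK N K) c),
    hV' _ ?_, ?_⟩
  · have h1 : ψ ((algebraMap (OK A K) (FK N K) π)⁻¹ * (y - algebraMap (OK A K) (FK N K) c))
        = Z := by
      rw [map_mul, map_inv₀, map_sub, hψ, hψ, e, inv_mul_cancel_left₀ hP]
    rw [h1]
    exact hZ
  · rw [mul_inv_cancel_left₀ hπ']

end Transfer

/-! ### The four instances -/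

section Main

variable (M q : ℕ) [NeZero M] [NeZero q] (hq : q.Prime) (hqM : ¬ q ∣ M)
  (A : ValuationSubring Qb) (K : IntermediateField ℚ Qb) (π : OK A K)

/-- The `q`-expansion as a ring homomorphism `F_K →+* ℚ̄((Q))`: constants. -/
theorem coe_const (N : ℕ) (c : OK A K) :
    (FK N K).subtype (algebraMap (OK A K) (FK N K) c) = C (incO A K c) := rfl

/-- Every member of a family of conjugates over `α(F̄_{M q})` is the identity on constants. -/
theorem fam_const (f : Fin q → (↥(modularFunctionFieldBar (M * q * q)) →+* LaurentSeries Qb))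
    (hf : ∀ (i : Fin q) (x : ↥(modularFunctionFieldBar (M * q))),
      f i (heckeAlphaBar Qb (M * q) q x) = (x : LaurentSeries Qb)) (s : Fin q) (c : OK A K) :
    ((f s).comp (Glob.toBar (M * q * q) K)) (algebraMap (OK A K) (FK (M * q * q) K) c)
      = C (incO A K c) := by
  rw [RingHom.comp_apply, Glob.toBar_algebraMap, ← AlgHom.commutes (heckeAlphaBar Qb (M * q) q),
    hf, WK.coe_algebraMap_bar]
  rfl

/-- `w_{q²}` followed by the `q`-expansion: constants. -/
theorem wK2_const (c : OK A K) :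
    ((FK (M * q * q) K).subtype.comp
        (WQ2.wK2 M q hq hqM K : FK (M * q * q) K →+* FK (M * q * q) K))
      (algebraMap (OK A K) (FK (M * q * q) K) c) = C (incO A K c) := by
  rw [RingHom.comp_apply, RingHom.coe_coe, WQ2.wK2_algebraMap_OK]
  rfl

/-- `w_q` followed by the `q`-expansion: constants. -/
theorem wK_const (c : OK A K) :
    ((FK (M * q) K).subtype.comp (WK.wK M q hq hqM K : FK (M * q) K →+* FK (M * q) K))
      (algebraMap (OK A K) (FK (M * q) K) c) = C (incO A K c) := by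
  rw [RingHom.comp_apply, RingHom.coe_coe, WK.wK_algebraMap_OK]
  rfl

/-- `w_{q²}` followed by a member of the family: constants. -/
theorem fam_wK2_const (f : Fin q → (↥(modularFunctionFieldBar (M * q * q)) →+* LaurentSeries Qb))
    (hf : ∀ (i : Fin q) (x : ↥(modularFunctionFieldBar (M * q))),
      f i (heckeAlphaBar Qb (M * q) q x) = (x : LaurentSeries Qb)) (s : Fin q) (c : OK A K) :
    (((f s).comp (Glob.toBar (M * q * q) K)).comp
        (WQ2.wK2 M q hq hqM K : FK (M * q * q) K →+* FK (M * q * q) K))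
      (algebraMap (OK A K) (FK (M * q * q) K) c) = C (incO A K c) := by
  rw [RingHom.comp_apply, RingHom.coe_coe, WQ2.wK2_algebraMap_OK]
  exact fam_const M q A K f hf s c

variable {π}

include hq in
/-- **(N2), `α`, branch `Z1`**: `N_α x ≡ c 0 * c 2 ^ (q - 1)` modulo `π (V' 0)`. -/
theorem n2_alpha_zero (hπ : π ≠ 0)
    (V : Fin 3 → ValuationSubring (FK (M * q * q) K))
    (V' : Fin 2 → ValuationSubring (FK (M * q) K))
    (h0V : ∀ z ∈ V 0, ((z : FK (M * q * q) K) : LaurentSeries Qb) ∈ ConjMod.gaussRing A)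
    (h0V' : ∀ y : FK (M * q) K, (y : LaurentSeries Qb) ∈ ConjMod.gaussRing A → y ∈ V' 0)
    (f : Fin q → (↥(modularFunctionFieldBar (M * q * q)) →+* LaurentSeries Qb))
    (hf : ∀ (i : Fin q) (x : ↥(modularFunctionFieldBar (M * q))),
      f i (heckeAlphaBar Qb (M * q) q x) = (x : LaurentSeries Qb))
    (hinj : Function.Injective f) (i₀ : Fin q) (hf0 : ∀ z, f i₀ z = (z : LaurentSeries Qb))
    (h2V : ∀ z ∈ V 2, ∀ s, s ≠ i₀ →
      f s (Glob.toBar (M * q * q) K z) ∈ ConjMod.gaussRing A)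
    (Nmα : FK (M * q * q) K → FK (M * q) K)
    (hNmα : ∀ x, Glob.toBar (M * q) K (Nmα x)
      = PushPic.alphaNorm (M * q) q (Glob.toBar (M * q * q) K x))
    (x : FK (M * q * q) K) (c : Fin 3 → OK A K)
    (hx : ∀ i, ∃ z ∈ V i, x - algebraMap (OK A K) (FK (M * q * q) K) (c i)
      = algebraMap (OK A K) (FK (M * q * q) K) π * z) :
    ∃ z' ∈ V' 0, Nmα x - algebraMap (OK A K) (FK (M * q) K) (c 0 * c 2 ^ (q - 1))
      = algebraMap (OK A K) (FK (M * q) K) π * z' := by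
  obtain ⟨z0, hz0, e0⟩ := hx 0
  obtain ⟨z2, hz2, e2⟩ := hx 2
  apply exists_of_congS hπ (FK (M * q) K).subtype (coe_const A K (M * q)) (V' 0) h0V'
  have hcoe : (FK (M * q) K).subtype (Nmα x) = ∏ s, f s (Glob.toBar (M * q * q) K x) := by
    have h1 : ((Nmα x : FK (M * q) K) : LaurentSeries Qb)
        = ((PushPic.alphaNorm (M * q) q (Glob.toBar (M * q * q) K x) :
            ↥(modularFunctionFieldBar (M * q))) : LaurentSeries Qb) :=
      congrArg Subtype.val (hNmα x)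
    exact h1.trans
      (NormFam.coe_norm_alpha_of_family (M * q) q hq (dvd_mul_left q M) f hf hinj _)
  rw [hcoe]
  refine congS_prod_family _ i₀ (c 0) (c 2) ?_ (fun s hs => ?_)
  · rw [hf0]
    exact congS_map (FK (M * q * q) K).subtype (coe_const A K (M * q * q)) (h0V z0 hz0) e0
  · exact congS_map ((f s).comp (Glob.toBar (M * q * q) K)) (fam_const M q A K f hf s)
      (h2V z2 hz2 s hs) e2

/-- **(N2), `α`, branch `Z2`**: `N_α x ≡ c 1 ^ q` modulo `π (V' 1)`. -/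
theorem n2_alpha_one (hπ : π ≠ 0) (hA : A.LiesOverPrime q)
    (V : Fin 3 → ValuationSubring (FK (M * q * q) K))
    (V' : Fin 2 → ValuationSubring (FK (M * q) K))
    (h1V : ∀ z ∈ V 1,
      ((WQ2.wK2 M q hq hqM K z : FK (M * q * q) K) : LaurentSeries Qb) ∈ ConjMod.gaussRing A)
    (h1V' : ∀ y : FK (M * q) K,
      ((WK.wK M q hq hqM K y : FK (M * q) K) : LaurentSeries Qb) ∈ ConjMod.gaussRing A → y ∈ V' 1)
    (Nmα : FK (M * q * q) K → FK (M * q) K)
    (hNmα : ∀ x, Glob.toBar (M * q) K (Nmα x)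
      = PushPic.alphaNorm (M * q) q (Glob.toBar (M * q * q) K x))
    (x : FK (M * q * q) K) (c : Fin 3 → OK A K)
    (hx : ∀ i, ∃ z ∈ V i, x - algebraMap (OK A K) (FK (M * q * q) K) (c i)
      = algebraMap (OK A K) (FK (M * q * q) K) π * z) :
    ∃ z' ∈ V' 1, Nmα x - algebraMap (OK A K) (FK (M * q) K) (c 1 ^ q)
      = algebraMap (OK A K) (FK (M * q) K) π * z' := by
  obtain ⟨z1, hz1, e1⟩ := hx 1
  obtain ⟨ζ, hζ⟩ := HasEnoughRootsOfUnity.exists_primitiveRoot Qb q
  have hz : ∀ i : ℕ, ζ ^ i ≠ 0 := fun i => pow_ne_zero i (hζ.ne_zero (NeZero.ne q))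
  apply exists_of_congS hπ
    ((FK (M * q) K).subtype.comp (WK.wK M q hq hqM K : FK (M * q) K →+* FK (M * q) K))
    (wK_const M q hq hqM A K) (V' 1) h1V'
  refine congS_of_rot_prod hπ q hq hA hζ.pow_eq_one hz
    (Y := ((WQ2.wK2 M q hq hqM K x : FK (M * q * q) K) : LaurentSeries Qb)) ?_ ?_
  · exact congS_map ((FK (M * q * q) K).subtype.comp
      (WQ2.wK2 M q hq hqM K : FK (M * q * q) K →+* FK (M * q * q) K))
      (wK2_const M q hq hqM A K) (h1V z1 hz1) e1
  · have h := NormRot.qExpand_norm_alpha_of_pair (M * q) q (WK.wBar M q hq hqM)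
      (WQ2.wBar2 M q hq hqM) hq (dvd_mul_left q M) (WQ2.wBar2_alpha M q hq hqM) ζ hζ hz
      (Glob.toBar (M * q * q) K x)
    have h2 : Glob.toBar (M * q) K (WK.wK M q hq hqM K (Nmα x))
        = WK.wBar M q hq hqM (PushPic.alphaNorm (M * q) q (Glob.toBar (M * q * q) K x)) := by
      rw [WK.toBar_wK, hNmα]
    have h3 : ((WK.wK M q hq hqM K (Nmα x) : FK (M * q) K) : LaurentSeries Qb)
        = ((WK.wBar M q hq hqM (PushPic.alphaNorm (M * q) q (Glob.toBar (M * q * q) K x)) :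
            ↥(modularFunctionFieldBar (M * q))) : LaurentSeries Qb) :=
      congrArg Subtype.val h2
    show qExpand Qb q ((WK.wK M q hq hqM K (Nmα x) : FK (M * q) K) : LaurentSeries Qb) = _
    rw [h3]
    exact h

include hq hqM in
/-- **(N2), `β`, branch `Z1`**: `N_β x ≡ c 0 ^ q` modulo `π (V' 0)`. -/
theorem n2_beta_zero (hπ : π ≠ 0) (hA : A.LiesOverPrime q)
    (V : Fin 3 → ValuationSubring (FK (M * q * q) K))
    (V' : Fin 2 → ValuationSubring (FK (M * q) K))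
    (h0V : ∀ z ∈ V 0, ((z : FK (M * q * q) K) : LaurentSeries Qb) ∈ ConjMod.gaussRing A)
    (h0V' : ∀ y : FK (M * q) K, (y : LaurentSeries Qb) ∈ ConjMod.gaussRing A → y ∈ V' 0)
    (Nmβ : FK (M * q * q) K → FK (M * q) K)
    (hNmβ : ∀ x, Glob.toBar (M * q) K (Nmβ x)
      = PushPic.betaNorm (M * q) q (Glob.toBar (M * q * q) K x))
    (x : FK (M * q * q) K) (c : Fin 3 → OK A K)
    (hx : ∀ i, ∃ z ∈ V i, x - algebraMap (OK A K) (FK (M * q * q) K) (c i)
      = algebraMap (OK A K) (FK (M * q * q) K) π * z) :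
    ∃ z' ∈ V' 0, Nmβ x - algebraMap (OK A K) (FK (M * q) K) (c 0 ^ q)
      = algebraMap (OK A K) (FK (M * q) K) π * z' := by
  obtain ⟨z0, hz0, e0⟩ := hx 0
  obtain ⟨ζ, hζ⟩ := HasEnoughRootsOfUnity.exists_primitiveRoot Qb q
  have hz : ∀ i : ℕ, ζ ^ i ≠ 0 := fun i => pow_ne_zero i (hζ.ne_zero (NeZero.ne q))
  apply exists_of_congS hπ (FK (M * q) K).subtype (coe_const A K (M * q)) (V' 0) h0V'
  refine congS_of_rot_prod hπ q hq hA hζ.pow_eq_one hz
    (Y := ((x : FK (M * q * q) K) : LaurentSeries Qb))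
    (congS_map (FK (M * q * q) K).subtype (coe_const A K (M * q * q)) (h0V z0 hz0) e0) ?_
  have h := NormRot.qExpand_norm_beta_of_pair (M * q) q (WK.wBar M q hq hqM)
    (WQ2.wBar2 M q hq hqM) hq (dvd_mul_left q M) (WQ2.wBar2_alpha M q hq hqM) ζ hζ hz
    (Glob.toBar (M * q * q) K x)
  have h3 : ((Nmβ x : FK (M * q) K) : LaurentSeries Qb)
      = ((PushPic.betaNorm (M * q) q (Glob.toBar (M * q * q) K x) :
          ↥(modularFunctionFieldBar (M * q))) : LaurentSeries Qb) :=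
    congrArg Subtype.val (hNmβ x)
  show qExpand Qb q ((Nmβ x : FK (M * q) K) : LaurentSeries Qb) = _
  rw [h3]
  exact h

/-- **(N2), `β`, branch `Z2`**: `N_β x ≡ c 1 * c 2 ^ (q - 1)` modulo `π (V' 1)`. -/
theorem n2_beta_one (hπ : π ≠ 0)
    (V : Fin 3 → ValuationSubring (FK (M * q * q) K))
    (V' : Fin 2 → ValuationSubring (FK (M * q) K))
    (h1V : ∀ z ∈ V 1,
      ((WQ2.wK2 M q hq hqM K z : FK (M * q * q) K) : LaurentSeries Qb) ∈ ConjMod.gaussRing A)
    (h1V' : ∀ y : FK (M * q) K,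
      ((WK.wK M q hq hqM K y : FK (M * q) K) : LaurentSeries Qb) ∈ ConjMod.gaussRing A → y ∈ V' 1)
    (f : Fin q → (↥(modularFunctionFieldBar (M * q * q)) →+* LaurentSeries Qb))
    (hf : ∀ (i : Fin q) (x : ↥(modularFunctionFieldBar (M * q))),
      f i (heckeAlphaBar Qb (M * q) q x) = (x : LaurentSeries Qb))
    (hinj : Function.Injective f) (i₀ : Fin q) (hf0 : ∀ z, f i₀ z = (z : LaurentSeries Qb))
    (h2Vw : ∀ z ∈ V 2, ∀ s, s ≠ i₀ →
      f s (Glob.toBar (M * q * q) K (WQ2.wK2 M q hq hqM K z)) ∈ ConjMod.gaussRing A)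
    (Nmβ : FK (M * q * q) K → FK (M * q) K)
    (hNmβ : ∀ x, Glob.toBar (M * q) K (Nmβ x)
      = PushPic.betaNorm (M * q) q (Glob.toBar (M * q * q) K x))
    (x : FK (M * q * q) K) (c : Fin 3 → OK A K)
    (hx : ∀ i, ∃ z ∈ V i, x - algebraMap (OK A K) (FK (M * q * q) K) (c i)
      = algebraMap (OK A K) (FK (M * q * q) K) π * z) :
    ∃ z' ∈ V' 1, Nmβ x - algebraMap (OK A K) (FK (M * q) K) (c 1 * c 2 ^ (q - 1))
      = algebraMap (OK A K) (FK (M * q) K) π * z' := by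
  obtain ⟨z1, hz1, e1⟩ := hx 1
  obtain ⟨z2, hz2, e2⟩ := hx 2
  apply exists_of_congS hπ
    ((FK (M * q) K).subtype.comp (WK.wK M q hq hqM K : FK (M * q) K →+* FK (M * q) K))
    (wK_const M q hq hqM A K) (V' 1) h1V'
  have hcoe : ((FK (M * q) K).subtype.comp
        (WK.wK M q hq hqM K : FK (M * q) K →+* FK (M * q) K)) (Nmβ x)
      = ∏ s, f s (Glob.toBar (M * q * q) K (WQ2.wK2 M q hq hqM K x)) := by
    have h := NormRot.norm_beta_of_pair (M * q) q (WK.wBar M q hq hqM)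
      (WQ2.wBar2 M q hq hqM) (WQ2.wBar2_beta M q hq hqM) (Glob.toBar (M * q * q) K x)
    have h2 : Glob.toBar (M * q) K (WK.wK M q hq hqM K (Nmβ x))
        = WK.wBar M q hq hqM (PushPic.betaNorm (M * q) q (Glob.toBar (M * q * q) K x)) := by
      rw [WK.toBar_wK, hNmβ]
    have h3 : ((WK.wK M q hq hqM K (Nmβ x) : FK (M * q) K) : LaurentSeries Qb)
        = ((WK.wBar M q hq hqM (PushPic.betaNorm (M * q) q (Glob.toBar (M * q * q) K x)) :
            ↥(modularFunctionFieldBar (M * q))) : LaurentSeries Qb) :=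
      congrArg Subtype.val h2
    show ((WK.wK M q hq hqM K (Nmβ x) : FK (M * q) K) : LaurentSeries Qb) = _
    rw [h3, WQ2.toBar_wK2]
    exact (congrArg Subtype.val h).trans
      (NormFam.coe_norm_alpha_of_family (M * q) q hq (dvd_mul_left q M) f hf hinj _)
  rw [hcoe]
  refine congS_prod_family _ i₀ (c 1) (c 2) ?_ (fun s hs => ?_)
  · rw [hf0]
    exact congS_map ((FK (M * q * q) K).subtype.comp
      (WQ2.wK2 M q hq hqM K : FK (M * q * q) K →+* FK (M * q * q) K))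
      (wK2_const M q hq hqM A K) (h1V z1 hz1) e1
  · exact congS_map (((f s).comp (Glob.toBar (M * q * q) K)).comp
      (WQ2.wK2 M q hq hqM K : FK (M * q * q) K →+* FK (M * q * q) K))
      (fam_wK2_const M q hq hqM A K f hf s) (h2Vw z2 hz2 s hs) e2

/-! ### The hypothesis `hN2` of `ToricRel.rel`, verbatim -/

/-- The exponent matrix of `N_α`: `d i j` for the branch `i` of level `M q²` (`0 = W1`,
`1 = W2`, `2 = W3`) and the branch `j` of level `M q` (`0 = Z1`, `1 = Z2`). -/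
def dAlpha (q : ℕ) : Fin 3 → Fin 2 → ℕ := ![![1, 0], ![0, q], ![q - 1, 0]]

/-- The exponent matrix of `N_β`. -/
def dBeta (q : ℕ) : Fin 3 → Fin 2 → ℕ := ![![q, 0], ![0, 1], ![0, q - 1]]

/-- **(N2) for `N_α`**, in the shape of the hypothesis `hN2` of `ToricRel.rel` (`ι = Fin 3`,
`ι' = Fin 2`, `d = dAlpha q`), for arbitrary subalgebras `R`, `R'`. -/
theorem hN2_alpha (hπ : π ≠ 0) (hA : A.LiesOverPrime q)
    (V : Fin 3 → ValuationSubring (FK (M * q * q) K))
    (V' : Fin 2 → ValuationSubring (FK (M * q) K))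
    (h0V : ∀ z ∈ V 0, ((z : FK (M * q * q) K) : LaurentSeries Qb) ∈ ConjMod.gaussRing A)
    (h1V : ∀ z ∈ V 1,
      ((WQ2.wK2 M q hq hqM K z : FK (M * q * q) K) : LaurentSeries Qb) ∈ ConjMod.gaussRing A)
    (h0V' : ∀ y : FK (M * q) K, (y : LaurentSeries Qb) ∈ ConjMod.gaussRing A → y ∈ V' 0)
    (h1V' : ∀ y : FK (M * q) K,
      ((WK.wK M q hq hqM K y : FK (M * q) K) : LaurentSeries Qb) ∈ ConjMod.gaussRing A → y ∈ V' 1)
    (f : Fin q → (↥(modularFunctionFieldBar (M * q * q)) →+* LaurentSeries Qb))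
    (hf : ∀ (i : Fin q) (x : ↥(modularFunctionFieldBar (M * q))),
      f i (heckeAlphaBar Qb (M * q) q x) = (x : LaurentSeries Qb))
    (hinj : Function.Injective f) (i₀ : Fin q) (hf0 : ∀ z, f i₀ z = (z : LaurentSeries Qb))
    (h2V : ∀ z ∈ V 2, ∀ s, s ≠ i₀ →
      f s (Glob.toBar (M * q * q) K z) ∈ ConjMod.gaussRing A)
    (Nmα : FK (M * q * q) K → FK (M * q) K)
    (hNmα : ∀ x, Glob.toBar (M * q) K (Nmα x)
      = PushPic.alphaNorm (M * q) q (Glob.toBar (M * q * q) K x))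
    (R : Subalgebra (OK A K) (FK (M * q * q) K)) (R' : Subalgebra (OK A K) (FK (M * q) K)) :
    ∀ (x : FK (M * q * q) K) (c : Fin 3 → OK A K),
      (∀ i, ∃ z ∈ V i, x - algebraMap R (FK (M * q * q) K) (algebraMap (OK A K) R (c i)) =
        algebraMap R (FK (M * q * q) K) (algebraMap (OK A K) R π) * z) →
      ∀ j, ∃ z' ∈ V' j,
        Nmα x - algebraMap R' (FK (M * q) K) (algebraMap (OK A K) R' (∏ i, c i ^ dAlpha q i j)) =
          algebraMap R' (FK (M * q) K) (algebraMap (OK A K) R' π) * z' := by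
  intro x c hx j
  have hx' : ∀ i, ∃ z ∈ V i, x - algebraMap (OK A K) (FK (M * q * q) K) (c i)
      = algebraMap (OK A K) (FK (M * q * q) K) π * z := hx
  show ∃ z' ∈ V' j, Nmα x - algebraMap (OK A K) (FK (M * q) K) (∏ i, c i ^ dAlpha q i j)
    = algebraMap (OK A K) (FK (M * q) K) π * z'
  fin_cases j
  · have e : ∏ i, c i ^ dAlpha q i 0 = c 0 * c 2 ^ (q - 1) := by
      simp [Fin.prod_univ_three, dAlpha]
    show ∃ z' ∈ V' 0, Nmα x - algebraMap (OK A K) (FK (M * q) K) (∏ i, c i ^ dAlpha q i 0)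
      = algebraMap (OK A K) (FK (M * q) K) π * z'
    rw [e]
    exact n2_alpha_zero M q hq A K hπ V V' h0V h0V' f hf hinj i₀ hf0 h2V Nmα hNmα x c hx'
  · have e : ∏ i, c i ^ dAlpha q i 1 = c 1 ^ q := by
      simp [Fin.prod_univ_three, dAlpha]
    show ∃ z' ∈ V' 1, Nmα x - algebraMap (OK A K) (FK (M * q) K) (∏ i, c i ^ dAlpha q i 1)
      = algebraMap (OK A K) (FK (M * q) K) π * z'
    rw [e]
    exact n2_alpha_one M q hq hqM A K hπ hA V V' h1V h1V' Nmα hNmα x c hx'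

/-- **(N2) for `N_β`**, in the shape of the hypothesis `hN2` of `ToricRel.rel` (`ι = Fin 3`,
`ι' = Fin 2`, `d = dBeta q`), for arbitrary subalgebras `R`, `R'`. -/
theorem hN2_beta (hπ : π ≠ 0) (hA : A.LiesOverPrime q)
    (V : Fin 3 → ValuationSubring (FK (M * q * q) K))
    (V' : Fin 2 → ValuationSubring (FK (M * q) K))
    (h0V : ∀ z ∈ V 0, ((z : FK (M * q * q) K) : LaurentSeries Qb) ∈ ConjMod.gaussRing A)
    (h1V : ∀ z ∈ V 1,
      ((WQ2.wK2 M q hq hqM K z : FK (M * q * q) K) : LaurentSeries Qb) ∈ ConjMod.gaussRing A)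
    (h0V' : ∀ y : FK (M * q) K, (y : LaurentSeries Qb) ∈ ConjMod.gaussRing A → y ∈ V' 0)
    (h1V' : ∀ y : FK (M * q) K,
      ((WK.wK M q hq hqM K y : FK (M * q) K) : LaurentSeries Qb) ∈ ConjMod.gaussRing A → y ∈ V' 1)
    (f : Fin q → (↥(modularFunctionFieldBar (M * q * q)) →+* LaurentSeries Qb))
    (hf : ∀ (i : Fin q) (x : ↥(modularFunctionFieldBar (M * q))),
      f i (heckeAlphaBar Qb (M * q) q x) = (x : LaurentSeries Qb))
    (hinj : Function.Injective f) (i₀ : Fin q) (hf0 : ∀ z, f i₀ z = (z : LaurentSeries Qb))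
    (h2Vw : ∀ z ∈ V 2, ∀ s, s ≠ i₀ →
      f s (Glob.toBar (M * q * q) K (WQ2.wK2 M q hq hqM K z)) ∈ ConjMod.gaussRing A)
    (Nmβ : FK (M * q * q) K → FK (M * q) K)
    (hNmβ : ∀ x, Glob.toBar (M * q) K (Nmβ x)
      = PushPic.betaNorm (M * q) q (Glob.toBar (M * q * q) K x))
    (R : Subalgebra (OK A K) (FK (M * q * q) K)) (R' : Subalgebra (OK A K) (FK (M * q) K)) :
    ∀ (x : FK (M * q * q) K) (c : Fin 3 → OK A K),
      (∀ i, ∃ z ∈ V i, x - algebraMap R (FK (M * q * q) K) (algebraMap (OK A K) R (c i)) =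
        algebraMap R (FK (M * q * q) K) (algebraMap (OK A K) R π) * z) →
      ∀ j, ∃ z' ∈ V' j,
        Nmβ x - algebraMap R' (FK (M * q) K) (algebraMap (OK A K) R' (∏ i, c i ^ dBeta q i j)) =
          algebraMap R' (FK (M * q) K) (algebraMap (OK A K) R' π) * z' := by
  intro x c hx j
  have hx' : ∀ i, ∃ z ∈ V i, x - algebraMap (OK A K) (FK (M * q * q) K) (c i)
      = algebraMap (OK A K) (FK (M * q * q) K) π * z := hx
  show ∃ z' ∈ V' j, Nmβ x - algebraMap (OK A K) (FK (M * q) K) (∏ i, c i ^ dBeta q i j)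
    = algebraMap (OK A K) (FK (M * q) K) π * z'
  fin_cases j
  · have e : ∏ i, c i ^ dBeta q i 0 = c 0 ^ q := by
      simp [Fin.prod_univ_three, dBeta]
    show ∃ z' ∈ V' 0, Nmβ x - algebraMap (OK A K) (FK (M * q) K) (∏ i, c i ^ dBeta q i 0)
      = algebraMap (OK A K) (FK (M * q) K) π * z'
    rw [e]
    exact n2_beta_zero M q hq hqM A K hπ hA V V' h0V h0V' Nmβ hNmβ x c hx'
  · have e : ∏ i, c i ^ dBeta q i 1 = c 1 * c 2 ^ (q - 1) := by
      simp [Fin.prod_univ_three, dBeta]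
    show ∃ z' ∈ V' 1, Nmβ x - algebraMap (OK A K) (FK (M * q) K) (∏ i, c i ^ dBeta q i 1)
      = algebraMap (OK A K) (FK (M * q) K) π * z'
    rw [e]
    exact n2_beta_one M q hq hqM A K hπ V V' h1V h1V' f hf hinj i₀ hf0 h2Vw Nmβ hNmβ x c hx'

end Main

end Fermat.Agent.S36.NormCongInstB
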