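/-
S36 — N2W3.lean (helper57).  The norm congruences (N2) of the toric block, CLOSED for the
concrete valuation rings: the hypotheses `h2V`, `h2Vw` of `S36/NormCongInst(B)` for `W3` = the
Gauss ring along ONE middle-cusp embedding `ι3^{ξ₀}`, and the hypothesis `hN2` of `ToricRel.rel`
for `N_α`, `N_β` with no hypothesis on the family of conjugates.

* `iota3_eq_iota3Bar`, `emb3_eq_famBar` — bridge `K`-level ↔ `ℚ̄`-level: the middle-cusp
  embedding / the family of conjugates of `F_K(M q²)` is the restriction of the one of `F̄_{M q²}`;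
* `h2V`  : `z ∈ W3 ⟹ famBar s (toBar z) ∈ G_A` for every `s ≠ 0` (`InertRotK.exists_gRel_emb3`:
           all the middle-cusp embeddings are conjugate under the inertia group);
* `h2Vw` : the same for `w_{q²} z` (`W3Sym.wK2_mem_iff`: `W3` is `w_{q²}`-stable);
* `hN2_alpha`, `hN2_beta` : the hypothesis `hN2` of `ToricRel.rel` VERBATIM for any
  `V : Fin 3 → ValuationSubring (F_K(M q²))`, `V' : Fin 2 → ValuationSubring (F_K(M q))` whose
  memberships are Gauss-integrality along `id`, `w_{q²}`, `ι3^{ξ₀}` resp. `id`, `w_q` (all five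
  are `Iff.rfl` for `GaussV.V1`, `GaussV.V2`, `GaussE.V`), and any `K`-level norm lifting
  `PushPic.alphaNorm` / `PushPic.betaNorm`;
* `hN2_alpha_nm`, `hN2_beta_nm` : the same for the norms of record `NormKMap.nmAlpha`,
  `NormKMap.nmBeta`.
-/
import Mathlib
import Fermat.Agent.S36.NormCongInstB
import Fermat.Agent.S36.InertRotK
import Fermat.Agent.S36.W3Sym
import Fermat.Agent.S36.NormKMap

set_option autoImplicit false

noncomputable section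

namespace Fermat.Agent.S36.N2W3

open ModularCurve AlgebraicCurve HahnSeries
open Fermat.Agent.S18 Fermat.Agent.S18.Arith Fermat.Agent.S24 Fermat.Agent.S34
open Fermat.Agent.S35 Fermat.Agent.S37.W

set_option synthInstance.maxHeartbeats 400000

variable (M q : ℕ) [NeZero M] [NeZero q] (hq : q.Prime) (hqM : ¬ q ∣ M)
  (K : IntermediateField ℚ Qb)

/-! ### Bridge `K`-level ↔ `ℚ̄`-level -/

/-- The middle-cusp embedding of `F_K(M q²)` is the restriction of the one of `F̄_{M q²}`. -/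
theorem iota3_eq_iota3Bar (ξ : Qb) (hξ : ξ ^ q = 1) (hξ1 : ξ ≠ 1) (x : FK (M * q * q) K) :
    Iota3.iota3 M q K hq hqM ξ hξ hξ1 x
      = Iota3K.iota3Bar M q hq hqM ξ hξ hξ1 (Glob.toBar (M * q * q) K x) := by
  have h := Iota3.ringHom_ext_E2 M q K hq hqM (Iota3.iota3 M q K hq hqM ξ hξ hξ1)
    ((Iota3K.iota3Bar M q hq hqM ξ hξ hξ1).comp (Glob.toBar (M * q * q) K)) (fun y => ?_) ?_
  · exact congrArg (fun g : FK (M * q * q) K →+* LaurentSeries Qb => g x) h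
  · rw [Iota3.iota3_incl]
    show _ = Iota3.iota3 M q (⊤ : IntermediateField ℚ Qb) hq hqM ξ hξ hξ1
      (Iota3.barToTop (M * q * q) (Glob.toBar (M * q * q) K
        (DegTower.incl (M * q) ((M * q) * q) K (Dvd.intro q rfl) y)))
    have e : Iota3.barToTop (M * q * q) (Glob.toBar (M * q * q) K
          (DegTower.incl (M * q) ((M * q) * q) K (Dvd.intro q rfl) y))
        = DegTower.incl (M * q) ((M * q) * q) (⊤ : IntermediateField ℚ Qb) (Dvd.intro q rfl)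
          (Iota3.barToTop (M * q) (Glob.toBar (M * q) K y)) := by
      apply Subtype.ext
      rw [Iota3.coe_barToTop, Glob.coe_toBar, DegTower.coe_incl, DegTower.coe_incl,
        Iota3.coe_barToTop, Glob.coe_toBar]
    rw [e, Iota3.iota3_incl, Iota3.coe_barToTop, Glob.coe_toBar]
  · rw [Iota3.iota3_jq2K]
    show _ = Iota3.iota3 M q (⊤ : IntermediateField ℚ Qb) hq hqM ξ hξ hξ1
      (Iota3.barToTop (M * q * q) (Glob.toBar (M * q * q) K (Iota3.jq2K M q K)))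
    have e : Iota3.barToTop (M * q * q) (Glob.toBar (M * q * q) K (Iota3.jq2K M q K))
        = Iota3.jq2K M q (⊤ : IntermediateField ℚ Qb) := by
      apply Subtype.ext
      rw [Iota3.coe_barToTop, Glob.coe_toBar, Iota3.coe_jq2K, Iota3.coe_jq2K]
    rw [e, Iota3.iota3_jq2K]

variable {ζ : Qb} (hζ : IsPrimitiveRoot ζ q)

/-- The family of conjugates of `F_K(M q²)` is the restriction of the one of `F̄_{M q²}`. -/
theorem emb3_eq_famBar (c : Fin q) (x : FK (M * q * q) K) :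
    Iota3K.emb3 M q K hq hqM ζ hζ c x
      = Iota3K.famBar M q hq hqM ζ hζ c (Glob.toBar (M * q * q) K x) := by
  by_cases h : (c : ℕ) = 0
  · rw [Iota3K.emb3_of_eq M q K hq hqM ζ hζ c h, Iota3K.famBar_of_eq M q hq hqM ζ hζ c h]
    rfl
  · rw [Iota3K.emb3_of_ne M q K hq hqM ζ hζ c h, Iota3K.famBar_of_ne M q hq hqM ζ hζ c h]
    exact iota3_eq_iota3Bar M q hq hqM K _ _ _ x

/-! ### `h2V`, `h2Vw` for the Gauss ring along `ι3` -/

variable (A : ValuationSubring Qb)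

/-- **`h2V`**: every nontrivial conjugate of an element of `W3` is Gauss-integral. -/
theorem h2V (hA : A.LiesOverPrime q)
    (hK : ∀ σ ∈ A.inertiaSubgroupIn ℚ, ∀ a ∈ K, σ a = a)
    {ξ₀ : Qb} (hξ₀ : IsPrimitiveRoot ξ₀ q) (hξq : ξ₀ ^ q = 1) (hξ1 : ξ₀ ≠ 1)
    (V2 : ValuationSubring (FK (M * q * q) K))
    (hV2 : ∀ x, x ∈ V2 ↔ ∃ r, GRel A (Iota3.iota3 M q K hq hqM ξ₀ hξq hξ1 x) r) :
    ∀ z ∈ V2, ∀ s : Fin q, s ≠ 0 →
      Iota3K.famBar M q hq hqM ζ hζ s (Glob.toBar (M * q * q) K z) ∈ ConjMod.gaussRing A := by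
  intro z hz s hs
  rw [← emb3_eq_famBar M q hq hqM K hζ s z]
  exact Fermat.Agent.S36.InertRotK.exists_gRel_emb3 M q K hq hqM A hA hK hξ₀ hξq hξ1 hζ s hs z
    ((hV2 z).mp hz)

/-- **`h2Vw`**: every nontrivial conjugate of `w_{q²} z`, `z ∈ W3`, is Gauss-integral. -/
theorem h2Vw (hA : A.LiesOverPrime q)
    (hK : ∀ σ ∈ A.inertiaSubgroupIn ℚ, ∀ a ∈ K, σ a = a)
    {ξ₀ : Qb} (hξ₀ : IsPrimitiveRoot ξ₀ q) (hξq : ξ₀ ^ q = 1) (hξ1 : ξ₀ ≠ 1)
    (V2 : ValuationSubring (FK (M * q * q) K))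
    (hV2 : ∀ x, x ∈ V2 ↔ ∃ r, GRel A (Iota3.iota3 M q K hq hqM ξ₀ hξq hξ1 x) r) :
    ∀ z ∈ V2, ∀ s : Fin q, s ≠ 0 →
      Iota3K.famBar M q hq hqM ζ hζ s
        (Glob.toBar (M * q * q) K (WQ2.wK2 M q hq hqM K z)) ∈ ConjMod.gaussRing A := by
  intro z hz s hs
  exact h2V M q hq hqM K hζ A hA hK hξ₀ hξq hξ1 V2 hV2 _
    ((Fermat.Agent.S36.W3Sym.wK2_mem_iff M q K hq hqM A hA hK hξ₀ hξq hξ1 V2 hV2 z).mpr hz) s hs

/-! ### The hypothesis `hN2` of `ToricRel.rel`, closed -/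

variable {A} {π : OK A K}

/-- **(N2) for `N_α`**: the hypothesis `hN2` of `ToricRel.rel` (`d = NormCongInstB.dAlpha q`)
for valuation rings with Gauss memberships. -/
theorem hN2_alpha (hπ : π ≠ 0) (hA : A.LiesOverPrime q)
    (hK : ∀ σ ∈ A.inertiaSubgroupIn ℚ, ∀ a ∈ K, σ a = a)
    {ξ₀ : Qb} (hξ₀ : IsPrimitiveRoot ξ₀ q) (hξq : ξ₀ ^ q = 1) (hξ1 : ξ₀ ≠ 1)
    (V : Fin 3 → ValuationSubring (FK (M * q * q) K))
    (V' : Fin 2 → ValuationSubring (FK (M * q) K))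
    (hV0 : ∀ x, x ∈ V 0 ↔ ∃ r, GRel A ((x : FK (M * q * q) K) : LaurentSeries Qb) r)
    (hV1 : ∀ x, x ∈ V 1 ↔
      ∃ r, GRel A ((WQ2.wK2 M q hq hqM K x : FK (M * q * q) K) : LaurentSeries Qb) r)
    (hV2 : ∀ x, x ∈ V 2 ↔ ∃ r, GRel A (Iota3.iota3 M q K hq hqM ξ₀ hξq hξ1 x) r)
    (hV'0 : ∀ y, y ∈ V' 0 ↔ ∃ r, GRel A ((y : FK (M * q) K) : LaurentSeries Qb) r)
    (hV'1 : ∀ y, y ∈ V' 1 ↔
      ∃ r, GRel A ((WK.wK M q hq hqM K y : FK (M * q) K) : LaurentSeries Qb) r)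
    (Nmα : FK (M * q * q) K → FK (M * q) K)
    (hNmα : ∀ x, Glob.toBar (M * q) K (Nmα x)
      = PushPic.alphaNorm (M * q) q (Glob.toBar (M * q * q) K x))
    (R : Subalgebra (OK A K) (FK (M * q * q) K)) (R' : Subalgebra (OK A K) (FK (M * q) K)) :
    ∀ (x : FK (M * q * q) K) (c : Fin 3 → OK A K),
      (∀ i, ∃ z ∈ V i, x - algebraMap R (FK (M * q * q) K) (algebraMap (OK A K) R (c i)) =
        algebraMap R (FK (M * q * q) K) (algebraMap (OK A K) R π) * z) →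
      ∀ j, ∃ z' ∈ V' j,
        Nmα x - algebraMap R' (FK (M * q) K)
            (algebraMap (OK A K) R' (∏ i, c i ^ NormCongInstB.dAlpha q i j)) =
          algebraMap R' (FK (M * q) K) (algebraMap (OK A K) R' π) * z' := by
  obtain ⟨ζ, hζ⟩ := HasEnoughRootsOfUnity.exists_primitiveRoot Qb q
  exact NormCongInstB.hN2_alpha M q hq hqM A K hπ hA V V'
    (fun z hz => (hV0 z).mp hz) (fun z hz => (hV1 z).mp hz)
    (fun y hy => (hV'0 y).mpr hy) (fun y hy => (hV'1 y).mpr hy)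
    (Iota3K.famBar M q hq hqM ζ hζ) (Iota3K.famBar_alpha M q hq hqM ζ hζ)
    (Iota3K.famBar_injective M q hq hqM ζ hζ) 0 (Iota3K.famBar_zero M q hq hqM ζ hζ)
    (h2V M q hq hqM K hζ A hA hK hξ₀ hξq hξ1 (V 2) hV2) Nmα hNmα R R'

/-- **(N2) for `N_β`**: the hypothesis `hN2` of `ToricRel.rel` (`d = NormCongInstB.dBeta q`)
for valuation rings with Gauss memberships. -/
theorem hN2_beta (hπ : π ≠ 0) (hA : A.LiesOverPrime q)
    (hK : ∀ σ ∈ A.inertiaSubgroupIn ℚ, ∀ a ∈ K, σ a = a)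
    {ξ₀ : Qb} (hξ₀ : IsPrimitiveRoot ξ₀ q) (hξq : ξ₀ ^ q = 1) (hξ1 : ξ₀ ≠ 1)
    (V : Fin 3 → ValuationSubring (FK (M * q * q) K))
    (V' : Fin 2 → ValuationSubring (FK (M * q) K))
    (hV0 : ∀ x, x ∈ V 0 ↔ ∃ r, GRel A ((x : FK (M * q * q) K) : LaurentSeries Qb) r)
    (hV1 : ∀ x, x ∈ V 1 ↔
      ∃ r, GRel A ((WQ2.wK2 M q hq hqM K x : FK (M * q * q) K) : LaurentSeries Qb) r)
    (hV2 : ∀ x, x ∈ V 2 ↔ ∃ r, GRel A (Iota3.iota3 M q K hq hqM ξ₀ hξq hξ1 x) r)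
    (hV'0 : ∀ y, y ∈ V' 0 ↔ ∃ r, GRel A ((y : FK (M * q) K) : LaurentSeries Qb) r)
    (hV'1 : ∀ y, y ∈ V' 1 ↔
      ∃ r, GRel A ((WK.wK M q hq hqM K y : FK (M * q) K) : LaurentSeries Qb) r)
    (Nmβ : FK (M * q * q) K → FK (M * q) K)
    (hNmβ : ∀ x, Glob.toBar (M * q) K (Nmβ x)
      = PushPic.betaNorm (M * q) q (Glob.toBar (M * q * q) K x))
    (R : Subalgebra (OK A K) (FK (M * q * q) K)) (R' : Subalgebra (OK A K) (FK (M * q) K)) :
    ∀ (x : FK (M * q * q) K) (c : Fin 3 → OK A K),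
      (∀ i, ∃ z ∈ V i, x - algebraMap R (FK (M * q * q) K) (algebraMap (OK A K) R (c i)) =
        algebraMap R (FK (M * q * q) K) (algebraMap (OK A K) R π) * z) →
      ∀ j, ∃ z' ∈ V' j,
        Nmβ x - algebraMap R' (FK (M * q) K)
            (algebraMap (OK A K) R' (∏ i, c i ^ NormCongInstB.dBeta q i j)) =
          algebraMap R' (FK (M * q) K) (algebraMap (OK A K) R' π) * z' := by
  obtain ⟨ζ, hζ⟩ := HasEnoughRootsOfUnity.exists_primitiveRoot Qb q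
  exact NormCongInstB.hN2_beta M q hq hqM A K hπ hA V V'
    (fun z hz => (hV0 z).mp hz) (fun z hz => (hV1 z).mp hz)
    (fun y hy => (hV'0 y).mpr hy) (fun y hy => (hV'1 y).mpr hy)
    (Iota3K.famBar M q hq hqM ζ hζ) (Iota3K.famBar_alpha M q hq hqM ζ hζ)
    (Iota3K.famBar_injective M q hq hqM ζ hζ) 0 (Iota3K.famBar_zero M q hq hqM ζ hζ)
    (h2Vw M q hq hqM K hζ A hA hK hξ₀ hξq hξ1 (V 2) hV2) Nmβ hNmβ R R'

/-- **(N2) for the norm of record `NormKMap.nmAlpha`.** -/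
theorem hN2_alpha_nm (hπ : π ≠ 0) (hA : A.LiesOverPrime q)
    (hK : ∀ σ ∈ A.inertiaSubgroupIn ℚ, ∀ a ∈ K, σ a = a)
    {ξ₀ : Qb} (hξ₀ : IsPrimitiveRoot ξ₀ q) (hξq : ξ₀ ^ q = 1) (hξ1 : ξ₀ ≠ 1)
    (V : Fin 3 → ValuationSubring (FK (M * q * q) K))
    (V' : Fin 2 → ValuationSubring (FK (M * q) K))
    (hV0 : ∀ x, x ∈ V 0 ↔ ∃ r, GRel A ((x : FK (M * q * q) K) : LaurentSeries Qb) r)
    (hV1 : ∀ x, x ∈ V 1 ↔
      ∃ r, GRel A ((WQ2.wK2 M q hq hqM K x : FK (M * q * q) K) : LaurentSeries Qb) r)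
    (hV2 : ∀ x, x ∈ V 2 ↔ ∃ r, GRel A (Iota3.iota3 M q K hq hqM ξ₀ hξq hξ1 x) r)
    (hV'0 : ∀ y, y ∈ V' 0 ↔ ∃ r, GRel A ((y : FK (M * q) K) : LaurentSeries Qb) r)
    (hV'1 : ∀ y, y ∈ V' 1 ↔
      ∃ r, GRel A ((WK.wK M q hq hqM K y : FK (M * q) K) : LaurentSeries Qb) r)
    (R : Subalgebra (OK A K) (FK (M * q * q) K)) (R' : Subalgebra (OK A K) (FK (M * q) K)) :
    ∀ (x : FK (M * q * q) K) (c : Fin 3 → OK A K),
      (∀ i, ∃ z ∈ V i, x - algebraMap R (FK (M * q * q) K) (algebraMap (OK A K) R (c i)) =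
        algebraMap R (FK (M * q * q) K) (algebraMap (OK A K) R π) * z) →
      ∀ j, ∃ z' ∈ V' j,
        NormKMap.nmAlpha M q hq K x - algebraMap R' (FK (M * q) K)
            (algebraMap (OK A K) R' (∏ i, c i ^ NormCongInstB.dAlpha q i j)) =
          algebraMap R' (FK (M * q) K) (algebraMap (OK A K) R' π) * z' :=
  hN2_alpha M q hq hqM K hπ hA hK hξ₀ hξq hξ1 V V' hV0 hV1 hV2 hV'0 hV'1
    (NormKMap.nmAlpha M q hq K) (fun x => NormKMap.toBar_nmAlpha M q hq K x) R R'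

/-- **(N2) for the norm of record `NormKMap.nmBeta`.** -/
theorem hN2_beta_nm (hπ : π ≠ 0) (hA : A.LiesOverPrime q)
    (hK : ∀ σ ∈ A.inertiaSubgroupIn ℚ, ∀ a ∈ K, σ a = a)
    {ξ₀ : Qb} (hξ₀ : IsPrimitiveRoot ξ₀ q) (hξq : ξ₀ ^ q = 1) (hξ1 : ξ₀ ≠ 1)
    (V : Fin 3 → ValuationSubring (FK (M * q * q) K))
    (V' : Fin 2 → ValuationSubring (FK (M * q) K))
    (hV0 : ∀ x, x ∈ V 0 ↔ ∃ r, GRel A ((x : FK (M * q * q) K) : LaurentSeries Qb) r)
    (hV1 : ∀ x, x ∈ V 1 ↔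
      ∃ r, GRel A ((WQ2.wK2 M q hq hqM K x : FK (M * q * q) K) : LaurentSeries Qb) r)
    (hV2 : ∀ x, x ∈ V 2 ↔ ∃ r, GRel A (Iota3.iota3 M q K hq hqM ξ₀ hξq hξ1 x) r)
    (hV'0 : ∀ y, y ∈ V' 0 ↔ ∃ r, GRel A ((y : FK (M * q) K) : LaurentSeries Qb) r)
    (hV'1 : ∀ y, y ∈ V' 1 ↔
      ∃ r, GRel A ((WK.wK M q hq hqM K y : FK (M * q) K) : LaurentSeries Qb) r)
    (R : Subalgebra (OK A K) (FK (M * q * q) K)) (R' : Subalgebra (OK A K) (FK (M * q) K)) :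
    ∀ (x : FK (M * q * q) K) (c : Fin 3 → OK A K),
      (∀ i, ∃ z ∈ V i, x - algebraMap R (FK (M * q * q) K) (algebraMap (OK A K) R (c i)) =
        algebraMap R (FK (M * q * q) K) (algebraMap (OK A K) R π) * z) →
      ∀ j, ∃ z' ∈ V' j,
        NormKMap.nmBeta M q hq hqM K x - algebraMap R' (FK (M * q) K)
            (algebraMap (OK A K) R' (∏ i, c i ^ NormCongInstB.dBeta q i j)) =
          algebraMap R' (FK (M * q) K) (algebraMap (OK A K) R' π) * z' :=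
  hN2_beta M q hq hqM K hπ hA hK hξ₀ hξq hξ1 V V' hV0 hV1 hV2 hV'0 hV'1
    (NormKMap.nmBeta M q hq hqM K) (fun x => NormKMap.toBar_nmBeta M q hq hqM K x) R R'

end Fermat.Agent.S36.N2W3
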