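/-
S36 — NValInst3.lean (helper133), package [MODEL3]: CONSUMER of the chart-route witness facts
`NValChart.Wit` (taken as a hypothesis) at level `M q q` for the coordinate of record
`J3 = j * jq * jqq` (`Chart3B.J3`).

General level (`M ∣ N`, any coordinate `t` of level `M`, any finite family `V a`):
* `dvd_of_mem_nonunits`  : the centre of `V a` on the level-`M` chart is `π R_M`
                           (`chartHom r` a nonunit of `V a` implies `π ∣ r`), if `0 < f a`;
* `inv_mem_of_not_dvd`   : `¬ π ∣ r` implies `(chartHom r)⁻¹ ∈ V a`;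
* `pi_mem_nonunits`      : `π` is a nonunit of `V a`, if `0 < e a`;
* `hxU`, `hxP`           : the separating elements of `Wit` in the shapes of
                           `Model3Leaves.loc_of_leaves`.

Level `M q q`, `t = J3` (the exact input shapes of `Model3Asm.model3` /
`Model3Leaves.model3_of_leaves`):
* `desc0_J3`   : `z ∈ ⋂ V a`, `π z ∈ chart J3` imply `z ∈ chart J3`;
* `descInf_J3` : the same for `chart J3⁻¹` (needs `J3 ∈ V a` for all `a`);
* `hT0_J3`     : every `z ∈ ⋂ V a` has a denominator `r ∈ chart J3`, `r z ∈ chart J3`, `r ≠ 0`,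
                 `r⁻¹ ∈ V a` for all `a`;
* `x1_mem_chart_J3`, `x2_mem_chart_J3`, `x3_mem_chart_J3`, `xfam_mem_chart_J3` : the explicit
                 separating elements of `Wit3` lie in `chart J3`;
* `loc_J3`     : the `loc` input of `Model3Asm.model3` for `chart J3` (fit with
                 `Model3Leaves.loc_of_leaves`).
-/
import Mathlib
import Fermat.Agent.S36.NValChart
import Fermat.Agent.S36.Chart3B
import Fermat.Agent.S36.Wit3
import Fermat.Agent.S36.Model3Leaves

set_option autoImplicit false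
set_option linter.unusedSectionVars false

noncomputable section

namespace Fermat.Agent.S36.NValInst3

open ModularCurve AlgebraicCurve HahnSeries
open Fermat.Agent.S18 Fermat.Agent.S18.Arith
open Fermat.Agent.S34

/-! ### General level -/

section General

variable {M N : ℕ} [NeZero M] [NeZero N] {h : M ∣ N}
variable {A : ValuationSubring Qb} {K : IntermediateField ℚ Qb} {t : FK M K}
variable {κ : Type*} [Fintype κ]
variable {π : OK A K} {V : κ → ValuationSubring (FK N K)} {e f : κ → ℕ}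
  {x s : κ → FK N K} {b : ∀ a, Fin (f a) → FK N K}

/-- The centre of `V a` on the level-`M` chart is `π R_M`: if the image of `r` is a nonunit of
`V a`, then `π ∣ r` (for `0 < f a`). -/
theorem dvd_of_mem_nonunits (W : NValChart.Wit M N h A t π V e f x s b) (a : κ) (hf : 0 < f a)
    (r : ↥(chart M A K t)) (hr : Red3.chartHom M N h A t r ∈ (V a).nonunits) :
    algebraMap (OK A K) ↥(chart M A K t) π ∣ r := by
  refine W.ind a (fun _ => r) ?_ ⟨0, hf⟩
  rw [ValuationSubring.mem_nonunits_iff] at hr ⊢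
  rw [← Finset.mul_sum, map_mul]
  have hsum : (V a).valuation (∑ i, b a i) ≤ 1 :=
    ((V a).valuation_le_one_iff _).mpr (Subring.sum_mem _ fun i _ => W.hb a a i)
  exact lt_of_le_of_lt (mul_le_of_le_one_right' hsum) hr

/-- An element of the level-`M` chart outside `π R_M` is a unit of every `V a` (with
`0 < f a`). -/
theorem inv_mem_of_not_dvd (W : NValChart.Wit M N h A t π V e f x s b) (a : κ) (hf : 0 < f a)
    (r : ↥(chart M A K t)) (hr : ¬ algebraMap (OK A K) ↥(chart M A K t) π ∣ r) :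
    (Red3.chartHom M N h A t r)⁻¹ ∈ V a := by
  have hnot : Red3.chartHom M N h A t r ∉ (V a).nonunits := fun hmem =>
    hr (dvd_of_mem_nonunits W a hf r hmem)
  rw [ValuationSubring.mem_nonunits_iff, not_lt] at hnot
  rw [← (V a).valuation_le_one_iff, map_inv₀]
  exact inv_le_one_of_one_le₀ hnot

/-- `π` is a nonunit of `V a` (for `0 < e a`). -/
theorem pi_mem_nonunits (W : NValChart.Wit M N h A t π V e f x s b) (a : κ) (he : 0 < e a) :
    algebraMap (OK A K) (FK N K) π ∈ (V a).nonunits := by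
  obtain ⟨y, hy, hπy⟩ := W.hπ a
  have hs := W.hs a
  rw [ValuationSubring.mem_nonunits_iff] at hs ⊢
  rw [hπy, map_mul, map_pow]
  have h1 : (V a).valuation (s a) ^ e a < 1 := pow_lt_one₀ zero_le hs he.ne'
  exact lt_of_le_of_lt (mul_le_of_le_one_right' (((V a).valuation_le_one_iff _).mpr hy)) h1

/-- The separating elements are units of their own valuation ring (shape `hxU` of
`Model3Leaves.loc_of_leaves`). -/
theorem hxU (W : NValChart.Wit M N h A t π V e f x s b) :
    ∀ a, x a ≠ 0 ∧ (x a)⁻¹ ∈ V a := fun a => ⟨W.hx_ne a, W.hx_inv a⟩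

/-- The separating elements lie in `ϖ j (V j)` for the other indices (shape `hxP` of
`Model3Leaves.loc_of_leaves`), for uniformizers `ϖ j` with `π = ϖ j ^ e' j * u`. -/
theorem hxP (W : NValChart.Wit M N h A t π V e f x s b) {e' : κ → ℕ} {ϖ : κ → FK N K}
    (hϖ : ∀ j, ϖ j ∈ V j) (he' : ∀ j, 0 < e' j)
    (hram : ∀ j, ∃ u ∈ V j, algebraMap (OK A K) (FK N K) π = ϖ j ^ e' j * u) :
    ∀ i j : κ, i ≠ j → ∃ v ∈ V j, x i = ϖ j * v := by
  intro i j hij
  obtain ⟨y, hy, hxy⟩ := W.hx' j i hij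
  obtain ⟨u, hu, hπu⟩ := hram j
  obtain ⟨k, hk⟩ : ∃ k, e' j = k + 1 := ⟨e' j - 1, by have := he' j; omega⟩
  refine ⟨ϖ j ^ k * u * y, (V j).mul_mem _ _ ((V j).mul_mem _ _ (pow_mem (hϖ j) k) hu) hy, ?_⟩
  rw [hxy, hπu, hk]
  ring

end General

/-! ### Level `M q q`, the coordinate `J3` -/

section J3

variable (M q : ℕ) [NeZero M] [NeZero q] (hq : q.Prime) (hqM : ¬ q ∣ M)
variable {A : ValuationSubring Qb} {K : IntermediateField ℚ Qb}
variable {κ : Type*} [Fintype κ]
variable {h : M ∣ M * q * q} {π : OK A K} {V : κ → ValuationSubring (FK (M * q * q) K)}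
  {e f : κ → ℕ} {x s : κ → FK (M * q * q) K} {b : ∀ a, Fin (f a) → FK (M * q * q) K}

/-- **`hdesc0`**: `z ∈ ⋂ V a`, `π z ∈ chart J3` imply `z ∈ chart J3`. -/
theorem desc0_J3 (hC : ChartFacts M A K (chart M A K (jK M K)) (jK M K))
    (hdvr : IsDiscreteValuationRing (OK A K)) (hπ : Irreducible π)
    (W : NValChart.Wit M (M * q * q) h A (jK M K) π V e f x s b) :
    ∀ z : FK (M * q * q) K, (∀ a, z ∈ V a) →
      algebraMap (OK A K) (FK (M * q * q) K) π * z
        ∈ chart (M * q * q) A K (Chart3B.J3 M q hq hqM K) →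
      z ∈ chart (M * q * q) A K (Chart3B.J3 M q hq hqM K) := by
  rw [Chart3B.chart_J3_eq]
  exact NValChart.desc0 hC hdvr hπ W

/-- **`hdescInf`**: `z ∈ ⋂ V a`, `π z ∈ chart J3⁻¹` imply `z ∈ chart J3⁻¹`. -/
theorem descInf_J3 (hC : ChartFacts M A K (chart M A K (jK M K)) (jK M K))
    (hdvr : IsDiscreteValuationRing (OK A K)) (hπ : Irreducible π)
    (W : NValChart.Wit M (M * q * q) h A (jK M K) π V e f x s b)
    (hJ : ∀ a, Chart3B.J3 M q hq hqM K ∈ V a) :
    ∀ z : FK (M * q * q) K, (∀ a, z ∈ V a) →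
      algebraMap (OK A K) (FK (M * q * q) K) π * z
        ∈ chart (M * q * q) A K (Chart3B.J3 M q hq hqM K)⁻¹ →
      z ∈ chart (M * q * q) A K (Chart3B.J3 M q hq hqM K)⁻¹ := by
  intro z hz hπz
  exact Red3.descInv_coord (M * q * q) hdvr hπ (Chart3B.J3 M q hq hqM K)
    (Chart3B.transcendental_J3 M q hq hqM A K) (⨅ a, (V a).toSubring)
    (Subring.mem_iInf.mpr hJ) (Chart3B.glue0 M q hq hqM A K) (Chart3B.glueInf M q hq hqM A K)
    (fun z' hz' hπz' =>
      desc0_J3 M q hq hqM hC hdvr hπ W z' (fun a => Subring.mem_iInf.mp hz' a) hπz')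
    z (Subring.mem_iInf.mpr hz) hπz

/-- **`hT0`**: every `z ∈ ⋂ V a` has a denominator `r ∈ chart J3` which is a unit of every
`V a` (`r` is the image of an element of the level-`M` chart outside `π R_M`). -/
theorem hT0_J3 (hC : ChartFacts M A K (chart M A K (jK M K)) (jK M K))
    (hdvr : IsDiscreteValuationRing (OK A K)) (hπ : Irreducible π)
    (W : NValChart.Wit M (M * q * q) h A (jK M K) π V e f x s b) (hf : ∀ a, 0 < f a) :
    ∀ z : FK (M * q * q) K, (∀ a, z ∈ V a) →
      ∃ r ∈ chart (M * q * q) A K (Chart3B.J3 M q hq hqM K),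
        r * z ∈ chart (M * q * q) A K (Chart3B.J3 M q hq hqM K) ∧ r ≠ 0 ∧ ∀ a, r⁻¹ ∈ V a := by
  intro z hz
  obtain ⟨r, hr, hmem⟩ := NValChart.exists_mul_mem_chart_j hC hdvr hπ W hz
  refine ⟨DegTower.incl M (M * q * q) K h (r : FK M K), ?_, ?_, ?_, ?_⟩
  · exact Chart3B.level_mem_chart_J3 M q hq hqM A K _ (DegTower.coe_incl M (M * q * q) K h) r.2
  · rw [Chart3B.chart_J3_eq]
    exact hmem
  · intro h0
    apply hr
    have h1 : (r : FK M K) = 0 :=
      (DegTower.incl M (M * q * q) K h).injective (by rw [h0, map_zero])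
    have h2 : r = 0 := Subtype.ext h1
    rw [h2]
    exact dvd_zero _
  · intro a
    exact inv_mem_of_not_dvd W a (hf a) r hr

/-! #### Fit with `Model3Leaves.loc_of_leaves` -/

/-- **`hloc`** of `Model3Asm.model3` for `chart J3`: every element of `V i` is a fraction of
elements of `chart J3` with denominator outside the vertical ideal `Pc i`. -/
theorem loc_J3 {h : M ∣ M * q * q} {π : OK A K}
    {V : Fin 3 → ValuationSubring (FK (M * q * q) K)} {e f : Fin 3 → ℕ}
    {x s : Fin 3 → FK (M * q * q) K} {b : ∀ a, Fin (f a) → FK (M * q * q) K}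
    (hC : ChartFacts M A K (chart M A K (jK M K)) (jK M K))
    (hdvr : IsDiscreteValuationRing (OK A K)) (hπ : Irreducible π)
    (W : NValChart.Wit M (M * q * q) h A (jK M K) π V e f x s b) (hf : ∀ a, 0 < f a)
    {e' : Fin 3 → ℕ} {ϖ : Fin 3 → FK (M * q * q) K}
    (val : Model3Plan.ValHyp3 (algebraMap (OK A K) (FK (M * q * q) K) π) e' ϖ V)
    (hle : ∀ i : Fin 3, ∀ y ∈ chart (M * q * q) A K (Chart3B.J3 M q hq hqM K), y ∈ V i)
    (hx : ∀ i : Fin 3, x i ∈ chart (M * q * q) A K (Chart3B.J3 M q hq hqM K)) :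
    ∀ (i : Fin 3), ∀ y ∈ V i, ∃ a c : chart (M * q * q) A K (Chart3B.J3 M q hq hqM K),
      c ∉ Model3Asm.Pc (chart (M * q * q) A K (Chart3B.J3 M q hq hqM K)) ϖ V hle i ∧
      y * algebraMap (chart (M * q * q) A K (Chart3B.J3 M q hq hqM K)) (FK (M * q * q) K) c
        = algebraMap (chart (M * q * q) A K (Chart3B.J3 M q hq hqM K)) (FK (M * q * q) K) a :=
  Model3Leaves.loc_of_leaves (chart (M * q * q) A K (Chart3B.J3 M q hq hqM K)) val hle
    (hT0_J3 M q hq hqM hC hdvr hπ W hf) x hx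
    (hxP W val.unif_mem val.e_pos fun j => by
      obtain ⟨u, hu, -, hπu⟩ := val.ram j
      exact ⟨u, hu, hπu⟩)
    (hxU W)

/-! #### The explicit separating elements -/

variable (A K)

theorem x1_mem_chart_J3 :
    Wit3.x1 M q hq hqM K ∈ chart (M * q * q) A K (Chart3B.J3 M q hq hqM K) :=
  Subalgebra.sub_mem _ (Chart3B.jqK2_mem_chart_J3 M q hq hqM A K)
    (Subalgebra.pow_mem _ (Chart3B.jqqK2_mem_chart_J3 M q hq hqM A K) q)

theorem x2_mem_chart_J3 :
    Wit3.x2 M q hq hqM K ∈ chart (M * q * q) A K (Chart3B.J3 M q hq hqM K) :=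
  Subalgebra.sub_mem _ (Chart3B.jqK2_mem_chart_J3 M q hq hqM A K)
    (Subalgebra.pow_mem _ (Chart3B.jK_mem_chart_J3 M q hq hqM A K) q)

theorem x3_mem_chart_J3 :
    Wit3.x3 M q hq hqM K ∈ chart (M * q * q) A K (Chart3B.J3 M q hq hqM K) :=
  Subalgebra.mul_mem _
    (Subalgebra.sub_mem _ (Chart3B.jqqK2_mem_chart_J3 M q hq hqM A K)
      (Subalgebra.pow_mem _ (Chart3B.jK_mem_chart_J3 M q hq hqM A K) (q ^ 2)))
    (Subalgebra.sub_mem _ (Chart3B.jK_mem_chart_J3 M q hq hqM A K)
      (Subalgebra.pow_mem _ (Chart3B.jqqK2_mem_chart_J3 M q hq hqM A K) (q ^ 2)))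

/-- The family `![x1, x2, x3]` lies in `chart J3` (shape `hx` of
`Model3Leaves.loc_of_leaves`). -/
theorem xfam_mem_chart_J3 :
    ∀ i : Fin 3, (![Wit3.x1 M q hq hqM K, Wit3.x2 M q hq hqM K, Wit3.x3 M q hq hqM K] :
      Fin 3 → FK (M * q * q) K) i ∈ chart (M * q * q) A K (Chart3B.J3 M q hq hqM K) := by
  intro i
  fin_cases i
  · exact x1_mem_chart_J3 M q hq hqM A K
  · exact x2_mem_chart_J3 M q hq hqM A K
  · exact x3_mem_chart_J3 M q hq hqM A K

end J3

end Fermat.Agent.S36.NValInst3
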