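import Mathlib
import Fermat.Agent.S36.NakMod
import Fermat.Agent.S35.ResPt
import Fermat.Agent.S18.ResOK

/-!
# S36, package [B1-nak] : the `B`-side hypotheses of `NakAsm.b1_at_W3_point`

For the maps of `S36/NakMod` (`CB` the level-`M q` chart, `CC` the level-`M q²` chart,
`φa = NakMod.phiA`), a closed point `n` of `CC` over `π`, and the two vertical primes `P 0`, `P 1`
of `CB` (an S34 chart with `LocPlan.ChartHyp π (ChartHypInst.Vfam w hdvr) P`):

* `pi_mem`         (`hπF`, `hπV`)  `π ∈ P i`;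
* `inf_le_span`    (`hinf`)        `P 0 ⊓ P 1 ≤ (π)`;
* `isPrime_P0`, `isPrime_P1`       the vertical primes are prime (`hPV`);
* `res_comap`      (`hres`)        every element of `CB` is congruent to a constant of `O` modulo
                                   `φa⁻¹ n` (from `S35/ResPt.res_chart` at level `M q²`);
* `pi_mem_comap`, `comap_ne_top`   `π ∈ φa⁻¹ n`, `φa⁻¹ n ≠ ⊤`.
-/

set_option autoImplicit false

noncomputable section

namespace Fermat.Agent.S36.NakBSide

open ModularCurve HahnSeries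
open Fermat.Agent.S18 Fermat.Agent.S18.Arith Fermat.Agent.S18.ModelPlan
open Fermat.Agent.S34

/-! ### Generic facts from `LocPlan.ChartHyp` -/

section Gen

variable {O : Type*} [CommRing O] {R : Type*} [CommRing R] [Algebra O R]
  {E : Type*} [Field E] [Algebra R E] {π : O} {V : Fin 2 → ValuationSubring E}
  {P : Fin 2 → Ideal R}

/-- **(`hπF`, `hπV`)** `π ∈ P i`. -/
theorem pi_mem (hyp : LocPlan.ChartHyp π V P) (i : Fin 2) : algebraMap O R π ∈ P i :=
  (hyp.mem_P i _).mpr ⟨1, (V i).one_mem, (mul_one _).symm⟩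

/-- **(`hinf`)** `P 0 ⊓ P 1 ≤ (π)`. -/
theorem inf_le_span (hyp : LocPlan.ChartHyp π V P) :
    P 0 ⊓ P 1 ≤ Ideal.span {algebraMap O R π} := by
  intro r hr
  obtain ⟨r', hr'⟩ := hyp.red r (fun i => by
    fin_cases i
    · exact hr.1
    · exact hr.2)
  rw [hr']
  exact Ideal.mul_mem_right _ _ (Ideal.subset_span (Set.mem_singleton _))

end Gen

/-! ### The vertical primes of an S34 chart are prime -/

section Prime

variable {A : ValuationSubring Qb} {K : IntermediateField ℚ Qb}
variable {N : ℕ} [NeZero N] (hdvr : IsDiscreteValuationRing (OK A K)) {π : OK A K}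
  (hπ : Irreducible π) (w : FK N K ≃+* FK N K) (R : Subalgebra (OK A K) (FK N K))
  (P : Fin 2 → Ideal R)

include hπ in
/-- `P 0` is a prime ideal. -/
theorem isPrime_P0 (hyp : LocPlan.ChartHyp π (ChartHypInst.Vfam w hdvr) P) : (P 0).IsPrime := by
  have hG := GRel.gRelStatement A
  have hmem := NakMod.mem_P0_iff_gRel hdvr hπ w R P hyp
  have hint : ∀ r : R, ∃ y, GRel A ((r : FK N K) : LaurentSeries Qb) y := fun r =>
    (GaussV.mem_V1_iff hdvr).mp (hyp.le 0 r)
  refine ⟨?_, ?_⟩
  · intro htop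
    have h1 : (1 : R) ∈ P 0 := by rw [htop]; exact Submodule.mem_top
    rw [hmem] at h1
    have h2 := hG.unique _ _ _ (ModelRed.gRel_one hG) h1
    exact one_ne_zero h2
  · intro x y hxy
    rw [hmem] at hxy
    obtain ⟨a, ha⟩ := hint x
    obtain ⟨b, hb⟩ := hint y
    have h3 := hG.unique _ _ _ (hG.mul _ _ _ _ ha hb) hxy
    rcases mul_eq_zero.mp h3 with h0 | h0
    · left
      rw [hmem]
      rw [h0] at ha
      exact ha
    · right
      rw [hmem]
      rw [h0] at hb
      exact hb

include hπ in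
/-- `P 1` is a prime ideal. -/
theorem isPrime_P1
    (hw : ∀ c : OK A K, w (algebraMap (OK A K) (FK N K) c) = algebraMap (OK A K) (FK N K) c)
    (hyp : LocPlan.ChartHyp π (ChartHypInst.Vfam w hdvr) P) : (P 1).IsPrime := by
  have hG := GRel.gRelStatement A
  have hmem := NakMod.mem_P1_iff_gRel hdvr hπ w R P hw hyp
  have hint : ∀ r : R, ∃ y, GRel A ((w (r : FK N K) : FK N K) : LaurentSeries Qb) y := fun r =>
    (GaussV.mem_V1_iff hdvr).mp (hyp.le 1 r)
  refine ⟨?_, ?_⟩
  · intro htop
    have h1 : (1 : R) ∈ P 1 := by rw [htop]; exact Submodule.mem_top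
    rw [hmem] at h1
    have h1' : GRel A (1 : LaurentSeries Qb) 0 := by
      have e : ((w ((1 : R) : FK N K) : FK N K) : LaurentSeries Qb) = 1 := by
        rw [Subalgebra.coe_one, map_one]
        rfl
      rw [e] at h1
      exact h1
    have h2 := hG.unique _ _ _ (ModelRed.gRel_one hG) h1'
    exact one_ne_zero h2
  · intro x y hxy
    rw [hmem] at hxy
    obtain ⟨a, ha⟩ := hint x
    obtain ⟨b, hb⟩ := hint y
    have hxy' : GRel A (((w (x : FK N K) : FK N K) : LaurentSeries Qb)
        * ((w (y : FK N K) : FK N K) : LaurentSeries Qb)) 0 := by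
      have e : ((w ((x * y : R) : FK N K) : FK N K) : LaurentSeries Qb)
          = ((w (x : FK N K) : FK N K) : LaurentSeries Qb)
            * ((w (y : FK N K) : FK N K) : LaurentSeries Qb) := by
        rw [Subalgebra.coe_mul, map_mul]
        rfl
      rw [e] at hxy
      exact hxy
    have h3 := hG.unique _ _ _ (hG.mul _ _ _ _ ha hb) hxy'
    rcases mul_eq_zero.mp h3 with h0 | h0
    · left
      rw [hmem]
      rw [h0] at ha
      exact ha
    · right
      rw [hmem]
      rw [h0] at hb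
      exact hb

end Prime

/-! ### The point `φa⁻¹ n` of `CB` -/

section Point

variable (M q : ℕ) [NeZero M] [NeZero q] (hq : q.Prime) (hqM : ¬ q ∣ M)
variable {A : ValuationSubring Qb} {K : IntermediateField ℚ Qb}
variable (CB : Subalgebra (OK A K) (FK (M * q) K))
  (hCB : CB = chart (M * q) A K (jK (M * q) K))
  (CC : Subalgebra (OK A K) (FK (M * q * q) K))
  (hCC : CC = chart (M * q * q) A K (jK (M * q * q) K))

/-- Closed points of the special fibre of `CC` are `O`-rational. -/
theorem res_CC [Fact q.Prime] (hB : BaseFacts q A K) (π : OK A K) (hπ : Irreducible π)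
    (hCC : CC = chart (M * q * q) A K (jK (M * q * q) K))
    (n : Ideal CC) (hn : n.IsMaximal) (hπn : algebraMap (OK A K) CC π ∈ n) (x : CC) :
    ∃ c : OK A K, x - algebraMap (OK A K) CC c ∈ n := by
  subst hCC
  have := hB.dvr
  have := ResOK.isAlgClosed_residueField_OK q A K hB
  exact S35.ResPt.res_chart (M * q * q) A K (jK (M * q * q) K) π hπ n hn hπn x

/-- **(`hres`)** every element of `CB` is congruent to a constant of `O` modulo `φa⁻¹ n`. -/
theorem res_comap [Fact q.Prime] (hB : BaseFacts q A K) (π : OK A K) (hπ : Irreducible π)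
    (n : Ideal CC) (hn : n.IsMaximal) (hπn : algebraMap (OK A K) CC π ∈ n) (r : CB) :
    ∃ c : OK A K, r - algebraMap (OK A K) CB c
      ∈ Ideal.comap (NakMod.phiA M q hq hqM CB hCB CC hCC : CB →+* CC) n := by
  obtain ⟨c, hc⟩ := res_CC M q CC hB π hπ hCC n hn hπn (NakMod.phiA M q hq hqM CB hCB CC hCC r)
  refine ⟨c, ?_⟩
  rw [Ideal.mem_comap]
  have e : (NakMod.phiA M q hq hqM CB hCB CC hCC : CB →+* CC) (r - algebraMap (OK A K) CB c)
      = NakMod.phiA M q hq hqM CB hCB CC hCC r - algebraMap (OK A K) CC c := by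
    rw [map_sub]
    congr 1
    exact AlgHom.commutes (NakMod.phiA M q hq hqM CB hCB CC hCC) c
  rw [e]
  exact hc

/-- `π ∈ φa⁻¹ n`. -/
theorem pi_mem_comap (π : OK A K) (n : Ideal CC) (hπn : algebraMap (OK A K) CC π ∈ n) :
    algebraMap (OK A K) CB π
      ∈ Ideal.comap (NakMod.phiA M q hq hqM CB hCB CC hCC : CB →+* CC) n := by
  rw [Ideal.mem_comap]
  have e : (NakMod.phiA M q hq hqM CB hCB CC hCC : CB →+* CC) (algebraMap (OK A K) CB π)
      = algebraMap (OK A K) CC π := AlgHom.commutes (NakMod.phiA M q hq hqM CB hCB CC hCC) π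
  rw [e]
  exact hπn

/-- `φa⁻¹ n ≠ ⊤`. -/
theorem comap_ne_top (n : Ideal CC) (hn : n.IsMaximal) :
    Ideal.comap (NakMod.phiA M q hq hqM CB hCB CC hCC : CB →+* CC) n ≠ ⊤ :=
  haveI := hn.isPrime
  (Ideal.comap_isPrime (NakMod.phiA M q hq hqM CB hCB CC hCC : CB →+* CC) n).ne_top

end Point

end Fermat.Agent.S36.NakBSide
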