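import Mathlib
import Fermat.Agent.S36.NakBSide

/-!
# S36, package [B1-nak] : the point `φa⁻¹ n` of the level-`M q` chart is a closed point

`NakNodeJ.node_data_JK` (and S34 `branch`/`trans`) are stated at MAXIMAL ideals of the level-`M q`
chart.  The pull-back `φa⁻¹ n` of a closed point `n ∋ π` of the level-`M q²` chart is maximal,
because it is `O`-rational (`NakBSide.res_comap`):

* `isMaximal_of_res`  (abstract) a prime ideal `I ∋ π` of an `O`-algebra `B` (`O` a discrete
  valuation ring with uniformizer `π`) such that every element of `B` is congruent to a constant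
  modulo `I` is maximal;
* `comap_isMaximal`   the instance for `I = Ideal.comap (NakMod.phiA …) n`;
* `comap_le_iff`-free helpers in the kernel-safe form (`Ideal.mem_comap`, never by defeq across
  the two levels): `le_comap_of_mem_iff` (`PV ≤ φa⁻¹ n` from `hVa` and `P 2 ≤ n`).
-/

set_option autoImplicit false

noncomputable section

namespace Fermat.Agent.S36.NakBMax

open Fermat.Agent.S18 Fermat.Agent.S18.Arith Fermat.Agent.S34

/-- A proper ideal `I ∋ π` of an algebra over a discrete valuation ring with uniformizer `π`,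
modulo which every element is congruent to a constant, is maximal. -/
theorem isMaximal_of_res {O B : Type*} [CommRing O] [IsDomain O] [IsDiscreteValuationRing O]
    [CommRing B] [Algebra O B] {π : O} (hπ : Irreducible π) (I : Ideal B) (hI : I ≠ ⊤)
    (hπI : algebraMap O B π ∈ I) (hres : ∀ r : B, ∃ c : O, r - algebraMap O B c ∈ I) :
    I.IsMaximal := by
  rw [Ideal.isMaximal_iff]
  refine ⟨fun h1 => hI ((Ideal.eq_top_iff_one I).mpr h1), ?_⟩
  intro J x hIJ hxI hxJ
  obtain ⟨c, hc⟩ := hres x
  have hcu : IsUnit c := by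
    by_contra hnu
    have h1 : c ∈ IsLocalRing.maximalIdeal O := (IsLocalRing.mem_maximalIdeal c).mpr hnu
    rw [(IsDiscreteValuationRing.irreducible_iff_uniformizer π).mp hπ] at h1
    obtain ⟨d, hd⟩ := Ideal.mem_span_singleton'.mp h1
    apply hxI
    have h2 : algebraMap O B c ∈ I := by
      rw [← hd, map_mul]
      exact I.mul_mem_left _ hπI
    have h3 : x = (x - algebraMap O B c) + algebraMap O B c := by ring
    rw [h3]
    exact I.add_mem hc h2
  have h4 : algebraMap O B c ∈ J := by
    have h5 : algebraMap O B c = x - (x - algebraMap O B c) := by ring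
    rw [h5]
    exact J.sub_mem hxJ (hIJ hc)
  obtain ⟨d, hd⟩ := hcu.exists_right_inv
  have h6 : (1 : B) = algebraMap O B c * algebraMap O B d := by
    rw [← map_mul, hd, map_one]
  rw [h6]
  exact J.mul_mem_right _ h4

variable (M q : ℕ) [NeZero M] [NeZero q] (hq : q.Prime) (hqM : ¬ q ∣ M)
variable {A : ValuationSubring Qb} {K : IntermediateField ℚ Qb}
variable (CB : Subalgebra (OK A K) (FK (M * q) K))
  (hCB : CB = chart (M * q) A K (jK (M * q) K))
  (CC : Subalgebra (OK A K) (FK (M * q * q) K))
  (hCC : CC = chart (M * q * q) A K (jK (M * q * q) K))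

/-- The pull-back along `φa` of a closed point `n ∋ π` of `CC` is a closed point of `CB`. -/
theorem comap_isMaximal [Fact q.Prime] (hB : BaseFacts q A K) (π : OK A K) (hπ : Irreducible π)
    (n : Ideal CC) (hn : n.IsMaximal) (hπn : algebraMap (OK A K) CC π ∈ n) :
    (Ideal.comap (NakMod.phiA M q hq hqM CB hCB CC hCC : CB →+* CC) n).IsMaximal := by
  have := hB.dvr
  exact isMaximal_of_res hπ _ (NakBSide.comap_ne_top M q hq hqM CB hCB CC hCC n hn)
    (NakBSide.pi_mem_comap M q hq hqM CB hCB CC hCC π n hπn)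
    (NakBSide.res_comap M q hq hqM CB hCB CC hCC hB π hπ n hn hπn)

/-- `PV ≤ φa⁻¹ n` from `φa r ∈ P ↔ r ∈ PV` and `P ≤ n` (kernel-safe form). -/
theorem le_comap_of_mem_iff (P n : Ideal CC) (PV : Ideal CB)
    (hVa : ∀ r : CB, NakMod.phiA M q hq hqM CB hCB CC hCC r ∈ P ↔ r ∈ PV) (hPn : P ≤ n) :
    PV ≤ Ideal.comap (NakMod.phiA M q hq hqM CB hCB CC hCC : CB →+* CC) n := by
  intro r hr
  rw [Ideal.mem_comap]
  exact hPn ((hVa r).mpr hr)

/-- `x ∈ φa⁻¹ n ↔ φa x ∈ n` (kernel-safe form of `Ideal.mem_comap` for the `AlgHom` `φa`). -/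
theorem mem_comap_iff (n : Ideal CC) (r : CB) :
    r ∈ Ideal.comap (NakMod.phiA M q hq hqM CB hCB CC hCC : CB →+* CC) n
      ↔ NakMod.phiA M q hq hqM CB hCB CC hCC r ∈ n := by
  rw [Ideal.mem_comap]
  rfl

end Fermat.Agent.S36.NakBMax
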