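/-
S36 — NakBase.lean (helper16), block [B1-nak], row R2 of helper92's table #3395: the BASE inputs of
the closed top `NakTopB.b1_W3` / `NakTopB.princ_W3` (and of `NakUnramEll.unram`) from the base of
record of `Model3Top.model3` / `EtaB1Inst` (`hq : q.Prime`, `hqM`, `hA : A.LiesOverPrime q`,
`hB : BaseFacts q A K`, `hπ : Irreducible π`) and the auxiliary level hypothesis
`Plan.AuxHyp q M`.

Shape check: `hA`, `hB`, `π`, `hπ` are LITERALLY the binders of `Model3Top.model3`; `hπ0` is proved
inside `NakTopB.b1_W3`; `[Fact q.Prime]` is `⟨hq⟩`.  The only base input that is not a binder of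
record is `hM : 4 ∣ M ∨ 9 ∣ M` (no elliptic points), needed by `NakUnramEll.unram`; it comes from
`Plan.AuxHyp q M`.

* `fact_prime`  : `Fact q.Prime` from `hq`;
* `hM_of_aux`   : `Plan.AuxHyp q M → 4 ∣ M ∨ 9 ∣ M`;
* `rings_CA`, `rings_CB` : the ring-theoretic instances of the level-`M` chart `chart M A K j` and
  of the level-`M q` chart `chart (M q) A K J` as one conjunction each;
* `hU`          : **the binder `hU` of `NakTopB.b1_W3` / `NakTopB.princ_W3` VERBATIM** (every
  horizontal prime of the level-`M q` chart is unramified over the level-`M` chart along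
  `NakMod.iota`), from `hM` and `hdvr`, by `NakUnramEll.unram`;
* `hU_aux`      : the same from `Plan.AuxHyp q M` and `hB : BaseFacts q A K`;
* `j0`, `coe_j0`: the element `j` of the level-`M` chart (binder `j` of `NakTopB.b1_W3`).
-/
import Mathlib
import Fermat.Agent.S36.Plan
import Fermat.Agent.S36.NakMod
import Fermat.Agent.S36.NakUnramEll
import Fermat.Agent.S34.ChartRing
import Fermat.Agent.S34.ChartRingInv
import Fermat.Agent.S34.ChartJ
import Fermat.Agent.S34.WKInst

set_option autoImplicit false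

noncomputable section

namespace Fermat.Agent.S36.NakBase

open ModularCurve HahnSeries
open Fermat.Agent.S18 Fermat.Agent.S18.Arith Fermat.Agent.S18.ModelPlan
open Fermat.Agent.S34

/-- `Fact q.Prime` from `hq`. -/
theorem fact_prime {q : ℕ} (hq : q.Prime) : Fact q.Prime := ⟨hq⟩

/-- The auxiliary level hypothesis gives "no elliptic points": `4 ∣ M ∨ 9 ∣ M`. -/
theorem hM_of_aux {q M : ℕ} (haux : Plan.AuxHyp q M) : 4 ∣ M ∨ 9 ∣ M := by
  by_cases h : q = 2
  · exact Or.inr (haux.2 h)
  · exact Or.inl (haux.1 h)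

variable (M q : ℕ) [NeZero M] [NeZero q] (hq : q.Prime) (hqM : ¬ q ∣ M)
variable {A : ValuationSubring Qb} {K : IntermediateField ℚ Qb}

/-- The ring-theoretic properties of the level-`M` chart `CA = chart M A K j`. -/
theorem rings_CA (hdvr : IsDiscreteValuationRing (OK A K)) :
    IsNoetherianRing (chart M A K (jK M K)) ∧
      IsFractionRing (chart M A K (jK M K)) (FK M K) ∧
      IsIntegrallyClosed (chart M A K (jK M K)) := by
  obtain ⟨h1, h2, h3⟩ := ChartRing.all_of_isAlgebraic M A K hdvr (jK M K)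
    (Fermat.Agent.S18.ModelFin.transcendental_jK M A K)
    (Fermat.Agent.S18.ModelBasicCore.isAlgebraic_FK M A K)
  exact ⟨h3, h1, h2⟩

/-- The ring-theoretic properties of the level-`M q` chart `CB = chart (M q) A K J`. -/
theorem rings_CB (hdvr : IsDiscreteValuationRing (OK A K)) :
    IsNoetherianRing (chart (M * q) A K (WKInst.JK M q hq hqM K)) ∧
      IsFractionRing (chart (M * q) A K (WKInst.JK M q hq hqM K)) (FK (M * q) K) ∧
      IsIntegrallyClosed (chart (M * q) A K (WKInst.JK M q hq hqM K)) :=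
  (ChartRingInv.pair_of_isAlgebraic (M * q) A K hdvr (WKInst.JK_ne_zero M q hq hqM K)
    (ChartJ.transcendental_symJ (M * q) A K (WK.isIntegral_jK M q hq hqM A K))
    (ChartJ.isAlgebraic_symJ (M * q) A K (WK.isIntegral_jK M q hq hqM A K))).1

/-- **The binder `hU` of `NakTopB.b1_W3` / `NakTopB.princ_W3`, verbatim** ((U_K), [N8]): for
`4 ∣ M ∨ 9 ∣ M`, every horizontal prime `𝔮B` of the level-`M q` chart `CB = chart (M q) A K J` is
unramified over the level-`M` chart `CA = chart M A K j` along `ι = NakMod.iota` (`= α`). -/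
theorem hU (hM : 4 ∣ M ∨ 9 ∣ M) (hdvr : IsDiscreteValuationRing (OK A K)) :
    ∀ 𝔮B : Ideal (chart (M * q) A K (WKInst.JK M q hq hqM K)), 𝔮B.IsPrime →
      (∀ c : OK A K,
        algebraMap (OK A K) (chart (M * q) A K (WKInst.JK M q hq hqM K)) c ∈ 𝔮B → c = 0) →
      ∀ r ∈ 𝔮B, ∃ s : chart (M * q) A K (WKInst.JK M q hq hqM K), s ∉ 𝔮B ∧
        s * r ∈ Ideal.map
          (NakMod.iota M q (chart (M * q) A K (WKInst.JK M q hq hqM K))
            (WKInst.chart_JK_eq M q hq hqM A K) :
            chart M A K (jK M K) →+* chart (M * q) A K (WKInst.JK M q hq hqM K))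
          (Ideal.comap
            (NakMod.iota M q (chart (M * q) A K (WKInst.JK M q hq hqM K))
              (WKInst.chart_JK_eq M q hq hqM A K) :
              chart M A K (jK M K) →+* chart (M * q) A K (WKInst.JK M q hq hqM K)) 𝔮B) := by
  intro 𝔮B h𝔮 hhor
  obtain ⟨hA1, hA2, hA3⟩ := rings_CA M (A := A) (K := K) hdvr
  obtain ⟨hB1, hB2, hB3⟩ := rings_CB M q hq hqM (A := A) (K := K) hdvr
  exact NakUnramEll.unram M q A K hM hdvr
    (chart (M * q) A K (WKInst.JK M q hq hqM K)) (chart M A K (jK M K))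
    (ChartJ.self_mem_chart M A K (jK M K))
    (NakMod.iota M q (chart (M * q) A K (WKInst.JK M q hq hqM K))
      (WKInst.chart_JK_eq M q hq hqM A K) :
      chart M A K (jK M K) →+* chart (M * q) A K (WKInst.JK M q hq hqM K))
    (fun y => NakMod.coe_iota M q _ (WKInst.chart_JK_eq M q hq hqM A K) y) 𝔮B h𝔮 hhor

/-- The binder `hU` of `NakTopB.b1_W3` / `NakTopB.princ_W3` from the base of record and the
auxiliary level hypothesis. -/
theorem hU_aux (haux : Plan.AuxHyp q M) (hB : BaseFacts q A K) :
    ∀ 𝔮B : Ideal (chart (M * q) A K (WKInst.JK M q hq hqM K)), 𝔮B.IsPrime →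
      (∀ c : OK A K,
        algebraMap (OK A K) (chart (M * q) A K (WKInst.JK M q hq hqM K)) c ∈ 𝔮B → c = 0) →
      ∀ r ∈ 𝔮B, ∃ s : chart (M * q) A K (WKInst.JK M q hq hqM K), s ∉ 𝔮B ∧
        s * r ∈ Ideal.map
          (NakMod.iota M q (chart (M * q) A K (WKInst.JK M q hq hqM K))
            (WKInst.chart_JK_eq M q hq hqM A K) :
            chart M A K (jK M K) →+* chart (M * q) A K (WKInst.JK M q hq hqM K))
          (Ideal.comap
            (NakMod.iota M q (chart (M * q) A K (WKInst.JK M q hq hqM K))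
              (WKInst.chart_JK_eq M q hq hqM A K) :
              chart M A K (jK M K) →+* chart (M * q) A K (WKInst.JK M q hq hqM K)) 𝔮B) :=
  hU M q hq hqM (hM_of_aux haux) hB.dvr

/-- The element `j` of the level-`M` chart (the binder `j` of `NakTopB.b1_W3`). -/
def j0 (A : ValuationSubring Qb) (K : IntermediateField ℚ Qb) : chart M A K (jK M K) :=
  ⟨jK M K, ChartJ.self_mem_chart M A K (jK M K)⟩

theorem coe_j0 : ((j0 M A K : chart M A K (jK M K)) : FK M K) = jK M K := rfl

end Fermat.Agent.S36.NakBase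

end
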