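/-
S36 — NakBr.lean (helper61), package [B1-nak], row R1 of the closing table: the binder **`hbr`**
of `NakTopB.b1_W3` / `NakTopB.princ_W3` / `NakCC.princ_W3_J3` ("the branch `CC / P 2` is regular
of dimension one at `n`") on the chart of record `chart (M q²) A K J3`, in the EXACT shape

    ∀ n, n.IsMaximal → algebraMap (OK A K) CC π ∈ n → P 2 ≤ n →
      ∃ u ∈ n, ∀ x ∈ n, ∃ s, s ∉ n ∧ ∃ c, s * x - c * u ∈ P 2.

* `hbr_of_branch`      : abstract — the `i = 2` part of a `branch` statement;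
* `hbr_of_chartModel3` : from a `Model3Plan.ChartModel3`;
* `hbr_J3`             : chart `J3`, families of record, ANY `P` with `ChartHyp3`;
* `hbr_J3_Pc`          : the same for `P := Model3Asm.Pc … (Model3Top.le0 H hB.dvr)`;
* `hbr_J3_closed`      : the same with `ChartHyp3` discharged (`Model3Top.loc`, `desc0`);
* `hbr_J3_inv`         : chart `J3⁻¹`, ANY `P` with `ChartHyp3`.

Source: `Level3J3B.branch3_J3(_inv)` with `ResDeg3Inst.hf1`, `hf3'` (as in `Model3Top.model3`).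
-/
import Mathlib
import Fermat.Agent.S36.Model3Top

set_option autoImplicit false
set_option linter.unusedSectionVars false
set_option linter.style.haveILetI false

noncomputable section

namespace Fermat.Agent.S36.NakBr

open ModularCurve ModularCurve.IgusaScheme AlgebraicCurve HahnSeries
open Fermat.Agent.S18 Fermat.Agent.S18.Arith Fermat.Agent.S18.ModelPlan
open Fermat.Agent.S34 Fermat.Agent.S36.Model3Plan

/-- The `i = 2` part of a `branch` statement, in the shape of the binder `hbr`. -/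
theorem hbr_of_branch {R : Type*} [CommRing R] {P : Fin 3 → Ideal R} {p : R}
    (hbranch : ∀ n : Ideal R, n.IsMaximal → p ∈ n → ∀ i : Fin 3, P i ≤ n →
      (∃ x ∈ n, x ∉ P i) ∧
        ∃ u ∈ n, ∀ x ∈ n, ∃ s : R, s ∉ n ∧ ∃ c : R, s * x - c * u ∈ P i) :
    ∀ n : Ideal R, n.IsMaximal → p ∈ n → P 2 ≤ n →
      ∃ u ∈ n, ∀ x ∈ n, ∃ s : R, s ∉ n ∧ ∃ c : R, s * x - c * u ∈ P 2 :=
  fun n hn hp h2 => (hbranch n hn hp 2 h2).2

/-- `hbr` from a chart model. -/
theorem hbr_of_chartModel3 {N : ℕ} [NeZero N] {A : ValuationSubring Qb}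
    {K : IntermediateField ℚ Qb} {π : OK A K} {ϖ : Fin 3 → FK N K}
    {V : Fin 3 → ValuationSubring (FK N K)} {R : Subalgebra (OK A K) (FK N K)}
    (c : ChartModel3 N A K π ϖ V R) :
    ∀ n : Ideal R, n.IsMaximal → algebraMap (OK A K) R π ∈ n → c.P 2 ≤ n →
      ∃ u ∈ n, ∀ x ∈ n, ∃ s : R, s ∉ n ∧ ∃ c' : R, s * x - c' * u ∈ c.P 2 :=
  hbr_of_branch c.branch

variable {M q : ℕ} [NeZero M] [NeZero q] {hq : q.Prime} {hqM : ¬ q ∣ M}
variable {A : ValuationSubring Qb} {K K' : IntermediateField ℚ Qb}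
variable {ξ : Qb} {hξ0 : ξ ≠ 0} {ι : FK (M * q * q) K →+* LaurentSeries Qb} {ϖ : OK A K'}
variable (H : V3.Hyp3 M q hq hqM A K K' ξ hξ0 ι ϖ)

/-- **`hbr` on `chart J3`**, families of record, any `P` with `ChartHyp3`. -/
theorem hbr_J3 (hA : A.LiesOverPrime q) (hB : BaseFacts q A K)
    {π : OK A K} (hπ : Irreducible π) (a : A) (hqa : (q : Qb) = incO A K π * (a : Qb))
    (hπϖ : ∃ u : A, IsUnit u ∧ incO A K π = incO A K' ϖ ^ (q - 1) * (u : Qb))
    (P : Fin 3 → Ideal (chart (M * q * q) A K (Chart3B.J3 M q hq hqM K)))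
    (hyp : ChartHyp3 π
      ![algebraMap (OK A K) (FK (M * q * q) K) π, algebraMap (OK A K) (FK (M * q * q) K) π,
        Wit3.sE M q hq hqM K]
      ![GaussV.V1 (M * q * q) A K hB.dvr, GaussV.V2 (WQ2.wK2 M q hq hqM K) hB.dvr, H.W3] P) :
    ∀ n : Ideal (chart (M * q * q) A K (Chart3B.J3 M q hq hqM K)), n.IsMaximal →
      algebraMap (OK A K) (chart (M * q * q) A K (Chart3B.J3 M q hq hqM K)) π ∈ n → P 2 ≤ n →
      ∃ u ∈ n, ∀ x ∈ n, ∃ s : chart (M * q * q) A K (Chart3B.J3 M q hq hqM K), s ∉ n ∧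
        ∃ c : chart (M * q * q) A K (Chart3B.J3 M q hq hqM K), s * x - c * u ∈ P 2 := by
  haveI : Fact q.Prime := ⟨hq⟩
  have hC : ChartFacts M A K (chart M A K (jK M K)) (jK M K) :=
    Red2B.chartFacts M q hq hqM A K hA hB
  have hW := Model3Top.wit H hB.dvr hA hC hπ a hqa hπϖ
  have hf1 := ResDeg3Inst.hf1 M q hB.dvr hπ hC hW
  have hf3 := ResDeg3Inst.hf3' M q hq hB.dvr hπ hC H.mid.alpha (V3Wit.hW3 H) hW
  exact hbr_of_branch
    (Level3J3B.branch3_J3 M q hq hqM hA hB π hπ H.emb H.dvr' H.irr H.unif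
      H.mid.alpha (Model3Top.gRel_s H) hf1 hf3 P hyp)

/-- **`hbr` on `chart J3`** for the vertical ideals of record `Model3Asm.Pc`. -/
theorem hbr_J3_Pc (hA : A.LiesOverPrime q) (hB : BaseFacts q A K)
    {π : OK A K} (hπ : Irreducible π) (a : A) (hqa : (q : Qb) = incO A K π * (a : Qb))
    (hπϖ : ∃ u : A, IsUnit u ∧ incO A K π = incO A K' ϖ ^ (q - 1) * (u : Qb))
    (hyp : ChartHyp3 π
      ![algebraMap (OK A K) (FK (M * q * q) K) π, algebraMap (OK A K) (FK (M * q * q) K) π,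
        Wit3.sE M q hq hqM K]
      ![GaussV.V1 (M * q * q) A K hB.dvr, GaussV.V2 (WQ2.wK2 M q hq hqM K) hB.dvr, H.W3]
      (Model3Asm.Pc (chart (M * q * q) A K (Chart3B.J3 M q hq hqM K))
        ![algebraMap (OK A K) (FK (M * q * q) K) π,
          algebraMap (OK A K) (FK (M * q * q) K) π, Wit3.sE M q hq hqM K]
        ![GaussV.V1 (M * q * q) A K hB.dvr, GaussV.V2 (WQ2.wK2 M q hq hqM K) hB.dvr, H.W3]
        (Model3Top.le0 H hB.dvr))) :
    ∀ n : Ideal (chart (M * q * q) A K (Chart3B.J3 M q hq hqM K)), n.IsMaximal →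
      algebraMap (OK A K) (chart (M * q * q) A K (Chart3B.J3 M q hq hqM K)) π ∈ n →
      Model3Asm.Pc (chart (M * q * q) A K (Chart3B.J3 M q hq hqM K))
        ![algebraMap (OK A K) (FK (M * q * q) K) π,
          algebraMap (OK A K) (FK (M * q * q) K) π, Wit3.sE M q hq hqM K]
        ![GaussV.V1 (M * q * q) A K hB.dvr, GaussV.V2 (WQ2.wK2 M q hq hqM K) hB.dvr, H.W3]
        (Model3Top.le0 H hB.dvr) 2 ≤ n →
      ∃ u ∈ n, ∀ x ∈ n, ∃ s : chart (M * q * q) A K (Chart3B.J3 M q hq hqM K), s ∉ n ∧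
        ∃ c : chart (M * q * q) A K (Chart3B.J3 M q hq hqM K), s * x - c * u ∈
          Model3Asm.Pc (chart (M * q * q) A K (Chart3B.J3 M q hq hqM K))
            ![algebraMap (OK A K) (FK (M * q * q) K) π,
              algebraMap (OK A K) (FK (M * q * q) K) π, Wit3.sE M q hq hqM K]
            ![GaussV.V1 (M * q * q) A K hB.dvr, GaussV.V2 (WQ2.wK2 M q hq hqM K) hB.dvr, H.W3]
            (Model3Top.le0 H hB.dvr) 2 :=
  hbr_J3 H hA hB hπ a hqa hπϖ _ hyp

/-- `ChartHyp3` of `chart J3` for the objects of record (`Model3Top.loc`, `Model3Top.desc0`). -/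
theorem chartHyp3_J3 (hA : A.LiesOverPrime q) (hB : BaseFacts q A K)
    {π : OK A K} (hπ : Irreducible π) (a : A) (hqa : (q : Qb) = incO A K π * (a : Qb))
    (hπϖ : ∃ u : A, IsUnit u ∧ incO A K π = incO A K' ϖ ^ (q - 1) * (u : Qb)) :
    ChartHyp3 π
      ![algebraMap (OK A K) (FK (M * q * q) K) π, algebraMap (OK A K) (FK (M * q * q) K) π,
        Wit3.sE M q hq hqM K]
      ![GaussV.V1 (M * q * q) A K hB.dvr, GaussV.V2 (WQ2.wK2 M q hq hqM K) hB.dvr, H.W3]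
      (Model3Asm.Pc (chart (M * q * q) A K (Chart3B.J3 M q hq hqM K))
        ![algebraMap (OK A K) (FK (M * q * q) K) π,
          algebraMap (OK A K) (FK (M * q * q) K) π, Wit3.sE M q hq hqM K]
        ![GaussV.V1 (M * q * q) A K hB.dvr, GaussV.V2 (WQ2.wK2 M q hq hqM K) hB.dvr, H.W3]
        (Model3Top.le0 H hB.dvr)) := by
  haveI : Fact q.Prime := ⟨hq⟩
  have hC : ChartFacts M A K (chart M A K (jK M K)) (jK M K) :=
    Red2B.chartFacts M q hq hqM A K hA hB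
  exact Model3Asm.chartHyp3 _ π _ _ (Model3Top.le0 H hB.dvr)
    (GaussV.algebraMap_ne_zero (M * q * q) A K hπ.ne_zero)
    (Model3Top.loc H hB.dvr hA hC hπ a hqa hπϖ) (Model3Top.desc0 H hB.dvr hA hC hπ a hqa hπϖ)

/-- **`hbr` on `chart J3`, closed** (vertical ideals of record, no `ChartHyp3` hypothesis). -/
theorem hbr_J3_closed (hA : A.LiesOverPrime q) (hB : BaseFacts q A K)
    {π : OK A K} (hπ : Irreducible π) (a : A) (hqa : (q : Qb) = incO A K π * (a : Qb))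
    (hπϖ : ∃ u : A, IsUnit u ∧ incO A K π = incO A K' ϖ ^ (q - 1) * (u : Qb)) :
    ∀ n : Ideal (chart (M * q * q) A K (Chart3B.J3 M q hq hqM K)), n.IsMaximal →
      algebraMap (OK A K) (chart (M * q * q) A K (Chart3B.J3 M q hq hqM K)) π ∈ n →
      Model3Asm.Pc (chart (M * q * q) A K (Chart3B.J3 M q hq hqM K))
        ![algebraMap (OK A K) (FK (M * q * q) K) π,
          algebraMap (OK A K) (FK (M * q * q) K) π, Wit3.sE M q hq hqM K]
        ![GaussV.V1 (M * q * q) A K hB.dvr, GaussV.V2 (WQ2.wK2 M q hq hqM K) hB.dvr, H.W3]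
        (Model3Top.le0 H hB.dvr) 2 ≤ n →
      ∃ u ∈ n, ∀ x ∈ n, ∃ s : chart (M * q * q) A K (Chart3B.J3 M q hq hqM K), s ∉ n ∧
        ∃ c : chart (M * q * q) A K (Chart3B.J3 M q hq hqM K), s * x - c * u ∈
          Model3Asm.Pc (chart (M * q * q) A K (Chart3B.J3 M q hq hqM K))
            ![algebraMap (OK A K) (FK (M * q * q) K) π,
              algebraMap (OK A K) (FK (M * q * q) K) π, Wit3.sE M q hq hqM K]
            ![GaussV.V1 (M * q * q) A K hB.dvr, GaussV.V2 (WQ2.wK2 M q hq hqM K) hB.dvr, H.W3]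
            (Model3Top.le0 H hB.dvr) 2 :=
  hbr_J3 H hA hB hπ a hqa hπϖ _ (chartHyp3_J3 H hA hB hπ a hqa hπϖ)

/-- **`hbr` on `chart J3⁻¹`**, families of record, any `P` with `ChartHyp3`. -/
theorem hbr_J3_inv (hA : A.LiesOverPrime q) (hB : BaseFacts q A K)
    {π : OK A K} (hπ : Irreducible π) (a : A) (hqa : (q : Qb) = incO A K π * (a : Qb))
    (hπϖ : ∃ u : A, IsUnit u ∧ incO A K π = incO A K' ϖ ^ (q - 1) * (u : Qb))
    (P : Fin 3 → Ideal (chart (M * q * q) A K (Chart3B.J3 M q hq hqM K)⁻¹))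
    (hyp : ChartHyp3 π
      ![algebraMap (OK A K) (FK (M * q * q) K) π, algebraMap (OK A K) (FK (M * q * q) K) π,
        Wit3.sE M q hq hqM K]
      ![GaussV.V1 (M * q * q) A K hB.dvr, GaussV.V2 (WQ2.wK2 M q hq hqM K) hB.dvr, H.W3] P) :
    ∀ n : Ideal (chart (M * q * q) A K (Chart3B.J3 M q hq hqM K)⁻¹), n.IsMaximal →
      algebraMap (OK A K) (chart (M * q * q) A K (Chart3B.J3 M q hq hqM K)⁻¹) π ∈ n → P 2 ≤ n →
      ∃ u ∈ n, ∀ x ∈ n, ∃ s : chart (M * q * q) A K (Chart3B.J3 M q hq hqM K)⁻¹, s ∉ n ∧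
        ∃ c : chart (M * q * q) A K (Chart3B.J3 M q hq hqM K)⁻¹, s * x - c * u ∈ P 2 := by
  haveI : Fact q.Prime := ⟨hq⟩
  have hC : ChartFacts M A K (chart M A K (jK M K)) (jK M K) :=
    Red2B.chartFacts M q hq hqM A K hA hB
  have hW := Model3Top.wit H hB.dvr hA hC hπ a hqa hπϖ
  have hf1 := ResDeg3Inst.hf1 M q hB.dvr hπ hC hW
  have hf3 := ResDeg3Inst.hf3' M q hq hB.dvr hπ hC H.mid.alpha (V3Wit.hW3 H) hW
  exact hbr_of_branch
    (Level3J3B.branch3_J3_inv M q hq hqM hA hB π hπ H.emb H.dvr' H.irr H.unif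
      H.mid.alpha (Model3Top.gRel_s H) hf1 hf3 P hyp)

end Fermat.Agent.S36.NakBr
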