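/-
S36 — NakClose.lean (helper51; package [B1-nak], CLOSER dealt by helper92): the binder `hnak` of
`Princ3Cases.princ_of_cases` for the model of record at level `N = M q²`, coordinate
`J3 = Chart3B.J3`, on BOTH charts, in the binder conventions of `S36/EtaB1Inst` / `Model3Top`
(`V = ![GaussV.V1, GaussV.V2 (wK2), H.W3]`, `ϖ = ![π, π, s]`, `P` ABSTRACT with `ChartHyp3`).

* `hnak_of_genAt`    : (abstract) a local generator of `P 2` at the closed points of `P 2` gives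
                       the `hnak` shape (any predicate `C`);
* `hnak0_of_branch`  : `hnak` on `chart J3` from the field `branch` (`NakCC.princ_W3_J3`:
                       `NakAsm.b1_at_W3_point` with every other input discharged), abstract `s`;
* `branch0`          : the field `branch` of `chart J3` for `s = Wit3.sE` and ANY `P` with
                       `ChartHyp3` (`Level3J3B.branch3_J3` + `ResDeg3Inst`), closed;
* `hnak0`            : **`hnak` on `chart J3`, CLOSED** (standing data of `Model3Top.model3` +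
                       `Plan.AuxHyp q M`);
* `hnakInf_of_hnak0` : `hnak` on `chart J3⁻¹` (`C n := J3⁻¹ ∉ n`) from `hnak` on `chart J3`
                       (`NakGlue.hnak_chart_inv`), abstract `s`, `P0`, `Pinf`;
* `hnakInf`          : **`hnak` on `chart J3⁻¹`, CLOSED**, for ANY `Pinf` with `ChartHyp3`;
* `princ0_of_eta`, `princInf_of_eta_cusp` : the fit with `Princ3Cases.princ_of_cases` — the
                       field `princ` of both charts from `heta` (and the two cusp inputs on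
                       `chart J3⁻¹`).
-/
import Mathlib
import Fermat.Agent.S36.NakGlue
import Fermat.Agent.S36.NakPlan
import Fermat.Agent.S36.NakCC
import Fermat.Agent.S36.NakBase
import Fermat.Agent.S36.Princ3Cases
import Fermat.Agent.S36.Model3Top

set_option autoImplicit false
set_option linter.unusedSectionVars false

open ModularCurve AlgebraicCurve HahnSeries

namespace Fermat.Agent.S36.NakClose

open Fermat.Agent.S18 Fermat.Agent.S18.Arith Fermat.Agent.S18.ModelPlan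
open Fermat.Agent.S24 Fermat.Agent.S34 Fermat.Agent.S36.WQ2 Fermat.Agent.S36.Model3Plan
open Fermat.Agent.S36

/-! ### Abstract wrapper -/

section Abstract

variable {O : Type*} [CommRing O] {R : Type*} [CommRing R] [Algebra O R] {π : O}
  {P : Fin 3 → Ideal R}

/-- A local generator of `P 2` at the closed points of `P 2` over `π` gives the binder `hnak`
of `Princ3Cases.princ_of_cases` (for any predicate `C`). -/
theorem hnak_of_genAt (C : Ideal R → Prop)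
    (hgen : ∀ n : Ideal R, n.IsMaximal → algebraMap O R π ∈ n → C n → ¬ P 0 ≤ n → ¬ P 1 ≤ n →
      P 2 ≤ n → ∃ g : R, NakPlan.GenAt n (P 2) g) :
    ∀ n : Ideal R, n.IsMaximal → algebraMap O R π ∈ n → C n → ¬ P 0 ≤ n → ¬ P 1 ≤ n →
      P 2 ≤ n →
      ∃ i : Fin 3, P i ≤ n ∧ ∃ g ∈ P i, ∀ y ∈ P i, ∃ s : R, s ∉ n ∧ ∃ c : R, s * y = c * g := by
  intro n hn hπn hC h0 h1 h2
  obtain ⟨g, hg, hgen'⟩ := hgen n hn hπn hC h0 h1 h2
  exact ⟨2, h2, g, hg, hgen'⟩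

end Abstract

noncomputable section

variable {M q : ℕ} [NeZero M] [NeZero q] {hq : q.Prime} {hqM : ¬ q ∣ M}
variable {A : ValuationSubring Qb} {K K' : IntermediateField ℚ Qb}
variable {ξ : Qb} {hξ0 : ξ ≠ 0} {ι : FK (M * q * q) K →+* LaurentSeries Qb} {ϖ' : OK A K'}

/-! ### The chart `J3` -/

/-- **`hnak` on `chart J3`** (in fact at EVERY closed point of `P 2`, triple points included)
from the field `branch` of the chart; abstract third uniformizer `s` and abstract `P`. -/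
theorem hnak0_of_branch (H : V3.Hyp3 M q hq hqM A K K' ξ hξ0 ι ϖ')
    (hA : A.LiesOverPrime q) (hB : BaseFacts q A K) (haux : Plan.AuxHyp q M)
    {π : OK A K} (hπ : Irreducible π) {e : Fin 3 → ℕ} {s : FK (M * q * q) K}
    (val : ValHyp3 (algebraMap (OK A K) (FK (M * q * q) K) π) e
      ![algebraMap (OK A K) (FK (M * q * q) K) π, algebraMap (OK A K) (FK (M * q * q) K) π, s]
      ![GaussV.V1 (M * q * q) A K hB.dvr, GaussV.V2 (wK2 M q hq hqM K) hB.dvr, H.W3])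
    {P : Fin 3 → Ideal (chart (M * q * q) A K (Chart3B.J3 M q hq hqM K))}
    (hyp : ChartHyp3 π
      ![algebraMap (OK A K) (FK (M * q * q) K) π, algebraMap (OK A K) (FK (M * q * q) K) π, s]
      ![GaussV.V1 (M * q * q) A K hB.dvr, GaussV.V2 (wK2 M q hq hqM K) hB.dvr, H.W3] P)
    (hbranch : ∀ n : Ideal (chart (M * q * q) A K (Chart3B.J3 M q hq hqM K)), n.IsMaximal →
      algebraMap (OK A K) (chart (M * q * q) A K (Chart3B.J3 M q hq hqM K)) π ∈ n →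
      ∀ i : Fin 3, P i ≤ n →
      (∃ x ∈ n, x ∉ P i) ∧
        ∃ u ∈ n, ∀ x ∈ n, ∃ s' : chart (M * q * q) A K (Chart3B.J3 M q hq hqM K), s' ∉ n ∧
          ∃ c : chart (M * q * q) A K (Chart3B.J3 M q hq hqM K), s' * x - c * u ∈ P i) :
    ∀ n : Ideal (chart (M * q * q) A K (Chart3B.J3 M q hq hqM K)), n.IsMaximal →
      algebraMap (OK A K) (chart (M * q * q) A K (Chart3B.J3 M q hq hqM K)) π ∈ n →
      ¬ P 0 ≤ n → ¬ P 1 ≤ n → P 2 ≤ n →
      ∃ i : Fin 3, P i ≤ n ∧ ∃ g ∈ P i, ∀ y ∈ P i,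
        ∃ s : chart (M * q * q) A K (Chart3B.J3 M q hq hqM K), s ∉ n ∧
          ∃ c : chart (M * q * q) A K (Chart3B.J3 M q hq hqM K), s * y = c * g := by
  have : Fact q.Prime := ⟨hq⟩
  intro n hn hπn _ _ h2
  exact NakCC.princ_W3_J3 M q hq hqM hA hB (NakBase.hM_of_aux haux) π hπ H hyp val rfl rfl rfl
    (fun n hn hπn h2 => (hbranch n hn hπn 2 h2).2) n hn hπn h2

/-- **The field `branch` of `chart J3`** for the uniformizers of record `![π, π, Wit3.sE]` and ANY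
family `P` with `ChartHyp3` (as in `Model3Top.model3`). -/
theorem branch0 (H : V3.Hyp3 M q hq hqM A K K' ξ hξ0 ι ϖ')
    (hA : A.LiesOverPrime q) (hB : BaseFacts q A K)
    {π : OK A K} (hπ : Irreducible π) (a : A) (hqa : (q : Qb) = incO A K π * (a : Qb))
    (hπϖ : ∃ u : A, IsUnit u ∧ incO A K π = incO A K' ϖ' ^ (q - 1) * (u : Qb))
    {P : Fin 3 → Ideal (chart (M * q * q) A K (Chart3B.J3 M q hq hqM K))}
    (hyp : ChartHyp3 π
      ![algebraMap (OK A K) (FK (M * q * q) K) π, algebraMap (OK A K) (FK (M * q * q) K) π,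
        Wit3.sE M q hq hqM K]
      ![GaussV.V1 (M * q * q) A K hB.dvr, GaussV.V2 (wK2 M q hq hqM K) hB.dvr, H.W3] P) :
    ∀ n : Ideal (chart (M * q * q) A K (Chart3B.J3 M q hq hqM K)), n.IsMaximal →
      algebraMap (OK A K) (chart (M * q * q) A K (Chart3B.J3 M q hq hqM K)) π ∈ n →
      ∀ i : Fin 3, P i ≤ n →
      (∃ x ∈ n, x ∉ P i) ∧
        ∃ u ∈ n, ∀ x ∈ n, ∃ s' : chart (M * q * q) A K (Chart3B.J3 M q hq hqM K), s' ∉ n ∧
          ∃ c : chart (M * q * q) A K (Chart3B.J3 M q hq hqM K), s' * x - c * u ∈ P i := by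
  have : Fact q.Prime := ⟨hq⟩
  have hC : ChartFacts M A K (chart M A K (jK M K)) (jK M K) :=
    Red2B.chartFacts M q hq hqM A K hA hB
  have hW := Model3Top.wit H hB.dvr hA hC hπ a hqa hπϖ
  have hf1 := ResDeg3Inst.hf1 M q hB.dvr hπ hC hW
  have hf3 := ResDeg3Inst.hf3' M q hq hB.dvr hπ hC H.mid.alpha (V3Wit.hW3 H) hW
  exact Level3J3B.branch3_J3 M q hq hqM hA hB π hπ H.emb H.dvr' H.irr H.unif
    H.mid.alpha (Model3Top.gRel_s H) hf1 hf3 P hyp

/-- **`hnak` on `chart J3`, CLOSED** (model of record; `C n := True`): at every closed point `n`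
of `chart J3` over `π` on `P 2` (and off `P 0`, `P 1`), `P 2` is principal at `n`. -/
theorem hnak0 (H : V3.Hyp3 M q hq hqM A K K' ξ hξ0 ι ϖ')
    (hA : A.LiesOverPrime q) (hB : BaseFacts q A K) (haux : Plan.AuxHyp q M)
    {π : OK A K} (hπ : Irreducible π) (a : A) (hqa : (q : Qb) = incO A K π * (a : Qb))
    (hπϖ : ∃ u : A, IsUnit u ∧ incO A K π = incO A K' ϖ' ^ (q - 1) * (u : Qb))
    {P : Fin 3 → Ideal (chart (M * q * q) A K (Chart3B.J3 M q hq hqM K))}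
    (hyp : ChartHyp3 π
      ![algebraMap (OK A K) (FK (M * q * q) K) π, algebraMap (OK A K) (FK (M * q * q) K) π,
        Wit3.sE M q hq hqM K]
      ![GaussV.V1 (M * q * q) A K hB.dvr, GaussV.V2 (wK2 M q hq hqM K) hB.dvr, H.W3] P) :
    ∀ n : Ideal (chart (M * q * q) A K (Chart3B.J3 M q hq hqM K)), n.IsMaximal →
      algebraMap (OK A K) (chart (M * q * q) A K (Chart3B.J3 M q hq hqM K)) π ∈ n →
      ¬ P 0 ≤ n → ¬ P 1 ≤ n → P 2 ≤ n →
      ∃ i : Fin 3, P i ≤ n ∧ ∃ g ∈ P i, ∀ y ∈ P i,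
        ∃ s : chart (M * q * q) A K (Chart3B.J3 M q hq hqM K), s ∉ n ∧
          ∃ c : chart (M * q * q) A K (Chart3B.J3 M q hq hqM K), s * y = c * g :=
  hnak0_of_branch H hA hB haux hπ (V3Wit.valHyp3 H hB.dvr hA hπ a hqa hπϖ) hyp
    (branch0 H hA hB hπ a hqa hπϖ hyp)

/-! ### The chart `J3⁻¹` -/

/-- **`hnak` on `chart J3⁻¹`** (`C n := J3⁻¹ ∉ n`) from `hnak` on `chart J3`; abstract `s`,
`P0`, `Pinf`. -/
theorem hnakInf_of_hnak0 (H : V3.Hyp3 M q hq hqM A K K' ξ hξ0 ι ϖ') (hB : BaseFacts q A K)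
    {π : OK A K} (hπ : Irreducible π) {s : FK (M * q * q) K}
    {P0 : Fin 3 → Ideal (chart (M * q * q) A K (Chart3B.J3 M q hq hqM K))}
    {Pinf : Fin 3 → Ideal (chart (M * q * q) A K (Chart3B.J3 M q hq hqM K)⁻¹)}
    (hyp0 : ChartHyp3 π
      ![algebraMap (OK A K) (FK (M * q * q) K) π, algebraMap (OK A K) (FK (M * q * q) K) π, s]
      ![GaussV.V1 (M * q * q) A K hB.dvr, GaussV.V2 (wK2 M q hq hqM K) hB.dvr, H.W3] P0)
    (hypInf : ChartHyp3 π
      ![algebraMap (OK A K) (FK (M * q * q) K) π, algebraMap (OK A K) (FK (M * q * q) K) π, s]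
      ![GaussV.V1 (M * q * q) A K hB.dvr, GaussV.V2 (wK2 M q hq hqM K) hB.dvr, H.W3] Pinf)
    (h0 : ∀ n : Ideal (chart (M * q * q) A K (Chart3B.J3 M q hq hqM K)), n.IsMaximal →
      algebraMap (OK A K) (chart (M * q * q) A K (Chart3B.J3 M q hq hqM K)) π ∈ n →
      ¬ P0 0 ≤ n → ¬ P0 1 ≤ n → P0 2 ≤ n →
      ∃ i : Fin 3, P0 i ≤ n ∧ ∃ g ∈ P0 i, ∀ y ∈ P0 i,
        ∃ s : chart (M * q * q) A K (Chart3B.J3 M q hq hqM K), s ∉ n ∧
          ∃ c : chart (M * q * q) A K (Chart3B.J3 M q hq hqM K), s * y = c * g) :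
    ∀ n : Ideal (chart (M * q * q) A K (Chart3B.J3 M q hq hqM K)⁻¹), n.IsMaximal →
      algebraMap (OK A K) (chart (M * q * q) A K (Chart3B.J3 M q hq hqM K)⁻¹) π ∈ n →
      (⟨(Chart3B.J3 M q hq hqM K)⁻¹,
        ChartJ.self_mem_chart (M * q * q) A K (Chart3B.J3 M q hq hqM K)⁻¹⟩ :
          chart (M * q * q) A K (Chart3B.J3 M q hq hqM K)⁻¹) ∉ n →
      ¬ Pinf 0 ≤ n → ¬ Pinf 1 ≤ n → Pinf 2 ≤ n →
      ∃ i : Fin 3, Pinf i ≤ n ∧ ∃ g ∈ Pinf i, ∀ y ∈ Pinf i,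
        ∃ s : chart (M * q * q) A K (Chart3B.J3 M q hq hqM K)⁻¹, s ∉ n ∧
          ∃ c : chart (M * q * q) A K (Chart3B.J3 M q hq hqM K)⁻¹, s * y = c * g :=
  haveI : Fact q.Prime := ⟨hq⟩
  NakGlue.hnak_chart_inv q hB (Chart3B.J3_ne_zero M q hq hqM K) hπ hyp0 hypInf
    (fun i => Model3Top.le0 H hB.dvr i _ (Chart3B.J3_mem_chart M q hq hqM A K))
    (fun i => Model3Top.leInf H hB.dvr i _ (Chart3B.J3_inv_mem_chart M q hq hqM A K)) h0

/-- **`hnak` on `chart J3⁻¹`, CLOSED** (model of record; `C n := J3⁻¹ ∉ n`), for ANY family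
`Pinf` with `ChartHyp3`: at every closed point `n` of `chart J3⁻¹` over `π` with `J3⁻¹ ∉ n`, on
`Pinf 2` and off `Pinf 0`, `Pinf 1`, the ideal `Pinf 2` is principal at `n`. -/
theorem hnakInf (H : V3.Hyp3 M q hq hqM A K K' ξ hξ0 ι ϖ')
    (hA : A.LiesOverPrime q) (hB : BaseFacts q A K) (haux : Plan.AuxHyp q M)
    {π : OK A K} (hπ : Irreducible π) (a : A) (hqa : (q : Qb) = incO A K π * (a : Qb))
    (hπϖ : ∃ u : A, IsUnit u ∧ incO A K π = incO A K' ϖ' ^ (q - 1) * (u : Qb))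
    {Pinf : Fin 3 → Ideal (chart (M * q * q) A K (Chart3B.J3 M q hq hqM K)⁻¹)}
    (hypInf : ChartHyp3 π
      ![algebraMap (OK A K) (FK (M * q * q) K) π, algebraMap (OK A K) (FK (M * q * q) K) π,
        Wit3.sE M q hq hqM K]
      ![GaussV.V1 (M * q * q) A K hB.dvr, GaussV.V2 (wK2 M q hq hqM K) hB.dvr, H.W3] Pinf) :
    ∀ n : Ideal (chart (M * q * q) A K (Chart3B.J3 M q hq hqM K)⁻¹), n.IsMaximal →
      algebraMap (OK A K) (chart (M * q * q) A K (Chart3B.J3 M q hq hqM K)⁻¹) π ∈ n →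
      (⟨(Chart3B.J3 M q hq hqM K)⁻¹,
        ChartJ.self_mem_chart (M * q * q) A K (Chart3B.J3 M q hq hqM K)⁻¹⟩ :
          chart (M * q * q) A K (Chart3B.J3 M q hq hqM K)⁻¹) ∉ n →
      ¬ Pinf 0 ≤ n → ¬ Pinf 1 ≤ n → Pinf 2 ≤ n →
      ∃ i : Fin 3, Pinf i ≤ n ∧ ∃ g ∈ Pinf i, ∀ y ∈ Pinf i,
        ∃ s : chart (M * q * q) A K (Chart3B.J3 M q hq hqM K)⁻¹, s ∉ n ∧
          ∃ c : chart (M * q * q) A K (Chart3B.J3 M q hq hqM K)⁻¹, s * y = c * g := by
  have : Fact q.Prime := ⟨hq⟩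
  have hC : ChartFacts M A K (chart M A K (jK M K)) (jK M K) :=
    Red2B.chartFacts M q hq hqM A K hA hB
  have hyp0 := Model3Asm.chartHyp3 (chart (M * q * q) A K (Chart3B.J3 M q hq hqM K)) π
    ![algebraMap (OK A K) (FK (M * q * q) K) π, algebraMap (OK A K) (FK (M * q * q) K) π,
      Wit3.sE M q hq hqM K]
    ![GaussV.V1 (M * q * q) A K hB.dvr, GaussV.V2 (wK2 M q hq hqM K) hB.dvr, H.W3]
    (Model3Top.le0 H hB.dvr) (GaussV.algebraMap_ne_zero (M * q * q) A K hπ.ne_zero)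
    (Model3Top.loc H hB.dvr hA hC hπ a hqa hπϖ) (Model3Top.desc0 H hB.dvr hA hC hπ a hqa hπϖ)
  exact hnakInf_of_hnak0 H hB hπ hyp0 hypInf (hnak0 H hA hB haux hπ a hqa hπϖ hyp0)

/-! ### Fit with `Princ3Cases.princ_of_cases` -/

/-- **The field `princ` of `chart J3`** (model of record, ANY `P` with `ChartHyp3`) from the eta
input `heta` alone: `hnak` is `hnak0`, and the cusp inputs are vacuous (`C n := True`). -/
theorem princ0_of_eta (H : V3.Hyp3 M q hq hqM A K K' ξ hξ0 ι ϖ')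
    (hA : A.LiesOverPrime q) (hB : BaseFacts q A K) (haux : Plan.AuxHyp q M)
    {π : OK A K} (hπ : Irreducible π) (a : A) (hqa : (q : Qb) = incO A K π * (a : Qb))
    (hπϖ : ∃ u : A, IsUnit u ∧ incO A K π = incO A K' ϖ' ^ (q - 1) * (u : Qb))
    {P : Fin 3 → Ideal (chart (M * q * q) A K (Chart3B.J3 M q hq hqM K))}
    (hyp : ChartHyp3 π
      ![algebraMap (OK A K) (FK (M * q * q) K) π, algebraMap (OK A K) (FK (M * q * q) K) π,
        Wit3.sE M q hq hqM K]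
      ![GaussV.V1 (M * q * q) A K hB.dvr, GaussV.V2 (wK2 M q hq hqM K) hB.dvr, H.W3] P)
    (heta : ∀ n : Ideal (chart (M * q * q) A K (Chart3B.J3 M q hq hqM K)), n.IsMaximal →
      algebraMap (OK A K) (chart (M * q * q) A K (Chart3B.J3 M q hq hqM K)) π ∈ n →
      (P 0 ≤ n ∨ P 1 ≤ n) →
      ∃ i : Fin 3, P i ≤ n ∧ ∃ g ∈ P i, ∀ y ∈ P i,
        ∃ s : chart (M * q * q) A K (Chart3B.J3 M q hq hqM K), s ∉ n ∧
          ∃ c : chart (M * q * q) A K (Chart3B.J3 M q hq hqM K), s * y = c * g) :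
    ∀ n : Ideal (chart (M * q * q) A K (Chart3B.J3 M q hq hqM K)), n.IsMaximal →
      algebraMap (OK A K) (chart (M * q * q) A K (Chart3B.J3 M q hq hqM K)) π ∈ n →
      ∃ i : Fin 3, P i ≤ n ∧ ∃ g ∈ P i, ∀ y ∈ P i,
        ∃ s : chart (M * q * q) A K (Chart3B.J3 M q hq hqM K), s ∉ n ∧
          ∃ c : chart (M * q * q) A K (Chart3B.J3 M q hq hqM K), s * y = c * g :=
  Princ3Cases.princ_of_cases (V3Wit.valHyp3 H hB.dvr hA hπ a hqa hπϖ) hyp
    (GaussV.algebraMap_ne_zero (M * q * q) A K hπ.ne_zero) rfl rfl (fun _ => True)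
    (fun n hn hπn _ h01 => heta n hn hπn h01)
    (fun n hn hπn _ h0 h1 h2 => hnak0 H hA hB haux hπ a hqa hπϖ hyp n hn hπn h0 h1 h2)
    (fun _ _ _ hC _ => absurd trivial hC)
    (fun _ _ _ hC _ => absurd trivial hC)

/-- **The field `princ` of `chart J3⁻¹`** (model of record, ANY `Pinf` with `ChartHyp3`) from the
eta input at the non-cuspidal points and the two cusp inputs ([N10], [CUSP1]); `hnak` is
`hnakInf`. -/
theorem princInf_of_eta_cusp (H : V3.Hyp3 M q hq hqM A K K' ξ hξ0 ι ϖ')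
    (hA : A.LiesOverPrime q) (hB : BaseFacts q A K) (haux : Plan.AuxHyp q M)
    {π : OK A K} (hπ : Irreducible π) (a : A) (hqa : (q : Qb) = incO A K π * (a : Qb))
    (hπϖ : ∃ u : A, IsUnit u ∧ incO A K π = incO A K' ϖ' ^ (q - 1) * (u : Qb))
    {Pinf : Fin 3 → Ideal (chart (M * q * q) A K (Chart3B.J3 M q hq hqM K)⁻¹)}
    (hypInf : ChartHyp3 π
      ![algebraMap (OK A K) (FK (M * q * q) K) π, algebraMap (OK A K) (FK (M * q * q) K) π,
        Wit3.sE M q hq hqM K]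
      ![GaussV.V1 (M * q * q) A K hB.dvr, GaussV.V2 (wK2 M q hq hqM K) hB.dvr, H.W3] Pinf)
    (heta : ∀ n : Ideal (chart (M * q * q) A K (Chart3B.J3 M q hq hqM K)⁻¹), n.IsMaximal →
      algebraMap (OK A K) (chart (M * q * q) A K (Chart3B.J3 M q hq hqM K)⁻¹) π ∈ n →
      (⟨(Chart3B.J3 M q hq hqM K)⁻¹,
        ChartJ.self_mem_chart (M * q * q) A K (Chart3B.J3 M q hq hqM K)⁻¹⟩ :
          chart (M * q * q) A K (Chart3B.J3 M q hq hqM K)⁻¹) ∉ n →
      (Pinf 0 ≤ n ∨ Pinf 1 ≤ n) →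
      ∃ i : Fin 3, Pinf i ≤ n ∧ ∃ g ∈ Pinf i, ∀ y ∈ Pinf i,
        ∃ s : chart (M * q * q) A K (Chart3B.J3 M q hq hqM K)⁻¹, s ∉ n ∧
          ∃ c : chart (M * q * q) A K (Chart3B.J3 M q hq hqM K)⁻¹, s * y = c * g)
    (hcusp2 : ∀ n : Ideal (chart (M * q * q) A K (Chart3B.J3 M q hq hqM K)⁻¹), n.IsMaximal →
      algebraMap (OK A K) (chart (M * q * q) A K (Chart3B.J3 M q hq hqM K)⁻¹) π ∈ n →
      ¬ (⟨(Chart3B.J3 M q hq hqM K)⁻¹,
        ChartJ.self_mem_chart (M * q * q) A K (Chart3B.J3 M q hq hqM K)⁻¹⟩ :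
          chart (M * q * q) A K (Chart3B.J3 M q hq hqM K)⁻¹) ∉ n →
      Pinf 2 ≤ n →
      ∃ i : Fin 3, Pinf i ≤ n ∧ ∃ g ∈ Pinf i, ∀ y ∈ Pinf i,
        ∃ s : chart (M * q * q) A K (Chart3B.J3 M q hq hqM K)⁻¹, s ∉ n ∧
          ∃ c : chart (M * q * q) A K (Chart3B.J3 M q hq hqM K)⁻¹, s * y = c * g)
    (hcusp01 : ∀ n : Ideal (chart (M * q * q) A K (Chart3B.J3 M q hq hqM K)⁻¹), n.IsMaximal →
      algebraMap (OK A K) (chart (M * q * q) A K (Chart3B.J3 M q hq hqM K)⁻¹) π ∈ n →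
      ¬ (⟨(Chart3B.J3 M q hq hqM K)⁻¹,
        ChartJ.self_mem_chart (M * q * q) A K (Chart3B.J3 M q hq hqM K)⁻¹⟩ :
          chart (M * q * q) A K (Chart3B.J3 M q hq hqM K)⁻¹) ∉ n →
      ¬ Pinf 2 ≤ n → ¬ (Pinf 0 ≤ n ∧ Pinf 1 ≤ n)) :
    ∀ n : Ideal (chart (M * q * q) A K (Chart3B.J3 M q hq hqM K)⁻¹), n.IsMaximal →
      algebraMap (OK A K) (chart (M * q * q) A K (Chart3B.J3 M q hq hqM K)⁻¹) π ∈ n →
      ∃ i : Fin 3, Pinf i ≤ n ∧ ∃ g ∈ Pinf i, ∀ y ∈ Pinf i,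
        ∃ s : chart (M * q * q) A K (Chart3B.J3 M q hq hqM K)⁻¹, s ∉ n ∧
          ∃ c : chart (M * q * q) A K (Chart3B.J3 M q hq hqM K)⁻¹, s * y = c * g :=
  Princ3Cases.princ_of_cases (V3Wit.valHyp3 H hB.dvr hA hπ a hqa hπϖ) hypInf
    (GaussV.algebraMap_ne_zero (M * q * q) A K hπ.ne_zero) rfl rfl
    (fun n => (⟨(Chart3B.J3 M q hq hqM K)⁻¹,
      ChartJ.self_mem_chart (M * q * q) A K (Chart3B.J3 M q hq hqM K)⁻¹⟩ :
        chart (M * q * q) A K (Chart3B.J3 M q hq hqM K)⁻¹) ∉ n)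
    heta (hnakInf H hA hB haux hπ a hqa hπϖ hypInf) hcusp2 hcusp01

end

end Fermat.Agent.S36.NakClose
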