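import Mathlib
import Fermat.Agent.S36.Model3Top
import Fermat.Agent.S36.NakTopB
import Fermat.Agent.S36.NakModC
import Fermat.Agent.S36.NakUnramEll

/-!
# S36, package [B1-nak] : the CLOSER (C copy) — `hnak0` of `Model3PrincB.model3`

`NakTopB.princ_W3` on the chart of record `chart (M q²) A K J3` (`J3 = j · j_q · j_{q²}`), with
the valuation rings of record `![W1, W2, H.W3]` and the uniformizers of record `![π, π, sE]`,
every named hypothesis discharged from main:

* `hCC`            : `Chart3B.chart_J3_eq`; ring instances : `Chart3B.rings`;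
* `hval`           : `V3Wit.valHyp3`;
* `hP3, hP0, hP1`  : `NakModC.mem_P2_iff_gRel`, `gRel_zero_of_mem_P0`, `gRel_zero_of_mem_P1`;
* `hEα, hEβ`       : `H.mid.alpha`, `H.gRel_beta`;
* `hU`             : `NakUnramEll.unram` (needs the auxiliary level `4 ∣ M ∨ 9 ∣ M`);
* `j, hj`          : `j = jK M K`, `NakModC.delta_j_gen`;
* `hbr`            : `Level3J3B.branch3_J3` (with `ResDeg3Inst.hf1`, `hf3'`).

Exports:

* `unram_JK`  : `(U_K)` for `chart (M q) JK` over `chart M j` along `NakMod.iota`;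
* `branch_J3` : the branch hypothesis `hbr` of `NakTopB.princ_W3` on `chart J3`;
* `princ_P2`  : `princ` at EVERY closed point of `P 2` of `chart J3`, any `P` with `ChartHyp3`
                for the objects of record;
* `hnak`      : the same in the `hnak` shape of `Princ3Cases.princ_of_cases` (`C` arbitrary);
* `hnak0`     : the binder `hnak0` of `Model3PrincB.model3`, VERBATIM (`P = Model3Asm.Pc …`).
-/

set_option autoImplicit false
set_option linter.unusedSectionVars false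

noncomputable section

namespace Fermat.Agent.S36.NakCloseC

open ModularCurve AlgebraicCurve HahnSeries
open Fermat.Agent.S18 Fermat.Agent.S18.Arith Fermat.Agent.S18.ModelPlan
open Fermat.Agent.S34 Fermat.Agent.S36.Model3Plan

variable {M q : ℕ} [NeZero M] [NeZero q] {hq : q.Prime} {hqM : ¬ q ∣ M}
variable {A : ValuationSubring Qb} {K K' : IntermediateField ℚ Qb}

/-- **(U_K)** for the level-`M q` chart `chart (M q) A K JK` over the level-`M` chart
`chart M A K j`, along `NakMod.iota`: the hypothesis `hU` of `NakTopB.b1_W3`, VERBATIM. -/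
theorem unram_JK (hq : q.Prime) (hqM : ¬ q ∣ M) (hM : 4 ∣ M ∨ 9 ∣ M)
    (hdvr : IsDiscreteValuationRing (OK A K)) :
    ∀ 𝔮B : Ideal (chart (M * q) A K (WKInst.JK M q hq hqM K)), 𝔮B.IsPrime →
      (∀ c : OK A K,
        algebraMap (OK A K) (chart (M * q) A K (WKInst.JK M q hq hqM K)) c ∈ 𝔮B → c = 0) →
      ∀ r ∈ 𝔮B, ∃ s : chart (M * q) A K (WKInst.JK M q hq hqM K), s ∉ 𝔮B ∧
        s * r ∈ Ideal.map
          (NakMod.iota M q (chart (M * q) A K (WKInst.JK M q hq hqM K))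
            (WKInst.chart_JK_eq M q hq hqM A K) :
            chart M A K (jK M K) →+* chart (M * q) A K (WKInst.JK M q hq hqM K))
          (Ideal.comap
            (NakMod.iota M q (chart (M * q) A K (WKInst.JK M q hq hqM K))
              (WKInst.chart_JK_eq M q hq hqM A K) :
              chart M A K (jK M K) →+* chart (M * q) A K (WKInst.JK M q hq hqM K)) 𝔮B) := by
  have : Fact q.Prime := ⟨hq⟩
  obtain ⟨hBn, hBf, hBi⟩ := (ChartRingInv.pair_of_isAlgebraic (M * q) A K hdvr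
    (WKInst.JK_ne_zero M q hq hqM K)
    (ChartJ.transcendental_symJ (M * q) A K (WK.isIntegral_jK M q hq hqM A K))
    (ChartJ.isAlgebraic_symJ (M * q) A K (WK.isIntegral_jK M q hq hqM A K))).1
  have hAn : IsNoetherianRing (chart M A K (jK M K)) := ChartRing.isNoetherianRing_R0 M A K q hdvr
  have hAf : IsFractionRing (chart M A K (jK M K)) (FK M K) := ChartRing.isFractionRing_R0 M A K q
  have hAi : IsIntegrallyClosed (chart M A K (jK M K)) := ChartRing.isIntegrallyClosed_R0 M A K q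
  intro 𝔮B h𝔮 hhor
  exact NakUnramEll.unram M q A K hM hdvr (chart (M * q) A K (WKInst.JK M q hq hqM K))
    (chart M A K (jK M K)) (Model.self_mem_chart M A K (jK M K))
    (NakMod.iota M q (chart (M * q) A K (WKInst.JK M q hq hqM K))
      (WKInst.chart_JK_eq M q hq hqM A K) :
      chart M A K (jK M K) →+* chart (M * q) A K (WKInst.JK M q hq hqM K))
    (fun y => NakMod.coe_iota M q _ (WKInst.chart_JK_eq M q hq hqM A K) y) 𝔮B h𝔮 hhor

variable {ξ : Qb} {hξ0 : ξ ≠ 0} {ι : FK (M * q * q) K →+* LaurentSeries Qb} {ϖ : OK A K'}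
variable (H : V3.Hyp3 M q hq hqM A K K' ξ hξ0 ι ϖ)
variable (hB : BaseFacts q A K) {π : OK A K}

/-- the uniformizer family of record `![π, π, sE]` -/
local notation "WRec" => (![algebraMap (OK A K) (FK (M * q * q) K) π,
  algebraMap (OK A K) (FK (M * q * q) K) π, Wit3.sE M q hq hqM K] : Fin 3 → FK (M * q * q) K)

/-- the valuation rings of record `![W1, W2, W3]` -/
local notation "VRec" => (![GaussV.V1 (M * q * q) A K hB.dvr,
  GaussV.V2 (WQ2.wK2 M q hq hqM K) hB.dvr, H.W3] :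
    Fin 3 → ValuationSubring (FK (M * q * q) K))

/-- the vertical primes of `chart J3` -/
local notation "P0Rec" => Model3Asm.Pc (chart (M * q * q) A K (Chart3B.J3 M q hq hqM K))
  WRec VRec (Model3Top.le0 H hB.dvr)

/-- **The branch hypothesis `hbr` of `NakTopB.princ_W3` on `chart J3`** (from
`Level3J3B.branch3_J3`, as in `Model3Top.model3`). -/
theorem branch_J3 (hA : A.LiesOverPrime q) (hπ : Irreducible π) (a : A)
    (hqa : (q : Qb) = incO A K π * (a : Qb))
    (hπϖ : ∃ u : A, IsUnit u ∧ incO A K π = incO A K' ϖ ^ (q - 1) * (u : Qb))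
    {P : Fin 3 → Ideal (chart (M * q * q) A K (Chart3B.J3 M q hq hqM K))}
    (hyp : ChartHyp3 π WRec VRec P) :
    ∀ n : Ideal (chart (M * q * q) A K (Chart3B.J3 M q hq hqM K)), n.IsMaximal →
      algebraMap (OK A K) (chart (M * q * q) A K (Chart3B.J3 M q hq hqM K)) π ∈ n → P 2 ≤ n →
      ∃ u ∈ n, ∀ x ∈ n, ∃ s : chart (M * q * q) A K (Chart3B.J3 M q hq hqM K), s ∉ n ∧
        ∃ c : chart (M * q * q) A K (Chart3B.J3 M q hq hqM K), s * x - c * u ∈ P 2 := by
  have : Fact q.Prime := ⟨hq⟩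
  have hC : ChartFacts M A K (chart M A K (jK M K)) (jK M K) :=
    Red2B.chartFacts M q hq hqM A K hA hB
  have hW := Model3Top.wit H hB.dvr hA hC hπ a hqa hπϖ
  have hf1 := ResDeg3Inst.hf1 M q hB.dvr hπ hC hW
  have hf3 := ResDeg3Inst.hf3' M q hq hB.dvr hπ hC H.mid.alpha (V3Wit.hW3 H) hW
  intro n hn hπn hPn
  exact ((Level3J3B.branch3_J3 M q hq hqM hA hB π hπ H.emb H.dvr' H.irr H.unif
    H.mid.alpha (Model3Top.gRel_s H) hf1 hf3 P hyp) n hn hπn 2 hPn).2

/-- **`princ` at every closed point of `P 2` on `chart J3`** — `NakTopB.princ_W3` with every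
named hypothesis discharged; any family `P` with `ChartHyp3` for the objects of record. -/
theorem princ_P2 (hM : 4 ∣ M ∨ 9 ∣ M) (hA : A.LiesOverPrime q) (hπ : Irreducible π) (a : A)
    (hqa : (q : Qb) = incO A K π * (a : Qb))
    (hπϖ : ∃ u : A, IsUnit u ∧ incO A K π = incO A K' ϖ ^ (q - 1) * (u : Qb))
    {P : Fin 3 → Ideal (chart (M * q * q) A K (Chart3B.J3 M q hq hqM K))}
    (hyp : ChartHyp3 π WRec VRec P) :
    ∀ n : Ideal (chart (M * q * q) A K (Chart3B.J3 M q hq hqM K)), n.IsMaximal →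
      algebraMap (OK A K) (chart (M * q * q) A K (Chart3B.J3 M q hq hqM K)) π ∈ n → P 2 ≤ n →
      ∃ i : Fin 3, P i ≤ n ∧ ∃ g ∈ P i, ∀ y ∈ P i,
        ∃ s : chart (M * q * q) A K (Chart3B.J3 M q hq hqM K), s ∉ n ∧
          ∃ c : chart (M * q * q) A K (Chart3B.J3 M q hq hqM K), s * y = c * g := by
  have : Fact q.Prime := ⟨hq⟩
  obtain ⟨hCn, hCf, hCi⟩ := (Chart3B.rings M q hq hqM A K hB.dvr).1
  have hval : ValHyp3 (algebraMap (OK A K) (FK (M * q * q) K) π) (Model3Plan.ram q) WRec VRec :=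
    V3Wit.valHyp3 H hB.dvr hA hπ a hqa hπϖ
  have hCC := Chart3B.chart_J3_eq M q hq hqM A K
  exact NakTopB.princ_W3 M q hq hqM hA hB π hπ
    (chart (M * q * q) A K (Chart3B.J3 M q hq hqM K)) hCC hyp hval ι
    (NakModC.mem_P2_iff_gRel _ H hyp hval rfl)
    (NakModC.gRel_zero_of_mem_P0 M q _ hB.dvr hyp hval rfl)
    (NakModC.gRel_zero_of_mem_P1 M q hq hqM _ hB.dvr hyp hval rfl)
    H.mid.alpha (fun x y h => H.gRel_beta hA h)
    (unram_JK hq hqM hM hB.dvr)
    ⟨jK M K, Model.self_mem_chart M A K (jK M K)⟩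
    (NakModC.delta_j_gen M q hq hqM _ (WKInst.chart_JK_eq M q hq hqM A K) _ hCC hCf H hyp hval
      rfl ⟨jK M K, Model.self_mem_chart M A K (jK M K)⟩ rfl)
    (branch_J3 H hB hA hπ a hqa hπϖ hyp)

/-- **The input `hnak` of `Princ3Cases.princ_of_cases` on `chart J3`** (any predicate `C`). -/
theorem hnak (hM : 4 ∣ M ∨ 9 ∣ M) (hA : A.LiesOverPrime q) (hπ : Irreducible π) (a : A)
    (hqa : (q : Qb) = incO A K π * (a : Qb))
    (hπϖ : ∃ u : A, IsUnit u ∧ incO A K π = incO A K' ϖ ^ (q - 1) * (u : Qb))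
    {P : Fin 3 → Ideal (chart (M * q * q) A K (Chart3B.J3 M q hq hqM K))}
    (hyp : ChartHyp3 π WRec VRec P)
    (C : Ideal (chart (M * q * q) A K (Chart3B.J3 M q hq hqM K)) → Prop) :
    ∀ n : Ideal (chart (M * q * q) A K (Chart3B.J3 M q hq hqM K)), n.IsMaximal →
      algebraMap (OK A K) (chart (M * q * q) A K (Chart3B.J3 M q hq hqM K)) π ∈ n → C n →
      ¬ P 0 ≤ n → ¬ P 1 ≤ n → P 2 ≤ n →
      ∃ i : Fin 3, P i ≤ n ∧ ∃ g ∈ P i, ∀ y ∈ P i,
        ∃ s : chart (M * q * q) A K (Chart3B.J3 M q hq hqM K), s ∉ n ∧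
          ∃ c : chart (M * q * q) A K (Chart3B.J3 M q hq hqM K), s * y = c * g :=
  fun n hn hπn _ _ _ h2 => princ_P2 H hB hM hA hπ a hqa hπϖ hyp n hn hπn h2

/-- **The binder `hnak0` of `Model3PrincB.model3`, VERBATIM** (under the auxiliary level
`4 ∣ M ∨ 9 ∣ M`). -/
theorem hnak0 (hM : 4 ∣ M ∨ 9 ∣ M) (hA : A.LiesOverPrime q) (hπ : Irreducible π) (a : A)
    (hqa : (q : Qb) = incO A K π * (a : Qb))
    (hπϖ : ∃ u : A, IsUnit u ∧ incO A K π = incO A K' ϖ ^ (q - 1) * (u : Qb)) :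
    ChartHyp3 π WRec VRec P0Rec →
      ∀ n : Ideal (chart (M * q * q) A K (Chart3B.J3 M q hq hqM K)), n.IsMaximal →
        algebraMap (OK A K) (chart (M * q * q) A K (Chart3B.J3 M q hq hqM K)) π ∈ n →
        ¬ P0Rec 0 ≤ n → ¬ P0Rec 1 ≤ n → P0Rec 2 ≤ n →
        ∃ i : Fin 3, P0Rec i ≤ n ∧ ∃ g ∈ P0Rec i, ∀ y ∈ P0Rec i,
          ∃ s : chart (M * q * q) A K (Chart3B.J3 M q hq hqM K), s ∉ n ∧
            ∃ c : chart (M * q * q) A K (Chart3B.J3 M q hq hqM K), s * y = c * g :=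
  fun hyp n hn hπn _ _ h2 => princ_P2 H hB hM hA hπ a hqa hπϖ hyp n hn hπn h2

end Fermat.Agent.S36.NakCloseC

end
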