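/-
S36 — NakCloseD.lean (helper42; package [B1-nak], the `hnak0` CLOSER, independent D-copy).

**The binder `hnak0` of `Model3PrincB.model3` / `Model3PrincB.hprinc0` / `hprincInf`, VERBATIM**,
for the objects of record at level `N = M q²`
(`V = ![W1, W2, H.W3]`, `ϖ = ![π, π, Wit3.sE]`, coordinate `Chart3B.J3`,
`P = Model3Asm.Pc (chart J3) ϖ V (Model3Top.le0 H hB.dvr)`):

    ChartHyp3 π ϖ V P → ∀ n maximal, π ∈ n → ¬ P 0 ≤ n → ¬ P 1 ≤ n → P 2 ≤ n →
      ∃ i, P i ≤ n ∧ ∃ g ∈ P i, ∀ y ∈ P i, ∃ s ∉ n, ∃ c, s * y = c * g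

from `NakCC.princ_W3_J3` (helper82; = `NakTopB.princ_W3` of helper78 with `E`, `hP3`, `hP0`,
`hP1`, `hEα`, `hEβ`, `(U)`, `j`, `hj` discharged), with
* `ValHyp3`  := `V3Wit.valHyp3`;
* the shape of `V` := `rfl`;
* `hbr` (the branch `chart J3 / P 2` is regular at its closed points) :=
  `Level3J3B.branch3_J3` with residue degree one `ResDeg3Inst.hf1 / hf3'`
  (exactly as in `Model3Top.model3`).

Hypotheses: those of `Model3Top.model3` (`hA`, `hB`, `hπ`, `a`, `hqa`, `hπϖ`) and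
`4 ∣ M ∨ 9 ∣ M` (no elliptic points; from `Plan.AuxHyp q M`: `hM_of_auxHyp`).

* `princ_W3_of_hyp` : any `P` with `ChartHyp3` (not only `Model3Asm.Pc`), every closed point of
                      `P 2` (no `¬ P 0 ≤ n`, `¬ P 1 ≤ n`);
* `hnak0`           : the binder, VERBATIM;
* `hnak0_aux`       : the same from `Plan.AuxHyp q M`.
-/
import Mathlib
import Fermat.Agent.S36.Plan
import Fermat.Agent.S36.NakCC
import Fermat.Agent.S36.Model3Top

set_option autoImplicit false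
set_option linter.unusedSectionVars false

noncomputable section

namespace Fermat.Agent.S36.NakCloseD

open ModularCurve AlgebraicCurve HahnSeries
open Fermat.Agent.S18 Fermat.Agent.S18.Arith Fermat.Agent.S18.ModelPlan
open Fermat.Agent.S34 Fermat.Agent.S36.Model3Plan

/-- `Plan.AuxHyp q M` excludes the elliptic points: `4 ∣ M ∨ 9 ∣ M`. -/
theorem hM_of_auxHyp {q M : ℕ} (haux : Plan.AuxHyp q M) : 4 ∣ M ∨ 9 ∣ M := by
  by_cases h2 : q = 2
  · exact Or.inr (haux.2 h2)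
  · exact Or.inl (haux.1 h2)

variable {M q : ℕ} [NeZero M] [NeZero q] {hq : q.Prime} {hqM : ¬ q ∣ M}
variable {A : ValuationSubring Qb} {K K' : IntermediateField ℚ Qb}
variable {ξ : Qb} {hξ0 : ξ ≠ 0} {ι : FK (M * q * q) K →+* LaurentSeries Qb} {ϖ : OK A K'}
variable (H : V3.Hyp3 M q hq hqM A K K' ξ hξ0 ι ϖ)

/-- **(B1) at every closed point of `W3` on `chart J3`**, for ANY family of vertical primes with
`ChartHyp3` against the objects of record. -/
theorem princ_W3_of_hyp (hB : BaseFacts q A K) (hA : A.LiesOverPrime q) (hM : 4 ∣ M ∨ 9 ∣ M)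
    {π : OK A K} (hπ : Irreducible π) (a : A) (hqa : (q : Qb) = incO A K π * (a : Qb))
    (hπϖ : ∃ u : A, IsUnit u ∧ incO A K π = incO A K' ϖ ^ (q - 1) * (u : Qb))
    {P : Fin 3 → Ideal (chart (M * q * q) A K (Chart3B.J3 M q hq hqM K))}
    (hyp : ChartHyp3 π
      ![algebraMap (OK A K) (FK (M * q * q) K) π, algebraMap (OK A K) (FK (M * q * q) K) π,
        Wit3.sE M q hq hqM K]
      ![GaussV.V1 (M * q * q) A K hB.dvr, GaussV.V2 (WQ2.wK2 M q hq hqM K) hB.dvr, H.W3] P) :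
    ∀ n : Ideal (chart (M * q * q) A K (Chart3B.J3 M q hq hqM K)), n.IsMaximal →
      algebraMap (OK A K) (chart (M * q * q) A K (Chart3B.J3 M q hq hqM K)) π ∈ n → P 2 ≤ n →
      ∃ i : Fin 3, P i ≤ n ∧ ∃ g ∈ P i, ∀ y ∈ P i,
        ∃ s : chart (M * q * q) A K (Chart3B.J3 M q hq hqM K), s ∉ n ∧
          ∃ c : chart (M * q * q) A K (Chart3B.J3 M q hq hqM K), s * y = c * g := by
  haveI : Fact q.Prime := ⟨hq⟩
  have hC : ChartFacts M A K (chart M A K (jK M K)) (jK M K) :=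
    Red2B.chartFacts M q hq hqM A K hA hB
  have hW := Model3Top.wit H hB.dvr hA hC hπ a hqa hπϖ
  have hf1 := ResDeg3Inst.hf1 M q hB.dvr hπ hC hW
  have hf3 := ResDeg3Inst.hf3' M q hq hB.dvr hπ hC H.mid.alpha (V3Wit.hW3 H) hW
  have hbranch := Level3J3B.branch3_J3 M q hq hqM hA hB π hπ H.emb H.dvr' H.irr H.unif
    H.mid.alpha (Model3Top.gRel_s H) hf1 hf3 P hyp
  exact NakCC.princ_W3_J3 M q hq hqM hA hB hM π hπ H hyp
    (V3Wit.valHyp3 H hB.dvr hA hπ a hqa hπϖ) rfl rfl rfl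
    (fun n hn hπn h2 => (hbranch n hn hπn 2 h2).2)

/-- **The binder `hnak0` of `Model3PrincB.model3`, VERBATIM.** -/
theorem hnak0 (hB : BaseFacts q A K) (hA : A.LiesOverPrime q) (hM : 4 ∣ M ∨ 9 ∣ M)
    {π : OK A K} (hπ : Irreducible π) (a : A) (hqa : (q : Qb) = incO A K π * (a : Qb))
    (hπϖ : ∃ u : A, IsUnit u ∧ incO A K π = incO A K' ϖ ^ (q - 1) * (u : Qb)) :
    ChartHyp3 π
        ![algebraMap (OK A K) (FK (M * q * q) K) π, algebraMap (OK A K) (FK (M * q * q) K) π,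
          Wit3.sE M q hq hqM K]
        ![GaussV.V1 (M * q * q) A K hB.dvr, GaussV.V2 (WQ2.wK2 M q hq hqM K) hB.dvr, H.W3]
        (Model3Asm.Pc (chart (M * q * q) A K (Chart3B.J3 M q hq hqM K))
          ![algebraMap (OK A K) (FK (M * q * q) K) π,
            algebraMap (OK A K) (FK (M * q * q) K) π, Wit3.sE M q hq hqM K]
          ![GaussV.V1 (M * q * q) A K hB.dvr, GaussV.V2 (WQ2.wK2 M q hq hqM K) hB.dvr, H.W3]
          (Model3Top.le0 H hB.dvr)) →
      ∀ n : Ideal (chart (M * q * q) A K (Chart3B.J3 M q hq hqM K)), n.IsMaximal →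
        algebraMap (OK A K) (chart (M * q * q) A K (Chart3B.J3 M q hq hqM K)) π ∈ n →
        ¬ Model3Asm.Pc (chart (M * q * q) A K (Chart3B.J3 M q hq hqM K))
            ![algebraMap (OK A K) (FK (M * q * q) K) π,
              algebraMap (OK A K) (FK (M * q * q) K) π, Wit3.sE M q hq hqM K]
            ![GaussV.V1 (M * q * q) A K hB.dvr, GaussV.V2 (WQ2.wK2 M q hq hqM K) hB.dvr, H.W3]
            (Model3Top.le0 H hB.dvr) 0 ≤ n →
        ¬ Model3Asm.Pc (chart (M * q * q) A K (Chart3B.J3 M q hq hqM K))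
            ![algebraMap (OK A K) (FK (M * q * q) K) π,
              algebraMap (OK A K) (FK (M * q * q) K) π, Wit3.sE M q hq hqM K]
            ![GaussV.V1 (M * q * q) A K hB.dvr, GaussV.V2 (WQ2.wK2 M q hq hqM K) hB.dvr, H.W3]
            (Model3Top.le0 H hB.dvr) 1 ≤ n →
        Model3Asm.Pc (chart (M * q * q) A K (Chart3B.J3 M q hq hqM K))
            ![algebraMap (OK A K) (FK (M * q * q) K) π,
              algebraMap (OK A K) (FK (M * q * q) K) π, Wit3.sE M q hq hqM K]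
            ![GaussV.V1 (M * q * q) A K hB.dvr, GaussV.V2 (WQ2.wK2 M q hq hqM K) hB.dvr, H.W3]
            (Model3Top.le0 H hB.dvr) 2 ≤ n →
        ∃ i : Fin 3,
          Model3Asm.Pc (chart (M * q * q) A K (Chart3B.J3 M q hq hqM K))
            ![algebraMap (OK A K) (FK (M * q * q) K) π,
              algebraMap (OK A K) (FK (M * q * q) K) π, Wit3.sE M q hq hqM K]
            ![GaussV.V1 (M * q * q) A K hB.dvr, GaussV.V2 (WQ2.wK2 M q hq hqM K) hB.dvr, H.W3]
            (Model3Top.le0 H hB.dvr) i ≤ n ∧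
          ∃ g ∈ Model3Asm.Pc (chart (M * q * q) A K (Chart3B.J3 M q hq hqM K))
            ![algebraMap (OK A K) (FK (M * q * q) K) π,
              algebraMap (OK A K) (FK (M * q * q) K) π, Wit3.sE M q hq hqM K]
            ![GaussV.V1 (M * q * q) A K hB.dvr, GaussV.V2 (WQ2.wK2 M q hq hqM K) hB.dvr, H.W3]
            (Model3Top.le0 H hB.dvr) i,
            ∀ y ∈ Model3Asm.Pc (chart (M * q * q) A K (Chart3B.J3 M q hq hqM K))
              ![algebraMap (OK A K) (FK (M * q * q) K) π,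
                algebraMap (OK A K) (FK (M * q * q) K) π, Wit3.sE M q hq hqM K]
              ![GaussV.V1 (M * q * q) A K hB.dvr, GaussV.V2 (WQ2.wK2 M q hq hqM K) hB.dvr,
                H.W3]
              (Model3Top.le0 H hB.dvr) i,
              ∃ s : chart (M * q * q) A K (Chart3B.J3 M q hq hqM K), s ∉ n ∧
                ∃ c : chart (M * q * q) A K (Chart3B.J3 M q hq hqM K), s * y = c * g :=
  fun hyp n hn hπn _ _ h2 => princ_W3_of_hyp H hB hA hM hπ a hqa hπϖ hyp n hn hπn h2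

/-- **`hnak0` from `Plan.AuxHyp q M`** (any family `P` with `ChartHyp3`; in particular the binder
of `Model3PrincB.model3` by `hnak0_aux H hB hA haux hπ a hqa hπϖ`). -/
theorem hnak0_aux (hB : BaseFacts q A K) (hA : A.LiesOverPrime q) (haux : Plan.AuxHyp q M)
    {π : OK A K} (hπ : Irreducible π) (a : A) (hqa : (q : Qb) = incO A K π * (a : Qb))
    (hπϖ : ∃ u : A, IsUnit u ∧ incO A K π = incO A K' ϖ ^ (q - 1) * (u : Qb))
    {P : Fin 3 → Ideal (chart (M * q * q) A K (Chart3B.J3 M q hq hqM K))} :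
    ChartHyp3 π
        ![algebraMap (OK A K) (FK (M * q * q) K) π, algebraMap (OK A K) (FK (M * q * q) K) π,
          Wit3.sE M q hq hqM K]
        ![GaussV.V1 (M * q * q) A K hB.dvr, GaussV.V2 (WQ2.wK2 M q hq hqM K) hB.dvr, H.W3] P →
      ∀ n : Ideal (chart (M * q * q) A K (Chart3B.J3 M q hq hqM K)), n.IsMaximal →
        algebraMap (OK A K) (chart (M * q * q) A K (Chart3B.J3 M q hq hqM K)) π ∈ n →
        ¬ P 0 ≤ n → ¬ P 1 ≤ n → P 2 ≤ n →
        ∃ i : Fin 3, P i ≤ n ∧ ∃ g ∈ P i, ∀ y ∈ P i,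
          ∃ s : chart (M * q * q) A K (Chart3B.J3 M q hq hqM K), s ∉ n ∧
            ∃ c : chart (M * q * q) A K (Chart3B.J3 M q hq hqM K), s * y = c * g :=
  fun hyp n hn hπn _ _ h2 =>
    princ_W3_of_hyp H hB hA (hM_of_auxHyp haux) hπ a hqa hπϖ hyp n hn hπn h2

end Fermat.Agent.S36.NakCloseD

end
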