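import Mathlib
import Fermat.Agent.S36.NakPlan
import Fermat.Agent.S36.PrinPrime

/-!
# S36, package [B1-nak], leaf [N1] : `NakPlan.SmoothCutPStatement`

`smoothCutP : NakPlan.SmoothCutPStatement` — in a noetherian local domain whose maximal ideal is
`(δ, t)` with `(δ)` prime, every prime ideal not containing `δ` is principal.  This is
`PrinPrime.exists_eq_span_of_span_pair` (Nakayama; the quotient by `(δ)` is a principal ideal
ring) in the exact shape of the package plan.
-/

set_option autoImplicit false

namespace Fermat.Agent.S36.NakCutB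

/-- **[N1] SmoothCut′.** -/
theorem smoothCutP : NakPlan.SmoothCutPStatement := by
  intro R _ _ _ _ δ t 𝔮 hm hδ h𝔮 hδ𝔮
  haveI := h𝔮
  exact PrinPrime.exists_eq_span_of_span_pair δ t hm hδ 𝔮 hδ𝔮

end Fermat.Agent.S36.NakCutB
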