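import Mathlib
import Fermat.Agent.S36.NakModC
import Fermat.Agent.S36.NakTopB
import Fermat.Agent.S36.V3

/-!
# S36, package [B1-nak] : the expansion bundle `E := ι` of `NakTopB.princ_W3`

`NakTopB.princ_W3` (the `princ` conjunct of `Model3Plan.ChartModel3` at the closed points of `W3`
on the finite chart) takes an ABSTRACT expansion `E : F_K(M q²) →+* Q̄((Q))` at the middle cusp,
with five hypotheses `hP3`, `hP0`, `hP1`, `hEα`, `hEβ`.  This file discharges all five, in the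
shapes of `princ_W3` verbatim, for

* `E := ι`, the middle-cusp embedding of ANY `H : V3.Hyp3 M q hq hqM A K K' ξ hξ0 ι ϖ'`
  (`V3.hyp3_iota3` for the algebraic embedding of record `Iota3.iota3`);
* ANY subalgebra `CC` of `F_K(M q²)` with three vertical primes `P` in the interface of record
  `Model3Plan.ChartHyp3 π ϖ V P` + `Model3Plan.ValHyp3 p e ϖ V`, where
  `V 0 = GaussV.V1`, `V 1 = GaussV.V2 w_{q²}`, `V 2 = H.W3` (ARBITRARY uniformizers `ϖ i`).

Exports:
* `hP3`, `hP0`, `hP1`, `hEα`, `hEβ` : the five binders one by one;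
* `bundle`     : the five binders as one conjunction (`V` abstract with `hV0`, `hV1`, `hV2`);
* `bundle_rec` : the same for the LITERAL family of record
                 `V = ![GaussV.V1, GaussV.V2 w_{q²}, H.W3]` (no `hV` hypotheses);
* `princ_W3_of_V3` : `NakTopB.princ_W3` with `E`, `hP3`, `hP0`, `hP1`, `hEα`, `hEβ` discharged;
                 the remaining hypotheses are `hU` ((U_K), [N8]), `j`, `hj` (`δ_j` generates
                 `P 2` at `P 2`) and `hbr` (the branch `CC / P 2`);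
* `princ_W3_of_gen` : moreover `hj` discharged by `NakModC.delta_j_gen` from a lift
                 `j : chart M A K (jK M K)` of the coordinate, `(j : F_K(M)) = jK M K`;
* `exists_j`, `princ_W3_of_hU_hbr` : `j` discharged too — ONLY `hU` and `hbr` remain;
* `princ_W3_rec` : the same for the literal family of record `V` (no `hV` hypotheses).
-/

set_option autoImplicit false
set_option linter.unusedSectionVars false

namespace Fermat.Agent.S36.NakE

open ModularCurve HahnSeries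
open Fermat.Agent.S18 Fermat.Agent.S18.Arith Fermat.Agent.S18.ModelPlan
open Fermat.Agent.S34 Fermat.Agent.S36.Model3Plan

/-! ### The five binders -/

section Bundle

variable {M q : ℕ} [NeZero M] [NeZero q] {hq : q.Prime} {hqM : ¬ q ∣ M}
variable {A : ValuationSubring Qb} {K K' : IntermediateField ℚ Qb}
variable {ξ : Qb} {hξ0 : ξ ≠ 0} {ι : FK (M * q * q) K →+* LaurentSeries Qb} {ϖ' : OK A K'}
variable (H : V3.Hyp3 M q hq hqM A K K' ξ hξ0 ι ϖ')
variable (CC : Subalgebra (OK A K) (FK (M * q * q) K))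
variable {π : OK A K} {p : FK (M * q * q) K} {e : Fin 3 → ℕ} {ϖ : Fin 3 → FK (M * q * q) K}
  {V : Fin 3 → ValuationSubring (FK (M * q * q) K)} {P : Fin 3 → Ideal CC}

/-- **(hP3)** of `NakTopB.princ_W3` for `E = ι`: `P 2` is the set of elements of `CC` whose
expansion along the middle-cusp embedding has Gauss reduction `0`. -/
theorem hP3 (hyp : ChartHyp3 π ϖ V P) (hval : ValHyp3 p e ϖ V) (hV2 : V 2 = H.W3) :
    ∀ r : CC, r ∈ P 2 ↔ GRel A (ι (r : FK (M * q * q) K)) 0 :=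
  fun r => NakModC.mem_P2_iff_gRel CC H hyp hval hV2 r

/-- **(hP0)** of `NakTopB.princ_W3`: the elements of `P 0` have Gauss reduction `0` at `∞`. -/
theorem hP0 (hdvr : IsDiscreteValuationRing (OK A K))
    (hyp : ChartHyp3 π ϖ V P) (hval : ValHyp3 p e ϖ V)
    (hV0 : V 0 = GaussV.V1 (M * q * q) A K hdvr) :
    ∀ r : CC, r ∈ P 0 → GRel A (((r : FK (M * q * q) K)) : LaurentSeries Qb) 0 :=
  fun r hr => NakModC.gRel_zero_of_mem_P0 M q CC hdvr hyp hval hV0 r hr

/-- **(hP1)** of `NakTopB.princ_W3`: the Atkin–Lehner transforms of the elements of `P 1` have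
Gauss reduction `0` at `∞`. -/
theorem hP1 (hdvr : IsDiscreteValuationRing (OK A K))
    (hyp : ChartHyp3 π ϖ V P) (hval : ValHyp3 p e ϖ V)
    (hV1 : V 1 = GaussV.V2 (WQ2.wK2 M q hq hqM K) hdvr) :
    ∀ r : CC, r ∈ P 1 →
      GRel A ((WQ2.wK2 M q hq hqM K (r : FK (M * q * q) K) : FK (M * q * q) K) :
        LaurentSeries Qb) 0 :=
  fun r hr => NakModC.gRel_zero_of_mem_P1 M q hq hqM CC hdvr hyp hval hV1 r hr

include H in
/-- **(hEα)** of `NakTopB.princ_W3` for `E = ι`: on `α(F_K(M q))` the middle-cusp embedding is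
the `q`-expansion at `∞`. -/
theorem hEα : ∀ x : FK (M * q) K, ι (WQ2.alphaK2 M q K x) = (x : LaurentSeries Qb) :=
  H.mid.alpha

include H in
/-- **(hEβ)** of `NakTopB.princ_W3` for `E = ι`: on `β(F_K(M q))` the Gauss relation along the
middle-cusp embedding is the Gauss relation of `w_q x` at `∞`. -/
theorem hEβ (hA : A.LiesOverPrime q) :
    ∀ (x : FK (M * q) K) (y : LaurentSeries (IsLocalRing.ResidueField A)),
      GRel A ((WK.wK M q hq hqM K x : FK (M * q) K) : LaurentSeries Qb) y →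
      GRel A (ι (WQ2.betaK2 M q hq hqM K x)) y :=
  fun _ _ h => H.gRel_beta hA h

/-- **The expansion bundle of `NakTopB.princ_W3` for `E = ι`**: the five binders `hP3`, `hP0`,
`hP1`, `hEα`, `hEβ`, VERBATIM, for the interface of record on `CC` with
`V = (V1, V1 ∘ w_{q²}, W3)` (given up to the three equalities `hV0`, `hV1`, `hV2`). -/
theorem bundle (hA : A.LiesOverPrime q) (hdvr : IsDiscreteValuationRing (OK A K))
    (hyp : ChartHyp3 π ϖ V P) (hval : ValHyp3 p e ϖ V)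
    (hV0 : V 0 = GaussV.V1 (M * q * q) A K hdvr)
    (hV1 : V 1 = GaussV.V2 (WQ2.wK2 M q hq hqM K) hdvr) (hV2 : V 2 = H.W3) :
    (∀ r : CC, r ∈ P 2 ↔ GRel A (ι (r : FK (M * q * q) K)) 0) ∧
    (∀ r : CC, r ∈ P 0 → GRel A (((r : FK (M * q * q) K)) : LaurentSeries Qb) 0) ∧
    (∀ r : CC, r ∈ P 1 →
      GRel A ((WQ2.wK2 M q hq hqM K (r : FK (M * q * q) K) : FK (M * q * q) K) :
        LaurentSeries Qb) 0) ∧
    (∀ x : FK (M * q) K, ι (WQ2.alphaK2 M q K x) = (x : LaurentSeries Qb)) ∧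
    (∀ (x : FK (M * q) K) (y : LaurentSeries (IsLocalRing.ResidueField A)),
      GRel A ((WK.wK M q hq hqM K x : FK (M * q) K) : LaurentSeries Qb) y →
      GRel A (ι (WQ2.betaK2 M q hq hqM K x)) y) :=
  ⟨hP3 H CC hyp hval hV2, hP0 CC hdvr hyp hval hV0, hP1 CC hdvr hyp hval hV1, hEα H,
    hEβ H hA⟩

/-- **The expansion bundle for the LITERAL family of record**
`V = ![GaussV.V1, GaussV.V2 w_{q²}, H.W3]` (any uniformizers `ϖ`, any primes `P` — e.g.
`Model3Asm.Pc`). -/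
theorem bundle_rec (hA : A.LiesOverPrime q) (hdvr : IsDiscreteValuationRing (OK A K))
    (hyp : ChartHyp3 π ϖ
      ![GaussV.V1 (M * q * q) A K hdvr, GaussV.V2 (WQ2.wK2 M q hq hqM K) hdvr, H.W3] P)
    (hval : ValHyp3 p e ϖ
      ![GaussV.V1 (M * q * q) A K hdvr, GaussV.V2 (WQ2.wK2 M q hq hqM K) hdvr, H.W3]) :
    (∀ r : CC, r ∈ P 2 ↔ GRel A (ι (r : FK (M * q * q) K)) 0) ∧
    (∀ r : CC, r ∈ P 0 → GRel A (((r : FK (M * q * q) K)) : LaurentSeries Qb) 0) ∧
    (∀ r : CC, r ∈ P 1 →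
      GRel A ((WQ2.wK2 M q hq hqM K (r : FK (M * q * q) K) : FK (M * q * q) K) :
        LaurentSeries Qb) 0) ∧
    (∀ x : FK (M * q) K, ι (WQ2.alphaK2 M q K x) = (x : LaurentSeries Qb)) ∧
    (∀ (x : FK (M * q) K) (y : LaurentSeries (IsLocalRing.ResidueField A)),
      GRel A ((WK.wK M q hq hqM K x : FK (M * q) K) : LaurentSeries Qb) y →
      GRel A (ι (WQ2.betaK2 M q hq hqM K x)) y) :=
  bundle H CC hA hdvr hyp hval rfl rfl rfl

end Bundle

/-! ### `NakTopB.princ_W3` with the expansion discharged -/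

section Top

variable {M q : ℕ} [NeZero M] [NeZero q] {hq : q.Prime} {hqM : ¬ q ∣ M}
variable {A : ValuationSubring Qb} {K K' : IntermediateField ℚ Qb}
variable {ξ : Qb} {hξ0 : ξ ≠ 0} {ι : FK (M * q * q) K →+* LaurentSeries Qb} {ϖ' : OK A K'}

/-- **`NakTopB.princ_W3` for `E = ι`**: the `princ` conjunct at the closed points of `W3` on the
finite chart, with the five expansion hypotheses discharged.  Remaining hypotheses: `hU`
((U_K), [N8]), `j`, `hj` (`δ_j` generates `P 2` at `P 2`), `hbr` (the branch `CC / P 2`). -/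
theorem princ_W3_of_V3 [Fact q.Prime] (H : V3.Hyp3 M q hq hqM A K K' ξ hξ0 ι ϖ')
    (hA : A.LiesOverPrime q) (hB : BaseFacts q A K)
    (π : OK A K) (hπ : Irreducible π)
    (CC : Subalgebra (OK A K) (FK (M * q * q) K))
    (hCC : CC = chart (M * q * q) A K (jK (M * q * q) K))
    [IsNoetherianRing CC] [IsIntegrallyClosed CC] [IsFractionRing CC (FK (M * q * q) K)]
    {e : Fin 3 → ℕ} {ϖ : Fin 3 → FK (M * q * q) K}
    {V : Fin 3 → ValuationSubring (FK (M * q * q) K)} {P : Fin 3 → Ideal CC}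
    (hyp : ChartHyp3 π ϖ V P)
    (hval : ValHyp3 (algebraMap CC (FK (M * q * q) K) (algebraMap (OK A K) CC π)) e ϖ V)
    (hV0 : V 0 = GaussV.V1 (M * q * q) A K hB.dvr)
    (hV1 : V 1 = GaussV.V2 (WQ2.wK2 M q hq hqM K) hB.dvr) (hV2 : V 2 = H.W3)
    (hU : ∀ 𝔮B : Ideal (chart (M * q) A K (WKInst.JK M q hq hqM K)), 𝔮B.IsPrime →
      (∀ c : OK A K,
        algebraMap (OK A K) (chart (M * q) A K (WKInst.JK M q hq hqM K)) c ∈ 𝔮B → c = 0) →
      ∀ r ∈ 𝔮B, ∃ s : chart (M * q) A K (WKInst.JK M q hq hqM K), s ∉ 𝔮B ∧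
        s * r ∈ Ideal.map
          (NakMod.iota M q (chart (M * q) A K (WKInst.JK M q hq hqM K))
            (WKInst.chart_JK_eq M q hq hqM A K) :
            chart M A K (jK M K) →+* chart (M * q) A K (WKInst.JK M q hq hqM K))
          (Ideal.comap
            (NakMod.iota M q (chart (M * q) A K (WKInst.JK M q hq hqM K))
              (WKInst.chart_JK_eq M q hq hqM A K) :
              chart M A K (jK M K) →+* chart (M * q) A K (WKInst.JK M q hq hqM K)) 𝔮B))
    (j : chart M A K (jK M K))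
    (hj : ∀ y ∈ P 2, ∃ s : CC, s ∉ P 2 ∧ ∃ c : CC,
      s * y = c *
        (NakMod.phiB M q hq hqM (chart (M * q) A K (WKInst.JK M q hq hqM K))
            (WKInst.chart_JK_eq M q hq hqM A K) CC hCC
            (NakMod.iota1 M q hq hqM (chart (M * q) A K (WKInst.JK M q hq hqM K))
              (WKInst.chart_JK_eq M q hq hqM A K) j)
          - NakMod.phiA M q hq hqM (chart (M * q) A K (WKInst.JK M q hq hqM K))
            (WKInst.chart_JK_eq M q hq hqM A K) CC hCC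
            (NakMod.iota1 M q hq hqM (chart (M * q) A K (WKInst.JK M q hq hqM K))
              (WKInst.chart_JK_eq M q hq hqM A K) j)))
    (hbr : ∀ n : Ideal CC, n.IsMaximal → algebraMap (OK A K) CC π ∈ n → P 2 ≤ n →
      ∃ u ∈ n, ∀ x ∈ n, ∃ s : CC, s ∉ n ∧ ∃ c : CC, s * x - c * u ∈ P 2) :
    ∀ n : Ideal CC, n.IsMaximal → algebraMap (OK A K) CC π ∈ n → P 2 ≤ n →
      ∃ i : Fin 3, P i ≤ n ∧ ∃ g ∈ P i, ∀ y ∈ P i, ∃ s : CC, s ∉ n ∧ ∃ c : CC, s * y = c * g :=
  NakTopB.princ_W3 M q hq hqM hA hB π hπ CC hCC hyp hval ι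
    (hP3 H CC hyp hval hV2) (hP0 CC hB.dvr hyp hval hV0) (hP1 CC hB.dvr hyp hval hV1)
    (hEα H) (hEβ H hA) hU j hj hbr

/-- **`NakTopB.princ_W3` for `E = ι`, `hj` discharged**: given a lift `j` of the coordinate
`jK M K` to the level-`M` chart, `δ_j = j_{q²} - j` generates `P 2` at `P 2`
(`NakModC.delta_j_gen`).  Remaining hypotheses: `hU` ((U_K), [N8]) and `hbr` (the branch). -/
theorem princ_W3_of_gen [Fact q.Prime] (H : V3.Hyp3 M q hq hqM A K K' ξ hξ0 ι ϖ')
    (hA : A.LiesOverPrime q) (hB : BaseFacts q A K)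
    (π : OK A K) (hπ : Irreducible π)
    (CC : Subalgebra (OK A K) (FK (M * q * q) K))
    (hCC : CC = chart (M * q * q) A K (jK (M * q * q) K))
    [IsNoetherianRing CC] [IsIntegrallyClosed CC] [hfrac : IsFractionRing CC (FK (M * q * q) K)]
    {e : Fin 3 → ℕ} {ϖ : Fin 3 → FK (M * q * q) K}
    {V : Fin 3 → ValuationSubring (FK (M * q * q) K)} {P : Fin 3 → Ideal CC}
    (hyp : ChartHyp3 π ϖ V P)
    (hval : ValHyp3 (algebraMap CC (FK (M * q * q) K) (algebraMap (OK A K) CC π)) e ϖ V)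
    (hV0 : V 0 = GaussV.V1 (M * q * q) A K hB.dvr)
    (hV1 : V 1 = GaussV.V2 (WQ2.wK2 M q hq hqM K) hB.dvr) (hV2 : V 2 = H.W3)
    (hU : ∀ 𝔮B : Ideal (chart (M * q) A K (WKInst.JK M q hq hqM K)), 𝔮B.IsPrime →
      (∀ c : OK A K,
        algebraMap (OK A K) (chart (M * q) A K (WKInst.JK M q hq hqM K)) c ∈ 𝔮B → c = 0) →
      ∀ r ∈ 𝔮B, ∃ s : chart (M * q) A K (WKInst.JK M q hq hqM K), s ∉ 𝔮B ∧
        s * r ∈ Ideal.map
          (NakMod.iota M q (chart (M * q) A K (WKInst.JK M q hq hqM K))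
            (WKInst.chart_JK_eq M q hq hqM A K) :
            chart M A K (jK M K) →+* chart (M * q) A K (WKInst.JK M q hq hqM K))
          (Ideal.comap
            (NakMod.iota M q (chart (M * q) A K (WKInst.JK M q hq hqM K))
              (WKInst.chart_JK_eq M q hq hqM A K) :
              chart M A K (jK M K) →+* chart (M * q) A K (WKInst.JK M q hq hqM K)) 𝔮B))
    (j : chart M A K (jK M K)) (hjj : (j : FK M K) = jK M K)
    (hbr : ∀ n : Ideal CC, n.IsMaximal → algebraMap (OK A K) CC π ∈ n → P 2 ≤ n →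
      ∃ u ∈ n, ∀ x ∈ n, ∃ s : CC, s ∉ n ∧ ∃ c : CC, s * x - c * u ∈ P 2) :
    ∀ n : Ideal CC, n.IsMaximal → algebraMap (OK A K) CC π ∈ n → P 2 ≤ n →
      ∃ i : Fin 3, P i ≤ n ∧ ∃ g ∈ P i, ∀ y ∈ P i, ∃ s : CC, s ∉ n ∧ ∃ c : CC, s * y = c * g :=
  princ_W3_of_V3 H hA hB π hπ CC hCC hyp hval hV0 hV1 hV2 hU j
    (NakModC.delta_j_gen M q hq hqM (chart (M * q) A K (WKInst.JK M q hq hqM K))
      (WKInst.chart_JK_eq M q hq hqM A K) CC hCC hfrac H hyp hval hV2 j hjj)
    hbr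

/-- The coordinate `jK M K` as an element of the level-`M` chart. -/
theorem exists_j (M : ℕ) [NeZero M] (A : ValuationSubring Qb) (K : IntermediateField ℚ Qb) :
    ∃ j : chart M A K (jK M K), (j : FK M K) = jK M K :=
  ⟨⟨jK M K, Fermat.Agent.S18.Model.self_mem_chart M A K (jK M K)⟩, rfl⟩

/-- **`NakTopB.princ_W3` for `E = ι`, `j` and `hj` discharged** (`j` = the coordinate `jK M K`
itself).  Remaining hypotheses: `hU` ((U_K), [N8]) and `hbr` (the branch `CC / P 2`). -/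
theorem princ_W3_of_hU_hbr [Fact q.Prime] (H : V3.Hyp3 M q hq hqM A K K' ξ hξ0 ι ϖ')
    (hA : A.LiesOverPrime q) (hB : BaseFacts q A K)
    (π : OK A K) (hπ : Irreducible π)
    (CC : Subalgebra (OK A K) (FK (M * q * q) K))
    (hCC : CC = chart (M * q * q) A K (jK (M * q * q) K))
    [IsNoetherianRing CC] [IsIntegrallyClosed CC] [IsFractionRing CC (FK (M * q * q) K)]
    {e : Fin 3 → ℕ} {ϖ : Fin 3 → FK (M * q * q) K}
    {V : Fin 3 → ValuationSubring (FK (M * q * q) K)} {P : Fin 3 → Ideal CC}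
    (hyp : ChartHyp3 π ϖ V P)
    (hval : ValHyp3 (algebraMap CC (FK (M * q * q) K) (algebraMap (OK A K) CC π)) e ϖ V)
    (hV0 : V 0 = GaussV.V1 (M * q * q) A K hB.dvr)
    (hV1 : V 1 = GaussV.V2 (WQ2.wK2 M q hq hqM K) hB.dvr) (hV2 : V 2 = H.W3)
    (hU : ∀ 𝔮B : Ideal (chart (M * q) A K (WKInst.JK M q hq hqM K)), 𝔮B.IsPrime →
      (∀ c : OK A K,
        algebraMap (OK A K) (chart (M * q) A K (WKInst.JK M q hq hqM K)) c ∈ 𝔮B → c = 0) →
      ∀ r ∈ 𝔮B, ∃ s : chart (M * q) A K (WKInst.JK M q hq hqM K), s ∉ 𝔮B ∧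
        s * r ∈ Ideal.map
          (NakMod.iota M q (chart (M * q) A K (WKInst.JK M q hq hqM K))
            (WKInst.chart_JK_eq M q hq hqM A K) :
            chart M A K (jK M K) →+* chart (M * q) A K (WKInst.JK M q hq hqM K))
          (Ideal.comap
            (NakMod.iota M q (chart (M * q) A K (WKInst.JK M q hq hqM K))
              (WKInst.chart_JK_eq M q hq hqM A K) :
              chart M A K (jK M K) →+* chart (M * q) A K (WKInst.JK M q hq hqM K)) 𝔮B))
    (hbr : ∀ n : Ideal CC, n.IsMaximal → algebraMap (OK A K) CC π ∈ n → P 2 ≤ n →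
      ∃ u ∈ n, ∀ x ∈ n, ∃ s : CC, s ∉ n ∧ ∃ c : CC, s * x - c * u ∈ P 2) :
    ∀ n : Ideal CC, n.IsMaximal → algebraMap (OK A K) CC π ∈ n → P 2 ≤ n →
      ∃ i : Fin 3, P i ≤ n ∧ ∃ g ∈ P i, ∀ y ∈ P i, ∃ s : CC, s ∉ n ∧ ∃ c : CC, s * y = c * g := by
  obtain ⟨j, hjj⟩ := exists_j M A K
  exact princ_W3_of_gen H hA hB π hπ CC hCC hyp hval hV0 hV1 hV2 hU j hjj hbr

/-- **The same for the LITERAL family of record**
`V = ![GaussV.V1, GaussV.V2 w_{q²}, H.W3]` (no `hV` hypotheses; any uniformizers `ϖ`, any primes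
`P`). -/
theorem princ_W3_rec [Fact q.Prime] (H : V3.Hyp3 M q hq hqM A K K' ξ hξ0 ι ϖ')
    (hA : A.LiesOverPrime q) (hB : BaseFacts q A K)
    (π : OK A K) (hπ : Irreducible π)
    (CC : Subalgebra (OK A K) (FK (M * q * q) K))
    (hCC : CC = chart (M * q * q) A K (jK (M * q * q) K))
    [IsNoetherianRing CC] [IsIntegrallyClosed CC] [IsFractionRing CC (FK (M * q * q) K)]
    {e : Fin 3 → ℕ} {ϖ : Fin 3 → FK (M * q * q) K} {P : Fin 3 → Ideal CC}
    (hyp : ChartHyp3 π ϖ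
      ![GaussV.V1 (M * q * q) A K hB.dvr, GaussV.V2 (WQ2.wK2 M q hq hqM K) hB.dvr, H.W3] P)
    (hval : ValHyp3 (algebraMap CC (FK (M * q * q) K) (algebraMap (OK A K) CC π)) e ϖ
      ![GaussV.V1 (M * q * q) A K hB.dvr, GaussV.V2 (WQ2.wK2 M q hq hqM K) hB.dvr, H.W3])
    (hU : ∀ 𝔮B : Ideal (chart (M * q) A K (WKInst.JK M q hq hqM K)), 𝔮B.IsPrime →
      (∀ c : OK A K,
        algebraMap (OK A K) (chart (M * q) A K (WKInst.JK M q hq hqM K)) c ∈ 𝔮B → c = 0) →
      ∀ r ∈ 𝔮B, ∃ s : chart (M * q) A K (WKInst.JK M q hq hqM K), s ∉ 𝔮B ∧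
        s * r ∈ Ideal.map
          (NakMod.iota M q (chart (M * q) A K (WKInst.JK M q hq hqM K))
            (WKInst.chart_JK_eq M q hq hqM A K) :
            chart M A K (jK M K) →+* chart (M * q) A K (WKInst.JK M q hq hqM K))
          (Ideal.comap
            (NakMod.iota M q (chart (M * q) A K (WKInst.JK M q hq hqM K))
              (WKInst.chart_JK_eq M q hq hqM A K) :
              chart M A K (jK M K) →+* chart (M * q) A K (WKInst.JK M q hq hqM K)) 𝔮B))
    (hbr : ∀ n : Ideal CC, n.IsMaximal → algebraMap (OK A K) CC π ∈ n → P 2 ≤ n →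
      ∃ u ∈ n, ∀ x ∈ n, ∃ s : CC, s ∉ n ∧ ∃ c : CC, s * x - c * u ∈ P 2) :
    ∀ n : Ideal CC, n.IsMaximal → algebraMap (OK A K) CC π ∈ n → P 2 ≤ n →
      ∃ i : Fin 3, P i ≤ n ∧ ∃ g ∈ P i, ∀ y ∈ P i, ∃ s : CC, s ∉ n ∧ ∃ c : CC, s * y = c * g :=
  princ_W3_of_hU_hbr H hA hB π hπ CC hCC hyp hval rfl rfl rfl hU hbr

end Top

end Fermat.Agent.S36.NakE
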