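import Mathlib
import Fermat.Agent.S36.NakTopB
import Fermat.Agent.S36.NakModC
import Fermat.Agent.S36.NakUnramEll
import Fermat.Agent.S36.Model3Top
import Fermat.Agent.S36.Level3J3B

/-!
# S36, package [B1-nak] : the inputs `hU`, `j`/`hj`, `hbr` of `NakTopB.princ_W3`, closed

`NakTopB.princ_W3` (the `princ` conjunct at the closed points of `W3` on the finite chart, i.e.
the binder `hnak` of `Princ3Cases.princ_of_cases`) has three groups of named hypotheses besides
the expansion data `E`.  This file discharges them in the EXACT binder shapes of `princ_W3`: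

* `hU`   : `(U_K)` — every horizontal prime of `CB = chart (M q) A K J` is unramified over
           `CA = chart M A K j` along `NakMod.iota` (`NakUnramEll.unram`; needs `4 ∣ M ∨ 9 ∣ M`,
           e.g. from the auxiliary level hypothesis `(q ≠ 2 → 4 ∣ M) ∧ (q = 2 → 9 ∣ M)`);
* `jA`, `hj` : `j ∈ CA` and "`δ_j` generates `P 2` at `P 2`" (`NakModC.delta_j_gen`);
* `hbr`  : the branch `CC / P 2` is regular of dimension one at every closed point `n ⊇ P 2` of
           `CC = chart (M q²) A K J3` (`Level3J3B.branch3_J3` with the residue-degree inputs of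
           `Model3Top`).

`princ_W3_J3` : the resulting CLOSED `hnak` on `chart J3` for the model of record
(`V = ![V1, V2, H.W3]`, `ϖ = ![π, π, sE]`, any `P` with `ChartHyp3`), a kernel-checked fit-test of
the three inputs against `NakTopB.princ_W3`.
-/

set_option autoImplicit false
set_option linter.unusedSectionVars false

noncomputable section

namespace Fermat.Agent.S36.NakIn

open ModularCurve HahnSeries
open Fermat.Agent.S18 Fermat.Agent.S18.Arith Fermat.Agent.S18.ModelPlan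
open Fermat.Agent.S34 Fermat.Agent.S34.LocPlan
open Fermat.Agent.S36.NakPlan Fermat.Agent.S36.Model3Plan

/-! ### (2) `hU` -/

section U

variable (M q : ℕ) [NeZero M] [NeZero q] (hq : q.Prime) (hqM : ¬ q ∣ M)
variable (A : ValuationSubring Qb) (K : IntermediateField ℚ Qb)

/-- The auxiliary level hypothesis gives `4 ∣ M ∨ 9 ∣ M`. -/
theorem four_or_nine {M q : ℕ} (haux : (q ≠ 2 → 4 ∣ M) ∧ (q = 2 → 9 ∣ M)) : 4 ∣ M ∨ 9 ∣ M := by
  by_cases h : q = 2
  · exact Or.inr (haux.2 h)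
  · exact Or.inl (haux.1 h)

/-- **`hU` of `NakTopB.princ_W3`, VERBATIM**: the horizontal primes of `chart (M q) A K J` are
unramified over `chart M A K j` (`4 ∣ M ∨ 9 ∣ M`). -/
theorem hU (hM : 4 ∣ M ∨ 9 ∣ M) (hdvr : IsDiscreteValuationRing (OK A K)) :
    ∀ 𝔮B : Ideal (chart (M * q) A K (WKInst.JK M q hq hqM K)), 𝔮B.IsPrime →
      (∀ c : OK A K,
        algebraMap (OK A K) (chart (M * q) A K (WKInst.JK M q hq hqM K)) c ∈ 𝔮B → c = 0) →
      ∀ r ∈ 𝔮B, ∃ s : chart (M * q) A K (WKInst.JK M q hq hqM K), s ∉ 𝔮B ∧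
        s * r ∈ Ideal.map
          (NakMod.iota M q (chart (M * q) A K (WKInst.JK M q hq hqM K))
            (WKInst.chart_JK_eq M q hq hqM A K) :
            chart M A K (jK M K) →+* chart (M * q) A K (WKInst.JK M q hq hqM K))
          (Ideal.comap
            (NakMod.iota M q (chart (M * q) A K (WKInst.JK M q hq hqM K))
              (WKInst.chart_JK_eq M q hq hqM A K) :
              chart M A K (jK M K) →+* chart (M * q) A K (WKInst.JK M q hq hqM K)) 𝔮B) := by
  intro 𝔮B h𝔮 hhor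
  obtain ⟨⟨hn, hf, hi⟩, -⟩ := ChartRingInv.pair_of_isAlgebraic (M * q) A K hdvr
    (WKInst.JK_ne_zero M q hq hqM K)
    (ChartJ.transcendental_symJ (M * q) A K (WK.isIntegral_jK M q hq hqM A K))
    (ChartJ.isAlgebraic_symJ (M * q) A K (WK.isIntegral_jK M q hq hqM A K))
  obtain ⟨hfM, hiM, hnM⟩ := ChartRing.all_of_isAlgebraic M A K hdvr (jK M K)
    (ModelFin.transcendental_jK M A K) (ModelBasicCore.isAlgebraic_FK M A K)
  have := hn
  have := hf
  have := hi
  have := hfM
  have := hiM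
  have := hnM
  exact NakUnramEll.unram M q A K hM hdvr (chart (M * q) A K (WKInst.JK M q hq hqM K))
    (chart M A K (jK M K)) (ChartJ.self_mem_chart M A K (jK M K))
    (NakMod.iota M q (chart (M * q) A K (WKInst.JK M q hq hqM K))
      (WKInst.chart_JK_eq M q hq hqM A K) :
      chart M A K (jK M K) →+* chart (M * q) A K (WKInst.JK M q hq hqM K))
    (fun y => NakMod.coe_iota M q _ (WKInst.chart_JK_eq M q hq hqM A K) y) 𝔮B h𝔮 hhor

/-- `hU` under the auxiliary level hypothesis `Plan.AuxHyp q M` (unfolded). -/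
theorem hU_aux (haux : (q ≠ 2 → 4 ∣ M) ∧ (q = 2 → 9 ∣ M))
    (hdvr : IsDiscreteValuationRing (OK A K)) :
    ∀ 𝔮B : Ideal (chart (M * q) A K (WKInst.JK M q hq hqM K)), 𝔮B.IsPrime →
      (∀ c : OK A K,
        algebraMap (OK A K) (chart (M * q) A K (WKInst.JK M q hq hqM K)) c ∈ 𝔮B → c = 0) →
      ∀ r ∈ 𝔮B, ∃ s : chart (M * q) A K (WKInst.JK M q hq hqM K), s ∉ 𝔮B ∧
        s * r ∈ Ideal.map
          (NakMod.iota M q (chart (M * q) A K (WKInst.JK M q hq hqM K))
            (WKInst.chart_JK_eq M q hq hqM A K) :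
            chart M A K (jK M K) →+* chart (M * q) A K (WKInst.JK M q hq hqM K))
          (Ideal.comap
            (NakMod.iota M q (chart (M * q) A K (WKInst.JK M q hq hqM K))
              (WKInst.chart_JK_eq M q hq hqM A K) :
              chart M A K (jK M K) →+* chart (M * q) A K (WKInst.JK M q hq hqM K)) 𝔮B) :=
  hU M q hq hqM A K (four_or_nine haux) hdvr

end U

/-! ### (3) `j`, `hj` -/

section J

variable (M q : ℕ) [NeZero M] [NeZero q] (hq : q.Prime) (hqM : ¬ q ∣ M)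
variable {A : ValuationSubring Qb} {K K' : IntermediateField ℚ Qb}
variable {ξ : Qb} {hξ0 : ξ ≠ 0} {ι : FK (M * q * q) K →+* LaurentSeries Qb} {ϖ' : OK A K'}

/-- The element `j` of the level-`M` chart `chart M A K j`. -/
def jA (M : ℕ) [NeZero M] (A : ValuationSubring Qb) (K : IntermediateField ℚ Qb) :
    chart M A K (jK M K) := ⟨jK M K, ChartJ.self_mem_chart M A K (jK M K)⟩

@[simp] theorem coe_jA (M : ℕ) [NeZero M] (A : ValuationSubring Qb)
    (K : IntermediateField ℚ Qb) : ((jA M A K : chart M A K (jK M K)) : FK M K) = jK M K := rfl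

/-- **`hj` of `NakTopB.princ_W3`, VERBATIM** (with `j := jA M A K`): `δ_j = j_{q²} - j` generates
`P 2` at the generic point of `P 2`.  `CC` any subalgebra equal to the chart `j ≠ ∞` of level
`M q²` with fraction field `F_K(M q²)`, `V 2 = H.W3`. -/
theorem hj (CC : Subalgebra (OK A K) (FK (M * q * q) K))
    (hCC : CC = chart (M * q * q) A K (jK (M * q * q) K))
    (hfrac : IsFractionRing CC (FK (M * q * q) K))
    (H : V3.Hyp3 M q hq hqM A K K' ξ hξ0 ι ϖ')
    {π : OK A K} {p : FK (M * q * q) K} {e : Fin 3 → ℕ} {ϖ : Fin 3 → FK (M * q * q) K}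
    {V : Fin 3 → ValuationSubring (FK (M * q * q) K)} {P : Fin 3 → Ideal CC}
    (hyp : ChartHyp3 π ϖ V P) (hval : ValHyp3 p e ϖ V) (hV2 : V 2 = H.W3) :
    ∀ y ∈ P 2, ∃ s : CC, s ∉ P 2 ∧ ∃ c : CC,
      s * y = c *
        (NakMod.phiB M q hq hqM (chart (M * q) A K (WKInst.JK M q hq hqM K))
            (WKInst.chart_JK_eq M q hq hqM A K) CC hCC
            (NakMod.iota1 M q hq hqM (chart (M * q) A K (WKInst.JK M q hq hqM K))
              (WKInst.chart_JK_eq M q hq hqM A K) (jA M A K))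
          - NakMod.phiA M q hq hqM (chart (M * q) A K (WKInst.JK M q hq hqM K))
            (WKInst.chart_JK_eq M q hq hqM A K) CC hCC
            (NakMod.iota1 M q hq hqM (chart (M * q) A K (WKInst.JK M q hq hqM K))
              (WKInst.chart_JK_eq M q hq hqM A K) (jA M A K))) :=
  NakModC.delta_j_gen M q hq hqM (chart (M * q) A K (WKInst.JK M q hq hqM K))
    (WKInst.chart_JK_eq M q hq hqM A K) CC hCC hfrac H hyp hval hV2 (jA M A K) rfl

end J

/-! ### (4) `hbr`, and the closed `hnak` on `chart J3` -/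

section Br

variable {M q : ℕ} [NeZero M] [NeZero q] {hq : q.Prime} {hqM : ¬ q ∣ M}
variable {A : ValuationSubring Qb} {K K' : IntermediateField ℚ Qb}
variable {ξ : Qb} {hξ0 : ξ ≠ 0} {ι : FK (M * q * q) K →+* LaurentSeries Qb} {ϖ' : OK A K'}

/-- **`hbr` of `NakTopB.princ_W3`, VERBATIM**, for `CC = chart (M q²) A K J3` and the model of
record `V = ![V1, V2, H.W3]`, `ϖ = ![π, π, sE]` (any `P` with `ChartHyp3`): the branch `CC / P 2`
is regular of dimension one at every closed point `n ⊇ P 2` over `π`. -/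
theorem hbr (H : V3.Hyp3 M q hq hqM A K K' ξ hξ0 ι ϖ') (hA : A.LiesOverPrime q)
    (hB : BaseFacts q A K) {π : OK A K} (hπ : Irreducible π) (a : A)
    (hqa : (q : Qb) = incO A K π * (a : Qb))
    (hπϖ : ∃ u : A, IsUnit u ∧ incO A K π = incO A K' ϖ' ^ (q - 1) * (u : Qb))
    {P : Fin 3 → Ideal (chart (M * q * q) A K (Chart3B.J3 M q hq hqM K))}
    (hyp : ChartHyp3 π
      ![algebraMap (OK A K) (FK (M * q * q) K) π, algebraMap (OK A K) (FK (M * q * q) K) π,
        Wit3.sE M q hq hqM K]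
      ![GaussV.V1 (M * q * q) A K hB.dvr, GaussV.V2 (WQ2.wK2 M q hq hqM K) hB.dvr, H.W3] P) :
    ∀ n : Ideal (chart (M * q * q) A K (Chart3B.J3 M q hq hqM K)), n.IsMaximal →
      algebraMap (OK A K) (chart (M * q * q) A K (Chart3B.J3 M q hq hqM K)) π ∈ n → P 2 ≤ n →
      ∃ u ∈ n, ∀ x ∈ n, ∃ s : chart (M * q * q) A K (Chart3B.J3 M q hq hqM K), s ∉ n ∧
        ∃ c : chart (M * q * q) A K (Chart3B.J3 M q hq hqM K), s * x - c * u ∈ P 2 := by
  have : Fact q.Prime := ⟨hq⟩
  have hC : ChartFacts M A K (chart M A K (jK M K)) (jK M K) :=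
    Red2B.chartFacts M q hq hqM A K hA hB
  have hW := Model3Top.wit H hB.dvr hA hC hπ a hqa hπϖ
  have hf1 := ResDeg3Inst.hf1 M q hB.dvr hπ hC hW
  have hf3 := ResDeg3Inst.hf3' M q hq hB.dvr hπ hC H.mid.alpha (V3Wit.hW3 H) hW
  intro n hn hπn hPn
  exact ((Level3J3B.branch3_J3 M q hq hqM hA hB π hπ H.emb H.dvr' H.irr H.unif
    H.mid.alpha (Model3Top.gRel_s H) hf1 hf3 P hyp) n hn hπn 2 hPn).2

/-- **The CLOSED `hnak` on `chart J3`** for the model of record (fit-test of `hU`, `hj`, `hbr`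
against `NakTopB.princ_W3`): at EVERY closed point `n ⊇ P 2` of `chart (M q²) A K J3` over `π`,
some vertical prime through `n` (namely `P 2`) is principal at `n`.  Needs `4 ∣ M ∨ 9 ∣ M`. -/
theorem princ_W3_J3 (H : V3.Hyp3 M q hq hqM A K K' ξ hξ0 ι ϖ') (hA : A.LiesOverPrime q)
    (hB : BaseFacts q A K) {π : OK A K} (hπ : Irreducible π) (a : A)
    (hqa : (q : Qb) = incO A K π * (a : Qb))
    (hπϖ : ∃ u : A, IsUnit u ∧ incO A K π = incO A K' ϖ' ^ (q - 1) * (u : Qb))
    (hM : 4 ∣ M ∨ 9 ∣ M)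
    {P : Fin 3 → Ideal (chart (M * q * q) A K (Chart3B.J3 M q hq hqM K))}
    (hyp : ChartHyp3 π
      ![algebraMap (OK A K) (FK (M * q * q) K) π, algebraMap (OK A K) (FK (M * q * q) K) π,
        Wit3.sE M q hq hqM K]
      ![GaussV.V1 (M * q * q) A K hB.dvr, GaussV.V2 (WQ2.wK2 M q hq hqM K) hB.dvr, H.W3] P) :
    ∀ n : Ideal (chart (M * q * q) A K (Chart3B.J3 M q hq hqM K)), n.IsMaximal →
      algebraMap (OK A K) (chart (M * q * q) A K (Chart3B.J3 M q hq hqM K)) π ∈ n → P 2 ≤ n →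
      ∃ i : Fin 3, P i ≤ n ∧ ∃ g ∈ P i, ∀ y ∈ P i,
        ∃ s : chart (M * q * q) A K (Chart3B.J3 M q hq hqM K), s ∉ n ∧
          ∃ c : chart (M * q * q) A K (Chart3B.J3 M q hq hqM K), s * y = c * g := by
  have : Fact q.Prime := ⟨hq⟩
  obtain ⟨⟨hnoeth, hfrac, hintcl⟩, -, -, -⟩ := Chart3B.rings M q hq hqM A K hB.dvr
  have := hnoeth
  have := hfrac
  have := hintcl
  have hval := V3Wit.valHyp3 H hB.dvr hA hπ a hqa hπϖ
  have hCC := Chart3B.chart_J3_eq M q hq hqM A K
  exact NakTopB.princ_W3 M q hq hqM hA hB π hπ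
    (chart (M * q * q) A K (Chart3B.J3 M q hq hqM K)) hCC hyp hval ι
    (NakModC.mem_P2_iff_gRel _ H hyp hval rfl)
    (NakModC.gRel_zero_of_mem_P0 M q _ hB.dvr hyp hval rfl)
    (NakModC.gRel_zero_of_mem_P1 M q hq hqM _ hB.dvr hyp hval rfl)
    H.mid.alpha (fun _ _ h => H.gRel_beta hA h)
    (hU M q hq hqM A K hM hB.dvr) (jA M A K)
    (hj M q hq hqM _ hCC hfrac H hyp hval rfl)
    (hbr H hA hB hπ a hqa hπϖ hyp)

end Br

end Fermat.Agent.S36.NakIn

end
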