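import Mathlib
import Fermat.Agent.S36.NakPlan

/-!
# S36, package [B1-nak], leaf [N9] (abstract core): `princ` at a closed point of `W3`

Pure glue (Mathlib + `NakPlan` only).  `A`, `B`, `C` stand for the charts of levels `M`, `M q`,
`M q²`; `ι`, `ι1 : A → B` the source / target embeddings, `φa`, `φb : B → C` the two embeddings
with `φa ∘ ι = φb ∘ ι`; `P1B`, `P2B` the two vertical primes of `B`, `P3` the vertical prime of
`C` of multiplicity `q - 1`, `n` a closed point of `C` on `P3`, `nB = φa⁻¹ n` the point below.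

* `princ_of_nak` : if `nB` is a ONE-BRANCH point of `B` (on `P2B`, not on `P1B`), then from
  `NakPlan.Z1Statement` and `NakPlan.B1CutStatement`: there is `g : A` such that
  `δ = φb (ι1 g) - φa (ι1 g)` generates `P3` locally at `n`, and every height-one prime through
  `n` is principal at `n`.  The hypotheses are exactly what the modular block supplies:
  `hred`/`hone`/`hbrB` (level `M q`: `P1B ∩ P2B = π B`, `nB ∉ P1B`, the branch `B / P2B` is
  regular at `nB`), `hunr` (= leaf [N8]), `hgenP` (for a local coordinate `ι1 g` of the branch at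
  `nB`: `δ_g` generates `P3` at `P3` and lies in no other vertical prime through `n`), `hbr`
  (the branch `C / P3` is regular at `n`).
* `le_of_comap_le` (going down): if `nB` lies on `P1B`, then `n` lies on the vertical prime of
  `C` above `P1B`; so a point of `C` on `P3` only has a one-branch point below.
-/

set_option autoImplicit false

namespace Fermat.Agent.S36.NakInst

open Fermat.Agent.S34.LocPlan Fermat.Agent.S36.NakPlan

/-- **[N9], abstract core.**  See the file header. -/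
theorem princ_of_nak (hZ1 : Z1Statement) (hB1 : B1CutStatement)
    (O A B C : Type) [CommRing O] [CharZero O] [CommRing A] [CommRing B] [CommRing C]
    [IsDomain C] [IsNoetherianRing C] [IsIntegrallyClosed C]
    [Algebra O A] [Algebra O B] [Algebra O C]
    (ι ι1 : A →ₐ[O] B) (φa φb : B →ₐ[O] C) (n P3 : Ideal C) (P1B P2B : Ideal B) (ϖ : O)
    (hn : n.IsMaximal) (hP3 : P3.IsPrime) (hP3n : P3 ≤ n)
    (hcomm : ∀ a : A, φa (ι a) = φb (ι a))
    (hint : ∀ b : B, ∃ p : Polynomial A, p.Monic ∧ Polynomial.eval₂ (ι : A →+* B) b p = 0)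
    (hPa : ∀ r : B, φa r ∈ P3 ↔ r ∈ P2B) (hPb : ∀ r : B, φb r ∈ P3 ↔ r ∈ P2B)
    (hres : ∀ r : B, ∃ g : A, r - ι1 g ∈ P2B)
    (hδ : ∀ g : A, φb (ι1 g) - φa (ι1 g) ∈ P3)
    (hrat : ∀ r : B, ∃ c : O, r - algebraMap O B c ∈ Ideal.comap (φa : B →+* C) n)
    (hϖ : algebraMap O C ϖ ∈ n)
    (hred : ∀ x : B, x ∈ P1B → x ∈ P2B → ∃ r : B, x = algebraMap O B ϖ * r)
    (hone : ¬ P1B ≤ Ideal.comap (φa : B →+* C) n)
    (hbrB : ∃ u ∈ Ideal.comap (φa : B →+* C) n, ∀ x ∈ Ideal.comap (φa : B →+* C) n,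
      ∃ s : B, s ∉ Ideal.comap (φa : B →+* C) n ∧ ∃ c : B, s * x - c * u ∈ P2B)
    (hunr : ∀ 𝔮B : Ideal B, 𝔮B.IsPrime → 𝔮B ≤ Ideal.comap (φa : B →+* C) n →
      (∀ c : O, algebraMap O B c ∈ 𝔮B → c = 0) →
      ∀ r ∈ 𝔮B, ∃ s : B, s ∉ 𝔮B ∧
        s * r ∈ Ideal.map (ι : A →+* B) (Ideal.comap (ι : A →+* B) 𝔮B))
    (hgenP : ∀ g : A, ι1 g ∈ Ideal.comap (φa : B →+* C) n →
      (∀ x ∈ Ideal.comap (φa : B →+* C) n, ∃ s : B, s ∉ Ideal.comap (φa : B →+* C) n ∧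
        ∃ c : B, s * x - c * ι1 g ∈ P2B) →
      φb (ι1 g) - φa (ι1 g) ≠ 0 ∧
      (∀ y ∈ P3, ∃ s : C, s ∉ P3 ∧ ∃ c : C, s * y = c * (φb (ι1 g) - φa (ι1 g))) ∧
      ∀ 𝔭 : Ideal C, 𝔭.IsPrime → 𝔭 ≤ n → PrincAt 𝔭 → 𝔭 ≠ P3 →
        (∃ c : O, c ≠ 0 ∧ algebraMap O C c ∈ 𝔭) → φb (ι1 g) - φa (ι1 g) ∉ 𝔭)
    (hbr : ∃ t ∈ n, ∀ x ∈ n, ∃ s : C, s ∉ n ∧ ∃ c : C, s * x - c * t ∈ P3) :
    ∃ g : A, GenAt n P3 (φb (ι1 g) - φa (ι1 g)) ∧
      ∀ 𝔮 : Ideal C, 𝔮.IsPrime → 𝔮 ≤ n → PrincAt 𝔮 → 𝔮 ≠ P3 → ∃ e : C, GenAt n 𝔮 e := by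
  classical
  have hnBprime : (Ideal.comap (φa : B →+* C) n).IsPrime := Ideal.comap_isPrime _ _
  -- `P2B ≤ nB`
  have hP2n : P2B ≤ Ideal.comap (φa : B →+* C) n := by
    intro r hr
    rw [Ideal.mem_comap]
    exact hP3n ((hPa r).2 hr)
  obtain ⟨u, hu, hugen⟩ := hbrB
  obtain ⟨g, hg⟩ := hres u
  have hι1g : ι1 g ∈ Ideal.comap (φa : B →+* C) n := by
    have h1 : ι1 g = u - (u - ι1 g) := by ring
    rw [h1]
    exact Ideal.sub_mem _ hu (hP2n hg)
  have hggen : ∀ x ∈ Ideal.comap (φa : B →+* C) n, ∃ s : B,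
      s ∉ Ideal.comap (φa : B →+* C) n ∧ ∃ c : B, s * x - c * ι1 g ∈ P2B := by
    intro x hx
    obtain ⟨s, hs, c, hc⟩ := hugen x hx
    refine ⟨s, hs, c, ?_⟩
    have h1 : s * x - c * ι1 g = (s * x - c * u) + c * (u - ι1 g) := by ring
    rw [h1]
    exact Ideal.add_mem _ hc (Ideal.mul_mem_left _ _ hg)
  obtain ⟨hδ0, hδgen, hδvert⟩ := hgenP g hι1g hggen
  -- a witness of `nB ∉ P1B`
  obtain ⟨s1, hs1P, hs1n⟩ : ∃ s1 : B, s1 ∈ P1B ∧ s1 ∉ Ideal.comap (φa : B →+* C) n := by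
    by_contra hcon
    push Not at hcon
    exact hone (fun x hx => hcon x hx)
  have hϖB : algebraMap O B ϖ ∈ Ideal.comap (φa : B →+* C) n := by
    rw [Ideal.mem_comap]
    have h1 : (φa : B →+* C) (algebraMap O B ϖ) = algebraMap O C ϖ := φa.commutes ϖ
    rw [h1]
    exact hϖ
  -- local generation of `nB` by `π` and `ι1 g`
  have hloc : ∀ x ∈ Ideal.comap (φa : B →+* C) n, ∃ s : B,
      s ∉ Ideal.comap (φa : B →+* C) n ∧
      s * x ∈ Ideal.span (((Ideal.comap (φa : B →+* C) n : Ideal B) : Set B) ∩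
        ((Algebra.adjoin O (Set.range ι ∪ {ι1 g}) : Subalgebra O B) : Set B)) := by
    intro x hx
    obtain ⟨s, hs, c, hc⟩ := hggen x hx
    obtain ⟨r, hr⟩ := hred (s1 * (s * x - c * ι1 g)) (Ideal.mul_mem_right _ _ hs1P)
      (Ideal.mul_mem_left _ _ hc)
    refine ⟨s1 * s, ?_, ?_⟩
    · intro h
      rcases hnBprime.mem_or_mem h with h | h
      · exact hs1n h
      · exact hs h
    · have h1 : s1 * s * x = (s1 * c) * ι1 g + r * algebraMap O B ϖ := by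
        linear_combination hr
      rw [h1]
      refine Ideal.add_mem _ (Ideal.mul_mem_left _ _ (Ideal.subset_span ⟨hι1g, ?_⟩))
        (Ideal.mul_mem_left _ _ (Ideal.subset_span ⟨hϖB, ?_⟩))
      · exact Algebra.subset_adjoin (Or.inr rfl)
      · exact Subalgebra.algebraMap_mem _ ϖ
  -- `Z1`
  have hZ := hZ1 O A B C ι ι1 φa φb n P3 P2B g hn hP3n hcomm hint hPa hPb hres hδ hrat hloc
    hunr hδ0
  -- `B1Cut`
  have hB := hB1 C n P3 (φb (ι1 g) - φa (ι1 g)) hn hP3 hP3n hδ0 (hδ g) hδgen hbr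
    (by
      intro 𝔭 h𝔭 h𝔭n h𝔭P hne
      by_cases hv : ∃ c : O, c ≠ 0 ∧ algebraMap O C c ∈ 𝔭
      · exact hδvert 𝔭 h𝔭 h𝔭n h𝔭P hne hv
      · push Not at hv
        refine hZ 𝔭 h𝔭 h𝔭n (fun c hc => ?_)
        by_contra hc0
        exact hv c hc0 hc)
  exact ⟨g, hB.1, hB.2⟩

/-- **Going down** (for the case distinction one-branch / crossing point below): `B → C`
injective and integral, `B` an integrally closed domain, `C` a domain.  If every prime of `C`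
containing `ϖ` contains one of the vertical primes `P i`, the vertical primes other than `P i₀`
pull back to primes not contained in `P1B`, and `P1B ≤ φ⁻¹ n`, `ϖ ∈ P1B`, then `P i₀ ≤ n`. -/
theorem le_of_comap_le {B C : Type*} [CommRing B] [IsDomain B] [IsIntegrallyClosed B]
    [CommRing C] [IsDomain C] (φ : B →+* C) (hφ : Function.Injective φ) (hint : φ.IsIntegral)
    {κ : Type*} (P : κ → Ideal C) (i₀ : κ) (P1B : Ideal B) [P1B.IsPrime] (ϖ : B) (hϖ : ϖ ∈ P1B)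
    (hvert : ∀ Q : Ideal C, Q.IsPrime → φ ϖ ∈ Q → ∃ i, P i ≤ Q)
    (hother : ∀ i, i ≠ i₀ → ¬ Ideal.comap φ (P i) ≤ P1B)
    (n : Ideal C) [n.IsPrime] (hle : P1B ≤ Ideal.comap φ n) : P i₀ ≤ n := by
  classical
  let _ : Algebra B C := φ.toAlgebra
  have : FaithfulSMul B C := (faithfulSMul_iff_algebraMap_injective B C).2 hφ
  have : Algebra.IsIntegral B C := ⟨hint⟩
  have : (Ideal.comap (algebraMap B C) n).IsPrime := Ideal.comap_isPrime _ _
  have : n.LiesOver (Ideal.comap (algebraMap B C) n) := ⟨rfl⟩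
  obtain ⟨Q, hQn, hQp, hQo⟩ :=
    Ideal.exists_ideal_le_liesOver_of_le (p := P1B) (q := Ideal.comap (algebraMap B C) n) n hle
  have hQ : Ideal.comap φ Q = P1B := hQo.over.symm
  obtain ⟨i, hi⟩ := hvert Q hQp (by
    have : ϖ ∈ Ideal.comap φ Q := by rw [hQ]; exact hϖ
    exact this)
  by_cases hii : i = i₀
  · subst hii
    exact hi.trans hQn
  · exact absurd (by rw [← hQ]; exact Ideal.comap_mono hi) (hother i hii)

end Fermat.Agent.S36.NakInst
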