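import Mathlib
import Fermat.Agent.S36.NakMod
import Fermat.Agent.S36.Iota3

/-!
# S36, package [B1-nak], leaf [N9-mod] : the expansion hypotheses of `S36/NakMod` for the
middle-cusp embedding `E = ι3` of `S36/Iota3`

`NakMod.phiA_mem_iff`, `phiB_mem_iff`, `delta_mem` are stated for an abstract ring homomorphism
`E : F_K(M q²) → ℚ̄((Q))` with

* `hEα : E (α₂ x) = x`  (`E` is the identity on the image of `F_K(M q)`), and
* `hEβ : GRel A (w_q x) y → GRel A (E (β₂ x)) y`  (along `E`, `β₂ x` reduces like `w_q x`).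

Here both are proved for `E = Iota3.iota3 M q K hq hqM ξ hξ hξ1` (`ξ ≠ 1` a `q`-th root of
unity, `A` a place over `q`):

* `alphaK2_eq_incl`, `betaK2_eq_betaQ` : the maps of `S36/WQ2` are those of `S36/Iota3`;
* `iota3_alphaK2`      : `hEα`;
* `iota3_betaK2`       : `ι3 (β₂ x) = (w_q x)(ξ Q)`;
* `gRel_iota3_betaK2`  : `hEβ`;
* `iota3_delta`        : `ι3 δ_g = g(ξ Q) - g(Q)`.
-/

set_option autoImplicit false

noncomputable section

namespace Fermat.Agent.S36.NakModE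

open ModularCurve HahnSeries
open Fermat.Agent.S18 Fermat.Agent.S18.Arith Fermat.Agent.S18.ModelPlan
open Fermat.Agent.S34 Fermat.Agent.S24

variable (M q : ℕ) [NeZero M] [NeZero q] (hq : q.Prime) (hqM : ¬ q ∣ M)
variable {A : ValuationSubring Qb} (K : IntermediateField ℚ Qb)

/-- `α₂` of `S36/WQ2` is the inclusion `DegTower.incl`. -/
theorem alphaK2_eq_incl (x : FK (M * q) K) :
    WQ2.alphaK2 M q K x = DegTower.incl (M * q) (M * q * q) K (Dvd.intro q rfl) x := by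
  apply Subtype.ext
  rw [WQ2.coe_alphaK2, DegTower.coe_incl]

/-- `β₂` of `S36/WQ2` is `betaQ` of `S36/Iota3`. -/
theorem betaK2_eq_betaQ (x : FK (M * q) K) :
    WQ2.betaK2 M q hq hqM K x = Iota3.betaQ (M * q) K q x := by
  apply Subtype.ext
  rw [WQ2.coe_betaK2, Iota3.coe_betaQ]

variable (ξ : Qb) (hξ : ξ ^ q = 1) (hξ1 : ξ ≠ 1)

/-- **`hEα`** : `ι3` is the identity on `α₂ (F_K(M q))`. -/
theorem iota3_alphaK2 (x : FK (M * q) K) :
    Iota3.iota3 M q K hq hqM ξ hξ hξ1 (WQ2.alphaK2 M q K x) = (x : LaurentSeries Qb) := by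
  rw [alphaK2_eq_incl, Iota3.iota3_incl]

/-- `ι3 (β₂ x) = (w_q x)(ξ Q)`. -/
theorem iota3_betaK2 (x : FK (M * q) K) :
    Iota3.iota3 M q K hq hqM ξ hξ hξ1 (WQ2.betaK2 M q hq hqM K x)
      = rotHom ξ (Iota3.xi_ne_zero q hξ)
          ((WK.wK M q hq hqM K x : FK (M * q) K) : LaurentSeries Qb) := by
  rw [betaK2_eq_betaQ,
    Iota3.iota3_betaQ M q K
      (WK.wBar M q hq hqM : modularFunctionFieldBar (M * q) →ₐ[Qb] modularFunctionFieldBar (M * q))
      (WK.wBar_alpha M q hq hqM) (WK.wBar_beta M q hq hqM) hq hqM ξ hξ hξ1 x]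
  rfl

/-- **`hEβ`** : along `ι3`, `β₂ x` has the Gauss reduction of `w_q x`. -/
theorem gRel_iota3_betaK2 (hA : A.LiesOverPrime q) (x : FK (M * q) K)
    (y : LaurentSeries (IsLocalRing.ResidueField A))
    (h : GRel A ((WK.wK M q hq hqM K x : FK (M * q) K) : LaurentSeries Qb) y) :
    GRel A (Iota3.iota3 M q K hq hqM ξ hξ hξ1 (WQ2.betaK2 M q hq hqM K x)) y := by
  have : Fact q.Prime := ⟨hq⟩
  rw [iota3_betaK2]
  exact ConjMod.gRel_rot q hA hξ (Iota3.xi_ne_zero q hξ) h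

/-- `ι3 (β₂ (β g)) = g(ξ Q)` for `g` of level `M`. -/
theorem iota3_betaK2_betaK (g : FK M K) :
    Iota3.iota3 M q K hq hqM ξ hξ hξ1 (WQ2.betaK2 M q hq hqM K (WK.betaK M q hq hqM K g))
      = rotHom ξ (Iota3.xi_ne_zero q hξ) ((g : FK M K) : LaurentSeries Qb) := by
  rw [iota3_betaK2, WK.wK_betaK, WK.coe_alphaK]

section Delta

variable (CB : Subalgebra (OK A K) (FK (M * q) K))
  (hCB : CB = chart (M * q) A K (jK (M * q) K))
  (CC : Subalgebra (OK A K) (FK (M * q * q) K))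
  (hCC : CC = chart (M * q * q) A K (jK (M * q * q) K))

/-- `ι3 δ_g = g(ξ Q) - g(Q)`. -/
theorem iota3_delta (g : chart M A K (jK M K)) :
    Iota3.iota3 M q K hq hqM ξ hξ hξ1
        ((NakMod.delta M q hq hqM CB hCB CC hCC g : CC) : FK (M * q * q) K)
      = rotHom ξ (Iota3.xi_ne_zero q hξ) ((g : FK M K) : LaurentSeries Qb)
        - ((g : FK M K) : LaurentSeries Qb) := by
  rw [NakMod.delta_def, Subalgebra.coe_sub, map_sub, NakMod.coe_phiA_iota1, iota3_alphaK2,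
    WK.coe_alphaK, NakMod.coe_phiB, NakMod.coe_iota1, iota3_betaK2_betaK]

end Delta

end Fermat.Agent.S36.NakModE
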