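import Mathlib
import Fermat.Agent.S36.NakPlan

/-!
# S36, package [B1-nak], leaf [N5] (second copy) : rigidity of an unramified prime

`rigidStatementB : NakPlan.RigidStatement`.

Two ring maps `φa, φb : B → C` into a noetherian domain which agree on `ι A`, with `B` integral
over `ι A`, congruent modulo a prime `𝔮` of residue characteristic zero such that `φa⁻¹ 𝔮` is
unramified over `A`, are equal.

Proof.  `d := φa - φb` satisfies the twisted Leibniz rule `d (u v) = φa u * d v + d u * φb v`.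
With the symbolic powers `Sym 𝔮 N = {x | ∃ s ∉ 𝔮, s x ∈ 𝔮 ^ N}` one shows `d B ⊆ Sym 𝔮 N` by
induction on `N`: first for `r ∈ φa⁻¹ 𝔮` (unramifiedness), then for every `b` through a polynomial
`p` over `A` of minimal degree with leading coefficient outside `𝔮` and `φa (p b) ∈ 𝔮`, for which
`φa (p' b) ∉ 𝔮`.  Krull's intersection theorem in the localisation of `C` at `𝔮` concludes.
-/

set_option autoImplicit false

namespace Fermat.Agent.S36.NakRigidB

open Polynomial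

section Sym

variable {C : Type*} [CommRing C]

/-- Membership in the `N`-th symbolic power of `𝔮`. -/
def Sym (𝔮 : Ideal C) (N : ℕ) (x : C) : Prop := ∃ s : C, s ∉ 𝔮 ∧ s * x ∈ 𝔮 ^ N

theorem sym_zero (𝔮 : Ideal C) [𝔮.IsPrime] (N : ℕ) : Sym 𝔮 N 0 :=
  ⟨1, fun h => (Ideal.IsPrime.ne_top ‹_›) ((Ideal.eq_top_iff_one _).2 h), by simp⟩

theorem sym_add {𝔮 : Ideal C} [h𝔮 : 𝔮.IsPrime] {N : ℕ} {x y : C} (hx : Sym 𝔮 N x)
    (hy : Sym 𝔮 N y) : Sym 𝔮 N (x + y) := by
  obtain ⟨s, hs, hsx⟩ := hx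
  obtain ⟨t, ht, hty⟩ := hy
  refine ⟨s * t, fun h => (h𝔮.mem_or_mem h).elim hs ht, ?_⟩
  have h1 : s * t * (x + y) = t * (s * x) + s * (t * y) := by ring
  rw [h1]
  exact Ideal.add_mem _ (Ideal.mul_mem_left _ _ hsx) (Ideal.mul_mem_left _ _ hty)

theorem sym_mul_left {𝔮 : Ideal C} {N : ℕ} {x : C} (c : C) (hx : Sym 𝔮 N x) :
    Sym 𝔮 N (c * x) := by
  obtain ⟨s, hs, hsx⟩ := hx
  refine ⟨s, hs, ?_⟩
  have h1 : s * (c * x) = c * (s * x) := by ring
  rw [h1]
  exact Ideal.mul_mem_left _ _ hsx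

theorem sym_neg {𝔮 : Ideal C} {N : ℕ} {x : C} (hx : Sym 𝔮 N x) : Sym 𝔮 N (-x) := by
  have := sym_mul_left (-1) hx
  simpa using this

theorem sym_sub {𝔮 : Ideal C} [𝔮.IsPrime] {N : ℕ} {x y : C} (hx : Sym 𝔮 N x)
    (hy : Sym 𝔮 N y) : Sym 𝔮 N (x - y) := by
  rw [sub_eq_add_neg]
  exact sym_add hx (sym_neg hy)

/-- `𝔮 · 𝔮^(N) ⊆ 𝔮^(N+1)`. -/
theorem sym_succ_of_mem_mul {𝔮 : Ideal C} {N : ℕ} {x y : C} (hy : y ∈ 𝔮) (hx : Sym 𝔮 N x) :
    Sym 𝔮 (N + 1) (y * x) := by
  obtain ⟨s, hs, hsx⟩ := hx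
  refine ⟨s, hs, ?_⟩
  have h1 : s * (y * x) = (s * x) * y := by ring
  rw [h1, pow_succ]
  exact Ideal.mul_mem_mul hsx hy

/-- Elements outside `𝔮` are non-zero-divisors modulo symbolic powers. -/
theorem sym_of_mul {𝔮 : Ideal C} [h𝔮 : 𝔮.IsPrime] {N : ℕ} {u x : C} (hu : u ∉ 𝔮)
    (hx : Sym 𝔮 N (u * x)) : Sym 𝔮 N x := by
  obtain ⟨s, hs, hsx⟩ := hx
  refine ⟨s * u, fun h => (h𝔮.mem_or_mem h).elim hs hu, ?_⟩
  rwa [mul_assoc]

/-- Krull: the symbolic powers of a prime of a noetherian domain have zero intersection. -/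
theorem eq_zero_of_forall_sym [IsDomain C] [IsNoetherianRing C] {𝔮 : Ideal C} [h𝔮 : 𝔮.IsPrime]
    {x : C} (h : ∀ N : ℕ, Sym 𝔮 N x) : x = 0 := by
  let L := Localization.AtPrime 𝔮
  have : IsNoetherianRing L := IsLocalization.isNoetherianRing 𝔮.primeCompl L inferInstance
  have hmem : ∀ N : ℕ, algebraMap C L x ∈ (IsLocalRing.maximalIdeal L) ^ N := by
    intro N
    obtain ⟨s, hs, hsx⟩ := h N
    have hu : IsUnit (algebraMap C L s) :=
      IsLocalization.map_units L (⟨s, hs⟩ : 𝔮.primeCompl)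
    have h1 : algebraMap C L (s * x) ∈ (IsLocalRing.maximalIdeal L) ^ N := by
      have h2 : algebraMap C L (s * x) ∈ Ideal.map (algebraMap C L) (𝔮 ^ N) :=
        Ideal.mem_map_of_mem _ hsx
      rw [Ideal.map_pow, Localization.AtPrime.map_eq_maximalIdeal] at h2
      exact h2
    rw [map_mul] at h1
    obtain ⟨v, hv⟩ := hu
    have h3 : algebraMap C L x = (↑v⁻¹ : L) * (algebraMap C L s * algebraMap C L x) := by
      rw [← hv, ← mul_assoc, Units.inv_mul, one_mul]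
    rw [h3]
    exact Ideal.mul_mem_left _ _ h1
  have hbot : (⨅ i : ℕ, (IsLocalRing.maximalIdeal L) ^ i) = ⊥ :=
    Ideal.iInf_pow_eq_bot_of_isLocalRing _ (IsLocalRing.maximalIdeal.isMaximal L).ne_top
  have h0 : algebraMap C L x = 0 := by
    have h4 : algebraMap C L x ∈ (⨅ i : ℕ, (IsLocalRing.maximalIdeal L) ^ i) := by
      rw [Ideal.mem_iInf]
      exact hmem
    rw [hbot] at h4
    simpa using h4
  have hinj : Function.Injective (algebraMap C L) :=
    IsLocalization.injective L (Ideal.primeCompl_le_nonZeroDivisors 𝔮)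
  exact hinj (by rw [h0, map_zero])

end Sym

section Main

variable {A B C : Type*} [CommRing A] [CommRing B] [CommRing C]

/-- Twisted Leibniz rule for the difference of two ring maps. -/
theorem leibniz (φa φb : B →+* C) (u v : B) :
    φa (u * v) - φb (u * v) = φa u * (φa v - φb v) + (φa u - φb u) * φb v := by
  rw [map_mul, map_mul]
  ring

/-- Step (i): the difference takes `φa⁻¹ 𝔮` into the next symbolic power. -/
theorem step_comap (ι : A →+* B) (φa φb : B →+* C) (𝔮 : Ideal C) [h𝔮 : 𝔮.IsPrime]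
    (hι : ∀ a : A, φa (ι a) = φb (ι a))
    (hcong : ∀ b : B, φa b - φb b ∈ 𝔮)
    (hunr : ∀ r : B, φa r ∈ 𝔮 → ∃ s : B, φa s ∉ 𝔮 ∧
      s * r ∈ Ideal.map ι (Ideal.comap (φa.comp ι) 𝔮))
    (N : ℕ) (hN : ∀ b : B, Sym 𝔮 N (φa b - φb b)) (r : B) (hr : φa r ∈ 𝔮) :
    Sym 𝔮 (N + 1) (φa r - φb r) := by
  have hφb : ∀ z : B, φa z ∈ 𝔮 → φb z ∈ 𝔮 := by
    intro z hz
    have h1 : φb z = φa z - (φa z - φb z) := by ring
    rw [h1]
    exact Ideal.sub_mem _ hz (hcong z)
  have hle : Ideal.map ι (Ideal.comap (φa.comp ι) 𝔮) ≤ Ideal.comap φa 𝔮 := by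
    rw [Ideal.map_le_iff_le_comap]
    intro a ha
    exact ha
  have hmap : ∀ z ∈ Ideal.map ι (Ideal.comap (φa.comp ι) 𝔮), Sym 𝔮 (N + 1) (φa z - φb z) := by
    intro z hz
    unfold Ideal.map at hz
    induction hz using Submodule.span_induction with
    | mem z hz =>
      obtain ⟨a, _, rfl⟩ := hz
      rw [hι a, sub_self]
      exact sym_zero 𝔮 _
    | zero =>
      rw [map_zero, map_zero, sub_self]
      exact sym_zero 𝔮 _
    | add x y _ _ hx hy =>
      have h1 : φa (x + y) - φb (x + y) = (φa x - φb x) + (φa y - φb y) := by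
        rw [map_add, map_add]; ring
      rw [h1]
      exact sym_add hx hy
    | smul c x hx hx' =>
      have hxq : φb x ∈ 𝔮 := hφb x (hle hx)
      rw [smul_eq_mul, leibniz]
      refine sym_add (sym_mul_left _ hx') ?_
      rw [mul_comm]
      exact sym_succ_of_mem_mul hxq (hN c)
  obtain ⟨s, hs, hsr⟩ := hunr r hr
  have h1 := hmap _ hsr
  rw [leibniz] at h1
  have h2 : Sym 𝔮 (N + 1) ((φa s - φb s) * φb r) := by
    rw [mul_comm]
    exact sym_succ_of_mem_mul (hφb r hr) (hN s)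
  have h3 : Sym 𝔮 (N + 1) (φa s * (φa r - φb r)) := by
    have h4 := sym_sub h1 h2
    rwa [add_sub_cancel_right] at h4
  exact sym_of_mul hs h3

/-- A polynomial over `A` of minimal degree with leading coefficient outside `𝔮` whose value at
`b` lies in `φa⁻¹ 𝔮`; its derivative at `b` lies outside `φa⁻¹ 𝔮`. -/
theorem exists_minimal (ι : A →+* B) (φa : B →+* C) (𝔮 : Ideal C) [h𝔮 : 𝔮.IsPrime]
    (hchar : ∀ k : ℕ, k ≠ 0 → (k : C) ∉ 𝔮) (b : B)
    (hint : ∃ p : Polynomial A, p.Monic ∧ Polynomial.eval₂ ι b p = 0) :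
    ∃ p : Polynomial A, φa (Polynomial.eval₂ ι b p) ∈ 𝔮 ∧
      φa (Polynomial.eval₂ ι b (Polynomial.derivative p)) ∉ 𝔮 := by
  classical
  let S : ℕ → Prop := fun n => ∃ p : Polynomial A, p.natDegree ≤ n ∧
    φa (ι (p.coeff n)) ∉ 𝔮 ∧ φa (Polynomial.eval₂ ι b p) ∈ 𝔮
  have hS : ∃ n, S n := by
    obtain ⟨p, hp, hpb⟩ := hint
    refine ⟨p.natDegree, p, le_rfl, ?_, ?_⟩
    · rw [Polynomial.coeff_natDegree, hp.leadingCoeff, map_one, map_one]
      exact fun h => h𝔮.ne_top ((Ideal.eq_top_iff_one _).2 h)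
    · rw [hpb, map_zero]
      exact Ideal.zero_mem _
  obtain ⟨p, hdeg, hlc, hpb⟩ := Nat.find_spec hS
  have hmin := fun k (hk : k < Nat.find hS) => Nat.find_min hS hk
  set n := Nat.find hS with hn
  refine ⟨p, hpb, ?_⟩
  rcases Nat.eq_zero_or_pos n with h0 | hpos
  · exfalso
    rw [h0] at hdeg hlc
    have hC : p = Polynomial.C (p.coeff 0) := Polynomial.eq_C_of_natDegree_le_zero hdeg
    rw [hC, Polynomial.eval₂_C] at hpb
    exact hlc hpb
  · intro hder
    apply hmin (n - 1) (by omega)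
    refine ⟨Polynomial.derivative p, ?_, ?_, hder⟩
    · exact (Polynomial.natDegree_derivative_le p).trans (by omega)
    · rw [Polynomial.coeff_derivative]
      have h1 : n - 1 + 1 = n := by omega
      rw [h1]
      have h2 : ((n - 1 : ℕ) : A) + 1 = ((n : ℕ) : A) := by
        rw [← Nat.cast_succ]
        congr 1
      rw [h2, map_mul, map_mul, map_natCast, map_natCast]
      intro h3
      rcases h𝔮.mem_or_mem h3 with h4 | h4
      · exact hlc h4
      · exact hchar n (by omega) h4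

/-- Step (ii): the difference takes `B` into the next symbolic power. -/
theorem step_all (ι : A →+* B) (φa φb : B →+* C) (𝔮 : Ideal C) [h𝔮 : 𝔮.IsPrime]
    (hchar : ∀ k : ℕ, k ≠ 0 → (k : C) ∉ 𝔮)
    (hι : ∀ a : A, φa (ι a) = φb (ι a))
    (hint : ∀ b : B, ∃ p : Polynomial A, p.Monic ∧ Polynomial.eval₂ ι b p = 0)
    (hcong : ∀ b : B, φa b - φb b ∈ 𝔮)
    (hunr : ∀ r : B, φa r ∈ 𝔮 → ∃ s : B, φa s ∉ 𝔮 ∧
      s * r ∈ Ideal.map ι (Ideal.comap (φa.comp ι) 𝔮))
    (N : ℕ) (hN : ∀ b : B, Sym 𝔮 N (φa b - φb b)) (b : B) :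
    Sym 𝔮 (N + 1) (φa b - φb b) := by
  obtain ⟨p, hpb, hder⟩ := exists_minimal ι φa 𝔮 hchar b (hint b)
  have hcomp : φb.comp ι = φa.comp ι := RingHom.ext fun a => (hι a).symm
  have h1 := step_comap ι φa φb 𝔮 hι hcong hunr N hN _ hpb
  set P : Polynomial C := p.map (φa.comp ι) with hP
  have hEa : ∀ r : Polynomial A, φa (Polynomial.eval₂ ι b r) =
      Polynomial.eval (φa b) (r.map (φa.comp ι)) := by
    intro r
    rw [Polynomial.hom_eval₂, Polynomial.eval_map]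
  have hEb : ∀ r : Polynomial A, φb (Polynomial.eval₂ ι b r) =
      Polynomial.eval (φb b) (r.map (φa.comp ι)) := by
    intro r
    rw [Polynomial.hom_eval₂, Polynomial.eval_map, hcomp]
  obtain ⟨k, hk⟩ := Polynomial.binomExpansion P (φb b) (φa b - φb b)
  have hxy : φb b + (φa b - φb b) = φa b := by ring
  rw [hxy] at hk
  have h2 : φa (Polynomial.eval₂ ι b p) - φb (Polynomial.eval₂ ι b p) =
      (Polynomial.eval (φb b) (Polynomial.derivative P) + k * (φa b - φb b)) *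
        (φa b - φb b) := by
    rw [hEa, hEb, hk]
    ring
  rw [h2] at h1
  refine sym_of_mul ?_ h1
  intro hmem
  apply hder
  have h3 : Polynomial.eval (φb b) (Polynomial.derivative P) =
      φb (Polynomial.eval₂ ι b (Polynomial.derivative p)) := by
    rw [hEb, hP, Polynomial.derivative_map]
  rw [h3] at hmem
  have h4 : φa (Polynomial.eval₂ ι b (Polynomial.derivative p)) =
      (φb (Polynomial.eval₂ ι b (Polynomial.derivative p)) + k * (φa b - φb b)) +
        ((φa (Polynomial.eval₂ ι b (Polynomial.derivative p)) -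
          φb (Polynomial.eval₂ ι b (Polynomial.derivative p))) - k * (φa b - φb b)) := by
    ring
  rw [h4]
  exact Ideal.add_mem _ hmem
    (Ideal.sub_mem _ (hcong _) (Ideal.mul_mem_left _ _ (hcong b)))

/-- The difference lies in every symbolic power. -/
theorem sym_all (ι : A →+* B) (φa φb : B →+* C) (𝔮 : Ideal C) [h𝔮 : 𝔮.IsPrime]
    (hchar : ∀ k : ℕ, k ≠ 0 → (k : C) ∉ 𝔮)
    (hι : ∀ a : A, φa (ι a) = φb (ι a))
    (hint : ∀ b : B, ∃ p : Polynomial A, p.Monic ∧ Polynomial.eval₂ ι b p = 0)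
    (hcong : ∀ b : B, φa b - φb b ∈ 𝔮)
    (hunr : ∀ r : B, φa r ∈ 𝔮 → ∃ s : B, φa s ∉ 𝔮 ∧
      s * r ∈ Ideal.map ι (Ideal.comap (φa.comp ι) 𝔮)) :
    ∀ (N : ℕ) (b : B), Sym 𝔮 N (φa b - φb b) := by
  intro N
  induction N with
  | zero =>
    intro b
    exact ⟨1, fun h => h𝔮.ne_top ((Ideal.eq_top_iff_one _).2 h), by simp⟩
  | succ N ih =>
    intro b
    exact step_all ι φa φb 𝔮 hchar hι hint hcong hunr N ih b

end Main

/-- **[N5] Rigid** (second copy). -/
theorem rigidStatementB : NakPlan.RigidStatement := by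
  intro A B C _ _ _ _ _ ι φa φb 𝔮 h𝔮 hchar hι hint hcong hunr b
  have := h𝔮
  have h := fun N => sym_all ι φa φb 𝔮 hchar hι hint hcong hunr N b
  have h0 := eq_zero_of_forall_sym h
  exact sub_eq_zero.1 h0

end Fermat.Agent.S36.NakRigidB
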