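/-
S36, package [B1-nak], leaf [N8] — the CLOSED `hU` binder (helper47).

`hU_closed` is the unramifiedness hypothesis `(U)` of `NakAsm.b1_at_W3_point` in the exact binder
shape of `NakTopB.b1_W3` / `NakTopB.princ_W3`: `CB = chart (M q) A K (WKInst.JK …)`,
`CA = chart M A K (jK M K)`, `ι = NakMod.iota M q CB (WKInst.chart_JK_eq …)`; all ring-theoretic
instances of the two charts are supplied here.  It is `NakUnramEll.unram` (helper120), which rests
on `NoEll` (no elliptic points at the auxiliary level).  `hM_of_auxHyp` turns the architect's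
`Plan.AuxHyp q M` into the level condition `4 ∣ M ∨ 9 ∣ M`.
-/
import Mathlib
import Fermat.Agent.S36.NakUnramEll
import Fermat.Agent.S36.NakMod
import Fermat.Agent.S34.ChartRing
import Fermat.Agent.S34.ChartRingInv
import Fermat.Agent.S34.ChartJ
import Fermat.Agent.S34.WKInst
import Fermat.Agent.S36.Plan

set_option autoImplicit false

namespace Fermat.Agent.S36.NakU

open Fermat.Agent.S18 Fermat.Agent.S18.Arith Fermat.Agent.S34 Fermat.Agent.S36

/-- `Plan.AuxHyp q M` gives the no-elliptic-point level condition. -/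
theorem hM_of_auxHyp {q M : ℕ} (h : Plan.AuxHyp q M) : 4 ∣ M ∨ 9 ∣ M := by
  rcases eq_or_ne q 2 with h2 | h2
  · exact Or.inr (h.2 h2)
  · exact Or.inl (h.1 h2)

/-- **CLOSED `hU` of `NakTopB.b1_W3` / `NakTopB.princ_W3`**: every horizontal prime of the chart
`J` of level `M q` is unramified over the chart `j` of level `M` (auxiliary level `4 ∣ M` or
`9 ∣ M`). -/
theorem hU_closed (M q : ℕ) [NeZero M] [NeZero q] (hq : q.Prime) (hqM : ¬ q ∣ M)
    {A : ValuationSubring Qb} {K : IntermediateField ℚ Qb} (hM : 4 ∣ M ∨ 9 ∣ M)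
    (hdvr : IsDiscreteValuationRing (OK A K)) :
    ∀ 𝔮B : Ideal (chart (M * q) A K (WKInst.JK M q hq hqM K)), 𝔮B.IsPrime →
      (∀ c : OK A K,
        algebraMap (OK A K) (chart (M * q) A K (WKInst.JK M q hq hqM K)) c ∈ 𝔮B → c = 0) →
      ∀ r ∈ 𝔮B, ∃ s : chart (M * q) A K (WKInst.JK M q hq hqM K), s ∉ 𝔮B ∧
        s * r ∈ Ideal.map
          (NakMod.iota M q (chart (M * q) A K (WKInst.JK M q hq hqM K))
            (WKInst.chart_JK_eq M q hq hqM A K) :
            chart M A K (jK M K) →+* chart (M * q) A K (WKInst.JK M q hq hqM K))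
          (Ideal.comap
            (NakMod.iota M q (chart (M * q) A K (WKInst.JK M q hq hqM K))
              (WKInst.chart_JK_eq M q hq hqM A K) :
              chart M A K (jK M K) →+* chart (M * q) A K (WKInst.JK M q hq hqM K)) 𝔮B) := by
  have : Fact q.Prime := ⟨hq⟩
  have hB := ChartRingInv.pair_of_isAlgebraic (M * q) A K hdvr (WKInst.JK_ne_zero M q hq hqM K)
    (ChartJ.transcendental_symJ (M * q) A K (WK.isIntegral_jK M q hq hqM A K))
    (ChartJ.isAlgebraic_symJ (M * q) A K (WK.isIntegral_jK M q hq hqM A K))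
  have : IsNoetherianRing (chart (M * q) A K (WKInst.JK M q hq hqM K)) := hB.1.1
  have : IsFractionRing (chart (M * q) A K (WKInst.JK M q hq hqM K)) (FK (M * q) K) := hB.1.2.1
  have : IsIntegrallyClosed (chart (M * q) A K (WKInst.JK M q hq hqM K)) := hB.1.2.2
  have : IsNoetherianRing (chart M A K (jK M K)) := ChartRing.isNoetherianRing_R0 M A K q hdvr
  have : IsFractionRing (chart M A K (jK M K)) (FK M K) := ChartRing.isFractionRing_R0 M A K q
  have : IsIntegrallyClosed (chart M A K (jK M K)) := ChartRing.isIntegrallyClosed_R0 M A K q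
  intro 𝔮B h𝔮 hhor
  exact NakUnramEll.unram M q A K hM hdvr (chart (M * q) A K (WKInst.JK M q hq hqM K))
    (chart M A K (jK M K)) (ChartJ.self_mem_chart M A K (jK M K)) _
    (fun y => NakMod.coe_iota M q _ (WKInst.chart_JK_eq M q hq hqM A K) y) 𝔮B h𝔮 hhor

/-- The same under the architect's auxiliary-level hypothesis. -/
theorem hU_of_auxHyp (M q : ℕ) [NeZero M] [NeZero q] (hq : q.Prime) (hqM : ¬ q ∣ M)
    {A : ValuationSubring Qb} {K : IntermediateField ℚ Qb} (hAux : Plan.AuxHyp q M)
    (hdvr : IsDiscreteValuationRing (OK A K)) :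
    ∀ 𝔮B : Ideal (chart (M * q) A K (WKInst.JK M q hq hqM K)), 𝔮B.IsPrime →
      (∀ c : OK A K,
        algebraMap (OK A K) (chart (M * q) A K (WKInst.JK M q hq hqM K)) c ∈ 𝔮B → c = 0) →
      ∀ r ∈ 𝔮B, ∃ s : chart (M * q) A K (WKInst.JK M q hq hqM K), s ∉ 𝔮B ∧
        s * r ∈ Ideal.map
          (NakMod.iota M q (chart (M * q) A K (WKInst.JK M q hq hqM K))
            (WKInst.chart_JK_eq M q hq hqM A K) :
            chart M A K (jK M K) →+* chart (M * q) A K (WKInst.JK M q hq hqM K))
          (Ideal.comap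
            (NakMod.iota M q (chart (M * q) A K (WKInst.JK M q hq hqM K))
              (WKInst.chart_JK_eq M q hq hqM A K) :
              chart M A K (jK M K) →+* chart (M * q) A K (WKInst.JK M q hq hqM K)) 𝔮B) :=
  hU_closed M q hq hqM (hM_of_auxHyp hAux) hdvr

end Fermat.Agent.S36.NakU
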