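/-
S36 — NakUnrB.lean (helper107).  Package [B1-nak], leaf [N8] `(U_K)`, second copy, place level
over an arbitrary intermediate field `K` of `ℚ̄ / ℚ`, on top of the landed `ℚ̄`-level half
`S36/NoEll.lean` (helper47).

Levels as in S34: `X` = level `M`, `Y` = level `M * q`, source embedding `α = alphaK M q K`
(the inclusion `F_K(M) ⊆ F_K(M q)`).  Auxiliary level: `4 ∣ M ∨ 9 ∣ M` (no elliptic points);
`q` arbitrary.

* `ord_aeval_eq_of_simple_root` : abstract; if `a` is a simple root of `p` and `x - a` has a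
                       zero at the place `v`, then `ord_v p(x) = ord_v (x - a)`;
* `exists_bar_place` : [Dict] in `toBar` form;
* `ord_alphaK_unif`  : places `v` of `F_K(M q) / K` (non-cuspidal) and `u` of `F_K(M) / K` with
                       `u` below `v`: a uniformizer of `u` is a uniformizer of `v`.
                       No Galois transitivity is needed: [Dict] at both levels, the element
                       `minpoly_K(a)(j) ∈ F_K(M)` for a generic value `a = j(v)`, and `j`,
                       `j - 1728` themselves for the elliptic values;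
* `ord_alphaK_eq`    : hence `ord_v (α x) = ord_u x` for all `x ∈ F_K(M)`.

The chart form (hypothesis `(U_K)` of `NakPlan.Z1Statement`) is in `S36/NakUnrB2.lean`.
-/
import Mathlib
import Fermat.Agent.S36.NoEll
import Fermat.Agent.S18.Dict
import Fermat.Agent.S18.DegFK
import Fermat.Agent.S34.WK

set_option autoImplicit false

noncomputable section

namespace Fermat.Agent.S36.NakUnrB

open AlgebraicCurve ModularCurve Polynomial Fermat.Agent.S24 Fermat.Agent.S18.Arith

set_option synthInstance.maxHeartbeats 400000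

/-! ### Abstract: simple roots -/

section Abstract

variable {K F : Type*} [Field K] [Field F] [Algebra K F]

/-- A polynomial (constant coefficients) in an element regular at `v` is regular at `v`. -/
theorem ord_aeval_nonneg (v : Place K F) {x : F} (hx : 0 ≤ v.ord x) (g : K[X]) :
    0 ≤ v.ord (aeval x g) := by
  apply ord_nonneg_of_mem v
  rw [aeval_eq_sum_range]
  refine sum_mem fun i _ => ?_
  rw [Algebra.smul_def]
  exact mul_mem (v.algebraMap_mem' _) (pow_mem (mem_of_ord_nonneg v hx) i)

/-- If `z` has positive order at `v`, `y` is regular at `v` and `c ≠ 0` is a constant, then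
`c + z * y` is nonzero of order `0`. -/
theorem ord_const_add (v : Place K F) {z y : F} {c : K} (hc : c ≠ 0) (hz : 0 < v.ord z)
    (hy : 0 ≤ v.ord y) :
    algebraMap K F c + z * y ≠ 0 ∧ v.ord (algebraMap K F c + z * y) = 0 := by
  have hc0 : algebraMap K F c ≠ 0 := fun h => hc ((map_eq_zero _).mp h)
  have hordc : v.ord (algebraMap K F c) = 0 := ord_algebraMap v c
  by_cases hy0 : y = 0
  · rw [hy0, mul_zero, add_zero]
    exact ⟨hc0, hordc⟩
  have hz0 : z ≠ 0 := by
    rintro rfl
    rw [v.ord_zero] at hz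
    exact lt_irrefl _ hz
  have hpos : v.ord (algebraMap K F c) < v.ord (z * y) := by
    rw [v.ord_mul hz0 hy0, hordc]
    omega
  have h1 := ord_add_eq_of_lt_left v hc0 hpos
  refine ⟨?_, by rw [h1, hordc]⟩
  intro h0
  have h2 : z * y = -algebraMap K F c := by
    rw [eq_neg_iff_add_eq_zero, add_comm]
    exact h0
  rw [h2, ord_neg v, hordc] at hpos
  exact lt_irrefl _ hpos

/-- **Simple roots.**  If `a` is a simple root of `p ∈ K[X]` and `x - a` has positive order at
`v`, then `ord_v p(x) = ord_v (x - a)`. -/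
theorem ord_aeval_eq_of_simple_root (v : Place K F) (x : F) (a : K) (p : K[X])
    (hpa : p.eval a = 0) (hsep : p.derivative.eval a ≠ 0)
    (hpos : 0 < v.ord (x - algebraMap K F a)) :
    v.ord (aeval x p) = v.ord (x - algebraMap K F a) := by
  -- `p = (X - a) * g`, `g = g(a) + (X - a) * h`
  set g : K[X] := p /ₘ (X - C a) with hg
  have hp : p = (X - C a) * g := (mul_divByMonic_eq_iff_isRoot.mpr hpa).symm
  set h : K[X] := g /ₘ (X - C a) with hh
  have hg2 : g = C (g.eval a) + (X - C a) * h := by
    have := modByMonic_add_div g (X - C a)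
    rw [modByMonic_X_sub_C_eq_C_eval] at this
    exact this.symm
  have hga : g.eval a ≠ 0 := by
    have hd : p.derivative = g + (X - C a) * g.derivative := by
      conv_lhs => rw [hp]
      rw [derivative_mul, derivative_sub, derivative_X, derivative_C, sub_zero, one_mul]
    rw [hd] at hsep
    simpa using hsep
  have hx : 0 ≤ v.ord x := by
    apply ord_nonneg_of_mem v
    have h1 : x - algebraMap K F a ∈ v.toValuationSubring := mem_of_ord_nonneg v hpos.le
    have h2 : x = (x - algebraMap K F a) + algebraMap K F a := by ring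
    rw [h2]
    exact add_mem h1 (v.algebraMap_mem' a)
  have e1 : aeval x p = (x - algebraMap K F a) * aeval x g := by
    conv_lhs => rw [hp]
    rw [map_mul, map_sub, aeval_X, aeval_C]
  have e2 : aeval x g = algebraMap K F (g.eval a) + (x - algebraMap K F a) * aeval x h := by
    conv_lhs => rw [hg2]
    rw [map_add, map_mul, map_sub, aeval_X, aeval_C, aeval_C]
  obtain ⟨hne, hord⟩ := ord_const_add v hga hpos (ord_aeval_nonneg v hx h)
  rw [← e2] at hne hord
  have hz0 : x - algebraMap K F a ≠ 0 := by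
    intro h0
    rw [h0, v.ord_zero] at hpos
    exact lt_irrefl _ hpos
  rw [e1, v.ord_mul hz0 hne, hord, add_zero]

/-- An element of nonzero order is nonzero. -/
theorem ne_zero_of_ord_ne_zero (v : Place K F) {x : F} (hx : v.ord x ≠ 0) : x ≠ 0 := by
  rintro rfl
  exact hx v.ord_zero

/-- Nonzero nonunits of the valuation ring have positive order. -/
theorem ord_pos_of_mem_nonunits (v : Place K F) {x : F} (hx0 : x ≠ 0)
    (hx : x ∈ v.toValuationSubring.nonunits) : 0 < v.ord x := by
  obtain ⟨hmem, hmax⟩ := ValuationSubring.mem_nonunits_iff_exists_mem_maximalIdeal.mp hx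
  exact (ord_pos_iff_mem_maximalIdeal v ⟨x, hmem⟩ (fun h => hx0 (congrArg Subtype.val h))).mpr hmax

end Abstract

/-! ### The `ℚ̄`-level input, without instances -/

section Bar

variable (M q : ℕ) [NeZero M] [NeZero q]

/-- The place of `F̄_M` below a non-cuspidal place `w` of `F̄_{M q}`, with equal orders
(`S36/NoEll`). -/
theorem exists_restrict (hM : 4 ∣ M ∨ 9 ∣ M) (w : Place Kb (FN (M * q)))
    (hw : 0 ≤ w.ord (jF (M * q))) :
    ∃ w' : Place Kb (FN M), ∀ f : FN M, w.ord (heckeAlphaBar Kb M q f) = w'.ord f := by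
  let _ := algebraAlong (heckeAlphaBar Kb M q)
  have : IsScalarTower Kb (FN M) (FN (M * q)) := isScalarTower_along (heckeAlphaBar Kb M q)
  have : Algebra.IsIntegral (FN M) (FN (M * q)) :=
    isIntegral_along (heckeAlphaBar Kb M q)
      (Fermat.Agent.S35.PushPic.alpha_isIntegral (M := M) (q := q))
  exact ⟨w.restrict (FN M), fun f => Fermat.Agent.S36.NoEll.ord_alpha_eq M q hM w hw f⟩

end Bar

/-! ### Places of `F_K` -/

section KLevel

open Fermat.Agent.S18 Fermat.Agent.S34.WK

variable (M q : ℕ) [NeZero M] [NeZero q] (K : IntermediateField ℚ Qb)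

/-- **[Dict]**: every place of `F_K / K` lies under a place of `F̄ / ℚ̄` with the same orders. -/
theorem exists_bar_place (N : ℕ) [NeZero N] (v : Place K (FK N K)) :
    ∃ P : Place Kb (FN N), ∀ x : FK N K, P.ord (DegFK.toBar N K x) = v.ord x := by
  obtain ⟨P, hP⟩ := Dict.dictStatement N K v
  exact ⟨P, fun x => hP x (DegFK.toBar N K x).2⟩

theorem toBar_alphaK' (x : FK M K) :
    DegFK.toBar (M * q) K (alphaK M q K x) = heckeAlphaBar Kb M q (DegFK.toBar M K x) :=
  toBar_alphaK M q K x

theorem toBar_algebraMap' (N : ℕ) [NeZero N] (c : K) :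
    DegFK.toBar N K (algebraMap K (FK N K) c) = algebraMap Kb (FN N) (c : Qb) :=
  DegFK.toBar_constK N K c

/-- **(L2)** Let `v` be a non-cuspidal place of `F_K(M q) / K` and `u` a place of `F_K(M) / K`
below `v` (the valuation ring of `u` is mapped into that of `v`).  If `4 ∣ M` or `9 ∣ M`, a
uniformizer `t` of `u` (with `ord_v (α t) > 0`) is a uniformizer of `v`. -/
theorem ord_alphaK_unif (hM : 4 ∣ M ∨ 9 ∣ M) (v : Place K (FK (M * q) K))
    (hv : 0 ≤ v.ord (jK (M * q) K)) (u : Place K (FK M K))
    (hu : ∀ x : FK M K, 0 ≤ u.ord x → 0 ≤ v.ord (alphaK M q K x))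
    (t : FK M K) (ht : u.ord t = 1) (htv : 0 < v.ord (alphaK M q K t)) :
    v.ord (alphaK M q K t) = 1 := by
  obtain ⟨w, hw⟩ := exists_bar_place K (M * q) v
  obtain ⟨P, hP⟩ := exists_bar_place K M u
  have hwj : 0 ≤ w.ord (jF (M * q)) := by
    rw [← DegFK.toBar_jK (M * q) K, hw]
    exact hv
  obtain ⟨w', hw'⟩ := exists_restrict M q hM w hwj
  -- orders at `v` along `α` are orders at `w'`
  have key : ∀ x : FK M K, v.ord (alphaK M q K x) = w'.ord (DegFK.toBar M K x) := by
    intro x
    rw [← hw, ← hw', toBar_alphaK']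
  have ht0 : t ≠ 0 := ne_zero_of_ord_ne_zero u (by rw [ht]; exact one_ne_zero)
  -- proportionality: `ord_v (α x) = ord_u x * e`
  have hprop : ∀ x : FK M K, x ≠ 0 →
      v.ord (alphaK M q K x) = u.ord x * v.ord (alphaK M q K t) := by
    intro x hx
    have hy0 : x * t ^ (-u.ord x) ≠ 0 := mul_ne_zero hx (zpow_ne_zero _ ht0)
    have hordy : u.ord (x * t ^ (-u.ord x)) = 0 := by
      rw [u.ord_mul hx (zpow_ne_zero _ ht0), u.ord_zpow, ht]
      ring
    have h1 : 0 ≤ v.ord (alphaK M q K (x * t ^ (-u.ord x))) := hu _ (le_of_eq hordy.symm)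
    have h2 : 0 ≤ v.ord (alphaK M q K (x * t ^ (-u.ord x))⁻¹) :=
      hu _ (by rw [u.ord_inv, hordy, neg_zero])
    rw [map_inv₀, v.ord_inv] at h2
    have h3 : v.ord (alphaK M q K (x * t ^ (-u.ord x))) = 0 := by omega
    have hx' : x = (x * t ^ (-u.ord x)) * t ^ (u.ord x) := by
      rw [mul_assoc, ← zpow_add₀ ht0, neg_add_cancel, zpow_zero, mul_one]
    have hay0 : alphaK M q K (x * t ^ (-u.ord x)) ≠ 0 := (_root_.map_ne_zero _).mpr hy0
    have hat0 : alphaK M q K t ≠ 0 := (_root_.map_ne_zero _).mpr ht0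
    conv_lhs => rw [hx']
    rw [map_mul (alphaK M q K), map_zpow₀, v.ord_mul hay0 (zpow_ne_zero _ hat0), v.ord_zpow, h3,
      zero_add]
  -- the value of `j` at `w'`
  have hw'j : 0 ≤ w'.ord (jF M) := by
    rw [← hw', Fermat.Agent.S37.W.heckeAlphaBar_jF]
    exact hwj
  obtain ⟨a, hpos⟩ := Fermat.Agent.S36.NoEll.exists_j_value M w' hw'j
  -- an element `f` of `F_K(M)` whose orders at `w'` and at `P` (if positive) coincide
  have hfin : ∀ (f : FK M K) (n : ℤ), 0 < n → w'.ord (DegFK.toBar M K f) = n →
      (0 < P.ord (DegFK.toBar M K f) → P.ord (DegFK.toBar M K f) = n) →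
      v.ord (alphaK M q K t) = 1 := by
    intro f n hn hfw hfP
    have hf0 : f ≠ 0 := by
      rintro rfl
      rw [map_zero, w'.ord_zero] at hfw
      omega
    have e1 := hprop f hf0
    rw [key, hfw] at e1
    have hupos : 0 < u.ord f := by
      by_contra hneg
      push Not at hneg
      have : u.ord f * v.ord (alphaK M q K t) ≤ 0 := mul_nonpos_of_nonpos_of_nonneg hneg htv.le
      omega
    have e2 : u.ord f = n := by
      rw [← hP]
      exact hfP (by rw [hP]; exact hupos)
    rw [e2] at e1
    have e3 : n * (v.ord (alphaK M q K t) - 1) = 0 := by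
      rw [mul_sub, mul_one, ← e1, sub_self]
    rcases mul_eq_zero.mp e3 with h | h
    · omega
    · omega
  by_cases h0 : a = 0
  · subst h0
    rw [map_zero, sub_zero] at hpos
    refine hfin (jK M K) 3 (by norm_num) ?_ ?_
    · rw [DegFK.toBar_jK]
      exact Fermat.Agent.S36.NoEll.ord_j_eq_three M hM w' hpos
    · rw [DegFK.toBar_jK]
      exact Fermat.Agent.S36.NoEll.ord_j_eq_three M hM P
  · by_cases h1 : a = 1728
    · subst h1
      have e : DegFK.toBar M K (jK M K - algebraMap K (FK M K) 1728)
          = jF M - algebraMap Kb (FN M) 1728 := by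
        rw [map_sub, DegFK.toBar_jK, toBar_algebraMap']
        congr 2
      refine hfin (jK M K - algebraMap K (FK M K) 1728) 2 (by norm_num) ?_ ?_
      · rw [e]
        exact Fermat.Agent.S36.NoEll.ord_j_sub_eq_two M hM w' hpos
      · rw [e]
        exact Fermat.Agent.S36.NoEll.ord_j_sub_eq_two M hM P
    · -- generic value: `f = minpoly_K(a)(j)`
      have hle := Fermat.Agent.S36.NoEll.ord_sub_le_one M a h0 h1 w'
      have hone : w'.ord (jF M - algebraMap Kb (FN M) a) = 1 := by omega
      have hint : IsIntegral K a :=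
        (((AlgebraicClosure.isAlgebraic ℚ).isAlgebraic a).isIntegral).tower_top
      have hsep : (minpoly K a).Separable := (minpoly.irreducible hint).separable
      have hroot : ((minpoly K a).map (algebraMap K Qb)).eval a = 0 := by
        rw [eval_map_algebraMap, minpoly.aeval]
      have hder : ((minpoly K a).map (algebraMap K Qb)).derivative.eval a ≠ 0 := by
        rw [derivative_map, eval_map_algebraMap]
        exact hsep.aeval_derivative_ne_zero (minpoly.aeval K a)
      have hf : DegFK.toBar M K (aeval (jK M K) (minpoly K a))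
          = aeval (jF M) ((minpoly K a).map (algebraMap K Qb)) := by
        rw [DegFK.toBar_aeval, DegFK.toBar_jK]
      have hordf : w'.ord (DegFK.toBar M K (aeval (jK M K) (minpoly K a))) = 1 := by
        rw [hf, ord_aeval_eq_of_simple_root w' (jF M) a _ hroot hder hpos, hone]
      have hf0 : aeval (jK M K) (minpoly K a) ≠ 0 := by
        intro hf0
        rw [hf0, map_zero, w'.ord_zero] at hordf
        exact zero_ne_one hordf
      have e1 := hprop _ hf0
      rw [key, hordf] at e1
      exact Int.eq_one_of_dvd_one htv.le ⟨u.ord (aeval (jK M K) (minpoly K a)), by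
        rw [mul_comm]; exact e1⟩

/-- **(L2′)** In the situation of `ord_alphaK_unif`, `ord_v (α x) = ord_u x` for every `x`. -/
theorem ord_alphaK_eq (hM : 4 ∣ M ∨ 9 ∣ M) (v : Place K (FK (M * q) K))
    (hv : 0 ≤ v.ord (jK (M * q) K)) (u : Place K (FK M K))
    (hu : ∀ x : FK M K, 0 ≤ u.ord x → 0 ≤ v.ord (alphaK M q K x))
    (t : FK M K) (ht : u.ord t = 1) (htv : 0 < v.ord (alphaK M q K t)) (x : FK M K) :
    v.ord (alphaK M q K x) = u.ord x := by
  have he := ord_alphaK_unif M q K hM v hv u hu t ht htv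
  by_cases hx : x = 0
  · rw [hx, map_zero, v.ord_zero, u.ord_zero]
  have ht0 : t ≠ 0 := ne_zero_of_ord_ne_zero u (by rw [ht]; exact one_ne_zero)
  have hy0 : x * t ^ (-u.ord x) ≠ 0 := mul_ne_zero hx (zpow_ne_zero _ ht0)
  have hordy : u.ord (x * t ^ (-u.ord x)) = 0 := by
    rw [u.ord_mul hx (zpow_ne_zero _ ht0), u.ord_zpow, ht]
    ring
  have h1 : 0 ≤ v.ord (alphaK M q K (x * t ^ (-u.ord x))) := hu _ (le_of_eq hordy.symm)
  have h2 : 0 ≤ v.ord (alphaK M q K (x * t ^ (-u.ord x))⁻¹) :=
    hu _ (by rw [u.ord_inv, hordy, neg_zero])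
  rw [map_inv₀, v.ord_inv] at h2
  have h3 : v.ord (alphaK M q K (x * t ^ (-u.ord x))) = 0 := by omega
  have hx' : x = (x * t ^ (-u.ord x)) * t ^ (u.ord x) := by
    rw [mul_assoc, ← zpow_add₀ ht0, neg_add_cancel, zpow_zero, mul_one]
  have hay0 : alphaK M q K (x * t ^ (-u.ord x)) ≠ 0 := (_root_.map_ne_zero _).mpr hy0
  have hat0 : alphaK M q K t ≠ 0 := (_root_.map_ne_zero _).mpr ht0
  conv_lhs => rw [hx']
  rw [map_mul (alphaK M q K), map_zpow₀, v.ord_mul hay0 (zpow_ne_zero _ hat0), v.ord_zpow, h3,
    zero_add, he, mul_one]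

end KLevel

end Fermat.Agent.S36.NakUnrB
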