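/-
S36 — NakUnrB2.lean (helper107).  Package [B1-nak], leaf [N8] `(U_K)`, second copy: the CHART
form, i.e. the hypothesis `(U_K)` of `NakPlan.Z1Statement` ("horizontal primes of the level-`M q`
chart are unramified over the level-`M` chart"), from the place-level statement
`NakUnrB.ord_alphaK_unif`.

Levels as in S34: `X` = level `M`, `Y` = level `M * q`, source embedding `α = alphaK M q K`.
Auxiliary level: `4 ∣ M ∨ 9 ∣ M`; `q` arbitrary.

* `exists_place_of_princAt` : the place of `F_K / K` attached to a horizontal prime `𝔮` of a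
                       subalgebra `R ⊆ F_K` with `PrincAt 𝔮` (any level);
* `unr_of_princAt`   : `RX ⊆ F_K(M)`, `RY ⊆ F_K(M q)` subalgebras with fraction fields the function
                       fields, `ι : RX → RY` induced by `α`, `𝔮B` a horizontal prime of `RY` with
                       `PrincAt 𝔮B`, `PrincAt (𝔮B ∩ RX)`, `j` regular at `𝔮B`.  Then
                       `∀ r ∈ 𝔮B, ∃ s ∉ 𝔮B, s * r ∈ (𝔮B ∩ RX) RY`;
* `comap_ne_bot_of_integral` : `𝔮B ≠ ⊥ → 𝔮B ∩ RX ≠ ⊥` for an integral `ι`;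
* `unr_chart`        : the same for the charts `chart M A K tX`, `chart (M q) A K tY` and every
                       horizontal prime (`⊥` included; `PrincAt` from `S36/HorPrinc`).
-/
import Mathlib
import Fermat.Agent.S36.NakUnrB
import Fermat.Agent.S36.HorPrinc
import Fermat.Agent.S34.DvrAt
import Fermat.Agent.S34.HorInst

set_option autoImplicit false

noncomputable section

namespace Fermat.Agent.S36.NakUnrB2

open AlgebraicCurve ModularCurve Fermat.Agent.S24 Fermat.Agent.S18.Arith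
  Fermat.Agent.S34.LocPlan Fermat.Agent.S34 Fermat.Agent.S34.WK Fermat.Agent.S36.NakUnrB

set_option synthInstance.maxHeartbeats 400000

/-! ### The place of a horizontal prime -/

section OneLevel

variable {N : ℕ} {A : ValuationSubring Qb} {K : IntermediateField ℚ Qb}

/-- The place of `F_K / K` attached to a horizontal prime `𝔮` with `PrincAt 𝔮` of a subalgebra
`R ⊆ F_K` (noetherian, with fraction field `F_K`): its valuation ring is `R_𝔮`, the nonzero
elements of `𝔮` have positive order, and local generators of `𝔮` have order `1`. -/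
theorem exists_place_of_princAt (hdvr : IsDiscreteValuationRing (OK A K)) (π : OK A K)
    (hπ : Irreducible π) (R : Subalgebra (OK A K) (FK N K)) [IsNoetherianRing R]
    [IsFractionRing R (FK N K)] (𝔮 : Ideal R) (h𝔮 : 𝔮.IsPrime)
    (hπ𝔮 : algebraMap (OK A K) R π ∉ 𝔮) (h : PrincAt 𝔮) :
    ∃ v : Place K (FK N K), (∀ x : FK N K, 0 ≤ v.ord x ↔ RegAt 𝔮 x) ∧
      (∀ r : R, r ∈ 𝔮 → r ≠ 0 → 0 < v.ord (algebraMap R (FK N K) r)) ∧
      (∀ g ∈ 𝔮, (∀ y ∈ 𝔮, ∃ s : R, s ∉ 𝔮 ∧ ∃ c : R, s * y = c * g) →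
        v.ord (algebraMap R (FK N K) g) = 1) := by
  have := h𝔮
  obtain ⟨W, hdW, hW⟩ := DvrAt.dvrAt (E := FK N K) 𝔮 h
  obtain ⟨hne, t, ht, hgen⟩ := h
  have hπW : (algebraMap (OK A K) (FK N K) π)⁻¹ ∈ W := by
    have h := DvrAt.inv_algebraMap_mem hW hπ𝔮
    have e : algebraMap R (FK N K) (algebraMap (OK A K) R π)
        = algebraMap (OK A K) (FK N K) π := rfl
    rwa [e] at h
  have hKW : ∀ c : K, algebraMap K (FK N K) c ∈ W :=
    HorInst.constK_mem hdvr hπ W
      (fun c => DvrAt.algebraMap_mem hW (algebraMap (OK A K) R c)) hπW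
  have hirr := DvrAt.irreducible_gen hW ht hgen
  have ht0 : algebraMap R (FK N K) t ≠ 0 := fun h0 => hirr.ne_zero (Subtype.ext h0)
  have htop : W ≠ ⊤ :=
    HorInst.ne_top_of_mem_nonunits W ht0 ((DvrAt.algebraMap_mem_nonunits_iff hW).mpr ht)
  obtain ⟨v, hvW⟩ : ∃ v : Place K (FK N K), v.toValuationSubring = W :=
    ⟨HorInst.placeOf W hdW hKW htop, rfl⟩
  subst hvW
  refine ⟨v, fun x => ?_, fun r hr hr0 => ?_, fun g hg hgen' => ?_⟩
  · rw [← hW x]
    have h1 := (mem_iff_ord_nonneg' v x).symm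
    exact h1
  · have h0 : algebraMap R (FK N K) r ≠ 0 := fun h => hr0 (Subtype.ext h)
    have h1 : algebraMap R (FK N K) r ∈ v.toValuationSubring.nonunits :=
      (DvrAt.algebraMap_mem_nonunits_iff hW).mpr hr
    have h2 := ord_pos_of_mem_nonunits v h0 h1
    exact h2
  · have h1 := DvrAt.irreducible_gen hW hg hgen'
    have h2 := v.ord_coe_irreducible h1
    exact h2

end OneLevel

/-! ### Chart level -/

section Chart

variable (M q : ℕ) [NeZero M] [NeZero q] (A : ValuationSubring Qb) (K : IntermediateField ℚ Qb)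

/-- A ring map `ι : RX → RY` induced by `α` fixes the constants. -/
theorem iota_algebraMap (RX : Subalgebra (OK A K) (FK M K))
    (RY : Subalgebra (OK A K) (FK (M * q) K)) (ι : RX →+* RY)
    (hι : ∀ x : RX, ((ι x : RY) : FK (M * q) K) = alphaK M q K (x : FK M K)) (c : OK A K) :
    ι (algebraMap (OK A K) RX c) = algebraMap (OK A K) RY c := by
  apply Subtype.ext
  have h1 := hι (algebraMap (OK A K) RX c)
  have h2 : ((algebraMap (OK A K) RX c : RX) : FK M K) = constK M K (c : K) := rfl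
  have h3 : ((algebraMap (OK A K) RY c : RY) : FK (M * q) K) = constK (M * q) K (c : K) := rfl
  rw [h1, h2, h3, alphaK_constK]

/-- **(L3)** the hypothesis `(U_K)` of `NakPlan.Z1Statement`, at one horizontal prime `𝔮B` of
`RY ⊆ F_K(M q)` with `PrincAt 𝔮B`, `PrincAt (𝔮B ∩ RX)` and `j` regular at `𝔮B`: the prime
`𝔮B ∩ RX` generates `𝔮B` locally at `𝔮B`.  (`4 ∣ M ∨ 9 ∣ M`; `q` arbitrary.) -/
theorem unr_of_princAt (hM : 4 ∣ M ∨ 9 ∣ M) (hdvr : IsDiscreteValuationRing (OK A K))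
    (π : OK A K) (hπ : Irreducible π)
    (RX : Subalgebra (OK A K) (FK M K)) [IsNoetherianRing RX] [IsFractionRing RX (FK M K)]
    (RY : Subalgebra (OK A K) (FK (M * q) K)) [IsNoetherianRing RY]
    [IsFractionRing RY (FK (M * q) K)]
    (ι : RX →+* RY)
    (hι : ∀ x : RX, ((ι x : RY) : FK (M * q) K) = alphaK M q K (x : FK M K))
    (𝔮B : Ideal RY) (h𝔮B : 𝔮B.IsPrime) (hπ𝔮 : algebraMap (OK A K) RY π ∉ 𝔮B)
    (hB : PrincAt 𝔮B) (hA : PrincAt (Ideal.comap ι 𝔮B))
    (hj : RegAt 𝔮B (jK (M * q) K)) :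
    ∀ r ∈ 𝔮B, ∃ s : RY, s ∉ 𝔮B ∧ s * r ∈ Ideal.map ι (Ideal.comap ι 𝔮B) := by
  have h𝔮Ap : (Ideal.comap ι 𝔮B).IsPrime := Ideal.comap_isPrime ι 𝔮B
  have hvalX : ∀ x : RX, algebraMap RX (FK M K) x = (x : FK M K) := fun _ => rfl
  have hvalY : ∀ x : RY, algebraMap RY (FK (M * q) K) x = (x : FK (M * q) K) := fun _ => rfl
  have hι' : ∀ x : RX, algebraMap RY (FK (M * q) K) (ι x)
      = alphaK M q K (algebraMap RX (FK M K) x) := by
    intro x
    rw [hvalX, hvalY]
    exact hι x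
  have hπ𝔮A : algebraMap (OK A K) RX π ∉ Ideal.comap ι 𝔮B := by
    intro h
    apply hπ𝔮
    rw [← iota_algebraMap M q A K RX RY ι hι π]
    exact Ideal.mem_comap.mp h
  -- the two places
  obtain ⟨v, hv1, hv2, -⟩ := exists_place_of_princAt hdvr π hπ RY 𝔮B h𝔮B hπ𝔮 hB
  obtain ⟨u, hu1, -, hu3⟩ :=
    exists_place_of_princAt hdvr π hπ RX (Ideal.comap ι 𝔮B) h𝔮Ap hπ𝔮A hA
  obtain ⟨hneA, g, hg, hgen⟩ := hA
  -- `j` is regular at `v`
  have hvj : 0 ≤ v.ord (jK (M * q) K) := (hv1 _).mpr hj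
  -- `u` lies below `v`
  have hu : ∀ x : FK M K, 0 ≤ u.ord x → 0 ≤ v.ord (alphaK M q K x) := by
    intro x hx
    obtain ⟨a, s, hs, e⟩ := (hu1 x).mp hx
    refine (hv1 _).mpr ⟨ι a, ι s, fun h => hs (Ideal.mem_comap.mpr h), ?_⟩
    rw [hι', hι', ← e, map_mul]
  -- the uniformizer
  have hordg : u.ord (algebraMap RX (FK M K) g) = 1 := hu3 g hg hgen
  have hg0 : g ≠ 0 := by
    rintro rfl
    rw [map_zero, u.ord_zero] at hordg
    exact zero_ne_one hordg
  have hιg : ι g ∈ 𝔮B := Ideal.mem_comap.mp hg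
  have hιg0 : ι g ≠ 0 := by
    intro h0
    have h1 := hι' g
    rw [h0, map_zero] at h1
    have h2 : algebraMap RX (FK M K) g = 0 := by
      have h3 := h1.symm
      rwa [map_eq_zero] at h3
    exact hg0 ((map_eq_zero_iff _ (IsFractionRing.injective RX (FK M K))).mp h2)
  have hgv : 0 < v.ord (alphaK M q K (algebraMap RX (FK M K) g)) := by
    have h1 := hv2 (ι g) hιg hιg0
    rw [hι'] at h1
    exact h1
  have hone : v.ord (alphaK M q K (algebraMap RX (FK M K) g)) = 1 :=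
    ord_alphaK_unif M q K hM v hvj u hu _ hordg hgv
  -- conclusion
  intro r hr
  by_cases hr0 : r = 0
  · refine ⟨1, fun h => h𝔮B.ne_top ((Ideal.eq_top_iff_one _).mpr h), ?_⟩
    rw [hr0, mul_zero]
    exact Ideal.zero_mem _
  have hr0' : algebraMap RY (FK (M * q) K) r ≠ 0 := fun h =>
    hr0 ((map_eq_zero_iff _ (IsFractionRing.injective RY (FK (M * q) K))).mp h)
  have hιg0' : algebraMap RY (FK (M * q) K) (ι g) ≠ 0 := fun h =>
    hιg0 ((map_eq_zero_iff _ (IsFractionRing.injective RY (FK (M * q) K))).mp h)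
  have hrv : 0 < v.ord (algebraMap RY (FK (M * q) K) r) := hv2 r hr hr0
  have hquot : 0 ≤ v.ord (algebraMap RY (FK (M * q) K) r
      * (algebraMap RY (FK (M * q) K) (ι g))⁻¹) := by
    rw [v.ord_mul hr0' (inv_ne_zero hιg0'), v.ord_inv, hι', hone]
    omega
  obtain ⟨a, s, hs, e⟩ := (hv1 _).mp hquot
  refine ⟨s, hs, ?_⟩
  have e2 : s * r = a * ι g := by
    apply IsFractionRing.injective RY (FK (M * q) K)
    rw [map_mul, map_mul, ← e]
    field_simp
  rw [e2]
  exact Ideal.mul_mem_left _ _ (Ideal.mem_map_of_mem ι hg)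

end Chart

/-! ### Charts -/

section Charts

/-- The coordinate lies in its chart. -/
theorem self_mem_chartB (N : ℕ) (A : ValuationSubring Qb) (K : IntermediateField ℚ Qb)
    (t : FK N K) : t ∈ chart N A K t := by
  rw [mem_chart_iff]
  exact isIntegral_algebraMap
    (x := (⟨t, Algebra.subset_adjoin (Set.mem_singleton t)⟩ : Algebra.adjoin (OK A K) {t}))

/-- For an integral ring map into a domain, nonzero ideals contract to nonzero ideals. -/
theorem comap_ne_bot_of_integral {RX RY : Type*} [CommRing RX] [Nontrivial RX] [CommRing RY]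
    [IsDomain RY] (ι : RX →+* RY)
    (hint : ∀ b : RY, ∃ p : Polynomial RX, p.Monic ∧ Polynomial.eval₂ ι b p = 0)
    (𝔮B : Ideal RY) (h0 : 𝔮B ≠ ⊥) : Ideal.comap ι 𝔮B ≠ ⊥ := by
  obtain ⟨r, hr, hr0⟩ := Submodule.exists_mem_ne_zero_of_ne_bot h0
  obtain ⟨p, hp, hpr⟩ := hint r
  exact Ideal.comap_ne_bot_of_root_mem hr0 hr hp.ne_zero hpr

variable (M q : ℕ) [NeZero M] [NeZero q] (A : ValuationSubring Qb) (K : IntermediateField ℚ Qb)

/-- **(U_K) for charts**: `RX = chart M A K tX`, `RY = chart (M q) A K tY` (noetherian,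
integrally closed, with fraction fields the function fields), `ι` induced by `α` and integral.
Every horizontal prime `𝔮B` of `RY` at which `j` is regular is unramified over `RX`:
`𝔮B ∩ RX` generates `𝔮B` locally at `𝔮B`.  (`4 ∣ M ∨ 9 ∣ M`; `q` arbitrary.)  This is the
hypothesis `(U_K)` of `NakPlan.Z1Statement` at the non-cuspidal horizontal primes. -/
theorem unr_chart (hM : 4 ∣ M ∨ 9 ∣ M) (hdvr : IsDiscreteValuationRing (OK A K))
    (tX : FK M K) (tY : FK (M * q) K)
    [IsNoetherianRing (chart M A K tX)] [IsIntegrallyClosed (chart M A K tX)]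
    [IsFractionRing (chart M A K tX) (FK M K)]
    [IsNoetherianRing (chart (M * q) A K tY)] [IsIntegrallyClosed (chart (M * q) A K tY)]
    [IsFractionRing (chart (M * q) A K tY) (FK (M * q) K)]
    (ι : chart M A K tX →+* chart (M * q) A K tY)
    (hι : ∀ x : chart M A K tX,
      ((ι x : chart (M * q) A K tY) : FK (M * q) K) = alphaK M q K (x : FK M K))
    (hint : ∀ b : chart (M * q) A K tY, ∃ p : Polynomial (chart M A K tX),
      p.Monic ∧ Polynomial.eval₂ ι b p = 0)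
    (𝔮B : Ideal (chart (M * q) A K tY)) (h𝔮B : 𝔮B.IsPrime)
    (hhor : ∀ c : OK A K, algebraMap (OK A K) (chart (M * q) A K tY) c ∈ 𝔮B → c = 0)
    (hj : RegAt 𝔮B (jK (M * q) K)) :
    ∀ r ∈ 𝔮B, ∃ s : chart (M * q) A K tY, s ∉ 𝔮B ∧
      s * r ∈ Ideal.map ι (Ideal.comap ι 𝔮B) := by
  have := hdvr
  by_cases h0 : 𝔮B = ⊥
  · intro r hr
    refine ⟨1, fun h => h𝔮B.ne_top ((Ideal.eq_top_iff_one _).mpr h), ?_⟩
    rw [h0, Ideal.mem_bot] at hr
    rw [hr, mul_zero]
    exact Ideal.zero_mem _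
  obtain ⟨π, hπ⟩ := IsDiscreteValuationRing.exists_irreducible (OK A K)
  have hπ𝔮 : algebraMap (OK A K) (chart (M * q) A K tY) π ∉ 𝔮B := fun h => hπ.ne_zero (hhor π h)
  have hπ𝔮A : algebraMap (OK A K) (chart M A K tX) π ∉ Ideal.comap ι 𝔮B := by
    intro h
    apply hπ𝔮
    rw [← iota_algebraMap M q A K (chart M A K tX) (chart (M * q) A K tY) ι hι π]
    exact Ideal.mem_comap.mp h
  have hB : PrincAt 𝔮B :=
    Fermat.Agent.S36.HorPrinc.princAt_of_horizontal_chart π hπ (chart (M * q) A K tY) tY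
      (self_mem_chartB (M * q) A K tY) (fun x hx => hx) 𝔮B h𝔮B h0 hπ𝔮
  have hA : PrincAt (Ideal.comap ι 𝔮B) :=
    Fermat.Agent.S36.HorPrinc.princAt_of_horizontal_chart π hπ (chart M A K tX) tX
      (self_mem_chartB M A K tX) (fun x hx => hx) (Ideal.comap ι 𝔮B)
      (Ideal.comap_isPrime ι 𝔮B) (comap_ne_bot_of_integral ι hint 𝔮B h0) hπ𝔮A
  exact unr_of_princAt M q A K hM hdvr π hπ (chart M A K tX) (chart (M * q) A K tY) ι hι 𝔮B h𝔮B
    hπ𝔮 hB hA hj

end Charts

end Fermat.Agent.S36.NakUnrB2
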