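import Mathlib
import Fermat.Agent.S36.NakPlan
import Fermat.Agent.S36.NakEq
import Fermat.Agent.S36.NakRigid

/-!
# S36, package [B1-nak], leaf [N6] : `NakPlan.Z1Statement`

Assembly of [N4] (`EqualiserStatement`, Nakayama) and [N5] (`RigidStatement`): the function
`δ_f = φb (ι1 f) - φa (ι1 f)` lies in no horizontal prime through the closed point `n`.

Proof.  Let `δ_f ∈ 𝔮`.  The two pull-backs of `n` to `B` coincide (`δ_g ∈ P3 ≤ n` for all `g`
and `B = ι1 A + P2`).  `φa ≡ φb` modulo `𝔮` on `O[ι A, ι1 f]`, which contains local generators of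
the point below `n`; by [N4] `φa ≡ φb` modulo `𝔮` on `B`.  The prime `φa⁻¹ 𝔮` is horizontal, hence
unramified over `A`; by [N5] `φa = φb`, so `δ_f = 0`, a contradiction.

* `z1_of_leaves` : hypothesis form;
* `z1Statement`  : closed form (leaves: `NakEq`, `NakRigid`).
-/

set_option autoImplicit false

namespace Fermat.Agent.S36.NakZ1

open Fermat.Agent.S36.NakPlan

/-- **[N6]**, hypothesis form. -/
theorem z1_of_leaves (h4 : EqualiserStatement) (h5 : RigidStatement) : Z1Statement := by
  intro O A B C _ _ _ _ _ _ _ _ _ _ ι ι1 φa φb n P3 P2 f hn hP3n hcomm hint hPa hPb hB hδ hres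
    hgen hU hne 𝔮 h𝔮 hle hhor hmem
  -- the point of `B` below `n`
  set nB : Ideal B := Ideal.comap (φa : B →+* C) n with hnB
  have hmemA : ∀ r : B, φa r ∈ n ↔ r ∈ nB := fun r => Iff.rfl
  -- the two pull-backs of `n` coincide
  have hdn : ∀ r : B, φb r - φa r ∈ n := by
    intro r
    obtain ⟨g, hg⟩ := hB r
    have e : φb r - φa r = φb (r - ι1 g) - φa (r - ι1 g) + (φb (ι1 g) - φa (ι1 g)) := by
      rw [map_sub, map_sub]; ring
    rw [e]
    exact n.add_mem (n.sub_mem (hP3n ((hPb _).mpr hg)) (hP3n ((hPa _).mpr hg))) (hP3n (hδ g))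
  have hmemB : ∀ r : B, φb r ∈ n ↔ r ∈ nB := by
    intro r
    constructor
    · intro h
      show φa r ∈ n
      have : φa r = φb r - (φb r - φa r) := by ring
      rw [this]
      exact n.sub_mem h (hdn r)
    · intro h
      have h' : φa r ∈ n := h
      have : φb r = φa r + (φb r - φa r) := by ring
      rw [this]
      exact n.add_mem h' (hdn r)
  -- `φa ≡ φb` modulo `𝔮` on the subalgebra `O[ι A, ι1 f]`
  have hsub : ∀ x ∈ Algebra.adjoin O (Set.range ι ∪ {ι1 f}), φa x - φb x ∈ 𝔮 := by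
    intro x hx
    induction hx using Algebra.adjoin_induction with
    | mem x hx =>
      rcases hx with ⟨a, rfl⟩ | hx
      · rw [hcomm a, sub_self]; exact 𝔮.zero_mem
      · rw [Set.mem_singleton_iff] at hx
        rw [hx]
        have : φa (ι1 f) - φb (ι1 f) = -(φb (ι1 f) - φa (ι1 f)) := by ring
        rw [this]
        exact 𝔮.neg_mem hmem
    | algebraMap c =>
      rw [AlgHom.commutes, AlgHom.commutes, sub_self]; exact 𝔮.zero_mem
    | add x y _ _ hx hy =>
      have : φa (x + y) - φb (x + y) = (φa x - φb x) + (φa y - φb y) := by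
        rw [map_add, map_add]; ring
      rw [this]
      exact 𝔮.add_mem hx hy
    | mul x y _ _ hx hy =>
      have : φa (x * y) - φb (x * y) = φa x * (φa y - φb y) + (φa x - φb x) * φb y := by
        rw [map_mul, map_mul]; ring
      rw [this]
      exact 𝔮.add_mem (𝔮.mul_mem_left _ hy) (𝔮.mul_mem_right _ hx)
  -- [N4]
  have hd : ∀ r : B, φa r - φb r ∈ 𝔮 :=
    h4 O B C φa φb nB n 𝔮
      ((nB : Set B) ∩ ((Algebra.adjoin O (Set.range ι ∪ {ι1 f}) : Subalgebra O B) : Set B))
      hn h𝔮 hle hmemA hmemB hres Set.inter_subset_left (fun g hg => hsub g hg.2) hgen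
  -- characteristic zero at `𝔮`
  have hchar : ∀ k : ℕ, k ≠ 0 → (k : C) ∉ 𝔮 := by
    intro k hk hkq
    have e : (k : C) = algebraMap O C (k : O) := by rw [map_natCast]
    rw [e] at hkq
    exact hk (Nat.cast_eq_zero.mp (hhor _ hkq))
  -- the prime of `B` below `𝔮` is horizontal, hence unramified over `A`
  have hunr : ∀ r : B, (φa : B →+* C) r ∈ 𝔮 → ∃ s : B, (φa : B →+* C) s ∉ 𝔮 ∧
      s * r ∈ Ideal.map (ι : A →+* B)
        (Ideal.comap ((φa : B →+* C).comp (ι : A →+* B)) 𝔮) := by
    intro r hr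
    have hprime : (Ideal.comap (φa : B →+* C) 𝔮).IsPrime := Ideal.comap_isPrime _ 𝔮
    have hleB : Ideal.comap (φa : B →+* C) 𝔮 ≤ nB := Ideal.comap_mono hle
    have hhorB : ∀ c : O, algebraMap O B c ∈ Ideal.comap (φa : B →+* C) 𝔮 → c = 0 := by
      intro c hc
      apply hhor c
      have : (φa : B →+* C) (algebraMap O B c) = algebraMap O C c := φa.commutes c
      rw [← this]
      exact hc
    obtain ⟨s, hs, hsr⟩ := hU _ hprime hleB hhorB r hr
    refine ⟨s, hs, ?_⟩
    rw [← Ideal.comap_comap]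
    exact hsr
  -- [N5]
  have heq : ∀ b : B, (φa : B →+* C) b = (φb : B →+* C) b :=
    h5 A B C (ι : A →+* B) (φa : B →+* C) (φb : B →+* C) 𝔮 h𝔮 hchar (fun a => hcomm a) hint
      (fun b => hd b) hunr
  apply hne
  have := heq (ι1 f)
  simp only [RingHom.coe_coe] at this
  rw [this, sub_self]

/-- **[N6]** `NakPlan.Z1Statement`. -/
theorem z1Statement : Z1Statement :=
  z1_of_leaves Fermat.Agent.S36.NakEq.equaliser
    Fermat.Agent.S36.NakRigid.rigidStatement

end Fermat.Agent.S36.NakZ1
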