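import Mathlib

/-!
# Unique `m`-th roots modulo a nil ideal

Abstract utility for the S36 campaign ("Hensel in an Artin ring"): if `I` is a nil ideal of a
commutative ring `A`, `m` is invertible modulo `I`, `a` is a unit and `u ≡ a ^ m` modulo `I`,
then `u` has a unique `m`-th root `t` with `t ≡ a` modulo `I`.  In particular the group of
units congruent to `1` modulo `I` is uniquely `m`-divisible.
-/

namespace Fermat.Agent.S36.NilRoot

/-- An element which is a unit modulo a nil ideal is a unit. -/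
theorem isUnit_of_isUnit_mk_of_nil {A : Type*} [CommRing A] (I : Ideal A)
    (hI : ∀ x ∈ I, IsNilpotent x) (x : A) (hx : IsUnit (Ideal.Quotient.mk I x)) :
    IsUnit x := by
  obtain ⟨y, hy⟩ := Ideal.Quotient.mk_surjective (hx.unit⁻¹ : (A ⧸ I)ˣ).1
  have h1 : Ideal.Quotient.mk I (x * y - 1) = 0 := by
    rw [map_sub, map_mul, map_one, hy, sub_eq_zero]
    exact hx.mul_val_inv
  have h2 : IsNilpotent (x * y - 1) := hI _ (Ideal.Quotient.eq_zero_iff_mem.mp h1)
  have h3 : IsUnit (x * y) := by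
    have := h2.isUnit_add_one
    simpa using this
  exact isUnit_of_mul_isUnit_left h3

/-- If `m` is invertible modulo a nil ideal then `m` is invertible. -/
theorem isUnit_natCast_of_nil {A : Type*} [CommRing A] (I : Ideal A)
    (hI : ∀ x ∈ I, IsNilpotent x) (m : ℕ) (hm : IsUnit (Ideal.Quotient.mk I (m : A))) :
    IsUnit (m : A) :=
  isUnit_of_isUnit_mk_of_nil I hI _ hm

/-- Auxiliary form with nilpotent differences instead of membership in `I`. -/
theorem existsUnique_root_nilpotent {A : Type*} [CommRing A]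
    (m : ℕ) (hm : IsUnit (m : A)) (a : A) (ha : IsUnit a) (u : A)
    (hu : IsNilpotent (u - a ^ m)) :
    ∃! t : A, IsNilpotent (a - t) ∧ t ^ m = u := by
  have hP : IsNilpotent (Polynomial.aeval a (Polynomial.X ^ m - Polynomial.C u : Polynomial A)) := by
    have : Polynomial.aeval a (Polynomial.X ^ m - Polynomial.C u : Polynomial A) = -(u - a ^ m) := by
      simp
    rw [this]
    exact hu.neg
  have hP' : IsUnit (Polynomial.aeval a
      (Polynomial.derivative (Polynomial.X ^ m - Polynomial.C u : Polynomial A))) := by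
    have : Polynomial.aeval a
        (Polynomial.derivative (Polynomial.X ^ m - Polynomial.C u : Polynomial A))
        = (m : A) * a ^ (m - 1) := by
      simp [Polynomial.derivative_X_pow]
    rw [this]
    exact hm.mul (ha.pow _)
  obtain ⟨r, ⟨hr1, hr2⟩, hr3⟩ :=
    Polynomial.existsUnique_nilpotent_sub_and_aeval_eq_zero hP hP'
  have key : ∀ t : A, Polynomial.aeval t (Polynomial.X ^ m - Polynomial.C u : Polynomial A) = 0
      ↔ t ^ m = u := by
    intro t
    simp [sub_eq_zero]
  refine ⟨r, ⟨hr1, (key r).mp hr2⟩, ?_⟩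
  rintro t ⟨ht1, ht2⟩
  exact hr3 t ⟨ht1, (key t).mpr ht2⟩

/-- **Unique roots modulo a nil ideal.**  `I` a nil ideal, `m` invertible modulo `I`,
`a` a unit, `u ≡ a ^ m` modulo `I`: there is a unique `t ≡ a` modulo `I` with `t ^ m = u`. -/
theorem existsUnique_root_of_nil {A : Type*} [CommRing A] (I : Ideal A)
    (hI : ∀ x ∈ I, IsNilpotent x)
    (m : ℕ) (hm : IsUnit (Ideal.Quotient.mk I (m : A)))
    (a : A) (ha : IsUnit a) (u : A) (hu : u - a ^ m ∈ I) :
    ∃! t : A, t - a ∈ I ∧ t ^ m = u := by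
  have hm' : IsUnit (m : A) := isUnit_natCast_of_nil I hI m hm
  obtain ⟨r, ⟨hr1, hr2⟩, hr3⟩ := existsUnique_root_nilpotent m hm' a ha u (hI _ hu)
  -- the same statement in the quotient, where `mk a` is itself a root
  have hmq : IsUnit ((m : ℕ) : A ⧸ I) := by simpa using hm
  have hq0 : Ideal.Quotient.mk I u - (Ideal.Quotient.mk I a) ^ m = 0 := by
    rw [← map_pow, ← map_sub]
    exact Ideal.Quotient.eq_zero_iff_mem.mpr hu
  obtain ⟨s, -, hs3⟩ := existsUnique_root_nilpotent (A := A ⧸ I) m hmq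
    (Ideal.Quotient.mk I a) (ha.map _) (Ideal.Quotient.mk I u) (by rw [hq0]; exact IsNilpotent.zero)
  have e1 : Ideal.Quotient.mk I r = s := by
    apply hs3
    refine ⟨?_, ?_⟩
    · rw [← map_sub]; exact hr1.map _
    · rw [← map_pow, hr2]
  have e2 : Ideal.Quotient.mk I a = s := by
    apply hs3
    refine ⟨by rw [sub_self]; exact IsNilpotent.zero, ?_⟩
    exact (sub_eq_zero.mp hq0).symm
  have hra : r - a ∈ I := by
    rw [← Ideal.Quotient.eq_zero_iff_mem, map_sub, e1, e2, sub_self]
  refine ⟨r, ⟨hra, hr2⟩, ?_⟩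
  rintro t ⟨ht1, ht2⟩
  apply hr3
  refine ⟨?_, ht2⟩
  have : a - t = -(t - a) := by ring
  rw [this]
  exact (hI _ ht1).neg

/-- Special case `a = 1`: the elements congruent to `1` modulo a nil ideal have unique
`m`-th roots congruent to `1`. -/
theorem existsUnique_root_one_of_nil {A : Type*} [CommRing A] (I : Ideal A)
    (hI : ∀ x ∈ I, IsNilpotent x)
    (m : ℕ) (hm : IsUnit (Ideal.Quotient.mk I (m : A)))
    (u : A) (hu : u - 1 ∈ I) :
    ∃! t : A, t - 1 ∈ I ∧ t ^ m = u :=
  existsUnique_root_of_nil I hI m hm 1 isUnit_one u (by simpa using hu)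

/-- Existence part, as a plain existential. -/
theorem exists_root_of_nil {A : Type*} [CommRing A] (I : Ideal A)
    (hI : ∀ x ∈ I, IsNilpotent x)
    (m : ℕ) (hm : IsUnit (Ideal.Quotient.mk I (m : A)))
    (a : A) (ha : IsUnit a) (u : A) (hu : u - a ^ m ∈ I) :
    ∃ t : A, t - a ∈ I ∧ t ^ m = u :=
  (existsUnique_root_of_nil I hI m hm a ha u hu).exists

/-- Injectivity: two units congruent modulo a nil ideal with the same `m`-th power are
equal (`m` invertible modulo the ideal). -/
theorem eq_of_pow_eq_of_sub_mem_nil {A : Type*} [CommRing A] (I : Ideal A)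
    (hI : ∀ x ∈ I, IsNilpotent x)
    (m : ℕ) (hm : IsUnit (Ideal.Quotient.mk I (m : A)))
    (s t : A) (hs : IsUnit s) (hst : t - s ∈ I) (hpow : t ^ m = s ^ m) : t = s := by
  have h := existsUnique_root_of_nil I hI m hm s hs (s ^ m) (by simp)
  exact h.unique ⟨hst, hpow⟩ ⟨by simp, rfl⟩

/-- An element `≡ 1` modulo the nil ideal `I` with `m`-th power equal to `1` is `1`:
there is no non-trivial `m`-torsion in `1 + I`. -/
theorem eq_one_of_pow_eq_one_of_sub_mem_nil {A : Type*} [CommRing A] (I : Ideal A)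
    (hI : ∀ x ∈ I, IsNilpotent x)
    (m : ℕ) (hm : IsUnit (Ideal.Quotient.mk I (m : A)))
    (t : A) (ht : t - 1 ∈ I) (hpow : t ^ m = 1) : t = 1 :=
  eq_of_pow_eq_of_sub_mem_nil I hI m hm 1 t isUnit_one ht (by simpa using hpow)

/-- Lifting roots along a surjection with nil kernel: if `f : A → B` is surjective with nil
kernel, `m` is invertible in `B`, `u : A` and `b : Bˣ` satisfy `b ^ m = f u`, then there is a
unique `t : A` with `f t = b` and `t ^ m = u`. -/
theorem existsUnique_lift_root {A B : Type*} [CommRing A] [CommRing B] (f : A →+* B)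
    (hf : Function.Surjective f) (hker : ∀ x : A, f x = 0 → IsNilpotent x)
    (m : ℕ) (hm : IsUnit (m : B)) (u : A) (b : B) (hb : IsUnit b) (hbu : b ^ m = f u) :
    ∃! t : A, f t = b ∧ t ^ m = u := by
  have hI : ∀ x ∈ RingHom.ker f, IsNilpotent x := fun x hx => hker x hx
  obtain ⟨a, rfl⟩ := hf b
  have hmem : ∀ x y : A, x - y ∈ RingHom.ker f ↔ f x = f y := by
    intro x y
    rw [RingHom.mem_ker, map_sub, sub_eq_zero]
  have hfu : ∀ x : A, IsUnit (f x) → IsUnit x := by
    intro x hx
    obtain ⟨y, hy⟩ := hf (hx.unit⁻¹ : Bˣ).1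
    have h1 : f (x * y - 1) = 0 := by
      rw [map_sub, map_mul, map_one, hy, sub_eq_zero]
      exact hx.mul_val_inv
    have h3 : IsUnit (x * y) := by
      have := (hker _ h1).isUnit_add_one
      simpa using this
    exact isUnit_of_mul_isUnit_left h3
  have hmA : IsUnit (m : A) := hfu _ (by simpa using hm)
  have hm' : IsUnit (Ideal.Quotient.mk (RingHom.ker f) (m : A)) := hmA.map _
  have ha : IsUnit a := hfu a hb
  have hu : u - a ^ m ∈ RingHom.ker f := by
    rw [hmem, map_pow, hbu]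
  obtain ⟨t, ⟨ht1, ht2⟩, ht3⟩ := existsUnique_root_of_nil (RingHom.ker f) hI m hm' a ha u hu
  refine ⟨t, ⟨(hmem t a).mp ht1, ht2⟩, ?_⟩
  rintro s ⟨hs1, hs2⟩
  exact ht3 s ⟨(hmem s a).mpr hs1, hs2⟩

end Fermat.Agent.S36.NilRoot
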