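/-
S36 — NormBC.lean (helper129).  Block [AUX] of the architect's plan (board #3063), sub-leaf:
**base change of the two degeneracy norms under a level raising prime to `q`**.

Generic part (fields, no modular input):

* `norm_baseChange`                — `K0 → L0`, `K1 → L1` of the same finite degree `n`,
                                     `ι' : K0 → K1`, `ι : L0 → L1` commuting; if `b : Fin n → L0`
                                     is `K0`-independent and `ι ∘ b` is `K1`-independent then
                                     `Nm_{L1/K1} (ι x) = ι' (Nm_{L0/K0} x)`;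
* `linearIndependent_pow_of_prime` — `[L : K] = q` prime, `y ∉ K` ⇒ `1, y, …, y^{q-1}` independent;
* `norm_baseChange_of_prime`       — both degrees equal to a prime `q` and ONE `y : L0` with
                                     `ι y ∉ K1` ⇒ base change of the norm.

Modular part (`q` prime, `q ∤ d`; levels typed `M * q`, `M * q * q`, `M * d * q`, `M * d * q * q`;
the inclusions are `AuxPull.inclBar` along the divisibilities `dvd_low`, `dvd_high` — no level
cast):

* `alphaNm_inclBar` — `Nm_α (ι f) = ι' (Nm_α f)`   (`α`-norms `ModelFPlan.alphaNm (M d q) q`,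
                      `ModelFPlan.alphaNm (M q) q`); witness `y = j(Q^{M q q})`: by the Fricke
                      involution of level `(M d q) q` (`S36/Fricke.lean`) its membership in
                      `F̄_{M d q}` would put `j(Q^d)` into the series in `Q^q`;
* `betaNm_inclBar`  — the same for `β`; witness `y = j` (no `Q^{-1}`-term in a series in `Q^q`).

Both degrees are `q` because `q` divides the lower levels (`Fricke.finrank_alpha_of_dvd'`,
`Fricke.finrank_beta_of_dvd'`).
-/
import Mathlib
import Fermat.Agent.S35.ModelFPlan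
import Fermat.Agent.S36.Fricke
import Fermat.Agent.S36.AuxPull

set_option autoImplicit false
set_option linter.style.haveILetI false

open ModularCurve AlgebraicCurve

namespace Fermat.Agent.S36.NormBC

section Generic

variable {K0 L0 K1 L1 : Type*} [Field K0] [Field L0] [Field K1] [Field L1]
  [Algebra K0 L0] [Algebra K1 L1]

/-- **Base change of the norm in a common basis.** -/
theorem norm_baseChange (ι' : K0 →+* K1) (ι : L0 →+* L1)
    (hcomm : ∀ x, ι (algebraMap K0 L0 x) = algebraMap K1 L1 (ι' x))
    {n : ℕ} (hn : 0 < n) (b : Fin n → L0) (hb0 : LinearIndependent K0 b)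
    (h0 : Module.finrank K0 L0 = n) (hb1 : LinearIndependent K1 (fun i => ι (b i)))
    (h1 : Module.finrank K1 L1 = n) (x : L0) :
    Algebra.norm K1 (ι x) = ι' (Algebra.norm K0 x) := by
  classical
  have : Nonempty (Fin n) := ⟨⟨0, hn⟩⟩
  let B0 : Module.Basis (Fin n) K0 L0 :=
    basisOfLinearIndependentOfCardEqFinrank hb0 (by rw [Fintype.card_fin, h0])
  let B1 : Module.Basis (Fin n) K1 L1 :=
    basisOfLinearIndependentOfCardEqFinrank hb1 (by rw [Fintype.card_fin, h1])
  have hB0 : ∀ i, B0 i = b i := fun i => by
    simp only [B0, coe_basisOfLinearIndependentOfCardEqFinrank]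
  have hB1 : ∀ i, B1 i = ι (b i) := fun i => by
    simp only [B1, coe_basisOfLinearIndependentOfCardEqFinrank]
  rw [Algebra.norm_eq_matrix_det B1, Algebra.norm_eq_matrix_det B0, RingHom.map_det]
  congr 1
  ext i j
  rw [RingHom.mapMatrix_apply, Matrix.map_apply, Algebra.leftMulMatrix_eq_repr_mul,
    Algebra.leftMulMatrix_eq_repr_mul]
  obtain ⟨c, hc⟩ : ∃ c : Fin n → K0, c = fun k => B0.repr (x * B0 j) k := ⟨_, rfl⟩
  have hx : x * B0 j = ∑ k, c k • B0 k := by
    rw [hc]
    exact (B0.sum_repr _).symm
  have hx1 : ι x * B1 j = ∑ k, ι' (c k) • B1 k := by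
    rw [hB1, ← hB0, ← map_mul, hx, map_sum]
    refine Finset.sum_congr rfl fun k _ => ?_
    rw [Algebra.smul_def, map_mul, hcomm, hB1, ← hB0, ← Algebra.smul_def]
  rw [hx1, Module.Basis.repr_sum_self, hc]

/-- **Prime degree**: an element outside the base field has independent powers. -/
theorem linearIndependent_pow_of_prime {K L : Type*} [Field K] [Field L] [Algebra K L]
    {q : ℕ} (hq : q.Prime) (h : Module.finrank K L = q) {y : L}
    (hy : y ∉ (algebraMap K L).range) :
    LinearIndependent K (fun k : Fin q => y ^ (k : ℕ)) := by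
  have : Module.Finite K L := Module.finite_of_finrank_pos (by rw [h]; exact hq.pos)
  have hint : IsIntegral K y := Algebra.IsIntegral.isIntegral y
  have hdvd : (minpoly K y).natDegree ∣ q := h ▸ minpoly.degree_dvd hint
  have hdeg : (minpoly K y).natDegree = q := by
    rcases (Nat.dvd_prime hq).mp hdvd with h1 | h1
    · exact absurd (minpoly.natDegree_eq_one_iff.mp h1) hy
    · exact h1
  have := linearIndependent_pow (K := K) y
  rw [hdeg] at this
  exact this

/-- Base change of the norm for two extensions of the same prime degree `q`, given ONE element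
of the small top field whose image does not lie in the big bottom field. -/
theorem norm_baseChange_of_prime (ι' : K0 →+* K1) (ι : L0 →+* L1)
    (hcomm : ∀ x, ι (algebraMap K0 L0 x) = algebraMap K1 L1 (ι' x))
    {q : ℕ} (hq : q.Prime) (h0 : Module.finrank K0 L0 = q) (h1 : Module.finrank K1 L1 = q)
    (y : L0) (hy : ι y ∉ (algebraMap K1 L1).range) (x : L0) :
    Algebra.norm K1 (ι x) = ι' (Algebra.norm K0 x) := by
  have hy0 : y ∉ (algebraMap K0 L0).range := by
    rintro ⟨z, hz⟩
    exact hy ⟨ι' z, by rw [← hcomm, hz]⟩
  refine norm_baseChange ι' ι hcomm hq.pos (fun k : Fin q => y ^ (k : ℕ))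
    (linearIndependent_pow_of_prime hq h0 hy0) h0 ?_ h1 x
  have h := linearIndependent_pow_of_prime hq h1 hy
  simpa only [map_pow] using h

end Generic

/-! ### The modular instances -/

section Modular

set_option synthInstance.maxHeartbeats 400000

/-- `ℚ̄`. -/
local notation "Qb" => AlgebraicClosure ℚ

open Fermat.Agent.S24 (genFam coe_genFam JFam jF coe_jF)
open Fermat.Agent.S36.Fricke (fricke fricke_alpha fricke_genFam frickeDiv coe_frickeDiv)
open Fermat.Agent.S36.AuxPull (inclBar coe_inclBar)

variable (M q d : ℕ) [NeZero M] [NeZero q] [NeZero d]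

omit [NeZero M] [NeZero q] [NeZero d] in
theorem dvd_low : M * q ∣ M * d * q := ⟨d, by ring⟩

omit [NeZero M] [NeZero q] [NeZero d] in
theorem dvd_high : M * q * q ∣ M * d * q * q := ⟨d, by ring⟩

/-- The top divisor `M q q` of the level `M q q`. -/
def topDiv : ↥(M * q * q).divisors :=
  ⟨M * q * q, Nat.mem_divisors.mpr ⟨dvd_rfl, NeZero.ne _⟩⟩

/-- `M q q` as a divisor of the level `M d q q`. -/
def topDiv' : ↥(M * d * q * q).divisors :=
  ⟨M * q * q, Nat.mem_divisors.mpr ⟨dvd_high M q d, NeZero.ne _⟩⟩

theorem inclBar_genFam_topDiv :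
    inclBar (dvd_high M q d) (genFam (M * q * q) (topDiv M q)) =
      genFam (M * d * q * q) (topDiv' M q d) := by
  apply Subtype.ext
  rw [coe_inclBar]
  rfl

/-- `j(Q^{M q q})` does not lie in `F̄_{M d q}` when `q ∤ d` (Fricke involution of level
`(M d q) q`: its image `j(Q^d)` is not a series in `Q^q`). -/
theorem genFam_topDiv'_notMem_range_alpha (hd : ¬ q ∣ d) :
    genFam (M * d * q * q) (topDiv' M q d) ∉
      (heckeAlphaBar Qb (M * d * q) q).toRingHom.range := by
  rintro ⟨x, hx⟩
  have hx' : heckeAlphaBar Qb (M * d * q) q x = genFam (M * d * q * q) (topDiv' M q d) := hx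
  have h1 := fricke_alpha (M * d * q) q x
  rw [hx', fricke_genFam] at h1
  have h2 : ((genFam (M * d * q * q) (frickeDiv (M * d * q * q) (topDiv' M q d)) :
        modularFunctionFieldBar (M * d * q * q)) : LaurentSeries Qb).coeff (-(d : ℤ)) =
      ((heckeBetaBar Qb (M * d * q) q (fricke (M * d * q) x) :
        modularFunctionFieldBar (M * d * q * q)) : LaurentSeries Qb).coeff (-(d : ℤ)) := by
    rw [h1]
  rw [coe_heckeBetaBar, coe_genFam] at h2
  -- the right-hand side vanishes
  have hr : (qExpand Qb q ((fricke (M * d * q) x : modularFunctionFieldBar (M * d * q)) :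
      LaurentSeries Qb)).coeff (-(d : ℤ)) = 0 := by
    refine qExpand_coeff_of_not_dvd q _ ?_
    rw [Int.dvd_neg]
    exact_mod_cast hd
  -- the left-hand side is `1`
  have hdiv : ((frickeDiv (M * d * q * q) (topDiv' M q d) : ↥(M * d * q * q).divisors) : ℕ) = d := by
    rw [coe_frickeDiv]
    show M * d * q * q / (M * q * q) = d
    have hpos : 0 < M * q * q :=
      Nat.pos_of_ne_zero (mul_ne_zero (mul_ne_zero (NeZero.ne M) (NeZero.ne q)) (NeZero.ne q))
    exact Nat.div_eq_of_eq_mul_left hpos (by ring)
  have hl : (JFam (M * d * q * q) (frickeDiv (M * d * q * q) (topDiv' M q d))).coeff (-(d : ℤ))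
      = 1 := by
    show (coeffEmb Qb (qExpand ℚ
      ((frickeDiv (M * d * q * q) (topDiv' M q d) : ↥(M * d * q * q).divisors) : ℕ) jq)).coeff
        (-(d : ℤ)) = 1
    rw [qExpand_congr hdiv, coeffEmb_coeff]
    have e : (-(d : ℤ)) = (d : ℤ) * (-1) := by ring
    rw [e, qExpand_coeff_mul, coeff_jq_neg_one, map_one]
  rw [hl, hr] at h2
  exact one_ne_zero h2

/-- `j` is not in the image of `β` (no `Q^{-1}`-coefficient in a series in `Q^q`). -/
theorem jF_notMem_range_beta (N : ℕ) [NeZero N] (hq : q.Prime) :
    jF (N * q) ∉ (heckeBetaBar Qb N q).toRingHom.range := by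
  rintro ⟨x, hx⟩
  have hx' : heckeBetaBar Qb N q x = jF (N * q) := hx
  have h2 : ((heckeBetaBar Qb N q x : modularFunctionFieldBar (N * q)) :
        LaurentSeries Qb).coeff (-1 : ℤ) =
      ((jF (N * q) : modularFunctionFieldBar (N * q)) : LaurentSeries Qb).coeff (-1 : ℤ) := by
    rw [hx']
  rw [coe_heckeBetaBar, coe_jF, coeffEmb_coeff, coeff_jq_neg_one, map_one,
    qExpand_coeff_of_not_dvd q _ (by
      rw [Int.dvd_neg]
      intro h
      have h1 : (q : ℤ) = 1 := Int.eq_one_of_dvd_one (by positivity) h
      exact hq.one_lt.ne' (by exact_mod_cast h1))] at h2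
  exact zero_ne_one h2

/-- The inclusions commute with `α`. -/
theorem incl_alpha (x : modularFunctionFieldBar (M * q)) :
    inclBar (dvd_high M q d) (heckeAlphaBar Qb (M * q) q x) =
      heckeAlphaBar Qb (M * d * q) q (inclBar (dvd_low M q d) x) := by
  apply Subtype.ext
  rw [coe_inclBar, coe_heckeAlphaBar, coe_heckeAlphaBar, coe_inclBar]

/-- The inclusions commute with `β`. -/
theorem incl_beta (x : modularFunctionFieldBar (M * q)) :
    inclBar (dvd_high M q d) (heckeBetaBar Qb (M * q) q x) =
      heckeBetaBar Qb (M * d * q) q (inclBar (dvd_low M q d) x) := by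
  apply Subtype.ext
  rw [coe_inclBar, coe_heckeBetaBar, coe_heckeBetaBar, coe_inclBar]

/-- **Base change of the `α`-norm** under the level raising `M q q ∣ M d q q`, `q ∤ d`. -/
theorem alphaNm_inclBar (hq : q.Prime) (hd : ¬ q ∣ d) (f : modularFunctionFieldBar (M * q * q)) :
    Fermat.Agent.S35.ModelFPlan.alphaNm (M * d * q) q (inclBar (dvd_high M q d) f) =
      inclBar (dvd_low M q d) (Fermat.Agent.S35.ModelFPlan.alphaNm (M * q) q f) := by
  unfold Fermat.Agent.S35.ModelFPlan.alphaNm
  letI a0 : Algebra (modularFunctionFieldBar (M * q)) (modularFunctionFieldBar (M * q * q)) :=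
    algebraAlong (heckeAlphaBar Qb (M * q) q)
  letI a1 : Algebra (modularFunctionFieldBar (M * d * q))
      (modularFunctionFieldBar (M * d * q * q)) :=
    algebraAlong (heckeAlphaBar Qb (M * d * q) q)
  have h0 : Module.finrank (modularFunctionFieldBar (M * q))
      (modularFunctionFieldBar (M * q * q)) = q :=
    Fermat.Agent.S36.Fricke.finrank_alpha_of_dvd' (M * q) q hq (dvd_mul_left q M)
  have h1 : Module.finrank (modularFunctionFieldBar (M * d * q))
      (modularFunctionFieldBar (M * d * q * q)) = q :=
    Fermat.Agent.S36.Fricke.finrank_alpha_of_dvd' (M * d * q) q hq (dvd_mul_left q (M * d))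
  have hcomm : ∀ x : modularFunctionFieldBar (M * q),
      (inclBar (dvd_high M q d)).toRingHom
        (algebraMap (modularFunctionFieldBar (M * q)) (modularFunctionFieldBar (M * q * q)) x) =
      algebraMap (modularFunctionFieldBar (M * d * q)) (modularFunctionFieldBar (M * d * q * q))
        ((inclBar (dvd_low M q d)).toRingHom x) := fun x => incl_alpha M q d x
  have hy : (inclBar (dvd_high M q d)).toRingHom (genFam (M * q * q) (topDiv M q)) ∉
      (algebraMap (modularFunctionFieldBar (M * d * q))
        (modularFunctionFieldBar (M * d * q * q))).range := by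
    show inclBar (dvd_high M q d) (genFam (M * q * q) (topDiv M q)) ∉ _
    rw [inclBar_genFam_topDiv]
    exact genFam_topDiv'_notMem_range_alpha M q d hd
  exact norm_baseChange_of_prime (inclBar (dvd_low M q d)).toRingHom
    (inclBar (dvd_high M q d)).toRingHom hcomm hq h0 h1 (genFam (M * q * q) (topDiv M q)) hy f

/-- **Base change of the `β`-norm** under the level raising `M q q ∣ M d q q`. -/
theorem betaNm_inclBar (hq : q.Prime) (f : modularFunctionFieldBar (M * q * q)) :
    Fermat.Agent.S35.ModelFPlan.betaNm (M * d * q) q (inclBar (dvd_high M q d) f) =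
      inclBar (dvd_low M q d) (Fermat.Agent.S35.ModelFPlan.betaNm (M * q) q f) := by
  unfold Fermat.Agent.S35.ModelFPlan.betaNm
  letI a0 : Algebra (modularFunctionFieldBar (M * q)) (modularFunctionFieldBar (M * q * q)) :=
    algebraAlong (heckeBetaBar Qb (M * q) q)
  letI a1 : Algebra (modularFunctionFieldBar (M * d * q))
      (modularFunctionFieldBar (M * d * q * q)) :=
    algebraAlong (heckeBetaBar Qb (M * d * q) q)
  have h0 : Module.finrank (modularFunctionFieldBar (M * q))
      (modularFunctionFieldBar (M * q * q)) = q :=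
    Fermat.Agent.S36.Fricke.finrank_beta_of_dvd' (M * q) q hq (dvd_mul_left q M)
  have h1 : Module.finrank (modularFunctionFieldBar (M * d * q))
      (modularFunctionFieldBar (M * d * q * q)) = q :=
    Fermat.Agent.S36.Fricke.finrank_beta_of_dvd' (M * d * q) q hq (dvd_mul_left q (M * d))
  have hcomm : ∀ x : modularFunctionFieldBar (M * q),
      (inclBar (dvd_high M q d)).toRingHom
        (algebraMap (modularFunctionFieldBar (M * q)) (modularFunctionFieldBar (M * q * q)) x) =
      algebraMap (modularFunctionFieldBar (M * d * q)) (modularFunctionFieldBar (M * d * q * q))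
        ((inclBar (dvd_low M q d)).toRingHom x) := fun x => incl_beta M q d x
  have hy : (inclBar (dvd_high M q d)).toRingHom (jF (M * q * q)) ∉
      (algebraMap (modularFunctionFieldBar (M * d * q))
        (modularFunctionFieldBar (M * d * q * q))).range := by
    have e : (inclBar (dvd_high M q d)).toRingHom (jF (M * q * q)) = jF (M * d * q * q) := by
      apply Subtype.ext
      show ((inclBar (dvd_high M q d) (jF (M * q * q)) : modularFunctionFieldBar (M * d * q * q)) :
        LaurentSeries Qb) = _
      rw [coe_inclBar, coe_jF, coe_jF]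
    rw [e]
    exact jF_notMem_range_beta q (M * d * q) hq
  exact norm_baseChange_of_prime (inclBar (dvd_low M q d)).toRingHom
    (inclBar (dvd_high M q d)).toRingHom hcomm hq h0 h1 (jF (M * q * q)) hy f

end Modular

end Fermat.Agent.S36.NormBC
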