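import Mathlib

/-!
# S36, block [NORM-cong-G] : the norm congruence rules over an arbitrary subring of `Ω`

Twin of `S36/NormCong.lean` in which the "Gauss ring" `G` is only a SUBRING of the big field
`Ω` (as `{x | ∃ y, GRel A x y} ⊆ ℚ̄((Q))`), not a valuation subring, and the "maximal ideal" is an
ideal-like additive subgroup `J` of `G` (as `{x | GRel A x 0}`), or `ϖ G`.

`E`, `E'` fields, `Nm : E → E'` any function, `emb' : E' →+* Ω`, `σ s : E →+* Ω` (`s : ι`) with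
`emb' (Nm y) = ∏ s, σ s y`.

* `norm_sub_prod_mem`          : `σ s g ≡ emb' (a s)` mod `J` for all `s` ⟹ `Nm g ≡ ∏ s, a s`;
* `norm_sub_mul_pow_mem`       : one distinguished embedding ⟹ `Nm g ≡ a₁ * a₃ ^ (card ι - 1)`;
* `norm_sub_mem_of_pow`        : all `σ s ≡ emb` mod `J` and `g ^ card ι ≡ a` ⟹ `Nm g ≡ a`;
* `norm_sub_prod_eq_mul`       : the split rule modulo `ϖ G`;
* `norm_sub_prod_pow_eq_mul_of_branches` : constants rule with exponents
  (`x ≡ c k` mod `ϖ' (W k)` for all branches `k` ⟹ `Nm x ≡ ∏ k, c k ^ d k` mod `ϖ'`, the quotient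
  being `G`-integral).
-/

set_option autoImplicit false

namespace Fermat.Agent.S36.NormCongG

/-! ### Product congruences in a commutative ring -/

section Prod

variable {Ω : Type*} [CommRing Ω]

/-- Product congruence modulo an ideal-like additive subgroup `J` of a subring `G` of `Ω`. -/
theorem prod_sub_prod_mem (G : Subring Ω) (J : AddSubgroup Ω)
    (hJ : ∀ a ∈ G, ∀ y ∈ J, a * y ∈ J) (hJG : ∀ y ∈ J, y ∈ G)
    {ι : Type*} (s : Finset ι) (x b : ι → Ω) (hb : ∀ i ∈ s, b i ∈ G)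
    (h : ∀ i ∈ s, x i - b i ∈ J) :
    ∏ i ∈ s, x i - ∏ i ∈ s, b i ∈ J := by
  classical
  induction s using Finset.induction_on with
  | empty => simp
  | insert i s hi ih =>
    rw [Finset.prod_insert hi, Finset.prod_insert hi]
    have h1 : x i - b i ∈ J := h i (Finset.mem_insert_self i s)
    have h2 : ∏ j ∈ s, x j - ∏ j ∈ s, b j ∈ J :=
      ih (fun j hj => hb j (Finset.mem_insert_of_mem hj))
        (fun j hj => h j (Finset.mem_insert_of_mem hj))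
    have hbi : b i ∈ G := hb i (Finset.mem_insert_self i s)
    have hbs : ∏ j ∈ s, b j ∈ G :=
      Subring.prod_mem G (fun j hj => hb j (Finset.mem_insert_of_mem hj))
    have hxs : ∏ j ∈ s, x j ∈ G := by
      have h3 := G.add_mem (hJG _ h2) hbs
      rwa [sub_add_cancel] at h3
    have e : x i * ∏ j ∈ s, x j - b i * ∏ j ∈ s, b j =
        (∏ j ∈ s, x j) * (x i - b i) + b i * (∏ j ∈ s, x j - ∏ j ∈ s, b j) := by ring
    rw [e]
    exact J.add_mem (hJ _ hxs _ h1) (hJ _ hbi _ h2)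

/-- The additive subgroup `ϖ G` of `Ω`. -/
def mulSubgroup (G : Subring Ω) (ϖ : Ω) : AddSubgroup Ω where
  carrier := {y | ∃ z ∈ G, y = ϖ * z}
  add_mem' := by
    rintro _ _ ⟨z, hz, rfl⟩ ⟨z', hz', rfl⟩
    exact ⟨z + z', G.add_mem hz hz', by ring⟩
  zero_mem' := ⟨0, G.zero_mem, by simp⟩
  neg_mem' := by
    rintro _ ⟨z, hz, rfl⟩
    exact ⟨-z, G.neg_mem hz, by ring⟩

theorem mem_mulSubgroup {G : Subring Ω} {ϖ y : Ω} :
    y ∈ mulSubgroup G ϖ ↔ ∃ z ∈ G, y = ϖ * z := Iff.rfl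

theorem mul_mem_mulSubgroup (G : Subring Ω) (ϖ : Ω) :
    ∀ a ∈ G, ∀ y ∈ mulSubgroup G ϖ, a * y ∈ mulSubgroup G ϖ := by
  rintro a ha _ ⟨z, hz, rfl⟩
  exact ⟨a * z, G.mul_mem ha hz, by ring⟩

theorem mulSubgroup_le (G : Subring Ω) (ϖ : Ω) (hϖ : ϖ ∈ G) :
    ∀ y ∈ mulSubgroup G ϖ, y ∈ G := by
  rintro _ ⟨z, hz, rfl⟩
  exact G.mul_mem hϖ hz

end Prod

/-! ### The norm rules -/

section Norm

variable {E E' Ω : Type*} [Field E] [Field E'] [Field Ω] (G : Subring Ω) (J : AddSubgroup Ω)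
  (emb' : E' →+* Ω) {ι : Type*} [Fintype ι] (σ : ι → E →+* Ω) (Nm : E → E')

/-- **Split rule**: if `emb' (Nm y) = ∏ s, σ s y` and `σ s g ≡ emb' (a s)` modulo `J` for every
`s`, then `Nm g ≡ ∏ s, a s` modulo `J`. -/
theorem norm_sub_prod_mem (hJ : ∀ a ∈ G, ∀ y ∈ J, a * y ∈ J) (hJG : ∀ y ∈ J, y ∈ G)
    (hNm : ∀ y, emb' (Nm y) = ∏ s, σ s y) (g : E) (a : ι → E')
    (ha : ∀ s, emb' (a s) ∈ G) (hg : ∀ s, σ s g - emb' (a s) ∈ J) :
    emb' (Nm g - ∏ s, a s) ∈ J := by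
  rw [map_sub, hNm, map_prod]
  exact prod_sub_prod_mem G J hJ hJG Finset.univ _ _ (fun s _ => ha s) (fun s _ => hg s)

/-- **Split rule with a distinguished embedding** `s₀`: if `σ s₀ g ≡ emb' a₁` and
`σ s g ≡ emb' a₃` for all `s ≠ s₀` (modulo `J`), then `Nm g ≡ a₁ * a₃ ^ (card ι - 1)`. -/
theorem norm_sub_mul_pow_mem [DecidableEq ι] (hJ : ∀ a ∈ G, ∀ y ∈ J, a * y ∈ J)
    (hJG : ∀ y ∈ J, y ∈ G) (hNm : ∀ y, emb' (Nm y) = ∏ s, σ s y)
    (s₀ : ι) (g : E) (a₁ a₃ : E') (ha₁ : emb' a₁ ∈ G) (ha₃ : emb' a₃ ∈ G)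
    (hg₁ : σ s₀ g - emb' a₁ ∈ J) (hg₃ : ∀ s, s ≠ s₀ → σ s g - emb' a₃ ∈ J) :
    emb' (Nm g - a₁ * a₃ ^ (Fintype.card ι - 1)) ∈ J := by
  have hprod : ∏ s, (if s = s₀ then a₁ else a₃) = a₁ * a₃ ^ (Fintype.card ι - 1) := by
    rw [← Finset.mul_prod_erase Finset.univ _ (Finset.mem_univ s₀), if_pos rfl]
    congr 1
    rw [Finset.prod_congr rfl (fun s hs => if_neg (Finset.ne_of_mem_erase hs)),
      Finset.prod_const, Finset.card_erase_of_mem (Finset.mem_univ s₀), Finset.card_univ]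
  rw [← hprod]
  refine norm_sub_prod_mem G J emb' σ Nm hJ hJG hNm g _ (fun s => ?_) (fun s => ?_)
  · by_cases hs : s = s₀
    · rw [if_pos hs]; exact ha₁
    · rw [if_neg hs]; exact ha₃
  · by_cases hs : s = s₀
    · rw [if_pos hs, hs]; exact hg₁
    · rw [if_neg hs]; exact hg₃ s hs

/-- **Twisted rule**: if every conjugate embedding `σ s` is congruent modulo `J` to one embedding
`emb` at `g` ("all conjugates are rotations"), `emb g ∈ G`, and `g ^ card ι ≡ a` modulo `J`, then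
`Nm g ≡ a` modulo `J`. -/
theorem norm_sub_mem_of_pow (hJ : ∀ a ∈ G, ∀ y ∈ J, a * y ∈ J) (hJG : ∀ y ∈ J, y ∈ G)
    (emb : E →+* Ω) (hNm : ∀ y, emb' (Nm y) = ∏ s, σ s y) (g : E) (a : E')
    (hgG : emb g ∈ G) (hrot : ∀ s, σ s g - emb g ∈ J)
    (hg : emb (g ^ Fintype.card ι) - emb' a ∈ J) :
    emb' (Nm g - a) ∈ J := by
  rw [map_sub, hNm]
  have h3 : ∏ s, σ s g - ∏ _s : ι, emb g ∈ J :=
    prod_sub_prod_mem G J hJ hJG Finset.univ _ _ (fun _ _ => hgG) (fun s _ => hrot s)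
  rw [Finset.prod_const, Finset.card_univ, ← map_pow] at h3
  have h4 := J.add_mem h3 hg
  rwa [sub_add_sub_cancel] at h4

/-- **Split rule modulo `ϖ G`**, for an arbitrary `ϖ ∈ G`. -/
theorem norm_sub_prod_eq_mul (ϖ : Ω) (hϖ : ϖ ∈ G) (hNm : ∀ y, emb' (Nm y) = ∏ s, σ s y)
    (g : E) (a : ι → E') (ha : ∀ s, emb' (a s) ∈ G)
    (hg : ∀ s, ∃ z ∈ G, σ s g - emb' (a s) = ϖ * z) :
    ∃ z ∈ G, emb' (Nm g - ∏ s, a s) = ϖ * z :=
  norm_sub_prod_mem G (mulSubgroup G ϖ) emb' σ Nm (mul_mem_mulSubgroup G ϖ)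
    (mulSubgroup_le G ϖ hϖ) hNm g a ha hg

/-- Exponent bookkeeping: a product over the embeddings, constant on the fibres of `br`, is a
product of powers over the branches. -/
theorem prod_comp_eq_prod_pow {κ M : Type*} [Fintype κ] [DecidableEq κ] [CommMonoid M]
    (br : ι → κ) (c : κ → M) (d : κ → ℕ)
    (hd : ∀ k, (Finset.univ.filter (fun s => br s = k)).card = d k) :
    ∏ s, c (br s) = ∏ k, c k ^ d k := by
  rw [← Finset.prod_fiberwise Finset.univ br (fun s => c (br s))]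
  refine Finset.prod_congr rfl (fun k _ => ?_)
  rw [Finset.prod_congr rfl (fun s hs => by rw [(Finset.mem_filter.1 hs).2] :
    ∀ s ∈ Finset.univ.filter (fun s => br s = k), c (br s) = c k), Finset.prod_const, hd k]

variable (α : E' →+* E)

/-- **Constants rule** (shape `x ≡ c k mod ϖ (W k) ∀ k ⇒ Nm x ≡ ∏ c (br s) mod ϖ`).  `W k ⊆ E`
are arbitrary sets ("the valuation ring of the branch `k`"), `br s` is the branch to which the
conjugate embedding `σ s` belongs (`hW`), `σ s ∘ α = emb'`.  The quotient `z` is `G`-integral. -/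
theorem norm_sub_prod_eq_mul_of_branches {κ : Type*} (W : κ → Set E) (br : ι → κ)
    (hW : ∀ s, ∀ y ∈ W (br s), σ s y ∈ G) (hσα : ∀ s x, σ s (α x) = emb' x)
    (hNm : ∀ y, emb' (Nm y) = ∏ s, σ s y) (ϖ' : E') (hϖ' : ϖ' ≠ 0) (hϖ : emb' ϖ' ∈ G)
    (g : E) (c : κ → E') (hc : ∀ k, emb' (c k) ∈ G)
    (hg : ∀ k, ∃ z ∈ W k, g - α (c k) = α ϖ' * z) :
    ∃ z : E', emb' z ∈ G ∧ Nm g - ∏ s, c (br s) = ϖ' * z := by
  obtain ⟨z, hz, hyz⟩ := norm_sub_prod_eq_mul G emb' σ Nm (emb' ϖ') hϖ hNm g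
    (fun s => c (br s)) (fun s => hc (br s)) (fun s => by
      obtain ⟨z, hz, hgz⟩ := hg (br s)
      refine ⟨σ s z, hW s z hz, ?_⟩
      have h1 := congrArg (σ s) hgz
      rwa [map_sub, map_mul, hσα, hσα] at h1)
  have hf : emb' ϖ' ≠ 0 := (map_ne_zero emb').2 hϖ'
  refine ⟨ϖ'⁻¹ * (Nm g - ∏ s, c (br s)), ?_, by field_simp⟩
  have e : emb' (ϖ'⁻¹ * (Nm g - ∏ s, c (br s))) = z := by
    rw [map_mul, map_inv₀, hyz, inv_mul_cancel_left₀ hf]
  rw [e]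
  exact hz

/-- **Constants rule with exponents** (shape `x ≡ c k mod ϖ (W k) ∀ k ⇒ Nm x ≡ ∏ c k ^ d k mod
ϖ`), `d k` = the number of conjugate embeddings belonging to the branch `k`. -/
theorem norm_sub_prod_pow_eq_mul_of_branches {κ : Type*} [Fintype κ] [DecidableEq κ]
    (W : κ → Set E) (br : ι → κ) (d : κ → ℕ)
    (hd : ∀ k, (Finset.univ.filter (fun s => br s = k)).card = d k)
    (hW : ∀ s, ∀ y ∈ W (br s), σ s y ∈ G) (hσα : ∀ s x, σ s (α x) = emb' x)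
    (hNm : ∀ y, emb' (Nm y) = ∏ s, σ s y) (ϖ' : E') (hϖ' : ϖ' ≠ 0) (hϖ : emb' ϖ' ∈ G)
    (g : E) (c : κ → E') (hc : ∀ k, emb' (c k) ∈ G)
    (hg : ∀ k, ∃ z ∈ W k, g - α (c k) = α ϖ' * z) :
    ∃ z : E', emb' z ∈ G ∧ Nm g - ∏ k, c k ^ d k = ϖ' * z := by
  rw [← prod_comp_eq_prod_pow br c d hd]
  exact norm_sub_prod_eq_mul_of_branches G emb' σ Nm α W br hW hσα hNm ϖ' hϖ' hϖ g c hc hg

end Norm

end Fermat.Agent.S36.NormCongG
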