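/-
S36 — NormKMapB.lean (helper54): [CORR36-inst], deal of helper12 (board, 11:00Z): the hypotheses
of helper31's `S36/Corr3NV.lean` VERBATIM for the `K`-level norm maps of record
`NormKMap.nmAlpha`, `NormKMap.nmBeta : F_K(M q²) →*₀ F_K(M q)` (helper62; descent of the norms
along the two degeneracy maps through `S36/NormK`), and the instantiated norm–residue rules.

Level `N = (M q) q`, `q` prime, `q ∤ M`, `K` any intermediate field.

* `iota3_eq_top`   — the middle-cusp embedding `ι3^ξ` of `F_K(M q²)` is the restriction of the one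
                     of `F_{ℚ̄}(M q²)` (uniqueness `Iota3.ringHom_ext_E2`);
* `emb3_eq_famBar` — the bridge between the `K`-level family `Iota3K.emb3` and the `ℚ̄`-level
                     family `Iota3K.famBar`: `emb3 c x = famBar c (toBar x)`;
* `hP1`            — `↑(N_α x) = ∏ c : Fin q, emb3 c x`                    (Corr3NV `hP1`);
* `hG2`            — `x ↦ g ⟹ N_β x ↦ Φ g`, `Φ` = coefficientwise Frobenius (Corr3NV `hG2`);
* `hP3a`, `hP3b`   — `w_q (N_α x) = N_β (w_{q²} x)`, `w_q (N_β x) = N_α (w_{q²} x)`;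
* `rule_alpha1`, `rule_alpha2`, `rule_beta1`, `rule_beta2` — the four norm–residue rules
                     (hRα1, hRα2, hRβ1, hRβ2) for `nmAlpha`, `nmBeta`, with `hW3` discharged by
                     `W3Sym.gRel_iota3_wK2`;
* `norm_alpha_const`, `norm_beta_const` — `N a = a ^ q` for `a ∈ O = A ∩ K` (hNαπ, hNβπ).
-/
import Mathlib
import Fermat.Agent.S36.NormKMap
import Fermat.Agent.S36.Corr3NV
import Fermat.Agent.S36.W3Sym

set_option autoImplicit false

noncomputable section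

namespace Fermat.Agent.S36.NormKMapB

open ModularCurve AlgebraicCurve HahnSeries
open Fermat.Agent.S18 Fermat.Agent.S18.Arith Fermat.Agent.S18.ModelPlan Fermat.Agent.S34

variable (M q : ℕ) [NeZero M] [NeZero q] (K : IntermediateField ℚ Qb)
variable (hq : q.Prime) (hqM : ¬ q ∣ M)

/-! ### The bridge `emb3 = famBar ∘ toBar` -/

/-- The middle-cusp embedding of `F_K(M q²)` is the restriction of the one of
`F_{ℚ̄}(M q²)`. -/
theorem iota3_eq_top (ξ : Qb) (hξ : ξ ^ q = 1) (hξ1 : ξ ≠ 1) (x : FK ((M * q) * q) K) :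
    Iota3.iota3 M q K hq hqM ξ hξ hξ1 x
      = Iota3.iota3 M q (⊤ : IntermediateField ℚ Qb) hq hqM ξ hξ hξ1
          (Iota3.barToTop (M * q * q) (Glob.toBar (M * q * q) K x)) := by
  have h := Iota3.ringHom_ext_E2 M q K hq hqM (Iota3.iota3 M q K hq hqM ξ hξ hξ1)
    (((Iota3.iota3 M q (⊤ : IntermediateField ℚ Qb) hq hqM ξ hξ hξ1).comp
      (Iota3.barToTop (M * q * q))).comp (Glob.toBar (M * q * q) K)) ?_ ?_
  · exact congrArg (fun g : FK ((M * q) * q) K →+* LaurentSeries Qb => g x) h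
  · intro y
    rw [Iota3.iota3_incl]
    show (y : LaurentSeries Qb) = Iota3.iota3 M q (⊤ : IntermediateField ℚ Qb) hq hqM ξ hξ hξ1
      (Iota3.barToTop (M * q * q) (Glob.toBar (M * q * q) K
        (DegTower.incl (M * q) ((M * q) * q) K (Dvd.intro q rfl) y)))
    have e : Iota3.barToTop (M * q * q) (Glob.toBar (M * q * q) K
          (DegTower.incl (M * q) ((M * q) * q) K (Dvd.intro q rfl) y))
        = DegTower.incl (M * q) ((M * q) * q) (⊤ : IntermediateField ℚ Qb) (Dvd.intro q rfl)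
          (Iota3.barToTop (M * q) (Glob.toBar (M * q) K y)) := by
      apply Subtype.ext
      rw [Iota3.coe_barToTop, Glob.coe_toBar, DegTower.coe_incl, DegTower.coe_incl,
        Iota3.coe_barToTop, Glob.coe_toBar]
    rw [e, Iota3.iota3_incl, Iota3.coe_barToTop, Glob.coe_toBar]
  · rw [Iota3.iota3_jq2K]
    show _ = Iota3.iota3 M q (⊤ : IntermediateField ℚ Qb) hq hqM ξ hξ hξ1
      (Iota3.barToTop (M * q * q) (Glob.toBar (M * q * q) K (Iota3.jq2K M q K)))
    have e : Iota3.barToTop (M * q * q) (Glob.toBar (M * q * q) K (Iota3.jq2K M q K))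
        = Iota3.jq2K M q (⊤ : IntermediateField ℚ Qb) := by
      apply Subtype.ext
      rw [Iota3.coe_barToTop, Glob.coe_toBar, Iota3.coe_jq2K, Iota3.coe_jq2K]
    rw [e, Iota3.iota3_jq2K]

variable {ζ : Qb} (hζ : IsPrimitiveRoot ζ q)

/-- **Bridge**: the `K`-level family of conjugates is the `ℚ̄`-level family on `F_K`. -/
theorem emb3_eq_famBar (c : Fin q) (x : FK ((M * q) * q) K) :
    Iota3K.emb3 M q K hq hqM ζ hζ c x
      = Iota3K.famBar M q hq hqM ζ hζ c (Glob.toBar (M * q * q) K x) := by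
  by_cases h : (c : ℕ) = 0
  · rw [Iota3K.emb3_of_eq M q K hq hqM ζ hζ c h, Iota3K.famBar_of_eq M q hq hqM ζ hζ c h,
      Glob.coe_toBar]
  · rw [Iota3K.emb3_of_ne M q K hq hqM ζ hζ c h, Iota3K.famBar_of_ne M q hq hqM ζ hζ c h]
    exact iota3_eq_top M q K hq hqM _ _ _ x

/-! ### The four hypotheses of `Corr3NV`, verbatim -/

/-- **(hP1)** `N_α x = ∏_c emb3 c x` for the `K`-level norm of record. -/
theorem hP1 : ∀ x : FK ((M * q) * q) K,
    ((NormKMap.nmAlpha M q hq K x : FK (M * q) K) : LaurentSeries Qb)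
      = ∏ c : Fin q, Iota3K.emb3 M q K hq hqM ζ hζ c x := by
  intro x
  rw [NormKMap.coe_nmAlpha_eq M q hq hqM K ζ hζ x,
    ← Finset.mul_prod_erase Finset.univ _ (Finset.mem_univ (0 : Fin q)),
    Iota3K.emb3_of_eq M q K hq hqM ζ hζ 0 (Fin.val_zero q)]
  congr 1
  exact Finset.prod_congr rfl (fun c _ => (emb3_eq_famBar M q K hq hqM hζ c x).symm)

/-- **(hG2)** `x ↦ g ⟹ N_β x ↦ Φ g`. -/
theorem hG2 (A : ValuationSubring Qb) [Fact q.Prime] [CharP (IsLocalRing.ResidueField A) q]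
    (hA : A.LiesOverPrime q) :
    ∀ (x : FK ((M * q) * q) K) (g : LaurentSeries (IsLocalRing.ResidueField A)),
      GRel A ((x : FK ((M * q) * q) K) : LaurentSeries Qb) g →
      GRel A ((NormKMap.nmBeta M q hq hqM K x : FK (M * q) K) : LaurentSeries Qb)
        (coeffMap (frobenius (IsLocalRing.ResidueField A) q) g) :=
  fun x _ h => NormKMap.gRel_nmBeta M q hq hqM K hA x h

/-- **(hP3a)** `w_q (N_α x) = N_β (w_{q²} x)`. -/
theorem hP3a : ∀ x : FK ((M * q) * q) K,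
    WK.wK M q hq hqM K (NormKMap.nmAlpha M q hq K x)
      = NormKMap.nmBeta M q hq hqM K (WQ2.wK2 M q hq hqM K x) :=
  fun x => NormKMap.wK_nmAlpha M q hq hqM K x

/-- **(hP3b)** `w_q (N_β x) = N_α (w_{q²} x)`. -/
theorem hP3b : ∀ x : FK ((M * q) * q) K,
    WK.wK M q hq hqM K (NormKMap.nmBeta M q hq hqM K x)
      = NormKMap.nmAlpha M q hq K (WQ2.wK2 M q hq hqM K x) :=
  fun x => NormKMap.wK_nmBeta M q hq hqM K x

/-! ### The instantiated norm–residue rules -/

section Rules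

variable (A : ValuationSubring Qb)

/-- **(hRα1)** `x ↦ y₁` along `W1`, `x ↦ y₃` along `W3` ⟹ `N_α x ↦ y₁ · y₃ ^ (q - 1)`. -/
theorem rule_alpha1 (hA : A.LiesOverPrime q)
    (hK : ∀ σ ∈ A.inertiaSubgroupIn ℚ, ∀ a ∈ K, σ a = a)
    {ξ : Qb} (hξ : IsPrimitiveRoot ξ q) (hξq : ξ ^ q = 1) (hξ1 : ξ ≠ 1)
    (x : FK ((M * q) * q) K) {y₁ y₃ : LaurentSeries (IsLocalRing.ResidueField A)}
    (h1 : GRel A ((x : FK ((M * q) * q) K) : LaurentSeries Qb) y₁)
    (h3 : GRel A (Iota3.iota3 M q K hq hqM ξ hξq hξ1 x) y₃) :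
    GRel A ((NormKMap.nmAlpha M q hq K x : FK (M * q) K) : LaurentSeries Qb)
      (y₁ * y₃ ^ (q - 1)) :=
  Corr3NV.rule_alpha1 M q K hq hqM A (NormKMap.nmAlpha M q hq K) hA hK hξ hξq hξ1 hξ
    (hP1 M q K hq hqM hξ) x h1 h3

/-- **(hRβ1)** `x ↦ y₁` along `W1` ⟹ `N_β x ↦ Φ y₁`. -/
theorem rule_beta1 [Fact q.Prime] [CharP (IsLocalRing.ResidueField A) q]
    (hA : A.LiesOverPrime q)
    (x : FK ((M * q) * q) K) {y₁ : LaurentSeries (IsLocalRing.ResidueField A)}
    (h1 : GRel A ((x : FK ((M * q) * q) K) : LaurentSeries Qb) y₁) :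
    GRel A ((NormKMap.nmBeta M q hq hqM K x : FK (M * q) K) : LaurentSeries Qb)
      (coeffMap (frobenius (IsLocalRing.ResidueField A) q) y₁) :=
  hG2 M q K hq hqM A hA x y₁ h1

/-- **(hRα2)** `w_{q²} x ↦ y₂` (i.e. `x ↦ y₂` along `W2`) ⟹ `w_q (N_α x) ↦ Φ y₂`. -/
theorem rule_alpha2 [Fact q.Prime] [CharP (IsLocalRing.ResidueField A) q]
    (hA : A.LiesOverPrime q)
    (x : FK ((M * q) * q) K) {y₂ : LaurentSeries (IsLocalRing.ResidueField A)}
    (h2 : GRel A ((WQ2.wK2 M q hq hqM K x : FK ((M * q) * q) K) : LaurentSeries Qb) y₂) :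
    GRel A ((WK.wK M q hq hqM K (NormKMap.nmAlpha M q hq K x) : FK (M * q) K) :
        LaurentSeries Qb)
      (coeffMap (frobenius (IsLocalRing.ResidueField A) q) y₂) := by
  rw [hP3a M q K hq hqM x]
  exact hG2 M q K hq hqM A hA _ y₂ h2

/-- **(hRβ2)** `w_{q²} x ↦ y₂` (along `W2`), `x ↦ y₃` along `W3` ⟹
`w_q (N_β x) ↦ y₂ · y₃ ^ (q - 1)`. -/
theorem rule_beta2 (hA : A.LiesOverPrime q)
    (hK : ∀ σ ∈ A.inertiaSubgroupIn ℚ, ∀ a ∈ K, σ a = a)
    {ξ : Qb} (hξ : IsPrimitiveRoot ξ q) (hξq : ξ ^ q = 1) (hξ1 : ξ ≠ 1)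
    (x : FK ((M * q) * q) K) {y₂ y₃ : LaurentSeries (IsLocalRing.ResidueField A)}
    (h2 : GRel A ((WQ2.wK2 M q hq hqM K x : FK ((M * q) * q) K) : LaurentSeries Qb) y₂)
    (h3 : GRel A (Iota3.iota3 M q K hq hqM ξ hξq hξ1 x) y₃) :
    GRel A ((WK.wK M q hq hqM K (NormKMap.nmBeta M q hq hqM K x) : FK (M * q) K) :
        LaurentSeries Qb)
      (y₂ * y₃ ^ (q - 1)) :=
  Corr3NV.rule_beta2 M q K hq hqM A (NormKMap.nmAlpha M q hq K)
    (NormKMap.nmBeta M q hq hqM K) hA hK hξ hξq hξ1 hξ (hP1 M q K hq hqM hξ)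
    (hP3b M q K hq hqM)
    (fun x _ h => W3Sym.gRel_iota3_wK2 M q K hq hqM A hA hK hξ hξq hξ1 x h) x h2 h3

/-- **(hNαπ)** `N_α a = a ^ q` for `a ∈ O = A ∩ K`. -/
theorem norm_alpha_const (a : OK A K) :
    NormKMap.nmAlpha M q hq K (algebraMap (OK A K) (FK ((M * q) * q) K) a)
      = algebraMap (OK A K) (FK (M * q) K) a ^ q :=
  NormKMap.nmAlpha_algebraMap_OK M q hq K A a

/-- **(hNβπ)** `N_β a = a ^ q` for `a ∈ O = A ∩ K`. -/
theorem norm_beta_const (a : OK A K) :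
    NormKMap.nmBeta M q hq hqM K (algebraMap (OK A K) (FK ((M * q) * q) K) a)
      = algebraMap (OK A K) (FK (M * q) K) a ^ q :=
  NormKMap.nmBeta_algebraMap_OK M q hq hqM K A a

end Rules

/-! ### The norm conditions through the `K`-level maps -/

open Fermat.Agent.S35.ModelFPlan (NormCond) in
/-- **`NormCond` at the `K`-level** (the data `(cα, hα, cβ, hβ)` of the corrector instance): for
a `K`-rational `f` with `NormCond (M q) q m (toBar f)`, both `K`-level norms of `f` are constants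
of `K` times `m`-th powers in `F_K(M q)`. -/
theorem normCond_nm {m : ℕ} (hm : m ≠ 0) (f : FK ((M * q) * q) K)
    (hN : NormCond (M * q) q m (Glob.toBar (M * q * q) K f)) :
    (∃ (h : FK (M * q) K) (c : K), h ≠ 0 ∧ c ≠ 0 ∧
      NormKMap.nmAlpha M q hq K f = constK (M * q) K c * h ^ m) ∧
    (∃ (h : FK (M * q) K) (c : K), h ≠ 0 ∧ c ≠ 0 ∧
      NormKMap.nmBeta M q hq hqM K f = constK (M * q) K c * h ^ m) := by
  obtain ⟨⟨h, c, hh, hc, e⟩, ⟨h', c', hh', hc', e'⟩⟩ :=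
    NormK.normCond_FK' (M * q) q K hm (Glob.toBar (M * q * q) K f) f.2 hN
  have key : ∀ c : K, Glob.toBar (M * q) K (constK (M * q) K c)
      = algebraMap Qb (modularFunctionFieldBar (M * q)) (c : Qb) := by
    intro c
    apply Subtype.ext
    rw [Glob.coe_toBar]
    show (HahnSeries.C ((c : K) : Qb) : LaurentSeries Qb) = algebraMap Qb (LaurentSeries Qb) _
    rw [algebraMap_laurentSeries_eq_single]
    rfl
  refine ⟨⟨h, c, hh, hc, ?_⟩, ⟨h', c', hh', hc', ?_⟩⟩
  · apply (Glob.toBar (M * q) K).injective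
    rw [NormKMap.toBar_nmAlpha, map_mul, map_pow, key]
    exact e
  · apply (Glob.toBar (M * q) K).injective
    rw [NormKMap.toBar_nmBeta, map_mul, map_pow, key]
    exact e'

end Fermat.Agent.S36.NormKMapB
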