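/-
S36 — W3Stab.lean (helper99).  [MODEL3 / NORM3]: the middle component `W3` is stable under the
Atkin–Lehner involution `w_{q²}`, and `w_{q²}` acts trivially on its reductions.

`ι3^ξ = S36.Iota3.iota3` is the middle-cusp embedding of `F_K(M q²)` (identity on `α F_K(M q)`,
`j(Q^{q²}) ↦ j(ξ Q)`), `wK2 = S36.WQ2.wK2` the Atkin–Lehner involution at `q²`.

* `iota3_wK2`       — `ι3^ξ (w x) = (Q ↦ ξ Q) (ι3^{ξ⁻¹} x)` for every `x ∈ F_K(M q²)`
                      (both sides are ring homs; they agree on `α F_K(M q)` by `ι3 ∘ β = rot ∘ w_q`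
                      and at `j(Q^{q²})`);
* `gRel_iota3_wK2`  — if the inertia group of `A` fixes `K` pointwise: the Gauss relation along
                      `ι3^ξ` passes from `x` to `w x` with the SAME reduction
                      (`ξ`-independence: `InertRot.gRel_iota3_iff`; rotation by `ξ ≡ 1`:
                      `S34.ConjMod.gRel_rot`);
* `gRel_iota3_wK2_iff`, `exists_gRel_iota3_wK2_iff` — the equivalences (`w` is an involution).

Consumers: the `β`-rows / `V_V`-rows of the norm congruence rules (NormCongInst, Corr3NV: the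
`W3`-valuation and the `W3`-reduction of `w x` are those of `x`), Toric.
-/
import Mathlib
import Fermat.Agent.S36.Iota3
import Fermat.Agent.S36.InertRot
import Fermat.Agent.S36.WQ2

set_option autoImplicit false

noncomputable section

namespace Fermat.Agent.S36.W3Stab

open ModularCurve AlgebraicCurve HahnSeries
open Fermat.Agent.S18 Fermat.Agent.S18.Arith Fermat.Agent.S24 Fermat.Agent.S34

variable (M q : ℕ) [NeZero M] [NeZero q] (K : IntermediateField ℚ Qb)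
variable (hq : q.Prime) (hqM : ¬ q ∣ M)

/-- The inclusion `F_K(M q) → F_K(M q²)` of `DegTower` is `alphaK2`. -/
theorem incl_eq_alphaK2 (x : FK (M * q) K) :
    DegTower.incl (M * q) ((M * q) * q) K (Dvd.intro q rfl) x = WQ2.alphaK2 M q K x := by
  apply Subtype.ext
  rw [DegTower.coe_incl, WQ2.coe_alphaK2]

/-- `betaK2` is the `q`-expansion map `betaQ`. -/
theorem betaK2_eq_betaQ (x : FK (M * q) K) :
    WQ2.betaK2 M q hq hqM K x = Iota3.betaQ (M * q) K q x := by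
  apply Subtype.ext
  rw [WQ2.coe_betaK2, Iota3.coe_betaQ]

/-- `j(Q^q)` in the two notations (`S34.ConjMod` and `S34.WK`). -/
theorem jqK_eq : ConjMod.jqK M q K = WK.jqK M q hq hqM K := by
  apply Subtype.ext
  rw [ConjMod.coe_jqK, WK.coe_jqK, S28.jd_eq]
  congr 1
  have h := S18.ModelBasicCore.coe_jK (M * q) K
  rw [S28.jd_one] at h
  exact h

/-- `j(Q^{q²})` in the two notations. -/
theorem jq2K_eq_jqqK2 : Iota3.jq2K M q K = WQ2.jqqK2 M q hq hqM K := by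
  rw [Iota3.jq2K, WQ2.jqqK2, betaK2_eq_betaQ, jqK_eq M q K hq hqM]

variable (ξ : Qb) (hξ : ξ ^ q = 1) (hξ1 : ξ ≠ 1) (hξi : ξ⁻¹ ^ q = 1) (hξi1 : ξ⁻¹ ≠ 1)

/-- **`ι3^ξ ∘ w_{q²} = (Q ↦ ξ Q) ∘ ι3^{ξ⁻¹}`.** -/
theorem iota3_wK2 (x : FK ((M * q) * q) K) :
    Iota3.iota3 M q K hq hqM ξ hξ hξ1 (WQ2.wK2 M q hq hqM K x)
      = rotHom ξ (Iota3.xi_ne_zero q hξ) (Iota3.iota3 M q K hq hqM ξ⁻¹ hξi hξi1 x) := by
  have h := Iota3.ringHom_ext_E2 M q K hq hqM
    ((Iota3.iota3 M q K hq hqM ξ hξ hξ1).comp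
      ((WQ2.wK2 M q hq hqM K : FK (M * q * q) K ≃+* FK (M * q * q) K) :
        FK (M * q * q) K →+* FK (M * q * q) K))
    (((rotHom ξ (Iota3.xi_ne_zero q hξ)).toRingHom).comp
      (Iota3.iota3 M q K hq hqM ξ⁻¹ hξi hξi1)) (fun y => ?_) ?_
  · exact congrArg (fun g : FK ((M * q) * q) K →+* LaurentSeries Qb => g x) h
  · -- on `α F_K(M q)`
    show Iota3.iota3 M q K hq hqM ξ hξ hξ1 (WQ2.wK2 M q hq hqM K
        (DegTower.incl (M * q) ((M * q) * q) K (Dvd.intro q rfl) y))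
      = rotHom ξ (Iota3.xi_ne_zero q hξ) (Iota3.iota3 M q K hq hqM ξ⁻¹ hξi hξi1
        (DegTower.incl (M * q) ((M * q) * q) K (Dvd.intro q rfl) y))
    rw [Iota3.iota3_incl, incl_eq_alphaK2, WQ2.wK2_alphaK2, betaK2_eq_betaQ,
      Iota3.iota3_betaQ M q K (WK.wBar M q hq hqM : _ →ₐ[Qb] _)
        (WK.wBar_alpha M q hq hqM) (WK.wBar_beta M q hq hqM) hq hqM ξ hξ hξ1]
    congr 1
    rw [ConjMod.wExp_apply]
    have h1 : (⟨((WK.wK M q hq hqM K y : FK (M * q) K) : LaurentSeries Qb),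
        DescCoeff.FK_le_bar (M * q) K (WK.wK M q hq hqM K y).2⟩ :
          ↥(modularFunctionFieldBar (M * q)))
        = WK.wBar M q hq hqM (S18.Glob.toBar (M * q) K y) := Subtype.ext rfl
    rw [h1]
    show ((WK.wBar M q hq hqM (WK.wBar M q hq hqM (S18.Glob.toBar (M * q) K y)) :
      ↥(modularFunctionFieldBar (M * q))) : LaurentSeries Qb) = (y : LaurentSeries Qb)
    rw [WK.wBar_wBar]
    rfl
  · -- at `j(Q^{q²})`
    show Iota3.iota3 M q K hq hqM ξ hξ hξ1 (WQ2.wK2 M q hq hqM K (Iota3.jq2K M q K))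
      = rotHom ξ (Iota3.xi_ne_zero q hξ)
        (Iota3.iota3 M q K hq hqM ξ⁻¹ hξi hξi1 (Iota3.jq2K M q K))
    rw [Iota3.iota3_jq2K, jq2K_eq_jqqK2 M q K hq hqM, WQ2.wK2_jqqK2, ← WQ2.alphaK2_jK,
      ← incl_eq_alphaK2, Iota3.iota3_incl, rotHom_rotHom]
    ext n
    rw [rotHom_coeff, mul_inv_cancel₀ (Iota3.xi_ne_zero q hξ), one_zpow, one_mul]
    rfl

variable (A : ValuationSubring Qb)

include hξ1 in
/-- **`W3` is `w_{q²}`-stable, with trivial action on the reductions**: if the inertia group of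
`A` fixes `K` pointwise, the Gauss relation along `ι3^ξ` passes from `x` to `w_{q²} x`. -/
theorem gRel_iota3_wK2 (hA : A.LiesOverPrime q)
    (hK : ∀ σ ∈ A.inertiaSubgroupIn ℚ, ∀ a ∈ K, σ a = a)
    (hξp : IsPrimitiveRoot ξ q)
    (x : FK ((M * q) * q) K) {r : LaurentSeries (IsLocalRing.ResidueField A)}
    (h : GRel A (Iota3.iota3 M q K hq hqM ξ hξ hξ1 x) r) :
    GRel A (Iota3.iota3 M q K hq hqM ξ hξ hξ1 (WQ2.wK2 M q hq hqM K x)) r := by
  have : Fact q.Prime := ⟨hq⟩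
  have hξi : ξ⁻¹ ^ q = 1 := by rw [inv_pow, hξ, inv_one]
  have hξi1 : ξ⁻¹ ≠ 1 := fun h1 => hξ1 (by rw [← inv_inv ξ, h1, inv_one])
  rw [iota3_wK2 M q K hq hqM ξ hξ hξ1 hξi hξi1]
  exact ConjMod.gRel_rot q hA hξ (Iota3.xi_ne_zero q hξ)
    (InertRot.gRel_iota3_of_isPrimitiveRoot M q K hq hqM A hA hK hξp hξp.inv hξ hξ1 hξi hξi1 x h)

include hξ1 in
/-- The equivalence form of `gRel_iota3_wK2`. -/
theorem gRel_iota3_wK2_iff (hA : A.LiesOverPrime q)
    (hK : ∀ σ ∈ A.inertiaSubgroupIn ℚ, ∀ a ∈ K, σ a = a)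
    (hξp : IsPrimitiveRoot ξ q)
    (x : FK ((M * q) * q) K) (r : LaurentSeries (IsLocalRing.ResidueField A)) :
    GRel A (Iota3.iota3 M q K hq hqM ξ hξ hξ1 (WQ2.wK2 M q hq hqM K x)) r
      ↔ GRel A (Iota3.iota3 M q K hq hqM ξ hξ hξ1 x) r := by
  constructor
  · intro h
    have h1 := gRel_iota3_wK2 M q K hq hqM ξ hξ hξ1 A hA hK hξp (WQ2.wK2 M q hq hqM K x) h
    rwa [WQ2.wK2_wK2] at h1
  · exact gRel_iota3_wK2 M q K hq hqM ξ hξ hξ1 A hA hK hξp x

include hξ1 in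
/-- Integrality form: `w_{q²} x` is Gauss-integral along `ι3^ξ` iff `x` is. -/
theorem exists_gRel_iota3_wK2_iff (hA : A.LiesOverPrime q)
    (hK : ∀ σ ∈ A.inertiaSubgroupIn ℚ, ∀ a ∈ K, σ a = a)
    (hξp : IsPrimitiveRoot ξ q) (x : FK ((M * q) * q) K) :
    (∃ r, GRel A (Iota3.iota3 M q K hq hqM ξ hξ hξ1 (WQ2.wK2 M q hq hqM K x)) r)
      ↔ ∃ r, GRel A (Iota3.iota3 M q K hq hqM ξ hξ hξ1 x) r :=
  exists_congr fun r => gRel_iota3_wK2_iff M q K hq hqM ξ hξ hξ1 A hA hK hξp x r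

end Fermat.Agent.S36.W3Stab
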