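/-
S36 — NormN2B.lean (helper99): block [NORM3], the CLOSED instances of the constants rule (N2)
in the shape of the hypothesis `hN2` of `TorRelInst.relα_field` / `relβ_field`
(= `ToricRel.rel`), for the intrinsic norm `NormOne.normHom` of `F_K(M q²)` over `F_K(M q)` under
the two instance terms of record

  α : `DegTower.algTower (M * q) (M * q * q) K (Dvd.intro q rfl)`,
  β : `(WQ2.betaK2 M q hq hqM K).toAlgebra`.

An independent B-copy of helper62's `S36/NormN2.lean`; it composes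

* helper26's `NormCongInst.n2_alpha` / `n2_beta` (the four modular instances of (N2));
* helper101's `Emb3Bar` (the `K`-level family is the restriction of `Iota3K.famBar`, and the
  intrinsic `K`-norms are the `ℚ̄`-norms `PushPic.alphaNorm` / `betaNorm`);
* helper79's `InertRotK.exists_gRel_emb3` (all conjugate middle-cusp embeddings define the same
  Gauss ring) and `W3Stab.gRel_iota3_wK2` (`W3` is `w_{q²}`-stable).

The only hypotheses left are the Gauss descriptions of the five valuation rings: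
`V 0 ⊆ Gauss`, `V 1 ⊆ w_{q²}⁻¹ Gauss`, `V 2 ⊆ (ι3^ξ)⁻¹ Gauss` for ONE primitive `ξ`, and
`Gauss ⊆ V' 0`, `w_q⁻¹ Gauss ⊆ V' 1` (all `Iff.rfl` for `GaussV.V1`, `GaussV.V2`, `V3.Hyp3.W3`),
plus `hK`: the inertia group of `A` fixes `K` pointwise (`Plan.UnrBase`).

* `h2V_of_iota3`, `h2Vw_of_iota3` : the hypotheses `h2V`, `h2Vw` of `NormCongInst`;
* `hNm_alpha`, `hNm_beta`         : the hypotheses `hNm` of `NormCongInst` for `NormOne.normHom`;
* `hN2_alpha`, `hN2_beta`         : `hN2` of `TorRelInst.relα_field` / `relβ_field`, general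
                                    `V`, `V'`;
* `hN2_alpha_rec`, `hN2_beta_rec` : the same for the vectors of record
  `![GaussV.V1, GaussV.V2 wK2, W3]`, `![GaussV.V1, GaussV.V2 wK]`.
-/
import Mathlib
import Fermat.Agent.S36.NormCongInst
import Fermat.Agent.S36.Emb3Bar
import Fermat.Agent.S36.InertRotK
import Fermat.Agent.S36.W3Stab
import Fermat.Agent.S36.NormOne
import Fermat.Agent.S36.ToricAsm

set_option autoImplicit false

noncomputable section

namespace Fermat.Agent.S36.NormN2B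

open ModularCurve AlgebraicCurve HahnSeries
open Fermat.Agent.S18 Fermat.Agent.S18.Arith Fermat.Agent.S24 Fermat.Agent.S34 Fermat.Agent.S35

variable (M q : ℕ) [NeZero M] [NeZero q] (hq : q.Prime) (hqM : ¬ q ∣ M)
  (A : ValuationSubring Qb) (K : IntermediateField ℚ Qb)

/-- A `q`-th root of unity `≠ 1` is primitive (`q` prime). -/
theorem isPrimitiveRoot_of_ne_one {q : ℕ} (hq : q.Prime) {ξ : Qb} (hξq : ξ ^ q = 1)
    (hξ1 : ξ ≠ 1) : IsPrimitiveRoot ξ q := by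
  haveI : Fact q.Prime := ⟨hq⟩
  have h := IsPrimitiveRoot.orderOf ξ
  rwa [orderOf_eq_prime hξq hξ1] at h

/-! ### The hypotheses `h2V`, `h2Vw` of `NormCongInst` -/

/-- **`h2V`**: on a ring `W3` contained in the Gauss ring along ONE middle-cusp embedding
`ι3^ξ`, every member `s ≠ 0` of the family `Iota3K.famBar ζ` takes values in the Gauss ring. -/
theorem h2V_of_iota3 (hA : A.LiesOverPrime q)
    (hK : ∀ σ ∈ A.inertiaSubgroupIn ℚ, ∀ a ∈ K, σ a = a)
    {ξ : Qb} (hξq : ξ ^ q = 1) (hξ1 : ξ ≠ 1) {ζ : Qb} (hζ : IsPrimitiveRoot ζ q)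
    (W3 : ValuationSubring (FK (M * q * q) K))
    (hW3 : ∀ x ∈ W3, ∃ y, GRel A (Iota3.iota3 M q K hq hqM ξ hξq hξ1 x) y) :
    ∀ z ∈ W3, ∀ s : Fin q, s ≠ 0 →
      Iota3K.famBar M q hq hqM ζ hζ s (Glob.toBar (M * q * q) K z) ∈ ConjMod.gaussRing A := by
  intro z hz s hs
  rw [← Emb3Bar.emb3_eq_famBar M q K hq hqM ζ hζ s z]
  exact InertRotK.exists_gRel_emb3 M q K hq hqM A hA hK (isPrimitiveRoot_of_ne_one hq hξq hξ1)
    hξq hξ1 hζ s hs z (hW3 z hz)

/-- **`h2Vw`**: the same after `w_{q²}` (`W3` is `w_{q²}`-stable). -/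
theorem h2Vw_of_iota3 (hA : A.LiesOverPrime q)
    (hK : ∀ σ ∈ A.inertiaSubgroupIn ℚ, ∀ a ∈ K, σ a = a)
    {ξ : Qb} (hξq : ξ ^ q = 1) (hξ1 : ξ ≠ 1) {ζ : Qb} (hζ : IsPrimitiveRoot ζ q)
    (W3 : ValuationSubring (FK (M * q * q) K))
    (hW3 : ∀ x ∈ W3, ∃ y, GRel A (Iota3.iota3 M q K hq hqM ξ hξq hξ1 x) y) :
    ∀ z ∈ W3, ∀ s : Fin q, s ≠ 0 →
      Iota3K.famBar M q hq hqM ζ hζ s
        (Glob.toBar (M * q * q) K (WQ2.wK2 M q hq hqM K z)) ∈ ConjMod.gaussRing A := by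
  intro z hz s hs
  rw [← Emb3Bar.emb3_eq_famBar M q K hq hqM ζ hζ s (WQ2.wK2 M q hq hqM K z)]
  obtain ⟨y, hy⟩ := hW3 z hz
  have hp := isPrimitiveRoot_of_ne_one hq hξq hξ1
  exact InertRotK.exists_gRel_emb3 M q K hq hqM A hA hK hp hξq hξ1 hζ s hs _
    ⟨y, W3Stab.gRel_iota3_wK2 M q K hq hqM ξ hξq hξ1 A hA hK hp z hy⟩

/-! ### The hypotheses `hNm` of `NormCongInst` for the intrinsic norms -/

include hq hqM in
/-- **`hNm` (α)**: the intrinsic norm of `F_K(M q²)` over `F_K(M q)` is the `ℚ̄`-level norm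
along `α`. -/
theorem hNm_alpha (x : FK (M * q * q) K) :
    letI := DegTower.algTower (M * q) (M * q * q) K (Dvd.intro q rfl)
    haveI := DegTower.finiteDimensional (M * q) (M * q * q) K (Dvd.intro q rfl)
    Glob.toBar (M * q) K (NormOne.normHom (FK (M * q) K) (FK (M * q * q) K) x) =
      PushPic.alphaNorm (M * q) q (Glob.toBar (M * q * q) K x) :=
  Emb3Bar.toBar_norm_eq_alphaNorm M q K hq hqM x

/-- **`hNm` (β)**: the intrinsic norm of `F_K(M q²)` over `β F_K(M q)` is the `ℚ̄`-level norm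
along `β`. -/
theorem hNm_beta (x : FK (M * q * q) K) :
    letI := (WQ2.betaK2 M q hq hqM K).toAlgebra
    haveI := Emb3Bar.finiteDimensional_beta M q K hq hqM
    Glob.toBar (M * q) K (NormOne.normHom (FK (M * q) K) (FK (M * q * q) K) x) =
      PushPic.betaNorm (M * q) q (Glob.toBar (M * q * q) K x) :=
  Emb3Bar.toBar_norm_beta_eq_betaNorm M q K hq hqM x

/-! ### `hN2` of `TorRelInst.relα_field` / `relβ_field` -/

/-- **(N2) along `α`, closed**: `hN2` of `TorRelInst.relα_field` for `E' = F_K(M q)`,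
`E = F_K(M q²)` under `DegTower.algTower`. -/
theorem hN2_alpha (hA : A.LiesOverPrime q)
    (hK : ∀ σ ∈ A.inertiaSubgroupIn ℚ, ∀ a ∈ K, σ a = a)
    (π : OK A K) (hπ : π ≠ 0)
    (V : Fin 3 → ValuationSubring (FK (M * q * q) K))
    (V' : Fin 2 → ValuationSubring (FK (M * q) K))
    (h0V : ∀ z ∈ V 0, ((z : FK (M * q * q) K) : LaurentSeries Qb) ∈ ConjMod.gaussRing A)
    (h1V : ∀ z ∈ V 1, ((WQ2.wK2 M q hq hqM K z : FK (M * q * q) K) : LaurentSeries Qb) ∈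
      ConjMod.gaussRing A)
    (h0V' : ∀ y : FK (M * q) K, (y : LaurentSeries Qb) ∈ ConjMod.gaussRing A → y ∈ V' 0)
    (h1V' : ∀ y : FK (M * q) K, ((WK.wK M q hq hqM K y : FK (M * q) K) : LaurentSeries Qb) ∈
      ConjMod.gaussRing A → y ∈ V' 1)
    {ξ : Qb} (hξq : ξ ^ q = 1) (hξ1 : ξ ≠ 1)
    (hW3 : ∀ x ∈ V 2, ∃ y, GRel A (Iota3.iota3 M q K hq hqM ξ hξq hξ1 x) y) :
    letI := DegTower.algTower (M * q) (M * q * q) K (Dvd.intro q rfl)
    haveI := DegTower.finiteDimensional (M * q) (M * q * q) K (Dvd.intro q rfl)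
    ∀ (x : FK (M * q * q) K) (c : Fin 3 → OK A K),
      (∀ i, ∃ z ∈ V i, x - algebraMap (OK A K) (FK (M * q * q) K) (c i) =
        algebraMap (OK A K) (FK (M * q * q) K) π * z) →
      ∀ j, ∃ z' ∈ V' j, NormOne.normHom (FK (M * q) K) (FK (M * q * q) K) x -
        algebraMap (OK A K) (FK (M * q) K) (∏ i, c i ^ ToricAsm.dAlpha q i j) =
          algebraMap (OK A K) (FK (M * q) K) π * z' := by
  letI := DegTower.algTower (M * q) (M * q * q) K (Dvd.intro q rfl)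
  haveI := DegTower.finiteDimensional (M * q) (M * q * q) K (Dvd.intro q rfl)
  obtain ⟨ζ, hζ⟩ := HasEnoughRootsOfUnity.exists_primitiveRoot Qb q
  intro x c hx j
  exact NormCongInst.n2_alpha M q hq hqM A K hA π hπ V V' h0V h1V h0V' h1V'
    (Iota3K.famBar M q hq hqM ζ hζ) (Iota3K.famBar_alpha M q hq hqM ζ hζ)
    (Iota3K.famBar_injective M q hq hqM ζ hζ) 0 (Iota3K.famBar_zero M q hq hqM ζ hζ)
    (h2V_of_iota3 M q hq hqM A K hA hK hξq hξ1 hζ (V 2) hW3)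
    (⇑(NormOne.normHom (FK (M * q) K) (FK (M * q * q) K)))
    (hNm_alpha M q hq hqM K) (ToricAsm.dAlpha q) ⟨rfl, rfl, rfl, rfl, rfl, rfl⟩ x c hx j

/-- **(N2) along `β`, closed**: `hN2` of `TorRelInst.relβ_field` for `E' = F_K(M q)`,
`E = F_K(M q²)` under `(WQ2.betaK2 M q hq hqM K).toAlgebra`. -/
theorem hN2_beta (hA : A.LiesOverPrime q)
    (hK : ∀ σ ∈ A.inertiaSubgroupIn ℚ, ∀ a ∈ K, σ a = a)
    (π : OK A K) (hπ : π ≠ 0)
    (V : Fin 3 → ValuationSubring (FK (M * q * q) K))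
    (V' : Fin 2 → ValuationSubring (FK (M * q) K))
    (h0V : ∀ z ∈ V 0, ((z : FK (M * q * q) K) : LaurentSeries Qb) ∈ ConjMod.gaussRing A)
    (h1V : ∀ z ∈ V 1, ((WQ2.wK2 M q hq hqM K z : FK (M * q * q) K) : LaurentSeries Qb) ∈
      ConjMod.gaussRing A)
    (h0V' : ∀ y : FK (M * q) K, (y : LaurentSeries Qb) ∈ ConjMod.gaussRing A → y ∈ V' 0)
    (h1V' : ∀ y : FK (M * q) K, ((WK.wK M q hq hqM K y : FK (M * q) K) : LaurentSeries Qb) ∈
      ConjMod.gaussRing A → y ∈ V' 1)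
    {ξ : Qb} (hξq : ξ ^ q = 1) (hξ1 : ξ ≠ 1)
    (hW3 : ∀ x ∈ V 2, ∃ y, GRel A (Iota3.iota3 M q K hq hqM ξ hξq hξ1 x) y) :
    letI := (WQ2.betaK2 M q hq hqM K).toAlgebra
    haveI := Emb3Bar.finiteDimensional_beta M q K hq hqM
    ∀ (x : FK (M * q * q) K) (c : Fin 3 → OK A K),
      (∀ i, ∃ z ∈ V i, x - algebraMap (OK A K) (FK (M * q * q) K) (c i) =
        algebraMap (OK A K) (FK (M * q * q) K) π * z) →
      ∀ j, ∃ z' ∈ V' j, NormOne.normHom (FK (M * q) K) (FK (M * q * q) K) x -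
        algebraMap (OK A K) (FK (M * q) K) (∏ i, c i ^ ToricAsm.dBeta q i j) =
          algebraMap (OK A K) (FK (M * q) K) π * z' := by
  letI := (WQ2.betaK2 M q hq hqM K).toAlgebra
  haveI := Emb3Bar.finiteDimensional_beta M q K hq hqM
  obtain ⟨ζ, hζ⟩ := HasEnoughRootsOfUnity.exists_primitiveRoot Qb q
  intro x c hx j
  exact NormCongInst.n2_beta M q hq hqM A K hA π hπ V V' h0V h1V h0V' h1V'
    (Iota3K.famBar M q hq hqM ζ hζ) (Iota3K.famBar_alpha M q hq hqM ζ hζ)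
    (Iota3K.famBar_injective M q hq hqM ζ hζ) 0 (Iota3K.famBar_zero M q hq hqM ζ hζ)
    (h2Vw_of_iota3 M q hq hqM A K hA hK hξq hξ1 hζ (V 2) hW3)
    (⇑(NormOne.normHom (FK (M * q) K) (FK (M * q * q) K)))
    (hNm_beta M q hq hqM K) (ToricAsm.dBeta q) ⟨rfl, rfl, rfl, rfl, rfl, rfl⟩ x c hx j

/-! ### The vectors of record -/

/-- **(N2) along `α` for the valuation rings of record**
`V = ![GaussV.V1, GaussV.V2 wK2, W3]`, `V' = ![GaussV.V1, GaussV.V2 wK]`. -/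
theorem hN2_alpha_rec (hA : A.LiesOverPrime q)
    (hK : ∀ σ ∈ A.inertiaSubgroupIn ℚ, ∀ a ∈ K, σ a = a)
    (hdvr : IsDiscreteValuationRing (OK A K)) (π : OK A K) (hπ : π ≠ 0)
    {ξ : Qb} (hξq : ξ ^ q = 1) (hξ1 : ξ ≠ 1)
    (W3 : ValuationSubring (FK (M * q * q) K))
    (hW3 : ∀ x ∈ W3, ∃ y, GRel A (Iota3.iota3 M q K hq hqM ξ hξq hξ1 x) y) :
    letI := DegTower.algTower (M * q) (M * q * q) K (Dvd.intro q rfl)
    haveI := DegTower.finiteDimensional (M * q) (M * q * q) K (Dvd.intro q rfl)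
    ∀ (x : FK (M * q * q) K) (c : Fin 3 → OK A K),
      (∀ i, ∃ z ∈ (![GaussV.V1 (M * q * q) A K hdvr, GaussV.V2 (WQ2.wK2 M q hq hqM K) hdvr, W3] :
          Fin 3 → ValuationSubring (FK (M * q * q) K)) i,
        x - algebraMap (OK A K) (FK (M * q * q) K) (c i) =
          algebraMap (OK A K) (FK (M * q * q) K) π * z) →
      ∀ j, ∃ z' ∈ (![GaussV.V1 (M * q) A K hdvr, GaussV.V2 (WK.wK M q hq hqM K) hdvr] :
          Fin 2 → ValuationSubring (FK (M * q) K)) j,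
        NormOne.normHom (FK (M * q) K) (FK (M * q * q) K) x -
          algebraMap (OK A K) (FK (M * q) K) (∏ i, c i ^ ToricAsm.dAlpha q i j) =
            algebraMap (OK A K) (FK (M * q) K) π * z' :=
  hN2_alpha M q hq hqM A K hA hK π hπ
    ![GaussV.V1 (M * q * q) A K hdvr, GaussV.V2 (WQ2.wK2 M q hq hqM K) hdvr, W3]
    ![GaussV.V1 (M * q) A K hdvr, GaussV.V2 (WK.wK M q hq hqM K) hdvr]
    (fun _ hz => hz) (fun _ hz => hz) (fun _ hy => hy) (fun _ hy => hy) hξq hξ1 hW3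

/-- **(N2) along `β` for the valuation rings of record.** -/
theorem hN2_beta_rec (hA : A.LiesOverPrime q)
    (hK : ∀ σ ∈ A.inertiaSubgroupIn ℚ, ∀ a ∈ K, σ a = a)
    (hdvr : IsDiscreteValuationRing (OK A K)) (π : OK A K) (hπ : π ≠ 0)
    {ξ : Qb} (hξq : ξ ^ q = 1) (hξ1 : ξ ≠ 1)
    (W3 : ValuationSubring (FK (M * q * q) K))
    (hW3 : ∀ x ∈ W3, ∃ y, GRel A (Iota3.iota3 M q K hq hqM ξ hξq hξ1 x) y) :
    letI := (WQ2.betaK2 M q hq hqM K).toAlgebra
    haveI := Emb3Bar.finiteDimensional_beta M q K hq hqM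
    ∀ (x : FK (M * q * q) K) (c : Fin 3 → OK A K),
      (∀ i, ∃ z ∈ (![GaussV.V1 (M * q * q) A K hdvr, GaussV.V2 (WQ2.wK2 M q hq hqM K) hdvr, W3] :
          Fin 3 → ValuationSubring (FK (M * q * q) K)) i,
        x - algebraMap (OK A K) (FK (M * q * q) K) (c i) =
          algebraMap (OK A K) (FK (M * q * q) K) π * z) →
      ∀ j, ∃ z' ∈ (![GaussV.V1 (M * q) A K hdvr, GaussV.V2 (WK.wK M q hq hqM K) hdvr] :
          Fin 2 → ValuationSubring (FK (M * q) K)) j,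
        NormOne.normHom (FK (M * q) K) (FK (M * q * q) K) x -
          algebraMap (OK A K) (FK (M * q) K) (∏ i, c i ^ ToricAsm.dBeta q i j) =
            algebraMap (OK A K) (FK (M * q) K) π * z' :=
  hN2_beta M q hq hqM A K hA hK π hπ
    ![GaussV.V1 (M * q * q) A K hdvr, GaussV.V2 (WQ2.wK2 M q hq hqM K) hdvr, W3]
    ![GaussV.V1 (M * q) A K hdvr, GaussV.V2 (WK.wK M q hq hqM K) hdvr]
    (fun _ hz => hz) (fun _ hz => hz) (fun _ hy => hy) (fun _ hy => hy) hξq hξ1 hW3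

end Fermat.Agent.S36.NormN2B
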