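/-
S36 — PrincD1.lean (helper68; package [MODEL3], second box of the seam debts (D1), (D2) of the
end-to-end table; dealt by helper87).

**The field `princ` of BOTH charts of the model of record is CLOSED**, in the record-level shape
`Model3ClosedB.PrincOn` consumed by `Model3ClosedB.chainL_of_record`:

* `princ0`        : `princ` on `chart J3` for ANY `H : V3.Hyp3 …` and ANY vertical primes `P` with
                    `ChartHyp3` (objects of record): `Princ3.princ_of_triple` applied to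
                    [TRIPLE] = `Inc3Top.htriple_record` and (B1) = `NakTopInst.hnak0`
                    (eta-free route);
* `princInf`      : the same on `chart J3⁻¹`, by `CuspClose.princInf_of_princ0`;
* `princOn_J3`    : **(D1)** `Model3ClosedB.PrincOn (chart J3) π unif vals`;
* `princOn_J3_inv`: **(D2)** `Model3ClosedB.PrincOn (chart J3⁻¹) π unif vals`;
* `model`         : the model of record `Model3 (M q²) A K π (ram q) unif vals J3`, closed;
* `chainL_of_corr_tor` : `LocAsm3L.ChainStatementL M q` from the two remaining record-level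
                    inputs (`LocAsm3.CorrProp`, `LocAsm3.TorOutProp`) and `4 ∣ M ∨ 9 ∣ M`.
-/
import Mathlib
import Fermat.Agent.S36.Model3ClosedB
import Fermat.Agent.S36.Princ3
import Fermat.Agent.S36.NakTopInst
import Fermat.Agent.S36.Inc3Top
import Fermat.Agent.S36.CuspClose

set_option autoImplicit false

noncomputable section

namespace Fermat.Agent.S36.PrincD1

open ModularCurve AlgebraicCurve HahnSeries
open Fermat.Agent.S18 Fermat.Agent.S18.Arith Fermat.Agent.S18.ModelPlan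
open Fermat.Agent.S34 Fermat.Agent.S36.Model3Plan

section General

variable {M q : ℕ} [NeZero M] [NeZero q] {hq : q.Prime} {hqM : ¬ q ∣ M}
variable {A : ValuationSubring Qb} {K K' : IntermediateField ℚ Qb}
variable {ξ : Qb} {hξ0 : ξ ≠ 0} {ι : FK (M * q * q) K →+* LaurentSeries Qb} {ϖ' : OK A K'}

/-- **`princ` on `chart J3`**, any `H : V3.Hyp3 …`, any vertical primes `P` with `ChartHyp3` for
the objects of record: [TRIPLE] (`Inc3Top.htriple_record`) + (B1) at the points of `P 2`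
(`NakTopInst.hnak0`). -/
theorem princ0 (H : V3.Hyp3 M q hq hqM A K K' ξ hξ0 ι ϖ')
    (hA : A.LiesOverPrime q) (hB : BaseFacts q A K) (hM : 4 ∣ M ∨ 9 ∣ M)
    {π : OK A K} (hπ : Irreducible π) (a : A) (hqa : (q : Qb) = incO A K π * (a : Qb))
    (hπϖ : ∃ u : A, IsUnit u ∧ incO A K π = incO A K' ϖ' ^ (q - 1) * (u : Qb))
    {P : Fin 3 → Ideal (chart (M * q * q) A K (Chart3B.J3 M q hq hqM K))}
    (hyp : ChartHyp3 π
      ![algebraMap (OK A K) (FK (M * q * q) K) π, algebraMap (OK A K) (FK (M * q * q) K) π,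
        Wit3.sE M q hq hqM K]
      ![GaussV.V1 (M * q * q) A K hB.dvr, GaussV.V2 (WQ2.wK2 M q hq hqM K) hB.dvr, H.W3] P) :
    ∀ n : Ideal (chart (M * q * q) A K (Chart3B.J3 M q hq hqM K)), n.IsMaximal →
      algebraMap (OK A K) (chart (M * q * q) A K (Chart3B.J3 M q hq hqM K)) π ∈ n →
      ∃ i : Fin 3, P i ≤ n ∧ ∃ g ∈ P i, ∀ y ∈ P i,
        ∃ s : chart (M * q * q) A K (Chart3B.J3 M q hq hqM K), s ∉ n ∧
          ∃ c : chart (M * q * q) A K (Chart3B.J3 M q hq hqM K), s * y = c * g :=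
  Princ3.princ_of_triple (V3Wit.valHyp3 H hB.dvr hA hπ a hqa hπϖ) hyp
    (GaussV.algebraMap_ne_zero (M * q * q) A K hπ.ne_zero) rfl rfl
    (fun n hn hπn h0 h1 =>
      Inc3Top.htriple_record H hA hB hπ a hqa hπϖ P hyp n hn hπn 0 1 (by decide) h0 h1 2)
    (NakTopInst.hnak0 H hA hB hM hπ a hqa hπϖ hyp)

/-- **`princ` on `chart J3⁻¹`**, any `H : V3.Hyp3 …`, any vertical primes `P` with `ChartHyp3`
for the objects of record (`CuspClose.princInf_of_princ0` on top of `princ0`). -/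
theorem princInf (H : V3.Hyp3 M q hq hqM A K K' ξ hξ0 ι ϖ')
    (hA : A.LiesOverPrime q) (hB : BaseFacts q A K) (hM : 4 ∣ M ∨ 9 ∣ M)
    {π : OK A K} (hπ : Irreducible π) (a : A) (hqa : (q : Qb) = incO A K π * (a : Qb))
    (hπϖ : ∃ u : A, IsUnit u ∧ incO A K π = incO A K' ϖ' ^ (q - 1) * (u : Qb))
    {P : Fin 3 → Ideal (chart (M * q * q) A K (Chart3B.J3 M q hq hqM K)⁻¹)}
    (hyp : ChartHyp3 π
      ![algebraMap (OK A K) (FK (M * q * q) K) π, algebraMap (OK A K) (FK (M * q * q) K) π,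
        Wit3.sE M q hq hqM K]
      ![GaussV.V1 (M * q * q) A K hB.dvr, GaussV.V2 (WQ2.wK2 M q hq hqM K) hB.dvr, H.W3] P) :
    ∀ n : Ideal (chart (M * q * q) A K (Chart3B.J3 M q hq hqM K)⁻¹), n.IsMaximal →
      algebraMap (OK A K) (chart (M * q * q) A K (Chart3B.J3 M q hq hqM K)⁻¹) π ∈ n →
      ∃ i : Fin 3, P i ≤ n ∧ ∃ g ∈ P i, ∀ y ∈ P i,
        ∃ s : chart (M * q * q) A K (Chart3B.J3 M q hq hqM K)⁻¹, s ∉ n ∧
          ∃ c : chart (M * q * q) A K (Chart3B.J3 M q hq hqM K)⁻¹, s * y = c * g :=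
  CuspClose.princInf_of_princ0 H hA hB hπ a hqa hπϖ
    (Inc3Top.chartHyp3_Pc H hA hB hπ a hqa hπϖ) hyp
    (princ0 H hA hB hM hπ a hqa hπϖ (Inc3Top.chartHyp3_Pc H hA hB hπ a hqa hπϖ))

end General

section Record

variable {M q : ℕ} [NeZero M] [NeZero q]
variable {A : ValuationSubring Qb} {K : IntermediateField ℚ Qb}

/-- **(D1)**: `princ` on `chart J3` at the record tuple, closed. -/
theorem princOn_J3 (hq : q.Prime) (hqM : ¬ q ∣ M) (hA : A.LiesOverPrime q)
    (hB : BaseFacts q A K) (hM : 4 ∣ M ∨ 9 ∣ M) {π : OK A K} (hπ : Irreducible π)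
    (hπq : incO A K π = (q : Qb)) {ξ : Qb} (hξ : IsPrimitiveRoot ξ q) :
    Model3ClosedB.PrincOn (chart (M * q * q) A K (Chart3B.J3 M q hq hqM K)) π
      (Model3ClosedB.unif hq hqM π) (Model3ClosedB.vals hq hqM hB.dvr π hπ hπq hξ) :=
  fun _ hyp => princ0 (V3.hyp3_iota3 hq hqM A hB.dvr π hπ hπq hξ) hA hB hM hπ 1
    (by rw [hπq, OneMemClass.coe_one, mul_one]) (BaseXi.exists_unit hq π hπ hπq hξ) hyp

/-- **(D2)**: `princ` on `chart J3⁻¹` at the record tuple, closed. -/
theorem princOn_J3_inv (hq : q.Prime) (hqM : ¬ q ∣ M) (hA : A.LiesOverPrime q)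
    (hB : BaseFacts q A K) (hM : 4 ∣ M ∨ 9 ∣ M) {π : OK A K} (hπ : Irreducible π)
    (hπq : incO A K π = (q : Qb)) {ξ : Qb} (hξ : IsPrimitiveRoot ξ q) :
    Model3ClosedB.PrincOn (chart (M * q * q) A K (Chart3B.J3 M q hq hqM K)⁻¹) π
      (Model3ClosedB.unif hq hqM π) (Model3ClosedB.vals hq hqM hB.dvr π hπ hπq hξ) :=
  fun _ hyp => princInf (V3.hyp3_iota3 hq hqM A hB.dvr π hπ hπq hξ) hA hB hM hπ 1
    (by rw [hπq, OneMemClass.coe_one, mul_one]) (BaseXi.exists_unit hq π hπ hπq hξ) hyp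

/-- **The model of record, closed** (no `princ` hypothesis left). -/
def model (hq : q.Prime) (hqM : ¬ q ∣ M) (hA : A.LiesOverPrime q) (hB : BaseFacts q A K)
    (hM : 4 ∣ M ∨ 9 ∣ M) {π : OK A K} (hπ : Irreducible π) (hπq : incO A K π = (q : Qb))
    {ξ : Qb} (hξ : IsPrimitiveRoot ξ q) :
    Model3 (M * q * q) A K π (ram q) (Model3ClosedB.unif hq hqM π)
      (Model3ClosedB.vals hq hqM hB.dvr π hπ hπq hξ) (Chart3B.J3 M q hq hqM K) :=
  Model3ClosedB.model hq hqM hA hB hπ hπq hξ (princOn_J3 hq hqM hA hB hM hπ hπq hξ)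
    (princOn_J3_inv hq hqM hA hB hM hπ hπq hξ)

/-- **`LocAsm3L.ChainStatementL` from [CORR36] and [TORIC36]+[LOC36] alone** (record-level inputs
at `K = L`, the inertia field; `princ` on both charts discharged). -/
theorem chainL_of_corr_tor [Fact q.Prime] (hqM : ¬ q ∣ M) (hM : 4 ∣ M ∨ 9 ∣ M)
    (h : ∀ m : ℕ, m ≠ 0 → ¬ q ∣ m → ∀ (A : ValuationSubring Qb) (_ : A.LiesOverPrime q)
      (hB : BaseFacts q A (UnrBaseL.inertiaField A)) (π : OK A (UnrBaseL.inertiaField A))
      (hπ : Irreducible π) (hπq : incO A (UnrBaseL.inertiaField A) π = (q : Qb)),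
      ∃ (ξ : Qb) (hξ : IsPrimitiveRoot ξ q),
        LocAsm3.CorrProp M q m A (UnrBaseL.inertiaField A) π
          (Model3ClosedB.unif Fact.out hqM π)
          (Model3ClosedB.vals Fact.out hqM hB.dvr π hπ hπq hξ) ∧
        (Model3 (M * q * q) A (UnrBaseL.inertiaField A) π (ram q)
            (Model3ClosedB.unif Fact.out hqM π)
            (Model3ClosedB.vals Fact.out hqM hB.dvr π hπ hπq hξ)
            (Chart3B.J3 M q Fact.out hqM (UnrBaseL.inertiaField A)) →
          LocAsm3.TorOutProp M q m A (UnrBaseL.inertiaField A) π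
            (Model3ClosedB.vals Fact.out hqM hB.dvr π hπ hπq hξ)
            (Chart3B.J3 M q Fact.out hqM (UnrBaseL.inertiaField A)))) :
    LocAsm3L.ChainStatementL M q :=
  Model3ClosedB.chainL_of_record hqM fun m hm hqm A hA hB π hπ hπq => by
    obtain ⟨ξ, hξ, hcorr, htor⟩ := h m hm hqm A hA hB π hπ hπq
    exact ⟨ξ, hξ, princOn_J3 Fact.out hqM hA hB hM hπ hπq hξ,
      princOn_J3_inv Fact.out hqM hA hB hM hπ hπq hξ, hcorr, htor⟩

end Record

end Fermat.Agent.S36.PrincD1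

end
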