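/-
S36 — PrincOnB.lean (helper9; package [MODEL3]/[CHAIN], closer for the two `PrincOn` conjuncts
of `Model3ClosedB.chainL_of_record`).

`Model3ClosedB.PrincOn` on BOTH charts (`chart J3`, `chart J3⁻¹`) of the model of record over a
base `K` with `BaseFacts q A K`, `π = q`, `ξ` a primitive `q`-th root of unity, with the (B1)
inputs plugged:

* (eta)    `EtaB1HypC.etaHyp` (under `(q ≠ 2 → 4 ∣ M) ∧ (q = 2 → 9 ∣ M)`), through
           `Model3PrincB.princ0_of`;
* (cusps)  `CuspClose.princInf_of_princ0` ([N10] + [CUSP1], chart at infinity from the chart `J3`);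
* (nak)    (B1) at the closed points of `chart J3` lying on `P 2`: `NakTopInst.hnak0`
           (helper78; needs `4 ∣ M ∨ 9 ∣ M`), in the shapes
             - `NakOn`   : for every family `P` with `ChartHyp3` (binder `hnak` of
                           `Model3PrincB.princ0_of`),
             - `NakW3On` : the same without the premises `¬ P 0 ≤ n`, `¬ P 1 ≤ n`.

Exports: `hqa`, `valHyp`, `chartHyp0`, `NakOn`, `NakW3On`, `nakOn_of_w3`, `nakW3On`, `nakOn`,
`hM_of_aux`, `princOn0`, `princOnInf`, `princOn_both` (from `NakOn`), and the CLOSED forms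
`princOn_both_closed`, `model_closed` (no hypothesis beyond the record tuple and the
auxiliary-level condition).
-/
import Mathlib
import Fermat.Agent.S36.Model3ClosedB
import Fermat.Agent.S36.Model3PrincB
import Fermat.Agent.S36.EtaB1HypC
import Fermat.Agent.S36.CuspClose
import Fermat.Agent.S36.NakTopInst

set_option autoImplicit false

noncomputable section

namespace Fermat.Agent.S36.PrincOnB

open ModularCurve AlgebraicCurve HahnSeries
open Fermat.Agent.S18 Fermat.Agent.S18.Arith Fermat.Agent.S18.ModelPlan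
open Fermat.Agent.S34 Fermat.Agent.S36.Model3Plan
open Fermat.Agent.S36.Model3ClosedB

variable {M q : ℕ} [NeZero M] [NeZero q]
variable {A : ValuationSubring Qb} {K : IntermediateField ℚ Qb}

/-- `q = π · 1` in `ℚ̄` from `π = q`. -/
theorem hqa {π : OK A K} (hπq : incO A K π = (q : Qb)) :
    (q : Qb) = incO A K π * (((1 : A) : A) : Qb) := by
  rw [hπq, OneMemClass.coe_one, mul_one]

/-- `ValHyp3` for the data of record. -/
theorem valHyp (hq : q.Prime) (hqM : ¬ q ∣ M) (hA : A.LiesOverPrime q)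
    (hdvr : IsDiscreteValuationRing (OK A K)) {π : OK A K} (hπ : Irreducible π)
    (hπq : incO A K π = (q : Qb)) {ξ : Qb} (hξ : IsPrimitiveRoot ξ q) :
    ValHyp3 (algebraMap (OK A K) (FK (M * q * q) K) π) (ram q) (unif hq hqM π)
      (vals hq hqM hdvr π hπ hπq hξ) :=
  V3Wit.valHyp3 (V3.hyp3_iota3 hq hqM A hdvr π hπ hπq hξ) hdvr hA hπ 1 (hqa hπq)
    (BaseXi.exists_unit hq π hπ hπq hξ)

/-- `ChartHyp3` of `chart J3` for the family of record `Model3Asm.Pc`. -/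
theorem chartHyp0 (hq : q.Prime) (hqM : ¬ q ∣ M) (hA : A.LiesOverPrime q)
    (hB : BaseFacts q A K) {π : OK A K} (hπ : Irreducible π)
    (hπq : incO A K π = (q : Qb)) {ξ : Qb} (hξ : IsPrimitiveRoot ξ q) :
    ChartHyp3 π (unif hq hqM π) (vals hq hqM hB.dvr π hπ hπq hξ)
      (Model3Asm.Pc (chart (M * q * q) A K (Chart3B.J3 M q hq hqM K)) (unif hq hqM π)
        (vals hq hqM hB.dvr π hπ hπq hξ)
        (Model3Top.le0 (V3.hyp3_iota3 hq hqM A hB.dvr π hπ hπq hξ) hB.dvr)) :=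
  Model3PrincB.chartHyp3_J3 (V3.hyp3_iota3 hq hqM A hB.dvr π hπ hπq hξ) hB hA hπ 1 (hqa hπq)
    (BaseXi.exists_unit hq π hπ hπq hξ)

/-! ### The three shapes of the Nakayama input on `chart J3` -/

/-- (B1) at the closed points of `chart J3` lying on `P 2` ONLY, for every family `P` of vertical
ideals with `ChartHyp3` (the binder `hnak` of `Model3PrincB.princ0_of`). -/
def NakOn (hq : q.Prime) (hqM : ¬ q ∣ M) (π : OK A K)
    (V : Fin 3 → ValuationSubring (FK (M * q * q) K)) : Prop :=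
  ∀ P : Fin 3 → Ideal (chart (M * q * q) A K (Chart3B.J3 M q hq hqM K)),
    ChartHyp3 π (unif hq hqM π) V P →
    ∀ n : Ideal (chart (M * q * q) A K (Chart3B.J3 M q hq hqM K)), n.IsMaximal →
      algebraMap (OK A K) (chart (M * q * q) A K (Chart3B.J3 M q hq hqM K)) π ∈ n →
      ¬ P 0 ≤ n → ¬ P 1 ≤ n → P 2 ≤ n →
      ∃ i : Fin 3, P i ≤ n ∧ ∃ g ∈ P i, ∀ y ∈ P i,
        ∃ s : chart (M * q * q) A K (Chart3B.J3 M q hq hqM K), s ∉ n ∧
          ∃ c : chart (M * q * q) A K (Chart3B.J3 M q hq hqM K), s * y = c * g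

/-- (B1) at ALL closed points of `chart J3` lying on `P 2` (the conclusion of
`NakCC.princ_W3_J3` / `NakTopB.princ_W3`). -/
def NakW3On (hq : q.Prime) (hqM : ¬ q ∣ M) (π : OK A K)
    (V : Fin 3 → ValuationSubring (FK (M * q * q) K)) : Prop :=
  ∀ P : Fin 3 → Ideal (chart (M * q * q) A K (Chart3B.J3 M q hq hqM K)),
    ChartHyp3 π (unif hq hqM π) V P →
    ∀ n : Ideal (chart (M * q * q) A K (Chart3B.J3 M q hq hqM K)), n.IsMaximal →
      algebraMap (OK A K) (chart (M * q * q) A K (Chart3B.J3 M q hq hqM K)) π ∈ n → P 2 ≤ n →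
      ∃ i : Fin 3, P i ≤ n ∧ ∃ g ∈ P i, ∀ y ∈ P i,
        ∃ s : chart (M * q * q) A K (Chart3B.J3 M q hq hqM K), s ∉ n ∧
          ∃ c : chart (M * q * q) A K (Chart3B.J3 M q hq hqM K), s * y = c * g

theorem nakOn_of_w3 {hq : q.Prime} {hqM : ¬ q ∣ M} {π : OK A K}
    {V : Fin 3 → ValuationSubring (FK (M * q * q) K)} (h : NakW3On hq hqM π V) :
    NakOn hq hqM π V :=
  fun P hyp n hn hπn _ _ h2 => h P hyp n hn hπn h2

/-- **`NakW3On` for the data of record, closed** (`NakTopInst.hnak0`). -/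
theorem nakW3On (hq : q.Prime) (hqM : ¬ q ∣ M) (hM : 4 ∣ M ∨ 9 ∣ M)
    (hA : A.LiesOverPrime q) (hB : BaseFacts q A K) {π : OK A K} (hπ : Irreducible π)
    (hπq : incO A K π = (q : Qb)) {ξ : Qb} (hξ : IsPrimitiveRoot ξ q) :
    NakW3On hq hqM π (vals hq hqM hB.dvr π hπ hπq hξ) :=
  fun _ hyp =>
    NakTopInst.hnak0 (V3.hyp3_iota3 hq hqM A hB.dvr π hπ hπq hξ) hA hB hM hπ 1 (hqa hπq)
      (BaseXi.exists_unit hq π hπ hπq hξ) hyp

/-- **`NakOn` for the data of record, closed.** -/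
theorem nakOn (hq : q.Prime) (hqM : ¬ q ∣ M) (hM : 4 ∣ M ∨ 9 ∣ M)
    (hA : A.LiesOverPrime q) (hB : BaseFacts q A K) {π : OK A K} (hπ : Irreducible π)
    (hπq : incO A K π = (q : Qb)) {ξ : Qb} (hξ : IsPrimitiveRoot ξ q) :
    NakOn hq hqM π (vals hq hqM hB.dvr π hπ hπq hξ) :=
  nakOn_of_w3 (nakW3On hq hqM hM hA hB hπ hπq hξ)

/-- `4 ∣ M ∨ 9 ∣ M` from the auxiliary-level hypothesis. -/
theorem hM_of_aux (haux : (q ≠ 2 → 4 ∣ M) ∧ (q = 2 → 9 ∣ M)) : 4 ∣ M ∨ 9 ∣ M := by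
  by_cases h : q = 2
  · exact Or.inr (haux.2 h)
  · exact Or.inl (haux.1 h)

/-! ### `PrincOn` on both charts -/

/-- **`PrincOn` on `chart J3`** for the data of record, from the Nakayama input. -/
theorem princOn0 (hq : q.Prime) (hqM : ¬ q ∣ M) (haux : (q ≠ 2 → 4 ∣ M) ∧ (q = 2 → 9 ∣ M))
    (hA : A.LiesOverPrime q) (hdvr : IsDiscreteValuationRing (OK A K)) {π : OK A K}
    (hπ : Irreducible π) (hπq : incO A K π = (q : Qb)) {ξ : Qb} (hξ : IsPrimitiveRoot ξ q)
    (hnak : NakOn hq hqM π (vals hq hqM hdvr π hπ hπq hξ)) :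
    PrincOn (chart (M * q * q) A K (Chart3B.J3 M q hq hqM K)) π (unif hq hqM π)
      (vals hq hqM hdvr π hπ hπq hξ) :=
  fun P hyp =>
    Model3PrincB.princ0_of (V3.hyp3_iota3 hq hqM A hdvr π hπ hπq hξ) hdvr hA hπ.ne_zero
      (EtaB1HypC.etaHyp M q hq hqM haux A K hdvr hπ hπq) rfl rfl
      (valHyp hq hqM hA hdvr hπ hπq hξ) hyp (hnak P hyp)

/-- **`PrincOn` on `chart J3⁻¹`** for the data of record, from `PrincOn` on `chart J3`
(cusps closed: `CuspClose.princInf_of_princ0`). -/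
theorem princOnInf (hq : q.Prime) (hqM : ¬ q ∣ M) (hA : A.LiesOverPrime q)
    (hB : BaseFacts q A K) {π : OK A K} (hπ : Irreducible π) (hπq : incO A K π = (q : Qb))
    {ξ : Qb} (hξ : IsPrimitiveRoot ξ q)
    (h0 : PrincOn (chart (M * q * q) A K (Chart3B.J3 M q hq hqM K)) π (unif hq hqM π)
      (vals hq hqM hB.dvr π hπ hπq hξ)) :
    PrincOn (chart (M * q * q) A K (Chart3B.J3 M q hq hqM K)⁻¹) π (unif hq hqM π)
      (vals hq hqM hB.dvr π hπ hπq hξ) :=
  fun _ hyp =>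
    CuspClose.princInf_of_princ0 (V3.hyp3_iota3 hq hqM A hB.dvr π hπ hπq hξ) hA hB hπ 1
      (hqa hπq) (BaseXi.exists_unit hq π hπ hπq hξ) (chartHyp0 hq hqM hA hB hπ hπq hξ) hyp
      (h0 _ (chartHyp0 hq hqM hA hB hπ hπq hξ))

/-- **Both `PrincOn` conjuncts of `Model3ClosedB.chainL_of_record`** from the Nakayama input. -/
theorem princOn_both (hq : q.Prime) (hqM : ¬ q ∣ M)
    (haux : (q ≠ 2 → 4 ∣ M) ∧ (q = 2 → 9 ∣ M)) (hA : A.LiesOverPrime q)
    (hB : BaseFacts q A K) {π : OK A K} (hπ : Irreducible π) (hπq : incO A K π = (q : Qb))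
    {ξ : Qb} (hξ : IsPrimitiveRoot ξ q)
    (hnak : NakOn hq hqM π (vals hq hqM hB.dvr π hπ hπq hξ)) :
    PrincOn (chart (M * q * q) A K (Chart3B.J3 M q hq hqM K)) π (unif hq hqM π)
        (vals hq hqM hB.dvr π hπ hπq hξ) ∧
      PrincOn (chart (M * q * q) A K (Chart3B.J3 M q hq hqM K)⁻¹) π (unif hq hqM π)
        (vals hq hqM hB.dvr π hπ hπq hξ) :=
  ⟨princOn0 hq hqM haux hA hB.dvr hπ hπq hξ hnak,
    princOnInf hq hqM hA hB hπ hπq hξ (princOn0 hq hqM haux hA hB.dvr hπ hπq hξ hnak)⟩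

/-- **Both `PrincOn` conjuncts of `Model3ClosedB.chainL_of_record`, CLOSED**: no hypothesis
beyond the record tuple and the auxiliary-level condition. -/
theorem princOn_both_closed (hq : q.Prime) (hqM : ¬ q ∣ M)
    (haux : (q ≠ 2 → 4 ∣ M) ∧ (q = 2 → 9 ∣ M)) (hA : A.LiesOverPrime q)
    (hB : BaseFacts q A K) {π : OK A K} (hπ : Irreducible π) (hπq : incO A K π = (q : Qb))
    {ξ : Qb} (hξ : IsPrimitiveRoot ξ q) :
    PrincOn (chart (M * q * q) A K (Chart3B.J3 M q hq hqM K)) π (unif hq hqM π)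
        (vals hq hqM hB.dvr π hπ hπq hξ) ∧
      PrincOn (chart (M * q * q) A K (Chart3B.J3 M q hq hqM K)⁻¹) π (unif hq hqM π)
        (vals hq hqM hB.dvr π hπ hπq hξ) :=
  princOn_both hq hqM haux hA hB hπ hπq hξ (nakOn hq hqM (hM_of_aux haux) hA hB hπ hπq hξ)

/-- **The model of record, CLOSED** (`[MODEL3]` at the record tuple). -/
def model_closed (hq : q.Prime) (hqM : ¬ q ∣ M)
    (haux : (q ≠ 2 → 4 ∣ M) ∧ (q = 2 → 9 ∣ M)) (hA : A.LiesOverPrime q)
    (hB : BaseFacts q A K) {π : OK A K} (hπ : Irreducible π) (hπq : incO A K π = (q : Qb))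
    {ξ : Qb} (hξ : IsPrimitiveRoot ξ q) :
    Model3 (M * q * q) A K π (ram q) (unif hq hqM π) (vals hq hqM hB.dvr π hπ hπq hξ)
      (Chart3B.J3 M q hq hqM K) :=
  Model3ClosedB.model hq hqM hA hB hπ hπq hξ
    (princOn_both_closed hq hqM haux hA hB hπ hπq hξ).1
    (princOn_both_closed hq hqM haux hA hB hπ hπq hξ).2

end Fermat.Agent.S36.PrincOnB

end
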