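import Mathlib
import Fermat.Agent.S36.RamN

/-!
# S36, block [RAM-N], part 2: exactness of `e` and the DVR property

In the setting of `S36/RamN` (`Hyp E₀ V ϖ e f u δ b`):

* `f_pos`: `0 < f a`;
* `val_delta_pow`, `delta_pow_dvd`: `δ a ^ e a ∈ ϖ • V a`, i.e. `ϖ` and `δ a ^ e a` are associated
  in `V a` (the ramification index of `V a` over `V₀` is exactly `e a`);
* `val_eq_pow`: every nonzero element of `V a` has the valuation of a power of `δ a`;
* `isDiscreteValuationRing`: `V a` is a discrete valuation ring (with uniformizer `δ a`).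
-/

set_option autoImplicit false
set_option linter.unusedSectionVars false

namespace Fermat.Agent.S36.RamNDvr

open Fermat.Agent.S36.RamN

variable {V₀ : Type*} [CommRing V₀] [IsDomain V₀] [IsDiscreteValuationRing V₀]
variable {E : Type*} [Field E] [Algebra V₀ E]
variable {κ : Type*} [Fintype κ]
variable {E₀ : Type*} [Field E₀] [Algebra V₀ E₀] [IsFractionRing V₀ E₀] [Algebra E₀ E]
  [IsScalarTower V₀ E₀ E] {V : κ → ValuationSubring E} {ϖ : V₀} {e f : κ → ℕ} {u δ : κ → E}
  {b : ∀ a, Fin (f a) → E}

/-- The residue degree bounds are positive. -/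
theorem f_pos (H : Hyp E₀ V ϖ e f u δ b) (a : κ) : 0 < f a := by
  by_contra h
  have hf : f a = 0 := by omega
  obtain ⟨c, hc⟩ := H.exists_residue a (V a).one_mem
  have hemp : IsEmpty (Fin (f a)) := by rw [hf]; infer_instance
  rw [Finset.univ_eq_empty, Finset.sum_empty, sub_zero] at hc
  have h1 := (ValuationSubring.mem_nonunits_iff _).mp hc
  rw [map_one] at h1
  exact lt_irrefl _ h1

/-- Elements of the maximal ideal of `V a` have valuation at most that of `δ a`. -/
theorem val_le_delta (H : Hyp E₀ V ϖ e f u δ b) (a : κ) {z : E}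
    (hz : (V a).valuation z < 1) : (V a).valuation z ≤ (V a).valuation (δ a) :=
  (le_iff_exists_mul (V a) (H.δ_ne a)).mpr
    (H.exists_eq_delta_mul a ((ValuationSubring.mem_nonunits_iff _).mpr hz))

theorem val_delta_ne (H : Hyp E₀ V ϖ e f u δ b) (a : κ) : (V a).valuation (δ a) ≠ 0 :=
  (Valuation.ne_zero_iff _).mpr (H.δ_ne a)

/-- **`e a` is exact**: `δ a ^ e a` is divisible by `ϖ` in `V a` (valuation form). -/
theorem val_delta_pow (H : Hyp E₀ V ϖ e f u δ b) (a : κ) :
    (V a).valuation (δ a) ^ e a ≤ (V a).valuation (algebraMap V₀ E ϖ) := by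
  classical
  by_contra hlt
  rw [not_le] at hlt
  have hδ0 := H.δ_ne a
  have hz' : (V a).valuation (algebraMap V₀ E ϖ / δ a ^ e a) < 1 := by
    rw [map_div₀, map_pow]
    exact (div_lt_one₀ (pow_pos (zero_lt_iff.mpr (val_delta_ne H a)) _)).mpr hlt
  obtain ⟨y, hy, hzy⟩ := H.exists_eq_delta_mul a ((ValuationSubring.mem_nonunits_iff _).mpr hz')
  have hπ : algebraMap V₀ E ϖ = δ a ^ (e a + 1) * y := by
    rw [pow_succ, mul_assoc, ← hzy]
    field_simp
  have H' : Hyp E₀ V ϖ (Function.update e a (e a + 1)) f u δ b :=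
    { fin := H.fin
      deg := H.deg.trans (Finset.sum_le_sum (fun x _ => Nat.mul_le_mul_right _ (by
        by_cases h : x = a
        · rw [h, Function.update_self]; omega
        · rw [Function.update_of_ne h])))
      irr := H.irr
      epos := fun x => by
        by_cases h : x = a
        · rw [h, Function.update_self]; omega
        · rw [Function.update_of_ne h]; exact H.epos x
      le := H.le
      pi := H.pi
      hu := H.hu
      hu_unit := H.hu_unit
      hu_pi := H.hu_pi
      hδ := H.hδ
      hδ_non := H.hδ_non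
      hδ_pi := fun x => by
        by_cases h : x = a
        · rw [h, Function.update_self]; exact ⟨y, hy, hπ⟩
        · rw [Function.update_of_ne h]; exact H.hδ_pi x
      hb := H.hb
      ind := H.ind }
  have h1 := H'.finrank_eq
  have h2 := H.finrank_eq
  have h3 : ∑ x, Function.update e a (e a + 1) x * f x = ∑ x, e x * f x + f a := by
    have h4 : ∀ x, Function.update e a (e a + 1) x * f x =
        e x * f x + if x = a then f a else 0 := by
      intro x
      by_cases h : x = a
      · rw [h, Function.update_self, if_pos rfl]; ring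
      · rw [Function.update_of_ne h, if_neg h, add_zero]
    rw [Finset.sum_congr rfl (fun x _ => h4 x), Finset.sum_add_distrib, Finset.sum_ite_eq']
    simp
  have h5 := f_pos H a
  omega

/-- **`e a` is exact**: `δ a ^ e a ∈ ϖ • V a`. -/
theorem delta_pow_dvd (H : Hyp E₀ V ϖ e f u δ b) (a : κ) :
    ∃ y ∈ V a, δ a ^ e a = algebraMap V₀ E ϖ * y := by
  have h := val_delta_pow H a
  rw [← map_pow] at h
  exact (le_iff_exists_mul (V a) H.pi_ne).mp h

/-- The valuation of `ϖ` is the `e a`-th power of the valuation of `δ a`. -/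
theorem val_pi_eq (H : Hyp E₀ V ϖ e f u δ b) (a : κ) :
    (V a).valuation (algebraMap V₀ E ϖ) = (V a).valuation (δ a) ^ e a :=
  le_antisymm (H.val_pi_le_pow a) (val_delta_pow H a)

/-- Every nonzero element of `V a` has the valuation of a power of `δ a`. -/
theorem val_eq_pow (H : Hyp E₀ V ϖ e f u δ b) (a : κ) {x : E} (hx0 : x ≠ 0)
    (hx1 : (V a).valuation x ≤ 1) :
    ∃ n : ℕ, (V a).valuation x = (V a).valuation (δ a) ^ n := by
  classical
  have hvδ0 := val_delta_ne H a
  have hvx : (V a).valuation x ≠ 0 := (Valuation.ne_zero_iff _).mpr hx0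
  have hex : ∃ N : ℕ, ¬ (V a).valuation x ≤ (V a).valuation (δ a) ^ N := by
    obtain ⟨N, hN⟩ := H.exists_pow_mul_mem x⁻¹
    have h1 := hN a
    rw [map_mul, map_pow, map_inv₀] at h1
    have h2 : (V a).valuation (algebraMap V₀ E ϖ) ^ N ≤ (V a).valuation x := by
      have h3 := mul_le_mul_left h1 ((V a).valuation x)
      rwa [mul_assoc, inv_mul_cancel₀ hvx, mul_one, one_mul] at h3
    refine ⟨e a * (N + 1), fun h => ?_⟩
    have h3 : (V a).valuation (δ a) ^ (e a * (N + 1))
        ≤ (V a).valuation (algebraMap V₀ E ϖ) ^ (N + 1) := by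
      rw [pow_mul]
      exact pow_le_pow_left' (val_delta_pow H a) _
    have hπ0 : (V a).valuation (algebraMap V₀ E ϖ) ≠ 0 := (Valuation.ne_zero_iff _).mpr H.pi_ne
    have h4 : (V a).valuation (algebraMap V₀ E ϖ) ^ (N + 1)
        < (V a).valuation (algebraMap V₀ E ϖ) ^ N := by
      rw [pow_succ]
      exact mul_lt_of_lt_one_right (pow_pos (zero_lt_iff.mpr hπ0) _) (H.val_pi_lt a)
    exact lt_irrefl _ (lt_of_le_of_lt (h2.trans (h.trans h3)) h4)
  have hN : ¬ (V a).valuation x ≤ (V a).valuation (δ a) ^ Nat.find hex := Nat.find_spec hex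
  have hNpos : Nat.find hex ≠ 0 := by
    intro h0
    rw [h0, pow_zero] at hN
    exact hN hx1
  obtain ⟨n, hn⟩ := Nat.exists_eq_succ_of_ne_zero hNpos
  have hle : (V a).valuation x ≤ (V a).valuation (δ a) ^ n := by
    have h1 := Nat.find_min hex (m := n) (by omega)
    exact not_not.mp h1
  refine ⟨n, le_antisymm hle ?_⟩
  by_contra hlt
  rw [not_le] at hlt
  have hy : (V a).valuation (x / δ a ^ n) < 1 := by
    rw [map_div₀, map_pow]
    exact (div_lt_one₀ (pow_pos (zero_lt_iff.mpr hvδ0) _)).mpr hlt
  have h1 := val_le_delta H a hy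
  apply hN
  rw [hn, pow_succ]
  rw [map_div₀, map_pow] at h1
  have h2 := mul_le_mul_left h1 ((V a).valuation (δ a) ^ n)
  rwa [div_mul_cancel₀ _ (pow_ne_zero _ hvδ0), mul_comm] at h2

/-- **`V a` is a discrete valuation ring.** -/
theorem isDiscreteValuationRing (H : Hyp E₀ V ϖ e f u δ b) (a : κ) :
    IsDiscreteValuationRing (V a) := by
  classical
  have hvδ0 := val_delta_ne H a
  apply IsDiscreteValuationRing.ofHasUnitMulPowIrreducibleFactorization
  refine ⟨⟨δ a, H.hδ a a⟩, ?_, ?_⟩
  · rw [irreducible_iff]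
    constructor
    · intro hunit
      have h1 := (ValuationSubring.valuation_eq_one_iff (V a) ⟨δ a, H.hδ a a⟩).mp hunit
      exact absurd h1 (ne_of_lt (H.val_δ_lt a))
    · intro x y hxy
      by_contra hcon
      rw [not_or] at hcon
      have hx : (V a).valuation (x : E) < 1 := by
        rcases ValuationSubring.valuation_lt_one_or_eq_one (V a) x with h | h
        · exact h
        · exact absurd ((ValuationSubring.valuation_eq_one_iff (V a) x).mpr h) hcon.1
      have hy : (V a).valuation (y : E) < 1 := by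
        rcases ValuationSubring.valuation_lt_one_or_eq_one (V a) y with h | h
        · exact h
        · exact absurd ((ValuationSubring.valuation_eq_one_iff (V a) y).mpr h) hcon.2
      have h1 : δ a = (x : E) * (y : E) := congrArg Subtype.val hxy
      have h2 : (V a).valuation (δ a) ≤ (V a).valuation (δ a) * (V a).valuation (y : E) := by
        conv_lhs => rw [h1, map_mul]
        exact mul_le_mul_left (val_le_delta H a hx) _
      have h3 : (V a).valuation (δ a) * (V a).valuation (y : E) < (V a).valuation (δ a) :=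
        mul_lt_of_lt_one_right (zero_lt_iff.mpr hvδ0) hy
      exact lt_irrefl _ (lt_of_le_of_lt h2 h3)
  · intro x hx
    have hx0 : (x : E) ≠ 0 := fun h => hx (Subtype.ext h)
    obtain ⟨n, hn⟩ := val_eq_pow H a hx0 (ValuationSubring.valuation_le_one (V a) x)
    have hw : (V a).valuation ((x : E) / δ a ^ n) = 1 := by
      rw [map_div₀, map_pow, hn]
      exact div_self (pow_ne_zero _ hvδ0)
    have hwmem : (x : E) / δ a ^ n ∈ V a :=
      (ValuationSubring.valuation_le_one_iff _ _).mp hw.le
    have hunit : IsUnit (⟨(x : E) / δ a ^ n, hwmem⟩ : V a) :=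
      (ValuationSubring.valuation_eq_one_iff (V a) _).mpr hw
    obtain ⟨U, hU⟩ := hunit
    refine ⟨n, U, ?_⟩
    rw [hU]
    apply Subtype.ext
    show δ a ^ n * ((x : E) / δ a ^ n) = (x : E)
    rw [mul_comm, div_mul_cancel₀ _ (pow_ne_zero n (H.δ_ne a))]

end Fermat.Agent.S36.RamNDvr
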