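import Mathlib
import Fermat.Agent.S34.RamTwo

/-!
# S36, block [RAM3] : several valuations of a finite extension of a DVR field, with multiplicities

Abstract (Mathlib only + the scaling lemma of `S34/RamTwo`) analogue of `S34/RamTwo`,
`S34/RamTwoV` for ANY finite family of valuation rings and with ramification.

`V₀` is a discrete valuation ring with fraction field `E₀` and uniformizer `ϖ`; `E / E₀` is a
finite extension; `V i` (`i : ι`, `ι` finite) are valuation subrings of `E` containing `V₀` in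
which `ϖ` is not a unit.  For every `i` we are given

* `t i ∈ ⋂ V j` ("uniformizer candidate") with `ϖ ∈ t i ^ e i · V i`, `0 < e i`;
* `b i l ∈ ⋂ V j` (`l < f i`), independent over `V₀ / ϖ` modulo `t i · V i`;
* a separator `x i ∈ ϖ · V i` which is a unit of every other `V j`;

and the degree bound `[E : E₀] ≤ ∑ i, e i * f i`  (`Hyp`).  Then, with
`sep x i = ∏ j ≠ i, x j` and the generators `gen ⟨i, k, l⟩ = sep x i * t i ^ k * b i l`:

* `Hyp.exists_repr`       : `⋂ V i` is spanned over `V₀` by the generators (it is free on them);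
* `Hyp.isIntegral`        : every element of `⋂ V i` is integral over `V₀`;
* `Hyp.pow_e`             : `t i ^ e i ∈ ϖ · V i` (the ramification index is exactly `e i`);
* `Hyp.exists_residue`    : `V i = ∑ l, V₀ · b i l + t i · V i` (the residue degree is exactly
                            `f i`);
* `Hyp.exists_pow_mul_mem`: `E = (⋂ V i)[1/ϖ]`;
* `Hyp.exists_approx`     : `⋂ V j → V i / ϖ V i` is onto.

Intended instance (level `q² M'` over level `M'`, degree `q² + q`): `ι = Fin 3`,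
`e = (1, 1, q - 1)`, `f = (1, q², 1)`.
-/

set_option autoImplicit false
set_option linter.unusedSectionVars false
set_option linter.unusedVariables false

namespace Fermat.Agent.S36.RamThree

open Fermat.Agent.S34

/-! ### The predicate `z ∈ p · A` -/

section MemMul

variable {E : Type*} [Field E]

/-- `z ∈ p · A`. -/
def MemMul (A : ValuationSubring E) (p z : E) : Prop := ∃ y ∈ A, z = p * y

variable {A : ValuationSubring E} {p p' z z' a : E}

theorem memMul_zero (A : ValuationSubring E) (p : E) : MemMul A p 0 :=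
  ⟨0, A.zero_mem, by rw [mul_zero]⟩

theorem memMul_self (A : ValuationSubring E) (p : E) : MemMul A p p :=
  ⟨1, A.one_mem, by rw [mul_one]⟩

theorem MemMul.add (h : MemMul A p z) (h' : MemMul A p z') : MemMul A p (z + z') := by
  obtain ⟨y, hy, rfl⟩ := h
  obtain ⟨y', hy', rfl⟩ := h'
  exact ⟨y + y', A.add_mem _ _ hy hy', by ring⟩

theorem MemMul.neg (h : MemMul A p z) : MemMul A p (-z) := by
  obtain ⟨y, hy, rfl⟩ := h
  exact ⟨-y, A.neg_mem _ hy, by ring⟩

theorem MemMul.sub (h : MemMul A p z) (h' : MemMul A p z') : MemMul A p (z - z') := by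
  rw [sub_eq_add_neg]
  exact h.add h'.neg

theorem MemMul.mul_left (ha : a ∈ A) (h : MemMul A p z) : MemMul A p (a * z) := by
  obtain ⟨y, hy, rfl⟩ := h
  exact ⟨a * y, A.mul_mem _ _ ha hy, by ring⟩

theorem MemMul.mul_right (h : MemMul A p z) (ha : a ∈ A) : MemMul A p (z * a) := by
  rw [mul_comm]
  exact h.mul_left ha

theorem MemMul.sum {κ : Type*} (s : Finset κ) (F : κ → E) (h : ∀ k ∈ s, MemMul A p (F k)) :
    MemMul A p (∑ k ∈ s, F k) := by
  classical
  induction s using Finset.induction_on with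
  | empty => rw [Finset.sum_empty]; exact memMul_zero A p
  | insert k s hk ih =>
    rw [Finset.sum_insert hk]
    exact (h k (Finset.mem_insert_self k s)).add
      (ih fun k' hk' => h k' (Finset.mem_insert_of_mem hk'))

/-- `p ∈ p' A` and `z ∈ p A` give `z ∈ p' A`. -/
theorem MemMul.trans (hp : MemMul A p' p) (h : MemMul A p z) : MemMul A p' z := by
  obtain ⟨y, hy, rfl⟩ := h
  obtain ⟨y', hy', rfl⟩ := hp
  exact ⟨y' * y, A.mul_mem _ _ hy' hy, by ring⟩

theorem MemMul.mem (hp : p ∈ A) (h : MemMul A p z) : z ∈ A := by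
  obtain ⟨y, hy, rfl⟩ := h
  exact A.mul_mem _ _ hp hy

/-- Cancelling a unit of `A`. -/
theorem MemMul.of_mul_unit (hu : a⁻¹ ∈ A) (ha : a ≠ 0) (h : MemMul A p (a * z)) :
    MemMul A p z := by
  have h1 := h.mul_left hu
  rwa [← mul_assoc, inv_mul_cancel₀ ha, one_mul] at h1

theorem MemMul.pow_mono {n k : ℕ} (hp : p ∈ A) (hk : k ≤ n) (h : MemMul A (p ^ n) z) :
    MemMul A (p ^ k) z := by
  refine MemMul.trans ⟨p ^ (n - k), A.pow_mem hp _, ?_⟩ h
  rw [← pow_add, Nat.add_sub_cancel' hk]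

/-- `1 + p y` is a unit of `A` when `p` is a non-unit. -/
theorem inv_one_add_mem (hpA : p ∈ A) (hp : p⁻¹ ∉ A) {y : E} (hy : y ∈ A) :
    (1 + p * y)⁻¹ ∈ A ∧ 1 + p * y ≠ 0 := by
  have h1 : A.valuation p < 1 := by
    rcases lt_or_eq_of_le ((A.valuation_le_one_iff p).mpr hpA) with h | h
    · exact h
    · exfalso
      apply hp
      rw [← A.valuation_le_one_iff, map_inv₀, h, inv_one]
  have h2 : A.valuation (p * y) < 1 := by
    rw [map_mul]
    calc A.valuation p * A.valuation y ≤ A.valuation p * 1 :=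
          mul_le_mul' le_rfl ((A.valuation_le_one_iff y).mpr hy)
      _ = A.valuation p := mul_one _
      _ < 1 := h1
  have h3 : A.valuation (1 + p * y) = 1 := A.valuation.map_one_add_of_lt h2
  refine ⟨?_, ?_⟩
  · rw [← A.valuation_le_one_iff, map_inv₀, h3, inv_one]
  · intro h0
    rw [h0, map_zero] at h3
    exact zero_ne_one h3

end MemMul

/-! ### The freeness engine -/

section Engine

variable {V₀ E₀ E : Type*} [CommRing V₀] [IsDomain V₀] [IsDiscreteValuationRing V₀]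
  [Field E₀] [Algebra V₀ E₀] [IsFractionRing V₀ E₀] [Field E] [Algebra E₀ E] [Algebra V₀ E]
  [IsScalarTower V₀ E₀ E] {J : Type*} [Fintype J]

omit [IsDomain V₀] [IsDiscreteValuationRing V₀] [IsFractionRing V₀ E₀] in
theorem sum_algebraMap_mul (g : J → E) (c : J → V₀) :
    ∑ j, algebraMap V₀ E (c j) * g j = ∑ j, algebraMap V₀ E₀ (c j) • g j := by
  refine Finset.sum_congr rfl fun j _ => ?_
  rw [Algebra.smul_def, IsScalarTower.algebraMap_apply V₀ E₀ E]

/-- A family `g` such that every vanishing `V₀`-combination has all its coefficients divisible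
by `ϖ` is linearly independent over the fraction field. -/
theorem linearIndependent_of_ind {ϖ : V₀} (hϖ : Irreducible ϖ) (g : J → E)
    (hind : ∀ c : J → V₀, ∑ j, algebraMap V₀ E (c j) * g j = 0 → ∀ j, ϖ ∣ c j) :
    LinearIndependent E₀ g := by
  rw [Fintype.linearIndependent_iff]
  intro a ha
  by_contra hne
  push Not at hne
  obtain ⟨i₀, c, hi₀, hc1, hc⟩ := RamTwo.exists_scale (V₀ := V₀) a hne
  have hsum : ∑ j, algebraMap V₀ E (c j) * g j = 0 := by
    rw [sum_algebraMap_mul (E₀ := E₀)]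
    have h1 : a i₀ • ∑ k, algebraMap V₀ E₀ (c k) • g k = 0 := by
      rw [← ha, Finset.smul_sum]
      refine Finset.sum_congr rfl fun k _ => ?_
      rw [smul_smul, ← hc k]
    exact (smul_eq_zero.mp h1).resolve_left hi₀
  have h2 := hind c hsum i₀
  rw [hc1] at h2
  exact hϖ.not_isUnit (isUnit_of_dvd_one h2)

/-- ... and spans `E` over `E₀` if there are at least `[E : E₀]` of them. -/
theorem span_eq_top_of_ind [FiniteDimensional E₀ E] {ϖ : V₀} (hϖ : Irreducible ϖ) (g : J → E)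
    (hdeg : Module.finrank E₀ E ≤ Fintype.card J)
    (hind : ∀ c : J → V₀, ∑ j, algebraMap V₀ E (c j) * g j = 0 → ∀ j, ϖ ∣ c j) :
    Submodule.span E₀ (Set.range g) = ⊤ := by
  have hli := linearIndependent_of_ind (E₀ := E₀) hϖ g hind
  have hcard : Fintype.card J = Module.finrank E₀ E :=
    le_antisymm hli.fintype_card_le_finrank hdeg
  exact hli.span_eq_top_of_card_eq_finrank' hcard

/-- **Freeness engine.**  `B ⊆ E` a set stable under `V₀`; if every `V₀`-combination of the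
`g j` lying in `ϖ B` has all its coefficients divisible by `ϖ` and there are at least `[E : E₀]`
generators, then every element of `B` is a `V₀`-combination of the `g j`. -/
theorem exists_repr_of_ind [FiniteDimensional E₀ E] {ϖ : V₀} (hϖ : Irreducible ϖ) (g : J → E)
    (hdeg : Module.finrank E₀ E ≤ Fintype.card J) (B : Set E)
    (hB0 : (0 : E) ∈ B) (hB : ∀ (s : V₀) (z : E), z ∈ B → algebraMap V₀ E s * z ∈ B)
    (hind : ∀ c : J → V₀,
      (∃ z ∈ B, ∑ j, algebraMap V₀ E (c j) * g j = algebraMap V₀ E ϖ * z) → ∀ j, ϖ ∣ c j)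
    (z : E) (hz : z ∈ B) : ∃ c : J → V₀, z = ∑ j, algebraMap V₀ E (c j) * g j := by
  have hind0 : ∀ c : J → V₀, ∑ j, algebraMap V₀ E (c j) * g j = 0 → ∀ j, ϖ ∣ c j :=
    fun c hc => hind c ⟨0, hB0, by rw [hc, mul_zero]⟩
  have hspan := span_eq_top_of_ind (E₀ := E₀) hϖ g hdeg hind0
  have hz' : z ∈ Submodule.span E₀ (Set.range g) := by rw [hspan]; trivial
  obtain ⟨a, ha⟩ := (Submodule.mem_span_range_iff_exists_fun E₀).mp hz'
  by_cases hall : ∀ k, ∃ d : V₀, algebraMap V₀ E₀ d = a k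
  · choose d hd using hall
    refine ⟨d, ?_⟩
    rw [sum_algebraMap_mul (E₀ := E₀), ← ha]
    exact Finset.sum_congr rfl fun k _ => by rw [hd k]
  · exfalso
    have hne : ∃ i, a i ≠ 0 := by
      by_contra h0
      push Not at h0
      exact hall fun k => ⟨0, by rw [map_zero, h0 k]⟩
    obtain ⟨i₀, c, hi₀, hc1, hc⟩ := RamTwo.exists_scale (V₀ := V₀) a hne
    have hnot : ¬ ∃ d : V₀, algebraMap V₀ E₀ d = a i₀ := by
      rintro ⟨d, hd⟩
      exact hall fun k => ⟨d * c k, by rw [map_mul, hd, ← hc k]⟩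
    obtain ⟨s, hs⟩ : ∃ s : V₀, algebraMap V₀ E₀ s = (a i₀)⁻¹ := by
      rcases ValuationRing.isInteger_or_isInteger V₀ (a i₀) with h | h
      · exact absurd h hnot
      · exact h
    have hsu : ¬ IsUnit s := by
      intro hu
      apply hnot
      obtain ⟨u, rfl⟩ := hu
      refine ⟨((u⁻¹ : V₀ˣ) : V₀), ?_⟩
      have h1 : algebraMap V₀ E₀ ((u⁻¹ : V₀ˣ) : V₀) * algebraMap V₀ E₀ (u : V₀) = 1 := by
        rw [← map_mul, Units.inv_mul, map_one]
      rw [hs] at h1
      field_simp at h1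
      exact h1
    have hdvd : ϖ ∣ s := by
      by_contra hnd
      exact hsu (RamTwo.isUnit_of_not_dvd hϖ hnd)
    obtain ⟨s', rfl⟩ := hdvd
    have hsum : ∑ k, algebraMap V₀ E (c k) * g k =
        algebraMap V₀ E ϖ * (algebraMap V₀ E s' * z) := by
      rw [sum_algebraMap_mul (E₀ := E₀), ← mul_assoc, ← map_mul,
        IsScalarTower.algebraMap_apply V₀ E₀ E, hs, ← Algebra.smul_def, ← ha, Finset.smul_sum]
      refine Finset.sum_congr rfl fun k _ => ?_
      rw [smul_smul]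
      congr 1
      rw [hc k]
      field_simp
    have h3 := hind c ⟨_, hB s' z hz, hsum⟩ i₀
    rw [hc1] at h3
    exact hϖ.not_isUnit (isUnit_of_dvd_one h3)

/-- Denominators in `E₀` are powers of `ϖ`. -/
theorem exists_pow_mul_eq {ϖ : V₀} (hϖ : Irreducible ϖ) (a : E₀) :
    ∃ (N : ℕ) (c : V₀), algebraMap V₀ E₀ c = algebraMap V₀ E₀ ϖ ^ N * a := by
  obtain ⟨r, s, hs, rfl⟩ := IsFractionRing.div_surjective (A := V₀) a
  have hs0 : s ≠ 0 := nonZeroDivisors.ne_zero hs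
  obtain ⟨n, u, hu⟩ := IsDiscreteValuationRing.eq_unit_mul_pow_irreducible hs0 hϖ
  refine ⟨n, r * ((u⁻¹ : V₀ˣ) : V₀), ?_⟩
  have hs' : algebraMap V₀ E₀ s ≠ 0 := by
    intro h
    exact hs0 ((IsFractionRing.injective V₀ E₀) (by rw [h, map_zero]))
  rw [eq_comm, mul_div_assoc', div_eq_iff hs', map_mul, hu]
  simp only [map_mul, map_pow]
  have h1 : algebraMap V₀ E₀ ((u⁻¹ : V₀ˣ) : V₀) * algebraMap V₀ E₀ (u : V₀) = 1 := by
    rw [← map_mul, Units.inv_mul, map_one]
  linear_combination (-(algebraMap V₀ E₀ ϖ ^ n * algebraMap V₀ E₀ r)) * h1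

end Engine

/-! ### Several valuation rings -/

section Val

variable {V₀ E : Type*} [CommRing V₀] [IsDomain V₀] [IsDiscreteValuationRing V₀]
  [Field E] [Algebra V₀ E] {ι : Type*} [Fintype ι] [DecidableEq ι]

/-- `sep x i = ∏ j ≠ i, x j`: a unit of `V i` lying in `ϖ V j` for `j ≠ i`. -/
def sep (x : ι → E) (i : ι) : E := ∏ j ∈ Finset.univ.erase i, x j

/-- The generators `sep x i * t i ^ k * b i l` (`k < e i`, `l < f i`). -/
def gen {e f : ι → ℕ} (t x : ι → E) (b : ∀ i, Fin (f i) → E) :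
    (Σ i, Fin (e i) × Fin (f i)) → E :=
  fun j => sep x j.1 * t j.1 ^ (j.2.1 : ℕ) * b j.1 j.2.2

/-- The `i`-th block `∑ k l, c ⟨i, k, l⟩ * t i ^ k * b i l` of a combination of the generators
(without the factor `sep x i`). -/
def blk {e f : ι → ℕ} (t : ι → E) (b : ∀ i, Fin (f i) → E)
    (c : (Σ i, Fin (e i) × Fin (f i)) → V₀) (i : ι) : E :=
  ∑ k : Fin (e i), ∑ l : Fin (f i), algebraMap V₀ E (c ⟨i, (k, l)⟩) * t i ^ (k : ℕ) * b i l

omit [IsDomain V₀] [IsDiscreteValuationRing V₀] in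
theorem sum_gen {e f : ι → ℕ} (t x : ι → E) (b : ∀ i, Fin (f i) → E)
    (c : (Σ i, Fin (e i) × Fin (f i)) → V₀) :
    ∑ j, algebraMap V₀ E (c j) * gen t x b j = ∑ i, sep x i * blk t b c i := by
  rw [Fintype.sum_sigma]
  refine Finset.sum_congr rfl fun i _ => ?_
  rw [Fintype.sum_prod_type, blk, Finset.mul_sum]
  refine Finset.sum_congr rfl fun k _ => ?_
  rw [Finset.mul_sum]
  refine Finset.sum_congr rfl fun l _ => ?_
  simp only [gen]
  ring

omit [IsDomain V₀] [IsDiscreteValuationRing V₀] [Fintype ι] [DecidableEq ι] in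
/-- One valuation ring: a combination `∑ k < n, ∑ l, c k l * t ^ k * b l` lying in `t ^ n A`
(where `ϖ ∈ t ^ n A` and the `b l` are independent modulo `t A`) has all its coefficients
divisible by `ϖ`. -/
theorem dvd_block (A : ValuationSubring E) (hle : ∀ c : V₀, algebraMap V₀ E c ∈ A) {ϖ : V₀}
    {t : E} (ht : t ∈ A) (ht0 : t ≠ 0) {f : ℕ} (b : Fin f → E) (hb : ∀ l, b l ∈ A)
    (hind : ∀ c : Fin f → V₀,
      MemMul A t (∑ l, algebraMap V₀ E (c l) * b l) → ∀ l, ϖ ∣ c l) :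
    ∀ n : ℕ, MemMul A (t ^ n) (algebraMap V₀ E ϖ) → ∀ c : Fin n → Fin f → V₀,
      MemMul A (t ^ n) (∑ k : Fin n, ∑ l, algebraMap V₀ E (c k l) * t ^ (k : ℕ) * b l) →
      ∀ k l, ϖ ∣ c k l := by
  intro n
  induction n with
  | zero => intro _ c _ k; exact k.elim0
  | succ n ih =>
    intro hπ c hsum
    rw [Fin.sum_univ_succ] at hsum
    obtain ⟨S0, hS0⟩ : ∃ S0 : E, S0 = ∑ l, algebraMap V₀ E (c 0 l) * b l := ⟨_, rfl⟩
    obtain ⟨S1, hS1⟩ : ∃ S1 : E,
        S1 = ∑ k : Fin n, ∑ l, algebraMap V₀ E (c k.succ l) * t ^ (k : ℕ) * b l := ⟨_, rfl⟩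
    have hS1A : S1 ∈ A := by
      rw [hS1]
      exact sum_mem fun k _ => sum_mem fun l _ =>
        mul_mem (mul_mem (hle _) (pow_mem ht _)) (hb l)
    have e0 : ∑ l, algebraMap V₀ E (c 0 l) * t ^ ((0 : Fin (n + 1)) : ℕ) * b l = S0 := by
      rw [hS0]
      refine Finset.sum_congr rfl fun l _ => ?_
      rw [Fin.val_zero, pow_zero, mul_one]
    have e1 : ∑ k : Fin n, ∑ l,
        algebraMap V₀ E (c k.succ l) * t ^ ((k.succ : Fin (n + 1)) : ℕ) * b l = t * S1 := by
      rw [hS1, Finset.mul_sum]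
      refine Finset.sum_congr rfl fun k _ => ?_
      rw [Finset.mul_sum]
      refine Finset.sum_congr rfl fun l _ => ?_
      rw [Fin.val_succ, pow_succ]
      ring
    rw [e0, e1] at hsum
    obtain ⟨y, hy, hyeq⟩ := hsum
    obtain ⟨y', hy', hπeq⟩ := hπ
    have h0 : ∀ l, ϖ ∣ c 0 l := by
      apply hind
      refine ⟨t ^ n * y - S1, sub_mem (mul_mem (pow_mem ht _) hy) hS1A, ?_⟩
      rw [← hS0]
      linear_combination hyeq
    have h0' := h0
    choose d hd using h0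
    obtain ⟨D, hD⟩ : ∃ D : E, D = ∑ l, algebraMap V₀ E (d l) * b l := ⟨_, rfl⟩
    have hDA : D ∈ A := by
      rw [hD]
      exact sum_mem fun l _ => mul_mem (hle _) (hb l)
    have hS0' : S0 = algebraMap V₀ E ϖ * D := by
      rw [hS0, hD, Finset.mul_sum]
      refine Finset.sum_congr rfl fun l _ => ?_
      rw [hd l, map_mul]
      ring
    have hS1' : S1 = t ^ n * (y - y' * D) := by
      have h1 : t * S1 = t * (t ^ n * (y - y' * D)) := by
        rw [hS0', hπeq] at hyeq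
        linear_combination hyeq
      exact mul_left_cancel₀ ht0 h1
    have h2 := ih ⟨t * y', mul_mem ht hy', by rw [hπeq, pow_succ]; ring⟩
      (fun k l => c k.succ l) ⟨y - y' * D, sub_mem hy (mul_mem hy' hDA), by rw [← hS1, hS1']⟩
    intro k l
    exact Fin.cases (h0' l) (fun k' => h2 k' l) k

/-- The hypotheses. -/
structure Hyp (E₀ : Type*) [Field E₀] [Algebra E₀ E] (V : ι → ValuationSubring E) (ϖ : V₀)
    (e f : ι → ℕ) (t x : ι → E) (b : ∀ i, Fin (f i) → E) : Prop where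
  fin : FiniteDimensional E₀ E
  deg : Module.finrank E₀ E ≤ ∑ i, e i * f i
  irr : Irreducible ϖ
  /-- `V₀ ⊆ V i` -/
  le : ∀ (i : ι) (c : V₀), algebraMap V₀ E c ∈ V i
  /-- `ϖ` is not a unit of `V i` -/
  pi_not : ∀ i, (algebraMap V₀ E ϖ)⁻¹ ∉ V i
  e_pos : ∀ i, 0 < e i
  t_mem : ∀ i j, t i ∈ V j
  t_ne : ∀ i, t i ≠ 0
  /-- `ϖ ∈ t i ^ e i · V i` -/
  pi_t : ∀ i, ∃ y ∈ V i, algebraMap V₀ E ϖ = t i ^ e i * y
  b_mem : ∀ (i : ι) (l : Fin (f i)) (j : ι), b i l ∈ V j
  x_ne : ∀ i, x i ≠ 0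
  /-- the separator `x i` lies in `ϖ · V i` ... -/
  x_pi : ∀ i, ∃ y ∈ V i, x i = algebraMap V₀ E ϖ * y
  /-- ... and is a unit of every other `V j` -/
  x_unit : ∀ i j, j ≠ i → x i ∈ V j ∧ (x i)⁻¹ ∈ V j
  /-- the `b i l` are independent over `V₀ / ϖ` modulo `t i · V i` -/
  ind : ∀ (i : ι) (c : Fin (f i) → V₀),
    (∃ y ∈ V i, ∑ l, algebraMap V₀ E (c l) * b i l = t i * y) → ∀ l, ϖ ∣ c l

/-- The `V₀`-subalgebra `⋂ V i`. -/
def inter (V : ι → ValuationSubring E) (hle : ∀ (i : ι) (c : V₀), algebraMap V₀ E c ∈ V i) :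
    Subalgebra V₀ E where
  carrier := {z | ∀ i, z ∈ V i}
  mul_mem' ha hb i := mul_mem (ha i) (hb i)
  one_mem' i := one_mem _
  add_mem' ha hb i := add_mem (ha i) (hb i)
  zero_mem' i := zero_mem _
  algebraMap_mem' c i := hle i c

omit [IsDomain V₀] [IsDiscreteValuationRing V₀] [Fintype ι] [DecidableEq ι] in
theorem mem_inter {V : ι → ValuationSubring E}
    {hle : ∀ (i : ι) (c : V₀), algebraMap V₀ E c ∈ V i} {z : E} :
    z ∈ inter V hle ↔ ∀ i, z ∈ V i := Iff.rfl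

namespace Hyp

variable {E₀ : Type*} [Field E₀] [Algebra E₀ E]
  {V : ι → ValuationSubring E} {ϖ : V₀} {e f : ι → ℕ} {t x : ι → E} {b : ∀ i, Fin (f i) → E}

section Basic

variable (H : Hyp (V₀ := V₀) E₀ V ϖ e f t x b)
include H

theorem x_mem (i j : ι) : x i ∈ V j := by
  by_cases h : j = i
  · subst h
    obtain ⟨y, hy, hx⟩ := H.x_pi j
    rw [hx]
    exact mul_mem (H.le j ϖ) hy
  · exact (H.x_unit i j h).1

theorem sep_mem (i j : ι) : sep x i ∈ V j := prod_mem fun k _ => H.x_mem k j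

theorem sep_ne (i : ι) : sep x i ≠ 0 := Finset.prod_ne_zero_iff.mpr fun k _ => H.x_ne k

theorem sep_inv_mem (i : ι) : (sep x i)⁻¹ ∈ V i := by
  unfold sep
  rw [← Finset.prod_inv_distrib]
  exact prod_mem fun k hk => (H.x_unit k i (Finset.ne_of_mem_erase hk).symm).2

/-- `sep x i ∈ ϖ V j` for `j ≠ i`. -/
theorem sep_pi {i j : ι} (hij : j ≠ i) : MemMul (V j) (algebraMap V₀ E ϖ) (sep x i) := by
  have hj : j ∈ Finset.univ.erase i := Finset.mem_erase.mpr ⟨hij, Finset.mem_univ j⟩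
  unfold sep
  rw [← Finset.mul_prod_erase _ _ hj]
  obtain ⟨y, hy, hx⟩ := H.x_pi j
  refine ⟨y * ∏ k ∈ (Finset.univ.erase i).erase j, x k,
    mul_mem hy (prod_mem fun k _ => H.x_mem k j), ?_⟩
  rw [hx]
  ring

theorem pi_memMul_t (i : ι) : MemMul (V i) (t i) (algebraMap V₀ E ϖ) := by
  have h := MemMul.pow_mono (H.t_mem i i) (Nat.succ_le_of_lt (H.e_pos i)) (H.pi_t i)
  rwa [pow_one] at h

theorem gen_mem (j : Σ i, Fin (e i) × Fin (f i)) (i : ι) : gen t x b j ∈ V i :=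
  mul_mem (mul_mem (H.sep_mem j.1 i) (pow_mem (H.t_mem j.1 i) _)) (H.b_mem j.1 j.2.2 i)

theorem blk_mem (c : (Σ i, Fin (e i) × Fin (f i)) → V₀) (i j : ι) : blk t b c i ∈ V j :=
  sum_mem fun k _ => sum_mem fun l _ =>
    mul_mem (mul_mem (H.le j _) (pow_mem (H.t_mem i j) _)) (H.b_mem i l j)

/-- The blocks `i' ≠ i` of a combination of the generators lie in `ϖ V i`. -/
theorem rest_memMul (c : (Σ i, Fin (e i) × Fin (f i)) → V₀) (i : ι) :
    MemMul (V i) (algebraMap V₀ E ϖ) (∑ i' ∈ Finset.univ.erase i, sep x i' * blk t b c i') :=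
  MemMul.sum _ _ fun i' hi' =>
    (H.sep_pi (Finset.ne_of_mem_erase hi').symm).mul_right (H.blk_mem c i' i)

/-- **Local divisibility**: if a combination of the generators lies in `t i ^ e i · V i`, its
coefficients in the `i`-th block are divisible by `ϖ`. -/
theorem dvd_of_local (c : (Σ i, Fin (e i) × Fin (f i)) → V₀) (i : ι)
    (h : MemMul (V i) (t i ^ e i) (∑ j, algebraMap V₀ E (c j) * gen t x b j)) :
    ∀ (k : Fin (e i)) (l : Fin (f i)), ϖ ∣ c ⟨i, (k, l)⟩ := by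
  rw [sum_gen, ← Finset.add_sum_erase _ _ (Finset.mem_univ i)] at h
  have h1 := h.sub (MemMul.trans (H.pi_t i) (H.rest_memMul c i))
  rw [add_sub_cancel_right] at h1
  have h2 := h1.of_mul_unit (H.sep_inv_mem i) (H.sep_ne i)
  exact dvd_block (V i) (H.le i) (H.t_mem i i) (H.t_ne i) (b i) (fun l => H.b_mem i l i)
    (H.ind i) (e i) (H.pi_t i) (fun k l => c ⟨i, (k, l)⟩) h2

end Basic

variable [Algebra V₀ E₀] [IsFractionRing V₀ E₀] [IsScalarTower V₀ E₀ E]
variable (H : Hyp (V₀ := V₀) E₀ V ϖ e f t x b)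
include H

theorem finrank_le_card :
    Module.finrank E₀ E ≤ Fintype.card (Σ i, Fin (e i) × Fin (f i)) := by
  rw [Fintype.card_sigma]
  simpa using H.deg

/-- **Free generation**: every element of `⋂ V i` is a `V₀`-combination of the generators. -/
theorem exists_repr {z : E} (hz : ∀ i, z ∈ V i) :
    ∃ c : (Σ i, Fin (e i) × Fin (f i)) → V₀, z = ∑ j, algebraMap V₀ E (c j) * gen t x b j := by
  have := H.fin
  refine exists_repr_of_ind (E₀ := E₀) H.irr (gen t x b) H.finrank_le_card {z | ∀ i, z ∈ V i}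
    (fun i => zero_mem _) (fun s z hz i => mul_mem (H.le i s) (hz i)) ?_ z hz
  rintro c ⟨z, hz, hsum⟩ ⟨i, k, l⟩
  exact H.dvd_of_local c i (MemMul.trans (H.pi_t i) ⟨z, hz i, hsum⟩) k l

/-- The generators span `E` over `E₀`. -/
theorem span_gen : Submodule.span E₀ (Set.range (gen (e := e) t x b)) = ⊤ := by
  have := H.fin
  refine span_eq_top_of_ind (E₀ := E₀) H.irr (gen t x b) H.finrank_le_card ?_
  rintro c hc ⟨i, k, l⟩
  exact H.dvd_of_local c i (by rw [hc]; exact memMul_zero _ _) k l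

/-- **(INT)** every element of `⋂ V i` is integral over `V₀`. -/
theorem isIntegral {z : E} (hz : ∀ i, z ∈ V i) : IsIntegral V₀ z := by
  refine IsIntegral.of_mem_of_fg (inter V H.le) ?_ z hz
  have h1 : Subalgebra.toSubmodule (inter V H.le) =
      Submodule.span V₀ (Set.range (gen (e := e) t x b)) := by
    apply le_antisymm
    · intro w hw
      obtain ⟨c, hc⟩ := H.exists_repr (fun i => hw i)
      rw [hc]
      refine Submodule.sum_mem _ fun j _ => ?_
      rw [← Algebra.smul_def]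
      exact Submodule.smul_mem _ _ (Submodule.subset_span ⟨j, rfl⟩)
    · rw [Submodule.span_le]
      rintro _ ⟨j, rfl⟩
      exact fun i => H.gen_mem j i
  rw [h1]
  exact Submodule.fg_span (Set.finite_range _)

/-- `E = (⋂ V i)[1/ϖ]`. -/
theorem exists_pow_mul_mem (z : E) : ∃ N : ℕ, ∀ i, algebraMap V₀ E ϖ ^ N * z ∈ V i := by
  have hz' : z ∈ Submodule.span E₀ (Set.range (gen (e := e) t x b)) := by rw [H.span_gen]; trivial
  obtain ⟨a, ha⟩ := (Submodule.mem_span_range_iff_exists_fun E₀).mp hz'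
  choose N c hc using fun j => exists_pow_mul_eq (E₀ := E₀) H.irr (a j)
  refine ⟨∑ j, N j, fun i => ?_⟩
  rw [← ha, Finset.mul_sum]
  refine sum_mem fun j _ => ?_
  have hNj : N j ≤ ∑ j, N j :=
    Finset.single_le_sum (fun _ _ => Nat.zero_le _) (Finset.mem_univ j)
  have h1 : algebraMap V₀ E ϖ ^ (∑ j, N j) * a j • gen t x b j =
      algebraMap V₀ E ϖ ^ (∑ j, N j - N j) * (algebraMap V₀ E (c j) * gen t x b j) := by
    have h2 : algebraMap V₀ E ϖ ^ (∑ j, N j) =
        algebraMap V₀ E ϖ ^ (∑ j, N j - N j) * algebraMap V₀ E ϖ ^ N j := by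
      rw [← pow_add, Nat.sub_add_cancel hNj]
    rw [h2, IsScalarTower.algebraMap_apply V₀ E₀ E (c j), hc j, Algebra.smul_def, map_mul,
      map_pow, ← IsScalarTower.algebraMap_apply V₀ E₀ E]
    ring
  rw [h1]
  exact mul_mem (pow_mem (H.le i ϖ) _) (mul_mem (H.le i _) (H.gen_mem j i))

/-- **Approximation**: `⋂ V j → V i / ϖ V i` is onto. -/
theorem exists_approx (i : ι) {z : E} (hz : z ∈ V i) :
    ∃ z' : E, (∀ j, z' ∈ V j) ∧ ∃ y ∈ V i, z' - z = algebraMap V₀ E ϖ * y := by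
  obtain ⟨N, hN⟩ := H.exists_pow_mul_mem z
  obtain ⟨p, hp⟩ : ∃ p : E, p = algebraMap V₀ E ϖ := ⟨_, rfl⟩
  rw [← hp] at hN ⊢
  have hpV : ∀ j, p ∈ V j := fun j => hp ▸ H.le j ϖ
  have hpn : ∀ j, p⁻¹ ∉ V j := fun j => hp ▸ H.pi_not j
  obtain ⟨a, ha⟩ : ∃ a : E, a = sep x i ^ (N + 1) := ⟨_, rfl⟩
  obtain ⟨D, hD⟩ : ∃ D : E, D = a + x i := ⟨_, rfl⟩
  have ha0 : a ≠ 0 := ha ▸ pow_ne_zero _ (H.sep_ne i)
  have hai : a⁻¹ ∈ V i := by
    rw [ha, ← inv_pow]
    exact pow_mem (H.sep_inv_mem i) _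
  have haj : ∀ j, a ∈ V j := fun j => ha ▸ pow_mem (H.sep_mem i j) _
  obtain ⟨yb, hyb, hxb⟩ := H.x_pi i
  rw [← hp] at hxb
  have hDi : D⁻¹ ∈ V i ∧ D ≠ 0 := by
    have h1 := inv_one_add_mem (hpV i) (hpn i) (mul_mem hyb hai)
    have h2 : D = a * (1 + p * (yb * a⁻¹)) := by
      rw [hD, hxb]
      field_simp
    rw [h2, mul_inv]
    exact ⟨mul_mem hai h1.1, mul_ne_zero ha0 h1.2⟩
  have haj' : ∀ j, j ≠ i → MemMul (V j) (p ^ (N + 1)) a := by
    intro j hj
    obtain ⟨y, hy, hs⟩ := H.sep_pi hj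
    exact ⟨y ^ (N + 1), pow_mem hy _, by rw [ha, hs, mul_pow, hp]⟩
  have hDj : ∀ j, j ≠ i → D⁻¹ ∈ V j := by
    intro j hj
    obtain ⟨y, hy, hay⟩ := haj' j hj
    obtain ⟨-, hxj'⟩ := H.x_unit i j hj
    have h1 := inv_one_add_mem (hpV j) (hpn j)
      (mul_mem (mul_mem (pow_mem (hpV j) N) hy) hxj')
    have hx0 := H.x_ne i
    have h2 : D = x i * (1 + p * (p ^ N * y * (x i)⁻¹)) := by
      rw [hD, hay, pow_succ]
      field_simp
      ring
    rw [h2, mul_inv]
    exact mul_mem hxj' h1.1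
  refine ⟨a * D⁻¹ * z, fun j => ?_, -(yb * D⁻¹ * z),
    neg_mem (mul_mem (mul_mem hyb hDi.1) hz), ?_⟩
  · by_cases hj : j = i
    · subst hj
      exact mul_mem (mul_mem (haj j) hDi.1) hz
    · obtain ⟨y, hy, hay⟩ := haj' j hj
      have h3 : a * D⁻¹ * z = p * y * D⁻¹ * (p ^ N * z) := by
        rw [hay, pow_succ]
        ring
      rw [h3]
      exact mul_mem (mul_mem (mul_mem (hpV j) hy) (hDj j hj)) (hN j)
  · have hD0 := hDi.2
    have h4 : a = D - p * yb := by rw [hD, hxb]; ring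
    rw [h4]
    field_simp
    ring

/-- **Exact residue degree**: `V i = ∑ l, V₀ · b i l + t i · V i`. -/
theorem exists_residue (i : ι) {z : E} (hz : z ∈ V i) :
    ∃ c : Fin (f i) → V₀, ∃ y ∈ V i, z - ∑ l, algebraMap V₀ E (c l) * b i l = t i * y := by
  obtain ⟨z', hz', y, hy, hzy⟩ := H.exists_approx i (mul_mem (H.sep_mem i i) hz)
  obtain ⟨c, hc⟩ := H.exists_repr hz'
  obtain ⟨k0, hk0⟩ : ∃ k0 : Fin (e i), (k0 : ℕ) = 0 := ⟨⟨0, H.e_pos i⟩, rfl⟩
  refine ⟨fun l => c ⟨i, (k0, l)⟩, ?_⟩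
  change MemMul (V i) (t i) _
  apply MemMul.of_mul_unit (H.sep_inv_mem i) (H.sep_ne i)
  have hpi : MemMul (V i) (t i) (algebraMap V₀ E ϖ) := H.pi_memMul_t i
  rw [sum_gen, ← Finset.add_sum_erase _ _ (Finset.mem_univ i)] at hc
  have hrest := MemMul.trans hpi (H.rest_memMul c i)
  have hblock : MemMul (V i) (t i)
      (blk t b c i - ∑ l, algebraMap V₀ E (c ⟨i, (k0, l)⟩) * b i l) := by
    rw [blk, ← Finset.add_sum_erase _ _ (Finset.mem_univ k0)]
    have e0 : ∑ l, algebraMap V₀ E (c ⟨i, (k0, l)⟩) * t i ^ (k0 : ℕ) * b i l =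
        ∑ l, algebraMap V₀ E (c ⟨i, (k0, l)⟩) * b i l := by
      refine Finset.sum_congr rfl fun l _ => ?_
      rw [hk0, pow_zero, mul_one]
    rw [e0, add_sub_cancel_left]
    refine MemMul.sum _ _ fun k hk => MemMul.sum _ _ fun l _ => ?_
    have hkne : (k : ℕ) ≠ 0 := fun h =>
      Finset.ne_of_mem_erase hk (Fin.ext (by rw [h, hk0]))
    obtain ⟨n, hn⟩ := Nat.exists_eq_succ_of_ne_zero hkne
    refine ⟨algebraMap V₀ E (c ⟨i, (k, l)⟩) * t i ^ n * b i l,
      mul_mem (mul_mem (H.le i _) (pow_mem (H.t_mem i i) _)) (H.b_mem i l i), ?_⟩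
    rw [hn, pow_succ]
    ring
  have key : sep x i * (z - ∑ l, algebraMap V₀ E (c ⟨i, (k0, l)⟩) * b i l) =
      sep x i * (blk t b c i - ∑ l, algebraMap V₀ E (c ⟨i, (k0, l)⟩) * b i l) +
        ∑ i' ∈ Finset.univ.erase i, sep x i' * blk t b c i' - algebraMap V₀ E ϖ * y := by
    linear_combination hc - hzy
  rw [key]
  exact ((hblock.mul_left (H.sep_mem i i)).add hrest).sub (MemMul.trans hpi ⟨y, hy, rfl⟩)

/-- **Exact ramification index**: `t i ^ e i ∈ ϖ · V i`. -/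
theorem pow_e (i : ι) : ∃ y ∈ V i, t i ^ e i = algebraMap V₀ E ϖ * y := by
  have hzmem : ∀ j, sep x i * t i ^ e i ∈ V j := fun j =>
    mul_mem (H.sep_mem i j) (pow_mem (H.t_mem i j) _)
  obtain ⟨c, hc⟩ := H.exists_repr hzmem
  have hdvd : ∀ j, ϖ ∣ c j := by
    rintro ⟨i', k, l⟩
    refine H.dvd_of_local c i' ?_ k l
    rw [← hc]
    by_cases h : i' = i
    · subst h
      exact ⟨sep x i', H.sep_mem i' i', by ring⟩
    · exact MemMul.trans (H.pi_t i') ((H.sep_pi h).mul_right (pow_mem (H.t_mem i i') _))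
  choose d hd using hdvd
  refine ⟨(sep x i)⁻¹ * ∑ j, algebraMap V₀ E (d j) * gen t x b j,
    mul_mem (H.sep_inv_mem i) (sum_mem fun j _ => mul_mem (H.le i _) (H.gen_mem j i)), ?_⟩
  have h1 : sep x i * t i ^ e i =
      algebraMap V₀ E ϖ * ∑ j, algebraMap V₀ E (d j) * gen t x b j := by
    rw [hc, Finset.mul_sum]
    refine Finset.sum_congr rfl fun j _ => ?_
    rw [hd j, map_mul]
    ring
  have hs := H.sep_ne i
  rw [← mul_assoc, mul_comm _ (sep x i)⁻¹, mul_assoc, ← h1, ← mul_assoc, inv_mul_cancel₀ hs,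
    one_mul]

end Hyp

end Val

end Fermat.Agent.S36.RamThree
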