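/-
S36 block [RotTheta] (helper106): the Laurent-series algebra behind the valuation `W3`
(the multiplicity-`(q-1)` component of the model of `X₀(q² M')`, expansions at the middle cusps).

Everything is elementary; imports: Mathlib + `S24/Rot` (the rotation `t ↦ ζ t`).

* `theta`            : `θ = t·d/dt` on Laurent series (a derivation commuting with rotations);
* `IntSub B`         : the subring of Laurent series with all coefficients in a subring `B` of the
                       coefficient field (e.g. a valuation ring);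
* `zpow_sub_one_eq_mul`     : `ζ ^ n - 1 = (ζ - 1) (n + (ζ - 1) c)`, `c` integral;
* `rot_sub_self`     : `f(ζ t) - f(t) = (ζ - 1) (θ f + (ζ - 1) g)`, `g` integral;
* `prod_one_sub_pow`, `natCast_eq_pow_mul` : for a primitive `q`-th root of unity `ζ`, `q` prime,
                       `(ζ - 1) ^ (q - 1) = q · w` with `w` an integral unit, `w ≡ -1 mod (ζ - 1)`;
* `pow_rot_sub_self` : `(f(ζ t) - f(t)) ^ (q - 1) = q · (-(θ f) ^ (q - 1) + (ζ - 1) g)`;
* `prod_rot_pow_sub_self` : `∏_{c=1}^{q-1} (f(ζ^c t) - f(t)) = ± q · ((θ f) ^ (q - 1) + (ζ - 1) g)`;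
* `theta_eq_zero_iff` : in characteristic `q`, `θ f = 0` iff `f` is a series in `t ^ q`.
-/
import Mathlib
import Fermat.Agent.S24.Rot

set_option autoImplicit false

namespace Fermat.Agent.S36.RotTheta

open HahnSeries Fermat.Agent.S24

noncomputable section

/-! ### The derivation `θ = t · d/dt` -/

section Theta

variable {R : Type*} [CommRing R]

/-- `θ = t · d/dt` on Laurent series: the `n`-th coefficient is multiplied by `n`. -/
def theta (f : LaurentSeries R) : LaurentSeries R where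
  coeff n := (n : R) * f.coeff n
  isPWO_support' := f.isPWO_support.mono fun n hn => by
    simp only [Function.mem_support, ne_eq] at hn
    exact fun h => hn (by rw [h, mul_zero])

@[simp]
theorem theta_coeff (f : LaurentSeries R) (n : ℤ) : (theta f).coeff n = (n : R) * f.coeff n :=
  rfl

theorem theta_support_subset (f : LaurentSeries R) : (theta f).support ⊆ f.support :=
  fun n hn => by
    simp only [HahnSeries.mem_support, theta_coeff, ne_eq] at hn ⊢
    exact fun h => hn (by rw [h, mul_zero])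

@[simp]
theorem theta_zero : theta (0 : LaurentSeries R) = 0 := by
  ext n
  simp

theorem theta_add (f g : LaurentSeries R) : theta (f + g) = theta f + theta g := by
  ext n
  simp [mul_add]

theorem theta_neg (f : LaurentSeries R) : theta (-f) = -theta f := by
  ext n
  simp

theorem theta_sub (f g : LaurentSeries R) : theta (f - g) = theta f - theta g := by
  ext n
  simp [mul_sub]

theorem theta_sum {ι : Type*} (s : Finset ι) (f : ι → LaurentSeries R) :
    theta (∑ i ∈ s, f i) = ∑ i ∈ s, theta (f i) := by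
  classical
  induction s using Finset.induction_on with
  | empty => simp
  | insert a s ha ih => rw [Finset.sum_insert ha, Finset.sum_insert ha, theta_add, ih]

/-- Leibniz rule. -/
theorem theta_mul (f g : LaurentSeries R) : theta (f * g) = theta f * g + f * theta g := by
  ext n
  rw [theta_coeff, HahnSeries.coeff_add,
    HahnSeries.coeff_mul_left' f.isPWO_support (theta_support_subset f),
    HahnSeries.coeff_mul_right' g.isPWO_support (theta_support_subset g),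
    HahnSeries.coeff_mul, Finset.mul_sum, ← Finset.sum_add_distrib]
  refine Finset.sum_congr rfl fun ij hij => ?_
  rw [Finset.mem_antidiagonal] at hij
  rw [theta_coeff, theta_coeff, ← hij.2.2]
  push_cast
  ring

@[simp]
theorem theta_C (a : R) : theta (HahnSeries.C a : LaurentSeries R) = 0 := by
  ext n
  rw [theta_coeff, HahnSeries.C_apply, HahnSeries.coeff_single, HahnSeries.coeff_zero]
  split_ifs with h
  · rw [h, Int.cast_zero, zero_mul]
  · rw [mul_zero]

@[simp]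
theorem theta_one : theta (1 : LaurentSeries R) = 0 := by
  rw [← map_one (HahnSeries.C : R →+* LaurentSeries R)]
  exact theta_C 1

theorem theta_C_mul (a : R) (f : LaurentSeries R) :
    theta (HahnSeries.C a * f) = HahnSeries.C a * theta f := by
  rw [theta_mul, theta_C, zero_mul, zero_add]

theorem theta_single (n : ℤ) (a : R) :
    theta (HahnSeries.single n a : LaurentSeries R) = HahnSeries.single n ((n : R) * a) := by
  ext m
  rw [theta_coeff, HahnSeries.coeff_single, HahnSeries.coeff_single]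
  split_ifs with h
  · rw [h]
  · rw [mul_zero]

theorem theta_pow (f : LaurentSeries R) (n : ℕ) :
    theta (f ^ (n + 1)) = HahnSeries.C ((n + 1 : ℕ) : R) * f ^ n * theta f := by
  induction n with
  | zero => simp
  | succ n ih =>
    rw [pow_succ, theta_mul, ih, Nat.cast_succ (n + 1), map_add, map_one]
    ring

/-- In characteristic `q`, `θ` kills `q`-th powers. -/
theorem theta_pow_char (q : ℕ) [hq : Fact q.Prime] [CharP R q] (f : LaurentSeries R) :
    theta (f ^ q) = 0 := by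
  obtain ⟨n, rfl⟩ : ∃ n, q = n + 1 := ⟨q - 1, (Nat.sub_add_cancel hq.out.one_le).symm⟩
  rw [theta_pow, CharP.cast_eq_zero, map_zero, zero_mul, zero_mul]

/-- In characteristic `q` (over a domain), `θ f = 0` iff `f` is a series in `t ^ q`. -/
theorem theta_eq_zero_iff [IsDomain R] (q : ℕ) [CharP R q] (f : LaurentSeries R) :
    theta f = 0 ↔ ∀ n : ℤ, f.coeff n ≠ 0 → (q : ℤ) ∣ n := by
  constructor
  · intro h n hn
    have h1 : (theta f).coeff n = 0 := by rw [h, HahnSeries.coeff_zero]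
    rw [theta_coeff, mul_eq_zero] at h1
    rcases h1 with h1 | h1
    · exact (CharP.intCast_eq_zero_iff R q n).1 h1
    · exact absurd h1 hn
  · intro h
    ext n
    rw [theta_coeff, HahnSeries.coeff_zero]
    by_cases hn : f.coeff n = 0
    · rw [hn, mul_zero]
    · rw [(CharP.intCast_eq_zero_iff R q n).2 (h n hn), zero_mul]

end Theta

/-! ### A generic expansion lemma -/

section Generic

variable {A : Type*} [CommRing A]

/-- `∏ (a i + λ b i) = ∏ a i + λ r` with `r` in any subring containing `λ`, the `a i`, the `b i`. -/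
theorem prod_add_mul {ι : Type*} (s : Finset ι) (S : Subring A) {lam : A} (hlam : lam ∈ S)
    (a b : ι → A) (ha : ∀ i ∈ s, a i ∈ S) (hb : ∀ i ∈ s, b i ∈ S) :
    ∃ r ∈ S, ∏ i ∈ s, (a i + lam * b i) = ∏ i ∈ s, a i + lam * r := by
  classical
  induction s using Finset.induction_on with
  | empty => exact ⟨0, S.zero_mem, by simp⟩
  | insert j s hj ih =>
    obtain ⟨r, hr, h⟩ := ih (fun i hi => ha i (Finset.mem_insert_of_mem hi))
      (fun i hi => hb i (Finset.mem_insert_of_mem hi))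
    have haj := ha j (Finset.mem_insert_self j s)
    have hbj := hb j (Finset.mem_insert_self j s)
    have hP : ∏ i ∈ s, a i ∈ S :=
      Subring.prod_mem S fun i hi => ha i (Finset.mem_insert_of_mem hi)
    refine ⟨a j * r + b j * ∏ i ∈ s, a i + lam * (b j * r),
      S.add_mem (S.add_mem (S.mul_mem haj hr) (S.mul_mem hbj hP))
        (S.mul_mem hlam (S.mul_mem hbj hr)), ?_⟩
    rw [Finset.prod_insert hj, Finset.prod_insert hj, h]
    ring

/-- `(a + λ b) ^ n = a ^ n + λ r` with `r` in any subring containing `λ`, `a`, `b`. -/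
theorem add_mul_pow (S : Subring A) {lam a b : A} (hlam : lam ∈ S) (ha : a ∈ S) (hb : b ∈ S)
    (n : ℕ) : ∃ r ∈ S, (a + lam * b) ^ n = a ^ n + lam * r := by
  obtain ⟨r, hr, h⟩ := prod_add_mul (Finset.range n) S hlam (fun _ => a) (fun _ => b)
    (fun _ _ => ha) (fun _ _ => hb)
  refine ⟨r, hr, ?_⟩
  simpa using h

end Generic

/-! ### Integral Laurent series and the rotation -/

section Field

variable {k : Type*} [Field k]

/-- Laurent series all of whose coefficients lie in the subring `B`. -/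
def IntSub (B : Subring k) : Subring (LaurentSeries k) where
  carrier := {f | ∀ n, f.coeff n ∈ B}
  mul_mem' {f g} hf hg n := by
    rw [HahnSeries.coeff_mul]
    exact Subring.sum_mem _ fun ij _ => B.mul_mem (hf _) (hg _)
  one_mem' n := by
    rw [HahnSeries.coeff_one]
    split_ifs
    · exact B.one_mem
    · exact B.zero_mem
  add_mem' {f g} hf hg n := by
    rw [HahnSeries.coeff_add]
    exact B.add_mem (hf n) (hg n)
  zero_mem' n := by
    rw [HahnSeries.coeff_zero]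
    exact B.zero_mem
  neg_mem' {f} hf n := by
    rw [HahnSeries.coeff_neg]
    exact B.neg_mem (hf n)

theorem mem_IntSub {B : Subring k} {f : LaurentSeries k} :
    f ∈ IntSub B ↔ ∀ n, f.coeff n ∈ B :=
  Iff.rfl

theorem single_mem_IntSub {B : Subring k} (n : ℤ) {a : k} (ha : a ∈ B) :
    (HahnSeries.single n a : LaurentSeries k) ∈ IntSub B := fun m => by
  rw [HahnSeries.coeff_single]
  split_ifs
  · exact ha
  · exact B.zero_mem

theorem C_mem_IntSub {B : Subring k} {a : k} (ha : a ∈ B) :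
    (HahnSeries.C a : LaurentSeries k) ∈ IntSub B := by
  rw [HahnSeries.C_apply]
  exact single_mem_IntSub 0 ha

theorem theta_mem_IntSub {B : Subring k} {f : LaurentSeries k} (hf : f ∈ IntSub B) :
    theta f ∈ IntSub B := fun n => by
  rw [theta_coeff]
  exact B.mul_mem (intCast_mem B n) (hf n)

theorem zpow_mem_of {B : Subring k} {ζ : k} (hζ : ζ ∈ B) (hζ' : ζ⁻¹ ∈ B) (n : ℤ) :
    ζ ^ n ∈ B := by
  cases n with
  | ofNat m =>
    rw [Int.ofNat_eq_natCast, zpow_natCast]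
    exact B.pow_mem hζ m
  | negSucc m =>
    rw [zpow_negSucc, ← inv_pow]
    exact B.pow_mem hζ' _

theorem rot_mem_IntSub {B : Subring k} {ζ : k} (hζ0 : ζ ≠ 0) (hζ : ζ ∈ B) (hζ' : ζ⁻¹ ∈ B)
    {f : LaurentSeries k} (hf : f ∈ IntSub B) : rotHom ζ hζ0 f ∈ IntSub B := fun n => by
  rw [rotHom_coeff]
  exact B.mul_mem (zpow_mem_of hζ hζ' n) (hf n)

/-- `θ` commutes with the rotations. -/
theorem theta_rot (ζ : k) (hζ0 : ζ ≠ 0) (f : LaurentSeries k) :
    theta (rotHom ζ hζ0 f) = rotHom ζ hζ0 (theta f) := by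
  ext n
  rw [theta_coeff, rotHom_coeff, rotHom_coeff, theta_coeff]
  ring

/-- `ζ ^ n - 1 = (ζ - 1) (n + (ζ - 1) c)` with `c` integral (`n : ℤ`). -/
theorem zpow_sub_one_eq_mul {B : Subring k} {ζ : k} (hζ0 : ζ ≠ 0) (hζ : ζ ∈ B) (hζ' : ζ⁻¹ ∈ B)
    (n : ℤ) :
    ∃ c ∈ B, ζ ^ n - 1 = (ζ - 1) * ((n : k) + (ζ - 1) * c) := by
  induction n using Int.induction_on with
  | zero => exact ⟨0, B.zero_mem, by simp⟩
  | succ i ih =>
    obtain ⟨c, hc, h⟩ := ih
    refine ⟨(i : k) + ζ * c, B.add_mem (natCast_mem B i) (B.mul_mem hζ hc), ?_⟩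
    have h1 : ζ ^ ((i : ℤ) + 1) = ζ ^ (i : ℤ) * ζ := zpow_add_one₀ hζ0 _
    rw [h1]
    push_cast at h ⊢
    linear_combination ζ * h
  | pred i ih =>
    obtain ⟨c, hc, h⟩ := ih
    refine ⟨ζ⁻¹ * (c - ((-(i : ℤ) - 1 : ℤ) : k)),
      B.mul_mem hζ' (B.sub_mem hc (intCast_mem B _)), ?_⟩
    have h1 : ζ ^ (-(i : ℤ) - 1) = ζ ^ (-(i : ℤ)) * ζ⁻¹ := zpow_sub_one₀ hζ0 _
    have h2 : ζ ^ (-(i : ℤ)) = 1 + (ζ - 1) * (((-(i : ℤ) : ℤ) : k) + (ζ - 1) * c) := by
      linear_combination h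
    rw [h1, h2]
    push_cast
    field_simp
    ring

/-- **The rotation congruence**: `f(ζ t) - f(t) = (ζ - 1) · (θ f + (ζ - 1) · g)` with `g`
integral. -/
theorem rot_sub_self {B : Subring k} {ζ : k} (hζ0 : ζ ≠ 0) (hζ : ζ ∈ B) (hζ' : ζ⁻¹ ∈ B)
    {f : LaurentSeries k} (hf : f ∈ IntSub B) :
    ∃ g ∈ IntSub B, rotHom ζ hζ0 f - f =
      HahnSeries.C (ζ - 1) * (theta f + HahnSeries.C (ζ - 1) * g) := by
  choose c hc hc' using zpow_sub_one_eq_mul (B := B) hζ0 hζ hζ'
  let g : LaurentSeries k :=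
    { coeff := fun n => c n * f.coeff n
      isPWO_support' := f.isPWO_support.mono fun n hn => by
        simp only [Function.mem_support, ne_eq] at hn
        exact fun h => hn (by rw [h, mul_zero]) }
  refine ⟨g, fun n => B.mul_mem (hc n) (hf n), ?_⟩
  ext n
  rw [HahnSeries.coeff_sub, rotHom_coeff, HahnSeries.C_mul_eq_smul, HahnSeries.coeff_smul,
    HahnSeries.coeff_add, HahnSeries.C_mul_eq_smul, HahnSeries.coeff_smul, theta_coeff,
    smul_eq_mul, smul_eq_mul]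
  show ζ ^ n * f.coeff n - f.coeff n = (ζ - 1) * ((n : k) * f.coeff n + (ζ - 1) * (c n * f.coeff n))
  linear_combination f.coeff n * hc' n

/-! ### Cyclotomic constants -/

/-- `1 + ζ + ⋯ + ζ ^ (n - 1) = n + (ζ - 1) c` with `c` integral. -/
theorem geom_sum_eq_add {B : Subring k} {ζ : k} (hζ : ζ ∈ B) (n : ℕ) :
    ∃ c ∈ B, ∑ i ∈ Finset.range n, ζ ^ i = (n : k) + (ζ - 1) * c := by
  induction n with
  | zero => exact ⟨0, B.zero_mem, by simp⟩
  | succ n ih =>
    obtain ⟨c, hc, h⟩ := ih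
    refine ⟨c + ∑ i ∈ Finset.range n, ζ ^ i,
      B.add_mem hc (Subring.sum_mem B fun i _ => B.pow_mem hζ i), ?_⟩
    rw [Finset.sum_range_succ]
    have h2 := mul_geom_sum ζ n
    push_cast
    linear_combination h - h2

/-- For a primitive `q`-th root of unity: `∏_{c=1}^{q-1} (1 - ζ ^ c) = q`. -/
theorem prod_one_sub_pow {q : ℕ} (hq : 0 < q) {ζ : k} (hζ : IsPrimitiveRoot ζ q) :
    ∏ c ∈ Finset.range (q - 1), (1 - ζ ^ (c + 1)) = (q : k) := by
  obtain ⟨n, rfl⟩ : ∃ n, q = n + 1 := ⟨q - 1, (Nat.sub_add_cancel hq).symm⟩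
  have h := hζ.prod_one_sub_pow_eq_order
  rw [Nat.add_sub_cancel]
  rw [h]
  push_cast
  ring

/-- For a primitive `q`-th root of unity: `∏_{c=1}^{q-1} (ζ ^ c - 1) = (-1) ^ (q - 1) q`. -/
theorem prod_pow_sub_one {q : ℕ} (hq : 0 < q) {ζ : k} (hζ : IsPrimitiveRoot ζ q) :
    ∏ c ∈ Finset.range (q - 1), (ζ ^ (c + 1) - 1) = (-1) ^ (q - 1) * (q : k) := by
  rw [← prod_one_sub_pow hq hζ]
  have : ∀ c ∈ Finset.range (q - 1), ζ ^ (c + 1) - 1 = -(1 - ζ ^ (c + 1)) := fun c _ => by ring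
  rw [Finset.prod_congr rfl this, Finset.prod_neg, Finset.card_range]

/-- The cyclotomic units `(ζ ^ m - 1) / (ζ - 1) = 1 + ζ + ⋯ + ζ ^ (m - 1)`, `q ∤ m`, have integral
inverses. -/
theorem inv_geom_sum_mem {B : Subring k} {q : ℕ} (hq : q.Prime) {ζ : k}
    (hζ : IsPrimitiveRoot ζ q) (hζB : ζ ∈ B) {m : ℕ} (hm : ¬ q ∣ m) :
    (∑ i ∈ Finset.range m, ζ ^ i)⁻¹ ∈ B := by
  have hcop : Nat.Coprime m q := ((Nat.Prime.coprime_iff_not_dvd hq).2 hm).symm
  obtain ⟨m', -, hm'⟩ := Nat.exists_mul_mod_eq_one_of_coprime hcop hq.one_lt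
  have hζ1 : ζ - 1 ≠ 0 := sub_ne_zero.2 (hζ.ne_one hq.one_lt)
  have hpow : (ζ ^ m) ^ m' = ζ := by
    rw [← _root_.pow_mul]
    conv_lhs => rw [← Nat.div_add_mod (m * m') q, hm', _root_.pow_add, _root_.pow_mul,
      hζ.pow_eq_one, one_pow, one_mul, pow_one]
  have h1 := mul_geom_sum ζ m
  have h2 := mul_geom_sum (ζ ^ m) m'
  rw [hpow] at h2
  have h3 : (∑ i ∈ Finset.range m, ζ ^ i) * ∑ i ∈ Finset.range m', (ζ ^ m) ^ i = 1 := by
    apply mul_left_cancel₀ hζ1
    rw [mul_one, ← mul_assoc, h1, h2]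
  rw [inv_eq_of_mul_eq_one_right h3]
  exact Subring.sum_mem B fun i _ => B.pow_mem (B.pow_mem hζB m) i

theorem geom_sum_ne_zero_of_not_dvd {q : ℕ} {ζ : k} (hζ : IsPrimitiveRoot ζ q) {m : ℕ}
    (hm : ¬ q ∣ m) :
    ∑ i ∈ Finset.range m, ζ ^ i ≠ 0 := by
  intro h0
  have h1 := mul_geom_sum ζ m
  rw [h0, mul_zero] at h1
  exact hm ((hζ.pow_eq_one_iff_dvd m).1 (sub_eq_zero.1 h1.symm))

/-- The inverse of a primitive `q`-th root of unity in `B` lies in `B`. -/
theorem inv_mem_of_isPrimitiveRoot {B : Subring k} {q : ℕ} (hq : 0 < q) {ζ : k}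
    (hζ : IsPrimitiveRoot ζ q) (hζB : ζ ∈ B) : ζ⁻¹ ∈ B := by
  have h : ζ⁻¹ = ζ ^ (q - 1) := by
    apply inv_eq_of_mul_eq_one_right
    rw [← _root_.pow_succ', Nat.sub_add_cancel hq, hζ.pow_eq_one]
  rw [h]
  exact B.pow_mem hζB _

/-- **`q` and `(ζ - 1) ^ (q - 1)` are associated, with the unit `≡ -1`**: for a primitive `q`-th
root of unity `ζ` (`q` prime) in a subring `B` of a field, `(ζ - 1) ^ (q - 1) = q · w` with
`w ∈ Bˣ`, `w ≡ -1 mod (ζ - 1) B`. -/
theorem natCast_eq_pow_mul {B : Subring k} {q : ℕ} (hq : q.Prime) {ζ : k}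
    (hζ : IsPrimitiveRoot ζ q) (hζB : ζ ∈ B) :
    ∃ w ∈ B, w⁻¹ ∈ B ∧ (ζ - 1) ^ (q - 1) = (q : k) * w ∧ ∃ c ∈ B, w = -1 + (ζ - 1) * c := by
  have : Fact q.Prime := ⟨hq⟩
  set U : k := ∏ c ∈ Finset.range (q - 1), ∑ i ∈ Finset.range (c + 1), ζ ^ i with hU
  have hnd : ∀ c ∈ Finset.range (q - 1), ¬ q ∣ c + 1 := fun c hc hd => by
    have h1 := Nat.le_of_dvd (Nat.succ_pos c) hd
    have h2 := Finset.mem_range.1 hc
    omega
  have hUB : U ∈ B :=
    Subring.prod_mem B fun c _ => Subring.sum_mem B fun i _ => B.pow_mem hζB i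
  have hU0 : U ≠ 0 :=
    Finset.prod_ne_zero_iff.2 fun c hc => geom_sum_ne_zero_of_not_dvd hζ (hnd c hc)
  have hUinv : U⁻¹ ∈ B := by
    rw [hU, ← Finset.prod_inv_distrib]
    exact Subring.prod_mem B fun c hc => inv_geom_sum_mem hq hζ hζB (hnd c hc)
  -- `q = (1 - ζ) ^ (q - 1) * U`
  have hqU : (q : k) = (1 - ζ) ^ (q - 1) * U := by
    have h1 : ∏ c ∈ Finset.range (q - 1), (1 - ζ ^ (c + 1)) =
        ∏ c ∈ Finset.range (q - 1), ((1 - ζ) * ∑ i ∈ Finset.range (c + 1), ζ ^ i) :=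
      Finset.prod_congr rfl fun c _ => (mul_neg_geom_sum ζ (c + 1)).symm
    rw [← prod_one_sub_pow hq.pos hζ, h1, Finset.prod_mul_distrib, Finset.prod_const,
      Finset.card_range]
  -- `U = (q - 1)! + (ζ - 1) r`
  obtain ⟨r, hr, hUr⟩ : ∃ r ∈ B, U = ((q - 1).factorial : k) + (ζ - 1) * r := by
    choose c hc hc' using fun n : ℕ => geom_sum_eq_add (B := B) hζB n
    obtain ⟨r, hr, h⟩ := prod_add_mul (Finset.range (q - 1)) B (B.sub_mem hζB B.one_mem)
      (fun i => ((i + 1 : ℕ) : k)) (fun i => c (i + 1)) (fun i _ => natCast_mem B _)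
      (fun i _ => hc _)
    refine ⟨r, hr, ?_⟩
    rw [hU, Finset.prod_congr rfl fun i _ => hc' (i + 1), h, ← Nat.cast_prod,
      Finset.prod_range_add_one_eq_factorial]
  -- Wilson and Fermat: `(-1) ^ (q - 1) + (q - 1)! ≡ 0 mod q`
  obtain ⟨t, ht⟩ : ∃ t : ℤ, (-1 : ℤ) ^ (q - 1) + ((q - 1).factorial : ℤ) = q * t := by
    have h1 : (((-1 : ℤ) ^ (q - 1) + ((q - 1).factorial : ℤ) : ℤ) : ZMod q) = 0 := by
      push_cast
      rw [ZMod.wilsons_lemma, ZMod.pow_card_sub_one_eq_one (neg_ne_zero.2 one_ne_zero)]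
      ring
    exact (ZMod.intCast_zmod_eq_zero_iff_dvd _ q).1 h1
  have ht' : (-1 : k) ^ (q - 1) + ((q - 1).factorial : k) = (q : k) * (t : k) := by
    exact_mod_cast congrArg (Int.cast : ℤ → k) ht
  -- `q ∈ (ζ - 1) B`
  obtain ⟨s, hs, hqs⟩ : ∃ s ∈ B, (q : k) = (ζ - 1) * s := by
    refine ⟨-((1 - ζ) ^ (q - 2) * U),
      B.neg_mem (B.mul_mem (B.pow_mem (B.sub_mem B.one_mem hζB) _) hUB), ?_⟩
    have h2 : q - 1 = (q - 2) + 1 := by have := hq.two_le; omega
    rw [hqU, h2, _root_.pow_succ]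
    ring
  have h3 : (-1 : k) ^ (q - 1) + U = (ζ - 1) * (s * (t : k) + r) := by
    linear_combination hUr + ht' + (t : k) * hqs
  refine ⟨(-1) ^ (q - 1) * U⁻¹, B.mul_mem (B.pow_mem (B.neg_mem B.one_mem) _) hUinv, ?_, ?_, ?_⟩
  · rw [mul_inv, inv_inv, ← inv_pow, inv_neg, inv_one]
    exact B.mul_mem (B.pow_mem (B.neg_mem B.one_mem) _) hUB
  · have h4 : (ζ - 1) ^ (q - 1) = (-1) ^ (q - 1) * (1 - ζ) ^ (q - 1) := by
      rw [← mul_pow]
      ring
    rw [h4, hqU]
    field_simp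
  · refine ⟨U⁻¹ * (s * (t : k) + r),
      B.mul_mem hUinv (B.add_mem (B.mul_mem hs (intCast_mem B t)) hr), ?_⟩
    field_simp
    linear_combination h3

/-- **The `(q-1)`-st power of the rotation difference**: `(f(ζ t) - f(t)) ^ (q - 1) =
q · (-(θ f) ^ (q - 1) + (ζ - 1) g)` with `g` integral. -/
theorem pow_rot_sub_self {B : Subring k} {q : ℕ} (hq : q.Prime) {ζ : k}
    (hζ : IsPrimitiveRoot ζ q) (hζB : ζ ∈ B) {f : LaurentSeries k} (hf : f ∈ IntSub B) :
    ∃ g ∈ IntSub B, (rotHom ζ (hζ.ne_zero hq.ne_zero) f - f) ^ (q - 1) =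
      HahnSeries.C (q : k) * (-(theta f) ^ (q - 1) + HahnSeries.C (ζ - 1) * g) := by
  have hζ0 : ζ ≠ 0 := hζ.ne_zero hq.ne_zero
  have hζinv : ζ⁻¹ ∈ B := inv_mem_of_isPrimitiveRoot hq.pos hζ hζB
  obtain ⟨g, hg, h⟩ := rot_sub_self hζ0 hζB hζinv hf
  obtain ⟨w, hw, -, hqw, c, hc, hwc⟩ := natCast_eq_pow_mul hq hζ hζB
  have hlam : (HahnSeries.C (ζ - 1) : LaurentSeries k) ∈ IntSub B :=
    C_mem_IntSub (B.sub_mem hζB B.one_mem)
  obtain ⟨r, hr, hr'⟩ := add_mul_pow (IntSub B) hlam (theta_mem_IntSub hf) hg (q - 1)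
  have hCw : (HahnSeries.C w : LaurentSeries k) = -1 + HahnSeries.C (ζ - 1) * HahnSeries.C c := by
    rw [hwc, map_add, map_mul, map_neg, map_one]
  have hCq : (HahnSeries.C (ζ - 1) : LaurentSeries k) ^ (q - 1) =
      HahnSeries.C (q : k) * HahnSeries.C w := by
    rw [← map_pow, hqw, map_mul]
  refine ⟨HahnSeries.C c * theta f ^ (q - 1) + HahnSeries.C w * r,
    (IntSub B).add_mem ((IntSub B).mul_mem (C_mem_IntSub hc)
      ((IntSub B).pow_mem (theta_mem_IntSub hf) _)) ((IntSub B).mul_mem (C_mem_IntSub hw) hr), ?_⟩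
  rw [h, mul_pow, hr', hCq]
  linear_combination (HahnSeries.C (q : k) * theta f ^ (q - 1)) * hCw

/-- **The product of the rotation differences over the nontrivial `q`-th roots of unity**:
`∏_{c=1}^{q-1} (f(ζ^c t) - f(t)) = (-1)^(q-1) q · ((θ f) ^ (q - 1) + (ζ - 1) g)`, `g` integral. -/
theorem prod_rot_pow_sub_self {B : Subring k} {q : ℕ} (hq : q.Prime) {ζ : k}
    (hζ : IsPrimitiveRoot ζ q) (hζB : ζ ∈ B) {f : LaurentSeries k} (hf : f ∈ IntSub B) :
    ∃ g ∈ IntSub B, ∏ c ∈ Finset.range (q - 1),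
        (rotHom (ζ ^ (c + 1)) (pow_ne_zero _ (hζ.ne_zero hq.ne_zero)) f - f) =
      HahnSeries.C ((-1) ^ (q - 1) * (q : k)) *
        (theta f ^ (q - 1) + HahnSeries.C (ζ - 1) * g) := by
  have hζ0 : ζ ≠ 0 := hζ.ne_zero hq.ne_zero
  have hζinv : ζ⁻¹ ∈ B := inv_mem_of_isPrimitiveRoot hq.pos hζ hζB
  have key : ∀ c : ℕ, ∃ b ∈ IntSub B, rotHom (ζ ^ (c + 1)) (pow_ne_zero _ hζ0) f - f =
      HahnSeries.C (ζ ^ (c + 1) - 1) * (theta f + HahnSeries.C (ζ - 1) * b) := by
    intro c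
    obtain ⟨g, hg, h⟩ := rot_sub_self (pow_ne_zero (c + 1) hζ0) (B.pow_mem hζB _)
      (by rw [← inv_pow]; exact B.pow_mem hζinv _) hf
    refine ⟨HahnSeries.C (∑ i ∈ Finset.range (c + 1), ζ ^ i) * g,
      (IntSub B).mul_mem (C_mem_IntSub (Subring.sum_mem B fun i _ => B.pow_mem hζB i)) hg, ?_⟩
    have h1 : (HahnSeries.C (ζ ^ (c + 1) - 1) : LaurentSeries k) =
        HahnSeries.C (ζ - 1) * HahnSeries.C (∑ i ∈ Finset.range (c + 1), ζ ^ i) := by
      rw [← map_mul, mul_geom_sum]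
    rw [h, ← mul_assoc (HahnSeries.C (ζ - 1)), ← h1]
  choose b hb hb' using key
  obtain ⟨r, hr, h⟩ := prod_add_mul (Finset.range (q - 1)) (IntSub B)
    (C_mem_IntSub (B.sub_mem hζB B.one_mem)) (fun _ => theta f) b
    (fun _ _ => theta_mem_IntSub hf) (fun i _ => hb i)
  refine ⟨r, hr, ?_⟩
  rw [Finset.prod_congr rfl fun c _ => hb' c, Finset.prod_mul_distrib, h, Finset.prod_const,
    Finset.card_range, ← map_prod, prod_pow_sub_one hq.pos hζ]

/-- The same product indexed by `c ∈ [1, q)`. -/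
theorem prod_Ico_rot_pow_sub_self {B : Subring k} {q : ℕ} (hq : q.Prime) {ζ : k}
    (hζ : IsPrimitiveRoot ζ q) (hζB : ζ ∈ B) {f : LaurentSeries k} (hf : f ∈ IntSub B) :
    ∃ g ∈ IntSub B, ∏ c ∈ Finset.Ico 1 q,
        (rotHom (ζ ^ c) (pow_ne_zero _ (hζ.ne_zero hq.ne_zero)) f - f) =
      HahnSeries.C ((-1) ^ (q - 1) * (q : k)) *
        (theta f ^ (q - 1) + HahnSeries.C (ζ - 1) * g) := by
  obtain ⟨g, hg, h⟩ := prod_rot_pow_sub_self hq hζ hζB hf
  refine ⟨g, hg, ?_⟩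
  rw [← h, Finset.prod_Ico_eq_prod_range]
  refine Finset.prod_congr rfl fun c _ => ?_
  have e : ∀ (a b : k) (ha : a ≠ 0) (hb : b ≠ 0), a = b → rotHom a ha f = rotHom b hb f := by
    intro a b ha hb hab
    subst hab
    rfl
  rw [e (ζ ^ (1 + c)) (ζ ^ (c + 1)) _ (pow_ne_zero _ (hζ.ne_zero hq.ne_zero))
    (by rw [add_comm])]

end Field

end

end Fermat.Agent.S36.RotTheta
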