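/-
S36 — Seid.lean (helper54): block [SEID], abstract algebra for the cusp crews of [N10]
(`princ` at the closed points of `W3` in the chart at infinity), in CHART LANGUAGE
(`S34.LocPlan.RegAt n x` = "`x ∈ R_n`", `UnitAt n x` = "`x ∈ R_nˣ`"; no localisation API).

`R` an integrally closed domain with fraction field `E`, `n` a prime ideal of `R`.

* `regAt_or_regAt_inv`   — **the `u`, `u⁻¹` lemma (Seidenberg)**: if `x ∈ E` is a root of a
                           polynomial over `R` with at least one coefficient outside `n`, then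
                           `x ∈ R_n` or `x⁻¹ ∈ R_n`;
* `unitAt_of_pow`        — `ρ ^ k ∈ R_nˣ`, `k ≠ 0` ⟹ `ρ ∈ R_nˣ` (normality);
* `unitAt_of_pow_mul_eq` — the same in fraction form: `ρ ^ k * v₂ = v₁` with `v₁, v₂ ∈ R ∖ n`
                           (e.g. `ρ = jqq / j`, `ρ ^ q = (jq / j ^ q) / (jq / jqq ^ q)`);
* `unitAt_of_cong`       — the unit criterion by reduction along a vertical valuation ring `V`
                           with centre `P ≤ n` (`P ⊇ R ∩ ϖ V`): `u ∈ R_n` and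
                           `u · b ≡ a₀` modulo `ϖ V` with `b ∈ R`, `a₀ ∈ R ∖ n` ⟹ `u ∈ R_nˣ`
                           (the step "`(KS)` at the cusps": `u · B(x) − A(x) ∈ 𝔪(W3)`);
* `unitAt_of_cong_one`   — the case `u ≡ 1` modulo `ϖ V`;
* `unitAt_of_root`       — Seidenberg + reduction: a root `x ≡ 1` modulo `ϖ V` of a polynomial
                           over `R` with a coefficient outside `n` is a unit at `n`;
* `genAt_of_dvd`         — the generator criterion at a point lying on ONE vertical prime `P`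
                           (valuation ring `V`, `P = R ∩ ϖ V`): if `δ ∈ R` has `V`-valuation one
                           (`δ = ϖ · unit`), `δ · c = p · r` with `r ∉ n`, and the localised
                           descent `R_n ∩ p V ⊆ p R_n` holds, then `δ` generates `P` at `n`
                           (`∀ y ∈ P, ∃ s ∉ n, ∃ c', s * y = c' * δ` — the shape of
                           `Princ3.princ_of_triple.hB1`, `i = 2`).
-/
import Mathlib
import Fermat.Agent.S34.LocPlan

set_option autoImplicit false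

open Polynomial

namespace Fermat.Agent.S36.Seid

open Fermat.Agent.S34.LocPlan (RegAt UnitAt)

variable {R : Type*} [CommRing R] [IsDomain R] {E : Type*} [Field E] [Algebra R E]
  [IsFractionRing R E]

/-! ### Elementary facts on `RegAt` / `UnitAt` -/

omit [IsDomain R] [IsFractionRing R E] in
theorem regAt_of_unitAt {n : Ideal R} {x : E} (h : UnitAt n x) : RegAt n x := by
  obtain ⟨a, s, -, hs, e⟩ := h
  exact ⟨a, s, hs, e⟩

omit [IsDomain R] in
/-- The inverse of a unit at `n` is a unit at `n`. -/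
theorem unitAt_inv {n : Ideal R} {x : E} (h : UnitAt n x) : UnitAt n x⁻¹ := by
  obtain ⟨a, s, ha, hs, e⟩ := h
  have ha0 : algebraMap R E a ≠ 0 := by
    intro h0
    have : a = 0 := (IsFractionRing.injective R E) (by rw [h0, map_zero])
    exact ha (this ▸ n.zero_mem)
  have hx0 : x ≠ 0 := by
    rintro rfl
    rw [zero_mul] at e
    exact ha0 e.symm
  refine ⟨s, a, hs, ha, ?_⟩
  rw [← e]
  field_simp

/-! ### The `u`, `u⁻¹` lemma -/

variable [IsIntegrallyClosed R]

omit [IsDomain R] in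
/-- `leadingCoeff p * x ∈ R` for a root `x` of `p`. -/
theorem exists_leadingCoeff_mul {x : E} (p : R[X]) (hp : aeval x p = 0) :
    ∃ b : R, algebraMap R E b = algebraMap R E p.leadingCoeff * x := by
  have h := isIntegral_leadingCoeff_smul p x hp
  obtain ⟨b, hb⟩ := IsIntegrallyClosed.algebraMap_eq_of_integral h
  exact ⟨b, by rw [hb, Algebra.smul_def]⟩

omit [IsDomain R] in
/-- **Seidenberg's `u`, `u⁻¹` lemma**, chart form.  `R` integrally closed with fraction field
`E`, `n` an ideal (in the applications: prime), `x ∈ E` a root of a polynomial over `R` one of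
whose coefficients is not in `n`: then `x ∈ R_n` or `x⁻¹ ∈ R_n`. -/
theorem regAt_or_regAt_inv (n : Ideal R) (x : E) (p : R[X])
    (hp : aeval x p = 0) (hc : ∃ i : ℕ, p.coeff i ∉ n) : RegAt n x ∨ RegAt n x⁻¹ := by
  induction' hd : p.natDegree using Nat.strong_induction_on with d ih generalizing p
  obtain ⟨i, hi⟩ := hc
  have hp0 : p ≠ 0 := by
    rintro rfl
    exact hi (by rw [coeff_zero]; exact n.zero_mem)
  obtain ⟨b, hb⟩ := exists_leadingCoeff_mul p hp
  by_cases ha : p.leadingCoeff ∈ n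
  · by_cases hbn : b ∈ n
    · -- lower the degree
      have hid : i ≠ p.natDegree := by
        rintro rfl
        exact hi ha
      have hilt : i < p.natDegree := by
        refine lt_of_le_of_ne (le_natDegree_of_ne_zero ?_) hid
        intro h0
        exact hi (h0 ▸ n.zero_mem)
      have hd1 : 1 ≤ p.natDegree := by omega
      set p' : R[X] := p.eraseLead + C b * X ^ (p.natDegree - 1) with hp'
      have hdeg : p'.natDegree < d := by
        rw [← hd]
        have h1 : p.eraseLead.natDegree ≤ p.natDegree - 1 := eraseLead_natDegree_le p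
        have h2 : (C b * X ^ (p.natDegree - 1)).natDegree ≤ p.natDegree - 1 :=
          natDegree_C_mul_X_pow_le b _
        have h3 : p'.natDegree ≤ p.natDegree - 1 := natDegree_add_le_of_degree_le h1 h2
        omega
      have hroot : aeval x p' = 0 := by
        have h1 : aeval x p = aeval x p.eraseLead
            + algebraMap R E p.leadingCoeff * x ^ p.natDegree := by
          conv_lhs => rw [← eraseLead_add_C_mul_X_pow p]
          rw [map_add, map_mul, map_pow, aeval_C, aeval_X]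
        rw [hp', map_add, map_mul, map_pow, aeval_C, aeval_X, hb]
        have h2 : x ^ p.natDegree = x * x ^ (p.natDegree - 1) := by
          rw [← pow_succ']
          congr 1
          omega
        rw [mul_assoc, ← h2, ← h1, hp]
      have hcoeff : p'.coeff i ∉ n := by
        rw [hp', coeff_add, eraseLead_coeff, if_neg hid, coeff_C_mul, coeff_X_pow]
        by_cases hi1 : i = p.natDegree - 1
        · rw [if_pos hi1, mul_one]
          intro h
          exact hi ((Ideal.add_mem_iff_left n hbn).mp h)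
        · rw [if_neg hi1, mul_zero, add_zero]
          exact hi
      exact ih p'.natDegree hdeg p' hroot ⟨i, hcoeff⟩ rfl
    · -- `x⁻¹ = a / b`
      right
      have hx0 : x ≠ 0 := by
        rintro rfl
        rw [mul_zero] at hb
        have : b = 0 := (IsFractionRing.injective R E) (by rw [hb, map_zero])
        exact hbn (this ▸ n.zero_mem)
      refine ⟨p.leadingCoeff, b, hbn, ?_⟩
      rw [hb]
      field_simp
  · -- `x = b / a`
    left
    exact ⟨b, p.leadingCoeff, ha, by rw [hb, mul_comm]⟩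

/-! ### Roots of local units -/

omit [IsDomain R] in
/-- `ρ ^ k * v₂ = v₁` with `v₁, v₂ ∈ R ∖ n` and `k ≠ 0` ⟹ `ρ` is a unit at `n`
(with denominator `v₂`). -/
theorem unitAt_of_pow_mul_eq (n : Ideal R) [hn : n.IsPrime] {ρ : E} {k : ℕ} (hk : k ≠ 0)
    {v₁ v₂ : R} (h1 : v₁ ∉ n) (h2 : v₂ ∉ n)
    (e : ρ ^ k * algebraMap R E v₂ = algebraMap R E v₁) : UnitAt n ρ := by
  obtain ⟨k', rfl⟩ : ∃ k' : ℕ, k = k' + 1 := ⟨k - 1, by omega⟩
  -- `v₂ ρ` is integral: `(v₂ ρ) ^ (k'+1) = v₁ v₂ ^ k'`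
  have hpow : (ρ * algebraMap R E v₂) ^ (k' + 1) = algebraMap R E (v₁ * v₂ ^ k') := by
    rw [mul_pow, pow_succ (algebraMap R E v₂), ← mul_assoc, map_mul, map_pow, ← e]
    ring
  have hint : IsIntegral R (ρ * algebraMap R E v₂) := by
    refine ⟨X ^ (k' + 1) - C (v₁ * v₂ ^ k'), monic_X_pow_sub_C _ (Nat.succ_ne_zero k'), ?_⟩
    rw [eval₂_sub, eval₂_X_pow, eval₂_C, hpow, sub_self]
  obtain ⟨b, hb⟩ := IsIntegrallyClosed.algebraMap_eq_of_integral hint
  refine ⟨b, v₂, ?_, h2, hb.symm⟩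
  intro hbn
  have h3 : b ^ (k' + 1) = v₁ * v₂ ^ k' := by
    apply IsFractionRing.injective R E
    rw [map_pow, hb, hpow]
  have h4 : v₁ * v₂ ^ k' ∈ n := h3 ▸ n.pow_mem_of_mem hbn _ (Nat.succ_pos k')
  rcases hn.mem_or_mem h4 with h | h
  · exact h1 h
  · exact h2 (hn.mem_of_pow_mem _ h)

omit [IsDomain R] in
/-- `ρ ^ k ∈ R_nˣ`, `k ≠ 0` ⟹ `ρ ∈ R_nˣ`. -/
theorem unitAt_of_pow (n : Ideal R) [hn : n.IsPrime] {ρ : E} {k : ℕ} (hk : k ≠ 0)
    (h : UnitAt n (ρ ^ k)) : UnitAt n ρ := by
  obtain ⟨a, s, ha, hs, e⟩ := h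
  exact unitAt_of_pow_mul_eq n hk ha hs e

/-! ### Units by reduction along a vertical valuation ring -/

section Red

omit [IsDomain R] [IsFractionRing R E] [IsIntegrallyClosed R]

variable (V : ValuationSubring E) (ϖ : E) (P n : Ideal R)

/-- **Unit criterion by reduction.**  `V ⊇ R` a valuation ring, `P ⊇ R ∩ ϖ V`, `P ≤ n` prime.
If `u ∈ R_n` and `u · b ≡ a₀` modulo `ϖ V` with `b ∈ R`, `a₀ ∈ R ∖ n`, then `u ∈ R_nˣ`. -/
theorem unitAt_of_cong [hn : n.IsPrime] (hle : ∀ r : R, algebraMap R E r ∈ V)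
    (hP : ∀ r : R, (∃ y ∈ V, algebraMap R E r = ϖ * y) → r ∈ P) (hPn : P ≤ n)
    {u : E} (hu : RegAt n u) {a₀ b : R} (ha₀ : a₀ ∉ n)
    (hc : ∃ y ∈ V, u * algebraMap R E b - algebraMap R E a₀ = ϖ * y) : UnitAt n u := by
  obtain ⟨a, s, hs, e⟩ := hu
  obtain ⟨y, hy, hcy⟩ := hc
  refine ⟨a, s, ?_, hs, e⟩
  intro han
  have h1 : a * b - a₀ * s ∈ P := by
    refine hP _ ⟨y * algebraMap R E s, mul_mem hy (hle s), ?_⟩
    rw [map_sub, map_mul, map_mul, ← e, ← mul_assoc, ← hcy]
    ring
  have h2 : a₀ * s ∈ n := by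
    have h3 : a * b ∈ n := n.mul_mem_right b han
    have h4 := n.sub_mem h3 (hPn h1)
    rwa [sub_sub_cancel] at h4
  rcases hn.mem_or_mem h2 with h | h
  · exact ha₀ h
  · exact hs h

/-- The case `u ≡ 1` modulo `ϖ V`. -/
theorem unitAt_of_cong_one [hn : n.IsPrime] (hle : ∀ r : R, algebraMap R E r ∈ V)
    (hP : ∀ r : R, (∃ y ∈ V, algebraMap R E r = ϖ * y) → r ∈ P) (hPn : P ≤ n)
    {u : E} (hu : RegAt n u) (hc : ∃ y ∈ V, u - 1 = ϖ * y) : UnitAt n u := by
  have h1 : (1 : R) ∉ n := fun h => hn.ne_top ((Ideal.eq_top_iff_one n).mpr h)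
  refine unitAt_of_cong V ϖ P n hle hP hPn hu (a₀ := 1) (b := 1) h1 ?_
  obtain ⟨y, hy, hcy⟩ := hc
  exact ⟨y, hy, by rw [map_one, mul_one, hcy]⟩

/-- `x ≡ 1` modulo `ϖ V` with `ϖ` a non-unit of `V` ⟹ `x⁻¹ ≡ 1` modulo `ϖ V`. -/
theorem inv_cong_one (hϖ : ϖ ∈ V) (hϖ' : ϖ⁻¹ ∉ V) {x : E} (hc : ∃ y ∈ V, x - 1 = ϖ * y) :
    ∃ y ∈ V, x⁻¹ - 1 = ϖ * y := by
  obtain ⟨y, hy, hcy⟩ := hc
  have hx : x = 1 + ϖ * y := by rw [← hcy]; ring
  -- `x` is a unit of `V`
  have hv : V.valuation (ϖ * y) < 1 := by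
    have h1 : V.valuation ϖ < 1 := by
      rcases eq_or_ne ϖ 0 with h0 | h0
      · rw [h0, map_zero]; exact zero_lt_one
      · have h2 : V.valuation ϖ ≤ 1 := (V.valuation_le_one_iff ϖ).mpr hϖ
        rcases lt_or_eq_of_le h2 with h | h
        · exact h
        · exfalso
          apply hϖ'
          rw [← V.valuation_le_one_iff, map_inv₀, h, inv_one]
    have h3 : V.valuation y ≤ 1 := (V.valuation_le_one_iff y).mpr hy
    rw [map_mul]
    calc V.valuation ϖ * V.valuation y ≤ V.valuation ϖ * 1 := by gcongr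
      _ = V.valuation ϖ := mul_one _
      _ < 1 := h1
  have hx1 : V.valuation x = 1 := by
    rw [hx]
    have := Valuation.map_add_eq_of_lt_left V.valuation (x := 1) (y := ϖ * y)
      (by rw [map_one]; exact hv)
    rw [this, map_one]
  have hx0 : x ≠ 0 := by
    rintro rfl
    rw [map_zero] at hx1
    exact zero_ne_one hx1
  have hxinv : x⁻¹ ∈ V := by
    rw [← V.valuation_le_one_iff, map_inv₀, hx1, inv_one]
  refine ⟨-(y * x⁻¹), neg_mem (mul_mem hy hxinv), ?_⟩
  have h4 : x⁻¹ - 1 = -((x - 1) * x⁻¹) := by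
    field_simp
    ring
  rw [h4, hcy]
  ring

end Red

/-- **Seidenberg + reduction.**  A root `x` of a polynomial over `R` with a coefficient outside
`n`, with `x ≡ 1` modulo `ϖ V` (`V ⊇ R` a valuation ring with non-unit `ϖ`, centre
`P ⊇ R ∩ ϖ V`, `P ≤ n`), is a unit at `n`. -/
theorem unitAt_of_root (V : ValuationSubring E) (ϖ : E) (P n : Ideal R) [hn : n.IsPrime]
    (hle : ∀ r : R, algebraMap R E r ∈ V)
    (hP : ∀ r : R, (∃ y ∈ V, algebraMap R E r = ϖ * y) → r ∈ P) (hPn : P ≤ n)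
    (hϖ : ϖ ∈ V) (hϖ' : ϖ⁻¹ ∉ V) (x : E) (p : R[X]) (hp : aeval x p = 0)
    (hcf : ∃ i : ℕ, p.coeff i ∉ n) (hc : ∃ y ∈ V, x - 1 = ϖ * y) : UnitAt n x := by
  rcases regAt_or_regAt_inv n x p hp hcf with h | h
  · exact unitAt_of_cong_one V ϖ P n hle hP hPn h hc
  · have h1 : UnitAt n x⁻¹ :=
      unitAt_of_cong_one V ϖ P n hle hP hPn h (inv_cong_one V ϖ hϖ hϖ' hc)
    have h2 := unitAt_inv h1
    rwa [inv_inv] at h2

/-! ### The generator criterion at a one-branch point -/

omit [IsIntegrallyClosed R] in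
/-- **Generator of the vertical prime at a one-branch point.**  `V ⊇ R` a valuation ring,
`P = R ∩ ϖ V` its centre, `p ∈ E` (the uniformizer of the base).  Assume the localised descent
at `n` along `V` only (`hdesc`: `y ∈ R ∩ p V ⟹ s y ∈ p R` for some `s ∉ n` — this is
`Princ3.exists_pi_mul` when `P` is the only vertical prime through `n`).  If `δ ∈ R` is
`ϖ · (unit of V)` and `δ · c = p · r` with `c ∈ R`, `r ∈ R ∖ n`, then `δ ∈ P` generates `P`
locally at `n`. -/
theorem genAt_of_dvd (V : ValuationSubring E) (ϖ : E) (P n : Ideal R) [hn : n.IsPrime]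
    (π : R) (hπ0 : π ≠ 0)
    (hle : ∀ r : R, algebraMap R E r ∈ V)
    (hP : ∀ r : R, r ∈ P ↔ ∃ y ∈ V, algebraMap R E r = ϖ * y)
    (hdesc : ∀ y : R, (∃ v ∈ V, algebraMap R E y = algebraMap R E π * v) →
      ∃ s : R, s ∉ n ∧ ∃ r' : R, s * y = π * r')
    (δ c r : R) (hr : r ∉ n) (hδ : ∃ u ∈ V, u⁻¹ ∈ V ∧ algebraMap R E δ = ϖ * u)
    (e : δ * c = π * r) :
    δ ∈ P ∧ ∀ y ∈ P, ∃ s : R, s ∉ n ∧ ∃ c' : R, s * y = c' * δ := by
  obtain ⟨u, hu, hu', hδu⟩ := hδ
  refine ⟨(hP δ).mpr ⟨u, hu, hδu⟩, fun y hy => ?_⟩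
  obtain ⟨v, hv, hyv⟩ := (hP y).mp hy
  have hπE : algebraMap R E π ≠ 0 := fun h0 =>
    hπ0 ((IsFractionRing.injective R E) (by rw [h0, map_zero]))
  have hrE : algebraMap R E r ≠ 0 := fun h0 =>
    hr (((IsFractionRing.injective R E) (by rw [h0, map_zero]) : r = 0) ▸ n.zero_mem)
  have hδE : algebraMap R E δ ≠ 0 := by
    intro h0
    have h1 : algebraMap R E (δ * c) = 0 := by rw [map_mul, h0, zero_mul]
    rw [e, map_mul] at h1
    exact mul_ne_zero hπE hrE h1
  have hϖ0 : ϖ ≠ 0 := by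
    rintro rfl
    rw [zero_mul] at hδu
    exact hδE hδu
  have hu0 : u ≠ 0 := by
    rintro rfl
    rw [mul_zero] at hδu
    exact hδE hδu
  -- `y * c ∈ π V`
  have eE : algebraMap R E δ * algebraMap R E c = algebraMap R E π * algebraMap R E r := by
    rw [← map_mul, ← map_mul, e]
  have h1 : algebraMap R E (y * c)
      = algebraMap R E π * (v * algebraMap R E r * u⁻¹) := by
    have hc : algebraMap R E c = algebraMap R E π * algebraMap R E r * (ϖ * u)⁻¹ := by
      rw [← hδu]
      field_simp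
      rw [mul_comm]
      exact eE
    rw [map_mul, hyv, hc]
    field_simp
  obtain ⟨s, hs, r', hr'⟩ := hdesc (y * c)
    ⟨v * algebraMap R E r * u⁻¹, mul_mem (mul_mem hv (hle r)) hu', h1⟩
  refine ⟨s * r, fun h => (hn.mem_or_mem h).elim hs hr, r', ?_⟩
  -- `π * (s r y) = π * (r' δ)`
  apply mul_left_cancel₀ hπ0
  calc π * (s * r * y) = s * y * (π * r) := by ring
    _ = s * y * (δ * c) := by rw [e]
    _ = s * (y * c) * δ := by ring
    _ = π * r' * δ := by rw [hr']
    _ = π * (r' * δ) := by ring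

end Fermat.Agent.S36.Seid
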