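/-
S36 — Set3B.lean (helper21), package [MODEL3], leaf [M3.4b/ResDeg3] — independent B-copy of
`S36/Set3.lean` (helper30).

**The modular instance of the `n`-valuation ramification engine `RamN.Hyp`** at level
`N = M * q * q` (`q` prime, `q ∤ M`), DVR route:

* `V₀ = V1(M)` the level-`M` Gauss valuation ring (a discrete valuation ring with uniformizer
  `π`), `E₀ = F_K(M) ⊂ E = F_K(M q q)` of degree `q·q + q`;
* `V = ![W1, W2, W3]`, `W1 = GaussV.V1`, `W2 = GaussV.V2 w_{q²}`, `W3` an ABSTRACT valuation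
  subring satisfying `Hyp3` (all its fields hold for the Gauss valuation ring along the
  middle-cusp embedding: `hyp3_of_emb`);
* `e = ![1, 1, q - 1]`, `f = ![1, q * q, 1]`, `u = ![x1, x2, x3]`, `δ = ![π, π, s]`,
  `b 1 i = jqq ^ i`, `b 0 = b 2 = 1`  (the witnesses of `S36/Wit3`).

Consequences (`RamN`): `W1 ⊓ W2 ⊓ W3` is the integral closure of `V1(M)` (`int3`, in the shape
of the hypothesis `hINT` of `Red3.desc0_of_int`), residue degree one along `W1` and `W3`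
(`res1`, `res3`, and the `GRel` forms `hf1`, `hf3_of_emb`), uniformizers (`unif1`, `unif2`,
`unif3`), the Chinese remainder theorem modulo `π` (`crt3`).
-/
import Mathlib
import Fermat.Agent.S36.RamN
import Fermat.Agent.S36.Wit3Set
import Fermat.Agent.S36.GaussE
import Fermat.Agent.S36.Red3

set_option autoImplicit false
set_option linter.unusedSectionVars false
set_option linter.style.haveILetI false

noncomputable section

namespace Fermat.Agent.S36.Set3B

open ModularCurve HahnSeries Fermat.Agent.S18 Fermat.Agent.S18.Arith Fermat.Agent.S18.ModelPlan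
open Fermat.Agent.S34

variable (M q : ℕ) [NeZero M] [NeZero q] (hq : q.Prime) (hqM : ¬ q ∣ M)
variable {A : ValuationSubring Qb} {K : IntermediateField ℚ Qb}
variable (hdvr : IsDiscreteValuationRing (OK A K))

/-! ### The tower `V1(M) ⊆ F_K(M) ⊆ F_K(M q q)` -/

/-- The algebra structure of `F_K(M q q)` over `F_K(M)` (`DegTower.algTower`; use with `letI`). -/
@[reducible] def algE : Algebra ↥(FK M K) ↥(FK (M * q * q) K) :=
  DegTower.algTower M (M * q * q) K (Wit3Set.dvd_level M q)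

/-- The algebra structure of `F_K(M q q)` over the level-`M` Gauss valuation ring (use with
`letI`); its `algebraMap` is `Red3.intHom`. -/
@[reducible] def algV : Algebra ↥(GaussV.V1 M A K hdvr) ↥(FK (M * q * q) K) :=
  ((Wit3Set.inc M q K).comp (GaussV.V1 M A K hdvr).subtype).toAlgebra

theorem algebraMap_V (c : GaussV.V1 M A K hdvr) :
    letI := algV M q hdvr
    algebraMap ↥(GaussV.V1 M A K hdvr) ↥(FK (M * q * q) K) c = Wit3Set.inc M q K (c : FK M K) :=
  rfl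

theorem isScalarTower_V :
    letI := algE M q (K := K)
    letI := algV M q hdvr
    IsScalarTower ↥(GaussV.V1 M A K hdvr) ↥(FK M K) ↥(FK (M * q * q) K) := by
  letI := algE M q (K := K)
  letI := algV M q hdvr
  exact IsScalarTower.of_algebraMap_eq fun _ => rfl

/-- The image of the uniformizer of `V1(M)`. -/
theorem inc_piV1 (π : OK A K) :
    Wit3Set.inc M q K ((GaussV.piV1 (N := M) hdvr π : GaussV.V1 M A K hdvr) : FK M K)
      = algebraMap (OK A K) (FK (M * q * q) K) π := by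
  rw [GaussV.coe_piV1]
  exact Wit3Set.inc_algebraMap M q A K π

/-! ### Level-`M` elements in `W1`, `W2` -/

/-- `V1(M) ⊆ W1`. -/
theorem inc_mem_V1 {c : FK M K} (hc : c ∈ GaussV.V1 M A K hdvr) :
    Wit3Set.inc M q K c ∈ GaussV.V1 (M * q * q) A K hdvr := by
  obtain ⟨y, hy⟩ := (GaussV.mem_V1_iff hdvr).mp hc
  exact (GaussV.mem_V1_iff hdvr).mpr ⟨y, by rw [Wit3Set.coe_inc]; exact hy⟩

/-- `V1(M) ⊆ W2`. -/
theorem inc_mem_V2 {c : FK M K} (hc : c ∈ GaussV.V1 M A K hdvr) :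
    Wit3Set.inc M q K c ∈ GaussV.V2 (WQ2.wK2 M q hq hqM K) hdvr := by
  have : Fact q.Prime := ⟨hq⟩
  obtain ⟨y, hy⟩ := (GaussV.mem_V1_iff hdvr).mp hc
  rw [GaussV.mem_V2_iff]
  exact (GaussV.mem_V1_iff hdvr).mpr ⟨_, by
    rw [Wit3Set.coe_wK2_inc]; exact V12Rel.gRel_qExpand A (q * q) hy⟩

/-- An element of `V1(M)` with Gauss reduction `0` is divisible by the uniformizer. -/
theorem piV1_dvd_of_gRel_zero {π : OK A K} (hπ : Irreducible π) (c : GaussV.V1 M A K hdvr)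
    (h : GRel A (((c : FK M K)) : LaurentSeries Qb) 0) : GaussV.piV1 hdvr π ∣ c := by
  have h1 : GaussV.red1 hdvr c = 0 := GaussV.red1_eq_of_gRel hdvr c h
  have h2 : c ∈ RingHom.ker (GaussV.red1 (N := M) hdvr) := h1
  rw [GaussV.ker_red1 hdvr hπ, Ideal.mem_span_singleton] at h2
  exact h2

/-- `inc c ∈ 𝔪(W1) → π ∣ c`. -/
theorem ind1 {π : OK A K} (hπ : Irreducible π) (c : GaussV.V1 M A K hdvr)
    (hc : Wit3Set.inc M q K (c : FK M K) ∈ (GaussV.V1 (M * q * q) A K hdvr).nonunits) :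
    GaussV.piV1 hdvr π ∣ c := by
  rw [ValuationSubring.mem_nonunits_iff] at hc
  have h0 := Red2B.gRel_zero_of_val1_lt hdvr hc
  rw [Wit3Set.coe_inc] at h0
  exact piV1_dvd_of_gRel_zero M hdvr hπ c h0

/-- **Residue degree `≥ q²` along `W2`**: `1, jqq, …, jqq^(q*q-1)` are independent modulo
`𝔪(W2)` over `V1(M)` modulo `π`. -/
theorem ind2 {π : OK A K} (hπ : Irreducible π) (c : Fin (q * q) → GaussV.V1 M A K hdvr)
    (hc : (∑ i : Fin (q * q), Wit3Set.inc M q K ((c i : FK M K)) * Wit3.bE M q hq hqM K (i : ℕ))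
      ∈ (GaussV.V2 (WQ2.wK2 M q hq hqM K) hdvr).nonunits) :
    ∀ i, GaussV.piV1 hdvr π ∣ c i := by
  have : Fact q.Prime := ⟨hq⟩
  have hG := GRel.gRelStatement A
  rw [ValuationSubring.mem_nonunits_iff] at hc
  have hc' := (Red2B.val_comap_lt_one_iff (GaussV.V1 (M * q * q) A K hdvr)
    (WQ2.wK2 M q hq hqM K) _).mp hc
  have hg0 := Red2B.gRel_zero_of_val1_lt hdvr hc'
  have hcoe : ((WQ2.wK2 M q hq hqM K (∑ i : Fin (q * q),
      Wit3Set.inc M q K ((c i : FK M K)) * Wit3.bE M q hq hqM K (i : ℕ)) : FK (M * q * q) K) :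
        LaurentSeries Qb)
      = ∑ i : Fin (q * q), qExpand Qb (q * q) (((c i : FK M K)) : LaurentSeries Qb) *
          jqModC Qb ^ (i : ℕ) := by
    rw [map_sum, AddSubmonoidClass.coe_finsetSum]
    refine Finset.sum_congr rfl fun i _ => ?_
    rw [map_mul, Wit3.wK2_bE, Subfield.coe_mul, SubmonoidClass.coe_pow, Wit3Set.coe_wK2_inc,
      ModelQFrac.coe_jK]
  rw [hcoe] at hg0
  have hg1 : GRel A (∑ i : Fin (q * q),
        qExpand Qb (q * q) (((c i : FK M K)) : LaurentSeries Qb) * jqModC Qb ^ (i : ℕ))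
      (∑ i : Fin (q * q), qExpand (IsLocalRing.ResidueField A) (q * q)
          (GaussV.red1 hdvr (c i)) * jqModC (IsLocalRing.ResidueField A) ^ (i : ℕ)) :=
    Red2B.gRel_sum _ _ _ fun i _ => hG.mul _ _ _ _
      (V12Rel.gRel_qExpand A (q * q) (GaussV.gRel_red1 hdvr (c i)))
      (V12Rel.gRel_pow A (V12Rel.gRel_j A) i)
  have hsum := hG.unique _ _ _ hg1 hg0
  have hzero := Red2Alg.eq_zero_of_sum_mul_pow_eq_zero (q * q)
    (jqModC (IsLocalRing.ResidueField A)) (SepDeg.order_jqModC _)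
    (fun i => qExpand (IsLocalRing.ResidueField A) (q * q) (GaussV.red1 hdvr (c i)))
    (fun i n hn => by
      by_contra hdiv
      exact hn (qExpand_coeff_of_not_dvd (q * q) _ hdiv)) hsum
  intro i
  have h1 : GaussV.red1 hdvr (c i) = 0 :=
    qExpand_injective (R := IsLocalRing.ResidueField A) (q * q) (by rw [hzero i, map_zero])
  have h2 : c i ∈ RingHom.ker (GaussV.red1 (N := M) hdvr) := h1
  rw [GaussV.ker_red1 hdvr hπ, Ideal.mem_span_singleton] at h2
  exact h2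

/-! ### The witnesses are nonzero -/

theorem x1_ne_zero (hA : A.LiesOverPrime q) : Wit3.x1 M q hq hqM K ≠ 0 := by
  have : Fact q.Prime := ⟨hq⟩
  exact Red2B.ne_zero_of_gRel (A := A) (by rw [Wit3.coe_x1]; exact Wit3.gRel_x1 A q)
    (Wit3.redX1_ne_zero A q hA)

theorem x2_ne_zero (hA : A.LiesOverPrime q) : Wit3.x2 M q hq hqM K ≠ 0 := by
  intro h
  apply x1_ne_zero M q hq hqM (K := K) hA
  rw [← Wit3.wK2_x2, h, map_zero]

/-- `j − jqq^(q²) ≠ 0` (coefficient of `Q⁻¹`). -/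
theorem y2_ne_zero : jK (M * q * q) K - WQ2.jqqK2 M q hq hqM K ^ (q ^ 2) ≠ 0 := by
  have : Fact q.Prime := ⟨hq⟩
  intro h
  have h1 : ((jK (M * q * q) K - WQ2.jqqK2 M q hq hqM K ^ (q ^ 2) : FK (M * q * q) K) :
      LaurentSeries Qb) = 0 := by rw [h]; rfl
  rw [Subfield.coe_sub, SubmonoidClass.coe_pow, Wit3.coe_jqq, ModelQFrac.coe_jK, ← map_pow] at h1
  have hc := congrArg (fun z : LaurentSeries Qb => z.coeff (-1)) h1
  have hnd : ¬ (((q * q : ℕ) : ℤ)) ∣ (-1 : ℤ) := by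
    intro hd
    have h1 : ((q * q : ℕ) : ℤ) ∣ 1 := (dvd_neg).mp hd
    have h2 : (q * q : ℕ) ∣ 1 := by exact_mod_cast h1
    have h3 : q * q = 1 := Nat.dvd_one.mp h2
    have hq2 : 2 ≤ q := hq.two_le
    nlinarith
  simp only [HahnSeries.coeff_sub, HahnSeries.coeff_zero] at hc
  rw [qExpand_coeff_of_not_dvd _ _ hnd, coeff_jqModC_neg_one] at hc
  simp at hc

theorem x3_ne_zero : Wit3.x3 M q hq hqM K ≠ 0 := by
  have h2 := y2_ne_zero M q hq hqM (K := K)
  have h1 : WQ2.jqqK2 M q hq hqM K - jK (M * q * q) K ^ (q ^ 2) ≠ 0 := by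
    intro h
    apply h2
    have := congrArg (WQ2.wK2 M q hq hqM K) h
    rwa [map_sub, map_pow, WQ2.wK2_jqqK2, WQ2.wK2_jK, map_zero] at this
  exact mul_ne_zero h1 h2

/-! ### The hypotheses on the third valuation ring -/

/-- **The hypotheses on `W3`** (the valuation ring of the third component, of multiplicity
`q - 1`): it contains `V1(M)` with residue degree one, `s = jqq − j` is a uniformizer with
`π = s ^ (q - 1) · (element of W3)`, and the witness facts `x1, x2 ∈ π W3`, `x3 ∈ W3ˣ`. -/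
structure Hyp3 (π : OK A K) (W3 : ValuationSubring (FK (M * q * q) K)) : Prop where
  le : ∀ c ∈ GaussV.V1 M A K hdvr, Wit3Set.inc M q K c ∈ W3
  ind : ∀ c ∈ GaussV.V1 M A K hdvr, Wit3Set.inc M q K c ∈ W3.nonunits →
    GRel A ((c : FK M K) : LaurentSeries Qb) 0
  s_non : Wit3.sE M q hq hqM K ∈ W3.nonunits
  ram : ∃ z ∈ W3, algebraMap (OK A K) (FK (M * q * q) K) π = Wit3.sE M q hq hqM K ^ (q - 1) * z
  x1 : ∃ z ∈ W3, Wit3.x1 M q hq hqM K = algebraMap (OK A K) (FK (M * q * q) K) π * z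
  x2 : ∃ z ∈ W3, Wit3.x2 M q hq hqM K = algebraMap (OK A K) (FK (M * q * q) K) π * z
  x3 : Wit3.x3 M q hq hqM K ∈ W3 ∧ (Wit3.x3 M q hq hqM K)⁻¹ ∈ W3

/-! ### Small generic lemmas -/

theorem forall_fin3 {P : Fin 3 → Prop} (h0 : P 0) (h1 : P 1) (h2 : P 2) : ∀ a, P a := by
  intro a
  fin_cases a
  · exact h0
  · exact h1
  · exact h2

theorem not_mem_nonunits {E : Type*} [Field E] (V : ValuationSubring E) {x : E} (hx0 : x ≠ 0)
    (hinv : x⁻¹ ∈ V) : x ∉ V.nonunits := by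
  rw [ValuationSubring.mem_nonunits_iff, Red2B.val_lt_one_iff]
  rintro (h | h)
  · exact hx0 h
  · exact h hinv

theorem mem_of_mem_nonunits {E : Type*} [Field E] (V : ValuationSubring E) {x : E}
    (hx : x ∈ V.nonunits) : x ∈ V :=
  (ValuationSubring.valuation_le_one_iff V x).mp
    ((ValuationSubring.mem_nonunits_iff V).mp hx).le

theorem mul_mem_nonunits {E : Type*} [Field E] (V : ValuationSubring E) {x y : E}
    (hx : x ∈ V.nonunits) (hy : y ∈ V) : x * y ∈ V.nonunits := by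
  rw [ValuationSubring.mem_nonunits_iff] at hx ⊢
  rw [map_mul]
  exact lt_of_le_of_lt
    (mul_le_of_le_one_right' ((ValuationSubring.valuation_le_one_iff V y).mpr hy)) hx

theorem pow_mem_nonunits {E : Type*} [Field E] (V : ValuationSubring E) {x : E}
    (hx : x ∈ V.nonunits) {n : ℕ} (hn : n ≠ 0) : x ^ n ∈ V.nonunits := by
  obtain ⟨k, rfl⟩ := Nat.exists_eq_succ_of_ne_zero hn
  rw [pow_succ']
  exact mul_mem_nonunits V hx (pow_mem (mem_of_mem_nonunits V hx) k)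

theorem ind_one {V₀ E : Type*} [CommRing V₀] [Field E] [Algebra V₀ E] (W : ValuationSubring E)
    (ϖ : V₀) (h : ∀ c : V₀, algebraMap V₀ E c ∈ W.nonunits → ϖ ∣ c) (c : Fin 1 → V₀)
    (hc : ∑ i, algebraMap V₀ E (c i) * (1 : E) ∈ W.nonunits) : ∀ i, ϖ ∣ c i := by
  intro i
  rw [Fin.sum_univ_one, mul_one] at hc
  rw [Subsingleton.elim i 0]
  exact h _ hc

/-! ### The instantiation of `RamN.Hyp` -/

/-- The residue families: `b 1 i = jqq ^ i` (`i < q * q`), `b 0 = b 2 = 1`. -/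
def bF (a : Fin 3) (i : Fin ((![1, q * q, 1] : Fin 3 → ℕ) a)) : FK (M * q * q) K :=
  if a = 1 then Wit3.bE M q hq hqM K (i : ℕ) else 1

/-- **The modular instance of the three-valuation setting** (`RamN.Hyp`) at level `M q q`. -/
theorem hyp (hA : A.LiesOverPrime q) {π : OK A K} (hπ : Irreducible π)
    (W3 : ValuationSubring (FK (M * q * q) K)) (H3 : Hyp3 M q hq hqM hdvr π W3) :
    letI := algE M q (K := K)
    letI := algV M q hdvr
    haveI := GaussV.isDiscreteValuationRing_V1 (N := M) hdvr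
    haveI := isScalarTower_V M q hdvr
    RamN.Hyp (V₀ := ↥(GaussV.V1 M A K hdvr)) ↥(FK M K)
      ![GaussV.V1 (M * q * q) A K hdvr, GaussV.V2 (WQ2.wK2 M q hq hqM K) hdvr, W3]
      (GaussV.piV1 hdvr π) ![1, 1, q - 1] ![1, q * q, 1]
      ![Wit3.x1 M q hq hqM K, Wit3.x2 M q hq hqM K, Wit3.x3 M q hq hqM K]
      ![algebraMap (OK A K) (FK (M * q * q) K) π, algebraMap (OK A K) (FK (M * q * q) K) π,
        Wit3.sE M q hq hqM K]
      (bF M q hq hqM) := by
  letI := algE M q (K := K)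
  letI := algV M q hdvr
  haveI := GaussV.isDiscreteValuationRing_V1 (N := M) hdvr
  haveI := isScalarTower_V M q hdvr
  have hFact : Fact q.Prime := ⟨hq⟩
  have hPeq : algebraMap ↥(GaussV.V1 M A K hdvr) ↥(FK (M * q * q) K) (GaussV.piV1 hdvr π)
      = algebraMap (OK A K) (FK (M * q * q) K) π := inc_piV1 M q hdvr π
  -- the three valuation rings and `π`
  have hP1 : algebraMap (OK A K) (FK (M * q * q) K) π ∈ GaussV.V1 (M * q * q) A K hdvr :=
    GaussV.algebraMap_mem_V1 hdvr π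
  have hP2 : algebraMap (OK A K) (FK (M * q * q) K) π ∈ GaussV.V2 (WQ2.wK2 M q hq hqM K) hdvr :=
    GaussV.algebraMap_mem_V2 _ (WQ2.wK2_algebraMap_OK M q hq hqM K A) hdvr π
  have hP3 : algebraMap (OK A K) (FK (M * q * q) K) π ∈ W3 := by
    rw [← inc_piV1 M q hdvr π]
    exact H3.le _ (GaussV.piV1 hdvr π).2
  have hPn1 : algebraMap (OK A K) (FK (M * q * q) K) π
      ∈ (GaussV.V1 (M * q * q) A K hdvr).nonunits := Wit3Set.pi_nonunit1 M q A K hdvr hπ
  have hPn2 : algebraMap (OK A K) (FK (M * q * q) K) π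
      ∈ (GaussV.V2 (WQ2.wK2 M q hq hqM K) hdvr).nonunits :=
    Wit3Set.pi_nonunit2 M q hq hqM A K hdvr hπ
  have hq1 : q - 1 ≠ 0 := by have := hq.two_le; omega
  have hs3 : Wit3.sE M q hq hqM K ∈ W3 := mem_of_mem_nonunits W3 H3.s_non
  have hPn3 : algebraMap (OK A K) (FK (M * q * q) K) π ∈ W3.nonunits := by
    obtain ⟨z, hz, hPz⟩ := H3.ram
    rw [hPz]
    exact mul_mem_nonunits W3 (pow_mem_nonunits W3 H3.s_non hq1) hz
  -- the witnesses
  have hx11 := Wit3.x1_unit1 M q hq hqM A K hdvr hA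
  obtain ⟨z12, hz12, hx12⟩ := Wit3.x1_pi2 M q hq hqM A K hdvr hA hπ
  obtain ⟨z13, hz13, hx13⟩ := H3.x1
  obtain ⟨z21, hz21, hx21⟩ := Wit3.x2_pi1 M q hq hqM A K hdvr hA hπ
  have hx22 := Wit3.x2_unit2 M q hq hqM A K hdvr hA
  obtain ⟨z23, hz23, hx23⟩ := H3.x2
  obtain ⟨z31, hz31, hx31⟩ := Wit3.x3_pi1 M q hq hqM A K hdvr hA hπ
  obtain ⟨z32, hz32, hx32⟩ := Wit3.x3_pi2 M q hq hqM A K hdvr hA hπ
  have hx33 := H3.x3
  have hs1 := Wit3.s_unit1 M q hq hqM A K hdvr
  have hs2 := Wit3.s_unit2 M q hq hqM A K hdvr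
  -- `jqq ∈ W3`
  have hj3 : jK (M * q * q) K ∈ W3 := by
    have h := H3.le _ (GaussV.jK_mem_V1 (N := M) hdvr)
    rwa [Wit3Set.inc, DegTower.incl_jK] at h
  have hjqq3 : WQ2.jqqK2 M q hq hqM K ∈ W3 := by
    have h : WQ2.jqqK2 M q hq hqM K = Wit3.sE M q hq hqM K + jK (M * q * q) K := by
      rw [Wit3.sE]; ring
    rw [h]
    exact add_mem hs3 hj3
  refine
    { fin := DegTower.finiteDimensional M (M * q * q) K (Wit3Set.dvd_level M q)
      deg := ?_
      irr := GaussV.irreducible_piV1 hdvr hπ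
      epos := forall_fin3 Nat.one_pos Nat.one_pos (Nat.pos_of_ne_zero hq1)
      le := forall_fin3 (fun c => inc_mem_V1 M q hdvr c.2)
        (fun c => inc_mem_V2 M q hq hqM hdvr c.2) (fun c => H3.le _ c.2)
      pi := ?_
      hu := forall_fin3
        (forall_fin3 hx11.1 (hx12 ▸ mul_mem hP2 hz12) (hx13 ▸ mul_mem hP3 hz13))
        (forall_fin3 (hx21 ▸ mul_mem hP1 hz21) hx22.1 (hx23 ▸ mul_mem hP3 hz23))
        (forall_fin3 (hx31 ▸ mul_mem hP1 hz31) (hx32 ▸ mul_mem hP2 hz32) hx33.1)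
      hu_unit := forall_fin3
        (not_mem_nonunits _ (x1_ne_zero M q hq hqM hA) hx11.2)
        (not_mem_nonunits _ (x2_ne_zero M q hq hqM hA) hx22.2)
        (not_mem_nonunits _ (x3_ne_zero M q hq hqM) hx33.2)
      hu_pi := ?_
      hδ := forall_fin3 (forall_fin3 hP1 hP2 hP3) (forall_fin3 hP1 hP2 hP3)
        (forall_fin3 hs1.1 hs2.1 hs3)
      hδ_non := forall_fin3 hPn1 hPn2 H3.s_non
      hδ_pi := ?_
      hb := ?_
      ind := ?_ }
  · -- deg
    have h1 := DegTower.psi_mul_finrank M (M * q * q) K (Wit3Set.dvd_level M q)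
    have h2 := Wit3Set.dedekindPsi_level M q hq hqM
    have hpos : 0 < dedekindPsi M := Fermat.Agent.S24.AnDegree.dedekindPsi_pos M
    have h3 : Module.finrank ↥(FK M K) ↥(FK (M * q * q) K) = q * q + q :=
      Nat.eq_of_mul_eq_mul_left hpos (h1.trans h2)
    rw [h3, Fin.sum_univ_three]
    show q * q + q ≤ 1 * 1 + 1 * (q * q) + (q - 1) * 1
    have := hq.one_le
    generalize q * q = t
    omega
  · -- pi
    rw [hPeq]
    exact forall_fin3 hPn1 hPn2 hPn3
  · -- hu_pi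
    rw [hPeq]
    refine forall_fin3 (forall_fin3 (fun h => absurd rfl h) (fun _ => ⟨z12, hz12, hx12⟩)
        (fun _ => ⟨z13, hz13, hx13⟩))
      (forall_fin3 (fun _ => ⟨z21, hz21, hx21⟩) (fun h => absurd rfl h)
        (fun _ => ⟨z23, hz23, hx23⟩))
      (forall_fin3 (fun _ => ⟨z31, hz31, hx31⟩) (fun _ => ⟨z32, hz32, hx32⟩)
        (fun h => absurd rfl h))
  · -- hδ_pi
    rw [hPeq]
    refine forall_fin3 ⟨1, one_mem _, ?_⟩ ⟨1, one_mem _, ?_⟩ ?_
    · show algebraMap (OK A K) (FK (M * q * q) K) π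
        = algebraMap (OK A K) (FK (M * q * q) K) π ^ 1 * 1
      rw [pow_one, mul_one]
    · show algebraMap (OK A K) (FK (M * q * q) K) π
        = algebraMap (OK A K) (FK (M * q * q) K) π ^ 1 * 1
      rw [pow_one, mul_one]
    · exact H3.ram
  · -- hb
    intro a i a'
    unfold bF
    split_ifs with h
    · revert a'
      exact forall_fin3 (Wit3.b_mem1 M q hq hqM A K hdvr _) (Wit3.b_mem2 M q hq hqM A K hdvr _)
        (pow_mem hjqq3 _)
    · exact one_mem _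
  · -- ind
    refine forall_fin3 ?_ ?_ ?_
    · intro c hc
      exact ind_one (GaussV.V1 (M * q * q) A K hdvr) (GaussV.piV1 hdvr π)
        (fun c hc => ind1 M q hdvr hπ c hc) c hc
    · intro c hc
      exact ind2 M q hq hqM hdvr hπ c hc
    · intro c hc
      refine ind_one W3 (GaussV.piV1 hdvr π) (fun c hc => ?_) c hc
      exact piV1_dvd_of_gRel_zero M hdvr hπ c (H3.ind _ c.2 hc)

/-! ### Consequences -/

section Cor

variable (hA : A.LiesOverPrime q) {π : OK A K} (hπ : Irreducible π)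
variable (W3 : ValuationSubring (FK (M * q * q) K)) (H3 : Hyp3 M q hq hqM hdvr π W3)

include hA hπ H3

/-- **[INT3]** `W1 ⊓ W2 ⊓ W3` is integral over `V1(M)` — in the shape of the hypothesis `hINT`
of `Red3.desc0_of_int`, `Red3.descInf_of_int`, `Red3.desc_of_int`. -/
theorem int3 (z : FK (M * q * q) K) (h1 : z ∈ GaussV.V1 (M * q * q) A K hdvr)
    (h2 : z ∈ GaussV.V2 (WQ2.wK2 M q hq hqM K) hdvr) (h3 : z ∈ W3) :
    (Red3.intHom M (M * q * q) (Wit3Set.dvd_level M q) hdvr).IsIntegralElem z := by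
  letI := algE M q (K := K)
  letI := algV M q hdvr
  haveI := GaussV.isDiscreteValuationRing_V1 (N := M) hdvr
  haveI := isScalarTower_V M q hdvr
  have H := hyp M q hq hqM hdvr hA hπ W3 H3
  exact H.isIntegral_iff.mpr (forall_fin3 h1 h2 h3)

/-- Conversely, everything integral over `V1(M)` lies in `W1 ⊓ W2 ⊓ W3`. -/
theorem mem_of_int (z : FK (M * q * q) K)
    (hz : (Red3.intHom M (M * q * q) (Wit3Set.dvd_level M q) hdvr).IsIntegralElem z) :
    z ∈ GaussV.V1 (M * q * q) A K hdvr ∧ z ∈ GaussV.V2 (WQ2.wK2 M q hq hqM K) hdvr ∧ z ∈ W3 := by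
  letI := algE M q (K := K)
  letI := algV M q hdvr
  haveI := GaussV.isDiscreteValuationRing_V1 (N := M) hdvr
  haveI := isScalarTower_V M q hdvr
  have H := hyp M q hq hqM hdvr hA hπ W3 H3
  have h := H.isIntegral_iff.mp hz
  exact ⟨h 0, h 1, h 2⟩

/-- **[INT3]** for a subring `W ≤ W1 ⊓ W2 ⊓ W3` (the exact hypothesis `hINT` of `S36/Red3`). -/
theorem int3_subring (W : Subring (FK (M * q * q) K))
    (hW1 : ∀ z ∈ W, z ∈ GaussV.V1 (M * q * q) A K hdvr)
    (hW2 : ∀ z ∈ W, z ∈ GaussV.V2 (WQ2.wK2 M q hq hqM K) hdvr) (hW3 : ∀ z ∈ W, z ∈ W3) :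
    ∀ z ∈ W, (Red3.intHom M (M * q * q) (Wit3Set.dvd_level M q) hdvr).IsIntegralElem z :=
  fun z hz => int3 M q hq hqM hdvr hA hπ W3 H3 z (hW1 z hz) (hW2 z hz) (hW3 z hz)

/-- `𝔪(W1) = π W1`. -/
theorem unif1 {z : FK (M * q * q) K} (hz : z ∈ (GaussV.V1 (M * q * q) A K hdvr).nonunits) :
    ∃ y ∈ GaussV.V1 (M * q * q) A K hdvr,
      z = algebraMap (OK A K) (FK (M * q * q) K) π * y := by
  letI := algE M q (K := K)
  letI := algV M q hdvr
  haveI := GaussV.isDiscreteValuationRing_V1 (N := M) hdvr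
  haveI := isScalarTower_V M q hdvr
  have H := hyp M q hq hqM hdvr hA hπ W3 H3
  exact H.exists_eq_delta_mul 0 hz

/-- `𝔪(W2) = π W2`. -/
theorem unif2 {z : FK (M * q * q) K}
    (hz : z ∈ (GaussV.V2 (WQ2.wK2 M q hq hqM K) hdvr).nonunits) :
    ∃ y ∈ GaussV.V2 (WQ2.wK2 M q hq hqM K) hdvr,
      z = algebraMap (OK A K) (FK (M * q * q) K) π * y := by
  letI := algE M q (K := K)
  letI := algV M q hdvr
  haveI := GaussV.isDiscreteValuationRing_V1 (N := M) hdvr
  haveI := isScalarTower_V M q hdvr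
  have H := hyp M q hq hqM hdvr hA hπ W3 H3
  exact H.exists_eq_delta_mul 1 hz

/-- `𝔪(W3) = s W3`, `s = jqq − j`. -/
theorem unif3 {z : FK (M * q * q) K} (hz : z ∈ W3.nonunits) :
    ∃ y ∈ W3, z = Wit3.sE M q hq hqM K * y := by
  letI := algE M q (K := K)
  letI := algV M q hdvr
  haveI := GaussV.isDiscreteValuationRing_V1 (N := M) hdvr
  haveI := isScalarTower_V M q hdvr
  have H := hyp M q hq hqM hdvr hA hπ W3 H3
  exact H.exists_eq_delta_mul 2 hz

/-- **Residue degree one along `W1`** (valuation-ring form, the hypothesis of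
`Level3B.hf1_of_V1`). -/
theorem res1 : ∀ z ∈ GaussV.V1 (M * q * q) A K hdvr, ∃ c ∈ GaussV.V1 M A K hdvr,
    ∃ v ∈ GaussV.V1 (M * q * q) A K hdvr,
      z - Wit3Set.inc M q K c = algebraMap (OK A K) (FK (M * q * q) K) π * v := by
  intro z hz
  letI := algE M q (K := K)
  letI := algV M q hdvr
  haveI := GaussV.isDiscreteValuationRing_V1 (N := M) hdvr
  haveI := isScalarTower_V M q hdvr
  have H := hyp M q hq hqM hdvr hA hπ W3 H3
  have h := H.exists_residue 0 (z := z) hz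
  change ∃ c : Fin 1 → ↥(GaussV.V1 M A K hdvr),
    z - ∑ i : Fin 1, algebraMap ↥(GaussV.V1 M A K hdvr) ↥(FK (M * q * q) K) (c i) * 1
      ∈ (GaussV.V1 (M * q * q) A K hdvr).nonunits at h
  obtain ⟨c, hc⟩ := h
  rw [Fin.sum_univ_one, mul_one] at hc
  obtain ⟨y, hy, hzy⟩ := unif1 M q hq hqM hdvr hA hπ W3 H3 hc
  exact ⟨(c 0 : FK M K), (c 0).2, y, hy, hzy⟩

/-- **Residue degree one along `W3`** (valuation-ring form, the hypothesis of
`Level3B.hf3_of_V`). -/
theorem res3 : ∀ z ∈ W3, ∃ c ∈ GaussV.V1 M A K hdvr, ∃ v ∈ W3,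
    z - Wit3Set.inc M q K c = Wit3.sE M q hq hqM K * v := by
  intro z hz
  letI := algE M q (K := K)
  letI := algV M q hdvr
  haveI := GaussV.isDiscreteValuationRing_V1 (N := M) hdvr
  haveI := isScalarTower_V M q hdvr
  have H := hyp M q hq hqM hdvr hA hπ W3 H3
  have h := H.exists_residue 2 (z := z) hz
  change ∃ c : Fin 1 → ↥(GaussV.V1 M A K hdvr),
    z - ∑ i : Fin 1, algebraMap ↥(GaussV.V1 M A K hdvr) ↥(FK (M * q * q) K) (c i) * 1
      ∈ W3.nonunits at h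
  obtain ⟨c, hc⟩ := h
  rw [Fin.sum_univ_one, mul_one] at hc
  obtain ⟨y, hy, hzy⟩ := unif3 M q hq hqM hdvr hA hπ W3 H3 hc
  exact ⟨(c 0 : FK M K), (c 0).2, y, hy, hzy⟩

/-- **Residue degree `q²` along `W2`**: every element of `W2` is congruent modulo `π W2` to a
`V1(M)`-combination of `1, jqq, …, jqq^(q*q-1)`. -/
theorem res2 : ∀ z ∈ GaussV.V2 (WQ2.wK2 M q hq hqM K) hdvr,
    ∃ c : Fin (q * q) → FK M K, (∀ i, c i ∈ GaussV.V1 M A K hdvr) ∧
    ∃ v ∈ GaussV.V2 (WQ2.wK2 M q hq hqM K) hdvr,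
      z - ∑ i : Fin (q * q), Wit3Set.inc M q K (c i) * Wit3.bE M q hq hqM K (i : ℕ)
        = algebraMap (OK A K) (FK (M * q * q) K) π * v := by
  intro z hz
  letI := algE M q (K := K)
  letI := algV M q hdvr
  haveI := GaussV.isDiscreteValuationRing_V1 (N := M) hdvr
  haveI := isScalarTower_V M q hdvr
  have H := hyp M q hq hqM hdvr hA hπ W3 H3
  have h := H.exists_residue 1 (z := z) hz
  change ∃ c : Fin (q * q) → ↥(GaussV.V1 M A K hdvr),
    z - ∑ i : Fin (q * q), algebraMap ↥(GaussV.V1 M A K hdvr) ↥(FK (M * q * q) K) (c i)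
        * Wit3.bE M q hq hqM K (i : ℕ)
      ∈ (GaussV.V2 (WQ2.wK2 M q hq hqM K) hdvr).nonunits at h
  obtain ⟨c, hc⟩ := h
  obtain ⟨y, hy, hzy⟩ := unif2 M q hq hqM hdvr hA hπ W3 H3 hc
  exact ⟨fun i => (c i : FK M K), fun i => (c i).2, y, hy, hzy⟩

/-- **[CRT]** the Chinese remainder theorem modulo `π` for `W1`, `W2`, `W3`. -/
theorem crt3 (z1 z2 z3 : FK (M * q * q) K) (h1 : z1 ∈ GaussV.V1 (M * q * q) A K hdvr)
    (h2 : z2 ∈ GaussV.V2 (WQ2.wK2 M q hq hqM K) hdvr) (h3 : z3 ∈ W3) :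
    ∃ y : FK (M * q * q) K, (y ∈ GaussV.V1 (M * q * q) A K hdvr ∧
        y ∈ GaussV.V2 (WQ2.wK2 M q hq hqM K) hdvr ∧ y ∈ W3) ∧
      (∃ t ∈ GaussV.V1 (M * q * q) A K hdvr,
        y - z1 = algebraMap (OK A K) (FK (M * q * q) K) π * t) ∧
      (∃ t ∈ GaussV.V2 (WQ2.wK2 M q hq hqM K) hdvr,
        y - z2 = algebraMap (OK A K) (FK (M * q * q) K) π * t) ∧
      (∃ t ∈ W3, y - z3 = algebraMap (OK A K) (FK (M * q * q) K) π * t) := by
  letI := algE M q (K := K)
  letI := algV M q hdvr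
  haveI := GaussV.isDiscreteValuationRing_V1 (N := M) hdvr
  haveI := isScalarTower_V M q hdvr
  have H := hyp M q hq hqM hdvr hA hπ W3 H3
  obtain ⟨y, hy, hyz⟩ := H.exists_approx ![z1, z2, z3] (forall_fin3 h1 h2 h3)
  have hPeq : algebraMap ↥(GaussV.V1 M A K hdvr) ↥(FK (M * q * q) K) (GaussV.piV1 hdvr π)
      = algebraMap (OK A K) (FK (M * q * q) K) π := inc_piV1 M q hdvr π
  rw [hPeq] at hyz
  exact ⟨y, ⟨hy 0, hy 1, hy 2⟩, hyz 0, hyz 1, hyz 2⟩

/-- **[ResDeg3] `hf1`**: every Gauss reduction of an element of `F_K(M q q)` is the Gauss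
reduction of an element of `F_K(M)` (residue degree one along `W1`). -/
theorem hf1 (x : FK (M * q * q) K) (y : LaurentSeries (IsLocalRing.ResidueField A))
    (hxy : GRel A ((x : FK (M * q * q) K) : LaurentSeries Qb) y) :
    ∃ x' : FK M K, GRel A ((x' : FK M K) : LaurentSeries Qb) y := by
  have hG := GRel.gRelStatement A
  obtain ⟨c, hc, v, hv, hval⟩ :=
    res1 M q hq hqM hdvr hA hπ W3 H3 x ((GaussV.mem_V1_iff hdvr).mpr ⟨y, hxy⟩)
  obtain ⟨yc, hyc⟩ := (GaussV.mem_V1_iff hdvr).mp hc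
  have h0 : GRel A (((x - Wit3Set.inc M q K c : FK (M * q * q) K)) : LaurentSeries Qb) 0 := by
    rw [hval]
    apply Red2B.gRel_zero_of_val1_lt hdvr
    exact (ValuationSubring.mem_nonunits_iff _).mp
      (mul_mem_nonunits _ (Wit3Set.pi_nonunit1 M q A K hdvr hπ) hv)
  have h1 : GRel A (((x - Wit3Set.inc M q K c : FK (M * q * q) K)) : LaurentSeries Qb)
      (y - yc) := by
    have h2 := hG.add _ _ _ _ hxy (hG.neg _ _ hyc)
    rw [← sub_eq_add_neg, ← sub_eq_add_neg, ← Wit3Set.coe_inc M q K c] at h2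
    exact h2
  have h3 : y = yc := sub_eq_zero.mp (hG.unique _ _ _ h1 h0)
  exact ⟨c, by rw [h3]; exact hyc⟩

end Cor

/-! ### `W3` as a Gauss valuation ring along an embedding -/

section Emb

variable {K' : IntermediateField ℚ Qb} {E : FK (M * q * q) K →+* LaurentSeries Qb}
variable (hE : GaussE.Emb A K K' E) (hdvr' : IsDiscreteValuationRing (OK A K'))
variable {ϖ' : OK A K'} (hϖ' : Irreducible ϖ')
variable (hs : GaussE.Unif A K' ϖ' E (Wit3.sE M q hq hqM K))
variable (hal3 : ∀ y : FK M K, E (Wit3Set.inc M q K y) = ((y : FK M K) : LaurentSeries Qb))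

include hϖ' hs hal3 in
/-- **`Hyp3` for the Gauss valuation ring along an embedding `E`** (`S36/GaussE`) which is the
`q`-expansion on `F_K(M)`, with uniformizer `s = jqq − j` along `E` and `π = ϖ'^(q-1) · unit`
in `A`; the witness facts `x1, x2 ∈ π W3`, `x3 ∈ W3ˣ` are hypotheses (`S36/Wit3W3`). -/
theorem hyp3_of_emb {π : OK A K}
    (hram : ∃ u : A, IsUnit u ∧ incO A K π = incO A K' ϖ' ^ (q - 1) * (u : Qb))
    (hx1 : ∃ z ∈ GaussE.V hE hdvr',
      Wit3.x1 M q hq hqM K = algebraMap (OK A K) (FK (M * q * q) K) π * z)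
    (hx2 : ∃ z ∈ GaussE.V hE hdvr',
      Wit3.x2 M q hq hqM K = algebraMap (OK A K) (FK (M * q * q) K) π * z)
    (hx3 : Wit3.x3 M q hq hqM K ∈ GaussE.V hE hdvr' ∧
      (Wit3.x3 M q hq hqM K)⁻¹ ∈ GaussE.V hE hdvr') :
    Hyp3 M q hq hqM hdvr π (GaussE.V hE hdvr') := by
  have hle : ∀ c ∈ GaussV.V1 M A K hdvr, Wit3Set.inc M q K c ∈ GaussE.V hE hdvr' := by
    intro c hc
    obtain ⟨y, hy⟩ := (GaussV.mem_V1_iff hdvr).mp hc
    exact (GaussE.mem_V_iff hE hdvr').mpr ⟨y, by rw [hal3]; exact hy⟩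
  refine
    { le := hle
      ind := ?_
      s_non := ?_
      ram := ?_
      x1 := hx1
      x2 := hx2
      x3 := hx3 }
  · intro c hc hnon
    by_cases hred : GaussE.red hE hdvr' ⟨Wit3Set.inc M q K c, hle c hc⟩ = 0
    · have h := GaussE.gRel_red hE hdvr' ⟨Wit3Set.inc M q K c, hle c hc⟩
      rw [hred] at h
      rw [← hal3]
      exact h
    · exfalso
      obtain ⟨h0, hinv⟩ := (GaussE.red_ne_zero_iff hE hdvr' _).mp hred
      exact not_mem_nonunits _ h0 hinv hnon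
  · rw [ValuationSubring.mem_nonunits_iff, Red2B.val_lt_one_iff]
    right
    intro hinv
    exact GaussE.red_ne_zero_of_inv_mem hE hdvr' ⟨_, GaussE.unif_mem_V hE hdvr' hϖ' hs⟩ hinv
      (GaussE.unif_ne_zero hs) (GaussE.red_unif hE hdvr' hϖ' hs)
  · obtain ⟨z, hz, -, hπz⟩ := GaussE.exists_pi_eq hE hdvr' hϖ' hs π (q - 1) hram
    exact ⟨z, hz, hπz⟩

include hϖ' hs hal3 in
/-- **[ResDeg3] `hf3`**: every Gauss reduction along `E` of an element of `F_K(M q q)` is the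
Gauss reduction of an element of `F_K(M)` (residue degree one along `W3`). -/
theorem hf3_of_emb (hA : A.LiesOverPrime q) {π : OK A K} (hπ : Irreducible π)
    (H3 : Hyp3 M q hq hqM hdvr π (GaussE.V hE hdvr'))
    (x : FK (M * q * q) K) (y : LaurentSeries (IsLocalRing.ResidueField A))
    (hxy : GRel A (E x) y) : ∃ x' : FK M K, GRel A ((x' : FK M K) : LaurentSeries Qb) y := by
  have hG := GRel.gRelStatement A
  obtain ⟨c, hc, v, hv, hval⟩ := res3 M q hq hqM hdvr hA hπ (GaussE.V hE hdvr') H3 x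
    ((GaussE.mem_V_iff hE hdvr').mpr ⟨y, hxy⟩)
  obtain ⟨yc, hyc⟩ := (GaussV.mem_V1_iff hdvr).mp hc
  obtain ⟨yv, hyv⟩ := (GaussE.mem_V_iff hE hdvr').mp hv
  have h0 : GRel A (E (x - Wit3Set.inc M q K c)) 0 := by
    have h := hG.mul _ _ _ _ (GaussE.gRel_unif hϖ' hs) hyv
    rw [zero_mul, ← map_mul, ← hval] at h
    exact h
  have h1 : GRel A (E (x - Wit3Set.inc M q K c)) (y - yc) := by
    have h2 := hG.add _ _ _ _ hxy (hG.neg _ _ hyc)
    rw [← sub_eq_add_neg, ← sub_eq_add_neg, ← hal3 c, ← map_sub] at h2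
    exact h2
  have h3 : y = yc := sub_eq_zero.mp (hG.unique _ _ _ h1 h0)
  exact ⟨c, by rw [h3]; exact hyc⟩

end Emb

end Fermat.Agent.S36.Set3B
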