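/-
S36 — Set3BT1.lean (helper21), package [MODEL3]: the two remaining inputs `hT1`, `hind3` of
`LocInst3.loc_J3` (helper127) from the DVR-route instance `Set3B.hyp` of `RamN.Hyp`.

* `exists_clear` (level `M`, any chart with `ChartFacts`): "`V1(M)` is the localisation of the
  chart at `(π)`": every `x ∈ V1(M)` has `x * s ∈ R` for some `s ∈ R` with `π ∤ s`;
* `fam_mem_chart` : the `RamN` basis `u a * δ a ^ k * b a i` lies in `chart N J3`;
* `T1` : **(T1)** every `z ∈ W1 ⊓ W2 ⊓ W3` has `inc s * z ∈ chart N J3` for some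
  `s ∈ chart M j` with `π ∤ s` — `z = ∑ c_j · fam_j` with `c_j ∈ V1(M)` (`RamN.Hyp.exists_repr`),
  then clear the denominators of the finitely many `c_j`;
* `hT1` : the same in the exact shape of the hypothesis `hT1` of `LocInst3.loc_J3`
  (`V : Fin 3 → ValuationSubring _` with `V 0 = W1`, `V 1 = W2`);
* `hind3` : `inc r ∈ 𝔪(W3) → π ∣ r` for `r` in the level-`M` chart (hypothesis `hind3` of
  `LocInst3.loc_J3`).
-/
import Mathlib
import Fermat.Agent.S18.Nor
import Fermat.Agent.S36.Set3B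
import Fermat.Agent.S36.Set3
import Fermat.Agent.S36.LocInst3

set_option autoImplicit false
set_option linter.unusedSectionVars false
set_option linter.style.haveILetI false

noncomputable section

namespace Fermat.Agent.S36.Set3BT1

open ModularCurve HahnSeries Fermat.Agent.S18 Fermat.Agent.S18.Arith Fermat.Agent.S18.ModelPlan
open Fermat.Agent.S34

/-! ### Level `M`: the Gauss valuation ring is the localisation of a chart at `(π)` -/

section Clear

variable {N : ℕ} [NeZero N] {A : ValuationSubring Qb} {K : IntermediateField ℚ Qb}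

/-- For a chart `R` with `ChartFacts` and its Gauss reduction: `ρ r = 0 ↔ π ∣ r`. -/
theorem exists_rho_iff (hdvr : IsDiscreteValuationRing (OK A K))
    {R : Subalgebra (OK A K) (FK N K)} {t : FK N K} (hC : ChartFacts N A K R t)
    {π : OK A K} (hπ : Irreducible π) :
    ∃ ρ : R →+* LaurentSeries (IsLocalRing.ResidueField A),
      (∀ r : R, GRel A (((r : FK N K)) : LaurentSeries Qb) (ρ r)) ∧
      (∀ r : R, ρ r = 0 ↔ algebraMap (OK A K) R π ∣ r) := by
  have := hdvr
  obtain ⟨ρ, hρ, hker, -⟩ := hC.red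
  refine ⟨ρ, hρ, fun r => ?_⟩
  rw [← RingHom.mem_ker, hker, Nor.piIdeal_eq_span R hπ, Ideal.mem_span_singleton]

/-- **`V1 = R_(π)`**: every element of the Gauss valuation ring becomes an element of the chart
after multiplication by an element of the chart not divisible by `π`. -/
theorem exists_clear (hdvr : IsDiscreteValuationRing (OK A K))
    {R : Subalgebra (OK A K) (FK N K)} {t : FK N K} (hC : ChartFacts N A K R t)
    {π : OK A K} (hπ : Irreducible π) (x : FK N K) (hx : x ∈ GaussV.V1 N A K hdvr) :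
    ∃ s : R, ¬ algebraMap (OK A K) R π ∣ s ∧ x * (s : FK N K) ∈ R := by
  have hG := GRel.gRelStatement A
  have : IsNoetherianRing R := Nor.isNoetherianRing_chart hdvr hC
  obtain ⟨ρ, hρ, hρdvd⟩ := exists_rho_iff hdvr hC hπ
  set ϖ : R := algebraMap (OK A K) R π with hϖ
  have hϖρ : ρ ϖ = 0 := (hρdvd ϖ).mpr dvd_rfl
  have hϖu : ¬ IsUnit ϖ := by
    intro h
    have h2 := h.map ρ
    rw [hϖρ] at h2
    exact not_isUnit_zero h2
  have hϖ0 : ϖ ≠ 0 := by
    intro h0
    have h1 : ((ϖ : R) : FK N K) = 0 := by rw [h0]; rfl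
    have h2 : ((ϖ : R) : FK N K) = algebraMap (OK A K) (FK N K) π := rfl
    rw [h2] at h1
    exact GaussV.algebraMap_ne_zero N A K hπ.ne_zero h1
  have hϖ0' : ((ϖ : R) : FK N K) ≠ 0 := fun h => hϖ0 (Subtype.ext h)
  obtain ⟨y, hy⟩ := (GaussV.mem_V1_iff hdvr).mp hx
  by_cases hx0 : x = 0
  · refine ⟨1, fun h => hϖu (isUnit_of_dvd_one h), ?_⟩
    rw [hx0, zero_mul]
    exact zero_mem _
  obtain ⟨a1, ha1, b1, hb1, hb10, hab⟩ := hC.frac x
  have ha10 : (⟨a1, ha1⟩ : R) ≠ 0 := by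
    intro h
    have h0 : a1 = 0 := congrArg Subtype.val h
    rw [h0] at hab
    exact (mul_ne_zero hx0 hb10) hab
  have hb10' : (⟨b1, hb1⟩ : R) ≠ 0 := fun h => hb10 (congrArg Subtype.val h)
  obtain ⟨α, a', ha', haeq⟩ := WfDvdMonoid.max_power_factor' ha10 hϖu
  obtain ⟨β, b', hb', hbeq⟩ := WfDvdMonoid.max_power_factor' hb10' hϖu
  have haeq' : a1 = ((ϖ : R) : FK N K) ^ α * (a' : FK N K) := by
    have := congrArg (fun z : R => (z : FK N K)) haeq
    simpa using this
  have hbeq' : b1 = ((ϖ : R) : FK N K) ^ β * (b' : FK N K) := by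
    have := congrArg (fun z : R => (z : FK N K)) hbeq
    simpa using this
  rcases le_or_gt β α with hle | hlt
  · refine ⟨b', hb', ?_⟩
    have h3 : ((ϖ : R) : FK N K) ^ β * (x * (b' : FK N K)) =
        ((ϖ : R) : FK N K) ^ β * (((ϖ : R) : FK N K) ^ (α - β) * (a' : FK N K)) := by
      rw [← mul_assoc _ _ (a' : FK N K), ← _root_.pow_add, Nat.add_sub_cancel' hle, ← haeq',
        ← hab, hbeq']
      ring
    have h4 := mul_left_cancel₀ (pow_ne_zero β hϖ0') h3
    rw [h4]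
    exact (ϖ ^ (α - β) * a').2
  · exfalso
    have h3 : x * (((ϖ : R) : FK N K) ^ (β - α) * (b' : FK N K)) = (a' : FK N K) := by
      apply mul_left_cancel₀ (pow_ne_zero α hϖ0')
      rw [← haeq', ← hab, hbeq']
      have hβ : β = α + (β - α) := (Nat.add_sub_cancel' hlt.le).symm
      conv_rhs => rw [hβ, _root_.pow_add]
      ring
    have g2 := hG.mul _ _ _ _ hy (hρ (ϖ ^ (β - α) * b'))
    have hz : ρ (ϖ ^ (β - α) * b') = 0 := by
      rw [map_mul, map_pow, hϖρ, zero_pow (Nat.sub_ne_zero_of_lt hlt), zero_mul]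
    rw [hz, mul_zero] at g2
    have e2 : (x : LaurentSeries Qb) *
        (((ϖ ^ (β - α) * b' : R) : FK N K) : LaurentSeries Qb) =
          ((a' : FK N K) : LaurentSeries Qb) := by
      rw [← h3]
      push_cast
      rfl
    rw [e2] at g2
    have h5 := hG.unique _ _ _ g2 (hρ a')
    exact ha' ((hρdvd a').mp h5.symm)

/-- Simultaneous clearing of denominators for a finite family of elements of `V1`. -/
theorem exists_clear_family (hdvr : IsDiscreteValuationRing (OK A K))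
    {R : Subalgebra (OK A K) (FK N K)} {t : FK N K} (hC : ChartFacts N A K R t)
    {π : OK A K} (hπ : Irreducible π) {ι : Type*} [Fintype ι] (c : ι → FK N K)
    (hc : ∀ j, c j ∈ GaussV.V1 N A K hdvr) :
    ∃ s : R, ¬ algebraMap (OK A K) R π ∣ s ∧ ∀ j, (s : FK N K) * c j ∈ R := by
  classical
  obtain ⟨ρ, -, hρdvd⟩ := exists_rho_iff hdvr hC hπ
  choose s hs hsc using fun j => exists_clear hdvr hC hπ (c j) (hc j)
  refine ⟨∏ j, s j, ?_, fun j => ?_⟩
  · rw [← hρdvd, map_prod, Finset.prod_eq_zero_iff]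
    rintro ⟨j, -, hj⟩
    exact hs j ((hρdvd (s j)).mp hj)
  · have h1 : ∏ i, s i = (∏ i ∈ Finset.univ.erase j, s i) * s j :=
      (Finset.prod_erase_mul _ _ (Finset.mem_univ j)).symm
    rw [h1]
    have h2 : (((∏ i ∈ Finset.univ.erase j, s i) * s j : R) : FK N K) * c j
        = ((∏ i ∈ Finset.univ.erase j, s i : R) : FK N K) * (c j * (s j : FK N K)) := by
      push_cast
      ring
    rw [h2]
    exact mul_mem (∏ i ∈ Finset.univ.erase j, s i).2 (hsc j)

end Clear

/-! ### (T1) at level `M * q * q` -/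

section T1

variable (M q : ℕ) [NeZero M] [NeZero q] (hq : q.Prime) (hqM : ¬ q ∣ M)
variable {A : ValuationSubring Qb} {K : IntermediateField ℚ Qb}
variable (hdvr : IsDiscreteValuationRing (OK A K))

/-- The `RamN` basis `u a * δ a ^ k * b a i` of `W1 ⊓ W2 ⊓ W3` lies in `chart N J3`. -/
theorem fam_mem_chart (π : OK A K)
    (j : Σ a : Fin 3, Fin ((![1, 1, q - 1] : Fin 3 → ℕ) a) × Fin ((![1, q * q, 1] : Fin 3 → ℕ) a)) :
    RamN.fam (e := ![1, 1, q - 1])
      ![Wit3.x1 M q hq hqM K, Wit3.x2 M q hq hqM K, Wit3.x3 M q hq hqM K]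
      ![algebraMap (OK A K) (FK (M * q * q) K) π, algebraMap (OK A K) (FK (M * q * q) K) π,
        Wit3.sE M q hq hqM K]
      (Set3B.bF M q hq hqM) j ∈ chart (M * q * q) A K (Chart3B.J3 M q hq hqM K) := by
  have hu : ∀ a : Fin 3,
      (![Wit3.x1 M q hq hqM K, Wit3.x2 M q hq hqM K, Wit3.x3 M q hq hqM K] : Fin 3 → _) a
        ∈ chart (M * q * q) A K (Chart3B.J3 M q hq hqM K) :=
    Set3B.forall_fin3 (LocInst3.x1_mem_chart M q hq hqM A K) (LocInst3.x2_mem_chart M q hq hqM A K)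
      (LocInst3.x3_mem_chart M q hq hqM A K)
  have hδ : ∀ a : Fin 3,
      (![algebraMap (OK A K) (FK (M * q * q) K) π, algebraMap (OK A K) (FK (M * q * q) K) π,
        Wit3.sE M q hq hqM K] : Fin 3 → _) a
        ∈ chart (M * q * q) A K (Chart3B.J3 M q hq hqM K) :=
    Set3B.forall_fin3 (LocInst3.pi_mem_chart M q hq hqM A K π)
      (LocInst3.pi_mem_chart M q hq hqM A K π) (LocInst3.sE_mem_chart M q hq hqM A K)
  have hb : ∀ (a : Fin 3) (i : Fin ((![1, q * q, 1] : Fin 3 → ℕ) a)),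
      Set3B.bF M q hq hqM (K := K) a i ∈ chart (M * q * q) A K (Chart3B.J3 M q hq hqM K) := by
    intro a i
    unfold Set3B.bF
    split_ifs
    · exact LocInst3.bE_mem_chart M q hq hqM A K _
    · exact one_mem _
  obtain ⟨a, k, i⟩ := j
  exact mul_mem (mul_mem (hu a) (pow_mem (hδ a) _)) (hb a i)

/-- **(T1)**: every element of `W1 ⊓ W2 ⊓ W3` is carried into `chart N J3` by the image of an
element of the level-`M` chart not divisible by `π`. -/
theorem T1 (hC : ChartFacts M A K (chart M A K (jK M K)) (jK M K)) (hA : A.LiesOverPrime q)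
    {π : OK A K} (hπ : Irreducible π) (W3 : ValuationSubring (FK (M * q * q) K))
    (H3 : Set3B.Hyp3 M q hq hqM hdvr π W3) (z : FK (M * q * q) K)
    (h1 : z ∈ GaussV.V1 (M * q * q) A K hdvr)
    (h2 : z ∈ GaussV.V2 (WQ2.wK2 M q hq hqM K) hdvr) (h3 : z ∈ W3) :
    ∃ s : ↥(chart M A K (jK M K)), ¬ algebraMap (OK A K) ↥(chart M A K (jK M K)) π ∣ s ∧
      Wit3Set.inc M q K (s : FK M K) * z
        ∈ chart (M * q * q) A K (Chart3B.J3 M q hq hqM K) := by
  letI := Set3B.algE M q (K := K)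
  letI := Set3B.algV M q hdvr
  haveI := GaussV.isDiscreteValuationRing_V1 (N := M) hdvr
  haveI := Set3B.isScalarTower_V M q hdvr
  have H := Set3B.hyp M q hq hqM hdvr hA hπ W3 H3
  obtain ⟨c, hc⟩ := H.exists_repr (z := z) (Set3B.forall_fin3 h1 h2 h3)
  obtain ⟨s, hs, hsc⟩ := exists_clear_family hdvr hC hπ
    (fun j => ((c j : GaussV.V1 M A K hdvr) : FK M K)) (fun j => (c j).2)
  refine ⟨s, hs, ?_⟩
  rw [hc, Finset.mul_sum]
  refine sum_mem fun j _ => ?_
  have e : Wit3Set.inc M q K (s : FK M K) *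
      (algebraMap ↥(GaussV.V1 M A K hdvr) ↥(FK (M * q * q) K) (c j) *
        RamN.fam (e := ![1, 1, q - 1])
          ![Wit3.x1 M q hq hqM K, Wit3.x2 M q hq hqM K, Wit3.x3 M q hq hqM K]
          ![algebraMap (OK A K) (FK (M * q * q) K) π, algebraMap (OK A K) (FK (M * q * q) K) π,
            Wit3.sE M q hq hqM K]
          (Set3B.bF M q hq hqM) j)
      = Wit3Set.inc M q K ((s : FK M K) * ((c j : GaussV.V1 M A K hdvr) : FK M K)) *
        RamN.fam (e := ![1, 1, q - 1])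
          ![Wit3.x1 M q hq hqM K, Wit3.x2 M q hq hqM K, Wit3.x3 M q hq hqM K]
          ![algebraMap (OK A K) (FK (M * q * q) K) π, algebraMap (OK A K) (FK (M * q * q) K) π,
            Wit3.sE M q hq hqM K]
          (Set3B.bF M q hq hqM) j := by
    rw [map_mul]
    exact (mul_assoc _ _ _).symm
  rw [e]
  exact mul_mem (LocInst3.inc_mem_chart M q hq hqM A K (hsc j)) (fam_mem_chart M q hq hqM π j)

/-- **(T1) in the exact shape of the hypothesis `hT1` of `LocInst3.loc_J3`.** -/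
theorem hT1 (hC : ChartFacts M A K (chart M A K (jK M K)) (jK M K)) (hA : A.LiesOverPrime q)
    {π : OK A K} (hπ : Irreducible π) {V : Fin 3 → ValuationSubring (FK (M * q * q) K)}
    (h0 : V 0 = GaussV.V1 (M * q * q) A K hdvr)
    (h1 : V 1 = GaussV.V2 (WQ2.wK2 M q hq hqM K) hdvr)
    (H3 : Set3B.Hyp3 M q hq hqM hdvr π (V 2)) :
    ∀ z : FK (M * q * q) K, (∀ i : Fin 3, z ∈ V i) →
      ∃ s : ↥(chart M A K (jK M K)), ¬ algebraMap (OK A K) ↥(chart M A K (jK M K)) π ∣ s ∧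
        Wit3Set.inc M q K (s : FK M K) * z
          ∈ chart (M * q * q) A K (Chart3B.J3 M q hq hqM K) :=
  fun z hz => T1 M q hq hqM hdvr hC hA hπ (V 2) H3 z (h0 ▸ hz 0) (h1 ▸ hz 1) (hz 2)

/-- **`hind3` of `LocInst3.loc_J3`**: `inc r ∈ 𝔪(W3) → π ∣ r` for `r` in the level-`M` chart. -/
theorem hind3 (hC : ChartFacts M A K (chart M A K (jK M K)) (jK M K))
    {π : OK A K} (hπ : Irreducible π) (W3 : ValuationSubring (FK (M * q * q) K))
    (H3 : Set3B.Hyp3 M q hq hqM hdvr π W3) :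
    ∀ r : ↥(chart M A K (jK M K)), Wit3Set.inc M q K (r : FK M K) ∈ W3.nonunits →
      algebraMap (OK A K) ↥(chart M A K (jK M K)) π ∣ r := by
  have hG := GRel.gRelStatement A
  obtain ⟨ρ, hρ, hρdvd⟩ := exists_rho_iff hdvr hC hπ
  intro r hr
  have h0 := H3.ind (r : FK M K)
    (GaussV.chart_le_V1 hdvr (jK M K) (GaussV.jK_mem_V1 hdvr) _ r.2) hr
  exact (hρdvd r).mp (hG.unique _ _ _ (hρ r) h0)

/-! ### `Hyp3` without the independence field, and from `Set3.W3Facts` -/

/-- `Set3B.Hyp3` without its field `ind` (which follows from `le`, as `V1(M)` is a discrete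
valuation ring: an element of `V1(M)` of nonzero reduction is a unit of `V1(M)`, hence of
`W3`). -/
theorem hyp3_of_le {π : OK A K} {W3 : ValuationSubring (FK (M * q * q) K)}
    (hle : ∀ c ∈ GaussV.V1 M A K hdvr, Wit3Set.inc M q K c ∈ W3)
    (hs : Wit3.sE M q hq hqM K ∈ W3.nonunits)
    (hram : ∃ z ∈ W3,
      algebraMap (OK A K) (FK (M * q * q) K) π = Wit3.sE M q hq hqM K ^ (q - 1) * z)
    (hx1 : ∃ z ∈ W3, Wit3.x1 M q hq hqM K = algebraMap (OK A K) (FK (M * q * q) K) π * z)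
    (hx2 : ∃ z ∈ W3, Wit3.x2 M q hq hqM K = algebraMap (OK A K) (FK (M * q * q) K) π * z)
    (hx3 : Wit3.x3 M q hq hqM K ∈ W3 ∧ (Wit3.x3 M q hq hqM K)⁻¹ ∈ W3) :
    Set3B.Hyp3 M q hq hqM hdvr π W3 := by
  refine ⟨hle, ?_, hs, hram, hx1, hx2, hx3⟩
  intro c hc hnon
  by_cases hred : GaussV.red1 hdvr (⟨c, hc⟩ : GaussV.V1 M A K hdvr) = 0
  · have h := GaussV.gRel_red1 hdvr (⟨c, hc⟩ : GaussV.V1 M A K hdvr)
    rw [hred] at h
    exact h
  · exfalso
    have hinv : c⁻¹ ∈ GaussV.V1 M A K hdvr := GaussV.inv_mem_V1 hdvr ⟨c, hc⟩ hred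
    have hc0 : c ≠ 0 := by
      rintro rfl
      exact hred (map_zero _)
    have h1 : (Wit3Set.inc M q K c)⁻¹ ∈ W3 := by
      rw [← map_inv₀]
      exact hle _ hinv
    exact Set3B.not_mem_nonunits W3
      ((map_ne_zero (Wit3Set.inc M q K)).mpr hc0) h1 hnon

/-- helper30's `Set3.W3Facts` imply `Set3B.Hyp3`. -/
theorem hyp3_of_W3Facts {π : OK A K} {W3 : ValuationSubring (FK (M * q * q) K)}
    (h3 : Set3.W3Facts M q hq hqM hdvr π W3) : Set3B.Hyp3 M q hq hqM hdvr π W3 :=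
  hyp3_of_le M q hq hqM hdvr h3.le (LocInst3.mem_nonunits_of W3 h3.s h3.s_inv) h3.s_pow h3.x1
    h3.x2 ⟨h3.x3, h3.x3_inv⟩

end T1

end Fermat.Agent.S36.Set3BT1
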