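/-
S36 — Set3Cor.lean (helper30), package [MODEL3]: the consumer forms of the `RamN.Hyp` instance
`Set3.hyp3` at level `N = M * q * q` (`V = ![W1, W2, W3]`, `W3` abstract with `Set3.W3Facts`).

* `exists_sub_eq_delta_mul` : abstract (`RamN`): residue degree one (`f a = 1`, `b a = 1`) —
  every element of `V a` is congruent to a base element modulo `δ a`;
* `int3`, `int3_sep`, `mem_of_int3` : **[INT3]** `W1 ⊓ W2 ⊓ W3` is the integral closure of `V1(M)`
  (the hypothesis `hINT` of `Red3.desc_of_int`);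
* `unif1`, `unif2`, `unif3` : `𝔪(W1) = π W1`, `𝔪(W2) = π W2`, `𝔪(W3) = s W3`;
* `res1`, `res3` : residue degree one along `W1` and `W3` over level `M` (the hypotheses of
  `Level3B.hf1_of_V1`, `Level3B.hf3_of_V`); `hf1` : the `GRel` form along `W1`;
* `crt3` : the Chinese remainder theorem modulo `π`;
* `jK_mem`, `jqq_mem`, `jq_mem`, `J3_mem` : `j`, `j_{q²}`, `j_q`, `J3 = j j_q j_{q²}` lie in the
  three rings;
* `hdesc0`, `hdescInf` : **[Red3]** the charts `chart J3`, `chart J3⁻¹` are reduced along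
  `W1 ⊓ W2 ⊓ W3`, in the exact shape of the inputs `hdesc0`, `hdescInf` of
  `Model3Leaves.model3_of_leaves` (`t = Chart3B.J3`); `hdesc0_j`, `hdescInf_j` : the same for the
  charts `chart j`, `chart j⁻¹`;
* `ind_chart` : residue degree one along any `W ⊇ V1(M)` in chart form (the field `ind3` of
  `Wit3Inst.Hyp3W`, the input `hind3` of `LocInst3.loc_J3`).
-/
import Mathlib
import Fermat.Agent.S36.Set3
import Fermat.Agent.S36.Chart3B

set_option autoImplicit false
set_option linter.unusedSectionVars false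
set_option linter.style.haveILetI false

noncomputable section

namespace Fermat.Agent.S36.Set3Cor

open ModularCurve HahnSeries Fermat.Agent.S18 Fermat.Agent.S18.Arith Fermat.Agent.S18.ModelPlan
open Fermat.Agent.S34

/-! ### Abstract: residue degree one -/

section Abstract

variable {V₀ : Type*} [CommRing V₀] [IsDomain V₀] [IsDiscreteValuationRing V₀]
variable {E : Type*} [Field E] [Algebra V₀ E]
variable {κ : Type*} [Fintype κ]
variable {E₀ : Type*} [Field E₀] [Algebra V₀ E₀] [IsFractionRing V₀ E₀] [Algebra E₀ E]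
  [IsScalarTower V₀ E₀ E] {V : κ → ValuationSubring E} {ϖ : V₀} {e f : κ → ℕ} {u δ : κ → E}
  {b : ∀ a, Fin (f a) → E}

/-- **Residue degree one**: if `f a = 1` and `b a = 1`, every element of `V a` is congruent to a
base element modulo `δ a`. -/
theorem exists_sub_eq_delta_mul (H : RamN.Hyp E₀ V ϖ e f u δ b) (a : κ) (hf : f a = 1)
    (hb : ∀ i, b a i = 1) {z : E} (hz : z ∈ V a) :
    ∃ c : V₀, ∃ y ∈ V a, z - algebraMap V₀ E c = δ a * y := by
  obtain ⟨c, hc⟩ := H.exists_residue a hz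
  have hpos : 0 < f a := by omega
  have hsum : ∑ i, algebraMap V₀ E (c i) * b a i = algebraMap V₀ E (c ⟨0, hpos⟩) := by
    rw [Fintype.sum_eq_single (⟨0, hpos⟩ : Fin (f a))]
    · rw [hb, mul_one]
    · intro j hj
      exact absurd (Fin.ext (by have := j.2; simp only []; omega)) hj
  rw [hsum] at hc
  obtain ⟨y, hy, hzy⟩ := H.exists_eq_delta_mul a hc
  exact ⟨c ⟨0, hpos⟩, y, hy, hzy⟩

end Abstract

variable (M q : ℕ) [NeZero M] [NeZero q] (hq : q.Prime) (hqM : ¬ q ∣ M)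
variable {A : ValuationSubring Qb} {K : IntermediateField ℚ Qb}
variable (hdvr : IsDiscreteValuationRing (OK A K))

/-! ### Residue degree one in chart form -/

/-- Residue degree one along any valuation ring `W ⊇ V1(M)`, chart form: an element of the
level-`M` chart `j ≠ ∞` in the maximal ideal of `W` is divisible by `π` in the chart. -/
theorem ind_chart (hC : ChartFacts M A K (chart M A K (jK M K)) (jK M K))
    {π : OK A K} (hπ : Irreducible π) (W : ValuationSubring ↥(FK (M * q * q) K))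
    (hle : ∀ x ∈ GaussV.V1 M A K hdvr,
      DegTower.incl M (M * q * q) K (Set3.dvd_level M q) x ∈ W)
    (r : ↥(chart M A K (jK M K)))
    (hr : DegTower.incl M (M * q * q) K (Set3.dvd_level M q) (r : FK M K) ∈ W.nonunits) :
    algebraMap (OK A K) ↥(chart M A K (jK M K)) π ∣ r := by
  have hG := GRel.gRelStatement A
  obtain ⟨ρ, hρ, hdvd⟩ := Wit3Set.exists_rho M A K hdvr hC hπ
  have hr1 : (r : FK M K) ∈ GaussV.V1 M A K hdvr := (GaussV.mem_V1_iff hdvr).mpr ⟨ρ r, hρ r⟩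
  obtain ⟨d, hd⟩ := Set3.ind_W M q hdvr hπ W hle ⟨(r : FK M K), hr1⟩ hr
  have hp : GaussV.red1 hdvr (GaussV.piV1 (N := M) hdvr π) = 0 :=
    GaussV.red1_algebraMap_of_not_isUnit hdvr π hπ.not_isUnit
  have h0 : GaussV.red1 hdvr (⟨(r : FK M K), hr1⟩ : GaussV.V1 M A K hdvr) = 0 := by
    rw [hd, map_mul, hp, zero_mul]
  have h1 := GaussV.gRel_red1 hdvr (⟨(r : FK M K), hr1⟩ : GaussV.V1 M A K hdvr)
  rw [h0] at h1
  exact hdvd r (hG.unique _ _ _ (hρ r) h1)

/-! ### Consequences of the instance -/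

section Cor

variable (hA : A.LiesOverPrime q) {π : OK A K} (hπ : Irreducible π)
variable (W3 : ValuationSubring ↥(FK (M * q * q) K)) (h3 : Set3.W3Facts M q hq hqM hdvr π W3)

include hA hπ h3

/-- **[INT3]** every element of `W1 ⊓ W2 ⊓ W3` is integral over `V1(M)`. -/
theorem int3 (z : FK (M * q * q) K) (hz : ∀ i, z ∈ Set3.Vfam M q hq hqM hdvr W3 i) :
    (Red3.intHom M (M * q * q) (Set3.dvd_level M q) hdvr).IsIntegralElem z := by
  letI := Set3.algE M q (K := K)
  letI := Set3.algV M q hdvr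
  haveI := GaussV.isDiscreteValuationRing_V1 (N := M) hdvr
  haveI := Set3.isScalarTower_V M q hdvr
  have H := Set3.hyp3 M q hq hqM hdvr hA hπ W3 h3
  exact H.isIntegral_iff.mpr hz

/-- **[INT3]**, separate memberships. -/
theorem int3_sep (z : FK (M * q * q) K) (h1 : z ∈ GaussV.V1 (M * q * q) A K hdvr)
    (h2 : z ∈ GaussV.V2 (WQ2.wK2 M q hq hqM K) hdvr) (h3' : z ∈ W3) :
    (Red3.intHom M (M * q * q) (Set3.dvd_level M q) hdvr).IsIntegralElem z :=
  int3 M q hq hqM hdvr hA hπ W3 h3 z (Set3.forall_fin3 h1 h2 h3')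

/-- The converse of [INT3]: elements integral over `V1(M)` lie in the three rings. -/
theorem mem_of_int3 (z : FK (M * q * q) K)
    (hz : (Red3.intHom M (M * q * q) (Set3.dvd_level M q) hdvr).IsIntegralElem z) :
    ∀ i, z ∈ Set3.Vfam M q hq hqM hdvr W3 i := by
  letI := Set3.algE M q (K := K)
  letI := Set3.algV M q hdvr
  haveI := GaussV.isDiscreteValuationRing_V1 (N := M) hdvr
  haveI := Set3.isScalarTower_V M q hdvr
  have H := Set3.hyp3 M q hq hqM hdvr hA hπ W3 h3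
  exact H.isIntegral_iff.mp hz

/-- `𝔪(W1) = π W1`. -/
theorem unif1 {z : FK (M * q * q) K} (hz : z ∈ (GaussV.V1 (M * q * q) A K hdvr).nonunits) :
    ∃ y ∈ GaussV.V1 (M * q * q) A K hdvr,
      z = algebraMap (OK A K) (FK (M * q * q) K) π * y := by
  letI := Set3.algE M q (K := K)
  letI := Set3.algV M q hdvr
  haveI := GaussV.isDiscreteValuationRing_V1 (N := M) hdvr
  haveI := Set3.isScalarTower_V M q hdvr
  have H := Set3.hyp3 M q hq hqM hdvr hA hπ W3 h3
  exact H.exists_eq_delta_mul 0 hz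

/-- `𝔪(W2) = π W2`. -/
theorem unif2 {z : FK (M * q * q) K}
    (hz : z ∈ (GaussV.V2 (WQ2.wK2 M q hq hqM K) hdvr).nonunits) :
    ∃ y ∈ GaussV.V2 (WQ2.wK2 M q hq hqM K) hdvr,
      z = algebraMap (OK A K) (FK (M * q * q) K) π * y := by
  letI := Set3.algE M q (K := K)
  letI := Set3.algV M q hdvr
  haveI := GaussV.isDiscreteValuationRing_V1 (N := M) hdvr
  haveI := Set3.isScalarTower_V M q hdvr
  have H := Set3.hyp3 M q hq hqM hdvr hA hπ W3 h3
  exact H.exists_eq_delta_mul 1 hz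

/-- `𝔪(W3) = s W3`. -/
theorem unif3 {z : FK (M * q * q) K} (hz : z ∈ W3.nonunits) :
    ∃ y ∈ W3, z = Wit3.sE M q hq hqM K * y := by
  letI := Set3.algE M q (K := K)
  letI := Set3.algV M q hdvr
  haveI := GaussV.isDiscreteValuationRing_V1 (N := M) hdvr
  haveI := Set3.isScalarTower_V M q hdvr
  have H := Set3.hyp3 M q hq hqM hdvr hA hπ W3 h3
  exact H.exists_eq_delta_mul 2 hz

/-- **Residue degree one along `W1`** (the hypothesis of `Level3B.hf1_of_V1`,
`al = DegTower.incl`). -/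
theorem res1 : ∀ z ∈ GaussV.V1 (M * q * q) A K hdvr, ∃ c ∈ GaussV.V1 M A K hdvr,
    ∃ v ∈ GaussV.V1 (M * q * q) A K hdvr,
      z - DegTower.incl M (M * q * q) K (Set3.dvd_level M q) c
        = algebraMap (OK A K) (FK (M * q * q) K) π * v := by
  intro z hz
  letI := Set3.algE M q (K := K)
  letI := Set3.algV M q hdvr
  haveI := GaussV.isDiscreteValuationRing_V1 (N := M) hdvr
  haveI := Set3.isScalarTower_V M q hdvr
  have H := Set3.hyp3 M q hq hqM hdvr hA hπ W3 h3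
  obtain ⟨c, y, hy, hzy⟩ := exists_sub_eq_delta_mul H 0 rfl (Set3.bFam_zero M q hq hqM) hz
  exact ⟨(c : FK M K), c.2, y, hy, hzy⟩

/-- **Residue degree one along `W3`** (the hypothesis of `Level3B.hf3_of_V`,
`al = DegTower.incl`, `s = Wit3.sE`). -/
theorem res3 : ∀ z ∈ W3, ∃ c ∈ GaussV.V1 M A K hdvr, ∃ v ∈ W3,
    z - DegTower.incl M (M * q * q) K (Set3.dvd_level M q) c = Wit3.sE M q hq hqM K * v := by
  intro z hz
  letI := Set3.algE M q (K := K)
  letI := Set3.algV M q hdvr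
  haveI := GaussV.isDiscreteValuationRing_V1 (N := M) hdvr
  haveI := Set3.isScalarTower_V M q hdvr
  have H := Set3.hyp3 M q hq hqM hdvr hA hπ W3 h3
  obtain ⟨c, y, hy, hzy⟩ := exists_sub_eq_delta_mul H 2 rfl (Set3.bFam_two M q hq hqM) hz
  exact ⟨(c : FK M K), c.2, y, hy, hzy⟩

/-- **[ResDeg3] `hf1`**: every Gauss reduction of an element of `F_K(M q q)` is the Gauss
reduction of an element of `F_K(M)`. -/
theorem hf1 (x : FK (M * q * q) K) (y : LaurentSeries (IsLocalRing.ResidueField A))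
    (hxy : GRel A ((x : FK (M * q * q) K) : LaurentSeries Qb) y) :
    ∃ x' : FK M K, GRel A ((x' : FK M K) : LaurentSeries Qb) y := by
  have hG := GRel.gRelStatement A
  obtain ⟨c, hc, v, hv, hval⟩ :=
    res1 M q hq hqM hdvr hA hπ W3 h3 x ((GaussV.mem_V1_iff hdvr).mpr ⟨y, hxy⟩)
  obtain ⟨yc, hyc⟩ := (GaussV.mem_V1_iff hdvr).mp hc
  have h0 : GRel A (((x - DegTower.incl M (M * q * q) K (Set3.dvd_level M q) c :
      FK (M * q * q) K)) : LaurentSeries Qb) 0 := by
    rw [hval]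
    apply Red2B.gRel_zero_of_val1_lt hdvr
    rw [← ValuationSubring.mem_nonunits_iff]
    exact Set3.mul_mem_nonunits_left _ (Wit3Set.pi_nonunit1 M q A K hdvr hπ) hv
  have h1 : GRel A (((x - DegTower.incl M (M * q * q) K (Set3.dvd_level M q) c :
      FK (M * q * q) K)) : LaurentSeries Qb) (y - yc) := by
    have h2 := hG.add _ _ _ _ hxy (hG.neg _ _ hyc)
    rw [← sub_eq_add_neg, ← sub_eq_add_neg,
      ← DegTower.coe_incl M (M * q * q) K (Set3.dvd_level M q) c] at h2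
    exact h2
  have h3' : y = yc := sub_eq_zero.mp (hG.unique _ _ _ h1 h0)
  exact ⟨c, by rw [h3']; exact hyc⟩

/-- **The Chinese remainder theorem modulo `π`** for `W1`, `W2`, `W3`. -/
theorem crt3 (z : Fin 3 → FK (M * q * q) K) (hz : ∀ i, z i ∈ Set3.Vfam M q hq hqM hdvr W3 i) :
    ∃ y : FK (M * q * q) K, (∀ i, y ∈ Set3.Vfam M q hq hqM hdvr W3 i) ∧
      ∀ i, ∃ t ∈ Set3.Vfam M q hq hqM hdvr W3 i,
        y - z i = algebraMap (OK A K) (FK (M * q * q) K) π * t := by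
  letI := Set3.algE M q (K := K)
  letI := Set3.algV M q hdvr
  haveI := GaussV.isDiscreteValuationRing_V1 (N := M) hdvr
  haveI := Set3.isScalarTower_V M q hdvr
  have H := Set3.hyp3 M q hq hqM hdvr hA hπ W3 h3
  have h := H.exists_approx z hz
  rw [Set3.algebraMap_piV1 M q hdvr π] at h
  exact h

/-- `j` lies in the three rings. -/
theorem jK_mem : ∀ i, jK (M * q * q) K ∈ Set3.Vfam M q hq hqM hdvr W3 i := by
  letI := Set3.algE M q (K := K)
  letI := Set3.algV M q hdvr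
  haveI := GaussV.isDiscreteValuationRing_V1 (N := M) hdvr
  haveI := Set3.isScalarTower_V M q hdvr
  have H := Set3.hyp3 M q hq hqM hdvr hA hπ W3 h3
  intro i
  have h := H.le i ⟨jK M K, GaussV.jK_mem_V1 hdvr⟩
  rw [Set3.algebraMap_V_apply, DegTower.incl_jK] at h
  exact h

/-- `j_{q²}` lies in the three rings. -/
theorem jqq_mem : ∀ i, WQ2.jqqK2 M q hq hqM K ∈ Set3.Vfam M q hq hqM hdvr W3 i := by
  have h1 := Wit3.b_mem1 M q hq hqM A K hdvr 1
  have h2 := Wit3.b_mem2 M q hq hqM A K hdvr 1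
  rw [Wit3.bE, pow_one] at h1 h2
  exact Set3.forall_fin3 h1 h2 h3.jqq

/-- `j_q` lies in the three rings. -/
theorem jq_mem : ∀ i, WQ2.jqK2 M q hq hqM K ∈ Set3.Vfam M q hq hqM hdvr W3 i := by
  letI := Set3.algE M q (K := K)
  letI := Set3.algV M q hdvr
  haveI := GaussV.isDiscreteValuationRing_V1 (N := M) hdvr
  haveI := Set3.isScalarTower_V M q hdvr
  have H := Set3.hyp3 M q hq hqM hdvr hA hπ W3 h3
  intro i
  have hx : Wit3.x1 M q hq hqM K ∈ Set3.Vfam M q hq hqM hdvr W3 i := H.hu 0 i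
  have e : WQ2.jqK2 M q hq hqM K
      = Wit3.x1 M q hq hqM K + WQ2.jqqK2 M q hq hqM K ^ q := by
    rw [Wit3.x1]; ring
  rw [e]
  exact (Set3.Vfam M q hq hqM hdvr W3 i).add_mem _ _ hx
    (pow_mem (jqq_mem M q hq hqM hdvr hA hπ W3 h3 i) q)

/-- The coordinate of record `J3 = j · j_q · j_{q²}` lies in the three rings. -/
theorem J3_mem : ∀ i, Chart3B.J3 M q hq hqM K ∈ Set3.Vfam M q hq hqM hdvr W3 i := fun i =>
  (Set3.Vfam M q hq hqM hdvr W3 i).mul_mem _ _
    ((Set3.Vfam M q hq hqM hdvr W3 i).mul_mem _ _ (jK_mem M q hq hqM hdvr hA hπ W3 h3 i)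
      (jq_mem M q hq hqM hdvr hA hπ W3 h3 i)) (jqq_mem M q hq hqM hdvr hA hπ W3 h3 i)

end Cor

/-! ### [Red3]: the charts are reduced along `W1 ⊓ W2 ⊓ W3` -/

/-- The semilocal ring `W1 ⊓ W2 ⊓ W3`. -/
def vInf3 (W3 : ValuationSubring ↥(FK (M * q * q) K)) : Subring ↥(FK (M * q * q) K) :=
  ⨅ i, (Set3.Vfam M q hq hqM hdvr W3 i).toSubring

theorem mem_vInf3 (W3 : ValuationSubring ↥(FK (M * q * q) K)) (z : FK (M * q * q) K) :
    z ∈ vInf3 M q hq hqM hdvr W3 ↔ ∀ i, z ∈ Set3.Vfam M q hq hqM hdvr W3 i := by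
  unfold vInf3
  rw [Subring.mem_iInf]
  exact Iff.rfl

section Desc

variable (hA : A.LiesOverPrime q) (hB : BaseFacts q A K) {π : OK A K} (hπ : Irreducible π)
variable (W3 : ValuationSubring ↥(FK (M * q * q) K)) (h3 : Set3.W3Facts M q hq hqM hdvr π W3)

include hA hB hπ h3

/-- **[Red3] for the chart `j ≠ ∞`** along `W1 ⊓ W2 ⊓ W3`. -/
theorem hdesc0_j : ∀ z : FK (M * q * q) K, (∀ i : Fin 3, z ∈ Set3.Vfam M q hq hqM hdvr W3 i) →
    algebraMap (OK A K) (FK (M * q * q) K) π * z ∈ chart (M * q * q) A K (jK (M * q * q) K) →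
    z ∈ chart (M * q * q) A K (jK (M * q * q) K) := by
  intro z hz hπz
  have hINT : ∀ z ∈ vInf3 M q hq hqM hdvr W3,
      (Red3.intHom M (M * q * q) (Set3.dvd_level M q) hB.dvr).IsIntegralElem z :=
    fun z hz => int3 M q hq hqM hdvr hA hπ W3 h3 z ((mem_vInf3 M q hq hqM hdvr W3 z).mp hz)
  exact Red3.desc0_of_int M (M * q * q) (Set3.dvd_level M q) q hq hqM hA hB hπ
    (vInf3 M q hq hqM hdvr W3) hINT z ((mem_vInf3 M q hq hqM hdvr W3 z).mpr hz) hπz

/-- **[Red3] for the chart `j ≠ 0`** along `W1 ⊓ W2 ⊓ W3`. -/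
theorem hdescInf_j : ∀ z : FK (M * q * q) K, (∀ i : Fin 3, z ∈ Set3.Vfam M q hq hqM hdvr W3 i) →
    algebraMap (OK A K) (FK (M * q * q) K) π * z ∈ chart (M * q * q) A K (jK (M * q * q) K)⁻¹ →
    z ∈ chart (M * q * q) A K (jK (M * q * q) K)⁻¹ := by
  intro z hz hπz
  have hINT : ∀ z ∈ vInf3 M q hq hqM hdvr W3,
      (Red3.intHom M (M * q * q) (Set3.dvd_level M q) hB.dvr).IsIntegralElem z :=
    fun z hz => int3 M q hq hqM hdvr hA hπ W3 h3 z ((mem_vInf3 M q hq hqM hdvr W3 z).mp hz)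
  exact Red3.descInf_of_int M (M * q * q) (Set3.dvd_level M q) q hq hqM hA hB hπ
    (vInf3 M q hq hqM hdvr W3) hINT z ((mem_vInf3 M q hq hqM hdvr W3 z).mpr hz) hπz

/-- **[Red3] `hdesc0`** for the coordinate of record `t = J3 = j · j_q · j_{q²}`: the input
`hdesc0` of `Model3Leaves.model3_of_leaves`. -/
theorem hdesc0 : ∀ z : FK (M * q * q) K, (∀ i : Fin 3, z ∈ Set3.Vfam M q hq hqM hdvr W3 i) →
    algebraMap (OK A K) (FK (M * q * q) K) π * z
      ∈ chart (M * q * q) A K (Chart3B.J3 M q hq hqM K) →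
    z ∈ chart (M * q * q) A K (Chart3B.J3 M q hq hqM K) := by
  rw [Chart3B.chart_J3_eq]
  exact hdesc0_j M q hq hqM hdvr hA hB hπ W3 h3

/-- **[Red3] `hdescInf`** for the coordinate of record `t = J3`: the input `hdescInf` of
`Model3Leaves.model3_of_leaves`. -/
theorem hdescInf : ∀ z : FK (M * q * q) K, (∀ i : Fin 3, z ∈ Set3.Vfam M q hq hqM hdvr W3 i) →
    algebraMap (OK A K) (FK (M * q * q) K) π * z
      ∈ chart (M * q * q) A K (Chart3B.J3 M q hq hqM K)⁻¹ →
    z ∈ chart (M * q * q) A K (Chart3B.J3 M q hq hqM K)⁻¹ := by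
  intro z hz hπz
  have hd0 : ∀ z ∈ vInf3 M q hq hqM hdvr W3,
      algebraMap (OK A K) (FK (M * q * q) K) π * z
        ∈ chart (M * q * q) A K (Chart3B.J3 M q hq hqM K) →
      z ∈ chart (M * q * q) A K (Chart3B.J3 M q hq hqM K) := fun z hz =>
    hdesc0 M q hq hqM hdvr hA hB hπ W3 h3 z ((mem_vInf3 M q hq hqM hdvr W3 z).mp hz)
  exact Red3.descInv_coord (M * q * q) hdvr hπ (Chart3B.J3 M q hq hqM K)
    (Chart3B.transcendental_J3 M q hq hqM A K) (vInf3 M q hq hqM hdvr W3)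
    ((mem_vInf3 M q hq hqM hdvr W3 _).mpr (J3_mem M q hq hqM hdvr hA hπ W3 h3))
    (Chart3B.glue0 M q hq hqM A K) (Chart3B.glueInf M q hq hqM A K) hd0 z
    ((mem_vInf3 M q hq hqM hdvr W3 z).mpr hz) hπz

end Desc

end Fermat.Agent.S36.Set3Cor
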