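import Mathlib

/-!
# S36, [D2] (abstract, Mathlib-only): a derivation cannot kill a local coordinate

Setting: `ρ : S → L` a ring homomorphism from a noetherian ring to a field (in the application:
the Gauss reduction of a chart, `L = k((Q))`), `D : L → L` additive with the Leibniz rule
(`D = θ = Q d/dQ`), `n` a maximal ideal of `S` containing `ker ρ` which is *rational* (every
element of `S` is congruent modulo `n` to an element `c` with `D (ρ c) = 0`, a constant) and such
that `n` is generated by `t` modulo `ker ρ`, locally at `n` (`t̄` is a local coordinate of the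
curve `ρ S` at the point `n`).  If the values `D (ρ x)` lie in a finitely generated `S`-module,
then

* `deriv_eq_zero_of_generator` : `D (ρ t) = 0 → ∀ x, D (ρ x) = 0`;
* `deriv_generator_ne_zero`    : `(∃ y, D (ρ y) ≠ 0) → D (ρ t) ≠ 0`.

Proof: `M₀ = ∑ S · D (ρ x)` is finitely generated and `M₀ ⊆ n M₀` (write `x = c + x'`,
`s x' ≡ c' t`, apply `D`), so Nakayama gives `r ∉ n` with `r M₀ = 0`; `ρ r ≠ 0` in the field `L`.
No separability theory, no `[F : F^q]`.

* `exists_finset_of_span` : the finiteness hypothesis, for `S` spanned by a finite set over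
  `O[t₀]` with `D` vanishing on the constants `O`.
-/

set_option autoImplicit false

namespace Fermat.Agent.S36.ThetaLoc

open scoped BigOperators

section Core

variable {S L : Type*} [CommRing S] [IsNoetherianRing S] [Field L]

/-- **[D2]** If `D (ρ t) = 0` for a local generator `t` of the rational point `n` modulo `ker ρ`,
then `D ∘ ρ = 0`. -/
theorem deriv_eq_zero_of_generator (ρ : S →+* L) (D : L →+ L)
    (hD : ∀ x y : L, D (x * y) = x * D y + y * D x)
    (n : Ideal S) (hn : n.IsMaximal) (hker : RingHom.ker ρ ≤ n)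
    (hrat : ∀ x : S, ∃ c : S, D (ρ c) = 0 ∧ x - c ∈ n)
    (t : S) (htn : t ∈ n)
    (hgen : ∀ x ∈ n, ∃ s : S, s ∉ n ∧ ∃ c : S, s * x - c * t ∈ RingHom.ker ρ)
    (hfin : ∃ T : Finset L, ∀ x : S, ∃ c : L → S, D (ρ x) = ∑ i ∈ T, ρ (c i) * i)
    (ht : D (ρ t) = 0) : ∀ x : S, D (ρ x) = 0 := by
  classical
  let _ : Module S L := Module.compHom L ρ
  have hsmul : ∀ (s : S) (l : L), s • l = ρ s * l := fun _ _ => rfl
  obtain ⟨T, hT⟩ := hfin
  -- the module of values
  let M0 : Submodule S L := Submodule.span S (Set.range fun x : S => D (ρ x))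
  have hmem : ∀ x : S, D (ρ x) ∈ M0 := fun x => Submodule.subset_span ⟨x, rfl⟩
  -- finite generation
  have hfg : M0.FG := by
    let N : Submodule S L := Submodule.span S (T : Set L)
    have hNfg : N.FG := Submodule.fg_span (Finset.finite_toSet T)
    have : IsNoetherian S N := isNoetherian_of_fg_of_noetherian N hNfg
    have hle : M0 ≤ N := by
      apply Submodule.span_le.2
      rintro _ ⟨x, rfl⟩
      obtain ⟨c, hc⟩ := hT x
      show D (ρ x) ∈ N
      rw [hc]
      refine Submodule.sum_mem _ fun i hi => ?_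
      rw [← hsmul]
      exact Submodule.smul_mem _ _ (Submodule.subset_span hi)
    have h1 : (Submodule.comap N.subtype M0).FG := IsNoetherian.noetherian _
    have h2 := h1.map N.subtype
    rwa [Submodule.map_comap_subtype, inf_eq_right.2 hle] at h2
  -- `M0 ≤ n • M0`
  have hle : M0 ≤ n • M0 := by
    apply Submodule.span_le.2
    rintro _ ⟨x, rfl⟩
    show D (ρ x) ∈ n • M0
    obtain ⟨c, hc0, hcn⟩ := hrat x
    obtain ⟨s, hs, c', hc'⟩ := hgen (x - c) hcn
    have hx : D (ρ x) = D (ρ (x - c)) := by
      rw [map_sub, map_sub, hc0, sub_zero]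
    have hρ : ρ s * ρ (x - c) = ρ c' * ρ t := by
      have h0 : ρ (s * (x - c) - c' * t) = 0 := (RingHom.mem_ker).1 hc'
      rw [map_sub, map_mul, map_mul] at h0
      exact sub_eq_zero.1 h0
    have hDρ : ρ s * D (ρ (x - c)) = ρ t * D (ρ c') - ρ (x - c) * D (ρ s) := by
      have h1 := congrArg D hρ
      rw [hD, hD, ht, mul_zero, zero_add] at h1
      linear_combination h1
    -- `s • d ∈ n • M0`
    have hsd : s • D (ρ (x - c)) ∈ n • M0 := by
      rw [hsmul, hDρ]
      refine Submodule.sub_mem _ ?_ ?_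
      · rw [← hsmul]
        exact Submodule.smul_mem_smul htn (hmem c')
      · rw [← hsmul]
        exact Submodule.smul_mem_smul hcn (hmem s)
    obtain ⟨a, i, hi, hai⟩ := hn.exists_inv hs
    -- `d = a • (s • d) + i • d`
    have hd : D (ρ (x - c)) = a • (s • D (ρ (x - c))) + i • D (ρ (x - c)) := by
      rw [hsmul, hsmul, hsmul, ← mul_assoc, ← add_mul, ← map_mul, ← map_add, hai, map_one,
        one_mul]
    rw [hx, hd]
    exact Submodule.add_mem _ (Submodule.smul_mem _ _ hsd)
      (Submodule.smul_mem_smul hi (hmem (x - c)))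
  -- Nakayama
  obtain ⟨r, hr1, hr0⟩ :=
    Submodule.exists_sub_one_mem_and_smul_eq_zero_of_fg_of_le_smul n M0 hfg hle
  have hrn : r ∉ n := by
    intro h
    have h1 : (1 : S) ∈ n := by
      have := n.sub_mem h hr1
      simpa using this
    exact hn.ne_top ((Ideal.eq_top_iff_one n).2 h1)
  have hρr : ρ r ≠ 0 := fun h => hrn (hker ((RingHom.mem_ker).2 h))
  intro x
  have h1 : r • D (ρ x) = 0 := hr0 _ (hmem x)
  rw [hsmul] at h1
  exact (mul_eq_zero.1 h1).resolve_left hρr

/-- **[D2]**, contrapositive: a derivation which is not identically zero on `ρ S` does not kill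
a local coordinate at a rational point. -/
theorem deriv_generator_ne_zero (ρ : S →+* L) (D : L →+ L)
    (hD : ∀ x y : L, D (x * y) = x * D y + y * D x)
    (n : Ideal S) (hn : n.IsMaximal) (hker : RingHom.ker ρ ≤ n)
    (hrat : ∀ x : S, ∃ c : S, D (ρ c) = 0 ∧ x - c ∈ n)
    (t : S) (htn : t ∈ n)
    (hgen : ∀ x ∈ n, ∃ s : S, s ∉ n ∧ ∃ c : S, s * x - c * t ∈ RingHom.ker ρ)
    (hfin : ∃ T : Finset L, ∀ x : S, ∃ c : L → S, D (ρ x) = ∑ i ∈ T, ρ (c i) * i)
    (hne : ∃ y : S, D (ρ y) ≠ 0) : D (ρ t) ≠ 0 := by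
  intro ht
  obtain ⟨y, hy⟩ := hne
  exact hy (deriv_eq_zero_of_generator ρ D hD n hn hker hrat t htn hgen hfin ht y)

end Core

section Fin

variable {O S L : Type*} [CommRing O] [CommRing S] [Algebra O S] [Field L]

/-- `D (ρ (p(t₀))) = ρ (p'(t₀)) * D (ρ t₀)` for a polynomial `p` with constant coefficients. -/
theorem deriv_aeval (ρ : S →+* L) (D : L →+ L)
    (hD : ∀ x y : L, D (x * y) = x * D y + y * D x)
    (hO : ∀ c : O, D (ρ (algebraMap O S c)) = 0) (t₀ : S) (p : Polynomial O) :
    D (ρ (Polynomial.aeval t₀ p)) =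
      ρ (Polynomial.aeval t₀ (Polynomial.derivative p)) * D (ρ t₀) := by
  induction p using Polynomial.induction_on' with
  | add p q hp hq =>
    rw [map_add, map_add, map_add, hp, hq, Polynomial.derivative_add, map_add, map_add, add_mul]
  | monomial k a =>
    induction k with
    | zero =>
      rw [Polynomial.monomial_zero_left, Polynomial.aeval_C, hO, Polynomial.derivative_C,
        map_zero, map_zero, zero_mul]
    | succ k ih =>
      have h1 : (Polynomial.monomial (k + 1) a : Polynomial O) =
          Polynomial.monomial k a * Polynomial.X := by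
        rw [Polynomial.monomial_mul_X]
      rw [h1, map_mul, Polynomial.aeval_X, map_mul, hD, ih, Polynomial.derivative_mul,
        Polynomial.derivative_X, mul_one, map_add, map_mul, Polynomial.aeval_X, map_add,
        map_mul]
      ring

/-- The finiteness hypothesis of `deriv_eq_zero_of_generator`: if `S` is spanned over `O[t₀]`
by a finite set `b` and `D` kills the constants, all values `D (ρ x)` are `ρ S`-combinations of
`D (ρ t₀)` and the `D (ρ y)`, `y ∈ b`. -/
theorem exists_finset_of_span (ρ : S →+* L) (D : L →+ L)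
    (hD : ∀ x y : L, D (x * y) = x * D y + y * D x)
    (hO : ∀ c : O, D (ρ (algebraMap O S c)) = 0) (t₀ : S) (b : Finset S)
    (hspan : ∀ x : S, x ∈ Submodule.span (Algebra.adjoin O {t₀}) (b : Set S)) :
    ∃ T : Finset L, ∀ x : S, ∃ c : L → S, D (ρ x) = ∑ i ∈ T, ρ (c i) * i := by
  classical
  let _ : Module S L := Module.compHom L ρ
  have hsmul : ∀ (s : S) (l : L), s • l = ρ s * l := fun _ _ => rfl
  let T : Finset L := insert (D (ρ t₀)) (b.image fun y => D (ρ y))
  let N : Submodule S L := Submodule.span S (T : Set L)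
  have hT0 : D (ρ t₀) ∈ N := Submodule.subset_span (by simp [T])
  have hTb : ∀ y ∈ b, D (ρ y) ∈ N := fun y hy =>
    Submodule.subset_span (by
      simp only [T, Finset.coe_insert, Finset.coe_image, Set.mem_insert_iff, Set.mem_image,
        Finset.mem_coe]
      exact Or.inr ⟨y, hy, rfl⟩)
  -- values on `O[t₀]`
  have hadj : ∀ a ∈ Algebra.adjoin O {t₀}, D (ρ a) ∈ N := by
    intro a ha
    rw [Algebra.adjoin_singleton_eq_range_aeval] at ha
    obtain ⟨p, rfl⟩ := ha
    have h1 : (Polynomial.aeval t₀).toRingHom p = Polynomial.aeval t₀ p := rfl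
    rw [h1, deriv_aeval ρ D hD hO t₀ p, ← hsmul]
    exact Submodule.smul_mem _ _ hT0
  -- all values
  have hall : ∀ x : S, D (ρ x) ∈ N := by
    intro x
    have hx := hspan x
    induction hx using Submodule.span_induction with
    | mem y hy => exact hTb y hy
    | zero => rw [map_zero, map_zero]; exact N.zero_mem
    | add y z _ _ hy hz => rw [map_add, map_add]; exact N.add_mem hy hz
    | smul a y _ hy =>
      have h1 : a • y = (a : S) * y := rfl
      rw [h1, map_mul, hD]
      refine N.add_mem ?_ ?_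
      · rw [← hsmul]; exact N.smul_mem _ hy
      · rw [← hsmul]; exact N.smul_mem _ (hadj a a.2)
  refine ⟨T, fun x => ?_⟩
  have hx := hall x
  rw [Submodule.mem_span_finset] at hx
  obtain ⟨f, -, hf⟩ := hx
  exact ⟨f, by rw [← hf]; rfl⟩

end Fin

end Fermat.Agent.S36.ThetaLoc
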