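/-
S36 block [D2], B-copy (helper106; A = helper82 `S36/ThetaLoc.lean`): a derivation that kills a
uniformiser kills everything.

* `eq_zero_of_forall_pow_smul` : (Krull) in a module over a noetherian local ring, an element
  which is `t ^ n` times an element of a fixed finitely generated submodule for every `n`
  (`t` in the maximal ideal) is zero;
* `derivation_eq_zero`         : `R` noetherian local, `D : Derivation k₀ R M` with values in a
  finitely generated submodule, `R = k₀ + t R`, `D t = 0` ⟹ `D = 0`;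
* `theta_comp_eq_zero`, `theta_ne_zero_of_local` : the series form for `θ = Q d/dQ` along a ring
  map `ρ : R → k((Q))` (`R` = the local ring of the reduced chart at a closed point with residue
  field `k` and local coordinate `t`, `ρ` = the reduction of `q`-expansions): if `θ (ρ x₀) ≠ 0`
  for some `x₀` (e.g. `x₀ = j`), then `θ (ρ t) ≠ 0`;
* `theta_mul_inv`              : the quotient rule for `θ`.
-/
import Mathlib
import Fermat.Agent.S36.RotTheta

set_option autoImplicit false

namespace Fermat.Agent.S36.ThetaLocB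

open Fermat.Agent.S36.RotTheta

section Krull

variable {R M : Type*} [CommRing R] [IsNoetherianRing R] [IsLocalRing R] [AddCommGroup M]
  [Module R M]

/-- **Krull's intersection theorem, elementwise**: an element of a module over a noetherian local
ring which, for every `n`, is `t ^ n` times an element of a fixed finitely generated submodule
(`t` in the maximal ideal) is zero. -/
theorem eq_zero_of_forall_pow_smul (t : R) (ht : t ∈ IsLocalRing.maximalIdeal R)
    (N : Submodule R M) (hN : N.FG) (m : M) (h : ∀ n : ℕ, ∃ y ∈ N, m = t ^ n • y) : m = 0 := by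
  have : Module.Finite R N := Module.Finite.iff_fg.2 hN
  have hI : Ideal.span {t} ≠ (⊤ : Ideal R) := by
    intro htop
    have h1 : (1 : R) ∈ Ideal.span {t} := by
      rw [htop]
      trivial
    have h2 : (1 : R) ∈ IsLocalRing.maximalIdeal R :=
      (Ideal.span_le.2 (Set.singleton_subset_iff.2 ht)) h1
    exact (IsLocalRing.maximalIdeal.isMaximal R).ne_top ((Ideal.eq_top_iff_one _).2 h2)
  obtain ⟨y₀, hy₀, hm₀⟩ := h 0
  have hmN : m ∈ N := by
    rw [hm₀, pow_zero, one_smul]
    exact hy₀
  have key : (⟨m, hmN⟩ : N) ∈ (⨅ i : ℕ, Ideal.span {t} ^ i • (⊤ : Submodule R N)) := by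
    rw [Submodule.mem_iInf]
    intro n
    obtain ⟨y, hy, hm⟩ := h n
    have e : (⟨m, hmN⟩ : N) = t ^ n • (⟨y, hy⟩ : N) := Subtype.ext hm
    rw [e]
    have ht' : t ∈ Ideal.span ({t} : Set R) := Ideal.subset_span (Set.mem_singleton t)
    have htn : t ^ n ∈ Ideal.span ({t} : Set R) ^ n := Ideal.pow_mem_pow ht' n
    exact Submodule.smul_mem_smul htn Submodule.mem_top
  rw [Ideal.iInf_pow_smul_eq_bot_of_isLocalRing _ hI, Submodule.mem_bot] at key
  exact congrArg Subtype.val key

/-- **[D2], abstract form.**  `R` a noetherian local `k₀`-algebra with `R = k₀ + t R`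
(`t` in the maximal ideal: the residue field is `k₀` and `t` generates the maximal ideal), `D` a
`k₀`-derivation of `R` with values in a finitely generated submodule.  If `D t = 0` then
`D = 0`. -/
theorem derivation_eq_zero {k₀ : Type*} [CommRing k₀] [Algebra k₀ R] [Module k₀ M]
    [IsScalarTower k₀ R M] (D : Derivation k₀ R M) (t : R)
    (ht : t ∈ IsLocalRing.maximalIdeal R)
    (hres : ∀ x : R, ∃ c : k₀, ∃ x' : R, x = algebraMap k₀ R c + t * x')
    (N : Submodule R M) (hN : N.FG) (hD : ∀ x, D x ∈ N) (h0 : D t = 0) (x : R) : D x = 0 := by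
  refine eq_zero_of_forall_pow_smul t ht N hN (D x) fun n => ?_
  induction n generalizing x with
  | zero => exact ⟨D x, hD x, by rw [pow_zero, one_smul]⟩
  | succ n ih =>
    obtain ⟨c, x', rfl⟩ := hres x
    obtain ⟨y, hy, hy'⟩ := ih x'
    refine ⟨y, hy, ?_⟩
    rw [map_add, D.map_algebraMap, zero_add, D.leibniz, h0, smul_zero, add_zero, hy', smul_smul,
      pow_succ']

end Krull

section Series

variable {k : Type*} [Field k]

/-- The quotient rule for `θ`. -/
theorem theta_mul_inv (f g : LaurentSeries k) (hg : g ≠ 0) :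
    theta (f * g⁻¹) = (theta f * g - f * theta g) * (g⁻¹) ^ 2 := by
  have h := theta_mul (f * g⁻¹) g
  rw [inv_mul_cancel_right₀ hg] at h
  have h1 : theta (f * g⁻¹) * g = theta f - f * g⁻¹ * theta g := by
    rw [h]
    ring
  have h2 : theta (f * g⁻¹) = (theta f - f * g⁻¹ * theta g) * g⁻¹ := by
    rw [← h1, mul_assoc, mul_inv_cancel₀ hg, mul_one]
  rw [h2]
  have h3 : g * g⁻¹ = 1 := mul_inv_cancel₀ hg
  linear_combination (-(theta f * g⁻¹)) * h3

variable {R : Type*} [CommRing R] [IsNoetherianRing R] [IsLocalRing R]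

/-- **[D2], series form.**  `ρ : R → k((Q))` a ring map from a noetherian local ring, `t` in the
maximal ideal with `ρ R = k + ρ t · ρ R`, and the `θ`-derivatives of `ρ R` contained in the
`ρ R`-span of a finite set.  If `θ (ρ t) = 0` then `θ ∘ ρ = 0`. -/
theorem theta_comp_eq_zero (ρ : R →+* LaurentSeries k) (t : R)
    (ht : t ∈ IsLocalRing.maximalIdeal R)
    (hres : ∀ x : R, ∃ c : k, ∃ x' : R, ρ x = HahnSeries.C c + ρ t * ρ x')
    (S : Finset (LaurentSeries k))
    (hfg : ∀ x : R, ∃ a : LaurentSeries k → R, theta (ρ x) = ∑ s ∈ S, ρ (a s) * s)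
    (h0 : theta (ρ t) = 0) (x : R) : theta (ρ x) = 0 := by
  let _ : Module R (LaurentSeries k) := Module.compHom _ ρ
  have hsmul : ∀ (r : R) (f : LaurentSeries k), r • f = ρ r * f := fun _ _ => rfl
  refine eq_zero_of_forall_pow_smul (M := LaurentSeries k) t ht
    (Submodule.span R (S : Set (LaurentSeries k))) (Submodule.fg_span S.finite_toSet) _
    fun n => ?_
  induction n generalizing x with
  | zero =>
    refine ⟨theta (ρ x), ?_, by rw [pow_zero, one_smul]⟩
    obtain ⟨a, ha⟩ := hfg x
    rw [ha]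
    refine Submodule.sum_mem _ fun s hs => ?_
    rw [← hsmul]
    exact Submodule.smul_mem _ _ (Submodule.subset_span hs)
  | succ n ih =>
    obtain ⟨c, x', hx⟩ := hres x
    obtain ⟨y, hy, hy'⟩ := ih x'
    refine ⟨y, hy, ?_⟩
    rw [hx, theta_add, theta_C, zero_add, theta_mul, h0, zero_mul, zero_add, hy', hsmul, hsmul,
      pow_succ', map_mul, mul_assoc]

/-- **`θ` of a local coordinate is nonzero**: in the situation of `theta_comp_eq_zero`, if
`θ (ρ x₀) ≠ 0` for some `x₀ : R` then `θ (ρ t) ≠ 0`. -/
theorem theta_ne_zero_of_local (ρ : R →+* LaurentSeries k) (t : R)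
    (ht : t ∈ IsLocalRing.maximalIdeal R)
    (hres : ∀ x : R, ∃ c : k, ∃ x' : R, ρ x = HahnSeries.C c + ρ t * ρ x')
    (S : Finset (LaurentSeries k))
    (hfg : ∀ x : R, ∃ a : LaurentSeries k → R, theta (ρ x) = ∑ s ∈ S, ρ (a s) * s)
    (x₀ : R) (hx₀ : theta (ρ x₀) ≠ 0) : theta (ρ t) ≠ 0 := fun h0 =>
  hx₀ (theta_comp_eq_zero ρ t ht hres S hfg h0 x₀)

end Series

end Fermat.Agent.S36.ThetaLocB
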