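/-
S36, package [TOP36] — VecI.lean (helper74).  The VECTOR half of the level block.

* `theta_mem_newKer_of_tr`   — pure logic ([K-tr] + the converse norm criterion of `S35/KGraph`):
                               a graph point `(u, x)` of `θ` at level `M' q` with `u` killed by
                               both transfers lies in `PushPic.newKer M' q = ker α_* ∩ ker β_*`
                               (any `M'`, `q`; in the application `q ∣ M'`);
* `exists_newSubgroup`       — per doubly special prime `q` (`q² ∥ N`, `N = M'' q q`): a constant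
                               `c ≠ 0` (from `Plan.InertTorsStatement M'' q`, chosen BEFORE the
                               torsion level `n`) and, for every `n`, a Galois-stable subgroup
                               `K ≤ J₀(N)[pⁿ]` containing `θ u` for every class `u` new at all
                               primes and every graph point of `θ`, whose inertia invariants at
                               every place over `q` are killed by `c`;
* `exists_vectorI`           — the eigenvector `v_n = ∑ x_i ⊗ θ_n (b_i)` of a newform for the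
                               coordinates of `NewVecAll.newVecStatementAll` and the graph-keeping
                               `θ_n` of `S35/KGraph`: annihilator in `pⁿ 𝒪`, Hecke eigenvector, in
                               the `𝒪`-span of the `1 ⊗ k`, `k` a graph value of `θ_n` at a class
                               new at all primes;
* `exists_vector_spec`       — the two together, in the shape consumed by the level half
                               (`hspec`): constants `c q` not depending on `n`, and for every `n`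
                               the vector with, per doubly special `q`, a Galois-stable `K` with
                               `v ∈ span 𝒪 (1 ⊗ K)` and `c q • K^{I_P} = 0` for all `P ∣ q`.
-/
import Mathlib
import Fermat.Agent.S29.Defs
import Fermat.Agent.S30.EigLevel
import Fermat.Agent.S35.KGraph
import Fermat.Agent.S35.NewPlan
import Fermat.Agent.S35.KTrPlan
import Fermat.Agent.S36.NewVecAll
import Fermat.Agent.S36.Plan

set_option autoImplicit false

noncomputable section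

open ModularCurve AlgebraicCurve CongruenceSubgroup
open scoped TensorProduct

namespace Fermat.Agent.S36.VecI

open Fermat.Agent.S29 (Qb GQ Jp galJp heckeJp mem_Jp_iff heckeLpar)
open Fermat.Agent.S30
open Fermat.Agent.S41 (Lpar tr₁ tr₂)
open Fermat.Agent.S35
open Fermat.Agent.S36.NewVecAll (IsNewAtAll)

set_option synthInstance.maxHeartbeats 400000

/-! ### Graph points of `θ` at classes killed by both transfers are `q`-new -/

/-- **[K-tr] ⇒ graph points are `q`-new** (pure logic): if `u ∈ Lpar (M' q)` is killed by both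
transfers to level `M'`, every graph point `(u, x)` of `θ` at torsion order `m ≠ 0` lies in
`ker α_* ∩ ker β_*`. -/
theorem theta_mem_newKer_of_tr {M' q m : ℕ} [NeZero M'] [NeZero q] (hm : m ≠ 0)
    (hK : KTrPlan.KTrStatement M' q m) {u : Lpar (M' * q)} {x : JZero (M' * q)}
    (hθ : Fermat.Agent.S29.KPlan.Theta (M' * q) m (u : Additive (Gamma0 (M' * q)) →+ ℤ) x)
    (h1 : tr₁ M' q (u : Additive (Gamma0 (M' * q)) →+ ℤ) = 0)
    (h2 : tr₂ M' q (u : Additive (Gamma0 (M' * q)) →+ ℤ) = 0) :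
    x ∈ PushPic.newKer M' q := by
  obtain ⟨y, f, D, hy, hf, hD, hx⟩ := hθ
  have hf0 : f ≠ 0 := by
    intro h0
    apply pow_ne_zero m hy.1
    rw [← hf, h0]
    rfl
  obtain ⟨ha, hb⟩ := hK u y hy f hf
  obtain ⟨h, c, -, -, e⟩ := ha h1
  obtain ⟨h', c', -, -, e'⟩ := hb h2
  rw [hx, PushPic.mem_newKer]
  exact ⟨KGraph.alphaPush_mk_eq_zero_of_norm M' q hm D f hf0 hD h c e,
    KGraph.betaPush_mk_eq_zero_of_norm M' q hm D f hf0 hD h' c' e'⟩

/-! ### The new subgroup at a doubly special prime -/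

/-- `q² ∥ N` gives `N = M'' q q` with `q ∤ M''`. -/
theorem exists_eq_mul_mul_of_factorization {N q : ℕ} (hq : q.Prime)
    (hN : N.factorization q = 2) : ∃ M'' : ℕ, N = M'' * q * q ∧ ¬ q ∣ M'' := by
  have hN0 : N ≠ 0 := by
    rintro rfl
    simp at hN
  have h2 : q ^ 2 ∣ N := (hq.pow_dvd_iff_le_factorization hN0).mpr hN.ge
  have h3 : ¬ q ^ 3 ∣ N := by
    rw [hq.pow_dvd_iff_le_factorization hN0, hN]
    norm_num
  obtain ⟨M'', hM''⟩ := h2
  refine ⟨M'', by rw [hM'']; ring, ?_⟩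
  rintro ⟨k, hk⟩
  exact h3 ⟨k, by rw [hM'', hk]; ring⟩

/-- **The new subgroup at a doubly special prime.**  Let `q ≠ p` be a prime with `q² ∥ N`.  From
[K-tr] at `q ∣ M'` and the geometric statement (P1) `Plan.InertTorsStatement`: a constant `c ≠ 0`
such that for every `n` there is a Galois-stable subgroup `K ≤ J₀(N)[pⁿ]` which contains every
graph value of `θ` (torsion order `pⁿ`) at a class new at all primes, and whose invariants under
the inertia group of any place over `q` are killed by `c`. -/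
theorem exists_newSubgroup
    (hKTr : ∀ (M' q : ℕ) [NeZero M'] [NeZero q], q.Prime → q ∣ M' → ∀ m : ℕ, m ≠ 0 →
      KTrPlan.KTrStatement M' q m)
    (hIT : ∀ (M'' q : ℕ) [NeZero M''] [NeZero q], q.Prime → ¬ q ∣ M'' →
      Plan.InertTorsStatement M'' q)
    (N : ℕ) [NeZero N] (p : ℕ) (hp : p.Prime) (q : ℕ) (hq : q.Prime) (hqp : q ≠ p)
    (hN : N.factorization q = 2) :
    ∃ c : ℕ, c ≠ 0 ∧ ∀ n : ℕ, ∃ K : AddSubgroup (Jp N (p ^ n)),
      (∀ σ : GQ, ∀ k ∈ K, galJp N (p ^ n) σ k ∈ K) ∧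
      (∀ (u : Lpar N) (k : Jp N (p ^ n)), IsNewAtAll N u →
        Fermat.Agent.S29.KPlan.Theta N (p ^ n) (u : Additive (Gamma0 N) →+ ℤ) (k : JZero N) →
        k ∈ K) ∧
      ∀ P : ValuationSubring Qb, P.LiesOverPrime q → ∀ k ∈ K,
        (∀ τ ∈ P.inertiaSubgroupIn ℚ, τ • (k : JZero N) = (k : JZero N)) → c • k = 0 := by
  obtain ⟨M'', hM'', hqM''⟩ := exists_eq_mul_mul_of_factorization hq hN
  subst hM''
  have hM0 : M'' ≠ 0 := fun h0 => NeZero.ne (M'' * q * q) (by rw [h0, zero_mul, zero_mul])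
  have : NeZero M'' := ⟨hM0⟩
  have : NeZero q := ⟨hq.ne_zero⟩
  obtain ⟨c, hc, hkill⟩ := hIT M'' q hq hqM''
  refine ⟨c, hc, fun n => ?_⟩
  have hpn : p ^ n ≠ 0 := pow_ne_zero n hp.ne_zero
  have hqpn : ¬ q ∣ p ^ n := fun h =>
    hqp ((Nat.prime_dvd_prime_iff_eq hq hp).mp (hq.dvd_of_dvd_pow h))
  refine ⟨(PushPic.newKer (M'' * q) q).comap (Jp (M'' * q * q) (p ^ n)).subtype.toAddMonoidHom,
    ?_, ?_, ?_⟩
  · intro σ k hk
    exact PushPic.galois_smul_mem_newKer (M'' * q) q σ hk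
  · intro u k hu hθ
    obtain ⟨h1, h2⟩ := hu.tr hq
    exact theta_mem_newKer_of_tr hpn (hKTr (M'' * q) q hq (dvd_mul_left q M'') (p ^ n) hpn)
      hθ h1 h2
  · intro P hP k hk hinv
    apply Subtype.ext
    have h := hkill (p ^ n) hpn hqpn P hP (k : JZero (M'' * q * q))
      ((mem_Jp_iff (M'' * q * q) (p ^ n) _).mp k.2) hk hinv
    rw [AddSubmonoidClass.coe_nsmul, ZeroMemClass.coe_zero]
    exact h

/-! ### The new eigenvector at level `pⁿ` -/

/-- **The new eigenvector at level `pⁿ`**: `v = ∑ x_i ⊗ θ_n (b_i)` for the primitive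
eigen-coordinates `x` of a newform `g` which are new at ALL primes (`NewVecAll`) and the
graph-keeping Kummer map `θ_n` of [K].  Its annihilator is contained in `pⁿ 𝒪`, it is an
eigenvector of the `T_ℓ` (`ℓ ∤ N`, `ℓ ∉ S`), and it is an `𝒪`-combination of pure tensors `1 ⊗ k`
with `k` a graph value of `θ_n` at a class new at all primes. -/
theorem exists_vectorI (N : ℕ) [NeZero N] (g : CuspForm (Gamma0 N) 2) (hg : g.IsNewform)
    (S : Set ℕ) (chig : CuspForm.heckeAlgebra N 2 S →+* ℂ)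
    (hchig : ∀ (ℓ : ℕ) (hℓ : ℓ.Prime) (hℓN : ¬ ℓ ∣ N) (hℓS : ℓ ∉ S),
      chig (CuspForm.heckeAlgebra.T hℓ hℓN hℓS) = ModularFormClass.qCoeff g ℓ)
    (p : ℕ) (hp : p.Prime) (hpS : p ∈ S)
    {𝒪 : Type} [CommRing 𝒪] [IsDomain 𝒪] [ValuationRing 𝒪] [CharZero 𝒪]
    (iota : chig.range →+* 𝒪) (n : ℕ) :
    ∃ v : 𝒪 ⊗[ℤ] (Jp N (p ^ n)), (∀ a : 𝒪, a • v = 0 → (p : 𝒪) ^ n ∣ a) ∧
      (∀ (ℓ : ℕ) (hℓ : ℓ.Prime) (hℓN : ¬ ℓ ∣ N) (hℓS : ℓ ∉ S),
        (heckeJp N (p ^ n) ⟨ℓ, hℓ⟩).baseChange 𝒪 v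
          = (iota.comp chig.rangeRestrict) (CuspForm.heckeAlgebra.T hℓ hℓN hℓS) • v) ∧
      v ∈ Submodule.span 𝒪 {z : 𝒪 ⊗[ℤ] (Jp N (p ^ n)) |
        ∃ (u : Lpar N) (k : Jp N (p ^ n)), IsNewAtAll N u ∧
          Fermat.Agent.S29.KPlan.Theta N (p ^ n) (u : Additive (Gamma0 N) →+ ℤ) (k : JZero N) ∧
          z = (1 : 𝒪) ⊗ₜ[ℤ] k} := by
  classical
  have hfin : Module.Finite ℤ (Lpar N) := Fermat.Agent.S41.LparFree.lpar_finite N
  have hfree : Module.Free ℤ (Lpar N) := Fermat.Agent.S41.LparFree.lpar_free N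
  set b := Module.finBasis ℤ (Lpar N) with hb
  obtain ⟨x, hx1, hx, hxnew⟩ :=
    Fermat.Agent.S36.NewVecAll.newVecStatementAll N g hg S chig hchig 𝒪 iota b
  have hpn : p ^ n ≠ 0 := pow_ne_zero n hp.ne_zero
  obtain ⟨θ, hθ1, hθ2, hθ3, hθ4⟩ := Fermat.Agent.S35.KGraph.kGraphStatement N (p ^ n) hpn
  -- the graph of `θ`
  have hgraph : ∀ u : Lpar N,
      Fermat.Agent.S29.KPlan.Theta N (p ^ n) (u : Additive (Gamma0 N) →+ ℤ) (θ u) := by
    intro u
    obtain ⟨y, f, hy, hf, -⟩ := Fermat.Agent.S35.KGraph.exists_wit N (p ^ n) hpn u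
    obtain ⟨D, hD, hu⟩ := hθ4 u y hy f hf
    exact ⟨y, f, D, hy, hf, hD, hu⟩
  -- corestriction of `θ` to the `pⁿ`-torsion
  let θ' : Lpar N →+ Jp N (p ^ n) :=
    { toFun := fun u => ⟨θ u, (mem_Jp_iff N (p ^ n) (θ u)).mpr (hθ1 u)⟩
      map_zero' := Subtype.ext (map_zero θ)
      map_add' := fun u v => Subtype.ext (map_add θ u v) }
  have hker : ∀ u, θ'.toIntLinearMap u = 0 → ∃ z, u = ((p ^ n : ℕ) : ℤ) • z := by
    intro u hu
    apply hθ2 u
    have h : ((θ' u : Jp N (p ^ n)) : JZero N) = 0 := congrArg Subtype.val hu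
    exact h
  have hheck : ∀ (ℓ : ℕ) (hℓ : ℓ.Prime) (hℓN : ¬ ℓ ∣ N), ℓ ≠ p → ∀ u,
      heckeJp N (p ^ n) ⟨ℓ, hℓ⟩ (θ' u) = θ' (heckeLpar N ℓ hℓ hℓN u) := by
    intro ℓ hℓ hℓN hℓp u
    apply Subtype.ext
    change heckeOperatorBar N ⟨ℓ, hℓ⟩ (θ u) = θ (heckeLpar N ℓ hℓ hℓN u)
    refine (hθ3 ℓ hℓ hℓN ?_ u).symm
    intro hℓpn
    rcases Nat.eq_zero_or_pos n with hn | hn
    · rw [hn, pow_zero] at hℓpn
      exact hℓ.one_lt.ne' hℓpn
    · have hdvd : p ∣ ℓ := hℓpn ▸ dvd_pow_self p hn.ne'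
      exact hℓp ((Nat.prime_dvd_prime_iff_eq hp hℓ).mp hdvd).symm
  refine ⟨∑ i, x i ⊗ₜ[ℤ] θ' (b i), ?_, ?_, ?_⟩
  · intro a ha
    have h := EigLevel.dvd_of_smul_sum_tmul_eq_zero b θ'.toIntLinearMap (p ^ n) hker x hx1 a ha
    rwa [Nat.cast_pow] at h
  · intro ℓ hℓ hℓN hℓS
    have hℓp : ℓ ≠ p := fun h => hℓS (h ▸ hpS)
    rw [map_sum]
    simp_rw [LinearMap.baseChange_tmul, hheck ℓ hℓ hℓN hℓp]
    exact EigLevel.sum_tmul_map_eq_smul b (heckeLpar N ℓ hℓ hℓN)
      θ'.toIntLinearMap x _ (fun k => hx ℓ hℓ hℓN hℓS k)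
  · -- push the membership of `NewVecAll` through `1 ⊗ θ'`
    have hmap : (∑ i, x i ⊗ₜ[ℤ] θ' (b i) : 𝒪 ⊗[ℤ] (Jp N (p ^ n)))
        = (θ'.toIntLinearMap.baseChange 𝒪) (∑ i, x i ⊗ₜ[ℤ] b i) := by
      rw [map_sum]
      rfl
    rw [hmap]
    have h1 := Submodule.mem_map_of_mem (f := θ'.toIntLinearMap.baseChange 𝒪) hxnew
    rw [Submodule.map_span] at h1
    refine Submodule.span_mono ?_ h1
    rintro _ ⟨_, ⟨u, hu, rfl⟩, rfl⟩
    exact ⟨u, θ' u, hu, hgraph u, rfl⟩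

/-! ### The vector with its subgroups at the doubly special primes -/

/-- **The vector half of the level block** (input `hspec` of the level half): constants `c q ≠ 0`
at the doubly special primes (`q ≠ p` prime, `q² ∥ N`), NOT depending on `n`, and for every `n`
an eigenvector `v ∈ 𝒪 ⊗ J₀(N)[pⁿ]` (annihilator in `pⁿ 𝒪`) together with, for every doubly
special `q`, a Galois-stable subgroup `K ≤ J₀(N)[pⁿ]` with `v ∈ span 𝒪 (1 ⊗ K)` whose invariants
under the inertia group of any place `P` over `q` are killed by `c q`. -/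
theorem exists_vector_spec
    (hKTr : ∀ (M' q : ℕ) [NeZero M'] [NeZero q], q.Prime → q ∣ M' → ∀ m : ℕ, m ≠ 0 →
      KTrPlan.KTrStatement M' q m)
    (hIT : ∀ (M'' q : ℕ) [NeZero M''] [NeZero q], q.Prime → ¬ q ∣ M'' →
      Plan.InertTorsStatement M'' q)
    (N : ℕ) [NeZero N] (g : CuspForm (Gamma0 N) 2) (hg : g.IsNewform)
    (S : Set ℕ) (chig : CuspForm.heckeAlgebra N 2 S →+* ℂ)
    (hchig : ∀ (ℓ : ℕ) (hℓ : ℓ.Prime) (hℓN : ¬ ℓ ∣ N) (hℓS : ℓ ∉ S),
      chig (CuspForm.heckeAlgebra.T hℓ hℓN hℓS) = ModularFormClass.qCoeff g ℓ)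
    (p : ℕ) (hp : p.Prime) (hpS : p ∈ S)
    {𝒪 : Type} [CommRing 𝒪] [IsDomain 𝒪] [ValuationRing 𝒪] [CharZero 𝒪]
    (iota : chig.range →+* 𝒪) :
    ∃ c : ℕ → ℕ, (∀ q : ℕ, q.Prime → q ≠ p → N.factorization q = 2 → c q ≠ 0) ∧
      ∀ n : ℕ, ∃ v : 𝒪 ⊗[ℤ] (Jp N (p ^ n)), (∀ a : 𝒪, a • v = 0 → (p : 𝒪) ^ n ∣ a) ∧
        (∀ (ℓ : ℕ) (hℓ : ℓ.Prime) (hℓN : ¬ ℓ ∣ N) (hℓS : ℓ ∉ S),
          (heckeJp N (p ^ n) ⟨ℓ, hℓ⟩).baseChange 𝒪 v
            = (iota.comp chig.rangeRestrict) (CuspForm.heckeAlgebra.T hℓ hℓN hℓS) • v) ∧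
        ∀ q : ℕ, q.Prime → q ≠ p → N.factorization q = 2 →
          ∃ K : AddSubgroup (Jp N (p ^ n)),
            (∀ σ : GQ, ∀ k ∈ K, galJp N (p ^ n) σ k ∈ K) ∧
            v ∈ Submodule.span 𝒪 {z : 𝒪 ⊗[ℤ] (Jp N (p ^ n)) | ∃ k ∈ K, z = (1 : 𝒪) ⊗ₜ[ℤ] k} ∧
            ∀ P : ValuationSubring Qb, P.LiesOverPrime q → ∀ k ∈ K,
              (∀ τ ∈ P.inertiaSubgroupIn ℚ, τ • (k : JZero N) = (k : JZero N)) → c q • k = 0 := by
  classical
  have hex : ∀ q : ℕ, ∃ c : ℕ, q.Prime → q ≠ p → N.factorization q = 2 →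
      (c ≠ 0 ∧ ∀ n : ℕ, ∃ K : AddSubgroup (Jp N (p ^ n)),
        (∀ σ : GQ, ∀ k ∈ K, galJp N (p ^ n) σ k ∈ K) ∧
        (∀ (u : Lpar N) (k : Jp N (p ^ n)), IsNewAtAll N u →
          Fermat.Agent.S29.KPlan.Theta N (p ^ n) (u : Additive (Gamma0 N) →+ ℤ) (k : JZero N) →
          k ∈ K) ∧
        ∀ P : ValuationSubring Qb, P.LiesOverPrime q → ∀ k ∈ K,
          (∀ τ ∈ P.inertiaSubgroupIn ℚ, τ • (k : JZero N) = (k : JZero N)) → c • k = 0) := by
    intro q
    by_cases h : q.Prime ∧ q ≠ p ∧ N.factorization q = 2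
    · obtain ⟨c, hc⟩ := exists_newSubgroup hKTr hIT N p hp q h.1 h.2.1 h.2.2
      exact ⟨c, fun _ _ _ => hc⟩
    · exact ⟨1, fun h1 h2 h3 => absurd ⟨h1, h2, h3⟩ h⟩
  choose c hc using hex
  refine ⟨c, fun q h1 h2 h3 => (hc q h1 h2 h3).1, fun n => ?_⟩
  obtain ⟨v, hann, hv, hspan⟩ := exists_vectorI N g hg S chig hchig p hp hpS iota n
  refine ⟨v, hann, hv, fun q h1 h2 h3 => ?_⟩
  obtain ⟨K, hK1, hK2, hK3⟩ := (hc q h1 h2 h3).2 n
  refine ⟨K, hK1, ?_, hK3⟩
  refine Submodule.span_mono ?_ hspan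
  rintro _ ⟨u, k, hu, hθ, rfl⟩
  exact ⟨k, hK2 u k hu hθ, rfl⟩

end Fermat.Agent.S36.VecI
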