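/-
S36, package [TOP36] — Top36.lean (helper74).  The top of S36 along the A-chain
(`PseudoI` / `DetI` of helper5, `VecI` of helper74, `LevelIB` of helper68); an independent copy of
`S36/Top36B.lean` (helper114), which runs through `PseudoIB` / `DetIB` and its own level block.

* `levelIStatement`      — `DetI.LevelIStatement` for a newform, from [K-tr] at `q ∣ M`
                           (`KTr36.kTr36`, on main) and the geometric input (P1)
                           `Plan.InertTorsStatement`;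
* `result_of_inertTors`  — the frozen conclusion of S36 from (P1).
-/
import Mathlib
import Fermat.Agent.S13.AtP
import Fermat.Agent.S29.FD
import Fermat.Agent.S30.OddRepB
import Fermat.Agent.S36.KTr36
import Fermat.Agent.S36.TensorInv
import Fermat.Agent.S36.VecI
import Fermat.Agent.S36.LevelIB
import Fermat.Agent.S36.DetI

set_option autoImplicit false

open CongruenceSubgroup Polynomial

namespace Fermat.Agent.S36.Top36

/-- **`DetI.LevelIStatement` for a newform**, from the geometric input (P1)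
`Plan.InertTorsStatement` at every level `M q q`, `q ∤ M`. -/
theorem levelIStatement
    (hIT : ∀ (M q : ℕ) [NeZero M] [NeZero q], q.Prime → ¬ q ∣ M →
      Fermat.Agent.S36.Plan.InertTorsStatement M q)
    {N : ℕ} [NeZero N] {g : CuspForm (Gamma0 N) 2} (hg : g.IsNewform)
    (p : ℕ) (hp : p.Prime) (S : Finset ℕ) (hpS : p ∈ S)
    (𝒪 : Type) [CommRing 𝒪] [IsDomain 𝒪] [ValuationRing 𝒪] [CharZero 𝒪]
    (chig : CuspForm.heckeAlgebra N 2 (↑S : Set ℕ) →+* ℂ)
    (hchig : ∀ (ℓ : ℕ) (hℓ : ℓ.Prime) (hℓN : ¬ ℓ ∣ N) (hℓS : ℓ ∉ (↑S : Set ℕ)),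
      chig (CuspForm.heckeAlgebra.T hℓ hℓN hℓS) = ModularFormClass.qCoeff g ℓ)
    (iota : chig.range →+* 𝒪) :
    Fermat.Agent.S36.DetI.LevelIStatement p N S 𝒪 (iota.comp chig.rangeRestrict) := by
  have hflat : Module.Flat ℤ 𝒪 := Fermat.Agent.S36.TensorInv.flat_int_of_charZero_domain 𝒪
  obtain ⟨c, hc, hvec⟩ := Fermat.Agent.S36.VecI.exists_vector_spec
    (fun M' q _ _ hq hqM m hm => Fermat.Agent.S36.KTr36.kTr36 M' q m hq hqM hm) hIT N g hg
    (↑S : Set ℕ) chig hchig p hp (Finset.mem_coe.mpr hpS) iota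
  refine ⟨fun q => ((c q : ℕ) : 𝒪),
    fun q hq => Nat.cast_ne_zero.mpr (hc q hq.1 hq.2.1 hq.2.2), fun n => ?_⟩
  obtain ⟨v, hann, hv, hspec⟩ := hvec n
  obtain ⟨Lv, hLv⟩ := Fermat.Agent.S36.LevelIB.nonempty_levelI_of_vector N p hp (↑S : Set ℕ)
    (Finset.mem_coe.mpr hpS) (iota.comp chig.rangeRestrict) n v hann hv
    (Fermat.Agent.S36.DetI.spec2Prime N p) c (fun q hq => hspec q hq.1 hq.2.1 hq.2.2)
  refine ⟨Lv, fun q hq => ?_⟩
  obtain ⟨P, hP⟩ := Fermat.Agent.S13.AtP.exists_liesOverPrime hq.1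
  exact ⟨P, hP, fun y hy => hLv q hq P hP y hy⟩

/-- **The frozen statement of S36** from the geometric input (P1) of the architect's plan:
`Plan.InertTorsStatement M q` for every prime `q` and every `M` prime to `q` (level `M q q`).
The hypotheses `hlam2`, `hres` of the frozen statement are not needed. -/
theorem result_of_inertTors
    (hIT : ∀ (M q : ℕ) [NeZero M] [NeZero q], q.Prime → ¬ q ∣ M →
      Fermat.Agent.S36.Plan.InertTorsStatement M q)
    {M : ℕ} [NeZero M] {g : CuspForm (CongruenceSubgroup.Gamma0 M) 2} (hg : g.IsNewform)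
    (lam : ℕ) [Fact lam.Prime]
    (S : Finset ℕ)
    (O' : Type) [CommRing O'] [IsDomain O'] [IsDiscreteValuationRing O']
    [IsAdicComplete (IsLocalRing.maximalIdeal O') O'] [Finite (IsLocalRing.ResidueField O')]
    [CharZero O'] (hlamO' : (lam : O') ∈ IsLocalRing.maximalIdeal O')
    (chig : CuspForm.heckeAlgebra M 2 (↑S : Set ℕ) →+* ℂ)
    (hchig : ∀ (ℓ : ℕ) (hℓ : ℓ.Prime) (hℓM : ¬ ℓ ∣ M) (hℓS : ℓ ∉ (↑S : Set ℕ)),
      chig (CuspForm.heckeAlgebra.T hℓ hℓM hℓS) = ModularFormClass.qCoeff g ℓ)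
    (iota : chig.range →+* O')
    (hlamS : lam ∈ S) (hMS : ∀ q : ℕ, q.Prime → q ∣ M → q ∈ S) :
    ∃ (O'' : Type) (_ : CommRing O'') (_ : IsDomain O'') (_ : IsDiscreteValuationRing O'')
      (_ : IsAdicComplete (IsLocalRing.maximalIdeal O'') O'')
      (_ : Finite (IsLocalRing.ResidueField O''))
      (_ : CharZero O'') (_ : Algebra O' O'') (_ : Module.Finite O' O'')
      (_ : IsLocalHom (algebraMap O' O'')),
      Function.Injective (algebraMap O' O'') ∧
      ∃ ρ : GaloisRepAdic O'',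
        (∀ (ℓ : ℕ) (hℓ : ℓ.Prime) (hℓM : ¬ ℓ ∣ M) (hℓS : ℓ ∉ (↑S : Set ℕ)),
          ∀ A : ValuationSubring (AlgebraicClosure ℚ), A.LiesOverPrime ℓ →
            ∀ σ : AlgebraicClosure ℚ ≃ₐ[ℚ] AlgebraicClosure ℚ, A.IsFrobeniusAt σ ℓ →
              LinearMap.charpoly (ρ.ρ σ) =
                X ^ 2 - C (algebraMap O' O'' ((iota.comp chig.rangeRestrict)
                  (CuspForm.heckeAlgebra.T hℓ hℓM hℓS))) * X + C ((ℓ : O''))) ∧
        (∀ q : ℕ, q.Prime → q ≠ lam → M.factorization q = 2 →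
          ¬ ρ.IsUnipotentOnInertiaAt q) :=
  Fermat.Agent.S36.DetI.result_of_levelI Fermat.Agent.S30.OddRepB.oddRepStatement
    Fermat.Agent.S29.FD.fdStatement lam S O' hlamO' (iota.comp chig.rangeRestrict) hlamS hMS
    (levelIStatement hIT hg lam Fact.out S hlamS O' chig hchig iota)

end Fermat.Agent.S36.Top36
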