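/-
S36 — TorPlugC.lean (helper72): D4 CLOSED at the tuple of record (`ChainM3`).

`TorPlugB.torOutProp_record` (the toric/local property `LocAsm3.TorOutProp` for the record
valuation rings from the single input `Hinc : Inc3.Hyp …` for `Md.c0.P`) composed with
`Inc3Closed.hyp_of_model3` (block [INC3] closed for the objects of record of `Model3Top.model3`):
no hypothesis left beyond the base data and the model itself.

* `torOutProp_rec`        — `LocAsm3.TorOutProp M q m A K π (ChainM3.val3 …) (Chart3B.J3 …)` for ANY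
                            model `Md` of record (base `K` with `BaseFacts`, inertia fixing `K`);
* `recPropM_of_model_corr` — `ChainM3.RecPropM` from the model and `LocAsm3.CorrProp`;
* `recProp_of_princ_corr`  — `ChainM3.RecProp` from the two `PrincAt` and `LocAsm3.CorrProp`;
* `chainL_of_model_corr`   — `LocAsm3L.ChainStatementL M q` from the model and `CorrProp` at the
                            tuple of record over the inertia field;
* `chain_of_model_corr`    — `LocAsm3.ChainStatement M q`, the same over every unramified base.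
-/
import Mathlib
import Fermat.Agent.S36.TorPlugB
import Fermat.Agent.S36.Inc3Closed
import Fermat.Agent.S36.ChainM3

set_option autoImplicit false

noncomputable section

namespace Fermat.Agent.S36.TorPlugC

open ModularCurve AlgebraicCurve HahnSeries
open Fermat.Agent.S18 Fermat.Agent.S18.Arith
open Fermat.Agent.S34 Fermat.Agent.S36.Model3Plan

section Record

variable {M q : ℕ} [NeZero M] [NeZero q] {hq : q.Prime} {hqM : ¬ q ∣ M}
  {A : ValuationSubring Qb} {K : IntermediateField ℚ Qb}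

/-- **D4 closed**: the toric/local property `LocAsm3.TorOutProp` at the tuple of record, for any
model of record. -/
theorem torOutProp_rec (hA : A.LiesOverPrime q) (hB : BaseFacts q A K)
    (hK : ∀ σ ∈ A.inertiaSubgroupIn ℚ, ∀ a ∈ K, σ a = a)
    {π : OK A K} (hπ : Irreducible π) (hπq : incO A K π = (q : Qb)) {ξ : Qb}
    (hξ : IsPrimitiveRoot ξ q)
    (Md : Model3 (M * q * q) A K π (Model3Plan.ram q) (ChainM3.unif3 M q hq hqM A K π)
      (ChainM3.val3 M q hq hqM A K hB.dvr π hπ hπq ξ hξ) (Chart3B.J3 M q hq hqM K))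
    {m : ℕ} (hm : m ≠ 0) (hqm : ¬ q ∣ m) :
    LocAsm3.TorOutProp M q m A K π (ChainM3.val3 M q hq hqM A K hB.dvr π hπ hπq ξ hξ)
      (Chart3B.J3 M q hq hqM K) :=
  haveI : Fact q.Prime := ⟨hq⟩
  haveI : IsDiscreteValuationRing (OK A K) := hB.dvr
  TorPlugB.torOutProp_record hq hqM hA hB hK hξ hξ.pow_eq_one (hξ.ne_one hq.one_lt)
    (V3.hyp3_iota3 hq hqM A hB.dvr π hπ hπq hξ) Md
    (Inc3Closed.hyp_of_model3 (V3.hyp3_iota3 hq hqM A hB.dvr π hπ hπq hξ) hA hB hπ (1 : A)
      (by rw [hπq]; simp) (BaseXi.exists_unit hq π hπ hπq hξ) Md) hm hqm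

/-- `ChainM3.RecPropM` from the model and the corrector property. -/
theorem recPropM_of_model_corr (hA : A.LiesOverPrime q) (hB : BaseFacts q A K)
    (hK : ∀ σ ∈ A.inertiaSubgroupIn ℚ, ∀ a ∈ K, σ a = a)
    {π : OK A K} (hπ : Irreducible π) (hπq : incO A K π = (q : Qb)) {ξ : Qb}
    (hξ : IsPrimitiveRoot ξ q) {m : ℕ} (hm : m ≠ 0) (hqm : ¬ q ∣ m)
    (hM : Nonempty (Model3 (M * q * q) A K π (Model3Plan.ram q) (ChainM3.unif3 M q hq hqM A K π)
      (ChainM3.val3 M q hq hqM A K hB.dvr π hπ hπq ξ hξ) (Chart3B.J3 M q hq hqM K)))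
    (hC : LocAsm3.CorrProp M q m A K π (ChainM3.unif3 M q hq hqM A K π)
      (ChainM3.val3 M q hq hqM A K hB.dvr π hπ hπq ξ hξ)) :
    ChainM3.RecPropM M q hq hqM A K m hB.dvr π hπ hπq ξ hξ :=
  ⟨hM, hC, hM.elim fun Md => torOutProp_rec hA hB hK hπ hπq hξ Md hm hqm⟩

/-- `ChainM3.RecProp` from the two `PrincAt` inputs and the corrector property. -/
theorem recProp_of_princ_corr (hA : A.LiesOverPrime q) (hB : BaseFacts q A K)
    (hK : ∀ σ ∈ A.inertiaSubgroupIn ℚ, ∀ a ∈ K, σ a = a)
    {π : OK A K} (hπ : Irreducible π) (hπq : incO A K π = (q : Qb)) {ξ : Qb}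
    (hξ : IsPrimitiveRoot ξ q) {m : ℕ} (hm : m ≠ 0) (hqm : ¬ q ∣ m)
    (h0 : ChainM3.PrincAt (chart (M * q * q) A K (Chart3B.J3 M q hq hqM K)) π
      (ChainM3.unif3 M q hq hqM A K π) (ChainM3.val3 M q hq hqM A K hB.dvr π hπ hπq ξ hξ)
      (Model3Top.le0 (V3.hyp3_iota3 hq hqM A hB.dvr π hπ hπq hξ) hB.dvr))
    (hInf : ChainM3.PrincAt (chart (M * q * q) A K (Chart3B.J3 M q hq hqM K)⁻¹) π
      (ChainM3.unif3 M q hq hqM A K π) (ChainM3.val3 M q hq hqM A K hB.dvr π hπ hπq ξ hξ)
      (Model3Top.leInf (V3.hyp3_iota3 hq hqM A hB.dvr π hπ hπq hξ) hB.dvr))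
    (hC : LocAsm3.CorrProp M q m A K π (ChainM3.unif3 M q hq hqM A K π)
      (ChainM3.val3 M q hq hqM A K hB.dvr π hπ hπq ξ hξ)) :
    ChainM3.RecProp M q hq hqM A K m hB.dvr π hπ hπq ξ hξ :=
  ⟨h0, hInf, hC,
    torOutProp_rec hA hB hK hπ hπq hξ (ChainM3.model3_rec hA hB hπ hπq hξ h0 hInf) hm hqm⟩

end Record

section Chain

variable (M q : ℕ) [NeZero M] [NeZero q] [Fact q.Prime]

/-- **The chain over the inertia field** from the model and the corrector property at the tuple
of record (the toric/local property is `torOutProp_rec`). -/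
theorem chainL_of_model_corr (hqM : ¬ q ∣ M)
    (h : ∀ m : ℕ, m ≠ 0 → ¬ q ∣ m → ∀ A : ValuationSubring Qb, A.LiesOverPrime q →
      ∀ (hdvr : IsDiscreteValuationRing (OK A (UnrBaseL.inertiaField A)))
        (π : OK A (UnrBaseL.inertiaField A)) (hπ : Irreducible π)
        (hπq : incO A (UnrBaseL.inertiaField A) π = (q : Qb)) (ξ : Qb)
        (hξ : IsPrimitiveRoot ξ q),
        Nonempty (Model3 (M * q * q) A (UnrBaseL.inertiaField A) π (Model3Plan.ram q)
          (ChainM3.unif3 M q Fact.out hqM A (UnrBaseL.inertiaField A) π)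
          (ChainM3.val3 M q Fact.out hqM A (UnrBaseL.inertiaField A) hdvr π hπ hπq ξ hξ)
          (Chart3B.J3 M q Fact.out hqM (UnrBaseL.inertiaField A))) ∧
        LocAsm3.CorrProp M q m A (UnrBaseL.inertiaField A) π
          (ChainM3.unif3 M q Fact.out hqM A (UnrBaseL.inertiaField A) π)
          (ChainM3.val3 M q Fact.out hqM A (UnrBaseL.inertiaField A) hdvr π hπ hπq ξ hξ)) :
    LocAsm3L.ChainStatementL M q :=
  ChainM3.chainL_of_recM M q hqM (fun m hm hqm A hA hdvr π hπ hπq ξ hξ =>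
    recPropM_of_model_corr hA (LocAsm3L.unrBase_inertiaField hA).1
      (LocAsm3L.unrBase_inertiaField hA).2.2 hπ hπq hξ hm hqm
      (h m hm hqm A hA hdvr π hπ hπq ξ hξ).1 (h m hm hqm A hA hdvr π hπ hπq ξ hξ).2)

/-- **The chain over every unramified base** from the model and the corrector property at the
tuple of record. -/
theorem chain_of_model_corr (hqM : ¬ q ∣ M)
    (h : ∀ m : ℕ, m ≠ 0 → ¬ q ∣ m → ∀ A : ValuationSubring Qb, A.LiesOverPrime q →
      ∀ K : IntermediateField ℚ Qb, Plan.UnrBase q A K →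
      ∀ (hdvr : IsDiscreteValuationRing (OK A K)) (π : OK A K) (hπ : Irreducible π)
        (hπq : incO A K π = (q : Qb)) (ξ : Qb) (hξ : IsPrimitiveRoot ξ q),
        Nonempty (Model3 (M * q * q) A K π (Model3Plan.ram q)
          (ChainM3.unif3 M q Fact.out hqM A K π)
          (ChainM3.val3 M q Fact.out hqM A K hdvr π hπ hπq ξ hξ)
          (Chart3B.J3 M q Fact.out hqM K)) ∧
        LocAsm3.CorrProp M q m A K π (ChainM3.unif3 M q Fact.out hqM A K π)
          (ChainM3.val3 M q Fact.out hqM A K hdvr π hπ hπq ξ hξ)) :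
    LocAsm3.ChainStatement M q :=
  ChainM3.chain_of_recM M q hqM (fun m hm hqm A hA K hK hdvr π hπ hπq ξ hξ =>
    recPropM_of_model_corr hA hK.1 hK.2.2 hπ hπq hξ hm hqm
      (h m hm hqm A hA K hK hdvr π hπ hπq ξ hξ).1 (h m hm hqm A hA K hK hdvr π hπ hπq ξ hξ).2)

end Chain

end Fermat.Agent.S36.TorPlugC

end
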