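/-
S36 — Toric.lean (helper63).  Block [TORIC] of the S36 blueprint (board #2891 (6), #3038):
the gluing constants of an `m`-th root at the triple points of the special fibre are independent
of the point after raising to the power `q ^ 2 - 1`, and are removed by ONE corrector `H`.
Abstract commutative algebra, Mathlib only.

Vocabulary (chart language of `S34/LocPlan`):

* `Cong V ϖ x y`  : `x ≡ y` modulo `ϖ V`                (`∃ z ∈ V, x - y = ϖ * z`);
* `OneAt ϖ n x`   : `x ∈ 1 + ϖ R_n`    (`∃ s ∉ n, ∃ r, s * (x - 1) = ϖ * r` in the fraction field);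
* a NORMAL FORM of `G` at a point `n` is `(g₀, γ)` with `g₀ ≡ γ i` (a constant) modulo `ϖ (V i)`
  on the branches `i` through `n` and `G / g₀ ^ m ∈ 1 + ϖ R_n`.

Results:

* `node_congr`       (T1) downstairs, two branches: if `G' = c * h ^ m` with `h ≡ η j` on the
                     branch `j` and `(g', γ')` is a normal form of `G'` at a point `n'` on both
                     branches, then `η 0 * γ' 1 - η 1 * γ' 0 ∈ n'`  (independent copy of the core
                     of `S36/ToricRel.rel`, which is the relation of record);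
* `dvd_of_algebraMap_mem` : a constant of a discrete valuation ring lying in a proper ideal is
                     divisible by the uniformizer;
* `toric_field`      the field identity: the two relations `a0 * y ^ q = a1 * (x * z ^ (q - 1))`
                     and `b0 * (y * z ^ (q - 1)) = b1 * x ^ q` determine `y ^ (q ^ 2 - 1)` and
                     `z ^ (q ^ 2 - 1)` from `x ^ (q ^ 2 - 1)`;
* `exists_corrector` (T3) from the two relations (exponents of `α`: `(1, 0, q - 1)`, `(0, q, 0)`,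
                     of `β`: `(q, 0, 0)`, `(0, 1, q - 1)`) at every triple point: ONE corrector
                     `H`, congruent to constants `y i` with `y i ^ m ≡ 1` on the three branches,
                     such that `G₂ = G ^ (q ^ 2 - 1) * H ^ m` is `≡ 1` modulo `ϖ (V i)` and has,
                     at EVERY point `p`, a normal form with constants `1`: `∃ a, a ≡ 1` on the
                     branches through `p` and `G₂ * a ^ m ∈ 1 + ϖ R_p`  (the inputs `ha₀`, `hloc`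
                     of `S36/SmoothFixN.smoothFixN`).  The points are an abstract type, so one
                     corrector serves all the charts.
-/
import Mathlib

set_option autoImplicit false

namespace Fermat.Agent.S36.Toric

/-! ### Vocabulary -/

/-- `x ≡ y` modulo `ϖ V`. -/
def Cong {E : Type*} [Field E] (V : ValuationSubring E) (ϖ x y : E) : Prop :=
  ∃ z ∈ V, x - y = ϖ * z

/-- `x ∈ 1 + ϖ R_n`, in the language of the fraction field. -/
def OneAt {R E : Type*} [CommRing R] [Field E] [Algebra R E] (ϖ : E) (n : Ideal R) (x : E) :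
    Prop :=
  ∃ s : R, s ∉ n ∧ ∃ r : R, algebraMap R E s * (x - 1) = ϖ * algebraMap R E r

section CongCalculus

variable {E : Type*} [Field E] {V : ValuationSubring E} {ϖ : E}

theorem Cong.refl (x : E) : Cong V ϖ x x := ⟨0, V.zero_mem, by ring⟩

theorem Cong.symm {x y : E} (h : Cong V ϖ x y) : Cong V ϖ y x := by
  obtain ⟨z, hz, h⟩ := h
  exact ⟨-z, V.neg_mem _ hz, by linear_combination -h⟩

theorem Cong.trans {x y w : E} (h : Cong V ϖ x y) (h' : Cong V ϖ y w) : Cong V ϖ x w := by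
  obtain ⟨z, hz, h⟩ := h
  obtain ⟨z', hz', h'⟩ := h'
  exact ⟨z + z', V.add_mem _ _ hz hz', by linear_combination h + h'⟩

theorem Cong.add {x y x' y' : E} (h : Cong V ϖ x y) (h' : Cong V ϖ x' y') :
    Cong V ϖ (x + x') (y + y') := by
  obtain ⟨z, hz, h⟩ := h
  obtain ⟨z', hz', h'⟩ := h'
  exact ⟨z + z', V.add_mem _ _ hz hz', by linear_combination h + h'⟩

theorem Cong.sub {x y x' y' : E} (h : Cong V ϖ x y) (h' : Cong V ϖ x' y') :
    Cong V ϖ (x - x') (y - y') := by
  obtain ⟨z, hz, h⟩ := h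
  obtain ⟨z', hz', h'⟩ := h'
  exact ⟨z - z', sub_mem hz hz', by linear_combination h - h'⟩

/-- Congruences multiply, provided the right-hand factors and the left factor `x'` lie in `V`. -/
theorem Cong.mul {x y x' y' : E} (h : Cong V ϖ x y) (h' : Cong V ϖ x' y') (hy : y ∈ V)
    (hx' : x' ∈ V) : Cong V ϖ (x * x') (y * y') := by
  obtain ⟨z, hz, h⟩ := h
  obtain ⟨z', hz', h'⟩ := h'
  exact ⟨z * x' + y * z', V.add_mem _ _ (V.mul_mem _ _ hz hx') (V.mul_mem _ _ hy hz'),
    by linear_combination x' * h + y * h'⟩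

theorem Cong.mul_left {x y : E} (h : Cong V ϖ x y) {w : E} (hw : w ∈ V) :
    Cong V ϖ (w * x) (w * y) := by
  obtain ⟨z, hz, h⟩ := h
  exact ⟨w * z, V.mul_mem _ _ hw hz, by linear_combination w * h⟩

/-- If `x ≡ y` modulo `ϖ V`, `y ∈ V` and `ϖ ∈ V`, then `x ∈ V`. -/
theorem Cong.mem {x y : E} (h : Cong V ϖ x y) (hϖ : ϖ ∈ V) (hy : y ∈ V) : x ∈ V := by
  obtain ⟨z, hz, h⟩ := h
  have e : x = y + ϖ * z := by linear_combination h
  rw [e]
  exact V.add_mem _ _ hy (V.mul_mem _ _ hϖ hz)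

theorem Cong.pow {x y : E} (h : Cong V ϖ x y) (hϖ : ϖ ∈ V) (hy : y ∈ V) (k : ℕ) :
    Cong V ϖ (x ^ k) (y ^ k) := by
  induction k with
  | zero => simpa using Cong.refl (V := V) (ϖ := ϖ) (1 : E)
  | succ k ih =>
    rw [pow_succ, pow_succ]
    exact ih.mul h (V.pow_mem hy k) (h.mem hϖ hy)

/-- `1 + ϖ z` is a unit of `V` when `ϖ` is a nonunit of `V`. -/
theorem inv_mem_of_cong_one {x : E} (h : Cong V ϖ x 1) (hϖ : ϖ ∈ V.nonunits) : x⁻¹ ∈ V := by
  obtain ⟨z, hz, h⟩ := h
  have hx : x = 1 + ϖ * z := by linear_combination h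
  have hϖV : ϖ ∈ V := ValuationSubring.nonunits_le hϖ
  have hxV : x ∈ V := by
    rw [hx]
    exact V.add_mem _ _ V.one_mem (V.mul_mem _ _ hϖV hz)
  by_contra hinv
  -- then `x` is a nonunit of `V`, hence so is `1 = x - ϖ z`
  have hx0 : x ≠ 0 := by
    rintro rfl
    exact hinv (by simp [V.zero_mem])
  have hxnon : x ∈ V.nonunits := by
    rw [ValuationSubring.mem_nonunits_iff_exists_mem_maximalIdeal]
    refine ⟨hxV, ?_⟩
    rw [IsLocalRing.mem_maximalIdeal, mem_nonunits_iff]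
    intro hu
    apply hinv
    obtain ⟨u, hu⟩ := hu
    have e : x⁻¹ = ((u⁻¹ : (V)ˣ) : V) := by
      have h1 : ((u : V) : E) = x := by rw [hu]
      have h2 : ((u⁻¹ : (V)ˣ) : V) * (u : V) = 1 := by simp
      have h3 : (((u⁻¹ : (V)ˣ) : V) : E) * x = 1 := by
        rw [← h1]
        exact_mod_cast congrArg (fun t : V => (t : E)) h2
      exact (eq_inv_of_mul_eq_one_left h3).symm
    rw [e]
    exact Subtype.mem _
  have hϖz : ϖ * z ∈ V.nonunits := by
    rw [ValuationSubring.mem_nonunits_iff_exists_mem_maximalIdeal] at hϖ ⊢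
    obtain ⟨hϖV', hϖm⟩ := hϖ
    refine ⟨V.mul_mem _ _ hϖV' hz, ?_⟩
    have : (⟨ϖ * z, V.mul_mem _ _ hϖV' hz⟩ : V) = ⟨ϖ, hϖV'⟩ * ⟨z, hz⟩ := rfl
    rw [this]
    exact Ideal.mul_mem_right _ _ hϖm
  have h1 : (1 : E) ∈ V.nonunits := by
    have e : (1 : E) = x - ϖ * z := by rw [hx]; ring
    rw [ValuationSubring.mem_nonunits_iff_exists_mem_maximalIdeal] at hxnon hϖz ⊢
    obtain ⟨hx1, hx2⟩ := hxnon
    obtain ⟨hz1, hz2⟩ := hϖz
    refine ⟨V.one_mem, ?_⟩
    have : (⟨1, V.one_mem⟩ : V) = ⟨x, hx1⟩ - ⟨ϖ * z, hz1⟩ := Subtype.ext e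
    rw [this]
    exact Ideal.sub_mem _ hx2 hz2
  rw [ValuationSubring.mem_nonunits_iff] at h1
  simp at h1

end CongCalculus

section CongMore

variable {E : Type*} [Field E] {V : ValuationSubring E} {ϖ : E}

/-- `x ≡ 1` modulo `ϖ V` with `ϖ` a nonunit: `x ≠ 0`. -/
theorem ne_zero_of_cong_one {x : E} (h : Cong V ϖ x 1) (hϖ : ϖ ∈ V.nonunits) : x ≠ 0 := by
  rintro rfl
  have h0 := inv_mem_of_cong_one h hϖ
  obtain ⟨z, hz, h⟩ := h
  have hϖz : ϖ * z = -1 := by linear_combination -h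
  -- `ϖ` would be a unit of `V`
  have hϖ0 : ϖ ≠ 0 := by
    rintro rfl
    rw [zero_mul] at hϖz
    exact one_ne_zero (neg_eq_zero.mp hϖz.symm)
  have hinv : ϖ⁻¹ ∈ V := by
    have e1 : -z * ϖ = 1 := by linear_combination -hϖz
    have e : ϖ⁻¹ = -z := (eq_inv_of_mul_eq_one_left e1).symm
    rw [e]
    exact V.neg_mem _ hz
  rw [ValuationSubring.mem_nonunits_iff] at hϖ
  have h1 : V.valuation ϖ⁻¹ ≤ 1 := (ValuationSubring.valuation_le_one_iff V _).mpr hinv
  rw [map_inv₀] at h1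
  have h2 : V.valuation ϖ ≠ 0 := (Valuation.ne_zero_iff _).mpr hϖ0
  have h3 : 1 ≤ V.valuation ϖ := by
    have := (inv_le_one₀ (zero_lt_iff.mpr h2)).mp h1
    exact this
  exact absurd hϖ (not_lt.mpr h3)

/-- `x ≡ y` modulo `ϖ V` with `y` a unit of `V` (inverse `y'`): `x⁻¹ ∈ V`. -/
theorem inv_mem_of_cong {x y y' : E} (h : Cong V ϖ x y) (hy' : y' ∈ V) (hyy' : y * y' = 1)
    (hϖ : ϖ ∈ V.nonunits) : x⁻¹ ∈ V := by
  have h1 : Cong V ϖ (y' * x) 1 := by
    have := h.mul_left hy'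
    rwa [mul_comm y' y, hyy'] at this
  have h2 := inv_mem_of_cong_one h1 hϖ
  have hne := ne_zero_of_cong_one h1 hϖ
  have hx : x ≠ 0 := right_ne_zero_of_mul hne
  have hy0 : y' ≠ 0 := left_ne_zero_of_mul hne
  have e : x⁻¹ = (y' * x)⁻¹ * y' := by
    rw [mul_inv, mul_comm y'⁻¹, mul_assoc, inv_mul_cancel₀ hy0, mul_one]
  rw [e]
  exact V.mul_mem _ _ h2 hy'

theorem ne_zero_of_cong {x y y' : E} (h : Cong V ϖ x y) (hy' : y' ∈ V) (hyy' : y * y' = 1)
    (hϖ : ϖ ∈ V.nonunits) : x ≠ 0 := by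
  have h1 : Cong V ϖ (y' * x) 1 := by
    have := h.mul_left hy'
    rwa [mul_comm y' y, hyy'] at this
  exact right_ne_zero_of_mul (ne_zero_of_cong_one h1 hϖ)

/-- `x ≡ y` and `y` a unit of `V` with `y ≠ 0`: `x / y ≡ 1`. -/
theorem Cong.div_one {x y : E} (h : Cong V ϖ x y) (hy : y⁻¹ ∈ V) (hy0 : y ≠ 0) :
    Cong V ϖ (x / y) 1 := by
  obtain ⟨z, hz, h⟩ := h
  refine ⟨z * y⁻¹, V.mul_mem _ _ hz hy, ?_⟩
  field_simp
  linear_combination h

end CongMore

/-! ### `1 + ϖ R_n` -/

section OneAtCalculus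

variable {R E : Type*} [CommRing R] [Field E] [Algebra R E]

theorem oneAt_one (p : R) (n : Ideal R) (hn : n ≠ ⊤) : OneAt (algebraMap R E p) n (1 : E) :=
  ⟨1, fun h => hn ((Ideal.eq_top_iff_one n).mpr h), 0, by simp⟩

/-- A "constant" `c ∈ 1 + p R` lies in `1 + p R_n`. -/
theorem oneAt_algebraMap (p : R) (n : Ideal R) (hn : n ≠ ⊤) (c d : R) (hc : c - 1 = p * d) :
    OneAt (algebraMap R E p) n (algebraMap R E c) :=
  ⟨1, fun h => hn ((Ideal.eq_top_iff_one n).mpr h), d, by
    rw [map_one, one_mul, ← map_one (algebraMap R E), ← map_sub, hc, map_mul]⟩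

theorem OneAt.mul {p : R} {n : Ideal R} (hn : n.IsPrime) {x y : E}
    (hx : OneAt (algebraMap R E p) n x) (hy : OneAt (algebraMap R E p) n y) :
    OneAt (algebraMap R E p) n (x * y) := by
  obtain ⟨s, hs, r, h⟩ := hx
  obtain ⟨s', hs', r', h'⟩ := hy
  refine ⟨s * s', fun hmem => (hn.mem_or_mem hmem).elim hs hs', p * r * r' + s' * r + s * r', ?_⟩
  simp only [map_mul, map_add]
  linear_combination (algebraMap R E s' * (y - 1) + algebraMap R E s') * h
    + (algebraMap R E p * algebraMap R E r + algebraMap R E s) * h'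

theorem OneAt.pow {p : R} {n : Ideal R} (hn : n.IsPrime) {x : E}
    (hx : OneAt (algebraMap R E p) n x) (k : ℕ) : OneAt (algebraMap R E p) n (x ^ k) := by
  induction k with
  | zero =>
    rw [pow_zero]
    exact oneAt_one p n hn.ne_top
  | succ k ih =>
    rw [pow_succ]
    exact ih.mul hn hx

end OneAtCalculus

/-! ### (T1) the node congruence downstairs -/

/-- A constant of a discrete valuation ring which lies in a proper ideal of an algebra is
divisible by the uniformizer. -/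
theorem dvd_of_algebraMap_mem {O : Type*} [CommRing O] [IsDomain O] [IsDiscreteValuationRing O]
    {π : O} (hπ : Irreducible π) {R' : Type*} [CommRing R'] [Algebra O R'] (n' : Ideal R')
    (hn' : n' ≠ ⊤) (c : O) (hc : algebraMap O R' c ∈ n') : π ∣ c := by
  by_contra hdvd
  have hmem : c ∉ IsLocalRing.maximalIdeal O := by
    rw [hπ.maximalIdeal_eq, Ideal.mem_span_singleton]
    exact hdvd
  have hu : IsUnit c := by
    by_contra h
    exact hmem ((IsLocalRing.mem_maximalIdeal c).mpr h)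
  exact hn' (Ideal.eq_top_of_isUnit_mem n' hc (hu.map (algebraMap O R')))

/-- **(T1) Node congruence.**  `R'` an integrally closed chart with fraction field `E'`, `n'` a
prime on both branches `V' 0`, `V' 1` (`R' ∩ π V' j ⊆ n'`).  If `G' = c * h ^ m` with `h ≡ η j`
modulo `π V' j`, and `(g', γ')` is a normal form of `G'` at `n'` (`g' ≡ γ' j` modulo `π V' j`,
`G' / g' ^ m ∈ 1 + π R'_{n'}`), then `η 0 * γ' 1 - η 1 * γ' 0 ∈ n'`. -/
theorem node_congr {O : Type*} [CommRing O] {R' : Type*} [CommRing R'] [IsDomain R']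
    [IsIntegrallyClosed R'] [Algebra O R'] {E' : Type*} [Field E'] [Algebra R' E']
    [IsFractionRing R' E'] (π : O) (V' : Fin 2 → ValuationSubring E') (n' : Ideal R')
    (hn' : n'.IsPrime) (m : ℕ) (hm : 0 < m) (hπn : algebraMap O R' π ∈ n')
    (hle : ∀ (j : Fin 2) (r : R'), algebraMap R' E' r ∈ V' j)
    (hcen : ∀ (j : Fin 2) (r : R'),
      (∃ z ∈ V' j, algebraMap R' E' r = algebraMap R' E' (algebraMap O R' π) * z) → r ∈ n')
    (G' h g' : E') (c : O) (η γ' : Fin 2 → O)
    (hG : G' = algebraMap R' E' (algebraMap O R' c) * h ^ m)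
    (hη : ∀ j, Cong (V' j) (algebraMap R' E' (algebraMap O R' π)) h
      (algebraMap R' E' (algebraMap O R' (η j))))
    (hg0 : g' ≠ 0)
    (hγ : ∀ j, Cong (V' j) (algebraMap R' E' (algebraMap O R' π)) g'
      (algebraMap R' E' (algebraMap O R' (γ' j))))
    (hone : OneAt (algebraMap R' E' (algebraMap O R' π)) n' (G' / g' ^ m)) :
    algebraMap O R' (η 0 * γ' 1 - η 1 * γ' 0) ∈ n' := by
  obtain ⟨s₁, hs₁, r₁, h₁⟩ := hone
  set ϖ : E' := algebraMap R' E' (algebraMap O R' π) with hϖ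
  -- `a₁ = s₁ * (G' / g' ^ m)` is an element of `R'` outside `n'`
  set a₁ : R' := s₁ + algebraMap O R' π * r₁ with ha₁
  have ha₁n : a₁ ∉ n' := by
    intro hmem
    apply hs₁
    have : s₁ = a₁ - algebraMap O R' π * r₁ := by rw [ha₁]; ring
    rw [this]
    exact n'.sub_mem hmem (n'.mul_mem_right _ hπn)
  have hgm : g' ^ m ≠ 0 := pow_ne_zero m hg0
  have ea₁ : algebraMap R' E' a₁ * g' ^ m = algebraMap R' E' s₁ * G' := by
    have e1 : algebraMap R' E' a₁ = algebraMap R' E' s₁ + ϖ * algebraMap R' E' r₁ := by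
      rw [ha₁, map_add, map_mul]
    rw [e1, ← h₁]
    field_simp
    ring
  have ha₁0 : algebraMap R' E' a₁ ≠ 0 := by
    intro h0
    apply ha₁n
    have : a₁ = 0 := (IsFractionRing.injective R' E') (by rw [h0, map_zero])
    rw [this]
    exact n'.zero_mem
  -- `h ≠ 0`
  have hh0 : h ≠ 0 := by
    rintro rfl
    rw [zero_pow hm.ne', mul_zero] at hG
    rw [hG, mul_zero] at ea₁
    exact (mul_ne_zero ha₁0 hgm) ea₁
  -- the element `y = a₁ * g' / h` is integral over `R'`
  set y : E' := algebraMap R' E' a₁ * g' / h with hy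
  have hym : y ^ m = algebraMap R' E' (a₁ ^ (m - 1) * s₁ * algebraMap O R' c) := by
    have hm1 : m = (m - 1) + 1 := by omega
    have e2 : y ^ m * h ^ m = algebraMap R' E' a₁ ^ m * g' ^ m := by
      rw [hy, div_pow, mul_pow]
      field_simp
    have e3 : algebraMap R' E' a₁ ^ m * g' ^ m
        = algebraMap R' E' (a₁ ^ (m - 1) * s₁ * algebraMap O R' c) * h ^ m := by
      have : algebraMap R' E' a₁ ^ m = algebraMap R' E' a₁ ^ (m - 1) * algebraMap R' E' a₁ := by
        conv_lhs => rw [hm1, pow_succ]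
      rw [this, mul_assoc, ea₁, hG]
      simp only [map_mul, map_pow]
      ring
    have hhm : h ^ m ≠ 0 := pow_ne_zero m hh0
    exact mul_right_cancel₀ hhm (e2.trans e3)
  have hyint : IsIntegral R' y := by
    apply IsIntegral.of_pow hm
    rw [hym]
    exact isIntegral_algebraMap
  obtain ⟨r, hr⟩ := IsIntegrallyClosed.isIntegral_iff.mp hyint
  have hrh : algebraMap R' E' r * h = algebraMap R' E' a₁ * g' := by
    rw [hr, hy]
    field_simp
  -- on each branch
  have key : ∀ j : Fin 2, r * algebraMap O R' (η j) - a₁ * algebraMap O R' (γ' j) ∈ n' := by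
    intro j
    apply hcen j
    obtain ⟨z₁, hz₁, e₁⟩ := hη j
    obtain ⟨z₂, hz₂, e₂⟩ := hγ j
    refine ⟨-(algebraMap R' E' r * z₁) + algebraMap R' E' a₁ * z₂,
      (V' j).add_mem _ _ ((V' j).neg_mem _ ((V' j).mul_mem _ _ (hle j r) hz₁))
        ((V' j).mul_mem _ _ (hle j a₁) hz₂), ?_⟩
    simp only [map_sub, map_mul]
    linear_combination hrh - algebraMap R' E' r * e₁ + algebraMap R' E' a₁ * e₂
  have h0 := key 0
  have h1 := key 1
  have hcomb : a₁ * algebraMap O R' (η 0 * γ' 1 - η 1 * γ' 0) ∈ n' := by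
    have e : a₁ * algebraMap O R' (η 0 * γ' 1 - η 1 * γ' 0)
        = algebraMap O R' (η 1) * (r * algebraMap O R' (η 0) - a₁ * algebraMap O R' (γ' 0))
          - algebraMap O R' (η 0) * (r * algebraMap O R' (η 1) - a₁ * algebraMap O R' (γ' 1)) := by
      simp only [map_sub, map_mul]
      ring
    rw [e]
    exact n'.sub_mem (n'.mul_mem_left _ h0) (n'.mul_mem_left _ h1)
  exact (hn'.mem_or_mem hcomb).resolve_left ha₁n

/-! ### (T3) the field identity -/

/-- **The toric identity.**  In a field, the two relations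
`a0 * y ^ q = a1 * (x * z ^ (q - 1))` (from the norm along `α`) and
`b0 * (y * z ^ (q - 1)) = b1 * x ^ q` (from the norm along `β`) determine `y ^ (q ^ 2 - 1)` and
`z ^ (q ^ 2 - 1)` from `x ^ (q ^ 2 - 1)`, with factors depending only on `a0, a1, b0, b1`. -/
theorem toric_field {k : Type*} [Field k] (q : ℕ) (hq : 0 < q) (a0 a1 b0 b1 x y z : k)
    (ha0 : a0 ≠ 0) (ha1 : a1 ≠ 0) (hb0 : b0 ≠ 0) (hx : x ≠ 0)
    (hα : a0 * y ^ q = a1 * (x * z ^ (q - 1)))
    (hβ : b0 * (y * z ^ (q - 1)) = b1 * x ^ q) :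
    y ^ (q ^ 2 - 1) = ((b1 * a1) / (b0 * a0)) ^ (q - 1) * x ^ (q ^ 2 - 1) ∧
    z ^ (q ^ 2 - 1) =
      (a0 / a1) ^ (q + 1) * ((b1 * a1) / (b0 * a0)) ^ q * x ^ (q ^ 2 - 1) := by
  obtain ⟨r, rfl⟩ : ∃ r, q = r + 1 := ⟨q - 1, by omega⟩
  have he : (r + 1) ^ 2 - 1 = r * (r + 2) := by
    have : (r + 1) ^ 2 = r * (r + 2) + 1 := by ring
    omega
  rw [he]
  simp only [Nat.add_sub_cancel] at hα hβ ⊢
  have hba : b0 * a0 ≠ 0 := mul_ne_zero hb0 ha0
  -- the key relation
  have hA : b0 * a0 * y ^ (r + 2) = b1 * a1 * x ^ (r + 2) := by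
    linear_combination (b0 * y) * hα + (a1 * x) * hβ
  have hA' : y ^ (r + 2) = (b1 * a1) / (b0 * a0) * x ^ (r + 2) := by
    field_simp
    linear_combination hA
  have hy : y ^ (r * (r + 2)) = ((b1 * a1) / (b0 * a0)) ^ r * x ^ (r * (r + 2)) := by
    rw [mul_comm r (r + 2), pow_mul, pow_mul, hA', mul_pow]
  refine ⟨hy, ?_⟩
  -- `z ^ r = a0 * y ^ (r + 1) / (a1 * x)`
  have hz : z ^ r = a0 / a1 * y ^ (r + 1) / x := by
    field_simp
    linear_combination -hα
  have hyy : y ^ ((r + 1) * (r + 2)) = ((b1 * a1) / (b0 * a0)) ^ (r + 1) * x ^ ((r + 1) * (r + 2)) := by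
    rw [mul_comm (r + 1) (r + 2), pow_mul, pow_mul, hA', mul_pow]
  have hxx : x ^ ((r + 1) * (r + 2)) = x ^ (r * (r + 2)) * x ^ (r + 2) := by
    rw [← pow_add]
    congr 1
    ring
  calc z ^ (r * (r + 2)) = (z ^ r) ^ (r + 2) := by rw [pow_mul]
    _ = (a0 / a1) ^ (r + 2) * y ^ ((r + 1) * (r + 2)) / x ^ (r + 2) := by
        rw [hz, div_pow, mul_pow, ← pow_mul]
    _ = (a0 / a1) ^ (r + 1 + 1) * (b1 * a1 / (b0 * a0)) ^ (r + 1) * x ^ (r * (r + 2)) := by
        rw [hyy, hxx]
        have hx2 : x ^ (r + 2) ≠ 0 := pow_ne_zero _ hx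
        field_simp

/-! ### (T3) the corrector -/

section Corrector

variable {O : Type*} [CommRing O] [IsDomain O] [IsDiscreteValuationRing O]

/-- In a discrete valuation ring, an element not divisible by the uniformizer is a unit. -/
theorem isUnit_of_not_dvd {π : O} (hπ : Irreducible π) {c : O} (hc : ¬ π ∣ c) : IsUnit c := by
  by_contra h
  have hmem : c ∈ IsLocalRing.maximalIdeal O := (IsLocalRing.mem_maximalIdeal c).mpr h
  rw [hπ.maximalIdeal_eq, Ideal.mem_span_singleton] at hmem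
  exact hc hmem

/-- **(T3) The toric corrector.**  `V 0, V 1, V 2` the three component valuation rings, `cst` the
constants, `G ≡ 1` modulo `π (V i)`.  `Pt` is any family of "points" `p`, with the set `T p` of
branches through `p` and a multiplicative predicate `U p` ("`x ∈ 1 + π R_p`") containing the
constants `≡ 1`.  Suppose that at every point `G` has a normal form `(g₀, γ)`
(`g₀ ≡ γ i`, a constant with `γ i ^ m ≡ 1`, on the branches through `p`, `G / g₀ ^ m ∈ U p`),
that every point on two branches is on all three, and that at the triple points the two toric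
relations hold, with constants `ηα, ηβ` independent of the point (`η ^ m * c ≡ 1`).  Then there
is ONE corrector `H ≡ y i` (constants, `y i ^ m ≡ 1`) such that `G₂ = G ^ (q ^ 2 - 1) * H ^ m` is
`≡ 1` modulo `π (V i)` and has at every point a normal form with constants `1`:
`a ≡ 1` on the branches through `p` and `G₂ * a ^ m ∈ U p`. -/
theorem exists_corrector {E : Type*} [Field E] (cst : O →+* E) (π : O) (hπ : Irreducible π)
    (V : Fin 3 → ValuationSubring E) (q m : ℕ) (hq : 0 < q) (hm : 0 < m)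
    (hcV : ∀ (i : Fin 3) (c : O), cst c ∈ V i) (hpi : ∀ i : Fin 3, cst π ∈ (V i).nonunits)
    (G : E) (hG : ∀ i : Fin 3, ∃ z ∈ V i, G - 1 = cst π * z)
    (happrox : ∀ y : Fin 3 → O, ∃ H : E, ∀ i : Fin 3, ∃ z ∈ V i, H - cst (y i) = cst π * z)
    (cα cβ : O) (ηα ηβ : Fin 2 → O)
    (hηα : ∀ j, π ∣ ηα j ^ m * cα - 1) (hηβ : ∀ j, π ∣ ηβ j ^ m * cβ - 1)
    {Pt : Type*} (T : Pt → Fin 3 → Prop) (U : Pt → E → Prop)
    (hU1 : ∀ (p : Pt) (c : O), π ∣ c - 1 → U p (cst c))
    (hUmul : ∀ (p : Pt) (x y : E), U p x → U p y → U p (x * y))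
    (hT : ∀ p, ∃ i, T p i)
    (hX : ∀ (p : Pt) (i j : Fin 3), i ≠ j → T p i → T p j → ∀ l, T p l)
    (hnf : ∀ p, ∃ (g₀ : E) (γ : Fin 3 → O), g₀ ≠ 0 ∧ (∀ i, T p i → π ∣ γ i ^ m - 1) ∧
      (∀ i, T p i → ∃ z ∈ V i, g₀ - cst (γ i) = cst π * z) ∧ U p (G / g₀ ^ m) ∧
      ((∀ i, T p i) →
        π ∣ ηα 0 * γ 1 ^ q - ηα 1 * (γ 0 * γ 2 ^ (q - 1)) ∧
        π ∣ ηβ 0 * (γ 1 * γ 2 ^ (q - 1)) - ηβ 1 * γ 0 ^ q)) :
    ∃ (H : E) (y : Fin 3 → O), H ≠ 0 ∧ (∀ i, π ∣ y i ^ m - 1) ∧
      (∀ i : Fin 3, ∃ z ∈ V i, H - cst (y i) = cst π * z) ∧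
      (∀ i : Fin 3, ∃ z ∈ V i, G ^ (q ^ 2 - 1) * H ^ m - 1 = cst π * z) ∧
      ∀ p, ∃ a : E, (∀ i, T p i → ∃ v ∈ V i, a - 1 = cst π * v) ∧
        U p (G ^ (q ^ 2 - 1) * H ^ m * a ^ m) := by
  classical
  have hmax : (Ideal.span {π} : Ideal O).IsMaximal :=
    PrincipalIdealRing.isMaximal_of_irreducible hπ
  let _ : Field (O ⧸ Ideal.span {π}) := Ideal.Quotient.field _
  set mk : O →+* (O ⧸ Ideal.span {π}) := Ideal.Quotient.mk _ with hmk
  have hmk_eq : ∀ a b : O, mk a = mk b ↔ π ∣ a - b := by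
    intro a b
    rw [hmk, Ideal.Quotient.eq, Ideal.mem_span_singleton]
  have hmk_surj : Function.Surjective mk := Ideal.Quotient.mk_surjective
  set e : ℕ := q ^ 2 - 1 with he
  -- constants
  have hcst : ∀ (i : Fin 3) (a b : O), π ∣ a - b → Cong (V i) (cst π) (cst a) (cst b) := by
    rintro i a b ⟨d, hd⟩
    exact ⟨cst d, hcV i d, by rw [← map_sub, hd, map_mul]⟩
  have hϖV : ∀ i, cst π ∈ V i := fun i => ValuationSubring.nonunits_le (hpi i)
  have hunit : ∀ c : O, mk c ≠ 0 → ∃ c' : O, c * c' = 1 := by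
    intro c hc
    have hnd : ¬ π ∣ c := by
      intro h
      apply hc
      rw [← map_zero mk, hmk_eq, sub_zero]
      exact h
    obtain ⟨u, hu⟩ := isUnit_of_not_dvd hπ hnd
    exact ⟨((u⁻¹ : Oˣ) : O), by rw [← hu]; simp⟩
  have hpow_one : ∀ (x : O ⧸ Ideal.span {π}), x ^ m = 1 → x ≠ 0 := by
    rintro x hx rfl
    rw [zero_pow hm.ne'] at hx
    exact zero_ne_one hx
  -- the residues of the `η`'s
  have hA : ∀ j, mk (ηα j) ^ m * mk cα = 1 := by
    intro j
    have := (hmk_eq _ _).mpr (hηα j)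
    simpa using this
  have hB : ∀ j, mk (ηβ j) ^ m * mk cβ = 1 := by
    intro j
    have := (hmk_eq _ _).mpr (hηβ j)
    simpa using this
  have hA0 : ∀ j, mk (ηα j) ≠ 0 := by
    intro j h
    have := hA j
    rw [h, zero_pow hm.ne', zero_mul] at this
    exact zero_ne_one this
  have hB0 : ∀ j, mk (ηβ j) ≠ 0 := by
    intro j h
    have := hB j
    rw [h, zero_pow hm.ne', zero_mul] at this
    exact zero_ne_one this
  have hcα0 : mk cα ≠ 0 := by
    intro h
    have := hA 0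
    rw [h, mul_zero] at this
    exact zero_ne_one this
  have hcβ0 : mk cβ ≠ 0 := by
    intro h
    have := hB 0
    rw [h, mul_zero] at this
    exact zero_ne_one this
  have hAm : mk (ηα 0) ^ m = mk (ηα 1) ^ m :=
    mul_right_cancel₀ hcα0 ((hA 0).trans (hA 1).symm)
  have hBm : mk (ηβ 0) ^ m = mk (ηβ 1) ^ m :=
    mul_right_cancel₀ hcβ0 ((hB 0).trans (hB 1).symm)
  set κ : O ⧸ Ideal.span {π} := (mk (ηβ 1) * mk (ηα 1)) / (mk (ηβ 0) * mk (ηα 0)) with hκ
  have hκm : κ ^ m = 1 := by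
    rw [hκ, div_pow, mul_pow, mul_pow, hAm, hBm]
    exact div_self (mul_ne_zero (pow_ne_zero _ (hB0 1)) (pow_ne_zero _ (hA0 1)))
  have hρm : (mk (ηα 0) / mk (ηα 1)) ^ m = 1 := by
    rw [div_pow, hAm]
    exact div_self (pow_ne_zero _ (hA0 1))
  -- the universal constants
  set δ : Fin 3 → O ⧸ Ideal.span {π} :=
    ![1, κ ^ (q - 1), (mk (ηα 0) / mk (ηα 1)) ^ (q + 1) * κ ^ q] with hδ
  have hδm : ∀ i, δ i ^ m = 1 := by
    intro i
    fin_cases i
    · simp [hδ]
    · simp only [hδ, Fin.mk_one, Matrix.cons_val_one, Matrix.cons_val_zero]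
      rw [← pow_mul, mul_comm, pow_mul, hκm, one_pow]
    · simp only [hδ, Fin.reduceFinMk, Matrix.cons_val_two, Matrix.tail_cons, Matrix.head_cons]
      rw [mul_pow, ← pow_mul, mul_comm (q + 1) m, pow_mul, hρm, one_pow, one_mul, ← pow_mul,
        mul_comm, pow_mul, hκm, one_pow]
  have hδ0 : ∀ i, δ i ≠ 0 := fun i => hpow_one _ (hδm i)
  choose y hy using fun i => hmk_surj (δ i)⁻¹
  have hym' : ∀ i, mk (y i) ^ m = 1 := by
    intro i
    rw [hy, inv_pow, hδm, inv_one]
  have hym : ∀ i, π ∣ y i ^ m - 1 := by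
    intro i
    rw [← hmk_eq, map_pow, map_one]
    exact hym' i
  obtain ⟨H, hH⟩ := happrox y
  have hyunit : ∀ i, ∃ y' : O, y i * y' = 1 := fun i => hunit _ (hpow_one _ (hym' i))
  have hHV : ∀ i, H ∈ V i := fun i => Cong.mem (hH i) (hϖV i) (hcV i _)
  have hH0 : H ≠ 0 := by
    obtain ⟨y', hy'⟩ := hyunit 0
    exact ne_zero_of_cong (hH 0) (hcV 0 y') (by rw [← map_mul, hy', map_one]) (hpi 0)
  refine ⟨H, y, hH0, hym, hH, ?_, ?_⟩
  · intro i
    have h1 : Cong (V i) (cst π) (G ^ e) 1 := by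
      have := Cong.pow (hG i) (hϖV i) (V i).one_mem e
      rwa [one_pow] at this
    have h2 : Cong (V i) (cst π) (H ^ m) (cst (y i) ^ m) :=
      Cong.pow (hH i) (hϖV i) (hcV i _) m
    have h3 : Cong (V i) (cst π) (cst (y i) ^ m) 1 := by
      have := hcst i (y i ^ m) 1 (hym i)
      rwa [map_pow, map_one] at this
    have h4 := h1.mul (h2.trans h3) (V i).one_mem (pow_mem (hHV i) m)
    rwa [one_mul] at h4
  · intro p
    obtain ⟨g₀, γ, hg₀, hγm, hγ, hU, hrel⟩ := hnf p
    have hγm' : ∀ i, T p i → mk (γ i) ^ m = 1 := by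
      intro i hi
      have := (hmk_eq _ _).mpr (hγm i hi)
      simpa using this
    -- the point constant
    obtain ⟨c, hcm, hc⟩ : ∃ c : O, mk c ^ m = 1 ∧
        ∀ i, T p i → mk (γ i) ^ e * mk (y i) = mk c := by
      by_cases hall : ∀ i, T p i
      · obtain ⟨hα, hβ⟩ := hrel hall
        have hα' : mk (ηα 0) * mk (γ 1) ^ q = mk (ηα 1) * (mk (γ 0) * mk (γ 2) ^ (q - 1)) := by
          have := (hmk_eq _ _).mpr hα
          simpa using this
        have hβ' : mk (ηβ 0) * (mk (γ 1) * mk (γ 2) ^ (q - 1)) = mk (ηβ 1) * mk (γ 0) ^ q := by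
          have := (hmk_eq _ _).mpr hβ
          simpa using this
        obtain ⟨h1, h2⟩ := toric_field q hq (mk (ηα 0)) (mk (ηα 1)) (mk (ηβ 0)) (mk (ηβ 1))
          (mk (γ 0)) (mk (γ 1)) (mk (γ 2)) (hA0 0) (hA0 1) (hB0 0)
          (hpow_one _ (hγm' 0 (hall 0))) hα' hβ'
        rw [← he, ← hκ] at h1 h2
        refine ⟨γ 0 ^ e, ?_, ?_⟩
        · rw [map_pow, ← pow_mul, mul_comm, pow_mul, hγm' 0 (hall 0), one_pow]
        · intro i _
          rw [hy i, map_pow]
          fin_cases i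
          · simp [hδ]
          · simp only [hδ, Fin.mk_one, Matrix.cons_val_one, Matrix.cons_val_zero]
            rw [h1]
            have := hδ0 1
            simp only [hδ, Matrix.cons_val_one, Matrix.cons_val_zero] at this
            rw [mul_comm _ (mk (γ 0) ^ e), mul_assoc, mul_inv_cancel₀ this, mul_one]
          · simp only [hδ, Fin.reduceFinMk, Matrix.cons_val_two, Matrix.tail_cons,
              Matrix.head_cons]
            rw [h2]
            have := hδ0 2
            simp only [hδ, Matrix.cons_val_two, Matrix.tail_cons, Matrix.head_cons] at this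
            rw [mul_comm _ (mk (γ 0) ^ e), mul_assoc, mul_inv_cancel₀ this, mul_one]
      · obtain ⟨i₀, hi₀⟩ := hT p
        refine ⟨γ i₀ ^ e * y i₀, ?_, ?_⟩
        · rw [map_mul, map_pow, mul_pow, ← pow_mul, mul_comm e m, pow_mul, hγm' i₀ hi₀, one_pow,
            one_mul, hym' i₀]
        · intro i hi
          have hii : i = i₀ := by
            by_contra hne
            exact hall (hX p i i₀ hne hi hi₀)
          subst hii
          rw [map_mul, map_pow]
    obtain ⟨c', hcc'⟩ := hunit c (hpow_one _ hcm)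
    have hY : ∀ i, T p i → Cong (V i) (cst π) (g₀ ^ e * H) (cst c) := by
      intro i hi
      have h1 : Cong (V i) (cst π) (g₀ ^ e) (cst (γ i) ^ e) :=
        Cong.pow (hγ i hi) (hϖV i) (hcV i _) e
      have h2 : Cong (V i) (cst π) (g₀ ^ e * H) (cst (γ i) ^ e * cst (y i)) :=
        h1.mul (hH i) (pow_mem (hcV i _) e) (hHV i)
      have h3 : Cong (V i) (cst π) (cst (γ i) ^ e * cst (y i)) (cst c) := by
        rw [← map_pow, ← map_mul]
        apply hcst
        rw [← hmk_eq, map_mul, map_pow]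
        exact hc i hi
      exact h2.trans h3
    have hY0 : g₀ ^ e * H ≠ 0 := mul_ne_zero (pow_ne_zero _ hg₀) hH0
    refine ⟨cst c / (g₀ ^ e * H), ?_, ?_⟩
    · intro i hi
      have hYinv : (g₀ ^ e * H)⁻¹ ∈ V i :=
        inv_mem_of_cong (hY i hi) (hcV i c') (by rw [← map_mul, hcc', map_one]) (hpi i)
      exact (hY i hi).symm.div_one hYinv hY0
    · have e1 : G ^ e * H ^ m * (cst c / (g₀ ^ e * H)) ^ m = (G / g₀ ^ m) ^ e * cst (c ^ m) := by
        have hgm : g₀ ^ m ≠ 0 := pow_ne_zero _ hg₀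
        have hHm : H ^ m ≠ 0 := pow_ne_zero _ hH0
        have hge : (g₀ ^ e) ^ m = (g₀ ^ m) ^ e := by rw [← pow_mul, ← pow_mul, mul_comm]
        rw [map_pow, div_pow, div_pow, mul_pow, hge]
        field_simp
      rw [e1]
      have hUone : U p 1 := by
        have := hU1 p 1 (by simp)
        rwa [map_one] at this
      have hUpow : ∀ k : ℕ, U p ((G / g₀ ^ m) ^ k) := by
        intro k
        induction k with
        | zero => rw [pow_zero]; exact hUone
        | succ k ih => rw [pow_succ]; exact hUmul p _ _ ih hU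
      apply hUmul p _ _ (hUpow e)
      apply hU1
      rw [← hmk_eq, map_pow, hcm, map_one]

end Corrector

end Fermat.Agent.S36.Toric
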