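/-
S36 — VertLoc.lean (helper61), package [MODEL3]: the `loc` field of `Model3Plan.ChartHyp3`
("`V i = R_{P i}`"), abstract (Mathlib + S34 `LocPlan`/`KrullStmt` + S36 `Model3Plan`/`HorPrinc`).

`O` a discrete valuation ring with uniformizer `π`, `R ⊆ E` a chart: noetherian, integrally
closed, `Frac R = E`, every element integral over `O[t]` (`t ∈ R`).  `V ⊇ R` a valuation subring
of `E` with `π ∈ 𝔪(V)`, and `P = center R V = R ∩ 𝔪(V)`.

The only modular input is **(tr)**: the reduction of the chart coordinate `t` is transcendental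
on `V`:
  `∀ f : O[X], aeval t f ∈ V.nonunits → ∀ n, π ∣ f.coeff n`.

Then `comap (aeval t) P = (C π)`; incomparability along the integral map `O[X] → R` shows that
every nonzero prime `Q ≤ P` is `P` (`eq_of_le_center`), hence `R_P` is a discrete valuation ring
(`princAt_center`), and since `V` dominates `R_P`, `V = R_P` (`regAt_center`, the `loc` field).

By-products: `mem_center_iff_unif` (the `mem_P` field), `chartHyp3_center` (the whole
`ChartHyp3`, from `desc`), `exists_le_of_pi_mem` (the `P i` are all the minimal primes over `π`),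
`eq_of_center_le` (the vertical primes are pairwise incomparable).
-/
import Mathlib
import Fermat.Agent.S34.LocPlan
import Fermat.Agent.S34.KrullStmt
import Fermat.Agent.S36.Model3Plan
import Fermat.Agent.S36.HorPrinc

set_option autoImplicit false
set_option linter.unusedSectionVars false

namespace Fermat.Agent.S36.VertLoc

open Polynomial Fermat.Agent.S34.LocPlan

/-! ### Valuation-subring arithmetic -/

section ValSub

variable {E : Type*} [Field E]

theorem nonunits_mul_mem {V : ValuationSubring E} {a b : E} (ha : a ∈ V.nonunits) (hb : b ∈ V) :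
    a * b ∈ V.nonunits := by
  rw [ValuationSubring.mem_nonunits_iff] at ha ⊢
  have hb' : V.valuation b ≤ 1 := (V.valuation_le_one_iff b).mpr hb
  rw [map_mul]
  calc V.valuation a * V.valuation b ≤ V.valuation a * 1 := mul_le_mul_right hb' _
    _ = V.valuation a := mul_one _
    _ < 1 := ha

theorem nonunits_mem {V : ValuationSubring E} {a : E} (ha : a ∈ V.nonunits) : a ∈ V :=
  (V.valuation_le_one_iff a).mp (le_of_lt ((ValuationSubring.mem_nonunits_iff V).mp ha))

theorem nonunits_pow_mem {V : ValuationSubring E} {a : E} (ha : a ∈ V.nonunits) {n : ℕ}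
    (hn : n ≠ 0) : a ^ n ∈ V.nonunits := by
  obtain ⟨k, rfl⟩ := Nat.exists_eq_succ_of_ne_zero hn
  rw [pow_succ']
  exact nonunits_mul_mem ha (pow_mem (nonunits_mem ha) k)

theorem not_nonunits_of_inv_mem {V : ValuationSubring E} {a : E} (ha0 : a ≠ 0) (ha : a⁻¹ ∈ V) :
    a ∉ V.nonunits := by
  intro h
  have h1 := nonunits_mul_mem h ha
  rw [mul_inv_cancel₀ ha0, ValuationSubring.mem_nonunits_iff, map_one] at h1
  exact lt_irrefl _ h1

theorem nonunits_of_mem_of_inv_not_mem {V : ValuationSubring E} {a : E} (ha : a ∈ V)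
    (ha' : a⁻¹ ∉ V) : a ∈ V.nonunits := by
  rw [ValuationSubring.mem_nonunits_iff]
  have h1 : V.valuation a ≤ 1 := (V.valuation_le_one_iff a).mpr ha
  rcases lt_or_eq_of_le h1 with h | h
  · exact h
  · exfalso
    apply ha'
    rw [← V.valuation_le_one_iff, map_inv₀, h, inv_one]

end ValSub

/-! ### The centre of a valuation subring on a chart -/

section Center

variable {O E : Type*} [CommRing O] [Field E] [Algebra O E]

/-- The centre on `R` of a valuation subring `V ⊇ R`: `R ∩ 𝔪(V)`. -/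
def center (R : Subalgebra O E) (V : ValuationSubring E) (hle : ∀ r : R, (r : E) ∈ V) :
    Ideal R where
  carrier := {r | (r : E) ∈ V.nonunits}
  add_mem' := by
    intro a b ha hb
    have ha' : V.valuation (a : E) < 1 := (ValuationSubring.mem_nonunits_iff V).mp ha
    have hb' : V.valuation (b : E) < 1 := (ValuationSubring.mem_nonunits_iff V).mp hb
    show ((a + b : R) : E) ∈ V.nonunits
    rw [ValuationSubring.mem_nonunits_iff]
    push_cast
    exact Valuation.map_add_lt _ ha' hb'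
  zero_mem' := by
    show ((0 : R) : E) ∈ V.nonunits
    rw [ValuationSubring.mem_nonunits_iff]
    push_cast
    rw [map_zero]
    exact zero_lt_one
  smul_mem' := by
    intro c r hr
    have hr' : (r : E) ∈ V.nonunits := hr
    show ((c • r : R) : E) ∈ V.nonunits
    have h : ((c • r : R) : E) = (r : E) * (c : E) := by
      rw [smul_eq_mul]; push_cast; ring
    rw [h]
    exact nonunits_mul_mem hr' (hle c)

theorem mem_center {R : Subalgebra O E} {V : ValuationSubring E} {hle : ∀ r : R, (r : E) ∈ V}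
    {r : R} : r ∈ center R V hle ↔ (r : E) ∈ V.nonunits := Iff.rfl

theorem center_isPrime (R : Subalgebra O E) (V : ValuationSubring E)
    (hle : ∀ r : R, (r : E) ∈ V) : (center R V hle).IsPrime := by
  refine ⟨?_, ?_⟩
  · intro h
    have h1 : (1 : R) ∈ center R V hle := by rw [h]; exact Submodule.mem_top
    rw [mem_center, ValuationSubring.mem_nonunits_iff] at h1
    push_cast at h1
    rw [map_one] at h1
    exact lt_irrefl _ h1
  · intro a b hab
    rw [mem_center, ValuationSubring.mem_nonunits_iff] at hab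
    push_cast at hab
    rw [map_mul] at hab
    by_contra hcon
    push Not at hcon
    have ha : V.valuation (a : E) = 1 := by
      have h1 : V.valuation (a : E) ≤ 1 := (V.valuation_le_one_iff _).mpr (hle a)
      rcases lt_or_eq_of_le h1 with h | h
      · exact absurd ((mem_center).mpr ((ValuationSubring.mem_nonunits_iff V).mpr h)) hcon.1
      · exact h
    have hb : V.valuation (b : E) = 1 := by
      have h1 : V.valuation (b : E) ≤ 1 := (V.valuation_le_one_iff _).mpr (hle b)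
      rcases lt_or_eq_of_le h1 with h | h
      · exact absurd ((mem_center).mpr ((ValuationSubring.mem_nonunits_iff V).mpr h)) hcon.2
      · exact h
    rw [ha, hb, mul_one] at hab
    exact lt_irrefl _ hab

/-- An element of `R` outside the centre is a unit of `V`. -/
theorem inv_mem_of_not_mem_center {R : Subalgebra O E} {V : ValuationSubring E}
    {hle : ∀ r : R, (r : E) ∈ V} {s : R} (hs : s ∉ center R V hle) : ((s : E))⁻¹ ∈ V := by
  by_contra h
  exact hs ((mem_center).mpr (nonunits_of_mem_of_inv_not_mem (hle s) h))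

end Center

/-! ### A prime with no nonzero prime strictly below it is `PrincAt` -/

/-- In a noetherian integrally closed domain, a nonzero prime `𝔮` such that every nonzero prime
below it is `𝔮` (height one) has `R_𝔮` a discrete valuation ring: `PrincAt 𝔮`. -/
theorem princAt_of_forall_eq {R : Type*} [CommRing R] [IsDomain R] [IsNoetherianRing R]
    [IsIntegrallyClosed R] (𝔮 : Ideal R) (h𝔮 : 𝔮.IsPrime) (h0 : 𝔮 ≠ ⊥)
    (hmin : ∀ Q : Ideal R, Q.IsPrime → Q ≤ 𝔮 → Q ≠ ⊥ → Q = 𝔮) : PrincAt 𝔮 := by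
  have := h𝔮
  have hinj : Function.Injective (algebraMap R (Localization.AtPrime 𝔮)) :=
    IsLocalization.injective _ 𝔮.primeCompl_le_nonZeroDivisors
  have hnoeth : IsNoetherianRing (Localization.AtPrime 𝔮) :=
    IsLocalization.isNoetherianRing 𝔮.primeCompl _ inferInstance
  have hic : IsIntegrallyClosed (Localization.AtPrime 𝔮) :=
    isIntegrallyClosed_of_isLocalization _ 𝔮.primeCompl 𝔮.primeCompl_le_nonZeroDivisors
  obtain ⟨x, hx, hx0⟩ : ∃ x ∈ 𝔮, x ≠ 0 := Submodule.exists_mem_ne_zero_of_ne_bot h0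
  have hmne : IsLocalRing.maximalIdeal (Localization.AtPrime 𝔮) ≠ ⊥ := by
    intro h
    have h1 : algebraMap R (Localization.AtPrime 𝔮) x ∈
        IsLocalRing.maximalIdeal (Localization.AtPrime 𝔮) :=
      (IsLocalization.AtPrime.to_map_mem_maximal_iff _ 𝔮 x).2 hx
    rw [h, Ideal.mem_bot] at h1
    exact hx0 (hinj (by rw [h1, map_zero]))
  have hnf : ¬ IsField (Localization.AtPrime 𝔮) := by
    rw [IsLocalRing.isField_iff_maximalIdeal_eq]
    exact hmne
  have huniq : ∃! P : Ideal (Localization.AtPrime 𝔮), P ≠ ⊥ ∧ P.IsPrime := by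
    refine ⟨IsLocalRing.maximalIdeal _, ⟨hmne, inferInstance⟩, ?_⟩
    rintro Q ⟨hQ0, hQ⟩
    have hQ' : (Q.comap (algebraMap R (Localization.AtPrime 𝔮))).IsPrime :=
      Ideal.comap_isPrime _ _
    have hle : Q.comap (algebraMap R (Localization.AtPrime 𝔮)) ≤ 𝔮 := by
      intro y hy
      exact (IsLocalization.AtPrime.to_map_mem_maximal_iff _ 𝔮 y).1
        (IsLocalRing.le_maximalIdeal hQ.ne_top hy)
    have hne : Q.comap (algebraMap R (Localization.AtPrime 𝔮)) ≠ ⊥ := by
      intro h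
      apply hQ0
      rw [← IsLocalization.map_under 𝔮.primeCompl (Localization.AtPrime 𝔮) Q, Ideal.under_def, h,
        Ideal.map_bot]
    have heq := hmin _ hQ' hle hne
    rw [← IsLocalization.map_under 𝔮.primeCompl (Localization.AtPrime 𝔮) Q, Ideal.under_def, heq,
      IsLocalization.AtPrime.map_eq_maximalIdeal]
  have h34 : (IsIntegrallyClosed (Localization.AtPrime 𝔮) ∧
      ∃! P : Ideal (Localization.AtPrime 𝔮), P ≠ ⊥ ∧ P.IsPrime) ↔
      (IsLocalRing.maximalIdeal (Localization.AtPrime 𝔮)).IsPrincipal :=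
    (IsDiscreteValuationRing.TFAE (Localization.AtPrime 𝔮) hnf).out 3 4
  have hprinc : (IsLocalRing.maximalIdeal (Localization.AtPrime 𝔮)).IsPrincipal :=
    h34.mp ⟨hic, huniq⟩
  obtain ⟨ϖ, hϖ⟩ := hprinc
  have hϖ' : IsLocalRing.maximalIdeal (Localization.AtPrime 𝔮) = Ideal.span {ϖ} := hϖ
  obtain ⟨t₀, s₀, hts⟩ := IsLocalization.exists_mk'_eq 𝔮.primeCompl ϖ
  have hts' : ϖ * algebraMap R (Localization.AtPrime 𝔮) s₀ =
      algebraMap R (Localization.AtPrime 𝔮) t₀ := by
    rw [← hts]; exact IsLocalization.mk'_spec _ t₀ s₀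
  have ht₀ : t₀ ∈ 𝔮 := by
    rw [← IsLocalization.AtPrime.to_map_mem_maximal_iff (Localization.AtPrime 𝔮) 𝔮 t₀, ← hts',
      hϖ']
    exact Ideal.mul_mem_right _ _ (Ideal.mem_span_singleton_self ϖ)
  refine ⟨h0, t₀, ht₀, fun y hy => ?_⟩
  have hy' : algebraMap R (Localization.AtPrime 𝔮) y ∈
      IsLocalRing.maximalIdeal (Localization.AtPrime 𝔮) :=
    (IsLocalization.AtPrime.to_map_mem_maximal_iff _ 𝔮 y).2 hy
  rw [hϖ', Ideal.mem_span_singleton'] at hy'
  obtain ⟨a, ha⟩ := hy'
  obtain ⟨c, s, hcs⟩ := IsLocalization.exists_mk'_eq 𝔮.primeCompl a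
  have hcs' : a * algebraMap R (Localization.AtPrime 𝔮) s =
      algebraMap R (Localization.AtPrime 𝔮) c := by
    rw [← hcs]; exact IsLocalization.mk'_spec _ c s
  refine ⟨s * s₀, 𝔮.primeCompl.mul_mem s.2 s₀.2, c, hinj ?_⟩
  rw [map_mul, map_mul, map_mul, ← ha, ← hcs', ← hts']
  ring

/-! ### Height one of the centre, `PrincAt`, and `V = R_P` -/

section Main

variable {O E : Type*} [CommRing O] [IsDomain O] [IsDiscreteValuationRing O] [Field E]
  [Algebra O E]

theorem coe_aeval (R : Subalgebra O E) (t : E) (ht : t ∈ R) (f : O[X]) :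
    ((aeval (⟨t, ht⟩ : R) f : R) : E) = aeval t f :=
  (Polynomial.aeval_subalgebra_coe f R ⟨t, ht⟩)

/-- Under (tr), the centre of `V` contracts to `(C π)` in `O[X]`. -/
theorem comap_center (π : O) (R : Subalgebra O E) (t : E) (ht : t ∈ R) (V : ValuationSubring E)
    (hle : ∀ r : R, (r : E) ∈ V) (hπV : algebraMap O E π ∈ V.nonunits)
    (htr : ∀ f : O[X], aeval t f ∈ V.nonunits → ∀ n, π ∣ f.coeff n) :
    (center R V hle).comap ((aeval (⟨t, ht⟩ : R) : O[X] →ₐ[O] R) : O[X] →+* R)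
      = Ideal.span {C π} := by
  apply le_antisymm
  · intro f hf
    rw [Ideal.mem_comap] at hf
    have h1 : ((aeval (⟨t, ht⟩ : R) f : R) : E) ∈ V.nonunits := hf
    rw [coe_aeval] at h1
    rw [Ideal.mem_span_singleton, Polynomial.C_dvd_iff_dvd_coeff]
    exact htr f h1
  · rw [Ideal.span_le, Set.singleton_subset_iff]
    show ((aeval (⟨t, ht⟩ : R) (C π) : R) : E) ∈ V.nonunits
    rw [coe_aeval, aeval_C]
    exact hπV

/-- **Height one**: under (tr), every nonzero prime of the chart below the centre of `V` is the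
centre. -/
theorem eq_of_le_center (π : O) (hπu : ¬ IsUnit π) (R : Subalgebra O E) (t : E) (ht : t ∈ R)
    (hR : ∀ x ∈ R, IsIntegral (Algebra.adjoin O {t}) x) (V : ValuationSubring E)
    (hle : ∀ r : R, (r : E) ∈ V) (hπV : algebraMap O E π ∈ V.nonunits)
    (htr : ∀ f : O[X], aeval t f ∈ V.nonunits → ∀ n, π ∣ f.coeff n)
    (Q : Ideal R) (hQ : Q.IsPrime) (hQP : Q ≤ center R V hle) (h0 : Q ≠ ⊥) :
    Q = center R V hle := by
  by_contra hne
  have hlt : Q < center R V hle := lt_of_le_of_ne hQP hne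
  have hint : (((aeval (⟨t, ht⟩ : R) : O[X] →ₐ[O] R) : O[X] →+* R)).IsIntegral :=
    fun x => HorPrinc.isIntegralElem_aeval R t ht x (hR x x.2)
  generalize hφ : ((aeval (⟨t, ht⟩ : R) : O[X] →ₐ[O] R) : O[X] →+* R) = φ at hint
  have hcom : (center R V hle).comap φ = Ideal.span {C π} := by
    rw [← hφ]; exact comap_center π R t ht V hle hπV htr
  let _ : Algebra O[X] R := φ.toAlgebra
  obtain ⟨x, hx, hx0⟩ : ∃ x ∈ Q, x ≠ 0 := Submodule.exists_mem_ne_zero_of_ne_bot h0
  have hbot : (⊥ : Ideal R).IsPrime := Ideal.isPrime_bot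
  have hI : (⊥ : Ideal R).comap φ < Q.comap φ :=
    Ideal.comap_lt_comap_of_integral_mem_sdiff (I := ⊥) bot_le ⟨hx, by simpa using hx0⟩ (hint x)
  obtain ⟨y, hy, hy'⟩ := SetLike.exists_of_lt hlt
  have hP : Q.comap φ < (center R V hle).comap φ :=
    Ideal.comap_lt_comap_of_integral_mem_sdiff hQP ⟨hy, hy'⟩ (hint y)
  rw [hcom] at hP
  have hCπ : C π ∉ Q.comap φ := fun h =>
    hP.ne (le_antisymm hP.le ((Ideal.span_singleton_le_iff_mem _).mpr h))
  have key : ∀ n : ℕ, ∀ f ∈ Q.comap φ, φ f ≠ 0 → C π ^ n ∣ f := by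
    intro n
    induction n with
    | zero => intro f _ _; simp
    | succ n ih =>
      intro f hf hf0
      obtain ⟨g, rfl⟩ := Ideal.mem_span_singleton.mp (hP.le hf)
      have hg : g ∈ Q.comap φ := by
        have h1 : φ (C π) * φ g ∈ Q := by rw [← map_mul]; exact hf
        rcases hQ.mem_or_mem h1 with h2 | h2
        · exact absurd h2 hCπ
        · exact h2
      have hg0 : φ g ≠ 0 := fun h => hf0 (by rw [map_mul, h, mul_zero])
      obtain ⟨k, hk⟩ := ih g hg hg0
      exact ⟨k, by rw [hk, pow_succ]; ring⟩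
  obtain ⟨f, hf, hf'⟩ := SetLike.exists_of_lt hI
  have hf0 : φ f ≠ 0 := by simpa [Ideal.mem_comap] using hf'
  have hfne : f ≠ 0 := fun h => hf0 (by rw [h, map_zero])
  have hnu : ¬ IsUnit (C π : O[X]) := by
    rw [Polynomial.isUnit_C]; exact hπu
  obtain ⟨n, hn⟩ := FiniteMultiplicity.of_not_isUnit hnu hfne
  exact hn (key (n + 1) f hf hf0)

theorem center_ne_bot (π : O) (R : Subalgebra O E) (V : ValuationSubring E)
    (hle : ∀ r : R, (r : E) ∈ V) (hπV : algebraMap O E π ∈ V.nonunits)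
    (hπ0 : algebraMap O E π ≠ 0) : center R V hle ≠ ⊥ := by
  intro h
  have h1 : algebraMap O R π ∈ center R V hle := hπV
  rw [h, Ideal.mem_bot] at h1
  apply hπ0
  have h2 : ((algebraMap O R π : R) : E) = ((0 : R) : E) := by rw [h1]
  exact h2

/-- **`PrincAt`** for the centre of `V`: `R_P` is a discrete valuation ring. -/
theorem princAt_center (π : O) (hπu : ¬ IsUnit π) (R : Subalgebra O E) [IsNoetherianRing R]
    [IsIntegrallyClosed R] (t : E) (ht : t ∈ R)
    (hR : ∀ x ∈ R, IsIntegral (Algebra.adjoin O {t}) x) (V : ValuationSubring E)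
    (hle : ∀ r : R, (r : E) ∈ V) (hπV : algebraMap O E π ∈ V.nonunits)
    (hπ0 : algebraMap O E π ≠ 0)
    (htr : ∀ f : O[X], aeval t f ∈ V.nonunits → ∀ n, π ∣ f.coeff n) :
    PrincAt (center R V hle) :=
  princAt_of_forall_eq _ (center_isPrime R V hle) (center_ne_bot π R V hle hπV hπ0)
    (fun Q hQ hQP h0 => eq_of_le_center π hπu R t ht hR V hle hπV htr Q hQ hQP h0)

/-- **`V = R_P`** (the `loc` field of `Model3Plan.ChartHyp3`): every element of `V` is a fraction
of elements of the chart with denominator outside the centre. -/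
theorem regAt_center (π : O) (hπu : ¬ IsUnit π) (R : Subalgebra O E) [IsNoetherianRing R]
    [IsIntegrallyClosed R] [IsFractionRing R E] (t : E) (ht : t ∈ R)
    (hR : ∀ x ∈ R, IsIntegral (Algebra.adjoin O {t}) x) (V : ValuationSubring E)
    (hle : ∀ r : R, (r : E) ∈ V) (hπV : algebraMap O E π ∈ V.nonunits)
    (hπ0 : algebraMap O E π ≠ 0)
    (htr : ∀ f : O[X], aeval t f ∈ V.nonunits → ∀ n, π ∣ f.coeff n) :
    ∀ x ∈ V, ∃ a s : R, s ∉ center R V hle ∧ x * algebraMap R E s = algebraMap R E a := by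
  intro x hx
  have hprime := center_isPrime R V hle
  obtain ⟨hne, g, hg, hgen⟩ := princAt_center π hπu R t ht hR V hle hπV hπ0 htr
  by_cases hx0 : x = 0
  · exact ⟨0, 1, (Ideal.ne_top_iff_one _).mp hprime.ne_top, by rw [hx0, zero_mul, map_zero]⟩
  obtain ⟨k, a, s, ha, hs, hxs⟩ :=
    Fermat.Agent.S34.KrullStmt.exists_zpow_unitAt (E := E) hne hg hgen hx0
  have hg0 : g ≠ 0 := Fermat.Agent.S34.KrullStmt.gen_ne_zero hne hgen
  have hgE : (g : E) ≠ 0 := fun h => hg0 (Subtype.ext h)
  have hgn : (g : E) ∈ V.nonunits := hg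
  have hxs' : x * (g : E) ^ k * (s : E) = (a : E) := hxs
  rcases le_or_gt k 0 with hk | hk
  · obtain ⟨n, rfl⟩ : ∃ n : ℕ, k = -(n : ℤ) := ⟨k.natAbs, by omega⟩
    refine ⟨a * g ^ n, s, hs, ?_⟩
    show x * (s : E) = ((a * g ^ n : R) : E)
    push_cast
    rw [← hxs', zpow_neg, zpow_natCast]
    field_simp
  · exfalso
    obtain ⟨n, rfl⟩ : ∃ n : ℕ, k = (n : ℤ) + 1 := ⟨(k - 1).toNat, by omega⟩
    apply ha
    rw [mem_center, ← hxs']
    have h1 : x * (g : E) ^ ((n : ℤ) + 1) * (s : E) = (g : E) ^ (n + 1) * (x * (s : E)) := by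
      rw [show ((n : ℤ) + 1) = ((n + 1 : ℕ) : ℤ) by push_cast; ring, zpow_natCast]
      ring
    rw [h1]
    exact nonunits_mul_mem (nonunits_pow_mem hgn (Nat.succ_ne_zero n)) (mul_mem hx (hle s))

/-- The `mem_P` field of `Model3Plan.ChartHyp3`: if `V` is discrete with uniformizer `ϖ`, the
centre is `R ∩ ϖ V`. -/
theorem mem_center_iff_unif (R : Subalgebra O E) (V : ValuationSubring E)
    (hle : ∀ r : R, (r : E) ∈ V) (ϖ : E) (hϖ : ϖ ∈ V) (hϖn : ϖ⁻¹ ∉ V)
    (disc : ∀ x : E, x ≠ 0 → ∃ k : ℤ, ∃ u ∈ V, u⁻¹ ∈ V ∧ x = ϖ ^ k * u) (r : R) :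
    r ∈ center R V hle ↔ ∃ y ∈ V, algebraMap R E r = ϖ * y := by
  have hϖnu : ϖ ∈ V.nonunits := nonunits_of_mem_of_inv_not_mem hϖ hϖn
  constructor
  · intro hr
    rw [mem_center] at hr
    by_cases hr0 : (r : E) = 0
    · exact ⟨0, V.zero_mem, by rw [mul_zero]; exact hr0⟩
    obtain ⟨k, u, hu, hu', hk⟩ := disc (r : E) hr0
    have hu0 : u ≠ 0 := by
      rintro rfl
      rw [mul_zero] at hk
      exact hr0 hk
    have hϖ0 : ϖ ≠ 0 := by
      rintro rfl
      exact hϖn (by rw [inv_zero]; exact V.zero_mem)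
    rcases le_or_gt k 0 with hk0 | hk0
    · exfalso
      obtain ⟨n, rfl⟩ : ∃ n : ℕ, k = -(n : ℤ) := ⟨k.natAbs, by omega⟩
      have h1 : ((r : E))⁻¹ = ϖ ^ n * u⁻¹ := by
        rw [hk, zpow_neg, zpow_natCast, mul_inv, inv_inv]
      have h2 : ((r : E))⁻¹ ∈ V := by
        rw [h1]; exact mul_mem (pow_mem hϖ n) hu'
      exact not_nonunits_of_inv_mem hr0 h2 hr
    · obtain ⟨n, rfl⟩ : ∃ n : ℕ, k = (n : ℤ) + 1 := ⟨(k - 1).toNat, by omega⟩
      refine ⟨ϖ ^ n * u, mul_mem (pow_mem hϖ n) hu, ?_⟩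
      show (r : E) = ϖ * (ϖ ^ n * u)
      rw [hk, show ((n : ℤ) + 1) = ((n + 1 : ℕ) : ℤ) by push_cast; ring, zpow_natCast, pow_succ']
      ring
  · rintro ⟨y, hy, hry⟩
    rw [mem_center]
    have h1 : (r : E) = ϖ * y := hry
    rw [h1]
    exact nonunits_mul_mem hϖnu hy

end Main

/-! ### The `ChartHyp3` of a chart -/

section Chart3

open Fermat.Agent.S36.Model3Plan

variable {O E : Type*} [CommRing O] [IsDomain O] [IsDiscreteValuationRing O] [Field E]
  [Algebra O E]

/-- `π` is a non-unit of every `V i` (from `ValHyp3`). -/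
theorem pi_mem_nonunits {p : E} {e : Fin 3 → ℕ} {ϖ : Fin 3 → E} {V : Fin 3 → ValuationSubring E}
    (val : ValHyp3 p e ϖ V) (i : Fin 3) : p ∈ (V i).nonunits := by
  obtain ⟨u, hu, -, hpu⟩ := val.ram i
  rw [hpu]
  exact nonunits_mul_mem (nonunits_pow_mem
    (nonunits_of_mem_of_inv_not_mem (val.unif_mem i) (val.unif_not i)) (val.e_pos i).ne') hu

/-- **The `ChartHyp3` of a chart** with `P i := center R (V i)`: `le` is the hypothesis, `mem_P`
and `loc` come from (tr), `desc` is the hypothesis (normality, [M3.5]). -/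
theorem chartHyp3_center (π : O) (hπu : ¬ IsUnit π) (R : Subalgebra O E) [IsNoetherianRing R]
    [IsIntegrallyClosed R] [IsFractionRing R E] (t : E) (ht : t ∈ R)
    (hR : ∀ x ∈ R, IsIntegral (Algebra.adjoin O {t}) x)
    (e : Fin 3 → ℕ) (ϖ : Fin 3 → E) (V : Fin 3 → ValuationSubring E)
    (val : ValHyp3 (algebraMap O E π) e ϖ V) (hπ0 : algebraMap O E π ≠ 0)
    (hle : ∀ (i : Fin 3) (r : R), (r : E) ∈ V i)
    (htr : ∀ (i : Fin 3) (f : O[X]), aeval t f ∈ (V i).nonunits → ∀ n, π ∣ f.coeff n)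
    (desc : ∀ r : R,
      (∀ i : Fin 3, ∃ y ∈ V i, algebraMap R E r = algebraMap R E (algebraMap O R π) * y) →
      ∃ r' : R, r = algebraMap O R π * r') :
    ChartHyp3 π ϖ V (fun i => center R (V i) (hle i)) where
  le := hle
  mem_P := fun i r =>
    mem_center_iff_unif R (V i) (hle i) (ϖ i) (val.unif_mem i) (val.unif_not i) (val.disc i) r
  loc := fun i =>
    regAt_center π hπu R t ht hR (V i) (hle i) (pi_mem_nonunits val i) hπ0 (htr i)
  desc := desc

/-- The vertical primes of a chart are `PrincAt` (height one). -/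
theorem princAt_center_of_val (π : O) (hπu : ¬ IsUnit π) (R : Subalgebra O E)
    [IsNoetherianRing R] [IsIntegrallyClosed R] (t : E) (ht : t ∈ R)
    (hR : ∀ x ∈ R, IsIntegral (Algebra.adjoin O {t}) x)
    (e : Fin 3 → ℕ) (ϖ : Fin 3 → E) (V : Fin 3 → ValuationSubring E)
    (val : ValHyp3 (algebraMap O E π) e ϖ V) (hπ0 : algebraMap O E π ≠ 0)
    (hle : ∀ (i : Fin 3) (r : R), (r : E) ∈ V i)
    (htr : ∀ (i : Fin 3) (f : O[X]), aeval t f ∈ (V i).nonunits → ∀ n, π ∣ f.coeff n)
    (i : Fin 3) : PrincAt (center R (V i) (hle i)) :=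
  princAt_center π hπu R t ht hR (V i) (hle i) (pi_mem_nonunits val i) hπ0 (htr i)

/-- The three vertical primes of a chart are pairwise incomparable. -/
theorem eq_of_center_le (π : O) (hπu : ¬ IsUnit π) (R : Subalgebra O E) [IsNoetherianRing R]
    [IsIntegrallyClosed R] [IsFractionRing R E] (t : E) (ht : t ∈ R)
    (hR : ∀ x ∈ R, IsIntegral (Algebra.adjoin O {t}) x)
    (e : Fin 3 → ℕ) (ϖ : Fin 3 → E) (V : Fin 3 → ValuationSubring E)
    (val : ValHyp3 (algebraMap O E π) e ϖ V) (hπ0 : algebraMap O E π ≠ 0)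
    (hle : ∀ (i : Fin 3) (r : R), (r : E) ∈ V i)
    (htr : ∀ (i : Fin 3) (f : O[X]), aeval t f ∈ (V i).nonunits → ∀ n, π ∣ f.coeff n)
    {i j : Fin 3} (hij : center R (V i) (hle i) ≤ center R (V j) (hle j)) : i = j := by
  by_contra hne
  have heq : center R (V i) (hle i) = center R (V j) (hle j) :=
    eq_of_le_center π hπu R t ht hR (V j) (hle j) (pi_mem_nonunits val j) (htr j) _
      (center_isPrime R (V i) (hle i)) hij
      (center_ne_bot π R (V i) (hle i) (pi_mem_nonunits val i) hπ0)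
  obtain ⟨x, hxj, hxi⟩ := val.sep j i (fun h => hne h.symm)
  obtain ⟨a, s, hs, hxs⟩ :=
    regAt_center π hπu R t ht hR (V j) (hle j) (pi_mem_nonunits val j) hπ0 (htr j) x hxj
  rw [← heq] at hs
  have hs' : ((s : E))⁻¹ ∈ V i := inv_mem_of_not_mem_center hs
  have hs0 : (s : E) ≠ 0 := by
    intro h
    apply hs
    rw [mem_center, h]
    exact (center R (V i) (hle i)).zero_mem
  apply hxi
  have hx : x = (a : E) * ((s : E))⁻¹ := by
    have h1 : x * (s : E) = (a : E) := hxs
    rw [← h1, mul_assoc, mul_inv_cancel₀ hs0, mul_one]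
  rw [hx]
  exact mul_mem (hle i a) hs'

end Chart3

/-! ### The `P i` are all the minimal primes over `π` -/

section Min

open Fermat.Agent.S36.Model3Plan

variable {O : Type*} [CommRing O] {R : Type*} [CommRing R] [Algebra O R]
  {E : Type*} [Field E] [Algebra R E]

/-- **(min)**: every prime of the chart containing `π` contains one of the three vertical primes
(from `desc` and the ramification `π = ϖ i ^ e i · unit`: `∏ r i ^ e i ∈ π R`). -/
theorem exists_le_of_pi_mem {π : O} {e : Fin 3 → ℕ} {ϖ : Fin 3 → E}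
    {V : Fin 3 → ValuationSubring E} {P : Fin 3 → Ideal R} (H : ChartHyp3 π ϖ V P)
    (hp0 : algebraMap R E (algebraMap O R π) ≠ 0)
    (hram : ∀ i : Fin 3, ∃ u ∈ V i, u⁻¹ ∈ V i ∧
      algebraMap R E (algebraMap O R π) = ϖ i ^ e i * u)
    (Q : Ideal R) (hQ : Q.IsPrime) (hπQ : algebraMap O R π ∈ Q) : ∃ i, P i ≤ Q := by
  by_contra hcon
  push Not at hcon
  have h1 : ∀ i, ∃ r ∈ P i, r ∉ Q := fun i => SetLike.not_le_iff_exists.mp (hcon i)
  choose r hrP hrQ using h1
  have h2 : ∀ i : Fin 3, ∃ y ∈ V i,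
      algebraMap R E (∏ j, r j ^ e j) = algebraMap R E (algebraMap O R π) * y := by
    intro i
    obtain ⟨u, hu, hu', hpu⟩ := hram i
    have hu0 : u ≠ 0 := by
      rintro rfl
      rw [mul_zero] at hpu
      exact hp0 hpu
    obtain ⟨y, hy, hry⟩ := (H.mem_P i (r i)).mp (hrP i)
    refine ⟨u⁻¹ * y ^ e i * algebraMap R E (∏ j ∈ Finset.univ.erase i, r j ^ e j), ?_, ?_⟩
    · exact mul_mem (mul_mem hu' (pow_mem hy _)) (H.le i _)
    · rw [← Finset.mul_prod_erase Finset.univ (fun j => r j ^ e j) (Finset.mem_univ i), map_mul,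
        map_pow, hry, hpu, mul_pow]
      field_simp
  obtain ⟨r', hr'⟩ := H.desc _ h2
  have h3 : ∏ j, r j ^ e j ∈ Q := by
    rw [hr']; exact Q.mul_mem_right _ hπQ
  obtain ⟨i, -, hi⟩ := (hQ.prod_mem_iff).mp h3
  exact hrQ i (hQ.mem_of_pow_mem _ hi)

end Min

end Fermat.Agent.S36.VertLoc
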