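/-
S36 — VertLocInst.lean (helper61), package [MODEL3]: the modular input **(tr)** of
`S36/VertLoc.lean` ("the reduction of the chart coordinate is transcendental on each component
valuation ring"), for every valuation ring given by Gauss reduction along an embedding.

* `tr_of_gRel` : `F ⊇ O_K` a field, `Emb : F →+* ℚ̄((Q))` with `Emb c = c` on constants, `V` a
  valuation subring with `x ∈ V ↔ ∃ y, GRel A (Emb x) y` (true by `Iff.rfl` for `GaussV.V1`,
  `GaussV.V2 w`, `GaussE.V`), `t` with `GRel A (Emb t) τ`, `τ` transcendental over the residue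
  field.  Then `aeval t f ∈ V.nonunits → ∀ n, π ∣ f.coeff n`.
* transcendence of `j̄`, `j̄⁻¹`, `j̄(Q^d)`, `j̄(Q^d)⁻¹` over the residue field;
* instances: `tr_V1_jK`, `tr_V1_jK_inv` (`W1 = GaussV.V1`, every level), `tr_V2_jK`,
  `tr_V2_jK_inv` (`W2 = GaussV.V2 (wK2 …)` at level `M q q`), and the general forms
  `tr_V2` (any automorphism `w` fixing the constants) and `tr_emb_jd` (any embedding sending the
  coordinate to `j(Q^d)^{±1}`, e.g. `ι3` for `W3`, `d = 1`).
-/
import Mathlib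
import Fermat.Agent.S36.VertLoc
import Fermat.Agent.S36.WQ2
import Fermat.Agent.S34.GaussV
import Fermat.Agent.S34.V12Rel
import Fermat.Agent.S18.ResOKEquiv
import Fermat.Agent.S18.QExpDefs
import Fermat.Agent.S18.ModelFin
import Fermat.Agent.S28.BasePair
import Fermat.Agent.S28.HeckeOrdersB
import Fermat.Agent.S18.SepDeg
import Fermat.Agent.S36.Chart3B

set_option autoImplicit false
set_option linter.unusedSectionVars false
set_option linter.style.haveILetI false

noncomputable section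

namespace Fermat.Agent.S36.VertLocInst

open ModularCurve HahnSeries Polynomial Fermat.Agent.S18 Fermat.Agent.S18.Arith
open Fermat.Agent.S18.ModelPlan Fermat.Agent.S34

/-! ### Transcendence over the residue field -/

section Transc

variable (k : Type*) [Field k]

/-- `j̄` is transcendental over `k`. -/
theorem transc_j (g : k[X]) (h : g.eval₂ HahnSeries.C (jqModC k) = 0) : g = 0 := by
  have h1 := Fermat.Agent.S28.BasePair.coeff_eval₂_C_jqModC k g
  rw [h, HahnSeries.coeff_zero] at h1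
  exact Polynomial.leadingCoeff_eq_zero.mp h1.symm

/-- `j̄(Q^d)` is transcendental over `k`. -/
theorem transc_jd (d : ℕ) [NeZero d] (g : k[X])
    (h : g.eval₂ HahnSeries.C (qExpand k d (jqModC k)) = 0) : g = 0 := by
  apply transc_j k g
  apply qExpand_injective (R := k) d
  rw [map_zero, Polynomial.hom_eval₂]
  have h1 : (qExpand k d).comp (HahnSeries.C : k →+* LaurentSeries k) = HahnSeries.C := by
    ext c : 1
    exact qExpand_C (R := k) (N := d) c
  rw [h1]
  exact h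

variable {k}

/-- The inverse of a nonzero transcendental element is transcendental (`eval₂` form). -/
theorem transc_inv {L : Type*} [Field L] (c : k →+* L) (τ : L) (hτ0 : τ ≠ 0)
    (hτ : ∀ g : k[X], g.eval₂ c τ = 0 → g = 0) (g : k[X]) (h : g.eval₂ c τ⁻¹ = 0) : g = 0 := by
  letI : Invertible τ⁻¹ := invertibleOfNonzero (inv_ne_zero hτ0)
  have h1 := Polynomial.eval₂_reverse_mul_pow c τ⁻¹ g
  rw [h, invOf_eq_inv, inv_inv] at h1
  have h2 : g.reverse.eval₂ c τ = 0 := by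
    rcases mul_eq_zero.mp h1 with h3 | h3
    · exact h3
    · exact absurd h3 (pow_ne_zero _ (inv_ne_zero hτ0))
  have h4 := hτ _ h2
  exact Polynomial.reverse_eq_zero.mp h4

/-- A Laurent series with a pole is transcendental over the coefficient field (`eval₂` form). -/
theorem transc_of_order_neg {k : Type*} [Field k] (τ : LaurentSeries k) (hτ : τ.order < 0)
    (g : k[X]) (h : g.eval₂ HahnSeries.C τ = 0) : g = 0 := by
  by_contra hg
  have hτ0 : τ ≠ 0 := by
    rintro rfl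
    rw [HahnSeries.order_zero] at hτ
    exact lt_irrefl _ hτ
  have hpow : ∀ i : ℕ, (τ ^ i).order = i • τ.order := fun i => HahnSeries.order_pow τ i
  have key : (g.eval₂ HahnSeries.C τ).coeff ((τ ^ g.natDegree).order)
      = g.leadingCoeff * (τ ^ g.natDegree).coeff ((τ ^ g.natDegree).order) := by
    rw [Polynomial.eval₂_eq_sum_range, HahnSeries.coeff_sum]
    rw [Finset.sum_eq_single g.natDegree]
    · rw [HahnSeries.C_mul_eq_smul, HahnSeries.coeff_smul, smul_eq_mul]; rfl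
    · intro i hi hne
      have hlt : i < g.natDegree :=
        lt_of_le_of_ne (Nat.lt_succ_iff.mp (Finset.mem_range.mp hi)) hne
      rw [HahnSeries.C_mul_eq_smul, HahnSeries.coeff_smul,
        HahnSeries.coeff_eq_zero_of_lt_order, smul_zero]
      rw [hpow, hpow, nsmul_eq_mul, nsmul_eq_mul]
      have h1 : ((i : ℕ) : ℤ) < ((g.natDegree : ℕ) : ℤ) := by exact_mod_cast hlt
      nlinarith
    · intro h'
      exact absurd (Finset.mem_range.mpr (Nat.lt_succ_self _)) h'
  rw [h, HahnSeries.coeff_zero] at key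
  have h2 : g.leadingCoeff * (τ ^ g.natDegree).coeff ((τ ^ g.natDegree).order) ≠ 0 :=
    mul_ne_zero (Polynomial.leadingCoeff_ne_zero.mpr hg)
      (HahnSeries.coeff_order_eq_zero.not.mpr (pow_ne_zero _ hτ0))
  exact h2 key.symm

end Transc

/-! ### (tr) from Gauss reductions along an embedding -/

section Abs

variable {A : ValuationSubring Qb} {K : IntermediateField ℚ Qb}
variable {F : Type*} [Field F] [Algebra (OK A K) F]

/-- The Gauss reduction along `Emb` of a polynomial in `t`. -/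
theorem gRel_aeval (Emb : F →+* LaurentSeries Qb)
    (hconst : ∀ c : OK A K, Emb (algebraMap (OK A K) F c) = (HahnSeries.C (incO A K c) : LaurentSeries Qb))
    (t : F) (τ : LaurentSeries (IsLocalRing.ResidueField A)) (ht : GRel A (Emb t) τ)
    (f : (OK A K)[X]) :
    GRel A (Emb (aeval t f)) ((f.map (resO A K)).eval₂ HahnSeries.C τ) := by
  have hG := Fermat.Agent.S18.GRel.gRelStatement A
  induction f using Polynomial.induction_on' with
  | add p q hp hq =>
    rw [map_add, map_add, Polynomial.map_add, Polynomial.eval₂_add]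
    exact hG.add _ _ _ _ hp hq
  | monomial n a =>
    rw [aeval_monomial, map_mul, map_pow, hconst, Polynomial.map_monomial,
      Polynomial.eval₂_monomial]
    exact hG.mul _ _ _ _ (ModelRed.gRel_const K hG a) (ModelRed.gRel_pow hG ht n)

/-- A non-unit of a Gauss valuation ring reduces to zero. -/
theorem gRel_zero_of_mem_nonunits (Emb : F →+* LaurentSeries Qb) (V : ValuationSubring F)
    (hV : ∀ x : F, x ∈ V ↔ ∃ y, GRel A (Emb x) y) {x : F} (hx : x ∈ V.nonunits) :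
    GRel A (Emb x) 0 := by
  have hG := Fermat.Agent.S18.GRel.gRelStatement A
  obtain ⟨y, hy⟩ := (hV x).mp (VertLoc.nonunits_mem hx)
  by_cases hy0 : y = 0
  · rw [hy0] at hy; exact hy
  exfalso
  have hx0 : x ≠ 0 := by
    rintro rfl
    rw [map_zero] at hy
    exact hy0 (hG.unique _ _ _ hy (ModelRed.gRel_zero hG))
  have hinv : x⁻¹ ∈ V := by
    rw [hV]
    refine ⟨y⁻¹, ?_⟩
    rw [map_inv₀]
    exact hG.inv _ _ hy hy0
  exact VertLoc.not_nonunits_of_inv_mem hx0 hinv hx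

/-- **(tr) along an embedding**: if `V` is the Gauss valuation ring along `Emb`, the constants
are fixed by `Emb`, and `t` reduces to an element `τ` transcendental over the residue field,
then a polynomial in `t` which is a non-unit of `V` has all its coefficients divisible by `π`. -/
theorem tr_of_gRel [IsDiscreteValuationRing (OK A K)] (π : OK A K) (hπ : Irreducible π)
    (Emb : F →+* LaurentSeries Qb) (V : ValuationSubring F)
    (hV : ∀ x : F, x ∈ V ↔ ∃ y, GRel A (Emb x) y)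
    (hconst : ∀ c : OK A K, Emb (algebraMap (OK A K) F c) = (HahnSeries.C (incO A K c) : LaurentSeries Qb))
    (t : F) (τ : LaurentSeries (IsLocalRing.ResidueField A)) (ht : GRel A (Emb t) τ)
    (hτ : ∀ g : (IsLocalRing.ResidueField A)[X], g.eval₂ HahnSeries.C τ = 0 → g = 0) :
    ∀ f : (OK A K)[X], aeval t f ∈ V.nonunits → ∀ n, π ∣ f.coeff n := by
  intro f hf n
  have hG := Fermat.Agent.S18.GRel.gRelStatement A
  have h1 := gRel_aeval Emb hconst t τ ht f
  have h2 := gRel_zero_of_mem_nonunits Emb V hV hf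
  have h3 : (f.map (resO A K)).eval₂ HahnSeries.C τ = 0 := hG.unique _ _ _ h1 h2
  have h4 := hτ _ h3
  have h5 : resO A K (f.coeff n) = 0 := by
    rw [← Polynomial.coeff_map, h4, Polynomial.coeff_zero]
  exact (ResOKEquiv.resO_eq_zero_iff_dvd A K π hπ _).mp h5

end Abs

/-! ### Instances: `W1`, `W2` and embeddings sending the coordinate to `j(Q^d)` -/

section Inst

variable {N : ℕ} [NeZero N] {A : ValuationSubring Qb} {K : IntermediateField ℚ Qb}

/-- (tr) along any embedding of `F_K(N)` fixing the constants and sending `t` to `j(Q^d)`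
(`d = 1`, `Emb = ι3` : the component `W3`, chart `j`). -/
theorem tr_emb_jd [IsDiscreteValuationRing (OK A K)] (π : OK A K) (hπ : Irreducible π)
    (Emb : FK N K →+* LaurentSeries Qb) (V : ValuationSubring (FK N K))
    (hV : ∀ x : FK N K, x ∈ V ↔ ∃ y, GRel A (Emb x) y)
    (hconst : ∀ c : OK A K,
      Emb (algebraMap (OK A K) (FK N K) c) = (HahnSeries.C (incO A K c) : LaurentSeries Qb))
    (d : ℕ) [NeZero d] (t : FK N K) (ht : Emb t = qExpand Qb d (jqModC Qb)) :
    ∀ f : (OK A K)[X], aeval t f ∈ V.nonunits → ∀ n, π ∣ f.coeff n :=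
  tr_of_gRel π hπ Emb V hV hconst t _ (by rw [ht]; exact V12Rel.gRel_jd A d)
    (transc_jd (IsLocalRing.ResidueField A) d)

/-- (tr) along any embedding of `F_K(N)` fixing the constants and sending `t` to `j(Q^d)⁻¹`
(chart `j⁻¹`). -/
theorem tr_emb_jd_inv [IsDiscreteValuationRing (OK A K)] (π : OK A K) (hπ : Irreducible π)
    (Emb : FK N K →+* LaurentSeries Qb) (V : ValuationSubring (FK N K))
    (hV : ∀ x : FK N K, x ∈ V ↔ ∃ y, GRel A (Emb x) y)
    (hconst : ∀ c : OK A K,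
      Emb (algebraMap (OK A K) (FK N K) c) = (HahnSeries.C (incO A K c) : LaurentSeries Qb))
    (d : ℕ) [NeZero d] (t : FK N K) (ht : Emb t = (qExpand Qb d (jqModC Qb))⁻¹) :
    ∀ f : (OK A K)[X], aeval t f ∈ V.nonunits → ∀ n, π ∣ f.coeff n := by
  have h0 : qExpand (IsLocalRing.ResidueField A) d (jqModC (IsLocalRing.ResidueField A)) ≠ 0 := by
    intro h
    have h1 := transc_jd (IsLocalRing.ResidueField A) d Polynomial.X
      (by rw [Polynomial.eval₂_X]; exact h)
    exact Polynomial.X_ne_zero h1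
  have hg : GRel A (Emb t)
      (qExpand (IsLocalRing.ResidueField A) d (jqModC (IsLocalRing.ResidueField A)))⁻¹ := by
    rw [ht]; exact V12Rel.gRel_jd_inv A d
  have htr : ∀ g : (IsLocalRing.ResidueField A)[X],
      g.eval₂ HahnSeries.C
        (qExpand (IsLocalRing.ResidueField A) d (jqModC (IsLocalRing.ResidueField A)))⁻¹ = 0 →
      g = 0 :=
    transc_inv (HahnSeries.C : IsLocalRing.ResidueField A →+* LaurentSeries _) _ h0
      (transc_jd (IsLocalRing.ResidueField A) d)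
  exact tr_of_gRel π hπ Emb V hV hconst t _ hg htr

theorem qExpand_one_jqModC (R : Type*) [CommRing R] : qExpand R 1 (jqModC R) = jqModC R :=
  qExpand_one_apply (R := R) _

/-- (tr) on `W1 = GaussV.V1`, chart `j`. -/
theorem tr_V1_jK (hdvr : IsDiscreteValuationRing (OK A K)) (π : OK A K) (hπ : Irreducible π) :
    ∀ f : (OK A K)[X], aeval (jK N K) f ∈ (GaussV.V1 N A K hdvr).nonunits → ∀ n, π ∣ f.coeff n := by
  haveI := hdvr
  refine tr_emb_jd π hπ (FK N K).subtype (GaussV.V1 N A K hdvr) (fun x => Iff.rfl)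
    (fun c => rfl) 1 (jK N K) ?_
  rw [qExpand_one_jqModC]
  exact ModelQFrac.coe_jK N K

/-- (tr) on `W1 = GaussV.V1`, chart `j⁻¹`. -/
theorem tr_V1_jK_inv (hdvr : IsDiscreteValuationRing (OK A K)) (π : OK A K)
    (hπ : Irreducible π) :
    ∀ f : (OK A K)[X], aeval (jK N K)⁻¹ f ∈ (GaussV.V1 N A K hdvr).nonunits →
      ∀ n, π ∣ f.coeff n := by
  haveI := hdvr
  refine tr_emb_jd_inv π hπ (FK N K).subtype (GaussV.V1 N A K hdvr) (fun x => Iff.rfl)
    (fun c => rfl) 1 (jK N K)⁻¹ ?_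
  rw [qExpand_one_jqModC, map_inv₀]
  congr 1
  exact ModelQFrac.coe_jK N K

/-- (tr) on a transported valuation ring `GaussV.V2 w` (`w` an automorphism fixing the
constants), for a coordinate `t` with `w t = j(Q^d)`. -/
theorem tr_V2 (hdvr : IsDiscreteValuationRing (OK A K)) (π : OK A K) (hπ : Irreducible π)
    (w : FK N K ≃+* FK N K)
    (hw : ∀ c : OK A K, w (algebraMap (OK A K) (FK N K) c) = algebraMap (OK A K) (FK N K) c)
    (d : ℕ) [NeZero d] (t : FK N K)
    (ht : ((w t : FK N K) : LaurentSeries Qb) = qExpand Qb d (jqModC Qb)) :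
    ∀ f : (OK A K)[X], aeval t f ∈ (GaussV.V2 w hdvr).nonunits → ∀ n, π ∣ f.coeff n := by
  haveI := hdvr
  refine tr_emb_jd π hπ ((FK N K).subtype.comp (w : FK N K →+* FK N K)) (GaussV.V2 w hdvr)
    (fun x => Iff.rfl) (fun c => ?_) d t ht
  show ((w (algebraMap (OK A K) (FK N K) c) : FK N K) : LaurentSeries Qb) = _
  rw [hw]
  rfl

/-- (tr) on `GaussV.V2 w`, for a coordinate `t` with `w t = j(Q^d)⁻¹`. -/
theorem tr_V2_inv (hdvr : IsDiscreteValuationRing (OK A K)) (π : OK A K) (hπ : Irreducible π)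
    (w : FK N K ≃+* FK N K)
    (hw : ∀ c : OK A K, w (algebraMap (OK A K) (FK N K) c) = algebraMap (OK A K) (FK N K) c)
    (d : ℕ) [NeZero d] (t : FK N K)
    (ht : ((w t : FK N K) : LaurentSeries Qb) = (qExpand Qb d (jqModC Qb))⁻¹) :
    ∀ f : (OK A K)[X], aeval t f ∈ (GaussV.V2 w hdvr).nonunits → ∀ n, π ∣ f.coeff n := by
  haveI := hdvr
  refine tr_emb_jd_inv π hπ ((FK N K).subtype.comp (w : FK N K →+* FK N K)) (GaussV.V2 w hdvr)
    (fun x => Iff.rfl) (fun c => ?_) d t ht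
  show ((w (algebraMap (OK A K) (FK N K) c) : FK N K) : LaurentSeries Qb) = _
  rw [hw]
  rfl

end Inst

/-! ### `W2` at level `M q q` -/

section W2

variable (M q : ℕ) [NeZero M] [NeZero q] (hq : q.Prime) (hqM : ¬ q ∣ M)
variable {A : ValuationSubring Qb} {K : IntermediateField ℚ Qb}

/-- (tr) on `W2 = GaussV.V2 (wK2)` at level `M q q`, chart `j`: `w_{q²} j = j(Q^{q²})`. -/
theorem tr_W2_jK (hdvr : IsDiscreteValuationRing (OK A K)) (π : OK A K) (hπ : Irreducible π) :
    ∀ f : (OK A K)[X],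
      aeval (jK (M * q * q) K) f ∈ (GaussV.V2 (WQ2.wK2 M q hq hqM K) hdvr).nonunits →
      ∀ n, π ∣ f.coeff n := by
  haveI : NeZero (q * q) := ⟨Nat.mul_ne_zero (NeZero.ne q) (NeZero.ne q)⟩
  refine tr_V2 hdvr π hπ (WQ2.wK2 M q hq hqM K) (WQ2.wK2_algebraMap_OK M q hq hqM K A)
    (q * q) (jK (M * q * q) K) ?_
  rw [WQ2.wK2_jK, WQ2.coe_jqqK2, Fermat.Agent.S28.jd_eq]

/-- (tr) on `W2 = GaussV.V2 (wK2)` at level `M q q`, chart `j⁻¹`. -/
theorem tr_W2_jK_inv (hdvr : IsDiscreteValuationRing (OK A K)) (π : OK A K)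
    (hπ : Irreducible π) :
    ∀ f : (OK A K)[X],
      aeval (jK (M * q * q) K)⁻¹ f ∈ (GaussV.V2 (WQ2.wK2 M q hq hqM K) hdvr).nonunits →
      ∀ n, π ∣ f.coeff n := by
  haveI : NeZero (q * q) := ⟨Nat.mul_ne_zero (NeZero.ne q) (NeZero.ne q)⟩
  refine tr_V2_inv hdvr π hπ (WQ2.wK2 M q hq hqM K) (WQ2.wK2_algebraMap_OK M q hq hqM K A)
    (q * q) (jK (M * q * q) K)⁻¹ ?_
  rw [map_inv₀, WQ2.wK2_jK]
  push_cast
  rw [WQ2.coe_jqqK2, Fermat.Agent.S28.jd_eq]

end W2

/-! ### The `ChartHyp3` of `chart N A K t` -/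

section Chart

open Fermat.Agent.S36.Model3Plan

variable {N : ℕ} [NeZero N] {A : ValuationSubring Qb} {K : IntermediateField ℚ Qb}

/-- (tr) along an embedding sending `t` to `j` (`W3` with `Emb = ι3`, chart `j`). -/
theorem tr_emb_j [IsDiscreteValuationRing (OK A K)] (π : OK A K) (hπ : Irreducible π)
    (Emb : FK N K →+* LaurentSeries Qb) (V : ValuationSubring (FK N K))
    (hV : ∀ x : FK N K, x ∈ V ↔ ∃ y, GRel A (Emb x) y)
    (hconst : ∀ c : OK A K,
      Emb (algebraMap (OK A K) (FK N K) c) = (HahnSeries.C (incO A K c) : LaurentSeries Qb))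
    (t : FK N K) (ht : Emb t = jqModC Qb) :
    ∀ f : (OK A K)[X], aeval t f ∈ V.nonunits → ∀ n, π ∣ f.coeff n :=
  tr_emb_jd π hπ Emb V hV hconst 1 t (by rw [qExpand_one_jqModC]; exact ht)

/-- (tr) along an embedding sending `t` to `j⁻¹` (`W3` with `Emb = ι3`, chart `j⁻¹`). -/
theorem tr_emb_j_inv [IsDiscreteValuationRing (OK A K)] (π : OK A K) (hπ : Irreducible π)
    (Emb : FK N K →+* LaurentSeries Qb) (V : ValuationSubring (FK N K))
    (hV : ∀ x : FK N K, x ∈ V ↔ ∃ y, GRel A (Emb x) y)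
    (hconst : ∀ c : OK A K,
      Emb (algebraMap (OK A K) (FK N K) c) = (HahnSeries.C (incO A K c) : LaurentSeries Qb))
    (t : FK N K) (ht : Emb t = (jqModC Qb)⁻¹) :
    ∀ f : (OK A K)[X], aeval t f ∈ V.nonunits → ∀ n, π ∣ f.coeff n :=
  tr_emb_jd_inv π hπ Emb V hV hconst 1 t (by rw [qExpand_one_jqModC]; exact ht)

/-- **The `ChartHyp3` of a chart `chart N A K t`** (`le`, (tr), `desc` ⇒ `mem_P`, `loc`), with
`P i := VertLoc.center (chart N A K t) (V i)`. -/
theorem chartHyp3_chart (hdvr : IsDiscreteValuationRing (OK A K)) (π : OK A K)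
    (hπ : Irreducible π) (t : FK N K) (hnoeth : IsNoetherianRing (chart N A K t))
    (hintcl : IsIntegrallyClosed (chart N A K t))
    (hfrac : IsFractionRing (chart N A K t) (FK N K))
    (e : Fin 3 → ℕ) (ϖ : Fin 3 → FK N K) (V : Fin 3 → ValuationSubring (FK N K))
    (val : ValHyp3 (algebraMap (OK A K) (FK N K) π) e ϖ V)
    (hle : ∀ (i : Fin 3) (r : chart N A K t), (r : FK N K) ∈ V i)
    (htr : ∀ (i : Fin 3) (f : (OK A K)[X]), aeval t f ∈ (V i).nonunits → ∀ n, π ∣ f.coeff n)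
    (desc : ∀ r : chart N A K t,
      (∀ i : Fin 3, ∃ y ∈ V i, algebraMap (chart N A K t) (FK N K) r
        = algebraMap (chart N A K t) (FK N K) (algebraMap (OK A K) (chart N A K t) π) * y) →
      ∃ r' : chart N A K t, r = algebraMap (OK A K) (chart N A K t) π * r') :
    ChartHyp3 π ϖ V (fun i => VertLoc.center (chart N A K t) (V i) (hle i)) := by
  haveI := hdvr
  haveI := hnoeth
  haveI := hintcl
  haveI := hfrac
  exact VertLoc.chartHyp3_center π hπ.not_isUnit (chart N A K t) t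
    (HorPrinc.isIntegral_adjoin_self t) (fun x hx => hx) e ϖ V val
    (GaussV.algebraMap_ne_zero N A K hπ.ne_zero) hle htr desc

/-- The vertical primes of `chart N A K t` are `PrincAt` (height one). -/
theorem princAt_chart (hdvr : IsDiscreteValuationRing (OK A K)) (π : OK A K)
    (hπ : Irreducible π) (t : FK N K) (hnoeth : IsNoetherianRing (chart N A K t))
    (hintcl : IsIntegrallyClosed (chart N A K t))
    (e : Fin 3 → ℕ) (ϖ : Fin 3 → FK N K) (V : Fin 3 → ValuationSubring (FK N K))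
    (val : ValHyp3 (algebraMap (OK A K) (FK N K) π) e ϖ V)
    (hle : ∀ (i : Fin 3) (r : chart N A K t), (r : FK N K) ∈ V i)
    (htr : ∀ (i : Fin 3) (f : (OK A K)[X]), aeval t f ∈ (V i).nonunits → ∀ n, π ∣ f.coeff n)
    (i : Fin 3) : LocPlan.PrincAt (VertLoc.center (chart N A K t) (V i) (hle i)) := by
  haveI := hdvr
  haveI := hnoeth
  haveI := hintcl
  exact VertLoc.princAt_center_of_val π hπ.not_isUnit (chart N A K t) t
    (HorPrinc.isIntegral_adjoin_self t) (fun x hx => hx) e ϖ V val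
    (GaussV.algebraMap_ne_zero N A K hπ.ne_zero) hle htr i

end Chart

/-! ### (tr) for the three components at level `M q q` -/

section Three

variable (M q : ℕ) [NeZero M] [NeZero q] (hq : q.Prime) (hqM : ¬ q ∣ M)
variable {A : ValuationSubring Qb} {K : IntermediateField ℚ Qb}

/-- (tr) for `V = ![W1, W2, W3]` at level `M q q`, chart `j`: `W1 = GaussV.V1`,
`W2 = GaussV.V2 wK2`, `W3` the Gauss valuation ring along an embedding `Emb3` fixing the
constants and `j` (`ι3`). -/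
theorem tr_three_jK (hdvr : IsDiscreteValuationRing (OK A K)) (π : OK A K) (hπ : Irreducible π)
    (V : Fin 3 → ValuationSubring (FK (M * q * q) K))
    (h0 : V 0 = GaussV.V1 (M * q * q) A K hdvr)
    (h1 : V 1 = GaussV.V2 (WQ2.wK2 M q hq hqM K) hdvr)
    (Emb3 : FK (M * q * q) K →+* LaurentSeries Qb)
    (h2 : ∀ x : FK (M * q * q) K, x ∈ V 2 ↔ ∃ y, GRel A (Emb3 x) y)
    (hconst : ∀ c : OK A K, Emb3 (algebraMap (OK A K) (FK (M * q * q) K) c)
      = (HahnSeries.C (incO A K c) : LaurentSeries Qb))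
    (hj : Emb3 (jK (M * q * q) K) = jqModC Qb) :
    ∀ (i : Fin 3) (f : (OK A K)[X]),
      aeval (jK (M * q * q) K) f ∈ (V i).nonunits → ∀ n, π ∣ f.coeff n := by
  haveI := hdvr
  intro i
  fin_cases i
  · show ∀ f : (OK A K)[X], aeval (jK (M * q * q) K) f ∈ (V 0).nonunits → ∀ n, π ∣ f.coeff n
    rw [h0]
    exact tr_V1_jK hdvr π hπ
  · show ∀ f : (OK A K)[X], aeval (jK (M * q * q) K) f ∈ (V 1).nonunits → ∀ n, π ∣ f.coeff n
    rw [h1]
    exact tr_W2_jK M q hq hqM hdvr π hπ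
  · show ∀ f : (OK A K)[X], aeval (jK (M * q * q) K) f ∈ (V 2).nonunits → ∀ n, π ∣ f.coeff n
    exact tr_emb_j π hπ Emb3 (V 2) h2 hconst _ hj

/-- (tr) for `V = ![W1, W2, W3]` at level `M q q`, chart `j⁻¹`. -/
theorem tr_three_jK_inv (hdvr : IsDiscreteValuationRing (OK A K)) (π : OK A K)
    (hπ : Irreducible π) (V : Fin 3 → ValuationSubring (FK (M * q * q) K))
    (h0 : V 0 = GaussV.V1 (M * q * q) A K hdvr)
    (h1 : V 1 = GaussV.V2 (WQ2.wK2 M q hq hqM K) hdvr)
    (Emb3 : FK (M * q * q) K →+* LaurentSeries Qb)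
    (h2 : ∀ x : FK (M * q * q) K, x ∈ V 2 ↔ ∃ y, GRel A (Emb3 x) y)
    (hconst : ∀ c : OK A K, Emb3 (algebraMap (OK A K) (FK (M * q * q) K) c)
      = (HahnSeries.C (incO A K c) : LaurentSeries Qb))
    (hj : Emb3 (jK (M * q * q) K) = jqModC Qb) :
    ∀ (i : Fin 3) (f : (OK A K)[X]),
      aeval (jK (M * q * q) K)⁻¹ f ∈ (V i).nonunits → ∀ n, π ∣ f.coeff n := by
  haveI := hdvr
  intro i
  fin_cases i
  · show ∀ f : (OK A K)[X], aeval (jK (M * q * q) K)⁻¹ f ∈ (V 0).nonunits → ∀ n, π ∣ f.coeff n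
    rw [h0]
    exact tr_V1_jK_inv hdvr π hπ
  · show ∀ f : (OK A K)[X], aeval (jK (M * q * q) K)⁻¹ f ∈ (V 1).nonunits → ∀ n, π ∣ f.coeff n
    rw [h1]
    exact tr_W2_jK_inv M q hq hqM hdvr π hπ
  · show ∀ f : (OK A K)[X], aeval (jK (M * q * q) K)⁻¹ f ∈ (V 2).nonunits → ∀ n, π ∣ f.coeff n
    exact tr_emb_j_inv π hπ Emb3 (V 2) h2 hconst _ (by rw [map_inv₀, hj])

end Three

/-! ### (tr) for a coordinate whose reduction has a pole; the coordinate `J3 = j · j_q · j_{q²}` -/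

section Pole

variable {A : ValuationSubring Qb} {K : IntermediateField ℚ Qb}
variable {F : Type*} [Field F] [Algebra (OK A K) F]

/-- (tr) along an embedding, for a coordinate whose Gauss reduction has a pole. -/
theorem tr_of_gRel_pole [IsDiscreteValuationRing (OK A K)] (π : OK A K) (hπ : Irreducible π)
    (Emb : F →+* LaurentSeries Qb) (V : ValuationSubring F)
    (hV : ∀ x : F, x ∈ V ↔ ∃ y, GRel A (Emb x) y)
    (hconst : ∀ c : OK A K,
      Emb (algebraMap (OK A K) F c) = (HahnSeries.C (incO A K c) : LaurentSeries Qb))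
    (t : F) (τ : LaurentSeries (IsLocalRing.ResidueField A)) (ht : GRel A (Emb t) τ)
    (hτ : τ.order < 0) :
    ∀ f : (OK A K)[X], aeval t f ∈ V.nonunits → ∀ n, π ∣ f.coeff n :=
  tr_of_gRel π hπ Emb V hV hconst t τ ht (transc_of_order_neg τ hτ)

/-- (tr) along an embedding, for a coordinate whose Gauss reduction is the inverse of a series
with a pole. -/
theorem tr_of_gRel_pole_inv [IsDiscreteValuationRing (OK A K)] (π : OK A K)
    (hπ : Irreducible π) (Emb : F →+* LaurentSeries Qb) (V : ValuationSubring F)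
    (hV : ∀ x : F, x ∈ V ↔ ∃ y, GRel A (Emb x) y)
    (hconst : ∀ c : OK A K,
      Emb (algebraMap (OK A K) F c) = (HahnSeries.C (incO A K c) : LaurentSeries Qb))
    (t : F) (τ : LaurentSeries (IsLocalRing.ResidueField A)) (ht : GRel A (Emb t) τ⁻¹)
    (hτ : τ.order < 0) :
    ∀ f : (OK A K)[X], aeval t f ∈ V.nonunits → ∀ n, π ∣ f.coeff n := by
  have hτ0 : τ ≠ 0 := by
    rintro rfl
    rw [HahnSeries.order_zero] at hτ
    exact lt_irrefl _ hτ
  exact tr_of_gRel π hπ Emb V hV hconst t τ⁻¹ ht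
    (transc_inv (HahnSeries.C : IsLocalRing.ResidueField A →+* LaurentSeries _) τ hτ0
      (transc_of_order_neg τ hτ))

end Pole

section J3

variable (M q : ℕ) [NeZero M] [NeZero q] (hq : q.Prime) (hqM : ¬ q ∣ M)
variable {A : ValuationSubring Qb} {K : IntermediateField ℚ Qb}

/-- The reduction `j̄ · j̄(Q^q) · j̄(Q^{q²})` of `J3` on `W1` and `W2`. -/
def tauJ3 (k : Type*) [Field k] (q : ℕ) [NeZero q] : LaurentSeries k :=
  haveI : NeZero (q * q) := ⟨Nat.mul_ne_zero (NeZero.ne q) (NeZero.ne q)⟩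
  jqModC k * qExpand k q (jqModC k) * qExpand k (q * q) (jqModC k)

theorem order_tauJ3 (k : Type*) [Field k] (q : ℕ) [NeZero q] : (tauJ3 k q).order < 0 := by
  haveI : NeZero (q * q) := ⟨Nat.mul_ne_zero (NeZero.ne q) (NeZero.ne q)⟩
  have h0 : jqModC k ≠ 0 := by
    intro h
    have h1 := SepDeg.order_jqModC k
    rw [h, HahnSeries.order_zero] at h1
    exact absurd h1 (by norm_num)
  have h1 : qExpand k q (jqModC k) ≠ 0 := fun h =>
    h0 (qExpand_injective (R := k) q (by rw [h, map_zero]))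
  have h2 : qExpand k (q * q) (jqModC k) ≠ 0 := fun h =>
    h0 (qExpand_injective (R := k) (q * q) (by rw [h, map_zero]))
  rw [tauJ3, HahnSeries.order_mul (mul_ne_zero h0 h1) h2, HahnSeries.order_mul h0 h1,
    Fermat.Agent.S28.OrdersB.order_qExpand k q h0,
    Fermat.Agent.S28.OrdersB.order_qExpand k (q * q) h0, SepDeg.order_jqModC]
  have hq0 : (0 : ℤ) < q := by exact_mod_cast Nat.pos_of_ne_zero (NeZero.ne q)
  push_cast
  nlinarith

/-- The Gauss reduction of `J3` along the `q`-expansion at `∞`. -/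
theorem gRel_J3 :
    GRel A ((Chart3B.J3 M q hq hqM K : FK (M * q * q) K) : LaurentSeries Qb)
      (tauJ3 (IsLocalRing.ResidueField A) q) := by
  haveI : NeZero (q * q) := ⟨Nat.mul_ne_zero (NeZero.ne q) (NeZero.ne q)⟩
  have hG := Fermat.Agent.S18.GRel.gRelStatement A
  rw [Chart3B.J3_eq]
  push_cast
  rw [WQ2.coe_jqK2, WQ2.coe_jqqK2, Fermat.Agent.S28.jd_eq, Fermat.Agent.S28.jd_eq,
    ModelQFrac.coe_jK]
  exact hG.mul _ _ _ _ (hG.mul _ _ _ _ (V12Rel.gRel_j A) (V12Rel.gRel_jd A q))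
    (V12Rel.gRel_jd A (q * q))

/-- The Gauss reduction of `J3⁻¹` along the `q`-expansion at `∞`. -/
theorem gRel_J3_inv :
    GRel A (((Chart3B.J3 M q hq hqM K)⁻¹ : FK (M * q * q) K) : LaurentSeries Qb)
      (tauJ3 (IsLocalRing.ResidueField A) q)⁻¹ := by
  have hG := Fermat.Agent.S18.GRel.gRelStatement A
  have h0 : tauJ3 (IsLocalRing.ResidueField A) q ≠ 0 := by
    intro h
    have h1 := order_tauJ3 (IsLocalRing.ResidueField A) q
    rw [h, HahnSeries.order_zero] at h1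
    exact lt_irrefl _ h1
  push_cast
  exact hG.inv _ _ (gRel_J3 M q hq hqM) h0

/-- (tr) on `W1 = GaussV.V1`, chart `J3`. -/
theorem tr_W1_J3 (hdvr : IsDiscreteValuationRing (OK A K)) (π : OK A K) (hπ : Irreducible π) :
    ∀ f : (OK A K)[X],
      aeval (Chart3B.J3 M q hq hqM K) f ∈ (GaussV.V1 (M * q * q) A K hdvr).nonunits →
      ∀ n, π ∣ f.coeff n := by
  haveI := hdvr
  exact tr_of_gRel_pole π hπ (FK (M * q * q) K).subtype (GaussV.V1 (M * q * q) A K hdvr)
    (fun x => Iff.rfl) (fun c => rfl) _ _ (gRel_J3 M q hq hqM)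
    (order_tauJ3 (IsLocalRing.ResidueField A) q)

/-- (tr) on `W1 = GaussV.V1`, chart `J3⁻¹`. -/
theorem tr_W1_J3_inv (hdvr : IsDiscreteValuationRing (OK A K)) (π : OK A K)
    (hπ : Irreducible π) :
    ∀ f : (OK A K)[X],
      aeval (Chart3B.J3 M q hq hqM K)⁻¹ f ∈ (GaussV.V1 (M * q * q) A K hdvr).nonunits →
      ∀ n, π ∣ f.coeff n := by
  haveI := hdvr
  exact tr_of_gRel_pole_inv π hπ (FK (M * q * q) K).subtype (GaussV.V1 (M * q * q) A K hdvr)
    (fun x => Iff.rfl) (fun c => rfl) _ _ (gRel_J3_inv M q hq hqM)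
    (order_tauJ3 (IsLocalRing.ResidueField A) q)

/-- (tr) on `W2 = GaussV.V2 wK2`, chart `J3` (`w_{q²} J3 = J3`). -/
theorem tr_W2_J3 (hdvr : IsDiscreteValuationRing (OK A K)) (π : OK A K) (hπ : Irreducible π) :
    ∀ f : (OK A K)[X],
      aeval (Chart3B.J3 M q hq hqM K) f
        ∈ (GaussV.V2 (WQ2.wK2 M q hq hqM K) hdvr).nonunits →
      ∀ n, π ∣ f.coeff n := by
  haveI := hdvr
  refine tr_of_gRel_pole π hπ
    ((FK (M * q * q) K).subtype.comp
      (WQ2.wK2 M q hq hqM K : FK (M * q * q) K →+* FK (M * q * q) K))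
    (GaussV.V2 (WQ2.wK2 M q hq hqM K) hdvr) (fun x => Iff.rfl) (fun c => ?_) _
    (tauJ3 (IsLocalRing.ResidueField A) q) ?_ (order_tauJ3 (IsLocalRing.ResidueField A) q)
  · show ((WQ2.wK2 M q hq hqM K (algebraMap (OK A K) (FK (M * q * q) K) c) :
      FK (M * q * q) K) : LaurentSeries Qb) = _
    rw [WQ2.wK2_algebraMap_OK]
    rfl
  · show GRel A ((WQ2.wK2 M q hq hqM K (Chart3B.J3 M q hq hqM K) : FK (M * q * q) K) :
      LaurentSeries Qb) _
    rw [Chart3B.wK2_J3]
    exact gRel_J3 M q hq hqM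

/-- (tr) on `W2 = GaussV.V2 wK2`, chart `J3⁻¹`. -/
theorem tr_W2_J3_inv (hdvr : IsDiscreteValuationRing (OK A K)) (π : OK A K)
    (hπ : Irreducible π) :
    ∀ f : (OK A K)[X],
      aeval (Chart3B.J3 M q hq hqM K)⁻¹ f
        ∈ (GaussV.V2 (WQ2.wK2 M q hq hqM K) hdvr).nonunits →
      ∀ n, π ∣ f.coeff n := by
  haveI := hdvr
  refine tr_of_gRel_pole_inv π hπ
    ((FK (M * q * q) K).subtype.comp
      (WQ2.wK2 M q hq hqM K : FK (M * q * q) K →+* FK (M * q * q) K))
    (GaussV.V2 (WQ2.wK2 M q hq hqM K) hdvr) (fun x => Iff.rfl) (fun c => ?_) _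
    (tauJ3 (IsLocalRing.ResidueField A) q) ?_ (order_tauJ3 (IsLocalRing.ResidueField A) q)
  · show ((WQ2.wK2 M q hq hqM K (algebraMap (OK A K) (FK (M * q * q) K) c) :
      FK (M * q * q) K) : LaurentSeries Qb) = _
    rw [WQ2.wK2_algebraMap_OK]
    rfl
  · show GRel A ((WQ2.wK2 M q hq hqM K (Chart3B.J3 M q hq hqM K)⁻¹ : FK (M * q * q) K) :
      LaurentSeries Qb) _
    rw [Chart3B.wK2_J3_inv]
    exact gRel_J3_inv M q hq hqM

/-- (tr) for `V = ![W1, W2, W3]` at level `M q q`, chart `J3`: `W1 = GaussV.V1`,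
`W2 = GaussV.V2 wK2`, `W3` the Gauss valuation ring along an embedding `Emb3` fixing the
constants, along which `J3` reduces to a series with a pole (for `ι3`: `j̄ · j̄(Q^q) · j̄`). -/
theorem tr_three_J3 (hdvr : IsDiscreteValuationRing (OK A K)) (π : OK A K) (hπ : Irreducible π)
    (V : Fin 3 → ValuationSubring (FK (M * q * q) K))
    (h0 : V 0 = GaussV.V1 (M * q * q) A K hdvr)
    (h1 : V 1 = GaussV.V2 (WQ2.wK2 M q hq hqM K) hdvr)
    (Emb3 : FK (M * q * q) K →+* LaurentSeries Qb)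
    (h2 : ∀ x : FK (M * q * q) K, x ∈ V 2 ↔ ∃ y, GRel A (Emb3 x) y)
    (hconst : ∀ c : OK A K, Emb3 (algebraMap (OK A K) (FK (M * q * q) K) c)
      = (HahnSeries.C (incO A K c) : LaurentSeries Qb))
    (τ3 : LaurentSeries (IsLocalRing.ResidueField A))
    (hJ : GRel A (Emb3 (Chart3B.J3 M q hq hqM K)) τ3) (hτ3 : τ3.order < 0) :
    ∀ (i : Fin 3) (f : (OK A K)[X]),
      aeval (Chart3B.J3 M q hq hqM K) f ∈ (V i).nonunits → ∀ n, π ∣ f.coeff n := by
  haveI := hdvr
  intro i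
  fin_cases i
  · show ∀ f : (OK A K)[X], aeval (Chart3B.J3 M q hq hqM K) f ∈ (V 0).nonunits →
      ∀ n, π ∣ f.coeff n
    rw [h0]
    exact tr_W1_J3 M q hq hqM hdvr π hπ
  · show ∀ f : (OK A K)[X], aeval (Chart3B.J3 M q hq hqM K) f ∈ (V 1).nonunits →
      ∀ n, π ∣ f.coeff n
    rw [h1]
    exact tr_W2_J3 M q hq hqM hdvr π hπ
  · show ∀ f : (OK A K)[X], aeval (Chart3B.J3 M q hq hqM K) f ∈ (V 2).nonunits →
      ∀ n, π ∣ f.coeff n
    exact tr_of_gRel_pole π hπ Emb3 (V 2) h2 hconst _ τ3 hJ hτ3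

/-- (tr) for `V = ![W1, W2, W3]` at level `M q q`, chart `J3⁻¹`. -/
theorem tr_three_J3_inv (hdvr : IsDiscreteValuationRing (OK A K)) (π : OK A K)
    (hπ : Irreducible π) (V : Fin 3 → ValuationSubring (FK (M * q * q) K))
    (h0 : V 0 = GaussV.V1 (M * q * q) A K hdvr)
    (h1 : V 1 = GaussV.V2 (WQ2.wK2 M q hq hqM K) hdvr)
    (Emb3 : FK (M * q * q) K →+* LaurentSeries Qb)
    (h2 : ∀ x : FK (M * q * q) K, x ∈ V 2 ↔ ∃ y, GRel A (Emb3 x) y)
    (hconst : ∀ c : OK A K, Emb3 (algebraMap (OK A K) (FK (M * q * q) K) c)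
      = (HahnSeries.C (incO A K c) : LaurentSeries Qb))
    (τ3 : LaurentSeries (IsLocalRing.ResidueField A))
    (hJ : GRel A (Emb3 (Chart3B.J3 M q hq hqM K)) τ3) (hτ3 : τ3.order < 0) :
    ∀ (i : Fin 3) (f : (OK A K)[X]),
      aeval (Chart3B.J3 M q hq hqM K)⁻¹ f ∈ (V i).nonunits → ∀ n, π ∣ f.coeff n := by
  haveI := hdvr
  have hG := Fermat.Agent.S18.GRel.gRelStatement A
  have hτ0 : τ3 ≠ 0 := by
    rintro rfl
    rw [HahnSeries.order_zero] at hτ3
    exact lt_irrefl _ hτ3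
  intro i
  fin_cases i
  · show ∀ f : (OK A K)[X], aeval (Chart3B.J3 M q hq hqM K)⁻¹ f ∈ (V 0).nonunits →
      ∀ n, π ∣ f.coeff n
    rw [h0]
    exact tr_W1_J3_inv M q hq hqM hdvr π hπ
  · show ∀ f : (OK A K)[X], aeval (Chart3B.J3 M q hq hqM K)⁻¹ f ∈ (V 1).nonunits →
      ∀ n, π ∣ f.coeff n
    rw [h1]
    exact tr_W2_J3_inv M q hq hqM hdvr π hπ
  · show ∀ f : (OK A K)[X], aeval (Chart3B.J3 M q hq hqM K)⁻¹ f ∈ (V 2).nonunits →
      ∀ n, π ∣ f.coeff n
    refine tr_of_gRel_pole_inv π hπ Emb3 (V 2) h2 hconst _ τ3 ?_ hτ3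
    rw [map_inv₀]
    exact hG.inv _ _ hJ hτ0

open Fermat.Agent.S36.Model3Plan in
/-- **The `ChartHyp3` of the chart `chart N A K J3`** of the level-`M q q` model: from `le`,
`desc` and the three valuation rings (`W3` in embedding form). -/
theorem chartHyp3_J3 (hdvr : IsDiscreteValuationRing (OK A K)) (π : OK A K) (hπ : Irreducible π)
    (e : Fin 3 → ℕ) (ϖ : Fin 3 → FK (M * q * q) K)
    (V : Fin 3 → ValuationSubring (FK (M * q * q) K))
    (val : ValHyp3 (algebraMap (OK A K) (FK (M * q * q) K) π) e ϖ V)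
    (h0 : V 0 = GaussV.V1 (M * q * q) A K hdvr)
    (h1 : V 1 = GaussV.V2 (WQ2.wK2 M q hq hqM K) hdvr)
    (Emb3 : FK (M * q * q) K →+* LaurentSeries Qb)
    (h2 : ∀ x : FK (M * q * q) K, x ∈ V 2 ↔ ∃ y, GRel A (Emb3 x) y)
    (hconst : ∀ c : OK A K, Emb3 (algebraMap (OK A K) (FK (M * q * q) K) c)
      = (HahnSeries.C (incO A K c) : LaurentSeries Qb))
    (τ3 : LaurentSeries (IsLocalRing.ResidueField A))
    (hJ : GRel A (Emb3 (Chart3B.J3 M q hq hqM K)) τ3) (hτ3 : τ3.order < 0)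
    (hle : ∀ (i : Fin 3) (r : chart (M * q * q) A K (Chart3B.J3 M q hq hqM K)),
      (r : FK (M * q * q) K) ∈ V i)
    (desc : ∀ r : chart (M * q * q) A K (Chart3B.J3 M q hq hqM K),
      (∀ i : Fin 3, ∃ y ∈ V i,
        algebraMap (chart (M * q * q) A K (Chart3B.J3 M q hq hqM K)) (FK (M * q * q) K) r
        = algebraMap (chart (M * q * q) A K (Chart3B.J3 M q hq hqM K)) (FK (M * q * q) K)
            (algebraMap (OK A K) (chart (M * q * q) A K (Chart3B.J3 M q hq hqM K)) π) * y) →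
      ∃ r' : chart (M * q * q) A K (Chart3B.J3 M q hq hqM K),
        r = algebraMap (OK A K) (chart (M * q * q) A K (Chart3B.J3 M q hq hqM K)) π * r') :
    ChartHyp3 π ϖ V (fun i =>
      VertLoc.center (chart (M * q * q) A K (Chart3B.J3 M q hq hqM K)) (V i) (hle i)) := by
  obtain ⟨⟨hn, hf, hi⟩, -, -, -⟩ := Chart3B.rings M q hq hqM A K hdvr
  exact chartHyp3_chart hdvr π hπ (Chart3B.J3 M q hq hqM K) hn hi hf e ϖ V val hle
    (tr_three_J3 M q hq hqM hdvr π hπ V h0 h1 Emb3 h2 hconst τ3 hJ hτ3) desc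

open Fermat.Agent.S36.Model3Plan in
/-- **The `ChartHyp3` of the chart `chart N A K J3⁻¹`** of the level-`M q q` model. -/
theorem chartHyp3_J3_inv (hdvr : IsDiscreteValuationRing (OK A K)) (π : OK A K)
    (hπ : Irreducible π) (e : Fin 3 → ℕ) (ϖ : Fin 3 → FK (M * q * q) K)
    (V : Fin 3 → ValuationSubring (FK (M * q * q) K))
    (val : ValHyp3 (algebraMap (OK A K) (FK (M * q * q) K) π) e ϖ V)
    (h0 : V 0 = GaussV.V1 (M * q * q) A K hdvr)
    (h1 : V 1 = GaussV.V2 (WQ2.wK2 M q hq hqM K) hdvr)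
    (Emb3 : FK (M * q * q) K →+* LaurentSeries Qb)
    (h2 : ∀ x : FK (M * q * q) K, x ∈ V 2 ↔ ∃ y, GRel A (Emb3 x) y)
    (hconst : ∀ c : OK A K, Emb3 (algebraMap (OK A K) (FK (M * q * q) K) c)
      = (HahnSeries.C (incO A K c) : LaurentSeries Qb))
    (τ3 : LaurentSeries (IsLocalRing.ResidueField A))
    (hJ : GRel A (Emb3 (Chart3B.J3 M q hq hqM K)) τ3) (hτ3 : τ3.order < 0)
    (hle : ∀ (i : Fin 3) (r : chart (M * q * q) A K (Chart3B.J3 M q hq hqM K)⁻¹),
      (r : FK (M * q * q) K) ∈ V i)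
    (desc : ∀ r : chart (M * q * q) A K (Chart3B.J3 M q hq hqM K)⁻¹,
      (∀ i : Fin 3, ∃ y ∈ V i,
        algebraMap (chart (M * q * q) A K (Chart3B.J3 M q hq hqM K)⁻¹) (FK (M * q * q) K) r
        = algebraMap (chart (M * q * q) A K (Chart3B.J3 M q hq hqM K)⁻¹) (FK (M * q * q) K)
            (algebraMap (OK A K) (chart (M * q * q) A K (Chart3B.J3 M q hq hqM K)⁻¹) π) * y) →
      ∃ r' : chart (M * q * q) A K (Chart3B.J3 M q hq hqM K)⁻¹,
        r = algebraMap (OK A K) (chart (M * q * q) A K (Chart3B.J3 M q hq hqM K)⁻¹) π * r') :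
    ChartHyp3 π ϖ V (fun i =>
      VertLoc.center (chart (M * q * q) A K (Chart3B.J3 M q hq hqM K)⁻¹) (V i) (hle i)) := by
  obtain ⟨-, ⟨hn, hf, hi⟩, -, -⟩ := Chart3B.rings M q hq hqM A K hdvr
  exact chartHyp3_chart hdvr π hπ (Chart3B.J3 M q hq hqM K)⁻¹ hn hi hf e ϖ V val hle
    (tr_three_J3_inv M q hq hqM hdvr π hπ V h0 h1 Emb3 h2 hconst τ3 hJ hτ3) desc

end J3

end Fermat.Agent.S36.VertLocInst
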