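/-
S36 — VertLocInstB.lean (helper134), package [MODEL3]: the modular input (tr) of `S36/VertLoc`
(independent B-copy of `S36/VertLocInst`, by the reduction-map route), and its CONCRETE closure
for the three component valuation rings of record at level `N = M q q`:

  `W1 = GaussV.V1`,  `W2 = GaussV.V2 wK2`,  `W3 = H.W3` (`H : V3.Hyp3 …`, the Gauss ring along
  the middle-cusp embedding; also `V3B.W3`, and any `GaussE.V` along an embedding with the three
  expansion facts),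

for the coordinates `t = j, j⁻¹, J3, J3⁻¹` (`J3 = j · j_q · j_{q²}` the coordinate of record).

(tr) for `(V, t)`:  `∀ f : O[X], aeval t f ∈ V.nonunits → ∀ n, π ∣ f.coeff n`.

* `transc_of_order_ne_zero`, `transc_of_coeff_ne_zero` : a non-constant Laurent series over a
  field `k` is transcendental over `k` (elementary form `g.eval₂ C y = 0 → g = 0`);
* `tr_of_red` : the generic lemma.  A valuation ring `V` with a reduction map `V →+* k((Q))` which
  is `C ∘ res` on constants and detects units; `t ∈ V` with transcendental reduction ⇒ (tr);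
* `tr_V1`, `tr_V2`, `tr_gaussE`, `tr_gaussE_inv` : the three kinds of Gauss rings
  (`S34/GaussV`, `S36/GaussE`), for any coordinate with a given transcendental reduction;
* `tr_V1_jK*`, `tr_W1_J3*`, `tr_W2_*` : the instances of record on `W1`, `W2`;
* `gRel_emb_J3`, `tr_gaussE_jK*`, `tr_gaussE_J3*` : the third ring along an ABSTRACT embedding
  with `E j = j(Q)`, `E j_q = j(Q^q)`, `E j_{q²} = j(ξ Q)`;
* `gRel_iota_J3`, `tr_W3_*` : the third ring of record `H.W3`;  `tr_V3B_*` : `V3B.W3`;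
* `tr_three_*_of`, `tr_three_*` : all three components at once;
* `chartHyp3_J3(_inv)(_of)` : the whole `Model3Plan.ChartHyp3` of both charts of record with
  `P i = VertLoc.center`, from `val`, `le` and `desc` only;
* `hloc_J3(_inv)(_of)` : the `loc` input of `Model3Asm.model3` / `Model3Asm.chartModel3`
  (vertical ideals `Model3Asm.Pc`), from `val` and `le` only.
-/
import Mathlib
import Fermat.Agent.S18.SepDeg
import Fermat.Agent.S18.JNot
import Fermat.Agent.S28.FormalUniqueB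
import Fermat.Agent.S34.GaussV
import Fermat.Agent.S34.V12Rel
import Fermat.Agent.S36.WQ2
import Fermat.Agent.S36.Chart3B
import Fermat.Agent.S36.GaussE
import Fermat.Agent.S36.V3
import Fermat.Agent.S36.V3B
import Fermat.Agent.S36.Wit3Xi
import Fermat.Agent.S36.VertLoc
import Fermat.Agent.S36.Model3Asm

set_option autoImplicit false

noncomputable section

namespace Fermat.Agent.S36.VertLocInstB

open Polynomial

/-! ### Transcendence of non-constant Laurent series over the constants -/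

section Laurent

variable {k : Type*} [Field k]

/-- Coefficient extraction: if `i₀` is an index with `g.coeff i₀ ≠ 0` at which `i • ord y` is
strictly minimal among the indices of nonzero coefficients, then `g(y) ≠ 0`. -/
theorem eval₂_C_ne_zero_aux {y : LaurentSeries k} (hy0 : y ≠ 0) (g : k[X]) (i₀ : ℕ)
    (h0 : g.coeff i₀ ≠ 0)
    (hlt : ∀ i, i ≠ i₀ → g.coeff i = 0 ∨ (i₀ : ℤ) * y.order < (i : ℤ) * y.order) :
    g.eval₂ HahnSeries.C y ≠ 0 := by
  intro hg
  have hle : i₀ ≤ g.natDegree := le_natDegree_of_ne_zero h0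
  have hc : (g.eval₂ HahnSeries.C y).coeff (i₀ • y.order) = 0 := by
    rw [hg, HahnSeries.coeff_zero]
  rw [eval₂_eq_sum_range, HahnSeries.coeff_sum, Finset.sum_eq_single i₀] at hc
  · rw [HahnSeries.C_mul_eq_smul, HahnSeries.coeff_smul, smul_eq_mul] at hc
    have h1 : (y ^ i₀).coeff (i₀ • y.order) ≠ 0 := by
      rw [← HahnSeries.order_pow]
      exact HahnSeries.coeff_order_eq_zero.not.mpr (pow_ne_zero _ hy0)
    exact mul_ne_zero h0 h1 hc
  · intro i _ hne
    rcases hlt i hne with h | h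
    · rw [h, map_zero, zero_mul, HahnSeries.coeff_zero]
    · rw [HahnSeries.C_mul_eq_smul, HahnSeries.coeff_smul,
        HahnSeries.coeff_eq_zero_of_lt_order, smul_zero]
      rw [HahnSeries.order_pow, nsmul_eq_mul, nsmul_eq_mul]
      exact h
  · intro h
    exact absurd (Finset.mem_range.mpr (Nat.lt_succ_of_le hle)) h

/-- A nonzero polynomial does not vanish at a Laurent series of nonzero order. -/
theorem eval₂_C_ne_zero_of_order_ne_zero {y : LaurentSeries k} (hy : y.order ≠ 0) {g : k[X]}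
    (hg : g ≠ 0) : g.eval₂ HahnSeries.C y ≠ 0 := by
  have hy0 : y ≠ 0 := by
    rintro rfl
    exact hy HahnSeries.order_zero
  rcases lt_or_gt_of_ne hy with h | h
  · refine eval₂_C_ne_zero_aux hy0 g g.natDegree (leadingCoeff_ne_zero.mpr hg) ?_
    intro i hne
    rcases lt_or_gt_of_ne hne with hi | hi
    · right
      have h2 : (i : ℤ) < (g.natDegree : ℤ) := by exact_mod_cast hi
      nlinarith
    · left
      exact coeff_eq_zero_of_natDegree_lt hi
  · refine eval₂_C_ne_zero_aux hy0 g g.natTrailingDegree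
      (trailingCoeff_nonzero_iff_nonzero.mpr hg) ?_
    intro i hne
    rcases lt_or_gt_of_ne hne with hi | hi
    · left
      exact coeff_eq_zero_of_lt_natTrailingDegree hi
    · right
      have h2 : (g.natTrailingDegree : ℤ) < (i : ℤ) := by exact_mod_cast hi
      nlinarith

/-- **A Laurent series of nonzero order (a pole or a zero at the origin) is transcendental over
the field of constants.** -/
theorem transc_of_order_ne_zero {y : LaurentSeries k} (hy : y.order ≠ 0) :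
    ∀ g : k[X], g.eval₂ HahnSeries.C y = 0 → g = 0 := by
  intro g hg
  by_contra h
  exact eval₂_C_ne_zero_of_order_ne_zero hy h hg

/-- The order of the inverse of a Laurent series. -/
theorem order_inv (y : LaurentSeries k) : (y⁻¹).order = -y.order := by
  by_cases hy0 : y = 0
  · rw [hy0, inv_zero, HahnSeries.order_zero, neg_zero]
  · have h1 : (y * y⁻¹).order = 0 := by
      rw [mul_inv_cancel₀ hy0]
      exact HahnSeries.order_one
    rw [HahnSeries.order_mul hy0 (inv_ne_zero hy0)] at h1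
    linarith

theorem ne_zero_of_order_ne_zero {y : LaurentSeries k} (hy : y.order ≠ 0) : y ≠ 0 := by
  rintro rfl
  exact hy HahnSeries.order_zero

theorem order_inv_ne_zero {y : LaurentSeries k} (hy : y.order ≠ 0) : (y⁻¹).order ≠ 0 := by
  rw [order_inv]
  exact neg_ne_zero.mpr hy

/-- The order of a product of three nonzero Laurent series. -/
theorem order_mul3 {a b c : LaurentSeries k} (ha : a ≠ 0) (hb : b ≠ 0) (hc : c ≠ 0) :
    (a * b * c).order = a.order + b.order + c.order := by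
  rw [HahnSeries.order_mul (mul_ne_zero ha hb) hc, HahnSeries.order_mul ha hb]

/-- **Non-constant Laurent series are transcendental**: a series with a nonzero coefficient at
a nonzero exponent is transcendental over the field of constants. -/
theorem transc_of_coeff_ne_zero {y : LaurentSeries k} {n : ℤ} (hn : n ≠ 0)
    (hy : y.coeff n ≠ 0) : ∀ g : k[X], g.eval₂ HahnSeries.C y = 0 → g = 0 := by
  by_cases h0 : y.order = 0
  · have hC0 : (HahnSeries.C (y.coeff 0) : LaurentSeries k).coeff 0 = y.coeff 0 :=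
      HahnSeries.coeff_single_same 0 (y.coeff 0)
    have hCn : (HahnSeries.C (y.coeff 0) : LaurentSeries k).coeff n = 0 :=
      HahnSeries.coeff_single_of_ne hn
    have hzn : (y - HahnSeries.C (y.coeff 0)).coeff n ≠ 0 := by
      rw [HahnSeries.coeff_sub, hCn, sub_zero]
      exact hy
    have hz0 : y - HahnSeries.C (y.coeff 0) ≠ 0 := HahnSeries.ne_zero_of_coeff_ne_zero hzn
    have hzord : (y - HahnSeries.C (y.coeff 0)).order ≠ 0 := by
      intro hz
      apply HahnSeries.coeff_order_eq_zero.not.mpr hz0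
      rw [hz, HahnSeries.coeff_sub, hC0, sub_self]
    intro g hg
    have h1 : (g.comp (X + C (y.coeff 0))).eval₂ HahnSeries.C (y - HahnSeries.C (y.coeff 0))
        = 0 := by
      rw [eval₂_comp, eval₂_add, eval₂_X, eval₂_C, sub_add_cancel]
      exact hg
    have h2 : g.comp (X + C (y.coeff 0)) = 0 := transc_of_order_ne_zero hzord _ h1
    have h3 : (g.comp (X + C (y.coeff 0))).comp (X - C (y.coeff 0)) = g := by
      rw [comp_assoc, add_comp, X_comp, C_comp, sub_add_cancel, comp_X]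
    rw [← h3, h2, zero_comp]
  · exact transc_of_order_ne_zero h0

end Laurent

/-! ### The generic lemma: (tr) from a reduction map -/

section Abstract

variable {O F k : Type*} [CommRing O] [Field F] [Algebra O F] [Field k]

/-- **Generic (tr).**  Let `V` be a valuation subring of `F ⊇ O` with a "reduction"
`red : V →+* k((Q))` which is `C ∘ res` on the constants of `O`, such that the elements of `V` of
nonzero reduction are units of `V`, and such that the constants of zero residue are multiples of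
`π`.  If the reduction of `t ∈ V` is transcendental over `k`, then (tr) holds for `(V, t)`:
a polynomial `f ∈ O[X]` with `f(t)` in the maximal ideal of `V` has all its coefficients in
`π O`. -/
theorem tr_of_red (V : ValuationSubring F) (hO : ∀ c : O, algebraMap O F c ∈ V)
    (red : V →+* LaurentSeries k) (res : O →+* k)
    (hconst : ∀ c : O, red ⟨algebraMap O F c, hO c⟩ = HahnSeries.C (res c))
    (hunit : ∀ x : V, red x ≠ 0 → ((x : F))⁻¹ ∈ V)
    (π : O) (hπ : ∀ c : O, res c = 0 → π ∣ c)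
    (t : F) (ht : t ∈ V)
    (htr : ∀ g : k[X], g.eval₂ HahnSeries.C (red ⟨t, ht⟩) = 0 → g = 0) :
    ∀ f : O[X], aeval t f ∈ V.nonunits → ∀ n, π ∣ f.coeff n := by
  intro f hf n
  apply hπ
  let ι : O →+* V :=
    { toFun := fun c => ⟨algebraMap O F c, hO c⟩
      map_one' := Subtype.ext (map_one _)
      map_mul' := fun a b => Subtype.ext (map_mul _ a b)
      map_zero' := Subtype.ext (map_zero _)
      map_add' := fun a b => Subtype.ext (map_add _ a b) }
  have hx : ((f.eval₂ ι ⟨t, ht⟩ : V) : F) = aeval t f := by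
    have h1 := hom_eval₂ f ι V.subtype ⟨t, ht⟩
    have h2 : V.subtype.comp ι = algebraMap O F := RingHom.ext fun c => rfl
    rw [h2] at h1
    rw [aeval_def]
    exact h1
  have hred : red (f.eval₂ ι ⟨t, ht⟩) = (f.map res).eval₂ HahnSeries.C (red ⟨t, ht⟩) := by
    have h2 : red.comp ι = (HahnSeries.C : k →+* LaurentSeries k).comp res :=
      RingHom.ext fun c => hconst c
    rw [hom_eval₂, h2, eval₂_map]
  have hzero : red (f.eval₂ ι ⟨t, ht⟩) = 0 := by
    by_contra hne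
    have hinv := hunit _ hne
    rw [hx] at hinv
    have h0 : aeval t f ≠ 0 := by
      intro h0
      apply hne
      have h1 : (f.eval₂ ι ⟨t, ht⟩ : V) = 0 := Subtype.ext (by rw [hx, h0]; rfl)
      rw [h1, map_zero]
    exact VertLoc.not_nonunits_of_inv_mem h0 hinv hf
  rw [hred] at hzero
  have hmap : f.map res = 0 := htr _ hzero
  have h4 : (f.map res).coeff n = 0 := by rw [hmap, coeff_zero]
  rw [coeff_map] at h4
  exact h4

end Abstract

/-! ### The three kinds of Gauss valuation rings -/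

section Gauss

open ModularCurve HahnSeries Fermat.Agent.S18 Fermat.Agent.S18.Arith
open Fermat.Agent.S18.ModelPlan Fermat.Agent.S34

variable {A : ValuationSubring Qb} {K : IntermediateField ℚ Qb}

/-- A constant of `O = A ∩ K` with zero residue is a multiple of the uniformiser. -/
theorem dvd_of_resO_eq_zero (hdvr : IsDiscreteValuationRing (OK A K)) {π : OK A K}
    (hπ : Irreducible π) (c : OK A K) (hc : resO A K c = 0) : π ∣ c := by
  have := hdvr
  have hnu : ¬ IsUnit c := fun hu => (hu.map (resO A K)).ne_zero hc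
  have hmem : c ∈ IsLocalRing.maximalIdeal (OK A K) := (IsLocalRing.mem_maximalIdeal c).mpr hnu
  rw [hπ.maximalIdeal_eq] at hmem
  exact Ideal.mem_span_singleton.mp hmem

/-- The Gauss relation passes to inverses of series whose reduction has nonzero order. -/
theorem gRel_inv_of_order {x : LaurentSeries Qb} {y : LaurentSeries (IsLocalRing.ResidueField A)}
    (h : GRel A x y) (hy : y.order ≠ 0) : GRel A x⁻¹ y⁻¹ :=
  (Fermat.Agent.S18.GRel.gRelStatement A).inv _ _ h (ne_zero_of_order_ne_zero hy)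

/-- **(tr) for the Gauss ring `V1`** (any level): a coordinate whose `Q`-expansion reduces to a
transcendental series. -/
theorem tr_V1 {N : ℕ} [NeZero N] (hdvr : IsDiscreteValuationRing (OK A K)) {π : OK A K}
    (hπ : Irreducible π) {t : FK N K} {y : LaurentSeries (IsLocalRing.ResidueField A)}
    (hty : GRel A ((t : FK N K) : LaurentSeries Qb) y)
    (hy : ∀ g : (IsLocalRing.ResidueField A)[X], g.eval₂ HahnSeries.C y = 0 → g = 0) :
    ∀ f : (OK A K)[X], aeval t f ∈ (GaussV.V1 N A K hdvr).nonunits → ∀ n, π ∣ f.coeff n := by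
  have ht : t ∈ GaussV.V1 N A K hdvr := ⟨y, hty⟩
  have hr : GaussV.red1 hdvr ⟨t, ht⟩ = y := GaussV.red1_eq_of_gRel hdvr ⟨t, ht⟩ hty
  exact tr_of_red (GaussV.V1 N A K hdvr) (GaussV.algebraMap_mem_V1 hdvr) (GaussV.red1 hdvr)
    (resO A K) (GaussV.red1_algebraMap hdvr) (GaussV.inv_mem_V1 hdvr) π
    (dvd_of_resO_eq_zero hdvr hπ) t ht (by rw [hr]; exact hy)

/-- **(tr) for the transported Gauss ring `V2 = w⁻¹ V1`** (any level, any automorphism `w`
fixing the constants): a coordinate `t` such that the `Q`-expansion of `w t` reduces to a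
transcendental series. -/
theorem tr_V2 {N : ℕ} [NeZero N] (w : FK N K ≃+* FK N K)
    (hw : ∀ c : OK A K, w (algebraMap (OK A K) (FK N K) c) = algebraMap (OK A K) (FK N K) c)
    (hdvr : IsDiscreteValuationRing (OK A K)) {π : OK A K} (hπ : Irreducible π) {t : FK N K}
    {y : LaurentSeries (IsLocalRing.ResidueField A)}
    (hty : GRel A ((w t : FK N K) : LaurentSeries Qb) y)
    (hy : ∀ g : (IsLocalRing.ResidueField A)[X], g.eval₂ HahnSeries.C y = 0 → g = 0) :
    ∀ f : (OK A K)[X], aeval t f ∈ (GaussV.V2 w hdvr).nonunits → ∀ n, π ∣ f.coeff n := by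
  have ht : t ∈ GaussV.V2 w hdvr := (GaussV.mem_V2_iff w hdvr).mpr ⟨y, hty⟩
  have hr : GaussV.red2 w hdvr ⟨t, ht⟩ = y := by
    rw [GaussV.red2_apply]
    exact GaussV.red1_eq_of_gRel hdvr _ hty
  refine tr_of_red (GaussV.V2 w hdvr) (GaussV.algebraMap_mem_V2 w hw hdvr) (GaussV.red2 w hdvr)
    (resO A K) ?_ ?_ π (dvd_of_resO_eq_zero hdvr hπ) t ht (by rw [hr]; exact hy)
  · intro c
    rw [GaussV.red2_apply]
    apply GaussV.red1_eq_of_gRel
    show GRel A ((w (algebraMap (OK A K) (FK N K) c) : FK N K) : LaurentSeries Qb) _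
    rw [hw, GaussV.coe_algebraMap]
    exact ModelRed.gRel_const K (Fermat.Agent.S18.GRel.gRelStatement A) c
  · intro x hx
    rw [GaussV.mem_V2_iff, map_inv₀]
    exact GaussV.inv_mem_V1 hdvr ⟨w (x : FK N K), x.2⟩ hx

/-- **(tr) for a Gauss ring along an abstract embedding** (`S36/GaussE`): a coordinate `t`
whose `E`-expansion reduces to a transcendental series. -/
theorem tr_gaussE {K' : IntermediateField ℚ Qb} {F : Type*} [Field F] [Algebra (OK A K) F]
    {E : F →+* LaurentSeries Qb} (hE : GaussE.Emb A K K' E)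
    (hdvr' : IsDiscreteValuationRing (OK A K')) (hdvr : IsDiscreteValuationRing (OK A K))
    {π : OK A K} (hπ : Irreducible π) {t : F}
    {y : LaurentSeries (IsLocalRing.ResidueField A)} (hty : GRel A (E t) y)
    (hy : ∀ g : (IsLocalRing.ResidueField A)[X], g.eval₂ HahnSeries.C y = 0 → g = 0) :
    ∀ f : (OK A K)[X], aeval t f ∈ (GaussE.V hE hdvr').nonunits → ∀ n, π ∣ f.coeff n := by
  have ht : t ∈ GaussE.V hE hdvr' := ⟨y, hty⟩
  have hr : GaussE.red hE hdvr' ⟨t, ht⟩ = y := GaussE.red_eq_of_gRel hE hdvr' ⟨t, ht⟩ hty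
  exact tr_of_red (GaussE.V hE hdvr') (GaussE.algebraMap_mem_V hE hdvr') (GaussE.red hE hdvr')
    (resO A K) (GaussE.red_algebraMap hE hdvr') (GaussE.inv_mem_V hE hdvr') π
    (dvd_of_resO_eq_zero hdvr hπ) t ht (by rw [hr]; exact hy)

/-- (tr) along an abstract embedding for the inverse coordinate. -/
theorem tr_gaussE_inv {K' : IntermediateField ℚ Qb} {F : Type*} [Field F] [Algebra (OK A K) F]
    {E : F →+* LaurentSeries Qb} (hE : GaussE.Emb A K K' E)
    (hdvr' : IsDiscreteValuationRing (OK A K')) (hdvr : IsDiscreteValuationRing (OK A K))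
    {π : OK A K} (hπ : Irreducible π) {t : F}
    {y : LaurentSeries (IsLocalRing.ResidueField A)} (hty : GRel A (E t) y)
    (hy : y.order ≠ 0) :
    ∀ f : (OK A K)[X], aeval t⁻¹ f ∈ (GaussE.V hE hdvr').nonunits → ∀ n, π ∣ f.coeff n := by
  refine tr_gaussE hE hdvr' hdvr hπ (y := y⁻¹) ?_ (transc_of_order_ne_zero (order_inv_ne_zero hy))
  rw [map_inv₀]
  exact gRel_inv_of_order hty hy

end Gauss

/-! ### The reductions of the coordinates at level `M q q` -/

section Reductions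

open ModularCurve HahnSeries Fermat.Agent.S18 Fermat.Agent.S18.Arith
open Fermat.Agent.S18.ModelPlan Fermat.Agent.S34

/-- `j̄(Q^d)` is nonzero. -/
theorem jd_ne_zero (k : Type*) [Field k] (d : ℕ) [NeZero d] : S28.jd k d ≠ 0 := by
  rw [S28.jd_eq]
  exact V12Rel.qExpand_jqModC_ne_zero k d

/-- `j̄(Q^d)` has a pole of order `d`. -/
theorem order_jd (k : Type*) [Field k] (d : ℕ) [NeZero d] :
    (S28.jd k d).order = -(d : ℤ) := by
  rw [S28.jd_eq, S28.FormalUniqueB.order_qExpand k d (V12Rel.jqModC_ne_zero k),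
    SepDeg.order_jqModC]
  ring

theorem order_jd_ne_zero (k : Type*) [Field k] (d : ℕ) [NeZero d] :
    (S28.jd k d).order ≠ 0 := by
  rw [order_jd]
  have h : (d : ℤ) ≠ 0 := by exact_mod_cast NeZero.ne d
  exact neg_ne_zero.mpr h

/-- A product of three `j̄(Q^d)` has a pole. -/
theorem order_jd3_neg (k : Type*) [Field k] (a b c : ℕ) [NeZero a] [NeZero b] [NeZero c] :
    (S28.jd k a * S28.jd k b * S28.jd k c).order < 0 := by
  rw [order_mul3 (jd_ne_zero k a) (jd_ne_zero k b) (jd_ne_zero k c), order_jd, order_jd,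
    order_jd]
  have ha : (0 : ℤ) < a := by exact_mod_cast Nat.pos_of_ne_zero (NeZero.ne a)
  have hb : (0 : ℤ) < b := by exact_mod_cast Nat.pos_of_ne_zero (NeZero.ne b)
  have hc : (0 : ℤ) < c := by exact_mod_cast Nat.pos_of_ne_zero (NeZero.ne c)
  linarith

/-- The order of a product of three `j̄(Q^d)` is nonzero. -/
theorem order_jd3 (k : Type*) [Field k] (a b c : ℕ) [NeZero a] [NeZero b] [NeZero c] :
    (S28.jd k a * S28.jd k b * S28.jd k c).order ≠ 0 :=
  ne_of_lt (order_jd3_neg k a b c)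

variable (A : ValuationSubring Qb)

/-- `j(Q^d)` is Gauss-integral with reduction `j̄(Q^d)`. -/
theorem gRel_jd (d : ℕ) [NeZero d] :
    GRel A (S28.jd Qb d) (S28.jd (IsLocalRing.ResidueField A) d) := by
  rw [S28.jd_eq, S28.jd_eq]
  exact V12Rel.gRel_jd A d

variable (M q : ℕ) [NeZero M] [NeZero q] (hq : q.Prime) (hqM : ¬ q ∣ M)
variable (K : IntermediateField ℚ Qb)

omit [NeZero M] in
/-- The `Q`-expansion of `j` reduces to `j̄`. -/
theorem gRel_coe_jK (N : ℕ) [NeZero N] :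
    GRel A ((jK N K : FK N K) : LaurentSeries Qb) (S28.jd (IsLocalRing.ResidueField A) 1) := by
  rw [ModelBasicCore.coe_jK]
  exact gRel_jd A 1

/-- The `Q`-expansion of `j_q` reduces to `j̄(Q^q)`. -/
theorem gRel_coe_jqK2 :
    GRel A ((WQ2.jqK2 M q hq hqM K : FK (M * q * q) K) : LaurentSeries Qb)
      (S28.jd (IsLocalRing.ResidueField A) q) := by
  rw [WQ2.coe_jqK2]
  exact gRel_jd A q

/-- The `Q`-expansion of `j_{q²}` reduces to `j̄(Q^{q²})`. -/
theorem gRel_coe_jqqK2 [NeZero (q * q)] :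
    GRel A ((WQ2.jqqK2 M q hq hqM K : FK (M * q * q) K) : LaurentSeries Qb)
      (S28.jd (IsLocalRing.ResidueField A) (q * q)) := by
  rw [WQ2.coe_jqqK2]
  exact gRel_jd A (q * q)

/-- The `Q`-expansion of `J3 = j · j_q · j_{q²}` reduces to `j̄ · j̄(Q^q) · j̄(Q^{q²})`. -/
theorem gRel_coe_J3 [NeZero (q * q)] :
    GRel A ((Chart3B.J3 M q hq hqM K : FK (M * q * q) K) : LaurentSeries Qb)
      (S28.jd (IsLocalRing.ResidueField A) 1 * S28.jd (IsLocalRing.ResidueField A) q *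
        S28.jd (IsLocalRing.ResidueField A) (q * q)) := by
  have hG := Fermat.Agent.S18.GRel.gRelStatement A
  exact hG.mul _ _ _ _ (hG.mul _ _ _ _ (gRel_coe_jK A K (M * q * q))
    (gRel_coe_jqK2 A M q hq hqM K)) (gRel_coe_jqqK2 A M q hq hqM K)

end Reductions

/-! ### The instances of record: `W1 = GaussV.V1`, `W2 = GaussV.V2 wK2` -/

section W12

open ModularCurve HahnSeries Fermat.Agent.S18 Fermat.Agent.S18.Arith
open Fermat.Agent.S18.ModelPlan Fermat.Agent.S34

variable {A : ValuationSubring Qb} {K : IntermediateField ℚ Qb}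

/-- (tr) for `V1` and `t = j`, any level. -/
theorem tr_V1_jK {N : ℕ} [NeZero N] (hdvr : IsDiscreteValuationRing (OK A K)) {π : OK A K}
    (hπ : Irreducible π) :
    ∀ f : (OK A K)[X], aeval (jK N K) f ∈ (GaussV.V1 N A K hdvr).nonunits →
      ∀ n, π ∣ f.coeff n :=
  tr_V1 hdvr hπ (gRel_coe_jK A K N) (transc_of_order_ne_zero (order_jd_ne_zero _ 1))

/-- (tr) for `V1` and `t = j⁻¹`, any level. -/
theorem tr_V1_jK_inv {N : ℕ} [NeZero N] (hdvr : IsDiscreteValuationRing (OK A K)) {π : OK A K}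
    (hπ : Irreducible π) :
    ∀ f : (OK A K)[X], aeval (jK N K)⁻¹ f ∈ (GaussV.V1 N A K hdvr).nonunits →
      ∀ n, π ∣ f.coeff n :=
  tr_V1 hdvr hπ (t := (jK N K)⁻¹)
    (gRel_inv_of_order (gRel_coe_jK A K N) (order_jd_ne_zero _ 1))
    (transc_of_order_ne_zero (order_inv_ne_zero (order_jd_ne_zero _ 1)))

variable (M q : ℕ) [NeZero M] [NeZero q] (hq : q.Prime) (hqM : ¬ q ∣ M)

/-- (tr) for `W1` and the coordinate of record `J3`. -/
theorem tr_W1_J3 (hdvr : IsDiscreteValuationRing (OK A K)) {π : OK A K} (hπ : Irreducible π) :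
    ∀ f : (OK A K)[X],
      aeval (Chart3B.J3 M q hq hqM K) f ∈ (GaussV.V1 (M * q * q) A K hdvr).nonunits →
      ∀ n, π ∣ f.coeff n := by
  have : NeZero (q * q) := ⟨Nat.mul_ne_zero (NeZero.ne q) (NeZero.ne q)⟩
  exact tr_V1 hdvr hπ (gRel_coe_J3 A M q hq hqM K)
    (transc_of_order_ne_zero (order_jd3 _ 1 q (q * q)))

/-- (tr) for `W1` and `J3⁻¹`. -/
theorem tr_W1_J3_inv (hdvr : IsDiscreteValuationRing (OK A K)) {π : OK A K}
    (hπ : Irreducible π) :
    ∀ f : (OK A K)[X],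
      aeval (Chart3B.J3 M q hq hqM K)⁻¹ f ∈ (GaussV.V1 (M * q * q) A K hdvr).nonunits →
      ∀ n, π ∣ f.coeff n := by
  have : NeZero (q * q) := ⟨Nat.mul_ne_zero (NeZero.ne q) (NeZero.ne q)⟩
  exact tr_V1 hdvr hπ (t := (Chart3B.J3 M q hq hqM K)⁻¹)
    (gRel_inv_of_order (gRel_coe_J3 A M q hq hqM K) (order_jd3 _ 1 q (q * q)))
    (transc_of_order_ne_zero (order_inv_ne_zero (order_jd3 _ 1 q (q * q))))

/-- (tr) for `W2 = w_{q²}⁻¹ W1` and `t = j` (`w j = j_{q²}`). -/
theorem tr_W2_jK (hdvr : IsDiscreteValuationRing (OK A K)) {π : OK A K} (hπ : Irreducible π) :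
    ∀ f : (OK A K)[X],
      aeval (jK (M * q * q) K) f ∈ (GaussV.V2 (WQ2.wK2 M q hq hqM K) hdvr).nonunits →
      ∀ n, π ∣ f.coeff n := by
  have : NeZero (q * q) := ⟨Nat.mul_ne_zero (NeZero.ne q) (NeZero.ne q)⟩
  refine tr_V2 (WQ2.wK2 M q hq hqM K) (WQ2.wK2_algebraMap_OK M q hq hqM K A) hdvr hπ
    (y := S28.jd (IsLocalRing.ResidueField A) (q * q)) ?_
    (transc_of_order_ne_zero (order_jd_ne_zero _ (q * q)))
  rw [WQ2.wK2_jK]
  exact gRel_coe_jqqK2 A M q hq hqM K

/-- (tr) for `W2` and `t = j⁻¹`. -/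
theorem tr_W2_jK_inv (hdvr : IsDiscreteValuationRing (OK A K)) {π : OK A K}
    (hπ : Irreducible π) :
    ∀ f : (OK A K)[X],
      aeval (jK (M * q * q) K)⁻¹ f ∈ (GaussV.V2 (WQ2.wK2 M q hq hqM K) hdvr).nonunits →
      ∀ n, π ∣ f.coeff n := by
  have : NeZero (q * q) := ⟨Nat.mul_ne_zero (NeZero.ne q) (NeZero.ne q)⟩
  refine tr_V2 (WQ2.wK2 M q hq hqM K) (WQ2.wK2_algebraMap_OK M q hq hqM K A) hdvr hπ
    (y := (S28.jd (IsLocalRing.ResidueField A) (q * q))⁻¹) ?_
    (transc_of_order_ne_zero (order_inv_ne_zero (order_jd_ne_zero _ (q * q))))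
  rw [map_inv₀, WQ2.wK2_jK]
  exact gRel_inv_of_order (gRel_coe_jqqK2 A M q hq hqM K) (order_jd_ne_zero _ (q * q))

/-- (tr) for `W2` and the coordinate of record `J3` (`w J3 = J3`). -/
theorem tr_W2_J3 (hdvr : IsDiscreteValuationRing (OK A K)) {π : OK A K} (hπ : Irreducible π) :
    ∀ f : (OK A K)[X],
      aeval (Chart3B.J3 M q hq hqM K) f ∈ (GaussV.V2 (WQ2.wK2 M q hq hqM K) hdvr).nonunits →
      ∀ n, π ∣ f.coeff n := by
  have : NeZero (q * q) := ⟨Nat.mul_ne_zero (NeZero.ne q) (NeZero.ne q)⟩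
  refine tr_V2 (WQ2.wK2 M q hq hqM K) (WQ2.wK2_algebraMap_OK M q hq hqM K A) hdvr hπ
    (y := S28.jd (IsLocalRing.ResidueField A) 1 * S28.jd (IsLocalRing.ResidueField A) q *
      S28.jd (IsLocalRing.ResidueField A) (q * q)) ?_
    (transc_of_order_ne_zero (order_jd3 _ 1 q (q * q)))
  rw [Chart3B.wK2_J3]
  exact gRel_coe_J3 A M q hq hqM K

/-- (tr) for `W2` and `J3⁻¹`. -/
theorem tr_W2_J3_inv (hdvr : IsDiscreteValuationRing (OK A K)) {π : OK A K}
    (hπ : Irreducible π) :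
    ∀ f : (OK A K)[X],
      aeval (Chart3B.J3 M q hq hqM K)⁻¹ f ∈
        (GaussV.V2 (WQ2.wK2 M q hq hqM K) hdvr).nonunits →
      ∀ n, π ∣ f.coeff n := by
  have : NeZero (q * q) := ⟨Nat.mul_ne_zero (NeZero.ne q) (NeZero.ne q)⟩
  refine tr_V2 (WQ2.wK2 M q hq hqM K) (WQ2.wK2_algebraMap_OK M q hq hqM K A) hdvr hπ
    (y := (S28.jd (IsLocalRing.ResidueField A) 1 * S28.jd (IsLocalRing.ResidueField A) q *
      S28.jd (IsLocalRing.ResidueField A) (q * q))⁻¹) ?_
    (transc_of_order_ne_zero (order_inv_ne_zero (order_jd3 _ 1 q (q * q))))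
  rw [Chart3B.wK2_J3_inv]
  exact gRel_inv_of_order (gRel_coe_J3 A M q hq hqM K) (order_jd3 _ 1 q (q * q))

end W12

/-! ### The third ring: a Gauss ring along an abstract middle-cusp embedding -/

section W3abs

open ModularCurve HahnSeries Fermat.Agent.S18 Fermat.Agent.S18.Arith
open Fermat.Agent.S18.ModelPlan Fermat.Agent.S34

variable {M q : ℕ} [NeZero M] [NeZero q] {hq : q.Prime} {hqM : ¬ q ∣ M}
variable {A : ValuationSubring Qb} {K K' : IntermediateField ℚ Qb}
variable (E : FK (M * q * q) K →+* LaurentSeries Qb) {ξ : Qb} (hξ0 : ξ ≠ 0)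

/-- Along an embedding with `E j = j(Q)`, the coordinate `j` reduces to `j̄`. -/
theorem gRel_emb_jK (hEj : E (jK (M * q * q) K) = jqModC Qb) :
    GRel A (E (jK (M * q * q) K)) (S28.jd (IsLocalRing.ResidueField A) 1) := by
  rw [hEj, S28.jd_one]
  exact V12Rel.gRel_j A

/-- Along an embedding with the three expansion facts `E j = j(Q)`, `E j_q = j(Q^q)`,
`E j_{q²} = j(ξ Q)` (`ξ` a primitive `q`-th root of unity, `A` over `q`), the coordinate
`J3 = j · j_q · j_{q²}` reduces to `j̄ · j̄(Q^q) · j̄`, a series with a pole of order `q + 2`. -/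
theorem gRel_emb_J3 (hA : A.LiesOverPrime q) (hξ : IsPrimitiveRoot ξ q)
    (hEj : E (jK (M * q * q) K) = jqModC Qb)
    (hEjq : E (WQ2.jqK2 M q hq hqM K) = qExpand Qb q (jqModC Qb))
    (hEjqq : E (WQ2.jqqK2 M q hq hqM K) = S24.rotHom ξ hξ0 (jqModC Qb)) :
    GRel A (E (Chart3B.J3 M q hq hqM K))
      (S28.jd (IsLocalRing.ResidueField A) 1 * S28.jd (IsLocalRing.ResidueField A) q *
        S28.jd (IsLocalRing.ResidueField A) 1) := by
  have : Fact q.Prime := ⟨hq⟩
  have hG := Fermat.Agent.S18.GRel.gRelStatement A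
  rw [Chart3B.J3_eq, map_mul, map_mul, hEj, hEjq, hEjqq, S28.jd_one, S28.jd_eq]
  exact hG.mul _ _ _ _ (hG.mul _ _ _ _ (V12Rel.gRel_j A) (V12Rel.gRel_jd A q))
    (Wit3Xi.gRel_jxi A q hA hξ hξ0)

variable {E}

/-- (tr) for a Gauss ring along an embedding with `E j = j(Q)`, and `t = j`. -/
theorem tr_gaussE_jK (hE : GaussE.Emb A K K' E) (hdvr' : IsDiscreteValuationRing (OK A K'))
    (hdvr : IsDiscreteValuationRing (OK A K)) {π : OK A K} (hπ : Irreducible π)
    (hEj : E (jK (M * q * q) K) = jqModC Qb) :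
    ∀ f : (OK A K)[X], aeval (jK (M * q * q) K) f ∈ (GaussE.V hE hdvr').nonunits →
      ∀ n, π ∣ f.coeff n :=
  tr_gaussE hE hdvr' hdvr hπ (gRel_emb_jK E hEj)
    (transc_of_order_ne_zero (order_jd_ne_zero _ 1))

/-- (tr) for a Gauss ring along an embedding with `E j = j(Q)`, and `t = j⁻¹`. -/
theorem tr_gaussE_jK_inv (hE : GaussE.Emb A K K' E)
    (hdvr' : IsDiscreteValuationRing (OK A K')) (hdvr : IsDiscreteValuationRing (OK A K))
    {π : OK A K} (hπ : Irreducible π) (hEj : E (jK (M * q * q) K) = jqModC Qb) :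
    ∀ f : (OK A K)[X], aeval (jK (M * q * q) K)⁻¹ f ∈ (GaussE.V hE hdvr').nonunits →
      ∀ n, π ∣ f.coeff n :=
  tr_gaussE_inv hE hdvr' hdvr hπ (gRel_emb_jK E hEj) (order_jd_ne_zero _ 1)

/-- **(tr) for a Gauss ring along an embedding with the three expansion facts, and the
coordinate of record `J3`.** -/
theorem tr_gaussE_J3 (hE : GaussE.Emb A K K' E) (hdvr' : IsDiscreteValuationRing (OK A K'))
    (hdvr : IsDiscreteValuationRing (OK A K)) {π : OK A K} (hπ : Irreducible π)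
    (hA : A.LiesOverPrime q) (hξ : IsPrimitiveRoot ξ q)
    (hEj : E (jK (M * q * q) K) = jqModC Qb)
    (hEjq : E (WQ2.jqK2 M q hq hqM K) = qExpand Qb q (jqModC Qb))
    (hEjqq : E (WQ2.jqqK2 M q hq hqM K) = S24.rotHom ξ hξ0 (jqModC Qb)) :
    ∀ f : (OK A K)[X], aeval (Chart3B.J3 M q hq hqM K) f ∈ (GaussE.V hE hdvr').nonunits →
      ∀ n, π ∣ f.coeff n :=
  tr_gaussE hE hdvr' hdvr hπ (gRel_emb_J3 E hξ0 hA hξ hEj hEjq hEjqq)
    (transc_of_order_ne_zero (order_jd3 _ 1 q 1))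

/-- **(tr) for a Gauss ring along an embedding with the three expansion facts, and `J3⁻¹`.** -/
theorem tr_gaussE_J3_inv (hE : GaussE.Emb A K K' E)
    (hdvr' : IsDiscreteValuationRing (OK A K')) (hdvr : IsDiscreteValuationRing (OK A K))
    {π : OK A K} (hπ : Irreducible π) (hA : A.LiesOverPrime q) (hξ : IsPrimitiveRoot ξ q)
    (hEj : E (jK (M * q * q) K) = jqModC Qb)
    (hEjq : E (WQ2.jqK2 M q hq hqM K) = qExpand Qb q (jqModC Qb))
    (hEjqq : E (WQ2.jqqK2 M q hq hqM K) = S24.rotHom ξ hξ0 (jqModC Qb)) :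
    ∀ f : (OK A K)[X], aeval (Chart3B.J3 M q hq hqM K)⁻¹ f ∈ (GaussE.V hE hdvr').nonunits →
      ∀ n, π ∣ f.coeff n :=
  tr_gaussE_inv hE hdvr' hdvr hπ (gRel_emb_J3 E hξ0 hA hξ hEj hEjq hEjqq)
    (order_jd3 _ 1 q 1)

end W3abs

/-! ### The third ring of record: `W3 = H.W3` (`H : V3.Hyp3 …`) -/

section W3

open ModularCurve HahnSeries Fermat.Agent.S18 Fermat.Agent.S18.Arith
open Fermat.Agent.S18.ModelPlan Fermat.Agent.S34

variable {M q : ℕ} [NeZero M] [NeZero q] {hq : q.Prime} {hqM : ¬ q ∣ M}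
variable {A : ValuationSubring Qb} {K K' : IntermediateField ℚ Qb}
variable {ξ : Qb} {hξ0 : ξ ≠ 0} {ι : FK (M * q * q) K →+* LaurentSeries Qb} {ϖ3 : OK A K'}
variable (H : V3.Hyp3 M q hq hqM A K K' ξ hξ0 ι ϖ3)

include H

/-- Along the middle-cusp embedding, `j` reduces to `j̄`. -/
theorem gRel_iota_jK :
    GRel A (ι (jK (M * q * q) K)) (S28.jd (IsLocalRing.ResidueField A) 1) := by
  have h := H.gRel_red3 ⟨jK (M * q * q) K, H.jK_unit.1⟩
  rw [H.red3_jK] at h
  exact h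

/-- Along the middle-cusp embedding, `j_q` reduces to `j̄(Q^q)`. -/
theorem gRel_iota_jqK2 :
    GRel A (ι (WQ2.jqK2 M q hq hqM K)) (S28.jd (IsLocalRing.ResidueField A) q) := by
  have h := H.gRel_red3 ⟨WQ2.jqK2 M q hq hqM K, H.jqK2_unit.1⟩
  rw [H.red3_jqK2] at h
  exact h

/-- Along the middle-cusp embedding, `j_{q²}` reduces to `j̄` (when `A` lies over `q`). -/
theorem gRel_iota_jqqK2 (hA : A.LiesOverPrime q) :
    GRel A (ι (WQ2.jqqK2 M q hq hqM K)) (S28.jd (IsLocalRing.ResidueField A) 1) := by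
  have h := H.gRel_red3 ⟨WQ2.jqqK2 M q hq hqM K, H.jqqK2_unit.1⟩
  rw [H.red3_jqqK2 hA] at h
  exact h

/-- Along the middle-cusp embedding, `J3 = j · j_q · j_{q²}` reduces to `j̄ · j̄(Q^q) · j̄`
(a pole of order `q + 2`). -/
theorem gRel_iota_J3 (hA : A.LiesOverPrime q) :
    GRel A (ι (Chart3B.J3 M q hq hqM K))
      (S28.jd (IsLocalRing.ResidueField A) 1 * S28.jd (IsLocalRing.ResidueField A) q *
        S28.jd (IsLocalRing.ResidueField A) 1) := by
  have hG := Fermat.Agent.S18.GRel.gRelStatement A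
  rw [Chart3B.J3_eq, map_mul, map_mul]
  exact hG.mul _ _ _ _ (hG.mul _ _ _ _ (gRel_iota_jK H) (gRel_iota_jqK2 H))
    (gRel_iota_jqqK2 H hA)

/-- **(tr) for `W3` and `t = j`.** -/
theorem tr_W3_jK (hdvr : IsDiscreteValuationRing (OK A K)) {π : OK A K} (hπ : Irreducible π) :
    ∀ f : (OK A K)[X], aeval (jK (M * q * q) K) f ∈ H.W3.nonunits → ∀ n, π ∣ f.coeff n :=
  tr_gaussE H.emb H.dvr' hdvr hπ (gRel_iota_jK H)
    (transc_of_order_ne_zero (order_jd_ne_zero _ 1))

/-- **(tr) for `W3` and `t = j⁻¹`.** -/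
theorem tr_W3_jK_inv (hdvr : IsDiscreteValuationRing (OK A K)) {π : OK A K}
    (hπ : Irreducible π) :
    ∀ f : (OK A K)[X], aeval (jK (M * q * q) K)⁻¹ f ∈ H.W3.nonunits → ∀ n, π ∣ f.coeff n :=
  tr_gaussE_inv H.emb H.dvr' hdvr hπ (gRel_iota_jK H) (order_jd_ne_zero _ 1)

/-- **(tr) for `W3` and the coordinate of record `J3`.** -/
theorem tr_W3_J3 (hA : A.LiesOverPrime q) (hdvr : IsDiscreteValuationRing (OK A K))
    {π : OK A K} (hπ : Irreducible π) :
    ∀ f : (OK A K)[X], aeval (Chart3B.J3 M q hq hqM K) f ∈ H.W3.nonunits →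
      ∀ n, π ∣ f.coeff n :=
  tr_gaussE H.emb H.dvr' hdvr hπ (gRel_iota_J3 H hA)
    (transc_of_order_ne_zero (order_jd3 _ 1 q 1))

/-- **(tr) for `W3` and `J3⁻¹`.** -/
theorem tr_W3_J3_inv (hA : A.LiesOverPrime q) (hdvr : IsDiscreteValuationRing (OK A K))
    {π : OK A K} (hπ : Irreducible π) :
    ∀ f : (OK A K)[X], aeval (Chart3B.J3 M q hq hqM K)⁻¹ f ∈ H.W3.nonunits →
      ∀ n, π ∣ f.coeff n :=
  tr_gaussE_inv H.emb H.dvr' hdvr hπ (gRel_iota_J3 H hA) (order_jd3 _ 1 q 1)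

end W3

/-! ### The B-construction of the third ring: `V3B.W3` along `Iota3.iota3` -/

section W3B

open ModularCurve HahnSeries Fermat.Agent.S18 Fermat.Agent.S18.Arith
open Fermat.Agent.S18.ModelPlan Fermat.Agent.S34

variable (M q : ℕ) [NeZero M] [NeZero q] (hq : q.Prime) (hqM : ¬ q ∣ M)
variable {A : ValuationSubring Qb} {K : IntermediateField ℚ Qb} {ξ : Qb}
  (hξ : IsPrimitiveRoot ξ q) {π : OK A K} (hπ : Irreducible π) (hπq : incO A K π = (q : Qb))
  (hdvr : IsDiscreteValuationRing (OK A K))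

/-- (tr) for `V3B.W3` and `t = j`. -/
theorem tr_V3B_jK :
    ∀ f : (OK A K)[X], aeval (jK (M * q * q) K) f ∈
      (V3B.W3 M q hq hqM hξ hπ hπq hdvr).nonunits → ∀ n, π ∣ f.coeff n :=
  tr_gaussE_jK (V3B.emb3 M q hq hqM A K hξ) (BaseXiB.isDVR hq hπ hπq hdvr hξ) hdvr hπ
    (V3B.mid3 M q hq hqM K hξ).apply_jK

/-- (tr) for `V3B.W3` and `t = j⁻¹`. -/
theorem tr_V3B_jK_inv :
    ∀ f : (OK A K)[X], aeval (jK (M * q * q) K)⁻¹ f ∈
      (V3B.W3 M q hq hqM hξ hπ hπq hdvr).nonunits → ∀ n, π ∣ f.coeff n :=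
  tr_gaussE_jK_inv (V3B.emb3 M q hq hqM A K hξ) (BaseXiB.isDVR hq hπ hπq hdvr hξ) hdvr hπ
    (V3B.mid3 M q hq hqM K hξ).apply_jK

/-- (tr) for `V3B.W3` and the coordinate of record `J3`. -/
theorem tr_V3B_J3 (hA : A.LiesOverPrime q) :
    ∀ f : (OK A K)[X], aeval (Chart3B.J3 M q hq hqM K) f ∈
      (V3B.W3 M q hq hqM hξ hπ hπq hdvr).nonunits → ∀ n, π ∣ f.coeff n :=
  tr_gaussE_J3 (hξ.ne_zero (NeZero.ne q)) (V3B.emb3 M q hq hqM A K hξ)
    (BaseXiB.isDVR hq hπ hπq hdvr hξ) hdvr hπ hA hξ (V3B.mid3 M q hq hqM K hξ).apply_jK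
    (V3B.mid3 M q hq hqM K hξ).apply_jq (V3B.mid3 M q hq hqM K hξ).apply_jqq

/-- (tr) for `V3B.W3` and `J3⁻¹`. -/
theorem tr_V3B_J3_inv (hA : A.LiesOverPrime q) :
    ∀ f : (OK A K)[X], aeval (Chart3B.J3 M q hq hqM K)⁻¹ f ∈
      (V3B.W3 M q hq hqM hξ hπ hπq hdvr).nonunits → ∀ n, π ∣ f.coeff n :=
  tr_gaussE_J3_inv (hξ.ne_zero (NeZero.ne q)) (V3B.emb3 M q hq hqM A K hξ)
    (BaseXiB.isDVR hq hπ hπq hdvr hξ) hdvr hπ hA hξ (V3B.mid3 M q hq hqM K hξ).apply_jK
    (V3B.mid3 M q hq hqM K hξ).apply_jq (V3B.mid3 M q hq hqM K hξ).apply_jqq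

end W3B

/-! ### All three components at once -/

section Three

open ModularCurve HahnSeries Fermat.Agent.S18 Fermat.Agent.S18.Arith
open Fermat.Agent.S18.ModelPlan Fermat.Agent.S34

/-- (tr) for a family of three valuation rings, componentwise. -/
theorem tr_three {O E : Type*} [CommRing O] [Field E] [Algebra O E] (π : O) (t : E)
    (V : Fin 3 → ValuationSubring E)
    (h0 : ∀ f : O[X], aeval t f ∈ (V 0).nonunits → ∀ n, π ∣ f.coeff n)
    (h1 : ∀ f : O[X], aeval t f ∈ (V 1).nonunits → ∀ n, π ∣ f.coeff n)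
    (h2 : ∀ f : O[X], aeval t f ∈ (V 2).nonunits → ∀ n, π ∣ f.coeff n) :
    ∀ (i : Fin 3) (f : O[X]), aeval t f ∈ (V i).nonunits → ∀ n, π ∣ f.coeff n := by
  intro i
  fin_cases i
  · exact h0
  · exact h1
  · exact h2

variable {M q : ℕ} [NeZero M] [NeZero q] {hq : q.Prime} {hqM : ¬ q ∣ M}
variable {A : ValuationSubring Qb} {K K' : IntermediateField ℚ Qb}

/-- (tr) for `V 0 = W1`, `V 1 = W2` and any third ring satisfying (tr); `t = j`. -/
theorem tr_three_jK_of (hdvr : IsDiscreteValuationRing (OK A K)) {π : OK A K}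
    (hπ : Irreducible π) (V : Fin 3 → ValuationSubring (FK (M * q * q) K))
    (h0 : V 0 = GaussV.V1 (M * q * q) A K hdvr)
    (h1 : V 1 = GaussV.V2 (WQ2.wK2 M q hq hqM K) hdvr)
    (htr2 : ∀ f : (OK A K)[X], aeval (jK (M * q * q) K) f ∈ (V 2).nonunits →
      ∀ n, π ∣ f.coeff n) :
    ∀ (i : Fin 3) (f : (OK A K)[X]),
      aeval (jK (M * q * q) K) f ∈ (V i).nonunits → ∀ n, π ∣ f.coeff n :=
  tr_three π _ V (by rw [h0]; exact tr_V1_jK hdvr hπ)
    (by rw [h1]; exact tr_W2_jK M q hq hqM hdvr hπ) htr2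

/-- (tr) for `V 0 = W1`, `V 1 = W2` and any third ring satisfying (tr); `t = j⁻¹`. -/
theorem tr_three_jK_inv_of (hdvr : IsDiscreteValuationRing (OK A K)) {π : OK A K}
    (hπ : Irreducible π) (V : Fin 3 → ValuationSubring (FK (M * q * q) K))
    (h0 : V 0 = GaussV.V1 (M * q * q) A K hdvr)
    (h1 : V 1 = GaussV.V2 (WQ2.wK2 M q hq hqM K) hdvr)
    (htr2 : ∀ f : (OK A K)[X], aeval (jK (M * q * q) K)⁻¹ f ∈ (V 2).nonunits →
      ∀ n, π ∣ f.coeff n) :
    ∀ (i : Fin 3) (f : (OK A K)[X]),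
      aeval (jK (M * q * q) K)⁻¹ f ∈ (V i).nonunits → ∀ n, π ∣ f.coeff n :=
  tr_three π _ V (by rw [h0]; exact tr_V1_jK_inv hdvr hπ)
    (by rw [h1]; exact tr_W2_jK_inv M q hq hqM hdvr hπ) htr2

/-- (tr) for `V 0 = W1`, `V 1 = W2` and any third ring satisfying (tr); `t = J3`. -/
theorem tr_three_J3_of (hdvr : IsDiscreteValuationRing (OK A K)) {π : OK A K}
    (hπ : Irreducible π) (V : Fin 3 → ValuationSubring (FK (M * q * q) K))
    (h0 : V 0 = GaussV.V1 (M * q * q) A K hdvr)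
    (h1 : V 1 = GaussV.V2 (WQ2.wK2 M q hq hqM K) hdvr)
    (htr2 : ∀ f : (OK A K)[X], aeval (Chart3B.J3 M q hq hqM K) f ∈ (V 2).nonunits →
      ∀ n, π ∣ f.coeff n) :
    ∀ (i : Fin 3) (f : (OK A K)[X]),
      aeval (Chart3B.J3 M q hq hqM K) f ∈ (V i).nonunits → ∀ n, π ∣ f.coeff n :=
  tr_three π _ V (by rw [h0]; exact tr_W1_J3 M q hq hqM hdvr hπ)
    (by rw [h1]; exact tr_W2_J3 M q hq hqM hdvr hπ) htr2

/-- (tr) for `V 0 = W1`, `V 1 = W2` and any third ring satisfying (tr); `t = J3⁻¹`. -/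
theorem tr_three_J3_inv_of (hdvr : IsDiscreteValuationRing (OK A K)) {π : OK A K}
    (hπ : Irreducible π) (V : Fin 3 → ValuationSubring (FK (M * q * q) K))
    (h0 : V 0 = GaussV.V1 (M * q * q) A K hdvr)
    (h1 : V 1 = GaussV.V2 (WQ2.wK2 M q hq hqM K) hdvr)
    (htr2 : ∀ f : (OK A K)[X], aeval (Chart3B.J3 M q hq hqM K)⁻¹ f ∈ (V 2).nonunits →
      ∀ n, π ∣ f.coeff n) :
    ∀ (i : Fin 3) (f : (OK A K)[X]),
      aeval (Chart3B.J3 M q hq hqM K)⁻¹ f ∈ (V i).nonunits → ∀ n, π ∣ f.coeff n :=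
  tr_three π _ V (by rw [h0]; exact tr_W1_J3_inv M q hq hqM hdvr hπ)
    (by rw [h1]; exact tr_W2_J3_inv M q hq hqM hdvr hπ) htr2

variable {ξ : Qb} {hξ0 : ξ ≠ 0} {ι : FK (M * q * q) K →+* LaurentSeries Qb} {ϖ3 : OK A K'}
variable (H : V3.Hyp3 M q hq hqM A K K' ξ hξ0 ι ϖ3)

include H

/-- (tr) for the three rings of record and `t = j`. -/
theorem tr_three_jK (hdvr : IsDiscreteValuationRing (OK A K)) {π : OK A K} (hπ : Irreducible π)
    (V : Fin 3 → ValuationSubring (FK (M * q * q) K))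
    (h0 : V 0 = GaussV.V1 (M * q * q) A K hdvr)
    (h1 : V 1 = GaussV.V2 (WQ2.wK2 M q hq hqM K) hdvr) (h2 : V 2 = H.W3) :
    ∀ (i : Fin 3) (f : (OK A K)[X]),
      aeval (jK (M * q * q) K) f ∈ (V i).nonunits → ∀ n, π ∣ f.coeff n :=
  tr_three_jK_of hdvr hπ V h0 h1 (by rw [h2]; exact tr_W3_jK H hdvr hπ)

/-- (tr) for the three rings of record and `t = j⁻¹`. -/
theorem tr_three_jK_inv (hdvr : IsDiscreteValuationRing (OK A K)) {π : OK A K}
    (hπ : Irreducible π) (V : Fin 3 → ValuationSubring (FK (M * q * q) K))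
    (h0 : V 0 = GaussV.V1 (M * q * q) A K hdvr)
    (h1 : V 1 = GaussV.V2 (WQ2.wK2 M q hq hqM K) hdvr) (h2 : V 2 = H.W3) :
    ∀ (i : Fin 3) (f : (OK A K)[X]),
      aeval (jK (M * q * q) K)⁻¹ f ∈ (V i).nonunits → ∀ n, π ∣ f.coeff n :=
  tr_three_jK_inv_of hdvr hπ V h0 h1 (by rw [h2]; exact tr_W3_jK_inv H hdvr hπ)

/-- **(tr) for the three rings of record and the coordinate of record `J3`.** -/
theorem tr_three_J3 (hA : A.LiesOverPrime q) (hdvr : IsDiscreteValuationRing (OK A K))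
    {π : OK A K} (hπ : Irreducible π) (V : Fin 3 → ValuationSubring (FK (M * q * q) K))
    (h0 : V 0 = GaussV.V1 (M * q * q) A K hdvr)
    (h1 : V 1 = GaussV.V2 (WQ2.wK2 M q hq hqM K) hdvr) (h2 : V 2 = H.W3) :
    ∀ (i : Fin 3) (f : (OK A K)[X]),
      aeval (Chart3B.J3 M q hq hqM K) f ∈ (V i).nonunits → ∀ n, π ∣ f.coeff n :=
  tr_three_J3_of hdvr hπ V h0 h1 (by rw [h2]; exact tr_W3_J3 H hA hdvr hπ)

/-- **(tr) for the three rings of record and `J3⁻¹`.** -/
theorem tr_three_J3_inv (hA : A.LiesOverPrime q) (hdvr : IsDiscreteValuationRing (OK A K))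
    {π : OK A K} (hπ : Irreducible π) (V : Fin 3 → ValuationSubring (FK (M * q * q) K))
    (h0 : V 0 = GaussV.V1 (M * q * q) A K hdvr)
    (h1 : V 1 = GaussV.V2 (WQ2.wK2 M q hq hqM K) hdvr) (h2 : V 2 = H.W3) :
    ∀ (i : Fin 3) (f : (OK A K)[X]),
      aeval (Chart3B.J3 M q hq hqM K)⁻¹ f ∈ (V i).nonunits → ∀ n, π ∣ f.coeff n :=
  tr_three_J3_inv_of hdvr hπ V h0 h1 (by rw [h2]; exact tr_W3_J3_inv H hA hdvr hπ)

end Three

/-! ### The charts: `ChartHyp3` and the `loc` input of `Model3Asm` -/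

section Chart

open ModularCurve HahnSeries Fermat.Agent.S18 Fermat.Agent.S18.Arith
open Fermat.Agent.S18.ModelPlan Fermat.Agent.S34 Fermat.Agent.S36.Model3Plan

variable {A : ValuationSubring Qb} {K : IntermediateField ℚ Qb}

/-- **`ChartHyp3` of a chart from (tr)** (any level, any coordinate), with the vertical primes
`P i = VertLoc.center`. -/
theorem chartHyp3_of_tr {N : ℕ} [NeZero N] (hdvr : IsDiscreteValuationRing (OK A K))
    {π : OK A K} (hπ : Irreducible π) (t : FK N K)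
    (hnoeth : IsNoetherianRing (chart N A K t)) (hintcl : IsIntegrallyClosed (chart N A K t))
    (hfrac : IsFractionRing (chart N A K t) (FK N K))
    (e : Fin 3 → ℕ) (ϖ : Fin 3 → FK N K) (V : Fin 3 → ValuationSubring (FK N K))
    (val : ValHyp3 (algebraMap (OK A K) (FK N K) π) e ϖ V)
    (hle : ∀ (i : Fin 3) (r : chart N A K t), (r : FK N K) ∈ V i)
    (htr : ∀ (i : Fin 3) (f : (OK A K)[X]), aeval t f ∈ (V i).nonunits → ∀ n, π ∣ f.coeff n)
    (desc : ∀ r : chart N A K t,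
      (∀ i : Fin 3, ∃ y ∈ V i, algebraMap (chart N A K t) (FK N K) r =
        algebraMap (chart N A K t) (FK N K) (algebraMap (OK A K) (chart N A K t) π) * y) →
      ∃ r' : chart N A K t, r = algebraMap (OK A K) (chart N A K t) π * r') :
    ChartHyp3 π ϖ V (fun i => VertLoc.center (chart N A K t) (V i) (hle i)) := by
  have := hdvr
  have := hnoeth
  have := hintcl
  have := hfrac
  exact VertLoc.chartHyp3_center π hπ.not_isUnit (chart N A K t) t
    (ChartJ.self_mem_chart N A K t) (fun x hx => (mem_chart_iff N A K).mp hx) e ϖ V val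
    (GaussV.algebraMap_ne_zero N A K hπ.ne_zero) hle htr desc

/-- **The `loc` input of `Model3Asm.chartModel3` / `Model3Asm.model3` from (tr)** (any level,
any coordinate): every element of `V i` is a fraction of the chart with denominator outside the
vertical ideal `Model3Asm.Pc … i = R ∩ ϖ i (V i)`. -/
theorem hloc_of_tr {N : ℕ} [NeZero N] (hdvr : IsDiscreteValuationRing (OK A K))
    {π : OK A K} (hπ : Irreducible π) (t : FK N K)
    (hnoeth : IsNoetherianRing (chart N A K t)) (hintcl : IsIntegrallyClosed (chart N A K t))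
    (hfrac : IsFractionRing (chart N A K t) (FK N K))
    {e : Fin 3 → ℕ} {ϖ : Fin 3 → FK N K} {V : Fin 3 → ValuationSubring (FK N K)}
    (val : ValHyp3 (algebraMap (OK A K) (FK N K) π) e ϖ V)
    (hle : ∀ i : Fin 3, ∀ x ∈ chart N A K t, x ∈ V i)
    (htr : ∀ (i : Fin 3) (f : (OK A K)[X]), aeval t f ∈ (V i).nonunits → ∀ n, π ∣ f.coeff n) :
    ∀ (i : Fin 3), ∀ x ∈ V i, ∃ a s : chart N A K t,
      s ∉ Model3Asm.Pc (chart N A K t) ϖ V hle i ∧
      x * algebraMap (chart N A K t) (FK N K) s = algebraMap (chart N A K t) (FK N K) a := by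
  have := hdvr
  have := hnoeth
  have := hintcl
  have := hfrac
  intro i x hx
  obtain ⟨a, s, hs, hxs⟩ := VertLoc.regAt_center π hπ.not_isUnit (chart N A K t) t
    (ChartJ.self_mem_chart N A K t) (fun x hx => (mem_chart_iff N A K).mp hx) (V i)
    (fun r => hle i r r.2) (VertLoc.pi_mem_nonunits val i)
    (GaussV.algebraMap_ne_zero N A K hπ.ne_zero) (htr i) x hx
  refine ⟨a, s, ?_, hxs⟩
  intro hsP
  apply hs
  obtain ⟨y, hy, hsy⟩ := hsP
  rw [VertLoc.mem_center]
  have h1 : ((s : chart N A K t) : FK N K) = ϖ i * y := hsy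
  rw [h1]
  exact VertLoc.nonunits_mul_mem
    (VertLoc.nonunits_of_mem_of_inv_not_mem (val.unif_mem i) (val.unif_not i)) hy

variable {M q : ℕ} [NeZero M] [NeZero q] {hq : q.Prime} {hqM : ¬ q ∣ M}

/-- The `ChartHyp3` of `chart N A K J3` (`N = M q q`) for `V 0 = W1`, `V 1 = W2` and any third
ring satisfying (tr) for `J3`. -/
theorem chartHyp3_J3_of (hdvr : IsDiscreteValuationRing (OK A K))
    {π : OK A K} (hπ : Irreducible π) (e : Fin 3 → ℕ) (ϖ : Fin 3 → FK (M * q * q) K)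
    (V : Fin 3 → ValuationSubring (FK (M * q * q) K))
    (val : ValHyp3 (algebraMap (OK A K) (FK (M * q * q) K) π) e ϖ V)
    (h0 : V 0 = GaussV.V1 (M * q * q) A K hdvr)
    (h1 : V 1 = GaussV.V2 (WQ2.wK2 M q hq hqM K) hdvr)
    (htr2 : ∀ f : (OK A K)[X], aeval (Chart3B.J3 M q hq hqM K) f ∈ (V 2).nonunits →
      ∀ n, π ∣ f.coeff n)
    (hle : ∀ (i : Fin 3) (r : chart (M * q * q) A K (Chart3B.J3 M q hq hqM K)),
      (r : FK (M * q * q) K) ∈ V i)
    (desc : ∀ r : chart (M * q * q) A K (Chart3B.J3 M q hq hqM K),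
      (∀ i : Fin 3, ∃ y ∈ V i,
        algebraMap (chart (M * q * q) A K (Chart3B.J3 M q hq hqM K)) (FK (M * q * q) K) r
        = algebraMap (chart (M * q * q) A K (Chart3B.J3 M q hq hqM K)) (FK (M * q * q) K)
            (algebraMap (OK A K) (chart (M * q * q) A K (Chart3B.J3 M q hq hqM K)) π) * y) →
      ∃ r' : chart (M * q * q) A K (Chart3B.J3 M q hq hqM K),
        r = algebraMap (OK A K) (chart (M * q * q) A K (Chart3B.J3 M q hq hqM K)) π * r') :
    ChartHyp3 π ϖ V (fun i =>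
      VertLoc.center (chart (M * q * q) A K (Chart3B.J3 M q hq hqM K)) (V i) (hle i)) := by
  obtain ⟨⟨hn, hf, hi⟩, -, -, -⟩ := Chart3B.rings M q hq hqM A K hdvr
  exact chartHyp3_of_tr hdvr hπ (Chart3B.J3 M q hq hqM K) hn hi hf e ϖ V val hle
    (tr_three_J3_of hdvr hπ V h0 h1 htr2) desc

/-- The `ChartHyp3` of `chart N A K J3⁻¹` for `V 0 = W1`, `V 1 = W2` and any third ring
satisfying (tr) for `J3⁻¹`. -/
theorem chartHyp3_J3_inv_of (hdvr : IsDiscreteValuationRing (OK A K))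
    {π : OK A K} (hπ : Irreducible π) (e : Fin 3 → ℕ) (ϖ : Fin 3 → FK (M * q * q) K)
    (V : Fin 3 → ValuationSubring (FK (M * q * q) K))
    (val : ValHyp3 (algebraMap (OK A K) (FK (M * q * q) K) π) e ϖ V)
    (h0 : V 0 = GaussV.V1 (M * q * q) A K hdvr)
    (h1 : V 1 = GaussV.V2 (WQ2.wK2 M q hq hqM K) hdvr)
    (htr2 : ∀ f : (OK A K)[X], aeval (Chart3B.J3 M q hq hqM K)⁻¹ f ∈ (V 2).nonunits →
      ∀ n, π ∣ f.coeff n)
    (hle : ∀ (i : Fin 3) (r : chart (M * q * q) A K (Chart3B.J3 M q hq hqM K)⁻¹),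
      (r : FK (M * q * q) K) ∈ V i)
    (desc : ∀ r : chart (M * q * q) A K (Chart3B.J3 M q hq hqM K)⁻¹,
      (∀ i : Fin 3, ∃ y ∈ V i,
        algebraMap (chart (M * q * q) A K (Chart3B.J3 M q hq hqM K)⁻¹) (FK (M * q * q) K) r
        = algebraMap (chart (M * q * q) A K (Chart3B.J3 M q hq hqM K)⁻¹) (FK (M * q * q) K)
            (algebraMap (OK A K) (chart (M * q * q) A K (Chart3B.J3 M q hq hqM K)⁻¹) π) * y) →
      ∃ r' : chart (M * q * q) A K (Chart3B.J3 M q hq hqM K)⁻¹,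
        r = algebraMap (OK A K) (chart (M * q * q) A K (Chart3B.J3 M q hq hqM K)⁻¹) π * r') :
    ChartHyp3 π ϖ V (fun i =>
      VertLoc.center (chart (M * q * q) A K (Chart3B.J3 M q hq hqM K)⁻¹) (V i) (hle i)) := by
  obtain ⟨-, ⟨hn, hf, hi⟩, -, -⟩ := Chart3B.rings M q hq hqM A K hdvr
  exact chartHyp3_of_tr hdvr hπ (Chart3B.J3 M q hq hqM K)⁻¹ hn hi hf e ϖ V val hle
    (tr_three_J3_inv_of hdvr hπ V h0 h1 htr2) desc

/-- The `loc` input of `Model3Asm.model3` for `t = J3`, for `V 0 = W1`, `V 1 = W2` and any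
third ring satisfying (tr) for `J3`. -/
theorem hloc_J3_of (hdvr : IsDiscreteValuationRing (OK A K))
    {π : OK A K} (hπ : Irreducible π) {e : Fin 3 → ℕ} {ϖ : Fin 3 → FK (M * q * q) K}
    {V : Fin 3 → ValuationSubring (FK (M * q * q) K)}
    (val : ValHyp3 (algebraMap (OK A K) (FK (M * q * q) K) π) e ϖ V)
    (h0 : V 0 = GaussV.V1 (M * q * q) A K hdvr)
    (h1 : V 1 = GaussV.V2 (WQ2.wK2 M q hq hqM K) hdvr)
    (htr2 : ∀ f : (OK A K)[X], aeval (Chart3B.J3 M q hq hqM K) f ∈ (V 2).nonunits →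
      ∀ n, π ∣ f.coeff n)
    (hle : ∀ i : Fin 3, ∀ x ∈ chart (M * q * q) A K (Chart3B.J3 M q hq hqM K), x ∈ V i) :
    ∀ (i : Fin 3), ∀ x ∈ V i, ∃ a s : chart (M * q * q) A K (Chart3B.J3 M q hq hqM K),
      s ∉ Model3Asm.Pc (chart (M * q * q) A K (Chart3B.J3 M q hq hqM K)) ϖ V hle i ∧
      x * algebraMap (chart (M * q * q) A K (Chart3B.J3 M q hq hqM K)) (FK (M * q * q) K) s =
        algebraMap (chart (M * q * q) A K (Chart3B.J3 M q hq hqM K)) (FK (M * q * q) K) a := by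
  obtain ⟨⟨hn, hf, hi⟩, -, -, -⟩ := Chart3B.rings M q hq hqM A K hdvr
  exact hloc_of_tr hdvr hπ (Chart3B.J3 M q hq hqM K) hn hi hf val hle
    (tr_three_J3_of hdvr hπ V h0 h1 htr2)

/-- The `loc` statement for `chart N A K J3⁻¹`, for `V 0 = W1`, `V 1 = W2` and any third ring
satisfying (tr) for `J3⁻¹`. -/
theorem hloc_J3_inv_of (hdvr : IsDiscreteValuationRing (OK A K))
    {π : OK A K} (hπ : Irreducible π) {e : Fin 3 → ℕ} {ϖ : Fin 3 → FK (M * q * q) K}
    {V : Fin 3 → ValuationSubring (FK (M * q * q) K)}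
    (val : ValHyp3 (algebraMap (OK A K) (FK (M * q * q) K) π) e ϖ V)
    (h0 : V 0 = GaussV.V1 (M * q * q) A K hdvr)
    (h1 : V 1 = GaussV.V2 (WQ2.wK2 M q hq hqM K) hdvr)
    (htr2 : ∀ f : (OK A K)[X], aeval (Chart3B.J3 M q hq hqM K)⁻¹ f ∈ (V 2).nonunits →
      ∀ n, π ∣ f.coeff n)
    (hle : ∀ i : Fin 3, ∀ x ∈ chart (M * q * q) A K (Chart3B.J3 M q hq hqM K)⁻¹, x ∈ V i) :
    ∀ (i : Fin 3), ∀ x ∈ V i, ∃ a s : chart (M * q * q) A K (Chart3B.J3 M q hq hqM K)⁻¹,
      s ∉ Model3Asm.Pc (chart (M * q * q) A K (Chart3B.J3 M q hq hqM K)⁻¹) ϖ V hle i ∧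
      x * algebraMap (chart (M * q * q) A K (Chart3B.J3 M q hq hqM K)⁻¹) (FK (M * q * q) K) s =
        algebraMap (chart (M * q * q) A K (Chart3B.J3 M q hq hqM K)⁻¹) (FK (M * q * q) K) a := by
  obtain ⟨-, ⟨hn, hf, hi⟩, -, -⟩ := Chart3B.rings M q hq hqM A K hdvr
  exact hloc_of_tr hdvr hπ (Chart3B.J3 M q hq hqM K)⁻¹ hn hi hf val hle
    (tr_three_J3_inv_of hdvr hπ V h0 h1 htr2)

variable {K' : IntermediateField ℚ Qb}
variable {ξ : Qb} {hξ0 : ξ ≠ 0} {ι : FK (M * q * q) K →+* LaurentSeries Qb} {ϖ3 : OK A K'}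
variable (H : V3.Hyp3 M q hq hqM A K K' ξ hξ0 ι ϖ3)

include H

/-- `chart J3 ⊆ V i` for the three rings of record. -/
theorem le_J3 (hdvr : IsDiscreteValuationRing (OK A K))
    (V : Fin 3 → ValuationSubring (FK (M * q * q) K))
    (h0 : V 0 = GaussV.V1 (M * q * q) A K hdvr)
    (h1 : V 1 = GaussV.V2 (WQ2.wK2 M q hq hqM K) hdvr) (h2 : V 2 = H.W3) :
    ∀ i : Fin 3, ∀ x ∈ chart (M * q * q) A K (Chart3B.J3 M q hq hqM K), x ∈ V i := by
  intro i x hx
  refine Chart3B.le3 M q hq hqM A K hdvr V h0 h1 ?_ ?_ ?_ ?_ i ⟨x, hx⟩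
  · intro c
    rw [h2]
    exact H.algebraMap_mem c
  · rw [h2]
    exact H.jK_unit.1
  · rw [h2]
    exact H.jqK2_unit.1
  · rw [h2]
    exact H.jqqK2_unit.1

/-- `chart J3⁻¹ ⊆ V i` for the three rings of record. -/
theorem le_J3_inv (hdvr : IsDiscreteValuationRing (OK A K))
    (V : Fin 3 → ValuationSubring (FK (M * q * q) K))
    (h0 : V 0 = GaussV.V1 (M * q * q) A K hdvr)
    (h1 : V 1 = GaussV.V2 (WQ2.wK2 M q hq hqM K) hdvr) (h2 : V 2 = H.W3) :
    ∀ i : Fin 3, ∀ x ∈ chart (M * q * q) A K (Chart3B.J3 M q hq hqM K)⁻¹, x ∈ V i := by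
  intro i x hx
  refine Chart3B.le3_inv M q hq hqM A K hdvr V h0 h1 ?_ ?_ ?_ ?_ i ⟨x, hx⟩
  · intro c
    rw [h2]
    exact H.algebraMap_mem c
  · rw [h2]
    exact H.jK_unit.2
  · rw [h2]
    exact H.jqK2_unit.2
  · rw [h2]
    exact H.jqqK2_unit.2

/-- **The `ChartHyp3` of the chart of record `chart N A K J3`** (`N = M q q`), for the three
rings of record, from `val`, `le` and `desc` only. -/
theorem chartHyp3_J3 (hA : A.LiesOverPrime q) (hdvr : IsDiscreteValuationRing (OK A K))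
    {π : OK A K} (hπ : Irreducible π) (e : Fin 3 → ℕ) (ϖ : Fin 3 → FK (M * q * q) K)
    (V : Fin 3 → ValuationSubring (FK (M * q * q) K))
    (val : ValHyp3 (algebraMap (OK A K) (FK (M * q * q) K) π) e ϖ V)
    (h0 : V 0 = GaussV.V1 (M * q * q) A K hdvr)
    (h1 : V 1 = GaussV.V2 (WQ2.wK2 M q hq hqM K) hdvr) (h2 : V 2 = H.W3)
    (hle : ∀ (i : Fin 3) (r : chart (M * q * q) A K (Chart3B.J3 M q hq hqM K)),
      (r : FK (M * q * q) K) ∈ V i)
    (desc : ∀ r : chart (M * q * q) A K (Chart3B.J3 M q hq hqM K),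
      (∀ i : Fin 3, ∃ y ∈ V i,
        algebraMap (chart (M * q * q) A K (Chart3B.J3 M q hq hqM K)) (FK (M * q * q) K) r
        = algebraMap (chart (M * q * q) A K (Chart3B.J3 M q hq hqM K)) (FK (M * q * q) K)
            (algebraMap (OK A K) (chart (M * q * q) A K (Chart3B.J3 M q hq hqM K)) π) * y) →
      ∃ r' : chart (M * q * q) A K (Chart3B.J3 M q hq hqM K),
        r = algebraMap (OK A K) (chart (M * q * q) A K (Chart3B.J3 M q hq hqM K)) π * r') :
    ChartHyp3 π ϖ V (fun i =>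
      VertLoc.center (chart (M * q * q) A K (Chart3B.J3 M q hq hqM K)) (V i) (hle i)) :=
  chartHyp3_J3_of hdvr hπ e ϖ V val h0 h1 (by rw [h2]; exact tr_W3_J3 H hA hdvr hπ) hle desc

/-- **The `ChartHyp3` of the chart of record `chart N A K J3⁻¹`**, for the three rings of
record, from `val`, `le` and `desc` only. -/
theorem chartHyp3_J3_inv (hA : A.LiesOverPrime q) (hdvr : IsDiscreteValuationRing (OK A K))
    {π : OK A K} (hπ : Irreducible π) (e : Fin 3 → ℕ) (ϖ : Fin 3 → FK (M * q * q) K)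
    (V : Fin 3 → ValuationSubring (FK (M * q * q) K))
    (val : ValHyp3 (algebraMap (OK A K) (FK (M * q * q) K) π) e ϖ V)
    (h0 : V 0 = GaussV.V1 (M * q * q) A K hdvr)
    (h1 : V 1 = GaussV.V2 (WQ2.wK2 M q hq hqM K) hdvr) (h2 : V 2 = H.W3)
    (hle : ∀ (i : Fin 3) (r : chart (M * q * q) A K (Chart3B.J3 M q hq hqM K)⁻¹),
      (r : FK (M * q * q) K) ∈ V i)
    (desc : ∀ r : chart (M * q * q) A K (Chart3B.J3 M q hq hqM K)⁻¹,
      (∀ i : Fin 3, ∃ y ∈ V i,
        algebraMap (chart (M * q * q) A K (Chart3B.J3 M q hq hqM K)⁻¹) (FK (M * q * q) K) r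
        = algebraMap (chart (M * q * q) A K (Chart3B.J3 M q hq hqM K)⁻¹) (FK (M * q * q) K)
            (algebraMap (OK A K) (chart (M * q * q) A K (Chart3B.J3 M q hq hqM K)⁻¹) π) * y) →
      ∃ r' : chart (M * q * q) A K (Chart3B.J3 M q hq hqM K)⁻¹,
        r = algebraMap (OK A K) (chart (M * q * q) A K (Chart3B.J3 M q hq hqM K)⁻¹) π * r') :
    ChartHyp3 π ϖ V (fun i =>
      VertLoc.center (chart (M * q * q) A K (Chart3B.J3 M q hq hqM K)⁻¹) (V i) (hle i)) :=
  chartHyp3_J3_inv_of hdvr hπ e ϖ V val h0 h1 (by rw [h2]; exact tr_W3_J3_inv H hA hdvr hπ)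
    hle desc

/-- **The `loc` input of `Model3Asm.model3` for the coordinate of record `t = J3`**, for the
three rings of record: from `val` and `le` only. -/
theorem hloc_J3 (hA : A.LiesOverPrime q) (hdvr : IsDiscreteValuationRing (OK A K))
    {π : OK A K} (hπ : Irreducible π) {e : Fin 3 → ℕ} {ϖ : Fin 3 → FK (M * q * q) K}
    {V : Fin 3 → ValuationSubring (FK (M * q * q) K)}
    (val : ValHyp3 (algebraMap (OK A K) (FK (M * q * q) K) π) e ϖ V)
    (h0 : V 0 = GaussV.V1 (M * q * q) A K hdvr)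
    (h1 : V 1 = GaussV.V2 (WQ2.wK2 M q hq hqM K) hdvr) (h2 : V 2 = H.W3)
    (hle : ∀ i : Fin 3, ∀ x ∈ chart (M * q * q) A K (Chart3B.J3 M q hq hqM K), x ∈ V i) :
    ∀ (i : Fin 3), ∀ x ∈ V i, ∃ a s : chart (M * q * q) A K (Chart3B.J3 M q hq hqM K),
      s ∉ Model3Asm.Pc (chart (M * q * q) A K (Chart3B.J3 M q hq hqM K)) ϖ V hle i ∧
      x * algebraMap (chart (M * q * q) A K (Chart3B.J3 M q hq hqM K)) (FK (M * q * q) K) s =
        algebraMap (chart (M * q * q) A K (Chart3B.J3 M q hq hqM K)) (FK (M * q * q) K) a :=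
  hloc_J3_of hdvr hπ val h0 h1 (by rw [h2]; exact tr_W3_J3 H hA hdvr hπ) hle

/-- **The `loc` statement for the chart at infinity `chart N A K J3⁻¹`**, for the three rings
of record: from `val` and `le` only. -/
theorem hloc_J3_inv (hA : A.LiesOverPrime q) (hdvr : IsDiscreteValuationRing (OK A K))
    {π : OK A K} (hπ : Irreducible π) {e : Fin 3 → ℕ} {ϖ : Fin 3 → FK (M * q * q) K}
    {V : Fin 3 → ValuationSubring (FK (M * q * q) K)}
    (val : ValHyp3 (algebraMap (OK A K) (FK (M * q * q) K) π) e ϖ V)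
    (h0 : V 0 = GaussV.V1 (M * q * q) A K hdvr)
    (h1 : V 1 = GaussV.V2 (WQ2.wK2 M q hq hqM K) hdvr) (h2 : V 2 = H.W3)
    (hle : ∀ i : Fin 3, ∀ x ∈ chart (M * q * q) A K (Chart3B.J3 M q hq hqM K)⁻¹, x ∈ V i) :
    ∀ (i : Fin 3), ∀ x ∈ V i, ∃ a s : chart (M * q * q) A K (Chart3B.J3 M q hq hqM K)⁻¹,
      s ∉ Model3Asm.Pc (chart (M * q * q) A K (Chart3B.J3 M q hq hqM K)⁻¹) ϖ V hle i ∧
      x * algebraMap (chart (M * q * q) A K (Chart3B.J3 M q hq hqM K)⁻¹) (FK (M * q * q) K) s =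
        algebraMap (chart (M * q * q) A K (Chart3B.J3 M q hq hqM K)⁻¹) (FK (M * q * q) K) a :=
  hloc_J3_inv_of hdvr hπ val h0 h1 (by rw [h2]; exact tr_W3_J3_inv H hA hdvr hπ) hle

end Chart

end Fermat.Agent.S36.VertLocInstB
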