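/-
S36 — VertLocW3.lean (helper61), package [MODEL3]: the **`hloc` input of `Model3Asm.model3`**
(verbatim: `∀ i, ∀ y ∈ V i, ∃ a s : chart …, s ∉ Model3Asm.Pc (chart …) ϖ V hle i ∧ y * s = a`)
by the vertical-localisation route of `S36/VertLoc.lean` + `S36/VertLocInst.lean`:
no (T0), no separating witnesses, no residue degrees.

* `Pc_eq_center` : `Model3Asm.Pc R ϖ V hle i = VertLoc.center R (V i) _` under `ValHyp3`;
* `loc_Pc`       : `hloc` for any chart `chart N A K t` from (tr);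
* `tauMid`, `order_tauMid`, `gRel_J3_W3` : the Gauss reduction `j̄ · j̄(Q^q) · j̄` of `J3` along the
  middle-cusp embedding `ι` of `H : V3.Hyp3 …` (it has a pole);
* `tr_J3`, `tr_J3_inv` : (tr) for the family of record `V 0 = GaussV.V1`, `V 1 = GaussV.V2 wK2`,
  `V 2 = H.W3`, charts `J3`, `J3⁻¹`;
* `loc_J3`, `loc_J3_inv` : **`hloc` for the two charts of record**, from `val` and `hle` only.
-/
import Mathlib
import Fermat.Agent.S36.VertLocInst
import Fermat.Agent.S36.Model3Asm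
import Fermat.Agent.S36.V3

set_option autoImplicit false
set_option linter.unusedSectionVars false
set_option linter.style.haveILetI false

noncomputable section

namespace Fermat.Agent.S36.VertLocW3

open ModularCurve HahnSeries Polynomial Fermat.Agent.S18 Fermat.Agent.S18.Arith
open Fermat.Agent.S18.ModelPlan Fermat.Agent.S34 Fermat.Agent.S36.Model3Plan

/-! ### Generic chart -/

section Generic

variable {N : ℕ} [NeZero N] {A : ValuationSubring Qb} {K : IntermediateField ℚ Qb}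

/-- Under `ValHyp3`, the vertical ideal `Pc` is the centre of `V i`. -/
theorem Pc_eq_center (hdvr : IsDiscreteValuationRing (OK A K))
    (R : Subalgebra (OK A K) (FK N K)) {p : FK N K} {e : Fin 3 → ℕ}
    {ϖ : Fin 3 → FK N K} {V : Fin 3 → ValuationSubring (FK N K)} (val : ValHyp3 p e ϖ V)
    (hle : ∀ i : Fin 3, ∀ x ∈ R, x ∈ V i) (i : Fin 3) :
    Model3Asm.Pc R ϖ V hle i = VertLoc.center R (V i) (fun r => hle i r r.2) := by
  haveI := hdvr
  ext r
  rw [Model3Asm.mem_Pc]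
  exact (VertLoc.mem_center_iff_unif R (V i) (fun r => hle i r r.2) (ϖ i) (val.unif_mem i)
    (val.unif_not i) (val.disc i) r).symm

/-- **`hloc` of `Model3Asm.model3` for a chart `chart N A K t`**, from (tr). -/
theorem loc_Pc (hdvr : IsDiscreteValuationRing (OK A K)) (π : OK A K) (hπ : Irreducible π)
    (t : FK N K) (hnoeth : IsNoetherianRing (chart N A K t))
    (hintcl : IsIntegrallyClosed (chart N A K t))
    (hfrac : IsFractionRing (chart N A K t) (FK N K))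
    (e : Fin 3 → ℕ) (ϖ : Fin 3 → FK N K) (V : Fin 3 → ValuationSubring (FK N K))
    (val : ValHyp3 (algebraMap (OK A K) (FK N K) π) e ϖ V)
    (hle : ∀ i : Fin 3, ∀ x ∈ chart N A K t, x ∈ V i)
    (htr : ∀ (i : Fin 3) (f : (OK A K)[X]), aeval t f ∈ (V i).nonunits → ∀ n, π ∣ f.coeff n) :
    ∀ (i : Fin 3), ∀ y ∈ V i, ∃ a s : chart N A K t,
      s ∉ Model3Asm.Pc (chart N A K t) ϖ V hle i ∧
      y * algebraMap (chart N A K t) (FK N K) s = algebraMap (chart N A K t) (FK N K) a := by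
  haveI := hdvr
  haveI := hnoeth
  haveI := hintcl
  haveI := hfrac
  intro i y hy
  obtain ⟨a, s, hs, h⟩ := VertLoc.regAt_center π hπ.not_isUnit (chart N A K t) t
    (HorPrinc.isIntegral_adjoin_self t) (fun x hx => hx) (V i) (fun r => hle i r r.2)
    (VertLoc.pi_mem_nonunits val i) (GaussV.algebraMap_ne_zero N A K hπ.ne_zero) (htr i) y hy
  refine ⟨a, s, ?_, h⟩
  rw [Pc_eq_center hdvr (chart N A K t) val hle i]
  exact hs

end Generic

/-! ### The reduction of `J3` on `W3` -/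

section Mid

/-- The reduction `j̄ · j̄(Q^q) · j̄` of `J3` on `W3` (along the middle-cusp embedding). -/
def tauMid (k : Type*) [Field k] (q : ℕ) [NeZero q] : LaurentSeries k :=
  Fermat.Agent.S28.jd k 1 * Fermat.Agent.S28.jd k q * Fermat.Agent.S28.jd k 1

theorem order_tauMid (k : Type*) [Field k] (q : ℕ) [NeZero q] : (tauMid k q).order < 0 := by
  have h0 : jqModC k ≠ 0 := by
    intro h
    have h1 := SepDeg.order_jqModC k
    rw [h, HahnSeries.order_zero] at h1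
    exact absurd h1 (by norm_num)
  have h1 : qExpand k q (jqModC k) ≠ 0 := fun h =>
    h0 (qExpand_injective (R := k) q (by rw [h, map_zero]))
  have h2 : qExpand k 1 (jqModC k) ≠ 0 := fun h =>
    h0 (qExpand_injective (R := k) 1 (by rw [h, map_zero]))
  rw [tauMid, Fermat.Agent.S28.jd_eq, Fermat.Agent.S28.jd_eq,
    HahnSeries.order_mul (mul_ne_zero h2 h1) h2, HahnSeries.order_mul h2 h1,
    Fermat.Agent.S28.OrdersB.order_qExpand k q h0,
    Fermat.Agent.S28.OrdersB.order_qExpand k 1 h0, SepDeg.order_jqModC]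
  have hq0 : (0 : ℤ) < q := by exact_mod_cast Nat.pos_of_ne_zero (NeZero.ne q)
  push_cast
  nlinarith

variable {M q : ℕ} [NeZero M] [NeZero q] {hq : q.Prime} {hqM : ¬ q ∣ M}
variable {A : ValuationSubring Qb} {K K' : IntermediateField ℚ Qb}
variable {ξ : Qb} {hξ0 : ξ ≠ 0} {ι : FK (M * q * q) K →+* LaurentSeries Qb} {ϖ' : OK A K'}

/-- The Gauss reduction of `J3` along the middle-cusp embedding. -/
theorem gRel_J3_W3 (H : V3.Hyp3 M q hq hqM A K K' ξ hξ0 ι ϖ') (hA : A.LiesOverPrime q) :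
    GRel A (ι (Chart3B.J3 M q hq hqM K)) (tauMid (IsLocalRing.ResidueField A) q) := by
  have hG := Fermat.Agent.S18.GRel.gRelStatement A
  have h1 := H.gRel_red3 ⟨_, H.jK_unit.1⟩
  have h2 := H.gRel_red3 ⟨_, H.jqK2_unit.1⟩
  have h3 := H.gRel_red3 ⟨_, H.jqqK2_unit.1⟩
  rw [H.red3_jK] at h1
  rw [H.red3_jqK2] at h2
  rw [H.red3_jqqK2 hA] at h3
  rw [Chart3B.J3_eq, map_mul, map_mul]
  exact hG.mul _ _ _ _ (hG.mul _ _ _ _ h1 h2) h3

/-- (tr) for the family of record, chart `J3`. -/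
theorem tr_J3 (hdvr : IsDiscreteValuationRing (OK A K)) (π : OK A K) (hπ : Irreducible π)
    (H : V3.Hyp3 M q hq hqM A K K' ξ hξ0 ι ϖ') (hA : A.LiesOverPrime q)
    (V : Fin 3 → ValuationSubring (FK (M * q * q) K))
    (h0 : V 0 = GaussV.V1 (M * q * q) A K hdvr)
    (h1 : V 1 = GaussV.V2 (WQ2.wK2 M q hq hqM K) hdvr)
    (h2 : V 2 = H.W3) :
    ∀ (i : Fin 3) (f : (OK A K)[X]),
      aeval (Chart3B.J3 M q hq hqM K) f ∈ (V i).nonunits → ∀ n, π ∣ f.coeff n :=
  VertLocInst.tr_three_J3 M q hq hqM hdvr π hπ V h0 h1 ι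
    (fun x => by rw [h2]; exact Iff.rfl) H.emb.const
    (tauMid (IsLocalRing.ResidueField A) q) (gRel_J3_W3 H hA) (order_tauMid _ q)

/-- (tr) for the family of record, chart `J3⁻¹`. -/
theorem tr_J3_inv (hdvr : IsDiscreteValuationRing (OK A K)) (π : OK A K) (hπ : Irreducible π)
    (H : V3.Hyp3 M q hq hqM A K K' ξ hξ0 ι ϖ') (hA : A.LiesOverPrime q)
    (V : Fin 3 → ValuationSubring (FK (M * q * q) K))
    (h0 : V 0 = GaussV.V1 (M * q * q) A K hdvr)
    (h1 : V 1 = GaussV.V2 (WQ2.wK2 M q hq hqM K) hdvr)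
    (h2 : V 2 = H.W3) :
    ∀ (i : Fin 3) (f : (OK A K)[X]),
      aeval (Chart3B.J3 M q hq hqM K)⁻¹ f ∈ (V i).nonunits → ∀ n, π ∣ f.coeff n :=
  VertLocInst.tr_three_J3_inv M q hq hqM hdvr π hπ V h0 h1 ι
    (fun x => by rw [h2]; exact Iff.rfl) H.emb.const
    (tauMid (IsLocalRing.ResidueField A) q) (gRel_J3_W3 H hA) (order_tauMid _ q)

/-- **`hloc` of `Model3Asm.model3` for the chart `J3` of record.** -/
theorem loc_J3 (hdvr : IsDiscreteValuationRing (OK A K)) (π : OK A K) (hπ : Irreducible π)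
    (H : V3.Hyp3 M q hq hqM A K K' ξ hξ0 ι ϖ') (hA : A.LiesOverPrime q)
    (e : Fin 3 → ℕ) (ϖ : Fin 3 → FK (M * q * q) K)
    (V : Fin 3 → ValuationSubring (FK (M * q * q) K))
    (h0 : V 0 = GaussV.V1 (M * q * q) A K hdvr)
    (h1 : V 1 = GaussV.V2 (WQ2.wK2 M q hq hqM K) hdvr)
    (h2 : V 2 = H.W3)
    (val : ValHyp3 (algebraMap (OK A K) (FK (M * q * q) K) π) e ϖ V)
    (hle : ∀ i : Fin 3, ∀ x ∈ chart (M * q * q) A K (Chart3B.J3 M q hq hqM K), x ∈ V i) :
    ∀ (i : Fin 3), ∀ y ∈ V i, ∃ a s : chart (M * q * q) A K (Chart3B.J3 M q hq hqM K),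
      s ∉ Model3Asm.Pc (chart (M * q * q) A K (Chart3B.J3 M q hq hqM K)) ϖ V hle i ∧
      y * algebraMap (chart (M * q * q) A K (Chart3B.J3 M q hq hqM K)) (FK (M * q * q) K) s
        = algebraMap (chart (M * q * q) A K (Chart3B.J3 M q hq hqM K)) (FK (M * q * q) K) a := by
  obtain ⟨⟨hn, hf, hi⟩, -, -, -⟩ := Chart3B.rings M q hq hqM A K hdvr
  exact loc_Pc hdvr π hπ (Chart3B.J3 M q hq hqM K) hn hi hf e ϖ V val hle
    (tr_J3 hdvr π hπ H hA V h0 h1 h2)

/-- **`hloc` for the chart `J3⁻¹` of record.** -/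
theorem loc_J3_inv (hdvr : IsDiscreteValuationRing (OK A K)) (π : OK A K) (hπ : Irreducible π)
    (H : V3.Hyp3 M q hq hqM A K K' ξ hξ0 ι ϖ') (hA : A.LiesOverPrime q)
    (e : Fin 3 → ℕ) (ϖ : Fin 3 → FK (M * q * q) K)
    (V : Fin 3 → ValuationSubring (FK (M * q * q) K))
    (h0 : V 0 = GaussV.V1 (M * q * q) A K hdvr)
    (h1 : V 1 = GaussV.V2 (WQ2.wK2 M q hq hqM K) hdvr)
    (h2 : V 2 = H.W3)
    (val : ValHyp3 (algebraMap (OK A K) (FK (M * q * q) K) π) e ϖ V)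
    (hle : ∀ i : Fin 3, ∀ x ∈ chart (M * q * q) A K (Chart3B.J3 M q hq hqM K)⁻¹, x ∈ V i) :
    ∀ (i : Fin 3), ∀ y ∈ V i, ∃ a s : chart (M * q * q) A K (Chart3B.J3 M q hq hqM K)⁻¹,
      s ∉ Model3Asm.Pc (chart (M * q * q) A K (Chart3B.J3 M q hq hqM K)⁻¹) ϖ V hle i ∧
      y * algebraMap (chart (M * q * q) A K (Chart3B.J3 M q hq hqM K)⁻¹) (FK (M * q * q) K) s
        = algebraMap (chart (M * q * q) A K (Chart3B.J3 M q hq hqM K)⁻¹) (FK (M * q * q) K) a := by
  obtain ⟨-, ⟨hn, hf, hi⟩, -, -⟩ := Chart3B.rings M q hq hqM A K hdvr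
  exact loc_Pc hdvr π hπ (Chart3B.J3 M q hq hqM K)⁻¹ hn hi hf e ϖ V val hle
    (tr_J3_inv hdvr π hπ H hA V h0 h1 h2)

/-- The literal family of record: `hloc` for `V = ![W1, W2, H.W3]`, chart `J3`. -/
theorem loc_J3_rec (hdvr : IsDiscreteValuationRing (OK A K)) (π : OK A K) (hπ : Irreducible π)
    (H : V3.Hyp3 M q hq hqM A K K' ξ hξ0 ι ϖ') (hA : A.LiesOverPrime q)
    (e : Fin 3 → ℕ) (ϖ : Fin 3 → FK (M * q * q) K)
    (val : ValHyp3 (algebraMap (OK A K) (FK (M * q * q) K) π) e ϖ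
      ![GaussV.V1 (M * q * q) A K hdvr, GaussV.V2 (WQ2.wK2 M q hq hqM K) hdvr, H.W3])
    (hle : ∀ i : Fin 3, ∀ x ∈ chart (M * q * q) A K (Chart3B.J3 M q hq hqM K),
      x ∈ (![GaussV.V1 (M * q * q) A K hdvr, GaussV.V2 (WQ2.wK2 M q hq hqM K) hdvr, H.W3] :
        Fin 3 → ValuationSubring (FK (M * q * q) K)) i) :
    ∀ (i : Fin 3), ∀ y ∈ (![GaussV.V1 (M * q * q) A K hdvr,
        GaussV.V2 (WQ2.wK2 M q hq hqM K) hdvr, H.W3] :
        Fin 3 → ValuationSubring (FK (M * q * q) K)) i,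
      ∃ a s : chart (M * q * q) A K (Chart3B.J3 M q hq hqM K),
      s ∉ Model3Asm.Pc (chart (M * q * q) A K (Chart3B.J3 M q hq hqM K)) ϖ
        ![GaussV.V1 (M * q * q) A K hdvr, GaussV.V2 (WQ2.wK2 M q hq hqM K) hdvr, H.W3] hle i ∧
      y * algebraMap (chart (M * q * q) A K (Chart3B.J3 M q hq hqM K)) (FK (M * q * q) K) s
        = algebraMap (chart (M * q * q) A K (Chart3B.J3 M q hq hqM K)) (FK (M * q * q) K) a :=
  loc_J3 hdvr π hπ H hA e ϖ _ rfl rfl rfl val hle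

end Mid

end Fermat.Agent.S36.VertLocW3
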