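/-
S36 — W3SymB.lean (helper135; package [MODEL3] / [NORM3]): independent B-copy of
`S36/W3Sym.lean` (helper80), proved through the abstract middle-cusp embeddings `V3.MidEmb`,
with the `V3.Hyp3` forms and the bridge to the `ℚ̄`-level family `Iota3K.famBar`.

Level `(M q) q`, `q` prime, `q ∤ M`; `w = WQ2.wK2` the Atkin–Lehner involution `w_{q²}` of
`F_K(M q²)`; `ι3^ξ = Iota3.iota3` the middle-cusp embedding (`ξ ≠ 1`, `ξ ^ q = 1`).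

* `ringHom_ext_alphaK2`, `midEmb_unique`, `midEmb_eq_iota3` : a ring hom on `F_K(M q²)` is
  determined by its values on `α(F_K(M q))` and at `j_{q²}`; a `V3.MidEmb` is determined by `ξ`;
* `midEmb_wK2`, `iota3_wK2` : **(B1)** `ι^ξ (w x) = (Q ↦ ξ Q) (ι^{ξ'} x)` for `ξ ξ' = 1`;
* `gRel_midEmb_wK2_of_mul_eq_one` : Gauss relation along `ι^{ξ'}` at `x` gives the Gauss relation
  along `ι^ξ` at `w x`, same reduction (no hypothesis on `K`);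
* `gRel_iota3_wK2`, `gRel_iota3_wK2_iff`, `gRel_midEmb_wK2_iff` : **(B2)** Gauss relations along
  `ι^ξ` are `w`-invariant with the same reduction (`K` fixed by the inertia group of `A`);
* `wK2_mem_V_iff`, `red_wK2`, `hyp3_wK2_mem_iff`, `hyp3_red3_wK2`, `hyp3_comap_wK2`,
  `hyp3_wK2_congr*` : `W3` is `w`-stable and `w` acts trivially on its residue field;
* `iota3_toTop`, `iota3Bar_toBar`, `famBar_toBar`, `barToTop_wBar2`, `iota3Bar_wBar2`,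
  `gRel_famBar_toBar`, `gRel_famBar_wBar2`, `gRel_famBar_toBar_wK2` : the same at the `ℚ̄`-level,
  in the shape of the hypothesis `h3` of `NormFam.gRel_norm_beta_of_family_zero`,
  `Iota3K.gRel_norm_alpha`, `NormKMap.gRel_nmAlpha`, `NormKMap.gRel_wK_nmBeta`;
* `h2V_famBar`, `h2Vw_famBar`, `hyp3_h2V`, `hyp3_h2Vw` : the hypotheses `h2V`, `h2Vw` of
  `S36/NormCongInst` (`f := Iota3K.famBar`, `i₀ := 0`, `V 2 := W3`).
-/
import Mathlib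
import Fermat.Agent.S36.V3
import Fermat.Agent.S36.InertRot
import Fermat.Agent.S36.InertRotK

set_option autoImplicit false

noncomputable section

namespace Fermat.Agent.S36.W3SymB

open ModularCurve AlgebraicCurve HahnSeries
open Fermat.Agent.S18 Fermat.Agent.S18.Arith Fermat.Agent.S24

set_option synthInstance.maxHeartbeats 400000

/-! ### Roots of unity and rotations -/

section Roots

variable {q : ℕ}

theorem inv_pow_eq_one {ξ : Qb} (hξ : ξ ^ q = 1) : ξ⁻¹ ^ q = 1 := by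
  rw [inv_pow, hξ, inv_one]

theorem inv_ne_one_of_ne_one {ξ : Qb} (hξ1 : ξ ≠ 1) : ξ⁻¹ ≠ 1 :=
  fun h => hξ1 (inv_eq_one.mp h)

/-- For `q` prime, a `q`-th root of unity different from `1` is primitive. -/
theorem isPrimitiveRoot_of_prime (hq : q.Prime) {ξ : Qb} (hξ : ξ ^ q = 1) (hξ1 : ξ ≠ 1) :
    IsPrimitiveRoot ξ q := by
  have h := orderOf_dvd_of_pow_eq_one hξ
  rcases (Nat.dvd_prime hq).mp h with h1 | h1
  · exact absurd (orderOf_eq_one_iff.mp h1) hξ1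
  · rw [← h1]
    exact IsPrimitiveRoot.orderOf ξ

theorem rotHom_of_eq_one (a : Qb) (ha : a ≠ 0) (h : a = 1) (f : LaurentSeries Qb) :
    rotHom a ha f = f := by
  subst h
  exact rotHom_one f

theorem coeffEmb_jq : coeffEmb Qb jq = S28.jd Qb 1 := by
  rw [← S28.jd_rat_one, coeffEmb, S28.coeffMap_jd]

end Roots

/-! ### Dictionary `Iota3` ↔ `WQ2` -/

section Dict

variable (M q : ℕ) [NeZero M] [NeZero q] (K : IntermediateField ℚ Qb)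

/-- The inclusion of `S34/DegTower` is `α` of `S36/WQ2`. -/
theorem incl_eq_alphaK2 (x : FK (M * q) K) :
    S34.DegTower.incl (M * q) ((M * q) * q) K (Dvd.intro q rfl) x = WQ2.alphaK2 M q K x :=
  (V3.alphaK2_eq_incl M q K x).symm

variable (hq : q.Prime) (hqM : ¬ q ∣ M)

/-- `β` of `S36/Iota3` is `β` of `S36/WQ2`. -/
theorem betaQ_eq_betaK2 (x : FK (M * q) K) :
    Iota3.betaQ (M * q) K q x = WQ2.betaK2 M q hq hqM K x :=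
  (V3.betaK2_eq_betaQ M q hq hqM K x).symm

/-- `j_{q²}` of `S36/Iota3` is `j_{q²}` of `S36/WQ2`. -/
theorem jq2K_eq_jqqK2 : Iota3.jq2K M q K = WQ2.jqqK2 M q hq hqM K := by
  apply Subtype.ext
  rw [Iota3.coe_jq2K, WQ2.coe_jqqK2, coeffEmb_jq, S28.qExpand_jd, mul_one, S28.qExpand_jd]

/-- Two ring homs on `F_K(M q²)` agreeing on `α(F_K(M q))` and at `j_{q²}` are equal. -/
theorem ringHom_ext_alphaK2 (g₁ g₂ : FK (M * q * q) K →+* LaurentSeries Qb)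
    (h1 : ∀ x : FK (M * q) K, g₁ (WQ2.alphaK2 M q K x) = g₂ (WQ2.alphaK2 M q K x))
    (h2 : g₁ (WQ2.jqqK2 M q hq hqM K) = g₂ (WQ2.jqqK2 M q hq hqM K)) : g₁ = g₂ := by
  refine Iota3.ringHom_ext_E2 M q K hq hqM g₁ g₂ (fun x => ?_) ?_
  · rw [incl_eq_alphaK2]
    exact h1 x
  · rw [jq2K_eq_jqqK2 M q K hq hqM]
    exact h2

end Dict

/-! ### Abstract middle-cusp embeddings -/

section Mid

variable {M q : ℕ} [NeZero M] [NeZero q] {hq : q.Prime} {hqM : ¬ q ∣ M}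
variable {K : IntermediateField ℚ Qb}

/-- A middle-cusp embedding is determined by `ξ`. -/
theorem midEmb_unique {ξ : Qb} {hξ0 : ξ ≠ 0} {ι ι' : FK (M * q * q) K →+* LaurentSeries Qb}
    (h : V3.MidEmb M q hq hqM K ξ hξ0 ι) (h' : V3.MidEmb M q hq hqM K ξ hξ0 ι') : ι = ι' := by
  refine ringHom_ext_alphaK2 M q K hq hqM ι ι' (fun x => ?_) ?_
  · rw [h.alpha, h'.alpha]
  · rw [h.apply_jqqK2, h'.apply_jqqK2]

/-- Every middle-cusp embedding is the algebraic one of `S36/Iota3`. -/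
theorem midEmb_eq_iota3 {ξ : Qb} {hξ0 : ξ ≠ 0} {ι : FK (M * q * q) K →+* LaurentSeries Qb}
    (h : V3.MidEmb M q hq hqM K ξ hξ0 ι) (hξ : ξ ^ q = 1) (hξ1 : ξ ≠ 1) :
    ι = Iota3.iota3 M q K hq hqM ξ hξ hξ1 :=
  midEmb_unique h (V3.midEmb_iota3 M q hq hqM K ξ hξ hξ1)

/-- **(B1), abstract form**: `ι^ξ ∘ w_{q²} = (Q ↦ ξ Q) ∘ ι^{ξ'}` for `ξ ξ' = 1`. -/
theorem midEmb_wK2 {ξ ξ' : Qb} {hξ0 : ξ ≠ 0} {hξ0' : ξ' ≠ 0}
    {ι ι' : FK (M * q * q) K →+* LaurentSeries Qb}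
    (h : V3.MidEmb M q hq hqM K ξ hξ0 ι) (h' : V3.MidEmb M q hq hqM K ξ' hξ0' ι')
    (hmul : ξ * ξ' = 1) (x : FK (M * q * q) K) :
    ι (WQ2.wK2 M q hq hqM K x) = rotHom ξ hξ0 (ι' x) := by
  have key := ringHom_ext_alphaK2 M q K hq hqM
    (ι.comp ((WQ2.wK2 M q hq hqM K : FK (M * q * q) K ≃+* FK (M * q * q) K) :
      FK (M * q * q) K →+* FK (M * q * q) K))
    (((rotHom ξ hξ0).toRingHom).comp ι') (fun y => ?_) ?_
  · exact congrArg (fun g : FK (M * q * q) K →+* LaurentSeries Qb => g x) key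
  · show ι (WQ2.wK2 M q hq hqM K (WQ2.alphaK2 M q K y))
      = rotHom ξ hξ0 (ι' (WQ2.alphaK2 M q K y))
    rw [WQ2.wK2_alphaK2, h.beta, S34.WK.wK_wK, h'.alpha]
  · show ι (WQ2.wK2 M q hq hqM K (WQ2.jqqK2 M q hq hqM K))
      = rotHom ξ hξ0 (ι' (WQ2.jqqK2 M q hq hqM K))
    rw [WQ2.wK2_jqqK2, h.apply_jK, h'.apply_jqqK2, rotHom_rotHom,
      rotHom_of_eq_one _ _ hmul]

/-- Gauss relation along `ι^{ξ'}` at `x` gives the Gauss relation along `ι^ξ` at `w_{q²} x`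
(`ξ ξ' = 1`), with the same reduction.  No hypothesis on `K`. -/
theorem gRel_midEmb_wK2_of_mul_eq_one (A : ValuationSubring Qb) (hA : A.LiesOverPrime q)
    {ξ ξ' : Qb} {hξ0 : ξ ≠ 0} {hξ0' : ξ' ≠ 0}
    {ι ι' : FK (M * q * q) K →+* LaurentSeries Qb}
    (h : V3.MidEmb M q hq hqM K ξ hξ0 ι) (h' : V3.MidEmb M q hq hqM K ξ' hξ0' ι')
    (hmul : ξ * ξ' = 1) (hξ : ξ ^ q = 1) (x : FK (M * q * q) K)
    {r : LaurentSeries (IsLocalRing.ResidueField A)} (hx : GRel A (ι' x) r) :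
    GRel A (ι (WQ2.wK2 M q hq hqM K x)) r := by
  have : Fact q.Prime := ⟨hq⟩
  rw [midEmb_wK2 h h' hmul x]
  exact S34.ConjMod.gRel_rot q hA hξ hξ0 hx

end Mid

/-! ### `ι3` in the `WQ2` vocabulary, and `ι3 ∘ w_{q²}` -/

section Conc

variable (M q : ℕ) [NeZero M] [NeZero q] (K : IntermediateField ℚ Qb)
variable (hq : q.Prime) (hqM : ¬ q ∣ M)
variable (ξ : Qb) (hξ : ξ ^ q = 1) (hξ1 : ξ ≠ 1)

/-- `ι3 ∘ α = id` (coefficientwise). -/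
theorem iota3_alphaK2 (x : FK (M * q) K) :
    Iota3.iota3 M q K hq hqM ξ hξ hξ1 (WQ2.alphaK2 M q K x) = (x : LaurentSeries Qb) :=
  (V3.midEmb_iota3 M q hq hqM K ξ hξ hξ1).alpha x

/-- `ι3 ∘ β = (Q ↦ ξ Q) ∘ w_q`. -/
theorem iota3_betaK2 (x : FK (M * q) K) :
    Iota3.iota3 M q K hq hqM ξ hξ hξ1 (WQ2.betaK2 M q hq hqM K x)
      = rotHom ξ (Iota3.xi_ne_zero q hξ)
          ((S34.WK.wK M q hq hqM K x : FK (M * q) K) : LaurentSeries Qb) :=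
  (V3.midEmb_iota3 M q hq hqM K ξ hξ hξ1).beta x

/-- `ι3 (j_{q²}) = j(ξ Q)`. -/
theorem iota3_jqqK2 :
    Iota3.iota3 M q K hq hqM ξ hξ hξ1 (WQ2.jqqK2 M q hq hqM K)
      = rotHom ξ (Iota3.xi_ne_zero q hξ) (coeffEmb Qb jq) := by
  rw [← jq2K_eq_jqqK2 M q K hq hqM, Iota3.iota3_jq2K]

/-- `ι3 (j) = j(Q)`. -/
theorem iota3_jK :
    Iota3.iota3 M q K hq hqM ξ hξ hξ1 (jK ((M * q) * q) K) = coeffEmb Qb jq := by
  rw [(V3.midEmb_iota3 M q hq hqM K ξ hξ hξ1).apply_jK, coeffEmb_jq]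

/-- **(B1)** `ι3^ξ ∘ w_{q²} = (Q ↦ ξ Q) ∘ ι3^{ξ'}` for `ξ ξ' = 1`. -/
theorem iota3_wK2 (ξ' : Qb) (hξ' : ξ' ^ q = 1) (hξ1' : ξ' ≠ 1) (hmul : ξ * ξ' = 1)
    (x : FK ((M * q) * q) K) :
    Iota3.iota3 M q K hq hqM ξ hξ hξ1 (WQ2.wK2 M q hq hqM K x)
      = rotHom ξ (Iota3.xi_ne_zero q hξ) (Iota3.iota3 M q K hq hqM ξ' hξ' hξ1' x) :=
  midEmb_wK2 (V3.midEmb_iota3 M q hq hqM K ξ hξ hξ1) (V3.midEmb_iota3 M q hq hqM K ξ' hξ' hξ1')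
    hmul x

/-- **(B1)**, with `ξ' = ξ⁻¹`. -/
theorem iota3_wK2_inv (x : FK ((M * q) * q) K) :
    Iota3.iota3 M q K hq hqM ξ hξ hξ1 (WQ2.wK2 M q hq hqM K x)
      = rotHom ξ (Iota3.xi_ne_zero q hξ)
          (Iota3.iota3 M q K hq hqM ξ⁻¹ (inv_pow_eq_one hξ) (inv_ne_one_of_ne_one hξ1) x) :=
  iota3_wK2 M q K hq hqM ξ hξ hξ1 ξ⁻¹ _ _ (mul_inv_cancel₀ (Iota3.xi_ne_zero q hξ)) x

end Conc

/-! ### Gauss relations along `ι3` are `w_{q²}`-invariant -/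

section GRel

variable (M q : ℕ) [NeZero M] [NeZero q] (K : IntermediateField ℚ Qb)
variable (hq : q.Prime) (hqM : ¬ q ∣ M)
variable (A : ValuationSubring Qb)

/-- From `ι3^{ξ'} x` to `ι3^ξ (w_{q²} x)`, for ANY two roots `ξ, ξ' ≠ 1`, same reduction. -/
theorem gRel_iota3_wK2_of_gRel (hA : A.LiesOverPrime q)
    (hK : ∀ σ ∈ A.inertiaSubgroupIn ℚ, ∀ a ∈ K, σ a = a)
    {ξ ξ' : Qb} (hξ : ξ ^ q = 1) (hξ1 : ξ ≠ 1) (hξ' : ξ' ^ q = 1) (hξ1' : ξ' ≠ 1)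
    (x : FK ((M * q) * q) K) {r : LaurentSeries (IsLocalRing.ResidueField A)}
    (h : GRel A (Iota3.iota3 M q K hq hqM ξ' hξ' hξ1' x) r) :
    GRel A (Iota3.iota3 M q K hq hqM ξ hξ hξ1 (WQ2.wK2 M q hq hqM K x)) r := by
  have hp : IsPrimitiveRoot ξ q := isPrimitiveRoot_of_prime hq hξ hξ1
  have hp' : IsPrimitiveRoot ξ' q := isPrimitiveRoot_of_prime hq hξ' hξ1'
  have hinvq : ξ⁻¹ ^ q = 1 := inv_pow_eq_one hξ
  have hinv1 : ξ⁻¹ ≠ 1 := inv_ne_one_of_ne_one hξ1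
  have h1 := InertRot.gRel_iota3_of_isPrimitiveRoot M q K hq hqM A hA hK hp' hp.inv hξ' hξ1'
    hinvq hinv1 x h
  exact gRel_midEmb_wK2_of_mul_eq_one A hA (V3.midEmb_iota3 M q hq hqM K ξ hξ hξ1)
    (V3.midEmb_iota3 M q hq hqM K ξ⁻¹ hinvq hinv1) (mul_inv_cancel₀ (Iota3.xi_ne_zero q hξ))
    hξ x h1

/-- **(B2)** If `ι3^ξ x` is Gauss-integral with reduction `r`, so is `ι3^ξ (w_{q²} x)`, with
the SAME reduction (`K` fixed pointwise by the inertia group of `A`, `A` over `q`). -/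
theorem gRel_iota3_wK2 (hA : A.LiesOverPrime q)
    (hK : ∀ σ ∈ A.inertiaSubgroupIn ℚ, ∀ a ∈ K, σ a = a)
    {ξ : Qb} (_hξp : IsPrimitiveRoot ξ q) (hξ : ξ ^ q = 1) (hξ1 : ξ ≠ 1)
    (x : FK ((M * q) * q) K) {r : LaurentSeries (IsLocalRing.ResidueField A)}
    (h : GRel A (Iota3.iota3 M q K hq hqM ξ hξ hξ1 x) r) :
    GRel A (Iota3.iota3 M q K hq hqM ξ hξ hξ1 (WQ2.wK2 M q hq hqM K x)) r :=
  gRel_iota3_wK2_of_gRel M q K hq hqM A hA hK hξ hξ1 hξ hξ1 x h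

/-- **(B2)**, iff form: Gauss relations along `ι3^ξ` are invariant under `w_{q²}`. -/
theorem gRel_iota3_wK2_iff (hA : A.LiesOverPrime q)
    (hK : ∀ σ ∈ A.inertiaSubgroupIn ℚ, ∀ a ∈ K, σ a = a)
    {ξ : Qb} (hξp : IsPrimitiveRoot ξ q) (hξ : ξ ^ q = 1) (hξ1 : ξ ≠ 1)
    (x : FK ((M * q) * q) K) (r : LaurentSeries (IsLocalRing.ResidueField A)) :
    GRel A (Iota3.iota3 M q K hq hqM ξ hξ hξ1 (WQ2.wK2 M q hq hqM K x)) r
      ↔ GRel A (Iota3.iota3 M q K hq hqM ξ hξ hξ1 x) r := by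
  refine ⟨fun h => ?_, gRel_iota3_wK2 M q K hq hqM A hA hK hξp hξ hξ1 x⟩
  have h' := gRel_iota3_wK2 M q K hq hqM A hA hK hξp hξ hξ1 (WQ2.wK2 M q hq hqM K x) h
  rwa [WQ2.wK2_wK2] at h'

/-- `w_{q²} x ∈ W3 ↔ x ∈ W3`, in the membership form of `GaussE.V` along `ι3^ξ`. -/
theorem exists_gRel_iota3_wK2_iff (hA : A.LiesOverPrime q)
    (hK : ∀ σ ∈ A.inertiaSubgroupIn ℚ, ∀ a ∈ K, σ a = a)
    {ξ : Qb} (hξp : IsPrimitiveRoot ξ q) (hξ : ξ ^ q = 1) (hξ1 : ξ ≠ 1)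
    (x : FK ((M * q) * q) K) :
    (∃ r, GRel A (Iota3.iota3 M q K hq hqM ξ hξ hξ1 (WQ2.wK2 M q hq hqM K x)) r)
      ↔ ∃ r, GRel A (Iota3.iota3 M q K hq hqM ξ hξ hξ1 x) r :=
  exists_congr fun r => gRel_iota3_wK2_iff M q K hq hqM A hA hK hξp hξ hξ1 x r

variable {M q K hq hqM}

/-- **(B2), abstract form**: for ANY middle-cusp embedding `ι` (`V3.MidEmb`), Gauss relations
along `ι` are invariant under `w_{q²}`, with the same reduction. -/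
theorem gRel_midEmb_wK2_iff (hA : A.LiesOverPrime q)
    (hK : ∀ σ ∈ A.inertiaSubgroupIn ℚ, ∀ a ∈ K, σ a = a)
    {ξ : Qb} {hξ0 : ξ ≠ 0} {ι : FK (M * q * q) K →+* LaurentSeries Qb}
    (h : V3.MidEmb M q hq hqM K ξ hξ0 ι) (hξ : ξ ^ q = 1) (hξ1 : ξ ≠ 1)
    (x : FK (M * q * q) K) (r : LaurentSeries (IsLocalRing.ResidueField A)) :
    GRel A (ι (WQ2.wK2 M q hq hqM K x)) r ↔ GRel A (ι x) r := by
  rw [midEmb_eq_iota3 h hξ hξ1]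
  exact gRel_iota3_wK2_iff M q K hq hqM A hA hK (isPrimitiveRoot_of_prime hq hξ hξ1) hξ hξ1 x r

end GRel

/-! ### Consequences for `W3` -/

section W3

variable (M q : ℕ) [NeZero M] [NeZero q] (K : IntermediateField ℚ Qb)
variable (hq : q.Prime) (hqM : ¬ q ∣ M)
variable (A : ValuationSubring Qb)

/-- For ANY valuation subring `W` of `F_K(M q²)` whose membership is Gauss-integrality along
`ι3^ξ`: `w_{q²} x ∈ W ↔ x ∈ W`. -/
theorem wK2_mem_iff (hA : A.LiesOverPrime q)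
    (hK : ∀ σ ∈ A.inertiaSubgroupIn ℚ, ∀ a ∈ K, σ a = a)
    {ξ : Qb} (hξp : IsPrimitiveRoot ξ q) (hξ : ξ ^ q = 1) (hξ1 : ξ ≠ 1)
    (W : ValuationSubring (FK ((M * q) * q) K))
    (hW : ∀ x, x ∈ W ↔ ∃ r, GRel A (Iota3.iota3 M q K hq hqM ξ hξ hξ1 x) r)
    (x : FK ((M * q) * q) K) :
    WQ2.wK2 M q hq hqM K x ∈ W ↔ x ∈ W := by
  rw [hW, hW]
  exact exists_gRel_iota3_wK2_iff M q K hq hqM A hA hK hξp hξ hξ1 x

/-- `W3 ∘ w_{q²} = W3` as valuation subrings. -/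
theorem comap_wK2_eq (hA : A.LiesOverPrime q)
    (hK : ∀ σ ∈ A.inertiaSubgroupIn ℚ, ∀ a ∈ K, σ a = a)
    {ξ : Qb} (hξp : IsPrimitiveRoot ξ q) (hξ : ξ ^ q = 1) (hξ1 : ξ ≠ 1)
    (W : ValuationSubring (FK ((M * q) * q) K))
    (hW : ∀ x, x ∈ W ↔ ∃ r, GRel A (Iota3.iota3 M q K hq hqM ξ hξ hξ1 x) r) :
    W.comap ((WQ2.wK2 M q hq hqM K : FK (M * q * q) K ≃+* FK (M * q * q) K) :
      FK (M * q * q) K →+* FK (M * q * q) K) = W := by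
  ext x
  rw [ValuationSubring.mem_comap]
  exact wK2_mem_iff M q K hq hqM A hA hK hξp hξ hξ1 W hW x

/-- Congruences modulo `p · W3` are `w_{q²}`-invariant, for a `w_{q²}`-fixed modulus `p` and a
`w_{q²}`-fixed right-hand side `a`: `x ≡ a (p W3) ⇒ w x ≡ a (p W3)`. -/
theorem wK2_congr (hA : A.LiesOverPrime q)
    (hK : ∀ σ ∈ A.inertiaSubgroupIn ℚ, ∀ a ∈ K, σ a = a)
    {ξ : Qb} (hξp : IsPrimitiveRoot ξ q) (hξ : ξ ^ q = 1) (hξ1 : ξ ≠ 1)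
    (W : ValuationSubring (FK ((M * q) * q) K))
    (hW : ∀ x, x ∈ W ↔ ∃ r, GRel A (Iota3.iota3 M q K hq hqM ξ hξ hξ1 x) r)
    (p a : FK ((M * q) * q) K) (hp : WQ2.wK2 M q hq hqM K p = p)
    (ha : WQ2.wK2 M q hq hqM K a = a) (x : FK ((M * q) * q) K)
    (h : ∃ z ∈ W, x - a = p * z) :
    ∃ z ∈ W, WQ2.wK2 M q hq hqM K x - a = p * z := by
  obtain ⟨z, hz, hxz⟩ := h
  refine ⟨WQ2.wK2 M q hq hqM K z,
    (wK2_mem_iff M q K hq hqM A hA hK hξp hξ hξ1 W hW z).mpr hz, ?_⟩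
  have h1 := congrArg (WQ2.wK2 M q hq hqM K) hxz
  rwa [map_sub, map_mul, hp, ha] at h1

/-- The same for constants of `O = A ∩ K`: `x ≡ c (π W3) ⇒ w x ≡ c (π W3)`. -/
theorem wK2_congr_const (hA : A.LiesOverPrime q)
    (hK : ∀ σ ∈ A.inertiaSubgroupIn ℚ, ∀ a ∈ K, σ a = a)
    {ξ : Qb} (hξp : IsPrimitiveRoot ξ q) (hξ : ξ ^ q = 1) (hξ1 : ξ ≠ 1)
    (W : ValuationSubring (FK ((M * q) * q) K))
    (hW : ∀ x, x ∈ W ↔ ∃ r, GRel A (Iota3.iota3 M q K hq hqM ξ hξ hξ1 x) r)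
    (π c : OK A K) (x : FK ((M * q) * q) K)
    (h : ∃ z ∈ W, x - algebraMap (OK A K) (FK ((M * q) * q) K) c
      = algebraMap (OK A K) (FK ((M * q) * q) K) π * z) :
    ∃ z ∈ W, WQ2.wK2 M q hq hqM K x - algebraMap (OK A K) (FK ((M * q) * q) K) c
      = algebraMap (OK A K) (FK ((M * q) * q) K) π * z :=
  wK2_congr M q K hq hqM A hA hK hξp hξ hξ1 W hW _ _
    (WQ2.wK2_algebraMap_OK M q hq hqM K A π) (WQ2.wK2_algebraMap_OK M q hq hqM K A c) x h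

variable {M q K hq hqM A}
variable {K' : IntermediateField ℚ Qb} {ξ : Qb} {hξ0 : ξ ≠ 0}
variable {ι : FK (M * q * q) K →+* LaurentSeries Qb}

/-- `GaussE.V` form: the Gauss valuation ring along a middle-cusp embedding is `w_{q²}`-stable. -/
theorem wK2_mem_V_iff (hA : A.LiesOverPrime q)
    (hK : ∀ σ ∈ A.inertiaSubgroupIn ℚ, ∀ a ∈ K, σ a = a)
    (h : V3.MidEmb M q hq hqM K ξ hξ0 ι) (hξ : ξ ^ q = 1) (hξ1 : ξ ≠ 1)
    (hE : GaussE.Emb A K K' ι) (hdvr' : IsDiscreteValuationRing (OK A K'))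
    (x : FK (M * q * q) K) :
    WQ2.wK2 M q hq hqM K x ∈ GaussE.V hE hdvr' ↔ x ∈ GaussE.V hE hdvr' := by
  rw [GaussE.mem_V_iff, GaussE.mem_V_iff]
  exact exists_congr fun r => gRel_midEmb_wK2_iff A hA hK h hξ hξ1 x r

/-- `GaussE.red` form: `w_{q²}` acts trivially on the residue field. -/
theorem red_wK2 (hA : A.LiesOverPrime q)
    (hK : ∀ σ ∈ A.inertiaSubgroupIn ℚ, ∀ a ∈ K, σ a = a)
    (h : V3.MidEmb M q hq hqM K ξ hξ0 ι) (hξ : ξ ^ q = 1) (hξ1 : ξ ≠ 1)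
    (hE : GaussE.Emb A K K' ι) (hdvr' : IsDiscreteValuationRing (OK A K'))
    {x : FK (M * q * q) K} (hx : x ∈ GaussE.V hE hdvr')
    (hwx : WQ2.wK2 M q hq hqM K x ∈ GaussE.V hE hdvr') :
    GaussE.red hE hdvr' ⟨WQ2.wK2 M q hq hqM K x, hwx⟩ = GaussE.red hE hdvr' ⟨x, hx⟩ :=
  GaussE.red_eq_of_gRel hE hdvr' _
    ((gRel_midEmb_wK2_iff A hA hK h hξ hξ1 x _).mpr (GaussE.gRel_red hE hdvr' ⟨x, hx⟩))

variable {ϖ : OK A K'}

/-- **`W3` is `w_{q²}`-stable** (`V3.Hyp3` vocabulary). -/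
theorem hyp3_wK2_mem_iff (H : V3.Hyp3 M q hq hqM A K K' ξ hξ0 ι ϖ) (hA : A.LiesOverPrime q)
    (hK : ∀ σ ∈ A.inertiaSubgroupIn ℚ, ∀ a ∈ K, σ a = a) (x : FK (M * q * q) K) :
    WQ2.wK2 M q hq hqM K x ∈ H.W3 ↔ x ∈ H.W3 :=
  wK2_mem_V_iff hA hK H.mid H.xi_pow H.xi_ne H.emb H.dvr' x

theorem hyp3_wK2_mem (H : V3.Hyp3 M q hq hqM A K K' ξ hξ0 ι ϖ) (hA : A.LiesOverPrime q)
    (hK : ∀ σ ∈ A.inertiaSubgroupIn ℚ, ∀ a ∈ K, σ a = a) {x : FK (M * q * q) K}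
    (hx : x ∈ H.W3) : WQ2.wK2 M q hq hqM K x ∈ H.W3 :=
  (hyp3_wK2_mem_iff H hA hK x).mpr hx

/-- `W3 ∘ w_{q²} = W3`. -/
theorem hyp3_comap_wK2 (H : V3.Hyp3 M q hq hqM A K K' ξ hξ0 ι ϖ) (hA : A.LiesOverPrime q)
    (hK : ∀ σ ∈ A.inertiaSubgroupIn ℚ, ∀ a ∈ K, σ a = a) :
    H.W3.comap ((WQ2.wK2 M q hq hqM K : FK (M * q * q) K ≃+* FK (M * q * q) K) :
      FK (M * q * q) K →+* FK (M * q * q) K) = H.W3 := by
  ext x
  rw [ValuationSubring.mem_comap]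
  exact hyp3_wK2_mem_iff H hA hK x

/-- **`red3 (w_{q²} x) = red3 x`**: `w_{q²}` acts trivially on the residue field of `W3`. -/
theorem hyp3_red3_wK2 (H : V3.Hyp3 M q hq hqM A K K' ξ hξ0 ι ϖ) (hA : A.LiesOverPrime q)
    (hK : ∀ σ ∈ A.inertiaSubgroupIn ℚ, ∀ a ∈ K, σ a = a) {x : FK (M * q * q) K}
    (hx : x ∈ H.W3) (hwx : WQ2.wK2 M q hq hqM K x ∈ H.W3) :
    H.red3 ⟨WQ2.wK2 M q hq hqM K x, hwx⟩ = H.red3 ⟨x, hx⟩ :=
  red_wK2 hA hK H.mid H.xi_pow H.xi_ne H.emb H.dvr' hx hwx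

/-- `GRel` form of the same. -/
theorem hyp3_gRel_wK2_iff (H : V3.Hyp3 M q hq hqM A K K' ξ hξ0 ι ϖ) (hA : A.LiesOverPrime q)
    (hK : ∀ σ ∈ A.inertiaSubgroupIn ℚ, ∀ a ∈ K, σ a = a) (x : FK (M * q * q) K)
    (r : LaurentSeries (IsLocalRing.ResidueField A)) :
    GRel A (ι (WQ2.wK2 M q hq hqM K x)) r ↔ GRel A (ι x) r :=
  gRel_midEmb_wK2_iff A hA hK H.mid H.xi_pow H.xi_ne x r

/-- Congruences modulo `p · W3`, `p` and `a` fixed by `w_{q²}`. -/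
theorem hyp3_wK2_congr (H : V3.Hyp3 M q hq hqM A K K' ξ hξ0 ι ϖ) (hA : A.LiesOverPrime q)
    (hK : ∀ σ ∈ A.inertiaSubgroupIn ℚ, ∀ a ∈ K, σ a = a)
    (p a : FK (M * q * q) K) (hp : WQ2.wK2 M q hq hqM K p = p)
    (ha : WQ2.wK2 M q hq hqM K a = a) (x : FK (M * q * q) K)
    (h : ∃ z ∈ H.W3, x - a = p * z) :
    ∃ z ∈ H.W3, WQ2.wK2 M q hq hqM K x - a = p * z := by
  obtain ⟨z, hz, hxz⟩ := h
  refine ⟨WQ2.wK2 M q hq hqM K z, hyp3_wK2_mem H hA hK hz, ?_⟩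
  have h1 := congrArg (WQ2.wK2 M q hq hqM K) hxz
  rwa [map_sub, map_mul, hp, ha] at h1

/-- Congruences modulo `π · W3` to a constant of `O = A ∩ K`. -/
theorem hyp3_wK2_congr_const (H : V3.Hyp3 M q hq hqM A K K' ξ hξ0 ι ϖ)
    (hA : A.LiesOverPrime q) (hK : ∀ σ ∈ A.inertiaSubgroupIn ℚ, ∀ a ∈ K, σ a = a)
    (π c : OK A K) (x : FK (M * q * q) K)
    (h : ∃ z ∈ H.W3, x - algebraMap (OK A K) (FK (M * q * q) K) c
      = algebraMap (OK A K) (FK (M * q * q) K) π * z) :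
    ∃ z ∈ H.W3, WQ2.wK2 M q hq hqM K x - algebraMap (OK A K) (FK (M * q * q) K) c
      = algebraMap (OK A K) (FK (M * q * q) K) π * z :=
  hyp3_wK2_congr H hA hK _ _ (WQ2.wK2_algebraMap_OK M q hq hqM K A π)
    (WQ2.wK2_algebraMap_OK M q hq hqM K A c) x h

/-- Congruences modulo the maximal ideal `s · W3` (`s = j_{q²} - j`, `w_{q²} s = -s`). -/
theorem hyp3_wK2_congr_sE (H : V3.Hyp3 M q hq hqM A K K' ξ hξ0 ι ϖ) (hA : A.LiesOverPrime q)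
    (hK : ∀ σ ∈ A.inertiaSubgroupIn ℚ, ∀ a ∈ K, σ a = a)
    (a : FK (M * q * q) K) (ha : WQ2.wK2 M q hq hqM K a = a) (x : FK (M * q * q) K)
    (h : ∃ z ∈ H.W3, x - a = Wit3.sE M q hq hqM K * z) :
    ∃ z ∈ H.W3, WQ2.wK2 M q hq hqM K x - a = Wit3.sE M q hq hqM K * z := by
  obtain ⟨z, hz, hxz⟩ := h
  refine ⟨-WQ2.wK2 M q hq hqM K z, H.W3.neg_mem _ (hyp3_wK2_mem H hA hK hz), ?_⟩
  have h1 := congrArg (WQ2.wK2 M q hq hqM K) hxz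
  rw [map_sub, map_mul, Wit3.wK2_sE, ha] at h1
  rw [h1]
  ring

end W3

/-! ### The `ℚ̄`-level: `iota3Bar`, `famBar` and `wBar2` -/

section Bar

variable (M q : ℕ) [NeZero M] [NeZero q] (K : IntermediateField ℚ Qb)
variable (hq : q.Prime) (hqM : ¬ q ∣ M)

/-- The inclusion `F_K(N) → F_{ℚ̄}(N)`. -/
def toTop (N : ℕ) [NeZero N] : FK N K →+* FK N (⊤ : IntermediateField ℚ Qb) :=
  (Iota3.barToTop N).comp (S18.Glob.toBar N K)

theorem coe_toTop (N : ℕ) [NeZero N] (x : FK N K) :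
    ((toTop K N x : FK N (⊤ : IntermediateField ℚ Qb)) : LaurentSeries Qb)
      = (x : LaurentSeries Qb) := by
  rw [toTop, RingHom.comp_apply, Iota3.coe_barToTop, S18.Glob.coe_toBar]

variable (ξ : Qb) (hξ : ξ ^ q = 1) (hξ1 : ξ ≠ 1)

/-- **`ι3` does not depend on `K`**: the middle-cusp embedding over `ℚ̄` restricts to the one
over `K`. -/
theorem iota3_toTop (x : FK ((M * q) * q) K) :
    Iota3.iota3 M q (⊤ : IntermediateField ℚ Qb) hq hqM ξ hξ hξ1 (toTop K ((M * q) * q) x)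
      = Iota3.iota3 M q K hq hqM ξ hξ hξ1 x := by
  have key := Iota3.ringHom_ext_E2 M q K hq hqM
    ((Iota3.iota3 M q (⊤ : IntermediateField ℚ Qb) hq hqM ξ hξ hξ1).comp
      (toTop K ((M * q) * q)))
    (Iota3.iota3 M q K hq hqM ξ hξ hξ1) (fun y => ?_) ?_
  · exact congrArg (fun g : FK ((M * q) * q) K →+* LaurentSeries Qb => g x) key
  · have e : toTop K ((M * q) * q)
          (S34.DegTower.incl (M * q) ((M * q) * q) K (Dvd.intro q rfl) y)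
        = S34.DegTower.incl (M * q) ((M * q) * q) (⊤ : IntermediateField ℚ Qb)
          (Dvd.intro q rfl) (toTop K (M * q) y) := by
      apply Subtype.ext
      rw [coe_toTop, S34.DegTower.coe_incl, S34.DegTower.coe_incl, coe_toTop]
    rw [RingHom.comp_apply, e, Iota3.iota3_incl, Iota3.iota3_incl, coe_toTop]
  · have e : toTop K ((M * q) * q) (Iota3.jq2K M q K)
        = Iota3.jq2K M q (⊤ : IntermediateField ℚ Qb) := by
      apply Subtype.ext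
      rw [coe_toTop, Iota3.coe_jq2K, Iota3.coe_jq2K]
    rw [RingHom.comp_apply, e, Iota3.iota3_jq2K, Iota3.iota3_jq2K]

/-- `iota3Bar` on (the image of) `F_K` is `iota3` over `K`. -/
theorem iota3Bar_toBar (x : FK ((M * q) * q) K) :
    Iota3K.iota3Bar M q hq hqM ξ hξ hξ1 (S18.Glob.toBar (M * q * q) K x)
      = Iota3.iota3 M q K hq hqM ξ hξ hξ1 x :=
  iota3_toTop M q K hq hqM ξ hξ hξ1 x

/-- `famBar` on (the image of) `F_K` is `emb3` over `K`. -/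
theorem famBar_toBar (ζ : Qb) (hζ : IsPrimitiveRoot ζ q) (c : Fin q)
    (x : FK ((M * q) * q) K) :
    Iota3K.famBar M q hq hqM ζ hζ c (S18.Glob.toBar (M * q * q) K x)
      = Iota3K.emb3 M q K hq hqM ζ hζ c x := by
  by_cases h : (c : ℕ) = 0
  · rw [Iota3K.famBar_of_eq M q hq hqM ζ hζ c h, Iota3K.emb3_of_eq M q K hq hqM ζ hζ c h,
      S18.Glob.coe_toBar]
  · rw [Iota3K.famBar_of_ne M q hq hqM ζ hζ c h, Iota3K.emb3_of_ne M q K hq hqM ζ hζ c h]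
    exact iota3Bar_toBar M q K hq hqM _ _ _ x

/-- `w_{q²}` of `F̄` and of `F_{ℚ̄}` agree. -/
theorem barToTop_wBar2 (z : ↥(modularFunctionFieldBar (M * q * q))) :
    Iota3.barToTop (M * q * q) (WQ2.wBar2 M q hq hqM z)
      = WQ2.wK2 M q hq hqM (⊤ : IntermediateField ℚ Qb) (Iota3.barToTop (M * q * q) z) := by
  apply (S18.Glob.toBar (M * q * q) (⊤ : IntermediateField ℚ Qb)).injective
  rw [WQ2.toBar_wK2]
  have e : ∀ y : ↥(modularFunctionFieldBar (M * q * q)),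
      S18.Glob.toBar (M * q * q) (⊤ : IntermediateField ℚ Qb) (Iota3.barToTop (M * q * q) y)
        = y := fun y => Subtype.ext rfl
  rw [e, e]

/-- **(B1) at the `ℚ̄`-level**: `ι3^ξ ∘ w_{q²} = (Q ↦ ξ Q) ∘ ι3^{ξ'}` on `F̄_{M q²}`
(`ξ ξ' = 1`). -/
theorem iota3Bar_wBar2 (ξ' : Qb) (hξ' : ξ' ^ q = 1) (hξ1' : ξ' ≠ 1) (hmul : ξ * ξ' = 1)
    (z : ↥(modularFunctionFieldBar (M * q * q))) :
    Iota3K.iota3Bar M q hq hqM ξ hξ hξ1 (WQ2.wBar2 M q hq hqM z)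
      = rotHom ξ (Iota3.xi_ne_zero q hξ) (Iota3K.iota3Bar M q hq hqM ξ' hξ' hξ1' z) := by
  show Iota3.iota3 M q (⊤ : IntermediateField ℚ Qb) hq hqM ξ hξ hξ1
      (Iota3.barToTop (M * q * q) (WQ2.wBar2 M q hq hqM z))
    = rotHom ξ (Iota3.xi_ne_zero q hξ)
      (Iota3.iota3 M q (⊤ : IntermediateField ℚ Qb) hq hqM ξ' hξ' hξ1'
        (Iota3.barToTop (M * q * q) z))
  rw [barToTop_wBar2, iota3_wK2 M q _ hq hqM ξ hξ hξ1 ξ' hξ' hξ1' hmul]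

variable (A : ValuationSubring Qb)

/-- The hypothesis `h3` of `Iota3K.gRel_norm_alpha` (the `α`-rule) from ONE Gauss relation
along a middle-cusp embedding over `K`. -/
theorem gRel_famBar_toBar (hA : A.LiesOverPrime q)
    (hK : ∀ σ ∈ A.inertiaSubgroupIn ℚ, ∀ a ∈ K, σ a = a)
    {ξ₀ : Qb} (hξq : ξ₀ ^ q = 1) (hξ01 : ξ₀ ≠ 1) {ζ : Qb} (hζ : IsPrimitiveRoot ζ q)
    (x : FK ((M * q) * q) K) {r : LaurentSeries (IsLocalRing.ResidueField A)}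
    (h : GRel A (Iota3.iota3 M q K hq hqM ξ₀ hξq hξ01 x) r) (c : Fin q) (hc : c ≠ 0) :
    GRel A (Iota3K.famBar M q hq hqM ζ hζ c (S18.Glob.toBar (M * q * q) K x)) r := by
  have hc' : (c : ℕ) ≠ 0 := fun h0 => hc (Fin.ext (by rw [h0]; rfl))
  rw [famBar_toBar]
  exact InertRotK.gRel_emb3_of_gRel_iota3 M q K hq hqM A hA hK
    (isPrimitiveRoot_of_prime hq hξq hξ01) hξq hξ01 hζ c hc' x h

/-- **The hypothesis `h3` of `NormFam.gRel_norm_beta_of_family_zero`** (the `β`-twin, with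
`f := Iota3K.famBar`, `w₂ := WQ2.wBar2`, `z := toBar x`, `i₀ := 0`) from ONE Gauss relation
along a middle-cusp embedding over `K`: all conjugates of `w_{q²} x` have the reduction of
`ι3 x`. -/
theorem gRel_famBar_wBar2 (hA : A.LiesOverPrime q)
    (hK : ∀ σ ∈ A.inertiaSubgroupIn ℚ, ∀ a ∈ K, σ a = a)
    {ξ₀ : Qb} (hξq : ξ₀ ^ q = 1) (hξ01 : ξ₀ ≠ 1) {ζ : Qb} (hζ : IsPrimitiveRoot ζ q)
    (x : FK ((M * q) * q) K) {r : LaurentSeries (IsLocalRing.ResidueField A)}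
    (h : GRel A (Iota3.iota3 M q K hq hqM ξ₀ hξq hξ01 x) r) (c : Fin q) (hc : c ≠ 0) :
    GRel A (Iota3K.famBar M q hq hqM ζ hζ c
      (WQ2.wBar2 M q hq hqM (S18.Glob.toBar (M * q * q) K x))) r := by
  rw [← WQ2.toBar_wK2]
  exact gRel_famBar_toBar M q K hq hqM A hA hK hξq hξ01 hζ _
    (gRel_iota3_wK2 M q K hq hqM A hA hK (isPrimitiveRoot_of_prime hq hξq hξ01) hξq hξ01 x h)
    c hc

/-- The hypothesis `h3` of `NormKMap.gRel_wK_nmBeta` (same statement as `gRel_famBar_wBar2`,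
with `toBar (w_{q²} x)` instead of `w_{q²} (toBar x)`). -/
theorem gRel_famBar_toBar_wK2 (hA : A.LiesOverPrime q)
    (hK : ∀ σ ∈ A.inertiaSubgroupIn ℚ, ∀ a ∈ K, σ a = a)
    {ξ₀ : Qb} (hξq : ξ₀ ^ q = 1) (hξ01 : ξ₀ ≠ 1) {ζ : Qb} (hζ : IsPrimitiveRoot ζ q)
    (x : FK ((M * q) * q) K) {r : LaurentSeries (IsLocalRing.ResidueField A)}
    (h : GRel A (Iota3.iota3 M q K hq hqM ξ₀ hξq hξ01 x) r) (c : Fin q) (hc : c ≠ 0) :
    GRel A (Iota3K.famBar M q hq hqM ζ hζ c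
      (S18.Glob.toBar (M * q * q) K (WQ2.wK2 M q hq hqM K x))) r :=
  gRel_famBar_toBar M q K hq hqM A hA hK hξq hξ01 hζ _
    (gRel_iota3_wK2 M q K hq hqM A hA hK (isPrimitiveRoot_of_prime hq hξq hξ01) hξq hξ01 x h)
    c hc

/-- **The hypothesis `h2V` of `S36/NormCongInst`** (`f := Iota3K.famBar`, `i₀ := 0`) for any
valuation subring `W` whose membership is Gauss-integrality along ONE `ι3^{ξ₀}`. -/
theorem h2V_famBar (hA : A.LiesOverPrime q)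
    (hK : ∀ σ ∈ A.inertiaSubgroupIn ℚ, ∀ a ∈ K, σ a = a)
    {ξ₀ : Qb} (hξq : ξ₀ ^ q = 1) (hξ01 : ξ₀ ≠ 1) {ζ : Qb} (hζ : IsPrimitiveRoot ζ q)
    (W : ValuationSubring (FK ((M * q) * q) K))
    (hW : ∀ x, x ∈ W ↔ ∃ r, GRel A (Iota3.iota3 M q K hq hqM ξ₀ hξq hξ01 x) r) :
    ∀ z ∈ W, ∀ s, s ≠ (0 : Fin q) →
      Iota3K.famBar M q hq hqM ζ hζ s (S18.Glob.toBar (M * q * q) K z)
        ∈ S34.ConjMod.gaussRing A := by
  intro z hz s hs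
  obtain ⟨r, hr⟩ := (hW z).mp hz
  exact ⟨r, gRel_famBar_toBar M q K hq hqM A hA hK hξq hξ01 hζ z hr s hs⟩

/-- **The hypothesis `h2Vw` of `S36/NormCongInst`** (`f := Iota3K.famBar`, `i₀ := 0`) for any
valuation subring `W` whose membership is Gauss-integrality along ONE `ι3^{ξ₀}`. -/
theorem h2Vw_famBar (hA : A.LiesOverPrime q)
    (hK : ∀ σ ∈ A.inertiaSubgroupIn ℚ, ∀ a ∈ K, σ a = a)
    {ξ₀ : Qb} (hξq : ξ₀ ^ q = 1) (hξ01 : ξ₀ ≠ 1) {ζ : Qb} (hζ : IsPrimitiveRoot ζ q)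
    (W : ValuationSubring (FK ((M * q) * q) K))
    (hW : ∀ x, x ∈ W ↔ ∃ r, GRel A (Iota3.iota3 M q K hq hqM ξ₀ hξq hξ01 x) r) :
    ∀ z ∈ W, ∀ s, s ≠ (0 : Fin q) →
      Iota3K.famBar M q hq hqM ζ hζ s
        (S18.Glob.toBar (M * q * q) K (WQ2.wK2 M q hq hqM K z)) ∈ S34.ConjMod.gaussRing A := by
  intro z hz s hs
  obtain ⟨r, hr⟩ := (hW z).mp hz
  exact ⟨r, gRel_famBar_toBar_wK2 M q K hq hqM A hA hK hξq hξ01 hζ z hr s hs⟩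

variable {M q K hq hqM A} in
/-- `h2V` of `S36/NormCongInst` for `V 2 = H.W3` (`V3.Hyp3` vocabulary). -/
theorem hyp3_h2V {K' : IntermediateField ℚ Qb} {ξ₀ : Qb} {hξ0 : ξ₀ ≠ 0}
    {ι : FK (M * q * q) K →+* LaurentSeries Qb} {ϖ : OK A K'}
    (H : V3.Hyp3 M q hq hqM A K K' ξ₀ hξ0 ι ϖ) (hA : A.LiesOverPrime q)
    (hK : ∀ σ ∈ A.inertiaSubgroupIn ℚ, ∀ a ∈ K, σ a = a) {ζ : Qb} (hζ : IsPrimitiveRoot ζ q) :
    ∀ z ∈ H.W3, ∀ s, s ≠ (0 : Fin q) →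
      Iota3K.famBar M q hq hqM ζ hζ s (S18.Glob.toBar (M * q * q) K z)
        ∈ S34.ConjMod.gaussRing A := by
  intro z hz s hs
  obtain ⟨r, hr⟩ := H.mem_W3_iff.mp hz
  rw [midEmb_eq_iota3 H.mid H.xi_pow H.xi_ne] at hr
  exact ⟨r, gRel_famBar_toBar M q K hq hqM A hA hK H.xi_pow H.xi_ne hζ z hr s hs⟩

variable {M q K hq hqM A} in
/-- `h2Vw` of `S36/NormCongInst` for `V 2 = H.W3` (`V3.Hyp3` vocabulary). -/
theorem hyp3_h2Vw {K' : IntermediateField ℚ Qb} {ξ₀ : Qb} {hξ0 : ξ₀ ≠ 0}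
    {ι : FK (M * q * q) K →+* LaurentSeries Qb} {ϖ : OK A K'}
    (H : V3.Hyp3 M q hq hqM A K K' ξ₀ hξ0 ι ϖ) (hA : A.LiesOverPrime q)
    (hK : ∀ σ ∈ A.inertiaSubgroupIn ℚ, ∀ a ∈ K, σ a = a) {ζ : Qb} (hζ : IsPrimitiveRoot ζ q) :
    ∀ z ∈ H.W3, ∀ s, s ≠ (0 : Fin q) →
      Iota3K.famBar M q hq hqM ζ hζ s
        (S18.Glob.toBar (M * q * q) K (WQ2.wK2 M q hq hqM K z)) ∈ S34.ConjMod.gaussRing A := by
  intro z hz s hs
  obtain ⟨r, hr⟩ := H.mem_W3_iff.mp hz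
  rw [midEmb_eq_iota3 H.mid H.xi_pow H.xi_ne] at hr
  exact ⟨r, gRel_famBar_toBar_wK2 M q K hq hqM A hA hK H.xi_pow H.xi_ne hζ z hr s hs⟩

/-- **(B2) at the `ℚ̄`-level**, for `z ∈ F̄_{M q²}` with `q`-expansion in `F_K(M q²)`. -/
theorem gRel_iota3Bar_wBar2_iff (hA : A.LiesOverPrime q)
    (hK : ∀ σ ∈ A.inertiaSubgroupIn ℚ, ∀ a ∈ K, σ a = a)
    (z : ↥(modularFunctionFieldBar (M * q * q)))
    (hz : (z : LaurentSeries Qb) ∈ FK (M * q * q) K)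
    (r : LaurentSeries (IsLocalRing.ResidueField A)) :
    GRel A (Iota3K.iota3Bar M q hq hqM ξ hξ hξ1 (WQ2.wBar2 M q hq hqM z)) r
      ↔ GRel A (Iota3K.iota3Bar M q hq hqM ξ hξ hξ1 z) r := by
  obtain ⟨x, rfl⟩ : ∃ x : FK (M * q * q) K, S18.Glob.toBar (M * q * q) K x = z :=
    ⟨⟨(z : LaurentSeries Qb), hz⟩, Subtype.ext rfl⟩
  rw [← WQ2.toBar_wK2, iota3Bar_toBar, iota3Bar_toBar]
  exact gRel_iota3_wK2_iff M q K hq hqM A hA hK (isPrimitiveRoot_of_prime hq hξ hξ1) hξ hξ1 _ r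

end Bar

end Fermat.Agent.S36.W3SymB
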