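/-
S36 — Wit3W3Add.lean (helper6; block [MODEL3], leaf [M3.4], W3 half, ADDENDUM to
`S36/Wit3W3.lean`).

Same setting: an abstract expansion `E : F_K(M q q) →+* ℚ̄((Q))` and a valuation subring `W3` with
`x ∈ W3 ↔ E x` Gauss-integral.  Further facts in the shapes asked by the consumers
(`NValChart.Wit`, `Model3Plan.ValHyp3`):

* `const_mem3`, `pi_nonunit3`      : constants of `O` lie in `W3`; a nonunit `π` of `O` is a
                                     nonunit of `W3`;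
* `j_unit3`, `jq_unit3`, `jqq_unit3` : `j`, `jq`, `jqq` are units of `W3`;
* `x3_ne_zero3`                    : `x3 ≠ 0`;
* `x1_pi_inv_mem3`, `x2_pi_inv_mem3` : the forms `x * π⁻¹ ∈ W3`.
-/
import Mathlib
import Fermat.Agent.S36.Wit3W3

set_option autoImplicit false
set_option linter.unusedSectionVars false

noncomputable section

namespace Fermat.Agent.S36.Wit3W3Add

open ModularCurve HahnSeries Fermat.Agent.S18 Fermat.Agent.S18.Arith Fermat.Agent.S18.ModelPlan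
open Fermat.Agent Fermat.Agent.S34 Fermat.Agent.S36.Wit3W3

variable (M q : ℕ) [NeZero M] [NeZero q] (hq : q.Prime) (hqM : ¬ q ∣ M)
variable (A : ValuationSubring Qb) (K : IntermediateField ℚ Qb)
variable (E : FK (M * q * q) K →+* LaurentSeries Qb) {ξ : Qb} (hξ0 : ξ ≠ 0)
variable (W3 : ValuationSubring (FK (M * q * q) K))

/-- Constants of `O = A ∩ K` lie in `W3`. -/
theorem const_mem3
    (hEc : ∀ c : OK A K, E (algebraMap (OK A K) (FK (M * q * q) K) c)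
      = (C (incO A K c) : LaurentSeries Qb))
    (hW3 : ∀ x : FK (M * q * q) K, x ∈ W3 ↔ ∃ y, GRel A (E x) y) (c : OK A K) :
    algebraMap (OK A K) (FK (M * q * q) K) c ∈ W3 := by
  refine (hW3 _).mpr ⟨C (resO A K c), ?_⟩
  rw [hEc]
  exact ModelRed.gRel_const K (V12Rel.gFacts A) c

/-- A nonunit of `O` is a nonunit of `W3`. -/
theorem pi_nonunit3 {π : OK A K} (hπ : ¬ IsUnit π)
    (hEc : ∀ c : OK A K, E (algebraMap (OK A K) (FK (M * q * q) K) c)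
      = (C (incO A K c) : LaurentSeries Qb))
    (hW3 : ∀ x : FK (M * q * q) K, x ∈ W3 ↔ ∃ y, GRel A (E x) y) :
    algebraMap (OK A K) (FK (M * q * q) K) π ∈ W3.nonunits := by
  refine nonunit3_of_gRel_zero hW3 ?_
  rw [hEc]
  exact ModelRed.gRel_pi (V12Rel.gFacts A) π hπ

/-- `j` is a unit of `W3`. -/
theorem j_unit3 (hEj : E (jK (M * q * q) K) = jqModC Qb)
    (hW3 : ∀ x : FK (M * q * q) K, x ∈ W3 ↔ ∃ y, GRel A (E x) y) :
    jK (M * q * q) K ∈ W3 ∧ (jK (M * q * q) K)⁻¹ ∈ W3 := by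
  refine unit3_of_gRel hW3 (y := jqModC (IsLocalRing.ResidueField A)) ?_
    (V12Rel.jqModC_ne_zero _)
  rw [hEj]
  exact V12Rel.gRel_j A

/-- `jq` is a unit of `W3`. -/
theorem jq_unit3 (hEjq : E (WQ2.jqK2 M q hq hqM K) = qExpand Qb q (jqModC Qb))
    (hW3 : ∀ x : FK (M * q * q) K, x ∈ W3 ↔ ∃ y, GRel A (E x) y) :
    WQ2.jqK2 M q hq hqM K ∈ W3 ∧ (WQ2.jqK2 M q hq hqM K)⁻¹ ∈ W3 := by
  refine unit3_of_gRel hW3
    (y := qExpand (IsLocalRing.ResidueField A) q (jqModC (IsLocalRing.ResidueField A))) ?_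
    (V12Rel.qExpand_jqModC_ne_zero _ q)
  rw [hEjq]
  exact V12Rel.gRel_jd A q

/-- `jqq` is a unit of `W3`. -/
theorem jqq_unit3 (hA : A.LiesOverPrime q) (hξ : IsPrimitiveRoot ξ q)
    (hEjqq : E (WQ2.jqqK2 M q hq hqM K) = S24.rotHom ξ hξ0 (jqModC Qb))
    (hW3 : ∀ x : FK (M * q * q) K, x ∈ W3 ↔ ∃ y, GRel A (E x) y) :
    WQ2.jqqK2 M q hq hqM K ∈ W3 ∧ (WQ2.jqqK2 M q hq hqM K)⁻¹ ∈ W3 := by
  have : Fact q.Prime := ⟨hq⟩
  refine unit3_of_gRel hW3 (y := jqModC (IsLocalRing.ResidueField A)) ?_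
    (V12Rel.jqModC_ne_zero _)
  rw [hEjqq]
  exact Wit3Xi.gRel_jxi A q hA hξ hξ0

/-- `x3 ≠ 0`. -/
theorem x3_ne_zero3 (hA : A.LiesOverPrime q) (hξ : IsPrimitiveRoot ξ q)
    (hEj : E (jK (M * q * q) K) = jqModC Qb)
    (hEjqq : E (WQ2.jqqK2 M q hq hqM K) = S24.rotHom ξ hξ0 (jqModC Qb)) :
    Wit3.x3 M q hq hqM K ≠ 0 := by
  have : Fact q.Prime := ⟨hq⟩
  have hG := V12Rel.gFacts A
  have h := hG.mul _ _ _ _ (Wit3Xi.gRel_x3_left A q hA hξ hξ0)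
    (Wit3Xi.gRel_x3_right A q hA hξ hξ0)
  rw [← E_x3 M q hq hqM K E hξ0 hEj hEjqq] at h
  intro h0
  rw [h0, map_zero] at h
  have h1 := hG.of_int 0
  rw [map_zero, map_zero] at h1
  exact mul_ne_zero (Wit3Xi.jbar_sub_pow_ne_zero A q hA) (Wit3Xi.jbar_sub_pow_ne_zero A q hA)
    (hG.unique _ _ _ h h1)

/-- **(W3)** `x2 * π⁻¹ ∈ W3`. -/
theorem x2_pi_inv_mem3 (hdvr : IsDiscreteValuationRing (OK A K)) (hA : A.LiesOverPrime q)
    {π : OK A K} (hπ : Irreducible π)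
    (hEj : E (jK (M * q * q) K) = jqModC Qb)
    (hEjq : E (WQ2.jqK2 M q hq hqM K) = qExpand Qb q (jqModC Qb))
    (hEc : ∀ c : OK A K, E (algebraMap (OK A K) (FK (M * q * q) K) c)
      = (C (incO A K c) : LaurentSeries Qb))
    (hW3 : ∀ x : FK (M * q * q) K, x ∈ W3 ↔ ∃ y, GRel A (E x) y) :
    Wit3.x2 M q hq hqM K * (algebraMap (OK A K) (FK (M * q * q) K) π)⁻¹ ∈ W3 := by
  obtain ⟨z, hz, hxz⟩ := x2_pi3 M q hq hqM A K E W3 hdvr hA hπ hEj hEjq hEc hW3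
  have hπF : algebraMap (OK A K) (FK (M * q * q) K) π ≠ 0 :=
    GaussV.algebraMap_ne_zero (M * q * q) A K hπ.ne_zero
  have e : Wit3.x2 M q hq hqM K * (algebraMap (OK A K) (FK (M * q * q) K) π)⁻¹ = z := by
    rw [hxz]
    exact (mul_right_comm _ z _).trans (by rw [mul_inv_cancel₀ hπF, one_mul])
  exact e ▸ hz

/-- **(W3)** `x1 * π⁻¹ ∈ W3`. -/
theorem x1_pi_inv_mem3 (hdvr : IsDiscreteValuationRing (OK A K)) (hA : A.LiesOverPrime q)
    {π : OK A K} (hπ : Irreducible π) (a : A) (hqa : (q : Qb) = incO A K π * (a : Qb))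
    (hξ : IsPrimitiveRoot ξ q)
    (hEj : E (jK (M * q * q) K) = jqModC Qb)
    (hEjq : E (WQ2.jqK2 M q hq hqM K) = qExpand Qb q (jqModC Qb))
    (hEjqq : E (WQ2.jqqK2 M q hq hqM K) = S24.rotHom ξ hξ0 (jqModC Qb))
    (hEc : ∀ c : OK A K, E (algebraMap (OK A K) (FK (M * q * q) K) c)
      = (C (incO A K c) : LaurentSeries Qb))
    (hW3 : ∀ x : FK (M * q * q) K, x ∈ W3 ↔ ∃ y, GRel A (E x) y) :
    Wit3.x1 M q hq hqM K * (algebraMap (OK A K) (FK (M * q * q) K) π)⁻¹ ∈ W3 := by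
  obtain ⟨z, hz, hxz⟩ :=
    x1_pi3 M q hq hqM A K E hξ0 W3 hdvr hA hπ a hqa hξ hEj hEjq hEjqq hEc hW3
  have hπF : algebraMap (OK A K) (FK (M * q * q) K) π ≠ 0 :=
    GaussV.algebraMap_ne_zero (M * q * q) A K hπ.ne_zero
  have e : Wit3.x1 M q hq hqM K * (algebraMap (OK A K) (FK (M * q * q) K) π)⁻¹ = z := by
    rw [hxz]
    exact (mul_right_comm _ z _).trans (by rw [mul_inv_cancel₀ hπF, one_mul])
  exact e ▸ hz

end Fermat.Agent.S36.Wit3W3Add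

end
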